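import Mathlib
import Fermat.Prelude.Def_DualSelmer_ExtConditions

/-!
# S55 (Poitou-Tate): shared definitions for the abstract duality layer (module A)

Abstract setting: a group `G` with a directed family of normal subgroups (`Levels`), finitely many
local groups `r v : Gv v →* G` with their own levels, level-constant inhomogeneous cochains in
degrees `≤ 3`, the cone complex computing compactly supported cohomology `H_c^n`, cup products
and the pairing `C^i(A) × C_c^j(B) → C_c^{i+j}(C)`.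

Conventions: cochains are functions on `G`, `G × G`, `G × G × G` as in Mathlib's
`groupCohomology` low-degree API (`d₀₁`, `d₁₂`, `d₂₃`); all formulas are written with `Rep.ρ`.
-/

set_option autoImplicit false

universe u

open groupCohomology

noncomputable section

namespace Fermat.Agent.S55

/-! ## Levels -/

/-- A level structure: a nonempty family of normal subgroups, directed downwards. -/
structure Levels (G : Type u) [Group G] where
  /-- the set of level subgroups -/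
  mem : Set (Subgroup G)
  normal : ∀ N ∈ mem, N.Normal
  nonempty : mem.Nonempty
  directed : ∀ N₁ ∈ mem, ∀ N₂ ∈ mem, ∃ N ∈ mem, N ≤ N₁ ⊓ N₂

section LevelConstant

variable {G : Type u} [Group G] (𝒩 : Levels G) {X : Type*}

/-- `f : G → X` is constant on right cosets of some level. -/
def IsLev₁ (f : G → X) : Prop :=
  ∃ N ∈ 𝒩.mem, ∀ g : G, ∀ s ∈ N, f (g * s) = f g

/-- `f : G × G → X` is constant on right cosets of some level in both variables. -/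
def IsLev₂ (f : G × G → X) : Prop :=
  ∃ N ∈ 𝒩.mem, ∀ g₁ g₂ : G, ∀ s₁ ∈ N, ∀ s₂ ∈ N, f (g₁ * s₁, g₂ * s₂) = f (g₁, g₂)

/-- `f : G × G × G → X` is constant on right cosets of some level in all three variables. -/
def IsLev₃ (f : G × G × G → X) : Prop :=
  ∃ N ∈ 𝒩.mem, ∀ g₁ g₂ g₃ : G, ∀ s₁ ∈ N, ∀ s₂ ∈ N, ∀ s₃ ∈ N,
    f (g₁ * s₁, g₂ * s₂, g₃ * s₃) = f (g₁, g₂, g₃)

end LevelConstant

section Cochains

variable {k G : Type u} [CommRing k] [Group G] (𝒩 : Levels G) (A : Rep.{u} k G)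

/-- `A` is trivial on some level (a "smooth" module of finite type). -/
def IsSmooth : Prop := ∃ N ∈ 𝒩.mem, ∀ s ∈ N, ∀ a : A, A.ρ s a = a

/-- The fourth differential of the inhomogeneous cochain complex (not in Mathlib's low-degree API).
`(d₃₄ f)(g₁,g₂,g₃,g₄) = g₁ f(g₂,g₃,g₄) - f(g₁g₂,g₃,g₄) + f(g₁,g₂g₃,g₄) - f(g₁,g₂,g₃g₄) + f(g₁,g₂,g₃)`. -/
def d₃₄ : (G × G × G → A) →ₗ[k] (G × G × G × G → A) where
  toFun f := fun x =>
    A.ρ x.1 (f (x.2.1, x.2.2.1, x.2.2.2)) - f (x.1 * x.2.1, x.2.2.1, x.2.2.2)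
      + f (x.1, x.2.1 * x.2.2.1, x.2.2.2) - f (x.1, x.2.1, x.2.2.1 * x.2.2.2)
      + f (x.1, x.2.1, x.2.2.1)
  map_add' f f' := by
    ext x
    simp only [Pi.add_apply, map_add]
    abel
  map_smul' c f := by
    ext x
    simp only [Pi.smul_apply, map_smul, RingHom.id_apply, smul_add, smul_sub]

@[simp] lemma d₃₄_apply (f : G × G × G → A) (g₁ g₂ g₃ g₄ : G) :
    d₃₄ A f (g₁, g₂, g₃, g₄) =
      A.ρ g₁ (f (g₂, g₃, g₄)) - f (g₁ * g₂, g₃, g₄) + f (g₁, g₂ * g₃, g₄)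
        - f (g₁, g₂, g₃ * g₄) + f (g₁, g₂, g₃) := rfl

/-- level-constant 1-cochains -/
def C1 : Submodule k (G → A) where
  carrier := {f | IsLev₁ 𝒩 f}
  add_mem' := by
    rintro f f' ⟨N, hN, h⟩ ⟨N', hN', h'⟩
    obtain ⟨N'', hN'', hle⟩ := 𝒩.directed N hN N' hN'
    exact ⟨N'', hN'', fun g s hs => by
      simp only [Pi.add_apply, h g s (hle hs).1, h' g s (hle hs).2]⟩
  zero_mem' := by
    obtain ⟨N, hN⟩ := 𝒩.nonempty
    exact ⟨N, hN, fun _ _ _ => rfl⟩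
  smul_mem' := by
    rintro c f ⟨N, hN, h⟩
    exact ⟨N, hN, fun g s hs => by simp only [Pi.smul_apply, h g s hs]⟩

/-- level-constant 2-cochains -/
def C2 : Submodule k (G × G → A) where
  carrier := {f | IsLev₂ 𝒩 f}
  add_mem' := by
    rintro f f' ⟨N, hN, h⟩ ⟨N', hN', h'⟩
    obtain ⟨N'', hN'', hle⟩ := 𝒩.directed N hN N' hN'
    exact ⟨N'', hN'', fun g₁ g₂ s₁ hs₁ s₂ hs₂ => by
      simp only [Pi.add_apply, h g₁ g₂ s₁ (hle hs₁).1 s₂ (hle hs₂).1,
        h' g₁ g₂ s₁ (hle hs₁).2 s₂ (hle hs₂).2]⟩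
  zero_mem' := by
    obtain ⟨N, hN⟩ := 𝒩.nonempty
    exact ⟨N, hN, fun _ _ _ _ _ _ => rfl⟩
  smul_mem' := by
    rintro c f ⟨N, hN, h⟩
    exact ⟨N, hN, fun g₁ g₂ s₁ hs₁ s₂ hs₂ => by simp only [Pi.smul_apply, h g₁ g₂ s₁ hs₁ s₂ hs₂]⟩

/-- level-constant 3-cochains -/
def C3 : Submodule k (G × G × G → A) where
  carrier := {f | IsLev₃ 𝒩 f}
  add_mem' := by
    rintro f f' ⟨N, hN, h⟩ ⟨N', hN', h'⟩
    obtain ⟨N'', hN'', hle⟩ := 𝒩.directed N hN N' hN'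
    exact ⟨N'', hN'', fun g₁ g₂ g₃ s₁ hs₁ s₂ hs₂ s₃ hs₃ => by
      simp only [Pi.add_apply, h g₁ g₂ g₃ s₁ (hle hs₁).1 s₂ (hle hs₂).1 s₃ (hle hs₃).1,
        h' g₁ g₂ g₃ s₁ (hle hs₁).2 s₂ (hle hs₂).2 s₃ (hle hs₃).2]⟩
  zero_mem' := by
    obtain ⟨N, hN⟩ := 𝒩.nonempty
    exact ⟨N, hN, fun _ _ _ _ _ _ _ _ _ => rfl⟩
  smul_mem' := by
    rintro c f ⟨N, hN, h⟩
    exact ⟨N, hN, fun g₁ g₂ g₃ s₁ hs₁ s₂ hs₂ s₃ hs₃ => by
      simp only [Pi.smul_apply, h g₁ g₂ g₃ s₁ hs₁ s₂ hs₂ s₃ hs₃]⟩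

@[simp] lemma mem_C1 (f : G → A) : f ∈ C1 𝒩 A ↔ IsLev₁ 𝒩 f := Iff.rfl
@[simp] lemma mem_C2 (f : G × G → A) : f ∈ C2 𝒩 A ↔ IsLev₂ 𝒩 f := Iff.rfl
@[simp] lemma mem_C3 (f : G × G × G → A) : f ∈ C3 𝒩 A ↔ IsLev₃ 𝒩 f := Iff.rfl

/-- level 1-cocycles -/
def Z1 : Submodule k (G → A) := C1 𝒩 A ⊓ LinearMap.ker (d₁₂ A).hom
/-- level 2-cocycles -/
def Z2 : Submodule k (G × G → A) := C2 𝒩 A ⊓ LinearMap.ker (d₂₃ A).hom
/-- level 3-cocycles -/
def Z3 : Submodule k (G × G × G → A) := C3 𝒩 A ⊓ LinearMap.ker (d₃₄ A)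
/-- 1-coboundaries -/
def B1 : Submodule k (G → A) := LinearMap.range (d₀₁ A).hom
/-- level 2-coboundaries: `d` of level 1-cochains -/
def B2 : Submodule k (G × G → A) := (C1 𝒩 A).map (d₁₂ A).hom
/-- level 3-coboundaries: `d` of level 2-cochains -/
def B3 : Submodule k (G × G × G → A) := (C2 𝒩 A).map (d₂₃ A).hom

/-- `H^0` = invariants. -/
abbrev H0 : Submodule k A := A.ρ.invariants
/-- level-constant `H^1`. -/
abbrev H1 : Type u := ↥(Z1 𝒩 A) ⧸ (B1 A).comap (Z1 𝒩 A).subtype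
/-- level-constant `H^2`. -/
abbrev H2 : Type u := ↥(Z2 𝒩 A) ⧸ (B2 𝒩 A).comap (Z2 𝒩 A).subtype
/-- level-constant `H^3`. -/
abbrev H3 : Type u := ↥(Z3 𝒩 A) ⧸ (B3 𝒩 A).comap (Z3 𝒩 A).subtype

end Cochains

/-! ## Local data and the cone -/

/-- A finite family of local groups mapping to `G`, each with its own level structure, such that
restriction of level-constant cochains is level-constant. -/
structure LocalData (G : Type u) [Group G] (𝒩 : Levels G) (ι : Type) where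
  /-- the local groups -/
  Gv : ι → Type u
  grp : ∀ v, Group (Gv v)
  /-- the localisation maps -/
  r : ∀ v, Gv v →* G
  /-- local levels -/
  lev : ∀ v, Levels (Gv v)
  compat : ∀ v, ∀ N ∈ 𝒩.mem, ∃ N' ∈ (lev v).mem, N' ≤ N.comap (r v)

attribute [instance] LocalData.grp

section Cone

variable {k G : Type u} [CommRing k] [Group G] {𝒩 : Levels G} {ι : Type}
  (L : LocalData G 𝒩 ι) (A : Rep.{u} k G)

/-- the local module at `v` -/
abbrev LocalData.loc (v : ι) : Rep.{u} k (L.Gv v) := Rep.res (L.r v) A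

/-- restriction of 1-cochains -/
def res₁ (v : ι) : (G → A) →ₗ[k] (L.Gv v → L.loc A v) where
  toFun f := fun x => f (L.r v x)
  map_add' _ _ := rfl
  map_smul' _ _ := rfl

/-- restriction of 2-cochains -/
def res₂ (v : ι) : (G × G → A) →ₗ[k] (L.Gv v × L.Gv v → L.loc A v) where
  toFun f := fun x => f (L.r v x.1, L.r v x.2)
  map_add' _ _ := rfl
  map_smul' _ _ := rfl

/-- restriction of 3-cochains -/
def res₃ (v : ι) : (G × G × G → A) →ₗ[k] (L.Gv v × L.Gv v × L.Gv v → L.loc A v) where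
  toFun f := fun x => f (L.r v x.1, L.r v x.2.1, L.r v x.2.2)
  map_add' _ _ := rfl
  map_smul' _ _ := rfl

@[simp] lemma res₁_apply (v : ι) (f : G → A) (x : L.Gv v) : res₁ L A v f x = f (L.r v x) := rfl
@[simp] lemma res₂_apply (v : ι) (f : G × G → A) (x y : L.Gv v) :
    res₂ L A v f (x, y) = f (L.r v x, L.r v y) := rfl
@[simp] lemma res₃_apply (v : ι) (f : G × G × G → A) (x y z : L.Gv v) :
    res₃ L A v f (x, y, z) = f (L.r v x, L.r v y, L.r v z) := rfl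

/-- ambient space of cone 1-cochains: `C^1 × ∏_v C_v^0` -/
abbrev CcAmb1 : Type u := (G → A) × (∀ v : ι, L.loc A v)
/-- ambient space of cone 2-cochains: `C^2 × ∏_v C_v^1` -/
abbrev CcAmb2 : Type u := (G × G → A) × (∀ v : ι, L.Gv v → L.loc A v)
/-- ambient space of cone 3-cochains: `C^3 × ∏_v C_v^2` -/
abbrev CcAmb3 : Type u := (G × G × G → A) × (∀ v : ι, L.Gv v × L.Gv v → L.loc A v)
/-- ambient space of cone 4-cochains: `C^4 × ∏_v C_v^3` -/
abbrev CcAmb4 : Type u :=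
  (G × G × G × G → A) × (∀ v : ι, L.Gv v × L.Gv v × L.Gv v → L.loc A v)

/-- cone differential `C_c^0 = A → C_c^1`, `a ↦ (d a, (a)_v)` -/
def dc₀₁ : A →ₗ[k] CcAmb1 L A where
  toFun a := ((d₀₁ A).hom a, fun _ => a)
  map_add' a b := Prod.ext (map_add _ a b) rfl
  map_smul' c a := Prod.ext (map_smul _ c a) rfl

/-- cone differential `C_c^1 → C_c^2`, `(a, b) ↦ (d a, (res_v a - d b_v)_v)` -/
def dc₁₂ : CcAmb1 L A →ₗ[k] CcAmb2 L A where
  toFun x := ((d₁₂ A).hom x.1, fun v => res₁ L A v x.1 - (d₀₁ (L.loc A v)).hom (x.2 v))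
  map_add' x y := by
    refine Prod.ext (by simp) ?_
    funext v
    simp only [Prod.snd_add, Prod.fst_add, Pi.add_apply, map_add]
    abel
  map_smul' c x := by
    refine Prod.ext (by simp) ?_
    funext v
    simp only [Prod.smul_snd, Prod.smul_fst, Pi.smul_apply, map_smul, RingHom.id_apply, smul_sub]

/-- cone differential `C_c^2 → C_c^3` -/
def dc₂₃ : CcAmb2 L A →ₗ[k] CcAmb3 L A where
  toFun x := ((d₂₃ A).hom x.1, fun v => res₂ L A v x.1 - (d₁₂ (L.loc A v)).hom (x.2 v))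
  map_add' x y := by
    refine Prod.ext (by simp) ?_
    funext v
    simp only [Prod.snd_add, Prod.fst_add, Pi.add_apply, map_add]
    abel
  map_smul' c x := by
    refine Prod.ext (by simp) ?_
    funext v
    simp only [Prod.smul_snd, Prod.smul_fst, Pi.smul_apply, map_smul, RingHom.id_apply, smul_sub]

/-- cone differential `C_c^3 → C_c^4` -/
def dc₃₄ : CcAmb3 L A →ₗ[k] CcAmb4 L A where
  toFun x := (d₃₄ A x.1, fun v => res₃ L A v x.1 - (d₂₃ (L.loc A v)).hom (x.2 v))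
  map_add' x y := by
    refine Prod.ext (by simp) ?_
    funext v
    simp only [Prod.snd_add, Prod.fst_add, Pi.add_apply, map_add]
    abel
  map_smul' c x := by
    refine Prod.ext (by simp) ?_
    funext v
    simp only [Prod.smul_snd, Prod.smul_fst, Pi.smul_apply, map_smul, RingHom.id_apply, smul_sub]

/-- level-constant cone 1-cochains -/
def Cc1 : Submodule k (CcAmb1 L A) := (C1 𝒩 A).prod ⊤
/-- level-constant cone 2-cochains -/
def Cc2 : Submodule k (CcAmb2 L A) :=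
  (C2 𝒩 A).prod (Submodule.pi Set.univ fun v => C1 (L.lev v) (L.loc A v))
/-- level-constant cone 3-cochains -/
def Cc3 : Submodule k (CcAmb3 L A) :=
  (C3 𝒩 A).prod (Submodule.pi Set.univ fun v => C2 (L.lev v) (L.loc A v))

/-- cone cocycles and coboundaries -/
def Zc1 : Submodule k (CcAmb1 L A) := Cc1 L A ⊓ LinearMap.ker (dc₁₂ L A)
def Zc2 : Submodule k (CcAmb2 L A) := Cc2 L A ⊓ LinearMap.ker (dc₂₃ L A)
def Zc3 : Submodule k (CcAmb3 L A) := Cc3 L A ⊓ LinearMap.ker (dc₃₄ L A)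
def Bc1 : Submodule k (CcAmb1 L A) := LinearMap.range (dc₀₁ L A)
def Bc2 : Submodule k (CcAmb2 L A) := (Cc1 L A).map (dc₁₂ L A)
def Bc3 : Submodule k (CcAmb3 L A) := (Cc2 L A).map (dc₂₃ L A)

/-- compactly supported cohomology -/
abbrev Hc1 : Type u := ↥(Zc1 L A) ⧸ (Bc1 L A).comap (Zc1 L A).subtype
abbrev Hc2 : Type u := ↥(Zc2 L A) ⧸ (Bc2 L A).comap (Zc2 L A).subtype
abbrev Hc3 : Type u := ↥(Zc3 L A) ⧸ (Bc3 L A).comap (Zc3 L A).subtype

/-- 1-cochains whose restriction to every local group is a coboundary. -/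
def LocTriv1 : Submodule k (G → A) :=
  ⨅ v : ι, (B1 (L.loc A v)).comap (res₁ L A v)

/-- 2-cochains whose restriction to every local group is a level coboundary. -/
def LocTriv2 : Submodule k (G × G → A) :=
  ⨅ v : ι, (B2 (L.lev v) (L.loc A v)).comap (res₂ L A v)

/-- `Sha^1`: classes in `H^1` represented by locally trivial cocycles. -/
def Sha1 : Submodule k (H1 𝒩 A) :=
  ((LocTriv1 L A).comap (Z1 𝒩 A).subtype).map (Submodule.mkQ _)

/-- `Sha^2`: classes in `H^2` represented by locally trivial cocycles. -/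
def Sha2 : Submodule k (H2 𝒩 A) :=
  ((LocTriv2 L A).comap (Z2 𝒩 A).subtype).map (Submodule.mkQ _)

end Cone

/-! ## Equivariant pairings and cup products -/

section Cup

variable {k G : Type u} [Field k] [Group G]

/-- A `G`-equivariant bilinear pairing `A × B → C`. -/
structure EqPairing (A B C : Rep.{u} k G) where
  /-- the bilinear map -/
  φ : A →ₗ[k] B →ₗ[k] C
  equivariant : ∀ (g : G) (a : A) (b : B), φ (A.ρ g a) (B.ρ g b) = C.ρ g (φ a b)

/-- The evaluation pairing `A × A^*(χ) → k(χ)`, `(a, f) ↦ f a`. -/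
def evPairing (A : Rep.{u} k G) (χ : G →* kˣ) :
    EqPairing A (A.dualTwist χ) (groupCohomology.ofChar χ) where
  φ := LinearMap.flip (LinearMap.id : Module.Dual k A →ₗ[k] Module.Dual k A)
  equivariant g a f := by
    change ((A.dualTwist χ).ρ g f) (A.ρ g a) = (groupCohomology.ofChar χ).ρ g (f a)
    rw [Rep.dualTwist_ρ_apply]
    change (χ g : k) • f (A.ρ g⁻¹ (A.ρ g a)) = (χ g : k) • f a
    rw [← Module.End.mul_apply, ← map_mul, inv_mul_cancel, map_one, Module.End.one_apply]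

/-- The evaluation pairing in the other order `A^*(χ) × A → k(χ)`, `(f, a) ↦ f a`. -/
def evPairing' (A : Rep.{u} k G) (χ : G →* kˣ) :
    EqPairing (A.dualTwist χ) A (groupCohomology.ofChar χ) where
  φ := (LinearMap.id : Module.Dual k A →ₗ[k] Module.Dual k A)
  equivariant g f a := (evPairing A χ).equivariant g a f

variable {𝒩 : Levels G} {ι : Type} (L : LocalData G 𝒩 ι) {A B C : Rep.{u} k G} (φ : EqPairing A B C)

/-! Cup products `C^i(A) × C_c^j(B) → C_c^{i+j}(C)`: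
`x ∪ (b, (b_v)) = (x ∪ b, ((-1)^i res_v x ∪ b_v))` with
`(x ∪ b)(g₁..g_{i+j}) = φ (x (g₁..g_i)) (g₁⋯g_i • b (g_{i+1}..g_{i+j}))`. -/

/-- `(i,j) = (0,1)` -/
def cupc₀₁ (a : A) (y : CcAmb1 L B) : CcAmb1 L C :=
  (fun g => φ.φ a (y.1 g), fun v => φ.φ a (y.2 v))

/-- `(i,j) = (1,0)`, `C_c^0(B) = B` -/
def cupc₁₀ (x : G → A) (b : B) : CcAmb1 L C :=
  (fun g => φ.φ (x g) (B.ρ g b), fun _ => 0)

/-- `(i,j) = (0,2)` -/
def cupc₀₂ (a : A) (y : CcAmb2 L B) : CcAmb2 L C :=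
  (fun x => φ.φ a (y.1 x), fun v s => φ.φ a (y.2 v s))

/-- `(i,j) = (1,1)` -/
def cupc₁₁ (x : G → A) (y : CcAmb1 L B) : CcAmb2 L C :=
  (fun g => φ.φ (x g.1) (B.ρ g.1 (y.1 g.2)),
   fun v s => - φ.φ (x (L.r v s)) (B.ρ (L.r v s) (y.2 v)))

/-- `(i,j) = (2,0)`, `C_c^0(B) = B` -/
def cupc₂₀ (x : G × G → A) (b : B) : CcAmb2 L C :=
  (fun g => φ.φ (x g) (B.ρ (g.1 * g.2) b), fun _ => 0)

/-- `(i,j) = (0,3)` -/
def cupc₀₃ (a : A) (y : CcAmb3 L B) : CcAmb3 L C :=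
  (fun x => φ.φ a (y.1 x), fun v s => φ.φ a (y.2 v s))

/-- `(i,j) = (1,2)` -/
def cupc₁₂ (x : G → A) (y : CcAmb2 L B) : CcAmb3 L C :=
  (fun g => φ.φ (x g.1) (B.ρ g.1 (y.1 (g.2.1, g.2.2))),
   fun v s => - φ.φ (x (L.r v s.1)) (B.ρ (L.r v s.1) (y.2 v s.2)))

/-- `(i,j) = (2,1)` -/
def cupc₂₁ (x : G × G → A) (y : CcAmb1 L B) : CcAmb3 L C :=
  (fun g => φ.φ (x (g.1, g.2.1)) (B.ρ (g.1 * g.2.1) (y.1 g.2.2)),
   fun v s => φ.φ (x (L.r v s.1, L.r v s.2)) (B.ρ (L.r v s.1 * L.r v s.2) (y.2 v)))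

/-- `(i,j) = (3,0)`, `C_c^0(B) = B` -/
def cupc₃₀ (x : G × G × G → A) (b : B) : CcAmb3 L C :=
  (fun g => φ.φ (x g) (B.ρ (g.1 * g.2.1 * g.2.2) b), fun _ => 0)

/-- THE CLAIM for a pairing `φ : A × B → C` and a trace functional `tr` on cone 3-cochains of `C`:
`β⁰ : H^0(A) → (H_c^3 B)^*` surjective, `β¹ : H^1(A) → (H_c^2 B)^*` bijective,
`β² : H^2(A) → (H_c^1 B)^*` injective, where `βⁱ x y = tr (x ∪ y)`.
(Functionals on `H_c^n = Z_c^n / B_c^n` are represented by functionals on the ambient space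
vanishing on `B_c^n`; over a field this is the same.) -/
structure Claim (tr : CcAmb3 L C →ₗ[k] k) : Prop where
  surj0 : ∀ ψ : CcAmb3 L B →ₗ[k] k, (∀ y ∈ Bc3 L B, ψ y = 0) →
    ∃ a ∈ H0 A, ∀ y ∈ Zc3 L B, ψ y = tr (cupc₀₃ L φ a y)
  inj1 : ∀ x ∈ Z1 𝒩 A, (∀ y ∈ Zc2 L B, tr (cupc₁₂ L φ x y) = 0) → x ∈ B1 A
  surj1 : ∀ ψ : CcAmb2 L B →ₗ[k] k, (∀ y ∈ Bc2 L B, ψ y = 0) →
    ∃ x ∈ Z1 𝒩 A, ∀ y ∈ Zc2 L B, ψ y = tr (cupc₁₂ L φ x y)
  inj2 : ∀ x ∈ Z2 𝒩 A, (∀ y ∈ Zc1 L B, tr (cupc₂₁ L φ x y) = 0) → x ∈ B2 𝒩 A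

/-- The permutation module `k[G/U]`. -/
abbrev permRep (k : Type u) [CommRing k] {G : Type u} [Group G] (U : Subgroup G) : Rep.{u} k G :=
  Rep.ofMulAction k G (G ⧸ U)

/-- INTERFACE between module A and the arithmetic (modules SH, B, C):
the CLAIM holds for all permutation modules `k[G/U]`, `U` open with `χ|U = 1`. -/
def BaseHyp (χ : G →* kˣ) (tr : CcAmb3 L (groupCohomology.ofChar χ) →ₗ[k] k) : Prop :=
  ∀ U : Subgroup G, (∃ N ∈ 𝒩.mem, N ≤ U) → (∀ g ∈ U, χ g = 1) →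
    Claim L (evPairing (permRep k U) χ) tr

/-- non-degeneracy of a bilinear map on both sides -/
def IsNondeg {V W : Type*} [AddCommGroup V] [Module k V] [AddCommGroup W] [Module k W]
    (B : V →ₗ[k] W →ₗ[k] k) : Prop :=
  (∀ y, (∀ x, B y x = 0) → y = 0) ∧ (∀ x, (∀ y, B y x = 0) → x = 0)

/-- MAIN THEOREM OF MODULE A (statement): from `BaseHyp` to Sha-duality for every finite
dimensional smooth module. Hypotheses: `k` has characteristic `p`, all levels have finite index,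
`χ` is trivial on some level, `tr` kills cone coboundaries. -/
def MainA (p : ℕ) (χ : G →* kˣ) : Prop :=
  p.Prime → CharP k p → (∀ N ∈ 𝒩.mem, Finite (G ⧸ N)) → (∃ N ∈ 𝒩.mem, ∀ g ∈ N, χ g = 1) →
  ∀ tr : CcAmb3 L (groupCohomology.ofChar χ) →ₗ[k] k,
    (∀ c ∈ Bc3 L (groupCohomology.ofChar χ), tr c = 0) → BaseHyp L χ tr →
    ∀ M : Rep.{u} k G, Module.Finite k M → IsSmooth 𝒩 M →
      ∃ B : Sha1 L (M.dualTwist χ) →ₗ[k] Sha2 L M →ₗ[k] k, IsNondeg B

end Cup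

end Fermat.Agent.S55
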