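import Mathlib
import Fermat.Agent.S55.Defs

/-!
# S55 / SH (helper35): the datum of an open subgroup

Interface definitions of module SH (Shapiro): for a level structure `𝒩` on `G`, local data `L`
and an open subgroup `U ≤ G`

* `restrictLevels 𝒩 U hU : Levels U` : the levels of `G` contained in `U`;
* `ShData L U` : a choice, for every local index `v`, of representatives `y v j` (`j : J v`)
  of the double cosets `r_v(G_v) \ G / U`;
* `ShData.Uw D v j : Subgroup (L.Gv v)` : the local group `{h | (y v j)⁻¹ * r_v h * y v j ∈ U}`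
  (the stabiliser of the coset `y v j • U`), with `ShData.rw D v j : Uw →* U`,
  `h ↦ (y v j)⁻¹ * r_v h * y v j`;
* `ShData.localData D hU : LocalData U (restrictLevels 𝒩 U hU) (Σ v, D.J v)`;
* `trivRep k U`, `mulPairing k U` : trivial coefficients and the multiplication pairing.
-/

set_option autoImplicit false

open groupCohomology

noncomputable section

namespace Fermat.Agent.S55.helper35

open Fermat.Agent.S55

variable {G : Type} [Group G]

/-- The levels of `G` contained in the open subgroup `U`, as a level structure on `U`. -/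
def restrictLevels (𝒩 : Levels G) (U : Subgroup G) (hU : ∃ N ∈ 𝒩.mem, N ≤ U) : Levels ↥U where
  mem := {N' | ∃ N ∈ 𝒩.mem, N ≤ U ∧ N' = N.subgroupOf U}
  normal := by
    rintro N' ⟨N, hN, -, rfl⟩
    have := 𝒩.normal N hN
    infer_instance
  nonempty := by
    obtain ⟨N, hN, hNU⟩ := hU
    exact ⟨N.subgroupOf U, N, hN, hNU, rfl⟩
  directed := by
    rintro N₁' ⟨N₁, hN₁, hN₁U, rfl⟩ N₂' ⟨N₂, hN₂, -, rfl⟩
    obtain ⟨N, hN, hle⟩ := 𝒩.directed N₁ hN₁ N₂ hN₂
    refine ⟨N.subgroupOf U, ⟨N, hN, (hle.trans inf_le_left).trans hN₁U, rfl⟩, ?_⟩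
    intro x hx
    exact ⟨(hle hx).1, (hle hx).2⟩

lemma mem_restrictLevels {𝒩 : Levels G} {U : Subgroup G} {hU : ∃ N ∈ 𝒩.mem, N ≤ U}
    {N' : Subgroup ↥U} :
    N' ∈ (restrictLevels 𝒩 U hU).mem ↔ ∃ N ∈ 𝒩.mem, N ≤ U ∧ N' = N.subgroupOf U := Iff.rfl

/-- The levels of a group `Γ` restricted to a subgroup `H` (no containment required). -/
def inducedLevels {Γ : Type} [Group Γ] (𝒩 : Levels Γ) (H : Subgroup Γ) : Levels ↥H where
  mem := {N' | ∃ N ∈ 𝒩.mem, N' = N.subgroupOf H}
  normal := by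
    rintro N' ⟨N, hN, rfl⟩
    have := 𝒩.normal N hN
    infer_instance
  nonempty := by
    obtain ⟨N, hN⟩ := 𝒩.nonempty
    exact ⟨N.subgroupOf H, N, hN, rfl⟩
  directed := by
    rintro N₁' ⟨N₁, hN₁, rfl⟩ N₂' ⟨N₂, hN₂, rfl⟩
    obtain ⟨N, hN, hle⟩ := 𝒩.directed N₁ hN₁ N₂ hN₂
    refine ⟨N.subgroupOf H, ⟨N, hN, rfl⟩, ?_⟩
    intro x hx
    exact ⟨(hle hx).1, (hle hx).2⟩

/-- Double coset representatives: for every local index `v` a family `y v j`, `j : J v`, of
representatives of `r_v(G_v) \ G / U`. -/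
structure ShData {𝒩 : Levels G} {ι : Type} (L : LocalData G 𝒩 ι) (U : Subgroup G) where
  /-- index set of the double cosets at `v` (= "places of the fixed field of `U` above `v`") -/
  J : ι → Type
  /-- finiteness -/
  fin : ∀ v, Fintype (J v)
  /-- the representatives -/
  y : ∀ v, J v → G
  /-- every element of `G` lies in some double coset `r_v(G_v) * y v j * U` -/
  cover : ∀ (v : ι) (g : G), ∃ j : J v, ∃ h : L.Gv v, ∃ u ∈ U, g = L.r v h * y v j * u
  /-- the double cosets are pairwise distinct -/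
  disjoint : ∀ (v : ι) (j j' : J v),
    (∃ h : L.Gv v, ∃ u ∈ U, y v j' = L.r v h * y v j * u) → j = j'

attribute [instance] ShData.fin

namespace ShData

variable {𝒩 : Levels G} {ι : Type} {L : LocalData G 𝒩 ι} {U : Subgroup G} (D : ShData L U)

/-- The homomorphism `h ↦ (y v j)⁻¹ * r_v h * y v j`. -/
def conjHom (v : ι) (j : D.J v) : L.Gv v →* G :=
  (MulAut.conj (D.y v j)⁻¹).toMonoidHom.comp (L.r v)

@[simp] lemma conjHom_apply (v : ι) (j : D.J v) (h : L.Gv v) :
    D.conjHom v j h = (D.y v j)⁻¹ * L.r v h * D.y v j := by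
  simp [conjHom]

/-- The local group at `(v, j)`: the stabiliser of the coset `y v j • U` in `G_v`. -/
def Uw (v : ι) (j : D.J v) : Subgroup (L.Gv v) := U.comap (D.conjHom v j)

lemma mem_Uw {v : ι} {j : D.J v} {h : L.Gv v} :
    h ∈ D.Uw v j ↔ (D.y v j)⁻¹ * L.r v h * D.y v j ∈ U := by
  rw [Uw, Subgroup.mem_comap, conjHom_apply]

/-- The localisation map `U_w →* U`, `h ↦ (y v j)⁻¹ * r_v h * y v j`. -/
def rw (v : ι) (j : D.J v) : ↥(D.Uw v j) →* ↥U :=
  (D.conjHom v j).subgroupComap U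

@[simp] lemma coe_rw (v : ι) (j : D.J v) (h : ↥(D.Uw v j)) :
    ((D.rw v j h : ↥U) : G) = (D.y v j)⁻¹ * L.r v (h : L.Gv v) * D.y v j := by
  rw [← conjHom_apply]
  rfl

/-- The local data of the open subgroup `U`: index set `Σ v, J v`, local groups `U_w`. -/
def localData (hU : ∃ N ∈ 𝒩.mem, N ≤ U) :
    LocalData ↥U (restrictLevels 𝒩 U hU) (Σ v, D.J v) where
  Gv w := ↥(D.Uw w.1 w.2)
  grp w := inferInstance
  r w := D.rw w.1 w.2
  lev w := inducedLevels (L.lev w.1) (D.Uw w.1 w.2)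
  compat := by
    rintro ⟨v, j⟩ N' ⟨N, hN, hNU, rfl⟩
    obtain ⟨M, hM, hMN⟩ := L.compat v N hN
    refine ⟨M.subgroupOf (D.Uw v j), ⟨M, hM, rfl⟩, ?_⟩
    intro h hh
    have h1 : L.r v (h : L.Gv v) ∈ N := hMN hh
    have hn := 𝒩.normal N hN
    rw [Subgroup.mem_comap, Subgroup.mem_subgroupOf, coe_rw]
    have := hn.conj_mem _ h1 (D.y v j)⁻¹
    simpa using this

end ShData

/-- Trivial coefficients `k` for the group `U`. -/
abbrev trivRep (k : Type) [Field k] (U : Type) [Group U] : Rep.{0} k U := Rep.trivial k U k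

/-- The multiplication pairing `k × k → k` of trivial representations. -/
def mulPairing (k : Type) [Field k] (U : Type) [Group U] :
    EqPairing (trivRep k U) (trivRep k U) (trivRep k U) where
  φ := LinearMap.mul k k
  equivariant _ _ _ := rfl

end Fermat.Agent.S55.helper35
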