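import Fermat.Agent.S55.Defs
import Fermat.Prelude.Def_GroupCohomology_ContinuousUnramified

/-!
# S55 module B (base case): shared definitions

* trivial coefficients `T k G`, the multiplication pairing, cochain-level cup products;
* `BaseInput L`: the arithmetic facts about a `LocalData` with trivial coefficients from which
  the base case of the abstract duality theorem follows (pure cochain language);
* the arithmetic instance: `U = Gal(ℚbar/F)`, S-levels, arithmetic local data `IsArith`.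
-/

set_option autoImplicit false

universe u

open groupCohomology ExtCitation

noncomputable section

namespace Fermat.Agent.S55.helper59

open Fermat.Agent.S55

/-! ## Trivial coefficients -/

section Triv

variable (k : Type u) [Field k] (G : Type u) [Group G]

/-- the trivial one-dimensional module -/
abbrev T : Rep.{u} k G := Rep.trivial k G k

/-- multiplication `k × k → k` as an equivariant pairing of trivial modules -/
def mulPairing : EqPairing (T k G) (T k G) (T k G) where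
  φ := LinearMap.mul k k
  equivariant _ _ _ := rfl

@[simp] lemma mulPairing_apply (a b : k) : (mulPairing k G).φ a b = a * b := rfl

end Triv

section CochainCup

variable {k : Type u} [Field k] {G : Type u}

/-- cup product of two 1-cochains (trivial coefficients): `(x ∪ y)(g,h) = x g * y h` -/
def cup₁₁ (x y : G → k) : G × G → k := fun g => x g.1 * y g.2

/-- cup product of a 1-cochain and a 2-cochain: `(x ∪ z)(g₁,g₂,g₃) = x g₁ * z (g₂,g₃)` -/
def cup₁₂ (x : G → k) (z : G × G → k) : G × G × G → k := fun g => x g.1 * z (g.2.1, g.2.2)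

/-- cup product of a 2-cochain and a 1-cochain: `(z ∪ x)(g₁,g₂,g₃) = z (g₁,g₂) * x g₃` -/
def cup₂₁ (z : G × G → k) (x : G → k) : G × G × G → k := fun g => z (g.1, g.2.1) * x g.2.2

@[simp] lemma cup₁₁_apply (x y : G → k) (g h : G) : cup₁₁ x y (g, h) = x g * y h := rfl
@[simp] lemma cup₁₂_apply (x : G → k) (z : G × G → k) (g₁ g₂ g₃ : G) :
    cup₁₂ x z (g₁, g₂, g₃) = x g₁ * z (g₂, g₃) := rfl
@[simp] lemma cup₂₁_apply (z : G × G → k) (x : G → k) (g₁ g₂ g₃ : G) :
    cup₂₁ z x (g₁, g₂, g₃) = z (g₁, g₂) * x g₃ := rfl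

end CochainCup

/-! ## The arithmetic input, in cochain language -/

section Input

variable {k : Type u} [Field k] {G : Type u} [Group G] {𝒩 : Levels G} {ι : Type} [Fintype ι]

/-- THE INTERFACE between the abstract base case and class field theory.
All cochains have values in the trivial module `k`; `Z1/Z2/Z3/B2/B3/C2` are those of `Defs`.
Local 1- and 2-cochains at `w` are functions on `L.Gv w`, level-constant for `L.lev w`. -/
structure BaseInput (L : LocalData G 𝒩 ι) where
  /-- local invariant, a linear functional on local 2-cochains (only its values on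
  level 2-cocycles matter) -/
  inv : ∀ w : ι, (L.Gv w × L.Gv w → k) →ₗ[k] k
  /-- (I1) `inv_w : H^2(U_w, k) → k` is injective ... -/
  inv_eq_zero_iff : ∀ w, ∀ c ∈ Z2 (L.lev w) (T k (L.Gv w)),
    inv w c = 0 ↔ c ∈ B2 (L.lev w) (T k (L.Gv w))
  /-- ... and nonzero (hence an isomorphism) -/
  inv_ne_zero : ∀ w, ∃ c ∈ Z2 (L.lev w) (T k (L.Gv w)), inv w c ≠ 0
  /-- (I2) local duality: the pairing `H^1(U_w,k) × H^1(U_w,k) → k`, `(x,y) ↦ inv_w (x ∪ y)`
  has trivial left kernel -/
  loc_nondeg : ∀ w, ∀ x ∈ Z1 (L.lev w) (T k (L.Gv w)),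
    (∀ y ∈ Z1 (L.lev w) (T k (L.Gv w)), inv w (cup₁₁ x y) = 0) → x = 0
  /-- local `H^1` is finite-dimensional -/
  loc_fin : ∀ w, Module.Finite k ↥(Z1 (L.lev w) (T k (L.Gv w)))
  /-- global `H^1` is finite-dimensional -/
  glob_fin : Module.Finite k ↥(Z1 𝒩 (T k G))
  /-- (I3) reciprocity: the sum of the local invariants of a global class vanishes -/
  reciprocity : ∀ z ∈ Z2 𝒩 (T k G), ∑ w, inv w (fun s => z (L.r w s.1, L.r w s.2)) = 0
  /-- (I4) every family of local classes with vanishing sum of invariants is global -/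
  exists_global₂ : ∀ c : ∀ w, L.Gv w × L.Gv w → k, (∀ w, c w ∈ Z2 (L.lev w) (T k (L.Gv w))) →
    ∑ w, inv w (c w) = 0 →
    ∃ z ∈ Z2 𝒩 (T k G), ∀ w, (c w - fun s => z (L.r w s.1, L.r w s.2)) ∈
      B2 (L.lev w) (T k (L.Gv w))
  /-- (I5) `H^3(U,k) = 0` -/
  h3 : Z3 𝒩 (T k G) ≤ B3 𝒩 (T k G)
  /-- (I6) middle exactness (maximal isotropy): a family of local classes orthogonal to all
  global classes is global -/
  exists_global₁ : ∀ x : ∀ w, L.Gv w → k, (∀ w, x w ∈ Z1 (L.lev w) (T k (L.Gv w))) →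
    (∀ y ∈ Z1 𝒩 (T k G), ∑ w, inv w (cup₁₁ (x w) (fun s => y (L.r w s))) = 0) →
    ∃ y ∈ Z1 𝒩 (T k G), ∀ w, (fun s => y (L.r w s)) = x w
  /-- (I7a) the Sha-pairing `⟨x,z⟩ = ∑_w inv_w (res_w α)`, `dα = x ∪ z`, has trivial left
  kernel on `Sha^1` -/
  sha_left : ∀ x ∈ Z1 𝒩 (T k G), (∀ w, ∀ s : L.Gv w, x (L.r w s) = 0) → x ≠ 0 →
    ∃ z ∈ Z2 𝒩 (T k G), (∀ w, (fun s : L.Gv w × L.Gv w => z (L.r w s.1, L.r w s.2)) ∈
        B2 (L.lev w) (T k (L.Gv w))) ∧
      ∃ α ∈ C2 𝒩 (T k G), (d₂₃ (T k G)).hom α = cup₁₂ x z ∧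
        ∑ w, inv w (fun s => α (L.r w s.1, L.r w s.2)) ≠ 0
  /-- (I7b) ... and trivial right kernel on `Sha^2` -/
  sha_right : ∀ z ∈ Z2 𝒩 (T k G), (∀ w, (fun s : L.Gv w × L.Gv w => z (L.r w s.1, L.r w s.2)) ∈
        B2 (L.lev w) (T k (L.Gv w))) → z ∉ B2 𝒩 (T k G) →
    ∃ x ∈ Z1 𝒩 (T k G), (∀ w, ∀ s : L.Gv w, x (L.r w s) = 0) ∧
      ∃ α ∈ C2 𝒩 (T k G), (d₂₃ (T k G)).hom α = cup₁₂ x z ∧
        ∑ w, inv w (fun s => α (L.r w s.1, L.r w s.2)) ≠ 0

end Input

/-! ## The arithmetic instance -/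

section Arith

/-- the absolute Galois group of `ℚ` -/
abbrev GQ : Type := AlgebraicClosure ℚ ≃ₐ[ℚ] AlgebraicClosure ℚ

variable (S : Finset Nat.Primes) (F : IntermediateField ℚ (AlgebraicClosure ℚ))

/-- `U = Gal(ℚbar / F)` as a type -/
abbrev UF : Type := ↥F.fixingSubgroup

/-- S-levels below `F`: the subgroups `Gal(ℚbar/E) ≤ U`, `E/ℚ` finite GALOIS, unramified outside
`S`, `F ≤ E`. -/
def sLevels : Set (Subgroup (UF F)) :=
  {N | ∃ E : IntermediateField ℚ (AlgebraicClosure ℚ), E.IsUnramifiedOutside S ∧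
    E.fixingSubgroup.Normal ∧ F ≤ E ∧ N = E.fixingSubgroup.subgroupOf F.fixingSubgroup}

/-- all finite levels of `G_ℚ` pulled back to a group `H` mapping to `G_ℚ`
(normal ones only; they are cofinal) -/
def allLevelsPulledBack {H : Type} [Group H] (r : H →* GQ) : Set (Subgroup H) :=
  {N | ∃ E : IntermediateField ℚ (AlgebraicClosure ℚ), FiniteDimensional ℚ E ∧
    E.fixingSubgroup.Normal ∧ N = E.fixingSubgroup.comap r}

/-- A `LocalData` over `U = Gal(ℚbar/F)` is ARITHMETIC (for `S`) if its local groups are, up to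
isomorphism, the groups `U_w = {h ∈ Gal(ℚbar_q/ℚ_q) | g_w r_q(h) g_w⁻¹ ∈ U}` with
`r_w h = g_w r_q(h) g_w⁻¹`, one for each double coset `U g D_q` (`q ∈ S`), with local levels
cofinal with ALL open subgroups. -/
structure IsArith {𝒩 : Levels (UF F)} {ι : Type} (L : LocalData (UF F) 𝒩 ι) where
  /-- the rational prime below `w` -/
  q : ι → Nat.Primes
  q_mem : ∀ w, q w ∈ S
  /-- the conjugating element -/
  g : ι → GQ
  /-- the embedding of the local group into the local Galois group at `q w` -/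
  j : ∀ w, L.Gv w →* primeLocalGaloisGroup (q w)
  j_injective : ∀ w, Function.Injective (j w)
  range_j : ∀ w, ∀ h : primeLocalGaloisGroup (q w),
    h ∈ (j w).range ↔ g w * primeLocalToGlobal (q w) h * (g w)⁻¹ ∈ F.fixingSubgroup
  r_eq : ∀ w, ∀ s : L.Gv w,
    ((L.r w s : UF F) : GQ) = g w * primeLocalToGlobal (q w) (j w s) * (g w)⁻¹
  /-- local levels are cofinal with all pulled-back levels, in both directions -/
  lev_le : ∀ w, ∀ N ∈ (L.lev w).mem,
    ∃ N' ∈ allLevelsPulledBack ((primeLocalToGlobal (q w)).comp (j w)), N' ≤ N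
  le_lev : ∀ w, ∀ N' ∈ allLevelsPulledBack ((primeLocalToGlobal (q w)).comp (j w)),
    ∃ N ∈ (L.lev w).mem, N ≤ N'
  /-- every place of `F` above `S` occurs exactly once -/
  cover : ∀ q' ∈ S, ∀ γ : GQ, ∃! w : ι, q w = q' ∧
    ∃ u ∈ F.fixingSubgroup, ∃ h : primeLocalGaloisGroup (q w),
      γ = u * g w * primeLocalToGlobal (q w) h

/-- `F` contains a primitive `p`-th root of unity. -/
def HasZeta (p : ℕ) (F : IntermediateField ℚ (AlgebraicClosure ℚ)) : Prop :=
  ∃ ζ : AlgebraicClosure ℚ, IsPrimitiveRoot ζ p ∧ ζ ∈ F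

end Arith

end Fermat.Agent.S55.helper59
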