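import Fermat.Agent.S55.Defs

/-!
# S55, module SH: the conjugation homotopy on inhomogeneous cochains (helper69, task 368)

For a group `G`, `A : Rep k G` and `g : G`, conjugation by `g` acts on inhomogeneous cochains,
`(conj_n g f)(x₁,…,xₙ) = ρ(g) (f (g⁻¹x₁g, …, g⁻¹xₙg))`.  It is a chain map, and it is homotopic to
the identity by the explicit homotopy
`(hconj_n g f)(x₁,…,x_{n-1}) = ∑_{i=0}^{n-1} (-1)^i f (x₁,…,x_i, g, g⁻¹x_{i+1}g, …, g⁻¹x_{n-1}g)`: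

* `conj₀_sub`  : `ρ(g) a - a = hconj₁ g (d a)`
* `conj₁_sub`  : `conj₁ g f - f = d (hconj₁ g f) + hconj₂ g (d f)`
* `conj₂_sub`  : `conj₂ g f - f = d (hconj₂ g f) + hconj₃ g (d f)`
* `conj₃_sub`  : `conj₃ g f - f = d (hconj₃ g f) + hconj₄ g (d f)`

All maps preserve level-constancy (levels are normal subgroups).
-/

set_option autoImplicit false

universe u

open groupCohomology

noncomputable section

namespace Fermat.Agent.S55.helper69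

open Fermat.Agent.S55

variable {k G : Type u} [CommRing k] [Group G] (A : Rep.{u} k G) (g : G)

/-! ## Definitions -/

/-- conjugation on 1-cochains -/
def conj₁ : (G → A) →ₗ[k] (G → A) where
  toFun f := fun x => A.ρ g (f (g⁻¹ * x * g))
  map_add' f f' := by ext x; simp
  map_smul' c f := by ext x; simp

/-- conjugation on 2-cochains -/
def conj₂ : (G × G → A) →ₗ[k] (G × G → A) where
  toFun f := fun x => A.ρ g (f (g⁻¹ * x.1 * g, g⁻¹ * x.2 * g))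
  map_add' f f' := by ext x; simp
  map_smul' c f := by ext x; simp

/-- conjugation on 3-cochains -/
def conj₃ : (G × G × G → A) →ₗ[k] (G × G × G → A) where
  toFun f := fun x => A.ρ g (f (g⁻¹ * x.1 * g, g⁻¹ * x.2.1 * g, g⁻¹ * x.2.2 * g))
  map_add' f f' := by ext x; simp
  map_smul' c f := by ext x; simp

/-- the homotopy `C^1 → C^0` -/
def hconj₁ : (G → A) →ₗ[k] A where
  toFun f := f g
  map_add' _ _ := rfl
  map_smul' _ _ := rfl

/-- the homotopy `C^2 → C^1` -/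
def hconj₂ : (G × G → A) →ₗ[k] (G → A) where
  toFun f := fun x => f (g, g⁻¹ * x * g) - f (x, g)
  map_add' f f' := by ext x; simp only [Pi.add_apply]; abel
  map_smul' c f := by ext x; simp only [Pi.smul_apply, RingHom.id_apply, smul_sub]

/-- the homotopy `C^3 → C^2` -/
def hconj₃ : (G × G × G → A) →ₗ[k] (G × G → A) where
  toFun f := fun x => f (g, g⁻¹ * x.1 * g, g⁻¹ * x.2 * g) - f (x.1, g, g⁻¹ * x.2 * g)
    + f (x.1, x.2, g)
  map_add' f f' := by ext x; simp only [Pi.add_apply]; abel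
  map_smul' c f := by ext x; simp only [Pi.smul_apply, RingHom.id_apply, smul_sub, smul_add]

/-- the homotopy `C^4 → C^3` -/
def hconj₄ : (G × G × G × G → A) →ₗ[k] (G × G × G → A) where
  toFun f := fun x => f (g, g⁻¹ * x.1 * g, g⁻¹ * x.2.1 * g, g⁻¹ * x.2.2 * g)
    - f (x.1, g, g⁻¹ * x.2.1 * g, g⁻¹ * x.2.2 * g) + f (x.1, x.2.1, g, g⁻¹ * x.2.2 * g)
    - f (x.1, x.2.1, x.2.2, g)
  map_add' f f' := by ext x; simp only [Pi.add_apply]; abel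
  map_smul' c f := by ext x; simp only [Pi.smul_apply, RingHom.id_apply, smul_sub, smul_add]

@[simp] lemma conj₁_apply (f : G → A) (x : G) :
    conj₁ A g f x = A.ρ g (f (g⁻¹ * x * g)) := rfl
@[simp] lemma conj₂_apply (f : G × G → A) (x y : G) :
    conj₂ A g f (x, y) = A.ρ g (f (g⁻¹ * x * g, g⁻¹ * y * g)) := rfl
@[simp] lemma conj₃_apply (f : G × G × G → A) (x y z : G) :
    conj₃ A g f (x, y, z) = A.ρ g (f (g⁻¹ * x * g, g⁻¹ * y * g, g⁻¹ * z * g)) := rfl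
@[simp] lemma hconj₁_apply (f : G → A) : hconj₁ A g f = f g := rfl
@[simp] lemma hconj₂_apply (f : G × G → A) (x : G) :
    hconj₂ A g f x = f (g, g⁻¹ * x * g) - f (x, g) := rfl
@[simp] lemma hconj₃_apply (f : G × G × G → A) (x y : G) :
    hconj₃ A g f (x, y) = f (g, g⁻¹ * x * g, g⁻¹ * y * g) - f (x, g, g⁻¹ * y * g)
      + f (x, y, g) := rfl
@[simp] lemma hconj₄_apply (f : G × G × G × G → A) (x y z : G) :
    hconj₄ A g f (x, y, z) = f (g, g⁻¹ * x * g, g⁻¹ * y * g, g⁻¹ * z * g)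
      - f (x, g, g⁻¹ * y * g, g⁻¹ * z * g) + f (x, y, g, g⁻¹ * z * g) - f (x, y, z, g) := rfl

/-! ## The homotopy identities -/

/-- degree 0 -/
theorem conj₀_sub (a : A) : A.ρ g a - a = hconj₁ A g ((d₀₁ A).hom a) := rfl

/-- degree 1 -/
theorem conj₁_sub (f : G → A) :
    conj₁ A g f - f = (d₀₁ A).hom (hconj₁ A g f) + hconj₂ A g ((d₁₂ A).hom f) := by
  ext x
  simp only [Pi.sub_apply, Pi.add_apply, conj₁_apply, hconj₁_apply, hconj₂_apply,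
    d₀₁_hom_apply, d₁₂_hom_apply, mul_assoc, mul_inv_cancel_left]
  abel

/-- degree 2 -/
theorem conj₂_sub (f : G × G → A) :
    conj₂ A g f - f = (d₁₂ A).hom (hconj₂ A g f) + hconj₃ A g ((d₂₃ A).hom f) := by
  ext ⟨x, y⟩
  simp only [Pi.sub_apply, Pi.add_apply, conj₂_apply, hconj₂_apply, hconj₃_apply,
    d₁₂_hom_apply, d₂₃_hom_apply, mul_assoc, mul_inv_cancel_left, map_sub]
  abel

/-- degree 3 -/
theorem conj₃_sub (f : G × G × G → A) :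
    conj₃ A g f - f = (d₂₃ A).hom (hconj₃ A g f) + hconj₄ A g (d₃₄ A f) := by
  ext ⟨x, y, z⟩
  simp only [Pi.sub_apply, Pi.add_apply, conj₃_apply, hconj₃_apply, hconj₄_apply,
    d₂₃_hom_apply, d₃₄_apply, mul_assoc, mul_inv_cancel_left, map_sub, map_add]
  abel

/-! ## Conjugation is a chain map -/

lemma ρ_conj_mul (x : G) (a : A) : A.ρ g (A.ρ (g⁻¹ * x * g) a) = A.ρ x (A.ρ g a) := by
  rw [← Module.End.mul_apply, ← map_mul, ← Module.End.mul_apply, ← map_mul]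
  congr 2
  group

theorem d₀₁_conj (a : A) : (d₀₁ A).hom (A.ρ g a) = conj₁ A g ((d₀₁ A).hom a) := by
  ext x
  simp only [conj₁_apply, d₀₁_hom_apply, map_sub, ρ_conj_mul]

theorem d₁₂_conj (f : G → A) :
    (d₁₂ A).hom (conj₁ A g f) = conj₂ A g ((d₁₂ A).hom f) := by
  ext ⟨x, y⟩
  simp only [conj₁_apply, conj₂_apply, d₁₂_hom_apply, map_sub, map_add, ρ_conj_mul]
  have h : g⁻¹ * x * g * (g⁻¹ * y * g) = g⁻¹ * (x * y) * g := by group
  rw [h]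

theorem d₂₃_conj (f : G × G → A) :
    (d₂₃ A).hom (conj₂ A g f) = conj₃ A g ((d₂₃ A).hom f) := by
  ext ⟨x, y, z⟩
  simp only [conj₂_apply, conj₃_apply, d₂₃_hom_apply, map_sub, map_add, ρ_conj_mul]
  have h1 : g⁻¹ * x * g * (g⁻¹ * y * g) = g⁻¹ * (x * y) * g := by group
  have h2 : g⁻¹ * y * g * (g⁻¹ * z * g) = g⁻¹ * (y * z) * g := by group
  rw [h1, h2]

/-! ## Level constancy -/

section Levels

variable (𝒩 : Levels G)

lemma conj_mul_mem {N : Subgroup G} (hN : N.Normal) {s : G} (hs : s ∈ N) (x : G) :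
    ∃ t ∈ N, g⁻¹ * (x * s) * g = g⁻¹ * x * g * t :=
  ⟨g⁻¹ * s * g⁻¹⁻¹, hN.conj_mem s hs g⁻¹, by group⟩

theorem conj₁_mem_C1 {f : G → A} (hf : f ∈ C1 𝒩 A) : conj₁ A g f ∈ C1 𝒩 A := by
  obtain ⟨N, hN, h⟩ := hf
  refine ⟨N, hN, fun x s hs => ?_⟩
  obtain ⟨t, ht, e⟩ := conj_mul_mem g (𝒩.normal N hN) hs x
  simp only [conj₁_apply, e, h _ t ht]

theorem conj₂_mem_C2 {f : G × G → A} (hf : f ∈ C2 𝒩 A) : conj₂ A g f ∈ C2 𝒩 A := by
  obtain ⟨N, hN, h⟩ := hf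
  refine ⟨N, hN, fun x y s hs s' hs' => ?_⟩
  obtain ⟨t, ht, e⟩ := conj_mul_mem g (𝒩.normal N hN) hs x
  obtain ⟨t', ht', e'⟩ := conj_mul_mem g (𝒩.normal N hN) hs' y
  simp only [conj₂_apply, e, e', h _ _ t ht t' ht']

theorem conj₃_mem_C3 {f : G × G × G → A} (hf : f ∈ C3 𝒩 A) : conj₃ A g f ∈ C3 𝒩 A := by
  obtain ⟨N, hN, h⟩ := hf
  refine ⟨N, hN, fun x y z s hs s' hs' s'' hs'' => ?_⟩
  obtain ⟨t, ht, e⟩ := conj_mul_mem g (𝒩.normal N hN) hs x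
  obtain ⟨t', ht', e'⟩ := conj_mul_mem g (𝒩.normal N hN) hs' y
  obtain ⟨t'', ht'', e''⟩ := conj_mul_mem g (𝒩.normal N hN) hs'' z
  simp only [conj₃_apply, e, e', e'', h _ _ _ t ht t' ht' t'' ht'']

theorem hconj₂_mem_C1 {f : G × G → A} (hf : f ∈ C2 𝒩 A) : hconj₂ A g f ∈ C1 𝒩 A := by
  obtain ⟨N, hN, h⟩ := hf
  refine ⟨N, hN, fun x s hs => ?_⟩
  obtain ⟨t, ht, e⟩ := conj_mul_mem g (𝒩.normal N hN) hs x
  have h1 := h g (g⁻¹ * x * g) 1 N.one_mem t ht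
  have h2 := h x g s hs 1 N.one_mem
  simp only [mul_one] at h1 h2
  simp only [hconj₂_apply, e, h1, h2]

theorem hconj₃_mem_C2 {f : G × G × G → A} (hf : f ∈ C3 𝒩 A) : hconj₃ A g f ∈ C2 𝒩 A := by
  obtain ⟨N, hN, h⟩ := hf
  refine ⟨N, hN, fun x y s hs s' hs' => ?_⟩
  obtain ⟨t, ht, e⟩ := conj_mul_mem g (𝒩.normal N hN) hs x
  obtain ⟨t', ht', e'⟩ := conj_mul_mem g (𝒩.normal N hN) hs' y
  have h1 := h g (g⁻¹ * x * g) (g⁻¹ * y * g) 1 N.one_mem t ht t' ht'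
  have h2 := h x g (g⁻¹ * y * g) s hs 1 N.one_mem t' ht'
  have h3 := h x y g s hs s' hs' 1 N.one_mem
  simp only [mul_one] at h1 h2 h3
  simp only [hconj₃_apply, e, e', h1, h2, h3]

theorem hconj₄_isLev₃ {f : G × G × G × G → A}
    (hf : ∃ N ∈ 𝒩.mem, ∀ g₁ g₂ g₃ g₄ : G, ∀ s₁ ∈ N, ∀ s₂ ∈ N, ∀ s₃ ∈ N, ∀ s₄ ∈ N,
      f (g₁ * s₁, g₂ * s₂, g₃ * s₃, g₄ * s₄) = f (g₁, g₂, g₃, g₄)) :
    hconj₄ A g f ∈ C3 𝒩 A := by
  obtain ⟨N, hN, h⟩ := hf
  refine ⟨N, hN, fun x y z s hs s' hs' s'' hs'' => ?_⟩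
  obtain ⟨t, ht, e⟩ := conj_mul_mem g (𝒩.normal N hN) hs x
  obtain ⟨t', ht', e'⟩ := conj_mul_mem g (𝒩.normal N hN) hs' y
  obtain ⟨t'', ht'', e''⟩ := conj_mul_mem g (𝒩.normal N hN) hs'' z
  have h1 := h g (g⁻¹ * x * g) (g⁻¹ * y * g) (g⁻¹ * z * g) 1 N.one_mem t ht t' ht' t'' ht''
  have h2 := h x g (g⁻¹ * y * g) (g⁻¹ * z * g) s hs 1 N.one_mem t' ht' t'' ht''
  have h3 := h x y g (g⁻¹ * z * g) s hs s' hs' 1 N.one_mem t'' ht''
  have h4 := h x y z g s hs s' hs' s'' hs'' 1 N.one_mem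
  simp only [mul_one] at h1 h2 h3 h4
  simp only [hconj₄_apply, e, e', e'', h1, h2, h3, h4]

/-! ## Conjugation acts trivially on level-constant cohomology -/

/-- on `H^0` -/
theorem conj_H0 {a : A} (ha : a ∈ H0 A) : A.ρ g a = a := ha g

/-- on `H^1` -/
theorem conj₁_sub_mem_B1 {f : G → A} (hf : f ∈ Z1 𝒩 A) : conj₁ A g f - f ∈ B1 A := by
  have h0 : (d₁₂ A).hom f = 0 := hf.2
  rw [conj₁_sub, h0, map_zero, add_zero]
  exact ⟨_, rfl⟩

/-- on `H^2` -/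
theorem conj₂_sub_mem_B2 {f : G × G → A} (hf : f ∈ Z2 𝒩 A) : conj₂ A g f - f ∈ B2 𝒩 A := by
  have h0 : (d₂₃ A).hom f = 0 := hf.2
  rw [conj₂_sub, h0, map_zero, add_zero]
  exact ⟨_, hconj₂_mem_C1 A g 𝒩 hf.1, rfl⟩

/-- on `H^3` -/
theorem conj₃_sub_mem_B3 {f : G × G × G → A} (hf : f ∈ Z3 𝒩 A) : conj₃ A g f - f ∈ B3 𝒩 A := by
  have h0 : d₃₄ A f = 0 := hf.2
  rw [conj₃_sub, h0, map_zero, add_zero]
  exact ⟨_, hconj₃_mem_C2 A g 𝒩 hf.1, rfl⟩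

end Levels

end Fermat.Agent.S55.helper69
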