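import Fermat.Agent.S55.ABasic
import Fermat.Agent.S55.helper35_SHDefs
import Fermat.Agent.S55.helper59_BDefs
import Fermat.Agent.S55.helper69_ConjHomotopy

/-!
# S55 / TOP-ABS: non-vanishing of the top cone cohomology from reciprocity on an open subgroup

Let `U ≤ G` be an open subgroup on which the character `χ` is trivial, `D : ShData L U` a choice
of double coset representatives, and `inv_w` local functionals for the local data of `U` which
kill local coboundaries and satisfy reciprocity on `U` (fields of `helper59.BaseInput`).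
If `b = (b_v)` is a family of local 2-cocycles on the `G`-side (twisted coefficients `ofChar χ`)
with `∑_{(v,j)} χ(y v j)⁻¹ • inv_(v,j) (b_v | U_(v,j)) ≠ 0`, then the cone 3-cocycle `(0, b)` is
NOT a cone coboundary; hence there is a trace functional killing `Bc3` and nonzero on `Zc3`.

Proof: if `(0, b) = d (X, Y)` then `X` is a global 2-cocycle with `X ∘ r_v = b_v + d Y_v`; the
conjugation homotopy (helper69) gives `X(y⁻¹ r_v(s) y, y⁻¹ r_v(t) y) = χ(y)⁻¹ (b_v + d W)(s,t)`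
on `U_(v,j)`; reciprocity for `X|U` is the contradiction.
-/

set_option autoImplicit false

open groupCohomology

noncomputable section

namespace Fermat.Agent.S55

open helper35

section TopAbs

variable {k : Type} [Field k] {G : Type} [Group G] {𝒩 : Levels G} {ι : Type}
  (L : LocalData G 𝒩 ι) (χ : G →* kˣ) {U : Subgroup G} (hU : ∃ N ∈ 𝒩.mem, N ≤ U)
  (D : ShData L U)

lemma topAbs_ofChar_ρ (g : G) (a : k) :
    ((groupCohomology.ofChar χ).ρ g (a : groupCohomology.ofChar χ) : k) = (χ g : k) * a := rfl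

/-- restriction of level-constant 1-cochains to a subgroup, with the induced levels -/
lemma topAbs_restrict_isLev₁ {Γ : Type} [Group Γ] (𝒩' : Levels Γ) (H : Subgroup Γ) {X : Type}
    {f : Γ → X} (hf : IsLev₁ 𝒩' f) :
    IsLev₁ (inducedLevels 𝒩' H) (fun s : ↥H => f (s : Γ)) := by
  obtain ⟨N, hN, h⟩ := hf
  exact ⟨N.subgroupOf H, ⟨N, hN, rfl⟩, fun g s hs => h g s hs⟩

/-- a twisted 2-cocycle of `G`, restricted to `U` (where `χ = 1`), is an untwisted 2-cocycle -/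
lemma topAbs_restrict_mem_Z2 (hχ : ∀ g ∈ U, χ g = 1) {X : G × G → groupCohomology.ofChar χ}
    (hX : X ∈ Z2 𝒩 (groupCohomology.ofChar χ)) :
    (fun s : ↥U × ↥U => (X ((s.1 : G), (s.2 : G)) : k)) ∈
      Z2 (restrictLevels 𝒩 U hU) (trivRep k ↥U) := by
  obtain ⟨⟨N, hN, hlev⟩, hd⟩ := hX
  obtain ⟨N₀, hN₀, hN₀U⟩ := hU
  obtain ⟨N', hN', hle⟩ := 𝒩.directed N hN N₀ hN₀
  refine ⟨⟨N'.subgroupOf U, ⟨N', hN', fun x hx => hN₀U (hle hx).2, rfl⟩, ?_⟩, ?_⟩
  · intro g₁ g₂ s₁ hs₁ s₂ hs₂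
    exact hlev g₁ g₂ s₁ (hle hs₁).1 s₂ (hle hs₂).1
  · change (d₂₃ (trivRep k ↥U)).hom _ = 0
    funext ⟨a, b, c⟩
    have hd' : (d₂₃ (groupCohomology.ofChar χ)).hom X = 0 := hd
    have h := congrFun hd' ((a : G), (b : G), (c : G))
    rw [d₂₃_hom_apply] at h ⊢
    have h1 : (groupCohomology.ofChar χ).ρ (a : G) (X ((b : G), (c : G))) = X ((b : G), (c : G)) := by
      change (χ (a : G) : k) • X ((b : G), (c : G)) = _
      rw [hχ a a.2, Units.val_one, one_smul]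
    rw [h1] at h
    exact h

/-- the local computation: on `U_(v,j)`, the restriction of `X|U` along `r_(v,j)` is
`χ(y)⁻¹ • (b_v + coboundary)` -/
lemma topAbs_local (hχ : ∀ g ∈ U, χ g = 1)
    (inv : ∀ w : Σ v, D.J v,
      ((D.localData hU).Gv w × (D.localData hU).Gv w → k) →ₗ[k] k)
    (hinvB : ∀ w, ∀ c ∈ B2 ((D.localData hU).lev w) (trivRep k ((D.localData hU).Gv w)),
      inv w c = 0)
    {X : G × G → groupCohomology.ofChar χ} (hX : X ∈ Z2 𝒩 (groupCohomology.ofChar χ))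
    (v : ι) (j : D.J v) (Y : L.Gv v → L.loc (groupCohomology.ofChar χ) v)
    (hY : Y ∈ C1 (L.lev v) (L.loc (groupCohomology.ofChar χ) v))
    (b : L.Gv v × L.Gv v → L.loc (groupCohomology.ofChar χ) v)
    (hb : res₂ L (groupCohomology.ofChar χ) v X -
      (d₁₂ (L.loc (groupCohomology.ofChar χ) v)).hom Y = b) :
    inv ⟨v, j⟩ (fun s => (X ((((D.localData hU).r ⟨v, j⟩ s.1 : ↥U) : G),
        (((D.localData hU).r ⟨v, j⟩ s.2 : ↥U) : G)) : k)) =
      (((χ (D.y v j))⁻¹ : kˣ) : k) * inv ⟨v, j⟩ (fun s =>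
        (b ((D.Uw v j).subtype s.1, (D.Uw v j).subtype s.2) : k)) := by
  obtain ⟨H, hH, hHd⟩ := (mem_B2 (𝒩 := 𝒩)).1
    (helper69.conj₂_sub_mem_B2 (groupCohomology.ofChar χ) (D.y v j) 𝒩 hX)
  -- `χ ∘ r_v` is trivial on `U_(v,j)`
  have hχr : ∀ s : ↥(D.Uw v j), χ (L.r v (s : L.Gv v)) = 1 := by
    intro s
    have h1 := hχ _ (D.mem_Uw.1 s.2)
    rw [map_mul, map_mul, map_inv, mul_comm, ← mul_assoc, mul_inv_cancel, one_mul] at h1
    exact h1
  -- the three functions on the local group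
  let f1 : (D.localData hU).Gv ⟨v, j⟩ × (D.localData hU).Gv ⟨v, j⟩ → k :=
    fun s => (X ((((D.localData hU).r ⟨v, j⟩ s.1 : ↥U) : G),
        (((D.localData hU).r ⟨v, j⟩ s.2 : ↥U) : G)) : k)
  let f2 : (D.localData hU).Gv ⟨v, j⟩ × (D.localData hU).Gv ⟨v, j⟩ → k :=
    fun s => (b ((D.Uw v j).subtype s.1, (D.Uw v j).subtype s.2) : k)
  -- the correcting 1-cochain
  let W : (D.localData hU).Gv ⟨v, j⟩ → k :=
    fun s => (Y ((D.Uw v j).subtype s) : k) + (H (L.r v ((D.Uw v j).subtype s)) : k)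
  have hW : W ∈ C1 ((D.localData hU).lev ⟨v, j⟩) (trivRep k ((D.localData hU).Gv ⟨v, j⟩)) := by
    have h1 : IsLev₁ (L.lev v) (fun s : L.Gv v => (Y s : k) + (H (L.r v s) : k)) := by
      have h2 := (C1 (L.lev v) (L.loc (groupCohomology.ofChar χ) v)).add_mem hY
        (res₁_mem_C1 L hH v)
      exact h2
    exact topAbs_restrict_isLev₁ (L.lev v) (D.Uw v j) h1
  let f3 : (D.localData hU).Gv ⟨v, j⟩ × (D.localData hU).Gv ⟨v, j⟩ → k :=
    (d₁₂ (trivRep k ((D.localData hU).Gv ⟨v, j⟩))).hom W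
  have hf3 : inv ⟨v, j⟩ f3 = 0 := hinvB ⟨v, j⟩ _ ⟨W, hW, rfl⟩
  have hpt : ∀ s t : ↥(D.Uw v j),
      f1 (s, t) = ((((χ (D.y v j))⁻¹ : kˣ) : k) • (f2 + f3)) (s, t) := by
    intro s t
    have e1 := congrFun hHd (L.r v (s : L.Gv v), L.r v (t : L.Gv v))
    have e2 := congrFun hb ((s : L.Gv v), (t : L.Gv v))
    rw [d₁₂_hom_apply] at e1
    simp only [Pi.sub_apply, helper69.conj₂_apply] at e1
    simp only [Pi.sub_apply, res₂_apply] at e2
    rw [d₁₂_hom_apply] at e2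
    have e3 : (groupCohomology.ofChar χ).ρ (L.r v (s : L.Gv v)) (H (L.r v (t : L.Gv v))) =
        H (L.r v (t : L.Gv v)) := by
      change (χ (L.r v (s : L.Gv v)) : k) • H (L.r v (t : L.Gv v)) = _
      rw [hχr s, Units.val_one, one_smul]
    have e4 : (L.loc (groupCohomology.ofChar χ) v).ρ (s : L.Gv v) (Y (t : L.Gv v)) =
        Y (t : L.Gv v) := by
      change (χ (L.r v (s : L.Gv v)) : k) • Y (t : L.Gv v) = _
      rw [hχr s, Units.val_one, one_smul]
    have e5 : (groupCohomology.ofChar χ).ρ (D.y v j)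
          (X ((D.y v j)⁻¹ * L.r v (s : L.Gv v) * D.y v j,
            (D.y v j)⁻¹ * L.r v (t : L.Gv v) * D.y v j)) =
        (χ (D.y v j) : k) • (X ((D.y v j)⁻¹ * L.r v (s : L.Gv v) * D.y v j,
            (D.y v j)⁻¹ * L.r v (t : L.Gv v) * D.y v j)) := rfl
    rw [e3] at e1
    rw [e4] at e2
    rw [e5] at e1
    have e7 : f1 (s, t) = (X ((D.y v j)⁻¹ * L.r v (s : L.Gv v) * D.y v j,
        (D.y v j)⁻¹ * L.r v (t : L.Gv v) * D.y v j) : k) := by
      change (X (((D.rw v j s : ↥U) : G), ((D.rw v j t : ↥U) : G)) : k) = _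
      rw [D.coe_rw, D.coe_rw]
    have e8 : f3 (s, t) = W t - W (s * t) + W s := by
      change (d₁₂ (trivRep k ((D.localData hU).Gv ⟨v, j⟩))).hom W (s, t) = _
      rw [d₁₂_hom_apply]
      rfl
    have e9 : f2 (s, t) = (b ((s : L.Gv v), (t : L.Gv v)) : k) := rfl
    rw [Pi.smul_apply, Pi.add_apply, e7, e8, e9]
    have e6 : (X ((D.y v j)⁻¹ * L.r v (s : L.Gv v) * D.y v j,
        (D.y v j)⁻¹ * L.r v (t : L.Gv v) * D.y v j) : k) =
        (((χ (D.y v j))⁻¹ : kˣ) : k) • ((χ (D.y v j) : k) •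
          (X ((D.y v j)⁻¹ * L.r v (s : L.Gv v) * D.y v j,
            (D.y v j)⁻¹ * L.r v (t : L.Gv v) * D.y v j) : k)) := by
      rw [smul_eq_mul, smul_eq_mul, ← mul_assoc, Units.inv_mul, one_mul]
    rw [e6]
    congr 1
    have e1' : (χ (D.y v j) : k) • (X ((D.y v j)⁻¹ * L.r v (s : L.Gv v) * D.y v j,
            (D.y v j)⁻¹ * L.r v (t : L.Gv v) * D.y v j) : k) =
        (X (L.r v (s : L.Gv v), L.r v (t : L.Gv v)) : k) +
          ((H (L.r v (t : L.Gv v)) : k) - H (L.r v (s : L.Gv v) * L.r v (t : L.Gv v)) +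
            H (L.r v (s : L.Gv v))) := by
      have := e1
      linear_combination (exp := 1) -this
    have e2' : (X (L.r v (s : L.Gv v), L.r v (t : L.Gv v)) : k) =
        (b ((s : L.Gv v), (t : L.Gv v)) : k) +
          ((Y (t : L.Gv v) : k) - Y ((s : L.Gv v) * (t : L.Gv v)) + Y (s : L.Gv v)) := by
      have := e2
      linear_combination (exp := 1) this
    rw [e1', e2']
    have eW : ∀ u : ↥(D.Uw v j), W u = (Y (u : L.Gv v) : k) + (H (L.r v (u : L.Gv v)) : k) :=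
      fun _ => rfl
    rw [eW t, eW s, eW (s * t)]
    simp only [Subgroup.coe_mul, map_mul]
    ring
  have hkey : f1 = (((χ (D.y v j))⁻¹ : kˣ) : k) • (f2 + f3) := by
    funext ⟨s, t⟩
    exact hpt s t
  change inv ⟨v, j⟩ f1 = _ * inv ⟨v, j⟩ f2
  rw [hkey, map_smul, map_add, hf3, add_zero, smul_eq_mul]

variable [Fintype ι]

/-- TOP-ABS: `(0, b)` is a cone cocycle which is not a cone coboundary. -/
theorem topAbs_not_mem_Bc3 (hχ : ∀ g ∈ U, χ g = 1)
    (inv : ∀ w : Σ v, D.J v,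
      ((D.localData hU).Gv w × (D.localData hU).Gv w → k) →ₗ[k] k)
    (hinvB : ∀ w, ∀ c ∈ B2 ((D.localData hU).lev w) (trivRep k ((D.localData hU).Gv w)),
      inv w c = 0)
    (hrec : ∀ z ∈ Z2 (restrictLevels 𝒩 U hU) (trivRep k ↥U),
      ∑ w, inv w (fun s => z ((D.localData hU).r w s.1, (D.localData hU).r w s.2)) = 0)
    (b : ∀ v, L.Gv v × L.Gv v → L.loc (groupCohomology.ofChar χ) v)
    (hb : ∀ v, b v ∈ Z2 (L.lev v) (L.loc (groupCohomology.ofChar χ) v))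
    (hne : ∑ w : Σ v, D.J v, (((χ (D.y w.1 w.2))⁻¹ : kˣ) : k) *
      inv w (fun s => (b w.1 ((D.Uw w.1 w.2).subtype s.1, (D.Uw w.1 w.2).subtype s.2) : k)) ≠ 0) :
    ((0, b) : CcAmb3 L (groupCohomology.ofChar χ)) ∈ Zc3 L (groupCohomology.ofChar χ) ∧
    ((0, b) : CcAmb3 L (groupCohomology.ofChar χ)) ∉ Bc3 L (groupCohomology.ofChar χ) := by
  constructor
  · refine ⟨(mem_Cc3 L).2 ⟨(C3 𝒩 _).zero_mem, fun v => (hb v).1⟩, ?_⟩
    change dc₃₄ L (groupCohomology.ofChar χ) (0, b) = 0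
    refine Prod.ext (map_zero _) ?_
    funext v
    change res₃ L (groupCohomology.ofChar χ) v 0 -
      (d₂₃ (L.loc (groupCohomology.ofChar χ) v)).hom (b v) = 0
    rw [map_zero, zero_sub, neg_eq_zero]
    exact (hb v).2
  · intro hmem
    obtain ⟨⟨X, Y⟩, hXY, hd⟩ := (mem_Bc3 L).1 hmem
    obtain ⟨hXC, hYC⟩ := (mem_Cc2 L).1 hXY
    have hd1 : (d₂₃ (groupCohomology.ofChar χ)).hom X = 0 := congrArg Prod.fst hd
    have hd2 : ∀ v, res₂ L (groupCohomology.ofChar χ) v X -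
        (d₁₂ (L.loc (groupCohomology.ofChar χ) v)).hom (Y v) = b v :=
      fun v => congrFun (congrArg Prod.snd hd) v
    have hX : X ∈ Z2 𝒩 (groupCohomology.ofChar χ) := ⟨hXC, hd1⟩
    have h0 := hrec _ (topAbs_restrict_mem_Z2 χ hU hχ hX)
    apply hne
    rw [← h0]
    refine Finset.sum_congr rfl ?_
    rintro ⟨v, j⟩ -
    exact (topAbs_local L χ hU D hχ inv hinvB hX v j (Y v) (hYC v) (b v) (hd2 v)).symm

/-- TOP-ABS with `BaseInput`. -/
theorem topAbs_not_mem_Bc3_of_baseInput (hχ : ∀ g ∈ U, χ g = 1)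
    (I : helper59.BaseInput (k := k) (D.localData hU))
    (b : ∀ v, L.Gv v × L.Gv v → L.loc (groupCohomology.ofChar χ) v)
    (hb : ∀ v, b v ∈ Z2 (L.lev v) (L.loc (groupCohomology.ofChar χ) v))
    (hne : ∑ w : Σ v, D.J v, (((χ (D.y w.1 w.2))⁻¹ : kˣ) : k) *
      I.inv w (fun s => (b w.1 ((D.Uw w.1 w.2).subtype s.1, (D.Uw w.1 w.2).subtype s.2) : k)) ≠ 0) :
    ((0, b) : CcAmb3 L (groupCohomology.ofChar χ)) ∈ Zc3 L (groupCohomology.ofChar χ) ∧
    ((0, b) : CcAmb3 L (groupCohomology.ofChar χ)) ∉ Bc3 L (groupCohomology.ofChar χ) :=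
  topAbs_not_mem_Bc3 L χ hU D hχ I.inv
    (fun w c hc => (I.inv_eq_zero_iff w c
      (B2_le_Z2 (by
        obtain ⟨N, hN⟩ := ((D.localData hU).lev w).nonempty
        exact ⟨N, hN, fun _ _ _ => rfl⟩) hc)).2 hc)
    I.reciprocity b hb hne

end TopAbs

section Functional

variable {k : Type} [Field k] {G : Type} [Group G] {𝒩 : Levels G} {ι : Type}
  (L : LocalData G 𝒩 ι) (A : Rep.{0} k G)

/-- a cone cocycle which is not a coboundary is detected by a trace functional -/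
theorem exists_tr_of_not_mem_Bc3 {z : CcAmb3 L A} (hz : z ∉ Bc3 L A) :
    ∃ tr : CcAmb3 L A →ₗ[k] k, (∀ c ∈ Bc3 L A, tr c = 0) ∧ tr z ≠ 0 := by
  obtain ⟨f, hfz, hf⟩ := Submodule.exists_le_ker_of_notMem hz
  exact ⟨f, fun c hc => hf hc, hfz⟩

end Functional

end Fermat.Agent.S55
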