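import Fermat.Agent.S55.helper35_SHDefs

/-!
# S55 / SH-DATA (helper57): double coset representatives exist

`nonempty_shData` : for an open subgroup `U` of finite index and any local data `L` there is a
`ShData L U`, i.e. a finite system of representatives of the double cosets
`r_v(G_v) \ G / U` for every local index `v`.  Statement VERBATIM from
`helper35_SHInterface` (SH-DATA).
-/

set_option autoImplicit false

noncomputable section

namespace Fermat.Agent.S55.helper57

open Fermat.Agent.S55 Fermat.Agent.S55.helper35

variable {G : Type} [Group G] {𝒩 : Levels G} {ι : Type} (L : LocalData G 𝒩 ι) (U : Subgroup G)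

/-- the double coset space `r_v(G_v) \ G / U` is finite when `U` has finite index -/
lemma finite_doubleCoset_quotient [Finite (G ⧸ U)] (H : Subgroup G) :
    Finite (DoubleCoset.Quotient (H : Set G) (U : Set G)) := by
  let f : G ⧸ U → DoubleCoset.Quotient (H : Set G) (U : Set G) :=
    Quotient.map' id (fun a b hab => by
      rw [QuotientGroup.leftRel_apply] at hab
      exact DoubleCoset.rel_iff.2 ⟨1, H.one_mem, a⁻¹ * b, hab, by simp⟩)
  refine Finite.of_surjective f ?_
  intro q
  induction q using Quotient.inductionOn' with
  | h a => exact ⟨QuotientGroup.mk a, rfl⟩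

/-- SH-DATA: double coset representatives exist (finite index). -/
theorem nonempty_shData [Finite (G ⧸ U)] : Nonempty (ShData L U) := by
  classical
  have hfin : ∀ v, Finite (DoubleCoset.Quotient ((L.r v).range : Set G) (U : Set G)) :=
    fun v => finite_doubleCoset_quotient U (L.r v).range
  refine ⟨{ J := fun v => DoubleCoset.Quotient ((L.r v).range : Set G) (U : Set G)
            fin := fun v => @Fintype.ofFinite _ (hfin v)
            y := fun v j => Quotient.out j
            cover := ?_
            disjoint := ?_ }⟩
  · intro v g
    obtain ⟨h, u, hh, hu, hout⟩ := DoubleCoset.mk_out_eq_mul (L.r v).range U g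
    obtain ⟨s, rfl⟩ := hh
    refine ⟨DoubleCoset.mk (L.r v).range U g, s⁻¹, u⁻¹, U.inv_mem hu, ?_⟩
    rw [hout, map_inv]
    group
  · rintro v j j' ⟨h, u, hu, hy⟩
    have h1 : DoubleCoset.mk (L.r v).range U (Quotient.out j) =
        DoubleCoset.mk (L.r v).range U (Quotient.out j') :=
      (DoubleCoset.eq _ _ _ _).2 ⟨L.r v h, ⟨h, rfl⟩, u, hu, hy⟩
    rw [DoubleCoset.out_eq', DoubleCoset.out_eq'] at h1
    exact h1

end Fermat.Agent.S55.helper57
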