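import Mathlib

/-!
# S55 / C-layer vocabulary (helper11): localisation of global cohomology classes

`F ⊆ L` global fields (any fields, `L/F` normal), `Kv ⊆ Lw` local fields (any fields) with
compatible algebra structures `F → Kv`, `L → Lw`.  No topology and no valuation is used here:
a place is *represented* by the pair of embeddings.

* `locHom F L Kv Lw : Gal(Lw/Kv) →* Gal(L/F)` : restriction of automorphisms;
* `locUnits F L Kv Lw` : the map `Lˣ → Lwˣ` as a morphism of representations of `Gal(Lw/Kv)`;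
* `locH F L Kv Lw n : Hⁿ(Gal(L/F), Lˣ) ⟶ Hⁿ(Gal(Lw/Kv), Lwˣ)` : localisation.
-/

set_option autoImplicit false

open CategoryTheory groupCohomology

namespace Fermat.Agent.S55.helper11

section LocGlob

variable (F L Kv Lw : Type) [Field F] [Field L] [Field Kv] [Field Lw]
  [Algebra F L] [Algebra Kv Lw] [Algebra F Kv] [Algebra L Lw] [Algebra F Lw]
  [IsScalarTower F L Lw] [IsScalarTower F Kv Lw] [Normal F L]

/-- Restriction of local automorphisms to the global field. -/
noncomputable def locHom : (Lw ≃ₐ[Kv] Lw) →* (L ≃ₐ[F] L) :=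
  (AlgEquiv.restrictNormalHom L).comp (AlgEquiv.restrictScalarsHom F)

lemma algebraMap_locHom (σ : Lw ≃ₐ[Kv] Lw) (x : L) :
    algebraMap L Lw (locHom F L Kv Lw σ x) = σ (algebraMap L Lw x) := by
  simp only [locHom, MonoidHom.comp_apply]
  exact AlgEquiv.restrictNormal_commutes _ L x

/-- The map `Lˣ → Lwˣ`, additively. -/
noncomputable def locUnitsLin : Additive Lˣ →ₗ[ℤ] Additive Lwˣ :=
  (MonoidHom.toAdditive (Units.map (algebraMap L Lw : L →* Lw))).toIntLinearMap

/-- The map `Lˣ → Lwˣ` as a morphism of representations of `Gal(Lw/Kv)`. -/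
noncomputable def locUnits :
    Rep.res (locHom F L Kv Lw) (Rep.ofAlgebraAutOnUnits F L) ⟶ Rep.ofAlgebraAutOnUnits Kv Lw :=
  Rep.ofHom (LinearMap.intertwiningMap_of_isIntertwiningMap
    (ρ := (Representation.ofMulDistribMulAction (L ≃ₐ[F] L) Lˣ).comp (locHom F L Kv Lw))
    (σ := Representation.ofMulDistribMulAction (Lw ≃ₐ[Kv] Lw) Lwˣ)
    (f := locUnitsLin L Lw) (fun σ x => by
      apply Additive.toMul.injective
      apply Units.ext
      exact algebraMap_locHom F L Kv Lw σ (x.toMul : L)))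

/-- Localisation `Hⁿ(Gal(L/F), Lˣ) ⟶ Hⁿ(Gal(Lw/Kv), Lwˣ)`. -/
noncomputable def locH (n : ℕ) :
    groupCohomology (Rep.ofAlgebraAutOnUnits F L) n ⟶
      groupCohomology (Rep.ofAlgebraAutOnUnits Kv Lw) n :=
  groupCohomology.map (locHom F L Kv Lw) (locUnits F L Kv Lw) n

end LocGlob

end Fermat.Agent.S55.helper11
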