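import Fermat.Agent.S55.helper8_LocDefs
import Fermat.Agent.S55.helper11_LocGlob

/-!
# S55 / REC (helper11): shared definitions for the reciprocity law

* `QZ` : the target `ℚ/ℤ` of invariant maps;
* `LocDatum q F L` : a *local datum over `q`* of a Galois extension of number fields `L/F`:
  `q`-adic fields `Kv ⊆ Lw` (finite extensions of `ℚ_[q]`), compatible embeddings `F → Kv`,
  `L → Lw` with dense image (so `Kv`, `Lw` are the completions at a place `w | v | q`);
* `LocDatum.loc` : the localisation `H²(Gal(L/F), Lˣ) → H²(Gal(Lw/Kv), Lwˣ)`;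
* `LocDatum.AtPlace D v` : the datum `D` induces the finite place `v` of `F`;
* `LocInv` : an invariant system for `q`-adic fields (what REC needs from LOC);
* `HassePrinciple p` : what REC needs from GLOB.

DEFINITIONS ONLY (sorry-free).
-/

set_option autoImplicit false

open CategoryTheory groupCohomology
open scoped NumberField

namespace Fermat.Agent.S55.helper11

open Fermat.Agent.S55.helper8

/-- `ℚ/ℤ`. -/
abbrev QZ : Type := AddCircle (1 : ℚ)

/-- A local datum of the extension `L/F`: see the module docstring. -/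
structure LocDatum (q : ℕ) [Fact q.Prime] (F L : Type) [Field F] [Field L] [Algebra F L] where
  /-- the completion of `F` -/
  Kv : Type
  /-- the completion of `L` -/
  Lw : Type
  [fieldKv : Field Kv]
  [fieldLw : Field Lw]
  [algQK : Algebra ℚ_[q] Kv]
  [finQK : FiniteDimensional ℚ_[q] Kv]
  [algQL : Algebra ℚ_[q] Lw]
  [algKL : Algebra Kv Lw]
  [towerQKL : IsScalarTower ℚ_[q] Kv Lw]
  [finKL : FiniteDimensional Kv Lw]
  [galKL : IsGalois Kv Lw]
  [algFK : Algebra F Kv]
  [algLL : Algebra L Lw]
  [algFL : Algebra F Lw]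
  [towerFLL : IsScalarTower F L Lw]
  [towerFKL : IsScalarTower F Kv Lw]
  /-- `Kv` is generated over `ℚ_[q]` by the image of `F` -/
  denseK : Algebra.adjoin ℚ_[q] (Set.range (algebraMap F Kv)) = ⊤
  /-- `Lw` is generated over `ℚ_[q]` by the image of `L` -/
  denseL : Algebra.adjoin ℚ_[q] (Set.range (algebraMap L Lw)) = ⊤

attribute [instance] LocDatum.fieldKv LocDatum.fieldLw LocDatum.algQK LocDatum.finQK
  LocDatum.algQL LocDatum.algKL LocDatum.towerQKL LocDatum.finKL LocDatum.galKL LocDatum.algFK
  LocDatum.algLL LocDatum.algFL LocDatum.towerFLL LocDatum.towerFKL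

section

variable {q : ℕ} [Fact q.Prime] {F L : Type} [Field F] [Field L] [Algebra F L] [Normal F L]

/-- Localisation of Brauer classes at a local datum. -/
noncomputable def LocDatum.loc (D : LocDatum q F L) :
    H2 (Rep.ofAlgebraAutOnUnits F L) →+ H2 (Rep.ofAlgebraAutOnUnits D.Kv D.Lw) :=
  (locH F L D.Kv D.Lw 2).hom.toAddMonoidHom

end

/-- The local datum `D` induces the finite place `v` of the number field `F`. -/
def LocDatum.AtPlace {q : ℕ} [Fact q.Prime] {F L : Type} [Field F] [NumberField F] [Field L]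
    [Algebra F L] (D : LocDatum q F L) (v : IsDedekindDomain.HeightOneSpectrum (𝓞 F)) : Prop :=
  ∀ a : 𝓞 F, a ∈ v.asIdeal ↔ 0 < ordT q D.Kv (algebraMap F D.Kv (a : F))

/-- An invariant system for `q`-adic fields: exactly what REC uses from LOC. -/
structure LocInv where
  /-- the invariant map of a finite Galois extension of `q`-adic fields -/
  inv : ∀ (q : ℕ) [Fact q.Prime] (K L : Type) [Field K] [Field L] [Algebra ℚ_[q] K]
    [FiniteDimensional ℚ_[q] K] [Algebra K L] [FiniteDimensional K L] [IsGalois K L],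
    H2 (Rep.ofAlgebraAutOnUnits K L) →+ QZ
  /-- (LI-1) injectivity -/
  injective : ∀ (q : ℕ) [Fact q.Prime] (K L : Type) [Field K] [Field L] [Algebra ℚ_[q] K]
    [FiniteDimensional ℚ_[q] K] [Algebra K L] [FiniteDimensional K L] [IsGalois K L],
    Function.Injective (inv q K L)
  /-- (LI-2) normalisation on unramified cyclic classes -/
  unram : ∀ (q : ℕ) [Fact q.Prime] (K L : Type) [Field K] [Field L] [Algebra ℚ_[q] K]
    [FiniteDimensional ℚ_[q] K] [Algebra ℚ_[q] L] [Algebra K L] [IsScalarTower ℚ_[q] K L]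
    [FiniteDimensional K L] [IsGalois K L],
    IsUnram q K L → ∀ φ : L ≃ₐ[K] L, IsFrob q K L φ → ∀ b : Kˣ,
      inv q K L (cyclicClass K L φ b) =
        (((ord q K b : ℚ) / (Module.finrank K L : ℚ) : ℚ) : QZ)
  /-- (LI-3) base change (inflation and restriction): the invariant is multiplied by the
  degree of the base extension -/
  baseChange : ∀ (q : ℕ) [Fact q.Prime] (K L K' L' : Type) [Field K] [Field L] [Field K']
    [Field L'] [Algebra ℚ_[q] K] [FiniteDimensional ℚ_[q] K] [Algebra K L]
    [FiniteDimensional K L] [IsGalois K L] [Algebra ℚ_[q] K'] [FiniteDimensional ℚ_[q] K']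
    [Algebra K' L'] [FiniteDimensional K' L'] [IsGalois K' L'] [Algebra K K']
    [IsScalarTower ℚ_[q] K K'] [FiniteDimensional K K'] [Algebra L L'] [Algebra K L']
    [IsScalarTower K L L'] [IsScalarTower K K' L']
    (ξ : H2 (Rep.ofAlgebraAutOnUnits K L)),
    inv q K' L' ((locH K L K' L' 2).hom ξ) = Module.finrank K K' • inv q K L ξ

/-- The Hasse principle for `p`-primary Brauer classes of number fields (from GLOB). -/
def HassePrinciple (p : ℕ) : Prop :=
  ∀ (F L : Type) [Field F] [NumberField F] [Field L] [NumberField L] [Algebra F L]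
    [IsGalois F L] (x : H2 (Rep.ofAlgebraAutOnUnits F L)) (n : ℕ), p ^ n • x = 0 →
    (∀ (q : ℕ) [Fact q.Prime] (D : LocDatum q F L), D.loc x = 0) → x = 0

end Fermat.Agent.S55.helper11
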