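import Mathlib
import Fermat.Prelude.Def_GaloisRep_CompletionBridge

/-!
# Elements of the decomposition group of `padicPlace q` are isometries (helper74, S55)
-/

open scoped Pointwise

noncomputable section

namespace Fermat.Agent.S55.helper74

variable (q : ℕ) [Fact q.Prime]

local notation "Qbar" => AlgebraicClosure ℚ

lemma apply_mem_padicPlace_iff {σ : Qbar ≃ₐ[ℚ] Qbar}
    (hσ : σ ∈ (padicPlace q).decompositionSubgroup ℚ) (x : Qbar) :
    σ x ∈ padicPlace q ↔ x ∈ padicPlace q := by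
  have h1 : σ • padicPlace q = padicPlace q := MulAction.mem_stabilizer_iff.mp hσ
  constructor
  · intro h
    have h2 : σ x ∈ σ • padicPlace q := by rw [h1]; exact h
    rw [ValuationSubring.mem_pointwise_smul_iff_inv_smul_mem] at h2
    have h3 : σ⁻¹ • σ x = x := by
      rw [AlgEquiv.smul_def]
      exact σ.symm_apply_apply x
    rwa [h3] at h2
  · intro h
    rw [← h1, ValuationSubring.mem_pointwise_smul_iff_inv_smul_mem]
    have h3 : σ⁻¹ • σ x = x := by
      rw [AlgEquiv.smul_def]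
      exact σ.symm_apply_apply x
    rwa [h3]

lemma mem_padicPlace_iff_norm {x : Qbar} : x ∈ padicPlace q ↔ ‖padicEmbedding q x‖ ≤ 1 := by
  rw [mem_padicPlace_iff]
  exact Iff.rfl

lemma norm_padicEmbedding_ratCast (c : ℚ) :
    ‖padicEmbedding q (algebraMap ℚ Qbar c)‖ = ‖(c : ℚ_[q])‖ := by
  rw [AlgHom.commutes]
  have : algebraMap ℚ (PadicAlgCl q) c = algebraMap ℚ_[q] (PadicAlgCl q) (c : ℚ_[q]) := by
    rw [IsScalarTower.algebraMap_apply ℚ ℚ_[q] (PadicAlgCl q), eq_ratCast (algebraMap ℚ ℚ_[q]) c]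
  rw [this, PadicAlgCl.norm_extends]

/-- one inequality -/
lemma norm_padicEmbedding_apply_le {σ : Qbar ≃ₐ[ℚ] Qbar}
    (hσ : σ ∈ (padicPlace q).decompositionSubgroup ℚ) (x : Qbar) :
    ‖padicEmbedding q (σ x)‖ ≤ ‖padicEmbedding q x‖ := by
  by_contra hlt
  rw [not_le] at hlt
  set s := ‖padicEmbedding q x‖ with hs
  set t := ‖padicEmbedding q (σ x)‖ with ht
  have hx0 : x ≠ 0 := by
    rintro rfl
    rw [ht, hs] at hlt
    simp at hlt
  have hs0 : 0 < s := by
    rw [hs, norm_pos_iff]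
    exact fun h => hx0 ((map_eq_zero_iff _ (padicEmbedding q).toRingHom.injective).mp h)
  have hq1 : (1 : ℝ) < q := by exact_mod_cast (Fact.out : q.Prime).one_lt
  have hq0 : (0 : ℝ) < q := by linarith
  have hratio : 1 < t / s := by rwa [one_lt_div hs0]
  obtain ⟨n, hn⟩ := pow_unbounded_of_one_lt (q : ℝ) hratio
  have hn' : (q : ℝ) * s ^ n < t ^ n := by
    rw [div_pow] at hn
    have hsn : 0 < s ^ n := pow_pos hs0 n
    rw [lt_div_iff₀ hsn] at hn
    exact hn
  have htn : 0 < t ^ n := pow_pos (hs0.trans hlt) n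
  obtain ⟨m, hm1, hm2⟩ := exists_mem_Ioc_zpow htn hq1
  -- `q^m < t^n ≤ q^(m+1)`, hence `s^n < q^m`
  have hsm : s ^ n < (q : ℝ) ^ m := by
    have h1 : (q : ℝ) ^ (m + 1) = q * q ^ m := by
      rw [zpow_add₀ hq0.ne', zpow_one, mul_comm]
    rw [h1] at hm2
    have h2 : (q : ℝ) * s ^ n < q * q ^ m := hn'.trans_le hm2
    exact lt_of_mul_lt_mul_left h2 hq0.le
  -- the rational number `c = q^(-m)` has norm `q^m`
  set c : ℚ := (q : ℚ) ^ (-m) with hc
  have hcnorm : ‖(c : ℚ_[q])‖ = (q : ℝ) ^ m := by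
    rw [hc]
    push_cast
    rw [Padic.norm_p_zpow, neg_neg]
  have hc0 : c ≠ 0 := by
    rw [hc]
    exact zpow_ne_zero _ (by exact_mod_cast (Fact.out : q.Prime).ne_zero)
  set y : Qbar := x ^ n * (algebraMap ℚ Qbar c)⁻¹ with hy
  have hcpos : (0 : ℝ) < (q : ℝ) ^ m := zpow_pos hq0 m
  have hy1 : ‖padicEmbedding q y‖ = s ^ n / (q : ℝ) ^ m := by
    rw [hy, map_mul, map_pow, map_inv₀, norm_mul, norm_pow, norm_inv,
      norm_padicEmbedding_ratCast, hcnorm, div_eq_mul_inv]
  have hy2 : ‖padicEmbedding q (σ y)‖ = t ^ n / (q : ℝ) ^ m := by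
    rw [hy, map_mul, map_pow, map_inv₀, AlgEquiv.commutes, map_mul, map_pow, map_inv₀, norm_mul,
      norm_pow, norm_inv, norm_padicEmbedding_ratCast, hcnorm, div_eq_mul_inv]
  have hyA : y ∈ padicPlace q := by
    rw [mem_padicPlace_iff_norm, hy1, div_le_one hcpos]
    exact hsm.le
  have hσyA : σ y ∉ padicPlace q := by
    rw [mem_padicPlace_iff_norm, hy2, div_le_one hcpos, not_le]
    exact hm1
  exact hσyA ((apply_mem_padicPlace_iff q hσ y).mpr hyA)

/-- **(D1)** Elements of the decomposition group of `padicPlace q` are isometries for the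
`q`-adic norm. -/
theorem norm_padicEmbedding_apply_of_mem_dec {σ : Qbar ≃ₐ[ℚ] Qbar}
    (hσ : σ ∈ (padicPlace q).decompositionSubgroup ℚ) (x : Qbar) :
    ‖padicEmbedding q (σ x)‖ = ‖padicEmbedding q x‖ := by
  refine le_antisymm (norm_padicEmbedding_apply_le q hσ x) ?_
  have h := norm_padicEmbedding_apply_le q (inv_mem hσ) (σ x)
  have h3 : σ⁻¹ (σ x) = x := σ.symm_apply_apply x
  rwa [h3] at h

end Fermat.Agent.S55.helper74
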