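import Mathlib
import Fermat.Prelude.Def_GaloisRep_CompletionBridge

/-!
# Krasner: `PadicAlgCl q` is generated over `ℚ_[q]` by the image of `AlgebraicClosure ℚ`
(helper74, S55 local-global bridge)
-/

open Polynomial

noncomputable section

namespace Fermat.Agent.S55.helper74

variable (q : ℕ) [Fact q.Prime]

lemma denseRange_algebraMap_rat_padic : DenseRange (algebraMap ℚ ℚ_[q]) := by
  have h : (algebraMap ℚ ℚ_[q] : ℚ → ℚ_[q]) = Rat.cast := by
    funext x
    exact eq_ratCast _ x
  rw [h]
  exact Padic.denseRange_ratCast q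

/-- Roots in `PadicAlgCl q` of a rational polynomial come from `AlgebraicClosure ℚ`. -/
lemma exists_padicEmbedding_eq_of_aeval_eq_zero {g : ℚ[X]} (hg : g ≠ 0) {b : PadicAlgCl q}
    (hb : aeval b g = 0) : ∃ β : AlgebraicClosure ℚ, padicEmbedding q β = b := by
  have hsplit : (g.map (algebraMap ℚ (AlgebraicClosure ℚ))).Splits := IsAlgClosed.splits _
  have hmap : (g.map (algebraMap ℚ (AlgebraicClosure ℚ))).map
      ((padicEmbedding q : AlgebraicClosure ℚ →ₐ[ℚ] PadicAlgCl q) : AlgebraicClosure ℚ →+* PadicAlgCl q) =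
      g.map (algebraMap ℚ (PadicAlgCl q)) := by
    rw [Polynomial.map_map]
    congr 1
    exact (padicEmbedding q).comp_algebraMap
  have hroots := hsplit.roots_map
    ((padicEmbedding q : AlgebraicClosure ℚ →ₐ[ℚ] PadicAlgCl q) : AlgebraicClosure ℚ →+* PadicAlgCl q)
  rw [hmap] at hroots
  have hbmem : b ∈ (g.map (algebraMap ℚ (PadicAlgCl q))).roots := by
    rw [Polynomial.mem_roots (Polynomial.map_ne_zero hg)]
    rw [Polynomial.IsRoot.def, Polynomial.eval_map_algebraMap]
    exact hb
  rw [hroots, Multiset.mem_map] at hbmem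
  obtain ⟨β, -, hβ⟩ := hbmem
  exact ⟨β, hβ⟩

/-- **Krasner**: every element of `PadicAlgCl q` lies in `ℚ_[q](ι β)` for some algebraic
number `β`. -/
theorem exists_rat_generator (α : PadicAlgCl q) :
    ∃ β : AlgebraicClosure ℚ, α ∈ IntermediateField.adjoin ℚ_[q] {padicEmbedding q β} := by
  classical
  have hint : IsIntegral ℚ_[q] α := (PadicAlgCl.isAlgebraic q).isIntegral.isIntegral α
  set f := minpoly ℚ_[q] α with hf
  have fmon : f.Monic := minpoly.monic hint
  have firr : Irreducible f := minpoly.irreducible hint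
  have fa0 : aeval α f = 0 := minpoly.aeval _ _
  have fnatdeg0 : f.natDegree ≠ 0 := (Irreducible.natDegree_pos firr).ne'
  let S : Finset (PadicAlgCl q) := {x ∈ (f.rootSet (PadicAlgCl q)).toFinset | x ≠ α}
  let δ : ℝ := if hS : S.Nonempty then Finset.min' (S.image fun x => ‖α - x‖)
      (Finset.image_nonempty.mpr hS) else 1
  have norm_sub_le : ∀ a' : PadicAlgCl q, IsConjRoot ℚ_[q] α a' → α ≠ a' → δ ≤ ‖α - a'‖ := by
    intro a' conj ne
    by_cases hS : S.Nonempty <;> simp only [hS, ↓reduceDIte, δ]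
    · apply Finset.min'_le (S.image fun x => ‖α - x‖) (‖α - a'‖)
      apply Finset.mem_image_of_mem
      simp only [Finset.mem_filter, Set.mem_toFinset, S]
      rw [← (isConjRoot_iff_mem_minpoly_rootSet hint)]
      exact ⟨conj, ne.symm⟩
    · simp only [ne_eq, Finset.not_nonempty_iff_eq_empty, Finset.filter_eq_empty_iff,
        Set.mem_toFinset, not_not, S] at hS
      rw [isConjRoot_iff_mem_minpoly_rootSet hint] at conj
      exact (ne (hS conj).symm).elim
  have δpos : δ > 0 := by
    by_cases hS : S.Nonempty <;> simp only [hS, ↓reduceDIte, δ]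
    · simp only [gt_iff_lt, Finset.lt_min'_iff, Finset.mem_image, forall_exists_index, and_imp,
        forall_apply_eq_imp_iff₂]
      rintro a' ha'
      simp only [Finset.mem_filter, Set.mem_toFinset, S] at ha'
      rw [norm_pos_iff, sub_ne_zero]
      exact ha'.2.symm
    · linarith
  have hε : (δ / (max ‖α‖ 1)) ^ f.natDegree / (f.natDegree + 1) > 0 := by positivity
  obtain ⟨g, gmon, gdeg, gcoeff⟩ :=
    exists_monic_and_natDegree_eq_and_norm_map_algebraMap_coeff_sub_lt
      (denseRange_algebraMap_rat_padic q) fmon hε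
  obtain ⟨b, hb, hab⟩ := exists_aroots_norm_sub_lt_of_norm_coeff_sub_lt
      hε fa0 fmon (gmon.map _) (gdeg ▸ (g.natDegree_map _)) gcoeff (IsAlgClosed.splits _)
  have hab : ‖α - b‖ < δ := by
    rw [← Real.rpow_natCast, ← mul_comm_div, div_self, one_mul,
        ← Real.rpow_mul (div_pos δpos (by positivity)).le, mul_inv_cancel₀] at hab
    · simpa [mul_assoc, div_mul_cancel₀ _ (by positivity : (max ‖α‖ 1) > 0).ne'] using hab
    · simp [fnatdeg0]
    · positivity
  have hb' : aeval b (g.map (algebraMap ℚ ℚ_[q])) = 0 := by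
    rw [Polynomial.aroots_def, Polynomial.mem_roots', Polynomial.IsRoot.def,
      Polynomial.eval_map_algebraMap] at hb
    exact hb.2
  have hbg : aeval b g = 0 := by
    rwa [Polynomial.aeval_map_algebraMap] at hb'
  obtain ⟨β, hβ⟩ := exists_padicEmbedding_eq_of_aeval_eq_zero q gmon.ne_zero hbg
  refine ⟨β, ?_⟩
  rw [hβ]
  have masp : ((minpoly ℚ_[q] α).map (algebraMap ℚ_[q] (PadicAlgCl q))).Splits :=
    IsAlgClosed.splits _
  exact IsKrasner.krasner firr.separable masp ⟨g.map _, gmon.map _, hb'⟩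
    fun a' h1 h2 ↦ lt_of_lt_of_le hab (norm_sub_le a' h1 h2)

end Fermat.Agent.S55.helper74
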