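import Mathlib
import Fermat.Prelude.Def_GaloisRep_CompletionBridge
import Fermat.Agent.S55.helper74_Krasner
import Fermat.Agent.S55.helper74_DecIsometry

/-!
# The image of the local Galois group is the decomposition group (helper74, S55)

`(localGaloisToGlobal q).range = (padicPlace q).decompositionSubgroup ℚ`.
-/

open Polynomial
open scoped Pointwise TensorProduct

noncomputable section

namespace Fermat.Agent.S55.helper74

variable (q : ℕ) [Fact q.Prime]

local notation "Qbar" => AlgebraicClosure ℚ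
local notation "Ω" => PadicAlgCl q

/-- `ℚ_[q] → PadicAlgCl q` as a `ℚ`-algebra map. -/
def baseAlg : ℚ_[q] →ₐ[ℚ] Ω :=
  { algebraMap ℚ_[q] Ω with
    commutes' := fun r => by
      simp only [RingHom.toMonoidHom_eq_coe, OneHom.toFun_eq_coe, MonoidHom.toOneHom_coe,
        MonoidHom.coe_coe]
      rw [eq_ratCast (algebraMap ℚ ℚ_[q]) r, eq_ratCast (algebraMap ℚ Ω) r, map_ratCast] }

@[simp] lemma baseAlg_apply (c : ℚ_[q]) : baseAlg q c = algebraMap ℚ_[q] Ω c := rfl

/-- The map `Qbar ⊗ ℚ_q → PadicAlgCl q`, `x ⊗ c ↦ ι (σ x) * c`. -/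
def Phi (σ : Qbar ≃ₐ[ℚ] Qbar) : Qbar ⊗[ℚ] ℚ_[q] →ₐ[ℚ] Ω :=
  Algebra.TensorProduct.productMap ((padicEmbedding q).comp σ.toAlgHom) (baseAlg q)

lemma Phi_tmul (σ : Qbar ≃ₐ[ℚ] Qbar) (x : Qbar) (c : ℚ_[q]) :
    Phi q σ (x ⊗ₜ[ℚ] c) = padicEmbedding q (σ x) * algebraMap ℚ_[q] Ω c := by
  rw [Phi, Algebra.TensorProduct.productMap_apply_tmul]
  rfl

/-- `Phi 1` is surjective (Krasner). -/
lemma Phi_one_surjective : Function.Surjective (Phi q 1) := by
  intro α
  obtain ⟨β, hβ⟩ := exists_rat_generator q α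
  have halg : IsAlgebraic ℚ_[q] (padicEmbedding q β) :=
    (PadicAlgCl.isAlgebraic q).isAlgebraic _
  have h1 : α ∈ (IntermediateField.adjoin ℚ_[q] {padicEmbedding q β}).toSubalgebra := hβ
  rw [IntermediateField.adjoin_simple_toSubalgebra_of_isAlgebraic halg,
    Algebra.adjoin_singleton_eq_range_aeval] at h1
  obtain ⟨P, hP⟩ := h1
  rw [← hP]
  -- `aeval (ι β) P = Φ (∑ β^i ⊗ P_i)`
  refine ⟨P.sum fun i c => (β ^ i) ⊗ₜ[ℚ] c, ?_⟩
  rw [Polynomial.sum, map_sum]
  simp only [Phi_tmul, AlgEquiv.one_apply, map_pow]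
  change _ = Polynomial.aeval (padicEmbedding q β) P
  rw [Polynomial.aeval_def, Polynomial.eval₂_eq_sum, Polynomial.sum]
  exact Finset.sum_congr rfl fun i _ => mul_comm _ _

section kernel

variable {q}
variable {σ : Qbar ≃ₐ[ℚ] Qbar} (hσ : σ ∈ (padicPlace q).decompositionSubgroup ℚ)
include hσ

/-- Simultaneous approximation of `Phi 1 z` and `Phi σ z` by algebraic numbers. -/
lemma exists_approx (z : Qbar ⊗[ℚ] ℚ_[q]) {ε : ℝ} (hε : 0 < ε) :
    ∃ w : Qbar, ‖Phi q 1 z - padicEmbedding q w‖ < ε ∧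
      ‖Phi q σ z - padicEmbedding q (σ w)‖ < ε := by
  induction z using TensorProduct.induction_on with
  | zero => exact ⟨0, by simpa using hε, by simpa using hε⟩
  | tmul x c =>
    have hpos : 0 < ε / (‖padicEmbedding q x‖ + 1) := by positivity
    obtain ⟨r, hr⟩ := (denseRange_algebraMap_rat_padic q).exists_dist_lt c hpos
    rw [dist_eq_norm] at hr
    have key : ‖padicEmbedding q x‖ * ‖c - algebraMap ℚ ℚ_[q] r‖ < ε := by
      have h1 : ‖padicEmbedding q x‖ * ‖c - algebraMap ℚ ℚ_[q] r‖ ≤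
          ‖padicEmbedding q x‖ * (ε / (‖padicEmbedding q x‖ + 1)) :=
        mul_le_mul_of_nonneg_left hr.le (norm_nonneg _)
      have h2 : ‖padicEmbedding q x‖ * (ε / (‖padicEmbedding q x‖ + 1)) < ε := by
        rw [mul_div_assoc', div_lt_iff₀ (by positivity)]
        nlinarith [norm_nonneg (padicEmbedding q x)]
      exact h1.trans_lt h2
    have hcast : ∀ y : Qbar, padicEmbedding q (y * algebraMap ℚ Qbar r) =
        padicEmbedding q y * algebraMap ℚ_[q] Ω (algebraMap ℚ ℚ_[q] r) := by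
      intro y
      rw [map_mul, AlgHom.commutes, ← IsScalarTower.algebraMap_apply ℚ ℚ_[q] Ω]
    refine ⟨x * algebraMap ℚ Qbar r, ?_, ?_⟩
    · rw [Phi_tmul, AlgEquiv.one_apply, hcast, ← mul_sub, ← map_sub, norm_mul,
        PadicAlgCl.norm_extends]
      exact key
    · rw [Phi_tmul, map_mul, AlgEquiv.commutes, hcast, ← mul_sub, ← map_sub, norm_mul,
        PadicAlgCl.norm_extends, norm_padicEmbedding_apply_of_mem_dec q hσ]
      exact key
  | add z₁ z₂ h₁ h₂ =>
    obtain ⟨w₁, h11, h12⟩ := h₁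
    obtain ⟨w₂, h21, h22⟩ := h₂
    refine ⟨w₁ + w₂, ?_, ?_⟩
    · rw [map_add, map_add, add_sub_add_comm]
      exact (IsUltrametricDist.norm_add_le_max _ _).trans_lt (max_lt h11 h21)
    · rw [map_add, map_add, map_add, add_sub_add_comm]
      exact (IsUltrametricDist.norm_add_le_max _ _).trans_lt (max_lt h12 h22)

lemma norm_Phi_le (z : Qbar ⊗[ℚ] ℚ_[q]) : ‖Phi q σ z‖ ≤ ‖Phi q 1 z‖ := by
  have ultra : ∀ x y : Ω, ‖x‖ ≤ max ‖y‖ ‖x - y‖ := fun x y => by
    have h := IsUltrametricDist.norm_add_le_max y (x - y)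
    rwa [add_sub_cancel] at h
  refine le_of_forall_pos_lt_add fun ε hε => ?_
  obtain ⟨w, h1, h2⟩ := exists_approx hσ z hε
  have hA : ‖padicEmbedding q w‖ < ‖Phi q 1 z‖ + ε := by
    have h := ultra (padicEmbedding q w) (Phi q 1 z)
    rw [norm_sub_rev] at h
    exact h.trans_lt (max_lt (by linarith) (by linarith [norm_nonneg (Phi q 1 z)]))
  have hB := ultra (Phi q σ z) (padicEmbedding q (σ w))
  rw [norm_padicEmbedding_apply_of_mem_dec q hσ] at hB
  exact hB.trans_lt (max_lt hA (by linarith [norm_nonneg (Phi q 1 z)]))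

lemma ker_Phi_le : RingHom.ker (Phi q 1).toRingHom ≤ RingHom.ker (Phi q σ).toRingHom := by
  intro z hz
  rw [RingHom.mem_ker] at hz ⊢
  have h1 : Phi q 1 z = 0 := hz
  have h2 := norm_Phi_le hσ z
  rw [h1, norm_zero] at h2
  exact norm_le_zero_iff.mp h2

/-- The `ℚ`-algebra endomorphism of `PadicAlgCl q` induced by `σ`. -/
def tauQ : Ω →ₐ[ℚ] Ω :=
  AlgHom.liftOfSurjective (Phi q 1) (Phi_one_surjective q) (Phi q σ) (ker_Phi_le hσ)

lemma tauQ_Phi (z : Qbar ⊗[ℚ] ℚ_[q]) : tauQ hσ (Phi q 1 z) = Phi q σ z :=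
  AlgHom.liftOfSurjective_apply _ _ _ _ z

lemma tauQ_padicEmbedding (x : Qbar) : tauQ hσ (padicEmbedding q x) = padicEmbedding q (σ x) := by
  have h := tauQ_Phi hσ (x ⊗ₜ[ℚ] (1 : ℚ_[q]))
  rwa [Phi_tmul, Phi_tmul, map_one, mul_one, mul_one, AlgEquiv.one_apply] at h

lemma tauQ_algebraMap (c : ℚ_[q]) : tauQ hσ (algebraMap ℚ_[q] Ω c) = algebraMap ℚ_[q] Ω c := by
  have h := tauQ_Phi hσ ((1 : Qbar) ⊗ₜ[ℚ] c)
  rw [Phi_tmul, Phi_tmul] at h
  simpa using h

/-- The `ℚ_[q]`-algebra endomorphism of `PadicAlgCl q` induced by `σ`. -/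
def tauHom : Ω →ₐ[ℚ_[q]] Ω :=
  { (tauQ hσ).toRingHom with
    commutes' := fun c => tauQ_algebraMap hσ c }

lemma tauHom_apply (x : Ω) : tauHom hσ x = tauQ hσ x := rfl

/-- The element of the local Galois group induced by `σ ∈ D`. -/
def tauEquiv : Ω ≃ₐ[ℚ_[q]] Ω :=
  AlgEquiv.ofBijective (tauHom hσ) (Algebra.IsAlgebraic.algHom_bijective (tauHom hσ))

lemma tauEquiv_padicEmbedding (x : Qbar) :
    tauEquiv hσ (padicEmbedding q x) = padicEmbedding q (σ x) :=
  tauQ_padicEmbedding hσ x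

lemma localGaloisToGlobal_tauEquiv : localGaloisToGlobal q (tauEquiv hσ) = σ := by
  ext x
  apply (padicEmbedding q).toRingHom.injective
  change padicEmbedding q (localGaloisToGlobal q (tauEquiv hσ) x) = padicEmbedding q (σ x)
  rw [padicEmbedding_localGaloisToGlobal, tauEquiv_padicEmbedding]

end kernel

/-- **(D2)** The image of the local Galois group at `q` in `G_ℚ` is the decomposition group of
the place `padicPlace q`. -/
theorem range_localGaloisToGlobal :
    (localGaloisToGlobal q).range = (padicPlace q).decompositionSubgroup ℚ := by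
  apply le_antisymm
  · rintro _ ⟨τ, rfl⟩
    exact localGaloisToGlobal_mem_decompositionSubgroup q τ
  · intro σ hσ
    exact ⟨tauEquiv hσ, localGaloisToGlobal_tauEquiv hσ⟩

/-- **(D4)** Every element of the decomposition group lifts to the local Galois group. -/
theorem exists_localGaloisToGlobal_eq {σ : Qbar ≃ₐ[ℚ] Qbar}
    (hσ : σ ∈ (padicPlace q).decompositionSubgroup ℚ) :
    ∃ τ : Ω ≃ₐ[ℚ_[q]] Ω, localGaloisToGlobal q τ = σ :=
  ⟨tauEquiv hσ, localGaloisToGlobal_tauEquiv hσ⟩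

end Fermat.Agent.S55.helper74
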