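import Mathlib
import Fermat.Prelude.Def_GaloisRep_CompletionBridge
import Fermat.Prelude.Def_ExtEndgame_ProductionDatum
import Fermat.Agent.S55.helper74_DecGroup

/-!
# Local fields `ℚ_q(ι F)` and pulled-back levels (helper74, S55)
-/

open scoped Pointwise

noncomputable section

namespace Fermat.Agent.S55.helper74

variable (q : ℕ) [Fact q.Prime]

local notation "Qbar" => AlgebraicClosure ℚ
local notation "Ω" => PadicAlgCl q

/-- The local field `ℚ_q(ι F)` attached to a subfield `F` of `Qbar` (completion of `F` at the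
place induced by `padicEmbedding q`). -/
def localField (F : IntermediateField ℚ Qbar) : IntermediateField ℚ_[q] Ω :=
  IntermediateField.adjoin ℚ_[q] ((padicEmbedding q) '' (F : Set Qbar))

lemma padicEmbedding_mem_localField {F : IntermediateField ℚ Qbar} {x : Qbar} (hx : x ∈ F) :
    padicEmbedding q x ∈ localField q F :=
  IntermediateField.subset_adjoin _ _ ⟨x, hx, rfl⟩

/-- **(D3)** `τ` fixes the local field `ℚ_q(ι F)` iff its image in `G_ℚ` fixes `F`. -/
theorem mem_fixingSubgroup_localField_iff (F : IntermediateField ℚ Qbar) (τ : Ω ≃ₐ[ℚ_[q]] Ω) :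
    τ ∈ (localField q F).fixingSubgroup ↔ localGaloisToGlobal q τ ∈ F.fixingSubgroup := by
  rw [IntermediateField.mem_fixingSubgroup_iff, IntermediateField.mem_fixingSubgroup_iff]
  constructor
  · intro h x hx
    apply (padicEmbedding q).toRingHom.injective
    change padicEmbedding q (localGaloisToGlobal q τ x) = padicEmbedding q x
    rw [padicEmbedding_localGaloisToGlobal]
    exact h _ (padicEmbedding_mem_localField q hx)
  · intro h
    have h1 : localField q F ≤ IntermediateField.fixedField (Subgroup.zpowers τ) := by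
      rw [localField, IntermediateField.adjoin_le_iff]
      rintro _ ⟨x, hx, rfl⟩
      rw [SetLike.mem_coe, IntermediateField.mem_fixedField_iff]
      intro f hf
      obtain ⟨n, rfl⟩ := Subgroup.mem_zpowers_iff.mp hf
      have hfix : τ (padicEmbedding q x) = padicEmbedding q x := by
        rw [← padicEmbedding_localGaloisToGlobal, h x hx]
      have hmem : τ ∈ MulAction.stabilizer (Ω ≃ₐ[ℚ_[q]] Ω) (padicEmbedding q x) := by
        rw [MulAction.mem_stabilizer_iff]
        exact hfix
      have := Subgroup.zpow_mem _ hmem n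
      rw [MulAction.mem_stabilizer_iff] at this
      exact this
    intro y hy
    have h2 := h1 hy
    rw [IntermediateField.mem_fixedField_iff] at h2
    exact h2 τ (Subgroup.mem_zpowers τ)

/-- The preimage of the level `F.fixingSubgroup` is the fixing subgroup of `ℚ_q(ι F)`. -/
theorem comap_fixingSubgroup (F : IntermediateField ℚ Qbar) :
    F.fixingSubgroup.comap (localGaloisToGlobal q) = (localField q F).fixingSubgroup := by
  ext τ
  rw [Subgroup.mem_comap, mem_fixingSubgroup_localField_iff]

/-- `ℚ_q(ι F)` is finite over `ℚ_q` if `F` is finite over `ℚ`. -/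
theorem finiteDimensional_localField (F : IntermediateField ℚ Qbar) [FiniteDimensional ℚ F] :
    FiniteDimensional ℚ_[q] (localField q F) := by
  classical
  let b := Module.finBasis ℚ F
  let S₀ : Set Ω := Set.range fun i => padicEmbedding q (b i : Qbar)
  have hfin : Finite S₀ := Set.finite_range _
  have hle : localField q F ≤ IntermediateField.adjoin ℚ_[q] S₀ := by
    rw [localField, IntermediateField.adjoin_le_iff]
    rintro _ ⟨x, hx, rfl⟩
    have hx' : (⟨x, hx⟩ : F) = ∑ i, b.repr ⟨x, hx⟩ i • b i := (b.sum_repr ⟨x, hx⟩).symm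
    have hx'' : x = ∑ i, algebraMap ℚ Qbar (b.repr ⟨x, hx⟩ i) * (b i : Qbar) := by
      have h := congrArg (fun y : F => F.val y) hx'
      simp only [map_sum, IntermediateField.val_mk] at h
      refine h.trans (Finset.sum_congr rfl fun i _ => ?_)
      rw [Algebra.smul_def, map_mul]
      rfl
    rw [hx'', map_sum, SetLike.mem_coe]
    refine Subalgebra.sum_mem _ fun i _ => ?_
    have hmem : padicEmbedding q (b i : Qbar) ∈ IntermediateField.adjoin ℚ_[q] S₀ :=
      IntermediateField.subset_adjoin _ _ ⟨i, rfl⟩
    rw [map_mul, AlgHom.commutes, IsScalarTower.algebraMap_apply ℚ ℚ_[q] Ω]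
    exact mul_mem (IntermediateField.algebraMap_mem _ _) hmem
  have hfd : FiniteDimensional ℚ_[q] (IntermediateField.adjoin ℚ_[q] S₀) :=
    IntermediateField.finiteDimensional_adjoin fun x _ =>
      (PadicAlgCl.isAlgebraic q).isIntegral.isIntegral x
  exact FiniteDimensional.of_injective (IntermediateField.inclusion hle).toLinearMap
    (IntermediateField.inclusion_injective hle)

end Fermat.Agent.S55.helper74

namespace Fermat.Agent.S55.helper74

open ExtCitation

/-- **(D2')** `Nat.Primes` version: the image of the Prelude's local Galois group is the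
decomposition group of `primeLocalPlace q`. -/
theorem range_primeLocalToGlobal (q : Nat.Primes) :
    (primeLocalToGlobal q).range = (primeLocalPlace q).decompositionSubgroup ℚ := by
  have hF : Fact (q : ℕ).Prime := ⟨q.2⟩
  exact range_localGaloisToGlobal (q : ℕ)

/-- **(D4')** lifting elements of the decomposition group to the Prelude's local group. -/
theorem exists_primeLocalToGlobal_eq (q : Nat.Primes)
    {σ : AlgebraicClosure ℚ ≃ₐ[ℚ] AlgebraicClosure ℚ}
    (hσ : σ ∈ (primeLocalPlace q).decompositionSubgroup ℚ) :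
    ∃ τ : primeLocalGaloisGroup q, primeLocalToGlobal q τ = σ := by
  have h : σ ∈ (primeLocalToGlobal q).range := by
    rw [range_primeLocalToGlobal]
    exact hσ
  exact h

/-- `primeLocalPlace q` lies over `q`. -/
theorem primeLocalPlace_liesOverPrime (q : Nat.Primes) :
    (primeLocalPlace q).LiesOverPrime (q : ℕ) := by
  have hF : Fact (q : ℕ).Prime := ⟨q.2⟩
  change ((q : ℕ) : AlgebraicClosure ℚ) ∈ (padicPlace (q : ℕ)).nonunits
  have hq : ‖((q : ℕ) : PadicAlgCl (q : ℕ))‖ = ((q : ℕ) : ℝ)⁻¹ := by
    have : ((q : ℕ) : PadicAlgCl (q : ℕ)) =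
        algebraMap ℚ_[(q : ℕ)] (PadicAlgCl (q : ℕ)) ((q : ℕ) : ℚ_[(q : ℕ)]) := by
      rw [map_natCast]
    rw [this, PadicAlgCl.norm_extends]
    exact Padic.norm_p
  have hq1 : (1 : ℝ) < (q : ℕ) := by exact_mod_cast q.2.one_lt
  have hq0 : ((q : ℕ) : AlgebraicClosure ℚ) ≠ 0 := by
    exact_mod_cast q.2.ne_zero
  rw [ValuationSubring.mem_nonunits_iff, Valuation.val_lt_one_iff _ hq0]
  rw [← not_le, ValuationSubring.valuation_le_one_iff]
  intro hmem2
  rw [mem_padicPlace_iff_norm, map_inv₀, map_natCast, norm_inv, hq, inv_inv] at hmem2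
  linarith

end Fermat.Agent.S55.helper74
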