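import Fermat.Agent.S55.helper8_LocDefs
import Fermat.Agent.S55.helper11_RecDefs
import Fermat.Agent.S55.Defs

/-!
# S55 / LOC (helper8): definitions for interface v1 (invariant maps, symbols, local duality)

The family of invariant maps is `Fermat.Agent.S55.helper11.LocInv` (file `helper11_RecDefs`);
the deliverable of LOC-5 is `Nonempty helper11.LocInv`.  This file adds:

* `infH K L M n`, `resH K K' M n`: inflation and restriction on `Hⁿ(Gal(L/K), Lˣ)`, as special
  cases of `helper11.locH`;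
* `mulClass K L f`: the class of a multiplicative 2-cocycle `f : Gal(L/K)² → Lˣ`;
* `chiCochain N χ b`, `chiClass K L N χ b`: the symbol `(χ, b) = δχ ∪ b` of a character
  `χ : G → ℤ/N` and an invariant element `b`;
* `galLevels K Ω`: the Galois levels of `Gal(Ω/K)`;
* `zetaCochain p ζ c`: the cochain `ζ ^ c` attached to a `ZMod p`-valued cochain `c`;
* `LocalDuality I p K Ω ζ`: the level-constant local duality package consumed by module B
  (fields `inv`, (I1), (I2), `loc_fin` of `helper59`'s `BaseInput`), tied to `I : LocInv`.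
-/

set_option autoImplicit false

namespace Fermat.Agent.S55.helper8

open CategoryTheory Fermat.Agent.S55.helper11

/-! ## Inflation and restriction -/

section tower

variable (K L M : Type) [Field K] [Field L] [Field M] [Algebra K L] [Algebra K M] [Algebra L M]
  [IsScalarTower K L M] [Normal K L]

/-- Inflation `Hⁿ(Gal(L/K), Lˣ) → Hⁿ(Gal(M/K), Mˣ)` (`= locH K L K M n`). -/
noncomputable def infH (n : ℕ) :
    groupCohomology (Rep.ofAlgebraAutOnUnits K L) n →+
      groupCohomology (Rep.ofAlgebraAutOnUnits K M) n :=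
  (locH K L K M n).hom.toAddMonoidHom

lemma infH_apply (n : ℕ) (x : groupCohomology (Rep.ofAlgebraAutOnUnits K L) n) :
    infH K L M n x = (locH K L K M n).hom x := rfl

end tower

section restrict

variable (K K' M : Type) [Field K] [Field K'] [Field M] [Algebra K K'] [Algebra K M]
  [Algebra K' M] [IsScalarTower K K' M] [Normal K M]

/-- Restriction `Hⁿ(Gal(M/K), Mˣ) → Hⁿ(Gal(M/K'), Mˣ)` (`= locH K M K' M n`). -/
noncomputable def resH (n : ℕ) :
    groupCohomology (Rep.ofAlgebraAutOnUnits K M) n →+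
      groupCohomology (Rep.ofAlgebraAutOnUnits K' M) n :=
  (locH K M K' M n).hom.toAddMonoidHom

lemma resH_apply (n : ℕ) (x : groupCohomology (Rep.ofAlgebraAutOnUnits K M) n) :
    resH K K' M n x = (locH K M K' M n).hom x := rfl

end restrict

/-! ## Classes of multiplicative cocycles and the symbols `(χ, b)` -/

section symbol

open Classical in
/-- The class of a multiplicative 2-cocycle `f : Gal(L/K)² → Lˣ` (junk value `0` if `f` is not
a cocycle). -/
noncomputable def mulClass (K L : Type) [Field K] [Field L] [Algebra K L]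
    (f : (L ≃ₐ[K] L) × (L ≃ₐ[K] L) → Lˣ) :
    groupCohomology.H2 (Rep.ofAlgebraAutOnUnits K L) :=
  if h : groupCohomology.IsMulCocycle₂ f then
    groupCohomology.H2π (Rep.ofAlgebraAutOnUnits K L) (groupCohomology.cocyclesOfIsMulCocycle₂ h)
  else 0

lemma cyclicClass_eq_mulClass (K L : Type) [Field K] [Field L] [Algebra K L]
    (φ : L ≃ₐ[K] L) (b : Kˣ) : cyclicClass K L φ b = mulClass K L (cyclicCochain K L φ b) := rfl

/-- The 2-cochain of the symbol `(χ, b)`: `(σ, τ) ↦ b ^ ⌊(χ̃ σ + χ̃ τ) / N⌋` where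
`χ̃ : G → {0, …, N-1}` is the standard lift of the character `χ : G → ℤ/N`.
It is a 2-cocycle when `b` is `G`-invariant; it represents `δχ ∪ b`. -/
def chiCochain {G : Type*} [Group G] {M : Type*} [CommGroup M] (N : ℕ)
    (χ : G →* Multiplicative (ZMod N)) (b : M) : G × G → M :=
  fun g => b ^ (((Multiplicative.toAdd (χ g.1)).val + (Multiplicative.toAdd (χ g.2)).val) / N)

/-- The class of the symbol `(χ, b)` in `H²(Gal(L/K), Lˣ)`, for a character
`χ : Gal(L/K) → ℤ/N` and `b ∈ Kˣ`. -/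
noncomputable def chiClass (K L : Type) [Field K] [Field L] [Algebra K L] (N : ℕ)
    (χ : (L ≃ₐ[K] L) →* Multiplicative (ZMod N)) (b : Kˣ) :
    groupCohomology.H2 (Rep.ofAlgebraAutOnUnits K L) :=
  mulClass K L (chiCochain N χ (Units.map (algebraMap K L : K →* L) b))

end symbol

/-! ## The level-constant (infinite level) picture -/

section levels

variable (K Ω : Type) [Field K] [Field Ω] [Algebra K Ω]

/-- The Galois levels of `Gal(Ω/K)`: normal subgroups of the form `Gal(Ω/L)`, `L/K` finite. -/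
def galLevels : Levels (Ω ≃ₐ[K] Ω) where
  mem := {N | N.Normal ∧ ∃ L : IntermediateField K Ω, FiniteDimensional K L ∧
    N = L.fixingSubgroup}
  normal := fun _ hN => hN.1
  nonempty := ⟨⊤, inferInstance, ⊥, inferInstance, IntermediateField.fixingSubgroup_bot.symm⟩
  directed := by
    rintro N₁ ⟨h₁, L₁, hL₁, rfl⟩ N₂ ⟨h₂, L₂, hL₂, rfl⟩
    refine ⟨L₁.fixingSubgroup ⊓ L₂.fixingSubgroup, ⟨inferInstance, L₁ ⊔ L₂, inferInstance, ?_⟩,
      le_rfl⟩
    exact IntermediateField.fixingSubgroup_sup.symm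

end levels

/-- The `M`-valued 2-cochain `ζ ^ c` attached to a `ZMod p`-valued 2-cochain `c`
(`ζ` a `p`-th root of unity). -/
def zetaCochain {G : Type*} (p : ℕ) {M : Type*} [Monoid M] (ζ : M) (c : G × G → ZMod p) :
    G × G → M :=
  fun g => ζ ^ (c g).val

/-- THE LOCAL DELIVERABLE FOR MODULE B (fields `inv`, (I1), (I2), `loc_fin` of `BaseInput`), for
the absolute Galois group `Gal(Ω/K)` of a `q`-adic field `K ∋ ζ_p` with its Galois levels and
trivial coefficients `ZMod p`.  `inv_spec` ties `inv` to the family `I` of invariant maps: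
for a cocycle `c` inflated from a finite Galois `L/K`, `inv c / p = I.inv q K L [ζ ^ c]`. -/
structure LocalDuality (I : LocInv) (q : ℕ) [Fact q.Prime] (p : ℕ) [Fact p.Prime]
    (K Ω : Type) [Field K] [Field Ω] [Algebra ℚ_[q] K] [FiniteDimensional ℚ_[q] K]
    [Algebra K Ω] (ζ : Kˣ) where
  /-- the invariant on 2-cochains (only its values on level 2-cocycles matter) -/
  inv : ((Ω ≃ₐ[K] Ω) × (Ω ≃ₐ[K] Ω) → ZMod p) →ₗ[ZMod p] ZMod p
  /-- compatibility with the finite-level invariants -/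
  inv_spec : ∀ (L : IntermediateField K Ω) [FiniteDimensional K L] [IsGalois K L]
    (c : (L ≃ₐ[K] L) × (L ≃ₐ[K] L) → ZMod p),
    c ∈ LinearMap.ker (groupCohomology.d₂₃ (Rep.trivial (ZMod p) (L ≃ₐ[K] L) (ZMod p))).hom →
    ((((inv fun g => c (AlgEquiv.restrictNormalHom L g.1, AlgEquiv.restrictNormalHom L g.2)).val
        : ℚ) / (p : ℚ) : ℚ) : QZ) =
      I.inv q K L (mulClass K L (zetaCochain p (Units.map (algebraMap K L : K →* L) ζ) c))
  /-- (I1) `inv` is injective on `H²` -/
  inv_eq_zero_iff : ∀ c ∈ Z2 (galLevels K Ω) (Rep.trivial (ZMod p) (Ω ≃ₐ[K] Ω) (ZMod p)),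
    inv c = 0 ↔ c ∈ B2 (galLevels K Ω) (Rep.trivial (ZMod p) (Ω ≃ₐ[K] Ω) (ZMod p))
  /-- (I1) `inv` is nonzero -/
  inv_ne_zero : ∃ c ∈ Z2 (galLevels K Ω) (Rep.trivial (ZMod p) (Ω ≃ₐ[K] Ω) (ZMod p)),
    inv c ≠ 0
  /-- (I2) local duality: the cup product pairing on `H¹` is non-degenerate -/
  nondeg : ∀ x ∈ Z1 (galLevels K Ω) (Rep.trivial (ZMod p) (Ω ≃ₐ[K] Ω) (ZMod p)),
    (∀ y ∈ Z1 (galLevels K Ω) (Rep.trivial (ZMod p) (Ω ≃ₐ[K] Ω) (ZMod p)),
      inv (fun g => x g.1 * y g.2) = 0) → x = 0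
  /-- local `H¹` is finite -/
  fin : Module.Finite (ZMod p) ↥(Z1 (galLevels K Ω) (Rep.trivial (ZMod p) (Ω ≃ₐ[K] Ω) (ZMod p)))

end Fermat.Agent.S55.helper8
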