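import Fermat.Agent.S55.helper59_BDefs
import Fermat.Agent.S55.helper74_LocalLevels
import Fermat.Agent.S55.helper11_RecDefs
import Fermat.Agent.S55.helper8_LocDefs2

/-!
# S55 module B: the finite-level dictionary (definitions)

* `resFix K E` : restriction `Gal(Ω/K) = K.fixingSubgroup → Gal(E/K)` for a normal finite level
  `E : IntermediateField K Ω` (used globally with `Ω = ℚbar` and locally with `Ω = PadicAlgCl q`);
* `infl₁ infl₂ infl₃` : inflation of finite-level cochains;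
* `kummerFun ζ c` : the multiplicative 2-cochain `(σ,τ) ↦ ζ ^ c(σ,τ)` with values in `Eˣ`;
* `qzOfZMod` : the embedding `ℤ/p → ℚ/ℤ`, `a ↦ a/p`.
-/

set_option autoImplicit false

open groupCohomology ExtCitation

noncomputable section

namespace Fermat.Agent.S55.helper59

open Fermat.Agent.S55

/-! ## Restriction to finite levels -/

section ResFix

variable {k Ω : Type} [Field k] [Field Ω] [Algebra k Ω] (K : IntermediateField k Ω)

/-- Restriction `Gal(Ω/K) → Gal(E/K)` on the fixing subgroup of `K`, for `E/K` normal. -/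
def resFix (E : IntermediateField K Ω) [Normal K E] : ↥K.fixingSubgroup →* (E ≃ₐ[K] E) :=
  (AlgEquiv.restrictNormalHom E).comp (IntermediateField.fixingSubgroupEquiv K).toMonoidHom

lemma resFix_apply_coe (E : IntermediateField K Ω) [Normal K E] (σ : ↥K.fixingSubgroup) (x : E) :
    ((resFix K E σ x : E) : Ω) = (σ : Ω ≃ₐ[k] Ω) (x : Ω) := by
  change ((AlgEquiv.restrictNormalHom E (IntermediateField.fixingSubgroupEquiv K σ) x : E) : Ω) = _
  rw [AlgEquiv.restrictNormalHom_apply]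
  rfl

lemma resFix_surjective [Normal K Ω] (E : IntermediateField K Ω) [Normal K E] :
    Function.Surjective (resFix K E) := by
  intro τ
  obtain ⟨σ, hσ⟩ := AlgEquiv.restrictNormalHom_surjective (F := K) (K₁ := E) Ω τ
  exact ⟨(IntermediateField.fixingSubgroupEquiv K).symm σ, by
    simp only [resFix, MonoidHom.comp_apply, MulEquiv.coe_toMonoidHom, MulEquiv.apply_symm_apply, hσ]⟩

lemma mem_ker_resFix_iff (E : IntermediateField K Ω) [Normal K E] (σ : ↥K.fixingSubgroup) :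
    σ ∈ (resFix K E).ker ↔ ∀ x ∈ E, (σ : Ω ≃ₐ[k] Ω) x = x := by
  rw [MonoidHom.mem_ker]
  constructor
  · intro h x hx
    have := resFix_apply_coe K E σ ⟨x, hx⟩
    rw [h] at this
    exact this.symm
  · intro h
    ext x
    rw [resFix_apply_coe]
    exact h x x.2

end ResFix

/-! ## Inflation of cochains -/

section Infl

variable {G Q X : Type*} (π : G → Q)

/-- inflation of 1-cochains -/
def infl₁ (f : Q → X) : G → X := fun g => f (π g)
/-- inflation of 2-cochains -/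
def infl₂ (f : Q × Q → X) : G × G → X := fun g => f (π g.1, π g.2)
/-- inflation of 3-cochains -/
def infl₃ (f : Q × Q × Q → X) : G × G × G → X := fun g => f (π g.1, π g.2.1, π g.2.2)

@[simp] lemma infl₁_apply (f : Q → X) (g : G) : infl₁ π f g = f (π g) := rfl
@[simp] lemma infl₂_apply (f : Q × Q → X) (g h : G) : infl₂ π f (g, h) = f (π g, π h) := rfl
@[simp] lemma infl₃_apply (f : Q × Q × Q → X) (g₁ g₂ g₃ : G) :
    infl₃ π f (g₁, g₂, g₃) = f (π g₁, π g₂, π g₃) := rfl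

end Infl

/-! ## The Kummer 2-cochain and `ℤ/p → ℚ/ℤ` -/

section Kummer

variable {p : ℕ} [Fact p.Prime]

/-- `ζ ^ a` for `a : ℤ/p` (meaningful when `ζ ^ p = 1`). -/
def zpowZMod {M : Type*} [Monoid M] (ζ : M) (a : ZMod p) : M := ζ ^ a.val

/-- The multiplicative 2-cochain `(σ,τ) ↦ ζ ^ c(σ,τ)` with values in `Additive Eˣ`. -/
def kummerFun {Q E : Type*} [Field E] (ζ : Eˣ) (c : Q × Q → ZMod p) : Q × Q → Additive Eˣ :=
  fun x => Additive.ofMul (zpowZMod ζ (c x))

/-- The embedding `ℤ/p → ℚ/ℤ`, `a ↦ a/p`. -/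
def qzOfZMod (p : ℕ) [Fact p.Prime] (a : ZMod p) : helper11.QZ :=
  (((a.val : ℚ) / (p : ℚ) : ℚ) : helper11.QZ)

end Kummer

/-! ## The arithmetic local dictionary -/

section ArithLocal

local instance factOfPrimes (q : Nat.Primes) : Fact (q : ℕ).Prime := ⟨q.2⟩

variable {S : Finset Nat.Primes} {F : IntermediateField ℚ (AlgebraicClosure ℚ)}
  {𝒩 : Levels (UF F)} {ι : Type} {L : LocalData (UF F) 𝒩 ι}

/-- the conjugate field `g_w⁻¹(F)` -/
def IsArith.conjField (hL : IsArith S F L) (w : ι) :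
    IntermediateField ℚ (AlgebraicClosure ℚ) :=
  F.map ((hL.g w)⁻¹ : GQ).toAlgHom

lemma IsArith.mem_conjField_iff (hL : IsArith S F L) (w : ι) (x : AlgebraicClosure ℚ) :
    x ∈ hL.conjField w ↔ hL.g w x ∈ F := by
  constructor
  · rintro ⟨y, hy, rfl⟩
    have : hL.g w (((hL.g w)⁻¹ : GQ) y) = y := by
      rw [← AlgEquiv.mul_apply, mul_inv_cancel, AlgEquiv.one_apply]
    change hL.g w (((hL.g w)⁻¹ : GQ) y) ∈ F
    rw [this]
    exact hy
  · intro h
    refine ⟨hL.g w x, h, ?_⟩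
    change ((hL.g w)⁻¹ : GQ) (hL.g w x) = x
    rw [← AlgEquiv.mul_apply, inv_mul_cancel, AlgEquiv.one_apply]

/-- the local field `K_w = ℚ_q(ι(g_w⁻¹ F))` inside `PadicAlgCl q` -/
def IsArith.Kw (hL : IsArith S F L) (w : ι) :
    IntermediateField ℚ_[((hL.q w : ℕ))] (PadicAlgCl (hL.q w : ℕ)) :=
  helper74.localField (hL.q w : ℕ) (hL.conjField w)

/-- the embedding `F → K_w`, `x ↦ ι(g_w⁻¹ x)` -/
def IsArith.locEmb (hL : IsArith S F L) (w : ι) : ↥F →+* ↥(hL.Kw w) where
  toFun x := ⟨padicEmbedding (hL.q w : ℕ) (((hL.g w)⁻¹ : GQ) (x : AlgebraicClosure ℚ)),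
    helper74.padicEmbedding_mem_localField (hL.q w : ℕ) ⟨x, x.2, rfl⟩⟩
  map_one' := by ext; simp
  map_mul' x y := by ext; simp
  map_zero' := by ext; simp
  map_add' x y := by ext; simp

/-- `j_w` with values in the honest automorphism group (unfolding `primeLocalGaloisGroup`) -/
def IsArith.jq (hL : IsArith S F L) (w : ι) :
    L.Gv w →* (PadicAlgCl (hL.q w : ℕ) ≃ₐ[ℚ_[((hL.q w : ℕ))]] PadicAlgCl (hL.q w : ℕ)) :=
  hL.j w

lemma IsArith.jq_injective (hL : IsArith S F L) (w : ι) : Function.Injective (hL.jq w) :=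
  hL.j_injective w

lemma IsArith.mem_range_jq_iff (hL : IsArith S F L) (w : ι)
    (h : PadicAlgCl (hL.q w : ℕ) ≃ₐ[ℚ_[((hL.q w : ℕ))]] PadicAlgCl (hL.q w : ℕ)) :
    h ∈ (hL.jq w).range ↔
      hL.g w * localGaloisToGlobal (hL.q w : ℕ) h * (hL.g w)⁻¹ ∈ F.fixingSubgroup :=
  hL.range_j w h

lemma IsArith.conj_mem_iff (hL : IsArith S F L) (w : ι) (σ : GQ) :
    hL.g w * σ * (hL.g w)⁻¹ ∈ F.fixingSubgroup ↔ σ ∈ (hL.conjField w).fixingSubgroup := by
  rw [IntermediateField.mem_fixingSubgroup_iff, IntermediateField.mem_fixingSubgroup_iff]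
  constructor
  · intro h x hx
    have h1 := h (hL.g w x) ((hL.mem_conjField_iff w x).1 hx)
    rw [AlgEquiv.mul_apply, AlgEquiv.mul_apply, ← AlgEquiv.mul_apply (hL.g w)⁻¹,
      inv_mul_cancel, AlgEquiv.one_apply] at h1
    exact (hL.g w).injective h1
  · intro h x hx
    have hx' : ((hL.g w)⁻¹ : GQ) x ∈ hL.conjField w := ⟨x, hx, rfl⟩
    rw [AlgEquiv.mul_apply, AlgEquiv.mul_apply, h _ hx', ← AlgEquiv.mul_apply, mul_inv_cancel,
      AlgEquiv.one_apply]

lemma IsArith.mem_range_jq_iff' (hL : IsArith S F L) (w : ι)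
    (h : PadicAlgCl (hL.q w : ℕ) ≃ₐ[ℚ_[((hL.q w : ℕ))]] PadicAlgCl (hL.q w : ℕ)) :
    h ∈ (hL.jq w).range ↔ h ∈ (hL.Kw w).fixingSubgroup := by
  rw [hL.mem_range_jq_iff, hL.conj_mem_iff, IsArith.Kw,
    helper74.mem_fixingSubgroup_localField_iff]

/-- the isomorphism (as a homomorphism) `U_w → Gal(Ω/K_w)` -/
def IsArith.toLoc (hL : IsArith S F L) (w : ι) : L.Gv w →* ↥(hL.Kw w).fixingSubgroup where
  toFun s := ⟨hL.jq w s, (hL.mem_range_jq_iff' w _).1 ⟨s, rfl⟩⟩
  map_one' := by ext1; exact map_one _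
  map_mul' _ _ := by ext1; exact map_mul _ _ _

lemma IsArith.toLoc_injective (hL : IsArith S F L) (w : ι) : Function.Injective (hL.toLoc w) :=
  fun _ _ h => hL.jq_injective w (congrArg Subtype.val h)

lemma IsArith.toLoc_surjective (hL : IsArith S F L) (w : ι) :
    Function.Surjective (hL.toLoc w) := by
  rintro ⟨h, hh⟩
  obtain ⟨s, rfl⟩ := (hL.mem_range_jq_iff' w h).2 hh
  exact ⟨s, rfl⟩

lemma IsArith.finiteDimensional_conjField (hL : IsArith S F L) (w : ι) [FiniteDimensional ℚ F] :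
    FiniteDimensional ℚ (hL.conjField w) := by
  have e : ↥F ≃ₐ[ℚ] ↥(hL.conjField w) :=
    IntermediateField.equivMap F ((hL.g w)⁻¹ : GQ).toAlgHom
  exact e.toLinearEquiv.finiteDimensional

lemma IsArith.finiteDimensional_Kw (hL : IsArith S F L) (w : ι) [FiniteDimensional ℚ F] :
    FiniteDimensional ℚ_[((hL.q w : ℕ))] (hL.Kw w) := by
  have := hL.finiteDimensional_conjField w
  exact helper74.finiteDimensional_localField (hL.q w : ℕ) (hL.conjField w)

/-- restriction of the local group at `w` to a finite level `M / K_w` -/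
def IsArith.locRes (hL : IsArith S F L) (w : ι) (M : IntermediateField (hL.Kw w)
    (PadicAlgCl (hL.q w : ℕ))) [Normal (hL.Kw w) M] : L.Gv w →* (M ≃ₐ[hL.Kw w] M) :=
  (resFix (hL.Kw w) M).comp (hL.toLoc w)

/-- the isomorphism `U_w ≃ Gal(Ω/K_w)` -/
def IsArith.locEquiv (hL : IsArith S F L) (w : ι) :
    L.Gv w ≃* (PadicAlgCl (hL.q w : ℕ) ≃ₐ[hL.Kw w] PadicAlgCl (hL.q w : ℕ)) :=
  (MulEquiv.ofBijective (hL.toLoc w) ⟨hL.toLoc_injective w, hL.toLoc_surjective w⟩).trans
    (IntermediateField.fixingSubgroupEquiv (hL.Kw w))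

lemma IsArith.locEquiv_apply (hL : IsArith S F L) (w : ι) (s : L.Gv w)
    (x : PadicAlgCl (hL.q w : ℕ)) : hL.locEquiv w s x = hL.jq w s x := rfl

lemma IsArith.locRes_eq (hL : IsArith S F L) (w : ι) (M : IntermediateField (hL.Kw w)
    (PadicAlgCl (hL.q w : ℕ))) [Normal (hL.Kw w) M] (s : L.Gv w) :
    hL.locRes w M s = AlgEquiv.restrictNormalHom M (hL.locEquiv w s) := rfl

/-- the image `ζ_w` in `K_w` of a global unit `ζ` of `F` -/
def IsArith.locUnit (hL : IsArith S F L) (w : ι) (ζ : (↥F)ˣ) : (↥(hL.Kw w))ˣ :=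
  Units.map (hL.locEmb w : ↥F →* ↥(hL.Kw w)) ζ

/-- The family `inv` of local functionals is the family of local invariants attached to the
invariant system `Inv` and to the global root of unity `ζ ∈ F`: on a 2-cocycle inflated from a
finite level `M / K_w`, `inv_w / p` is the `Inv`-invariant of the class of `ζ_w ^ c` in
`H²(Gal(M/K_w), Mˣ)` (same shape as `helper8.LocalDuality.inv_spec`). -/
def InvCompat {p : ℕ} [Fact p.Prime] [FiniteDimensional ℚ F] (Inv : helper11.LocInv) (ζ : (↥F)ˣ)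
    (hL : IsArith S F L)
    (inv : ∀ w : ι, (L.Gv w × L.Gv w → ZMod p) →ₗ[ZMod p] ZMod p) : Prop :=
  ∀ (w : ι), haveI := hL.finiteDimensional_Kw w
    ∀ (M : IntermediateField (hL.Kw w) (PadicAlgCl (hL.q w : ℕ)))
    [FiniteDimensional (hL.Kw w) M] [IsGalois (hL.Kw w) M]
    (c : (M ≃ₐ[hL.Kw w] M) × (M ≃ₐ[hL.Kw w] M) → ZMod p),
    c ∈ LinearMap.ker (d₂₃ (Rep.trivial (ZMod p) (M ≃ₐ[hL.Kw w] M) (ZMod p))).hom →
    (((((inv w (infl₂ (hL.locRes w M) c)).val : ℚ) / (p : ℚ) : ℚ)) : helper11.QZ) =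
      Inv.inv (hL.q w : ℕ) (hL.Kw w) M
        (helper8.mulClass (hL.Kw w) M (helper8.zetaCochain p
          (Units.map (algebraMap (hL.Kw w) M : (hL.Kw w) →* M) (hL.locUnit w ζ)) c))

end ArithLocal

end Fermat.Agent.S55.helper59
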