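import Fermat.Agent.S55.ShArith
import Fermat.Agent.S55.TopAbs
import Fermat.Agent.S55.helper59_BDic
import Fermat.Agent.S55.helper57_ShData

/-!
# S55 / TOP-TR: the top-level trace functional

`H_c^3(G_ℚ, S; μ_p) ≠ 0`: there is a trace functional on `CcAmb3 (galLocal S) (ofChar χ_cyc)`
killing cone coboundaries and NONZERO on a cone cocycle.  Assembly (TOP-FIN) from

* `BaseInputStatement p S` : the deliverable of module B (arithmetic `BaseInput` with `InvCompat`)
  for the local data `D.localData hU` of `U = Gal(ℚbar/F)`;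
* `TopLocStatement p S`    : the local computation at `p` (TOP-LOC);
* `topAbs_not_mem_Bc3_of_baseInput` (TOP-ABS).
-/

set_option autoImplicit false

open groupCohomology ExtCitation

noncomputable section

namespace Fermat.Agent.S55

open helper35

local instance factOfPrimesTop (q : Nat.Primes) : Fact (q : ℕ).Prime := ⟨q.2⟩

variable (p : ℕ) [Fact p.Prime] (S : Finset Nat.Primes)

/-- TOP-LOC (exact deliverable): a twisted local 2-cocycle `b` at `p` on `G_p` whose restrictions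
to the local groups `U_(p,j)` of `U = Gal(ℚbar/F)` have invariants with
`∑_j χ(y_j)⁻¹ inv_(p,j) (b|U_(p,j)) ≠ 0` (the sum is `[F:ℚ] · x(Frob_p)`). -/
def TopLocStatement : Prop :=
  p ≠ 2 → ∀ hpS : pPrime p ∈ S,
  ∀ (F : IntermediateField ℚ (AlgebraicClosure ℚ)) [FiniteDimensional ℚ F],
    ¬ p ∣ Module.finrank ℚ F →
  ∀ (hU : ∃ N ∈ (galLevels S).mem, N ≤ F.fixingSubgroup)
    (D : ShData (galLocal S) F.fixingSubgroup)
    (Inv : helper11.LocInv) (ζ : (↥F)ˣ), IsPrimitiveRoot ζ p →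
  ∀ inv : ∀ w : Σ v, D.J v,
      ((D.localData hU).Gv w × (D.localData hU).Gv w → ZMod p) →ₗ[ZMod p] ZMod p,
    (∀ w, ∀ c ∈ B2 ((D.localData hU).lev w) (trivRep (ZMod p) ((D.localData hU).Gv w)),
      inv w c = 0) →
    helper59.InvCompat Inv ζ (shIsArith S F hU D) inv →
    ∃ b : (galLocal S).Gv ⟨pPrime p, hpS⟩ × (galLocal S).Gv ⟨pPrime p, hpS⟩ →
        (galLocal S).loc (groupCohomology.ofChar (k := ZMod p) (cycloChar p)) ⟨pPrime p, hpS⟩,
      b ∈ Z2 ((galLocal S).lev ⟨pPrime p, hpS⟩)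
        ((galLocal S).loc (groupCohomology.ofChar (k := ZMod p) (cycloChar p)) ⟨pPrime p, hpS⟩) ∧
      ∑ j : D.J ⟨pPrime p, hpS⟩,
        (((cycloChar p (D.y ⟨pPrime p, hpS⟩ j))⁻¹ : (ZMod p)ˣ) : ZMod p) *
          inv ⟨⟨pPrime p, hpS⟩, j⟩ (fun s =>
            (b ((D.Uw ⟨pPrime p, hpS⟩ j).subtype s.1, (D.Uw ⟨pPrime p, hpS⟩ j).subtype s.2) :
              ZMod p)) ≠ 0

/-- What TOP-TR and the final assembly consume from module B: the arithmetic `BaseInput` of the
local data of `U = Gal(ℚbar/F)`, with local invariants compatible with an invariant system. -/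
def BaseInputStatement : Prop :=
  p ≠ 2 → pPrime p ∈ S →
  ∀ (F : IntermediateField ℚ (AlgebraicClosure ℚ)) [FiniteDimensional ℚ F],
    F.IsUnramifiedOutside S → helper59.HasZeta p F →
  ∀ (hU : ∃ N ∈ (galLevels S).mem, N ≤ F.fixingSubgroup)
    (D : ShData (galLocal S) F.fixingSubgroup),
    ∃ (I : helper59.BaseInput (k := ZMod p) (D.localData hU)) (Inv : helper11.LocInv)
      (ζ : (↥F)ˣ), IsPrimitiveRoot ζ p ∧ helper59.InvCompat Inv ζ (shIsArith S F hU D) I.inv

/-- the index of the kernel of the cyclotomic character is prime to `p` -/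
lemma not_dvd_index_ker_cycloChar : ¬ p ∣ (cycloChar p).ker.index := by
  have hp : p.Prime := Fact.out
  have : NeZero p := ⟨hp.ne_zero⟩
  rw [Subgroup.index_ker]
  intro h
  have h1 : Nat.card ↥(cycloChar p).range ∣ Nat.card (ZMod p)ˣ :=
    Subgroup.card_subgroup_dvd_card _
  have h2 : Nat.card (ZMod p)ˣ = p - 1 := by
    rw [Nat.card_eq_fintype_card, ZMod.card_units_eq_totient, Nat.totient_prime hp]
  rw [h2] at h1
  have h3 : p ∣ p - 1 := h.trans h1
  have h4 := Nat.le_of_dvd (Nat.sub_pos_of_lt hp.one_lt) h3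
  have h5 := hp.one_lt
  omega

/-- TOP-FIN: the top-level trace functional exists. -/
theorem exists_top_tr (hB : BaseInputStatement p S) (hLoc : TopLocStatement p S)
    (hp2 : p ≠ 2) (hpS : pPrime p ∈ S) :
    ∃ tr : CcAmb3 (galLocal S) (groupCohomology.ofChar (k := ZMod p) (cycloChar p)) →ₗ[ZMod p]
        ZMod p,
      (∀ c ∈ Bc3 (galLocal S) (groupCohomology.ofChar (k := ZMod p) (cycloChar p)), tr c = 0) ∧
      ∃ z ∈ Zc3 (galLocal S) (groupCohomology.ofChar (k := ZMod p) (cycloChar p)), tr z ≠ 0 := by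
  classical
  -- the subgroup `U₀ = ker χ`
  obtain ⟨hfin, N, hN, hχN⟩ := helper92.levelStatement p S hpS
  have hU₀ : ∃ N ∈ (galLevels S).mem, N ≤ (cycloChar p).ker :=
    ⟨N, hN, fun g hg => MonoidHom.mem_ker.2 (hχN g hg)⟩
  obtain ⟨F, hF, hUF⟩ := exists_field_of_open S (cycloChar p).ker hU₀
  have hχF : ∀ g ∈ F.fixingSubgroup, cycloChar p g = 1 := by
    intro g hg
    rw [← hUF] at hg
    exact MonoidHom.mem_ker.1 hg
  have hU : ∃ N ∈ (galLevels S).mem, N ≤ F.fixingSubgroup := by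
    rw [← hUF]
    exact hU₀
  have : FiniteDimensional ℚ F := hF.1
  have hζF := hasZeta_of_cycloChar_eq_one F p hχF
  have hpF : ¬ p ∣ Module.finrank ℚ F := by
    rw [finrank_eq_index_fixingSubgroup, ← hUF]
    exact not_dvd_index_ker_cycloChar p
  have : Finite (GQ ⧸ F.fixingSubgroup) := by
    obtain ⟨N', hN', hle⟩ := hU
    have := hfin N' hN'
    have : N'.FiniteIndex := Subgroup.finiteIndex_of_finite_quotient
    have : F.fixingSubgroup.FiniteIndex := Subgroup.finiteIndex_of_le hle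
    infer_instance
  obtain ⟨D⟩ := helper57.nonempty_shData (L := galLocal S) (U := F.fixingSubgroup)
  obtain ⟨I, Inv, ζ, hζ, hcompat⟩ := hB hp2 hpS F hF hζF hU D
  have hinvB : ∀ w, ∀ c ∈ B2 ((D.localData hU).lev w)
      (trivRep (ZMod p) ((D.localData hU).Gv w)), I.inv w c = 0 := by
    intro w c hc
    refine (I.inv_eq_zero_iff w c (B2_le_Z2 ?_ hc)).2 hc
    obtain ⟨N', hN'⟩ := ((D.localData hU).lev w).nonempty
    exact ⟨N', hN', fun _ _ _ => rfl⟩
  obtain ⟨b₀, hb₀, hsum⟩ := hLoc hp2 hpS F hpF hU D Inv ζ hζ I.inv hinvB hcompat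
  -- the family of local cocycles: `b₀` at `p`, zero elsewhere
  let v₀ : ↥S := ⟨pPrime p, hpS⟩
  let b : ∀ v : ↥S, (galLocal S).Gv v × (galLocal S).Gv v →
      (galLocal S).loc (groupCohomology.ofChar (k := ZMod p) (cycloChar p)) v :=
    fun v => if h : v = v₀ then (by subst h; exact b₀) else 0
  have hbv₀ : b v₀ = b₀ := by
    simp only [b, dif_pos rfl]
  have hbne : ∀ v, v ≠ v₀ → b v = 0 := by
    intro v hv
    simp only [b, dif_neg hv]
  have hb : ∀ v, b v ∈ Z2 ((galLocal S).lev v)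
      ((galLocal S).loc (groupCohomology.ofChar (k := ZMod p) (cycloChar p)) v) := by
    intro v
    by_cases hv : v = v₀
    · subst hv
      rw [hbv₀]
      exact hb₀
    · rw [hbne v hv]
      exact Submodule.zero_mem _
  have hne : ∑ w : Σ v, D.J v, (((cycloChar p (D.y w.1 w.2))⁻¹ : (ZMod p)ˣ) : ZMod p) *
      I.inv w (fun s => (b w.1 ((D.Uw w.1 w.2).subtype s.1, (D.Uw w.1 w.2).subtype s.2) :
        ZMod p)) ≠ 0 := by
    rw [Fintype.sum_sigma, Fintype.sum_eq_single v₀]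
    · simp only [hbv₀]
      exact hsum
    · intro v hv
      refine Finset.sum_eq_zero fun j _ => ?_
      have h0 : (fun s : (D.localData hU).Gv ⟨v, j⟩ × (D.localData hU).Gv ⟨v, j⟩ =>
          (b v ((D.Uw v j).subtype s.1, (D.Uw v j).subtype s.2) : ZMod p)) = 0 := by
        funext s
        rw [hbne v hv]
        rfl
      change _ * I.inv ⟨v, j⟩ (fun s : (D.localData hU).Gv ⟨v, j⟩ × (D.localData hU).Gv ⟨v, j⟩ =>
          (b v ((D.Uw v j).subtype s.1, (D.Uw v j).subtype s.2) : ZMod p)) = 0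
      rw [h0, map_zero, mul_zero]
  obtain ⟨hz, hnz⟩ := topAbs_not_mem_Bc3_of_baseInput (galLocal S) (cycloChar p) hU D hχF I b hb hne
  obtain ⟨tr, htr, htrz⟩ := exists_tr_of_not_mem_Bc3 (galLocal S) _ hnz
  exact ⟨tr, htr, _, hz, htrz⟩

end Fermat.Agent.S55
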