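import Fermat.Agent.S55.AInterface

/-!
# S55, module A: `ZeroStatement` and `RetStatement` (tasks 304)

* `zeroStatement L : ZeroStatement L` : the `Claim` holds for zero modules.
* `retStatement L : RetStatement L` : the `Claim` passes to retracts (general pairings).

Auxiliary lemmas (`helper45` namespace): functoriality of the level cochain complex and of the
cone complex with respect to equivariant linear maps (`EqHom`).
-/

set_option autoImplicit false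

universe u

open groupCohomology

noncomputable section

namespace Fermat.Agent.S55.helper45

variable {k G : Type u} [Field k] [Group G] {𝒩 : Levels G} {ι : Type} (L : LocalData G 𝒩 ι)

/-! ## Functoriality of cochains under an equivariant map -/

section Functoriality

variable {A A' : Rep.{u} k G} (f : EqHom A A')

lemma d01_map (a : A) :
    (d₀₁ A').hom (f.f a) = fun g => f.f ((d₀₁ A).hom a g) := by
  funext g
  simp only [d₀₁_hom_apply, map_sub, f.comm]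

lemma d12_map (x : G → A) :
    (d₁₂ A').hom (fun g => f.f (x g)) = fun g => f.f ((d₁₂ A).hom x g) := by
  funext g
  simp only [d₁₂_hom_apply, map_sub, map_add, f.comm]

lemma d23_map (x : G × G → A) :
    (d₂₃ A').hom (fun g => f.f (x g)) = fun g => f.f ((d₂₃ A).hom x g) := by
  funext g
  simp only [d₂₃_hom_apply, map_sub, map_add, f.comm]

lemma d34_map (x : G × G × G → A) :
    d₃₄ A' (fun g => f.f (x g)) = fun g => f.f (d₃₄ A x g) := by
  funext ⟨g₁, g₂, g₃, g₄⟩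
  simp only [d₃₄_apply, map_sub, map_add, f.comm]

lemma isLev₁_map {x : G → A} (hx : IsLev₁ 𝒩 x) : IsLev₁ 𝒩 (fun g => f.f (x g)) := by
  obtain ⟨N, hN, h⟩ := hx
  exact ⟨N, hN, fun g s hs => by simp only [h g s hs]⟩

lemma isLev₂_map {x : G × G → A} (hx : IsLev₂ 𝒩 x) : IsLev₂ 𝒩 (fun g => f.f (x g)) := by
  obtain ⟨N, hN, h⟩ := hx
  exact ⟨N, hN, fun g₁ g₂ s₁ hs₁ s₂ hs₂ => by simp only [h g₁ g₂ s₁ hs₁ s₂ hs₂]⟩

lemma isLev₃_map {x : G × G × G → A} (hx : IsLev₃ 𝒩 x) : IsLev₃ 𝒩 (fun g => f.f (x g)) := by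
  obtain ⟨N, hN, h⟩ := hx
  exact ⟨N, hN, fun g₁ g₂ g₃ s₁ hs₁ s₂ hs₂ s₃ hs₃ => by
    simp only [h g₁ g₂ g₃ s₁ hs₁ s₂ hs₂ s₃ hs₃]⟩

lemma mem_H0_map {a : A} (ha : a ∈ H0 A) : f.f a ∈ H0 A' := by
  intro g
  rw [← f.comm, ha g]

lemma mem_Z1_map {x : G → A} (hx : x ∈ Z1 𝒩 A) : (fun g => f.f (x g)) ∈ Z1 𝒩 A' := by
  refine ⟨isLev₁_map f hx.1, ?_⟩
  have h : (d₁₂ A).hom x = 0 := hx.2
  change (d₁₂ A').hom (fun g => f.f (x g)) = 0
  rw [d12_map, h]
  funext g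
  exact map_zero f.f

lemma mem_Z2_map {x : G × G → A} (hx : x ∈ Z2 𝒩 A) : (fun g => f.f (x g)) ∈ Z2 𝒩 A' := by
  refine ⟨isLev₂_map f hx.1, ?_⟩
  have h : (d₂₃ A).hom x = 0 := hx.2
  change (d₂₃ A').hom (fun g => f.f (x g)) = 0
  rw [d23_map, h]
  funext g
  exact map_zero f.f

lemma mem_B1_map {x : G → A} (hx : x ∈ B1 A) : (fun g => f.f (x g)) ∈ B1 A' := by
  obtain ⟨a, rfl⟩ := hx
  exact ⟨f.f a, d01_map f a⟩

lemma mem_B2_map {x : G × G → A} (hx : x ∈ B2 𝒩 A) : (fun g => f.f (x g)) ∈ B2 𝒩 A' := by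
  obtain ⟨c, hc, rfl⟩ := hx
  exact ⟨fun g => f.f (c g), isLev₁_map f hc, d12_map f c⟩

/-! ### the cone -/

/-- the restriction of an equivariant map to a local group -/
def locHom (v : ι) : EqHom (L.loc A v) (L.loc A' v) where
  f := f.f
  comm g a := f.comm (L.r v g) a

lemma dc12_map (y : CcAmb1 L A) :
    dc₁₂ L A' (ccmap₁ L f.f y) = ccmap₂ L f.f (dc₁₂ L A y) := by
  refine Prod.ext (d12_map f y.1) ?_
  funext v
  have h := d01_map (locHom L f v) (y.2 v)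
  funext s
  have hs := congrFun h s
  change f.f (y.1 (L.r v s)) - (d₀₁ (L.loc A' v)).hom (f.f (y.2 v)) s
    = f.f (y.1 (L.r v s) - (d₀₁ (L.loc A v)).hom (y.2 v) s)
  rw [map_sub]
  exact congrArg _ hs

lemma dc23_map (y : CcAmb2 L A) :
    dc₂₃ L A' (ccmap₂ L f.f y) = ccmap₃ L f.f (dc₂₃ L A y) := by
  refine Prod.ext (d23_map f y.1) ?_
  funext v
  have h := d12_map (locHom L f v) (y.2 v)
  funext s
  have hs := congrFun h s
  change f.f (y.1 (L.r v s.1, L.r v s.2)) - (d₁₂ (L.loc A' v)).hom (fun t => f.f (y.2 v t)) s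
    = f.f (y.1 (L.r v s.1, L.r v s.2) - (d₁₂ (L.loc A v)).hom (y.2 v) s)
  rw [map_sub]
  exact congrArg _ hs

lemma dc34_map_eq_zero {y : CcAmb3 L A} (hy : dc₃₄ L A y = 0) :
    dc₃₄ L A' (ccmap₃ L f.f y) = 0 := by
  have h1 : d₃₄ A y.1 = 0 := congrArg Prod.fst hy
  have h2 : ∀ v, res₃ L A v y.1 - (d₂₃ (L.loc A v)).hom (y.2 v) = 0 := fun v =>
    congrFun (congrArg Prod.snd hy) v
  refine Prod.ext ?_ ?_
  · change d₃₄ A' (fun g => f.f (y.1 g)) = 0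
    rw [d34_map, h1]
    funext g
    exact map_zero f.f
  · funext v
    have h := d23_map (locHom L f v) (y.2 v)
    funext s
    have hs : (d₂₃ (L.loc A' v)).hom (fun t => f.f (y.2 v t)) s
        = f.f ((d₂₃ (L.loc A v)).hom (y.2 v) s) := congrFun h s
    have h2s : y.1 (L.r v s.1, L.r v s.2.1, L.r v s.2.2)
        - (d₂₃ (L.loc A v)).hom (y.2 v) s = 0 := congrFun (h2 v) s
    change f.f (y.1 (L.r v s.1, L.r v s.2.1, L.r v s.2.2))
      - (d₂₃ (L.loc A' v)).hom (fun t => f.f (y.2 v t)) s = 0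
    rw [hs, ← map_sub, h2s, map_zero]

lemma mem_Cc1_map {y : CcAmb1 L A} (hy : y ∈ Cc1 L A) : ccmap₁ L f.f y ∈ Cc1 L A' :=
  ⟨isLev₁_map f hy.1, trivial⟩

lemma mem_Cc2_map {y : CcAmb2 L A} (hy : y ∈ Cc2 L A) : ccmap₂ L f.f y ∈ Cc2 L A' :=
  ⟨isLev₂_map f hy.1, fun v hv => isLev₁_map (locHom L f v) (hy.2 v hv)⟩

lemma mem_Cc3_map {y : CcAmb3 L A} (hy : y ∈ Cc3 L A) : ccmap₃ L f.f y ∈ Cc3 L A' :=
  ⟨isLev₃_map f hy.1, fun v hv => isLev₂_map (locHom L f v) (hy.2 v hv)⟩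

lemma mem_Zc1_map {y : CcAmb1 L A} (hy : y ∈ Zc1 L A) : ccmap₁ L f.f y ∈ Zc1 L A' := by
  refine ⟨mem_Cc1_map L f hy.1, ?_⟩
  have h : dc₁₂ L A y = 0 := hy.2
  change dc₁₂ L A' (ccmap₁ L f.f y) = 0
  rw [dc12_map, h, map_zero]

lemma mem_Zc2_map {y : CcAmb2 L A} (hy : y ∈ Zc2 L A) : ccmap₂ L f.f y ∈ Zc2 L A' := by
  refine ⟨mem_Cc2_map L f hy.1, ?_⟩
  have h : dc₂₃ L A y = 0 := hy.2
  change dc₂₃ L A' (ccmap₂ L f.f y) = 0
  rw [dc23_map, h, map_zero]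

lemma mem_Zc3_map {y : CcAmb3 L A} (hy : y ∈ Zc3 L A) : ccmap₃ L f.f y ∈ Zc3 L A' :=
  ⟨mem_Cc3_map L f hy.1, dc34_map_eq_zero L f hy.2⟩

lemma mem_Bc2_map {y : CcAmb2 L A} (hy : y ∈ Bc2 L A) : ccmap₂ L f.f y ∈ Bc2 L A' := by
  obtain ⟨c, hc, rfl⟩ := hy
  exact ⟨ccmap₁ L f.f c, mem_Cc1_map L f hc, dc12_map L f c⟩

lemma mem_Bc3_map {y : CcAmb3 L A} (hy : y ∈ Bc3 L A) : ccmap₃ L f.f y ∈ Bc3 L A' := by
  obtain ⟨c, hc, rfl⟩ := hy
  exact ⟨ccmap₂ L f.f c, mem_Cc2_map L f hc, dc23_map L f c⟩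

end Functoriality

/-! ## Retractions on cochains -/

section Retract

variable {A A' B B' C : Rep.{u} k G} (R : RetData A A' B B' C)

lemma ccmap₂_rsB (y : CcAmb2 L B') : ccmap₂ L R.rB.f (ccmap₂ L R.sB.f y) = y := by
  refine Prod.ext ?_ ?_
  · funext g; exact R.rsB _
  · funext v s; exact R.rsB _

lemma ccmap₃_rsB (y : CcAmb3 L B') : ccmap₃ L R.rB.f (ccmap₃ L R.sB.f y) = y := by
  refine Prod.ext ?_ ?_
  · funext g; exact R.rsB _
  · funext v s; exact R.rsB _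

/-! ### compatibility of the cone cups with the retract data -/

lemma cupc₀₃_sB (a : A) (y : CcAmb3 L B') :
    cupc₀₃ L R.φ a (ccmap₃ L R.sB.f y) = cupc₀₃ L R.φ' (R.r.f a) y := by
  refine Prod.ext ?_ ?_
  · funext g; exact R.compat₂ _ _
  · funext v s; exact R.compat₂ _ _

lemma cupc₁₂_sB (x : G → A) (y : CcAmb2 L B') :
    cupc₁₂ L R.φ x (ccmap₂ L R.sB.f y) = cupc₁₂ L R.φ' (fun g => R.r.f (x g)) y := by
  refine Prod.ext ?_ ?_
  · funext g
    change R.φ.φ (x g.1) (B.ρ g.1 (R.sB.f (y.1 (g.2.1, g.2.2))))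
      = R.φ'.φ (R.r.f (x g.1)) (B'.ρ g.1 (y.1 (g.2.1, g.2.2)))
    rw [← R.sB.comm, R.compat₂]
  · funext v s
    change - R.φ.φ (x (L.r v s.1)) (B.ρ (L.r v s.1) (R.sB.f (y.2 v s.2)))
      = - R.φ'.φ (R.r.f (x (L.r v s.1))) (B'.ρ (L.r v s.1) (y.2 v s.2))
    rw [← R.sB.comm, R.compat₂]

lemma cupc₁₂_s (x : G → A') (y : CcAmb2 L B) :
    cupc₁₂ L R.φ (fun g => R.s.f (x g)) y = cupc₁₂ L R.φ' x (ccmap₂ L R.rB.f y) := by
  refine Prod.ext ?_ ?_
  · funext g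
    change R.φ.φ (R.s.f (x g.1)) (B.ρ g.1 (y.1 (g.2.1, g.2.2)))
      = R.φ'.φ (x g.1) (B'.ρ g.1 (R.rB.f (y.1 (g.2.1, g.2.2))))
    rw [← R.rB.comm, R.compat₁]
  · funext v s
    change - R.φ.φ (R.s.f (x (L.r v s.1))) (B.ρ (L.r v s.1) (y.2 v s.2))
      = - R.φ'.φ (x (L.r v s.1)) (B'.ρ (L.r v s.1) (R.rB.f (y.2 v s.2)))
    rw [← R.rB.comm, R.compat₁]

lemma cupc₂₁_s (x : G × G → A') (y : CcAmb1 L B) :
    cupc₂₁ L R.φ (fun g => R.s.f (x g)) y = cupc₂₁ L R.φ' x (ccmap₁ L R.rB.f y) := by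
  refine Prod.ext ?_ ?_
  · funext g
    change R.φ.φ (R.s.f (x (g.1, g.2.1))) (B.ρ (g.1 * g.2.1) (y.1 g.2.2))
      = R.φ'.φ (x (g.1, g.2.1)) (B'.ρ (g.1 * g.2.1) (R.rB.f (y.1 g.2.2)))
    rw [← R.rB.comm, R.compat₁]
  · funext v s
    change R.φ.φ (R.s.f (x (L.r v s.1, L.r v s.2))) (B.ρ (L.r v s.1 * L.r v s.2) (y.2 v))
      = R.φ'.φ (x (L.r v s.1, L.r v s.2)) (B'.ρ (L.r v s.1 * L.r v s.2) (R.rB.f (y.2 v)))
    rw [← R.rB.comm, R.compat₁]

end Retract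

/-! ## The two package statements -/

/-- **A-RET**: the `Claim` passes to retracts (general pairings; no smoothness, no hypothesis on
`tr`). -/
theorem retStatement : RetStatement (k := k) L := by
  intro A A' B B' C R tr h
  refine ⟨?_, ?_, ?_, ?_⟩
  · -- surj0
    intro ψ hψ
    obtain ⟨a, ha, hψa⟩ := h.surj0 (ψ ∘ₗ ccmap₃ L R.rB.f)
      (fun y hy => hψ _ (mem_Bc3_map L R.rB hy))
    have ha' : R.r.f a ∈ H0 A' := mem_H0_map R.r ha
    refine ⟨R.r.f a, ha', fun y hy => ?_⟩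
    have := hψa _ (mem_Zc3_map L R.sB hy)
    rw [LinearMap.comp_apply, ccmap₃_rsB, cupc₀₃_sB] at this
    exact this
  · -- inj1
    intro x hx hxy
    have hsx : (fun g => R.s.f (x g)) ∈ B1 A := by
      refine h.inj1 _ (mem_Z1_map R.s hx) (fun y hy => ?_)
      rw [cupc₁₂_s]
      exact hxy _ (mem_Zc2_map L R.rB hy)
    have h1 : (fun g => R.r.f (R.s.f (x g))) ∈ B1 A' := mem_B1_map R.r hsx
    simpa only [R.rs] using h1
  · -- surj1
    intro ψ hψ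
    obtain ⟨x, hx, hψx⟩ := h.surj1 (ψ ∘ₗ ccmap₂ L R.rB.f)
      (fun y hy => hψ _ (mem_Bc2_map L R.rB hy))
    refine ⟨fun g => R.r.f (x g), mem_Z1_map R.r hx, fun y hy => ?_⟩
    have := hψx _ (mem_Zc2_map L R.sB hy)
    rw [LinearMap.comp_apply, ccmap₂_rsB, cupc₁₂_sB] at this
    exact this
  · -- inj2
    intro x hx hxy
    have hsx : (fun g => R.s.f (x g)) ∈ B2 𝒩 A := by
      refine h.inj2 _ (mem_Z2_map R.s hx) (fun y hy => ?_)
      rw [cupc₂₁_s]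
      exact hxy _ (mem_Zc1_map L R.rB hy)
    have h2 : (fun g => R.r.f (R.s.f (x g))) ∈ B2 𝒩 A' := mem_B2_map R.r hsx
    simpa only [R.rs] using h2

/-- **A-ZERO**: the `Claim` for zero modules. -/
theorem zeroStatement : ZeroStatement (k := k) L := by
  intro A B C φ tr hA hB
  have hlocB : ∀ v, Subsingleton (L.loc B v) := fun v => hB
  have hcup03 : ∀ (a : A) (y : CcAmb3 L B), cupc₀₃ L φ a y = 0 := by
    intro a y
    refine Prod.ext ?_ ?_
    · funext g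
      change φ.φ a (y.1 g) = 0
      rw [Subsingleton.elim (y.1 g) 0, map_zero]
    · funext v s
      change φ.φ a (y.2 v s) = 0
      rw [Subsingleton.elim (y.2 v s) (0 : B), map_zero]
  have hcup12 : ∀ (x : G → A) (y : CcAmb2 L B), cupc₁₂ L φ x y = 0 := by
    intro x y
    refine Prod.ext ?_ ?_
    · funext g
      change φ.φ (x g.1) _ = 0
      rw [Subsingleton.elim (x g.1) 0, map_zero, LinearMap.zero_apply]
    · funext v s
      change - φ.φ (x (L.r v s.1)) _ = 0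
      rw [Subsingleton.elim (x (L.r v s.1)) 0, map_zero, LinearMap.zero_apply, neg_zero]
  refine ⟨?_, ?_, ?_, ?_⟩
  · intro ψ _
    refine ⟨0, Submodule.zero_mem _, fun y _ => ?_⟩
    have hy : y = 0 := by
      refine Prod.ext ?_ ?_
      · funext g; exact Subsingleton.elim _ _
      · funext v s; exact Subsingleton.elim (α := B) _ _
    rw [hcup03, hy, map_zero, map_zero]
  · intro x _ _
    have hx : x = 0 := funext fun g => Subsingleton.elim _ _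
    rw [hx]
    exact Submodule.zero_mem _
  · intro ψ _
    refine ⟨0, Submodule.zero_mem _, fun y _ => ?_⟩
    have hy : y = 0 := by
      refine Prod.ext ?_ ?_
      · funext g; exact Subsingleton.elim _ _
      · funext v s; exact Subsingleton.elim (α := B) _ _
    rw [hcup12, hy, map_zero, map_zero]
  · intro x _ _
    have hx : x = 0 := funext fun g => Subsingleton.elim _ _
    rw [hx]
    exact Submodule.zero_mem _

end Fermat.Agent.S55.helper45
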