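import Mathlib

/-!
# S55 / LOC-2b (helper96): second cohomology of a finite cyclic group via cyclic cocycles

Generic part (any group `G` generated by an element `φ` of finite order `n`, any commutative
group `M` with a `MulDistribMulAction` of `G`):

* `dlogG φ σ` : the least `i` with `φ ^ i = σ`;
* `cycG φ b (σ, τ) = b ^ ((dlogG φ σ + dlogG φ τ) / n)` : the cyclic 2-cochain;
* `isMulCocycle₂_cycG` : it is a 2-cocycle when `b` is `G`-invariant;
* `exists_cycG_of_isMulCocycle₂` : every 2-cocycle is cohomologous to a cyclic one.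
-/

set_option autoImplicit false

namespace Fermat.Agent.S55.helper96

open groupCohomology

section dlog

variable {G : Type*} [Group G]

open Classical in
/-- The discrete logarithm with respect to `φ`: the least `i` with `φ ^ i = σ`
(junk value `0` if `σ` is not a power of `φ`). -/
noncomputable def dlogG (φ σ : G) : ℕ :=
  if h : ∃ i : ℕ, φ ^ i = σ then Nat.find h else 0

variable {φ : G}

theorem exists_pow_eq_of_gen (hfin : 0 < orderOf φ) (hgen : ∀ σ : G, σ ∈ Subgroup.zpowers φ)
    (σ : G) : ∃ i : ℕ, φ ^ i = σ := by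
  have h1 : IsOfFinOrder φ := orderOf_pos_iff.mp hfin
  have h2 := hgen σ
  rw [← h1.mem_powers_iff_mem_zpowers] at h2
  exact Submonoid.mem_powers_iff _ _ |>.mp h2

theorem pow_dlogG (hfin : 0 < orderOf φ) (hgen : ∀ σ : G, σ ∈ Subgroup.zpowers φ) (σ : G) :
    φ ^ dlogG φ σ = σ := by
  classical
  have h := exists_pow_eq_of_gen hfin hgen σ
  rw [dlogG, dif_pos h]
  exact Nat.find_spec h

theorem dlogG_lt (hfin : 0 < orderOf φ) (hgen : ∀ σ : G, σ ∈ Subgroup.zpowers φ) (σ : G) :
    dlogG φ σ < orderOf φ := by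
  classical
  have h := exists_pow_eq_of_gen hfin hgen σ
  rw [dlogG, dif_pos h]
  have h3 : φ ^ (Nat.find h % orderOf φ) = σ := by
    rw [pow_mod_orderOf]; exact Nat.find_spec h
  exact lt_of_le_of_lt (Nat.find_min' h h3) (Nat.mod_lt _ hfin)

theorem dlogG_pow (hfin : 0 < orderOf φ) (hgen : ∀ σ : G, σ ∈ Subgroup.zpowers φ) (i : ℕ) :
    dlogG φ (φ ^ i) = i % orderOf φ := by
  have h1 := pow_dlogG hfin hgen (φ ^ i)
  have h2 := dlogG_lt hfin hgen (φ ^ i)
  have h3 := pow_inj_mod.mp h1
  rw [Nat.mod_eq_of_lt h2] at h3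
  exact h3

theorem dlogG_mul (hfin : 0 < orderOf φ) (hgen : ∀ σ : G, σ ∈ Subgroup.zpowers φ) (σ τ : G) :
    dlogG φ (σ * τ) = (dlogG φ σ + dlogG φ τ) % orderOf φ := by
  have h := dlogG_pow hfin hgen (dlogG φ σ + dlogG φ τ)
  rw [pow_add, pow_dlogG hfin hgen, pow_dlogG hfin hgen] at h
  exact h

theorem dlogG_one (hfin : 0 < orderOf φ) (hgen : ∀ σ : G, σ ∈ Subgroup.zpowers φ) :
    dlogG φ (1 : G) = 0 := by
  have h := dlogG_pow hfin hgen 0
  rw [pow_zero, Nat.zero_mod] at h
  exact h

end dlog

section arith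

theorem mod_add_div_add (n x y : ℕ) : (x % n + y) / n + x / n = (x + y) / n := by
  rcases Nat.eq_zero_or_pos n with rfl | hn
  · simp
  · have h : x + y = (x % n + y) + n * (x / n) := by
      have := Nat.mod_add_div x n
      omega
    rw [h, Nat.add_mul_div_left _ _ hn]

theorem add_mod_div_add (n x y : ℕ) : (x + y % n) / n + y / n = (x + y) / n := by
  rw [add_comm x (y % n), mod_add_div_add, add_comm]

end arith

section cyc

variable {G : Type*} [Group G] {M : Type*} [CommGroup M] [MulDistribMulAction G M]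

/-- The cyclic 2-cochain `(σ, τ) ↦ b ^ ⌊(dlog σ + dlog τ) / n⌋`. -/
noncomputable def cycG (φ : G) (b : M) : G × G → M :=
  fun p => b ^ ((dlogG φ p.1 + dlogG φ p.2) / orderOf φ)

variable {φ : G}

theorem smul_eq_of_gen (hgen : ∀ σ : G, σ ∈ Subgroup.zpowers φ) {b : M} (hb : φ • b = b)
    (g : G) : g • b = b := by
  have hmem : g ∈ MulAction.stabilizer G b := by
    have hle : Subgroup.zpowers φ ≤ MulAction.stabilizer G b := by
      rw [Subgroup.zpowers_le]
      exact hb
    exact hle (hgen g)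
  exact hmem

theorem isMulCocycle₂_cycG (hfin : 0 < orderOf φ) (hgen : ∀ σ : G, σ ∈ Subgroup.zpowers φ)
    {b : M} (hb : φ • b = b) : IsMulCocycle₂ (cycG φ b) := by
  intro g h j
  simp only [cycG]
  rw [smul_pow', smul_eq_of_gen hgen hb, ← pow_add, ← pow_add,
    dlogG_mul hfin hgen g h, dlogG_mul hfin hgen h j, mod_add_div_add, add_comm _ (_ / _),
    add_mod_div_add, add_assoc]

theorem cycG_mul (b b' : M) : cycG φ (b * b') = cycG φ b * cycG φ b' := by
  funext p
  simp only [cycG, Pi.mul_apply, mul_pow]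

/-- Partial products `T k = ∏_{j < k} c (φ ^ j, φ)`. -/
noncomputable def partProd (φ : G) (c : G × G → M) (k : ℕ) : M :=
  ∏ j ∈ Finset.range k, c (φ ^ j, φ)

theorem partProd_zero (c : G × G → M) : partProd φ c 0 = 1 := by
  simp [partProd]

theorem partProd_succ (c : G × G → M) (k : ℕ) :
    partProd φ c (k + 1) = partProd φ c k * c (φ ^ k, φ) := by
  simp [partProd, Finset.prod_range_succ]

theorem partProd_add_orderOf (c : G × G → M) (k : ℕ) :
    partProd φ c (k + orderOf φ) = partProd φ c k * partProd φ c (orderOf φ) := by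
  induction k with
  | zero => simp [partProd_zero]
  | succ k ih =>
    have h1 : k + 1 + orderOf φ = (k + orderOf φ) + 1 := by omega
    rw [h1, partProd_succ, ih, partProd_succ, pow_add, pow_orderOf_eq_one, mul_one]
    rw [mul_assoc, mul_assoc, mul_comm (partProd φ c (orderOf φ))]

theorem partProd_eq_mod (c : G × G → M) (k : ℕ) :
    partProd φ c k
      = partProd φ c (k % orderOf φ) * partProd φ c (orderOf φ) ^ (k / orderOf φ) := by
  induction' h : k / orderOf φ with m ih generalizing k
  · rcases Nat.eq_zero_or_pos (orderOf φ) with h0 | hpos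
    · simp [h0]
    · have hk : k < orderOf φ := (Nat.div_eq_zero_iff_lt hpos).mp h
      rw [Nat.mod_eq_of_lt hk, pow_zero, mul_one]
  · have hpos : 0 < orderOf φ := by
      rcases Nat.eq_zero_or_pos (orderOf φ) with h0 | hpos
      · rw [h0, Nat.div_zero] at h; omega
      · exact hpos
    have hle : orderOf φ ≤ k := by
      by_contra hlt
      rw [not_le] at hlt
      rw [(Nat.div_eq_zero_iff_lt hpos).mpr hlt] at h
      omega
    obtain ⟨k', rfl⟩ : ∃ k', k = k' + orderOf φ := ⟨k - orderOf φ, by omega⟩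
    have hdiv : k' / orderOf φ = m := by
      rw [Nat.add_div_right _ hpos] at h
      omega
    rw [partProd_add_orderOf, ih k' hdiv, Nat.add_mod_right, pow_succ, mul_assoc]

/-- The key identity: `c (φ^i, φ^m) * T i * φ^i • T m = c (φ^i, 1) * T (i + m)`. -/
theorem cocycle_partProd {c : G × G → M} (hc : IsMulCocycle₂ c) (i m : ℕ) :
    c (φ ^ i, φ ^ m) * partProd φ c i * (φ ^ i) • partProd φ c m
      = c (φ ^ i, 1) * partProd φ c (i + m) := by
  induction m with
  | zero => simp [partProd_zero]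
  | succ m ih =>
    have h1 := hc (φ ^ i) (φ ^ m) φ
    rw [← pow_add, ← pow_succ] at h1
    rw [partProd_succ, ← add_assoc, partProd_succ, smul_mul']
    calc c (φ ^ i, φ ^ (m + 1)) * partProd φ c i *
          ((φ ^ i) • partProd φ c m * (φ ^ i) • c (φ ^ m, φ))
        = ((φ ^ i) • c (φ ^ m, φ) * c (φ ^ i, φ ^ (m + 1))) *
            (partProd φ c i * (φ ^ i) • partProd φ c m) := by
          simp only [mul_assoc, mul_comm, mul_left_comm]
      _ = (c (φ ^ (i + m), φ) * c (φ ^ i, φ ^ m)) *
            (partProd φ c i * (φ ^ i) • partProd φ c m) := by rw [h1]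
      _ = c (φ ^ (i + m), φ) * (c (φ ^ i, φ ^ m) * partProd φ c i *
            (φ ^ i) • partProd φ c m) := by
          simp only [mul_assoc]
      _ = c (φ ^ i, 1) * (partProd φ c (i + m) * c (φ ^ (i + m), φ)) := by
          rw [ih]
          simp only [mul_assoc, mul_comm, mul_left_comm]

/-- The element `b = ∏_{j < n} c (φ ^ j, φ)` is fixed by `φ`. -/
theorem smul_partProd_orderOf {c : G × G → M} (hc : IsMulCocycle₂ c) :
    φ • partProd φ c (orderOf φ) = partProd φ c (orderOf φ) := by
  have h := cocycle_partProd (φ := φ) hc 1 (orderOf φ)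
  rw [pow_orderOf_eq_one, pow_one, partProd_add_orderOf, ← mul_assoc] at h
  exact mul_left_cancel h

theorem add_identity_aux {N : Type*} [AddCommGroup N] (A a Th Tgh Tg B : N) :
    A - Th - (a - Tgh) + (a - Tg) = A + (Tgh + B) - (Tg + Th) - B := by abel

theorem mul_identity_aux {N : Type*} [CommGroup N] (A a Th Tgh Tg B c : N)
    (key : c * Tg * Th = A * (Tgh * B)) :
    A / Th / (a / Tgh) * (a / Tg) = c / B := by
  have hc : c = A * (Tgh * B) / (Tg * Th) := by
    rw [eq_div_iff_mul_eq', ← mul_assoc, key]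
  rw [hc]
  exact add_identity_aux (N := Additive N) (Additive.ofMul A) (Additive.ofMul a)
    (Additive.ofMul Th) (Additive.ofMul Tgh) (Additive.ofMul Tg) (Additive.ofMul B)

/-- Every 2-cocycle of a finite cyclic group is cohomologous to a cyclic cocycle. -/
theorem exists_cycG_of_isMulCocycle₂ (hfin : 0 < orderOf φ)
    (hgen : ∀ σ : G, σ ∈ Subgroup.zpowers φ) {c : G × G → M} (hc : IsMulCocycle₂ c) :
    ∃ b : M, φ • b = b ∧ ∃ y : G → M, ∀ g h : G,
      g • y h / y (g * h) * y g = c (g, h) / cycG φ b (g, h) := by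
  refine ⟨partProd φ c (orderOf φ), smul_partProd_orderOf hc,
    fun σ => c (1, 1) / partProd φ c (dlogG φ σ), fun g h => ?_⟩
  have key := cocycle_partProd (φ := φ) hc (dlogG φ g) (dlogG φ h)
  rw [pow_dlogG hfin hgen, pow_dlogG hfin hgen, map_one_snd_of_isMulCocycle₂ hc,
    partProd_eq_mod c (dlogG φ g + dlogG φ h), ← dlogG_mul hfin hgen] at key
  simp only [cycG]
  rw [smul_div']
  exact mul_identity_aux _ _ _ _ _ _ _ key

end cyc

end Fermat.Agent.S55.helper96
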