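import Fermat.Agent.S55.helper8_LocDefs2
import Fermat.Agent.S55.helper96_CyclicH2

/-!
# S55 / LOC-5b (helper1): calculus of the symbols `(χ, b)`

Statements verbatim from `helper8_LocInterface2`, section LOC5b.
-/

set_option autoImplicit false
set_option linter.style.haveILetI false
set_option linter.unusedSectionVars false

namespace Fermat.Agent.S55.helper1

open Fermat.Agent.S55 Fermat.Agent.S55.helper8 Fermat.Agent.S55.helper11 groupCohomology

section generic

variable {G : Type*} [Group G] {M : Type*} [CommGroup M] [MulDistribMulAction G M]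

/-- The standard lift `G → {0, …, N - 1}` of a character. -/
def chiVal (N : ℕ) (χ : G →* Multiplicative (ZMod N)) (g : G) : ℕ :=
  (Multiplicative.toAdd (χ g)).val

theorem chiCochain_apply (N : ℕ) (χ : G →* Multiplicative (ZMod N)) (b : M) (g h : G) :
    chiCochain N χ b (g, h) = b ^ ((chiVal N χ g + chiVal N χ h) / N) := rfl

theorem chiVal_mul (N : ℕ) [NeZero N] (χ : G →* Multiplicative (ZMod N)) (g h : G) :
    chiVal N χ (g * h) = (chiVal N χ g + chiVal N χ h) % N := by
  simp only [chiVal, map_mul, toAdd_mul]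
  exact ZMod.val_add _ _

theorem chiVal_lt (N : ℕ) [NeZero N] (χ : G →* Multiplicative (ZMod N)) (g : G) :
    chiVal N χ g < N := ZMod.val_lt _

theorem isMulCocycle₂_chiCochain (N : ℕ) (χ : G →* Multiplicative (ZMod N)) (b : M)
    (hb : ∀ g : G, g • b = b) : IsMulCocycle₂ (chiCochain N χ b) := by
  intro g h j
  simp only [chiCochain_apply]
  rw [smul_pow', hb, ← pow_add, ← pow_add]
  rcases Nat.eq_zero_or_pos N with rfl | hN
  · simp
  · haveI : NeZero N := ⟨hN.ne'⟩
    rw [chiVal_mul N χ g h, chiVal_mul N χ h j, helper96.mod_add_div_add,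
      add_comm (_ / N) (_ / N), helper96.add_mod_div_add, add_assoc]

theorem chiCochain_mul (N : ℕ) (χ : G →* Multiplicative (ZMod N)) (b b' : M) (g : G × G) :
    chiCochain N χ (b * b') g = chiCochain N χ b g * chiCochain N χ b' g := by
  simp only [chiCochain, mul_pow]

/-- The arithmetic identity behind additivity in the character. -/
theorem char_mul_arith (N A A' B B' : ℕ) :
    ((A + A') % N + (B + B') % N) / N + (A + A') / N + (B + B') / N =
      ((A + B) % N + (A' + B') % N) / N + (A + B) / N + (A' + B') / N := by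
  have h1 := helper96.mod_add_div_add N (A + A') ((B + B') % N)
  have h2 := helper96.add_mod_div_add N (A + A') (B + B')
  have h3 := helper96.mod_add_div_add N (A + B) ((A' + B') % N)
  have h4 := helper96.add_mod_div_add N (A + B) (A' + B')
  have h5 : A + A' + (B + B') = A + B + (A' + B') := by ring
  rw [h5] at h2
  omega

theorem comm_group_aux {M : Type*} [CommGroup M] (x y z w u v : M)
    (h : y * (u * v) = w * (x * z)) : x⁻¹ / y⁻¹ * z⁻¹ = w / (u * v) := by
  rw [eq_div_iff_mul_eq', div_inv_eq_mul]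
  have h1 : x⁻¹ * y * z⁻¹ * (u * v) = y * (u * v) * (x * z)⁻¹ := by
    rw [mul_inv]
    ac_rfl
  rw [h1, h, mul_inv_cancel_right]

/-- additivity in the character, up to an explicit coboundary -/
theorem chiCochain_char_mul (N : ℕ) [NeZero N] (χ χ' : G →* Multiplicative (ZMod N)) (b : M)
    (hb : ∀ g : G, g • b = b) :
    ∃ y : G → M, ∀ g h : G, g • y h / y (g * h) * y g =
      chiCochain N (χ * χ') b (g, h) / (chiCochain N χ b (g, h) * chiCochain N χ' b (g, h)) := by
  refine ⟨fun g => (b ^ ((chiVal N χ g + chiVal N χ' g) / N))⁻¹, fun g h => ?_⟩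
  simp only [chiCochain_apply]
  rw [smul_inv', smul_pow', hb]
  have hχ : ∀ g, chiVal N (χ * χ') g = (chiVal N χ g + chiVal N χ' g) % N := by
    intro g
    simp only [chiVal, MonoidHom.mul_apply, toAdd_mul]
    exact ZMod.val_add _ _
  rw [hχ g, hχ h, chiVal_mul N χ g h, chiVal_mul N χ' g h]
  have key := char_mul_arith N (chiVal N χ g) (chiVal N χ' g) (chiVal N χ h) (chiVal N χ' h)
  set A := chiVal N χ g
  set A' := chiVal N χ' g
  set B := chiVal N χ h
  set B' := chiVal N χ' h
  have e : b ^ (((A + B) % N + (A' + B') % N) / N) * (b ^ ((A + B) / N) * b ^ ((A' + B') / N)) =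
      b ^ (((A + A') % N + (B + B') % N) / N) * (b ^ ((B + B') / N) * b ^ ((A + A') / N)) := by
    rw [← pow_add, ← pow_add, ← pow_add, ← pow_add]
    congr 1
    omega
  exact comm_group_aux _ _ _ _ _ _ e

set_option linter.unusedVariables false in
/-- change of modulus `ℤ/N ↪ ℤ/(N m)` -/
theorem chiCochain_cast (N m : ℕ) (hN : 0 < N) (hm : 0 < m) (χ : G →* Multiplicative (ZMod N))
    (χ' : G →* Multiplicative (ZMod (N * m)))
    (h : ∀ g, (Multiplicative.toAdd (χ' g)).val = m * (Multiplicative.toAdd (χ g)).val)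
    (b : M) : chiCochain (N * m) χ' b = chiCochain N χ b := by
  funext g
  simp only [chiCochain, h]
  congr 1
  rw [← Nat.mul_add, mul_comm N m, Nat.mul_div_mul_left _ _ hm]

end generic


/-! ## Classes of multiplicative cocycles -/

section mulClass

theorem isMulCocycle₂_mul {G : Type*} [Group G] {M : Type*} [CommGroup M]
    [MulDistribMulAction G M] {f f' : G × G → M} (hf : IsMulCocycle₂ f)
    (hf' : IsMulCocycle₂ f') : IsMulCocycle₂ (fun p => f p * f' p) := by
  intro g h j
  have h1 := hf g h j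
  have h2 := hf' g h j
  simp only [smul_mul']
  calc f (g * h, j) * f' (g * h, j) * (f (g, h) * f' (g, h))
      = (f (g * h, j) * f (g, h)) * (f' (g * h, j) * f' (g, h)) := by ac_rfl
    _ = (g • f (h, j) * f (g, h * j)) * (g • f' (h, j) * f' (g, h * j)) := by rw [h1, h2]
    _ = g • f (h, j) * g • f' (h, j) * (f (g, h * j) * f' (g, h * j)) := by ac_rfl

theorem H2π_mul_generic {G M : Type} [Group G] [CommGroup M] [MulDistribMulAction G M]
    {f f' : G × G → M} (hf : IsMulCocycle₂ f) (hf' : IsMulCocycle₂ f') :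
    H2π (Rep.ofMulDistribMulAction G M) (cocyclesOfIsMulCocycle₂ (isMulCocycle₂_mul hf hf')) =
      H2π (Rep.ofMulDistribMulAction G M) (cocyclesOfIsMulCocycle₂ hf) +
        H2π (Rep.ofMulDistribMulAction G M) (cocyclesOfIsMulCocycle₂ hf') := by
  rw [← map_add]
  rfl

theorem H2π_eq_generic {G M : Type} [Group G] [CommGroup M] [MulDistribMulAction G M]
    {f f' : G × G → M} (hf : IsMulCocycle₂ f) (hf' : IsMulCocycle₂ f') (y : G → M)
    (hy : ∀ g h : G, g • y h / y (g * h) * y g = f (g, h) / f' (g, h)) :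
    H2π (Rep.ofMulDistribMulAction G M) (cocyclesOfIsMulCocycle₂ hf) =
      H2π (Rep.ofMulDistribMulAction G M) (cocyclesOfIsMulCocycle₂ hf') := by
  rw [H2π_eq_iff]
  have h1 : IsMulCoboundary₂ (G := G) (M := M) (fun p => f p / f' p) :=
    ⟨y, fun g h => hy g h⟩
  exact (coboundariesOfIsMulCoboundary₂ h1).2

variable (K L : Type) [Field K] [Field L] [Algebra K L]

theorem mulClass_of_isMulCocycle₂ {f : (L ≃ₐ[K] L) × (L ≃ₐ[K] L) → Lˣ} (h : IsMulCocycle₂ f) :
    mulClass K L f = H2π (Rep.ofAlgebraAutOnUnits K L) (cocyclesOfIsMulCocycle₂ h) := by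
  classical
  exact dif_pos h

theorem mulClass_mul {f f' : (L ≃ₐ[K] L) × (L ≃ₐ[K] L) → Lˣ} (hf : IsMulCocycle₂ f)
    (hf' : IsMulCocycle₂ f') :
    mulClass K L (fun p => f p * f' p) = mulClass K L f + mulClass K L f' := by
  rw [mulClass_of_isMulCocycle₂ K L hf, mulClass_of_isMulCocycle₂ K L hf',
    mulClass_of_isMulCocycle₂ K L (isMulCocycle₂_mul hf hf')]
  exact H2π_mul_generic hf hf'

theorem mulClass_eq_of_coboundary {f f' : (L ≃ₐ[K] L) × (L ≃ₐ[K] L) → Lˣ}
    (hf : IsMulCocycle₂ f) (hf' : IsMulCocycle₂ f') (y : (L ≃ₐ[K] L) → Lˣ)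
    (hy : ∀ g h : L ≃ₐ[K] L, g • y h / y (g * h) * y g = f (g, h) / f' (g, h)) :
    mulClass K L f = mulClass K L f' := by
  rw [mulClass_of_isMulCocycle₂ K L hf, mulClass_of_isMulCocycle₂ K L hf']
  exact H2π_eq_generic hf hf' y hy

end mulClass

/-! ## The symbols `(χ, b)` in `H²(Gal(L/K), Lˣ)` -/

section field

variable (K L : Type) [Field K] [Field L] [Algebra K L]

theorem smul_unitsMap_algebraMap (b : Kˣ) (σ : L ≃ₐ[K] L) :
    σ • Units.map (algebraMap K L : K →* L) b = Units.map (algebraMap K L : K →* L) b := by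
  apply Units.ext
  exact σ.commutes b

theorem isMulCocycle₂_chiCochain_field (N : ℕ) (χ : (L ≃ₐ[K] L) →* Multiplicative (ZMod N))
    (b : Kˣ) : IsMulCocycle₂ (chiCochain N χ (Units.map (algebraMap K L : K →* L) b)) :=
  isMulCocycle₂_chiCochain N χ _ (smul_unitsMap_algebraMap K L b)

/-- the character `χ_φ` of a cyclic group with generator `φ` -/
theorem exists_dlogChar [FiniteDimensional K L] (φ : L ≃ₐ[K] L)
    (hφ : ∀ σ : L ≃ₐ[K] L, σ ∈ Subgroup.zpowers φ) :
    ∃ χ : (L ≃ₐ[K] L) →* Multiplicative (ZMod (orderOf φ)), χ φ = Multiplicative.ofAdd 1 := by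
  have hfin : 0 < orderOf φ := orderOf_pos φ
  refine ⟨{ toFun := fun σ => Multiplicative.ofAdd ((helper96.dlogG φ σ : ℕ) : ZMod (orderOf φ))
            map_one' := ?_
            map_mul' := ?_ }, ?_⟩
  · rw [helper96.dlogG_one hfin hφ]
    simp
  · intro σ τ
    rw [helper96.dlogG_mul hfin hφ, ← ofAdd_add, ZMod.natCast_mod, Nat.cast_add]
  · show Multiplicative.ofAdd ((helper96.dlogG φ φ : ℕ) : ZMod (orderOf φ)) = _
    have h := helper96.dlogG_pow hfin hφ 1
    rw [pow_one] at h
    rw [h, ZMod.natCast_mod, Nat.cast_one]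

theorem chiVal_eq_dlog [FiniteDimensional K L] (φ : L ≃ₐ[K] L)
    (hφ : ∀ σ : L ≃ₐ[K] L, σ ∈ Subgroup.zpowers φ)
    (χ : (L ≃ₐ[K] L) →* Multiplicative (ZMod (orderOf φ))) (hχ : χ φ = Multiplicative.ofAdd 1)
    (σ : L ≃ₐ[K] L) : (Multiplicative.toAdd (χ σ)).val = dlogAut K L φ σ := by
  have hfin : 0 < orderOf φ := orderOf_pos φ
  have h1 : dlogAut K L φ σ = helper96.dlogG φ σ := rfl
  rw [h1]
  have h2 := helper96.pow_dlogG hfin hφ σ
  have h3 : χ σ = Multiplicative.ofAdd ((helper96.dlogG φ σ : ℕ) : ZMod (orderOf φ)) := by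
    conv_lhs => rw [← h2]
    rw [map_pow, hχ, ← ofAdd_nsmul]
    simp
  rw [h3, toAdd_ofAdd, ZMod.val_natCast, Nat.mod_eq_of_lt (helper96.dlogG_lt hfin hφ σ)]

theorem cyclicClass_eq_chiClass [FiniteDimensional K L] (φ : L ≃ₐ[K] L)
    (hφ : ∀ σ : L ≃ₐ[K] L, σ ∈ Subgroup.zpowers φ)
    (χ : (L ≃ₐ[K] L) →* Multiplicative (ZMod (orderOf φ))) (hχ : χ φ = Multiplicative.ofAdd 1)
    (b : Kˣ) : cyclicClass K L φ b = chiClass K L (orderOf φ) χ b := by
  rw [cyclicClass_eq_mulClass]
  unfold chiClass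
  congr 1
  funext p
  simp only [cyclicCochain, chiCochain, chiVal_eq_dlog K L φ hφ χ hχ]

theorem chiClass_mul (N : ℕ) (χ : (L ≃ₐ[K] L) →* Multiplicative (ZMod N)) (b b' : Kˣ) :
    chiClass K L N χ (b * b') = chiClass K L N χ b + chiClass K L N χ b' := by
  unfold chiClass
  rw [← mulClass_mul K L (isMulCocycle₂_chiCochain_field K L N χ b)
    (isMulCocycle₂_chiCochain_field K L N χ b')]
  congr 1
  funext p
  rw [map_mul, chiCochain_mul]

theorem chiClass_char_mul (N : ℕ) [NeZero N] (χ χ' : (L ≃ₐ[K] L) →* Multiplicative (ZMod N))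
    (b : Kˣ) : chiClass K L N (χ * χ') b = chiClass K L N χ b + chiClass K L N χ' b := by
  unfold chiClass
  have h1 := isMulCocycle₂_chiCochain_field K L N χ b
  have h2 := isMulCocycle₂_chiCochain_field K L N χ' b
  have h3 := isMulCocycle₂_chiCochain_field K L N (χ * χ') b
  rw [← mulClass_mul K L h1 h2]
  obtain ⟨y, hy⟩ := chiCochain_char_mul N χ χ' (Units.map (algebraMap K L : K →* L) b)
    (smul_unitsMap_algebraMap K L b)
  exact mulClass_eq_of_coboundary K L h3 (isMulCocycle₂_mul h1 h2) y hy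

theorem chiClass_cast (N m : ℕ) (hN : 0 < N) (hm : 0 < m)
    (χ : (L ≃ₐ[K] L) →* Multiplicative (ZMod N))
    (χ' : (L ≃ₐ[K] L) →* Multiplicative (ZMod (N * m)))
    (h : ∀ g, (Multiplicative.toAdd (χ' g)).val = m * (Multiplicative.toAdd (χ g)).val)
    (b : Kˣ) : chiClass K L (N * m) χ' b = chiClass K L N χ b := by
  unfold chiClass
  rw [chiCochain_cast N m hN hm χ χ' h]

end field

/-! ## Functoriality -/

theorem H2π_map_generic {k G H : Type} [CommRing k] [Group G] [Group H] {A : Rep k H}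
    {B : Rep k G} (f : G →* H) (φ : Rep.res f A ⟶ B) (c : cocycles₂ A) :
    (map f φ 2).hom (H2π A c) = H2π B (mapCocycles₂ f φ c) := by
  have h := congr($(H2π_comp_map f φ) c)
  rw [ModuleCat.comp_apply, ModuleCat.comp_apply] at h
  exact h

/-- functoriality of the symbol under localisation / inflation / restriction -/
theorem locH_chiClass (F L Kv Lw : Type) [Field F] [Field L] [Field Kv] [Field Lw]
    [Algebra F L] [Algebra Kv Lw] [Algebra F Kv] [Algebra L Lw] [Algebra F Lw]
    [IsScalarTower F L Lw] [IsScalarTower F Kv Lw] [Normal F L] (N : ℕ)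
    (χ : (L ≃ₐ[F] L) →* Multiplicative (ZMod N)) (b : Fˣ) :
    (locH F L Kv Lw 2).hom (chiClass F L N χ b) =
      chiClass Kv Lw N (χ.comp (locHom F L Kv Lw)) (Units.map (algebraMap F Kv : F →* Kv) b) := by
  have h1 := isMulCocycle₂_chiCochain_field F L N χ b
  have h2 := isMulCocycle₂_chiCochain_field Kv Lw N (χ.comp (locHom F L Kv Lw))
    (Units.map (algebraMap F Kv : F →* Kv) b)
  unfold chiClass
  rw [mulClass_of_isMulCocycle₂ F L h1, mulClass_of_isMulCocycle₂ Kv Lw h2]
  unfold locH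
  refine (H2π_map_generic (A := Rep.ofMulDistribMulAction (L ≃ₐ[F] L) Lˣ)
    (B := Rep.ofMulDistribMulAction (Lw ≃ₐ[Kv] Lw) Lwˣ) (locHom F L Kv Lw)
    (locUnits F L Kv Lw) (cocyclesOfIsMulCocycle₂ h1)).trans ?_
  congr 1
  apply Subtype.ext
  funext ⟨g, h⟩
  show Additive.ofMul (Units.map (algebraMap L Lw : L →* Lw)
      (chiCochain N χ (Units.map (algebraMap F L : F →* L) b)
        (locHom F L Kv Lw g, locHom F L Kv Lw h))) =
    Additive.ofMul (chiCochain N (χ.comp (locHom F L Kv Lw))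
      (Units.map (algebraMap Kv Lw : Kv →* Lw) (Units.map (algebraMap F Kv : F →* Kv) b)) (g, h))
  congr 1
  simp only [chiCochain, map_pow, MonoidHom.comp_apply]
  congr 1
  apply Units.ext
  show algebraMap L Lw (algebraMap F L (b : F)) = algebraMap Kv Lw (algebraMap F Kv (b : F))
  rw [← IsScalarTower.algebraMap_apply, ← IsScalarTower.algebraMap_apply]

end Fermat.Agent.S55.helper1
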