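import Mathlib
import Fermat.Prelude.Def_GaloisRep_CompletionBridge

/-!
# S55, package P3: Krasner's lemma and local levels (helper51)

`PadicAlgCl q` is generated over `ℚ_[q]` by the image of `padicEmbedding q : ℚ̄ → PadicAlgCl q`
(Krasner + density of `ℚ` in `ℚ_[q]`).  Consequences:

* `localGaloisToGlobal q` is injective;
* the levels pulled back along `localGaloisToGlobal q` are cofinal among the open subgroups
  of `Aut(PadicAlgCl q / ℚ_[q])`.
-/

set_option autoImplicit false

open Polynomial IntermediateField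

namespace Fermat.Agent.S55.helper51

variable (q : ℕ) [Fact q.Prime]

/-- **Krasner + density.** Every element of `PadicAlgCl q` lies in `ℚ_[q](b)` for some `b`
algebraic over `ℚ`. -/
theorem exists_isAlgebraic_rat_mem_adjoin (x : PadicAlgCl q) :
    ∃ b : PadicAlgCl q, IsAlgebraic ℚ b ∧ x ∈ ℚ_[q]⟮b⟯ := by
  classical
  have hxint : IsIntegral ℚ_[q] x := (PadicAlgCl.isAlgebraic q).isAlgebraic x |>.isIntegral
  set f : Polynomial ℚ_[q] := minpoly ℚ_[q] x with hf
  have fmon : f.Monic := minpoly.monic hxint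
  have firr : Irreducible f := minpoly.irreducible hxint
  have fa0 : f.aeval x = 0 := minpoly.aeval _ _
  have fnatdeg0 : f.natDegree ≠ 0 := (Irreducible.natDegree_pos firr).ne'
  let S : Finset (PadicAlgCl q) := {y ∈ (f.rootSet (PadicAlgCl q)).toFinset | y ≠ x}
  let δ : ℝ := if hS : S.Nonempty then Finset.min' (S.image fun y => ‖x - y‖)
      (Finset.image_nonempty.mpr hS) else 1
  have norm_sub_le : ∀ x' : PadicAlgCl q, IsConjRoot ℚ_[q] x x' → x ≠ x' → δ ≤ ‖x - x'‖ := by
    intro x' conj ne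
    by_cases hS : S.Nonempty <;> simp only [hS, ↓reduceDIte, δ]
    · apply Finset.min'_le (S.image fun y => ‖x - y‖) (‖x - x'‖)
      apply Finset.mem_image_of_mem
      simp only [Finset.mem_filter, Set.mem_toFinset, S]
      rw [hf, ← (isConjRoot_iff_mem_minpoly_rootSet hxint)]
      exact ⟨conj, ne.symm⟩
    · simp only [ne_eq, Finset.not_nonempty_iff_eq_empty, Finset.filter_eq_empty_iff,
        Set.mem_toFinset, not_not, S] at hS
      rw [isConjRoot_iff_mem_minpoly_rootSet hxint] at conj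
      exact (ne (hS conj).symm).elim
  have δpos : δ > 0 := by
    by_cases hS : S.Nonempty <;> simp only [hS, ↓reduceDIte, δ]
    · simp only [gt_iff_lt, Finset.lt_min'_iff, Finset.mem_image, forall_exists_index, and_imp,
        forall_apply_eq_imp_iff₂]
      rintro a' ha'
      simp only [Finset.mem_filter, Set.mem_toFinset, S] at ha'
      rw [norm_pos_iff, sub_ne_zero]
      exact ha'.2.symm
    · linarith
  have hε : (δ / (max ‖x‖ 1)) ^ f.natDegree / (f.natDegree + 1) > 0 := by positivity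
  have hi : DenseRange (algebraMap ℚ ℚ_[q]) := by
    have : (algebraMap ℚ ℚ_[q] : ℚ → ℚ_[q]) = ((↑) : ℚ → ℚ_[q]) := by
      funext r; simp
    rw [this]
    exact Padic.denseRange_ratCast q
  obtain ⟨g, gmon, gdeg, gcoeff⟩ :=
    exists_monic_and_natDegree_eq_and_norm_map_algebraMap_coeff_sub_lt hi fmon hε
  obtain ⟨b, hb, hab⟩ := exists_aroots_norm_sub_lt_of_norm_coeff_sub_lt (K := ℚ_[q])
      (L := PadicAlgCl q) hε fa0 fmon (gmon.map _) (gdeg ▸ (g.natDegree_map _)) gcoeff
      (IsAlgClosed.splits _)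
  have hab : ‖x - b‖ < δ := by
    rw [← Real.rpow_natCast, ← mul_comm_div, div_self, one_mul,
        ← Real.rpow_mul (div_pos δpos (by positivity)).le, mul_inv_cancel₀] at hab
    · simpa [mul_assoc, div_mul_cancel₀ _ (by positivity : (max ‖x‖ 1) > 0).ne'] using hab
    · simp [fnatdeg0]
    · positivity
  have hb0 : (g.map (algebraMap ℚ ℚ_[q])).aeval b = 0 := by
    have := (Polynomial.mem_aroots.1 hb).2
    exact this
  have hbalg : IsAlgebraic ℚ b := by
    refine ⟨g, gmon.ne_zero, ?_⟩
    rw [← hb0, Polynomial.aeval_map_algebraMap]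
  refine ⟨b, hbalg, ?_⟩
  have masp : ((minpoly ℚ_[q] x).map (algebraMap ℚ_[q] (PadicAlgCl q))).Splits :=
    IsAlgClosed.splits _
  exact IsKrasner.krasner (K := ℚ_[q]) (L := PadicAlgCl q)
    (minpoly.irreducible hxint).separable masp
    ⟨(g.map _), gmon.map _, hb0⟩ fun a' h1 h2 ↦ lt_of_lt_of_le hab (norm_sub_le a' h1 h2)

/-- Every element of `PadicAlgCl q` algebraic over `ℚ` is in the range of `padicEmbedding q`. -/
theorem mem_range_padicEmbedding_of_isAlgebraic {b : PadicAlgCl q} (hb : IsAlgebraic ℚ b) :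
    ∃ y : AlgebraicClosure ℚ, padicEmbedding q y = b := by
  have hint : IsIntegral ℚ b := hb.isIntegral
  have hsp : ((minpoly ℚ b).map (algebraMap ℚ (AlgebraicClosure ℚ))).Splits :=
    IsAlgClosed.splits _
  have hmem : b ∈ (minpoly ℚ b).rootSet (PadicAlgCl q) := by
    rw [Polynomial.mem_rootSet]
    exact ⟨minpoly.ne_zero hint, minpoly.aeval _ _⟩
  rw [← hsp.image_rootSet (padicEmbedding q)] at hmem
  obtain ⟨y, -, hy⟩ := hmem
  exact ⟨y, hy⟩

/-- **Krasner, global form.** Every element of `PadicAlgCl q` lies in `ℚ_[q](ι y)` for some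
`y : ℚ̄`, where `ι = padicEmbedding q`. -/
theorem exists_mem_adjoin_padicEmbedding (x : PadicAlgCl q) :
    ∃ y : AlgebraicClosure ℚ, x ∈ ℚ_[q]⟮padicEmbedding q y⟯ := by
  obtain ⟨b, hb, hx⟩ := exists_isAlgebraic_rat_mem_adjoin q x
  obtain ⟨y, rfl⟩ := mem_range_padicEmbedding_of_isAlgebraic q hb
  exact ⟨y, hx⟩

/-! ### Automorphisms fixing a generator -/

/-- An automorphism fixing `b` fixes `F(b)` pointwise (any field extension). -/
theorem apply_eq_of_mem_adjoin_simple {F E : Type*} [Field F] [Field E] [Algebra F E]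
    {σ : E ≃ₐ[F] E} {b x : E} (hb : σ b = b) (hx : x ∈ F⟮b⟯) : σ x = x := by
  induction hx using IntermediateField.adjoin_induction with
  | mem x hx =>
    rw [Set.mem_singleton_iff] at hx
    rw [hx, hb]
  | algebraMap x => exact σ.commutes x
  | add x y _ _ hx hy => rw [map_add, hx, hy]
  | inv x _ hx => rw [map_inv₀, hx]
  | mul x y _ _ hx hy => rw [map_mul, hx, hy]

/-- An automorphism fixing `b` lies in the fixing subgroup of `F(b)`. -/
theorem mem_fixingSubgroup_adjoin_simple_iff {F E : Type*} [Field F] [Field E] [Algebra F E]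
    {σ : E ≃ₐ[F] E} {b : E} : σ ∈ (F⟮b⟯).fixingSubgroup ↔ σ b = b := by
  rw [IntermediateField.mem_fixingSubgroup_iff]
  exact ⟨fun h => h b (IntermediateField.mem_adjoin_simple_self F b),
    fun hb x hx => apply_eq_of_mem_adjoin_simple hb hx⟩

/-- A finite-dimensional intermediate field of a separable extension is simple, with the
generator an element of the big field. -/
theorem exists_eq_adjoin_simple_of_finiteDimensional {F E : Type*} [Field F] [Field E]
    [Algebra F E] [Algebra.IsSeparable F E] (K : IntermediateField F E)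
    [FiniteDimensional F K] : ∃ y : E, K = F⟮y⟯ := by
  have : Algebra.IsSeparable F K := Algebra.isSeparable_tower_bot_of_isSeparable F K E
  obtain ⟨α, hα⟩ := Field.exists_primitive_element F K
  refine ⟨(α : E), ?_⟩
  rw [← IntermediateField.lift_adjoin_simple, hα, IntermediateField.lift_top]

/-! ### (a) Injectivity of `localGaloisToGlobal` -/

/-- `σ` fixes `ι y` iff `localGaloisToGlobal q σ` fixes `y`. -/
theorem localGaloisToGlobal_apply_eq_iff (σ : PadicAlgCl q ≃ₐ[ℚ_[q]] PadicAlgCl q)
    (y : AlgebraicClosure ℚ) :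
    localGaloisToGlobal q σ y = y ↔ σ (padicEmbedding q y) = padicEmbedding q y := by
  rw [← padicEmbedding_localGaloisToGlobal]
  exact ⟨fun h => by rw [h], fun h => (padicEmbedding q).injective h⟩

/-- **(a)** The restriction map `Gal(ℚ̄_q/ℚ_q) → Gal(ℚ̄/ℚ)` is injective. -/
theorem localGaloisToGlobal_injective : Function.Injective (localGaloisToGlobal q) := by
  rw [injective_iff_map_eq_one]
  intro σ hσ
  ext x
  obtain ⟨y, hy⟩ := exists_mem_adjoin_padicEmbedding q x
  have hfix : σ (padicEmbedding q y) = padicEmbedding q y := by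
    rw [← localGaloisToGlobal_apply_eq_iff, hσ]
    rfl
  exact apply_eq_of_mem_adjoin_simple hfix hy

/-! ### (b) Krasner cofinality -/

/-- `localGaloisToGlobal q σ` fixes `ℚ(y)` iff `σ` fixes `ℚ_[q](ι y)`. -/
theorem localGaloisToGlobal_mem_fixingSubgroup_adjoin_simple_iff
    (σ : PadicAlgCl q ≃ₐ[ℚ_[q]] PadicAlgCl q) (y : AlgebraicClosure ℚ) :
    localGaloisToGlobal q σ ∈ (ℚ⟮y⟯).fixingSubgroup ↔
      σ ∈ (ℚ_[q]⟮padicEmbedding q y⟯).fixingSubgroup := by
  rw [mem_fixingSubgroup_adjoin_simple_iff, mem_fixingSubgroup_adjoin_simple_iff,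
    localGaloisToGlobal_apply_eq_iff]

/-- `ℚ(y)` is finite-dimensional over `ℚ` for `y : ℚ̄`. -/
theorem finiteDimensional_adjoin_simple_rat (y : AlgebraicClosure ℚ) :
    FiniteDimensional ℚ ℚ⟮y⟯ :=
  IntermediateField.adjoin.finiteDimensional
    ((AlgebraicClosure.isAlgebraic ℚ).isAlgebraic y).isIntegral

/-- `ℚ_[q](b)` is finite-dimensional over `ℚ_[q]` for `b : PadicAlgCl q`. -/
theorem finiteDimensional_adjoin_simple_padic (b : PadicAlgCl q) :
    FiniteDimensional ℚ_[q] ℚ_[q]⟮b⟯ :=
  IntermediateField.adjoin.finiteDimensional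
    ((PadicAlgCl.isAlgebraic q).isAlgebraic b).isIntegral

/-- **(b), elementwise.** For every `x : PadicAlgCl q` there is a number field `F ⊆ ℚ̄` such that
every local automorphism whose global image fixes `F` fixes `x`. -/
theorem exists_finiteDimensional_forall_apply_eq (x : PadicAlgCl q) :
    ∃ F : IntermediateField ℚ (AlgebraicClosure ℚ), FiniteDimensional ℚ F ∧
      ∀ σ : PadicAlgCl q ≃ₐ[ℚ_[q]] PadicAlgCl q,
        localGaloisToGlobal q σ ∈ F.fixingSubgroup → σ x = x := by
  obtain ⟨y, hy⟩ := exists_mem_adjoin_padicEmbedding q x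
  refine ⟨ℚ⟮y⟯, finiteDimensional_adjoin_simple_rat y, fun σ hσ => ?_⟩
  rw [localGaloisToGlobal_mem_fixingSubgroup_adjoin_simple_iff,
    mem_fixingSubgroup_adjoin_simple_iff] at hσ
  exact apply_eq_of_mem_adjoin_simple hσ hy

/-- **(b), Krasner cofinality.** For every finite subextension `K` of `PadicAlgCl q / ℚ_[q]`
there is a number field `F ⊆ ℚ̄` such that the pull-back of `Gal(ℚ̄/F)` along
`localGaloisToGlobal q` is contained in `Gal(PadicAlgCl q / K)`. -/
theorem exists_finiteDimensional_comap_fixingSubgroup_le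
    (K : IntermediateField ℚ_[q] (PadicAlgCl q)) [FiniteDimensional ℚ_[q] K] :
    ∃ F : IntermediateField ℚ (AlgebraicClosure ℚ), FiniteDimensional ℚ F ∧
      F.fixingSubgroup.comap (localGaloisToGlobal q) ≤ K.fixingSubgroup := by
  have : Algebra.IsSeparable ℚ_[q] (PadicAlgCl q) :=
    Algebra.IsAlgebraic.isSeparable_of_perfectField
  obtain ⟨x, rfl⟩ := exists_eq_adjoin_simple_of_finiteDimensional K
  obtain ⟨y, hy⟩ := exists_mem_adjoin_padicEmbedding q x
  refine ⟨ℚ⟮y⟯, finiteDimensional_adjoin_simple_rat y, fun σ hσ => ?_⟩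
  rw [Subgroup.mem_comap, localGaloisToGlobal_mem_fixingSubgroup_adjoin_simple_iff,
    mem_fixingSubgroup_adjoin_simple_iff] at hσ
  rw [mem_fixingSubgroup_adjoin_simple_iff]
  exact apply_eq_of_mem_adjoin_simple hσ hy

/-- **Converse of (b).** For every number field `F ⊆ ℚ̄` there is a finite subextension `K` of
`PadicAlgCl q / ℚ_[q]` whose fixing subgroup is exactly the pull-back of `Gal(ℚ̄/F)`. -/
theorem exists_finiteDimensional_fixingSubgroup_eq_comap
    (F : IntermediateField ℚ (AlgebraicClosure ℚ)) [FiniteDimensional ℚ F] :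
    ∃ K : IntermediateField ℚ_[q] (PadicAlgCl q), FiniteDimensional ℚ_[q] K ∧
      K.fixingSubgroup = F.fixingSubgroup.comap (localGaloisToGlobal q) := by
  have : Algebra.IsAlgebraic ℚ (AlgebraicClosure ℚ) := AlgebraicClosure.isAlgebraic ℚ
  have : Algebra.IsSeparable ℚ (AlgebraicClosure ℚ) :=
    Algebra.IsAlgebraic.isSeparable_of_perfectField
  obtain ⟨y, rfl⟩ := exists_eq_adjoin_simple_of_finiteDimensional F
  refine ⟨ℚ_[q]⟮padicEmbedding q y⟯, finiteDimensional_adjoin_simple_padic q _, ?_⟩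
  ext σ
  rw [Subgroup.mem_comap, localGaloisToGlobal_mem_fixingSubgroup_adjoin_simple_iff]

end Fermat.Agent.S55.helper51
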