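import Fermat.Agent.S55.Defs
import Fermat.Prelude.Def_GroupCohomology_ContinuousUnramified

/-!
# S55: the arithmetic instance of the abstract setting (`Levels`, `LocalData` for `G_ℚ` and `S`)

* `galLevels S`    : normal fixing subgroups of finite `F/ℚ` unramified outside `S`;
* `locLevels q`    : pull-backs to the local Galois group at `q` of normal fixing subgroups of
                     ALL finite `F/ℚ` (as in the Prelude's local `continuousH2`);
* `galLocal S`     : the local data indexed by the FINITE places `q ∈ S` only (the archimedean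
                     index of the Prelude is handled separately: it contributes nothing, `p` odd);
* `BaseTarget p S` : the deliverable of the arithmetic modules (SH + B + class field theory).
-/

set_option autoImplicit false

open groupCohomology ExtCitation

noncomputable section

namespace Fermat.Agent.S55

/-- the absolute Galois group of `ℚ` -/
abbrev GQ : Type := AlgebraicClosure ℚ ≃ₐ[ℚ] AlgebraicClosure ℚ

/-- Global levels: NORMAL subgroups which are fixing subgroups of finite extensions unramified
outside `S`. -/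
def galLevels (S : Finset Nat.Primes) : Levels GQ where
  mem := {N | N.Normal ∧ ∃ F : IntermediateField ℚ (AlgebraicClosure ℚ),
    F.IsUnramifiedOutside S ∧ N = F.fixingSubgroup}
  normal := fun _ h => h.1
  nonempty := by
    refine ⟨(⊥ : IntermediateField ℚ (AlgebraicClosure ℚ)).fixingSubgroup, ?_, ⊥,
      IntermediateField.isUnramifiedOutside_bot S, rfl⟩
    rw [IntermediateField.fixingSubgroup_bot]
    infer_instance
  directed := by
    rintro N₁ ⟨hn₁, F₁, hu₁, rfl⟩ N₂ ⟨hn₂, F₂, hu₂, rfl⟩
    refine ⟨_, ⟨?_, F₁ ⊔ F₂, hu₁.sup hu₂, rfl⟩, ?_⟩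
    · rw [IntermediateField.fixingSubgroup_sup]
      infer_instance
    · rw [IntermediateField.fixingSubgroup_sup]

/-- Local levels at `q`: pull-backs of NORMAL fixing subgroups of all finite extensions of `ℚ`
(as in the Prelude's local `continuousH2`, up to passing to normal closures). -/
def locLevels (q : Nat.Primes) : Levels (primeLocalGaloisGroup q) where
  mem := {N | ∃ F : IntermediateField ℚ (AlgebraicClosure ℚ),
    FiniteDimensional ℚ F ∧ (F.fixingSubgroup : Subgroup GQ).Normal ∧
      N = F.fixingSubgroup.comap (primeLocalToGlobal q)}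
  normal := by
    rintro N ⟨F, -, hF, rfl⟩
    exact Subgroup.normal_comap _
  nonempty := by
    refine ⟨_, ⊥, inferInstance, ?_, rfl⟩
    rw [IntermediateField.fixingSubgroup_bot]
    infer_instance
  directed := by
    rintro N₁ ⟨F₁, hu₁, hn₁, rfl⟩ N₂ ⟨F₂, hu₂, hn₂, rfl⟩
    refine ⟨_, ⟨F₁ ⊔ F₂, IntermediateField.finiteDimensional_sup F₁ F₂, ?_, rfl⟩, ?_⟩
    · rw [IntermediateField.fixingSubgroup_sup]
      infer_instance
    · rw [IntermediateField.fixingSubgroup_sup, Subgroup.comap_inf]

/-- The local data at the finite places of `S`. -/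
def galLocal (S : Finset Nat.Primes) : LocalData GQ (galLevels S) ↥S where
  Gv v := primeLocalGaloisGroup v.1
  grp v := inferInstance
  r v := primeLocalToGlobal v.1
  lev v := locLevels v.1
  compat := by
    rintro v N ⟨hn, F, hu, rfl⟩
    exact ⟨_, ⟨F, hu.1, hn, rfl⟩, le_rfl⟩

/-- DELIVERABLE of the arithmetic modules: a trace functional killing cone coboundaries for which
the base hypothesis holds. -/
def BaseTarget (p : ℕ) [Fact p.Prime] (S : Finset Nat.Primes) : Prop :=
  ∃ tr : CcAmb3 (galLocal S) (groupCohomology.ofChar (k := ZMod p) (cycloChar p)) →ₗ[ZMod p] ZMod p,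
    (∀ c ∈ Bc3 (galLocal S) (groupCohomology.ofChar (k := ZMod p) (cycloChar p)), tr c = 0) ∧
    BaseHyp (galLocal S) (cycloChar p) tr

/-- BRIDGE statement: the Prelude's `sha₁`, `sha₂` are linearly equivalent to the abstract
`Sha1`, `Sha2` of `galLocal S` (uses `p` odd for the archimedean index, and the hypotheses of
S55 on `M`). -/
def BridgeStatement (p : ℕ) [Fact p.Prime] (S : Finset Nat.Primes) : Prop :=
  p ≠ 2 → pPrime p ∈ S →
  ∀ M : Rep (ZMod p) GQ, Module.Finite (ZMod p) M → IsSmooth (galLevels S) M →
    Nonempty (sha₁ S (M.dualTwist (cycloChar p)) ≃ₗ[ZMod p]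
        Sha1 (galLocal S) (M.dualTwist (cycloChar p))) ∧
    Nonempty (sha₂ S M ≃ₗ[ZMod p] Sha2 (galLocal S) M)

/-- SMOOTHNESS statement: the hypotheses of S55 give uniform smoothness for the `S`-levels. -/
def SmoothStatement (p : ℕ) [Fact p.Prime] (S : Finset Nat.Primes) : Prop :=
  ∀ M : Rep (ZMod p) GQ, Module.Finite (ZMod p) M →
    (∀ m : M, ∃ F : IntermediateField ℚ (AlgebraicClosure ℚ), FiniteDimensional ℚ F ∧
      ∀ s ∈ F.fixingSubgroup, M.ρ s m = m) →
    (∀ q : Nat.Primes, q ∉ S → ∀ A : ValuationSubring (AlgebraicClosure ℚ),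
      A.LiesOverPrime (q : ℕ) → ∀ g ∈ A.inertiaSubgroupIn ℚ, M.ρ g = 1) →
    IsSmooth (galLevels S) M

/-- CHARACTER statement: finiteness of the levels and smoothness of the cyclotomic character
(needs `p ∈ S`). -/
def LevelStatement (p : ℕ) [Fact p.Prime] (S : Finset Nat.Primes) : Prop :=
  pPrime p ∈ S →
    (∀ N ∈ (galLevels S).mem, Finite (GQ ⧸ N)) ∧
    (∃ N ∈ (galLevels S).mem, ∀ g ∈ N, cycloChar p g = 1)

end Fermat.Agent.S55
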