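import Fermat.Agent.S55.helper59_BDefs
import Fermat.Agent.S55.Arith

/-!
# S55 module B, package B-AR-LEV (helper69, task 311)

* `isUnramifiedOutside_normalClosure` : the normal closure (inside `ℚbar`) of a finite extension
  unramified outside `S` is unramified outside `S`;
* `exists_levels`, `finite_quotient_of_mem_sLevels` : the S-levels below `F` form a level
  structure of finite-index subgroups (statements VERBATIM from helper59's interface);
* `sLevelsStr` : the level structure itself, as a definition;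
* `isLev₁_galLevels_iff`, `isLev₂_galLevels_iff` : Prelude `IsLevelConstantS₁/₂` is the same as
  level-constancy for the NORMAL S-levels `galLevels S` of `G_ℚ`;
* `finite_quotient_of_mem_galLevels` : normal S-levels of `G_ℚ` have finite index.
-/

set_option autoImplicit false

open groupCohomology ExtCitation

open scoped Pointwise

noncomputable section

namespace Fermat.Agent.S55.helper69

open Fermat.Agent.S55 Fermat.Agent.S55.helper59

/-! ## Inertia groups of conjugate valuation subrings -/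

section Inertia

universe v w

variable {K : Type v} {L : Type w} [Field K] [Field L] [Algebra K L]

/-- membership in the Prelude's inertia group, in elementary terms -/
theorem mem_inertiaSubgroupIn_iff_nonunits (A : ValuationSubring L) (σ : L ≃ₐ[K] L) :
    σ ∈ A.inertiaSubgroupIn K ↔
      σ ∈ A.decompositionSubgroup K ∧ ∀ a ∈ A, σ a - a ∈ A.nonunits := by
  unfold ValuationSubring.inertiaSubgroupIn
  rw [Subgroup.mem_map]
  constructor
  · rintro ⟨g, hg, rfl⟩
    refine ⟨g.2, fun a ha => ?_⟩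
    rw [ValuationSubring.inertiaSubgroup, MonoidHom.mem_ker] at hg
    have h1 := congrArg (fun f => f (IsLocalRing.residue A ⟨a, ha⟩)) hg
    simp only [MulSemiringAction.toRingAut_apply, RingAut.one_apply,
      MulSemiringAction.toRingEquiv_apply_apply] at h1
    rw [← IsLocalRing.ResidueField.residue_smul, ← sub_eq_zero, ← map_sub,
      IsLocalRing.residue_eq_zero_iff, A.valuation_lt_one_iff] at h1
    rw [ValuationSubring.mem_nonunits_iff]
    exact h1
  · rintro ⟨hσ, h⟩
    refine ⟨⟨σ, hσ⟩, ?_, rfl⟩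
    rw [ValuationSubring.inertiaSubgroup, MonoidHom.mem_ker]
    ext xbar
    obtain ⟨a, rfl⟩ := IsLocalRing.residue_surjective xbar
    simp only [MulSemiringAction.toRingAut_apply, RingAut.one_apply,
      MulSemiringAction.toRingEquiv_apply_apply]
    rw [← IsLocalRing.ResidueField.residue_smul, ← sub_eq_zero, ← map_sub,
      IsLocalRing.residue_eq_zero_iff, A.valuation_lt_one_iff]
    have := h a.1 a.2
    rw [ValuationSubring.mem_nonunits_iff] at this
    exact this

theorem apply_mem_smul_iff (A : ValuationSubring L) (σ : L ≃ₐ[K] L) (x : L) :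
    σ x ∈ σ • A ↔ x ∈ A := by
  have : σ x = σ • x := rfl
  rw [this, ValuationSubring.smul_mem_pointwise_smul_iff]

theorem apply_mem_nonunits_smul_iff (A : ValuationSubring L) (σ : L ≃ₐ[K] L) (x : L) :
    σ x ∈ (σ • A).nonunits ↔ x ∈ A.nonunits := by
  rw [ValuationSubring.mem_nonunits_iff_or, ValuationSubring.mem_nonunits_iff_or, ← map_inv₀,
    apply_mem_smul_iff, map_eq_zero_iff σ σ.injective]

/-- the conjugate valuation subring lies over the same prime -/
theorem liesOverPrime_smul {A : ValuationSubring L} {q : ℕ} (hA : A.LiesOverPrime q)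
    (σ : L ≃ₐ[K] L) : (σ • A).LiesOverPrime q := by
  unfold ValuationSubring.LiesOverPrime at hA ⊢
  have h := (apply_mem_nonunits_smul_iff A σ (q : L)).mpr hA
  rwa [map_natCast] at h

/-- CONJUGATION: `I(σ A) ⊇ σ I(A) σ⁻¹`. -/
theorem conj_mem_inertiaSubgroupIn {A : ValuationSubring L} {τ : L ≃ₐ[K] L}
    (hτ : τ ∈ A.inertiaSubgroupIn K) (σ : L ≃ₐ[K] L) :
    σ * τ * σ⁻¹ ∈ (σ • A).inertiaSubgroupIn K := by
  rw [mem_inertiaSubgroupIn_iff_nonunits] at hτ ⊢
  obtain ⟨hd, hi⟩ := hτ
  refine ⟨?_, fun a ha => ?_⟩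
  · rw [MulAction.mem_stabilizer_iff] at hd ⊢
    rw [mul_smul, mul_smul, inv_smul_smul, hd]
  · obtain ⟨b, rfl⟩ : ∃ b, a = σ b := ⟨σ⁻¹ a, by simp⟩
    rw [apply_mem_smul_iff] at ha
    have h1 : (σ * τ * σ⁻¹) (σ b) - σ b = σ (τ b - b) := by
      simp [AlgEquiv.mul_apply]
    rw [h1, apply_mem_nonunits_smul_iff]
    exact hi b ha

/-- CONJUGATION, as an inclusion of subgroups. -/
theorem inertiaSubgroupIn_smul (A : ValuationSubring L) (σ : L ≃ₐ[K] L) :
    (σ • A).inertiaSubgroupIn K = (A.inertiaSubgroupIn K).map (MulAut.conj σ).toMonoidHom := by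
  ext τ
  rw [Subgroup.mem_map]
  constructor
  · intro h
    refine ⟨σ⁻¹ * τ * σ, ?_, ?_⟩
    · have := conj_mem_inertiaSubgroupIn h σ⁻¹
      rwa [inv_smul_smul, inv_inv] at this
    · simp [MulAut.conj_apply, mul_assoc]
  · rintro ⟨ρ, hρ, rfl⟩
    exact conj_mem_inertiaSubgroupIn hρ σ

end Inertia

/-! ## The normal closure of an extension unramified outside `S` -/

section NormalClosure

theorem isAlgebraic_Qbar : Algebra.IsAlgebraic ℚ (AlgebraicClosure ℚ) :=
  AlgebraicClosure.isAlgebraic ℚ

theorem isAlgClosure_Qbar : IsAlgClosure ℚ (AlgebraicClosure ℚ) :=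
  have := isAlgebraic_Qbar
  ⟨inferInstance, inferInstance⟩

theorem normal_Qbar : Normal ℚ (AlgebraicClosure ℚ) :=
  have := isAlgClosure_Qbar
  IsAlgClosure.normal ℚ (AlgebraicClosure ℚ)

attribute [local instance] isAlgebraic_Qbar isAlgClosure_Qbar normal_Qbar

variable {S : Finset Nat.Primes} {F : IntermediateField ℚ (AlgebraicClosure ℚ)}

/-- every embedding of `F` into `ℚbar` is induced by an automorphism of `ℚbar` -/
theorem exists_algEquiv_extending (f : F →ₐ[ℚ] AlgebraicClosure ℚ) :
    ∃ σ : AlgebraicClosure ℚ ≃ₐ[ℚ] AlgebraicClosure ℚ, ∀ y : F, σ (y : AlgebraicClosure ℚ) = f y := by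
  obtain ⟨φ, hφ⟩ := IntermediateField.exists_algHom_of_splits
    (F := ℚ) (E := AlgebraicClosure ℚ) (K := AlgebraicClosure ℚ) (L := F)
    (fun s => ⟨(Algebra.IsIntegral.isIntegral s), IsAlgClosed.splits _⟩) f
  refine ⟨AlgEquiv.ofBijective φ (Algebra.IsAlgebraic.algHom_bijective φ), fun y => ?_⟩
  exact congrArg (fun g => g y) hφ

/-- the fixing subgroup of a normal intermediate field is a normal subgroup -/
theorem fixingSubgroup_normal_of_normal (E : IntermediateField ℚ (AlgebraicClosure ℚ))
    (h : @Normal ℚ E _ _ E.algebra') : E.fixingSubgroup.Normal := by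
  rw [← @IntermediateField.restrictNormalHom_ker _ _ _ _ _ E h]
  infer_instance

/-- inertia groups outside `S` fix every conjugate of `F` -/
theorem IsUnramifiedOutside_conj (hF : F.IsUnramifiedOutside S) {q : Nat.Primes} (hq : q ∉ S)
    {A : ValuationSubring (AlgebraicClosure ℚ)} (hA : A.LiesOverPrime (q : ℕ))
    {τ : AlgebraicClosure ℚ ≃ₐ[ℚ] AlgebraicClosure ℚ} (hτ : τ ∈ A.inertiaSubgroupIn ℚ)
    (σ : AlgebraicClosure ℚ ≃ₐ[ℚ] AlgebraicClosure ℚ) (y : AlgebraicClosure ℚ) (hy : y ∈ F) :
    τ (σ y) = σ y := by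
  have h1 : σ⁻¹ * τ * σ⁻¹⁻¹ ∈ F.fixingSubgroup :=
    hF.2 q hq (σ⁻¹ • A) (liesOverPrime_smul hA σ⁻¹) (conj_mem_inertiaSubgroupIn hτ σ⁻¹)
  rw [inv_inv] at h1
  have h2 := (IntermediateField.mem_fixingSubgroup_iff _ _).mp h1 y hy
  have h3 : σ ((σ⁻¹ * τ * σ) y) = τ (σ y) := by
    simp [AlgEquiv.mul_apply]
  rw [← h3]
  exact congrArg σ h2

/-- B-AR-LEV, key step: the normal closure of a finite extension unramified outside `S` is
unramified outside `S`. -/
theorem isUnramifiedOutside_normalClosure (hF : F.IsUnramifiedOutside S) :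
    (IntermediateField.normalClosure ℚ F (AlgebraicClosure ℚ)).IsUnramifiedOutside S := by
  have := hF.1
  refine ⟨inferInstance, fun q hq A hA τ hτ => ?_⟩
  have hle : IntermediateField.normalClosure ℚ F (AlgebraicClosure ℚ) ≤
      IntermediateField.fixedField (Subgroup.zpowers τ) := by
    unfold IntermediateField.normalClosure
    refine iSup_le fun f => ?_
    rintro x ⟨y, rfl⟩
    obtain ⟨σ, hσ⟩ := exists_algEquiv_extending f
    rw [IntermediateField.mem_fixedField_iff]
    intro ρ hρ
    have hfix : τ (f y) = f y := by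
      rw [← hσ y]
      exact IsUnramifiedOutside_conj hF hq hA hτ σ y y.2
    have hmem : τ ∈ MulAction.stabilizer
        (AlgebraicClosure ℚ ≃ₐ[ℚ] AlgebraicClosure ℚ) (f y) := by
      rw [MulAction.mem_stabilizer_iff]
      exact hfix
    have := (Subgroup.zpowers_le.mpr hmem) hρ
    rw [MulAction.mem_stabilizer_iff] at this
    exact this
  rw [IntermediateField.le_iff_le] at hle
  exact hle (Subgroup.mem_zpowers τ)

/-- B-AR-LEV, the usable form: every finite extension unramified outside `S` is contained in a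
finite NORMAL extension unramified outside `S`. -/
theorem exists_normal_isUnramifiedOutside (hF : F.IsUnramifiedOutside S) :
    ∃ E : IntermediateField ℚ (AlgebraicClosure ℚ),
      F ≤ E ∧ E.IsUnramifiedOutside S ∧ E.fixingSubgroup.Normal := by
  refine ⟨IntermediateField.normalClosure ℚ F (AlgebraicClosure ℚ), ?_,
    isUnramifiedOutside_normalClosure hF, ?_⟩
  · intro x hx
    unfold IntermediateField.normalClosure
    have h1 : x ∈ (F.val).fieldRange := ⟨⟨x, hx⟩, rfl⟩
    exact (le_iSup (fun f : F →ₐ[ℚ] AlgebraicClosure ℚ => f.fieldRange) F.val) h1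
  · exact fixingSubgroup_normal_of_normal _ (normalClosure.normal ℚ F (AlgebraicClosure ℚ))

/-- fixing subgroups of finite extensions have finite index in `G_ℚ` -/
theorem finiteIndex_fixingSubgroup (E : IntermediateField ℚ (AlgebraicClosure ℚ))
    (hE : FiniteDimensional ℚ E) : E.fixingSubgroup.FiniteIndex := by
  have hG : IsGalois ℚ (AlgebraicClosure ℚ) := ⟨⟩
  have hE' : @FiniteDimensional ℚ E _ _ E.module' := hE
  refine ⟨?_⟩
  rw [← IntermediateField.finrank_eq_fixingSubgroup_index]
  exact (@Module.finrank_pos ℚ E _ _ E.module' _ _ _ _).ne'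

/-- Galois correspondence (order-reversing direction) in `ℚbar / ℚ` -/
theorem le_of_fixingSubgroup_le {E F : IntermediateField ℚ (AlgebraicClosure ℚ)}
    (h : E.fixingSubgroup ≤ F.fixingSubgroup) : F ≤ E := by
  have hG : IsGalois ℚ (AlgebraicClosure ℚ) := ⟨⟩
  rw [← InfiniteGalois.fixedField_fixingSubgroup E, IntermediateField.le_iff_le]
  exact h

end NormalClosure

/-! ## S-levels below `F` -/

section Levels

variable (S : Finset Nat.Primes) (F : IntermediateField ℚ (AlgebraicClosure ℚ))

/-- The level structure of S-levels below `F` (as a definition). -/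
def sLevelsStr (hF : F.IsUnramifiedOutside S) : Levels (UF F) where
  mem := sLevels S F
  normal := by
    rintro N ⟨E, -, hn, -, rfl⟩
    exact Subgroup.normal_subgroupOf
  nonempty := by
    obtain ⟨E, hle, hE, hn⟩ := exists_normal_isUnramifiedOutside hF
    exact ⟨_, E, hE, hn, hle, rfl⟩
  directed := by
    rintro N₁ ⟨E₁, hE₁, hn₁, hle₁, rfl⟩ N₂ ⟨E₂, hE₂, hn₂, hle₂, rfl⟩
    refine ⟨_, ⟨E₁ ⊔ E₂, hE₁.sup hE₂, ?_, le_sup_of_le_left hle₁, rfl⟩, ?_⟩
    · rw [IntermediateField.fixingSubgroup_sup]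
      infer_instance
    · rw [IntermediateField.fixingSubgroup_sup]
      unfold Subgroup.subgroupOf
      rw [Subgroup.comap_inf]

@[simp] theorem sLevelsStr_mem (hF : F.IsUnramifiedOutside S) :
    (sLevelsStr S F hF).mem = sLevels S F := rfl

/-- B-AR-LEV: S-levels below `F` form a level structure as soon as `F` is unramified outside `S`
(normal closure of `F` is unramified outside `S`; compositum). -/
theorem exists_levels (hF : F.IsUnramifiedOutside S) :
    ∃ 𝒩 : Levels (UF F), 𝒩.mem = sLevels S F :=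
  ⟨sLevelsStr S F hF, rfl⟩

/-- B-AR-LEV': S-levels have finite index. -/
theorem finite_quotient_of_mem_sLevels (N : Subgroup (UF F)) (hN : N ∈ sLevels S F) :
    Finite (UF F ⧸ N) := by
  obtain ⟨E, hE, -, -, rfl⟩ := hN
  have := finiteIndex_fixingSubgroup E hE.1
  infer_instance

/-- every S-level below `F` is the trace on `U` of a NORMAL S-level of `G_ℚ` contained in `U` -/
theorem mem_sLevels_iff (N : Subgroup (UF F)) :
    N ∈ sLevels S F ↔ ∃ M ∈ (galLevels S).mem, M ≤ F.fixingSubgroup ∧
      N = M.subgroupOf F.fixingSubgroup := by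
  constructor
  · rintro ⟨E, hE, hn, hle, rfl⟩
    exact ⟨_, ⟨hn, E, hE, rfl⟩, IntermediateField.fixingSubgroup_antitone hle, rfl⟩
  · rintro ⟨M, ⟨hn, E, hE, rfl⟩, hle, rfl⟩
    exact ⟨E, hE, hn, le_of_fixingSubgroup_le hle, rfl⟩

end Levels

/-! ## Normal S-levels of `G_ℚ` and the Prelude's level-constancy -/

section GalLevels

variable (S : Finset Nat.Primes)

/-- normal S-levels of `G_ℚ` have finite index -/
theorem finite_quotient_of_mem_galLevels
    (N : Subgroup (AlgebraicClosure ℚ ≃ₐ[ℚ] AlgebraicClosure ℚ)) (hN : N ∈ (galLevels S).mem) :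
    Finite ((AlgebraicClosure ℚ ≃ₐ[ℚ] AlgebraicClosure ℚ) ⧸ N) := by
  obtain ⟨-, E, hE, rfl⟩ := hN
  have := finiteIndex_fixingSubgroup E hE.1
  infer_instance

/-- every fixing subgroup of a finite extension unramified outside `S` contains a NORMAL
S-level -/
theorem exists_mem_galLevels_le {F : IntermediateField ℚ (AlgebraicClosure ℚ)}
    (hF : F.IsUnramifiedOutside S) : ∃ N ∈ (galLevels S).mem, N ≤ F.fixingSubgroup := by
  obtain ⟨E, hle, hE, hn⟩ := exists_normal_isUnramifiedOutside hF
  exact ⟨_, ⟨hn, E, hE, rfl⟩, IntermediateField.fixingSubgroup_antitone hle⟩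

/-- Prelude level-constancy (1-cochains) = level-constancy for the normal S-levels -/
theorem isLev₁_galLevels_iff {X : Type*}
    (f : (AlgebraicClosure ℚ ≃ₐ[ℚ] AlgebraicClosure ℚ) → X) :
    IsLev₁ (galLevels S) f ↔ IsLevelConstantS₁ S f := by
  constructor
  · rintro ⟨N, ⟨-, E, hE, rfl⟩, h⟩
    exact ⟨E, hE, fun g s hs => h g s hs⟩
  · rintro ⟨F, hF, h⟩
    obtain ⟨N, hN, hle⟩ := exists_mem_galLevels_le S hF
    exact ⟨N, hN, fun g s hs => h g s (hle hs)⟩

/-- Prelude level-constancy (2-cochains) = level-constancy for the normal S-levels -/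
theorem isLev₂_galLevels_iff {X : Type*}
    (f : (AlgebraicClosure ℚ ≃ₐ[ℚ] AlgebraicClosure ℚ) ×
      (AlgebraicClosure ℚ ≃ₐ[ℚ] AlgebraicClosure ℚ) → X) :
    IsLev₂ (galLevels S) f ↔ IsLevelConstantS₂ S f := by
  constructor
  · rintro ⟨N, ⟨-, E, hE, rfl⟩, h⟩
    exact ⟨E, hE, fun g g' s s' hs hs' => h g g' s hs s' hs'⟩
  · rintro ⟨F, hF, h⟩
    obtain ⟨N, hN, hle⟩ := exists_mem_galLevels_le S hF
    exact ⟨N, hN, fun g g' s hs s' hs' => h g g' s s' (hle hs) (hle hs')⟩

end GalLevels

end Fermat.Agent.S55.helper69
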