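import Fermat.Agent.S55.helper97_KumGDefs
import Fermat.Agent.S55.helper69_BArLev
import Fermat.Agent.S14.helper91_Dictionary
import Fermat.Agent.S55.helper51_Krasner

/-!
# S55 B-AR-KUM-G2a (helper42, task 394): Selmer ⇒ S-level

If `a ∈ Fˣ` has `p ∣ ord_v a` for all places `v` of `F` not above `S` (with `p ∈ S` and `F`
unramified outside `S`), then every `p`-th root of `a` lies in a finite normal extension of `ℚ`
containing `F` and unramified outside `S`.
-/

set_option autoImplicit false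
set_option linter.unusedSectionVars false

open IsDedekindDomain
open scoped NumberField nonZeroDivisors

noncomputable section

namespace Fermat.Agent.S55.helper42

open Fermat.Agent.S55 Fermat.Agent.S55.helper59 Fermat.Agent.S55.helper97

local notation "Qbar" => AlgebraicClosure ℚ

/-! ## valuation subrings of `ℚbar`: inertia fixes `p`-th roots of units, `p` a unit -/

section Val

variable (A : ValuationSubring Qbar)

theorem valuation_eq_one_of_pow {x : Qbar} {n : ℕ} (hn : n ≠ 0)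
    (h : A.valuation (x ^ n) = 1) : A.valuation x = 1 := by
  rw [map_pow] at h
  exact (pow_eq_one_iff.1 h).resolve_right hn

/-- if `z ≡ 1` modulo the maximal ideal then `z ^ i ≡ 1` -/
theorem valuation_pow_sub_one_lt {z : Qbar} (hz : A.valuation z = 1)
    (hz1 : A.valuation (z - 1) < 1) (i : ℕ) : A.valuation (z ^ i - 1) < 1 := by
  induction i with
  | zero => simp
  | succ i ih =>
    have h : z ^ (i + 1) - 1 = z * (z ^ i - 1) + (z - 1) := by ring
    rw [h]
    refine Valuation.map_add_lt _ ?_ hz1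
    rw [map_mul, hz, one_mul]
    exact ih

/-- a `p`-th root of unity congruent to `1` modulo the maximal ideal is `1` when `p` is a unit -/
theorem eq_one_of_pow_eq_one_of_valuation_lt {p : ℕ} (hpA : A.valuation (p : Qbar) = 1)
    {z : Qbar} (hzp : z ^ p = 1) (hz1 : A.valuation (z - 1) < 1) : z = 1 := by
  by_contra hne
  have hp0 : p ≠ 0 := by
    rintro rfl
    simp at hpA
  have hz : A.valuation z = 1 := valuation_eq_one_of_pow A hp0 (by rw [hzp, map_one])
  have hsum : ∑ i ∈ Finset.range p, z ^ i = 0 := by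
    have h := mul_geom_sum z p
    rw [hzp, sub_self] at h
    exact (mul_eq_zero.1 h).resolve_left (sub_ne_zero.2 hne)
  have hp : (p : Qbar) = - ∑ i ∈ Finset.range p, (z ^ i - 1) := by
    rw [Finset.sum_sub_distrib, hsum]
    simp
  have hlt : A.valuation (p : Qbar) < 1 := by
    rw [hp, Valuation.map_neg]
    exact Valuation.map_sum_lt _ one_ne_zero
      (fun i _ => valuation_pow_sub_one_lt A hz hz1 i)
  rw [hpA] at hlt
  exact lt_irrefl _ hlt

/-- an inertia element at `A` fixes every `p`-th root `β` of an `A`-unit fixed by it, when `p`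
is an `A`-unit -/
theorem apply_eq_of_mem_inertia_of_pow {σ : GQ} (hσ : σ ∈ A.inertiaSubgroupIn ℚ) {p : ℕ}
    (hpA : A.valuation (p : Qbar) = 1) {β : Qbar} (hβ : A.valuation (β ^ p) = 1)
    (hfix : σ (β ^ p) = β ^ p) : σ β = β := by
  have hp0 : p ≠ 0 := by
    rintro rfl
    simp at hpA
  have hβ1 : A.valuation β = 1 := valuation_eq_one_of_pow A hp0 hβ
  have hβ0 : β ≠ 0 := by
    rintro rfl
    simp at hβ1
  have hβA : β ∈ A := (A.valuation_le_one_iff β).1 hβ1.le
  have hin := ((Fermat.Agent.S14.helper91.mem_inertiaSubgroupIn_iff_valuation A σ).1 hσ).2 β hβA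
  have hzp : (σ β / β) ^ p = 1 := by
    rw [div_pow, ← map_pow, hfix, div_self (pow_ne_zero p hβ0)]
  have hz1 : A.valuation (σ β / β - 1) < 1 := by
    have h : σ β / β - 1 = (σ β - β) / β := by field_simp
    rw [h, map_div₀, hβ1, div_one]
    exact hin
  have := eq_one_of_pow_eq_one_of_valuation_lt A hpA hzp hz1
  exact (div_eq_one_iff_eq hβ0).1 this

end Val

/-! ## the place of `F` under a valuation subring of `ℚbar` -/

section Place

open Fermat.Agent.S14.helper91 Fermat.Agent.S54.helper91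

variable (F : IntermediateField ℚ Qbar) [NumberField ↥F] (A : ValuationSubring Qbar)

/-- integers of `F` lie in every valuation subring of `ℚbar` -/
theorem valuation_integer_le_one (r : 𝓞 ↥F) : A.valuation ((r : ↥F) : Qbar) ≤ 1 := by
  rw [A.valuation_le_one_iff]
  exact (zbarToVal A (toZbar ↥F r)).2

variable {A} in
/-- the place of `F` under a valuation subring of `ℚbar` lying over a prime -/
def placeOf {q : ℕ} (hq : q.Prime) (hA : A.LiesOverPrime q) : HeightOneSpectrum (𝓞 ↥F) where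
  asIdeal := primeOf ↥F A
  isPrime := inferInstance
  ne_bot := by
    intro h
    have h1 := natCast_mem_primeOf ↥F A hA
    rw [h, Ideal.mem_bot] at h1
    exact hq.ne_zero (by exact_mod_cast h1)

variable {A} in
theorem mem_placeOf_iff {q : ℕ} (hq : q.Prime) (hA : A.LiesOverPrime q) (x : 𝓞 ↥F) :
    x ∈ (placeOf F hq hA).asIdeal ↔ A.valuation ((x : ↥F) : Qbar) < 1 :=
  mem_primeOf_iff ↥F A x

variable {A} in
theorem valuation_eq_one_of_notMem {q : ℕ} (hq : q.Prime) (hA : A.LiesOverPrime q) {x : 𝓞 ↥F}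
    (hx : x ∉ (placeOf F hq hA).asIdeal) : A.valuation ((x : ↥F) : Qbar) = 1 :=
  le_antisymm (valuation_integer_le_one F A x)
    (not_lt.1 fun h => hx ((mem_placeOf_iff F hq hA x).2 h))

variable {A} in
/-- units at the place of `F` under `A` are units of `A` -/
theorem valuation_eq_one_of_place {q : ℕ} (hq : q.Prime) (hA : A.LiesOverPrime q) (x : ↥F)
    (hx : (placeOf F hq hA).valuation ↥F x = 1) : A.valuation (x : Qbar) = 1 := by
  obtain ⟨n, d, hnd⟩ := (placeOf F hq hA).exists_primeCompl_mul_eq_of_integer x hx.le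
  have hd : A.valuation (((d : 𝓞 ↥F) : ↥F) : Qbar) = 1 := valuation_eq_one_of_notMem F hq hA d.2
  have hn' : (placeOf F hq hA).valuation ↥F (algebraMap (𝓞 ↥F) ↥F n) = 1 := by
    rw [← hnd, map_mul, hx, one_mul]
    exact (HeightOneSpectrum.valuation_eq_one_iff_notMem _).2 d.2
  have hn : A.valuation ((n : ↥F) : Qbar) = 1 :=
    valuation_eq_one_of_notMem F hq hA ((HeightOneSpectrum.valuation_eq_one_iff_notMem _).1 hn')
  have h := congrArg (fun y : ↥F => A.valuation (y : Qbar)) hnd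
  simp only [MulMemClass.coe_mul, map_mul] at h
  change A.valuation (x : Qbar) * A.valuation (((d : 𝓞 ↥F) : ↥F) : Qbar) =
    A.valuation ((n : ↥F) : Qbar) at h
  rw [hd, hn, mul_one] at h
  exact h

variable {A} in
/-- the place under `A` (over `q ∉ S`) is not above `S` -/
theorem placeOf_notMem_placesOver {S : Finset Nat.Primes} {q : Nat.Primes} (hq : q ∉ S)
    (hA : A.LiesOverPrime (q : ℕ)) : placeOf F q.2 hA ∉ placesOver (↥F) S := by
  rw [mem_placesOver_iff]
  rintro ⟨q', hq'S, hq'⟩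
  have hne : (q' : ℕ) ≠ q := fun h => hq (by rw [← Subtype.ext h]; exact hq'S)
  have hcop : IsCoprime ((q' : ℕ) : ℤ) ((q : ℕ) : ℤ) :=
    Nat.isCoprime_iff_coprime.2 ((Nat.coprime_primes q'.2 q.2).2 hne)
  obtain ⟨u, w, huw⟩ := hcop
  have hq0 : ((q : ℕ) : 𝓞 ↥F) ∈ (placeOf F q.2 hA).asIdeal := natCast_mem_primeOf ↥F A hA
  have h1 : (1 : 𝓞 ↥F) ∈ (placeOf F q.2 hA).asIdeal := by
    have h2 : (1 : 𝓞 ↥F) = (u : 𝓞 ↥F) * ((q' : ℕ) : 𝓞 ↥F) + (w : 𝓞 ↥F) * ((q : ℕ) : 𝓞 ↥F) := by
      have := congrArg (Int.cast : ℤ → 𝓞 ↥F) huw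
      push_cast at this
      exact this.symm
    rw [h2]
    exact Ideal.add_mem _ (Ideal.mul_mem_left _ _ hq') (Ideal.mul_mem_left _ _ hq0)
  exact (placeOf F q.2 hA).isPrime.ne_top ((Ideal.eq_top_iff_one _).2 h1)

end Place

/-! ## KG2a -/

section KG2a

variable {p : ℕ} [Fact p.Prime] {S : Finset Nat.Primes} {F : IntermediateField ℚ Qbar}
  [NumberField ↥F]

/-- a unit `a` of `F` with `p ∣ ord_v a` is a `v`-unit times a `p`-th power -/
theorem exists_pow_mul_unit (v : HeightOneSpectrum (𝓞 ↥F)) (a : (↥F)ˣ)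
    (ha : (p : ℤ) ∣ Multiplicative.toAdd (v.valuationOfNeZero a)) :
    ∃ b : (↥F)ˣ, v.valuation ↥F (((a / b ^ p : (↥F)ˣ) : ↥F)) = 1 := by
  obtain ⟨m, hm⟩ := ha
  obtain ⟨π, hπ⟩ := v.valuation_exists_uniformizer ↥F
  have hπ0 : π ≠ 0 := by
    rintro rfl
    rw [map_zero] at hπ
    exact WithZero.exp_ne_zero hπ.symm
  have h1 : v.valuationOfNeZero (Units.mk0 π hπ0) = Multiplicative.ofAdd (-1 : ℤ) := by
    apply WithZero.coe_injective
    rw [HeightOneSpectrum.valuationOfNeZero_eq]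
    exact hπ
  have h2 : v.valuationOfNeZero a = Multiplicative.ofAdd ((p : ℤ) * m) := by
    rw [← hm]
    rfl
  refine ⟨(Units.mk0 π hπ0) ^ (-m), ?_⟩
  rw [← HeightOneSpectrum.valuationOfNeZero_eq]
  have h3 : v.valuationOfNeZero (a / ((Units.mk0 π hπ0) ^ (-m)) ^ p) = 1 := by
    rw [map_div, map_pow, map_zpow, h1, h2]
    apply Multiplicative.toAdd.injective
    simp only [toAdd_div, toAdd_pow, toAdd_zpow, toAdd_ofAdd, toAdd_one, smul_eq_mul,
      nsmul_eq_mul]
    ring
  rw [h3]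
  rfl

/-- KG2a, the key step: inertia outside `S` fixes the `p`-th roots of Selmer elements -/
theorem apply_eq_of_isSelmer (hpS : (⟨p, Fact.out⟩ : Nat.Primes) ∈ S)
    (hF : F.IsUnramifiedOutside S) (a : (↥F)ˣ) (α : Qbar) (hα : α ^ p = ((a : ↥F) : Qbar))
    (ha : IsSelmer (↥F) S p a) {q : Nat.Primes} (hq : q ∉ S) {A : ValuationSubring Qbar}
    (hA : A.LiesOverPrime (q : ℕ)) {σ : GQ} (hσ : σ ∈ A.inertiaSubgroupIn ℚ) : σ α = α := by
  have hσF : σ ∈ F.fixingSubgroup := hF.2 q hq A hA hσ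
  have hv := placeOf_notMem_placesOver F hq hA
  -- `p` is a unit of `A`
  have hpv : ((p : ℕ) : 𝓞 ↥F) ∉ (placeOf F q.2 hA).asIdeal := fun h =>
    hv ((mem_placesOver_iff _).2 ⟨⟨p, Fact.out⟩, hpS, h⟩)
  have hpA : A.valuation ((p : ℕ) : Qbar) = 1 := by
    have := valuation_eq_one_of_notMem F q.2 hA hpv
    simpa using this
  obtain ⟨b, hb⟩ := exists_pow_mul_unit (placeOf F q.2 hA) a (ha _ hv)
  have hb1 := valuation_eq_one_of_place F q.2 hA _ hb
  have hb0 : ((b : ↥F) : Qbar) ≠ 0 := by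
    have : (b : ↥F) ≠ 0 := b.ne_zero
    exact fun h => this (Subtype.ext h)
  have hβp : (α / ((b : ↥F) : Qbar)) ^ p = (((a / b ^ p : (↥F)ˣ) : ↥F) : Qbar) := by
    rw [div_pow, hα]
    simp [Units.val_div_eq_div_val]
  have hfix : σ ((α / ((b : ↥F) : Qbar)) ^ p) = (α / ((b : ↥F) : Qbar)) ^ p := by
    rw [hβp]
    exact (IntermediateField.mem_fixingSubgroup_iff _ _).1 hσF _ (SetLike.coe_mem _)
  have h := apply_eq_of_mem_inertia_of_pow A hσ hpA (by rw [hβp]; exact hb1) hfix
  have hσb : σ ((b : ↥F) : Qbar) = ((b : ↥F) : Qbar) :=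
    (IntermediateField.mem_fixingSubgroup_iff _ _).1 hσF _ (SetLike.coe_mem _)
  rw [map_div₀, hσb] at h
  exact (div_left_inj' hb0).1 h

/-- KG2a (Selmer => S-level): if `p ∣ ord_v a` for all `v` not above `S` (and `p ∈ S`, `ζ_p ∈ F`,
`F` unramified outside `S`), then a `p`-th root of `a` lies in an `S`-level. -/
theorem inSLevel_of_isSelmer (hpS : (⟨p, Fact.out⟩ : Nat.Primes) ∈ S)
    (hF : F.IsUnramifiedOutside S) (ζ : (↥F)ˣ) (hζ : IsPrimitiveRoot ζ p)
    (a : (↥F)ˣ) (α : Qbar) (hα : α ^ p = ((a : ↥F) : Qbar)) (ha : IsSelmer (↥F) S p a) :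
    InSLevel S F α := by
  have _hζ := hζ
  have hfin := hF.1
  have hαint : IsIntegral ℚ α := by
    have := helper69.isAlgebraic_Qbar
    exact Algebra.IsIntegral.isIntegral α
  have : FiniteDimensional ℚ (IntermediateField.adjoin ℚ {α}) :=
    IntermediateField.adjoin.finiteDimensional hαint
  have hE₀ : (F ⊔ IntermediateField.adjoin ℚ {α}).IsUnramifiedOutside S := by
    refine ⟨IntermediateField.finiteDimensional_sup F _, fun q hq A hA σ hσ => ?_⟩
    rw [IntermediateField.fixingSubgroup_sup]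
    refine ⟨hF.2 q hq A hA hσ, ?_⟩
    exact helper51.mem_fixingSubgroup_adjoin_simple_iff.2
      (apply_eq_of_isSelmer hpS hF a α hα ha hq hA hσ)
  obtain ⟨E, hle, hE, hn⟩ := helper69.exists_normal_isUnramifiedOutside hE₀
  exact ⟨E, hE, hn, le_sup_left.trans hle,
    hle ((le_sup_right : IntermediateField.adjoin ℚ {α} ≤ _)
      (IntermediateField.mem_adjoin_simple_self ℚ α))⟩

end KG2a

end Fermat.Agent.S55.helper42
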