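import Fermat.Agent.S55.helper45_ZeroRet

/-!
# S55, module A: `DDStatement` (double duality transport, task 303)

`ddStatement L χ : DDStatement L χ` : for finite dimensional `M`, the `Claim` for the evaluation
pairing `ev : N × N^*(χ) → k(χ)` with `N = M^*(χ)` implies the `Claim` for
`ev' : M^*(χ) × M → k(χ)`.  Proof: `(M^*(χ), M, ev')` is a retract (in fact an isomorphic copy) of
`(N, N^*(χ), ev)` via the evaluation map `M → M^**`, which is equivariant because the two twists
cancel.
-/

set_option autoImplicit false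

universe u

open groupCohomology

noncomputable section

namespace Fermat.Agent.S55.helper45

variable {k G : Type u} [Field k] [Group G] {𝒩 : Levels G} {ι : Type} (L : LocalData G 𝒩 ι)

/-- the evaluation map `M → (M^*(χ))^*(χ)`, `m ↦ (ξ ↦ ξ m)`, is equivariant -/
def evalEqHom (M : Rep.{u} k G) (χ : G →* kˣ) :
    EqHom M ((M.dualTwist χ).dualTwist χ) where
  f := Module.Dual.eval k M
  comm g m := by
    apply LinearMap.ext
    intro ξ
    change ξ (M.ρ g m) = (((M.dualTwist χ).dualTwist χ).ρ g (Module.Dual.eval k M m)) ξ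
    rw [Rep.dualTwist_ρ_apply]
    change ξ (M.ρ g m) = (χ g : k) • ((M.dualTwist χ).ρ g⁻¹ ξ) m
    rw [Rep.dualTwist_ρ_apply]
    change ξ (M.ρ g m) = (χ g : k) • ((χ g⁻¹ : k) • ξ (M.ρ g⁻¹⁻¹ m))
    rw [inv_inv, smul_smul, ← Units.val_mul, ← map_mul, mul_inv_cancel, map_one, Units.val_one,
      one_smul]

/-- the inverse of the evaluation map for finite dimensional `M` -/
def evalInvEqHom (M : Rep.{u} k G) (χ : G →* kˣ) [Module.Finite k M] :
    EqHom ((M.dualTwist χ).dualTwist χ) M where
  f := ((Module.evalEquiv k M).symm : Module.Dual k (Module.Dual k M) →ₗ[k] M)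
  comm g Ξ := by
    obtain ⟨m, rfl⟩ : ∃ m : M, Module.evalEquiv k M m = Ξ :=
      ⟨(Module.evalEquiv k M).symm Ξ, (Module.evalEquiv k M).apply_symm_apply Ξ⟩
    have h : ((M.dualTwist χ).dualTwist χ).ρ g (Module.evalEquiv k M m)
        = Module.evalEquiv k M (M.ρ g m) := ((evalEqHom M χ).comm g m).symm
    change (Module.evalEquiv k M).symm (((M.dualTwist χ).dualTwist χ).ρ g
        (Module.evalEquiv k M m)) = M.ρ g ((Module.evalEquiv k M).symm (Module.evalEquiv k M m))
    rw [h, LinearEquiv.symm_apply_apply, LinearEquiv.symm_apply_apply]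

/-- the retract datum exhibiting `(M^*(χ), M, ev')` as an isomorphic copy of
`(M^*(χ), (M^*(χ))^*(χ), ev)` -/
def ddRetData (M : Rep.{u} k G) (χ : G →* kˣ) [Module.Finite k M] :
    RetData (M.dualTwist χ) (M.dualTwist χ) ((M.dualTwist χ).dualTwist χ) M
      (groupCohomology.ofChar χ) where
  s := EqHom.id _
  r := EqHom.id _
  sB := evalEqHom M χ
  rB := evalInvEqHom M χ
  rs _ := rfl
  rsB m := (Module.evalEquiv k M).symm_apply_apply m
  φ := evPairing (M.dualTwist χ) χ
  φ' := evPairing' M χ
  compat₁ ξ Ξ := by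
    obtain ⟨m, rfl⟩ : ∃ m : M, Module.evalEquiv k M m = Ξ :=
      ⟨(Module.evalEquiv k M).symm Ξ, (Module.evalEquiv k M).apply_symm_apply Ξ⟩
    change (Module.evalEquiv k M m) ξ
      = ξ ((Module.evalEquiv k M).symm (Module.evalEquiv k M m))
    rw [LinearEquiv.symm_apply_apply]
    rfl
  compat₂ _ _ := rfl

/-- **A-DD**: double duality transport. -/
theorem ddStatement (χ : G →* kˣ) : DDStatement L χ := by
  intro tr M hM h
  have := hM
  exact retStatement L _ _ _ _ _ (ddRetData M χ) tr h

end Fermat.Agent.S55.helper45
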