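import Fermat.Agent.S55.Arith
import Fermat.Agent.S13.helper4_Minkowski

/-!
# S55 / A-BRIDGE, part 1 (helper4): the Prelude's level conditions are the abstract levels

* `ncl F` : the normal closure of `F` in `Qbar` (as `⨆ f, f(F)`), `le_ncl`,
  `finiteDimensional_ncl`, `normal_fixingSubgroup_ncl`, `mem_fixingSubgroup_ncl_iff`;
* `isUnramifiedOutside_ncl` : the normal closure of a finite extension unramified outside `S` is
  unramified outside `S`;
* `isLev₁_galLevels_iff`, `isLev₂_galLevels_iff` : `IsLev (galLevels S)` is the Prelude's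
  `IsLevelConstantS`;
* `isLev₁_locLevels_iff`, `isLev₂_locLevels_iff` : `IsLev (locLevels q)` is the Prelude's
  `IsLevelConstant (primeLocalToGlobal q)`;
* the corresponding equalities of submodules of cochains.
-/

set_option autoImplicit false

open groupCohomology ExtCitation
open scoped Pointwise

noncomputable section

namespace Fermat.Agent.S55.helper4

/-- The normal closure of `F` in `Qbar`: the compositum of all conjugates of `F`. -/
def ncl (F : IntermediateField ℚ (AlgebraicClosure ℚ)) :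
    IntermediateField ℚ (AlgebraicClosure ℚ) :=
  ⨆ f : GQ, F.map (f : AlgebraicClosure ℚ →ₐ[ℚ] AlgebraicClosure ℚ)

theorem le_ncl (F : IntermediateField ℚ (AlgebraicClosure ℚ)) : F ≤ ncl F := by
  intro x hx
  have h1 : F.map ((1 : GQ) : AlgebraicClosure ℚ →ₐ[ℚ] AlgebraicClosure ℚ) ≤ ncl F :=
    le_iSup (fun f : GQ => F.map (f : AlgebraicClosure ℚ →ₐ[ℚ] AlgebraicClosure ℚ)) 1
  exact h1 ⟨x, hx, rfl⟩

theorem map_le_ncl (F : IntermediateField ℚ (AlgebraicClosure ℚ)) (f : GQ) :
    F.map (f : AlgebraicClosure ℚ →ₐ[ℚ] AlgebraicClosure ℚ) ≤ ncl F :=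
  le_iSup (fun f : GQ => F.map (f : AlgebraicClosure ℚ →ₐ[ℚ] AlgebraicClosure ℚ)) f

theorem apply_mem_ncl (F : IntermediateField ℚ (AlgebraicClosure ℚ)) (f : GQ)
    {x : AlgebraicClosure ℚ} (hx : x ∈ F) : f x ∈ ncl F :=
  map_le_ncl F f ⟨x, hx, rfl⟩

theorem ncl_eq_normalClosure (F : IntermediateField ℚ (AlgebraicClosure ℚ)) :
    ncl F = @IntermediateField.normalClosure ℚ F (AlgebraicClosure ℚ) _ _ _ F.algebra' _ := by
  have := Fermat.Agent.S54.helper91.normal_Qbar
  exact (IntermediateField.normalClosure_def'' F).symm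

theorem finiteDimensional_ncl (F : IntermediateField ℚ (AlgebraicClosure ℚ))
    (hF : FiniteDimensional ℚ F) : FiniteDimensional ℚ (ncl F) := by
  have h1 : @FiniteDimensional ℚ F _ _ F.module' := by
    convert hF
  have h2 := @normalClosure.is_finiteDimensional ℚ F (AlgebraicClosure ℚ) _ _ _ F.algebra' _ h1
  rw [← ncl_eq_normalClosure] at h2
  convert h2

/-- an element fixes the normal closure iff all its conjugates fix `F` -/
theorem mem_fixingSubgroup_ncl_iff (F : IntermediateField ℚ (AlgebraicClosure ℚ)) (σ : GQ) :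
    σ ∈ (ncl F).fixingSubgroup ↔ ∀ f : GQ, f⁻¹ * σ * f ∈ F.fixingSubgroup := by
  constructor
  · intro hσ f
    rw [IntermediateField.mem_fixingSubgroup_iff] at hσ ⊢
    intro x hx
    have h1 := hσ (f x) (apply_mem_ncl F f hx)
    have h2 : (f⁻¹ * σ * f) x = f⁻¹ (σ (f x)) := rfl
    rw [h2, h1]
    exact f.symm_apply_apply x
  · intro h
    have hfix : ∀ (f : GQ) (x : AlgebraicClosure ℚ), x ∈ F → σ (f x) = f x := by
      intro f x hx
      have h1 := h f
      rw [IntermediateField.mem_fixingSubgroup_iff] at h1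
      have h2 := h1 x hx
      have h4 : (f⁻¹ * σ * f) x = f⁻¹ (σ (f x)) := rfl
      rw [h4] at h2
      have h5 : f (f⁻¹ (σ (f x))) = σ (f x) := f.apply_symm_apply _
      rw [h2] at h5
      exact h5.symm
    have hle : ncl F ≤ IntermediateField.fixedField (Subgroup.zpowers σ) := by
      unfold ncl
      rw [iSup_le_iff]
      intro f y hy
      obtain ⟨x, hx, rfl⟩ := hy
      rw [IntermediateField.mem_fixedField_iff]
      intro τ hτ
      have hσ : σ ∈ MulAction.stabilizer GQ (f x) := by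
        rw [MulAction.mem_stabilizer_iff]
        exact hfix f x hx
      have hmem := (Subgroup.zpowers_le.2 hσ) hτ
      rw [MulAction.mem_stabilizer_iff] at hmem
      exact hmem
    have h2 := (IntermediateField.le_iff_le (Subgroup.zpowers σ) _).1 hle
    exact h2 (Subgroup.mem_zpowers σ)

/-- the fixing subgroup of the normal closure is normal -/
theorem normal_fixingSubgroup_ncl (F : IntermediateField ℚ (AlgebraicClosure ℚ)) :
    ((ncl F).fixingSubgroup : Subgroup GQ).Normal := by
  constructor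
  intro σ hσ g
  rw [mem_fixingSubgroup_ncl_iff] at hσ ⊢
  intro f
  have h1 := hσ (g⁻¹ * f)
  have h2 : (g⁻¹ * f)⁻¹ * σ * (g⁻¹ * f) = f⁻¹ * (g * σ * g⁻¹) * f := by group
  rw [h2] at h1
  exact h1

theorem fixingSubgroup_ncl_le (F : IntermediateField ℚ (AlgebraicClosure ℚ)) :
    (ncl F).fixingSubgroup ≤ F.fixingSubgroup :=
  IntermediateField.fixingSubgroup_antitone (le_ncl F)

/-- The normal closure of a finite extension unramified outside `S` is unramified outside `S`. -/
theorem isUnramifiedOutside_ncl {S : Finset Nat.Primes}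
    {F : IntermediateField ℚ (AlgebraicClosure ℚ)} (hF : F.IsUnramifiedOutside S) :
    (ncl F).IsUnramifiedOutside S := by
  refine ⟨finiteDimensional_ncl F hF.1, fun q hq A hA σ hσ => ?_⟩
  rw [mem_fixingSubgroup_ncl_iff]
  intro f
  have h1 := Fermat.Agent.S13.helper4.conj_mem_inertiaSubgroupIn (K := ℚ) f⁻¹ hσ
  rw [inv_inv] at h1
  exact hF.2 q hq (f⁻¹ • A) (Fermat.Agent.S13.helper4.smul_liesOverPrime f⁻¹ hA) h1

/-! ## Levels -/

section Levels

variable (S : Finset Nat.Primes)

theorem isLev₁_galLevels_iff {X : Type*} (f : GQ → X) :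
    IsLev₁ (galLevels S) f ↔ IsLevelConstantS₁ S f := by
  constructor
  · rintro ⟨N, ⟨-, F, hu, rfl⟩, h⟩
    exact ⟨F, hu, fun g s hs => h g s hs⟩
  · rintro ⟨F, hF, h⟩
    exact ⟨(ncl F).fixingSubgroup,
      ⟨normal_fixingSubgroup_ncl F, ncl F, isUnramifiedOutside_ncl hF, rfl⟩,
      fun g s hs => h g s (fixingSubgroup_ncl_le F hs)⟩

theorem isLev₂_galLevels_iff {X : Type*} (f : GQ × GQ → X) :
    IsLev₂ (galLevels S) f ↔ IsLevelConstantS₂ S f := by
  constructor
  · rintro ⟨N, ⟨-, F, hu, rfl⟩, h⟩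
    exact ⟨F, hu, fun g g' s s' hs hs' => h g g' s hs s' hs'⟩
  · rintro ⟨F, hF, h⟩
    exact ⟨(ncl F).fixingSubgroup,
      ⟨normal_fixingSubgroup_ncl F, ncl F, isUnramifiedOutside_ncl hF, rfl⟩,
      fun g g' s hs s' hs' => h g g' s s' (fixingSubgroup_ncl_le F hs)
        (fixingSubgroup_ncl_le F hs')⟩

theorem isLev₁_locLevels_iff {X : Type*} (q : Nat.Primes) (f : primeLocalGaloisGroup q → X) :
    IsLev₁ (locLevels q) f ↔ IsLevelConstant₁ (primeLocalToGlobal q) f := by
  constructor
  · rintro ⟨N, ⟨F, hfd, -, rfl⟩, h⟩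
    exact ⟨F, hfd, fun g s hs => h g s hs⟩
  · rintro ⟨F, hF, h⟩
    exact ⟨(ncl F).fixingSubgroup.comap (primeLocalToGlobal q),
      ⟨ncl F, finiteDimensional_ncl F hF, normal_fixingSubgroup_ncl F, rfl⟩,
      fun g s hs => h g s (fixingSubgroup_ncl_le F hs)⟩

theorem isLev₂_locLevels_iff {X : Type*} (q : Nat.Primes)
    (f : primeLocalGaloisGroup q × primeLocalGaloisGroup q → X) :
    IsLev₂ (locLevels q) f ↔ IsLevelConstant₂ (primeLocalToGlobal q) f := by
  constructor
  · rintro ⟨N, ⟨F, hfd, -, rfl⟩, h⟩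
    exact ⟨F, hfd, fun g g' s s' hs hs' => h g g' s hs s' hs'⟩
  · rintro ⟨F, hF, h⟩
    exact ⟨(ncl F).fixingSubgroup.comap (primeLocalToGlobal q),
      ⟨ncl F, finiteDimensional_ncl F hF, normal_fixingSubgroup_ncl F, rfl⟩,
      fun g g' s hs s' hs' => h g g' s s' (fixingSubgroup_ncl_le F hs)
        (fixingSubgroup_ncl_le F hs')⟩

variable {k : Type} [CommRing k]

theorem C1_galLevels_eq (M : Rep k GQ) : C1 (galLevels S) M = levelCochainsS₁ S M := by
  ext f
  exact isLev₁_galLevels_iff S f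

theorem C2_galLevels_eq (M : Rep k GQ) : C2 (galLevels S) M = levelCochainsS₂ S M := by
  ext f
  exact isLev₂_galLevels_iff S f

theorem C1_locLevels_eq (q : Nat.Primes) (B : Rep k (primeLocalGaloisGroup q)) :
    C1 (locLevels q) B = levelCochains₁ (primeLocalToGlobal q) B := by
  ext f
  exact isLev₁_locLevels_iff q f

theorem C2_locLevels_eq (q : Nat.Primes) (B : Rep k (primeLocalGaloisGroup q)) :
    C2 (locLevels q) B = levelCochains₂ (primeLocalToGlobal q) B := by
  ext f
  exact isLev₂_locLevels_iff q f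

theorem Z2_galLevels_eq (M : Rep k GQ) : Z2 (galLevels S) M = levelCocyclesS₂ S M := by
  unfold Z2 levelCocyclesS₂
  rw [C2_galLevels_eq, inf_comm]
  rfl

theorem B2_galLevels_eq (M : Rep k GQ) : B2 (galLevels S) M = levelCoboundariesS₂ S M := by
  unfold B2 levelCoboundariesS₂
  rw [C1_galLevels_eq]

theorem B2_locLevels_eq (q : Nat.Primes) (B : Rep k (primeLocalGaloisGroup q)) :
    B2 (locLevels q) B = levelCoboundaries₂ (primeLocalToGlobal q) B := by
  unfold B2 levelCoboundaries₂
  rw [C1_locLevels_eq]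

theorem mem_Z1_galLevels_iff (M : Rep k GQ) (f : GQ → M) :
    f ∈ Z1 (galLevels S) M ↔ IsLevelConstantS₁ S f ∧ f ∈ cocycles₁ M := by
  unfold Z1
  rw [Submodule.mem_inf, mem_C1, isLev₁_galLevels_iff]
  rfl

end Levels

end Fermat.Agent.S55.helper4
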