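import Mathlib
import Fermat.Agent.S55.helper51_Krasner
import Fermat.Prelude.Def_GroupCohomology_ContinuousH2
import Fermat.Prelude.Def_ExtEndgame_ProductionDatum

/-!
# S55, package P3 (part 2): local levels in cochain language (helper51)

Consequences of `helper51_Krasner`:

* a cochain on the local Galois group `Gal(PadicAlgCl q / ℚ_[q])` is level-constant in the
  Prelude's sense (w.r.t. `localGaloisToGlobal q`) iff it is right-invariant under the fixing
  subgroup of some finite subextension of `PadicAlgCl q / ℚ_[q]`, i.e. iff it is locally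
  constant for the Krull topology of the *local* Galois group;
* `localGaloisToGlobal q` is a closed embedding for the Krull topologies;
* the same statements for the Prelude's `primeLocalToGlobal q`, `q : Nat.Primes`.
-/

set_option autoImplicit false

open IntermediateField groupCohomology

namespace Fermat.Agent.S55.helper51

section Local

variable (q : ℕ) [Fact q.Prime]

/-- **(c), degree 1.** Level-constancy along `localGaloisToGlobal q` is right-invariance under
the fixing subgroup of a finite subextension of `PadicAlgCl q / ℚ_[q]`. -/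
theorem isLevelConstant₁_localGaloisToGlobal_iff {X : Type*}
    (f : (PadicAlgCl q ≃ₐ[ℚ_[q]] PadicAlgCl q) → X) :
    IsLevelConstant₁ (localGaloisToGlobal q) f ↔
      ∃ K : IntermediateField ℚ_[q] (PadicAlgCl q), FiniteDimensional ℚ_[q] K ∧
        ∀ g s : PadicAlgCl q ≃ₐ[ℚ_[q]] PadicAlgCl q,
          s ∈ K.fixingSubgroup → f (g * s) = f g := by
  constructor
  · rintro ⟨F, hF, h⟩
    obtain ⟨K, hK, hKF⟩ := exists_finiteDimensional_fixingSubgroup_eq_comap q F
    exact ⟨K, hK, fun g s hs => h g s (by rw [hKF] at hs; exact hs)⟩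
  · rintro ⟨K, hK, h⟩
    obtain ⟨F, hF, hFK⟩ := exists_finiteDimensional_comap_fixingSubgroup_le q K
    exact ⟨F, hF, fun g s hs => h g s (hFK hs)⟩

/-- **(c), degree 2.** -/
theorem isLevelConstant₂_localGaloisToGlobal_iff {X : Type*}
    (f : (PadicAlgCl q ≃ₐ[ℚ_[q]] PadicAlgCl q) × (PadicAlgCl q ≃ₐ[ℚ_[q]] PadicAlgCl q) → X) :
    IsLevelConstant₂ (localGaloisToGlobal q) f ↔
      ∃ K : IntermediateField ℚ_[q] (PadicAlgCl q), FiniteDimensional ℚ_[q] K ∧
        ∀ g g' s s' : PadicAlgCl q ≃ₐ[ℚ_[q]] PadicAlgCl q,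
          s ∈ K.fixingSubgroup → s' ∈ K.fixingSubgroup → f (g * s, g' * s') = f (g, g') := by
  constructor
  · rintro ⟨F, hF, h⟩
    obtain ⟨K, hK, hKF⟩ := exists_finiteDimensional_fixingSubgroup_eq_comap q F
    exact ⟨K, hK, fun g g' s s' hs hs' =>
      h g g' s s' (by rw [hKF] at hs; exact hs) (by rw [hKF] at hs'; exact hs')⟩
  · rintro ⟨K, hK, h⟩
    obtain ⟨F, hF, hFK⟩ := exists_finiteDimensional_comap_fixingSubgroup_le q K
    exact ⟨F, hF, fun g g' s s' hs hs' => h g g' s s' (hFK hs) (hFK hs')⟩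

/-- A subgroup of the local Galois group is open (Krull topology) iff it contains the pull-back
of `Gal(ℚ̄/F)` for some number field `F`. -/
theorem isOpen_subgroup_iff_exists_comap_le
    (U : Subgroup (PadicAlgCl q ≃ₐ[ℚ_[q]] PadicAlgCl q)) :
    IsOpen (U : Set (PadicAlgCl q ≃ₐ[ℚ_[q]] PadicAlgCl q)) ↔
      ∃ F : IntermediateField ℚ (AlgebraicClosure ℚ), FiniteDimensional ℚ F ∧
        F.fixingSubgroup.comap (localGaloisToGlobal q) ≤ U := by
  constructor
  · intro hU
    have h1 : (U : Set (PadicAlgCl q ≃ₐ[ℚ_[q]] PadicAlgCl q)) ∈ nhds 1 :=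
      hU.mem_nhds U.one_mem
    rw [krullTopology_mem_nhds_one_iff] at h1
    obtain ⟨K, hK, hKU⟩ := h1
    obtain ⟨F, hF, hFK⟩ := exists_finiteDimensional_comap_fixingSubgroup_le q K
    exact ⟨F, hF, fun σ hσ => hKU (hFK hσ)⟩
  · rintro ⟨F, hF, hFU⟩
    obtain ⟨K, hK, hKF⟩ := exists_finiteDimensional_fixingSubgroup_eq_comap q F
    refine Subgroup.isOpen_of_mem_nhds (g := 1) _ ?_
    rw [krullTopology_mem_nhds_one_iff]
    exact ⟨K, hK, fun σ hσ => hFU (by rw [← hKF]; exact hσ)⟩

/-- `localGaloisToGlobal q` is continuous for the Krull topologies. -/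
theorem continuous_localGaloisToGlobal : Continuous (localGaloisToGlobal q) := by
  refine continuous_of_continuousAt_one _ ?_
  rw [ContinuousAt, map_one]
  intro A hA
  rw [krullTopology_mem_nhds_one_iff] at hA
  obtain ⟨F, hF, hFA⟩ := hA
  obtain ⟨K, hK, hKF⟩ := exists_finiteDimensional_fixingSubgroup_eq_comap q F
  rw [Filter.mem_map, krullTopology_mem_nhds_one_iff]
  refine ⟨K, hK, fun σ hσ => hFA ?_⟩
  have : σ ∈ K.fixingSubgroup := hσ
  rw [hKF] at this
  exact this

/-- `Gal(PadicAlgCl q / ℚ_[q])` is compact. -/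
theorem compactSpace_localGalois : CompactSpace (PadicAlgCl q ≃ₐ[ℚ_[q]] PadicAlgCl q) := by
  have h1 : Algebra.IsAlgebraic ℚ_[q] (PadicAlgCl q) := PadicAlgCl.isAlgebraic q
  have h2 : IsAlgClosure ℚ_[q] (PadicAlgCl q) := ⟨inferInstance, h1⟩
  infer_instance

/-- `Gal(ℚ̄/ℚ)` is Hausdorff. -/
theorem t2Space_globalGalois : T2Space (AlgebraicClosure ℚ ≃ₐ[ℚ] AlgebraicClosure ℚ) := by
  have h1 : Algebra.IsAlgebraic ℚ (AlgebraicClosure ℚ) := AlgebraicClosure.isAlgebraic ℚ
  exact krullTopology_t2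

/-- `localGaloisToGlobal q` is a closed embedding for the Krull topologies. -/
theorem isClosedEmbedding_localGaloisToGlobal :
    Topology.IsClosedEmbedding (localGaloisToGlobal q) :=
  haveI := compactSpace_localGalois q
  haveI := t2Space_globalGalois
  (continuous_localGaloisToGlobal q).isClosedEmbedding (localGaloisToGlobal_injective q)

/-- The image of the local Galois group in `Gal(ℚ̄/ℚ)` is closed. -/
theorem isClosed_range_localGaloisToGlobal :
    IsClosed (Set.range (localGaloisToGlobal q)) :=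
  (isClosedEmbedding_localGaloisToGlobal q).isClosed_range

end Local

section Primes

open ExtCitation

variable (q : Nat.Primes)

/-- `primeLocalToGlobal q` is injective. -/
theorem primeLocalToGlobal_injective : Function.Injective (primeLocalToGlobal q) :=
  haveI : Fact (q : ℕ).Prime := ⟨q.2⟩
  localGaloisToGlobal_injective (q : ℕ)

/-- **(c), degree 1, Prelude form.** -/
theorem isLevelConstant₁_primeLocalToGlobal_iff {X : Type*} (f : primeLocalGaloisGroup q → X) :
    IsLevelConstant₁ (primeLocalToGlobal q) f ↔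
      haveI : Fact (q : ℕ).Prime := ⟨q.2⟩
      ∃ K : IntermediateField ℚ_[(q : ℕ)] (PadicAlgCl (q : ℕ)),
        FiniteDimensional ℚ_[(q : ℕ)] K ∧
        ∀ g s : PadicAlgCl (q : ℕ) ≃ₐ[ℚ_[(q : ℕ)]] PadicAlgCl (q : ℕ),
          s ∈ K.fixingSubgroup → f (g * s) = f g :=
  haveI : Fact (q : ℕ).Prime := ⟨q.2⟩
  isLevelConstant₁_localGaloisToGlobal_iff (q : ℕ) f

/-- **(c), degree 2, Prelude form.** -/
theorem isLevelConstant₂_primeLocalToGlobal_iff {X : Type*}
    (f : primeLocalGaloisGroup q × primeLocalGaloisGroup q → X) :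
    IsLevelConstant₂ (primeLocalToGlobal q) f ↔
      haveI : Fact (q : ℕ).Prime := ⟨q.2⟩
      ∃ K : IntermediateField ℚ_[(q : ℕ)] (PadicAlgCl (q : ℕ)),
        FiniteDimensional ℚ_[(q : ℕ)] K ∧
        ∀ g g' s s' : PadicAlgCl (q : ℕ) ≃ₐ[ℚ_[(q : ℕ)]] PadicAlgCl (q : ℕ),
          s ∈ K.fixingSubgroup → s' ∈ K.fixingSubgroup →
            f (g * s, g' * s') = f (g, g') :=
  haveI : Fact (q : ℕ).Prime := ⟨q.2⟩
  isLevelConstant₂_localGaloisToGlobal_iff (q : ℕ) f

end Primes

end Fermat.Agent.S55.helper51
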