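import Mathlib

/-!
# S55 / LOC (helper8): basic definitions for local class field theory

A *`q`-adic local field* is a field `K` with `[Algebra ℚ_[q] K] [FiniteDimensional ℚ_[q] K]`
(no topology, no valuation class: everything is derived from the norm to `ℚ_[q]`).
This file only contains DEFINITIONS (no theorems about them); all statements live in the
LOC packages.

* `normVal q K a = v_q (N_{K/ℚ_q} a)` : the unnormalised valuation `Kˣ →* Multiplicative ℤ`;
* `fdeg q K` : the residue degree (smallest positive value of `normVal`);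
* `ord q K : Kˣ → ℤ` : the normalised valuation; `ordT q K : K → WithTop ℤ` its extension by `⊤`;
* `edeg q K` : the absolute ramification index `ord q K q`;
* `unitGroup q K`, `principalUnits q K m` : the unit filtration;
* `normUnits K L : Lˣ →* Kˣ` : the norm on units;
* `IsUnram q K L` : `L/K` is unramified;
* `IsFrob q K L φ` : `φ : Gal(L/K)` induces `x ↦ x ^ (q ^ fdeg q K)` on the residue field.
-/

set_option autoImplicit false

namespace Fermat.Agent.S55.helper8

variable (q : ℕ) [Fact q.Prime]

section defs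

variable (K : Type*) [Field K] [Algebra ℚ_[q] K]

/-- The unnormalised valuation `a ↦ v_q (N_{K/ℚ_q} a)`. -/
noncomputable def normVal : Kˣ →* Multiplicative ℤ where
  toFun a := Multiplicative.ofAdd (Padic.valuation (Algebra.norm ℚ_[q] (a : K)))
  map_one' := by simp
  map_mul' a b := by
    have ha : Algebra.norm ℚ_[q] (a : K) ≠ 0 := by
      intro h
      have := (Units.map (Algebra.norm ℚ_[q] (S := K)) a).ne_zero
      exact this h
    have hb : Algebra.norm ℚ_[q] (b : K) ≠ 0 := by
      intro h
      have := (Units.map (Algebra.norm ℚ_[q] (S := K)) b).ne_zero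
      exact this h
    rw [Units.val_mul, map_mul, Padic.valuation_mul ha hb, ofAdd_add]

/-- The residue degree of `K/ℚ_q`: the smallest positive value of `normVal` (junk value `0`
if there is none, which does not happen for finite extensions). -/
noncomputable def fdeg : ℕ :=
  sInf {n : ℕ | 0 < n ∧ ∃ a : Kˣ, Multiplicative.toAdd (normVal q K a) = (n : ℤ)}

/-- The normalised (additive) valuation on units. -/
noncomputable def ord (a : Kˣ) : ℤ :=
  Multiplicative.toAdd (normVal q K a) / (fdeg q K : ℤ)

open Classical in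
/-- The normalised valuation on `K`, with `ordT 0 = ⊤`. -/
noncomputable def ordT (x : K) : WithTop ℤ :=
  if h : x = 0 then ⊤ else ((ord q K (Units.mk0 x h) : ℤ) : WithTop ℤ)

/-- The absolute ramification index `e(K/ℚ_q) = ord_K(q)`. -/
noncomputable def edeg : ℕ :=
  (ord q K (Units.map (algebraMap ℚ_[q] K : ℚ_[q] →* K)
    (Units.mk0 (q : ℚ_[q]) (by exact_mod_cast (Fact.out : q.Prime).ne_zero)))).toNat

/-- The group of units `U_K = ker ord`. -/
def unitGroup : Subgroup Kˣ where
  carrier := {a | ord q K a = 0 ∧ ∀ b : Kˣ, ord q K (a * b) = ord q K b}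
  one_mem' := by
    refine ⟨?_, fun b => by rw [one_mul]⟩
    simp [ord]
  mul_mem' := by
    rintro a b ⟨-, ha⟩ ⟨hb0, hb⟩
    refine ⟨by rw [ha, hb0], fun c => by rw [mul_assoc, ha, hb]⟩
  inv_mem' := by
    rintro a ⟨ha0, ha⟩
    have h1 : ∀ b : Kˣ, ord q K (a⁻¹ * b) = ord q K b := fun b => by
      have := ha (a⁻¹ * b)
      rw [mul_inv_cancel_left] at this
      exact this.symm
    refine ⟨?_, h1⟩
    have := h1 1
    rw [mul_one] at this
    rw [this]
    simp [ord]

/-- The higher unit groups `U^(m) = {u ∈ U_K | ord (u - 1) ≥ m}` (as a set of units; it is a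
subgroup by LOC-0). For `m = 0` this is `U_K`. -/
def principalUnits (m : ℕ) : Set Kˣ :=
  {a | a ∈ unitGroup q K ∧ (m : WithTop ℤ) ≤ ordT q K ((a : K) - 1)}

end defs

section ext

variable (K L : Type*) [Field K] [Field L] [Algebra K L]

/-- The norm `N_{L/K}` on units. -/
noncomputable def normUnits : Lˣ →* Kˣ := Units.map (Algebra.norm K (S := L))

variable [Algebra ℚ_[q] K] [Algebra ℚ_[q] L]

/-- `L/K` is unramified: the normalised valuation of `L` restricts to the one of `K`. -/
def IsUnram : Prop :=
  ∀ a : Kˣ, ord q L (Units.map (algebraMap K L : K →* L) a) = ord q K a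

/-- `φ` is a Frobenius element of `L/K`: `φ x ≡ x ^ (q ^ f_K)` modulo the maximal ideal,
for all integral `x`. -/
def IsFrob (φ : L ≃ₐ[K] L) : Prop :=
  ∀ x : L, 0 ≤ ordT q L x → 0 < ordT q L (φ x - x ^ (q ^ fdeg q K))

end ext

end Fermat.Agent.S55.helper8

namespace Fermat.Agent.S55.helper8

variable (q : ℕ) [Fact q.Prime]

section rel

variable (K L : Type*) [Field K] [Field L] [Algebra ℚ_[q] K] [Algebra ℚ_[q] L]

/-- The relative ramification index `e(L/K) = e(L/ℚ_q) / e(K/ℚ_q)`. -/
noncomputable def relE : ℕ := edeg q L / edeg q K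

/-- The relative residue degree `f(L/K) = f(L/ℚ_q) / f(K/ℚ_q)`. -/
noncomputable def relF : ℕ := fdeg q L / fdeg q K

end rel

section cyclic

variable (K L : Type) [Field K] [Field L] [Algebra K L]

open Classical in
/-- The discrete logarithm with respect to `φ`: the least `i` with `φ ^ i = σ`
(junk value `0` if `σ` is not a power of `φ`). -/
noncomputable def dlogAut (φ σ : L ≃ₐ[K] L) : ℕ :=
  if h : ∃ i : ℕ, φ ^ i = σ then Nat.find h else 0

/-- The cyclic 2-cochain `(σ, τ) ↦ b ^ ⌊(dlog σ + dlog τ) / n⌋`, `n = orderOf φ`: it is a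
2-cocycle when `φ` generates `Gal(L/K)`, representing the class `b ∪ δ(χ_φ)` where
`χ_φ(φ) = 1/n` (the cyclic algebra `(χ_φ, b)`). -/
noncomputable def cyclicCochain (φ : L ≃ₐ[K] L) (b : Kˣ) :
    (L ≃ₐ[K] L) × (L ≃ₐ[K] L) → Lˣ :=
  fun p => Units.map (algebraMap K L : K →* L) b ^ ((dlogAut K L φ p.1 + dlogAut K L φ p.2) / orderOf φ)

open Classical in
/-- The class of the cyclic cochain in `H²(Gal(L/K), Lˣ)` (junk value `0` if `φ` does not
generate). -/
noncomputable def cyclicClass (φ : L ≃ₐ[K] L) (b : Kˣ) :
    groupCohomology.H2 (Rep.ofAlgebraAutOnUnits K L) :=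
  if h : groupCohomology.IsMulCocycle₂ (cyclicCochain K L φ b) then
    groupCohomology.H2π (Rep.ofAlgebraAutOnUnits K L) (groupCohomology.cocyclesOfIsMulCocycle₂ h)
  else 0

end cyclic

end Fermat.Agent.S55.helper8
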