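import Mathlib
import Fermat.Agent.S55.helper8_LocDefs

/-!
# S55 / LOC-0c (helper33): relative invariants `e(L/K)`, `f(L/K)` of `q`-adic fields

Everything here is a formal consequence of the facts that `normVal q K : Kˣ →* Multiplicative ℤ`
is a group homomorphism, that `N_{K/ℚ_q}(q) = q ^ [K : ℚ_q]`, and of the transitivity of norms.
No valuation theory is needed.

Main statements (verbatim from the LOC interface of helper8):
`edeg_eq_relE_mul`, `fdeg_eq_relF_mul`, `relE_mul_relF`, `ord_algebraMap`, `ord_normUnits`,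
`ord_algEquiv`, `isUnram_iff`.

By-products (absolute statements of LOC-0a that are needed on the way):
`fdeg_pos`, `edeg_pos`, `edeg_mul_fdeg`, `ord_mul`, `exists_ord_eq_one`, `ord_algebraMap_padic`,
`mem_unitGroup_iff`.
-/

set_option autoImplicit false

namespace Fermat.Agent.S55.helper33

open Fermat.Agent.S55.helper8

variable (q : ℕ) [Fact q.Prime]

section abs

variable (K : Type) [Field K] [Algebra ℚ_[q] K]

/-- Additive form of `normVal`. -/
noncomputable def nval (a : Kˣ) : ℤ := Multiplicative.toAdd (normVal q K a)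

lemma nval_def (a : Kˣ) : nval q K a = Padic.valuation (Algebra.norm ℚ_[q] (a : K)) := rfl

lemma nval_mul (a b : Kˣ) : nval q K (a * b) = nval q K a + nval q K b := by
  simp [nval, map_mul]

lemma nval_zpow (a : Kˣ) (k : ℤ) : nval q K (a ^ k) = k * nval q K a := by
  simp [nval, map_zpow]

/-- The element `q` as a unit of `K` (syntactically the unit used in `edeg`). -/
noncomputable def qUnit : Kˣ :=
  Units.map (algebraMap ℚ_[q] K : ℚ_[q] →* K)
    (Units.mk0 (q : ℚ_[q]) (by exact_mod_cast (Fact.out : q.Prime).ne_zero))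

lemma edeg_eq_toNat : edeg q K = (ord q K (qUnit q K)).toNat := rfl

lemma ord_eq_ediv (a : Kˣ) : ord q K a = nval q K a / (fdeg q K : ℤ) := rfl

lemma nval_map_padic (x : ℚ_[q]ˣ) :
    nval q K (Units.map (algebraMap ℚ_[q] K : ℚ_[q] →* K) x) =
      (Module.finrank ℚ_[q] K : ℤ) * Padic.valuation (x : ℚ_[q]) := by
  rw [nval_def]
  change Padic.valuation (Algebra.norm ℚ_[q] (algebraMap ℚ_[q] K (x : ℚ_[q]))) = _
  rw [Algebra.norm_algebraMap, Padic.valuation_pow]

lemma nval_qUnit : nval q K (qUnit q K) = (Module.finrank ℚ_[q] K : ℤ) := by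
  rw [qUnit, nval_map_padic]
  change (Module.finrank ℚ_[q] K : ℤ) * Padic.valuation (q : ℚ_[q]) = _
  rw [Padic.valuation_p, mul_one]

variable [FiniteDimensional ℚ_[q] K]

lemma fdeg_mem :
    fdeg q K ∈ {n : ℕ | 0 < n ∧ ∃ a : Kˣ, Multiplicative.toAdd (normVal q K a) = (n : ℤ)} :=
  Nat.sInf_mem ⟨Module.finrank ℚ_[q] K, Module.finrank_pos, qUnit q K, nval_qUnit q K⟩

theorem fdeg_pos : 0 < fdeg q K := (fdeg_mem q K).1

lemma exists_nval_eq_fdeg : ∃ a : Kˣ, nval q K a = (fdeg q K : ℤ) := (fdeg_mem q K).2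

omit [FiniteDimensional ℚ_[q] K] in
lemma fdeg_le {n : ℕ} (hn : 0 < n) (a : Kˣ) (h : nval q K a = (n : ℤ)) : fdeg q K ≤ n :=
  Nat.sInf_le ⟨hn, a, h⟩

lemma fdeg_dvd_nval (a : Kˣ) : (fdeg q K : ℤ) ∣ nval q K a := by
  obtain ⟨a₀, ha₀⟩ := exists_nval_eq_fdeg q K
  have hf : (0 : ℤ) < fdeg q K := by exact_mod_cast fdeg_pos q K
  have hr0 : 0 ≤ nval q K a % (fdeg q K : ℤ) := Int.emod_nonneg _ hf.ne'
  have hrlt : nval q K a % (fdeg q K : ℤ) < fdeg q K := Int.emod_lt_of_pos _ hf
  have hval : nval q K (a * a₀ ^ (-(nval q K a / (fdeg q K : ℤ)))) =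
      nval q K a % (fdeg q K : ℤ) := by
    rw [nval_mul, nval_zpow, ha₀, Int.emod_def]
    ring
  by_contra hnd
  have hrpos : 0 < nval q K a % (fdeg q K : ℤ) :=
    lt_of_le_of_ne hr0 (fun h => hnd (Int.dvd_of_emod_eq_zero h.symm))
  have hle : fdeg q K ≤ (nval q K a % (fdeg q K : ℤ)).toNat :=
    fdeg_le q K (by omega) _ (by rw [hval, Int.toNat_of_nonneg hr0])
  omega

lemma nval_eq_fdeg_mul_ord (a : Kˣ) : nval q K a = (fdeg q K : ℤ) * ord q K a := by
  rw [ord_eq_ediv, Int.mul_ediv_cancel' (fdeg_dvd_nval q K a)]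

lemma fdeg_cast_pos : (0 : ℤ) < (fdeg q K : ℤ) := by exact_mod_cast fdeg_pos q K

theorem ord_mul (a b : Kˣ) : ord q K (a * b) = ord q K a + ord q K b := by
  have h := nval_mul q K a b
  rw [nval_eq_fdeg_mul_ord, nval_eq_fdeg_mul_ord, nval_eq_fdeg_mul_ord, ← mul_add] at h
  exact mul_left_cancel₀ (fdeg_cast_pos q K).ne' h

theorem exists_ord_eq_one : ∃ π : Kˣ, ord q K π = 1 := by
  obtain ⟨a₀, ha₀⟩ := exists_nval_eq_fdeg q K
  refine ⟨a₀, ?_⟩
  rw [nval_eq_fdeg_mul_ord] at ha₀
  have h : (fdeg q K : ℤ) * ord q K a₀ = (fdeg q K : ℤ) * 1 := by rw [ha₀, mul_one]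
  exact mul_left_cancel₀ (fdeg_cast_pos q K).ne' h

lemma fdeg_mul_ord_qUnit :
    (fdeg q K : ℤ) * ord q K (qUnit q K) = (Module.finrank ℚ_[q] K : ℤ) := by
  rw [← nval_eq_fdeg_mul_ord, nval_qUnit]

lemma ord_qUnit_pos : 0 < ord q K (qUnit q K) := by
  have h := fdeg_mul_ord_qUnit q K
  have hn : (0 : ℤ) < (Module.finrank ℚ_[q] K : ℤ) := by exact_mod_cast Module.finrank_pos
  rw [← h] at hn
  exact (pos_iff_pos_of_mul_pos hn).mp (fdeg_cast_pos q K)

lemma edeg_cast : (edeg q K : ℤ) = ord q K (qUnit q K) := by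
  rw [edeg_eq_toNat, Int.toNat_of_nonneg (ord_qUnit_pos q K).le]

theorem edeg_pos : 0 < edeg q K := by
  have h := ord_qUnit_pos q K
  rw [← edeg_cast] at h
  exact_mod_cast h

theorem edeg_mul_fdeg : edeg q K * fdeg q K = Module.finrank ℚ_[q] K := by
  have h := fdeg_mul_ord_qUnit q K
  rw [← edeg_cast] at h
  have : ((edeg q K * fdeg q K : ℕ) : ℤ) = (Module.finrank ℚ_[q] K : ℤ) := by
    push_cast
    rw [mul_comm]
    exact h
  exact_mod_cast this

theorem ord_algebraMap_padic (x : ℚ_[q]ˣ) :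
    ord q K (Units.map (algebraMap ℚ_[q] K : ℚ_[q] →* K) x) =
      (edeg q K : ℤ) * Padic.valuation (x : ℚ_[q]) := by
  have h := nval_map_padic q K x
  rw [nval_eq_fdeg_mul_ord, ← edeg_mul_fdeg q K] at h
  push_cast at h
  have h' : (fdeg q K : ℤ) * ord q K (Units.map (algebraMap ℚ_[q] K : ℚ_[q] →* K) x) =
      (fdeg q K : ℤ) * ((edeg q K : ℤ) * Padic.valuation (x : ℚ_[q])) := by
    rw [h]; ring
  exact mul_left_cancel₀ (fdeg_cast_pos q K).ne' h'

theorem mem_unitGroup_iff (a : Kˣ) : a ∈ unitGroup q K ↔ ord q K a = 0 := by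
  constructor
  · intro h
    exact h.1
  · intro h
    refine ⟨h, fun b => ?_⟩
    rw [ord_mul, h, zero_add]

end abs

section rel

variable (K : Type) [Field K] [Algebra ℚ_[q] K] [FiniteDimensional ℚ_[q] K]
variable (L : Type) [Field L] [Algebra ℚ_[q] L] [Algebra K L] [IsScalarTower ℚ_[q] K L]
  [FiniteDimensional K L]

include K in
lemma finiteDimensional_top : FiniteDimensional ℚ_[q] L := Module.Finite.trans K L

/-- `v_q (N_{L/ℚ_q} a) = [L : K] * v_q (N_{K/ℚ_q} a)` for `a ∈ K`. -/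
lemma nval_map (a : Kˣ) :
    nval q L (Units.map (algebraMap K L : K →* L) a) =
      (Module.finrank K L : ℤ) * nval q K a := by
  rw [nval_def, nval_def]
  change Padic.valuation (Algebra.norm ℚ_[q] (algebraMap K L (a : K))) = _
  rw [← Algebra.norm_norm (S := K), Algebra.norm_algebraMap, map_pow, Padic.valuation_pow]

/-- `v_q (N_{K/ℚ_q} (N_{L/K} a)) = v_q (N_{L/ℚ_q} a)`. -/
lemma nval_normUnits (a : Lˣ) : nval q K (normUnits K L a) = nval q L a := by
  rw [nval_def, nval_def]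
  change Padic.valuation (Algebra.norm ℚ_[q] (Algebra.norm K (a : L))) = _
  rw [Algebra.norm_norm]

omit [FiniteDimensional ℚ_[q] K] [FiniteDimensional K L] in
lemma nval_algEquiv (σ : L ≃ₐ[K] L) (a : Lˣ) :
    nval q L (Units.map (σ : L →* L) a) = nval q L a := by
  rw [nval_def, nval_def]
  change Padic.valuation (Algebra.norm ℚ_[q] ((σ.restrictScalars ℚ_[q]) (a : L))) = _
  rw [Algebra.norm_eq_of_algEquiv]

theorem ord_algEquiv (σ : L ≃ₐ[K] L) (a : Lˣ) :
    ord q L (Units.map (σ : L →* L) a) = ord q L a := by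
  rw [ord_eq_ediv, ord_eq_ediv, nval_algEquiv]

lemma fdeg_dvd_fdeg : fdeg q K ∣ fdeg q L := by
  have : FiniteDimensional ℚ_[q] L := finiteDimensional_top q K L
  obtain ⟨a₀, ha₀⟩ := exists_nval_eq_fdeg q L
  have h := fdeg_dvd_nval q K (normUnits K L a₀)
  rw [nval_normUnits, ha₀] at h
  exact_mod_cast h

theorem fdeg_eq_relF_mul : fdeg q L = relF q K L * fdeg q K := by
  rw [relF, Nat.div_mul_cancel (fdeg_dvd_fdeg q K L)]

lemma relF_pos : 0 < relF q K L := by
  have : FiniteDimensional ℚ_[q] L := finiteDimensional_top q K L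
  have h := fdeg_pos q L
  rw [fdeg_eq_relF_mul q K L] at h
  exact Nat.pos_of_mul_pos_right h

theorem ord_normUnits (a : Lˣ) :
    ord q K (normUnits K L a) = (relF q K L : ℤ) * ord q L a := by
  have : FiniteDimensional ℚ_[q] L := finiteDimensional_top q K L
  have h := nval_normUnits q K L a
  rw [nval_eq_fdeg_mul_ord, nval_eq_fdeg_mul_ord, fdeg_eq_relF_mul q K L] at h
  push_cast at h
  have h' : (fdeg q K : ℤ) * ord q K (normUnits K L a) =
      (fdeg q K : ℤ) * ((relF q K L : ℤ) * ord q L a) := by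
    rw [h]; ring
  exact mul_left_cancel₀ (fdeg_cast_pos q K).ne' h'

/-- `f(L/K) * ord_L a = [L : K] * ord_K a` for `a ∈ K`. -/
lemma relF_mul_ord_map (a : Kˣ) :
    (relF q K L : ℤ) * ord q L (Units.map (algebraMap K L : K →* L) a) =
      (Module.finrank K L : ℤ) * ord q K a := by
  have : FiniteDimensional ℚ_[q] L := finiteDimensional_top q K L
  have h := nval_map q K L a
  rw [nval_eq_fdeg_mul_ord, nval_eq_fdeg_mul_ord, fdeg_eq_relF_mul q K L] at h
  push_cast at h
  have h' : (fdeg q K : ℤ) *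
      ((relF q K L : ℤ) * ord q L (Units.map (algebraMap K L : K →* L) a)) =
      (fdeg q K : ℤ) * ((Module.finrank K L : ℤ) * ord q K a) := by
    rw [← mul_assoc, mul_comm (fdeg q K : ℤ) (relF q K L : ℤ), h]; ring
  exact mul_left_cancel₀ (fdeg_cast_pos q K).ne' h'

/-- There is a positive integer `e'` with `e' * f(L/K) = [L : K]` and `ord_L a = e' * ord_K a`
for all `a ∈ K`. -/
lemma exists_relE :
    ∃ e' : ℤ, e' * (relF q K L : ℤ) = (Module.finrank K L : ℤ) ∧
      ∀ a : Kˣ, ord q L (Units.map (algebraMap K L : K →* L) a) = e' * ord q K a := by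
  obtain ⟨π, hπ⟩ := exists_ord_eq_one q K
  have hF : (0 : ℤ) < (relF q K L : ℤ) := by exact_mod_cast relF_pos q K L
  have h1 := relF_mul_ord_map q K L π
  rw [hπ, mul_one] at h1
  refine ⟨ord q L (Units.map (algebraMap K L : K →* L) π), by rw [mul_comm]; exact h1,
    fun a => ?_⟩
  have h2 := relF_mul_ord_map q K L a
  rw [← h1] at h2
  have h3 : (relF q K L : ℤ) * ord q L (Units.map (algebraMap K L : K →* L) a) =
      (relF q K L : ℤ) * (ord q L (Units.map (algebraMap K L : K →* L) π) * ord q K a) := by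
    rw [h2]; ring
  exact mul_left_cancel₀ hF.ne' h3

omit [FiniteDimensional ℚ_[q] K] [FiniteDimensional K L] in
lemma qUnit_map : Units.map (algebraMap K L : K →* L) (qUnit q K) = qUnit q L := by
  ext
  change algebraMap K L (algebraMap ℚ_[q] K (q : ℚ_[q])) = algebraMap ℚ_[q] L (q : ℚ_[q])
  rw [← IsScalarTower.algebraMap_apply]

/-- The integer `e'` of `exists_relE` is `relE q K L`. -/
lemma relE_spec :
    (relE q K L : ℤ) * (relF q K L : ℤ) = (Module.finrank K L : ℤ) ∧
      (edeg q L : ℤ) = (relE q K L : ℤ) * (edeg q K : ℤ) ∧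
      ∀ a : Kˣ, ord q L (Units.map (algebraMap K L : K →* L) a) =
        (relE q K L : ℤ) * ord q K a := by
  have : FiniteDimensional ℚ_[q] L := finiteDimensional_top q K L
  obtain ⟨e', he', hord⟩ := exists_relE q K L
  have hq := hord (qUnit q K)
  rw [qUnit_map, ← edeg_cast, ← edeg_cast] at hq
  have hK : (0 : ℤ) < (edeg q K : ℤ) := by exact_mod_cast edeg_pos q K
  have hL : (0 : ℤ) < (edeg q L : ℤ) := by exact_mod_cast edeg_pos q L
  have he'pos : 0 < e' := by
    rw [hq] at hL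
    exact (pos_iff_pos_of_mul_pos hL).mpr hK
  have hrel : (relE q K L : ℤ) = e' := by
    have h1 : ((edeg q L / edeg q K : ℕ) : ℤ) = e' := by
      rw [Int.natCast_div, hq, Int.mul_ediv_cancel _ hK.ne']
    exact h1
  rw [hrel]
  exact ⟨he', hq, hord⟩

theorem edeg_eq_relE_mul : edeg q L = relE q K L * edeg q K := by
  have h := (relE_spec q K L).2.1
  exact_mod_cast h

theorem relE_mul_relF : relE q K L * relF q K L = Module.finrank K L := by
  have h := (relE_spec q K L).1
  exact_mod_cast h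

theorem ord_algebraMap (a : Kˣ) :
    ord q L (Units.map (algebraMap K L : K →* L) a) = (relE q K L : ℤ) * ord q K a :=
  (relE_spec q K L).2.2 a

theorem isUnram_iff : IsUnram q K L ↔ relE q K L = 1 := by
  constructor
  · intro h
    have h1 := h (qUnit q K)
    rw [ord_algebraMap q K L, ← edeg_cast] at h1
    have hK : (0 : ℤ) < (edeg q K : ℤ) := by exact_mod_cast edeg_pos q K
    have h2 : (relE q K L : ℤ) * (edeg q K : ℤ) = 1 * (edeg q K : ℤ) := by rw [h1, one_mul]
    have h3 := mul_right_cancel₀ hK.ne' h2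
    exact_mod_cast h3
  · intro h a
    rw [ord_algebraMap q K L, h]
    simp

end rel

end Fermat.Agent.S55.helper33
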