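import Mathlib
import Fermat.Agent.S55.helper8_LocDefs
import Fermat.Agent.S55.helper33_LocRel

/-!
# S55 / LOC-0b (helper71): dictionary between `ordT` and the spectral norm

For a finite extension `K` of `ℚ_[q]`: `spectralNorm ℚ_[q] K x = ρ ^ ord x` with
`ρ = q ^ (-f/n)`, hence `m ≤ ordT x ↔ spectralNorm x ≤ ρ ^ m` and `m < ordT x ↔ … < ρ ^ m`.
-/

set_option autoImplicit false
set_option linter.unusedSectionVars false

namespace Fermat.Agent.S55.helper71

open Fermat.Agent.S55.helper8 Fermat.Agent.S55.helper33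
open IntermediateField Polynomial

variable (q : ℕ) [Fact q.Prime]
variable (K : Type) [Field K] [Algebra ℚ_[q] K] [FiniteDimensional ℚ_[q] K]

/-- The norm of `N_{K/ℚ_q} x` is the `n`-th power of the spectral norm. -/
theorem norm_algebraNorm_eq (x : K) :
    ‖Algebra.norm ℚ_[q] x‖ = spectralNorm ℚ_[q] K x ^ Module.finrank ℚ_[q] K := by
  have hx : IsIntegral ℚ_[q] x := Algebra.IsIntegral.isIntegral x
  have hdeg : 0 < (minpoly ℚ_[q] x).natDegree := minpoly.natDegree_pos hx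
  -- the norm in terms of the constant coefficient
  have h1 : Algebra.norm ℚ_[q] x
      = ((-1) ^ (minpoly ℚ_[q] x).natDegree * (minpoly ℚ_[q] x).coeff 0)
        ^ Module.finrank ℚ_[q]⟮x⟯ K := by
    rw [Algebra.norm_eq_norm_adjoin ℚ_[q] x]
    congr 1
    have h2 := Algebra.PowerBasis.norm_gen_eq_coeff_zero_minpoly (adjoin.powerBasis hx)
    rw [adjoin.powerBasis_gen hx, adjoin.powerBasis_dim hx, minpoly_gen] at h2
    exact h2
  have h3 : Module.finrank ℚ_[q] K
      = (minpoly ℚ_[q] x).natDegree * Module.finrank ℚ_[q]⟮x⟯ K := by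
    rw [← adjoin.finrank hx, Module.finrank_mul_finrank]
  have h4 : spectralNorm ℚ_[q] K x ^ (minpoly ℚ_[q] x).natDegree
      = ‖(minpoly ℚ_[q] x).coeff 0‖ := by
    rw [spectralNorm.spectralNorm_eq_norm_coeff_zero_rpow, ← Real.rpow_natCast,
      ← Real.rpow_mul (norm_nonneg _), one_div,
      inv_mul_cancel₀ (by exact_mod_cast hdeg.ne'), Real.rpow_one]
  rw [h1, norm_pow, norm_mul, norm_pow, norm_neg, norm_one, one_pow, one_mul, h3, pow_mul, h4]


/-- The spectral norm of a uniformiser: the positive real `ρ < 1` with `ρ ^ n = q ^ (-f)`. -/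
noncomputable def rho : ℝ :=
  (((q : ℝ)⁻¹) ^ fdeg q K) ^ ((Module.finrank ℚ_[q] K : ℝ)⁻¹)

theorem q_gt_one : (1 : ℝ) < (q : ℝ) := by exact_mod_cast (Fact.out : q.Prime).one_lt

theorem finrank_pos' : 0 < Module.finrank ℚ_[q] K := Module.finrank_pos

theorem rho_pos : 0 < rho q K := by
  have hq := q_gt_one q
  unfold rho
  positivity

theorem rho_pow_finrank :
    rho q K ^ Module.finrank ℚ_[q] K = ((q : ℝ)⁻¹) ^ fdeg q K := by
  have hq := q_gt_one q
  unfold rho
  rw [Real.rpow_inv_natCast_pow (by positivity) (finrank_pos' q K).ne']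

theorem rho_lt_one : rho q K < 1 := by
  have hq := q_gt_one q
  have h1 : rho q K ^ Module.finrank ℚ_[q] K < 1 := by
    rw [rho_pow_finrank]
    exact pow_lt_one₀ (by positivity) (inv_lt_one_of_one_lt₀ hq) (fdeg_pos q K).ne'
  by_contra h
  rw [not_lt] at h
  exact absurd h1 (not_lt.mpr (one_le_pow₀ h))

/-- Dictionary: the spectral norm of a unit is `ρ ^ ord`. -/
theorem spectralNorm_units (a : Kˣ) :
    spectralNorm ℚ_[q] K (a : K) = rho q K ^ ord q K a := by
  have hq := q_gt_one q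
  have hq0 : (q : ℝ) ≠ 0 := by positivity
  have hn := (finrank_pos' q K).ne'
  have hN : Algebra.norm ℚ_[q] (a : K) ≠ 0 := by
    rw [Ne, Algebra.norm_eq_zero_iff]
    exact a.ne_zero
  have h1 : spectralNorm ℚ_[q] K (a : K) ^ Module.finrank ℚ_[q] K
      = (q : ℝ) ^ (-(nval q K a)) := by
    rw [← norm_algebraNorm_eq, Padic.norm_eq_zpow_neg_valuation hN, nval_def]
  have h2 : (rho q K ^ ord q K a) ^ Module.finrank ℚ_[q] K = (q : ℝ) ^ (-(nval q K a)) := by
    rw [← zpow_natCast, ← zpow_mul, mul_comm, zpow_mul, zpow_natCast, rho_pow_finrank,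
      nval_eq_fdeg_mul_ord, inv_pow, ← zpow_natCast (q : ℝ), ← zpow_neg, ← zpow_mul, neg_mul]
  exact (pow_left_inj₀ (spectralNorm_nonneg _) (zpow_nonneg (rho_pos q K).le _) hn).mp
    (h1.trans h2.symm)

theorem spectralNorm_of_ne_zero {x : K} (hx : x ≠ 0) :
    spectralNorm ℚ_[q] K x = rho q K ^ ord q K (Units.mk0 x hx) :=
  spectralNorm_units q K (Units.mk0 x hx)

theorem ordT_of_ne_zero {x : K} (hx : x ≠ 0) :
    ordT q K x = ((ord q K (Units.mk0 x hx) : ℤ) : WithTop ℤ) := by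
  unfold ordT
  rw [dif_neg hx]

theorem ordT_zero : ordT q K (0 : K) = ⊤ := by
  unfold ordT
  rw [dif_pos rfl]

/-- Dictionary: `m ≤ ord x` iff `|x| ≤ ρ ^ m`. -/
theorem le_ordT_iff (x : K) (m : ℤ) :
    (m : WithTop ℤ) ≤ ordT q K x ↔ spectralNorm ℚ_[q] K x ≤ rho q K ^ m := by
  by_cases hx : x = 0
  · subst hx
    rw [ordT_zero, spectralNorm_zero]
    exact ⟨fun _ => zpow_nonneg (rho_pos q K).le _, fun _ => le_top⟩
  · rw [ordT_of_ne_zero q K hx, spectralNorm_of_ne_zero q K hx, WithTop.coe_le_coe,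
      zpow_le_zpow_iff_right_of_lt_one₀ (rho_pos q K) (rho_lt_one q K)]

/-- Dictionary: `m < ord x` iff `|x| < ρ ^ m`. -/
theorem lt_ordT_iff (x : K) (m : ℤ) :
    (m : WithTop ℤ) < ordT q K x ↔ spectralNorm ℚ_[q] K x < rho q K ^ m := by
  by_cases hx : x = 0
  · subst hx
    rw [ordT_zero, spectralNorm_zero]
    exact ⟨fun _ => zpow_pos (rho_pos q K) _, fun _ => WithTop.coe_lt_top _⟩
  · rw [ordT_of_ne_zero q K hx, spectralNorm_of_ne_zero q K hx, WithTop.coe_lt_coe,
      zpow_lt_zpow_iff_right_of_lt_one₀ (rho_pos q K) (rho_lt_one q K)]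

end Fermat.Agent.S55.helper71
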