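import Mathlib
import Fermat.Agent.S55.helper71_LocNorm

/-!
# S55 / LOC-0b (helper71): completeness of a `q`-adic field

* `exists_limit` : sequences with `ord (x (n+1) - x n) ≥ n` converge;
* `hensel_normed` : strong Hensel lemma in any complete ultrametric normed field;
* `hensel` : Hensel's lemma for `ordT` (statement of `helper8_LocInterface`).
-/

set_option autoImplicit false
set_option linter.unusedSectionVars false
set_option linter.style.haveILetI false

namespace Fermat.Agent.S55.helper71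

open Fermat.Agent.S55.helper8 Fermat.Agent.S55.helper33
open Filter Topology

variable (q : ℕ) [Fact q.Prime]
variable (K : Type) [Field K] [Algebra ℚ_[q] K] [FiniteDimensional ℚ_[q] K]

/-- ultrametric inequality for the spectral norm -/
theorem spectralNorm_add_le (x y : K) :
    spectralNorm ℚ_[q] K (x + y) ≤ max (spectralNorm ℚ_[q] K x) (spectralNorm ℚ_[q] K y) :=
  isNonarchimedean_spectralNorm (K := ℚ_[q]) (L := K) x y

theorem spectralNorm_sub_le (x y : K) :
    spectralNorm ℚ_[q] K (x - y) ≤ max (spectralNorm ℚ_[q] K x) (spectralNorm ℚ_[q] K y) := by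
  have h := spectralNorm_add_le q K x (-y)
  rwa [← sub_eq_add_neg, spectralNorm_neg (Algebra.IsAlgebraic.isAlgebraic y)] at h

/-- completeness, sequential form: a sequence with `ord (x (n+1) - x n) ≥ n` converges -/
theorem exists_limit (x : ℕ → K)
    (hx : ∀ n : ℕ, (((n : ℤ) : WithTop ℤ)) ≤ ordT q K (x (n + 1) - x n)) :
    ∃ y : K, ∀ n : ℕ, (((n : ℤ) : WithTop ℤ)) ≤ ordT q K (y - x n) := by
  letI : NormedField K := spectralNorm.normedField ℚ_[q] K
  haveI : CompleteSpace K := spectralNorm.completeSpace ℚ_[q] K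
  have hnorm : ∀ z : K, ‖z‖ = spectralNorm ℚ_[q] K z := fun _ => rfl
  have hρ0 := rho_pos q K
  have hρ1 := rho_lt_one q K
  have hstep : ∀ n : ℕ, ‖x (n + 1) - x n‖ ≤ rho q K ^ n := by
    intro n
    have := (le_ordT_iff q K _ _).mp (hx n)
    rwa [zpow_natCast] at this
  -- Cauchy
  have hcauchy : CauchySeq x := by
    refine cauchySeq_of_le_geometric (rho q K) 1 hρ1 (fun n => ?_)
    rw [one_mul, dist_comm, dist_eq_norm]
    exact hstep n
  obtain ⟨y, hy⟩ := cauchySeq_tendsto_of_complete hcauchy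
  refine ⟨y, fun n => ?_⟩
  rw [le_ordT_iff, zpow_natCast]
  -- uniform bound on `x m - x n` for `m ≥ n`
  have hbound : ∀ k : ℕ, ‖x (n + k) - x n‖ ≤ rho q K ^ n := by
    intro k
    induction k with
    | zero => simp only [add_zero, sub_self, norm_zero]; positivity
    | succ k ih =>
      have h1 : x (n + (k + 1)) - x n = (x (n + k + 1) - x (n + k)) + (x (n + k) - x n) := by
        rw [← add_assoc]; ring
      rw [h1]
      refine (spectralNorm_add_le q K _ _).trans (max_le ?_ ih)
      refine (hstep (n + k)).trans ?_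
      exact pow_le_pow_of_le_one hρ0.le hρ1.le (Nat.le_add_right n k)
  have hlim : Tendsto (fun k => ‖x (n + k) - x n‖) atTop (𝓝 ‖y - x n‖) := by
    have h1 : Tendsto (fun k => x (n + k)) atTop (𝓝 y) := by
      have := hy.comp (tendsto_add_atTop_nat n)
      refine this.congr (fun k => ?_)
      simp only [Function.comp_apply, add_comm]
    exact ((h1.sub tendsto_const_nhds).norm)
  exact le_of_tendsto' hlim hbound


/-! ### Hensel's lemma in a complete ultrametric normed field -/

section NormedHensel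

open Polynomial

variable {F : Type*} [NormedField F] [IsUltrametricDist F]

/-- The closed unit ball of an ultrametric normed field, as a subring. -/
def unitBall (F : Type*) [NormedField F] [IsUltrametricDist F] : Subring F where
  carrier := {x | ‖x‖ ≤ 1}
  mul_mem' := fun {a b} ha hb => by
    show ‖a * b‖ ≤ 1
    rw [norm_mul]
    exact mul_le_one₀ ha (norm_nonneg _) hb
  one_mem' := by show ‖(1 : F)‖ ≤ 1; rw [norm_one]
  add_mem' := fun {a b} ha hb =>
    (IsUltrametricDist.norm_add_le_max a b).trans (max_le ha hb)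
  zero_mem' := by show ‖(0 : F)‖ ≤ 1; rw [norm_zero]; exact zero_le_one
  neg_mem' := fun {a} ha => by show ‖-a‖ ≤ 1; rw [norm_neg]; exact ha

theorem mem_unitBall {x : F} : x ∈ unitBall F ↔ ‖x‖ ≤ 1 := Iff.rfl

theorem norm_sub_le_max' (x y : F) : ‖x - y‖ ≤ max ‖x‖ ‖y‖ := by
  have h := IsUltrametricDist.norm_add_le_max x (-y)
  rwa [← sub_eq_add_neg, norm_neg] at h

theorem coeffs_subset_unitBall (f : F[X]) (hf : ∀ i, ‖f.coeff i‖ ≤ 1) :
    (↑f.coeffs : Set F) ⊆ unitBall F := by
  intro c hc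
  rw [Finset.mem_coe, Polynomial.mem_coeffs_iff] at hc
  obtain ⟨n, -, rfl⟩ := hc
  exact hf n

theorem eval_toSubring (f : F[X]) (hf : ∀ i, ‖f.coeff i‖ ≤ 1) (x : unitBall F) :
    (((f.toSubring (unitBall F) (coeffs_subset_unitBall f hf)).eval x : unitBall F) : F)
      = f.eval (x : F) := by
  conv_rhs => rw [← Polynomial.map_toSubring f (unitBall F) (coeffs_subset_unitBall f hf)]
  rw [Polynomial.eval_map]
  exact (Polynomial.eval₂_at_apply (unitBall F).subtype x).symm

theorem eval_derivative_toSubring (f : F[X]) (hf : ∀ i, ‖f.coeff i‖ ≤ 1) (x : unitBall F) :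
    ((((f.toSubring (unitBall F) (coeffs_subset_unitBall f hf)).derivative).eval x :
      unitBall F) : F) = f.derivative.eval (x : F) := by
  conv_rhs => rw [← Polynomial.map_toSubring f (unitBall F) (coeffs_subset_unitBall f hf)]
  rw [Polynomial.derivative_map, Polynomial.eval_map]
  exact (Polynomial.eval₂_at_apply (unitBall F).subtype x).symm

theorem norm_eval_le_one (f : F[X]) (hf : ∀ i, ‖f.coeff i‖ ≤ 1) {x : F} (hx : ‖x‖ ≤ 1) :
    ‖f.eval x‖ ≤ 1 := by
  rw [← eval_toSubring f hf ⟨x, hx⟩]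
  exact ((f.toSubring (unitBall F) (coeffs_subset_unitBall f hf)).eval ⟨x, hx⟩).2

theorem norm_derivative_eval_le_one (f : F[X]) (hf : ∀ i, ‖f.coeff i‖ ≤ 1) {x : F}
    (hx : ‖x‖ ≤ 1) : ‖f.derivative.eval x‖ ≤ 1 := by
  rw [← eval_derivative_toSubring f hf ⟨x, hx⟩]
  exact (((f.toSubring (unitBall F) (coeffs_subset_unitBall f hf)).derivative).eval ⟨x, hx⟩).2

/-- second order Taylor estimate with integral remainder -/
theorem taylor_estimate (f : F[X]) (hf : ∀ i, ‖f.coeff i‖ ≤ 1) {x y : F} (hx : ‖x‖ ≤ 1)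
    (hy : ‖y‖ ≤ 1) :
    ∃ c : F, ‖c‖ ≤ 1 ∧ f.eval (x + y) = f.eval x + f.derivative.eval x * y + c * y ^ 2 := by
  obtain ⟨k, hk⟩ := Polynomial.binomExpansion
    (f.toSubring (unitBall F) (coeffs_subset_unitBall f hf)) ⟨x, hx⟩ ⟨y, hy⟩
  refine ⟨(k : F), k.2, ?_⟩
  have := congrArg (fun z : unitBall F => (z : F)) hk
  simp only [Subring.coe_add, Subring.coe_mul, Subring.coe_pow, eval_toSubring f hf,
    eval_derivative_toSubring f hf] at this
  exact this

/-- Lipschitz estimate for the derivative -/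
theorem derivative_estimate (f : F[X]) (hf : ∀ i, ‖f.coeff i‖ ≤ 1) {x y : F} (hx : ‖x‖ ≤ 1)
    (hy : ‖y‖ ≤ 1) :
    ∃ c : F, ‖c‖ ≤ 1 ∧ f.derivative.eval x - f.derivative.eval y = c * (x - y) := by
  obtain ⟨k, hk⟩ := Polynomial.evalSubFactor
    ((f.toSubring (unitBall F) (coeffs_subset_unitBall f hf)).derivative) ⟨x, hx⟩ ⟨y, hy⟩
  refine ⟨(k : F), k.2, ?_⟩
  have := congrArg (fun z : unitBall F => (z : F)) hk
  simp only [AddSubgroupClass.coe_sub, Subring.coe_mul, eval_derivative_toSubring f hf] at this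
  exact this

/-- **Hensel's lemma** (strong form) in a complete ultrametric normed field. -/
theorem hensel_normed [CompleteSpace F] (f : F[X]) (hf : ∀ i, ‖f.coeff i‖ ≤ 1) (a : F)
    (ha : ‖a‖ ≤ 1) (h : ‖f.eval a‖ < ‖f.derivative.eval a‖ ^ 2) :
    ∃ b : F, f.eval b = 0 ∧ ‖b - a‖ < ‖f.derivative.eval a‖ := by
  set D : F := f.derivative.eval a with hD
  have hDpos : 0 < ‖D‖ := by
    by_contra hcon
    have h0 : ‖D‖ = 0 := le_antisymm (not_lt.mp hcon) (norm_nonneg _)
    rw [h0] at h
    simp only [ne_eq, OfNat.ofNat_ne_zero, not_false_eq_true, zero_pow] at h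
    exact absurd h (not_lt.mpr (norm_nonneg _))
  have hD0 : D ≠ 0 := norm_pos_iff.mp hDpos
  have hD1 : ‖D‖ ≤ 1 := norm_derivative_eval_le_one f hf ha
  set r : ℝ := ‖f.eval a‖ / ‖D‖ with hr
  have hr0 : 0 ≤ r := div_nonneg (norm_nonneg _) hDpos.le
  have hrD : r < ‖D‖ := by
    rw [hr, div_lt_iff₀ hDpos, ← pow_two]
    exact h
  have hr1 : r ≤ 1 := hrD.le.trans hD1
  set T : ℝ := r / ‖D‖ with hT
  have hT0 : 0 ≤ T := div_nonneg hr0 hDpos.le
  have hT1 : T < 1 := by rw [hT, div_lt_one hDpos]; exact hrD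
  set φ : F → F := fun x => x - f.eval x / D with hφ
  set s : Set F := Metric.closedBall a r with hs
  have hmem : ∀ x ∈ s, ‖x - a‖ ≤ r := fun x hx => by
    rw [hs, Metric.mem_closedBall, dist_eq_norm] at hx
    exact hx
  have hball : ∀ x ∈ s, ‖x‖ ≤ 1 := fun x hx => by
    have h1 : x = (x - a) + a := by ring
    rw [h1]
    exact (IsUltrametricDist.norm_add_le_max _ _).trans (max_le ((hmem x hx).trans hr1) ha)
  -- key estimate
  have key : ∀ x ∈ s, ∀ y ∈ s, ‖D * (x - y) - (f.eval x - f.eval y)‖ ≤ r * ‖x - y‖ := by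
    intro x hx y hy
    have hh : ‖x - y‖ ≤ r := by
      have h1 : x - y = (x - a) - (y - a) := by ring
      rw [h1]
      exact (norm_sub_le_max' _ _).trans (max_le (hmem x hx) (hmem y hy))
    obtain ⟨c, hc, hc'⟩ := taylor_estimate f hf (hball y hy) (hh.trans hr1)
    obtain ⟨c₂, hc₂, hc₂'⟩ := derivative_estimate f hf (hball y hy) ha
    have e1 : y + (x - y) = x := by ring
    rw [e1] at hc'
    have e2 : D * (x - y) - (f.eval x - f.eval y)
        = -((x - y) * (c₂ * (y - a) + c * (x - y))) := by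
      rw [hc']
      have : f.derivative.eval y = D + c₂ * (y - a) := by rw [← hc₂']; ring
      rw [this]
      ring
    rw [e2, norm_neg, norm_mul, mul_comm]
    refine mul_le_mul_of_nonneg_right ?_ (norm_nonneg _)
    refine (IsUltrametricDist.norm_add_le_max _ _).trans (max_le ?_ ?_)
    · rw [norm_mul]
      calc ‖c₂‖ * ‖y - a‖ ≤ 1 * r := mul_le_mul hc₂ (hmem y hy) (norm_nonneg _) zero_le_one
        _ = r := one_mul r
    · rw [norm_mul]
      calc ‖c‖ * ‖x - y‖ ≤ 1 * r := mul_le_mul hc hh (norm_nonneg _) zero_le_one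
        _ = r := one_mul r
  have hcontr : ∀ x ∈ s, ∀ y ∈ s, ‖φ x - φ y‖ ≤ T * ‖x - y‖ := by
    intro x hx y hy
    have e : φ x - φ y = (D * (x - y) - (f.eval x - f.eval y)) / D := by
      simp only [hφ]
      field_simp
      ring
    rw [e, norm_div, hT, div_mul_eq_mul_div]
    exact div_le_div_of_nonneg_right (key x hx y hy) hDpos.le
  have has : a ∈ s := by
    rw [hs]
    exact Metric.mem_closedBall_self hr0
  have hφa : ‖φ a - a‖ = r := by
    simp only [hφ]
    rw [sub_sub_cancel_left, norm_neg, norm_div]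
  have hmaps : Set.MapsTo φ s s := by
    intro x hx
    rw [hs, Metric.mem_closedBall, dist_eq_norm]
    have e : φ x - a = (φ x - φ a) + (φ a - a) := by ring
    rw [e]
    refine (IsUltrametricDist.norm_add_le_max _ _).trans (max_le ?_ hφa.le)
    refine (hcontr x hx a has).trans ?_
    calc T * ‖x - a‖ ≤ 1 * r := mul_le_mul hT1.le (hmem x hx) (norm_nonneg _) zero_le_one
      _ = r := one_mul r
  have hlip : ContractingWith ⟨T, hT0⟩ (hmaps.restrict φ s s) := by
    refine ⟨by exact_mod_cast hT1, LipschitzWith.of_dist_le_mul (fun x y => ?_)⟩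
    rw [Subtype.dist_eq, Subtype.dist_eq, dist_eq_norm, dist_eq_norm]
    exact hcontr x x.2 y y.2
  have hcomplete : IsComplete s := (Metric.isClosed_closedBall).isComplete
  obtain ⟨b, hbs, hfix, -, -⟩ := hlip.exists_fixedPoint' hcomplete hmaps has (edist_ne_top _ _)
  refine ⟨b, ?_, (hmem b hbs).trans_lt hrD⟩
  have hb : φ b = b := hfix
  simp only [hφ] at hb
  have : f.eval b / D = 0 := by
    have := sub_eq_self.mp hb
    exact this
  rcases div_eq_zero_iff.mp this with h0 | h0
  · exact h0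
  · exact absurd h0 hD0

end NormedHensel


section Hensel

variable (q : ℕ) [Fact q.Prime]
variable (K : Type) [Field K] [Algebra ℚ_[q] K] [FiniteDimensional ℚ_[q] K]

/-- Hensel's lemma (completeness) -/
theorem hensel (f : Polynomial K) (hf : ∀ i, 0 ≤ ordT q K (f.coeff i)) (a : K)
    (ha : 0 ≤ ordT q K a)
    (h : 2 • ordT q K (f.derivative.eval a) < ordT q K (f.eval a)) :
    ∃ b : K, f.eval b = 0 ∧ ordT q K (f.derivative.eval a) < ordT q K (b - a) := by
  letI : NormedField K := spectralNorm.normedField ℚ_[q] K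
  haveI : CompleteSpace K := spectralNorm.completeSpace ℚ_[q] K
  haveI : IsUltrametricDist K :=
    IsUltrametricDist.isUltrametricDist_of_isNonarchimedean_norm
      (isNonarchimedean_spectralNorm (K := ℚ_[q]) (L := K))
  have hnorm : ∀ z : K, ‖z‖ = spectralNorm ℚ_[q] K z := fun _ => rfl
  have h0 : ∀ z : K, 0 ≤ ordT q K z → ‖z‖ ≤ 1 := by
    intro z hz
    have := (le_ordT_iff q K z 0).mp (by exact_mod_cast hz)
    rwa [zpow_zero] at this
  -- the derivative is nonzero
  have hD0 : f.derivative.eval a ≠ 0 := by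
    intro hcon
    rw [hcon, ordT_zero] at h
    have : (2 : ℕ) • (⊤ : WithTop ℤ) = ⊤ := by
      rw [two_nsmul]; rfl
    rw [this] at h
    exact absurd h (not_lt.mpr le_top)
  set d : ℤ := ord q K (Units.mk0 _ hD0) with hd
  have hDord : ordT q K (f.derivative.eval a) = ((d : ℤ) : WithTop ℤ) := ordT_of_ne_zero q K hD0
  have hDnorm : ‖f.derivative.eval a‖ = rho q K ^ d := spectralNorm_of_ne_zero q K hD0
  have h2 : (((2 * d : ℤ)) : WithTop ℤ) < ordT q K (f.eval a) := by
    rw [hDord, two_nsmul, ← WithTop.coe_add] at h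
    rwa [two_mul]
  have h3 : ‖f.eval a‖ < ‖f.derivative.eval a‖ ^ 2 := by
    have := (lt_ordT_iff q K _ _).mp h2
    rw [hDnorm, ← zpow_natCast, ← zpow_mul, mul_comm]
    exact this
  obtain ⟨b, hb, hb'⟩ := hensel_normed f (fun i => h0 _ (hf i)) a (h0 _ ha) h3
  refine ⟨b, hb, ?_⟩
  rw [hDord, lt_ordT_iff, ← hDnorm]
  exact hb'

end Hensel

end Fermat.Agent.S55.helper71
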