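import Mathlib
import Fermat.Agent.S55.helper71_LocComplete

/-!
# S55 / LOC-0b (helper71): the residue field of a finite extension of `ℚ_[q]`

* `isIntegral_iff_spectralNorm_le_one` : `x` is integral over `ℤ_[q]` iff `|x| ≤ 1`;
* `ball q K m` : the additive subgroup `{x | |x| ≤ ρ ^ m}`, with
  `mem_ball_zero_iff : x ∈ ball q K 0 ↔ 0 ≤ ordT q K x` and
  `mem_ball_one_iff : x ∈ ball q K 1 ↔ 0 < ordT q K x`;
* `relIndex_ball_nat` : `[ball 0 : ball k] = [ball 0 : ball 1] ^ k`;
* `relIndex_ball_edeg` : `[ball 0 : ball e] = q ^ n` (the ring of integers is free of rank `n`);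
* `relIndex_ball_one` : `[ball 0 : ball 1] = q ^ f` (from `e * f = n`);
* `exists_representatives` : a full system of representatives of the residue field.
-/

set_option autoImplicit false
set_option linter.unusedSectionVars false
set_option linter.style.haveILetI false

namespace Fermat.Agent.S55.helper71

open Fermat.Agent.S55.helper8 Fermat.Agent.S55.helper33
open Polynomial

section Balls

variable (q : ℕ) [Fact q.Prime]
variable (K : Type) [Field K] [Algebra ℚ_[q] K] [FiniteDimensional ℚ_[q] K]

theorem spectralNorm_mul' (x y : K) :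
    spectralNorm ℚ_[q] K (x * y) = spectralNorm ℚ_[q] K x * spectralNorm ℚ_[q] K y :=
  spectralAlgNorm_mul (K := ℚ_[q]) (L := K) x y

/-- the ball `{x | |x| ≤ ρ ^ m}` as an additive subgroup -/
noncomputable def ball (m : ℤ) : AddSubgroup K where
  carrier := {x | spectralNorm ℚ_[q] K x ≤ rho q K ^ m}
  zero_mem' := by
    show spectralNorm ℚ_[q] K 0 ≤ rho q K ^ m
    rw [spectralNorm_zero]
    exact zpow_nonneg (rho_pos q K).le _
  add_mem' := fun {x y} hx hy => (spectralNorm_add_le q K x y).trans (max_le hx hy)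
  neg_mem' := fun {x} hx => by
    show spectralNorm ℚ_[q] K (-x) ≤ rho q K ^ m
    rwa [spectralNorm_neg (Algebra.IsAlgebraic.isAlgebraic x)]

theorem mem_ball {m : ℤ} {x : K} : x ∈ ball q K m ↔ spectralNorm ℚ_[q] K x ≤ rho q K ^ m :=
  Iff.rfl

theorem ball_anti {m m' : ℤ} (h : m ≤ m') : ball q K m' ≤ ball q K m := by
  intro x hx
  rw [mem_ball] at hx ⊢
  exact hx.trans (zpow_le_zpow_right_of_le_one₀ (rho_pos q K) (rho_lt_one q K).le h)

/-- multiplication by a unit shifts the balls -/
theorem map_mulLeft_ball (u : Kˣ) (m : ℤ) :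
    (ball q K m).map (AddMonoidHom.mulLeft (u : K)) = ball q K (m + ord q K u) := by
  have hρ := rho_pos q K
  ext y
  rw [AddSubgroup.mem_map, mem_ball]
  constructor
  · rintro ⟨x, hx, rfl⟩
    rw [mem_ball] at hx
    rw [AddMonoidHom.coe_mulLeft, spectralNorm_mul', spectralNorm_units, zpow_add₀ hρ.ne',
      mul_comm]
    exact mul_le_mul_of_nonneg_right hx (zpow_nonneg hρ.le _)
  · intro hy
    refine ⟨(u⁻¹ : Kˣ) * y, ?_, ?_⟩
    · rw [mem_ball, spectralNorm_mul', spectralNorm_units]
      have h1 : ord q K u⁻¹ = - ord q K u := by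
        have := ord_mul q K u u⁻¹
        rw [mul_inv_cancel] at this
        have h0 : ord q K (1 : Kˣ) = 0 := by
          have := ord_mul q K 1 1
          rw [one_mul] at this
          linarith
        linarith
      rw [h1]
      calc rho q K ^ (-ord q K u) * spectralNorm ℚ_[q] K y
          ≤ rho q K ^ (-ord q K u) * rho q K ^ (m + ord q K u) :=
            mul_le_mul_of_nonneg_left hy (zpow_nonneg hρ.le _)
        _ = rho q K ^ m := by
            rw [← zpow_add₀ hρ.ne']
            congr 1
            ring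
    · rw [AddMonoidHom.coe_mulLeft, ← mul_assoc, ← Units.val_mul, mul_inv_cancel, Units.val_one,
        one_mul]

theorem mulLeft_injective (u : Kˣ) : Function.Injective (AddMonoidHom.mulLeft (u : K)) := by
  intro x y h
  simpa [AddMonoidHom.coe_mulLeft] using h

/-- the relative index of consecutive balls is constant -/
theorem relIndex_ball_succ (m : ℤ) :
    (ball q K (m + 1)).relIndex (ball q K m) = (ball q K 1).relIndex (ball q K 0) := by
  obtain ⟨π, hπ⟩ := exists_ord_eq_one q K
  have h1 : ord q K (π ^ m) = m := by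
    have hmul : ∀ a b : Kˣ, ord q K (a * b) = ord q K a + ord q K b := ord_mul q K
    have hone : ord q K (1 : Kˣ) = 0 := by
      have := hmul 1 1
      rw [one_mul] at this
      linarith
    have hinv : ∀ a : Kˣ, ord q K a⁻¹ = - ord q K a := by
      intro a
      have := hmul a a⁻¹
      rw [mul_inv_cancel, hone] at this
      linarith
    have hnat : ∀ k : ℕ, ord q K (π ^ k) = k := by
      intro k
      induction k with
      | zero => simpa using hone
      | succ k ih => rw [pow_succ, hmul, ih, hπ]; push_cast; ring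
    rcases Int.eq_nat_or_neg m with ⟨k, rfl | rfl⟩
    · rw [zpow_natCast]; exact hnat k
    · rw [zpow_neg, hinv, zpow_natCast, hnat]
  have e1 : ball q K (m + 1) = (ball q K 1).map (AddMonoidHom.mulLeft ((π ^ m : Kˣ) : K)) := by
    rw [map_mulLeft_ball, h1, add_comm]
  have e0 : ball q K m = (ball q K 0).map (AddMonoidHom.mulLeft ((π ^ m : Kˣ) : K)) := by
    rw [map_mulLeft_ball, h1, zero_add]
  rw [e1, e0, AddSubgroup.relIndex_map_map_of_injective _ _ (mulLeft_injective K _)]

theorem relIndex_ball_nat (k : ℕ) :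
    (ball q K k).relIndex (ball q K 0) = ((ball q K 1).relIndex (ball q K 0)) ^ k := by
  induction k with
  | zero =>
    simp only [Nat.cast_zero, pow_zero]
    exact AddSubgroup.relIndex_self _
  | succ k ih =>
    have h1 := AddSubgroup.relIndex_mul_relIndex (ball q K ((k : ℤ) + 1)) (ball q K k) (ball q K 0)
      (ball_anti q K (by omega)) (ball_anti q K (by omega))
    rw [relIndex_ball_succ, ih] at h1
    push_cast
    rw [← h1, pow_succ, mul_comm]

/-- the norm of `q` -/
theorem spectralNorm_natCast_q : spectralNorm ℚ_[q] K (q : K) = rho q K ^ edeg q K := by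
  have h := spectralNorm_units q K (qUnit q K)
  rw [← edeg_cast, zpow_natCast] at h
  rw [← h]
  congr 1
  simp [qUnit]

end Balls

section IntegralSection

variable (q : ℕ) [Fact q.Prime]
variable (K : Type) [Field K] [Algebra ℚ_[q] K] [FiniteDimensional ℚ_[q] K]
variable [Algebra ℤ_[q] K] [IsScalarTower ℤ_[q] ℚ_[q] K]

/-- Lemma I: integral over `ℤ_[q]` iff spectral norm `≤ 1`. -/
theorem isIntegral_iff_spectralNorm_le_one (x : K) :
    IsIntegral ℤ_[q] x ↔ spectralNorm ℚ_[q] K x ≤ 1 := by
  have hmonic : (minpoly ℚ_[q] x).Monic :=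
    minpoly.monic (Algebra.IsIntegral.isIntegral (R := ℚ_[q]) x)
  constructor
  · intro hx
    have h1 : minpoly ℚ_[q] x = (minpoly ℤ_[q] x).map (algebraMap ℤ_[q] ℚ_[q]) :=
      minpoly.isIntegrallyClosed_eq_field_fractions' ℚ_[q] hx
    show spectralValue (minpoly ℚ_[q] x) ≤ 1
    rw [spectralValue_le_one_iff hmonic, h1]
    intro n
    rw [Polynomial.coeff_map]
    exact PadicInt.norm_le_one _
  · intro hx
    have hcoef : ∀ n, ‖(minpoly ℚ_[q] x).coeff n‖ ≤ 1 :=
      (spectralValue_le_one_iff hmonic).mp hx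
    have hl : minpoly ℚ_[q] x ∈ Polynomial.lifts (algebraMap ℤ_[q] ℚ_[q]) := by
      rw [Polynomial.lifts_iff_coeff_lifts]
      intro n
      exact ⟨⟨_, hcoef n⟩, rfl⟩
    obtain ⟨g, hg, -, hgm⟩ := Polynomial.lifts_and_natDegree_eq_and_monic hl hmonic
    refine ⟨g, hgm, ?_⟩
    have h2 : Polynomial.eval₂ (algebraMap ℤ_[q] K) x g
        = Polynomial.eval₂ (algebraMap ℚ_[q] K) x (g.map (algebraMap ℤ_[q] ℚ_[q])) := by
      rw [Polynomial.eval₂_map, ← IsScalarTower.algebraMap_eq]
    rw [h2, hg]
    exact minpoly.aeval ℚ_[q] x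

theorem torsionFree_padicInt : Module.IsTorsionFree ℤ_[q] K :=
  .trans_faithfulSMul ℤ_[q] ℚ_[q] K

theorem intClosure_free : Module.Free ℤ_[q] (integralClosure ℤ_[q] K) := by
  haveI := torsionFree_padicInt q K
  exact IsIntegralClosure.module_free ℤ_[q] ℚ_[q] K (integralClosure ℤ_[q] K)

theorem intClosure_finite : Module.Finite ℤ_[q] (integralClosure ℤ_[q] K) := by
  exact IsIntegralClosure.finite ℤ_[q] ℚ_[q] K (integralClosure ℤ_[q] K)

theorem intClosure_finrank :
    Module.finrank ℤ_[q] (integralClosure ℤ_[q] K) = Module.finrank ℚ_[q] K := by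
  haveI := torsionFree_padicInt q K
  exact IsIntegralClosure.rank ℤ_[q] ℚ_[q] K (integralClosure ℤ_[q] K)

theorem mem_intClosure_iff (x : K) :
    x ∈ integralClosure ℤ_[q] K ↔ x ∈ ball q K 0 := by
  rw [mem_integralClosure_iff, isIntegral_iff_spectralNorm_le_one q K, mem_ball, zpow_zero]

theorem relIndex_ball_edeg :
    (ball q K (edeg q K)).relIndex (ball q K 0) = q ^ Module.finrank ℚ_[q] K := by
  classical
  haveI := torsionFree_padicInt q K
  haveI : Module.Free ℤ_[q] (integralClosure ℤ_[q] K) := intClosure_free q K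
  haveI : Module.Finite ℤ_[q] (integralClosure ℤ_[q] K) := intClosure_finite q K
  have hρ := rho_pos q K
  let b := Module.Free.chooseBasis ℤ_[q] (integralClosure ℤ_[q] K)
  let f : (integralClosure ℤ_[q] K) →+ K := AddSubmonoidClass.subtype _
  have hf : ∀ x : integralClosure ℤ_[q] K, f x = (x : K) := fun _ => rfl
  have hrange : f.range = ball q K 0 := by
    ext x
    rw [AddMonoidHom.mem_range, ← mem_intClosure_iff]
    constructor
    · rintro ⟨y, rfl⟩; exact y.2
    · intro hx; exact ⟨⟨x, hx⟩, rfl⟩
  let φ : (integralClosure ℤ_[q] K) →+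
      (Module.Free.ChooseBasisIndex ℤ_[q] (integralClosure ℤ_[q] K) → ZMod q) :=
    { toFun := fun x i => PadicInt.toZMod (b.equivFun x i)
      map_zero' := by ext i; simp
      map_add' := by intro x y; ext i; simp }
  have hφ : ∀ x i, φ x i = PadicInt.toZMod (b.equivFun x i) := fun _ _ => rfl
  have hsurj : Function.Surjective φ := by
    intro g
    have hs : Function.Surjective (PadicInt.toZMod (p := q)) := ZMod.ringHom_surjective _
    choose l hl using hs
    refine ⟨b.equivFun.symm (fun i => l (g i)), ?_⟩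
    ext i
    rw [hφ, LinearEquiv.apply_symm_apply, hl]
  have hqK : algebraMap ℤ_[q] K (q : ℤ_[q]) = (q : K) := map_natCast _ _
  have hq0 : (q : K) ≠ 0 := by
    intro h
    have := spectralNorm_natCast_q q K
    rw [h, spectralNorm_zero] at this
    exact absurd this.symm (pow_pos hρ _).ne'
  have hker : φ.ker = (ball q K (edeg q K)).comap f := by
    ext x
    rw [AddMonoidHom.mem_ker, AddSubgroup.mem_comap, mem_ball, hf, zpow_natCast]
    constructor
    · intro hx
      have h1 : ∀ i, ∃ d : ℤ_[q], b.equivFun x i = (q : ℤ_[q]) * d := by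
        intro i
        have h2 : b.equivFun x i ∈ RingHom.ker (PadicInt.toZMod (p := q)) := by
          rw [RingHom.mem_ker, ← hφ, hx]; rfl
        rw [PadicInt.ker_toZMod, PadicInt.maximalIdeal_eq_span_p, Ideal.mem_span_singleton] at h2
        obtain ⟨d, hd⟩ := h2
        exact ⟨d, hd⟩
      choose d hd using h1
      have h3 : x = (q : ℤ_[q]) • b.equivFun.symm d := by
        apply b.equivFun.injective
        ext i
        rw [map_smul, LinearEquiv.apply_symm_apply, Pi.smul_apply, smul_eq_mul, hd]
      have h4 : (x : K) = (q : K) * ((b.equivFun.symm d : integralClosure ℤ_[q] K) : K) := by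
        conv_lhs => rw [h3]
        rw [Subalgebra.coe_smul, Algebra.smul_def, hqK]
      rw [h4, spectralNorm_mul', spectralNorm_natCast_q]
      have h5 : spectralNorm ℚ_[q] K ((b.equivFun.symm d : integralClosure ℤ_[q] K) : K) ≤ 1 := by
        have := (mem_intClosure_iff q K _).mp (b.equivFun.symm d).2
        rwa [mem_ball, zpow_zero] at this
      calc rho q K ^ edeg q K * _ ≤ rho q K ^ edeg q K * 1 :=
            mul_le_mul_of_nonneg_left h5 (pow_pos hρ _).le
        _ = _ := mul_one _
    · intro hx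
      have h1 : (x : K) / (q : K) ∈ integralClosure ℤ_[q] K := by
        rw [mem_intClosure_iff, mem_ball, zpow_zero, div_eq_mul_inv, spectralNorm_mul']
        have h2 : spectralNorm ℚ_[q] K ((q : K)⁻¹) = (rho q K ^ edeg q K)⁻¹ := by
          have := spectralNorm_mul' q K (q : K) ((q : K)⁻¹)
          rw [mul_inv_cancel₀ hq0, spectralNorm_one, spectralNorm_natCast_q] at this
          exact eq_inv_of_mul_eq_one_right this.symm
        rw [h2, ← div_eq_mul_inv, div_le_one (pow_pos hρ _)]
        exact hx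
      have h3 : x = (q : ℤ_[q]) • (⟨_, h1⟩ : integralClosure ℤ_[q] K) := by
        apply Subtype.ext
        rw [Subalgebra.coe_smul, Algebra.smul_def, hqK]
        show (x : K) = (q : K) * ((x : K) / (q : K))
        field_simp
      ext i
      rw [hφ, h3, map_smul, Pi.smul_apply, smul_eq_mul, map_mul, map_natCast,
        ZMod.natCast_self, zero_mul]
      rfl
  rw [← hrange, ← AddSubgroup.index_comap, ← hker, AddSubgroup.index_ker,
    AddMonoidHom.range_eq_top.mpr hsurj]
  rw [AddSubgroup.card_top, Nat.card_fun, Nat.card_zmod, Nat.card_eq_fintype_card,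
    ← Module.finrank_eq_card_chooseBasisIndex, intClosure_finrank]

end IntegralSection

section Residue

variable (q : ℕ) [Fact q.Prime]
variable (K : Type) [Field K] [Algebra ℚ_[q] K] [FiniteDimensional ℚ_[q] K]

/-- the residue field has `q ^ f` elements -/
theorem relIndex_ball_one : (ball q K 1).relIndex (ball q K 0) = q ^ fdeg q K := by
  letI alg : Algebra ℤ_[q] K :=
    ((algebraMap ℚ_[q] K).comp (algebraMap ℤ_[q] ℚ_[q])).toAlgebra
  haveI : IsScalarTower ℤ_[q] ℚ_[q] K := IsScalarTower.of_algebraMap_eq (fun _ => rfl)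
  have h1 := relIndex_ball_edeg q K
  have h2 := relIndex_ball_nat q K (edeg q K)
  rw [h1, ← edeg_mul_fdeg q K, mul_comm, pow_mul] at h2
  exact (Nat.pow_left_injective (edeg_pos q K).ne' h2).symm

theorem withTop_pos_iff_one_le (a : WithTop ℤ) : 0 < a ↔ 1 ≤ a := by
  induction a using WithTop.recTopCoe with
  | top => simp
  | coe k =>
    rw [show (0 : WithTop ℤ) = ((0 : ℤ) : WithTop ℤ) from rfl,
      show (1 : WithTop ℤ) = ((1 : ℤ) : WithTop ℤ) from rfl, WithTop.coe_lt_coe,
      WithTop.coe_le_coe]
    omega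

theorem mem_ball_zero_iff (x : K) : x ∈ ball q K 0 ↔ 0 ≤ ordT q K x := by
  rw [mem_ball, ← le_ordT_iff]
  rfl

theorem mem_ball_one_iff (x : K) : x ∈ ball q K 1 ↔ 0 < ordT q K x := by
  rw [mem_ball, ← le_ordT_iff, withTop_pos_iff_one_le]
  rfl

/-- a full system of representatives of the residue field -/
theorem exists_representatives :
    ∃ S : Finset K, S.card = q ^ fdeg q K ∧ (∀ s ∈ S, 0 ≤ ordT q K s) ∧
      ∀ x : K, 0 ≤ ordT q K x → ∃! s, s ∈ S ∧ 0 < ordT q K (x - s) := by
  classical
  have hidx : ((ball q K 1).addSubgroupOf (ball q K 0)).index = q ^ fdeg q K :=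
    relIndex_ball_one q K
  have hq : 0 < q := (Fact.out : q.Prime).pos
  have hne : ((ball q K 1).addSubgroupOf (ball q K 0)).index ≠ 0 := by
    rw [hidx]; positivity
  haveI : Finite (ball q K 0 ⧸ (ball q K 1).addSubgroupOf (ball q K 0)) :=
    Nat.finite_of_card_ne_zero hne
  letI : Fintype (ball q K 0 ⧸ (ball q K 1).addSubgroupOf (ball q K 0)) := Fintype.ofFinite _
  let r : (ball q K 0 ⧸ (ball q K 1).addSubgroupOf (ball q K 0)) → K :=
    fun c => ((Quotient.out c : ball q K 0) : K)
  have hr : ∀ c, r c = ((Quotient.out c : ball q K 0) : K) := fun _ => rfl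
  have hr_inj : Function.Injective r := by
    intro c c' h
    have h1 : (Quotient.out c : ball q K 0) = Quotient.out c' := Subtype.ext h
    rw [← Quotient.out_eq c, ← Quotient.out_eq c', h1]
  refine ⟨Finset.univ.image r, ?_, ?_, ?_⟩
  · rw [Finset.card_image_of_injective _ hr_inj, Finset.card_univ, ← Nat.card_eq_fintype_card]
    exact hidx
  · intro s hs
    obtain ⟨c, -, rfl⟩ := Finset.mem_image.mp hs
    exact (mem_ball_zero_iff q K _).mp (Quotient.out c).2
  · intro x hx
    have hx0 : x ∈ ball q K 0 := (mem_ball_zero_iff q K x).mpr hx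
    have key : ∀ c : ball q K 0 ⧸ (ball q K 1).addSubgroupOf (ball q K 0),
        0 < ordT q K (x - r c) ↔ c = QuotientAddGroup.mk ⟨x, hx0⟩ := by
      intro c
      rw [← mem_ball_one_iff, hr]
      have h1 : x - ((Quotient.out c : ball q K 0) : K) ∈ ball q K 1 ↔
          (-(Quotient.out c : ball q K 0) + ⟨x, hx0⟩) ∈
            (ball q K 1).addSubgroupOf (ball q K 0) := by
        rw [AddSubgroup.mem_addSubgroupOf]
        have : ((-(Quotient.out c : ball q K 0) + ⟨x, hx0⟩ : ball q K 0) : K)
            = x - ((Quotient.out c : ball q K 0) : K) := by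
          push_cast
          ring
        rw [this]
      rw [h1, ← QuotientAddGroup.eq, QuotientAddGroup.out_eq']
    refine ⟨r (QuotientAddGroup.mk ⟨x, hx0⟩), ⟨Finset.mem_image_of_mem _ (Finset.mem_univ _),
      (key _).mpr rfl⟩, ?_⟩
    rintro s ⟨hs, hs'⟩
    obtain ⟨c, -, rfl⟩ := Finset.mem_image.mp hs
    rw [(key c).mp hs']

end Residue

end Fermat.Agent.S55.helper71
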