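import Mathlib
import Fermat.Agent.S55.helper8_LocDefs
import Fermat.Agent.S55.helper33_LocRel

/-!
# S55 / LOC-2a (helper7): the valuation ring and the residue field of a `q`-adic field

Built from the LOC-0 interface only.  The three LOC-0a/0b inputs that are used
(`ordT_add_ge`, `exists_representatives`, `hensel`) are carried as explicit hypotheses
`HypAdd q`, `HypReps q`, `HypHensel q` (each one is the verbatim interface statement,
quantified over all `q`-adic fields).
-/

set_option autoImplicit false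

namespace Fermat.Agent.S55.helper7

open Fermat.Agent.S55.helper8

variable (q : ℕ) [Fact q.Prime]

/-- LOC-0a input: the ultrametric inequality (verbatim `ordT_add_ge`). -/
def HypAdd : Prop :=
  ∀ (K : Type) [Field K] [Algebra ℚ_[q] K] [FiniteDimensional ℚ_[q] K] (x y : K),
    min (ordT q K x) (ordT q K y) ≤ ordT q K (x + y)

/-- LOC-0b input: representatives of the residue field (verbatim `exists_representatives`). -/
def HypReps : Prop :=
  ∀ (K : Type) [Field K] [Algebra ℚ_[q] K] [FiniteDimensional ℚ_[q] K],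
    ∃ S : Finset K, S.card = q ^ fdeg q K ∧ (∀ s ∈ S, 0 ≤ ordT q K s) ∧
      ∀ x : K, 0 ≤ ordT q K x → ∃! s, s ∈ S ∧ 0 < ordT q K (x - s)

/-- LOC-0b input: Hensel's lemma (verbatim `hensel`). -/
def HypHensel : Prop :=
  ∀ (K : Type) [Field K] [Algebra ℚ_[q] K] [FiniteDimensional ℚ_[q] K]
    (f : Polynomial K) (_ : ∀ i, 0 ≤ ordT q K (f.coeff i)) (a : K)
    (_ : 0 ≤ ordT q K a)
    (_ : 2 • ordT q K (f.derivative.eval a) < ordT q K (f.eval a)),
    ∃ b : K, f.eval b = 0 ∧ ordT q K (f.derivative.eval a) < ordT q K (b - a)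

section abs

variable (F : Type) [Field F] [Algebra ℚ_[q] F] [FiniteDimensional ℚ_[q] F]

omit [FiniteDimensional ℚ_[q] F] in
lemma ordT_zero : ordT q F 0 = ⊤ := by simp [ordT]

omit [FiniteDimensional ℚ_[q] F] in
lemma ordT_of_ne_zero {x : F} (h : x ≠ 0) :
    ordT q F x = ((ord q F (Units.mk0 x h) : ℤ) : WithTop ℤ) := by simp [ordT, h]

omit [FiniteDimensional ℚ_[q] F] in
lemma ordT_ne_top {x : F} (h : x ≠ 0) : ordT q F x ≠ ⊤ := by
  rw [ordT_of_ne_zero q F h]; exact WithTop.coe_ne_top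

omit [FiniteDimensional ℚ_[q] F] in
lemma ordT_eq_top_iff {x : F} : ordT q F x = ⊤ ↔ x = 0 := by
  constructor
  · intro h
    by_contra hx
    exact ordT_ne_top q F hx h
  · rintro rfl
    exact ordT_zero q F

lemma ordT_mul (x y : F) : ordT q F (x * y) = ordT q F x + ordT q F y := by
  by_cases hx : x = 0
  · subst hx; simp [ordT_zero]
  by_cases hy : y = 0
  · subst hy; simp [ordT_zero]
  rw [ordT_of_ne_zero q F hx, ordT_of_ne_zero q F hy, ordT_of_ne_zero q F (mul_ne_zero hx hy),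
    ← WithTop.coe_add, ← helper33.ord_mul]
  congr 2
  ext
  rfl

omit [FiniteDimensional ℚ_[q] F] in
lemma ordT_one : ordT q F 1 = 0 := by
  rw [ordT_of_ne_zero q F one_ne_zero]
  have : Units.mk0 (1 : F) one_ne_zero = 1 := by ext; rfl
  rw [this]
  simp [ord]

lemma ordT_pow (x : F) (n : ℕ) : ordT q F (x ^ n) = n • ordT q F x := by
  induction n with
  | zero => simp [ordT_one]
  | succ n ih => rw [pow_succ, ordT_mul, ih, succ_nsmul]

lemma ordT_neg_one : ordT q F (-1) = 0 := by
  have h : ordT q F ((-1) * (-1)) = 0 := by simp [ordT_one]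
  rw [ordT_mul, ordT_of_ne_zero q F (neg_ne_zero.mpr one_ne_zero)] at h
  rw [ordT_of_ne_zero q F (neg_ne_zero.mpr one_ne_zero)]
  have h2 : ord q F (Units.mk0 (-1 : F) (neg_ne_zero.mpr one_ne_zero)) +
      ord q F (Units.mk0 (-1 : F) (neg_ne_zero.mpr one_ne_zero)) = 0 := by
    exact_mod_cast h
  have : ord q F (Units.mk0 (-1 : F) (neg_ne_zero.mpr one_ne_zero)) = 0 := by omega
  rw [this]; rfl

lemma ordT_neg (x : F) : ordT q F (-x) = ordT q F x := by
  rw [← neg_one_mul, ordT_mul, ordT_neg_one, zero_add]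

lemma ordT_sub_comm (x y : F) : ordT q F (x - y) = ordT q F (y - x) := by
  rw [← ordT_neg, neg_sub]

lemma ordT_inv {x : F} (hx : x ≠ 0) : ordT q F x + ordT q F x⁻¹ = 0 := by
  rw [← ordT_mul, mul_inv_cancel₀ hx, ordT_one]

/-- `ordT (q : F) = edeg`. -/
lemma ordT_q : ordT q F (q : F) = ((edeg q F : ℤ) : WithTop ℤ) := by
  have hq : (q : F) ≠ 0 := by
    have : (algebraMap ℚ_[q] F) (q : ℚ_[q]) ≠ 0 := by
      rw [Ne, map_eq_zero]
      exact_mod_cast (Fact.out : q.Prime).ne_zero
    simpa using this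
  rw [ordT_of_ne_zero q F hq, helper33.edeg_cast]
  congr 2
  ext
  simp [helper33.qUnit]

lemma ordT_q_pos : 0 < ordT q F (q : F) := by
  rw [ordT_q]
  have := helper33.edeg_pos q F
  exact_mod_cast this

variable [hA : Fact (HypAdd q)]

lemma ordT_add_ge (x y : F) : min (ordT q F x) (ordT q F y) ≤ ordT q F (x + y) :=
  hA.out F x y

lemma ordT_sub_ge (x y : F) : min (ordT q F x) (ordT q F y) ≤ ordT q F (x - y) := by
  have := ordT_add_ge q F x (-y)
  rwa [ordT_neg, ← sub_eq_add_neg] at this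

lemma ordT_add_nonneg {x y : F} (hx : 0 ≤ ordT q F x) (hy : 0 ≤ ordT q F y) :
    0 ≤ ordT q F (x + y) := le_trans (le_min hx hy) (ordT_add_ge q F x y)

lemma ordT_add_pos {x y : F} (hx : 0 < ordT q F x) (hy : 0 < ordT q F y) :
    0 < ordT q F (x + y) := lt_of_lt_of_le (lt_min hx hy) (ordT_add_ge q F x y)

lemma ordT_sub_pos {x y : F} (hx : 0 < ordT q F x) (hy : 0 < ordT q F y) :
    0 < ordT q F (x - y) := lt_of_lt_of_le (lt_min hx hy) (ordT_sub_ge q F x y)

/-- The valuation ring `𝒪_F = {x | 0 ≤ ordT x}`. -/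
def Oq : Subring F where
  carrier := {x | 0 ≤ ordT q F x}
  mul_mem' := by
    intro a b ha hb
    change 0 ≤ ordT q F (a * b)
    rw [ordT_mul]
    exact add_nonneg ha hb
  one_mem' := by simp [ordT_one]
  add_mem' := by
    intro a b ha hb
    exact ordT_add_nonneg q F ha hb
  zero_mem' := by simp [ordT_zero]
  neg_mem' := by
    intro a ha
    change 0 ≤ ordT q F (-a)
    rwa [ordT_neg]

lemma mem_Oq {x : F} : x ∈ Oq q F ↔ 0 ≤ ordT q F x := Iff.rfl

/-- The maximal ideal `𝔪_F = {x | 0 < ordT x}`. -/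
def Mq : Ideal (Oq q F) where
  carrier := {x | 0 < ordT q F (x : F)}
  add_mem' := by
    intro a b ha hb
    exact ordT_add_pos q F ha hb
  zero_mem' := by simp [ordT_zero]
  smul_mem' := by
    intro c x hx
    change 0 < ordT q F ((c : F) * (x : F))
    rw [ordT_mul]
    exact lt_of_lt_of_le hx (le_add_of_nonneg_left c.2)

lemma mem_Mq {x : Oq q F} : x ∈ Mq q F ↔ 0 < ordT q F (x : F) := Iff.rfl

instance Mq_isMaximal : (Mq q F).IsMaximal := by
  rw [Ideal.isMaximal_iff]
  refine ⟨?_, ?_⟩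
  · rw [mem_Mq]
    simp [ordT_one]
  · intro J x _ hx hxJ
    have hx0 : ordT q F (x : F) = 0 := by
      rw [mem_Mq, not_lt] at hx
      exact le_antisymm hx x.2
    have hxne : (x : F) ≠ 0 := by
      intro h
      rw [h, ordT_zero] at hx0
      exact WithTop.top_ne_zero hx0
    have hinv : 0 ≤ ordT q F (x : F)⁻¹ := by
      have := ordT_inv q F hxne
      rw [hx0, zero_add] at this
      exact this.ge
    have : (1 : Oq q F) = ⟨(x : F)⁻¹, hinv⟩ * x := by
      ext
      simp [hxne]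
    rw [this]
    exact J.mul_mem_left _ hxJ

/-- The residue field `k_F = 𝒪_F / 𝔪_F`. -/
abbrev kq : Type := Oq q F ⧸ Mq q F

noncomputable instance kq_field : Field (kq q F) := Ideal.Quotient.field (Mq q F)

/-- The reduction map `𝒪_F → k_F`. -/
def res : Oq q F →+* kq q F := Ideal.Quotient.mk (Mq q F)

lemma res_surjective : Function.Surjective (res q F) := Ideal.Quotient.mk_surjective

lemma res_eq_iff {x y : Oq q F} : res q F x = res q F y ↔ 0 < ordT q F ((x : F) - (y : F)) := by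
  rw [res, Ideal.Quotient.eq, mem_Mq]
  rfl

lemma res_eq_zero_iff {x : Oq q F} : res q F x = 0 ↔ 0 < ordT q F (x : F) := by
  rw [res, Ideal.Quotient.eq_zero_iff_mem, mem_Mq]

instance kq_charP : CharP (kq q F) q := by
  rw [CharP.charP_iff_prime_eq_zero (Fact.out : q.Prime)]
  have : ((q : Oq q F) : kq q F) = res q F (q : Oq q F) := rfl
  rw [← map_natCast (res q F), res_eq_zero_iff]
  simpa using ordT_q_pos q F

/-- integers prime to `q` are units -/
lemma res_natCast_ne_zero {N : ℕ} (hN : ¬ q ∣ N) : (N : kq q F) ≠ 0 := by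
  rw [Ne, CharP.cast_eq_zero_iff (kq q F) q]
  exact hN

omit hA in
lemma ordT_eq_zero_of_pow_eq_one {N : ℕ} (hN : N ≠ 0) {η : F} (h : η ^ N = 1) :
    ordT q F η = 0 := by
  have hη : η ≠ 0 := by
    rintro rfl
    rw [zero_pow hN] at h
    exact zero_ne_one h
  have h1 : ordT q F (η ^ N) = 0 := by rw [h, ordT_one]
  rw [ordT_pow, ordT_of_ne_zero q F hη] at h1
  rw [ordT_of_ne_zero q F hη]
  have h2 : ((N • ord q F (Units.mk0 η hη) : ℤ) : WithTop ℤ) = 0 := by
    rw [← h1]; push_cast; rfl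
  have h3 : N • ord q F (Units.mk0 η hη) = 0 := by exact_mod_cast h2
  have h4 : ord q F (Units.mk0 η hη) = 0 := by
    rcases smul_eq_zero.mp h3 with h | h
    · exact absurd h hN
    · exact h
  rw [h4]; rfl

/-- **Incongruence of roots of unity of order prime to `q`.** -/
theorem eq_of_pow_eq_one_of_ordT_sub_pos {N : ℕ} (hN : ¬ q ∣ N) {η₁ η₂ : F}
    (h1 : η₁ ^ N = 1) (h2 : η₂ ^ N = 1) (h : 0 < ordT q F (η₁ - η₂)) : η₁ = η₂ := by
  have hN0 : N ≠ 0 := by
    rintro rfl
    exact hN (dvd_zero q)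
  by_contra hne
  have hs : ∑ i ∈ Finset.range N, η₁ ^ i * η₂ ^ (N - 1 - i) = 0 := by
    have := geom_sum₂_mul η₁ η₂ N
    rw [h1, h2, sub_self] at this
    rcases mul_eq_zero.mp this with h | h
    · exact h
    · exact absurd (sub_eq_zero.mp h) hne
  let a₁ : Oq q F := ⟨η₁, (ordT_eq_zero_of_pow_eq_one q F hN0 h1).ge⟩
  let a₂ : Oq q F := ⟨η₂, (ordT_eq_zero_of_pow_eq_one q F hN0 h2).ge⟩
  have hr : res q F a₁ = res q F a₂ := (res_eq_iff q F).mpr h
  have hs' : ∑ i ∈ Finset.range N, a₁ ^ i * a₂ ^ (N - 1 - i) = 0 := by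
    ext
    simpa using hs
  have hs'' := congrArg (res q F) hs'
  rw [map_sum, map_zero] at hs''
  have hterm : ∀ i ∈ Finset.range N,
      res q F (a₁ ^ i * a₂ ^ (N - 1 - i)) = (res q F a₂) ^ (N - 1) := by
    intro i hi
    rw [map_mul, map_pow, map_pow, hr, ← pow_add]
    congr 1
    have := Finset.mem_range.mp hi
    omega
  rw [Finset.sum_congr rfl hterm, Finset.sum_const, Finset.card_range, nsmul_eq_mul] at hs''
  have hr2 : (res q F a₂) ^ N = 1 := by
    rw [← map_pow]
    have : a₂ ^ N = 1 := by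
      ext
      simpa using h2
    rw [this, map_one]
  have hr0 : res q F a₂ ≠ 0 := by
    intro h0
    rw [h0, zero_pow hN0] at hr2
    exact zero_ne_one hr2
  rcases mul_eq_zero.mp hs'' with h | h
  · exact res_natCast_ne_zero q F hN h
  · exact pow_ne_zero _ hr0 h

variable [hR : Fact (HypReps q)]

lemma exists_reps_bijective :
    ∃ S : Finset F, S.card = q ^ fdeg q F ∧ ∃ f : S → kq q F, Function.Bijective f := by
  obtain ⟨S, hcard, hint, huniq⟩ := hR.out F
  refine ⟨S, hcard, fun s => res q F ⟨s.1, hint s.1 s.2⟩, ?_, ?_⟩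
  · intro s t hst
    have h := (res_eq_iff q F).mp hst
    obtain ⟨u, _, hu⟩ := huniq s.1 (hint s.1 s.2)
    have h1 := hu s.1 ⟨s.2, by simp [ordT_zero]⟩
    have h2 := hu t.1 ⟨t.2, h⟩
    exact Subtype.ext (h1.trans h2.symm)
  · intro c
    obtain ⟨x, rfl⟩ := res_surjective q F c
    obtain ⟨s, ⟨hs, hxs⟩, _⟩ := huniq x.1 x.2
    refine ⟨⟨s, hs⟩, ?_⟩
    rw [res_eq_iff, ordT_sub_comm]
    exact hxs

instance kq_finite : Finite (kq q F) := by
  obtain ⟨S, -, f, hf⟩ := exists_reps_bijective q F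
  exact Finite.of_surjective f hf.surjective

/-- The residue field has `q ^ f` elements. -/
theorem card_kq : Nat.card (kq q F) = q ^ fdeg q F := by
  obtain ⟨S, hcard, f, hf⟩ := exists_reps_bijective q F
  rw [← Nat.card_eq_of_bijective f hf, Nat.card_eq_fintype_card, Fintype.card_coe, hcard]

end abs

end Fermat.Agent.S55.helper7
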