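import Mathlib
import Fermat.Agent.S55.helper7_LocVal

/-!
# S55 / LOC-2a (helper7): residue fields in a finite extension `E/K` of `q`-adic fields

* `resMap q K E : k_K →+* k_E`, and the elements of `k_E` fixed by `x ↦ x ^ (q ^ f_K)` come
  from `k_K` (`exists_resMap_eq`);
* `resAut q K E σ : k_E →+* k_E` for `σ ∈ Aut_K(E)`;
* **`exists_pow_of_algEquiv`**: if `ζ ^ (Q ^ n - 1) = 1`, `Q = q ^ f_K`, then `σ ζ = ζ ^ (Q ^ j)`
  for some `j < n`;
* `succ_le_card_of_primitiveRoot`: a primitive `N`-th root of unity (`q ∤ N`) forces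
  `N + 1 ≤ q ^ f_E`.
-/

set_option autoImplicit false

namespace Fermat.Agent.S55.helper7

open Fermat.Agent.S55.helper8 Polynomial

/-- Cyclic shift of a product. -/
lemma prod_range_shift {M : Type*} [CommRing M] [IsDomain M] (f : ℕ → M) (n : ℕ)
    (h0 : f 0 ≠ 0) (hn : f n = f 0) :
    ∏ j ∈ Finset.range n, f (j + 1) = ∏ j ∈ Finset.range n, f j := by
  have h1 := Finset.prod_range_succ' f n
  have h2 := Finset.prod_range_succ f n
  rw [h1, hn] at h2
  exact mul_right_cancel₀ h0 h2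

lemma ne_zero_of_not_dvd (q : ℕ) {N : ℕ} (hN : ¬ q ∣ N) : N ≠ 0 := by
  rintro rfl
  exact hN (dvd_zero q)

variable (q : ℕ) [Fact q.Prime] [hA : Fact (HypAdd q)]

section rel

variable (K : Type) [Field K] [Algebra ℚ_[q] K] [FiniteDimensional ℚ_[q] K]
variable (E : Type) [Field E] [Algebra ℚ_[q] E] [Algebra K E] [IsScalarTower ℚ_[q] K E]
  [FiniteDimensional K E] [FiniteDimensional ℚ_[q] E]

omit hA [FiniteDimensional ℚ_[q] E] in
lemma relE_pos : 0 < relE q K E := by
  have h := helper33.relE_mul_relF q K E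
  have h2 : 0 < Module.finrank K E := Module.finrank_pos
  rw [← h] at h2
  exact Nat.pos_of_mul_pos_right h2

omit hA [FiniteDimensional ℚ_[q] E] in
lemma ordT_algebraMap_of_ne_zero {x : K} (hx : x ≠ 0) :
    ordT q E (algebraMap K E x) = (((relE q K E : ℤ) * ord q K (Units.mk0 x hx) : ℤ) : WithTop ℤ) := by
  have hx' : algebraMap K E x ≠ 0 := by
    rwa [Ne, map_eq_zero]
  rw [ordT_of_ne_zero q E hx', ← helper33.ord_algebraMap q K E]
  congr 2
  ext
  rfl

omit hA [FiniteDimensional ℚ_[q] E] in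
lemma ordT_algebraMap_nonneg_iff (x : K) :
    0 ≤ ordT q E (algebraMap K E x) ↔ 0 ≤ ordT q K x := by
  by_cases hx : x = 0
  · subst hx
    simp [ordT_zero]
  · rw [ordT_algebraMap_of_ne_zero q K E hx, ordT_of_ne_zero q K hx]
    have h := relE_pos q K E
    have h' : (0 : ℤ) < (relE q K E : ℤ) := by exact_mod_cast h
    rw [WithTop.coe_nonneg, WithTop.coe_nonneg]
    exact ⟨fun h1 => nonneg_of_mul_nonneg_right h1 h', fun h1 => mul_nonneg h'.le h1⟩

omit hA [FiniteDimensional ℚ_[q] E] in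
lemma ordT_algebraMap_pos_iff (x : K) :
    0 < ordT q E (algebraMap K E x) ↔ 0 < ordT q K x := by
  by_cases hx : x = 0
  · subst hx
    simp [ordT_zero]
  · rw [ordT_algebraMap_of_ne_zero q K E hx, ordT_of_ne_zero q K hx]
    have h := relE_pos q K E
    have h' : (0 : ℤ) < (relE q K E : ℤ) := by exact_mod_cast h
    rw [WithTop.coe_pos, WithTop.coe_pos]
    exact ⟨fun h1 => pos_of_mul_pos_right h1 h'.le, fun h1 => mul_pos h' h1⟩

omit [FiniteDimensional ℚ_[q] E] hA in
lemma ordT_algEquiv (σ : E ≃ₐ[K] E) (x : E) : ordT q E (σ x) = ordT q E x := by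
  by_cases hx : x = 0
  · subst hx
    simp
  · have hx' : σ x ≠ 0 := by
      rwa [Ne, map_eq_zero_iff σ σ.injective]
    rw [ordT_of_ne_zero q E hx', ordT_of_ne_zero q E hx,
      ← helper33.ord_algEquiv q K E σ (Units.mk0 x hx)]
    congr 2
    ext
    rfl

/-- The inclusion `𝒪_K → 𝒪_E`. -/
def intMap : Oq q K →+* Oq q E :=
  (algebraMap K E).restrict (Oq q K) (Oq q E)
    (fun x hx => (ordT_algebraMap_nonneg_iff q K E x).mpr hx)

@[simp] lemma intMap_coe (x : Oq q K) : ((intMap q K E x : Oq q E) : E) = algebraMap K E (x : K) := rfl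

/-- The inclusion of residue fields `k_K → k_E`. -/
def resMap : kq q K →+* kq q E :=
  Ideal.quotientMap (Mq q E) (intMap q K E) (by
    intro x hx
    rw [Ideal.mem_comap, mem_Mq, intMap_coe]
    exact (ordT_algebraMap_pos_iff q K E x).mpr hx)

lemma resMap_res (x : Oq q K) : resMap q K E (res q K x) = res q E (intMap q K E x) := by
  simp [resMap, res]

/-- The automorphism of `𝒪_E` induced by `σ ∈ Aut_K(E)`. -/
def intAut (σ : E ≃ₐ[K] E) : Oq q E →+* Oq q E :=
  (σ : E →+* E).restrict (Oq q E) (Oq q E)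
    (fun x hx => by
      change 0 ≤ ordT q E (σ x)
      rw [ordT_algEquiv]
      exact hx)

@[simp] lemma intAut_coe (σ : E ≃ₐ[K] E) (x : Oq q E) :
    ((intAut q K E σ x : Oq q E) : E) = σ (x : E) := rfl

/-- The endomorphism of the residue field induced by `σ ∈ Aut_K(E)`. -/
def resAut (σ : E ≃ₐ[K] E) : kq q E →+* kq q E :=
  Ideal.quotientMap (Mq q E) (intAut q K E σ) (by
    intro x hx
    rw [Ideal.mem_comap, mem_Mq, intAut_coe, ordT_algEquiv]
    exact hx)

lemma resAut_res (σ : E ≃ₐ[K] E) (x : Oq q E) :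
    resAut q K E σ (res q E x) = res q E (intAut q K E σ x) := by
  simp [resAut, res]

lemma resAut_resMap (σ : E ≃ₐ[K] E) (a : kq q K) :
    resAut q K E σ (resMap q K E a) = resMap q K E a := by
  obtain ⟨x, rfl⟩ := res_surjective q K a
  rw [resMap_res, resAut_res]
  congr 1
  ext
  simp

variable [hR : Fact (HypReps q)]

omit hA hR in
lemma not_dvd_pow_sub_one {n : ℕ} (hn : 0 < n) : ¬ q ∣ (q ^ fdeg q K) ^ n - 1 := by
  intro h
  have h1 : q ∣ (q ^ fdeg q K) ^ n :=
    dvd_pow (dvd_pow_self q (helper33.fdeg_pos q K).ne') hn.ne'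
  have h2 : 1 ≤ (q ^ fdeg q K) ^ n := Nat.one_le_pow _ _ (pow_pos (Fact.out : q.Prime).pos _)
  have h3 : q ∣ (q ^ fdeg q K) ^ n - ((q ^ fdeg q K) ^ n - 1) := Nat.dvd_sub h1 h
  have h4 : (q ^ fdeg q K) ^ n - ((q ^ fdeg q K) ^ n - 1) = 1 := by omega
  rw [h4] at h3
  exact (Fact.out : q.Prime).one_lt.ne' (Nat.dvd_one.mp h3)

/-- The elements of `k_E` fixed by the `q ^ f_K`-power map come from `k_K`. -/
theorem exists_resMap_eq {c : kq q E} (hc : c ^ (q ^ fdeg q K) = c) :
    ∃ a : kq q K, resMap q K E a = c := by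
  classical
  let _ : Fintype (kq q K) := Fintype.ofFinite _
  have hcard : Fintype.card (kq q K) = q ^ fdeg q K := by
    rw [← Nat.card_eq_fintype_card, card_kq]
  have hQ1 : 1 < q ^ fdeg q K :=
    Nat.one_lt_pow (helper33.fdeg_pos q K).ne' (Fact.out : q.Prime).one_lt
  have hp0 : (X ^ (q ^ fdeg q K) - X : (kq q E)[X]) ≠ 0 :=
    FiniteField.X_pow_card_sub_X_ne_zero _ hQ1
  have hpdeg : (X ^ (q ^ fdeg q K) - X : (kq q E)[X]).natDegree = q ^ fdeg q K :=
    FiniteField.X_pow_card_sub_X_natDegree_eq _ hQ1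
  have hT : (Finset.univ.image (resMap q K E)).card = q ^ fdeg q K := by
    rw [Finset.card_image_of_injective _ (resMap q K E).injective, Finset.card_univ, hcard]
  have hsub : Finset.univ.image (resMap q K E) ⊆
      (X ^ (q ^ fdeg q K) - X : (kq q E)[X]).roots.toFinset := by
    intro t ht
    obtain ⟨a, -, rfl⟩ := Finset.mem_image.mp ht
    rw [Multiset.mem_toFinset, mem_roots hp0, IsRoot.def]
    simp only [eval_sub, eval_pow, eval_X]
    rw [← map_pow, ← hcard, FiniteField.pow_card, sub_self]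
  have hle : (X ^ (q ^ fdeg q K) - X : (kq q E)[X]).roots.toFinset.card ≤
      (Finset.univ.image (resMap q K E)).card := by
    rw [hT]
    calc (X ^ (q ^ fdeg q K) - X : (kq q E)[X]).roots.toFinset.card
        ≤ (X ^ (q ^ fdeg q K) - X : (kq q E)[X]).roots.card := Multiset.toFinset_card_le _
      _ ≤ (X ^ (q ^ fdeg q K) - X : (kq q E)[X]).natDegree := card_roots' _
      _ = q ^ fdeg q K := hpdeg
  have heq := Finset.eq_of_subset_of_card_le hsub hle
  have hcmem : c ∈ (X ^ (q ^ fdeg q K) - X : (kq q E)[X]).roots.toFinset := by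
    rw [Multiset.mem_toFinset, mem_roots hp0, IsRoot.def]
    simp only [eval_sub, eval_pow, eval_X]
    rw [hc, sub_self]
  rw [← heq] at hcmem
  obtain ⟨a, -, ha⟩ := Finset.mem_image.mp hcmem
  exact ⟨a, ha⟩

/-- **Core lemma**: a `K`-automorphism of `E` raises a root of unity of order dividing
`Q ^ n - 1` (`Q = q ^ f_K`) to a power `Q ^ j`, `j < n`. -/
theorem exists_pow_of_algEquiv {n : ℕ} (hn : 0 < n) {ζ : E}
    (hζ : ζ ^ ((q ^ fdeg q K) ^ n - 1) = 1) (σ : E ≃ₐ[K] E) :
    ∃ j, j < n ∧ σ ζ = ζ ^ ((q ^ fdeg q K) ^ j) := by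
  classical
  have hNq : ¬ q ∣ (q ^ fdeg q K) ^ n - 1 := not_dvd_pow_sub_one q K hn
  have hN0 : (q ^ fdeg q K) ^ n - 1 ≠ 0 := by
    intro h
    rw [h] at hNq
    exact hNq (dvd_zero q)
  have hQn : 1 ≤ (q ^ fdeg q K) ^ n := Nat.one_le_pow _ _ (pow_pos (Fact.out : q.Prime).pos _)
  -- the integral element `ζ` and its residue class `z`
  let ζO : Oq q E := ⟨ζ, (ordT_eq_zero_of_pow_eq_one q E hN0 hζ).ge⟩
  have hζO : ζO ^ ((q ^ fdeg q K) ^ n - 1) = 1 := by
    ext
    simpa using hζ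
  set z : kq q E := res q E ζO with hz
  have hzN : z ^ ((q ^ fdeg q K) ^ n - 1) = 1 := by
    rw [hz, ← map_pow, hζO, map_one]
  have hzQn : z ^ ((q ^ fdeg q K) ^ n) = z := by
    have : (q ^ fdeg q K) ^ n = ((q ^ fdeg q K) ^ n - 1) + 1 := by omega
    rw [this, pow_succ, hzN, one_mul]
  -- the polynomial `g = ∏ (X - z ^ (Q ^ j))`
  set g : (kq q E)[X] := ∏ j ∈ Finset.range n, (X - C (z ^ ((q ^ fdeg q K) ^ j))) with hg
  -- `g` is invariant under the `Q`-power Frobenius
  have hfrob : ∀ i, (g.coeff i) ^ (q ^ fdeg q K) = g.coeff i := by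
    have hmap : g.map (iterateFrobenius (kq q E) q (fdeg q K)) = g := by
      rw [hg, Polynomial.map_prod]
      have : ∀ j ∈ Finset.range n,
          (X - C (z ^ ((q ^ fdeg q K) ^ j))).map (iterateFrobenius (kq q E) q (fdeg q K)) =
            X - C (z ^ ((q ^ fdeg q K) ^ (j + 1))) := by
        intro j _
        rw [Polynomial.map_sub, Polynomial.map_X, Polynomial.map_C, iterateFrobenius_def,
          ← pow_mul, ← pow_succ]
      rw [Finset.prod_congr rfl this]
      refine prod_range_shift (fun j => X - C (z ^ ((q ^ fdeg q K) ^ j))) n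
        (X_sub_C_ne_zero _) ?_
      simp only [pow_zero, pow_one]
      rw [hzQn]
    intro i
    have := congrArg (fun p => p.coeff i) hmap
    simp only [coeff_map, iterateFrobenius_def] at this
    exact this
  -- hence `g` has coefficients in `k_K` and is `σ`-invariant
  have hσ : g.map (resAut q K E σ) = g := by
    ext i
    rw [coeff_map]
    obtain ⟨a, ha⟩ := exists_resMap_eq q K E (hfrob i)
    rw [← ha, resAut_resMap]
  -- `z` is a root of `g`
  have hroot : g.eval z = 0 := by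
    rw [hg, eval_prod]
    refine Finset.prod_eq_zero (Finset.mem_range.mpr hn) ?_
    simp
  -- so `σ z` is a root of `g`
  have hroot' : g.eval (resAut q K E σ z) = 0 := by
    have h1 : (g.map (resAut q K E σ)).eval (resAut q K E σ z) = resAut q K E σ (g.eval z) := by
      rw [eval_map, eval₂_hom]
    rw [hσ, hroot, map_zero] at h1
    exact h1
  rw [hg, eval_prod, Finset.prod_eq_zero_iff] at hroot'
  obtain ⟨j, hj, hj0⟩ := hroot'
  refine ⟨j, Finset.mem_range.mp hj, ?_⟩
  simp only [eval_sub, eval_X, eval_C] at hj0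
  have hj1 : res q E (intAut q K E σ ζO) = res q E (ζO ^ ((q ^ fdeg q K) ^ j)) := by
    rw [← resAut_res, map_pow]
    exact sub_eq_zero.mp hj0
  have hj2 := (res_eq_iff q E).mp hj1
  refine eq_of_pow_eq_one_of_ordT_sub_pos q E hNq ?_ ?_ hj2
  · rw [← map_pow, hζ, map_one]
  · rw [← pow_mul, mul_comm, pow_mul, hζ, one_pow]

end rel

section count

variable (F : Type) [Field F] [Algebra ℚ_[q] F] [FiniteDimensional ℚ_[q] F]
variable [hR : Fact (HypReps q)]

/-- The map `none ↦ 0`, `some i ↦ ζ ^ i mod 𝔪`. -/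
noncomputable def teichMap {N : ℕ} (hN : N ≠ 0) {ζ : F} (hζ : ζ ^ N = 1) :
    Option (Fin N) → kq q F
  | none => 0
  | some i => res q F ⟨ζ ^ (i : ℕ), by
      change 0 ≤ ordT q F (ζ ^ (i : ℕ))
      rw [ordT_pow, ordT_eq_zero_of_pow_eq_one q F hN hζ, smul_zero]⟩

omit hR in
lemma teichMap_injective {N : ℕ} (hN : ¬ q ∣ N) {ζ : F} (hζ : IsPrimitiveRoot ζ N) :
    Function.Injective
      (teichMap q F (ne_zero_of_not_dvd q hN) hζ.pow_eq_one) := by
  have hN0 : N ≠ 0 := ne_zero_of_not_dvd q hN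
  have hpow : ∀ i : ℕ, (ζ ^ i) ^ N = 1 := fun i => by
    rw [← pow_mul, mul_comm, pow_mul, hζ.pow_eq_one, one_pow]
  have hne : ∀ i : Fin N, teichMap q F hN0 hζ.pow_eq_one (some i) ≠ 0 := by
    intro i h
    rw [teichMap, res_eq_zero_iff] at h
    change 0 < ordT q F (ζ ^ (i : ℕ)) at h
    rw [ordT_eq_zero_of_pow_eq_one q F hN0 (hpow i)] at h
    exact lt_irrefl _ h
  intro a b hab
  rcases a with _ | i <;> rcases b with _ | j
  · rfl
  · exact absurd hab.symm (hne j)
  · exact absurd hab (hne i)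
  · rw [teichMap, teichMap, res_eq_iff] at hab
    have := eq_of_pow_eq_one_of_ordT_sub_pos q F hN (hpow i) (hpow j) hab
    have h2 := hζ.pow_inj i.2 j.2 this
    exact congrArg some (Fin.ext h2)

/-- A primitive `N`-th root of unity with `q ∤ N` forces `N + 1 ≤ q ^ f`. -/
theorem succ_le_card_of_primitiveRoot {N : ℕ} (hN : ¬ q ∣ N) {ζ : F}
    (hζ : IsPrimitiveRoot ζ N) : N + 1 ≤ q ^ fdeg q F := by
  have h := Nat.card_le_card_of_injective _ (teichMap_injective q F hN hζ)
  rw [card_kq, Nat.card_eq_fintype_card, Fintype.card_option, Fintype.card_fin] at h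
  exact h

/-- If moreover `N + 1 = q ^ f`, every residue class is `0` or the class of a power of `ζ`. -/
theorem teichMap_bijective {N : ℕ} (hN : ¬ q ∣ N) {ζ : F}
    (hζ : IsPrimitiveRoot ζ N) (hcard : N + 1 = q ^ fdeg q F) :
    Function.Bijective
      (teichMap q F (ne_zero_of_not_dvd q hN) hζ.pow_eq_one) := by
  refine (teichMap_injective q F hN hζ).bijective_of_nat_card_le ?_
  rw [card_kq, Nat.card_eq_fintype_card, Fintype.card_option, Fintype.card_fin, hcard]

end count

end Fermat.Agent.S55.helper7
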