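import Mathlib
import Fermat.Agent.S55.helper7_LocRes

/-!
# S55 / LOC-2a (helper7): unramified extensions of `q`-adic fields (conditional form)

The three LOC-2a statements (`exists_unram`, `isGalois_of_isUnram`, `exists_frob_of_isUnram`),
proved from the LOC-0 interface; the LOC-0a/0b inputs that are not yet on main enter as the
hypotheses `HypAdd q`, `HypReps q`, `HypHensel q` (verbatim interface statements).
-/

set_option autoImplicit false

namespace Fermat.Agent.S55.helper7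

open Fermat.Agent.S55.helper8 Polynomial IntermediateField

variable (q : ℕ) [Fact q.Prime] [hA : Fact (HypAdd q)] [hR : Fact (HypReps q)]

section degree

variable (K : Type) [Field K] [Algebra ℚ_[q] K] [FiniteDimensional ℚ_[q] K]
variable (E : Type) [Field E] [Algebra ℚ_[q] E] [Algebra K E] [IsScalarTower ℚ_[q] K E]
  [FiniteDimensional K E] [FiniteDimensional ℚ_[q] E]

omit hA hR [Fact q.Prime] [Algebra ℚ_[q] K] [FiniteDimensional ℚ_[q] K] [Algebra ℚ_[q] E]
  [IsScalarTower ℚ_[q] K E] [FiniteDimensional K E] [FiniteDimensional ℚ_[q] E] in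
lemma algEquiv_ext_of_adjoin {ζ : E} (htop : Algebra.adjoin K {ζ} = ⊤) (σ τ : E ≃ₐ[K] E)
    (h : σ ζ = τ ζ) : σ = τ := by
  have h1 : (σ : E →ₐ[K] E) = (τ : E →ₐ[K] E) := by
    refine AlgHom.ext_of_adjoin_eq_top htop ?_
    intro x hx
    rw [Set.mem_singleton_iff] at hx
    subst hx
    exact h
  ext x
  exact congrArg (fun f : E →ₐ[K] E => f x) h1

/-- **Degree lemma**: if `E = K(ζ)` with `ζ` a primitive `(Q ^ n - 1)`-th root of unity,
`Q = q ^ f_K`, then `E/K` is Galois of degree `n` and unramified. -/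
theorem unram_of_primitiveRoot {n : ℕ} (hn : 0 < n) {ζ : E}
    (hζ : IsPrimitiveRoot ζ ((q ^ fdeg q K) ^ n - 1)) (htop : Algebra.adjoin K {ζ} = ⊤) :
    IsGalois K E ∧ Module.finrank K E = n ∧ relE q K E = 1 ∧ relF q K E = n := by
  have hNq := not_dvd_pow_sub_one q K hn
  have hN0 := ne_zero_of_not_dvd q hNq
  have : NeZero ((q ^ fdeg q K) ^ n - 1) := ⟨hN0⟩
  have : IsCyclotomicExtension {(q ^ fdeg q K) ^ n - 1} K E := by
    rw [IsCyclotomicExtension.iff_singleton]
    refine ⟨⟨ζ, hζ⟩, fun x => ?_⟩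
    have hle : Algebra.adjoin K {ζ} ≤
        Algebra.adjoin K {b : E | b ^ ((q ^ fdeg q K) ^ n - 1) = 1} := by
      refine Algebra.adjoin_mono ?_
      intro b hb
      rw [Set.mem_singleton_iff] at hb
      subst hb
      exact hζ.pow_eq_one
    exact hle (htop ▸ Algebra.mem_top)
  have hgal : IsGalois K E := IsCyclotomicExtension.isGalois {(q ^ fdeg q K) ^ n - 1} K E
  choose j hj hσ using fun σ : E ≃ₐ[K] E => exists_pow_of_algEquiv q K E hn hζ.pow_eq_one σ
  have hinj : Function.Injective (fun σ : E ≃ₐ[K] E => (⟨j σ, hj σ⟩ : Fin n)) := by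
    intro σ τ h
    have hjj : j σ = j τ := congrArg Fin.val h
    apply algEquiv_ext_of_adjoin K E htop
    rw [hσ σ, hσ τ, hjj]
  have hcard : Module.finrank K E ≤ n := by
    rw [← IsGalois.card_aut_eq_finrank K E]
    have := Nat.card_le_card_of_injective _ hinj
    simpa using this
  have hcount := succ_le_card_of_primitiveRoot q E hNq hζ
  have hQn : 1 ≤ (q ^ fdeg q K) ^ n := Nat.one_le_pow _ _ (pow_pos (Fact.out : q.Prime).pos _)
  have hf : fdeg q K * n ≤ fdeg q E := by
    have h1 : (q ^ fdeg q K) ^ n - 1 + 1 = q ^ (fdeg q K * n) := by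
      rw [pow_mul]
      omega
    rw [h1] at hcount
    exact (Nat.pow_le_pow_iff_right (Fact.out : q.Prime).one_lt).mp hcount
  have hfK := helper33.fdeg_pos q K
  have hrelF : n ≤ relF q K E := by
    rw [helper33.fdeg_eq_relF_mul q K E, mul_comm (relF q K E)] at hf
    exact Nat.le_of_mul_le_mul_left hf hfK
  have hmul := helper33.relE_mul_relF q K E
  have hEpos := relE_pos q K E
  have hE1 : relE q K E = 1 := by
    have h2 : relE q K E * relF q K E ≤ 1 * relF q K E := by
      rw [hmul, one_mul]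
      exact hcard.trans hrelF
    have h3 : 0 < relF q K E := lt_of_lt_of_le hn hrelF
    have := Nat.le_of_mul_le_mul_right h2 h3
    omega
  rw [hE1, one_mul] at hmul
  refine ⟨hgal, ?_, hE1, ?_⟩
  · omega
  · omega

end degree

section existence

variable (K : Type) [Field K] [Algebra ℚ_[q] K] [FiniteDimensional ℚ_[q] K]

/-- **LOC-2a, existence** (conditional on `HypAdd`, `HypReps`). -/
theorem exists_unram_of (Ω : Type) [Field Ω] [Algebra ℚ_[q] Ω] [Algebra K Ω]
    [IsScalarTower ℚ_[q] K Ω] [IsAlgClosed Ω] (n : ℕ) (hn : 0 < n) :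
    ∃ E : IntermediateField K Ω, FiniteDimensional K E ∧ IsGalois K E ∧
      Module.finrank K E = n ∧ IsUnram q K E := by
  have hNq := not_dvd_pow_sub_one q K hn
  have hN0 := ne_zero_of_not_dvd q hNq
  have : CharZero Ω := charZero_of_injective_algebraMap (algebraMap ℚ_[q] Ω).injective
  have : NeZero (((q ^ fdeg q K) ^ n - 1 : ℕ) : Ω) := ⟨by exact_mod_cast hN0⟩
  obtain ⟨ζ, hζ⟩ := HasEnoughRootsOfUnity.exists_primitiveRoot Ω ((q ^ fdeg q K) ^ n - 1)
  have hint : IsIntegral K ζ := by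
    refine IsIntegral.of_pow (Nat.pos_of_ne_zero hN0) ?_
    rw [hζ.pow_eq_one]
    exact isIntegral_one
  have hfd : FiniteDimensional K K⟮ζ⟯ := IntermediateField.adjoin.finiteDimensional hint
  have : FiniteDimensional ℚ_[q] K⟮ζ⟯ := Module.Finite.trans K K⟮ζ⟯
  have htop : Algebra.adjoin K {IntermediateField.AdjoinSimple.gen K ζ} = ⊤ := by
    have := (IntermediateField.adjoin.powerBasis hint).adjoin_gen_eq_top
    rwa [IntermediateField.adjoin.powerBasis_gen] at this
  have hζ' : IsPrimitiveRoot (IntermediateField.AdjoinSimple.gen K ζ) ((q ^ fdeg q K) ^ n - 1) := by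
    refine IsPrimitiveRoot.of_map_of_injective (f := algebraMap K⟮ζ⟯ Ω) ?_
      (algebraMap K⟮ζ⟯ Ω).injective
    exact hζ
  obtain ⟨h1, h2, h3, -⟩ := unram_of_primitiveRoot q K K⟮ζ⟯ hn hζ' htop
  exact ⟨K⟮ζ⟯, hfd, h1, h2, (helper33.isUnram_iff q K K⟮ζ⟯).mpr h3⟩

end existence

section teich

variable (F : Type) [Field F] [Algebra ℚ_[q] F] [FiniteDimensional ℚ_[q] F]
variable [hH : Fact (HypHensel q)]

omit hA hR hH in
lemma not_dvd_card_sub_one : ¬ q ∣ q ^ fdeg q F - 1 := by
  have := not_dvd_pow_sub_one q F (n := 1) one_pos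
  rwa [pow_one] at this

/-- **Teichmüller lift**: a `q`-adic field contains a primitive `(q ^ f - 1)`-th root of
unity. -/
theorem exists_primitiveRoot_card_sub_one : ∃ ζ : F, IsPrimitiveRoot ζ (q ^ fdeg q F - 1) := by
  classical
  have hNq : ¬ q ∣ q ^ fdeg q F - 1 := not_dvd_card_sub_one q F
  have hN0 : q ^ fdeg q F - 1 ≠ 0 := ne_zero_of_not_dvd q hNq
  obtain ⟨g, hg⟩ := IsCyclic.exists_generator (α := (kq q F)ˣ)
  have hord : orderOf g = q ^ fdeg q F - 1 := by
    rw [orderOf_eq_card_of_forall_mem_zpowers hg, Nat.card_units, card_kq]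
  obtain ⟨a, ha⟩ := res_surjective q F (g : kq q F)
  have ha0 : ordT q F (a : F) = 0 := by
    refine le_antisymm ?_ a.2
    rw [← not_lt, ← res_eq_zero_iff, ha]
    exact g.ne_zero
  have hNF : ordT q F (((q ^ fdeg q F - 1 : ℕ) : F)) = 0 := by
    have h1 : res q F ((q ^ fdeg q F - 1 : ℕ) : Oq q F) ≠ 0 := by
      rw [map_natCast]
      exact res_natCast_ne_zero q F hNq
    rw [Ne, res_eq_zero_iff, not_lt] at h1
    have h2 : 0 ≤ ordT q F ((((q ^ fdeg q F - 1 : ℕ) : Oq q F) : F)) :=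
      ((q ^ fdeg q F - 1 : ℕ) : Oq q F).2
    have h3 := le_antisymm h1 h2
    simpa using h3
  have hcoef : ∀ i, 0 ≤ ordT q F ((X ^ (q ^ fdeg q F - 1) - 1 : F[X]).coeff i) := by
    intro i
    rw [coeff_sub, coeff_X_pow, coeff_one]
    split_ifs
    · simp [ordT_zero]
    · simp [ordT_one]
    · rw [zero_sub, ordT_neg, ordT_one]
    · simp [ordT_zero]
  have heval : (X ^ (q ^ fdeg q F - 1) - 1 : F[X]).eval (a : F) =
      (a : F) ^ (q ^ fdeg q F - 1) - 1 := by simp
  have hder : (derivative (X ^ (q ^ fdeg q F - 1) - 1 : F[X])).eval (a : F) =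
      ((q ^ fdeg q F - 1 : ℕ) : F) * (a : F) ^ (q ^ fdeg q F - 1 - 1) := by
    rw [derivative_sub, derivative_one, sub_zero, derivative_X_pow]
    simp
  have hgpow : (g : kq q F) ^ (q ^ fdeg q F - 1) = 1 := by
    rw [← hord, ← Units.val_pow_eq_pow_val, pow_orderOf_eq_one, Units.val_one]
  have h1 : 0 < ordT q F ((a : F) ^ (q ^ fdeg q F - 1) - 1) := by
    have : res q F (a ^ (q ^ fdeg q F - 1)) = res q F 1 := by
      rw [map_pow, ha, hgpow, map_one]
    have := (res_eq_iff q F).mp this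
    simpa using this
  have hder0 : ordT q F ((derivative (X ^ (q ^ fdeg q F - 1) - 1 : F[X])).eval (a : F)) = 0 := by
    rw [hder, ordT_mul, ordT_pow, ha0, hNF, smul_zero, add_zero]
  obtain ⟨b, hb, hba⟩ := hH.out F (X ^ (q ^ fdeg q F - 1) - 1) hcoef a a.2 (by
    rw [hder0, heval, smul_zero]
    exact h1)
  rw [hder0] at hba
  have hbN : b ^ (q ^ fdeg q F - 1) = 1 := by
    have : (X ^ (q ^ fdeg q F - 1) - 1 : F[X]).eval b = b ^ (q ^ fdeg q F - 1) - 1 := by simp
    rw [this] at hb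
    exact sub_eq_zero.mp hb
  have hbint : 0 ≤ ordT q F b := (ordT_eq_zero_of_pow_eq_one q F hN0 hbN).ge
  have hbres : res q F ⟨b, hbint⟩ = (g : kq q F) := by
    rw [← ha, res_eq_iff]
    exact hba
  refine ⟨b, (IsPrimitiveRoot.iff_def b _).mpr ⟨hbN, fun l hl => ?_⟩⟩
  rw [← hord, orderOf_dvd_iff_pow_eq_one]
  apply Units.ext
  rw [Units.val_pow_eq_pow_val, Units.val_one, ← hbres, ← map_pow]
  have : (⟨b, hbint⟩ : Oq q F) ^ l = 1 := by
    ext
    simpa using hl
  rw [this, map_one]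

end teich

section unram

variable (K : Type) [Field K] [Algebra ℚ_[q] K] [FiniteDimensional ℚ_[q] K]
variable (L : Type) [Field L] [Algebra ℚ_[q] L] [Algebra K L] [IsScalarTower ℚ_[q] K L]
  [FiniteDimensional K L]
variable [hH : Fact (HypHensel q)]

omit hA hR hH in
lemma fdeg_of_isUnram (h : IsUnram q K L) :
    fdeg q L = fdeg q K * Module.finrank K L := by
  have h1 := (helper33.isUnram_iff q K L).mp h
  have h2 := helper33.relE_mul_relF q K L
  rw [h1, one_mul] at h2
  rw [helper33.fdeg_eq_relF_mul q K L, h2, mul_comm]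

/-- An unramified extension is generated by a primitive root of unity of order
`Q ^ n - 1`, `Q = q ^ f_K`, `n = [L : K]`. -/
theorem exists_primitiveRoot_of_isUnram (h : IsUnram q K L) :
    ∃ ζ : L, IsPrimitiveRoot ζ ((q ^ fdeg q K) ^ Module.finrank K L - 1) ∧
      Algebra.adjoin K {ζ} = ⊤ := by
  have : FiniteDimensional ℚ_[q] L := Module.Finite.trans K L
  have hn : 0 < Module.finrank K L := Module.finrank_pos
  obtain ⟨ζ, hζ⟩ := exists_primitiveRoot_card_sub_one q L
  rw [fdeg_of_isUnram q K L h, pow_mul] at hζ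
  refine ⟨ζ, hζ, ?_⟩
  have hint : IsIntegral K ζ := IsIntegral.of_finite K ζ
  have hfd : FiniteDimensional K K⟮ζ⟯ := IntermediateField.adjoin.finiteDimensional hint
  have : FiniteDimensional ℚ_[q] K⟮ζ⟯ := Module.Finite.trans K K⟮ζ⟯
  have htop : Algebra.adjoin K {IntermediateField.AdjoinSimple.gen K ζ} = ⊤ := by
    have := (IntermediateField.adjoin.powerBasis hint).adjoin_gen_eq_top
    rwa [IntermediateField.adjoin.powerBasis_gen] at this
  have hζ' : IsPrimitiveRoot (IntermediateField.AdjoinSimple.gen K ζ)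
      ((q ^ fdeg q K) ^ Module.finrank K L - 1) := by
    refine IsPrimitiveRoot.of_map_of_injective (f := algebraMap K⟮ζ⟯ L) ?_
      (algebraMap K⟮ζ⟯ L).injective
    exact hζ
  obtain ⟨-, h2, -, -⟩ := unram_of_primitiveRoot q K K⟮ζ⟯ hn hζ' htop
  have h3 : K⟮ζ⟯ = ⊤ :=
    IntermediateField.eq_of_le_of_finrank_eq le_top (by rw [h2, IntermediateField.finrank_top'])
  exact (IntermediateField.adjoin_simple_eq_top_iff_of_isAlgebraic hint.isAlgebraic).mp h3

/-- **LOC-2a, Galois** (conditional on `HypAdd`, `HypReps`, `HypHensel`). -/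
theorem isGalois_of_isUnram_of (h : IsUnram q K L) : IsGalois K L := by
  have : FiniteDimensional ℚ_[q] L := Module.Finite.trans K L
  obtain ⟨ζ, hζ, htop⟩ := exists_primitiveRoot_of_isUnram q K L h
  exact (unram_of_primitiveRoot q K L Module.finrank_pos hζ htop).1

omit hA hR hH [Fact q.Prime] [Algebra ℚ_[q] K] [FiniteDimensional ℚ_[q] K] [Algebra ℚ_[q] L]
  [IsScalarTower ℚ_[q] K L] [FiniteDimensional K L] in
lemma algEquiv_pow_apply_of_apply {ζ : L} {Q : ℕ} (φ : L ≃ₐ[K] L) (hφ : φ ζ = ζ ^ Q) (i : ℕ) :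
    (φ ^ i) ζ = ζ ^ (Q ^ i) := by
  induction i with
  | zero => simp
  | succ i ih =>
    rw [pow_succ', AlgEquiv.mul_apply, ih, map_pow, hφ, ← pow_mul, ← pow_succ']

/-- **LOC-2a, Frobenius** (conditional on `HypAdd`, `HypReps`, `HypHensel`). -/
theorem exists_frob_of_isUnram_of (h : IsUnram q K L) :
    ∃ φ : L ≃ₐ[K] L, IsFrob q K L φ ∧ (∀ σ : L ≃ₐ[K] L, σ ∈ Subgroup.zpowers φ) ∧
      orderOf φ = Module.finrank K L ∧ ∀ ψ : L ≃ₐ[K] L, IsFrob q K L ψ → ψ = φ := by
  classical
  have : FiniteDimensional ℚ_[q] L := Module.Finite.trans K L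
  have hn : 0 < Module.finrank K L := Module.finrank_pos
  obtain ⟨ζ, hζ, htop⟩ := exists_primitiveRoot_of_isUnram q K L h
  obtain ⟨hgal, -, -, -⟩ := unram_of_primitiveRoot q K L hn hζ htop
  have hNq := not_dvd_pow_sub_one q K hn
  have hN0 := ne_zero_of_not_dvd q hNq
  have hQn : 1 ≤ (q ^ fdeg q K) ^ Module.finrank K L :=
    Nat.one_le_pow _ _ (pow_pos (Fact.out : q.Prime).pos _)
  have hζQn : ζ ^ ((q ^ fdeg q K) ^ Module.finrank K L) = ζ := by
    have : (q ^ fdeg q K) ^ Module.finrank K L =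
        ((q ^ fdeg q K) ^ Module.finrank K L - 1) + 1 := by omega
    rw [this, pow_succ, hζ.pow_eq_one, one_mul]
  -- the bijection `Gal → Fin n`
  choose j hj hσ using fun σ : L ≃ₐ[K] L =>
    exists_pow_of_algEquiv q K L hn hζ.pow_eq_one σ
  have hinj : Function.Injective (fun σ : L ≃ₐ[K] L => (⟨j σ, hj σ⟩ : Fin (Module.finrank K L))) := by
    intro σ τ h
    have hjj : j σ = j τ := congrArg Fin.val h
    apply algEquiv_ext_of_adjoin K L htop
    rw [hσ σ, hσ τ, hjj]
  have hbij := hinj.bijective_of_nat_card_le (by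
    rw [IsGalois.card_aut_eq_finrank K L, Nat.card_eq_fintype_card, Fintype.card_fin])
  -- the Frobenius
  obtain ⟨φ, hφ0⟩ := hbij.surjective ⟨1 % Module.finrank K L, Nat.mod_lt _ hn⟩
  have hφ1 : j φ = 1 % Module.finrank K L := congrArg Fin.val hφ0
  have hφ : φ ζ = ζ ^ (q ^ fdeg q K) := by
    rw [hσ φ, hφ1]
    rcases Nat.lt_or_ge 1 (Module.finrank K L) with h1 | h1
    · rw [Nat.mod_eq_of_lt h1, pow_one]
    · have h2 : Module.finrank K L = 1 := le_antisymm h1 hn
      rw [h2, Nat.mod_self, pow_zero, pow_one]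
      rw [h2, pow_one] at hζQn
      exact hζQn.symm
  have hgen : ∀ σ : L ≃ₐ[K] L, σ ∈ Subgroup.zpowers φ := by
    intro σ
    have : σ = φ ^ (j σ) := by
      apply algEquiv_ext_of_adjoin K L htop
      rw [hσ σ, algEquiv_pow_apply_of_apply K L φ hφ]
    rw [this]
    exact Subgroup.npow_mem_zpowers φ (j σ)
  have hord : orderOf φ = Module.finrank K L := by
    rw [orderOf_eq_card_of_forall_mem_zpowers hgen, IsGalois.card_aut_eq_finrank K L]
  -- `φ` acts as the `Q`-power map on the residue field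
  have hcardL : (q ^ fdeg q K) ^ Module.finrank K L - 1 + 1 = q ^ fdeg q L := by
    rw [fdeg_of_isUnram q K L h, pow_mul]
    omega
  have hteich := teichMap_bijective q L hNq hζ hcardL
  have hkey : ∀ c : kq q L, resAut q K L φ c = c ^ (q ^ fdeg q K) := by
    intro c
    obtain ⟨t, rfl⟩ := hteich.surjective c
    rcases t with _ | i
    · rw [teichMap, map_zero, zero_pow]
      exact (pow_pos (Fact.out : q.Prime).pos _).ne'
    · rw [teichMap, resAut_res, ← map_pow]
      congr 1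
      ext
      change φ (ζ ^ (i : ℕ)) = (ζ ^ (i : ℕ)) ^ (q ^ fdeg q K)
      rw [map_pow, hφ]
      exact pow_right_comm ζ _ _
  have hfrob : IsFrob q K L φ := by
    intro x hx
    have h1 : res q L (intAut q K L φ ⟨x, hx⟩) = res q L ((⟨x, hx⟩ : Oq q L) ^ (q ^ fdeg q K)) := by
      rw [← resAut_res, hkey, map_pow]
    exact (res_eq_iff q L).mp h1
  refine ⟨φ, hfrob, hgen, hord, fun ψ hψ => ?_⟩
  apply algEquiv_ext_of_adjoin K L htop
  rw [hφ]
  have hζint : 0 ≤ ordT q L ζ := (ordT_eq_zero_of_pow_eq_one q L hN0 hζ.pow_eq_one).ge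
  refine eq_of_pow_eq_one_of_ordT_sub_pos q L hNq ?_ ?_ (hψ ζ hζint)
  · rw [← map_pow, hζ.pow_eq_one, map_one]
  · rw [← pow_mul, mul_comm, pow_mul, hζ.pow_eq_one, one_pow]

end unram

end Fermat.Agent.S55.helper7
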