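import Fermat.Agent.S55.helper8_LocDefs

/-!
# S55 / LOC-0a (helper97): the valuation of a `q`-adic field

Proofs of the first block of the LOC-0 interface of `helper8`: the normalised valuation `ord`
of a finite extension `K` of `ℚ_[q]` is a surjective homomorphism `Kˣ → ℤ`, it satisfies
`e * f = [K : ℚ_q]`, the ultrametric inequality, and `0 ≤ ordT x` iff `x` is integral over `ℤ_q`.

The link with analysis is the spectral norm of `K / ℚ_[q]`:
`‖N_{K/ℚ_q} x‖ = (spectralNorm ℚ_[q] K x) ^ [K : ℚ_q]`.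
-/

set_option autoImplicit false

namespace Fermat.Agent.S55.helper97

open Fermat.Agent.S55.helper8

variable (q : ℕ) [Fact q.Prime]

section LOC0

variable (K : Type) [Field K] [Algebra ℚ_[q] K] [FiniteDimensional ℚ_[q] K]

/-- the additive form of `normVal` -/
noncomputable def nv (a : Kˣ) : ℤ := Multiplicative.toAdd (normVal q K a)

omit [FiniteDimensional ℚ_[q] K] in
theorem nv_def (a : Kˣ) : nv q K a = Padic.valuation (Algebra.norm ℚ_[q] (a : K)) := rfl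

omit [FiniteDimensional ℚ_[q] K] in
theorem nv_mul (a b : Kˣ) : nv q K (a * b) = nv q K a + nv q K b := by
  unfold nv
  rw [map_mul, toAdd_mul]

omit [FiniteDimensional ℚ_[q] K] in
theorem nv_one : nv q K 1 = 0 := by
  unfold nv
  rw [map_one, toAdd_one]

omit [FiniteDimensional ℚ_[q] K] in
theorem nv_inv (a : Kˣ) : nv q K a⁻¹ = - nv q K a := by
  unfold nv
  rw [map_inv, toAdd_inv]

omit [FiniteDimensional ℚ_[q] K] in
theorem nv_zpow (a : Kˣ) (k : ℤ) : nv q K (a ^ k) = k * nv q K a := by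
  unfold nv
  rw [map_zpow, toAdd_zpow, smul_eq_mul]

theorem nv_algebraMap (x : ℚ_[q]ˣ) :
    nv q K (Units.map (algebraMap ℚ_[q] K : ℚ_[q] →* K) x) =
      (Module.finrank ℚ_[q] K : ℤ) * Padic.valuation (x : ℚ_[q]) := by
  rw [nv_def]
  have : ((Units.map (algebraMap ℚ_[q] K : ℚ_[q] →* K) x : Kˣ) : K) =
      algebraMap ℚ_[q] K (x : ℚ_[q]) := rfl
  rw [this, Algebra.norm_algebraMap, Padic.valuation_pow]

/-- the unit `q` of `ℚ_[q]` -/
noncomputable def qUnit : ℚ_[q]ˣ :=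
  Units.mk0 (q : ℚ_[q]) (by exact_mod_cast (Fact.out : q.Prime).ne_zero)

theorem finrank_pos' : 0 < Module.finrank ℚ_[q] K := Module.finrank_pos

theorem nv_qUnit :
    nv q K (Units.map (algebraMap ℚ_[q] K : ℚ_[q] →* K) (qUnit q)) =
      (Module.finrank ℚ_[q] K : ℤ) := by
  rw [nv_algebraMap]
  have : ((qUnit q : ℚ_[q]ˣ) : ℚ_[q]) = (q : ℚ_[q]) := rfl
  rw [this, Padic.valuation_p, mul_one]

theorem fdeg_set_nonempty :
    {n : ℕ | 0 < n ∧ ∃ a : Kˣ, Multiplicative.toAdd (normVal q K a) = (n : ℤ)}.Nonempty :=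
  ⟨Module.finrank ℚ_[q] K, finrank_pos' q K, _, nv_qUnit q K⟩

theorem fdeg_mem :
    fdeg q K ∈ {n : ℕ | 0 < n ∧ ∃ a : Kˣ, Multiplicative.toAdd (normVal q K a) = (n : ℤ)} :=
  Nat.sInf_mem (fdeg_set_nonempty q K)

theorem fdeg_pos : 0 < fdeg q K := (fdeg_mem q K).1

theorem exists_nv_eq_fdeg : ∃ a : Kˣ, nv q K a = (fdeg q K : ℤ) := (fdeg_mem q K).2

theorem fdeg_dvd_nv (a : Kˣ) : (fdeg q K : ℤ) ∣ nv q K a := by
  obtain ⟨a₀, ha₀⟩ := exists_nv_eq_fdeg q K
  have hf := fdeg_pos q K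
  have hf' : (0 : ℤ) < (fdeg q K : ℤ) := by exact_mod_cast hf
  rw [Int.dvd_iff_emod_eq_zero]
  by_contra hne
  have hr0 : 0 ≤ nv q K a % (fdeg q K : ℤ) := Int.emod_nonneg _ hf'.ne'
  have hr1 : nv q K a % (fdeg q K : ℤ) < (fdeg q K : ℤ) := Int.emod_lt_of_pos _ hf'
  have hrpos : 0 < nv q K a % (fdeg q K : ℤ) := lt_of_le_of_ne hr0 (Ne.symm hne)
  -- the unit `a * a₀ ^ (-(nv a / f))` has value `nv a % f`
  have hval : nv q K (a * a₀ ^ (-(nv q K a / (fdeg q K : ℤ)))) = nv q K a % (fdeg q K : ℤ) := by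
    rw [nv_mul, nv_zpow, ha₀, Int.emod_def]
    ring
  have hmem : (nv q K a % (fdeg q K : ℤ)).toNat ∈
      {n : ℕ | 0 < n ∧ ∃ a : Kˣ, Multiplicative.toAdd (normVal q K a) = (n : ℤ)} := by
    refine ⟨by omega, a * a₀ ^ (-(nv q K a / (fdeg q K : ℤ))), ?_⟩
    change nv q K _ = _
    rw [hval, Int.toNat_of_nonneg hr0]
  have hle : fdeg q K ≤ (nv q K a % (fdeg q K : ℤ)).toNat := Nat.sInf_le hmem
  omega

omit [FiniteDimensional ℚ_[q] K] in
theorem ord_def (a : Kˣ) : ord q K a = nv q K a / (fdeg q K : ℤ) := rfl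

theorem fdeg_mul_ord (a : Kˣ) : (fdeg q K : ℤ) * ord q K a = nv q K a := by
  rw [ord_def]
  exact Int.mul_ediv_cancel' (fdeg_dvd_nv q K a)

theorem fdeg_ne_zero_int : (fdeg q K : ℤ) ≠ 0 := by
  exact_mod_cast (fdeg_pos q K).ne'

theorem ord_mul (a b : Kˣ) : ord q K (a * b) = ord q K a + ord q K b := by
  apply mul_left_cancel₀ (fdeg_ne_zero_int q K)
  rw [mul_add, fdeg_mul_ord, fdeg_mul_ord, fdeg_mul_ord, nv_mul]

theorem ord_one : ord q K 1 = 0 := by
  apply mul_left_cancel₀ (fdeg_ne_zero_int q K)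
  rw [fdeg_mul_ord, nv_one, mul_zero]

theorem ord_inv (a : Kˣ) : ord q K a⁻¹ = - ord q K a := by
  have h := ord_mul q K a a⁻¹
  rw [mul_inv_cancel, ord_one] at h
  omega

theorem exists_ord_eq_one : ∃ π : Kˣ, ord q K π = 1 := by
  obtain ⟨a₀, ha₀⟩ := exists_nv_eq_fdeg q K
  refine ⟨a₀, ?_⟩
  apply mul_left_cancel₀ (fdeg_ne_zero_int q K)
  rw [fdeg_mul_ord, ha₀, mul_one]

omit [FiniteDimensional ℚ_[q] K] in
theorem edeg_def : edeg q K =
    (ord q K (Units.map (algebraMap ℚ_[q] K : ℚ_[q] →* K) (qUnit q))).toNat := rfl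

theorem fdeg_mul_ord_qUnit :
    (fdeg q K : ℤ) * ord q K (Units.map (algebraMap ℚ_[q] K : ℚ_[q] →* K) (qUnit q)) =
      (Module.finrank ℚ_[q] K : ℤ) := by
  rw [fdeg_mul_ord, nv_qUnit]

theorem ord_qUnit_pos :
    0 < ord q K (Units.map (algebraMap ℚ_[q] K : ℚ_[q] →* K) (qUnit q)) := by
  have h := fdeg_mul_ord_qUnit q K
  have hf : (0 : ℤ) < (fdeg q K : ℤ) := by exact_mod_cast fdeg_pos q K
  have hn : (0 : ℤ) < (Module.finrank ℚ_[q] K : ℤ) := by exact_mod_cast finrank_pos' q K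
  rw [← h] at hn
  exact (pos_iff_pos_of_mul_pos hn).mp hf

theorem edeg_cast :
    (edeg q K : ℤ) = ord q K (Units.map (algebraMap ℚ_[q] K : ℚ_[q] →* K) (qUnit q)) := by
  rw [edeg_def, Int.toNat_of_nonneg (ord_qUnit_pos q K).le]

theorem edeg_pos : 0 < edeg q K := by
  have h := ord_qUnit_pos q K
  rw [← edeg_cast] at h
  exact_mod_cast h

theorem edeg_mul_fdeg : edeg q K * fdeg q K = Module.finrank ℚ_[q] K := by
  have h := fdeg_mul_ord_qUnit q K
  rw [← edeg_cast] at h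
  have : ((edeg q K * fdeg q K : ℕ) : ℤ) = (Module.finrank ℚ_[q] K : ℤ) := by
    push_cast
    rw [mul_comm]
    exact h
  exact_mod_cast this

theorem ord_algebraMap_padic (x : ℚ_[q]ˣ) :
    ord q K (Units.map (algebraMap ℚ_[q] K : ℚ_[q] →* K) x) =
      (edeg q K : ℤ) * Padic.valuation (x : ℚ_[q]) := by
  apply mul_left_cancel₀ (fdeg_ne_zero_int q K)
  rw [fdeg_mul_ord, nv_algebraMap, ← mul_assoc, edeg_cast, fdeg_mul_ord_qUnit]

theorem mem_unitGroup_iff (a : Kˣ) : a ∈ unitGroup q K ↔ ord q K a = 0 := by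
  constructor
  · rintro ⟨h, -⟩
    exact h
  · intro h
    refine ⟨h, fun b => ?_⟩
    rw [ord_mul, h, zero_add]

/-! ### The link with the spectral norm -/

open IntermediateField in
theorem norm_algebraNorm_eq (x : K) :
    ‖Algebra.norm ℚ_[q] x‖ = spectralNorm ℚ_[q] K x ^ Module.finrank ℚ_[q] K := by
  have hx : IsIntegral ℚ_[q] x := Algebra.IsIntegral.isIntegral x
  have hd : (minpoly ℚ_[q] x).natDegree ≠ 0 := (minpoly.natDegree_pos hx).ne'
  have h1 : Algebra.norm ℚ_[q] (AdjoinSimple.gen ℚ_[q] x) =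
      (-1) ^ (minpoly ℚ_[q] x).natDegree * (minpoly ℚ_[q] x).coeff 0 := by
    have := Algebra.PowerBasis.norm_gen_eq_coeff_zero_minpoly (adjoin.powerBasis hx)
    rw [adjoin.powerBasis_gen, adjoin.powerBasis_dim, minpoly_gen] at this
    exact this
  have h2 : ‖(minpoly ℚ_[q] x).coeff 0‖ = spectralNorm ℚ_[q] K x ^ (minpoly ℚ_[q] x).natDegree := by
    rw [spectralNorm.spectralNorm_eq_norm_coeff_zero_rpow, one_div,
      Real.rpow_inv_natCast_pow (norm_nonneg _) hd]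
  have h3 : (minpoly ℚ_[q] x).natDegree * Module.finrank ℚ_[q]⟮x⟯ K = Module.finrank ℚ_[q] K := by
    rw [← adjoin.finrank hx, Module.finrank_mul_finrank]
  rw [Algebra.norm_eq_norm_adjoin ℚ_[q] x, norm_pow, h1, norm_mul, norm_pow, norm_neg, norm_one,
    one_pow, one_mul, h2, ← pow_mul, h3]

omit [FiniteDimensional ℚ_[q] K] in
theorem norm_unit_ne_zero (a : Kˣ) : Algebra.norm ℚ_[q] (a : K) ≠ 0 :=
  (Units.map (Algebra.norm ℚ_[q] (S := K)) a).ne_zero

theorem one_lt_q_real : (1 : ℝ) < (q : ℝ) := by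
  exact_mod_cast (Fact.out : q.Prime).one_lt

/-- `|a|_sp ^ n = q ^ (- v (N a))` -/
theorem spectralNorm_pow_eq (a : Kˣ) :
    spectralNorm ℚ_[q] K (a : K) ^ Module.finrank ℚ_[q] K = (q : ℝ) ^ (-(nv q K a)) := by
  rw [← norm_algebraNorm_eq, Padic.norm_eq_zpow_neg_valuation (norm_unit_ne_zero q K a), nv_def]

/-- comparison of spectral norms in terms of `nv` -/
theorem spectralNorm_le_iff (a b : Kˣ) :
    spectralNorm ℚ_[q] K (a : K) ≤ spectralNorm ℚ_[q] K (b : K) ↔ nv q K b ≤ nv q K a := by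
  have hn : Module.finrank ℚ_[q] K ≠ 0 := (finrank_pos' q K).ne'
  rw [← pow_le_pow_iff_left₀ (spectralNorm_nonneg _) (spectralNorm_nonneg _) hn,
    spectralNorm_pow_eq, spectralNorm_pow_eq, zpow_le_zpow_iff_right₀ (one_lt_q_real q),
    neg_le_neg_iff]

theorem spectralNorm_le_one_iff (a : Kˣ) :
    spectralNorm ℚ_[q] K (a : K) ≤ 1 ↔ 0 ≤ nv q K a := by
  have := spectralNorm_le_iff q K a 1
  rwa [Units.val_one, spectralNorm_one, nv_one] at this

theorem spectralNorm_le_one_iff_ord (a : Kˣ) :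
    spectralNorm ℚ_[q] K (a : K) ≤ 1 ↔ 0 ≤ ord q K a := by
  rw [spectralNorm_le_one_iff, ← fdeg_mul_ord]
  have hf : (0 : ℤ) < (fdeg q K : ℤ) := by exact_mod_cast fdeg_pos q K
  constructor
  · intro h
    exact nonneg_of_mul_nonneg_right h hf
  · intro h
    exact mul_nonneg hf.le h

theorem spectralNorm_le_iff_ord (a b : Kˣ) :
    spectralNorm ℚ_[q] K (a : K) ≤ spectralNorm ℚ_[q] K (b : K) ↔ ord q K b ≤ ord q K a := by
  rw [spectralNorm_le_iff, ← fdeg_mul_ord, ← fdeg_mul_ord]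
  have hf : (0 : ℤ) < (fdeg q K : ℤ) := by exact_mod_cast fdeg_pos q K
  exact mul_le_mul_iff_right₀ hf

omit [FiniteDimensional ℚ_[q] K] in
theorem ordT_zero : ordT q K 0 = ⊤ := by
  unfold ordT
  rw [dif_pos rfl]

omit [FiniteDimensional ℚ_[q] K] in
theorem ordT_of_ne {x : K} (h : x ≠ 0) : ordT q K x = ((ord q K (Units.mk0 x h) : ℤ) : WithTop ℤ) := by
  unfold ordT
  rw [dif_neg h]

omit [FiniteDimensional ℚ_[q] K] in
theorem ordT_unit (a : Kˣ) : ordT q K (a : K) = ((ord q K a : ℤ) : WithTop ℤ) := by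
  rw [ordT_of_ne q K a.ne_zero]
  congr 2
  ext
  rfl

theorem ord_add_ge (a b c : Kˣ) (h : (c : K) = a + b) :
    min (ord q K a) (ord q K b) ≤ ord q K c := by
  have hna : spectralNorm ℚ_[q] K ((a : K) + b) ≤
      max (spectralNorm ℚ_[q] K (a : K)) (spectralNorm ℚ_[q] K (b : K)) :=
    isNonarchimedean_spectralNorm (a : K) (b : K)
  rw [← h] at hna
  rcases le_max_iff.mp hna with h1 | h1
  · exact (min_le_left _ _).trans ((spectralNorm_le_iff_ord q K c a).mp h1)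
  · exact (min_le_right _ _).trans ((spectralNorm_le_iff_ord q K c b).mp h1)

theorem ordT_add_ge (x y : K) : min (ordT q K x) (ordT q K y) ≤ ordT q K (x + y) := by
  by_cases hx : x = 0
  · rw [hx, zero_add]
    exact min_le_right _ _
  by_cases hy : y = 0
  · rw [hy, add_zero]
    exact min_le_left _ _
  by_cases hxy : x + y = 0
  · rw [hxy, ordT_zero]
    exact le_top
  rw [ordT_of_ne q K hx, ordT_of_ne q K hy, ordT_of_ne q K hxy, ← WithTop.coe_min,
    WithTop.coe_le_coe]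
  exact ord_add_ge q K _ _ _ rfl

theorem ordT_nonneg_iff_spectralNorm (x : K) :
    0 ≤ ordT q K x ↔ spectralNorm ℚ_[q] K x ≤ 1 := by
  by_cases hx : x = 0
  · rw [hx, ordT_zero, spectralNorm_zero]
    exact ⟨fun _ => zero_le_one, fun _ => le_top⟩
  · rw [ordT_of_ne q K hx, ← WithTop.coe_zero, WithTop.coe_le_coe,
      ← spectralNorm_le_one_iff_ord]
    rfl

/-- integrality criterion -/
theorem ordT_nonneg_iff (x : K) :
    0 ≤ ordT q K x ↔
      ∃ f : Polynomial ℚ_[q], f.Monic ∧ (∀ i, ‖f.coeff i‖ ≤ 1) ∧ Polynomial.aeval x f = 0 := by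
  rw [ordT_nonneg_iff_spectralNorm]
  constructor
  · intro h
    have hx : IsIntegral ℚ_[q] x := Algebra.IsIntegral.isIntegral x
    exact ⟨minpoly ℚ_[q] x, minpoly.monic hx, (spectralValue_le_one_iff (minpoly.monic hx)).mp h,
      minpoly.aeval _ _⟩
  · rintro ⟨f, hf, hc, hx⟩
    have h1 : spectralAlgNorm ℚ_[q] K x ≤ spectralValue f :=
      norm_root_le_spectralValue spectralAlgNorm_isPowMul isNonarchimedean_spectralNorm hf hx
    exact h1.trans ((spectralValue_le_one_iff hf).mpr hc)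

end LOC0

end Fermat.Agent.S55.helper97
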