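import Mathlib
import Fermat.Agent.S55.helper7_LocUnramCond
import Fermat.Agent.S55.helper97_LocVal
import Fermat.Agent.S55.helper71_LocResidue

/-!
# S55 / LOC-2a (helper7): unramified extensions of `q`-adic fields

The three LOC-2a statements, VERBATIM from `helper8_LocInterface` (section LOC2), and
unconditional: the hypotheses `HypAdd q`, `HypReps q`, `HypHensel q` of
`helper7_LocUnramCond` are discharged by the landed LOC-0a/0b theorems
`helper97.ordT_add_ge`, `helper71.exists_representatives`, `helper71.hensel`.

* `exists_unram` : inside an algebraically closed extension `Ω` of `K` there is, for every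
  `n > 0`, an unramified Galois extension `E/K` of degree `n`;
* `isGalois_of_isUnram` : a finite unramified extension is Galois;
* `exists_frob_of_isUnram` : its Galois group is cyclic, generated by the unique Frobenius
  element, whose order is the degree.
-/

set_option autoImplicit false

namespace Fermat.Agent.S55.helper7

open Fermat.Agent.S55.helper8

variable (q : ℕ) [Fact q.Prime]

theorem hypAdd : HypAdd q := fun K _ _ _ x y => helper97.ordT_add_ge q K x y

theorem hypReps : HypReps q := fun K _ _ _ => helper71.exists_representatives q K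

theorem hypHensel : HypHensel q := fun K _ _ _ f hf a ha h => helper71.hensel q K f hf a ha h

/-- The three LOC-0 hypotheses as instances (for users of the toolkit in
`helper7_LocVal`, `helper7_LocRes`, `helper7_LocUnramCond`). -/
instance factHypAdd : Fact (HypAdd q) := ⟨hypAdd q⟩

instance factHypReps : Fact (HypReps q) := ⟨hypReps q⟩

instance factHypHensel : Fact (HypHensel q) := ⟨hypHensel q⟩

section LOC2

variable (K : Type) [Field K] [Algebra ℚ_[q] K] [FiniteDimensional ℚ_[q] K]

/-- existence of the unramified extension of degree `n` inside an algebraically closed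
extension `Ω` -/
theorem exists_unram (Ω : Type) [Field Ω] [Algebra ℚ_[q] Ω] [Algebra K Ω]
    [IsScalarTower ℚ_[q] K Ω] [IsAlgClosed Ω] (n : ℕ) (hn : 0 < n) :
    ∃ E : IntermediateField K Ω, FiniteDimensional K E ∧ IsGalois K E ∧
      Module.finrank K E = n ∧ IsUnram q K E :=
  exists_unram_of q K Ω n hn

variable (L : Type) [Field L] [Algebra ℚ_[q] L] [Algebra K L] [IsScalarTower ℚ_[q] K L]
  [FiniteDimensional K L]

/-- unramified extensions are Galois and cyclic, generated by the Frobenius -/
theorem isGalois_of_isUnram (h : IsUnram q K L) : IsGalois K L :=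
  isGalois_of_isUnram_of q K L h

theorem exists_frob_of_isUnram (h : IsUnram q K L) :
    ∃ φ : L ≃ₐ[K] L, IsFrob q K L φ ∧ (∀ σ : L ≃ₐ[K] L, σ ∈ Subgroup.zpowers φ) ∧
      orderOf φ = Module.finrank K L ∧ ∀ ψ : L ≃ₐ[K] L, IsFrob q K L ψ → ψ = φ :=
  exists_frob_of_isUnram_of q K L h

/-- The residue field of a `q`-adic field has `q ^ f` elements (unconditional form of
`card_kq`). -/
theorem card_residueField : Nat.card (kq q K) = q ^ fdeg q K := card_kq q K

/-- An unramified extension is generated by a primitive root of unity of order
`(q ^ f_K) ^ [L : K] - 1`. -/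
theorem exists_primitiveRoot_adjoin_of_isUnram (h : IsUnram q K L) :
    ∃ ζ : L, IsPrimitiveRoot ζ ((q ^ fdeg q K) ^ Module.finrank K L - 1) ∧
      Algebra.adjoin K {ζ} = ⊤ :=
  exists_primitiveRoot_of_isUnram q K L h

end LOC2

end Fermat.Agent.S55.helper7
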