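import Mathlib
import Fermat.Agent.S55.helper7_LocUnram
import Fermat.Agent.S55.helper11_LocGlob

/-!
# S55 / LOC-2c (helper7): structure of unramified extensions of `q`-adic fields

Key lemma (`isUnram_of_adjoin_rootsOfUnity`): a finite extension `E/K` generated by roots of
unity of order prime to `q` is unramified (and conversely, by LOC-2a, an unramified extension
is generated by one such root of unity).  Consequences, VERBATIM from
`helper8_LocInterface2` (sections LOC2c, LOC2c'):
`isUnram_of_tower`, `isFrob_restrictNormalHom`, `eq_of_forall_ordT_sub_pos`, `isUnram_sup`,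
`eq_of_isUnram_of_finrank_eq`, `isUnram_baseChange`, `locHom_frob`.
-/

set_option autoImplicit false

namespace Fermat.Agent.S55.helper7

open Fermat.Agent.S55.helper8 Fermat.Agent.S55.helper11 Polynomial IntermediateField

variable (q : ℕ) [Fact q.Prime]

section abs

variable (F : Type) [Field F] [Algebra ℚ_[q] F] [FiniteDimensional ℚ_[q] F]

/-- A root of unity of order prime to `q` is a `(q ^ f - 1)`-th root of unity. -/
theorem pow_card_sub_one_eq_one {N : ℕ} (hN : ¬ q ∣ N) {η : F} (hη : η ^ N = 1) :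
    η ^ (q ^ fdeg q F - 1) = 1 := by
  classical
  have hN0 : N ≠ 0 := ne_zero_of_not_dvd q hN
  let _ : Fintype (kq q F) := Fintype.ofFinite _
  have hcard : Fintype.card (kq q F) = q ^ fdeg q F := by
    rw [← Nat.card_eq_fintype_card, card_kq]
  have hint : 0 ≤ ordT q F η := (ordT_eq_zero_of_pow_eq_one q F hN0 hη).ge
  have hne : res q F ⟨η, hint⟩ ≠ 0 := by
    rw [Ne, res_eq_zero_iff]
    change ¬ 0 < ordT q F η
    rw [ordT_eq_zero_of_pow_eq_one q F hN0 hη]
    exact lt_irrefl _
  have h1 := FiniteField.pow_card_sub_one_eq_one _ hne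
  rw [hcard, ← map_pow, ← map_one (res q F), res_eq_iff] at h1
  refine eq_of_pow_eq_one_of_ordT_sub_pos q F hN ?_ (one_pow N) h1
  change (η ^ _) ^ N = 1
  rw [← pow_mul, mul_comm, pow_mul, hη, one_pow]

end abs

section rel

variable (K : Type) [Field K] [Algebra ℚ_[q] K] [FiniteDimensional ℚ_[q] K]
variable (E : Type) [Field E] [Algebra ℚ_[q] E] [Algebra K E] [IsScalarTower ℚ_[q] K E]
  [FiniteDimensional K E]

/-- **Key lemma, one generator**: `E = K(ζ)` with `ζ` a root of unity of order prime to `q`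
is Galois and unramified over `K`. -/
theorem isUnram_of_adjoin_rootOfUnity {N : ℕ} (hN : ¬ q ∣ N) {ζ : E} (hζ : ζ ^ N = 1)
    (htop : Algebra.adjoin K {ζ} = ⊤) : IsGalois K E ∧ IsUnram q K E := by
  have : FiniteDimensional ℚ_[q] E := Module.Finite.trans K E
  have hN0 : N ≠ 0 := ne_zero_of_not_dvd q hN
  -- Galois
  have hd0 : 0 < orderOf ζ := orderOf_pos_iff.mpr (isOfFinOrder_iff_pow_eq_one.mpr
    ⟨N, Nat.pos_of_ne_zero hN0, hζ⟩)
  have : NeZero (orderOf ζ) := ⟨hd0.ne'⟩
  have hprim : IsPrimitiveRoot ζ (orderOf ζ) := IsPrimitiveRoot.orderOf ζ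
  have : IsCyclotomicExtension {orderOf ζ} K E := by
    rw [IsCyclotomicExtension.iff_singleton]
    refine ⟨⟨ζ, hprim⟩, fun x => ?_⟩
    have hle : Algebra.adjoin K {ζ} ≤ Algebra.adjoin K {b : E | b ^ (orderOf ζ) = 1} := by
      refine Algebra.adjoin_mono ?_
      intro b hb
      rw [Set.mem_singleton_iff] at hb
      subst hb
      exact pow_orderOf_eq_one _
    exact hle (htop ▸ Algebra.mem_top)
  have hgal : IsGalois K E := IsCyclotomicExtension.isGalois {orderOf ζ} K E
  refine ⟨hgal, ?_⟩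
  -- unramified
  have hrelF : 0 < relF q K E := helper33.relF_pos q K E
  have h1 : ζ ^ ((q ^ fdeg q K) ^ relF q K E - 1) = 1 := by
    have := pow_card_sub_one_eq_one q E hN hζ
    rwa [helper33.fdeg_eq_relF_mul q K E, mul_comm, pow_mul] at this
  choose j hj hσ using fun σ : E ≃ₐ[K] E => exists_pow_of_algEquiv q K E hrelF h1 σ
  have hinj : Function.Injective (fun σ : E ≃ₐ[K] E => (⟨j σ, hj σ⟩ : Fin (relF q K E))) := by
    intro σ τ h
    have hjj : j σ = j τ := congrArg Fin.val h
    apply algEquiv_ext_of_adjoin K E htop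
    rw [hσ σ, hσ τ, hjj]
  have hcard : Module.finrank K E ≤ relF q K E := by
    rw [← IsGalois.card_aut_eq_finrank K E]
    have := Nat.card_le_card_of_injective _ hinj
    simpa using this
  have hmul := helper33.relE_mul_relF q K E
  have hEpos := relE_pos q K E
  rw [helper33.isUnram_iff q K E]
  have h2 : relE q K E * relF q K E ≤ 1 * relF q K E := by
    rw [hmul, one_mul]
    exact hcard
  have := Nat.le_of_mul_le_mul_right h2 hrelF
  omega

/-- **Key lemma**: a finite extension generated by roots of unity of order prime to `q` is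
Galois and unramified. -/
theorem isUnram_of_adjoin_rootsOfUnity (S : Set E)
    (hS : ∀ s ∈ S, ∃ N : ℕ, ¬ q ∣ N ∧ s ^ N = 1) (htop : Algebra.adjoin K S = ⊤) :
    IsGalois K E ∧ IsUnram q K E := by
  have : FiniteDimensional ℚ_[q] E := Module.Finite.trans K E
  obtain ⟨ζ₀, hζ₀⟩ := exists_primitiveRoot_card_sub_one q E
  have hNq : ¬ q ∣ q ^ fdeg q E - 1 := not_dvd_card_sub_one q E
  refine isUnram_of_adjoin_rootOfUnity q K E hNq hζ₀.pow_eq_one ?_
  rw [eq_top_iff, ← htop]
  refine Algebra.adjoin_le ?_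
  intro s hs
  obtain ⟨N, hN, hsN⟩ := hS s hs
  have h1 := pow_card_sub_one_eq_one q E hN hsN
  have hk : 0 < q ^ fdeg q E - 1 := Nat.pos_of_ne_zero (ne_zero_of_not_dvd q hNq)
  haveI : NeZero (q ^ fdeg q E - 1) := ⟨hk.ne'⟩
  obtain ⟨i, -, rfl⟩ := hζ₀.eq_pow_of_pow_eq_one h1
  exact Subalgebra.pow_mem _ (Algebra.subset_adjoin (Set.mem_singleton ζ₀)) i

end rel

/-! ## LOC-2c -/
section LOC2c

variable (K L M : Type) [Field K] [Field L] [Field M] [Algebra ℚ_[q] K] [Algebra ℚ_[q] L]
  [Algebra ℚ_[q] M] [Algebra K L] [Algebra K M] [Algebra L M] [IsScalarTower ℚ_[q] K L]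
  [IsScalarTower ℚ_[q] K M] [IsScalarTower ℚ_[q] L M] [IsScalarTower K L M]
  [FiniteDimensional ℚ_[q] K] [FiniteDimensional K L] [FiniteDimensional K M]

/-- multiplicativity of the ramification index in towers -/
theorem relE_tower : relE q K M = relE q L M * relE q K L := by
  have : FiniteDimensional ℚ_[q] L := Module.Finite.trans K L
  have : FiniteDimensional L M := FiniteDimensional.right K L M
  obtain ⟨π, hπ⟩ := helper33.exists_ord_eq_one q K
  have h1 := helper33.ord_algebraMap q K L π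
  have h2 := helper33.ord_algebraMap q L M (Units.map (algebraMap K L : K →* L) π)
  have h3 := helper33.ord_algebraMap q K M π
  have h4 : Units.map (algebraMap L M : L →* M) (Units.map (algebraMap K L : K →* L) π) =
      Units.map (algebraMap K M : K →* M) π := by
    ext
    exact (IsScalarTower.algebraMap_apply K L M _).symm
  rw [h4, h3, h1, hπ, mul_one, mul_one] at h2
  exact_mod_cast h2

/-- sub- and quotient extensions of an unramified extension are unramified -/
theorem isUnram_of_tower (h : IsUnram q K M) : IsUnram q K L ∧ IsUnram q L M := by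
  have : FiniteDimensional ℚ_[q] L := Module.Finite.trans K L
  have : FiniteDimensional L M := FiniteDimensional.right K L M
  have h1 := (helper33.isUnram_iff q K M).mp h
  rw [relE_tower q K L M] at h1
  have h2 : relE q L M = 1 ∧ relE q K L = 1 := by
    have := relE_pos q K L
    have := relE_pos q L M
    constructor
    · exact Nat.eq_one_of_mul_eq_one_right h1
    · exact Nat.eq_one_of_mul_eq_one_left h1
  exact ⟨(helper33.isUnram_iff q K L).mpr h2.2, (helper33.isUnram_iff q L M).mpr h2.1⟩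

/-- the Frobenius restricts to the Frobenius -/
theorem isFrob_restrictNormalHom [Normal K L] (_h : IsUnram q K M) (φ : M ≃ₐ[K] M)
    (hφ : IsFrob q K M φ) : IsFrob q K L (AlgEquiv.restrictNormalHom L φ) := by
  have : FiniteDimensional ℚ_[q] L := Module.Finite.trans K L
  have : FiniteDimensional L M := FiniteDimensional.right K L M
  have : FiniteDimensional ℚ_[q] M := Module.Finite.trans K M
  intro x hx
  have hy : 0 ≤ ordT q M (algebraMap L M x) := (ordT_algebraMap_nonneg_iff q L M x).mpr hx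
  have h1 := hφ _ hy
  rw [← ordT_algebraMap_pos_iff q L M, map_sub, map_pow]
  have h2 : algebraMap L M ((AlgEquiv.restrictNormalHom L φ) x) = φ (algebraMap L M x) :=
    AlgEquiv.restrictNormal_commutes φ L x
  rw [h2]
  exact h1

omit [IsScalarTower ℚ_[q] K M] [IsScalarTower ℚ_[q] L M] [IsScalarTower K L M]
  [FiniteDimensional K M] [Algebra ℚ_[q] M] [Algebra K M] [Algebra L M] in
/-- the inertia group of an unramified extension is trivial -/
theorem eq_of_forall_ordT_sub_pos (h : IsUnram q K L) (σ τ : L ≃ₐ[K] L)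
    (hστ : ∀ x : L, 0 ≤ ordT q L x → 0 < ordT q L (σ x - τ x)) : σ = τ := by
  have : FiniteDimensional ℚ_[q] L := Module.Finite.trans K L
  obtain ⟨ζ, hζ, htop⟩ := exists_primitiveRoot_of_isUnram q K L h
  have hNq := not_dvd_pow_sub_one q K (n := Module.finrank K L) Module.finrank_pos
  have hN0 := ne_zero_of_not_dvd q hNq
  apply algEquiv_ext_of_adjoin K L htop
  have hζint : 0 ≤ ordT q L ζ := (ordT_eq_zero_of_pow_eq_one q L hN0 hζ.pow_eq_one).ge
  refine eq_of_pow_eq_one_of_ordT_sub_pos q L hNq ?_ ?_ (hστ ζ hζint)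
  · rw [← map_pow, hζ.pow_eq_one, map_one]
  · rw [← map_pow, hζ.pow_eq_one, map_one]

omit [Algebra ℚ_[q] L] [Algebra K L] [Algebra L M] [IsScalarTower ℚ_[q] K L]
  [IsScalarTower ℚ_[q] L M] [IsScalarTower K L M] [FiniteDimensional K L] in
/-- an unramified intermediate field is generated by a primitive root of unity of order
`(q ^ f_K) ^ [E : K] - 1` -/
theorem exists_primitiveRoot_adjoin_eq (E : IntermediateField K M) (h : IsUnram q K E) :
    ∃ ζ : M, IsPrimitiveRoot ζ ((q ^ fdeg q K) ^ Module.finrank K E - 1) ∧ K⟮ζ⟯ = E := by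
  obtain ⟨ζ', hζ', htop⟩ := exists_primitiveRoot_of_isUnram q K E h
  refine ⟨(ζ' : M), hζ'.map_of_injective (f := algebraMap E M) (algebraMap E M).injective, ?_⟩
  refine le_antisymm (adjoin_simple_le_iff.mpr ζ'.2) ?_
  intro x hx
  have h1 : (⟨x, hx⟩ : E) ∈ Algebra.adjoin K {ζ'} := htop ▸ Algebra.mem_top
  have h2 : x ∈ (Algebra.adjoin K {ζ'}).map E.val := ⟨⟨x, hx⟩, h1, rfl⟩
  rw [AlgHom.map_adjoin, Set.image_singleton] at h2
  exact algebra_adjoin_le_adjoin K _ h2

omit [Algebra ℚ_[q] L] [Algebra K L] [Algebra L M] [IsScalarTower ℚ_[q] K L]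
  [IsScalarTower ℚ_[q] L M] [IsScalarTower K L M] [FiniteDimensional K L] in
/-- an intermediate field generated by roots of unity of order prime to `q` is unramified -/
theorem isUnram_adjoin_rootsOfUnity (S : Set M)
    (hS : ∀ s ∈ S, ∃ N : ℕ, ¬ q ∣ N ∧ s ^ N = 1) :
    IsUnram q K ↥(IntermediateField.adjoin K S) := by
  refine (isUnram_of_adjoin_rootsOfUnity q K ↥(IntermediateField.adjoin K S)
    {x | (x : M) ∈ S} ?_ ?_).2
  · intro s hs
    obtain ⟨N, hN, hsN⟩ := hS (s : M) hs
    refine ⟨N, hN, ?_⟩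
    ext
    simpa using hsN
  · rw [eq_top_iff]
    intro x _
    have hx : (x : M) ∈ (IntermediateField.adjoin K S).toSubalgebra := x.2
    rw [adjoin_toSubalgebra_of_isAlgebraic
      (fun y _ => (IsIntegral.of_finite K y).isAlgebraic)] at hx
    have himg : (IntermediateField.adjoin K S).val ''
        {x : ↥(IntermediateField.adjoin K S) | (x : M) ∈ S} = S := by
      ext y
      constructor
      · rintro ⟨z, hz, rfl⟩
        exact hz
      · intro hy
        exact ⟨⟨y, subset_adjoin K S hy⟩, hy, rfl⟩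
    have hx' : (x : M) ∈ (Algebra.adjoin K
        {x : ↥(IntermediateField.adjoin K S) | (x : M) ∈ S}).map
          (IntermediateField.adjoin K S).val := by
      rw [AlgHom.map_adjoin, himg]
      exact hx
    obtain ⟨y, hy, hyx⟩ := hx'
    have : y = x := Subtype.ext hyx
    rw [← this]
    exact hy

omit [Algebra ℚ_[q] L] [Algebra K L] [Algebra L M] [IsScalarTower ℚ_[q] K L]
  [IsScalarTower ℚ_[q] L M] [IsScalarTower K L M] [FiniteDimensional K L] in
/-- the compositum of unramified extensions is unramified -/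
theorem isUnram_sup (E₁ E₂ : IntermediateField K M) (h₁ : IsUnram q K E₁)
    (h₂ : IsUnram q K E₂) : IsUnram q K ↥(E₁ ⊔ E₂) := by
  obtain ⟨ζ₁, hζ₁, rfl⟩ := exists_primitiveRoot_adjoin_eq q K M E₁ h₁
  obtain ⟨ζ₂, hζ₂, rfl⟩ := exists_primitiveRoot_adjoin_eq q K M E₂ h₂
  have hN₁ := not_dvd_pow_sub_one q K (n := Module.finrank K K⟮ζ₁⟯) Module.finrank_pos
  have hN₂ := not_dvd_pow_sub_one q K (n := Module.finrank K K⟮ζ₂⟯) Module.finrank_pos
  have h := isUnram_adjoin_rootsOfUnity q K M ({ζ₁} ∪ {ζ₂}) (by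
    rintro s (hs | hs)
    · rw [Set.mem_singleton_iff] at hs
      subst hs
      exact ⟨_, hN₁, hζ₁.pow_eq_one⟩
    · rw [Set.mem_singleton_iff] at hs
      subst hs
      exact ⟨_, hN₂, hζ₂.pow_eq_one⟩)
  rwa [adjoin_union] at h

omit [Algebra ℚ_[q] L] [Algebra K L] [Algebra L M] [IsScalarTower ℚ_[q] K L]
  [IsScalarTower ℚ_[q] L M] [IsScalarTower K L M] [FiniteDimensional K L] in
/-- there is at most one unramified extension of given degree inside `M` -/
theorem eq_of_isUnram_of_finrank_eq (E₁ E₂ : IntermediateField K M) (h₁ : IsUnram q K E₁)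
    (h₂ : IsUnram q K E₂) (h : Module.finrank K E₁ = Module.finrank K E₂) : E₁ = E₂ := by
  obtain ⟨ζ₁, hζ₁, rfl⟩ := exists_primitiveRoot_adjoin_eq q K M E₁ h₁
  obtain ⟨ζ₂, hζ₂, rfl⟩ := exists_primitiveRoot_adjoin_eq q K M E₂ h₂
  rw [← h] at hζ₂
  have hN := not_dvd_pow_sub_one q K (n := Module.finrank K K⟮ζ₁⟯) Module.finrank_pos
  have : NeZero ((q ^ fdeg q K) ^ Module.finrank K K⟮ζ₁⟯ - 1) := ⟨ne_zero_of_not_dvd q hN⟩
  obtain ⟨i, -, hi⟩ := hζ₁.eq_pow_of_pow_eq_one hζ₂.pow_eq_one
  obtain ⟨k, -, hk⟩ := hζ₂.eq_pow_of_pow_eq_one hζ₁.pow_eq_one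
  refine le_antisymm ?_ ?_
  · rw [adjoin_simple_le_iff, ← hk]
    exact pow_mem (mem_adjoin_simple_self K ζ₂) k
  · rw [adjoin_simple_le_iff, ← hi]
    exact pow_mem (mem_adjoin_simple_self K ζ₁) i

end LOC2c

section frobpow

variable (K E : Type) [Field K] [Field E] [Algebra ℚ_[q] K] [Algebra ℚ_[q] E] [Algebra K E]
  [IsScalarTower ℚ_[q] K E] [FiniteDimensional ℚ_[q] K] [FiniteDimensional K E]

/-- powers of the Frobenius: `φ ^ m` acts as `x ↦ x ^ (Q ^ m)` on the residue field -/
theorem isFrob_pow (φ : E ≃ₐ[K] E) (hφ : IsFrob q K E φ) (m : ℕ) (x : E)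
    (hx : 0 ≤ ordT q E x) : 0 < ordT q E ((φ ^ m) x - x ^ ((q ^ fdeg q K) ^ m)) := by
  have : FiniteDimensional ℚ_[q] E := Module.Finite.trans K E
  induction m with
  | zero => simp [ordT_zero]
  | succ m ih =>
    have hA : (φ ^ (m + 1)) x = φ ((φ ^ m) x) := by
      rw [pow_succ' φ, AlgEquiv.mul_apply]
    have hB : (x ^ ((q ^ fdeg q K) ^ m)) ^ (q ^ fdeg q K) = x ^ ((q ^ fdeg q K) ^ (m + 1)) := by
      rw [← pow_mul, ← pow_succ]
    have h1 : (φ ^ (m + 1)) x - x ^ ((q ^ fdeg q K) ^ (m + 1)) =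
        φ ((φ ^ m) x - x ^ ((q ^ fdeg q K) ^ m)) +
          (φ (x ^ ((q ^ fdeg q K) ^ m)) - (x ^ ((q ^ fdeg q K) ^ m)) ^ (q ^ fdeg q K)) := by
      rw [hA, hB, map_sub]
      ring
    rw [h1]
    refine ordT_add_pos q E ?_ ?_
    · rw [ordT_algEquiv]
      exact ih
    · refine hφ _ ?_
      rw [ordT_pow]
      exact nsmul_nonneg hx _

end frobpow

section LOC2c'

variable (K E K' E' : Type) [Field K] [Field E] [Field K'] [Field E'] [Algebra ℚ_[q] K]
  [Algebra ℚ_[q] E] [Algebra ℚ_[q] K'] [Algebra ℚ_[q] E'] [Algebra K E] [Algebra K K']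
  [Algebra K' E'] [Algebra E E'] [Algebra K E'] [IsScalarTower ℚ_[q] K E]
  [IsScalarTower ℚ_[q] K K'] [IsScalarTower ℚ_[q] K' E'] [IsScalarTower K E E']
  [IsScalarTower K K' E'] [FiniteDimensional ℚ_[q] K] [FiniteDimensional K E]
  [FiniteDimensional K K'] [FiniteDimensional K' E']

include K K' in
omit [FiniteDimensional ℚ_[q] K] [FiniteDimensional K E] [FiniteDimensional K K']
  [FiniteDimensional K' E'] in
lemma isScalarTower_baseChange : IsScalarTower ℚ_[q] E E' := by
  refine IsScalarTower.of_algebraMap_eq (fun x => ?_)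
  rw [IsScalarTower.algebraMap_apply ℚ_[q] K' E', IsScalarTower.algebraMap_apply ℚ_[q] K K',
    ← IsScalarTower.algebraMap_apply K K' E', IsScalarTower.algebraMap_apply K E E',
    ← IsScalarTower.algebraMap_apply ℚ_[q] K E]

/-- base change of an unramified extension is unramified -/
theorem isUnram_baseChange (h : IsUnram q K E)
    (hgen : Algebra.adjoin K' (Set.range (algebraMap E E')) = ⊤) : IsUnram q K' E' := by
  have : FiniteDimensional ℚ_[q] K' := Module.Finite.trans K K'
  obtain ⟨ζ, hζ, htop⟩ := exists_primitiveRoot_of_isUnram q K E h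
  have hNq := not_dvd_pow_sub_one q K (n := Module.finrank K E) Module.finrank_pos
  have hζ' : (algebraMap E E' ζ) ^ ((q ^ fdeg q K) ^ Module.finrank K E - 1) = 1 := by
    rw [← map_pow, hζ.pow_eq_one, map_one]
  refine (isUnram_of_adjoin_rootOfUnity q K' E' hNq hζ' ?_).2
  rw [eq_top_iff, ← hgen]
  refine Algebra.adjoin_le ?_
  rintro y ⟨x, rfl⟩
  have hx : x ∈ Algebra.adjoin K {ζ} := htop ▸ Algebra.mem_top
  induction hx using Algebra.adjoin_induction with
  | mem x hx =>
    rw [Set.mem_singleton_iff] at hx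
    subst hx
    exact Algebra.subset_adjoin (Set.mem_singleton _)
  | algebraMap a =>
    rw [← IsScalarTower.algebraMap_apply K E E', IsScalarTower.algebraMap_apply K K' E']
    exact Subalgebra.algebraMap_mem _ _
  | add x y _ _ hx hy =>
    rw [map_add]
    exact Subalgebra.add_mem _ hx hy
  | mul x y _ _ hx hy =>
    rw [map_mul]
    exact Subalgebra.mul_mem _ hx hy

/-- the Frobenius of the base change restricts to `φ ^ f(K'/K)` -/
theorem locHom_frob [Normal K E] (h : IsUnram q K E) (_h' : IsUnram q K' E') (φ : E ≃ₐ[K] E)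
    (hφ : IsFrob q K E φ) (φ' : E' ≃ₐ[K'] E') (hφ' : IsFrob q K' E' φ') :
    locHom K E K' E' φ' = φ ^ relF q K K' := by
  have : FiniteDimensional ℚ_[q] K' := Module.Finite.trans K K'
  have : FiniteDimensional ℚ_[q] E := Module.Finite.trans K E
  have : FiniteDimensional ℚ_[q] E' := Module.Finite.trans K' E'
  have : IsScalarTower ℚ_[q] E E' := isScalarTower_baseChange q K E K' E'
  have : FiniteDimensional K E' := Module.Finite.trans K' E'
  have : FiniteDimensional E E' := FiniteDimensional.right K E E'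
  refine eq_of_forall_ordT_sub_pos q K E h _ _ (fun x hx => ?_)
  have hQ : q ^ fdeg q K' = (q ^ fdeg q K) ^ relF q K K' := by
    rw [helper33.fdeg_eq_relF_mul q K K', mul_comm, pow_mul]
  have h1 : 0 < ordT q E (locHom K E K' E' φ' x - x ^ ((q ^ fdeg q K) ^ relF q K K')) := by
    rw [← ordT_algebraMap_pos_iff q E E', map_sub, map_pow, algebraMap_locHom, ← hQ]
    exact hφ' _ ((ordT_algebraMap_nonneg_iff q E E' x).mpr hx)
  have h2 := isFrob_pow q K E φ hφ (relF q K K') x hx
  have h3 : locHom K E K' E' φ' x - (φ ^ relF q K K') x =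
      (locHom K E K' E' φ' x - x ^ ((q ^ fdeg q K) ^ relF q K K')) -
        ((φ ^ relF q K K') x - x ^ ((q ^ fdeg q K) ^ relF q K K')) := by ring
  rw [h3]
  exact ordT_sub_pos q E h1 h2

end LOC2c'

end Fermat.Agent.S55.helper7
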