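import Fermat.Agent.S55.Arith
import Fermat.Agent.S05.helper92_Inertia
import Fermat.Agent.S14.helper91_FieldObstruction

/-!
# S55 module A, bridge to the Prelude (helper92, task 306)

* `smoothStatement p S : SmoothStatement p S` : a finite `𝔽_p`-representation of `G_ℚ` which is
  pointwise smooth and unramified outside `S` is trivial on ONE normal level of `galLevels S`
  (namely on its kernel, which is the fixing subgroup of a finite extension unramified
  outside `S`);
* `levelStatement p S : LevelStatement p S` : the levels of `galLevels S` have finite index, and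
  the mod `p` cyclotomic character is trivial on a level when `p ∈ S`.
-/

set_option autoImplicit false
set_option linter.style.haveILetI false

open scoped Pointwise

namespace Fermat.Agent.S55.helper92

open ExtCitation Fermat.Agent.S55

/-- A normal subgroup of `G_ℚ` which contains the fixing subgroup of a finite extension and all
inertia groups at the primes outside `S` is a level of `galLevels S`. -/
theorem mem_galLevels_of_le (S : Finset Nat.Primes) (H : Subgroup GQ) [hH : H.Normal]
    (F₀ : IntermediateField ℚ (AlgebraicClosure ℚ)) [FiniteDimensional ℚ F₀]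
    (hF₀ : F₀.fixingSubgroup ≤ H)
    (hur : ∀ q : Nat.Primes, q ∉ S → ∀ A : ValuationSubring (AlgebraicClosure ℚ),
      A.LiesOverPrime (q : ℕ) → A.inertiaSubgroupIn ℚ ≤ H) :
    H ∈ (galLevels S).mem := by
  have hopen : IsOpen (H : Set GQ) :=
    Subgroup.isOpen_mono hF₀ (IntermediateField.fixingSubgroup_isOpen F₀)
  have hfix := Fermat.Agent.S14.helper91.fixingSubgroup_fixedField_of_isOpen H hopen
  have hfd := Fermat.Agent.S14.helper91.finiteDimensional_fixedField H hopen
  refine ⟨hH, IntermediateField.fixedField H, ⟨hfd, fun q hq A hA => ?_⟩, hfix.symm⟩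
  rw [hfix]
  exact hur q hq A hA

/-- SMOOTHNESS statement of `Arith.lean`. -/
theorem smoothStatement (p : ℕ) [Fact p.Prime] (S : Finset Nat.Primes) :
    SmoothStatement p S := by
  intro M hfin hsm hMur
  haveI : Finite (ZMod p) := inferInstance
  haveI : Finite M := Module.finite_of_finite (ZMod p)
  choose F hFfd hF using hsm
  haveI : ∀ m, FiniteDimensional ℚ (F m) := hFfd
  let F₀ : IntermediateField ℚ (AlgebraicClosure ℚ) := ⨆ m, F m
  haveI : FiniteDimensional ℚ F₀ := IntermediateField.finiteDimensional_iSup_of_finite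
  have hker : ∀ s : GQ, s ∈ M.ρ.ker ↔ ∀ a : M, M.ρ s a = a := by
    intro s
    rw [MonoidHom.mem_ker]
    constructor
    · intro h a
      rw [h]
      rfl
    · intro h
      ext a
      exact h a
  have hle : F₀.fixingSubgroup ≤ M.ρ.ker := by
    intro s hs
    rw [hker]
    intro a
    refine hF a s ?_
    exact IntermediateField.fixingSubgroup_antitone (le_iSup F a) hs
  have hmem : M.ρ.ker ∈ (galLevels S).mem := by
    refine mem_galLevels_of_le S M.ρ.ker F₀ hle ?_
    intro q hq A hA g hg
    rw [MonoidHom.mem_ker]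
    exact hMur q hq A hA g hg
  exact ⟨M.ρ.ker, hmem, fun s hs a => (hker s).1 hs a⟩

/-- The levels of `galLevels S` have finite index. -/
theorem finite_quotient_of_mem_galLevels (S : Finset Nat.Primes) (N : Subgroup GQ)
    (hN : N ∈ (galLevels S).mem) : Finite (GQ ⧸ N) := by
  obtain ⟨-, F, ⟨hfd, -⟩, rfl⟩ := hN
  haveI := hfd
  haveI := Fermat.Agent.S54.helper91.isGalois_Qbar
  exact Subgroup.quotient_finite_of_isOpen _ (IntermediateField.fixingSubgroup_isOpen F)

/-- Inertia at a prime `q ≠ p` acts trivially on the `p`-th roots of unity. -/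
theorem inertia_le_ker_cycloChar (p : ℕ) [Fact p.Prime] (q : ℕ) (hq : q.Prime) (hqp : q ≠ p)
    (A : ValuationSubring (AlgebraicClosure ℚ)) (hA : A.LiesOverPrime q) :
    A.inertiaSubgroupIn ℚ ≤ (cycloChar p).ker := by
  intro σ hσ
  obtain ⟨ζ, hζ⟩ := Fermat.Agent.S14.helper91.exists_primitiveRoot p
  rw [Fermat.Agent.S14.helper91.mem_ker_cycloChar_iff p hζ]
  have hp : p.Prime := Fact.out
  have hpn : ((p : ℕ) : AlgebraicClosure ℚ) ∉ A.nonunits := by
    intro h
    have h1 := (Fermat.Agent.S05.helper92.natCast_mem_nonunits_iff hq hA p).1 h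
    exact hqp ((Nat.prime_dvd_prime_iff_eq hq hp).1 h1)
  have hv : A.valuation ζ = 1 := by
    have h1 : (A.valuation ζ) ^ p = 1 := by rw [← map_pow, hζ.pow_eq_one, map_one]
    exact (pow_eq_one_iff_of_nonneg zero_le hp.ne_zero).1 h1
  have hζA : ζ ∈ A := (A.valuation_le_one_iff ζ).1 hv.le
  have hζA' : ζ⁻¹ ∈ A := by
    rw [← A.valuation_le_one_iff, map_inv₀, hv, inv_one]
  refine Fermat.Agent.S05.helper92.apply_eq_self_of_pow_fixed hσ hζA hζA' hpn ?_
  rw [hζ.pow_eq_one, map_one]

/-- CHARACTER statement of `Arith.lean`. -/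
theorem levelStatement (p : ℕ) [Fact p.Prime] (S : Finset Nat.Primes) :
    LevelStatement p S := by
  intro hpS
  refine ⟨fun N hN => finite_quotient_of_mem_galLevels S N hN, (cycloChar p).ker, ?_,
    fun g hg => hg⟩
  obtain ⟨ζ, hζ⟩ := Fermat.Agent.S14.helper91.exists_primitiveRoot p
  have hp : p.Prime := Fact.out
  have hint : IsIntegral ℚ ζ := (hζ.isIntegral hp.pos).tower_top
  haveI : FiniteDimensional ℚ (Fermat.Agent.S14.helper91.cycField ζ) :=
    IntermediateField.adjoin.finiteDimensional hint
  refine mem_galLevels_of_le S (cycloChar p).ker (Fermat.Agent.S14.helper91.cycField ζ)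
    (Fermat.Agent.S14.helper91.ker_cycloChar_eq_fixingSubgroup p hζ).ge ?_
  intro q hq A hA
  refine inertia_le_ker_cycloChar p q q.2 ?_ A hA
  intro h
  apply hq
  have : q = pPrime p := Subtype.ext h
  rw [this]
  exact hpS

end Fermat.Agent.S55.helper92
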