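import Fermat.Agent.S55.AInterface
import Fermat.Agent.S55.Arith

/-!
# S55: conditional assembly

`s55_of_inputs` : the frozen statement S55 from
* `MainA (galLocal S) p (cycloChar p)`  (module A),
* `BaseTarget p S`                      (modules SH + B + class field theory),
* `BridgeStatement p S`, `SmoothStatement p S`, `LevelStatement p S` (bridge to the Prelude).
-/

set_option autoImplicit false

open CategoryTheory Module groupCohomology ExtCitation

noncomputable section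

namespace Fermat.Agent.S55

lemma exists_nondeg_of_equiv {K V W V' W' : Type*} [Field K]
    [AddCommGroup V] [Module K V] [AddCommGroup W] [Module K W]
    [AddCommGroup V'] [Module K V'] [AddCommGroup W'] [Module K W']
    (e₁ : V ≃ₗ[K] V') (e₂ : W ≃ₗ[K] W') (B' : V' →ₗ[K] W' →ₗ[K] K) (hB' : IsNondeg B') :
    ∃ B : V →ₗ[K] W →ₗ[K] K,
      (∀ y, (∀ x, B y x = 0) → y = 0) ∧ (∀ x, (∀ y, B y x = 0) → x = 0) := by
  refine ⟨B'.compl₁₂ e₁.toLinearMap e₂.toLinearMap, ?_, ?_⟩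
  · intro y hy
    have h : e₁ y = 0 := hB'.1 (e₁ y) (fun x => by
      have h1 := hy (e₂.symm x)
      rw [LinearMap.compl₁₂_apply] at h1
      rw [LinearEquiv.coe_coe, LinearEquiv.coe_coe, LinearEquiv.apply_symm_apply] at h1
      exact h1)
    exact e₁.map_eq_zero_iff.mp h
  · intro x hx
    have h : e₂ x = 0 := hB'.2 (e₂ x) (fun y => by
      have h1 := hx (e₁.symm y)
      rw [LinearMap.compl₁₂_apply] at h1
      rw [LinearEquiv.coe_coe, LinearEquiv.coe_coe, LinearEquiv.apply_symm_apply] at h1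
      exact h1)
    exact e₂.map_eq_zero_iff.mp h

set_option maxHeartbeats 4000000 in
theorem s55_of_inputs {p : ℕ} [Fact p.Prime] (S : Finset Nat.Primes)
    (hA : MainA (galLocal S) p (cycloChar p)) (hB : BaseTarget p S)
    (hBr : BridgeStatement p S) (hSm : SmoothStatement p S) (hLv : LevelStatement p S)
    (hp2 : p ≠ 2) (hpS : pPrime p ∈ S)
    (M : Rep (ZMod p) (AlgebraicClosure ℚ ≃ₐ[ℚ] AlgebraicClosure ℚ))
    [FiniteDimensional (ZMod p) M]
    (hsm : ∀ m : M, ∃ F : IntermediateField ℚ (AlgebraicClosure ℚ), FiniteDimensional ℚ F ∧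
      ∀ s ∈ F.fixingSubgroup, M.ρ s m = m)
    (hMur : ∀ q : Nat.Primes, q ∉ S → ∀ A : ValuationSubring (AlgebraicClosure ℚ),
      A.LiesOverPrime (q : ℕ) → ∀ g ∈ A.inertiaSubgroupIn ℚ, M.ρ g = 1) :
    ∃ B : sha₁ S (M.dualTwist (cycloChar p)) →ₗ[ZMod p] sha₂ S M →ₗ[ZMod p] ZMod p,
      (∀ y, (∀ x, B y x = 0) → y = 0) ∧ (∀ x, (∀ y, B y x = 0) → x = 0) := by
  have hfd : Module.Finite (ZMod p) M := inferInstance
  have hsmooth : IsSmooth (galLevels S) M := hSm M hfd hsm hMur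
  obtain ⟨hfin, hχ⟩ := hLv hpS
  obtain ⟨tr, htr, hbase⟩ := hB
  have hprime : p.Prime := Fact.out
  have hchar : CharP (ZMod p) p := ZMod.charP p
  unfold MainA at hA
  obtain ⟨B', hB'⟩ := hA hprime hchar hfin hχ tr htr hbase M hfd hsmooth
  obtain ⟨⟨e₁⟩, ⟨e₂⟩⟩ := hBr hp2 hpS M hfd hsmooth
  exact exists_nondeg_of_equiv e₁ e₂ B' hB'

end Fermat.Agent.S55
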