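import Fermat.Agent.S55.AInd
import Fermat.Agent.S55.Assembly

/-!
# S55: assembly with the WEAK base hypothesis (`p ∤ [G:U]`)

The dévissage only uses the base case for `U` = preimage of a Sylow `p`-subgroup, so the base
hypothesis can be restricted to subgroups of index prime to `p` (request of module B: then
`cor ∘ res = [G:U] ≠ 0` suffices for the trace).

* `BaseHypP`, `BaseTargetP` : the weak base hypothesis / the weak deliverable of SH + B;
* `devissageP` : helper57's dévissage with the weak base hypothesis;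
* `mainAP_of_windows`, `s55_of_inputsP` : the assemblies.
-/

set_option autoImplicit false

universe u

open CategoryTheory Module groupCohomology ExtCitation

noncomputable section

namespace Fermat.Agent.S55

section Abstract

variable {k G : Type u} [Field k] [Group G] {𝒩 : Levels G} {ι : Type} (L : LocalData G 𝒩 ι)

/-- The weak base hypothesis: `Claim` for `k[G/U]`, `U` open of index prime to `p`, `χ|U = 1`. -/
def BaseHypP (p : ℕ) (χ : G →* kˣ) (tr : CcAmb3 L (groupCohomology.ofChar χ) →ₗ[k] k) : Prop :=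
  ∀ U : Subgroup G, (∃ N ∈ 𝒩.mem, N ≤ U) → (∀ g ∈ U, χ g = 1) → ¬ p ∣ U.index →
    Claim L (evPairing (permRep k U) χ) tr

lemma BaseHyp.toP {p : ℕ} {χ : G →* kˣ} {tr : CcAmb3 L (groupCohomology.ofChar χ) →ₗ[k] k}
    (h : BaseHyp L χ tr) : BaseHypP L p χ tr :=
  fun U hU hχ _ => h U hU hχ

open helper57 in
/-- helper57's dévissage, with the base case only for subgroups of index prime to `p`. -/
theorem devissageP {P : Rep.{u} k G → Prop} (p : ℕ) [Fact p.Prime] [CharP k p]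
    (hfin : ∀ N ∈ 𝒩.mem, Finite (G ⧸ N)) (χ : G →* kˣ)
    (hχ : ∃ N ∈ 𝒩.mem, ∀ g ∈ N, χ g = 1)
    (hretract : RetractClosed 𝒩 P) (hext : ExtClosed 𝒩 P)
    (hbase : ∀ U : Subgroup G, (∃ N ∈ 𝒩.mem, N ≤ U) → (∀ g ∈ U, χ g = 1) → ¬ p ∣ U.index →
      P (permRep k U)) :
    ∀ M : Rep.{u} k G, Module.Finite k M → IsSmooth 𝒩 M → P M := by
  intro M hMfin hMsm
  obtain ⟨N₁, hN₁, hM⟩ := hMsm
  obtain ⟨N₂, hN₂, hχ₂⟩ := hχ
  obtain ⟨N₀, hN₀, hN₀le⟩ := 𝒩.directed N₁ hN₁ N₂ hN₂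
  have hnorm : N₀.Normal := 𝒩.normal N₀ hN₀
  have hfinN₀ : Finite (G ⧸ N₀) := hfin N₀ hN₀
  obtain ⟨U, hle, hidx, hc⟩ := exists_sylow_preimage p N₀
  have hχU : ∀ g ∈ U, χ g = 1 :=
    char_trivial_of_pQuot χ (fun g hg => hχ₂ g (hN₀le hg).2) hc
  have hPU : P (permRep k U) := hbase U ⟨N₀, hN₀, hle⟩ hχU hidx
  have hfi : N₀.FiniteIndex := Subgroup.finiteIndex_of_finite_quotient
  have hfiU : U.FiniteIndex := Subgroup.finiteIndex_of_le hle
  have hfinU : Finite (G ⧸ U) := inferInstance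
  let _ : Fintype (G ⧸ U) := Fintype.ofFinite _
  let W : Rep.{u} k U := Rep.of (M.ρ.comp U.subtype)
  have hW : ∀ u : U, (u : G) ∈ N₀ → ∀ w, W.ρ u w = w := fun u hu w => hM u (hN₀le hu).1 w
  have hPind : P (Rep.of (indRepn W.ρ)) :=
    ind_of_perm hretract hext hN₀ hle hc hPU _ W hMfin hW rfl
  have hcard : (Fintype.card (G ⧸ U) : k) ≠ 0 := by
    rw [Ne, CharP.cast_eq_zero_iff k p, ← Nat.card_eq_fintype_card]
    exact hidx
  refine hretract M (Rep.of (indRepn W.ρ)) (toInd U M.ρ) (ofInd U M.ρ)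
    (toInd_equivariant U M.ρ) (ofInd_equivariant U M.ρ) (ofInd_toInd U M.ρ hcard) hMfin
    (inferInstance : Module.Finite k (G ⧸ U → M))
    ⟨N₁, hN₁, hM⟩ ⟨N₀, hN₀, fun s hs f => indRepn_trivial_of_mem hle W.ρ hW hs f⟩ hPind

/-- `MainA` with the weak base hypothesis. -/
def MainAP (p : ℕ) (χ : G →* kˣ) : Prop :=
  p.Prime → CharP k p → (∀ N ∈ 𝒩.mem, Finite (G ⧸ N)) → (∃ N ∈ 𝒩.mem, ∀ g ∈ N, χ g = 1) →
  ∀ tr : CcAmb3 L (groupCohomology.ofChar χ) →ₗ[k] k,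
    (∀ c ∈ Bc3 L (groupCohomology.ofChar χ), tr c = 0) → BaseHypP L p χ tr →
    ∀ M : Rep.{u} k G, Module.Finite k M → IsSmooth 𝒩 M →
      ∃ B : Sha1 L (M.dualTwist χ) →ₗ[k] Sha2 L M →ₗ[k] k, IsNondeg B

/-- `MainAP` from all package statements of module A. -/
theorem mainAP_of_windows (p : ℕ) (χ : G →* kˣ) (ε : k)
    (h0 : DevSurj0 (k := k) L) (h1i : DevInj1 (k := k) L) (h1s : DevSurj1 (k := k) L)
    (h2 : DevInj2 (k := k) L) (hret : RetStatement (k := k) L)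
    (hDD : DDStatement L χ) (hAdj : AdjStatement L ε) (hFinal : FinalStatement L χ) :
    MainAP L p χ := by
  intro hp hchar hfin hχ tr htr hbase M hM hsm
  have : Fact p.Prime := ⟨hp⟩
  have := hchar
  have hInd : ∀ M : Rep.{u} k G, Module.Finite k M → IsSmooth 𝒩 M →
      Claim L (evPairing M χ) tr := by
    refine devissageP (P := fun A : Rep.{u} k G => Claim L (evPairing A χ) tr) p hfin χ hχ
      ?_ ?_ hbase
    · intro A B i r hi hr hri _ _ _ _ hB
      exact hret B A _ _ _ (dualRetData χ ⟨i, hi⟩ ⟨r, hr⟩ hri) tr hB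
    · intro A₁ A A₂ i q hi hq hinj hsurj hex _ _ _ _ hA _ hc₁ hc₂
      let E := dualExtData (𝒩 := 𝒩) χ hχ ⟨i, hi⟩ ⟨q, hq⟩ hinj hsurj hex hA
      have e1 : Claim L E.φ₁ tr := hc₁
      have e2 : Claim L E.φ₂ tr := hc₂
      exact ⟨h0 _ _ _ _ _ _ _ E tr htr e1.surj0 e2.surj0 e1.inj1,
        h1i _ _ _ _ _ _ _ E tr htr e2.surj0 e1.inj1 e2.inj1,
        h1s _ _ _ _ _ _ _ E tr htr e1.surj1 e2.surj1 e1.inj2,
        h2 _ _ _ _ _ _ _ E tr htr e2.surj1 e1.inj2 e2.inj2⟩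
  have hsm' : IsSmooth 𝒩 (M.dualTwist χ) := isSmooth_dualTwist hχ hsm
  have hfd' : Module.Finite k (M.dualTwist χ) := by
    change Module.Finite k (Module.Dual k M)
    infer_instance
  have h1 := hInd M hM hsm
  have h2' := hInd (M.dualTwist χ) hfd' hsm'
  have h3 := hDD tr M hM h2'
  refine hFinal hχ tr htr M hM hsm ⟨ε, fun z hz w hw => ?_⟩ h3.inj1 h1.inj2
  have h := hAdj M (M.dualTwist χ) _ (evPairing M χ) hsm hsm' (isSmooth_ofChar hχ) z hz w hw
  have h0' := htr _ h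
  rw [map_sub, map_smul, smul_eq_mul, sub_eq_zero, evPairing_flip] at h0'
  exact h0'

end Abstract

/-- The WEAK deliverable of the arithmetic modules (SH + B + class field theory). -/
def BaseTargetP (p : ℕ) [Fact p.Prime] (S : Finset Nat.Primes) : Prop :=
  ∃ tr : CcAmb3 (galLocal S) (groupCohomology.ofChar (k := ZMod p) (cycloChar p)) →ₗ[ZMod p] ZMod p,
    (∀ c ∈ Bc3 (galLocal S) (groupCohomology.ofChar (k := ZMod p) (cycloChar p)), tr c = 0) ∧
    BaseHypP (galLocal S) p (cycloChar p) tr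

lemma BaseTarget.toP {p : ℕ} [Fact p.Prime] {S : Finset Nat.Primes} (h : BaseTarget p S) :
    BaseTargetP p S := by
  obtain ⟨tr, h1, h2⟩ := h
  exact ⟨tr, h1, h2.toP⟩

set_option maxHeartbeats 4000000 in
theorem s55_of_inputsP {p : ℕ} [Fact p.Prime] (S : Finset Nat.Primes)
    (hA : MainAP (galLocal S) p (cycloChar p)) (hB : BaseTargetP p S)
    (hBr : BridgeStatement p S) (hSm : SmoothStatement p S) (hLv : LevelStatement p S)
    (hp2 : p ≠ 2) (hpS : pPrime p ∈ S)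
    (M : Rep (ZMod p) (AlgebraicClosure ℚ ≃ₐ[ℚ] AlgebraicClosure ℚ))
    [FiniteDimensional (ZMod p) M]
    (hsm : ∀ m : M, ∃ F : IntermediateField ℚ (AlgebraicClosure ℚ), FiniteDimensional ℚ F ∧
      ∀ s ∈ F.fixingSubgroup, M.ρ s m = m)
    (hMur : ∀ q : Nat.Primes, q ∉ S → ∀ A : ValuationSubring (AlgebraicClosure ℚ),
      A.LiesOverPrime (q : ℕ) → ∀ g ∈ A.inertiaSubgroupIn ℚ, M.ρ g = 1) :
    ∃ B : sha₁ S (M.dualTwist (cycloChar p)) →ₗ[ZMod p] sha₂ S M →ₗ[ZMod p] ZMod p,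
      (∀ y, (∀ x, B y x = 0) → y = 0) ∧ (∀ x, (∀ y, B y x = 0) → x = 0) := by
  have hfd : Module.Finite (ZMod p) M := inferInstance
  have hsmooth : IsSmooth (galLevels S) M := hSm M hfd hsm hMur
  obtain ⟨hfin, hχ⟩ := hLv hpS
  obtain ⟨tr, htr, hbase⟩ := hB
  have hprime : p.Prime := Fact.out
  have hchar : CharP (ZMod p) p := ZMod.charP p
  unfold MainAP at hA
  obtain ⟨B', hB'⟩ := hA hprime hchar hfin hχ tr htr hbase M hfd hsmooth
  obtain ⟨⟨e₁⟩, ⟨e₂⟩⟩ := hBr hp2 hpS M hfd hsmooth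
  exact exists_nondeg_of_equiv e₁ e₂ B' hB'

end Fermat.Agent.S55
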