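import Mathlib

/-!
# Homogeneous cochains in low degrees and the prism homotopy

Purely combinatorial toolkit (no group structure): homogeneous cochains `X → ⋯ → X → N` in
degrees `0 … 4`, their differentials, pull-backs along maps `ρ : X → Y`, the prism operators
`P₁ … P₄` attached to two maps `ρ₀ ρ₁ : X → Y`, and the homotopy identities
`d P + P d = ρ₁^* - ρ₀^*`.
-/

set_option linter.unusedSectionVars false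

namespace Fermat.Agent.S55.helper35

variable {X Y Z N : Type*} [AddCommGroup N]

/-! ### Differentials -/

/-- Homogeneous differential in degree `0`. -/
def hd0 (F : X → N) : X → X → N := fun x₀ x₁ => F x₁ - F x₀

/-- Homogeneous differential in degree `1`. -/
def hd1 (F : X → X → N) : X → X → X → N := fun x₀ x₁ x₂ => F x₁ x₂ - F x₀ x₂ + F x₀ x₁

/-- Homogeneous differential in degree `2`. -/
def hd2 (F : X → X → X → N) : X → X → X → X → N :=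
  fun x₀ x₁ x₂ x₃ => F x₁ x₂ x₃ - F x₀ x₂ x₃ + F x₀ x₁ x₃ - F x₀ x₁ x₂

/-- Homogeneous differential in degree `3`. -/
def hd3 (F : X → X → X → X → N) : X → X → X → X → X → N :=
  fun x₀ x₁ x₂ x₃ x₄ =>
    F x₁ x₂ x₃ x₄ - F x₀ x₂ x₃ x₄ + F x₀ x₁ x₃ x₄ - F x₀ x₁ x₂ x₄ + F x₀ x₁ x₂ x₃

@[simp] lemma hd0_apply (F : X → N) (x₀ x₁ : X) : hd0 F x₀ x₁ = F x₁ - F x₀ := rfl

@[simp] lemma hd1_apply (F : X → X → N) (x₀ x₁ x₂ : X) :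
    hd1 F x₀ x₁ x₂ = F x₁ x₂ - F x₀ x₂ + F x₀ x₁ := rfl

@[simp] lemma hd2_apply (F : X → X → X → N) (x₀ x₁ x₂ x₃ : X) :
    hd2 F x₀ x₁ x₂ x₃ = F x₁ x₂ x₃ - F x₀ x₂ x₃ + F x₀ x₁ x₃ - F x₀ x₁ x₂ := rfl

@[simp] lemma hd3_apply (F : X → X → X → X → N) (x₀ x₁ x₂ x₃ x₄ : X) :
    hd3 F x₀ x₁ x₂ x₃ x₄ =
      F x₁ x₂ x₃ x₄ - F x₀ x₂ x₃ x₄ + F x₀ x₁ x₃ x₄ - F x₀ x₁ x₂ x₄ + F x₀ x₁ x₂ x₃ := rfl

lemma hd1_hd0 (F : X → N) : hd1 (hd0 F) = 0 := by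
  funext x₀ x₁ x₂; simp only [hd1_apply, hd0_apply, Pi.zero_apply]; abel

lemma hd2_hd1 (F : X → X → N) : hd2 (hd1 F) = 0 := by
  funext x₀ x₁ x₂ x₃; simp only [hd2_apply, hd1_apply, Pi.zero_apply]; abel

lemma hd3_hd2 (F : X → X → X → N) : hd3 (hd2 F) = 0 := by
  funext x₀ x₁ x₂ x₃ x₄; simp only [hd3_apply, hd2_apply, Pi.zero_apply]; abel

lemma hd0_add (F F' : X → N) : hd0 (F + F') = hd0 F + hd0 F' := by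
  funext x₀ x₁; simp only [hd0_apply, Pi.add_apply]; abel

lemma hd1_add (F F' : X → X → N) : hd1 (F + F') = hd1 F + hd1 F' := by
  funext x₀ x₁ x₂; simp only [hd1_apply, Pi.add_apply]; abel

lemma hd2_add (F F' : X → X → X → N) : hd2 (F + F') = hd2 F + hd2 F' := by
  funext x₀ x₁ x₂ x₃; simp only [hd2_apply, Pi.add_apply]; abel

lemma hd3_add (F F' : X → X → X → X → N) : hd3 (F + F') = hd3 F + hd3 F' := by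
  funext x₀ x₁ x₂ x₃ x₄; simp only [hd3_apply, Pi.add_apply]; abel

lemma hd0_sub (F F' : X → N) : hd0 (F - F') = hd0 F - hd0 F' := by
  funext x₀ x₁; simp only [hd0_apply, Pi.sub_apply]; abel

lemma hd1_sub (F F' : X → X → N) : hd1 (F - F') = hd1 F - hd1 F' := by
  funext x₀ x₁ x₂; simp only [hd1_apply, Pi.sub_apply]; abel

lemma hd2_sub (F F' : X → X → X → N) : hd2 (F - F') = hd2 F - hd2 F' := by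
  funext x₀ x₁ x₂ x₃; simp only [hd2_apply, Pi.sub_apply]; abel

lemma hd3_sub (F F' : X → X → X → X → N) : hd3 (F - F') = hd3 F - hd3 F' := by
  funext x₀ x₁ x₂ x₃ x₄; simp only [hd3_apply, Pi.sub_apply]; abel

lemma hd0_neg (F : X → N) : hd0 (-F) = -hd0 F := by
  funext x₀ x₁; simp only [hd0_apply, Pi.neg_apply]; abel

lemma hd1_neg (F : X → X → N) : hd1 (-F) = -hd1 F := by
  funext x₀ x₁ x₂; simp only [hd1_apply, Pi.neg_apply]; abel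

lemma hd2_neg (F : X → X → X → N) : hd2 (-F) = -hd2 F := by
  funext x₀ x₁ x₂ x₃; simp only [hd2_apply, Pi.neg_apply]; abel

lemma hd3_neg (F : X → X → X → X → N) : hd3 (-F) = -hd3 F := by
  funext x₀ x₁ x₂ x₃ x₄; simp only [hd3_apply, Pi.neg_apply]; abel

@[simp] lemma hd0_zero : hd0 (0 : X → N) = 0 := by
  funext x₀ x₁; simp

@[simp] lemma hd1_zero : hd1 (0 : X → X → N) = 0 := by
  funext x₀ x₁ x₂; simp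

@[simp] lemma hd2_zero : hd2 (0 : X → X → X → N) = 0 := by
  funext x₀ x₁ x₂ x₃; simp

@[simp] lemma hd3_zero : hd3 (0 : X → X → X → X → N) = 0 := by
  funext x₀ x₁ x₂ x₃ x₄; simp

/-! ### Pull-backs -/

/-- Pull-back of a `0`-cochain. -/
def pull0 (ρ : X → Y) (F : Y → N) : X → N := fun x₀ => F (ρ x₀)

/-- Pull-back of a `1`-cochain. -/
def pull1 (ρ : X → Y) (F : Y → Y → N) : X → X → N := fun x₀ x₁ => F (ρ x₀) (ρ x₁)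

/-- Pull-back of a `2`-cochain. -/
def pull2 (ρ : X → Y) (F : Y → Y → Y → N) : X → X → X → N :=
  fun x₀ x₁ x₂ => F (ρ x₀) (ρ x₁) (ρ x₂)

/-- Pull-back of a `3`-cochain. -/
def pull3 (ρ : X → Y) (F : Y → Y → Y → Y → N) : X → X → X → X → N :=
  fun x₀ x₁ x₂ x₃ => F (ρ x₀) (ρ x₁) (ρ x₂) (ρ x₃)

/-- Pull-back of a `4`-cochain. -/
def pull4 (ρ : X → Y) (F : Y → Y → Y → Y → Y → N) : X → X → X → X → X → N :=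
  fun x₀ x₁ x₂ x₃ x₄ => F (ρ x₀) (ρ x₁) (ρ x₂) (ρ x₃) (ρ x₄)

@[simp] lemma pull0_apply (ρ : X → Y) (F : Y → N) (x₀ : X) : pull0 ρ F x₀ = F (ρ x₀) := rfl

@[simp] lemma pull1_apply (ρ : X → Y) (F : Y → Y → N) (x₀ x₁ : X) :
    pull1 ρ F x₀ x₁ = F (ρ x₀) (ρ x₁) := rfl

@[simp] lemma pull2_apply (ρ : X → Y) (F : Y → Y → Y → N) (x₀ x₁ x₂ : X) :
    pull2 ρ F x₀ x₁ x₂ = F (ρ x₀) (ρ x₁) (ρ x₂) := rfl

@[simp] lemma pull3_apply (ρ : X → Y) (F : Y → Y → Y → Y → N) (x₀ x₁ x₂ x₃ : X) :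
    pull3 ρ F x₀ x₁ x₂ x₃ = F (ρ x₀) (ρ x₁) (ρ x₂) (ρ x₃) := rfl

@[simp] lemma pull4_apply (ρ : X → Y) (F : Y → Y → Y → Y → Y → N) (x₀ x₁ x₂ x₃ x₄ : X) :
    pull4 ρ F x₀ x₁ x₂ x₃ x₄ = F (ρ x₀) (ρ x₁) (ρ x₂) (ρ x₃) (ρ x₄) := rfl

lemma hd0_pull0 (ρ : X → Y) (F : Y → N) : hd0 (pull0 ρ F) = pull1 ρ (hd0 F) := rfl

lemma hd1_pull1 (ρ : X → Y) (F : Y → Y → N) : hd1 (pull1 ρ F) = pull2 ρ (hd1 F) := rfl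

lemma hd2_pull2 (ρ : X → Y) (F : Y → Y → Y → N) : hd2 (pull2 ρ F) = pull3 ρ (hd2 F) := rfl

lemma hd3_pull3 (ρ : X → Y) (F : Y → Y → Y → Y → N) : hd3 (pull3 ρ F) = pull4 ρ (hd3 F) := rfl

lemma pull0_comp (ρ : X → Y) (σ : Y → Z) (F : Z → N) : pull0 ρ (pull0 σ F) = pull0 (σ ∘ ρ) F := rfl

lemma pull1_comp (ρ : X → Y) (σ : Y → Z) (F : Z → Z → N) :
    pull1 ρ (pull1 σ F) = pull1 (σ ∘ ρ) F := rfl

lemma pull2_comp (ρ : X → Y) (σ : Y → Z) (F : Z → Z → Z → N) :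
    pull2 ρ (pull2 σ F) = pull2 (σ ∘ ρ) F := rfl

lemma pull3_comp (ρ : X → Y) (σ : Y → Z) (F : Z → Z → Z → Z → N) :
    pull3 ρ (pull3 σ F) = pull3 (σ ∘ ρ) F := rfl

@[simp] lemma pull0_id (F : X → N) : pull0 id F = F := rfl
@[simp] lemma pull1_id (F : X → X → N) : pull1 id F = F := rfl
@[simp] lemma pull2_id (F : X → X → X → N) : pull2 id F = F := rfl
@[simp] lemma pull3_id (F : X → X → X → X → N) : pull3 id F = F := rfl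

/-! ### Prism operators -/

/-- Prism operator `C¹(Y) → C⁰(X)`. -/
def prism1 (ρ₀ ρ₁ : X → Y) (F : Y → Y → N) : X → N := fun x₀ => F (ρ₀ x₀) (ρ₁ x₀)

/-- Prism operator `C²(Y) → C¹(X)`. -/
def prism2 (ρ₀ ρ₁ : X → Y) (F : Y → Y → Y → N) : X → X → N :=
  fun x₀ x₁ => F (ρ₀ x₀) (ρ₁ x₀) (ρ₁ x₁) - F (ρ₀ x₀) (ρ₀ x₁) (ρ₁ x₁)

/-- Prism operator `C³(Y) → C²(X)`. -/
def prism3 (ρ₀ ρ₁ : X → Y) (F : Y → Y → Y → Y → N) : X → X → X → N :=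
  fun x₀ x₁ x₂ =>
    F (ρ₀ x₀) (ρ₁ x₀) (ρ₁ x₁) (ρ₁ x₂) - F (ρ₀ x₀) (ρ₀ x₁) (ρ₁ x₁) (ρ₁ x₂)
      + F (ρ₀ x₀) (ρ₀ x₁) (ρ₀ x₂) (ρ₁ x₂)

/-- Prism operator `C⁴(Y) → C³(X)`. -/
def prism4 (ρ₀ ρ₁ : X → Y) (F : Y → Y → Y → Y → Y → N) : X → X → X → X → N :=
  fun x₀ x₁ x₂ x₃ =>
    F (ρ₀ x₀) (ρ₁ x₀) (ρ₁ x₁) (ρ₁ x₂) (ρ₁ x₃) - F (ρ₀ x₀) (ρ₀ x₁) (ρ₁ x₁) (ρ₁ x₂) (ρ₁ x₃)
      + F (ρ₀ x₀) (ρ₀ x₁) (ρ₀ x₂) (ρ₁ x₂) (ρ₁ x₃)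
      - F (ρ₀ x₀) (ρ₀ x₁) (ρ₀ x₂) (ρ₀ x₃) (ρ₁ x₃)

@[simp] lemma prism1_apply (ρ₀ ρ₁ : X → Y) (F : Y → Y → N) (x₀ : X) :
    prism1 ρ₀ ρ₁ F x₀ = F (ρ₀ x₀) (ρ₁ x₀) := rfl

@[simp] lemma prism2_apply (ρ₀ ρ₁ : X → Y) (F : Y → Y → Y → N) (x₀ x₁ : X) :
    prism2 ρ₀ ρ₁ F x₀ x₁ = F (ρ₀ x₀) (ρ₁ x₀) (ρ₁ x₁) - F (ρ₀ x₀) (ρ₀ x₁) (ρ₁ x₁) := rfl

@[simp] lemma prism3_apply (ρ₀ ρ₁ : X → Y) (F : Y → Y → Y → Y → N) (x₀ x₁ x₂ : X) :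
    prism3 ρ₀ ρ₁ F x₀ x₁ x₂ =
      F (ρ₀ x₀) (ρ₁ x₀) (ρ₁ x₁) (ρ₁ x₂) - F (ρ₀ x₀) (ρ₀ x₁) (ρ₁ x₁) (ρ₁ x₂)
        + F (ρ₀ x₀) (ρ₀ x₁) (ρ₀ x₂) (ρ₁ x₂) := rfl

@[simp] lemma prism4_apply (ρ₀ ρ₁ : X → Y) (F : Y → Y → Y → Y → Y → N) (x₀ x₁ x₂ x₃ : X) :
    prism4 ρ₀ ρ₁ F x₀ x₁ x₂ x₃ =
      F (ρ₀ x₀) (ρ₁ x₀) (ρ₁ x₁) (ρ₁ x₂) (ρ₁ x₃) - F (ρ₀ x₀) (ρ₀ x₁) (ρ₁ x₁) (ρ₁ x₂) (ρ₁ x₃)
        + F (ρ₀ x₀) (ρ₀ x₁) (ρ₀ x₂) (ρ₁ x₂) (ρ₁ x₃)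
        - F (ρ₀ x₀) (ρ₀ x₁) (ρ₀ x₂) (ρ₀ x₃) (ρ₁ x₃) := rfl

/-- Homotopy identity in degree `0`. -/
theorem prism1_hd0 (ρ₀ ρ₁ : X → Y) (F : Y → N) :
    prism1 ρ₀ ρ₁ (hd0 F) = pull0 ρ₁ F - pull0 ρ₀ F := by
  funext x₀; simp only [prism1_apply, hd0_apply, pull0_apply, Pi.sub_apply]

/-- Homotopy identity in degree `1`. -/
theorem hd0_prism1_add (ρ₀ ρ₁ : X → Y) (F : Y → Y → N) :
    hd0 (prism1 ρ₀ ρ₁ F) + prism2 ρ₀ ρ₁ (hd1 F) = pull1 ρ₁ F - pull1 ρ₀ F := by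
  funext x₀ x₁
  simp only [Pi.add_apply, hd0_apply, prism1_apply, prism2_apply, hd1_apply, pull1_apply,
    Pi.sub_apply]
  abel

/-- Homotopy identity in degree `2`. -/
theorem hd1_prism2_add (ρ₀ ρ₁ : X → Y) (F : Y → Y → Y → N) :
    hd1 (prism2 ρ₀ ρ₁ F) + prism3 ρ₀ ρ₁ (hd2 F) = pull2 ρ₁ F - pull2 ρ₀ F := by
  funext x₀ x₁ x₂
  simp only [Pi.add_apply, hd1_apply, prism2_apply, prism3_apply, hd2_apply, pull2_apply,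
    Pi.sub_apply]
  abel

/-- Homotopy identity in degree `3`. -/
theorem hd2_prism3_add (ρ₀ ρ₁ : X → Y) (F : Y → Y → Y → Y → N) :
    hd2 (prism3 ρ₀ ρ₁ F) + prism4 ρ₀ ρ₁ (hd3 F) = pull3 ρ₁ F - pull3 ρ₀ F := by
  funext x₀ x₁ x₂ x₃
  simp only [Pi.add_apply, hd2_apply, prism3_apply, prism4_apply, hd3_apply, pull3_apply,
    Pi.sub_apply]
  abel

/-- On cocycles: the two pull-backs of a `1`-cocycle differ by a coboundary. -/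
theorem pull1_sub_pull1_of_cocycle (ρ₀ ρ₁ : X → Y) (F : Y → Y → N) (hF : hd1 F = 0) :
    pull1 ρ₁ F - pull1 ρ₀ F = hd0 (prism1 ρ₀ ρ₁ F) := by
  rw [← hd0_prism1_add, hF]
  have : prism2 ρ₀ ρ₁ (0 : Y → Y → Y → N) = 0 := by funext x₀ x₁; simp
  rw [this, add_zero]

/-- On cocycles: the two pull-backs of a `2`-cocycle differ by a coboundary. -/
theorem pull2_sub_pull2_of_cocycle (ρ₀ ρ₁ : X → Y) (F : Y → Y → Y → N) (hF : hd2 F = 0) :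
    pull2 ρ₁ F - pull2 ρ₀ F = hd1 (prism2 ρ₀ ρ₁ F) := by
  rw [← hd1_prism2_add, hF]
  have : prism3 ρ₀ ρ₁ (0 : Y → Y → Y → Y → N) = 0 := by funext x₀ x₁ x₂; simp
  rw [this, add_zero]

/-- On cocycles: the two pull-backs of a `3`-cocycle differ by a coboundary. -/
theorem pull3_sub_pull3_of_cocycle (ρ₀ ρ₁ : X → Y) (F : Y → Y → Y → Y → N) (hF : hd3 F = 0) :
    pull3 ρ₁ F - pull3 ρ₀ F = hd2 (prism3 ρ₀ ρ₁ F) := by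
  rw [← hd2_prism3_add, hF]
  have : prism4 ρ₀ ρ₁ (0 : Y → Y → Y → Y → Y → N) = 0 := by funext x₀ x₁ x₂ x₃; simp
  rw [this, add_zero]

end Fermat.Agent.S55.helper35
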