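import Mathlib
import Fermat.Agent.S55.Defs
import Fermat.Agent.S55.helper35_Prism

/-!
# Dictionary between inhomogeneous and homogeneous cochains in low degrees

For `A : Rep k Γ` we define `homog_n : (Γⁿ → A) → (Γ → ⋯ → Γ → A)` (`n + 1` arguments),
`homog_n f x₀ … x_n = ρ(x₀) (f (x₀⁻¹ x₁, …, x_{n-1}⁻¹ x_n))`, its inverse `inhom_n` on
equivariant cochains, and show that it intertwines Mathlib's differentials `d₀₁`, `d₁₂`, `d₂₃`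
(and `d₃₄` of `Defs.lean`) with the homogeneous differentials `hd0 … hd3`.
-/

set_option autoImplicit false
set_option linter.unusedSectionVars false

open groupCohomology

namespace Fermat.Agent.S55.helper35

universe u

variable {k Γ : Type u} [CommRing k] [Group Γ] (A : Rep.{u} k Γ)

/-! ### Definitions -/

/-- homogeneous form of a `0`-cochain -/
def homog0 (a : A) : Γ → A := fun x₀ => A.ρ x₀ a

/-- homogeneous form of a `1`-cochain -/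
def homog1 (f : Γ → A) : Γ → Γ → A := fun x₀ x₁ => A.ρ x₀ (f (x₀⁻¹ * x₁))

/-- homogeneous form of a `2`-cochain -/
def homog2 (f : Γ × Γ → A) : Γ → Γ → Γ → A :=
  fun x₀ x₁ x₂ => A.ρ x₀ (f (x₀⁻¹ * x₁, x₁⁻¹ * x₂))

/-- homogeneous form of a `3`-cochain -/
def homog3 (f : Γ × Γ × Γ → A) : Γ → Γ → Γ → Γ → A :=
  fun x₀ x₁ x₂ x₃ => A.ρ x₀ (f (x₀⁻¹ * x₁, x₁⁻¹ * x₂, x₂⁻¹ * x₃))

/-- homogeneous form of a `4`-cochain -/
def homog4 (f : Γ × Γ × Γ × Γ → A) : Γ → Γ → Γ → Γ → Γ → A :=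
  fun x₀ x₁ x₂ x₃ x₄ => A.ρ x₀ (f (x₀⁻¹ * x₁, x₁⁻¹ * x₂, x₂⁻¹ * x₃, x₃⁻¹ * x₄))

/-- inhomogeneous form of a homogeneous `0`-cochain -/
def inhom0 (F : Γ → A) : A := F 1

/-- inhomogeneous form of a homogeneous `1`-cochain -/
def inhom1 (F : Γ → Γ → A) : Γ → A := fun g => F 1 g

/-- inhomogeneous form of a homogeneous `2`-cochain -/
def inhom2 (F : Γ → Γ → Γ → A) : Γ × Γ → A := fun g => F 1 g.1 (g.1 * g.2)

/-- inhomogeneous form of a homogeneous `3`-cochain -/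
def inhom3 (F : Γ → Γ → Γ → Γ → A) : Γ × Γ × Γ → A :=
  fun g => F 1 g.1 (g.1 * g.2.1) (g.1 * g.2.1 * g.2.2)

/-- inhomogeneous form of a homogeneous `4`-cochain -/
def inhom4 (F : Γ → Γ → Γ → Γ → Γ → A) : Γ × Γ × Γ × Γ → A :=
  fun g => F 1 g.1 (g.1 * g.2.1) (g.1 * g.2.1 * g.2.2.1) (g.1 * g.2.1 * g.2.2.1 * g.2.2.2)

@[simp] lemma homog0_apply (a : A) (x₀ : Γ) : homog0 A a x₀ = A.ρ x₀ a := rfl
@[simp] lemma homog1_apply (f : Γ → A) (x₀ x₁ : Γ) :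
    homog1 A f x₀ x₁ = A.ρ x₀ (f (x₀⁻¹ * x₁)) := rfl
@[simp] lemma homog2_apply (f : Γ × Γ → A) (x₀ x₁ x₂ : Γ) :
    homog2 A f x₀ x₁ x₂ = A.ρ x₀ (f (x₀⁻¹ * x₁, x₁⁻¹ * x₂)) := rfl
@[simp] lemma homog3_apply (f : Γ × Γ × Γ → A) (x₀ x₁ x₂ x₃ : Γ) :
    homog3 A f x₀ x₁ x₂ x₃ = A.ρ x₀ (f (x₀⁻¹ * x₁, x₁⁻¹ * x₂, x₂⁻¹ * x₃)) := rfl
@[simp] lemma homog4_apply (f : Γ × Γ × Γ × Γ → A) (x₀ x₁ x₂ x₃ x₄ : Γ) :
    homog4 A f x₀ x₁ x₂ x₃ x₄ =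
      A.ρ x₀ (f (x₀⁻¹ * x₁, x₁⁻¹ * x₂, x₂⁻¹ * x₃, x₃⁻¹ * x₄)) := rfl

@[simp] lemma inhom0_apply (F : Γ → A) : inhom0 A F = F 1 := rfl
@[simp] lemma inhom1_apply (F : Γ → Γ → A) (g : Γ) : inhom1 A F g = F 1 g := rfl
@[simp] lemma inhom2_apply (F : Γ → Γ → Γ → A) (g₁ g₂ : Γ) :
    inhom2 A F (g₁, g₂) = F 1 g₁ (g₁ * g₂) := rfl
@[simp] lemma inhom3_apply (F : Γ → Γ → Γ → Γ → A) (g₁ g₂ g₃ : Γ) :
    inhom3 A F (g₁, g₂, g₃) = F 1 g₁ (g₁ * g₂) (g₁ * g₂ * g₃) := rfl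
@[simp] lemma inhom4_apply (F : Γ → Γ → Γ → Γ → Γ → A) (g₁ g₂ g₃ g₄ : Γ) :
    inhom4 A F (g₁, g₂, g₃, g₄) = F 1 g₁ (g₁ * g₂) (g₁ * g₂ * g₃) (g₁ * g₂ * g₃ * g₄) := rfl

/-! ### `inhom ∘ homog = id` -/

@[simp] lemma inhom0_homog0 (a : A) : inhom0 A (homog0 A a) = a := by simp

@[simp] lemma inhom1_homog1 (f : Γ → A) : inhom1 A (homog1 A f) = f := by
  funext g; simp

@[simp] lemma inhom2_homog2 (f : Γ × Γ → A) : inhom2 A (homog2 A f) = f := by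
  funext ⟨g₁, g₂⟩; simp

@[simp] lemma inhom3_homog3 (f : Γ × Γ × Γ → A) : inhom3 A (homog3 A f) = f := by
  funext ⟨g₁, g₂, g₃⟩; simp [mul_assoc]

@[simp] lemma inhom4_homog4 (f : Γ × Γ × Γ × Γ → A) : inhom4 A (homog4 A f) = f := by
  funext ⟨g₁, g₂, g₃, g₄⟩; simp [mul_assoc]

lemma homog1_injective : Function.Injective (homog1 A) :=
  Function.LeftInverse.injective (g := inhom1 A) (inhom1_homog1 A)

lemma homog2_injective : Function.Injective (homog2 A) :=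
  Function.LeftInverse.injective (g := inhom2 A) (inhom2_homog2 A)

lemma homog3_injective : Function.Injective (homog3 A) :=
  Function.LeftInverse.injective (g := inhom3 A) (inhom3_homog3 A)

lemma homog4_injective : Function.Injective (homog4 A) :=
  Function.LeftInverse.injective (g := inhom4 A) (inhom4_homog4 A)

/-! ### Equivariance -/

/-- equivariance of homogeneous cochains -/
def IsEqv0 (F : Γ → A) : Prop := ∀ g x₀, F (g * x₀) = A.ρ g (F x₀)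
def IsEqv1 (F : Γ → Γ → A) : Prop := ∀ g x₀ x₁, F (g * x₀) (g * x₁) = A.ρ g (F x₀ x₁)
def IsEqv2 (F : Γ → Γ → Γ → A) : Prop :=
  ∀ g x₀ x₁ x₂, F (g * x₀) (g * x₁) (g * x₂) = A.ρ g (F x₀ x₁ x₂)
def IsEqv3 (F : Γ → Γ → Γ → Γ → A) : Prop :=
  ∀ g x₀ x₁ x₂ x₃, F (g * x₀) (g * x₁) (g * x₂) (g * x₃) = A.ρ g (F x₀ x₁ x₂ x₃)
def IsEqv4 (F : Γ → Γ → Γ → Γ → Γ → A) : Prop :=
  ∀ g x₀ x₁ x₂ x₃ x₄,
    F (g * x₀) (g * x₁) (g * x₂) (g * x₃) (g * x₄) = A.ρ g (F x₀ x₁ x₂ x₃ x₄)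

lemma isEqv0_homog0 (a : A) : IsEqv0 A (homog0 A a) := fun g x₀ => by
  simp [map_mul]

lemma isEqv1_homog1 (f : Γ → A) : IsEqv1 A (homog1 A f) := fun g x₀ x₁ => by
  simp [map_mul, mul_assoc]

lemma isEqv2_homog2 (f : Γ × Γ → A) : IsEqv2 A (homog2 A f) := fun g x₀ x₁ x₂ => by
  simp [map_mul, mul_assoc]

lemma isEqv3_homog3 (f : Γ × Γ × Γ → A) : IsEqv3 A (homog3 A f) := fun g x₀ x₁ x₂ x₃ => by
  simp [map_mul, mul_assoc]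

lemma isEqv4_homog4 (f : Γ × Γ × Γ × Γ → A) : IsEqv4 A (homog4 A f) :=
  fun g x₀ x₁ x₂ x₃ x₄ => by
    simp [map_mul, mul_assoc]

lemma homog0_inhom0 {F : Γ → A} (hF : IsEqv0 A F) : homog0 A (inhom0 A F) = F := by
  funext x₀
  have := hF x₀ 1
  simp only [mul_one] at this
  simp [this]

lemma homog1_inhom1 {F : Γ → Γ → A} (hF : IsEqv1 A F) : homog1 A (inhom1 A F) = F := by
  funext x₀ x₁
  have := hF x₀ 1 (x₀⁻¹ * x₁)
  simp only [mul_one, mul_inv_cancel_left] at this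
  simp [this]

lemma homog2_inhom2 {F : Γ → Γ → Γ → A} (hF : IsEqv2 A F) : homog2 A (inhom2 A F) = F := by
  funext x₀ x₁ x₂
  have := hF x₀ 1 (x₀⁻¹ * x₁) (x₀⁻¹ * x₂)
  simp only [mul_one, mul_inv_cancel_left] at this
  simp [this, mul_assoc]

lemma homog3_inhom3 {F : Γ → Γ → Γ → Γ → A} (hF : IsEqv3 A F) :
    homog3 A (inhom3 A F) = F := by
  funext x₀ x₁ x₂ x₃
  have := hF x₀ 1 (x₀⁻¹ * x₁) (x₀⁻¹ * x₂) (x₀⁻¹ * x₃)
  simp only [mul_one, mul_inv_cancel_left] at this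
  simp [this, mul_assoc]

/-! ### Differentials -/

theorem hd0_homog0 (a : A) : hd0 (homog0 A a) = homog1 A ((d₀₁ A).hom a) := by
  funext x₀ x₁
  simp only [hd0_apply, homog0_apply, homog1_apply, d₀₁_hom_apply, map_sub]
  rw [← Module.End.mul_apply, ← map_mul, mul_inv_cancel_left]

theorem hd1_homog1 (f : Γ → A) : hd1 (homog1 A f) = homog2 A ((d₁₂ A).hom f) := by
  funext x₀ x₁ x₂
  simp only [hd1_apply, homog1_apply, homog2_apply, d₁₂_hom_apply, map_sub, map_add]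
  rw [← Module.End.mul_apply, ← map_mul, mul_inv_cancel_left]
  congr 3
  rw [mul_assoc, mul_inv_cancel_left]

theorem hd2_homog2 (f : Γ × Γ → A) : hd2 (homog2 A f) = homog3 A ((d₂₃ A).hom f) := by
  funext x₀ x₁ x₂ x₃
  simp only [hd2_apply, homog2_apply, homog3_apply, d₂₃_hom_apply, map_sub, map_add]
  rw [← Module.End.mul_apply, ← map_mul, mul_inv_cancel_left]
  have e1 : x₀⁻¹ * x₁ * (x₁⁻¹ * x₂) = x₀⁻¹ * x₂ := by group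
  have e2 : x₁⁻¹ * x₂ * (x₂⁻¹ * x₃) = x₁⁻¹ * x₃ := by group
  rw [e1, e2]

theorem hd3_homog3 (f : Γ × Γ × Γ → A) :
    hd3 (homog3 A f) = homog4 A (Fermat.Agent.S55.d₃₄ A f) := by
  funext x₀ x₁ x₂ x₃ x₄
  simp only [hd3_apply, homog3_apply, homog4_apply, Fermat.Agent.S55.d₃₄_apply, map_sub, map_add]
  rw [← Module.End.mul_apply, ← map_mul, mul_inv_cancel_left]
  have e1 : x₀⁻¹ * x₁ * (x₁⁻¹ * x₂) = x₀⁻¹ * x₂ := by group
  have e2 : x₁⁻¹ * x₂ * (x₂⁻¹ * x₃) = x₁⁻¹ * x₃ := by group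
  have e3 : x₂⁻¹ * x₃ * (x₃⁻¹ * x₄) = x₂⁻¹ * x₄ := by group
  rw [e1, e2, e3]

end Fermat.Agent.S55.helper35
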