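import Mathlib
import Fermat.Agent.S55.helper35_SHDefs
import Fermat.Agent.S55.helper35_Homog

/-!
# S55 / SH (helper35): sections, retractions, transfers and the corestriction of cone cochains

* `sec U : G ⧸ U → G` : a section with `sec U 1 = 1`;
* `retr U : G → U` : the left `U`-equivariant retraction `x ↦ x * sec U (x⁻¹ U)`;
* `trf₀ … trf₄` : the transfer `F ↦ ∑ i, w i • F ∘ (l i)` of homogeneous cochains;
* `corCone` : the corestriction `CcAmb3 (D.localData hU) k → CcAmb3 L (ofChar χ)`.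
-/

set_option autoImplicit false
set_option linter.unusedSectionVars false

open groupCohomology

noncomputable section

namespace Fermat.Agent.S55.helper35

open Fermat.Agent.S55


section Sections

variable {Γ : Type} [Group Γ] (H : Subgroup Γ)

open Classical in
/-- A section of `Γ → Γ ⧸ H` sending the trivial coset to `1`. -/
def sec (c : Γ ⧸ H) : Γ := if c = ((1 : Γ) : Γ ⧸ H) then 1 else Quotient.out c

@[simp] lemma mk_sec (c : Γ ⧸ H) : ((sec H c : Γ) : Γ ⧸ H) = c := by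
  classical
  unfold sec
  split_ifs with h
  · exact h.symm
  · exact Quotient.out_eq' c

@[simp] lemma sec_one : sec H ((1 : Γ) : Γ ⧸ H) = 1 := by
  classical
  simp [sec]

lemma sec_mk_mem (x : Γ) : x⁻¹ * sec H (x : Γ ⧸ H) ∈ H := by
  rw [← QuotientGroup.eq, mk_sec]

/-- The left `H`-equivariant retraction `Γ → H`, `x ↦ x * sec (x⁻¹ H)`. -/
def retr (x : Γ) : ↥H :=
  ⟨x * sec H ((x⁻¹ : Γ) : Γ ⧸ H), by
    have := sec_mk_mem H x⁻¹
    rwa [inv_inv] at this⟩

@[simp] lemma coe_retr (x : Γ) : ((retr H x : ↥H) : Γ) = x * sec H ((x⁻¹ : Γ) : Γ ⧸ H) := rfl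

lemma retr_mul (u : ↥H) (x : Γ) : retr H ((u : Γ) * x) = u * retr H x := by
  apply Subtype.ext
  have h : ((((u : Γ) * x)⁻¹ : Γ) : Γ ⧸ H) = ((x⁻¹ : Γ) : Γ ⧸ H) := by
    rw [QuotientGroup.eq]
    have : (((u : Γ) * x)⁻¹)⁻¹ * x⁻¹ = (u : Γ) := by group
    rw [this]
    exact u.2
  simp only [coe_retr, h, Subgroup.coe_mul, mul_assoc]

@[simp] lemma retr_coe (u : ↥H) : retr H (u : Γ) = u := by
  apply Subtype.ext
  have h : (((u : Γ)⁻¹ : Γ) : Γ ⧸ H) = ((1 : Γ) : Γ ⧸ H) := by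
    rw [QuotientGroup.eq]
    simp
  simp only [coe_retr, h, sec_one, mul_one]

end Sections

section Transfer

variable {k : Type} [Field k] {I X : Type} [Fintype I] (w : I → k) (l : I → X → X)

/-- transfer of homogeneous `0`-cochains -/
def trf₀ (F : X → k) : X → k := fun x₀ => ∑ i, w i * F (l i x₀)
/-- transfer of homogeneous `1`-cochains -/
def trf₁ (F : X → X → k) : X → X → k := fun x₀ x₁ => ∑ i, w i * F (l i x₀) (l i x₁)
/-- transfer of homogeneous `2`-cochains -/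
def trf₂ (F : X → X → X → k) : X → X → X → k :=
  fun x₀ x₁ x₂ => ∑ i, w i * F (l i x₀) (l i x₁) (l i x₂)
/-- transfer of homogeneous `3`-cochains -/
def trf₃ (F : X → X → X → X → k) : X → X → X → X → k :=
  fun x₀ x₁ x₂ x₃ => ∑ i, w i * F (l i x₀) (l i x₁) (l i x₂) (l i x₃)
/-- transfer of homogeneous `4`-cochains -/
def trf₄ (F : X → X → X → X → X → k) : X → X → X → X → X → k :=
  fun x₀ x₁ x₂ x₃ x₄ => ∑ i, w i * F (l i x₀) (l i x₁) (l i x₂) (l i x₃) (l i x₄)

end Transfer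

section Cor

variable {k G : Type} [Field k] [Group G] {𝒩 : Levels G} {ι : Type} {L : LocalData G 𝒩 ι}
  {U : Subgroup G} (D : ShData L U) (χ : G →* kˣ)

/-- the map `G_v → G`, `h ↦ (y v j)⁻¹ * r_v h` -/
def ShData.iotaMap (v : ι) (j : D.J v) (h : L.Gv v) : G := (D.y v j)⁻¹ * L.r v h

/-- the map `β₀ : G_v → U`, `h ↦ r_w (retr h)` -/
def ShData.beta0 (v : ι) (j : D.J v) (h : L.Gv v) : ↥U := D.rw v j (retr (D.Uw v j) h)

/-- the map `β₁ : G_v → U`, `h ↦ retr ((y v j)⁻¹ * r_v h)` -/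
def ShData.beta1 (v : ι) (j : D.J v) (h : L.Gv v) : ↥U := retr U (D.iotaMap v j h)

variable [Finite (G ⧸ U)]

/-- the orbit map `G_v ⧸ U_w → G ⧸ U`, `h U_w ↦ r_v h * y v j * U` is injective -/
lemma ShData.orbitMap_injective (v : ι) (j : D.J v) :
    Function.Injective (fun c : L.Gv v ⧸ D.Uw v j =>
      ((L.r v (sec (D.Uw v j) c) * D.y v j : G) : G ⧸ U)) := by
  intro c c' h
  simp only [QuotientGroup.eq] at h
  have h2 : (sec (D.Uw v j) c)⁻¹ * sec (D.Uw v j) c' ∈ D.Uw v j := by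
    rw [ShData.mem_Uw, map_mul, map_inv]
    have e : (L.r v (sec (D.Uw v j) c) * D.y v j)⁻¹ * (L.r v (sec (D.Uw v j) c') * D.y v j) =
        (D.y v j)⁻¹ * ((L.r v (sec (D.Uw v j) c))⁻¹ * L.r v (sec (D.Uw v j) c')) * D.y v j := by
      group
    rw [← e]
    exact h
  rw [← QuotientGroup.eq, mk_sec, mk_sec] at h2
  exact h2

instance ShData.finite_quot (v : ι) (j : D.J v) : Finite (L.Gv v ⧸ D.Uw v j) :=
  Finite.of_injective _ (D.orbitMap_injective v j)

open Classical in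
/-- global transfer of `U`-invariant homogeneous `3`-cochains to `χ`-equivariant ones -/
def trfG₃ (F : G → G → G → G → k) : G → G → G → G → k :=
  letI : Fintype (G ⧸ U) := Fintype.ofFinite _
  trf₃ (fun c : G ⧸ U => (χ (sec U c) : k)) (fun c x => (sec U c)⁻¹ * x) F

open Classical in
/-- local transfer at `(v, j)` of `U_w`-invariant homogeneous `2`-cochains -/
def ShData.trfL₂ (v : ι) (j : D.J v) (F : L.Gv v → L.Gv v → L.Gv v → k) :
    L.Gv v → L.Gv v → L.Gv v → k :=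
  letI : Fintype (L.Gv v ⧸ D.Uw v j) := Fintype.ofFinite _
  trf₂ (fun c : L.Gv v ⧸ D.Uw v j => (χ (L.r v (sec (D.Uw v j) c) * D.y v j) : k))
    (fun c x => (sec (D.Uw v j) c)⁻¹ * x) F

variable (hU : ∃ N ∈ 𝒩.mem, N ≤ U)

/-- The global component of the corestriction: `h ↦ inhom (Tr (ρ^* (homog h)))`. -/
def corGlob₃ (h : ↥U × ↥U × ↥U → k) : G × G × G → k :=
  inhom3 (ofChar χ) (trfG₃ (U := U) χ (pull3 (retr U) (homog3 (trivRep k ↥U) h)))

/-- The local corestriction at `(v, j)` of a `2`-cochain of `U_w`. -/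
def ShData.corLoc₂ (v : ι) (j : D.J v) (b : ↥(D.Uw v j) × ↥(D.Uw v j) → k) :
    L.Gv v × L.Gv v → k :=
  inhom2 (Rep.res (L.r v) (ofChar χ))
    (D.trfL₂ χ v j (pull2 (retr (D.Uw v j)) (homog2 (trivRep k ↥(D.Uw v j)) b)))

/-- The homotopy correction at `(v, j)`: `h ↦ inhom (Tr_w (prism (β₀, β₁) (homog h)))`. -/
def ShData.corMix₃ (v : ι) (j : D.J v) (h : ↥U × ↥U × ↥U → k) : L.Gv v × L.Gv v → k :=
  inhom2 (Rep.res (L.r v) (ofChar χ))
    (D.trfL₂ χ v j (prism3 (D.beta0 v j) (D.beta1 v j) (homog3 (trivRep k ↥U) h)))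

lemma corGlob₃_add (h h' : ↥U × ↥U × ↥U → k) :
    corGlob₃ (U := U) χ (h + h') = corGlob₃ (U := U) χ h + corGlob₃ (U := U) χ h' := by
  classical
  funext g
  simp only [corGlob₃, inhom3, trfG₃, trf₃, pull3_apply, homog3_apply, Pi.add_apply, map_add,
    mul_add, Finset.sum_add_distrib]

lemma corGlob₃_smul (c : k) (h : ↥U × ↥U × ↥U → k) :
    corGlob₃ (U := U) χ (c • h) = c • corGlob₃ (U := U) χ h := by
  classical
  funext g
  simp only [corGlob₃, inhom3, trfG₃, trf₃, pull3_apply, homog3_apply, Pi.smul_apply,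
    smul_eq_mul, Finset.mul_sum, Representation.trivial_apply]
  refine Finset.sum_congr rfl fun i _ => ?_
  ring

lemma ShData.corLoc₂_add (v : ι) (j : D.J v) (b b' : ↥(D.Uw v j) × ↥(D.Uw v j) → k) :
    D.corLoc₂ χ v j (b + b') = D.corLoc₂ χ v j b + D.corLoc₂ χ v j b' := by
  classical
  funext g
  simp only [ShData.corLoc₂, inhom2, ShData.trfL₂, trf₂, pull2_apply, homog2_apply, Pi.add_apply,
    map_add, mul_add, Finset.sum_add_distrib]

lemma ShData.corLoc₂_smul (v : ι) (j : D.J v) (c : k) (b : ↥(D.Uw v j) × ↥(D.Uw v j) → k) :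
    D.corLoc₂ χ v j (c • b) = c • D.corLoc₂ χ v j b := by
  classical
  funext g
  simp only [ShData.corLoc₂, inhom2, ShData.trfL₂, trf₂, pull2_apply, homog2_apply,
    Pi.smul_apply, smul_eq_mul, Finset.mul_sum, Representation.trivial_apply]
  refine Finset.sum_congr rfl fun i _ => ?_
  ring

lemma ShData.corMix₃_add (v : ι) (j : D.J v) (h h' : ↥U × ↥U × ↥U → k) :
    D.corMix₃ χ v j (h + h') = D.corMix₃ χ v j h + D.corMix₃ χ v j h' := by
  classical
  funext g
  simp only [ShData.corMix₃, inhom2, ShData.trfL₂, trf₂, prism3_apply, homog3_apply,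
    Pi.add_apply, Representation.trivial_apply, ← Finset.sum_add_distrib]
  refine Finset.sum_congr rfl fun i _ => ?_
  ring

lemma ShData.corMix₃_smul (v : ι) (j : D.J v) (c : k) (h : ↥U × ↥U × ↥U → k) :
    D.corMix₃ χ v j (c • h) = c • D.corMix₃ χ v j h := by
  classical
  funext g
  simp only [ShData.corMix₃, inhom2, ShData.trfL₂, trf₂, prism3_apply, homog3_apply,
    Pi.smul_apply, smul_eq_mul, Finset.mul_sum, Representation.trivial_apply]
  refine Finset.sum_congr rfl fun i _ => ?_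
  ring

/-- **The corestriction of cone `3`-cochains** from the open subgroup `U` (trivial coefficients)
to `G` (coefficients `k(χ)`). -/
def ShData.corCone : CcAmb3 (D.localData hU) (trivRep k ↥U) →ₗ[k] CcAmb3 L (ofChar χ) where
  toFun z := (corGlob₃ (U := U) χ z.1,
    fun v => ∑ j : D.J v, (D.corLoc₂ χ v j (z.2 ⟨v, j⟩) + D.corMix₃ χ v j z.1))
  map_add' z z' := by
    refine Prod.ext (corGlob₃_add χ z.1 z'.1) ?_
    funext v
    show ∑ j : D.J v, (D.corLoc₂ χ v j (z.2 ⟨v, j⟩ + z'.2 ⟨v, j⟩)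
        + D.corMix₃ χ v j (z.1 + z'.1)) =
      ∑ j : D.J v, (D.corLoc₂ χ v j (z.2 ⟨v, j⟩) + D.corMix₃ χ v j z.1) +
        ∑ j : D.J v, (D.corLoc₂ χ v j (z'.2 ⟨v, j⟩) + D.corMix₃ χ v j z'.1)
    rw [← Finset.sum_add_distrib]
    refine Finset.sum_congr rfl fun j _ => ?_
    have e1 := D.corLoc₂_add χ v j (z.2 ⟨v, j⟩) (z'.2 ⟨v, j⟩)
    have e2 := D.corMix₃_add χ v j z.1 z'.1
    rw [e2]
    refine (congrArg (· + _) e1).trans ?_
    abel
  map_smul' c z := by
    refine Prod.ext (corGlob₃_smul χ c z.1) ?_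
    funext v
    show ∑ j : D.J v, (D.corLoc₂ χ v j (c • z.2 ⟨v, j⟩) + D.corMix₃ χ v j (c • z.1)) =
      c • ∑ j : D.J v, (D.corLoc₂ χ v j (z.2 ⟨v, j⟩) + D.corMix₃ χ v j z.1)
    rw [Finset.smul_sum]
    refine Finset.sum_congr rfl fun j _ => ?_
    have e1 := D.corLoc₂_smul χ v j c (z.2 ⟨v, j⟩)
    have e2 := D.corMix₃_smul χ v j c z.1
    rw [e2, smul_add]
    exact congrArg (· + _) e1

@[simp] lemma ShData.corCone_fst (z : CcAmb3 (D.localData hU) (trivRep k ↥U)) :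
    (D.corCone χ hU z).1 = corGlob₃ (U := U) χ z.1 := rfl

@[simp] lemma ShData.corCone_snd (z : CcAmb3 (D.localData hU) (trivRep k ↥U)) (v : ι) :
    (D.corCone χ hU z).2 v =
      ∑ j : D.J v, (D.corLoc₂ χ v j (z.2 ⟨v, j⟩) + D.corMix₃ χ v j z.1) := rfl

end Cor

end Fermat.Agent.S55.helper35
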