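import Mathlib
import Fermat.Agent.S55.helper59_BDefs

/-!
# S55 module B, package B-ABS-1s (helper25): `β¹` is surjective for trivial coefficients

`claim_surj1_of_scalar`: from the arithmetic input `BaseInput L` and a trace functional `tr` which
kills cone coboundaries and is `ε • ∑_w inv_w` (`ε ≠ 0`) on cone 3-cocycles, every functional on
cone 2-cochains killing the cone 2-coboundaries is of the form `y ↦ tr (x ∪ y)` on cone
2-cocycles, for a level 1-cocycle `x`.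

Route: (A) the right kernel of the pairing `Z¹ × Z_c² → k`, `(x, y) ↦ tr (x ∪ y)`, is exactly the
space of cone coboundaries `B_c²` (uses `sha_right`, `exists_global₁`, graded commutativity of
the local cup product); (B) linear algebra: `Z¹` is finite-dimensional, so every functional on
`Z_c²` vanishing on the right kernel is represented by an element of `Z¹`.
-/

set_option autoImplicit false

universe u

open groupCohomology

noncomputable section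

namespace Fermat.Agent.S55.helper25

open Fermat.Agent.S55 Fermat.Agent.S55.helper59

/-! ### linear algebra -/

/-- A functional vanishing on the right kernel of a bilinear form `B : V × Y → k` with `V`
finite-dimensional is represented by an element of `V`. -/
theorem exists_repr_of_ker_le {k : Type*} [Field k] {V Y : Type*} [AddCommGroup V] [Module k V]
    [FiniteDimensional k V] [AddCommGroup Y] [Module k Y] (B : V →ₗ[k] Y →ₗ[k] k)
    (Ψ : Y →ₗ[k] k) (h : ∀ y, (∀ x, B x y = 0) → Ψ y = 0) : ∃ x : V, ∀ y, Ψ y = B x y := by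
  set f : Y →ₗ[k] Module.Dual k V := B.flip with hf
  have hker : LinearMap.ker f ≤ LinearMap.ker Ψ := by
    intro y hy
    rw [LinearMap.mem_ker] at hy ⊢
    refine h y (fun x => ?_)
    have := congrArg (fun u : Module.Dual k V => u x) hy
    simpa [hf] using this
  set Φ₀ : ↥(LinearMap.range f) →ₗ[k] k :=
    ((LinearMap.ker f).liftQ Ψ hker) ∘ₗ (f.quotKerEquivRange.symm : _ →ₗ[k] _) with hΦ₀
  obtain ⟨Φ, hΦ⟩ := LinearMap.exists_extend Φ₀
  refine ⟨(Module.evalEquiv k V).symm Φ, fun y => ?_⟩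
  have h1 : Φ (f y) = Ψ y := by
    have := congrArg (fun g => g ⟨f y, LinearMap.mem_range_self f y⟩) hΦ
    simp only [LinearMap.comp_apply, Submodule.subtype_apply] at this
    rw [this, hΦ₀, LinearMap.comp_apply]
    erw [LinearMap.quotKerEquivRange_symm_apply_image]
    simp
  have h2 : Φ (f y) = f y ((Module.evalEquiv k V).symm Φ) := by
    conv_lhs => rw [← (Module.evalEquiv k V).apply_symm_apply Φ]
    rfl
  rw [← h1, h2]
  rfl

/-! ### cochains with trivial coefficients -/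

section Triv

variable {k : Type u} [Field k] {G : Type u} [Group G]

theorem d₀₁_T (a : k) : (d₀₁ (T k G)).hom a = 0 := by
  ext g
  rw [d₀₁_hom_apply]
  simp
  rfl

theorem d₁₂_T_apply (x : G → k) (g h : G) :
    (d₁₂ (T k G)).hom x (g, h) = x h - x (g * h) + x g := by
  rw [d₁₂_hom_apply]
  rfl

theorem d₂₃_T_apply (z : G × G → k) (g₁ g₂ g₃ : G) :
    (d₂₃ (T k G)).hom z (g₁, g₂, g₃) =
      z (g₂, g₃) - z (g₁ * g₂, g₃) + z (g₁, g₂ * g₃) - z (g₁, g₂) := by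
  rw [d₂₃_hom_apply]
  rfl

theorem d₃₄_T_apply (f : G × G × G → k) (g₁ g₂ g₃ g₄ : G) :
    d₃₄ (T k G) f (g₁, g₂, g₃, g₄) =
      f (g₂, g₃, g₄) - f (g₁ * g₂, g₃, g₄) + f (g₁, g₂ * g₃, g₄)
        - f (g₁, g₂, g₃ * g₄) + f (g₁, g₂, g₃) := rfl

/-- a 1-cocycle with trivial coefficients is additive -/
theorem map_mul_of_cocycle {x : G → k} (hx : (d₁₂ (T k G)).hom x = 0) (g h : G) :
    x (g * h) = x g + x h := by
  have := congrFun hx (g, h)
  rw [d₁₂_T_apply] at this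
  have h0 : x h - x (g * h) + x g = 0 := this
  linear_combination -h0

/-- Leibniz: `d (x ∪ a) = - x ∪ d a` for a 1-cocycle `x` -/
theorem d₂₃_cup₁₁ {x : G → k} (hx : (d₁₂ (T k G)).hom x = 0) (a : G → k) :
    (d₂₃ (T k G)).hom (cup₁₁ x a) = - cup₁₂ x ((d₁₂ (T k G)).hom a) := by
  funext ⟨g₁, g₂, g₃⟩
  rw [d₂₃_T_apply, Pi.neg_apply, cup₁₂_apply, d₁₂_T_apply]
  simp only [cup₁₁_apply]
  rw [map_mul_of_cocycle hx]
  ring

/-- Leibniz: `d (x ∪ z) = - x ∪ d z` for a 1-cocycle `x`; in particular `x ∪ z` is a cocycle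
if `z` is -/
theorem d₃₄_cup₁₂ {x : G → k} (hx : (d₁₂ (T k G)).hom x = 0) {z : G × G → k}
    (hz : (d₂₃ (T k G)).hom z = 0) : d₃₄ (T k G) (cup₁₂ x z) = 0 := by
  funext ⟨g₁, g₂, g₃, g₄⟩
  rw [d₃₄_T_apply]
  simp only [cup₁₂_apply]
  have h1 := congrFun hz (g₂, g₃, g₄)
  rw [d₂₃_T_apply] at h1
  have h1' : z (g₃, g₄) - z (g₂ * g₃, g₄) + z (g₂, g₃ * g₄) - z (g₂, g₃) = 0 := h1
  rw [map_mul_of_cocycle hx]
  show _ = (0 : k)
  linear_combination x g₁ * (-h1')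

/-- graded commutativity of the cup product of two 1-cocycles -/
theorem cup₁₁_add_swap {x y : G → k} (hx : (d₁₂ (T k G)).hom x = 0)
    (hy : (d₁₂ (T k G)).hom y = 0) :
    cup₁₁ x y + cup₁₁ y x = - (d₁₂ (T k G)).hom (fun g => x g * y g) := by
  funext ⟨g, h⟩
  rw [Pi.add_apply, Pi.neg_apply, d₁₂_T_apply, cup₁₁_apply, cup₁₁_apply,
    map_mul_of_cocycle hx, map_mul_of_cocycle hy]
  ring

/-- the cup product of two 1-cocycles is a 2-cocycle -/
theorem d₂₃_cup₁₁_eq_zero {x y : G → k} (hx : (d₁₂ (T k G)).hom x = 0)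
    (hy : (d₁₂ (T k G)).hom y = 0) : (d₂₃ (T k G)).hom (cup₁₁ x y) = 0 := by
  rw [d₂₃_cup₁₁ hx, hy]
  funext ⟨g₁, g₂, g₃⟩
  show -(x g₁ * (0 : k)) = (0 : k)
  ring

theorem d₂₃_d₁₂ (a : G → k) : (d₂₃ (T k G)).hom ((d₁₂ (T k G)).hom a) = 0 := by
  funext ⟨g₁, g₂, g₃⟩
  rw [d₂₃_T_apply, d₁₂_T_apply, d₁₂_T_apply, d₁₂_T_apply, d₁₂_T_apply, mul_assoc]
  show _ = (0 : k)
  ring

end Triv

/-! ### level constancy -/

section Lev

variable {k : Type u} [Field k] {G : Type u} [Group G] (𝒩 : Levels G)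

theorem isLev₁_mul {x y : G → k} (hx : IsLev₁ 𝒩 x) (hy : IsLev₁ 𝒩 y) :
    IsLev₁ 𝒩 (fun g => x g * y g) := by
  obtain ⟨N, hN, h⟩ := hx
  obtain ⟨N', hN', h'⟩ := hy
  obtain ⟨N'', hN'', hle⟩ := 𝒩.directed N hN N' hN'
  exact ⟨N'', hN'', fun g s hs => by
    show x (g * s) * y (g * s) = x g * y g
    rw [h g s (hle hs).1, h' g s (hle hs).2]⟩

theorem isLev₂_cup₁₁ {x y : G → k} (hx : IsLev₁ 𝒩 x) (hy : IsLev₁ 𝒩 y) :
    IsLev₂ 𝒩 (cup₁₁ x y) := by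
  obtain ⟨N, hN, h⟩ := hx
  obtain ⟨N', hN', h'⟩ := hy
  obtain ⟨N'', hN'', hle⟩ := 𝒩.directed N hN N' hN'
  exact ⟨N'', hN'', fun g₁ g₂ s₁ hs₁ s₂ hs₂ => by
    rw [cup₁₁_apply, cup₁₁_apply, h g₁ s₁ (hle hs₁).1, h' g₂ s₂ (hle hs₂).2]⟩

theorem isLev₃_cup₁₂ {x : G → k} {z : G × G → k} (hx : IsLev₁ 𝒩 x) (hz : IsLev₂ 𝒩 z) :
    IsLev₃ 𝒩 (cup₁₂ x z) := by
  obtain ⟨N, hN, h⟩ := hx
  obtain ⟨N', hN', h'⟩ := hz
  obtain ⟨N'', hN'', hle⟩ := 𝒩.directed N hN N' hN'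
  exact ⟨N'', hN'', fun g₁ g₂ g₃ s₁ hs₁ s₂ hs₂ s₃ hs₃ => by
    rw [cup₁₂_apply, cup₁₂_apply, h g₁ s₁ (hle hs₁).1,
      h' g₂ g₃ s₂ (hle hs₂).2 s₃ (hle hs₃).2]⟩

/-- `d` of a level-constant 1-cochain is level-constant (levels are normal) -/
theorem isLev₂_d₁₂ {a : G → k} (ha : IsLev₁ 𝒩 a) : IsLev₂ 𝒩 ((d₁₂ (T k G)).hom a) := by
  obtain ⟨N, hN, h⟩ := ha
  refine ⟨N, hN, fun g₁ g₂ s₁ hs₁ s₂ hs₂ => ?_⟩
  rw [d₁₂_T_apply, d₁₂_T_apply, h g₂ s₂ hs₂, h g₁ s₁ hs₁]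
  have e : g₁ * s₁ * (g₂ * s₂) = g₁ * g₂ * (g₂⁻¹ * s₁ * g₂ * s₂) := by group
  have hmem : g₂⁻¹ * s₁ * g₂ * s₂ ∈ N := by
    refine N.mul_mem ?_ hs₂
    have := (𝒩.normal N hN).conj_mem s₁ hs₁ g₂⁻¹
    simpa using this
  rw [e, h (g₁ * g₂) _ hmem]

end Lev

/-! ### restriction to the local groups -/

section Res

variable {k : Type u} [Field k] {G : Type u} [Group G] {𝒩 : Levels G} {ι : Type}
  (L : LocalData G 𝒩 ι)

theorem isLev₁_res {a : G → k} (ha : IsLev₁ 𝒩 a) (w : ι) :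
    IsLev₁ (L.lev w) (fun s : L.Gv w => a (L.r w s)) := by
  obtain ⟨N, hN, h⟩ := ha
  obtain ⟨N', hN', hle⟩ := L.compat w N hN
  refine ⟨N', hN', fun g s hs => ?_⟩
  show a (L.r w (g * s)) = a (L.r w g)
  rw [map_mul]
  exact h _ _ (hle hs)

theorem d₁₂_res (a : G → k) (w : ι) :
    (d₁₂ (T k (L.Gv w))).hom (fun s : L.Gv w => a (L.r w s)) =
      fun s : L.Gv w × L.Gv w => (d₁₂ (T k G)).hom a (L.r w s.1, L.r w s.2) := by
  funext ⟨s₁, s₂⟩
  rw [d₁₂_T_apply, d₁₂_T_apply, map_mul]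

theorem d₁₂_res_eq_zero {a : G → k} (ha : (d₁₂ (T k G)).hom a = 0) (w : ι) :
    (d₁₂ (T k (L.Gv w))).hom (fun s : L.Gv w => a (L.r w s)) = 0 := by
  rw [d₁₂_res, ha]
  rfl

end Res

/-! ### the right kernel of the pairing `Z¹ × Z_c² → k` -/

section Main

variable {k : Type u} [Field k] {G : Type u} [Group G] {𝒩 : Levels G} {ι : Type} [Fintype ι]
  (L : LocalData G 𝒩 ι)

theorem cupc₁₂_T (x : G → k) (y : CcAmb2 L (T k G)) :
    cupc₁₂ L (mulPairing k G) x y =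
      ((cup₁₂ x y.1 : G × G × G → k),
        fun v (s : L.Gv v × L.Gv v) => (-(x (L.r v s.1) * y.2 v s.2) : k)) := rfl

theorem dc₁₂_T (a : G → k) (m : ∀ v : ι, k) :
    dc₁₂ L (T k G) (a, m) =
      ((d₁₂ (T k G)).hom a, fun v (s : L.Gv v) => (a (L.r v s) : k)) := by
  refine Prod.ext rfl ?_
  funext v
  show res₁ L (T k G) v a - (d₀₁ (L.loc (T k G) v)).hom (m v) = _
  have h0 : (d₀₁ (L.loc (T k G) v)).hom (m v) = 0 := d₀₁_T (G := L.Gv v) (m v)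
  rw [h0, sub_zero]
  rfl

theorem cupc₁₂_add_left (x x' : G → k) (y : CcAmb2 L (T k G)) :
    cupc₁₂ L (mulPairing k G) (x + x') y =
      cupc₁₂ L (mulPairing k G) x y + cupc₁₂ L (mulPairing k G) x' y := by
  rw [cupc₁₂_T, cupc₁₂_T, cupc₁₂_T]
  refine Prod.ext ?_ ?_
  · funext ⟨g₁, g₂, g₃⟩
    show (x g₁ + x' g₁) * y.1 (g₂, g₃) = x g₁ * y.1 (g₂, g₃) + x' g₁ * y.1 (g₂, g₃)
    ring
  · funext v s
    show -((x (L.r v s.1) + x' (L.r v s.1)) * y.2 v s.2) =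
      -(x (L.r v s.1) * y.2 v s.2) + -(x' (L.r v s.1) * y.2 v s.2)
    ring

theorem cupc₁₂_smul_left (c : k) (x : G → k) (y : CcAmb2 L (T k G)) :
    cupc₁₂ L (mulPairing k G) (c • x) y = c • cupc₁₂ L (mulPairing k G) x y := by
  rw [cupc₁₂_T, cupc₁₂_T]
  refine Prod.ext ?_ ?_
  · funext ⟨g₁, g₂, g₃⟩
    show (c * x g₁) * y.1 (g₂, g₃) = c * (x g₁ * y.1 (g₂, g₃))
    ring
  · funext v s
    show -((c * x (L.r v s.1)) * y.2 v s.2) = c * -(x (L.r v s.1) * y.2 v s.2)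
    ring

theorem cupc₁₂_add_right (x : G → k) (y y' : CcAmb2 L (T k G)) :
    cupc₁₂ L (mulPairing k G) x (y + y') =
      cupc₁₂ L (mulPairing k G) x y + cupc₁₂ L (mulPairing k G) x y' := by
  rw [cupc₁₂_T, cupc₁₂_T, cupc₁₂_T]
  refine Prod.ext ?_ ?_
  · funext ⟨g₁, g₂, g₃⟩
    show x g₁ * (y.1 (g₂, g₃) + y'.1 (g₂, g₃)) = x g₁ * y.1 (g₂, g₃) + x g₁ * y'.1 (g₂, g₃)
    ring
  · funext v s
    show -(x (L.r v s.1) * (y.2 v s.2 + y'.2 v s.2)) =
      -(x (L.r v s.1) * y.2 v s.2) + -(x (L.r v s.1) * y'.2 v s.2)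
    ring

theorem cupc₁₂_smul_right (c : k) (x : G → k) (y : CcAmb2 L (T k G)) :
    cupc₁₂ L (mulPairing k G) x (c • y) = c • cupc₁₂ L (mulPairing k G) x y := by
  rw [cupc₁₂_T, cupc₁₂_T]
  refine Prod.ext ?_ ?_
  · funext ⟨g₁, g₂, g₃⟩
    show x g₁ * (c * y.1 (g₂, g₃)) = c * (x g₁ * y.1 (g₂, g₃))
    ring
  · funext v s
    show -(x (L.r v s.1) * (c * y.2 v s.2)) = c * -(x (L.r v s.1) * y.2 v s.2)
    ring

/-- membership in `Z_c²` unpacked -/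
theorem mem_Zc2_iff (y : CcAmb2 L (T k G)) : y ∈ Zc2 L (T k G) ↔
    (IsLev₂ 𝒩 y.1 ∧ ∀ v, IsLev₁ (L.lev v) (y.2 v)) ∧ (d₂₃ (T k G)).hom y.1 = 0 ∧
      ∀ v, (fun s : L.Gv v × L.Gv v => (y.1 (L.r v s.1, L.r v s.2) : k)) =
        (d₁₂ (T k (L.Gv v))).hom (y.2 v) := by
  unfold Zc2 Cc2
  rw [Submodule.mem_inf, Submodule.mem_prod, LinearMap.mem_ker]
  refine and_congr (and_congr Iff.rfl ?_) ?_
  · simp only [Submodule.mem_pi, Set.mem_univ, forall_true_left]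
    rfl
  · constructor
    · intro h
      refine ⟨congrArg Prod.fst h, fun v => ?_⟩
      have h2 := congrFun (congrArg Prod.snd h) v
      exact sub_eq_zero.mp h2
    · rintro ⟨h1, h2⟩
      refine Prod.ext h1 ?_
      funext v
      exact sub_eq_zero.mpr (h2 v)

/-- a criterion for membership in `Z_c³` -/
theorem mem_Zc3_of (c : CcAmb3 L (T k G)) (h1 : IsLev₃ 𝒩 c.1)
    (h2 : ∀ v, IsLev₂ (L.lev v) (c.2 v)) (h3 : d₃₄ (T k G) c.1 = 0)
    (h4 : ∀ v, (fun s : L.Gv v × L.Gv v × L.Gv v => (c.1 (L.r v s.1, L.r v s.2.1, L.r v s.2.2) : k))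
      = (d₂₃ (T k (L.Gv v))).hom (c.2 v)) : c ∈ Zc3 L (T k G) := by
  unfold Zc3 Cc3
  rw [Submodule.mem_inf, Submodule.mem_prod, LinearMap.mem_ker]
  refine ⟨⟨h1, ?_⟩, ?_⟩
  · simp only [Submodule.mem_pi, Set.mem_univ, forall_true_left]
    exact h2
  · refine Prod.ext h3 ?_
    funext v
    exact sub_eq_zero.mpr (h4 v)

/-- cone coboundaries: `d_c (a, m)` with `a` level-constant -/
theorem dc₁₂_mem_Bc2 {a : G → k} (ha : IsLev₁ 𝒩 a) (m : ∀ v : ι, k) :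
    dc₁₂ L (T k G) (a, m) ∈ Bc2 L (T k G) := by
  unfold Bc2 Cc1
  exact Submodule.mem_map_of_mem (Submodule.mem_prod.mpr ⟨ha, Submodule.mem_top⟩)

theorem dc₂₃_mem_Bc3 {z : G × G → k} (hz : IsLev₂ 𝒩 z) (b : ∀ v : ι, L.Gv v → k)
    (hb : ∀ v, IsLev₁ (L.lev v) (b v)) :
    dc₂₃ L (T k G) (z, b) ∈ Bc3 L (T k G) := by
  unfold Bc3 Cc2
  refine Submodule.mem_map_of_mem (Submodule.mem_prod.mpr ⟨hz, ?_⟩)
  simp only [Submodule.mem_pi, Set.mem_univ, forall_true_left]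
  exact hb

/-- `x ∪ d_c (a, 0) = d_c (-(x ∪ a), 0)` for a 1-cocycle `x`: the pairing with a cone coboundary
is a cone coboundary -/
theorem cupc₁₂_dc₁₂ {x : G → k} (hx : (d₁₂ (T k G)).hom x = 0) (a : G → k) :
    cupc₁₂ L (mulPairing k G) x (dc₁₂ L (T k G) (a, fun _ => (0 : k))) =
      dc₂₃ L (T k G) (-(cup₁₁ x a), fun _ _ => (0 : k)) := by
  rw [cupc₁₂_T, dc₁₂_T]
  refine Prod.ext ?_ ?_
  · show cup₁₂ x ((d₁₂ (T k G)).hom a) = (d₂₃ (T k G)).hom (-(cup₁₁ x a))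
    rw [map_neg, d₂₃_cup₁₁ hx, neg_neg]
  · funext v
    show (fun s : L.Gv v × L.Gv v => (-(x (L.r v s.1) * a (L.r v s.2)) : k)) =
      res₂ L (T k G) v (-(cup₁₁ x a)) - (d₁₂ (L.loc (T k G) v)).hom (fun _ => (0 : k))
    have h0 : (d₁₂ (L.loc (T k G) v)).hom (fun _ => (0 : k)) = 0 := map_zero _
    rw [h0, sub_zero]
    rfl

/-- **Step A.** The right kernel of the pairing `Z¹ × Z_c² → k`, `(x, y) ↦ tr (x ∪ y)`, consists
of cone coboundaries. -/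
theorem mem_Bc2_of_forall_tr_eq_zero (I : BaseInput (k := k) L)
    (tr : CcAmb3 L (T k G) →ₗ[k] k) (htr : ∀ y ∈ Bc3 L (T k G), tr y = 0)
    (ε : k) (hε0 : ε ≠ 0)
    (hεtr : ∀ y ∈ Zc3 L (T k G), ∀ α ∈ C2 𝒩 (T k G), (d₂₃ (T k G)).hom α = y.1 →
      tr y = ε * ∑ w, I.inv w (y.2 w - res₂ L (T k G) w α))
    (y : CcAmb2 L (T k G)) (hy : y ∈ Zc2 L (T k G))
    (h : ∀ x ∈ Z1 𝒩 (T k G), tr (cupc₁₂ L (mulPairing k G) x y) = 0) :
    y ∈ Bc2 L (T k G) := by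
  obtain ⟨⟨hzlev, hblev⟩, hzcoc, hzb⟩ := (mem_Zc2_iff L y).mp hy
  -- A1: the global component is a coboundary
  have hzB : y.1 ∈ B2 𝒩 (T k G) := by
    by_contra hzB
    have hz2 : y.1 ∈ Z2 𝒩 (T k G) := ⟨hzlev, hzcoc⟩
    have hloc : ∀ w, (fun s : L.Gv w × L.Gv w => y.1 (L.r w s.1, L.r w s.2)) ∈
        B2 (L.lev w) (T k (L.Gv w)) := by
      intro w
      rw [hzb w]
      exact Submodule.mem_map_of_mem (hblev w)
    obtain ⟨x, hx, hxres, α, hα, hdα, hsum⟩ := I.sha_right y.1 hz2 hloc hzB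
    have hxc : (d₁₂ (T k G)).hom x = 0 := hx.2
    have hcup : cupc₁₂ L (mulPairing k G) x y =
        ((cup₁₂ x y.1 : G × G × G → k), fun _ _ => (0 : k)) := by
      rw [cupc₁₂_T]
      refine Prod.ext rfl ?_
      funext v s
      show -(x (L.r v s.1) * y.2 v s.2) = (0 : k)
      rw [hxres v s.1, zero_mul, neg_zero]
    have hmem : ((cup₁₂ x y.1 : G × G × G → k), fun (v : ι) (_ : L.Gv v × L.Gv v) => (0 : k)) ∈
        Zc3 L (T k G) := by
      refine mem_Zc3_of L _ (isLev₃_cup₁₂ 𝒩 hx.1 hzlev) (fun v => ?_) (d₃₄_cup₁₂ hxc hzcoc)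
        (fun v => ?_)
      · exact (C2 (L.lev v) (T k (L.Gv v))).zero_mem
      · have h0 : (d₂₃ (T k (L.Gv v))).hom (fun _ => (0 : k)) = 0 := map_zero _
        rw [h0]
        funext s
        show x (L.r v s.1) * y.1 (L.r v s.2.1, L.r v s.2.2) = (0 : k)
        rw [hxres v s.1, zero_mul]
    have h1 : tr (cupc₁₂ L (mulPairing k G) x y) =
        ε * ∑ w, I.inv w ((fun _ => (0 : k)) - res₂ L (T k G) w α) := by
      rw [hcup]
      exact hεtr _ hmem α hα hdα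
    rw [h x hx] at h1
    have h2 : ∑ w, I.inv w ((fun _ => (0 : k)) - res₂ L (T k G) w α) = 0 := by
      rcases mul_eq_zero.mp h1.symm with h3 | h3
      · exact absurd h3 hε0
      · exact h3
    apply hsum
    have h4 : ∀ w, I.inv w ((fun _ => (0 : k)) - res₂ L (T k G) w α) =
        - I.inv w (fun s => α (L.r w s.1, L.r w s.2)) := by
      intro w
      rw [← map_neg]
      congr 1
      funext s
      show (0 : k) - α (L.r w s.1, L.r w s.2) = - α (L.r w s.1, L.r w s.2)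
      ring
    simp only [h4, Finset.sum_neg_distrib, neg_eq_zero] at h2
    exact h2
  -- A2: subtract the coboundary
  obtain ⟨a, ha, hda⟩ := hzB
  have ha' : IsLev₁ 𝒩 a := ha
  set b' : ∀ v : ι, L.Gv v → k := fun v s => y.2 v s - a (L.r v s) with hb'
  have hyeq : y = dc₁₂ L (T k G) (a, fun _ => (0 : k)) +
      ((0 : G × G → k), b') := by
    rw [dc₁₂_T]
    refine Prod.ext ?_ ?_
    · show y.1 = (d₁₂ (T k G)).hom a + 0
      rw [add_zero, hda]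
    · funext v s
      show y.2 v s = a (L.r v s) + (y.2 v s - a (L.r v s))
      ring
  have hb'lev : ∀ v, IsLev₁ (L.lev v) (b' v) := by
    intro v
    have h1 : b' v = y.2 v - fun s : L.Gv v => a (L.r v s) := rfl
    rw [h1]
    exact (C1 (L.lev v) (T k (L.Gv v))).sub_mem (hblev v) (isLev₁_res L ha' v)
  have hb'coc : ∀ v, (d₁₂ (T k (L.Gv v))).hom (b' v) = 0 := by
    intro v
    have h1 : b' v = y.2 v - fun s : L.Gv v => a (L.r v s) := rfl
    rw [h1, map_sub, ← hzb v, d₁₂_res, hda, sub_self]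
  have htr' : ∀ x ∈ Z1 𝒩 (T k G),
      tr (cupc₁₂ L (mulPairing k G) x ((0 : G × G → k), b')) = 0 := by
    intro x hx
    have h1 := h x hx
    rw [hyeq, cupc₁₂_add_right, map_add, cupc₁₂_dc₁₂ L hx.2] at h1
    have h2 : tr (dc₂₃ L (T k G) (-(cup₁₁ x a), fun _ _ => (0 : k))) = 0 := by
      refine htr _ (dc₂₃_mem_Bc3 L ?_ _ (fun v => ?_))
      · exact (C2 𝒩 (T k G)).neg_mem (isLev₂_cup₁₁ 𝒩 hx.1 ha')
      · exact (C1 (L.lev v) (T k (L.Gv v))).zero_mem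
    rw [h2, zero_add] at h1
    exact h1
  -- A3: the local family `b'` is orthogonal to the global classes, hence global
  have horth : ∀ x ∈ Z1 𝒩 (T k G),
      ∑ w, I.inv w (cup₁₁ (b' w) (fun s => x (L.r w s))) = 0 := by
    intro x hx
    have hxw : ∀ w, (d₁₂ (T k (L.Gv w))).hom (fun s : L.Gv w => x (L.r w s)) = 0 :=
      fun w => d₁₂_res_eq_zero L hx.2 w
    have hxlev : ∀ w, IsLev₁ (L.lev w) (fun s : L.Gv w => x (L.r w s)) :=
      fun w => isLev₁_res L hx.1 w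
    set c : ∀ v : ι, L.Gv v × L.Gv v → k :=
      fun v => -(cup₁₁ (fun s : L.Gv v => x (L.r v s)) (b' v)) with hc
    have hcup : cupc₁₂ L (mulPairing k G) x ((0 : G × G → k), b') =
        ((0 : G × G × G → k), c) := by
      rw [cupc₁₂_T]
      refine Prod.ext ?_ rfl
      funext ⟨g₁, g₂, g₃⟩
      show x g₁ * (0 : k) = 0
      ring
    have hmem : ((0 : G × G × G → k), c) ∈ Zc3 L (T k G) := by
      refine mem_Zc3_of L _ (C3 𝒩 (T k G)).zero_mem (fun v => ?_) (map_zero _) (fun v => ?_)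
      · exact (C2 (L.lev v) (T k (L.Gv v))).neg_mem (isLev₂_cup₁₁ _ (hxlev v) (hb'lev v))
      · show (fun _ => (0 : k)) = (d₂₃ (T k (L.Gv v))).hom (c v)
        rw [hc, map_neg, d₂₃_cup₁₁_eq_zero (hxw v) (hb'coc v), neg_zero]
        rfl
    have h1 : tr (cupc₁₂ L (mulPairing k G) x ((0 : G × G → k), b')) =
        ε * ∑ w, I.inv w (c w - res₂ L (T k G) w 0) := by
      rw [hcup]
      exact hεtr _ hmem 0 (C2 𝒩 (T k G)).zero_mem (map_zero _)
    rw [htr' x hx] at h1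
    have h2 : ∑ w, I.inv w (c w - res₂ L (T k G) w 0) = 0 := by
      rcases mul_eq_zero.mp h1.symm with h3 | h3
      · exact absurd h3 hε0
      · exact h3
    have h4 : ∀ w, I.inv w (c w - res₂ L (T k G) w 0) =
        I.inv w (cup₁₁ (b' w) (fun s => x (L.r w s))) := by
      intro w
      have e1 : c w - res₂ L (T k G) w 0 =
          cup₁₁ (b' w) (fun s => x (L.r w s)) +
            (d₁₂ (T k (L.Gv w))).hom (fun s => b' w s * x (L.r w s)) := by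
        have e2 := cup₁₁_add_swap (hb'coc w) (hxw w)
        have e3 : res₂ L (T k G) w 0 = 0 := map_zero _
        rw [e3, sub_zero, hc]
        show -(cup₁₁ (fun s : L.Gv w => x (L.r w s)) (b' w)) = _
        rw [eq_neg_iff_add_eq_zero] at e2
        rw [neg_eq_iff_add_eq_zero]
        rw [← e2]
        abel
      rw [e1, map_add]
      have e4 : I.inv w ((d₁₂ (T k (L.Gv w))).hom (fun s => b' w s * x (L.r w s))) = 0 := by
        have hlev : IsLev₁ (L.lev w) (fun s => b' w s * x (L.r w s)) :=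
          isLev₁_mul _ (hb'lev w) (hxlev w)
        refine (I.inv_eq_zero_iff w _ ⟨isLev₂_d₁₂ _ hlev, d₂₃_d₁₂ _⟩).mpr ?_
        exact Submodule.mem_map_of_mem hlev
      rw [e4, add_zero]
    simp only [h4] at h2
    exact h2
  obtain ⟨a', ha', hres⟩ := I.exists_global₁ b' (fun w => ⟨hb'lev w, hb'coc w⟩) horth
  have hfin : y = dc₁₂ L (T k G) (a + a', fun _ => (0 : k)) := by
    rw [hyeq, dc₁₂_T, dc₁₂_T]
    refine Prod.ext ?_ ?_
    · show (d₁₂ (T k G)).hom a + 0 = (d₁₂ (T k G)).hom (a + a')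
      rw [map_add, ha'.2, add_zero]
    · funext v s
      show a (L.r v s) + b' v s = a (L.r v s) + a' (L.r v s)
      rw [← hres v]
  rw [hfin]
  exact dc₁₂_mem_Bc2 L ((C1 𝒩 (T k G)).add_mem ha ha'.1) _

/-- **B-ABS-1s** (`β¹` surjective), with the scalar form of the trace as a hypothesis. -/
theorem claim_surj1_of_scalar (I : BaseInput (k := k) L) (tr : CcAmb3 L (T k G) →ₗ[k] k)
    (htr : ∀ y ∈ Bc3 L (T k G), tr y = 0)
    (hε : ∃ ε : k, ε ≠ 0 ∧ ∀ y ∈ Zc3 L (T k G), ∀ α ∈ C2 𝒩 (T k G),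
      (d₂₃ (T k G)).hom α = y.1 → tr y = ε * ∑ w, I.inv w (y.2 w - res₂ L (T k G) w α))
    (ψ : CcAmb2 L (T k G) →ₗ[k] k) (hψ : ∀ y ∈ Bc2 L (T k G), ψ y = 0) :
    ∃ x ∈ Z1 𝒩 (T k G), ∀ y ∈ Zc2 L (T k G), ψ y = tr (cupc₁₂ L (mulPairing k G) x y) := by
  obtain ⟨ε, hε0, hεtr⟩ := hε
  have hfin : Module.Finite k ↥(Z1 𝒩 (T k G)) := I.glob_fin
  let B : ↥(Z1 𝒩 (T k G)) →ₗ[k] ↥(Zc2 L (T k G)) →ₗ[k] k :=
    LinearMap.mk₂ k (fun x y => tr (cupc₁₂ L (mulPairing k G) x.1 y.1))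
      (fun x x' y => by
        show tr (cupc₁₂ L (mulPairing k G) (x.1 + x'.1) y.1) = _
        rw [cupc₁₂_add_left, map_add])
      (fun c x y => by
        show tr (cupc₁₂ L (mulPairing k G) (c • x.1) y.1) = _
        rw [cupc₁₂_smul_left, map_smul])
      (fun x y y' => by
        show tr (cupc₁₂ L (mulPairing k G) x.1 (y.1 + y'.1)) = _
        rw [cupc₁₂_add_right, map_add])
      (fun c x y => by
        show tr (cupc₁₂ L (mulPairing k G) x.1 (c • y.1)) = _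
        rw [cupc₁₂_smul_right, map_smul])
  obtain ⟨x, hx⟩ := exists_repr_of_ker_le B (ψ ∘ₗ (Zc2 L (T k G)).subtype) (by
    intro y hy
    refine hψ _ (mem_Bc2_of_forall_tr_eq_zero L I tr htr ε hε0 hεtr y.1 y.2 (fun x hx => ?_))
    exact hy ⟨x, hx⟩)
  exact ⟨x.1, x.2, fun y hy => hx ⟨y, hy⟩⟩

end Main

end Fermat.Agent.S55.helper25
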