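import Fermat.Agent.S55.helper77_BAbs1i

/-!
# S55 module B, package B-ABS-2 (task 310, helper36): `β²` is injective for trivial coefficients

Pure cochain linear algebra over `Defs.lean` / `helper59_BDefs.lean`.

* `d₂₃_cup_comm`: the homotopy for graded commutativity (trivial coefficients);
* `cupc₂₁_mem_Zc3`: the cup product of a level 2-cocycle with a cone 1-cocycle is a cone 3-cocycle;
* `claim_inj2_of_scalar`: `β² : H^2(U,k) → (H_c^1)^*` is injective, given the scalar structure of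
  the trace (hypothesis `hε`, delivered by package B-ABS-TR).
-/

set_option autoImplicit false

universe u

open groupCohomology ExtCitation

noncomputable section

namespace Fermat.Agent.S55.helper36

open Fermat.Agent.S55 Fermat.Agent.S55.helper59 Fermat.Agent.S55.helper77

variable {k : Type u} [Field k] {G : Type u} [Group G] {𝒩 : Levels G} {ι : Type} [Fintype ι]
  (L : LocalData G 𝒩 ι)

/-- A 1-cocycle with trivial coefficients is additive. -/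
theorem map_mul_of_mem_ker {H : Type u} [Group H] {x : H → k}
    (hx : x ∈ LinearMap.ker (d₁₂ (T k H)).hom) (g h : H) : x (g * h) = x g + x h := by
  have h1 : (d₁₂ (T k H)).hom x (g, h) = 0 := by
    rw [LinearMap.mem_ker.mp hx]
    rfl
  simp only [d₁₂_hom_apply] at h1
  have h2 : x h - x (g * h) + x g = 0 := by simpa using h1
  linear_combination -h2

/-- B-ABS-ADJ (homotopy for graded commutativity, trivial coefficients):
`d(-z(g,h) x(gh)) = x ∪ z - z ∪ x` for a 1-cocycle `x` and a 2-cocycle `z`. -/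
theorem d₂₃_cup_comm (x : G → k) (z : G × G → k) (hx : x ∈ LinearMap.ker (d₁₂ (T k G)).hom)
    (hz : z ∈ LinearMap.ker (d₂₃ (T k G)).hom) :
    (d₂₃ (T k G)).hom (fun g => - (z g * x (g.1 * g.2))) = cup₁₂ x z - cup₂₁ z x := by
  have hadd := map_mul_of_mem_ker hx
  funext g
  obtain ⟨g₁, g₂, g₃⟩ := g
  rw [d₂₃_hom_apply]
  change -(z (g₂, g₃) * x (g₂ * g₃)) - -(z (g₁ * g₂, g₃) * x (g₁ * g₂ * g₃))
      + -(z (g₁, g₂ * g₃) * x (g₁ * (g₂ * g₃))) - -(z (g₁, g₂) * x (g₁ * g₂))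
    = x g₁ * z (g₂, g₃) - z (g₁, g₂) * x g₃
  have hc := cocycle₂_of_mem_ker hz g₁ g₂ g₃
  rw [hadd g₂ g₃, hadd (g₁ * g₂) g₃, hadd g₁ g₂, hadd g₁ (g₂ * g₃), hadd g₂ g₃]
  linear_combination (-(x g₁ + x g₂ + x g₃)) * hc

omit [Fintype ι] in
/-- restriction of a level-constant 2-cochain is level-constant -/
theorem isLev₂_res {X : Type*} {x : G × G → X} (hx : IsLev₂ 𝒩 x) (w : ι) :
    IsLev₂ (L.lev w) (fun s : L.Gv w × L.Gv w => x (L.r w s.1, L.r w s.2)) := by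
  obtain ⟨N, hN, h⟩ := hx
  obtain ⟨N', hN', hle⟩ := L.compat w N hN
  refine ⟨N', hN', fun g₁ g₂ s₁ hs₁ s₂ hs₂ => ?_⟩
  show x (L.r w (g₁ * s₁), L.r w (g₂ * s₂)) = x (L.r w g₁, L.r w g₂)
  rw [map_mul, map_mul]
  exact h _ _ _ (hle hs₁) _ (hle hs₂)

omit [Fintype ι] in
/-- the restriction of a level 2-cocycle is a local level 2-cocycle -/
theorem res_mem_Z2 {x : G × G → k} (hx : x ∈ Z2 𝒩 (T k G)) (w : ι) :
    (fun s : L.Gv w × L.Gv w => x (L.r w s.1, L.r w s.2)) ∈ Z2 (L.lev w) (T k (L.Gv w)) := by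
  refine ⟨isLev₂_res L hx.1 w, LinearMap.mem_ker.mpr ?_⟩
  funext s
  obtain ⟨s₁, s₂, s₃⟩ := s
  rw [d₂₃_hom_apply]
  have hc := cocycle₂_of_mem_ker hx.2 (L.r w s₁) (L.r w s₂) (L.r w s₃)
  change x (L.r w s₂, L.r w s₃) - x (L.r w (s₁ * s₂), L.r w s₃)
    + x (L.r w s₁, L.r w (s₂ * s₃)) - x (L.r w s₁, L.r w s₂) = 0
  rw [map_mul, map_mul]
  exact hc

omit [Fintype ι] in
/-- the components of a cone 1-cocycle (trivial coefficients): the global part is a level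
1-cocycle which vanishes on all local groups -/
theorem mem_Zc1_triv {y : CcAmb1 L (T k G)} (hy : y ∈ Zc1 L (T k G)) :
    y.1 ∈ Z1 𝒩 (T k G) ∧ ∀ v, ∀ s : L.Gv v, y.1 (L.r v s) = 0 := by
  obtain ⟨⟨hy1, -⟩, hyker⟩ := hy
  have hker := LinearMap.mem_ker.mp hyker
  refine ⟨⟨hy1, LinearMap.mem_ker.mpr ?_⟩, fun v s => ?_⟩
  · have := congrArg Prod.fst hker
    exact this
  · have h1 := congrFun (congrArg Prod.snd hker) v
    change res₁ L (T k G) v y.1 - (d₀₁ (L.loc (T k G) v)).hom (y.2 v) = 0 at h1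
    have h2 := congrFun h1 s
    simp only [Pi.sub_apply, res₁_apply, Pi.zero_apply] at h2
    have h3 : y.1 (L.r v s) - (y.2 v - y.2 v) = 0 := h2
    rw [sub_self, sub_zero] at h3
    exact h3

omit [Fintype ι] in
/-- conversely, a level 1-cocycle vanishing on all local groups, together with any family of
local 0-cochains, is a cone 1-cocycle -/
theorem mem_Zc1_of {a : G → k} (ha : a ∈ Z1 𝒩 (T k G)) (hres : ∀ v, ∀ s : L.Gv v, a (L.r v s) = 0)
    (m : ∀ v : ι, L.loc (T k G) v) : ((a, m) : CcAmb1 L (T k G)) ∈ Zc1 L (T k G) := by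
  refine ⟨⟨ha.1, Submodule.mem_top⟩, LinearMap.mem_ker.mpr ?_⟩
  refine Prod.ext ?_ ?_
  · exact LinearMap.mem_ker.mp ha.2
  · funext v
    change res₁ L (T k G) v a - (d₀₁ (L.loc (T k G) v)).hom (m v) = 0
    funext s
    simp only [Pi.sub_apply, res₁_apply, Pi.zero_apply]
    change a (L.r v s) - (m v - m v) = 0
    rw [hres v s, sub_self, sub_zero]

omit [Fintype ι] in
/-- The cup product of a level 2-cocycle with a cone 1-cocycle is a cone 3-cocycle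
(trivial coefficients). -/
theorem cupc₂₁_mem_Zc3 {x : G × G → k} (hx : x ∈ Z2 𝒩 (T k G)) {y : CcAmb1 L (T k G)}
    (hy : y ∈ Zc1 L (T k G)) : cupc₂₁ L (mulPairing k G) x y ∈ Zc3 L (T k G) := by
  obtain ⟨hy1, hyres⟩ := mem_Zc1_triv L hy
  have hadd := map_mul_of_mem_Z1 hy1
  have hc := cocycle₂_of_mem_ker hx.2
  refine ⟨⟨?_, ?_⟩, ?_⟩
  · -- first component level-constant
    obtain ⟨N₁, hN₁, h₁⟩ := hx.1
    obtain ⟨N₂, hN₂, h₂⟩ := hy1.1
    obtain ⟨N, hN, hle⟩ := 𝒩.directed N₁ hN₁ N₂ hN₂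
    refine ⟨N, hN, fun g₁ g₂ g₃ s₁ hs₁ s₂ hs₂ s₃ hs₃ => ?_⟩
    change x (g₁ * s₁, g₂ * s₂) * y.1 (g₃ * s₃) = x (g₁, g₂) * y.1 g₃
    rw [h₁ g₁ g₂ s₁ (hle hs₁).1 s₂ (hle hs₂).1, h₂ g₃ s₃ (hle hs₃).2]
  · -- second component level-constant
    intro v _
    obtain ⟨N, hN, h⟩ := isLev₂_res L hx.1 v
    refine ⟨N, hN, fun g₁ g₂ s₁ hs₁ s₂ hs₂ => ?_⟩
    change x (L.r v (g₁ * s₁), L.r v (g₂ * s₂)) * y.2 v = x (L.r v g₁, L.r v g₂) * y.2 v
    have e1 : x (L.r v (g₁ * s₁), L.r v (g₂ * s₂)) = x (L.r v g₁, L.r v g₂) :=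
      h g₁ g₂ s₁ hs₁ s₂ hs₂
    rw [e1]
  · -- cocycle condition
    apply LinearMap.mem_ker.mpr
    refine Prod.ext ?_ ?_
    · funext g
      obtain ⟨g₁, g₂, g₃, g₄⟩ := g
      change d₃₄ (T k G) (cupc₂₁ L (mulPairing k G) x y).1 (g₁, g₂, g₃, g₄) = 0
      rw [d₃₄_apply]
      change x (g₂, g₃) * y.1 g₄ - x (g₁ * g₂, g₃) * y.1 g₄ + x (g₁, g₂ * g₃) * y.1 g₄
        - x (g₁, g₂) * y.1 (g₃ * g₄) + x (g₁, g₂) * y.1 g₃ = 0
      rw [hadd]
      linear_combination (y.1 g₄) * hc g₁ g₂ g₃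
    · funext v
      funext s
      obtain ⟨s₁, s₂, s₃⟩ := s
      change res₃ L (T k G) v (cupc₂₁ L (mulPairing k G) x y).1 (s₁, s₂, s₃)
        - (d₂₃ (L.loc (T k G) v)).hom ((cupc₂₁ L (mulPairing k G) x y).2 v) (s₁, s₂, s₃) = 0
      rw [res₃_apply, d₂₃_hom_apply]
      change x (L.r v s₁, L.r v s₂) * y.1 (L.r v s₃)
        - (x (L.r v s₂, L.r v s₃) * y.2 v - x (L.r v (s₁ * s₂), L.r v s₃) * y.2 v
          + x (L.r v s₁, L.r v (s₂ * s₃)) * y.2 v - x (L.r v s₁, L.r v s₂) * y.2 v) = 0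
      rw [map_mul, map_mul, hyres]
      linear_combination (-(y.2 v)) * hc (L.r v s₁) (L.r v s₂) (L.r v s₃)

/-- **B-ABS-2** (`β²` injective for trivial coefficients), from `BaseInput` and the structure
of the trace (hypothesis `hε`, delivered by package B-ABS-TR). -/
theorem claim_inj2_of_scalar (I : BaseInput (k := k) L) (tr : CcAmb3 L (T k G) →ₗ[k] k)
    (hε : ∃ ε : k, ε ≠ 0 ∧ ∀ y ∈ Zc3 L (T k G), ∀ α ∈ C2 𝒩 (T k G),
      (d₂₃ (T k G)).hom α = y.1 → tr y = ε * ∑ w, I.inv w (y.2 w - res₂ L (T k G) w α))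
    (x : G × G → k) (hx : x ∈ Z2 𝒩 (T k G))
    (h : ∀ y ∈ Zc1 L (T k G), tr (cupc₂₁ L (mulPairing k G) x y) = 0) : x ∈ B2 𝒩 (T k G) := by
  classical
  obtain ⟨ε, hε0, hε⟩ := hε
  -- the zero global 1-cochain is a level cocycle
  have h0Z1 : (0 : G → k) ∈ Z1 𝒩 (T k G) := zero_mem _
  -- Step 1: `x` is locally trivial
  have hloc : ∀ w, (fun s : L.Gv w × L.Gv w => x (L.r w s.1, L.r w s.2)) ∈
      B2 (L.lev w) (T k (L.Gv w)) := by
    intro w
    let m : ∀ v : ι, L.loc (T k G) v := fun v => if v = w then (1 : k) else (0 : k)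
    have hm_same : m w = (1 : k) := if_pos rfl
    have hm_ne : ∀ v, v ≠ w → m v = (0 : k) := fun v hv => if_neg hv
    let y : CcAmb1 L (T k G) := (0, m)
    have hy : y ∈ Zc1 L (T k G) := mem_Zc1_of L h0Z1 (fun _ _ => rfl) m
    have h1 := h y hy
    have h2 := hε _ (cupc₂₁_mem_Zc3 L hx hy) 0 (zero_mem _) (by
      rw [map_zero]
      funext g
      change (0 : k) = x (g.1, g.2.1) * (0 : k)
      rw [mul_zero])
    rw [h1] at h2
    have hsum : ∑ v, I.inv v ((cupc₂₁ L (mulPairing k G) x y).2 v - res₂ L (T k G) v 0) =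
        I.inv w (fun s : L.Gv w × L.Gv w => x (L.r w s.1, L.r w s.2)) := by
      rw [Finset.sum_eq_single w]
      · congr 1
        funext s
        change x (L.r w s.1, L.r w s.2) * m w - 0 = x (L.r w s.1, L.r w s.2)
        rw [hm_same, sub_zero, mul_one]
      · intro v _ hv
        have : (cupc₂₁ L (mulPairing k G) x y).2 v - res₂ L (T k G) v 0 = 0 := by
          funext s
          change x (L.r v s.1, L.r v s.2) * m v - 0 = 0
          rw [hm_ne v hv]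
          simp
        rw [this, map_zero]
      · intro hw
        exact absurd (Finset.mem_univ w) hw
    rw [hsum] at h2
    have h3 : I.inv w (fun s : L.Gv w × L.Gv w => x (L.r w s.1, L.r w s.2)) = 0 := by
      rcases mul_eq_zero.mp h2.symm with h4 | h4
      · exact absurd h4 hε0
      · exact h4
    exact (I.inv_eq_zero_iff w _ (res_mem_Z2 L hx w)).mp h3
  -- Step 2: orthogonality to `Sha^1`
  by_contra hx0
  obtain ⟨a, ha, hares, α, hα, hdα, hsum⟩ := I.sha_right x hx hloc hx0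
  have hadd := map_mul_of_mem_Z1 ha
  let y : CcAmb1 L (T k G) := (a, 0)
  have hy : y ∈ Zc1 L (T k G) := mem_Zc1_of L ha hares 0
  -- the homotopy
  let η : G × G → k := fun g => - (x g * a (g.1 * g.2))
  have hη : (d₂₃ (T k G)).hom η = cup₁₂ a x - cup₂₁ x a := d₂₃_cup_comm a x ha.2 hx.2
  have hηC : η ∈ C2 𝒩 (T k G) := by
    obtain ⟨N₁, hN₁, h₁⟩ := hx.1
    obtain ⟨N₂, hN₂, h₂⟩ := ha.1
    obtain ⟨N, hN, hle⟩ := 𝒩.directed N₁ hN₁ N₂ hN₂
    refine ⟨N, hN, fun g₁ g₂ s₁ hs₁ s₂ hs₂ => ?_⟩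
    change -(x (g₁ * s₁, g₂ * s₂) * a (g₁ * s₁ * (g₂ * s₂))) = -(x (g₁, g₂) * a (g₁ * g₂))
    rw [h₁ g₁ g₂ s₁ (hle hs₁).1 s₂ (hle hs₂).1, hadd (g₁ * s₁) (g₂ * s₂),
      h₂ g₁ s₁ (hle hs₁).2, h₂ g₂ s₂ (hle hs₂).2, hadd g₁ g₂]
  have h1 := h y hy
  have h2 := hε _ (cupc₂₁_mem_Zc3 L hx hy) (α - η) (sub_mem hα hηC) (by
    rw [map_sub, hdα, hη, sub_sub_cancel]
    rfl)
  rw [h1] at h2
  have hsum' : ∑ v, I.inv v ((cupc₂₁ L (mulPairing k G) x y).2 v - res₂ L (T k G) v (α - η)) =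
      - ∑ v, I.inv v (fun s => α (L.r v s.1, L.r v s.2)) := by
    rw [← Finset.sum_neg_distrib]
    refine Finset.sum_congr rfl fun v _ => ?_
    rw [← map_neg]
    congr 1
    funext s
    change x (L.r v s.1, L.r v s.2) * (0 : k)
        - (α (L.r v s.1, L.r v s.2) - -(x (L.r v s.1, L.r v s.2) * a (L.r v s.1 * L.r v s.2)))
      = -α (L.r v s.1, L.r v s.2)
    rw [hadd, hares v s.1, hares v s.2]
    ring
  rw [hsum'] at h2
  rcases mul_eq_zero.mp h2.symm with h4 | h4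
  · exact hε0 h4
  · exact hsum (neg_eq_zero.mp h4)

/-- **B-ABS-2** in the interface shape (`claim_inj2`), given the scalar structure of `tr`. -/
theorem claim_inj2_of_scalar' (I : BaseInput (k := k) L) (tr : CcAmb3 L (T k G) →ₗ[k] k)
    (_htr : ∀ y ∈ Bc3 L (T k G), tr y = 0) (_hne : ∃ y ∈ Zc3 L (T k G), tr y ≠ 0)
    (hε : ∃ ε : k, ε ≠ 0 ∧ ∀ y ∈ Zc3 L (T k G), ∀ α ∈ C2 𝒩 (T k G),
      (d₂₃ (T k G)).hom α = y.1 → tr y = ε * ∑ w, I.inv w (y.2 w - res₂ L (T k G) w α))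
    (x : G × G → k) (hx : x ∈ Z2 𝒩 (T k G))
    (h : ∀ y ∈ Zc1 L (T k G), tr (cupc₂₁ L (mulPairing k G) x y) = 0) : x ∈ B2 𝒩 (T k G) :=
  claim_inj2_of_scalar L I tr hε x hx h

end Fermat.Agent.S55.helper36
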