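import Fermat.Agent.S55.helper59_BDefs

/-!
# S55 module B, package B-ABS-1i (task 308, helper77): `β¹` is injective for trivial coefficients

Pure cochain linear algebra over `Defs.lean` / `helper59_BDefs.lean`.
-/

set_option autoImplicit false

universe u

open groupCohomology ExtCitation

noncomputable section

namespace Fermat.Agent.S55.helper77

open Fermat.Agent.S55 Fermat.Agent.S55.helper59

variable {k : Type u} [Field k] {G : Type u} [Group G] {𝒩 : Levels G} {ι : Type} [Fintype ι]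
  (L : LocalData G 𝒩 ι)

/-- For trivial coefficients `B¹ = 0`. -/
theorem mem_B1_triv_iff (x : G → k) : x ∈ B1 (T k G) ↔ x = 0 := by
  constructor
  · rintro ⟨a, rfl⟩
    funext g
    rw [d₀₁_hom_apply]
    exact sub_self a
  · rintro rfl
    exact zero_mem _

/-- A level 1-cocycle with trivial coefficients is additive. -/
theorem map_mul_of_mem_Z1 {x : G → k} (hx : x ∈ Z1 𝒩 (T k G)) (g h : G) :
    x (g * h) = x g + x h := by
  have h1 : (d₁₂ (T k G)).hom x (g, h) = 0 := by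
    have := LinearMap.mem_ker.mp hx.2
    rw [this]
    rfl
  simp only [d₁₂_hom_apply] at h1
  have h2 : x h - x (g * h) + x g = 0 := by simpa using h1
  linear_combination -h2

/-- A level 2-cocycle identity with trivial coefficients. -/
theorem cocycle₂_of_mem_ker {H : Type u} [Group H] {z : H × H → k}
    (hz : z ∈ LinearMap.ker (d₂₃ (T k H)).hom) (g₁ g₂ g₃ : H) :
    z (g₂, g₃) - z (g₁ * g₂, g₃) + z (g₁, g₂ * g₃) - z (g₁, g₂) = 0 := by
  have hz' := LinearMap.mem_ker.mp hz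
  have h1 : (d₂₃ (T k H)).hom z (g₁, g₂, g₃) = 0 := by rw [hz']; rfl
  simpa [d₂₃_hom_apply] using h1

omit [Fintype ι] in
/-- restriction of a level-constant 1-cochain is level-constant -/
theorem isLev₁_res {X : Type*} {x : G → X} (hx : IsLev₁ 𝒩 x) (w : ι) :
    IsLev₁ (L.lev w) (fun s : L.Gv w => x (L.r w s)) := by
  obtain ⟨N, hN, h⟩ := hx
  obtain ⟨N', hN', hle⟩ := L.compat w N hN
  refine ⟨N', hN', fun g s hs => ?_⟩
  show x (L.r w (g * s)) = x (L.r w g)
  rw [map_mul]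
  exact h _ _ (hle hs)

omit [Fintype ι] in
/-- The cup product of a level 1-cocycle with a cone 2-cocycle is a cone 3-cocycle
(trivial coefficients). -/
theorem cupc₁₂_mem_Zc3 {x : G → k} (hx : x ∈ Z1 𝒩 (T k G)) {y : CcAmb2 L (T k G)}
    (hy : y ∈ Zc2 L (T k G)) : cupc₁₂ L (mulPairing k G) x y ∈ Zc3 L (T k G) := by
  have hadd := map_mul_of_mem_Z1 hx
  obtain ⟨⟨hy1, hy2⟩, hyker⟩ := hy
  have hy2' : ∀ v, y.2 v ∈ C1 (L.lev v) (L.loc (T k G) v) := fun v => hy2 v (Set.mem_univ v)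
  have hker := LinearMap.mem_ker.mp hyker
  -- the two components of `dc₂₃ y = 0`
  have hz : ∀ g₁ g₂ g₃ : G,
      y.1 (g₂, g₃) - y.1 (g₁ * g₂, g₃) + y.1 (g₁, g₂ * g₃) - y.1 (g₁, g₂) = 0 := by
    intro g₁ g₂ g₃
    have h1 : (d₂₃ (T k G)).hom y.1 (g₁, g₂, g₃) = 0 := by
      have := congrArg Prod.fst hker
      change (d₂₃ (T k G)).hom y.1 = 0 at this
      rw [this]; rfl
    simpa [d₂₃_hom_apply] using h1
  have hb : ∀ v (s t : L.Gv v),
      y.1 (L.r v s, L.r v t) = y.2 v t - y.2 v (s * t) + y.2 v s := by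
    intro v s t
    have h1 := congrFun (congrArg Prod.snd hker) v
    change res₂ L (T k G) v y.1 - (d₁₂ (L.loc (T k G) v)).hom (y.2 v) = 0 at h1
    have h2 := congrFun h1 (s, t)
    simp only [Pi.sub_apply, res₂_apply, d₁₂_hom_apply, Pi.zero_apply] at h2
    have h3 : y.1 (L.r v s, L.r v t) - (y.2 v t - y.2 v (s * t) + y.2 v s) = 0 := h2
    linear_combination h3
  refine ⟨⟨?_, ?_⟩, ?_⟩
  · -- first component level-constant
    obtain ⟨N₁, hN₁, h₁⟩ := hx.1
    obtain ⟨N₂, hN₂, h₂⟩ := hy1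
    obtain ⟨N, hN, hle⟩ := 𝒩.directed N₁ hN₁ N₂ hN₂
    refine ⟨N, hN, fun g₁ g₂ g₃ s₁ hs₁ s₂ hs₂ s₃ hs₃ => ?_⟩
    change x (g₁ * s₁) * y.1 (g₂ * s₂, g₃ * s₃) = x g₁ * y.1 (g₂, g₃)
    rw [h₁ g₁ s₁ (hle hs₁).1, h₂ g₂ g₃ s₂ (hle hs₂).2 s₃ (hle hs₃).2]
  · -- second component level-constant
    intro v _
    obtain ⟨N₁, hN₁, h₁⟩ := isLev₁_res L hx.1 v
    obtain ⟨N₂, hN₂, h₂⟩ := hy2' v
    obtain ⟨N, hN, hle⟩ := (L.lev v).directed N₁ hN₁ N₂ hN₂
    refine ⟨N, hN, fun g₁ g₂ s₁ hs₁ s₂ hs₂ => ?_⟩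
    change -(x (L.r v (g₁ * s₁)) * y.2 v (g₂ * s₂)) = -(x (L.r v g₁) * y.2 v g₂)
    have e1 : x (L.r v (g₁ * s₁)) = x (L.r v g₁) := h₁ g₁ s₁ (hle hs₁).1
    rw [e1, h₂ g₂ s₂ (hle hs₂).2]
  · -- cocycle condition
    apply LinearMap.mem_ker.mpr
    refine Prod.ext ?_ ?_
    · funext g
      obtain ⟨g₁, g₂, g₃, g₄⟩ := g
      change d₃₄ (T k G) (cupc₁₂ L (mulPairing k G) x y).1 (g₁, g₂, g₃, g₄) = 0
      rw [d₃₄_apply]
      change x g₂ * y.1 (g₃, g₄) - x (g₁ * g₂) * y.1 (g₃, g₄) + x g₁ * y.1 (g₂ * g₃, g₄)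
        - x g₁ * y.1 (g₂, g₃ * g₄) + x g₁ * y.1 (g₂, g₃) = 0
      rw [hadd]
      linear_combination (-x g₁) * hz g₂ g₃ g₄
    · funext v
      funext s
      obtain ⟨s₁, s₂, s₃⟩ := s
      change res₃ L (T k G) v (cupc₁₂ L (mulPairing k G) x y).1 (s₁, s₂, s₃)
        - (d₂₃ (L.loc (T k G) v)).hom ((cupc₁₂ L (mulPairing k G) x y).2 v) (s₁, s₂, s₃) = 0
      rw [res₃_apply, d₂₃_hom_apply]
      change x (L.r v s₁) * y.1 (L.r v s₂, L.r v s₃)
        - (-(x (L.r v s₂) * y.2 v s₃) - -(x (L.r v (s₁ * s₂)) * y.2 v s₃)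
          + -(x (L.r v s₁) * y.2 v (s₂ * s₃)) - -(x (L.r v s₁) * y.2 v s₂)) = 0
      rw [map_mul, hadd, hb]
      ring

/-- **B-ABS-1i** (`β¹` injective for trivial coefficients), from `BaseInput` and the structure
of the trace (hypothesis `hε`, delivered by package B-ABS-TR). -/
theorem claim_inj1_of_scalar (I : BaseInput (k := k) L) (tr : CcAmb3 L (T k G) →ₗ[k] k)
    (hε : ∃ ε : k, ε ≠ 0 ∧ ∀ y ∈ Zc3 L (T k G), ∀ α ∈ C2 𝒩 (T k G),
      (d₂₃ (T k G)).hom α = y.1 → tr y = ε * ∑ w, I.inv w (y.2 w - res₂ L (T k G) w α))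
    (x : G → k) (hx : x ∈ Z1 𝒩 (T k G))
    (h : ∀ y ∈ Zc2 L (T k G), tr (cupc₁₂ L (mulPairing k G) x y) = 0) : x ∈ B1 (T k G) := by
  classical
  obtain ⟨ε, hε0, hε⟩ := hε
  rw [mem_B1_triv_iff]
  have hadd := map_mul_of_mem_Z1 hx
  -- the restriction of `x` to `w` is a local level cocycle
  have hxw : ∀ w, (fun s : L.Gv w => x (L.r w s)) ∈ Z1 (L.lev w) (T k (L.Gv w)) := by
    intro w
    refine ⟨isLev₁_res L hx.1 w, LinearMap.mem_ker.mpr ?_⟩
    funext s
    rw [d₁₂_hom_apply]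
    change x (L.r w s.2) - x (L.r w (s.1 * s.2)) + x (L.r w s.1) = 0
    rw [map_mul, hadd]
    ring
  -- Step 1: `x` is locally trivial
  have hres : ∀ w, ∀ s : L.Gv w, x (L.r w s) = 0 := by
    intro w
    have key : ∀ b ∈ Z1 (L.lev w) (T k (L.Gv w)),
        I.inv w (cup₁₁ (fun s : L.Gv w => x (L.r w s)) b) = 0 := by
      intro b hb
      let bb : ∀ v : ι, L.Gv v → L.loc (T k G) v :=
        Pi.single (M := fun v : ι => L.Gv v → L.loc (T k G) v) w b
      have hbb_same : bb w = b :=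
        Pi.single_eq_same (M := fun v : ι => L.Gv v → L.loc (T k G) v) w b
      have hbb_ne : ∀ v, v ≠ w → bb v = 0 := fun v hv =>
        Pi.single_eq_of_ne (M := fun v : ι => L.Gv v → L.loc (T k G) v) hv b
      let y : CcAmb2 L (T k G) := (0, bb)
      have hy : y ∈ Zc2 L (T k G) := by
        refine ⟨⟨zero_mem _, fun v _ => ?_⟩, LinearMap.mem_ker.mpr ?_⟩
        · by_cases hv : v = w
          · subst hv
            change bb v ∈ C1 (L.lev v) (L.loc (T k G) v)
            rw [hbb_same]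
            exact hb.1
          · change bb v ∈ C1 (L.lev v) (L.loc (T k G) v)
            rw [hbb_ne v hv]
            exact zero_mem _
        · refine Prod.ext ?_ ?_
          · change (d₂₃ (T k G)).hom 0 = 0
            exact map_zero _
          · funext v
            change res₂ L (T k G) v 0 - (d₁₂ (L.loc (T k G) v)).hom (bb v) = 0
            rw [map_zero, zero_sub, neg_eq_zero]
            by_cases hv : v = w
            · subst hv
              rw [hbb_same]
              have := LinearMap.mem_ker.mp hb.2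
              funext s
              have h2 := congrFun this s
              rw [d₁₂_hom_apply] at h2 ⊢
              exact h2
            · rw [hbb_ne v hv]
              exact map_zero _
      have h1 := h y hy
      have h2 := hε _ (cupc₁₂_mem_Zc3 L hx hy) 0 (zero_mem _) (by
        rw [map_zero]
        funext g
        change (0 : k) = x g.1 * (0 : k)
        rw [mul_zero])
      rw [h1] at h2
      have hsum : ∑ v, I.inv v ((cupc₁₂ L (mulPairing k G) x y).2 v - res₂ L (T k G) v 0) =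
          - I.inv w (cup₁₁ (fun s : L.Gv w => x (L.r w s)) b) := by
        rw [Finset.sum_eq_single w]
        · rw [← map_neg]
          congr 1
          funext s
          change -(x (L.r w s.1) * bb w s.2) - 0 = -(x (L.r w s.1) * b s.2)
          rw [hbb_same, sub_zero]
        · intro v _ hv
          have : (cupc₁₂ L (mulPairing k G) x y).2 v - res₂ L (T k G) v 0 = 0 := by
            funext s
            change -(x (L.r v s.1) * bb v s.2) - 0 = 0
            rw [hbb_ne v hv]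
            simp
          rw [this, map_zero]
        · intro hw
          exact absurd (Finset.mem_univ w) hw
      rw [hsum] at h2
      have h3 : -I.inv w (cup₁₁ (fun s : L.Gv w => x (L.r w s)) b) = 0 := by
        rcases mul_eq_zero.mp h2.symm with h4 | h4
        · exact absurd h4 hε0
        · exact h4
      exact neg_eq_zero.mp h3
    have := I.loc_nondeg w _ (hxw w) key
    intro s
    exact congrFun this s
  -- Step 2
  by_contra hx0
  obtain ⟨z, hz, hzloc, α, hα, hdα, hsum⟩ := I.sha_left x hx hres hx0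
  choose b hbC hbd using hzloc
  let y : CcAmb2 L (T k G) := (z, fun v => b v)
  have hy : y ∈ Zc2 L (T k G) := by
    refine ⟨⟨hz.1, fun v _ => hbC v⟩, LinearMap.mem_ker.mpr ?_⟩
    refine Prod.ext ?_ ?_
    · exact LinearMap.mem_ker.mp hz.2
    · funext v
      change res₂ L (T k G) v z - (d₁₂ (L.loc (T k G) v)).hom (b v) = 0
      rw [sub_eq_zero]
      funext s
      have h2 := congrFun (hbd v) s
      rw [d₁₂_hom_apply] at h2 ⊢
      exact h2.symm
  have h1 := h y hy
  have h2 := hε _ (cupc₁₂_mem_Zc3 L hx hy) α hα (by rw [hdα]; rfl)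
  rw [h1] at h2
  have hsum' : ∑ v, I.inv v ((cupc₁₂ L (mulPairing k G) x y).2 v - res₂ L (T k G) v α) =
      - ∑ v, I.inv v (fun s => α (L.r v s.1, L.r v s.2)) := by
    rw [← Finset.sum_neg_distrib]
    refine Finset.sum_congr rfl fun v _ => ?_
    rw [← map_neg]
    congr 1
    funext s
    change -(x (L.r v s.1) * b v s.2) - α (L.r v s.1, L.r v s.2) = -α (L.r v s.1, L.r v s.2)
    rw [hres v s.1]
    ring
  rw [hsum'] at h2
  rcases mul_eq_zero.mp h2.symm with h4 | h4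
  · exact hε0 h4
  · exact hsum (neg_eq_zero.mp h4)

/-- **B-ABS-1i** in the interface shape (`claim_inj1`), given the scalar structure of `tr`. -/
theorem claim_inj1_of_scalar' (I : BaseInput (k := k) L) (tr : CcAmb3 L (T k G) →ₗ[k] k)
    (_htr : ∀ y ∈ Bc3 L (T k G), tr y = 0) (_hne : ∃ y ∈ Zc3 L (T k G), tr y ≠ 0)
    (hε : ∃ ε : k, ε ≠ 0 ∧ ∀ y ∈ Zc3 L (T k G), ∀ α ∈ C2 𝒩 (T k G),
      (d₂₃ (T k G)).hom α = y.1 → tr y = ε * ∑ w, I.inv w (y.2 w - res₂ L (T k G) w α))
    (x : G → k) (hx : x ∈ Z1 𝒩 (T k G))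
    (h : ∀ y ∈ Zc2 L (T k G), tr (cupc₁₂ L (mulPairing k G) x y) = 0) : x ∈ B1 (T k G) :=
  claim_inj1_of_scalar L I tr hε x hx h

end Fermat.Agent.S55.helper77
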