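import Fermat.Agent.S55.helper42_BAbsTr
import Fermat.Agent.S55.helper77_BAbs1i
import Fermat.Agent.S55.helper25_BAbs1s
import Fermat.Agent.S55.helper36_BAbs2

/-!
# S55 module B: the abstract base case (assembly)

`BaseInput L → Claim L (mulPairing k G) tr` for every trace functional `tr` killing cone
coboundaries and nonzero on cone cocycles.
-/

set_option autoImplicit false

universe u

open groupCohomology

namespace Fermat.Agent.S55.helper59

open Fermat.Agent.S55

variable {k : Type u} [Field k] {G : Type u} [Group G] {𝒩 : Levels G} {ι : Type} [Fintype ι]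
  (L : LocalData G 𝒩 ι)

/-- B-ABS (DELIVERABLE of the abstract part): the CLAIM for trivial coefficients and EVERY
trace functional that kills cone coboundaries and is nonzero on cone cocycles. -/
theorem claim_of_baseInput (I : BaseInput (k := k) L) (tr : CcAmb3 L (T k G) →ₗ[k] k)
    (htr : ∀ y ∈ Bc3 L (T k G), tr y = 0) (hne : ∃ y ∈ Zc3 L (T k G), tr y ≠ 0) :
    Claim L (mulPairing k G) tr :=
  have hε := helper42.exists_scalar_ne_zero_of_tr L I tr htr hne
  ⟨helper42.claim_surj0 L I tr htr hne,
    helper77.claim_inj1_of_scalar L I tr hε,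
    helper25.claim_surj1_of_scalar L I tr htr hε,
    helper36.claim_inj2_of_scalar L I tr hε⟩

/-- an admissible trace exists -/
theorem exists_admissible_tr (I : BaseInput (k := k) L) [Nonempty ι] :
    ∃ tr : CcAmb3 L (T k G) →ₗ[k] k, (∀ y ∈ Bc3 L (T k G), tr y = 0) ∧
      ∃ y ∈ Zc3 L (T k G), tr y ≠ 0 :=
  helper42.exists_tr L I

end Fermat.Agent.S55.helper59
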