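import Fermat.Agent.S55.TopTr
import Fermat.Agent.S55.AssemblyP
import Fermat.Agent.S55.helper35_Cor
import Fermat.Agent.S55.helper59_BAbs

/-!
# S55: `BaseTargetP p S` from the deliverables of SH, B and TOP-LOC (final glue)

* `ShStatement p S`  : the three deliverables of module SH for `G_ℚ`, `galLocal S`, `χ_cyc`
  (helper35's interface v1: SH-TR-B, SH-TR-NZ, SH-MAIN);
* `baseTargetP_of_statements` :
  `ShStatement p S → BaseInputStatement p S → TopLocStatement p S → p ≠ 2 → p ∈ S →
   BaseTargetP p S`.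
-/

set_option autoImplicit false

open groupCohomology ExtCitation

noncomputable section

namespace Fermat.Agent.S55

open helper35

variable (p : ℕ) [Fact p.Prime] (S : Finset Nat.Primes)

/-- The deliverables of module SH (Shapiro), for `G_ℚ` and the cyclotomic character:
for an open subgroup `U` with `χ|U = 1`, double coset representatives `D` and a trace `tr` killing
cone coboundaries: `tr ∘ cor` kills cone coboundaries of `U`; it is nonzero on cone cocycles if
`tr` is and `[G:U]` is invertible; and the CLAIM for `(U, k)` with `tr ∘ cor` implies the CLAIM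
for `(G, k[G/U])` with `tr`. -/
def ShStatement : Prop :=
  ∀ (tr : CcAmb3 (galLocal S) (groupCohomology.ofChar (k := ZMod p) (cycloChar p)) →ₗ[ZMod p]
      ZMod p)
    (U : Subgroup GQ) (hU : ∃ N ∈ (galLevels S).mem, N ≤ U) [Finite (GQ ⧸ U)]
    (D : ShData (galLocal S) U),
    (∀ c ∈ Bc3 (galLocal S) (groupCohomology.ofChar (k := ZMod p) (cycloChar p)), tr c = 0) →
    (∀ g ∈ U, cycloChar p g = 1) →
    (∀ y ∈ Bc3 (D.localData hU) (trivRep (ZMod p) ↥U),
      (tr ∘ₗ D.corCone (cycloChar p) hU) y = 0) ∧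
    ((Nat.card (GQ ⧸ U) : ZMod p) ≠ 0 →
      (∃ z ∈ Zc3 (galLocal S) (groupCohomology.ofChar (k := ZMod p) (cycloChar p)), tr z ≠ 0) →
      ∃ y ∈ Zc3 (D.localData hU) (trivRep (ZMod p) ↥U),
        (tr ∘ₗ D.corCone (cycloChar p) hU) y ≠ 0) ∧
    (Claim (D.localData hU) (mulPairing (ZMod p) ↥U) (tr ∘ₗ D.corCone (cycloChar p) hU) →
      Claim (galLocal S) (evPairing (permRep (ZMod p) U) (cycloChar p)) tr)

/-- FINAL GLUE: the weak base target from SH + B + TOP-LOC. -/
theorem baseTargetP_of_statements (hSH : ShStatement p S) (hB : BaseInputStatement p S)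
    (hLoc : TopLocStatement p S) (hp2 : p ≠ 2) (hpS : pPrime p ∈ S) : BaseTargetP p S := by
  obtain ⟨tr, htr, z, hz, hne⟩ := exists_top_tr p S hB hLoc hp2 hpS
  refine ⟨tr, htr, ?_⟩
  intro U hU hχ hidx
  obtain ⟨hfin, -⟩ := helper92.levelStatement p S hpS
  obtain ⟨F, hF, rfl⟩ := exists_field_of_open S U hU
  have : FiniteDimensional ℚ F := hF.1
  have : Finite (GQ ⧸ F.fixingSubgroup) := by
    obtain ⟨N', hN', hle⟩ := hU
    have := hfin N' hN'
    have : N'.FiniteIndex := Subgroup.finiteIndex_of_finite_quotient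
    have : F.fixingSubgroup.FiniteIndex := Subgroup.finiteIndex_of_le hle
    infer_instance
  obtain ⟨D⟩ := helper57.nonempty_shData (L := galLocal S) (U := F.fixingSubgroup)
  obtain ⟨h1, h2, h3⟩ := hSH tr F.fixingSubgroup hU D htr hχ
  obtain ⟨I, -⟩ := hB hp2 hpS F hF (hasZeta_of_cycloChar_eq_one F p hχ) hU D
  have hcard : (Nat.card (GQ ⧸ F.fixingSubgroup) : ZMod p) ≠ 0 := by
    rw [Ne, ZMod.natCast_eq_zero_iff]
    exact hidx
  exact h3 (helper59.claim_of_baseInput (D.localData hU) I _ h1 (h2 hcard ⟨z, hz, hne⟩))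

end Fermat.Agent.S55
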