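import Mathlib
import Fermat.Agent.S55.helper35_Cor

/-!
# S55 / SH-TR-B (helper38, task 388): the corestriction of cones maps coboundaries to coboundaries

For `D : ShData L U` the corestriction `D.corCone χ hU` of cone `3`-cochains (helper35) satisfies
`corCone (dc₂₃ x) = dc₂₃ (corCone₂ x)` for an explicit degree-`2` corestriction `corCone₂`, which
preserves level-constancy.  Hence `corCone` maps `Bc3` of the `U`-cone into `Bc3 L (ofChar χ)`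
and `tr ∘ corCone` kills cone coboundaries whenever `tr` does.
-/

set_option autoImplicit false
set_option linter.unusedSectionVars false
set_option linter.unusedVariables false
set_option linter.style.haveILetI false

open groupCohomology

noncomputable section

namespace Fermat.Agent.S55.helper38

open Fermat.Agent.S55 Fermat.Agent.S55.helper35

/-! ### `inhom ∘ hd = d ∘ inhom` on equivariant cochains -/

section InhomHd

universe u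

variable {k Γ : Type u} [CommRing k] [Group Γ] (A : Rep.{u} k Γ)

lemma inhom2_hd1 {F : Γ → Γ → A} (hF : IsEqv1 A F) :
    inhom2 A (hd1 F) = (d₁₂ A).hom (inhom1 A F) := by
  have h : hd1 F = homog2 A ((d₁₂ A).hom (inhom1 A F)) := by
    rw [← hd1_homog1, homog1_inhom1 A hF]
  rw [h, inhom2_homog2]

lemma inhom3_hd2 {F : Γ → Γ → Γ → A} (hF : IsEqv2 A F) :
    inhom3 A (hd2 F) = (d₂₃ A).hom (inhom2 A F) := by
  have h : hd2 F = homog3 A ((d₂₃ A).hom (inhom2 A F)) := by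
    rw [← hd2_homog2, homog2_inhom2 A hF]
  rw [h, inhom3_homog3]

end InhomHd

/-! ### transfers commute with the homogeneous differentials -/

section Transfer

variable {k : Type} [Field k] {I X : Type} [Fintype I] (w : I → k) (l : I → X → X)

lemma trf₂_hd1 (F : X → X → k) : trf₂ w l (hd1 F) = hd1 (trf₁ w l F) := by
  funext x₀ x₁ x₂
  simp only [trf₂, trf₁, hd1_apply, mul_add, mul_sub, Finset.sum_add_distrib,
    Finset.sum_sub_distrib]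

lemma trf₃_hd2 (F : X → X → X → k) : trf₃ w l (hd2 F) = hd2 (trf₂ w l F) := by
  funext x₀ x₁ x₂ x₃
  simp only [trf₃, trf₂, hd2_apply, mul_add, mul_sub, Finset.sum_add_distrib,
    Finset.sum_sub_distrib]

lemma trf₂_sub (F F' : X → X → X → k) : trf₂ w l (F - F') = trf₂ w l F - trf₂ w l F' := by
  funext x₀ x₁ x₂
  simp only [trf₂, Pi.sub_apply, mul_sub, Finset.sum_sub_distrib]

end Transfer

/-! ### sums over cosets -/

section CosetSum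

variable {k : Type} [Field k] {Γ : Type} [Group Γ] (H : Subgroup Γ)

lemma apply_eq_of_mk_eq {Φ : Γ → k} (hΦ : ∀ t, ∀ u ∈ H, Φ (t * u) = Φ t) {s t : Γ}
    (h : (s : Γ ⧸ H) = (t : Γ ⧸ H)) : Φ s = Φ t := by
  rw [QuotientGroup.eq] at h
  have := hΦ s (s⁻¹ * t) h
  rw [mul_inv_cancel_left] at this
  exact this.symm

lemma sum_comp_equiv [Fintype (Γ ⧸ H)] {Φ : Γ → k} (hΦ : ∀ t, ∀ u ∈ H, Φ (t * u) = Φ t)
    (e : Γ ⧸ H ≃ Γ ⧸ H) (f : Γ ⧸ H → Γ) (hf : ∀ c, ((f c : Γ) : Γ ⧸ H) = e c) :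
    ∑ c, Φ (f c) = ∑ c, Φ (sec H c) := by
  rw [← Equiv.sum_comp e (fun c => Φ (sec H c))]
  refine Finset.sum_congr rfl fun c _ => apply_eq_of_mk_eq H hΦ ?_
  rw [hf, mk_sec]

/-- translation invariance of a sum over coset representatives -/
lemma sum_sec_translate [Fintype (Γ ⧸ H)] {Φ : Γ → k} (hΦ : ∀ t, ∀ u ∈ H, Φ (t * u) = Φ t)
    (g : Γ) : ∑ c, Φ (g * sec H c) = ∑ c, Φ (sec H c) := by
  refine sum_comp_equiv H hΦ (MulAction.toPerm g) (fun c => g * sec H c) fun c => ?_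
  rw [MulAction.toPerm_apply]
  conv_rhs => rw [← mk_sec H c]
  rfl

end CosetSum

/-! ### the global transfer in degree `2` -/

section Global

variable {k G : Type} [Field k] [Group G] (U : Subgroup G) (χ : G →* kˣ) [Finite (G ⧸ U)]

lemma ofChar_ρ_apply (g : G) (a : k) : (ofChar χ).ρ g a = (χ g : k) * a := rfl

/-- left invariance of homogeneous `1`-cochains under a subgroup -/
def IsLInv₁ {Γ : Type} [Group Γ] (H : Subgroup Γ) (F : Γ → Γ → k) : Prop :=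
  ∀ u ∈ H, ∀ x₀ x₁, F (u * x₀) (u * x₁) = F x₀ x₁

/-- left invariance of homogeneous `2`-cochains under a subgroup -/
def IsLInv₂ {Γ : Type} [Group Γ] (H : Subgroup Γ) (F : Γ → Γ → Γ → k) : Prop :=
  ∀ u ∈ H, ∀ x₀ x₁ x₂, F (u * x₀) (u * x₁) (u * x₂) = F x₀ x₁ x₂

open Classical in
/-- global transfer of `U`-invariant homogeneous `2`-cochains to `χ`-equivariant ones -/
def trfG₂ (F : G → G → G → k) : G → G → G → k :=
  letI : Fintype (G ⧸ U) := Fintype.ofFinite _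
  trf₂ (fun c : G ⧸ U => (χ (sec U c) : k)) (fun c x => (sec U c)⁻¹ * x) F

lemma trfG₃_hd2 (F : G → G → G → k) : trfG₃ (U := U) χ (hd2 F) = hd2 (trfG₂ U χ F) := by
  classical
  letI : Fintype (G ⧸ U) := Fintype.ofFinite _
  exact trf₃_hd2 _ _ F

lemma isEqv2_trfG₂ (hχ : ∀ g ∈ U, χ g = 1) {F : G → G → G → k} (hF : IsLInv₂ U F) :
    IsEqv2 (ofChar χ) (trfG₂ U χ F) := by
  classical
  letI : Fintype (G ⧸ U) := Fintype.ofFinite _
  intro g x₀ x₁ x₂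
  show ∑ c : G ⧸ U, (χ (sec U c) : k) *
      F ((sec U c)⁻¹ * (g * x₀)) ((sec U c)⁻¹ * (g * x₁)) ((sec U c)⁻¹ * (g * x₂)) =
    (χ g : k) * ∑ c : G ⧸ U, (χ (sec U c) : k) *
      F ((sec U c)⁻¹ * x₀) ((sec U c)⁻¹ * x₁) ((sec U c)⁻¹ * x₂)
  set Ψ : G → k := fun t => (χ t : k) * F (t⁻¹ * x₀) (t⁻¹ * x₁) (t⁻¹ * x₂) with hΨ
  have hΨinv : ∀ t, ∀ u ∈ U, Ψ (t * u) = Ψ t := by
    intro t u hu
    simp only [hΨ, map_mul, hχ u hu, mul_one, mul_inv_rev, mul_assoc]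
    rw [hF u⁻¹ (U.inv_mem hu)]
  have h1 : ∀ c : G ⧸ U, (χ (sec U c) : k) *
      F ((sec U c)⁻¹ * (g * x₀)) ((sec U c)⁻¹ * (g * x₁)) ((sec U c)⁻¹ * (g * x₂)) =
      (χ g : k) * Ψ (g⁻¹ * sec U c) := by
    intro c
    simp only [hΨ, map_mul, map_inv, mul_inv_rev, inv_inv, mul_assoc, Units.val_mul,
      Units.mul_inv_cancel_left]
  rw [Finset.sum_congr rfl (fun c _ => h1 c), ← Finset.mul_sum, sum_sec_translate U hΨinv g⁻¹]

end Global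

/-! ### the local transfers -/

section Local

variable {k G : Type} [Field k] [Group G] {𝒩 : Levels G} {ι : Type} {L : LocalData G 𝒩 ι}
  {U : Subgroup G} (D : ShData L U) (χ : G →* kˣ) [Finite (G ⧸ U)]

lemma res_ofChar_ρ_apply (v : ι) (g : L.Gv v) (a : k) :
    (Rep.res (L.r v) (ofChar χ)).ρ g a = (χ (L.r v g) : k) * a := rfl

lemma χ_r_eq_one (hχ : ∀ g ∈ U, χ g = 1) (v : ι) (j : D.J v) {u : L.Gv v}
    (hu : u ∈ D.Uw v j) : χ (L.r v u) = 1 := by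
  have h := hχ _ (D.mem_Uw.1 hu)
  rw [map_mul, map_mul, map_inv, mul_comm, mul_inv_cancel_left] at h
  exact h

open Classical in
/-- local transfer at `(v, j)` of `U_w`-invariant homogeneous `1`-cochains -/
def trfL₁ (v : ι) (j : D.J v) (F : L.Gv v → L.Gv v → k) : L.Gv v → L.Gv v → k :=
  letI : Fintype (L.Gv v ⧸ D.Uw v j) := Fintype.ofFinite _
  trf₁ (fun c : L.Gv v ⧸ D.Uw v j => (χ (L.r v (sec (D.Uw v j) c) * D.y v j) : k))
    (fun c x => (sec (D.Uw v j) c)⁻¹ * x) F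

lemma trfL₂_hd1 (v : ι) (j : D.J v) (F : L.Gv v → L.Gv v → k) :
    D.trfL₂ χ v j (hd1 F) = hd1 (trfL₁ D χ v j F) := by
  classical
  letI : Fintype (L.Gv v ⧸ D.Uw v j) := Fintype.ofFinite _
  exact trf₂_hd1 _ _ F

lemma trfL₂_sub (v : ι) (j : D.J v) (F F' : L.Gv v → L.Gv v → L.Gv v → k) :
    D.trfL₂ χ v j (F - F') = D.trfL₂ χ v j F - D.trfL₂ χ v j F' := by
  classical
  letI : Fintype (L.Gv v ⧸ D.Uw v j) := Fintype.ofFinite _
  exact trf₂_sub _ _ F F'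

lemma isEqv1_trfL₁ (hχ : ∀ g ∈ U, χ g = 1) (v : ι) (j : D.J v) {F : L.Gv v → L.Gv v → k}
    (hF : IsLInv₁ (D.Uw v j) F) :
    IsEqv1 (Rep.res (L.r v) (ofChar χ)) (trfL₁ D χ v j F) := by
  classical
  letI : Fintype (L.Gv v ⧸ D.Uw v j) := Fintype.ofFinite _
  intro g x₀ x₁
  show ∑ c : L.Gv v ⧸ D.Uw v j, (χ (L.r v (sec (D.Uw v j) c) * D.y v j) : k) *
      F ((sec (D.Uw v j) c)⁻¹ * (g * x₀)) ((sec (D.Uw v j) c)⁻¹ * (g * x₁)) =
    (χ (L.r v g) : k) * ∑ c : L.Gv v ⧸ D.Uw v j,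
      (χ (L.r v (sec (D.Uw v j) c) * D.y v j) : k) *
        F ((sec (D.Uw v j) c)⁻¹ * x₀) ((sec (D.Uw v j) c)⁻¹ * x₁)
  set Ψ : L.Gv v → k := fun t => (χ (L.r v t * D.y v j) : k) * F (t⁻¹ * x₀) (t⁻¹ * x₁) with hΨ
  have hΨinv : ∀ t, ∀ u ∈ D.Uw v j, Ψ (t * u) = Ψ t := by
    intro t u hu
    simp only [hΨ, map_mul, χ_r_eq_one D χ hχ v j hu, mul_one, mul_inv_rev, mul_assoc]
    rw [hF u⁻¹ ((D.Uw v j).inv_mem hu)]
  have h1 : ∀ c : L.Gv v ⧸ D.Uw v j, (χ (L.r v (sec (D.Uw v j) c) * D.y v j) : k) *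
      F ((sec (D.Uw v j) c)⁻¹ * (g * x₀)) ((sec (D.Uw v j) c)⁻¹ * (g * x₁)) =
      (χ (L.r v g) : k) * Ψ (g⁻¹ * sec (D.Uw v j) c) := by
    intro c
    simp only [hΨ, map_mul, map_inv, mul_inv_rev, inv_inv, mul_assoc, Units.val_mul,
      Units.mul_inv_cancel_left]
  rw [Finset.sum_congr rfl (fun c _ => h1 c), ← Finset.mul_sum,
    sum_sec_translate (D.Uw v j) hΨinv g⁻¹]

end Local

/-! ### the double coset decomposition `G/U = ⨆_j G_v/U_w` -/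

section DoubleCoset

variable {k G : Type} [Field k] [Group G] {𝒩 : Levels G} {ι : Type} {L : LocalData G 𝒩 ι}
  {U : Subgroup G} (D : ShData L U) [Finite (G ⧸ U)]

/-- the orbit map `(j, c) ↦ r_v (sec c) * y_j * U` -/
def orbitMap (v : ι) : (Σ j : D.J v, L.Gv v ⧸ D.Uw v j) → G ⧸ U :=
  fun p => ((L.r v (sec (D.Uw v p.1) p.2) * D.y v p.1 : G) : G ⧸ U)

lemma orbitMap_bijective (v : ι) : Function.Bijective (orbitMap D v) := by
  constructor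
  · rintro ⟨j, c⟩ ⟨j', c'⟩ h
    have h' : ((L.r v (sec (D.Uw v j) c) * D.y v j : G) : G ⧸ U) =
        ((L.r v (sec (D.Uw v j') c') * D.y v j' : G) : G ⧸ U) := h
    have hu := QuotientGroup.eq.1 h'
    have hj : j = j' := by
      refine D.disjoint v j j' ⟨(sec (D.Uw v j') c')⁻¹ * sec (D.Uw v j) c, _, hu, ?_⟩
      rw [map_mul, map_inv]
      group
    subst hj
    have hc : c = c' := D.orbitMap_injective v j h'
    subst hc
    rfl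
  · intro C
    obtain ⟨g, rfl⟩ := QuotientGroup.mk_surjective C
    obtain ⟨j, h, u, hu, hg⟩ := D.cover v g
    refine ⟨⟨j, (h : L.Gv v ⧸ D.Uw v j)⟩, ?_⟩
    show ((L.r v (sec (D.Uw v j) (h : L.Gv v ⧸ D.Uw v j)) * D.y v j : G) : G ⧸ U) = (g : G ⧸ U)
    rw [QuotientGroup.eq]
    have h1 : (sec (D.Uw v j) (h : L.Gv v ⧸ D.Uw v j))⁻¹ * h ∈ D.Uw v j := by
      have := (D.Uw v j).inv_mem (sec_mk_mem (D.Uw v j) h)
      simpa using this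
    have h2 := D.mem_Uw.1 h1
    have e : (L.r v (sec (D.Uw v j) (h : L.Gv v ⧸ D.Uw v j)) * D.y v j)⁻¹ * g =
        ((D.y v j)⁻¹ * L.r v ((sec (D.Uw v j) (h : L.Gv v ⧸ D.Uw v j))⁻¹ * h) * D.y v j) * u := by
      rw [hg, map_mul, map_inv]
      group
    rw [e]
    exact U.mul_mem h2 hu

lemma sum_doubleCoset (v : ι) [Fintype (G ⧸ U)] [∀ j, Fintype (L.Gv v ⧸ D.Uw v j)]
    {Φ : G → k} (hΦ : ∀ t, ∀ u ∈ U, Φ (t * u) = Φ t) :
    ∑ j : D.J v, ∑ c : L.Gv v ⧸ D.Uw v j, Φ (L.r v (sec (D.Uw v j) c) * D.y v j) =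
      ∑ C : G ⧸ U, Φ (sec U C) := by
  rw [← (orbitMap_bijective D v).sum_comp (fun C => Φ (sec U C)), Fintype.sum_sigma]
  refine Finset.sum_congr rfl fun j _ => Finset.sum_congr rfl fun c _ => ?_
  refine apply_eq_of_mk_eq U hΦ ?_
  rw [mk_sec]
  rfl

end DoubleCoset

/-! ### the corestriction in degree `2` and the chain map identities -/

section ChainMap

variable {k G : Type} [Field k] [Group G] {𝒩 : Levels G} {ι : Type} {L : LocalData G 𝒩 ι}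
  {U : Subgroup G} (D : ShData L U) (χ : G →* kˣ) [Finite (G ⧸ U)]

/-- The global component of the degree-`2` corestriction. -/
def corGlob₂ (a : ↥U × ↥U → k) : G × G → k :=
  inhom2 (ofChar χ) (trfG₂ U χ (pull2 (retr U) (homog2 (trivRep k ↥U) a)))

/-- The local corestriction at `(v, j)` of a `1`-cochain of `U_w`. -/
def corLoc₁ (v : ι) (j : D.J v) (b : ↥(D.Uw v j) → k) : L.Gv v → k :=
  inhom1 (Rep.res (L.r v) (ofChar χ))
    (trfL₁ D χ v j (pull1 (retr (D.Uw v j)) (homog1 (trivRep k ↥(D.Uw v j)) b)))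

/-- The homotopy correction at `(v, j)` in degree `2`. -/
def corMix₂ (v : ι) (j : D.J v) (a : ↥U × ↥U → k) : L.Gv v → k :=
  inhom1 (Rep.res (L.r v) (ofChar χ))
    (trfL₁ D χ v j (prism2 (D.beta0 v j) (D.beta1 v j) (homog2 (trivRep k ↥U) a)))

/-- The "twisted restriction" term: transfer of the pull-back along `β₁`. -/
def locT (v : ι) (j : D.J v) (a : ↥U × ↥U → k) : L.Gv v × L.Gv v → k :=
  inhom2 (Rep.res (L.r v) (ofChar χ))
    (D.trfL₂ χ v j (pull2 (D.beta1 v j) (homog2 (trivRep k ↥U) a)))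

lemma isLInv₂_pull2_retr (a : ↥U × ↥U → k) :
    IsLInv₂ U (pull2 (retr U) (homog2 (trivRep k ↥U) a)) := by
  intro u hu x₀ x₁ x₂
  simp only [pull2_apply, homog2_apply]
  have h : ∀ x : G, retr U (u * x) = (⟨u, hu⟩ : ↥U) * retr U x := fun x => retr_mul U ⟨u, hu⟩ x
  rw [h, h, h]
  have e1 : ((⟨u, hu⟩ : ↥U) * retr U x₀)⁻¹ * ((⟨u, hu⟩ : ↥U) * retr U x₁) =
      (retr U x₀)⁻¹ * retr U x₁ := by group
  have e2 : ((⟨u, hu⟩ : ↥U) * retr U x₁)⁻¹ * ((⟨u, hu⟩ : ↥U) * retr U x₂) =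
      (retr U x₁)⁻¹ * retr U x₂ := by group
  rw [e1, e2]
  rfl

lemma isLInv₁_pull1_retr (v : ι) (j : D.J v) (b : ↥(D.Uw v j) → k) :
    IsLInv₁ (D.Uw v j) (pull1 (retr (D.Uw v j)) (homog1 (trivRep k ↥(D.Uw v j)) b)) := by
  intro u hu x₀ x₁
  simp only [pull1_apply, homog1_apply]
  have h : ∀ x : L.Gv v, retr (D.Uw v j) (u * x) = (⟨u, hu⟩ : ↥(D.Uw v j)) * retr (D.Uw v j) x :=
    fun x => retr_mul (D.Uw v j) ⟨u, hu⟩ x
  rw [h, h]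
  have e1 : ((⟨u, hu⟩ : ↥(D.Uw v j)) * retr (D.Uw v j) x₀)⁻¹ *
      ((⟨u, hu⟩ : ↥(D.Uw v j)) * retr (D.Uw v j) x₁) =
      (retr (D.Uw v j) x₀)⁻¹ * retr (D.Uw v j) x₁ := by group
  rw [e1]
  rfl

lemma beta0_mul (v : ι) (j : D.J v) {u : L.Gv v} (hu : u ∈ D.Uw v j) (x : L.Gv v) :
    D.beta0 v j (u * x) = D.rw v j ⟨u, hu⟩ * D.beta0 v j x := by
  unfold ShData.beta0
  rw [retr_mul (D.Uw v j) ⟨u, hu⟩ x, map_mul]

lemma beta1_mul (v : ι) (j : D.J v) {u : L.Gv v} (hu : u ∈ D.Uw v j) (x : L.Gv v) :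
    D.beta1 v j (u * x) = D.rw v j ⟨u, hu⟩ * D.beta1 v j x := by
  unfold ShData.beta1 ShData.iotaMap
  rw [← retr_mul U (D.rw v j ⟨u, hu⟩)]
  congr 1
  rw [ShData.coe_rw, map_mul]
  group

lemma isLInv₁_prism2 (v : ι) (j : D.J v) (a : ↥U × ↥U → k) :
    IsLInv₁ (D.Uw v j) (prism2 (D.beta0 v j) (D.beta1 v j) (homog2 (trivRep k ↥U) a)) := by
  intro u hu x₀ x₁
  simp only [prism2_apply, beta0_mul D v j hu, beta1_mul D v j hu]
  have h := isEqv2_homog2 (trivRep k ↥U) a (D.rw v j ⟨u, hu⟩)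
  rw [h, h]
  rfl

lemma corGlob₃_d₂₃ (hχ : ∀ g ∈ U, χ g = 1) (a : ↥U × ↥U → k) :
    corGlob₃ (U := U) χ ((d₂₃ (trivRep k ↥U)).hom a) =
      (d₂₃ (ofChar χ)).hom (corGlob₂ χ a) := by
  unfold corGlob₃ corGlob₂
  rw [← hd2_homog2, ← hd2_pull2, trfG₃_hd2,
    inhom3_hd2 (ofChar χ) (isEqv2_trfG₂ U χ hχ (isLInv₂_pull2_retr a))]

variable (hU : ∃ N ∈ 𝒩.mem, N ≤ U)

lemma d₁₂_loc_eq (v : ι) (j : D.J v) (b : ↥(D.Uw v j) → k) :
    (d₁₂ ((D.localData hU).loc (trivRep k ↥U) ⟨v, j⟩)).hom b =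
      (d₁₂ (trivRep k ↥(D.Uw v j))).hom b := by
  rfl

/-- (L2) the local corestriction is a chain map -/
lemma corLoc₂_d₁₂ (hχ : ∀ g ∈ U, χ g = 1) (v : ι) (j : D.J v) (b : ↥(D.Uw v j) → k) :
    D.corLoc₂ χ v j ((d₁₂ ((D.localData hU).loc (trivRep k ↥U) ⟨v, j⟩)).hom b) =
      (d₁₂ (L.loc (ofChar χ) v)).hom (corLoc₁ D χ v j b) := by
  rw [d₁₂_loc_eq]
  unfold ShData.corLoc₂ corLoc₁
  rw [← hd1_homog1, ← hd1_pull1, trfL₂_hd1,
    inhom2_hd1 (Rep.res (L.r v) (ofChar χ))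
      (isEqv1_trfL₁ D χ hχ v j (isLInv₁_pull1_retr D v j b))]

lemma pull2_beta0 (v : ι) (j : D.J v) (a : ↥U × ↥U → k) :
    pull2 (D.beta0 v j) (homog2 (trivRep k ↥U) a) =
      pull2 (retr (D.Uw v j)) (homog2 (trivRep k ↥(D.Uw v j))
        (res₂ (D.localData hU) (trivRep k ↥U) ⟨v, j⟩ a)) := by
  funext x₀ x₁ x₂
  simp only [pull2_apply, homog2_apply, ShData.beta0]
  rw [← map_inv, ← map_mul, ← map_inv, ← map_mul]
  rfl

lemma inhom2_sub {Γ : Type} [Group Γ] (A : Rep.{0} k Γ) (F F' : Γ → Γ → Γ → A) :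
    inhom2 A (F - F') = inhom2 A F - inhom2 A F' := rfl

/-- (L3) the prism identity after transfer -/
lemma corLoc₂_add_corMix₃ (hχ : ∀ g ∈ U, χ g = 1) (v : ι) (j : D.J v) (a : ↥U × ↥U → k) :
    D.corLoc₂ χ v j (res₂ (D.localData hU) (trivRep k ↥U) ⟨v, j⟩ a) +
      D.corMix₃ χ v j ((d₂₃ (trivRep k ↥U)).hom a) =
    locT D χ v j a - (d₁₂ (L.loc (ofChar χ) v)).hom (corMix₂ D χ v j a) := by
  have hp : prism3 (D.beta0 v j) (D.beta1 v j) (hd2 (homog2 (trivRep k ↥U) a)) =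
      pull2 (D.beta1 v j) (homog2 (trivRep k ↥U) a) -
        pull2 (D.beta0 v j) (homog2 (trivRep k ↥U) a) -
        hd1 (prism2 (D.beta0 v j) (D.beta1 v j) (homog2 (trivRep k ↥U) a)) := by
    rw [← hd1_prism2_add]
    abel
  have h3 : D.corMix₃ χ v j ((d₂₃ (trivRep k ↥U)).hom a) =
      locT D χ v j a - D.corLoc₂ χ v j (res₂ (D.localData hU) (trivRep k ↥U) ⟨v, j⟩ a) -
        (d₁₂ (L.loc (ofChar χ) v)).hom (corMix₂ D χ v j a) := by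
    unfold ShData.corMix₃ locT ShData.corLoc₂ corMix₂
    rw [← hd2_homog2, hp, trfL₂_sub, trfL₂_sub, inhom2_sub, inhom2_sub, trfL₂_hd1,
      inhom2_hd1 (Rep.res (L.r v) (ofChar χ))
        (isEqv1_trfL₁ D χ hχ v j (isLInv₁_prism2 D v j a)), pull2_beta0 D hU]
  rw [h3]
  abel

/-- (L4) the double coset formula: the restriction of the global corestriction is the sum of
the twisted local transfers -/
lemma sum_locT (hχ : ∀ g ∈ U, χ g = 1) (v : ι) (a : ↥U × ↥U → k) :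
    ∑ j : D.J v, locT D χ v j a = res₂ L (ofChar χ) v (corGlob₂ χ a) := by
  classical
  letI : Fintype (G ⧸ U) := Fintype.ofFinite _
  letI : ∀ j, Fintype (L.Gv v ⧸ D.Uw v j) := fun j => Fintype.ofFinite _
  funext ⟨s₁, s₂⟩
  rw [Finset.sum_apply]
  set F' : G → G → G → k := pull2 (retr U) (homog2 (trivRep k ↥U) a) with hF'
  set Φ : G → k := fun t => (χ t : k) *
    F' (t⁻¹ * 1) (t⁻¹ * L.r v s₁) (t⁻¹ * (L.r v s₁ * L.r v s₂)) with hΦ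
  have hΦinv : ∀ t, ∀ u ∈ U, Φ (t * u) = Φ t := by
    intro t u hu
    simp only [hΦ, map_mul, hχ u hu, mul_one, mul_inv_rev, mul_assoc]
    have := isLInv₂_pull2_retr (k := k) a u⁻¹ (U.inv_mem hu) t⁻¹ (t⁻¹ * L.r v s₁)
      (t⁻¹ * (L.r v s₁ * L.r v s₂))
    rw [← hF'] at this
    rw [this]
  have hR : res₂ L (ofChar χ) v (corGlob₂ χ a) (s₁, s₂) = ∑ C : G ⧸ U, Φ (sec U C) := rfl
  have hL : ∀ j : D.J v, locT D χ v j a (s₁, s₂) =
      ∑ c : L.Gv v ⧸ D.Uw v j, Φ (L.r v (sec (D.Uw v j) c) * D.y v j) := by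
    intro j
    show ∑ c : L.Gv v ⧸ D.Uw v j, (χ (L.r v (sec (D.Uw v j) c) * D.y v j) : k) *
        homog2 (trivRep k ↥U) a (D.beta1 v j ((sec (D.Uw v j) c)⁻¹ * 1))
          (D.beta1 v j ((sec (D.Uw v j) c)⁻¹ * s₁))
          (D.beta1 v j ((sec (D.Uw v j) c)⁻¹ * (s₁ * s₂))) = _
    refine Finset.sum_congr rfl fun c _ => ?_
    simp only [hΦ, hF', pull2_apply, ShData.beta1, ShData.iotaMap, map_mul, map_inv,
      mul_inv_rev, mul_assoc, mul_one]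
  rw [hR, Finset.sum_congr rfl (fun j _ => hL j)]
  exact sum_doubleCoset D v hΦinv

lemma corLoc₂_sub (v : ι) (j : D.J v) (b b' : ↥(D.Uw v j) × ↥(D.Uw v j) → k) :
    D.corLoc₂ χ v j (b - b') = D.corLoc₂ χ v j b - D.corLoc₂ χ v j b' := by
  have h : b - b' = b + (-1 : k) • b' := by
    rw [neg_one_smul, sub_eq_add_neg]
  rw [h, D.corLoc₂_add, D.corLoc₂_smul, neg_one_smul, sub_eq_add_neg]

/-- **The corestriction of cone `2`-cochains.** -/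
def corCone₂ (x : CcAmb2 (D.localData hU) (trivRep k ↥U)) : CcAmb2 L (ofChar χ) :=
  (corGlob₂ χ x.1,
    fun v => ∑ j : D.J v, (corLoc₁ D χ v j (x.2 ⟨v, j⟩) + corMix₂ D χ v j x.1))

/-- **Chain map property**: `cor (d x) = d (cor x)` on cone `2`-cochains. -/
theorem corCone_dc₂₃ (hχ : ∀ g ∈ U, χ g = 1) (x : CcAmb2 (D.localData hU) (trivRep k ↥U)) :
    D.corCone χ hU (dc₂₃ (D.localData hU) (trivRep k ↥U) x) =
      dc₂₃ L (ofChar χ) (corCone₂ D χ hU x) := by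
  refine Prod.ext (corGlob₃_d₂₃ χ hχ x.1) ?_
  funext v
  show ∑ j : D.J v, (D.corLoc₂ χ v j
        (res₂ (D.localData hU) (trivRep k ↥U) ⟨v, j⟩ x.1 -
          (d₁₂ ((D.localData hU).loc (trivRep k ↥U) ⟨v, j⟩)).hom (x.2 ⟨v, j⟩)) +
      D.corMix₃ χ v j ((d₂₃ (trivRep k ↥U)).hom x.1)) =
    res₂ L (ofChar χ) v (corGlob₂ χ x.1) -
      (d₁₂ (L.loc (ofChar χ) v)).hom
        (∑ j : D.J v, (corLoc₁ D χ v j (x.2 ⟨v, j⟩) + corMix₂ D χ v j x.1))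
  have hj : ∀ j : D.J v, D.corLoc₂ χ v j
        (res₂ (D.localData hU) (trivRep k ↥U) ⟨v, j⟩ x.1 -
          (d₁₂ ((D.localData hU).loc (trivRep k ↥U) ⟨v, j⟩)).hom (x.2 ⟨v, j⟩)) +
      D.corMix₃ χ v j ((d₂₃ (trivRep k ↥U)).hom x.1) =
      locT D χ v j x.1 - (d₁₂ (L.loc (ofChar χ) v)).hom
        (corLoc₁ D χ v j (x.2 ⟨v, j⟩) + corMix₂ D χ v j x.1) := by
    intro j
    have e1 := corLoc₂_sub D χ v j (res₂ (D.localData hU) (trivRep k ↥U) ⟨v, j⟩ x.1)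
      ((d₁₂ ((D.localData hU).loc (trivRep k ↥U) ⟨v, j⟩)).hom (x.2 ⟨v, j⟩))
    have e2 := corLoc₂_d₁₂ D χ hU hχ v j (x.2 ⟨v, j⟩)
    have e3 := corLoc₂_add_corMix₃ D χ hU hχ v j x.1
    refine (congrArg (fun t => t + D.corMix₃ χ v j ((d₂₃ (trivRep k ↥U)).hom x.1)) e1).trans ?_
    rw [sub_add_eq_add_sub, e3, e2, map_add]
    abel
  rw [Finset.sum_congr rfl (fun j _ => hj j), Finset.sum_sub_distrib, sum_locT D χ hχ v x.1,
    map_sum]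

end ChainMap

/-! ### level constancy -/

section LevelLemmas

variable {k : Type} [Field k]

/-- `retr` is compatible with right multiplication by a normal subgroup contained in `H` -/
lemma retr_mul_right {Γ : Type} [Group Γ] (H N : Subgroup Γ) [hN : N.Normal] (hNH : N ≤ H)
    (x : Γ) {n : Γ} (hn : n ∈ N) :
    ∃ m ∈ N.subgroupOf H, retr H (x * n) = retr H x * m := by
  have hc : (((x * n)⁻¹ : Γ) : Γ ⧸ H) = ((x⁻¹ : Γ) : Γ ⧸ H) := by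
    rw [QuotientGroup.eq]
    have e : ((x * n)⁻¹)⁻¹ * x⁻¹ = x * n * x⁻¹ := by group
    rw [e]
    exact hNH (hN.conj_mem n hn x)
  have hm : (sec H ((x⁻¹ : Γ) : Γ ⧸ H))⁻¹ * n * sec H ((x⁻¹ : Γ) : Γ ⧸ H) ∈ N := by
    have := hN.conj_mem n hn (sec H ((x⁻¹ : Γ) : Γ ⧸ H))⁻¹
    simpa using this
  refine ⟨⟨_, hNH hm⟩, ?_, ?_⟩
  · rw [Subgroup.mem_subgroupOf]
    exact hm
  · apply Subtype.ext
    simp only [coe_retr, hc, Subgroup.coe_mul]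
    group

lemma homog1_level {V : Type} [Group V] (N' : Subgroup V) {b : V → k}
    (hb : ∀ g : V, ∀ s ∈ N', b (g * s) = b g) (u₀ u₁ : V) {n : V} (hn : n ∈ N') :
    homog1 (trivRep k V) b u₀ (u₁ * n) = homog1 (trivRep k V) b u₀ u₁ := by
  simp only [homog1_apply]
  rw [← mul_assoc, hb _ _ hn]

lemma homog2_level {V : Type} [Group V] (N' : Subgroup V) [hN' : N'.Normal] {a : V × V → k}
    (ha : ∀ g₁ g₂ : V, ∀ s₁ ∈ N', ∀ s₂ ∈ N', a (g₁ * s₁, g₂ * s₂) = a (g₁, g₂))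
    (u₀ u₁ u₂ : V) {n₁ n₂ : V} (h₁ : n₁ ∈ N') (h₂ : n₂ ∈ N') :
    homog2 (trivRep k V) a u₀ (u₁ * n₁) (u₂ * n₂) = homog2 (trivRep k V) a u₀ u₁ u₂ := by
  simp only [homog2_apply]
  have e1 : u₀⁻¹ * (u₁ * n₁) = (u₀⁻¹ * u₁) * n₁ := by group
  have e2 : (u₁ * n₁)⁻¹ * (u₂ * n₂) =
      (u₁⁻¹ * u₂) * ((u₁⁻¹ * u₂)⁻¹ * n₁⁻¹ * (u₁⁻¹ * u₂) * n₂) := by group
  have hmem : (u₁⁻¹ * u₂)⁻¹ * n₁⁻¹ * (u₁⁻¹ * u₂) * n₂ ∈ N' := by
    refine N'.mul_mem ?_ h₂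
    have := hN'.conj_mem _ (N'.inv_mem h₁) (u₁⁻¹ * u₂)⁻¹
    simpa using this
  rw [e1, e2, ha _ _ _ h₁ _ hmem]

lemma homog2_level_last {V : Type} [Group V] (N' : Subgroup V) [hN' : N'.Normal]
    {a : V × V → k}
    (ha : ∀ g₁ g₂ : V, ∀ s₁ ∈ N', ∀ s₂ ∈ N', a (g₁ * s₁, g₂ * s₂) = a (g₁, g₂))
    (u₀ u₁ u₂ : V) {n₂ : V} (h₂ : n₂ ∈ N') :
    homog2 (trivRep k V) a u₀ u₁ (u₂ * n₂) = homog2 (trivRep k V) a u₀ u₁ u₂ := by
  have := homog2_level N' ha u₀ u₁ u₂ N'.one_mem h₂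
  rwa [mul_one] at this

end LevelLemmas

section Levels

variable {k G : Type} [Field k] [Group G] {𝒩 : Levels G} {ι : Type} {L : LocalData G 𝒩 ι}
  {U : Subgroup G} (D : ShData L U) (χ : G →* kˣ) [Finite (G ⧸ U)]
  (hU : ∃ N ∈ 𝒩.mem, N ≤ U)

lemma corGlob₂_mem_C2 {a : ↥U × ↥U → k}
    (ha : a ∈ C2 (restrictLevels 𝒩 U hU) (trivRep k ↥U)) :
    corGlob₂ χ a ∈ C2 𝒩 (ofChar χ) := by
  classical
  letI : Fintype (G ⧸ U) := Fintype.ofFinite _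
  obtain ⟨N', ⟨N, hN, hNU, rfl⟩, ha⟩ := ha
  haveI := 𝒩.normal N hN
  refine ⟨N, hN, fun g₁ g₂ s₁ hs₁ s₂ hs₂ => ?_⟩
  show ∑ C : G ⧸ U, (χ (sec U C) : k) *
      homog2 (trivRep k ↥U) a (retr U ((sec U C)⁻¹ * 1)) (retr U ((sec U C)⁻¹ * (g₁ * s₁)))
        (retr U ((sec U C)⁻¹ * (g₁ * s₁ * (g₂ * s₂)))) =
    ∑ C : G ⧸ U, (χ (sec U C) : k) *
      homog2 (trivRep k ↥U) a (retr U ((sec U C)⁻¹ * 1)) (retr U ((sec U C)⁻¹ * g₁))
        (retr U ((sec U C)⁻¹ * (g₁ * g₂)))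
  refine Finset.sum_congr rfl fun C _ => ?_
  congr 1
  have e1 : (sec U C)⁻¹ * (g₁ * s₁) = ((sec U C)⁻¹ * g₁) * s₁ := by group
  have e2 : (sec U C)⁻¹ * (g₁ * s₁ * (g₂ * s₂)) =
      ((sec U C)⁻¹ * (g₁ * g₂)) * (g₂⁻¹ * s₁ * g₂ * s₂) := by group
  have hs : g₂⁻¹ * s₁ * g₂ * s₂ ∈ N := by
    refine N.mul_mem ?_ hs₂
    have := (𝒩.normal N hN).conj_mem s₁ hs₁ g₂⁻¹
    simpa using this
  obtain ⟨m₁, hm₁, h1⟩ := retr_mul_right U N hNU ((sec U C)⁻¹ * g₁) hs₁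
  obtain ⟨m₂, hm₂, h2⟩ := retr_mul_right U N hNU ((sec U C)⁻¹ * (g₁ * g₂)) hs
  rw [e1, e2, h1, h2]
  exact homog2_level (N.subgroupOf U) ha _ _ _ hm₁ hm₂

/-- a local level inside `U_w`, below a given local level, mapping into a given global level -/
lemma exists_local_level (v : ι) (j : D.J v) {N : Subgroup G} (hN : N ∈ 𝒩.mem) (hNU : N ≤ U)
    {M : Subgroup (L.Gv v)} (hM : M ∈ (L.lev v).mem) :
    ∃ M' ∈ (L.lev v).mem, M' ≤ M ∧ M' ≤ D.Uw v j ∧ ∀ m ∈ M', L.r v m ∈ N := by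
  obtain ⟨N', hN', hle⟩ := L.compat v N hN
  obtain ⟨M', hM', hle'⟩ := (L.lev v).directed M hM N' hN'
  have hr : ∀ m ∈ M', L.r v m ∈ N := fun m hm => hle (hle' hm).2
  refine ⟨M', hM', fun m hm => (hle' hm).1, fun m hm => ?_, hr⟩
  rw [ShData.mem_Uw]
  have := (𝒩.normal N hN).conj_mem _ (hr m hm) (D.y v j)⁻¹
  rw [inv_inv] at this
  exact hNU this

lemma corLoc₁_mem_C1 (v : ι) (j : D.J v) {b : ↥(D.Uw v j) → k}
    (hb : b ∈ C1 ((D.localData hU).lev ⟨v, j⟩) ((D.localData hU).loc (trivRep k ↥U) ⟨v, j⟩)) :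
    corLoc₁ D χ v j b ∈ C1 (L.lev v) (L.loc (ofChar χ) v) := by
  classical
  letI : Fintype (L.Gv v ⧸ D.Uw v j) := Fintype.ofFinite _
  obtain ⟨N', ⟨M, hM, rfl⟩, hb⟩ := hb
  obtain ⟨N, hN, hNU⟩ := hU
  obtain ⟨M', hM', hle, hleU, -⟩ := exists_local_level D v j hN hNU hM
  haveI := (L.lev v).normal M' hM'
  refine ⟨M', hM', fun g s hs => ?_⟩
  show ∑ c : L.Gv v ⧸ D.Uw v j, (χ (L.r v (sec (D.Uw v j) c) * D.y v j) : k) *
      homog1 (trivRep k ↥(D.Uw v j)) b (retr (D.Uw v j) ((sec (D.Uw v j) c)⁻¹ * 1))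
        (retr (D.Uw v j) ((sec (D.Uw v j) c)⁻¹ * (g * s))) =
    ∑ c : L.Gv v ⧸ D.Uw v j, (χ (L.r v (sec (D.Uw v j) c) * D.y v j) : k) *
      homog1 (trivRep k ↥(D.Uw v j)) b (retr (D.Uw v j) ((sec (D.Uw v j) c)⁻¹ * 1))
        (retr (D.Uw v j) ((sec (D.Uw v j) c)⁻¹ * g))
  refine Finset.sum_congr rfl fun c _ => ?_
  congr 1
  obtain ⟨m, hm, h1⟩ := retr_mul_right (D.Uw v j) M' hleU ((sec (D.Uw v j) c)⁻¹ * g) hs
  rw [← mul_assoc, h1]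
  refine homog1_level (M.subgroupOf (D.Uw v j)) hb _ _ ?_
  rw [Subgroup.mem_subgroupOf] at hm ⊢
  exact hle hm

lemma beta0_mul_right (v : ι) (j : D.J v) {N : Subgroup G} (hN : N ∈ 𝒩.mem)
    {M' : Subgroup (L.Gv v)} [M'.Normal] (hleU : M' ≤ D.Uw v j)
    (hr : ∀ m ∈ M', L.r v m ∈ N) (x : L.Gv v) {s : L.Gv v} (hs : s ∈ M') :
    ∃ n ∈ N.subgroupOf U, D.beta0 v j (x * s) = D.beta0 v j x * n := by
  obtain ⟨m, hm, h1⟩ := retr_mul_right (D.Uw v j) M' hleU x hs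
  refine ⟨D.rw v j m, ?_, ?_⟩
  · rw [Subgroup.mem_subgroupOf, ShData.coe_rw]
    rw [Subgroup.mem_subgroupOf] at hm
    have := (𝒩.normal N hN).conj_mem _ (hr _ hm) (D.y v j)⁻¹
    rw [inv_inv] at this
    exact this
  · unfold ShData.beta0
    rw [h1, map_mul]

lemma beta1_mul_right (v : ι) (j : D.J v) {N : Subgroup G} (hN : N ∈ 𝒩.mem) (hNU : N ≤ U)
    (x : L.Gv v) {s : L.Gv v} (hs : L.r v s ∈ N) :
    ∃ n ∈ N.subgroupOf U, D.beta1 v j (x * s) = D.beta1 v j x * n := by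
  haveI := 𝒩.normal N hN
  obtain ⟨n, hn, h1⟩ := retr_mul_right U N hNU ((D.y v j)⁻¹ * L.r v x) hs
  refine ⟨n, hn, ?_⟩
  unfold ShData.beta1 ShData.iotaMap
  rw [map_mul, ← mul_assoc, h1]

lemma corMix₂_mem_C1 (v : ι) (j : D.J v) {a : ↥U × ↥U → k}
    (ha : a ∈ C2 (restrictLevels 𝒩 U hU) (trivRep k ↥U)) :
    corMix₂ D χ v j a ∈ C1 (L.lev v) (L.loc (ofChar χ) v) := by
  classical
  letI : Fintype (L.Gv v ⧸ D.Uw v j) := Fintype.ofFinite _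
  obtain ⟨N', ⟨N, hN, hNU, rfl⟩, ha⟩ := ha
  haveI := 𝒩.normal N hN
  obtain ⟨M, hM⟩ := (L.lev v).nonempty
  obtain ⟨M', hM', -, hleU, hr⟩ := exists_local_level D v j hN hNU hM
  haveI := (L.lev v).normal M' hM'
  refine ⟨M', hM', fun g s hs => ?_⟩
  show ∑ c : L.Gv v ⧸ D.Uw v j, (χ (L.r v (sec (D.Uw v j) c) * D.y v j) : k) *
      prism2 (D.beta0 v j) (D.beta1 v j) (homog2 (trivRep k ↥U) a)
        ((sec (D.Uw v j) c)⁻¹ * 1) ((sec (D.Uw v j) c)⁻¹ * (g * s)) =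
    ∑ c : L.Gv v ⧸ D.Uw v j, (χ (L.r v (sec (D.Uw v j) c) * D.y v j) : k) *
      prism2 (D.beta0 v j) (D.beta1 v j) (homog2 (trivRep k ↥U) a)
        ((sec (D.Uw v j) c)⁻¹ * 1) ((sec (D.Uw v j) c)⁻¹ * g)
  refine Finset.sum_congr rfl fun c _ => ?_
  congr 1
  obtain ⟨n₀, hn₀, h0⟩ := beta0_mul_right D v j hN hleU hr ((sec (D.Uw v j) c)⁻¹ * g) hs
  obtain ⟨n₁, hn₁, h1⟩ := beta1_mul_right D v j hN hNU ((sec (D.Uw v j) c)⁻¹ * g) (hr s hs)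
  simp only [prism2_apply]
  rw [← mul_assoc, h0, h1, homog2_level_last (N.subgroupOf U) ha _ _ _ hn₁,
    homog2_level (N.subgroupOf U) ha _ _ _ hn₀ hn₁]

theorem corCone₂_mem_Cc2 {x : CcAmb2 (D.localData hU) (trivRep k ↥U)}
    (hx : x ∈ Cc2 (D.localData hU) (trivRep k ↥U)) :
    corCone₂ D χ hU x ∈ Cc2 L (ofChar χ) := by
  obtain ⟨h1, h2⟩ := hx
  refine ⟨corGlob₂_mem_C2 χ hU h1, fun v _ => ?_⟩
  refine Submodule.sum_mem _ fun j _ => Submodule.add_mem _ ?_ ?_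
  · exact corLoc₁_mem_C1 D χ hU v j (h2 ⟨v, j⟩ (Set.mem_univ _))
  · exact corMix₂_mem_C1 D χ hU v j h1

/-- **SH-2**: the corestriction of cones maps cone coboundaries to cone coboundaries. -/
theorem corCone_mem_Bc3 (hχ : ∀ g ∈ U, χ g = 1)
    {z : CcAmb3 (D.localData hU) (trivRep k ↥U)}
    (hz : z ∈ Bc3 (D.localData hU) (trivRep k ↥U)) :
    D.corCone χ hU z ∈ Bc3 L (ofChar χ) := by
  obtain ⟨x, hx, rfl⟩ := hz
  exact ⟨corCone₂ D χ hU x, corCone₂_mem_Cc2 D χ hU hx, (corCone_dc₂₃ D χ hU hχ x).symm⟩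

end Levels

section Main

variable {k G : Type} [Field k] [Group G] {𝒩 : Levels G} {ι : Type} (L : LocalData G 𝒩 ι)
  (χ : G →* kˣ) (tr : CcAmb3 L (ofChar χ) →ₗ[k] k)
  (U : Subgroup G) (hU : ∃ N ∈ 𝒩.mem, N ≤ U) [Finite (G ⧸ U)] (D : ShData L U)

/-- SH-TR-B: `tr ∘ cor` kills cone coboundaries. -/
theorem tr_corCone_eq_zero (htr : ∀ c ∈ Bc3 L (ofChar χ), tr c = 0) (hχ : ∀ g ∈ U, χ g = 1) :
    ∀ y ∈ Bc3 (D.localData hU) (trivRep k ↥U), (tr ∘ₗ D.corCone χ hU) y = 0 := by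
  intro y hy
  rw [LinearMap.comp_apply]
  exact htr _ (corCone_mem_Bc3 D χ hU hχ hy)

end Main

end Fermat.Agent.S55.helper38
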