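import Mathlib
import Fermat.Agent.S55.helper38_ShTrB

/-!
# S55 / SH (helper38): the coefficients of the coinduction map `Ψ` (scalar layer)

For a scalar homogeneous cochain `F` on `G` and `t : G` the *twisted translate*
`tw_n χ F t x₀ … x_n = χ t * F (t⁻¹ x₀) … (t⁻¹ x_n)` is the coefficient at the coset `t U` of the
`k[G/U]^*(χ)`-valued cochain attached to `F` (for `F` left `U`-invariant it only depends on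
`t U`).  Locally, `twL_n χ D v j F t x = χ (r_v t * y_j) * F (t⁻¹ x₀) …` is the coefficient at the
coset `r_v t * y_j * U`.  This file collects the coefficientwise identities behind the
chain-map property and the level-constancy of `Ψ`:

* `tw_mul_right`, `tw_sec_mk` : independence of the representative;
* `tw_smul` : equivariance `tw F (g t) (g x) = χ g * tw F t x`;
* `tw_hd` : compatibility with the homogeneous differentials;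
* `tw_iota` : restriction to `G_v`, `tw F (r_v t * y_j) (r_v x) = twL (ι^* F) t x`;
* level-constancy of `tw (ρ^* homog a)`, `twL (ρ_w^* homog b)`, `twL (prism (β₀,β₁) homog a)`.
-/

set_option autoImplicit false
set_option linter.unusedSectionVars false
set_option linter.unusedVariables false
set_option linter.style.haveILetI false

open groupCohomology

noncomputable section

namespace Fermat.Agent.S55.helper38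

open Fermat.Agent.S55 Fermat.Agent.S55.helper35

/-! ### twisted translates -/

section Tw

variable {k Γ : Type} [Field k] [Group Γ] (ω : Γ → k)

/-- twisted translate of a homogeneous `0`-cochain -/
def tw₀ (F : Γ → k) (t : Γ) : Γ → k := fun x₀ => ω t * F (t⁻¹ * x₀)
/-- twisted translate of a homogeneous `1`-cochain -/
def tw₁ (F : Γ → Γ → k) (t : Γ) : Γ → Γ → k := fun x₀ x₁ => ω t * F (t⁻¹ * x₀) (t⁻¹ * x₁)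
/-- twisted translate of a homogeneous `2`-cochain -/
def tw₂ (F : Γ → Γ → Γ → k) (t : Γ) : Γ → Γ → Γ → k :=
  fun x₀ x₁ x₂ => ω t * F (t⁻¹ * x₀) (t⁻¹ * x₁) (t⁻¹ * x₂)
/-- twisted translate of a homogeneous `3`-cochain -/
def tw₃ (F : Γ → Γ → Γ → Γ → k) (t : Γ) : Γ → Γ → Γ → Γ → k :=
  fun x₀ x₁ x₂ x₃ => ω t * F (t⁻¹ * x₀) (t⁻¹ * x₁) (t⁻¹ * x₂) (t⁻¹ * x₃)
/-- twisted translate of a homogeneous `4`-cochain -/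
def tw₄ (F : Γ → Γ → Γ → Γ → Γ → k) (t : Γ) : Γ → Γ → Γ → Γ → Γ → k :=
  fun x₀ x₁ x₂ x₃ x₄ => ω t * F (t⁻¹ * x₀) (t⁻¹ * x₁) (t⁻¹ * x₂) (t⁻¹ * x₃) (t⁻¹ * x₄)

@[simp] lemma tw₀_apply (F : Γ → k) (t x₀ : Γ) : tw₀ ω F t x₀ = ω t * F (t⁻¹ * x₀) := rfl
@[simp] lemma tw₁_apply (F : Γ → Γ → k) (t x₀ x₁ : Γ) :
    tw₁ ω F t x₀ x₁ = ω t * F (t⁻¹ * x₀) (t⁻¹ * x₁) := rfl
@[simp] lemma tw₂_apply (F : Γ → Γ → Γ → k) (t x₀ x₁ x₂ : Γ) :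
    tw₂ ω F t x₀ x₁ x₂ = ω t * F (t⁻¹ * x₀) (t⁻¹ * x₁) (t⁻¹ * x₂) := rfl
@[simp] lemma tw₃_apply (F : Γ → Γ → Γ → Γ → k) (t x₀ x₁ x₂ x₃ : Γ) :
    tw₃ ω F t x₀ x₁ x₂ x₃ = ω t * F (t⁻¹ * x₀) (t⁻¹ * x₁) (t⁻¹ * x₂) (t⁻¹ * x₃) := rfl
@[simp] lemma tw₄_apply (F : Γ → Γ → Γ → Γ → Γ → k) (t x₀ x₁ x₂ x₃ x₄ : Γ) :
    tw₄ ω F t x₀ x₁ x₂ x₃ x₄ =
      ω t * F (t⁻¹ * x₀) (t⁻¹ * x₁) (t⁻¹ * x₂) (t⁻¹ * x₃) (t⁻¹ * x₄) := rfl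

/-! compatibility with the differentials and linearity -/

lemma tw₁_hd0 (F : Γ → k) (t : Γ) : tw₁ ω (hd0 F) t = hd0 (tw₀ ω F t) := by
  funext x₀ x₁
  simp only [tw₁_apply, tw₀_apply, hd0_apply, mul_sub]

lemma tw₂_hd1 (F : Γ → Γ → k) (t : Γ) : tw₂ ω (hd1 F) t = hd1 (tw₁ ω F t) := by
  funext x₀ x₁ x₂
  simp only [tw₂_apply, tw₁_apply, hd1_apply, mul_sub, mul_add]

lemma tw₃_hd2 (F : Γ → Γ → Γ → k) (t : Γ) : tw₃ ω (hd2 F) t = hd2 (tw₂ ω F t) := by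
  funext x₀ x₁ x₂ x₃
  simp only [tw₃_apply, tw₂_apply, hd2_apply, mul_sub, mul_add]

lemma tw₄_hd3 (F : Γ → Γ → Γ → Γ → k) (t : Γ) : tw₄ ω (hd3 F) t = hd3 (tw₃ ω F t) := by
  funext x₀ x₁ x₂ x₃ x₄
  simp only [tw₄_apply, tw₃_apply, hd3_apply, mul_sub, mul_add]

lemma tw₀_add (F F' : Γ → k) (t : Γ) : tw₀ ω (F + F') t = tw₀ ω F t + tw₀ ω F' t := by
  funext x₀; simp only [tw₀_apply, Pi.add_apply, mul_add]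
lemma tw₁_add (F F' : Γ → Γ → k) (t : Γ) : tw₁ ω (F + F') t = tw₁ ω F t + tw₁ ω F' t := by
  funext x₀ x₁; simp only [tw₁_apply, Pi.add_apply, mul_add]
lemma tw₂_add (F F' : Γ → Γ → Γ → k) (t : Γ) :
    tw₂ ω (F + F') t = tw₂ ω F t + tw₂ ω F' t := by
  funext x₀ x₁ x₂; simp only [tw₂_apply, Pi.add_apply, mul_add]
lemma tw₃_add (F F' : Γ → Γ → Γ → Γ → k) (t : Γ) :
    tw₃ ω (F + F') t = tw₃ ω F t + tw₃ ω F' t := by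
  funext x₀ x₁ x₂ x₃; simp only [tw₃_apply, Pi.add_apply, mul_add]

lemma tw₀_sub (F F' : Γ → k) (t : Γ) : tw₀ ω (F - F') t = tw₀ ω F t - tw₀ ω F' t := by
  funext x₀; simp only [tw₀_apply, Pi.sub_apply, mul_sub]
lemma tw₁_sub (F F' : Γ → Γ → k) (t : Γ) : tw₁ ω (F - F') t = tw₁ ω F t - tw₁ ω F' t := by
  funext x₀ x₁; simp only [tw₁_apply, Pi.sub_apply, mul_sub]
lemma tw₂_sub (F F' : Γ → Γ → Γ → k) (t : Γ) :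
    tw₂ ω (F - F') t = tw₂ ω F t - tw₂ ω F' t := by
  funext x₀ x₁ x₂; simp only [tw₂_apply, Pi.sub_apply, mul_sub]
lemma tw₃_sub (F F' : Γ → Γ → Γ → Γ → k) (t : Γ) :
    tw₃ ω (F - F') t = tw₃ ω F t - tw₃ ω F' t := by
  funext x₀ x₁ x₂ x₃; simp only [tw₃_apply, Pi.sub_apply, mul_sub]

lemma tw₀_smul (c : k) (F : Γ → k) (t : Γ) : tw₀ ω (c • F) t = c • tw₀ ω F t := by
  funext x₀; simp only [tw₀_apply, Pi.smul_apply, smul_eq_mul]; ring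
lemma tw₁_smul (c : k) (F : Γ → Γ → k) (t : Γ) : tw₁ ω (c • F) t = c • tw₁ ω F t := by
  funext x₀ x₁; simp only [tw₁_apply, Pi.smul_apply, smul_eq_mul]; ring
lemma tw₂_smul (c : k) (F : Γ → Γ → Γ → k) (t : Γ) : tw₂ ω (c • F) t = c • tw₂ ω F t := by
  funext x₀ x₁ x₂; simp only [tw₂_apply, Pi.smul_apply, smul_eq_mul]; ring
lemma tw₃_smul (c : k) (F : Γ → Γ → Γ → Γ → k) (t : Γ) :
    tw₃ ω (c • F) t = c • tw₃ ω F t := by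
  funext x₀ x₁ x₂ x₃; simp only [tw₃_apply, Pi.smul_apply, smul_eq_mul]; ring

/-! left invariance in degrees `0`, `3`, `4` (degrees `1`, `2` are in `helper38_ShTrB`) -/

/-- left invariance of homogeneous `0`-cochains under a subgroup -/
def IsLInv₀ (H : Subgroup Γ) (F : Γ → k) : Prop := ∀ u ∈ H, ∀ x₀, F (u * x₀) = F x₀

/-- left invariance of homogeneous `3`-cochains under a subgroup -/
def IsLInv₃ (H : Subgroup Γ) (F : Γ → Γ → Γ → Γ → k) : Prop :=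
  ∀ u ∈ H, ∀ x₀ x₁ x₂ x₃, F (u * x₀) (u * x₁) (u * x₂) (u * x₃) = F x₀ x₁ x₂ x₃

variable (H : Subgroup Γ)

/-! independence of the representative: `ω (t u) = ω t` for `u ∈ H`, `F` left `H`-invariant -/

lemma tw₀_mul_right (hω : ∀ t, ∀ u ∈ H, ω (t * u) = ω t) {F : Γ → k} (hF : IsLInv₀ H F)
    (t : Γ) {u : Γ} (hu : u ∈ H) : tw₀ ω F (t * u) = tw₀ ω F t := by
  funext x₀
  simp only [tw₀_apply, hω t u hu, mul_inv_rev, mul_assoc]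
  rw [hF u⁻¹ (H.inv_mem hu)]

lemma tw₁_mul_right (hω : ∀ t, ∀ u ∈ H, ω (t * u) = ω t) {F : Γ → Γ → k} (hF : IsLInv₁ H F)
    (t : Γ) {u : Γ} (hu : u ∈ H) : tw₁ ω F (t * u) = tw₁ ω F t := by
  funext x₀ x₁
  simp only [tw₁_apply, hω t u hu, mul_inv_rev, mul_assoc]
  rw [hF u⁻¹ (H.inv_mem hu)]

lemma tw₂_mul_right (hω : ∀ t, ∀ u ∈ H, ω (t * u) = ω t) {F : Γ → Γ → Γ → k}
    (hF : IsLInv₂ H F) (t : Γ) {u : Γ} (hu : u ∈ H) : tw₂ ω F (t * u) = tw₂ ω F t := by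
  funext x₀ x₁ x₂
  simp only [tw₂_apply, hω t u hu, mul_inv_rev, mul_assoc]
  rw [hF u⁻¹ (H.inv_mem hu)]

lemma tw₃_mul_right (hω : ∀ t, ∀ u ∈ H, ω (t * u) = ω t) {F : Γ → Γ → Γ → Γ → k}
    (hF : IsLInv₃ H F) (t : Γ) {u : Γ} (hu : u ∈ H) : tw₃ ω F (t * u) = tw₃ ω F t := by
  funext x₀ x₁ x₂ x₃
  simp only [tw₃_apply, hω t u hu, mul_inv_rev, mul_assoc]
  rw [hF u⁻¹ (H.inv_mem hu)]

/-- a right `H`-invariant function on `Γ` only depends on the coset -/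
lemma eq_of_mk_eq' {X : Type*} {Φ : Γ → X} (hΦ : ∀ t, ∀ u ∈ H, Φ (t * u) = Φ t) {s t : Γ}
    (h : (s : Γ ⧸ H) = (t : Γ ⧸ H)) : Φ s = Φ t := by
  rw [QuotientGroup.eq] at h
  have := hΦ s (s⁻¹ * t) h
  rw [mul_inv_cancel_left] at this
  exact this.symm

lemma apply_sec_mk {X : Type*} {Φ : Γ → X} (hΦ : ∀ t, ∀ u ∈ H, Φ (t * u) = Φ t) (t : Γ) :
    Φ (sec H (t : Γ ⧸ H)) = Φ t :=
  eq_of_mk_eq' H hΦ (mk_sec H _)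

/-! equivariance: `ω (g t) = lam g * ω t` -/

lemma tw₀_mul_left {lam : Γ → k} (hω : ∀ g t, ω (g * t) = lam g * ω t) (F : Γ → k)
    (g t x₀ : Γ) : tw₀ ω F (g * t) (g * x₀) = lam g * tw₀ ω F t x₀ := by
  simp only [tw₀_apply, hω, mul_inv_rev, mul_assoc, inv_mul_cancel_left]

lemma tw₁_mul_left {lam : Γ → k} (hω : ∀ g t, ω (g * t) = lam g * ω t) (F : Γ → Γ → k)
    (g t x₀ x₁ : Γ) : tw₁ ω F (g * t) (g * x₀) (g * x₁) = lam g * tw₁ ω F t x₀ x₁ := by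
  simp only [tw₁_apply, hω, mul_inv_rev, mul_assoc, inv_mul_cancel_left]

lemma tw₂_mul_left {lam : Γ → k} (hω : ∀ g t, ω (g * t) = lam g * ω t) (F : Γ → Γ → Γ → k)
    (g t x₀ x₁ x₂ : Γ) :
    tw₂ ω F (g * t) (g * x₀) (g * x₁) (g * x₂) = lam g * tw₂ ω F t x₀ x₁ x₂ := by
  simp only [tw₂_apply, hω, mul_inv_rev, mul_assoc, inv_mul_cancel_left]

lemma tw₃_mul_left {lam : Γ → k} (hω : ∀ g t, ω (g * t) = lam g * ω t)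
    (F : Γ → Γ → Γ → Γ → k) (g t x₀ x₁ x₂ x₃ : Γ) :
    tw₃ ω F (g * t) (g * x₀) (g * x₁) (g * x₂) (g * x₃) = lam g * tw₃ ω F t x₀ x₁ x₂ x₃ := by
  simp only [tw₃_apply, hω, mul_inv_rev, mul_assoc, inv_mul_cancel_left]

end Tw

/-! ### right level-invariance of homogeneous cochains -/

section RLev

variable {k Γ : Type} [Field k] [Group Γ]

/-- right invariance under `N` in the variables `x₁` -/
def IsRLev₁ (N : Subgroup Γ) (F : Γ → Γ → k) : Prop :=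
  ∀ x₀ x₁, ∀ n₁ ∈ N, F x₀ (x₁ * n₁) = F x₀ x₁

/-- right invariance under `N` in the variables `x₁, x₂` -/
def IsRLev₂ (N : Subgroup Γ) (F : Γ → Γ → Γ → k) : Prop :=
  ∀ x₀ x₁ x₂, ∀ n₁ ∈ N, ∀ n₂ ∈ N, F x₀ (x₁ * n₁) (x₂ * n₂) = F x₀ x₁ x₂

/-- right invariance under `N` in the variables `x₁, x₂, x₃` -/
def IsRLev₃ (N : Subgroup Γ) (F : Γ → Γ → Γ → Γ → k) : Prop :=
  ∀ x₀ x₁ x₂ x₃, ∀ n₁ ∈ N, ∀ n₂ ∈ N, ∀ n₃ ∈ N,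
    F x₀ (x₁ * n₁) (x₂ * n₂) (x₃ * n₃) = F x₀ x₁ x₂ x₃

variable (ω : Γ → k) {N : Subgroup Γ}

lemma IsRLev₁.tw {F : Γ → Γ → k} (hF : IsRLev₁ N F) (t : Γ) : IsRLev₁ N (tw₁ ω F t) := by
  intro x₀ x₁ n₁ h₁
  simp only [tw₁_apply, ← mul_assoc, hF _ _ _ h₁]

lemma IsRLev₂.tw {F : Γ → Γ → Γ → k} (hF : IsRLev₂ N F) (t : Γ) :
    IsRLev₂ N (tw₂ ω F t) := by
  intro x₀ x₁ x₂ n₁ h₁ n₂ h₂
  simp only [tw₂_apply, ← mul_assoc, hF _ _ _ _ h₁ _ h₂]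

lemma IsRLev₃.tw {F : Γ → Γ → Γ → Γ → k} (hF : IsRLev₃ N F) (t : Γ) :
    IsRLev₃ N (tw₃ ω F t) := by
  intro x₀ x₁ x₂ x₃ n₁ h₁ n₂ h₂ n₃ h₃
  simp only [tw₃_apply, ← mul_assoc, hF _ _ _ _ _ h₁ _ h₂ _ h₃]

lemma IsRLev₁.add {F F' : Γ → Γ → k} (hF : IsRLev₁ N F) (hF' : IsRLev₁ N F') :
    IsRLev₁ N (F + F') := by
  intro x₀ x₁ n₁ h₁
  simp only [Pi.add_apply, hF _ _ _ h₁, hF' _ _ _ h₁]

lemma IsRLev₂.add {F F' : Γ → Γ → Γ → k} (hF : IsRLev₂ N F) (hF' : IsRLev₂ N F') :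
    IsRLev₂ N (F + F') := by
  intro x₀ x₁ x₂ n₁ h₁ n₂ h₂
  simp only [Pi.add_apply, hF _ _ _ _ h₁ _ h₂, hF' _ _ _ _ h₁ _ h₂]

lemma IsRLev₁.mono {N' : Subgroup Γ} (h : N' ≤ N) {F : Γ → Γ → k} (hF : IsRLev₁ N F) :
    IsRLev₁ N' F := fun x₀ x₁ n₁ h₁ => hF x₀ x₁ n₁ (h h₁)

lemma IsRLev₂.mono {N' : Subgroup Γ} (h : N' ≤ N) {F : Γ → Γ → Γ → k} (hF : IsRLev₂ N F) :
    IsRLev₂ N' F := fun x₀ x₁ x₂ n₁ h₁ n₂ h₂ => hF x₀ x₁ x₂ n₁ (h h₁) n₂ (h h₂)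

/-- inhomogeneous level-constancy from right level-invariance, degree `1` -/
lemma IsRLev₁.inhom {F : Γ → Γ → k} (hF : IsRLev₁ N F) (g : Γ) {s : Γ} (hs : s ∈ N) :
    F 1 (g * s) = F 1 g := hF 1 g s hs

/-- inhomogeneous level-constancy from right level-invariance, degree `2` -/
lemma IsRLev₂.inhom [hN : N.Normal] {F : Γ → Γ → Γ → k} (hF : IsRLev₂ N F) (g₁ g₂ : Γ)
    {s₁ s₂ : Γ} (hs₁ : s₁ ∈ N) (hs₂ : s₂ ∈ N) :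
    F 1 (g₁ * s₁) (g₁ * s₁ * (g₂ * s₂)) = F 1 g₁ (g₁ * g₂) := by
  have e : g₁ * s₁ * (g₂ * s₂) = (g₁ * g₂) * (g₂⁻¹ * s₁ * g₂ * s₂) := by group
  have hs : g₂⁻¹ * s₁ * g₂ * s₂ ∈ N := by
    refine N.mul_mem ?_ hs₂
    have := hN.conj_mem s₁ hs₁ g₂⁻¹
    simpa using this
  rw [e, hF _ _ _ _ hs₁ _ hs]

/-- inhomogeneous level-constancy from right level-invariance, degree `3` -/
lemma IsRLev₃.inhom [hN : N.Normal] {F : Γ → Γ → Γ → Γ → k} (hF : IsRLev₃ N F) (g₁ g₂ g₃ : Γ)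
    {s₁ s₂ s₃ : Γ} (hs₁ : s₁ ∈ N) (hs₂ : s₂ ∈ N) (hs₃ : s₃ ∈ N) :
    F 1 (g₁ * s₁) (g₁ * s₁ * (g₂ * s₂)) (g₁ * s₁ * (g₂ * s₂) * (g₃ * s₃)) =
      F 1 g₁ (g₁ * g₂) (g₁ * g₂ * g₃) := by
  have e : g₁ * s₁ * (g₂ * s₂) = (g₁ * g₂) * (g₂⁻¹ * s₁ * g₂ * s₂) := by group
  have hs : g₂⁻¹ * s₁ * g₂ * s₂ ∈ N := by
    refine N.mul_mem ?_ hs₂
    have := hN.conj_mem s₁ hs₁ g₂⁻¹
    simpa using this
  have e' : g₁ * s₁ * (g₂ * s₂) * (g₃ * s₃) =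
      (g₁ * g₂ * g₃) * (g₃⁻¹ * (g₂⁻¹ * s₁ * g₂ * s₂) * g₃ * s₃) := by group
  have hs' : g₃⁻¹ * (g₂⁻¹ * s₁ * g₂ * s₂) * g₃ * s₃ ∈ N := by
    refine N.mul_mem ?_ hs₃
    have := hN.conj_mem _ hs g₃⁻¹
    simpa using this
  rw [e', e, hF _ _ _ _ _ hs₁ _ hs _ hs']

end RLev

/-! ### level lemmas for `homog` with trivial coefficients -/

section HomogLevel

variable {k V : Type} [Field k] [Group V]

lemma homog3_level (N' : Subgroup V) [hN' : N'.Normal] {a : V × V × V → k}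
    (ha : ∀ g₁ g₂ g₃ : V, ∀ s₁ ∈ N', ∀ s₂ ∈ N', ∀ s₃ ∈ N',
      a (g₁ * s₁, g₂ * s₂, g₃ * s₃) = a (g₁, g₂, g₃))
    (u₀ u₁ u₂ u₃ : V) {n₁ n₂ n₃ : V} (h₁ : n₁ ∈ N') (h₂ : n₂ ∈ N') (h₃ : n₃ ∈ N') :
    homog3 (trivRep k V) a u₀ (u₁ * n₁) (u₂ * n₂) (u₃ * n₃) =
      homog3 (trivRep k V) a u₀ u₁ u₂ u₃ := by
  simp only [homog3_apply]
  have e1 : u₀⁻¹ * (u₁ * n₁) = (u₀⁻¹ * u₁) * n₁ := by group
  have e2 : (u₁ * n₁)⁻¹ * (u₂ * n₂) =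
      (u₁⁻¹ * u₂) * ((u₁⁻¹ * u₂)⁻¹ * n₁⁻¹ * (u₁⁻¹ * u₂) * n₂) := by group
  have e3 : (u₂ * n₂)⁻¹ * (u₃ * n₃) =
      (u₂⁻¹ * u₃) * ((u₂⁻¹ * u₃)⁻¹ * n₂⁻¹ * (u₂⁻¹ * u₃) * n₃) := by group
  have hmem2 : (u₁⁻¹ * u₂)⁻¹ * n₁⁻¹ * (u₁⁻¹ * u₂) * n₂ ∈ N' := by
    refine N'.mul_mem ?_ h₂
    have := hN'.conj_mem _ (N'.inv_mem h₁) (u₁⁻¹ * u₂)⁻¹
    simpa using this
  have hmem3 : (u₂⁻¹ * u₃)⁻¹ * n₂⁻¹ * (u₂⁻¹ * u₃) * n₃ ∈ N' := by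
    refine N'.mul_mem ?_ h₃
    have := hN'.conj_mem _ (N'.inv_mem h₂) (u₂⁻¹ * u₃)⁻¹
    simpa using this
  rw [e1, e2, e3, ha _ _ _ _ h₁ _ hmem2 _ hmem3]

/-- general form: maps `b₀ … b₃` into `V` which are level-compatible in the variables -/
lemma homog1_level' (N' : Subgroup V) {b : V → k}
    (hb : ∀ g : V, ∀ s ∈ N', b (g * s) = b g) (u₀ : V) {u₁ u₁' : V}
    (h₁ : ∃ n ∈ N', u₁' = u₁ * n) :
    homog1 (trivRep k V) b u₀ u₁' = homog1 (trivRep k V) b u₀ u₁ := by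
  obtain ⟨n, hn, rfl⟩ := h₁
  exact homog1_level N' hb u₀ u₁ hn

lemma homog2_level' (N' : Subgroup V) [hN' : N'.Normal] {a : V × V → k}
    (ha : ∀ g₁ g₂ : V, ∀ s₁ ∈ N', ∀ s₂ ∈ N', a (g₁ * s₁, g₂ * s₂) = a (g₁, g₂))
    (u₀ : V) {u₁ u₁' u₂ u₂' : V} (h₁ : ∃ n ∈ N', u₁' = u₁ * n) (h₂ : ∃ n ∈ N', u₂' = u₂ * n) :
    homog2 (trivRep k V) a u₀ u₁' u₂' = homog2 (trivRep k V) a u₀ u₁ u₂ := by
  obtain ⟨n₁, hn₁, rfl⟩ := h₁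
  obtain ⟨n₂, hn₂, rfl⟩ := h₂
  exact homog2_level N' ha u₀ u₁ u₂ hn₁ hn₂

lemma homog3_level' (N' : Subgroup V) [hN' : N'.Normal] {a : V × V × V → k}
    (ha : ∀ g₁ g₂ g₃ : V, ∀ s₁ ∈ N', ∀ s₂ ∈ N', ∀ s₃ ∈ N',
      a (g₁ * s₁, g₂ * s₂, g₃ * s₃) = a (g₁, g₂, g₃))
    (u₀ : V) {u₁ u₁' u₂ u₂' u₃ u₃' : V} (h₁ : ∃ n ∈ N', u₁' = u₁ * n)
    (h₂ : ∃ n ∈ N', u₂' = u₂ * n) (h₃ : ∃ n ∈ N', u₃' = u₃ * n) :
    homog3 (trivRep k V) a u₀ u₁' u₂' u₃' = homog3 (trivRep k V) a u₀ u₁ u₂ u₃ := by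
  obtain ⟨n₁, hn₁, rfl⟩ := h₁
  obtain ⟨n₂, hn₂, rfl⟩ := h₂
  obtain ⟨n₃, hn₃, rfl⟩ := h₃
  exact homog3_level N' ha u₀ u₁ u₂ u₃ hn₁ hn₂ hn₃

lemma exists_mul_self (N' : Subgroup V) (u : V) : ∃ n ∈ N', u = u * n :=
  ⟨1, N'.one_mem, (mul_one u).symm⟩

end HomogLevel

end Fermat.Agent.S55.helper38
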