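import Mathlib
import Fermat.Agent.S55.Defs
import Fermat.Agent.S55.helper35_SHDefs
import Fermat.Agent.S55.helper35_Homog
import Fermat.Agent.S55.helper35_Cor

/-!
# S55 / SH-C (helper62): definitions of the cone Shapiro maps `c₁ c₂ c₃`

`B = k[G/U]^*(χ)` (`Bp k U χ`), `D : ShData L U`. For a cone cochain `y = (y₁, (y_v))` of `L`
with values in `B` the *big model* consists of the scalar homogeneous cochains

* `bigG_n χ y₁ = evB ∘ homog_n B y₁` on `G` (`U`-invariant if `χ|_U = 1`),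
* `bigL_n χ D v j y_v = evB ∘ ρ_B (y v j)⁻¹ ∘ homog_n (L.loc B v) y_v` on `G_v`
  (`U_w`-invariant, `w = (v, j)`),

and the cone Shapiro maps `cB_n : CcAmb_n L B →ₗ[k] CcAmb_n (D.localData hU) (trivRep k U)` are

  `(cB_n y).1 = inhom_n (bigG_n y₁ |_U)`,
  `(cB_n y).2 ⟨v, j⟩ = inhom_(n-1) (bigL_(n-1) y_v |_{U_w} + prism_n (ι|_{U_w}) (↑ ∘ r_w) (bigG_n y₁))`

(`cLoc_(n-1)` is the homogeneous local component), in the conventions of `helper35_Cor.corCone`.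
These are the maps `c1 c2 c3` of `helper53.ShTransport`.
-/

set_option autoImplicit false
set_option linter.unusedSectionVars false
set_option linter.unusedVariables false
set_option linter.unusedSimpArgs false

open groupCohomology

noncomputable section

namespace Fermat.Agent.S55.helper62

open Fermat.Agent.S55 Fermat.Agent.S55.helper35

variable {k G : Type} [Field k] [Group G] {𝒩 : Levels G} {ι : Type} {L : LocalData G 𝒩 ι}
  {U : Subgroup G}

/-- the `B`-side coefficient module `k[G/U]^*(χ)` -/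
abbrev Bp (k : Type) [Field k] {G : Type} [Group G] (U : Subgroup G) (χ : G →* kˣ) :
    Rep.{0} k G := (permRep k U).dualTwist χ

/-- evaluation at the trivial coset, `k[G/U]^*(χ) → k` -/
def evB (U : Subgroup G) (χ : G →* kˣ) : (Bp k U χ) →ₗ[k] k where
  toFun f := (f : Module.Dual k (permRep k U)) (MonoidAlgebra.single ((1 : G) : G ⧸ U) (1 : k))
  map_add' f g := rfl
  map_smul' c f := rfl

lemma evB_apply (χ : G →* kˣ) (f : Bp k U χ) :
    evB U χ f = (f : Module.Dual k (permRep k U))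
      (MonoidAlgebra.single ((1 : G) : G ⧸ U) (1 : k)) := rfl

/-- `evB (ρ_B g f) = χ g * f (e_{g⁻¹ U})` -/
lemma evB_rho (χ : G →* kˣ) (g : G) (f : Bp k U χ) :
    evB U χ ((Bp k U χ).ρ g f) = (χ g : k) * (f : Module.Dual k (permRep k U))
      (MonoidAlgebra.single ((g⁻¹ : G) : G ⧸ U) (1 : k)) := by
  rw [evB_apply, Rep.dualTwist_ρ_apply]
  simp only [LinearMap.smul_apply, LinearMap.comp_apply, smul_eq_mul]
  congr 2
  have := Representation.ofMulAction_single (k := k) (G := G) (H := G ⧸ U) g⁻¹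
    ((1 : G) : G ⧸ U) (1 : k)
  rw [MulAction.Quotient.smul_mk, smul_eq_mul, mul_one] at this
  exact this


lemma evB_rho_of_mem (χ : G →* kˣ) (hχ : ∀ g ∈ U, χ g = 1) {u : G} (hu : u ∈ U)
    (f : Bp k U χ) : evB U χ ((Bp k U χ).ρ u f) = evB U χ f := by
  rw [evB_rho, hχ u hu, Units.val_one, one_mul, evB_apply]
  congr 2
  rw [QuotientGroup.eq]
  simpa using hu

/-! ### The big model: scalar homogeneous cochains -/

section Big

variable (χ : G →* kˣ)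

/-- scalar homogeneous cochain of a global `B`-valued inhomogeneous `1`-cochain -/
def bigG₁ (y : G → Bp k U χ) : G → G → k :=
  fun x₀ x₁ => evB U χ (homog1 (Bp k U χ) y x₀ x₁)

/-- scalar homogeneous cochain of a global `B`-valued inhomogeneous `2`-cochain -/
def bigG₂ (y : G × G → Bp k U χ) : G → G → G → k :=
  fun x₀ x₁ x₂ => evB U χ (homog2 (Bp k U χ) y x₀ x₁ x₂)

/-- scalar homogeneous cochain of a global `B`-valued inhomogeneous `3`-cochain -/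
def bigG₃ (y : G × G × G → Bp k U χ) : G → G → G → G → k :=
  fun x₀ x₁ x₂ x₃ => evB U χ (homog3 (Bp k U χ) y x₀ x₁ x₂ x₃)

variable (D : ShData L U)

/-- scalar homogeneous cochain at `(v, j)` of a local `B`-valued `0`-cochain -/
def bigL₀ (v : ι) (j : D.J v) (b : L.loc (Bp k U χ) v) : L.Gv v → k :=
  fun h₀ => evB U χ ((Bp k U χ).ρ (D.y v j)⁻¹ (homog0 (L.loc (Bp k U χ) v) b h₀))

/-- scalar homogeneous cochain at `(v, j)` of a local `B`-valued `1`-cochain -/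
def bigL₁ (v : ι) (j : D.J v) (b : L.Gv v → L.loc (Bp k U χ) v) : L.Gv v → L.Gv v → k :=
  fun h₀ h₁ => evB U χ ((Bp k U χ).ρ (D.y v j)⁻¹ (homog1 (L.loc (Bp k U χ) v) b h₀ h₁))

/-- scalar homogeneous cochain at `(v, j)` of a local `B`-valued `2`-cochain -/
def bigL₂ (v : ι) (j : D.J v) (b : L.Gv v × L.Gv v → L.loc (Bp k U χ) v) :
    L.Gv v → L.Gv v → L.Gv v → k :=
  fun h₀ h₁ h₂ => evB U χ ((Bp k U χ).ρ (D.y v j)⁻¹ (homog2 (L.loc (Bp k U χ) v) b h₀ h₁ h₂))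

/-- the map `ι|_{U_w} : U_w → G`, `h ↦ (y v j)⁻¹ * r_v h` -/
def iotaU (v : ι) (j : D.J v) : ↥(D.Uw v j) → G := fun h => D.iotaMap v j (h : L.Gv v)

/-- the map `↑ ∘ r_w : U_w → G`, `h ↦ (y v j)⁻¹ * r_v h * y v j` -/
def rwU (v : ι) (j : D.J v) : ↥(D.Uw v j) → G := fun h => ((D.rw v j h : ↥U) : G)

/-- homogeneous local component at `(v, j)` of `c₁ y` -/
def cLoc₀ (v : ι) (j : D.J v) (y : CcAmb1 L (Bp k U χ)) : ↥(D.Uw v j) → k :=
  pull0 (Subtype.val) (bigL₀ χ D v j (y.2 v)) + prism1 (iotaU D v j) (rwU D v j) (bigG₁ χ y.1)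

/-- homogeneous local component at `(v, j)` of `c₂ y` -/
def cLoc₁ (v : ι) (j : D.J v) (y : CcAmb2 L (Bp k U χ)) : ↥(D.Uw v j) → ↥(D.Uw v j) → k :=
  pull1 (Subtype.val) (bigL₁ χ D v j (y.2 v)) + prism2 (iotaU D v j) (rwU D v j) (bigG₂ χ y.1)

/-- homogeneous local component at `(v, j)` of `c₃ y` -/
def cLoc₂ (v : ι) (j : D.J v) (y : CcAmb3 L (Bp k U χ)) :
    ↥(D.Uw v j) → ↥(D.Uw v j) → ↥(D.Uw v j) → k :=
  pull2 (Subtype.val) (bigL₂ χ D v j (y.2 v)) + prism3 (iotaU D v j) (rwU D v j) (bigG₃ χ y.1)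

lemma cLoc₀_add (v : ι) (j : D.J v) (y y' : CcAmb1 L (Bp k U χ)) :
    cLoc₀ χ D v j (y + y') = cLoc₀ χ D v j y + cLoc₀ χ D v j y' := by
  funext s
  simp only [cLoc₀, bigL₀, bigG₁, homog0_apply, homog1_apply, Prod.fst_add, Prod.snd_add,
    Pi.add_apply, map_add, pull0_apply, prism1_apply]
  abel

lemma cLoc₀_smul (v : ι) (j : D.J v) (c : k) (y : CcAmb1 L (Bp k U χ)) :
    cLoc₀ χ D v j (c • y) = c • cLoc₀ χ D v j y := by
  funext s
  simp only [cLoc₀, bigL₀, bigG₁, homog0_apply, homog1_apply, Prod.smul_fst, Prod.smul_snd,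
    Pi.smul_apply, Pi.add_apply, map_smul, pull0_apply, prism1_apply, smul_add]

lemma cLoc₁_add (v : ι) (j : D.J v) (y y' : CcAmb2 L (Bp k U χ)) :
    cLoc₁ χ D v j (y + y') = cLoc₁ χ D v j y + cLoc₁ χ D v j y' := by
  funext s t
  simp only [cLoc₁, bigL₁, bigG₂, homog1_apply, homog2_apply, Prod.fst_add, Prod.snd_add,
    Pi.add_apply, Pi.sub_apply, map_add, pull1_apply, prism2_apply]
  abel

lemma cLoc₁_smul (v : ι) (j : D.J v) (c : k) (y : CcAmb2 L (Bp k U χ)) :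
    cLoc₁ χ D v j (c • y) = c • cLoc₁ χ D v j y := by
  funext s t
  simp only [cLoc₁, bigL₁, bigG₂, homog1_apply, homog2_apply, Prod.smul_fst, Prod.smul_snd,
    Pi.smul_apply, Pi.add_apply, Pi.sub_apply, map_smul, pull1_apply, prism2_apply,
    smul_add, smul_sub]

lemma cLoc₂_add (v : ι) (j : D.J v) (y y' : CcAmb3 L (Bp k U χ)) :
    cLoc₂ χ D v j (y + y') = cLoc₂ χ D v j y + cLoc₂ χ D v j y' := by
  funext s t r
  simp only [cLoc₂, bigL₂, bigG₃, homog2_apply, homog3_apply, Prod.fst_add, Prod.snd_add,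
    Pi.add_apply, Pi.sub_apply, map_add, pull2_apply, prism3_apply]
  abel

lemma cLoc₂_smul (v : ι) (j : D.J v) (c : k) (y : CcAmb3 L (Bp k U χ)) :
    cLoc₂ χ D v j (c • y) = c • cLoc₂ χ D v j y := by
  funext s t r
  simp only [cLoc₂, bigL₂, bigG₃, homog2_apply, homog3_apply, Prod.smul_fst, Prod.smul_snd,
    Pi.smul_apply, Pi.add_apply, Pi.sub_apply, map_smul, pull2_apply, prism3_apply,
    smul_add, smul_sub]

variable (hU : ∃ N ∈ 𝒩.mem, N ≤ U)

/-- **The cone Shapiro map in degree `1`.** -/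
def cB₁ : CcAmb1 L (Bp k U χ) →ₗ[k] CcAmb1 (D.localData hU) (trivRep k ↥U) where
  toFun y := (fun u : ↥U => bigG₁ χ y.1 1 (u : G), fun w => cLoc₀ χ D w.1 w.2 y 1)
  map_add' y y' := by
    refine Prod.ext ?_ ?_
    · funext u
      simp only [bigG₁, homog1_apply, Prod.fst_add, Pi.add_apply, map_add]
    · funext w
      exact congrFun (cLoc₀_add χ D w.1 w.2 y y') 1
  map_smul' c y := by
    refine Prod.ext ?_ ?_
    · funext u
      simp only [bigG₁, homog1_apply, Prod.smul_fst, Pi.smul_apply, map_smul, RingHom.id_apply]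
    · funext w
      exact congrFun (cLoc₀_smul χ D w.1 w.2 c y) 1

/-- **The cone Shapiro map in degree `2`.** -/
def cB₂ : CcAmb2 L (Bp k U χ) →ₗ[k] CcAmb2 (D.localData hU) (trivRep k ↥U) where
  toFun y := (fun u : ↥U × ↥U => bigG₂ χ y.1 1 (u.1 : G) ((u.1 : G) * (u.2 : G)),
    fun w s => cLoc₁ χ D w.1 w.2 y 1 s)
  map_add' y y' := by
    refine Prod.ext ?_ ?_
    · funext u
      simp only [bigG₂, homog2_apply, Prod.fst_add, Pi.add_apply, map_add]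
    · funext w s
      exact congrFun (congrFun (cLoc₁_add χ D w.1 w.2 y y') 1) s
  map_smul' c y := by
    refine Prod.ext ?_ ?_
    · funext u
      simp only [bigG₂, homog2_apply, Prod.smul_fst, Pi.smul_apply, map_smul, RingHom.id_apply]
    · funext w s
      exact congrFun (congrFun (cLoc₁_smul χ D w.1 w.2 c y) 1) s

/-- **The cone Shapiro map in degree `3`.** -/
def cB₃ : CcAmb3 L (Bp k U χ) →ₗ[k] CcAmb3 (D.localData hU) (trivRep k ↥U) where
  toFun y := (fun u : ↥U × ↥U × ↥U =>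
      bigG₃ χ y.1 1 (u.1 : G) ((u.1 : G) * (u.2.1 : G)) ((u.1 : G) * (u.2.1 : G) * (u.2.2 : G)),
    fun w s => cLoc₂ χ D w.1 w.2 y 1 s.1 (s.1 * s.2))
  map_add' y y' := by
    refine Prod.ext ?_ ?_
    · funext u
      simp only [bigG₃, homog3_apply, Prod.fst_add, Pi.add_apply, map_add]
    · funext w s
      exact congrFun (congrFun (congrFun (cLoc₂_add χ D w.1 w.2 y y') 1) s.1) (s.1 * s.2)
  map_smul' c y := by
    refine Prod.ext ?_ ?_
    · funext u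
      simp only [bigG₃, homog3_apply, Prod.smul_fst, Pi.smul_apply, map_smul, RingHom.id_apply]
    · funext w s
      exact congrFun (congrFun (congrFun (cLoc₂_smul χ D w.1 w.2 c y) 1) s.1) (s.1 * s.2)

@[simp] lemma cB₁_fst (y : CcAmb1 L (Bp k U χ)) (u : ↥U) :
    (cB₁ χ D hU y).1 u = bigG₁ χ y.1 1 (u : G) := rfl

@[simp] lemma cB₁_snd (y : CcAmb1 L (Bp k U χ)) (w : Σ v, D.J v) :
    (cB₁ χ D hU y).2 w = cLoc₀ χ D w.1 w.2 y 1 := rfl

@[simp] lemma cB₂_fst (y : CcAmb2 L (Bp k U χ)) (u₁ u₂ : ↥U) :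
    (cB₂ χ D hU y).1 (u₁, u₂) = bigG₂ χ y.1 1 (u₁ : G) ((u₁ : G) * (u₂ : G)) := rfl

@[simp] lemma cB₂_snd (y : CcAmb2 L (Bp k U χ)) (w : Σ v, D.J v) (s : ↥(D.Uw w.1 w.2)) :
    (cB₂ χ D hU y).2 w s = cLoc₁ χ D w.1 w.2 y 1 s := rfl

@[simp] lemma cB₃_fst (y : CcAmb3 L (Bp k U χ)) (u₁ u₂ u₃ : ↥U) :
    (cB₃ χ D hU y).1 (u₁, u₂, u₃) =
      bigG₃ χ y.1 1 (u₁ : G) ((u₁ : G) * (u₂ : G)) ((u₁ : G) * (u₂ : G) * (u₃ : G)) := rfl

@[simp] lemma cB₃_snd (y : CcAmb3 L (Bp k U χ)) (w : Σ v, D.J v)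
    (s₁ s₂ : ↥(D.Uw w.1 w.2)) :
    (cB₃ χ D hU y).2 w (s₁, s₂) = cLoc₂ χ D w.1 w.2 y 1 s₁ (s₁ * s₂) := rfl

/-- explicit form of the global component: `(c y).1 u = evB (y.1 u)` -/
lemma cB₁_fst_eq (y : CcAmb1 L (Bp k U χ)) (u : ↥U) :
    (cB₁ χ D hU y).1 u = evB U χ (y.1 (u : G)) := by
  simp [bigG₁]

lemma cB₂_fst_eq (y : CcAmb2 L (Bp k U χ)) (u₁ u₂ : ↥U) :
    (cB₂ χ D hU y).1 (u₁, u₂) = evB U χ (y.1 ((u₁ : G), (u₂ : G))) := by
  simp [bigG₂]

lemma cB₃_fst_eq (y : CcAmb3 L (Bp k U χ)) (u₁ u₂ u₃ : ↥U) :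
    (cB₃ χ D hU y).1 (u₁, u₂, u₃) = evB U χ (y.1 ((u₁ : G), (u₂ : G), (u₃ : G))) := by
  simp [bigG₃, mul_assoc]

end Big

end Fermat.Agent.S55.helper62
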