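import Mathlib
import Fermat.Agent.S55.Defs
import Fermat.Agent.S55.helper35_SHDefs
import Fermat.Agent.S55.helper35_Homog
import Fermat.Agent.S55.helper35_Cor

/-!
# S55 / SH-A (helper62): the `A`-side of the Shapiro transport for `k[G/U]`

For an open subgroup `U ≤ G` of finite index and the permutation module `A = k[G/U]`
(`permRep k U`) we prove, in the vocabulary of `Defs.lean` (level-constant inhomogeneous
cochains) and `helper35_SHDefs.lean` (`restrictLevels`, `trivRep`):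

* `piU k U : k[G/U] →ₗ[k] k` : the coefficient at the trivial coset;
* `shA₁`, `shA₂` : the Shapiro maps `C^i(G, k[G/U]) → C^i(U, k)`, `x ↦ piU ∘ x|_U`;
* `shA₁_mem_Z1`, `shA₂_mem_Z2` : they preserve level-constant cocycles;
* `shA_inj₁` (SA1), `shA_inj₂` (SA2) : injectivity on cohomology in degrees `1`, `2`;
* `shA_surj₁` (SA3) : surjectivity on level-constant `1`-cocycles;
* `mem_H0_permRep` (SA0) : the invariants of `k[G/U]` are the multiples of the norm element.

The proofs use the homogeneous cochains and prism homotopies of `helper35_Prism/Homog` and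
Frobenius reciprocity (`sc`, `lift`) between equivariant `k[G/U]`-valued cochains and
`U`-invariant scalar cochains.
-/

set_option autoImplicit false
set_option linter.unusedSectionVars false
set_option linter.unusedVariables false
set_option linter.unusedSimpArgs false

open groupCohomology

noncomputable section

namespace Fermat.Agent.S55.helper62

open Fermat.Agent.S55 Fermat.Agent.S55.helper35

variable (k : Type) [Field k] {G : Type} [Group G] (U : Subgroup G)

/-- coefficient at the trivial coset, `k[G/U] → k` -/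
def piU : (permRep k U) →ₗ[k] k where
  toFun a := MonoidAlgebra.coeff (a : MonoidAlgebra k (G ⧸ U)) ((1 : G) : G ⧸ U)
  map_add' a b := rfl
  map_smul' c a := rfl

variable {k U}

lemma piU_apply (a : permRep k U) :
    piU k U a = MonoidAlgebra.coeff (a : MonoidAlgebra k (G ⧸ U)) ((1 : G) : G ⧸ U) := rfl

lemma h62_coeff_rho (g : G) (a : permRep k U) (c : G ⧸ U) :
    MonoidAlgebra.coeff ((permRep k U).ρ g a : MonoidAlgebra k (G ⧸ U)) c
      = MonoidAlgebra.coeff (a : MonoidAlgebra k (G ⧸ U)) (g⁻¹ • c) :=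
  Representation.coeff_ofMulAction g a c

lemma piU_rho (g : G) (a : permRep k U) :
    piU k U ((permRep k U).ρ g a)
      = MonoidAlgebra.coeff (a : MonoidAlgebra k (G ⧸ U)) ((g⁻¹ : G) : G ⧸ U) := by
  rw [piU_apply, h62_coeff_rho, MulAction.Quotient.smul_mk, smul_eq_mul, mul_one]

lemma h62_mk_eq_one_of_mem {u : G} (hu : u ∈ U) : ((u : G) : G ⧸ U) = ((1 : G) : G ⧸ U) := by
  rw [QuotientGroup.eq]
  simpa using hu

lemma piU_rho_of_mem {u : G} (hu : u ∈ U) (a : permRep k U) :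
    piU k U ((permRep k U).ρ u a) = piU k U a := by
  rw [piU_rho, piU_apply, h62_mk_eq_one_of_mem (inv_mem hu)]

lemma h62_ext_piU {a b : permRep k U}
    (h : ∀ g : G, piU k U ((permRep k U).ρ g a) = piU k U ((permRep k U).ρ g b)) : a = b := by
  apply MonoidAlgebra.coeff_injective
  ext c
  induction c using Quotient.inductionOn with
  | _ g =>
    have := h g⁻¹
    rw [piU_rho, piU_rho, inv_inv] at this
    exact this

section mk

variable [Finite (G ⧸ U)]

/-- the element of `k[G/U]` with coefficient `f (sec c)` at the coset `c` -/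
def mkA (f : G → k) : permRep k U :=
  (MonoidAlgebra.ofCoeff (Finsupp.equivFunOnFinite.symm (fun c : G ⧸ U => f (sec U c))) :
    MonoidAlgebra k (G ⧸ U))

lemma coeff_mkA (f : G → k) (hf : ∀ g, ∀ u ∈ U, f (g * u) = f g) (g : G) :
    MonoidAlgebra.coeff (mkA (U := U) f : MonoidAlgebra k (G ⧸ U)) (g : G ⧸ U) = f g := by
  have h1 : MonoidAlgebra.coeff (mkA (U := U) f : MonoidAlgebra k (G ⧸ U)) (g : G ⧸ U)
      = f (sec U (g : G ⧸ U)) := rfl
  rw [h1]
  have h2 := hf g _ (sec_mk_mem U g)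
  rw [mul_inv_cancel_left] at h2
  exact h2

lemma piU_rho_mkA (f : G → k) (hf : ∀ g, ∀ u ∈ U, f (g * u) = f g) (h : G) :
    piU k U ((permRep k U).ρ h (mkA (U := U) f)) = f h⁻¹ := by
  rw [piU_rho, coeff_mkA f hf]

lemma piU_mkA (f : G → k) (hf : ∀ g, ∀ u ∈ U, f (g * u) = f g) :
    piU k U (mkA (U := U) f) = f 1 := by
  rw [piU_apply, coeff_mkA f hf]

end mk


/-! ### Frobenius reciprocity for homogeneous cochains -/

section Frob

/-- scalar cochains attached to `k[G/U]`-valued homogeneous cochains -/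
def sc0 (X : G → permRep k U) : G → k := fun a => piU k U (X a)
def sc1 (X : G → G → permRep k U) : G → G → k := fun a b => piU k U (X a b)
def sc2 (X : G → G → G → permRep k U) : G → G → G → k := fun a b c => piU k U (X a b c)

@[simp] lemma sc0_apply (X : G → permRep k U) (a : G) : sc0 X a = piU k U (X a) := rfl
@[simp] lemma sc1_apply (X : G → G → permRep k U) (a b : G) : sc1 X a b = piU k U (X a b) := rfl
@[simp] lemma sc2_apply (X : G → G → G → permRep k U) (a b c : G) :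
    sc2 X a b c = piU k U (X a b c) := rfl

lemma h62_eq_of_sc1 {X Y : G → G → permRep k U} (hX : IsEqv1 (permRep k U) X)
    (hY : IsEqv1 (permRep k U) Y) (h : sc1 X = sc1 Y) : X = Y := by
  funext a b
  apply h62_ext_piU
  intro g
  rw [← hX g a b, ← hY g a b]
  exact congrFun (congrFun h (g * a)) (g * b)

lemma h62_eq_of_sc2 {X Y : G → G → G → permRep k U} (hX : IsEqv2 (permRep k U) X)
    (hY : IsEqv2 (permRep k U) Y) (h : sc2 X = sc2 Y) : X = Y := by
  funext a b c
  apply h62_ext_piU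
  intro g
  rw [← hX g a b c, ← hY g a b c]
  exact congrFun (congrFun (congrFun h (g * a)) (g * b)) (g * c)

lemma sc1_hd0 (X : G → permRep k U) : sc1 (hd0 X) = hd0 (sc0 X) := by
  funext a b
  simp only [sc1_apply, hd0_apply, sc0_apply, map_sub]

lemma sc2_hd1 (X : G → G → permRep k U) : sc2 (hd1 X) = hd1 (sc1 X) := by
  funext a b c
  simp only [sc2_apply, hd1_apply, sc1_apply, map_sub, map_add]

lemma isEqv1_hd0 {X : G → permRep k U} (hX : IsEqv0 (permRep k U) X) :
    IsEqv1 (permRep k U) (hd0 X) := by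
  intro g a b
  simp only [hd0_apply, hX g, map_sub]

lemma isEqv2_hd1 {X : G → G → permRep k U} (hX : IsEqv1 (permRep k U) X) :
    IsEqv2 (permRep k U) (hd1 X) := by
  intro g a b c
  simp only [hd1_apply, hX g, map_sub, map_add]

lemma isEqv2_zero : IsEqv2 (permRep k U) (0 : G → G → G → permRep k U) := by
  intro g a b c
  simp

variable [Finite (G ⧸ U)]

/-- the equivariant `k[G/U]`-valued cochain attached to a `U`-invariant scalar cochain -/
def lift0 (F : G → k) : G → permRep k U := fun a => mkA (U := U) (fun g => F (g⁻¹ * a))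
def lift1 (F : G → G → k) : G → G → permRep k U :=
  fun a b => mkA (U := U) (fun g => F (g⁻¹ * a) (g⁻¹ * b))

lemma piU_rho_lift0 {F : G → k} (hF : ∀ u ∈ U, ∀ a, F (u * a) = F a) (h a : G) :
    piU k U ((permRep k U).ρ h (lift0 (U := U) F a)) = F (h * a) := by
  unfold lift0
  rw [piU_rho_mkA, inv_inv]
  intro g u hu
  rw [mul_inv_rev, mul_assoc]
  exact hF _ (inv_mem hu) _

lemma piU_rho_lift1 {F : G → G → k} (hF : ∀ u ∈ U, ∀ a b, F (u * a) (u * b) = F a b)
    (h a b : G) :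
    piU k U ((permRep k U).ρ h (lift1 (U := U) F a b)) = F (h * a) (h * b) := by
  unfold lift1
  rw [piU_rho_mkA, inv_inv]
  intro g u hu
  rw [mul_inv_rev, mul_assoc, mul_assoc]
  exact hF _ (inv_mem hu) _ _

lemma sc0_lift0 {F : G → k} (hF : ∀ u ∈ U, ∀ a, F (u * a) = F a) :
    sc0 (lift0 (U := U) F) = F := by
  funext a
  have := piU_rho_lift0 hF 1 a
  simpa using this

lemma sc1_lift1 {F : G → G → k} (hF : ∀ u ∈ U, ∀ a b, F (u * a) (u * b) = F a b) :
    sc1 (lift1 (U := U) F) = F := by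
  funext a b
  have := piU_rho_lift1 hF 1 a b
  simpa using this

lemma isEqv0_lift0 {F : G → k} (hF : ∀ u ∈ U, ∀ a, F (u * a) = F a) :
    IsEqv0 (permRep k U) (lift0 (U := U) F) := by
  intro g a
  apply h62_ext_piU
  intro h
  rw [piU_rho_lift0 hF, ← Module.End.mul_apply, ← map_mul, piU_rho_lift0 hF, mul_assoc]

lemma isEqv1_lift1 {F : G → G → k} (hF : ∀ u ∈ U, ∀ a b, F (u * a) (u * b) = F a b) :
    IsEqv1 (permRep k U) (lift1 (U := U) F) := by
  intro g a b
  apply h62_ext_piU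
  intro h
  rw [piU_rho_lift1 hF, ← Module.End.mul_apply, ← map_mul, piU_rho_lift1 hF, mul_assoc,
    mul_assoc]

end Frob


/-! ### The maps `sh` and their basic properties -/

section Sh

variable (k U)

/-- Shapiro map in degree `1`: restrict to `U`, take the coefficient at the trivial coset -/
def shA₁ : (G → permRep k U) →ₗ[k] (↥U → trivRep k ↥U) where
  toFun x := fun u => piU k U (x (u : G))
  map_add' x y := by funext u; exact map_add (piU k U) _ _
  map_smul' c x := by funext u; exact map_smul (piU k U) c _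

/-- Shapiro map in degree `2` -/
def shA₂ : (G × G → permRep k U) →ₗ[k] (↥U × ↥U → trivRep k ↥U) where
  toFun x := fun u => piU k U (x ((u.1 : G), (u.2 : G)))
  map_add' x y := by funext u; exact map_add (piU k U) _ _
  map_smul' c x := by funext u; exact map_smul (piU k U) c _

variable {k U}

@[simp] lemma shA₁_apply (x : G → permRep k U) (u : ↥U) :
    shA₁ k U x u = piU k U (x (u : G)) := rfl

@[simp] lemma shA₂_apply (x : G × G → permRep k U) (u₁ u₂ : ↥U) :
    shA₂ k U x (u₁, u₂) = piU k U (x ((u₁ : G), (u₂ : G))) := rfl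

variable {𝒩 : Levels G} (hU : ∃ N ∈ 𝒩.mem, N ≤ U)

lemma h62_triv_rho (u : ↥U) (a : trivRep k ↥U) : (trivRep k ↥U).ρ u a = a := rfl

theorem shA₁_mem_Z1 {x : G → permRep k U} (hx : x ∈ Z1 𝒩 (permRep k U)) :
    shA₁ k U x ∈ Z1 (restrictLevels 𝒩 U hU) (trivRep k ↥U) := by
  obtain ⟨⟨N, hN, hlev⟩, hcoc⟩ := hx
  obtain ⟨N₁, hN₁, hN₁U⟩ := hU
  obtain ⟨N₀, hN₀, hle⟩ := 𝒩.directed N hN N₁ hN₁
  refine ⟨⟨N₀.subgroupOf U, ⟨N₀, hN₀, (hle.trans inf_le_right).trans hN₁U, rfl⟩, ?_⟩, ?_⟩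
  · intro u s hs
    rw [Subgroup.mem_subgroupOf] at hs
    simp only [shA₁_apply, Subgroup.coe_mul]
    rw [hlev _ _ (hle hs).1]
  · have hcoc' : (d₁₂ (permRep k U)).hom x = 0 := hcoc
    change (d₁₂ (trivRep k ↥U)).hom (shA₁ k U x) = 0
    funext ⟨u₁, u₂⟩
    have h := congrFun hcoc' ((u₁ : G), (u₂ : G))
    rw [d₁₂_hom_apply] at h
    have h2 := congrArg (piU k U) h
    simp only [map_add, map_sub, Pi.zero_apply, map_zero] at h2
    rw [piU_rho_of_mem u₁.2] at h2
    rw [d₁₂_hom_apply]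
    simp only [shA₁_apply, Subgroup.coe_mul, h62_triv_rho, Pi.zero_apply]
    exact h2

theorem shA₂_mem_Z2 {x : G × G → permRep k U} (hx : x ∈ Z2 𝒩 (permRep k U)) :
    shA₂ k U x ∈ Z2 (restrictLevels 𝒩 U hU) (trivRep k ↥U) := by
  obtain ⟨⟨N, hN, hlev⟩, hcoc⟩ := hx
  obtain ⟨N₁, hN₁, hN₁U⟩ := hU
  obtain ⟨N₀, hN₀, hle⟩ := 𝒩.directed N hN N₁ hN₁
  refine ⟨⟨N₀.subgroupOf U, ⟨N₀, hN₀, (hle.trans inf_le_right).trans hN₁U, rfl⟩, ?_⟩, ?_⟩
  · intro u₁ u₂ s₁ hs₁ s₂ hs₂
    rw [Subgroup.mem_subgroupOf] at hs₁ hs₂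
    simp only [shA₂_apply, Subgroup.coe_mul]
    rw [hlev _ _ _ (hle hs₁).1 _ (hle hs₂).1]
  · have hcoc' : (d₂₃ (permRep k U)).hom x = 0 := hcoc
    change (d₂₃ (trivRep k ↥U)).hom (shA₂ k U x) = 0
    funext ⟨u₁, u₂, u₃⟩
    have h := congrFun hcoc' ((u₁ : G), (u₂ : G), (u₃ : G))
    rw [d₂₃_hom_apply] at h
    have h2 := congrArg (piU k U) h
    simp only [map_add, map_sub, Pi.zero_apply, map_zero] at h2
    rw [piU_rho_of_mem u₁.2] at h2
    rw [d₂₃_hom_apply]
    simp only [shA₂_apply, Subgroup.coe_mul, h62_triv_rho, Pi.zero_apply]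
    exact h2

end Sh


/-! ### Retraction and levels -/

section Retr

lemma h62_mk_inv_mul {N : Subgroup G} (hN : N.Normal) (hNU : N ≤ U) (b : G) {s : G}
    (hs : s ∈ N) : (((b * s)⁻¹ : G) : G ⧸ U) = ((b⁻¹ : G) : G ⧸ U) := by
  rw [QuotientGroup.eq, inv_inv]
  exact hNU (hN.conj_mem s hs b)

lemma h62_retr_mul_of_mem {N : Subgroup G} (hN : N.Normal) (hNU : N ≤ U) (b : G) {s : G}
    (hs : s ∈ N) :
    ∃ s' : ↥U, (s' : G) ∈ N ∧ retr U (b * s) = retr U b * s' ∧
      sec U (((b * s)⁻¹ : G) : G ⧸ U) = sec U ((b⁻¹ : G) : G ⧸ U) := by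
  have h1 := h62_mk_inv_mul (U := U) hN hNU b hs
  set σ := sec U ((b⁻¹ : G) : G ⧸ U) with hσ
  have hmem : σ⁻¹ * s * σ ∈ N := by
    have := hN.conj_mem s hs σ⁻¹
    simpa using this
  refine ⟨⟨σ⁻¹ * s * σ, hNU hmem⟩, hmem, ?_, by rw [h1]⟩
  apply Subtype.ext
  simp only [coe_retr, Subgroup.coe_mul, h1]
  rw [← hσ]
  group

lemma h62_inv_mul_retr (b : G) : b⁻¹ * (retr U b : G) = sec U ((b⁻¹ : G) : G ⧸ U) := by
  rw [coe_retr, inv_mul_cancel_left]

end Retr

/-! ### Injectivity in degree `1` -/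

section Inj1

variable [Finite (G ⧸ U)]

lemma h62_homog2_zero (A : Rep.{0} k G) : homog2 A (0 : G × G → A) = 0 := by
  funext a b c
  simp

lemma h62_homog3_zero (A : Rep.{0} k G) : homog3 A (0 : G × G × G → A) = 0 := by
  funext a b c d
  simp

lemma h62_prism2_zero {X Y N : Type} [AddCommGroup N] (ρ₀ ρ₁ : X → Y) :
    prism2 ρ₀ ρ₁ (0 : Y → Y → Y → N) = 0 := by
  funext a b
  simp

lemma h62_prism3_zero {X Y N : Type} [AddCommGroup N] (ρ₀ ρ₁ : X → Y) :
    prism3 ρ₀ ρ₁ (0 : Y → Y → Y → Y → N) = 0 := by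
  funext a b c
  simp

/-- `U`-invariance of the scalar cochain of an equivariant cochain -/
lemma h62_sc1_inv {X : G → G → permRep k U} (hX : IsEqv1 (permRep k U) X) {u : G} (hu : u ∈ U)
    (a b : G) : sc1 X (u * a) (u * b) = sc1 X a b := by
  simp only [sc1_apply, hX u, piU_rho_of_mem hu]

lemma h62_sc2_inv {X : G → G → G → permRep k U} (hX : IsEqv2 (permRep k U) X) {u : G}
    (hu : u ∈ U) (a b c : G) : sc2 X (u * a) (u * b) (u * c) = sc2 X a b c := by
  simp only [sc2_apply, hX u, piU_rho_of_mem hu]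

/-- **(SA1)** Shapiro injectivity in degree `1` (only the cocycle condition is used). -/
theorem shA_inj₁_of_cocycle {x : G → permRep k U} (hx : (d₁₂ (permRep k U)).hom x = 0)
    (h : ∀ u : ↥U, piU k U (x (u : G)) = 0) : x ∈ B1 (permRep k U) := by
  set X := homog1 (permRep k U) x with hXdef
  have hXeq : IsEqv1 (permRep k U) X := isEqv1_homog1 _ x
  have hXcoc : hd1 X = 0 := by rw [hXdef, hd1_homog1, hx, h62_homog2_zero]
  set xt : G → G → k := sc1 X with hxt
  have hxtcoc : hd1 xt = 0 := by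
    rw [hxt, ← sc2_hd1, hXcoc]
    funext a b c
    simp
  -- `xt` vanishes on `U × U`
  have hxtU : ∀ u₀ u₁ : ↥U, xt (u₀ : G) (u₁ : G) = 0 := by
    intro u₀ u₁
    have e : xt (u₀ : G) (u₁ : G) = piU k U (x ((u₀⁻¹ * u₁ : ↥U) : G)) := by
      simp only [hxt, sc1_apply, hXdef, homog1_apply, piU_rho_of_mem u₀.2, Subgroup.coe_mul,
        Subgroup.coe_inv]
    rw [e, h]
  let ρ₁ : G → G := fun a => (retr U a : G)
  have hprism := hd0_prism1_add (id : G → G) ρ₁ xt
  rw [hxtcoc, h62_prism2_zero, add_zero] at hprism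
  have hpull : pull1 ρ₁ xt = 0 := by
    funext a b
    exact hxtU (retr U a) (retr U b)
  rw [hpull, zero_sub, pull1_id] at hprism
  set at_ : G → k := fun a => - prism1 (id : G → G) ρ₁ xt a with hat
  have hat_inv : ∀ u ∈ U, ∀ a, at_ (u * a) = at_ a := by
    intro u hu a
    simp only [hat, prism1_apply, id, ρ₁]
    have e : ((retr U (u * a) : ↥U) : G) = u * (retr U a : G) := by
      have := retr_mul U ⟨u, hu⟩ a
      simpa using congrArg (Subtype.val) this
    rw [e]
    exact congrArg Neg.neg (h62_sc1_inv hXeq hu a _)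
  have hd0at : hd0 at_ = xt := by
    have : at_ = - prism1 (id : G → G) ρ₁ xt := rfl
    rw [this, hd0_neg, hprism, neg_neg]
  set F₀ := lift0 (U := U) at_ with hF₀
  have hF₀eq : IsEqv0 (permRep k U) F₀ := isEqv0_lift0 hat_inv
  have hF₀ : hd0 F₀ = X := by
    apply h62_eq_of_sc1 (isEqv1_hd0 hF₀eq) hXeq
    rw [sc1_hd0, hF₀, sc0_lift0 hat_inv, hd0at]
  refine ⟨F₀ 1, ?_⟩
  apply homog1_injective (permRep k U)
  rw [← hd0_homog0]
  have : homog0 (permRep k U) (F₀ 1) = F₀ := homog0_inhom0 (permRep k U) hF₀eq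
  rw [this, hF₀]

variable {𝒩 : Levels G}

/-- **(SA1)** Shapiro injectivity in degree `1`. -/
theorem shA_inj₁ {x : G → permRep k U} (hx : x ∈ Z1 𝒩 (permRep k U))
    (h : shA₁ k U x ∈ B1 (trivRep k ↥U)) : x ∈ B1 (permRep k U) := by
  apply shA_inj₁_of_cocycle hx.2
  obtain ⟨a, ha⟩ := h
  intro u
  have := congrFun ha u
  rw [d₀₁_hom_apply] at this
  rw [← shA₁_apply, ← this]
  exact sub_self _

end Inj1


/-! ### Surjectivity in degree `1` -/

section Surj1

variable [Finite (G ⧸ U)] {𝒩 : Levels G} (hU : ∃ N ∈ 𝒩.mem, N ≤ U)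

lemma h62_coe_retr_mul {u : G} (hu : u ∈ U) (a : G) :
    retr U (u * a) = ⟨u, hu⟩ * retr U a := retr_mul U ⟨u, hu⟩ a

lemma h62_retr_one : retr U (1 : G) = 1 := by
  have := retr_coe U (1 : ↥U)
  simpa using this

/-- **(SA3)** Shapiro surjectivity in degree `1`. -/
theorem shA_surj₁ {x' : ↥U → trivRep k ↥U}
    (hx' : x' ∈ Z1 (restrictLevels 𝒩 U hU) (trivRep k ↥U)) :
    ∃ x ∈ Z1 𝒩 (permRep k U), shA₁ k U x = x' := by
  obtain ⟨⟨N', ⟨N₁, hN₁, hN₁U, rfl⟩, hlev'⟩, hcoc'⟩ := hx'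
  have hN₁n : N₁.Normal := 𝒩.normal N₁ hN₁
  have hcoc : (d₁₂ (trivRep k ↥U)).hom x' = 0 := hcoc'
  set X' : ↥U → ↥U → k := homog1 (trivRep k ↥U) x' with hX'
  have hX'apply : ∀ u₀ u₁, X' u₀ u₁ = x' (u₀⁻¹ * u₁) := fun _ _ => rfl
  have hX'coc : hd1 X' = 0 := by
    rw [hX', hd1_homog1, hcoc, h62_homog2_zero]
  set xt : G → G → k := pull1 (retr U) X' with hxt
  have hxt_inv : ∀ u ∈ U, ∀ a b, xt (u * a) (u * b) = xt a b := by
    intro u hu a b
    simp only [hxt, pull1_apply, hX'apply, h62_coe_retr_mul hu]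
    congr 1
    group
  have hxt_lev : ∀ a b, ∀ s ∈ N₁, xt a (b * s) = xt a b := by
    intro a b s hs
    obtain ⟨s', hs', e, -⟩ := h62_retr_mul_of_mem (U := U) hN₁n hN₁U b hs
    simp only [hxt, pull1_apply, hX'apply, e]
    rw [← mul_assoc]
    exact hlev' _ s' (Subgroup.mem_subgroupOf.2 hs')
  have hxtcoc : hd1 xt = 0 := by
    rw [hxt, hd1_pull1, hX'coc]
    rfl
  set X := lift1 (U := U) xt with hX
  have hXeq : IsEqv1 (permRep k U) X := isEqv1_lift1 hxt_inv
  have hsc : sc1 X = xt := sc1_lift1 hxt_inv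
  have hXcoc : hd1 X = 0 := by
    apply h62_eq_of_sc2 (isEqv2_hd1 hXeq) isEqv2_zero
    rw [sc2_hd1, hsc, hxtcoc]
    funext a b c
    simp
  refine ⟨inhom1 (permRep k U) X, ⟨⟨N₁, hN₁, fun g s hs => ?_⟩, ?_⟩, ?_⟩
  · show X 1 (g * s) = X 1 g
    simp only [hX, lift1]
    congr 1
    funext h
    rw [← mul_assoc]
    exact hxt_lev _ _ s hs
  · show (d₁₂ (permRep k U)).hom (inhom1 (permRep k U) X) = 0
    apply homog2_injective (permRep k U)
    rw [← hd1_homog1, homog1_inhom1 (permRep k U) hXeq, hXcoc, h62_homog2_zero]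
  · funext u
    rw [shA₁_apply, inhom1_apply]
    have e1 : piU k U (X 1 (u : G)) = xt 1 (u : G) := congrFun (congrFun hsc 1) (u : G)
    rw [e1]
    simp only [hxt, pull1_apply, hX'apply, h62_retr_one, retr_coe, inv_one, one_mul]

end Surj1

/-! ### Injectivity in degree `2` -/

section Inj2

variable [Finite (G ⧸ U)] {𝒩 : Levels G} (hU : ∃ N ∈ 𝒩.mem, N ≤ U)

/-- **(SA2)** Shapiro injectivity in degree `2`. -/
theorem shA_inj₂ {x : G × G → permRep k U} (hx : x ∈ Z2 𝒩 (permRep k U))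
    (h : shA₂ k U x ∈ B2 (restrictLevels 𝒩 U hU) (trivRep k ↥U)) :
    x ∈ B2 𝒩 (permRep k U) := by
  obtain ⟨⟨Nx, hNx, hxlev⟩, hxcoc'⟩ := hx
  have hxcoc : (d₂₃ (permRep k U)).hom x = 0 := hxcoc'
  obtain ⟨t', ⟨N', ⟨N₁, hN₁, hN₁U, rfl⟩, hlev'⟩, ht'⟩ := h
  obtain ⟨N₀, hN₀, hle⟩ := 𝒩.directed Nx hNx N₁ hN₁
  have hN₀n : N₀.Normal := 𝒩.normal N₀ hN₀
  have hN₀U : N₀ ≤ U := (hle.trans inf_le_right).trans hN₁U
  -- the homogeneous cocycle and its scalar form
  set X := homog2 (permRep k U) x with hXdef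
  have hXeq : IsEqv2 (permRep k U) X := isEqv2_homog2 _ x
  set xt : G → G → G → k := sc2 X with hxt
  have hxt_apply : ∀ a b c, xt a b c = piU k U ((permRep k U).ρ a (x (a⁻¹ * b, b⁻¹ * c))) :=
    fun _ _ _ => rfl
  have hxt_inv : ∀ u ∈ U, ∀ a b c, xt (u * a) (u * b) (u * c) = xt a b c :=
    fun u hu a b c => h62_sc2_inv hXeq hu a b c
  have hxtcoc : hd2 xt = 0 := by
    funext a b c d
    have e := congrFun (congrFun (congrFun (congrFun (hd2_homog2 (permRep k U) x) a) b) c) d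
    rw [hxcoc, h62_homog3_zero] at e
    have e2 := congrArg (piU k U) e
    simp only [hd2_apply, map_sub, map_add, Pi.zero_apply, map_zero] at e2
    exact e2
  -- the scalar 1-cochain on `U`
  set T' : ↥U → ↥U → k := homog1 (trivRep k ↥U) t' with hT'
  have hT'apply : ∀ u₀ u₁, T' u₀ u₁ = t' (u₀⁻¹ * u₁) := fun _ _ => rfl
  have hT'd : ∀ u₀ u₁ u₂ : ↥U, hd1 T' u₀ u₁ u₂ = xt (u₀ : G) (u₁ : G) (u₂ : G) := by
    intro u₀ u₁ u₂
    have e := congrFun (congrFun (congrFun (hd1_homog1 (trivRep k ↥U) t') u₀) u₁) u₂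
    rw [← hT'] at e
    rw [e, ht']
    simp only [homog2_apply, h62_triv_rho, shA₂_apply, hxt_apply, piU_rho_of_mem u₀.2,
      Subgroup.coe_mul, Subgroup.coe_inv]
    rfl
  let ρ₁ : G → G := fun a => (retr U a : G)
  set Tt : G → G → k := pull1 (retr U) T' - prism2 (id : G → G) ρ₁ xt with hTt
  have hTt_apply : ∀ a b, Tt a b = T' (retr U a) (retr U b)
      - (xt a (retr U a : G) (retr U b : G) - xt a b (retr U b : G)) := fun _ _ => rfl
  have hTtd : hd1 Tt = xt := by
    have hprism := hd1_prism2_add (id : G → G) ρ₁ xt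
    rw [hxtcoc, h62_prism3_zero, add_zero, pull2_id] at hprism
    rw [hTt, hd1_sub, hprism, hd1_pull1]
    have : pull2 (retr U) (hd1 T') = pull2 ρ₁ xt := by
      funext a b c
      exact hT'd _ _ _
    rw [this]
    abel
  have hTt_inv : ∀ u ∈ U, ∀ a b, Tt (u * a) (u * b) = Tt a b := by
    intro u hu a b
    simp only [hTt_apply, h62_coe_retr_mul hu, hT'apply, Subgroup.coe_mul]
    rw [hxt_inv u hu, hxt_inv u hu]
    congr 2
    group
  have hTt_lev : ∀ a b, ∀ s ∈ N₀, Tt a (b * s) = Tt a b := by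
    intro a b s hs
    obtain ⟨s', hs', e, e2⟩ := h62_retr_mul_of_mem (U := U) hN₀n hN₀U b hs
    simp only [hTt_apply, e, hT'apply, Subgroup.coe_mul]
    have h1 : t' ((retr U a)⁻¹ * (retr U b * s')) = t' ((retr U a)⁻¹ * retr U b) := by
      rw [← mul_assoc]
      exact hlev' _ s' (Subgroup.mem_subgroupOf.2 (hle hs').2)
    have h2 : xt a (retr U a : G) ((retr U b : G) * (s' : G))
        = xt a (retr U a : G) (retr U b : G) := by
      rw [hxt_apply, hxt_apply, ← mul_assoc]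
      have := hxlev (a⁻¹ * (retr U a : G)) ((retr U a : G)⁻¹ * (retr U b : G)) 1 (one_mem _)
        (s' : G) (hle hs').1
      rw [mul_one] at this
      rw [this]
    have h3 : xt a (b * s) ((retr U b : G) * (s' : G)) = xt a b (retr U b : G) := by
      have e3 : (retr U b : G) * (s' : G) = (retr U (b * s) : G) := by
        rw [e]; rfl
      rw [e3, hxt_apply, hxt_apply, h62_inv_mul_retr, h62_inv_mul_retr, e2, ← mul_assoc]
      have := hxlev (a⁻¹ * b) (sec U ((b⁻¹ : G) : G ⧸ U)) s (hle hs).1 1 (one_mem _)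
      rw [mul_one] at this
      rw [this]
    rw [h1, h2, h3]
  -- lift to an equivariant cochain
  set T := lift1 (U := U) Tt with hT
  have hTeq : IsEqv1 (permRep k U) T := isEqv1_lift1 hTt_inv
  have hsc : sc1 T = Tt := sc1_lift1 hTt_inv
  have hTd : hd1 T = X := by
    apply h62_eq_of_sc2 (isEqv2_hd1 hTeq) hXeq
    rw [sc2_hd1, hsc, hTtd]
  refine ⟨inhom1 (permRep k U) T, ⟨N₀, hN₀, fun g s hs => ?_⟩, ?_⟩
  · show T 1 (g * s) = T 1 g
    simp only [hT, lift1]
    congr 1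
    funext h
    rw [← mul_assoc]
    exact hTt_lev _ _ s hs
  · apply homog2_injective (permRep k U)
    rw [← hd1_homog1, homog1_inhom1 (permRep k U) hTeq, hTd]

end Inj2


/-! ### Degree `0`: invariants of `k[G/U]` -/

section H0

variable [Finite (G ⧸ U)]

variable (k U) in
/-- the norm element `∑_{c ∈ G/U} c` of `k[G/U]` -/
def normElt : permRep k U := mkA (U := U) (fun _ => (1 : k))

lemma coeff_normElt (c : G ⧸ U) :
    MonoidAlgebra.coeff (normElt k U : MonoidAlgebra k (G ⧸ U)) c = 1 := rfl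

lemma piU_rho_normElt (g : G) : piU k U ((permRep k U).ρ g (normElt k U)) = 1 := by
  rw [piU_rho, coeff_normElt]

lemma rho_normElt (g : G) : (permRep k U).ρ g (normElt k U) = normElt k U := by
  apply h62_ext_piU
  intro h
  rw [← Module.End.mul_apply, ← map_mul, piU_rho_normElt, piU_rho_normElt]

lemma normElt_mem_H0 : normElt k U ∈ H0 (permRep k U) := fun g => rho_normElt g

/-- **(SA0)** the invariants of `k[G/U]` are the multiples of the norm element -/
theorem mem_H0_permRep {a : permRep k U} :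
    a ∈ H0 (permRep k U) ↔ ∃ c : k, a = c • normElt k U := by
  constructor
  · intro ha
    refine ⟨piU k U a, ?_⟩
    apply h62_ext_piU
    intro g
    rw [ha g, map_smul, map_smul, piU_rho_normElt, smul_eq_mul, mul_one]
  · rintro ⟨c, rfl⟩
    exact Submodule.smul_mem _ c normElt_mem_H0

/-- the coefficient of an invariant element -/
lemma eq_piU_smul_normElt {a : permRep k U} (ha : a ∈ H0 (permRep k U)) :
    a = piU k U a • normElt k U := by
  apply h62_ext_piU
  intro g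
  rw [ha g, map_smul, map_smul, piU_rho_normElt, smul_eq_mul, mul_one]

end H0

end Fermat.Agent.S55.helper62
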