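import Mathlib
import Fermat.Agent.S55.Defs
import Fermat.Agent.S55.helper35_SHDefs
import Fermat.Agent.S55.helper35_Homog
import Fermat.Agent.S55.helper35_Cor
import Fermat.Agent.S55.helper62_ShConeDefs
import Fermat.Agent.S55.helper62_ShapiroA

/-!
# S55 / SH (helper62): the coinduction maps `pB₁ pB₂ pB₃` (`P1 P2 P3` of `helper53.ShTransportP`)

`B = k[G/U]^*(χ)`, `D : ShData L U`, `[Finite (G ⧸ U)]`. The coinduction maps

  `pB_n χ D hU : CcAmb_n (D.localData hU) (trivRep k U) →ₗ[k] CcAmb_n L B`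

are `inhom ∘ liftB ∘ Ψ ∘ homog`, where `Ψ = (retr^*, retr_w^* + prism(β₀, β₁))` is the map of
helper35's `corCone` (`psiG_n`, `psiL_n`) and `liftB` turns scalar homogeneous cochains into
`B`-valued ones:

* global: the coefficient of `liftBG F x` at the coset `c` is `χ(sec c) * F ((sec c)⁻¹ x)`;
* local at `v`: the coefficient of `liftBL F h` at the coset `orbMap (j, s) = r_v(sec s) y_j U`
  is `χ(r_v(sec s) y_j) * F_j ((sec s)⁻¹ h)` (`orbEquiv : (Σ j, G_v/U_(v,j)) ≃ G/U`).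

With these conventions `cupc₀₃ (normElt) (pB₃ z) = corCone z` holds strictly
(`cupc₀₃_normElt_pB₃`), which gives the projection formula `pf03`.
-/

set_option autoImplicit false
set_option linter.unusedSectionVars false
set_option linter.unusedVariables false
set_option linter.unusedSimpArgs false
set_option linter.style.haveILetI false

open groupCohomology

noncomputable section

namespace Fermat.Agent.S55.helper62

open Fermat.Agent.S55 Fermat.Agent.S55.helper35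

variable {k G : Type} [Field k] [Group G] {𝒩 : Levels G} {ι : Type} {L : LocalData G 𝒩 ι}
  {U : Subgroup G}

/-! ### Functionals on `k[G/U]` from functions on `G/U` -/

/-- the functional on `k[G/U]` with value `φ c` at the basis vector `c` -/
def dualOf (χ : G →* kˣ) (φ : G ⧸ U → k) : Bp k U χ :=
  ((Finsupp.linearCombination k φ) ∘ₗ (MonoidAlgebra.coeffLinearEquiv k).toLinearMap :
    MonoidAlgebra k (G ⧸ U) →ₗ[k] k)

lemma dualOf_apply (χ : G →* kˣ) (φ : G ⧸ U → k) (a : permRep k U) :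
    (dualOf χ φ : Module.Dual k (permRep k U)) a
      = Finsupp.linearCombination k φ (MonoidAlgebra.coeff (a : MonoidAlgebra k (G ⧸ U))) :=
  rfl

lemma dualOf_single (χ : G →* kˣ) (φ : G ⧸ U → k) (c : G ⧸ U) (r : k) :
    (dualOf χ φ : Module.Dual k (permRep k U)) (MonoidAlgebra.single c r) = r * φ c := by
  rw [dualOf_apply, MonoidAlgebra.coeff_single, Finsupp.linearCombination_single, smul_eq_mul]

lemma dualOf_add (χ : G →* kˣ) (φ φ' : G ⧸ U → k) :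
    dualOf χ (φ + φ') = dualOf χ φ + dualOf χ φ' := by
  apply LinearMap.ext
  intro a
  show (dualOf χ (φ + φ') : Module.Dual k (permRep k U)) a = _
  rw [dualOf_apply]
  show _ = (dualOf χ φ : Module.Dual k (permRep k U)) a
    + (dualOf χ φ' : Module.Dual k (permRep k U)) a
  rw [dualOf_apply, dualOf_apply]
  simp only [Finsupp.linearCombination_apply, Finsupp.sum, Pi.add_apply, smul_add,
    Finset.sum_add_distrib]

lemma dualOf_smul (χ : G →* kˣ) (r : k) (φ : G ⧸ U → k) :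
    dualOf χ (r • φ) = r • dualOf χ φ := by
  apply LinearMap.ext
  intro a
  show (dualOf χ (r • φ) : Module.Dual k (permRep k U)) a = _
  rw [dualOf_apply]
  show _ = r • (dualOf χ φ : Module.Dual k (permRep k U)) a
  rw [dualOf_apply]
  simp only [Finsupp.linearCombination_apply, Finsupp.sum, Pi.smul_apply, smul_eq_mul,
    Finset.mul_sum]
  refine Finset.sum_congr rfl fun c _ => ?_
  ring

/-- `evB (dualOf φ) = φ 1` -/
lemma evB_dualOf (χ : G →* kˣ) (φ : G ⧸ U → k) :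
    evB U χ (dualOf χ φ) = φ ((1 : G) : G ⧸ U) := by
  rw [evB_apply, dualOf_single, one_mul]

/-- a functional is determined by its values on the basis -/
lemma h62_dual_ext (χ : G →* kˣ) {f g : Bp k U χ}
    (h : ∀ c : G ⧸ U, (f : Module.Dual k (permRep k U)) (MonoidAlgebra.single c 1)
      = (g : Module.Dual k (permRep k U)) (MonoidAlgebra.single c 1)) : f = g := by
  have : (f : MonoidAlgebra k (G ⧸ U) →ₗ[k] k) = g := by
    apply MonoidAlgebra.lhom_ext'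
    intro c
    apply LinearMap.ext_ring
    exact h c
  exact this


/-! ### The orbit decomposition `G/U = ⨆_j G_v/U_(v,j)` -/

section Orbit

variable (D : ShData L U) [Finite (G ⧸ U)]

/-- the orbit map `(j, h U_w) ↦ r_v(sec (h U_w)) * y v j * U` -/
def orbMap (v : ι) (p : Σ j : D.J v, L.Gv v ⧸ D.Uw v j) : G ⧸ U :=
  ((L.r v (sec (D.Uw v p.1) p.2) * D.y v p.1 : G) : G ⧸ U)

lemma orbMap_injective (v : ι) : Function.Injective (orbMap D v) := by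
  rintro ⟨j, c⟩ ⟨j', c'⟩ h
  have hjj : j = j' := by
    apply D.disjoint v j j'
    simp only [orbMap] at h
    rw [QuotientGroup.eq] at h
    refine ⟨(sec (D.Uw v j') c')⁻¹ * sec (D.Uw v j) c, _, h, ?_⟩
    rw [map_mul, map_inv]
    group
  subst hjj
  have := D.orbitMap_injective v j (a₁ := c) (a₂ := c') h
  rw [this]

lemma orbMap_surjective (v : ι) : Function.Surjective (orbMap D v) := by
  intro c
  induction c using Quotient.inductionOn with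
  | _ g =>
    obtain ⟨j, h, u, hu, e⟩ := D.cover v g
    refine ⟨⟨j, (h : L.Gv v ⧸ D.Uw v j)⟩, ?_⟩
    show ((L.r v (sec (D.Uw v j) (h : L.Gv v ⧸ D.Uw v j)) * D.y v j : G) : G ⧸ U)
      = ((g : G) : G ⧸ U)
    rw [QuotientGroup.eq, e]
    have ht : h⁻¹ * sec (D.Uw v j) (h : L.Gv v ⧸ D.Uw v j) ∈ D.Uw v j := sec_mk_mem _ h
    rw [ShData.mem_Uw, map_mul, map_inv] at ht
    have e2 : (L.r v (sec (D.Uw v j) (h : L.Gv v ⧸ D.Uw v j)) * D.y v j)⁻¹ *
        (L.r v h * D.y v j * u)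
        = ((D.y v j)⁻¹ * ((L.r v h)⁻¹ * L.r v (sec (D.Uw v j) (h : L.Gv v ⧸ D.Uw v j)))
            * D.y v j)⁻¹ * u := by
      group
    rw [e2]
    exact U.mul_mem (U.inv_mem ht) hu

/-- the orbit decomposition as an equivalence -/
def orbEquiv (v : ι) : (Σ j : D.J v, L.Gv v ⧸ D.Uw v j) ≃ G ⧸ U :=
  Equiv.ofBijective (orbMap D v) ⟨orbMap_injective D v, orbMap_surjective D v⟩

@[simp] lemma orbEquiv_apply (v : ι) (p : Σ j : D.J v, L.Gv v ⧸ D.Uw v j) :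
    orbEquiv D v p = orbMap D v p := rfl

end Orbit


/-! ### Lifting scalar homogeneous cochains to `B`-valued ones -/

section Lift

variable (χ : G →* kˣ)

/-- global coefficient function: `c ↦ χ(sec c) * F ((sec c)⁻¹ x)` -/
def coefG₁ (F : G → G → k) (x₀ x₁ : G) : G ⧸ U → k :=
  fun c => (χ (sec U c) : k) * F ((sec U c)⁻¹ * x₀) ((sec U c)⁻¹ * x₁)
def coefG₂ (F : G → G → G → k) (x₀ x₁ x₂ : G) : G ⧸ U → k :=
  fun c => (χ (sec U c) : k) * F ((sec U c)⁻¹ * x₀) ((sec U c)⁻¹ * x₁) ((sec U c)⁻¹ * x₂)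
def coefG₃ (F : G → G → G → G → k) (x₀ x₁ x₂ x₃ : G) : G ⧸ U → k :=
  fun c => (χ (sec U c) : k) *
    F ((sec U c)⁻¹ * x₀) ((sec U c)⁻¹ * x₁) ((sec U c)⁻¹ * x₂) ((sec U c)⁻¹ * x₃)

/-- the `B`-valued homogeneous cochain attached to a scalar one (global) -/
def liftBG₁ (F : G → G → k) : G → G → Bp k U χ :=
  fun x₀ x₁ => dualOf χ (coefG₁ (U := U) χ F x₀ x₁)
def liftBG₂ (F : G → G → G → k) : G → G → G → Bp k U χ :=
  fun x₀ x₁ x₂ => dualOf χ (coefG₂ (U := U) χ F x₀ x₁ x₂)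
def liftBG₃ (F : G → G → G → G → k) : G → G → G → G → Bp k U χ :=
  fun x₀ x₁ x₂ x₃ => dualOf χ (coefG₃ (U := U) χ F x₀ x₁ x₂ x₃)

variable (D : ShData L U) [Finite (G ⧸ U)]

/-- the weight `χ(r_v(sec s) * y v j)` of the coset `orbMap (j, s)` -/
def wL (v : ι) (p : Σ j : D.J v, L.Gv v ⧸ D.Uw v j) : k :=
  (χ (L.r v (sec (D.Uw v p.1) p.2) * D.y v p.1) : k)

/-- local coefficient functions -/
def coefL₀ (v : ι) (F : ∀ j : D.J v, L.Gv v → k) (h₀ : L.Gv v) : G ⧸ U → k :=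
  fun c => wL χ D v ((orbEquiv D v).symm c) *
    F ((orbEquiv D v).symm c).1 ((sec (D.Uw v _) ((orbEquiv D v).symm c).2)⁻¹ * h₀)
def coefL₁ (v : ι) (F : ∀ j : D.J v, L.Gv v → L.Gv v → k) (h₀ h₁ : L.Gv v) : G ⧸ U → k :=
  fun c => wL χ D v ((orbEquiv D v).symm c) *
    F ((orbEquiv D v).symm c).1 ((sec (D.Uw v _) ((orbEquiv D v).symm c).2)⁻¹ * h₀)
      ((sec (D.Uw v _) ((orbEquiv D v).symm c).2)⁻¹ * h₁)
def coefL₂ (v : ι) (F : ∀ j : D.J v, L.Gv v → L.Gv v → L.Gv v → k) (h₀ h₁ h₂ : L.Gv v) :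
    G ⧸ U → k :=
  fun c => wL χ D v ((orbEquiv D v).symm c) *
    F ((orbEquiv D v).symm c).1 ((sec (D.Uw v _) ((orbEquiv D v).symm c).2)⁻¹ * h₀)
      ((sec (D.Uw v _) ((orbEquiv D v).symm c).2)⁻¹ * h₁)
      ((sec (D.Uw v _) ((orbEquiv D v).symm c).2)⁻¹ * h₂)

/-- the `B`-valued homogeneous cochain on `G_v` attached to a family of scalar ones -/
def liftBL₀ (v : ι) (F : ∀ j : D.J v, L.Gv v → k) : L.Gv v → L.loc (Bp k U χ) v :=
  fun h₀ => dualOf χ (coefL₀ χ D v F h₀)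
def liftBL₁ (v : ι) (F : ∀ j : D.J v, L.Gv v → L.Gv v → k) :
    L.Gv v → L.Gv v → L.loc (Bp k U χ) v :=
  fun h₀ h₁ => dualOf χ (coefL₁ χ D v F h₀ h₁)
def liftBL₂ (v : ι) (F : ∀ j : D.J v, L.Gv v → L.Gv v → L.Gv v → k) :
    L.Gv v → L.Gv v → L.Gv v → L.loc (Bp k U χ) v :=
  fun h₀ h₁ h₂ => dualOf χ (coefL₂ χ D v F h₀ h₁ h₂)

end Lift

/-! ### The maps `Ψ` in the big model and the coinduction maps `pB_n` -/

section Psi

variable (χ : G →* kˣ) (D : ShData L U) [Finite (G ⧸ U)] (hU : ∃ N ∈ 𝒩.mem, N ≤ U)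

/-- global component of `Ψ` -/
def psiG₁ (z : ↥U → k) : G → G → k := pull1 (retr U) (homog1 (trivRep k ↥U) z)
def psiG₂ (z : ↥U × ↥U → k) : G → G → G → k := pull2 (retr U) (homog2 (trivRep k ↥U) z)
def psiG₃ (z : ↥U × ↥U × ↥U → k) : G → G → G → G → k :=
  pull3 (retr U) (homog3 (trivRep k ↥U) z)

/-- local component of `Ψ` at `(v, j)` -/
def psiL₀ (v : ι) (j : D.J v) (z : ↥U → k) (b : k) : L.Gv v → k :=
  pull0 (retr (D.Uw v j)) (homog0 (trivRep k ↥(D.Uw v j)) b)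
    + prism1 (D.beta0 v j) (D.beta1 v j) (homog1 (trivRep k ↥U) z)
def psiL₁ (v : ι) (j : D.J v) (z : ↥U × ↥U → k) (b : ↥(D.Uw v j) → k) :
    L.Gv v → L.Gv v → k :=
  pull1 (retr (D.Uw v j)) (homog1 (trivRep k ↥(D.Uw v j)) b)
    + prism2 (D.beta0 v j) (D.beta1 v j) (homog2 (trivRep k ↥U) z)
def psiL₂ (v : ι) (j : D.J v) (z : ↥U × ↥U × ↥U → k) (b : ↥(D.Uw v j) × ↥(D.Uw v j) → k) :
    L.Gv v → L.Gv v → L.Gv v → k :=
  pull2 (retr (D.Uw v j)) (homog2 (trivRep k ↥(D.Uw v j)) b)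
    + prism3 (D.beta0 v j) (D.beta1 v j) (homog3 (trivRep k ↥U) z)

/-- underlying function of `pB₁` -/
def pBfun₁ (y : CcAmb1 (D.localData hU) (trivRep k ↥U)) : CcAmb1 L (Bp k U χ) :=
  (inhom1 (Bp k U χ) (liftBG₁ χ (psiG₁ y.1)),
   fun v => inhom0 (L.loc (Bp k U χ) v)
     (liftBL₀ χ D v (fun j => psiL₀ D v j y.1 (y.2 ⟨v, j⟩))))

/-- underlying function of `pB₂` -/
def pBfun₂ (y : CcAmb2 (D.localData hU) (trivRep k ↥U)) : CcAmb2 L (Bp k U χ) :=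
  (inhom2 (Bp k U χ) (liftBG₂ χ (psiG₂ y.1)),
   fun v => inhom1 (L.loc (Bp k U χ) v)
     (liftBL₁ χ D v (fun j => psiL₁ D v j y.1 (y.2 ⟨v, j⟩))))

/-- underlying function of `pB₃` -/
def pBfun₃ (y : CcAmb3 (D.localData hU) (trivRep k ↥U)) : CcAmb3 L (Bp k U χ) :=
  (inhom3 (Bp k U χ) (liftBG₃ χ (psiG₃ y.1)),
   fun v => inhom2 (L.loc (Bp k U χ) v)
     (liftBL₂ χ D v (fun j => psiL₂ D v j y.1 (y.2 ⟨v, j⟩))))

/-! linearity -/

lemma coefG₁_add (F F' : G → G → k) (x₀ x₁ : G) :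
    coefG₁ (U := U) χ (F + F') x₀ x₁ = coefG₁ χ F x₀ x₁ + coefG₁ χ F' x₀ x₁ := by
  funext c; simp only [coefG₁, Pi.add_apply]; ring
lemma coefG₂_add (F F' : G → G → G → k) (x₀ x₁ x₂ : G) :
    coefG₂ (U := U) χ (F + F') x₀ x₁ x₂ = coefG₂ χ F x₀ x₁ x₂ + coefG₂ χ F' x₀ x₁ x₂ := by
  funext c; simp only [coefG₂, Pi.add_apply]; ring
lemma coefG₃_add (F F' : G → G → G → G → k) (x₀ x₁ x₂ x₃ : G) :
    coefG₃ (U := U) χ (F + F') x₀ x₁ x₂ x₃
      = coefG₃ χ F x₀ x₁ x₂ x₃ + coefG₃ χ F' x₀ x₁ x₂ x₃ := by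
  funext c; simp only [coefG₃, Pi.add_apply]; ring
lemma coefG₁_smul (r : k) (F : G → G → k) (x₀ x₁ : G) :
    coefG₁ (U := U) χ (r • F) x₀ x₁ = r • coefG₁ χ F x₀ x₁ := by
  funext c; simp only [coefG₁, Pi.smul_apply, smul_eq_mul]; ring
lemma coefG₂_smul (r : k) (F : G → G → G → k) (x₀ x₁ x₂ : G) :
    coefG₂ (U := U) χ (r • F) x₀ x₁ x₂ = r • coefG₂ χ F x₀ x₁ x₂ := by
  funext c; simp only [coefG₂, Pi.smul_apply, smul_eq_mul]; ring
lemma coefG₃_smul (r : k) (F : G → G → G → G → k) (x₀ x₁ x₂ x₃ : G) :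
    coefG₃ (U := U) χ (r • F) x₀ x₁ x₂ x₃ = r • coefG₃ χ F x₀ x₁ x₂ x₃ := by
  funext c; simp only [coefG₃, Pi.smul_apply, smul_eq_mul]; ring

lemma coefL₀_add (v : ι) (F F' : ∀ j : D.J v, L.Gv v → k) (h₀ : L.Gv v) :
    coefL₀ χ D v (F + F') h₀ = coefL₀ χ D v F h₀ + coefL₀ χ D v F' h₀ := by
  funext c; simp only [coefL₀, Pi.add_apply]; ring
lemma coefL₁_add (v : ι) (F F' : ∀ j : D.J v, L.Gv v → L.Gv v → k) (h₀ h₁ : L.Gv v) :
    coefL₁ χ D v (F + F') h₀ h₁ = coefL₁ χ D v F h₀ h₁ + coefL₁ χ D v F' h₀ h₁ := by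
  funext c; simp only [coefL₁, Pi.add_apply]; ring
lemma coefL₂_add (v : ι) (F F' : ∀ j : D.J v, L.Gv v → L.Gv v → L.Gv v → k)
    (h₀ h₁ h₂ : L.Gv v) :
    coefL₂ χ D v (F + F') h₀ h₁ h₂ = coefL₂ χ D v F h₀ h₁ h₂ + coefL₂ χ D v F' h₀ h₁ h₂ := by
  funext c; simp only [coefL₂, Pi.add_apply]; ring
lemma coefL₀_smul (v : ι) (r : k) (F : ∀ j : D.J v, L.Gv v → k) (h₀ : L.Gv v) :
    coefL₀ χ D v (r • F) h₀ = r • coefL₀ χ D v F h₀ := by
  funext c; simp only [coefL₀, Pi.smul_apply, smul_eq_mul]; ring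
lemma coefL₁_smul (v : ι) (r : k) (F : ∀ j : D.J v, L.Gv v → L.Gv v → k) (h₀ h₁ : L.Gv v) :
    coefL₁ χ D v (r • F) h₀ h₁ = r • coefL₁ χ D v F h₀ h₁ := by
  funext c; simp only [coefL₁, Pi.smul_apply, smul_eq_mul]; ring
lemma coefL₂_smul (v : ι) (r : k) (F : ∀ j : D.J v, L.Gv v → L.Gv v → L.Gv v → k)
    (h₀ h₁ h₂ : L.Gv v) :
    coefL₂ χ D v (r • F) h₀ h₁ h₂ = r • coefL₂ χ D v F h₀ h₁ h₂ := by
  funext c; simp only [coefL₂, Pi.smul_apply, smul_eq_mul]; ring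

lemma psiG₁_add (z z' : ↥U → k) : psiG₁ (z + z') = psiG₁ z + psiG₁ z' := by
  funext a b; simp only [psiG₁, pull1_apply, homog1_apply, Pi.add_apply, map_add]
lemma psiG₂_add (z z' : ↥U × ↥U → k) : psiG₂ (z + z') = psiG₂ z + psiG₂ z' := by
  funext a b c; simp only [psiG₂, pull2_apply, homog2_apply, Pi.add_apply, map_add]
lemma psiG₃_add (z z' : ↥U × ↥U × ↥U → k) : psiG₃ (z + z') = psiG₃ z + psiG₃ z' := by
  funext a b c d; simp only [psiG₃, pull3_apply, homog3_apply, Pi.add_apply, map_add]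
lemma psiG₁_smul (r : k) (z : ↥U → k) : psiG₁ (r • z) = r • psiG₁ z := by
  funext a b; simp only [psiG₁, pull1_apply, homog1_apply, Pi.smul_apply, map_smul]
lemma psiG₂_smul (r : k) (z : ↥U × ↥U → k) : psiG₂ (r • z) = r • psiG₂ z := by
  funext a b c; simp only [psiG₂, pull2_apply, homog2_apply, Pi.smul_apply, map_smul]
lemma psiG₃_smul (r : k) (z : ↥U × ↥U × ↥U → k) : psiG₃ (r • z) = r • psiG₃ z := by
  funext a b c d; simp only [psiG₃, pull3_apply, homog3_apply, Pi.smul_apply, map_smul]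

lemma psiL₀_add (v : ι) (j : D.J v) (z z' : ↥U → k) (b b' : k) :
    psiL₀ D v j (z + z') (b + b') = psiL₀ D v j z b + psiL₀ D v j z' b' := by
  funext s
  simp only [psiL₀, pull0_apply, prism1_apply, homog0_apply, homog1_apply, Pi.add_apply,
    map_add]
  abel
lemma psiL₁_add (v : ι) (j : D.J v) (z z' : ↥U × ↥U → k) (b b' : ↥(D.Uw v j) → k) :
    psiL₁ D v j (z + z') (b + b') = psiL₁ D v j z b + psiL₁ D v j z' b' := by
  funext s t
  simp only [psiL₁, pull1_apply, prism2_apply, homog1_apply, homog2_apply, Pi.add_apply,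
    Pi.sub_apply, map_add]
  abel
lemma psiL₂_add (v : ι) (j : D.J v) (z z' : ↥U × ↥U × ↥U → k)
    (b b' : ↥(D.Uw v j) × ↥(D.Uw v j) → k) :
    psiL₂ D v j (z + z') (b + b') = psiL₂ D v j z b + psiL₂ D v j z' b' := by
  funext s t r
  simp only [psiL₂, pull2_apply, prism3_apply, homog2_apply, homog3_apply, Pi.add_apply,
    Pi.sub_apply, map_add]
  abel
lemma psiL₀_smul (v : ι) (j : D.J v) (r : k) (z : ↥U → k) (b : k) :
    psiL₀ D v j (r • z) (r • b) = r • psiL₀ D v j z b := by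
  funext s
  simp only [psiL₀, pull0_apply, prism1_apply, homog0_apply, homog1_apply, Pi.add_apply,
    Pi.smul_apply, map_smul, smul_add]
lemma psiL₁_smul (v : ι) (j : D.J v) (r : k) (z : ↥U × ↥U → k) (b : ↥(D.Uw v j) → k) :
    psiL₁ D v j (r • z) (r • b) = r • psiL₁ D v j z b := by
  funext s t
  simp only [psiL₁, pull1_apply, prism2_apply, homog1_apply, homog2_apply, Pi.add_apply,
    Pi.sub_apply, Pi.smul_apply, map_smul, smul_add, smul_sub]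
lemma psiL₂_smul (v : ι) (j : D.J v) (r : k) (z : ↥U × ↥U × ↥U → k)
    (b : ↥(D.Uw v j) × ↥(D.Uw v j) → k) :
    psiL₂ D v j (r • z) (r • b) = r • psiL₂ D v j z b := by
  funext s t u
  simp only [psiL₂, pull2_apply, prism3_apply, homog2_apply, homog3_apply, Pi.add_apply,
    Pi.sub_apply, Pi.smul_apply, map_smul, smul_add, smul_sub]

/-- **Coinduction of cone `1`-cochains** (`P1` of `helper53.ShTransportP`). -/
def pB₁ : CcAmb1 (D.localData hU) (trivRep k ↥U) →ₗ[k] CcAmb1 L (Bp k U χ) where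
  toFun := pBfun₁ χ D hU
  map_add' y y' := by
    refine Prod.ext ?_ ?_
    · funext g
      show dualOf χ (coefG₁ χ (psiG₁ (y.1 + y'.1)) 1 g)
        = dualOf χ (coefG₁ χ (psiG₁ y.1) 1 g) + dualOf χ (coefG₁ χ (psiG₁ y'.1) 1 g)
      rw [psiG₁_add, coefG₁_add, dualOf_add]
    · funext v
      show dualOf χ (coefL₀ χ D v (fun j => psiL₀ D v j (y.1 + y'.1)
          (y.2 ⟨v, j⟩ + y'.2 ⟨v, j⟩)) 1)
        = dualOf χ (coefL₀ χ D v (fun j => psiL₀ D v j y.1 (y.2 ⟨v, j⟩)) 1)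
          + dualOf χ (coefL₀ χ D v (fun j => psiL₀ D v j y'.1 (y'.2 ⟨v, j⟩)) 1)
      rw [← dualOf_add, ← coefL₀_add]
      congr 2
      funext j
      exact psiL₀_add D v j _ _ _ _
  map_smul' r y := by
    refine Prod.ext ?_ ?_
    · funext g
      show dualOf χ (coefG₁ χ (psiG₁ (r • y.1)) 1 g) = r • dualOf χ (coefG₁ χ (psiG₁ y.1) 1 g)
      rw [psiG₁_smul, coefG₁_smul, dualOf_smul]
    · funext v
      show dualOf χ (coefL₀ χ D v (fun j => psiL₀ D v j (r • y.1) (r • y.2 ⟨v, j⟩)) 1)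
        = r • dualOf χ (coefL₀ χ D v (fun j => psiL₀ D v j y.1 (y.2 ⟨v, j⟩)) 1)
      rw [← dualOf_smul, ← coefL₀_smul]
      congr 2
      funext j
      exact psiL₀_smul D v j r _ _

/-- **Coinduction of cone `2`-cochains** (`P2` of `helper53.ShTransportP`). -/
def pB₂ : CcAmb2 (D.localData hU) (trivRep k ↥U) →ₗ[k] CcAmb2 L (Bp k U χ) where
  toFun := pBfun₂ χ D hU
  map_add' y y' := by
    refine Prod.ext ?_ ?_
    · funext g
      show dualOf χ (coefG₂ χ (psiG₂ (y.1 + y'.1)) 1 g.1 (g.1 * g.2))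
        = dualOf χ (coefG₂ χ (psiG₂ y.1) 1 g.1 (g.1 * g.2))
          + dualOf χ (coefG₂ χ (psiG₂ y'.1) 1 g.1 (g.1 * g.2))
      rw [psiG₂_add, coefG₂_add, dualOf_add]
    · funext v s
      show dualOf χ (coefL₁ χ D v (fun j => psiL₁ D v j (y.1 + y'.1)
          (y.2 ⟨v, j⟩ + y'.2 ⟨v, j⟩)) 1 s)
        = dualOf χ (coefL₁ χ D v (fun j => psiL₁ D v j y.1 (y.2 ⟨v, j⟩)) 1 s)
          + dualOf χ (coefL₁ χ D v (fun j => psiL₁ D v j y'.1 (y'.2 ⟨v, j⟩)) 1 s)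
      rw [← dualOf_add, ← coefL₁_add]
      congr 2
      funext j
      exact psiL₁_add D v j _ _ _ _
  map_smul' r y := by
    refine Prod.ext ?_ ?_
    · funext g
      show dualOf χ (coefG₂ χ (psiG₂ (r • y.1)) 1 g.1 (g.1 * g.2))
        = r • dualOf χ (coefG₂ χ (psiG₂ y.1) 1 g.1 (g.1 * g.2))
      rw [psiG₂_smul, coefG₂_smul, dualOf_smul]
    · funext v s
      show dualOf χ (coefL₁ χ D v (fun j => psiL₁ D v j (r • y.1) (r • y.2 ⟨v, j⟩)) 1 s)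
        = r • dualOf χ (coefL₁ χ D v (fun j => psiL₁ D v j y.1 (y.2 ⟨v, j⟩)) 1 s)
      rw [← dualOf_smul, ← coefL₁_smul]
      congr 2
      funext j
      exact psiL₁_smul D v j r _ _

/-- **Coinduction of cone `3`-cochains** (`P3` of `helper53.ShTransportP`). -/
def pB₃ : CcAmb3 (D.localData hU) (trivRep k ↥U) →ₗ[k] CcAmb3 L (Bp k U χ) where
  toFun := pBfun₃ χ D hU
  map_add' y y' := by
    refine Prod.ext ?_ ?_
    · funext g
      show dualOf χ (coefG₃ χ (psiG₃ (y.1 + y'.1)) 1 g.1 (g.1 * g.2.1) (g.1 * g.2.1 * g.2.2))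
        = dualOf χ (coefG₃ χ (psiG₃ y.1) 1 g.1 (g.1 * g.2.1) (g.1 * g.2.1 * g.2.2))
          + dualOf χ (coefG₃ χ (psiG₃ y'.1) 1 g.1 (g.1 * g.2.1) (g.1 * g.2.1 * g.2.2))
      rw [psiG₃_add, coefG₃_add, dualOf_add]
    · funext v s
      show dualOf χ (coefL₂ χ D v (fun j => psiL₂ D v j (y.1 + y'.1)
          (y.2 ⟨v, j⟩ + y'.2 ⟨v, j⟩)) 1 s.1 (s.1 * s.2))
        = dualOf χ (coefL₂ χ D v (fun j => psiL₂ D v j y.1 (y.2 ⟨v, j⟩)) 1 s.1 (s.1 * s.2))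
          + dualOf χ (coefL₂ χ D v (fun j => psiL₂ D v j y'.1 (y'.2 ⟨v, j⟩)) 1 s.1 (s.1 * s.2))
      rw [← dualOf_add, ← coefL₂_add]
      congr 2
      funext j
      exact psiL₂_add D v j _ _ _ _
  map_smul' r y := by
    refine Prod.ext ?_ ?_
    · funext g
      show dualOf χ (coefG₃ χ (psiG₃ (r • y.1)) 1 g.1 (g.1 * g.2.1) (g.1 * g.2.1 * g.2.2))
        = r • dualOf χ (coefG₃ χ (psiG₃ y.1) 1 g.1 (g.1 * g.2.1) (g.1 * g.2.1 * g.2.2))
      rw [psiG₃_smul, coefG₃_smul, dualOf_smul]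
    · funext v s
      show dualOf χ (coefL₂ χ D v (fun j => psiL₂ D v j (r • y.1) (r • y.2 ⟨v, j⟩)) 1 s.1
          (s.1 * s.2))
        = r • dualOf χ (coefL₂ χ D v (fun j => psiL₂ D v j y.1 (y.2 ⟨v, j⟩)) 1 s.1 (s.1 * s.2))
      rw [← dualOf_smul, ← coefL₂_smul]
      congr 2
      funext j
      exact psiL₂_smul D v j r _ _

@[simp] lemma pB₁_fst (y : CcAmb1 (D.localData hU) (trivRep k ↥U)) (g : G) :
    (pB₁ χ D hU y).1 g = liftBG₁ χ (psiG₁ y.1) 1 g := rfl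
@[simp] lemma pB₁_snd (y : CcAmb1 (D.localData hU) (trivRep k ↥U)) (v : ι) :
    (pB₁ χ D hU y).2 v = liftBL₀ χ D v (fun j => psiL₀ D v j y.1 (y.2 ⟨v, j⟩)) 1 := rfl
@[simp] lemma pB₂_fst (y : CcAmb2 (D.localData hU) (trivRep k ↥U)) (g₁ g₂ : G) :
    (pB₂ χ D hU y).1 (g₁, g₂) = liftBG₂ χ (psiG₂ y.1) 1 g₁ (g₁ * g₂) := rfl
@[simp] lemma pB₂_snd (y : CcAmb2 (D.localData hU) (trivRep k ↥U)) (v : ι) (s : L.Gv v) :
    (pB₂ χ D hU y).2 v s = liftBL₁ χ D v (fun j => psiL₁ D v j y.1 (y.2 ⟨v, j⟩)) 1 s := rfl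
@[simp] lemma pB₃_fst (y : CcAmb3 (D.localData hU) (trivRep k ↥U)) (g₁ g₂ g₃ : G) :
    (pB₃ χ D hU y).1 (g₁, g₂, g₃)
      = liftBG₃ χ (psiG₃ y.1) 1 g₁ (g₁ * g₂) (g₁ * g₂ * g₃) := rfl
@[simp] lemma pB₃_snd (y : CcAmb3 (D.localData hU) (trivRep k ↥U)) (v : ι) (s₁ s₂ : L.Gv v) :
    (pB₃ χ D hU y).2 v (s₁, s₂)
      = liftBL₂ χ D v (fun j => psiL₂ D v j y.1 (y.2 ⟨v, j⟩)) 1 s₁ (s₁ * s₂) := rfl

end Psi

/-! ### `pf03`: evaluation at the norm element turns `pB₃` into `corCone` -/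

section PF03

variable (χ : G →* kˣ) (D : ShData L U) [Finite (G ⧸ U)] (hU : ∃ N ∈ 𝒩.mem, N ≤ U)

/-- evaluation of `dualOf φ` at the norm element -/
lemma dualOf_normElt [Fintype (G ⧸ U)] (φ : G ⧸ U → k) :
    (dualOf χ φ : Module.Dual k (permRep k U)) (normElt k U) = ∑ c : G ⧸ U, φ c := by
  rw [dualOf_apply, Finsupp.linearCombination_apply, Finsupp.sum_fintype _ _ (by simp)]
  refine Finset.sum_congr rfl fun c _ => ?_
  rw [coeff_normElt, one_smul]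

/-- sums over `G/U` decompose along the orbits of `G_v` -/
lemma sum_orbEquiv [Fintype (G ⧸ U)] (v : ι) [∀ j, Fintype (L.Gv v ⧸ D.Uw v j)]
    (φ : (Σ j : D.J v, L.Gv v ⧸ D.Uw v j) → k) :
    ∑ c : G ⧸ U, φ ((orbEquiv D v).symm c) = ∑ j : D.J v, ∑ s : L.Gv v ⧸ D.Uw v j, φ ⟨j, s⟩ := by
  rw [← Fintype.sum_sigma' (fun j s => φ ⟨j, s⟩)]
  exact Fintype.sum_equiv (orbEquiv D v).symm _ _ (fun c => rfl)

theorem cupc₀₃_normElt_pB₃ (z : CcAmb3 (D.localData hU) (trivRep k ↥U)) :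
    cupc₀₃ L (evPairing (permRep k U) χ) (normElt k U) (pB₃ χ D hU z) = D.corCone χ hU z := by
  classical
  refine Prod.ext ?_ ?_
  · funext g
    obtain ⟨g₁, g₂, g₃⟩ := g
    letI : Fintype (G ⧸ U) := Fintype.ofFinite _
    show (dualOf χ (coefG₃ χ (psiG₃ z.1) 1 g₁ (g₁ * g₂) (g₁ * g₂ * g₃)) :
      Module.Dual k (permRep k U)) (normElt k U) = corGlob₃ (U := U) χ z.1 (g₁, g₂, g₃)
    rw [dualOf_normElt]
    rfl
  · funext v s
    obtain ⟨s₁, s₂⟩ := s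
    letI : Fintype (G ⧸ U) := Fintype.ofFinite _
    letI : ∀ j, Fintype (L.Gv v ⧸ D.Uw v j) := fun j => Fintype.ofFinite _
    show (dualOf χ (coefL₂ χ D v (fun j => psiL₂ D v j z.1 (z.2 ⟨v, j⟩)) 1 s₁ (s₁ * s₂)) :
      Module.Dual k (permRep k U)) (normElt k U)
        = (∑ j : D.J v, (D.corLoc₂ χ v j (z.2 ⟨v, j⟩) + D.corMix₃ χ v j z.1)) (s₁, s₂)
    rw [dualOf_normElt]
    have h1 := sum_orbEquiv D v (fun p => wL χ D v p *
      psiL₂ D v p.1 z.1 (z.2 ⟨v, p.1⟩) ((sec (D.Uw v p.1) p.2)⁻¹ * 1)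
        ((sec (D.Uw v p.1) p.2)⁻¹ * s₁) ((sec (D.Uw v p.1) p.2)⁻¹ * (s₁ * s₂)))
    refine h1.trans ?_
    rw [Finset.sum_apply]
    refine Finset.sum_congr rfl fun j _ => ?_
    simp only [Pi.add_apply, ShData.corLoc₂, ShData.corMix₃, inhom2_apply, ShData.trfL₂, trf₂,
      psiL₂, wL, ← Finset.sum_add_distrib, mul_add]

lemma cupc₀₃_smul_left {A B C : Rep.{0} k G} (φ : EqPairing A B C) (c : k) (a : A)
    (y : CcAmb3 L B) : cupc₀₃ L φ (c • a) y = c • cupc₀₃ L φ a y := by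
  refine Prod.ext ?_ ?_
  · funext g
    simp only [cupc₀₃, map_smul, LinearMap.smul_apply, Prod.smul_fst, Pi.smul_apply]
  · funext v s
    simp only [cupc₀₃, map_smul, LinearMap.smul_apply, Prod.smul_snd, Pi.smul_apply]

lemma cupc₀₃_mulPairing (c : k) (z : CcAmb3 (D.localData hU) (trivRep k ↥U)) :
    cupc₀₃ (D.localData hU) (mulPairing k ↥U) c z = c • z := by
  refine Prod.ext ?_ ?_
  · funext g
    rfl
  · funext v s
    rfl

/-- **Projection formula `pf03`** of `helper53.ShTransportP` (holds for all cone cochains). -/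
theorem pf03 (tr : CcAmb3 L (ofChar χ) →ₗ[k] k) {a : permRep k U}
    (ha : a ∈ H0 (permRep k U)) (z : CcAmb3 (D.localData hU) (trivRep k ↥U)) :
    tr (cupc₀₃ L (evPairing (permRep k U) χ) a (pB₃ χ D hU z))
      = (tr ∘ₗ D.corCone χ hU) (cupc₀₃ (D.localData hU) (mulPairing k ↥U) (piU k U a) z) := by
  rw [cupc₀₃_mulPairing, LinearMap.comp_apply, map_smul, map_smul]
  conv_lhs => rw [eq_piU_smul_normElt ha]
  rw [cupc₀₃_smul_left, map_smul, cupc₀₃_normElt_pB₃]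

end PF03

end Fermat.Agent.S55.helper62
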