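import Mathlib
import Fermat.Agent.S55.helper62_ShCoindDefs

/-!
# S55 / SH (helper62): coefficient formulas for the coinduction maps `pB_n`

Values of the `B`-valued cochains `liftBG_n`, `liftBL_n` and of the components of
`pB₁ pB₂ pB₃` on the basis vectors `single c 1` of `k[G/U]` (global: any coset `c`; local:
the coset `orbMap D v ⟨j, s⟩`), together with the corresponding `evB` formulas.
-/

set_option autoImplicit false
set_option linter.unusedSectionVars false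
set_option linter.unusedVariables false
set_option linter.unusedSimpArgs false
set_option linter.style.longLine false

open groupCohomology

noncomputable section

namespace Fermat.Agent.S55.helper62

open Fermat.Agent.S55 Fermat.Agent.S55.helper35

variable {k G : Type} [Field k] [Group G] {𝒩 : Levels G} {ι : Type} {L : LocalData G 𝒩 ι}
  {U : Subgroup G}

section Coef

variable (χ : G →* kˣ)

/-! ### global lifts -/

lemma liftBG₁_single (F : G → G → k) (x₀ x₁ : G) (c : G ⧸ U) :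
    (liftBG₁ (U := U) χ F x₀ x₁ : Module.Dual k (permRep k U)) (MonoidAlgebra.single c 1)
      = (χ (sec U c) : k) * F ((sec U c)⁻¹ * x₀) ((sec U c)⁻¹ * x₁) := by
  rw [liftBG₁, dualOf_single, one_mul]; rfl

lemma liftBG₂_single (F : G → G → G → k) (x₀ x₁ x₂ : G) (c : G ⧸ U) :
    (liftBG₂ (U := U) χ F x₀ x₁ x₂ : Module.Dual k (permRep k U)) (MonoidAlgebra.single c 1)
      = (χ (sec U c) : k) * F ((sec U c)⁻¹ * x₀) ((sec U c)⁻¹ * x₁) ((sec U c)⁻¹ * x₂) := by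
  rw [liftBG₂, dualOf_single, one_mul]; rfl

lemma liftBG₃_single (F : G → G → G → G → k) (x₀ x₁ x₂ x₃ : G) (c : G ⧸ U) :
    (liftBG₃ (U := U) χ F x₀ x₁ x₂ x₃ : Module.Dual k (permRep k U)) (MonoidAlgebra.single c 1)
      = (χ (sec U c) : k) *
        F ((sec U c)⁻¹ * x₀) ((sec U c)⁻¹ * x₁) ((sec U c)⁻¹ * x₂) ((sec U c)⁻¹ * x₃) := by
  rw [liftBG₃, dualOf_single, one_mul]; rfl

lemma evB_liftBG₁ (F : G → G → k) (x₀ x₁ : G) :
    evB U χ (liftBG₁ (U := U) χ F x₀ x₁) = F x₀ x₁ := by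
  rw [liftBG₁, evB_dualOf]; simp [coefG₁]

lemma evB_liftBG₂ (F : G → G → G → k) (x₀ x₁ x₂ : G) :
    evB U χ (liftBG₂ (U := U) χ F x₀ x₁ x₂) = F x₀ x₁ x₂ := by
  rw [liftBG₂, evB_dualOf]; simp [coefG₂]

lemma evB_liftBG₃ (F : G → G → G → G → k) (x₀ x₁ x₂ x₃ : G) :
    evB U χ (liftBG₃ (U := U) χ F x₀ x₁ x₂ x₃) = F x₀ x₁ x₂ x₃ := by
  rw [liftBG₃, evB_dualOf]; simp [coefG₃]

/-! ### local lifts -/

variable (D : ShData L U) [Finite (G ⧸ U)]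

lemma liftBL₀_single (v : ι) (F : ∀ j : D.J v, L.Gv v → k) (h₀ : L.Gv v)
    (j : D.J v) (s : L.Gv v ⧸ D.Uw v j) :
    (show Module.Dual k (permRep k U) from liftBL₀ χ D v F h₀)
        (MonoidAlgebra.single (orbMap D v ⟨j, s⟩) 1)
      = (χ (L.r v (sec (D.Uw v j) s) * D.y v j) : k) * F j ((sec (D.Uw v j) s)⁻¹ * h₀) := by
  show (dualOf χ (coefL₀ χ D v F h₀) : Module.Dual k (permRep k U)) _ = _
  rw [dualOf_single, one_mul]
  have e : (orbEquiv D v).symm (orbMap D v ⟨j, s⟩) = ⟨j, s⟩ := by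
    rw [← orbEquiv_apply, Equiv.symm_apply_apply]
  have key : ∀ p : Σ j : D.J v, L.Gv v ⧸ D.Uw v j, p = ⟨j, s⟩ →
      wL χ D v p * F p.1 ((sec (D.Uw v _) p.2)⁻¹ * h₀)
        = (χ (L.r v (sec (D.Uw v j) s) * D.y v j) : k) * F j ((sec (D.Uw v j) s)⁻¹ * h₀) := by
    rintro _ rfl; rfl
  exact key _ e

lemma liftBL₁_single (v : ι) (F : ∀ j : D.J v, L.Gv v → L.Gv v → k) (h₀ h₁ : L.Gv v)
    (j : D.J v) (s : L.Gv v ⧸ D.Uw v j) :
    (show Module.Dual k (permRep k U) from liftBL₁ χ D v F h₀ h₁)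
        (MonoidAlgebra.single (orbMap D v ⟨j, s⟩) 1)
      = (χ (L.r v (sec (D.Uw v j) s) * D.y v j) : k) *
          F j ((sec (D.Uw v j) s)⁻¹ * h₀) ((sec (D.Uw v j) s)⁻¹ * h₁) := by
  show (dualOf χ (coefL₁ χ D v F h₀ h₁) : Module.Dual k (permRep k U)) _ = _
  rw [dualOf_single, one_mul]
  have e : (orbEquiv D v).symm (orbMap D v ⟨j, s⟩) = ⟨j, s⟩ := by
    rw [← orbEquiv_apply, Equiv.symm_apply_apply]
  have key : ∀ p : Σ j : D.J v, L.Gv v ⧸ D.Uw v j, p = ⟨j, s⟩ →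
      wL χ D v p * F p.1 ((sec (D.Uw v _) p.2)⁻¹ * h₀) ((sec (D.Uw v _) p.2)⁻¹ * h₁)
        = (χ (L.r v (sec (D.Uw v j) s) * D.y v j) : k) *
          F j ((sec (D.Uw v j) s)⁻¹ * h₀) ((sec (D.Uw v j) s)⁻¹ * h₁) := by
    rintro _ rfl; rfl
  exact key _ e

lemma liftBL₂_single (v : ι) (F : ∀ j : D.J v, L.Gv v → L.Gv v → L.Gv v → k)
    (h₀ h₁ h₂ : L.Gv v) (j : D.J v) (s : L.Gv v ⧸ D.Uw v j) :
    (show Module.Dual k (permRep k U) from liftBL₂ χ D v F h₀ h₁ h₂)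
        (MonoidAlgebra.single (orbMap D v ⟨j, s⟩) 1)
      = (χ (L.r v (sec (D.Uw v j) s) * D.y v j) : k) *
          F j ((sec (D.Uw v j) s)⁻¹ * h₀) ((sec (D.Uw v j) s)⁻¹ * h₁)
            ((sec (D.Uw v j) s)⁻¹ * h₂) := by
  show (dualOf χ (coefL₂ χ D v F h₀ h₁ h₂) : Module.Dual k (permRep k U)) _ = _
  rw [dualOf_single, one_mul]
  have e : (orbEquiv D v).symm (orbMap D v ⟨j, s⟩) = ⟨j, s⟩ := by
    rw [← orbEquiv_apply, Equiv.symm_apply_apply]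
  have key : ∀ p : Σ j : D.J v, L.Gv v ⧸ D.Uw v j, p = ⟨j, s⟩ →
      wL χ D v p * F p.1 ((sec (D.Uw v _) p.2)⁻¹ * h₀) ((sec (D.Uw v _) p.2)⁻¹ * h₁)
          ((sec (D.Uw v _) p.2)⁻¹ * h₂)
        = (χ (L.r v (sec (D.Uw v j) s) * D.y v j) : k) *
          F j ((sec (D.Uw v j) s)⁻¹ * h₀) ((sec (D.Uw v j) s)⁻¹ * h₁)
            ((sec (D.Uw v j) s)⁻¹ * h₂) := by
    rintro _ rfl; rfl
  exact key _ e

/-- the coset of `y v j` is `orbMap D v ⟨j, 1⟩` -/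
lemma orbMap_one (v : ι) (j : D.J v) :
    orbMap D v ⟨j, ((1 : L.Gv v) : L.Gv v ⧸ D.Uw v j)⟩ = ((D.y v j : G) : G ⧸ U) := by
  simp [orbMap]

end Coef

section PB

variable (χ : G →* kˣ) (D : ShData L U) [Finite (G ⧸ U)] (hU : ∃ N ∈ 𝒩.mem, N ≤ U)

/-! ### the components of `pB_n` on basis vectors -/

lemma pB₁_fst_single (y : CcAmb1 (D.localData hU) (trivRep k ↥U)) (g : G) (c : G ⧸ U) :
    ((pB₁ χ D hU y).1 g : Module.Dual k (permRep k U)) (MonoidAlgebra.single c 1)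
      = (χ (sec U c) : k) * psiG₁ y.1 ((sec U c)⁻¹) ((sec U c)⁻¹ * g) := by
  rw [pB₁_fst]
  show (liftBG₁ (U := U) χ _ _ _ : Module.Dual k (permRep k U)) _ = _
  rw [liftBG₁_single, mul_one]

lemma pB₂_fst_single (y : CcAmb2 (D.localData hU) (trivRep k ↥U)) (g₁ g₂ : G) (c : G ⧸ U) :
    ((pB₂ χ D hU y).1 (g₁, g₂) : Module.Dual k (permRep k U)) (MonoidAlgebra.single c 1)
      = (χ (sec U c) : k) *
          psiG₂ y.1 ((sec U c)⁻¹) ((sec U c)⁻¹ * g₁) ((sec U c)⁻¹ * (g₁ * g₂)) := by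
  rw [pB₂_fst]
  show (liftBG₂ (U := U) χ _ _ _ _ : Module.Dual k (permRep k U)) _ = _
  rw [liftBG₂_single, mul_one]

lemma pB₃_fst_single (y : CcAmb3 (D.localData hU) (trivRep k ↥U)) (g₁ g₂ g₃ : G)
    (c : G ⧸ U) :
    ((pB₃ χ D hU y).1 (g₁, g₂, g₃) : Module.Dual k (permRep k U)) (MonoidAlgebra.single c 1)
      = (χ (sec U c) : k) *
          psiG₃ y.1 ((sec U c)⁻¹) ((sec U c)⁻¹ * g₁) ((sec U c)⁻¹ * (g₁ * g₂))
            ((sec U c)⁻¹ * (g₁ * g₂ * g₃)) := by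
  rw [pB₃_fst]
  show (liftBG₃ (U := U) χ _ _ _ _ _ : Module.Dual k (permRep k U)) _ = _
  rw [liftBG₃_single, mul_one]

lemma pB₁_snd_single (y : CcAmb1 (D.localData hU) (trivRep k ↥U)) (v : ι)
    (j : D.J v) (s : L.Gv v ⧸ D.Uw v j) :
    (show Module.Dual k (permRep k U) from (pB₁ χ D hU y).2 v)
        (MonoidAlgebra.single (orbMap D v ⟨j, s⟩) 1)
      = (χ (L.r v (sec (D.Uw v j) s) * D.y v j) : k) *
          psiL₀ D v j y.1 (y.2 ⟨v, j⟩) ((sec (D.Uw v j) s)⁻¹) := by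
  have := liftBL₀_single χ D v (fun j => psiL₀ D v j y.1 (y.2 ⟨v, j⟩)) 1 j s
  rw [mul_one] at this
  exact this

lemma pB₂_snd_single (y : CcAmb2 (D.localData hU) (trivRep k ↥U)) (v : ι) (h : L.Gv v)
    (j : D.J v) (s : L.Gv v ⧸ D.Uw v j) :
    (show Module.Dual k (permRep k U) from (pB₂ χ D hU y).2 v h)
        (MonoidAlgebra.single (orbMap D v ⟨j, s⟩) 1)
      = (χ (L.r v (sec (D.Uw v j) s) * D.y v j) : k) *
          psiL₁ D v j y.1 (y.2 ⟨v, j⟩) ((sec (D.Uw v j) s)⁻¹) ((sec (D.Uw v j) s)⁻¹ * h) := by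
  have := liftBL₁_single χ D v (fun j => psiL₁ D v j y.1 (y.2 ⟨v, j⟩)) 1 h j s
  rw [mul_one] at this
  exact this

lemma pB₃_snd_single (y : CcAmb3 (D.localData hU) (trivRep k ↥U)) (v : ι)
    (h₁ h₂ : L.Gv v) (j : D.J v) (s : L.Gv v ⧸ D.Uw v j) :
    (show Module.Dual k (permRep k U) from (pB₃ χ D hU y).2 v (h₁, h₂))
        (MonoidAlgebra.single (orbMap D v ⟨j, s⟩) 1)
      = (χ (L.r v (sec (D.Uw v j) s) * D.y v j) : k) *
          psiL₂ D v j y.1 (y.2 ⟨v, j⟩) ((sec (D.Uw v j) s)⁻¹) ((sec (D.Uw v j) s)⁻¹ * h₁)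
            ((sec (D.Uw v j) s)⁻¹ * (h₁ * h₂)) := by
  have := liftBL₂_single χ D v (fun j => psiL₂ D v j y.1 (y.2 ⟨v, j⟩)) 1 h₁ (h₁ * h₂) j s
  rw [mul_one] at this
  exact this

/-! ### `evB` of the global components -/

lemma evB_pB₁_fst (y : CcAmb1 (D.localData hU) (trivRep k ↥U)) (g : G) :
    evB U χ ((pB₁ χ D hU y).1 g) = psiG₁ y.1 1 g := by
  rw [pB₁_fst]
  exact evB_liftBG₁ χ _ _ _ 

lemma evB_pB₂_fst (y : CcAmb2 (D.localData hU) (trivRep k ↥U)) (g₁ g₂ : G) :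
    evB U χ ((pB₂ χ D hU y).1 (g₁, g₂)) = psiG₂ y.1 1 g₁ (g₁ * g₂) := by
  rw [pB₂_fst]
  exact evB_liftBG₂ χ _ _ _ _ 

lemma evB_pB₃_fst (y : CcAmb3 (D.localData hU) (trivRep k ↥U)) (g₁ g₂ g₃ : G) :
    evB U χ ((pB₃ χ D hU y).1 (g₁, g₂, g₃)) = psiG₃ y.1 1 g₁ (g₁ * g₂) (g₁ * g₂ * g₃) := by
  rw [pB₃_fst]
  exact evB_liftBG₃ χ _ _ _ _ _ 

end PB

end Fermat.Agent.S55.helper62
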