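import Mathlib
import Fermat.Agent.S55.helper38_ShTw
import Fermat.Agent.S55.helper62_ShCoindCoef

/-!
# S55 / SH (helper38, task 428): coefficient calculus for the coinduction maps `pB_n`

`B = k[G/U]^*(χ)`.  The evaluation `evC χ c : B → k` at the basis vector of the coset `c`
detects equality in `B`, and the `B`-valued homogeneous cochains `liftBG_n F`, `liftBL_n F` of
helper62 have the coefficients

* `evC (t U) (liftBG_n F x) = χ t * F (t⁻¹ x)` for **every** `t : G` (`F` left `U`-invariant),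
* `evC (r_v t * y_j * U) (liftBL_n F h) = χ (r_v t * y_j) * F_j (t⁻¹ h)` for every `t : G_v`
  (`F_j` left `U_(v,j)`-invariant).

Consequences: equivariance of the lifts, compatibility with the homogeneous differentials, and
the restriction formula `r_v^* (liftBG F) = liftBL (ι_j^* F)`.
-/

set_option autoImplicit false
set_option linter.unusedSectionVars false
set_option linter.unusedVariables false
set_option linter.unusedSimpArgs false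
set_option linter.style.haveILetI false

open groupCohomology

noncomputable section

namespace Fermat.Agent.S55.helper38

open Fermat.Agent.S55 Fermat.Agent.S55.helper35 Fermat.Agent.S55.helper62

variable {k G : Type} [Field k] [Group G] {𝒩 : Levels G} {ι : Type} {L : LocalData G 𝒩 ι}
  {U : Subgroup G}

/-! ### evaluation at a coset -/

section EvC

variable (χ : G →* kˣ)

/-- evaluation at the basis vector of the coset `c`, `k[G/U]^*(χ) → k` -/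
def evC (c : G ⧸ U) : (Bp k U χ) →ₗ[k] k where
  toFun f := (f : Module.Dual k (permRep k U)) (MonoidAlgebra.single c (1 : k))
  map_add' f g := rfl
  map_smul' a f := rfl

lemma evC_apply (c : G ⧸ U) (f : Bp k U χ) :
    evC χ c f = (f : Module.Dual k (permRep k U)) (MonoidAlgebra.single c (1 : k)) := rfl

lemma evC_dualOf (c : G ⧸ U) (φ : G ⧸ U → k) : evC χ c (dualOf χ φ) = φ c := by
  rw [evC_apply, dualOf_single, one_mul]

/-- extensionality: the `evC c` separate the points of `B` -/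
lemma evC_ext {f g : Bp k U χ} (h : ∀ c : G ⧸ U, evC χ c f = evC χ c g) : f = g :=
  h62_dual_ext χ h

/-- `evC c (ρ_B g f) = χ g * evC (g⁻¹ c) f` -/
lemma evC_rho (g t : G) (f : Bp k U χ) :
    evC χ ((t : G) : G ⧸ U) ((Bp k U χ).ρ g f)
      = (χ g : k) * evC χ ((g⁻¹ * t : G) : G ⧸ U) f := by
  rw [evC_apply, Rep.dualTwist_ρ_apply]
  simp only [LinearMap.smul_apply, LinearMap.comp_apply, smul_eq_mul]
  have := Representation.ofMulAction_single (k := k) (G := G) (H := G ⧸ U) g⁻¹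
    ((t : G) : G ⧸ U) (1 : k)
  rw [MulAction.Quotient.smul_mk, smul_eq_mul] at this
  rw [this, evC_apply]

end EvC

/-! ### left invariance of `ρ^* (homog z)` -/

section LInv

variable {Γ : Type} [Group Γ] (H : Subgroup Γ)

lemma isLInv₁_pull1_retr' (z : ↥H → k) :
    IsLInv₁ H (pull1 (retr H) (homog1 (trivRep k ↥H) z)) := by
  intro u hu x₀ x₁
  simp only [pull1_apply, homog1_apply]
  have h : ∀ x : Γ, retr H (u * x) = (⟨u, hu⟩ : ↥H) * retr H x := fun x => retr_mul H ⟨u, hu⟩ x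
  rw [h, h]
  have e1 : ((⟨u, hu⟩ : ↥H) * retr H x₀)⁻¹ * ((⟨u, hu⟩ : ↥H) * retr H x₁) =
      (retr H x₀)⁻¹ * retr H x₁ := by group
  rw [e1]
  rfl

lemma isLInv₂_pull2_retr' (z : ↥H × ↥H → k) :
    IsLInv₂ H (pull2 (retr H) (homog2 (trivRep k ↥H) z)) := by
  intro u hu x₀ x₁ x₂
  simp only [pull2_apply, homog2_apply]
  have h : ∀ x : Γ, retr H (u * x) = (⟨u, hu⟩ : ↥H) * retr H x := fun x => retr_mul H ⟨u, hu⟩ x
  rw [h, h, h]
  have e1 : ((⟨u, hu⟩ : ↥H) * retr H x₀)⁻¹ * ((⟨u, hu⟩ : ↥H) * retr H x₁) =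
      (retr H x₀)⁻¹ * retr H x₁ := by group
  have e2 : ((⟨u, hu⟩ : ↥H) * retr H x₁)⁻¹ * ((⟨u, hu⟩ : ↥H) * retr H x₂) =
      (retr H x₁)⁻¹ * retr H x₂ := by group
  rw [e1, e2]
  rfl

lemma isLInv₃_pull3_retr' (z : ↥H × ↥H × ↥H → k) :
    IsLInv₃ H (pull3 (retr H) (homog3 (trivRep k ↥H) z)) := by
  intro u hu x₀ x₁ x₂ x₃
  simp only [pull3_apply, homog3_apply]
  have h : ∀ x : Γ, retr H (u * x) = (⟨u, hu⟩ : ↥H) * retr H x := fun x => retr_mul H ⟨u, hu⟩ x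
  rw [h, h, h, h]
  have e1 : ((⟨u, hu⟩ : ↥H) * retr H x₀)⁻¹ * ((⟨u, hu⟩ : ↥H) * retr H x₁) =
      (retr H x₀)⁻¹ * retr H x₁ := by group
  have e2 : ((⟨u, hu⟩ : ↥H) * retr H x₁)⁻¹ * ((⟨u, hu⟩ : ↥H) * retr H x₂) =
      (retr H x₁)⁻¹ * retr H x₂ := by group
  have e3 : ((⟨u, hu⟩ : ↥H) * retr H x₂)⁻¹ * ((⟨u, hu⟩ : ↥H) * retr H x₃) =
      (retr H x₂)⁻¹ * retr H x₃ := by group
  rw [e1, e2, e3]
  rfl

end LInv

/-! ### the coefficients of the global lifts -/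

section GlobalCoef

variable (χ : G →* kˣ)

lemma chi_mul_of_mem (hχ : ∀ g ∈ U, χ g = 1) (t : G) {u : G} (hu : u ∈ U) :
    ((χ (t * u) : kˣ) : k) = (χ t : k) := by
  rw [map_mul, hχ u hu, mul_one]

lemma chi_mul_chi_inv_mul (g t : G) (a : k) :
    ((χ g : kˣ) : k) * (((χ (g⁻¹ * t) : kˣ) : k) * a) = (χ t : k) * a := by
  rw [← mul_assoc, ← Units.val_mul, ← map_mul, mul_inv_cancel_left]

lemma evC_liftBG₁_sec (F : G → G → k) (x₀ x₁ : G) (c : G ⧸ U) :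
    evC χ c (liftBG₁ (U := U) χ F x₀ x₁)
      = (χ (sec U c) : k) * F ((sec U c)⁻¹ * x₀) ((sec U c)⁻¹ * x₁) :=
  liftBG₁_single χ F x₀ x₁ c

lemma evC_liftBG₂_sec (F : G → G → G → k) (x₀ x₁ x₂ : G) (c : G ⧸ U) :
    evC χ c (liftBG₂ (U := U) χ F x₀ x₁ x₂)
      = (χ (sec U c) : k) * F ((sec U c)⁻¹ * x₀) ((sec U c)⁻¹ * x₁) ((sec U c)⁻¹ * x₂) :=
  liftBG₂_single χ F x₀ x₁ x₂ c

lemma evC_liftBG₃_sec (F : G → G → G → G → k) (x₀ x₁ x₂ x₃ : G) (c : G ⧸ U) :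
    evC χ c (liftBG₃ (U := U) χ F x₀ x₁ x₂ x₃)
      = (χ (sec U c) : k) *
        F ((sec U c)⁻¹ * x₀) ((sec U c)⁻¹ * x₁) ((sec U c)⁻¹ * x₂) ((sec U c)⁻¹ * x₃) :=
  liftBG₃_single χ F x₀ x₁ x₂ x₃ c

lemma evC_liftBG₁ (hχ : ∀ g ∈ U, χ g = 1) {F : G → G → k} (hF : IsLInv₁ U F) (t x₀ x₁ : G) :
    evC χ ((t : G) : G ⧸ U) (liftBG₁ (U := U) χ F x₀ x₁)
      = (χ t : k) * F (t⁻¹ * x₀) (t⁻¹ * x₁) := by
  rw [evC_apply, liftBG₁_single]
  have hΦ : ∀ s, ∀ u ∈ U, tw₁ (fun t => (χ t : k)) F (s * u) = tw₁ (fun t => (χ t : k)) F s :=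
    fun s u hu => tw₁_mul_right _ U (fun t u hu => chi_mul_of_mem χ hχ t hu) hF s hu
  exact congrFun (congrFun (apply_sec_mk U hΦ t) x₀) x₁

lemma evC_liftBG₂ (hχ : ∀ g ∈ U, χ g = 1) {F : G → G → G → k} (hF : IsLInv₂ U F)
    (t x₀ x₁ x₂ : G) :
    evC χ ((t : G) : G ⧸ U) (liftBG₂ (U := U) χ F x₀ x₁ x₂)
      = (χ t : k) * F (t⁻¹ * x₀) (t⁻¹ * x₁) (t⁻¹ * x₂) := by
  rw [evC_apply, liftBG₂_single]
  have hΦ : ∀ s, ∀ u ∈ U, tw₂ (fun t => (χ t : k)) F (s * u) = tw₂ (fun t => (χ t : k)) F s :=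
    fun s u hu => tw₂_mul_right _ U (fun t u hu => chi_mul_of_mem χ hχ t hu) hF s hu
  exact congrFun (congrFun (congrFun (apply_sec_mk U hΦ t) x₀) x₁) x₂

lemma evC_liftBG₃ (hχ : ∀ g ∈ U, χ g = 1) {F : G → G → G → G → k} (hF : IsLInv₃ U F)
    (t x₀ x₁ x₂ x₃ : G) :
    evC χ ((t : G) : G ⧸ U) (liftBG₃ (U := U) χ F x₀ x₁ x₂ x₃)
      = (χ t : k) * F (t⁻¹ * x₀) (t⁻¹ * x₁) (t⁻¹ * x₂) (t⁻¹ * x₃) := by
  rw [evC_apply, liftBG₃_single]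
  have hΦ : ∀ s, ∀ u ∈ U, tw₃ (fun t => (χ t : k)) F (s * u) = tw₃ (fun t => (χ t : k)) F s :=
    fun s u hu => tw₃_mul_right _ U (fun t u hu => chi_mul_of_mem χ hχ t hu) hF s hu
  exact congrFun (congrFun (congrFun (congrFun (apply_sec_mk U hΦ t) x₀) x₁) x₂) x₃

/-- every coset is of the form `t U` -/
lemma evC_ext_mk {f g : Bp k U χ}
    (h : ∀ t : G, evC χ ((t : G) : G ⧸ U) f = evC χ ((t : G) : G ⧸ U) g) : f = g := by
  refine evC_ext χ fun c => ?_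
  induction c using Quotient.inductionOn with
  | _ t => exact h t

/-! equivariance of the global lifts -/

lemma isEqv1_liftBG₁ (hχ : ∀ g ∈ U, χ g = 1) {F : G → G → k} (hF : IsLInv₁ U F) :
    IsEqv1 (Bp k U χ) (liftBG₁ (U := U) χ F) := by
  intro g x₀ x₁
  refine evC_ext_mk χ fun t => ?_
  rw [evC_rho, evC_liftBG₁ χ hχ hF, evC_liftBG₁ χ hχ hF, chi_mul_chi_inv_mul]
  simp only [mul_inv_rev, inv_inv, mul_assoc]

lemma isEqv2_liftBG₂ (hχ : ∀ g ∈ U, χ g = 1) {F : G → G → G → k} (hF : IsLInv₂ U F) :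
    IsEqv2 (Bp k U χ) (liftBG₂ (U := U) χ F) := by
  intro g x₀ x₁ x₂
  refine evC_ext_mk χ fun t => ?_
  rw [evC_rho, evC_liftBG₂ χ hχ hF, evC_liftBG₂ χ hχ hF, chi_mul_chi_inv_mul]
  simp only [mul_inv_rev, inv_inv, mul_assoc]

lemma isEqv3_liftBG₃ (hχ : ∀ g ∈ U, χ g = 1) {F : G → G → G → G → k} (hF : IsLInv₃ U F) :
    IsEqv3 (Bp k U χ) (liftBG₃ (U := U) χ F) := by
  intro g x₀ x₁ x₂ x₃
  refine evC_ext_mk χ fun t => ?_
  rw [evC_rho, evC_liftBG₃ χ hχ hF, evC_liftBG₃ χ hχ hF, chi_mul_chi_inv_mul]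
  simp only [mul_inv_rev, inv_inv, mul_assoc]

/-! compatibility of the global lifts with the homogeneous differentials -/

lemma hd1_liftBG₁ (F : G → G → k) :
    hd1 (liftBG₁ (U := U) χ F) = liftBG₂ (U := U) χ (hd1 F) := by
  funext x₀ x₁ x₂
  refine evC_ext χ fun c => ?_
  simp only [hd1_apply, map_add, map_sub]
  rw [evC_liftBG₁_sec, evC_liftBG₁_sec, evC_liftBG₁_sec, evC_liftBG₂_sec, hd1_apply]
  ring

lemma hd2_liftBG₂ (F : G → G → G → k) :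
    hd2 (liftBG₂ (U := U) χ F) = liftBG₃ (U := U) χ (hd2 F) := by
  funext x₀ x₁ x₂ x₃
  refine evC_ext χ fun c => ?_
  simp only [hd2_apply, map_add, map_sub]
  rw [evC_liftBG₂_sec, evC_liftBG₂_sec, evC_liftBG₂_sec, evC_liftBG₂_sec, evC_liftBG₃_sec,
    hd2_apply]
  ring

lemma evC_hd3_liftBG₃ (F : G → G → G → G → k) (c : G ⧸ U) (x₀ x₁ x₂ x₃ x₄ : G) :
    evC χ c (hd3 (liftBG₃ (U := U) χ F) x₀ x₁ x₂ x₃ x₄)
      = (χ (sec U c) : k) * hd3 F ((sec U c)⁻¹ * x₀) ((sec U c)⁻¹ * x₁) ((sec U c)⁻¹ * x₂)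
          ((sec U c)⁻¹ * x₃) ((sec U c)⁻¹ * x₄) := by
  simp only [hd3_apply, map_add, map_sub]
  rw [evC_liftBG₃_sec, evC_liftBG₃_sec, evC_liftBG₃_sec, evC_liftBG₃_sec, evC_liftBG₃_sec]
  ring

lemma hd3_liftBG₃_eq_zero {F : G → G → G → G → k} (hF : hd3 F = 0) :
    hd3 (liftBG₃ (U := U) χ F) = 0 := by
  funext x₀ x₁ x₂ x₃ x₄
  refine evC_ext χ fun c => ?_
  rw [evC_hd3_liftBG₃, hF]
  simp

end GlobalCoef

/-! ### the coefficients of the local lifts -/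

section LocalCoef

variable (χ : G →* kˣ) (D : ShData L U) [Finite (G ⧸ U)]

/-- the local weight `t ↦ χ (r_v t * y_j)` -/
def omL (v : ι) (j : D.J v) : L.Gv v → k := fun t => (χ (L.r v t * D.y v j) : k)

lemma omL_apply (v : ι) (j : D.J v) (t : L.Gv v) :
    omL χ D v j t = (χ (L.r v t * D.y v j) : k) := rfl

lemma omL_mul_right (hχ : ∀ g ∈ U, χ g = 1) (v : ι) (j : D.J v) (t : L.Gv v) {u : L.Gv v}
    (hu : u ∈ D.Uw v j) : omL χ D v j (t * u) = omL χ D v j t := by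
  simp only [omL_apply, map_mul, χ_r_eq_one D χ hχ v j hu, mul_one]

lemma omL_mul_left (v : ι) (j : D.J v) (g t : L.Gv v) :
    omL χ D v j (g * t) = (χ (L.r v g) : k) * omL χ D v j t := by
  simp only [omL_apply, map_mul, Units.val_mul, mul_assoc]

/-- the coset `r_v t * y_j * U` is the image of `(j, t U_w)` under the orbit map -/
lemma orbMap_mk (v : ι) (j : D.J v) (t : L.Gv v) :
    orbMap D v ⟨j, ((t : L.Gv v) : L.Gv v ⧸ D.Uw v j)⟩ = ((L.r v t * D.y v j : G) : G ⧸ U) := by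
  show ((L.r v (sec (D.Uw v j) ((t : L.Gv v) : L.Gv v ⧸ D.Uw v j)) * D.y v j : G) : G ⧸ U) = _
  rw [QuotientGroup.eq]
  have h := sec_mk_mem (D.Uw v j) t
  have h' : (sec (D.Uw v j) ((t : L.Gv v) : L.Gv v ⧸ D.Uw v j))⁻¹ * t ∈ D.Uw v j := by
    have := (D.Uw v j).inv_mem h
    rwa [mul_inv_rev, inv_inv] at this
  rw [ShData.mem_Uw, map_mul, map_inv] at h'
  have e : (L.r v (sec (D.Uw v j) ((t : L.Gv v) : L.Gv v ⧸ D.Uw v j)) * D.y v j)⁻¹ *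
      (L.r v t * D.y v j) = (D.y v j)⁻¹ *
        ((L.r v (sec (D.Uw v j) ((t : L.Gv v) : L.Gv v ⧸ D.Uw v j)))⁻¹ * L.r v t) * D.y v j := by
    group
  rw [e]
  exact h'

lemma evC_liftBL₀_coef (v : ι) (F : ∀ j : D.J v, L.Gv v → k) (h₀ : L.Gv v) (c : G ⧸ U) :
    evC χ c (liftBL₀ χ D v F h₀) = coefL₀ χ D v F h₀ c := evC_dualOf χ c _

lemma evC_liftBL₁_coef (v : ι) (F : ∀ j : D.J v, L.Gv v → L.Gv v → k) (h₀ h₁ : L.Gv v)
    (c : G ⧸ U) :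
    evC χ c (liftBL₁ χ D v F h₀ h₁) = coefL₁ χ D v F h₀ h₁ c := evC_dualOf χ c _

lemma evC_liftBL₂_coef (v : ι) (F : ∀ j : D.J v, L.Gv v → L.Gv v → L.Gv v → k)
    (h₀ h₁ h₂ : L.Gv v) (c : G ⧸ U) :
    evC χ c (liftBL₂ χ D v F h₀ h₁ h₂) = coefL₂ χ D v F h₀ h₁ h₂ c := evC_dualOf χ c _

lemma evC_liftBL₀ (hχ : ∀ g ∈ U, χ g = 1) (v : ι) {F : ∀ j : D.J v, L.Gv v → k}
    (hF : ∀ j, IsLInv₀ (D.Uw v j) (F j)) (j : D.J v) (t h₀ : L.Gv v) :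
    evC χ ((L.r v t * D.y v j : G) : G ⧸ U) (liftBL₀ χ D v F h₀)
      = omL χ D v j t * F j (t⁻¹ * h₀) := by
  rw [← orbMap_mk]
  refine (liftBL₀_single χ D v F h₀ j _).trans ?_
  have hΦ : ∀ s, ∀ u ∈ D.Uw v j, tw₀ (omL χ D v j) (F j) (s * u) = tw₀ (omL χ D v j) (F j) s :=
    fun s u hu => tw₀_mul_right _ (D.Uw v j) (fun t u hu => omL_mul_right χ D hχ v j t hu)
      (hF j) s hu
  exact congrFun (apply_sec_mk (D.Uw v j) hΦ t) h₀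

lemma evC_liftBL₁ (hχ : ∀ g ∈ U, χ g = 1) (v : ι) {F : ∀ j : D.J v, L.Gv v → L.Gv v → k}
    (hF : ∀ j, IsLInv₁ (D.Uw v j) (F j)) (j : D.J v) (t h₀ h₁ : L.Gv v) :
    evC χ ((L.r v t * D.y v j : G) : G ⧸ U) (liftBL₁ χ D v F h₀ h₁)
      = omL χ D v j t * F j (t⁻¹ * h₀) (t⁻¹ * h₁) := by
  rw [← orbMap_mk]
  refine (liftBL₁_single χ D v F h₀ h₁ j _).trans ?_
  have hΦ : ∀ s, ∀ u ∈ D.Uw v j, tw₁ (omL χ D v j) (F j) (s * u) = tw₁ (omL χ D v j) (F j) s :=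
    fun s u hu => tw₁_mul_right _ (D.Uw v j) (fun t u hu => omL_mul_right χ D hχ v j t hu)
      (hF j) s hu
  exact congrFun (congrFun (apply_sec_mk (D.Uw v j) hΦ t) h₀) h₁

lemma evC_liftBL₂ (hχ : ∀ g ∈ U, χ g = 1) (v : ι)
    {F : ∀ j : D.J v, L.Gv v → L.Gv v → L.Gv v → k}
    (hF : ∀ j, IsLInv₂ (D.Uw v j) (F j)) (j : D.J v) (t h₀ h₁ h₂ : L.Gv v) :
    evC χ ((L.r v t * D.y v j : G) : G ⧸ U) (liftBL₂ χ D v F h₀ h₁ h₂)
      = omL χ D v j t * F j (t⁻¹ * h₀) (t⁻¹ * h₁) (t⁻¹ * h₂) := by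
  rw [← orbMap_mk]
  refine (liftBL₂_single χ D v F h₀ h₁ h₂ j _).trans ?_
  have hΦ : ∀ s, ∀ u ∈ D.Uw v j, tw₂ (omL χ D v j) (F j) (s * u) = tw₂ (omL χ D v j) (F j) s :=
    fun s u hu => tw₂_mul_right _ (D.Uw v j) (fun t u hu => omL_mul_right χ D hχ v j t hu)
      (hF j) s hu
  exact congrFun (congrFun (congrFun (apply_sec_mk (D.Uw v j) hΦ t) h₀) h₁) h₂

/-- every coset is of the form `r_v t * y_j * U` -/
lemma evC_ext_loc (v : ι) {f g : Bp k U χ}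
    (h : ∀ (j : D.J v) (t : L.Gv v), evC χ ((L.r v t * D.y v j : G) : G ⧸ U) f
      = evC χ ((L.r v t * D.y v j : G) : G ⧸ U) g) : f = g := by
  refine evC_ext_mk χ fun x => ?_
  obtain ⟨j, t, u, hu, e⟩ := D.cover v x
  have hc : ((x : G) : G ⧸ U) = ((L.r v t * D.y v j : G) : G ⧸ U) := by
    rw [QuotientGroup.eq, e]
    have : (L.r v t * D.y v j * u)⁻¹ * (L.r v t * D.y v j) = u⁻¹ := by group
    rw [this]
    exact U.inv_mem hu
  rw [hc]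
  exact h j t

/-! equivariance of the local lifts -/

lemma loc_rho_apply (v : ι) (g : L.Gv v) (f : L.loc (Bp k U χ) v) :
    (L.loc (Bp k U χ) v).ρ g f = (Bp k U χ).ρ (L.r v g) f := rfl

lemma r_inv_mul_mul (v : ι) (j : D.J v) (g t : L.Gv v) :
    (L.r v g)⁻¹ * (L.r v t * D.y v j) = L.r v (g⁻¹ * t) * D.y v j := by
  rw [map_mul, map_inv, mul_assoc]

lemma chi_mul_omL (v : ι) (j : D.J v) (g t : L.Gv v) (a : k) :
    (χ (L.r v g) : k) * (omL χ D v j (g⁻¹ * t) * a) = omL χ D v j t * a := by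
  rw [← mul_assoc, ← omL_mul_left, mul_inv_cancel_left]

lemma isEqv0_liftBL₀ (hχ : ∀ g ∈ U, χ g = 1) (v : ι) {F : ∀ j : D.J v, L.Gv v → k}
    (hF : ∀ j, IsLInv₀ (D.Uw v j) (F j)) :
    IsEqv0 (L.loc (Bp k U χ) v) (liftBL₀ χ D v F) := by
  intro g h₀
  rw [loc_rho_apply]
  refine evC_ext_loc χ D v fun j t => ?_
  rw [evC_rho, r_inv_mul_mul, evC_liftBL₀ χ D hχ v hF, evC_liftBL₀ χ D hχ v hF, chi_mul_omL]
  simp only [mul_inv_rev, inv_inv, mul_assoc]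

lemma isEqv1_liftBL₁ (hχ : ∀ g ∈ U, χ g = 1) (v : ι) {F : ∀ j : D.J v, L.Gv v → L.Gv v → k}
    (hF : ∀ j, IsLInv₁ (D.Uw v j) (F j)) :
    IsEqv1 (L.loc (Bp k U χ) v) (liftBL₁ χ D v F) := by
  intro g h₀ h₁
  rw [loc_rho_apply]
  refine evC_ext_loc χ D v fun j t => ?_
  rw [evC_rho, r_inv_mul_mul, evC_liftBL₁ χ D hχ v hF, evC_liftBL₁ χ D hχ v hF, chi_mul_omL]
  simp only [mul_inv_rev, inv_inv, mul_assoc]

lemma isEqv2_liftBL₂ (hχ : ∀ g ∈ U, χ g = 1) (v : ι)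
    {F : ∀ j : D.J v, L.Gv v → L.Gv v → L.Gv v → k}
    (hF : ∀ j, IsLInv₂ (D.Uw v j) (F j)) :
    IsEqv2 (L.loc (Bp k U χ) v) (liftBL₂ χ D v F) := by
  intro g h₀ h₁ h₂
  rw [loc_rho_apply]
  refine evC_ext_loc χ D v fun j t => ?_
  rw [evC_rho, r_inv_mul_mul, evC_liftBL₂ χ D hχ v hF, evC_liftBL₂ χ D hχ v hF, chi_mul_omL]
  simp only [mul_inv_rev, inv_inv, mul_assoc]

/-! compatibility of the local lifts with the homogeneous differentials -/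

lemma hd0_liftBL₀ (v : ι) (F : ∀ j : D.J v, L.Gv v → k) :
    hd0 (liftBL₀ χ D v F) = liftBL₁ χ D v (fun j => hd0 (F j)) := by
  funext h₀ h₁
  refine evC_ext χ fun c => ?_
  rw [hd0_apply, map_sub, evC_liftBL₀_coef, evC_liftBL₀_coef, evC_liftBL₁_coef]
  simp only [coefL₀, coefL₁, hd0_apply]
  ring

lemma hd1_liftBL₁ (v : ι) (F : ∀ j : D.J v, L.Gv v → L.Gv v → k) :
    hd1 (liftBL₁ χ D v F) = liftBL₂ χ D v (fun j => hd1 (F j)) := by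
  funext h₀ h₁ h₂
  refine evC_ext χ fun c => ?_
  rw [hd1_apply, map_add, map_sub, evC_liftBL₁_coef, evC_liftBL₁_coef, evC_liftBL₁_coef,
    evC_liftBL₂_coef]
  simp only [coefL₁, coefL₂, hd1_apply]
  ring

lemma evC_hd2_liftBL₂ (hχ : ∀ g ∈ U, χ g = 1) (v : ι)
    {F : ∀ j : D.J v, L.Gv v → L.Gv v → L.Gv v → k}
    (hF : ∀ j, IsLInv₂ (D.Uw v j) (F j)) (j : D.J v) (t h₀ h₁ h₂ h₃ : L.Gv v) :
    evC χ ((L.r v t * D.y v j : G) : G ⧸ U) (hd2 (liftBL₂ χ D v F) h₀ h₁ h₂ h₃)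
      = omL χ D v j t * hd2 (F j) (t⁻¹ * h₀) (t⁻¹ * h₁) (t⁻¹ * h₂) (t⁻¹ * h₃) := by
  rw [hd2_apply, map_sub, map_add, map_sub, evC_liftBL₂ χ D hχ v hF, evC_liftBL₂ χ D hχ v hF,
    evC_liftBL₂ χ D hχ v hF, evC_liftBL₂ χ D hχ v hF, hd2_apply]
  ring

/-! linearity of the local lifts in the family -/

lemma liftBL₁_sub (v : ι) (F F' : ∀ j : D.J v, L.Gv v → L.Gv v → k) :
    liftBL₁ χ D v (fun j => F j - F' j) = liftBL₁ χ D v F - liftBL₁ χ D v F' := by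
  funext h₀ h₁
  refine evC_ext χ fun c => ?_
  rw [Pi.sub_apply, Pi.sub_apply, map_sub, evC_liftBL₁_coef, evC_liftBL₁_coef, evC_liftBL₁_coef]
  simp only [coefL₁, Pi.sub_apply]
  ring

lemma liftBL₂_sub (v : ι) (F F' : ∀ j : D.J v, L.Gv v → L.Gv v → L.Gv v → k) :
    liftBL₂ χ D v (fun j => F j - F' j) = liftBL₂ χ D v F - liftBL₂ χ D v F' := by
  funext h₀ h₁ h₂
  refine evC_ext χ fun c => ?_
  rw [Pi.sub_apply, Pi.sub_apply, Pi.sub_apply, map_sub, evC_liftBL₂_coef, evC_liftBL₂_coef,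
    evC_liftBL₂_coef]
  simp only [coefL₂, Pi.sub_apply]
  ring

/-! the restriction formula `r_v^* (liftBG F) = liftBL (ι_j^* F)` -/

lemma iotaMap_mul (v : ι) (j : D.J v) {u : L.Gv v} (hu : u ∈ D.Uw v j) (x : L.Gv v) :
    D.iotaMap v j (u * x) = ((D.rw v j ⟨u, hu⟩ : ↥U) : G) * D.iotaMap v j x := by
  rw [ShData.coe_rw]
  unfold ShData.iotaMap
  rw [map_mul]
  group

lemma isLInv₁_pull1_iota (v : ι) (j : D.J v) {F : G → G → k} (hF : IsLInv₁ U F) :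
    IsLInv₁ (D.Uw v j) (pull1 (D.iotaMap v j) F) := by
  intro u hu x₀ x₁
  simp only [pull1_apply, iotaMap_mul D v j hu]
  exact hF _ (D.rw v j ⟨u, hu⟩).2 _ _

lemma isLInv₂_pull2_iota (v : ι) (j : D.J v) {F : G → G → G → k} (hF : IsLInv₂ U F) :
    IsLInv₂ (D.Uw v j) (pull2 (D.iotaMap v j) F) := by
  intro u hu x₀ x₁ x₂
  simp only [pull2_apply, iotaMap_mul D v j hu]
  exact hF _ (D.rw v j ⟨u, hu⟩).2 _ _ _

lemma inv_mul_r (v : ι) (j : D.J v) (t h : L.Gv v) :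
    (L.r v t * D.y v j)⁻¹ * L.r v h = D.iotaMap v j (t⁻¹ * h) := by
  unfold ShData.iotaMap
  rw [map_mul, map_inv]
  group

lemma pull1_liftBG₁ (hχ : ∀ g ∈ U, χ g = 1) (v : ι) {F : G → G → k} (hF : IsLInv₁ U F) :
    pull1 (L.r v) (liftBG₁ (U := U) χ F)
      = liftBL₁ χ D v (fun j => pull1 (D.iotaMap v j) F) := by
  funext h₀ h₁
  refine evC_ext_loc χ D v fun j t => ?_
  rw [pull1_apply, evC_liftBG₁ χ hχ hF,
    evC_liftBL₁ χ D hχ v (fun j => isLInv₁_pull1_iota D v j hF), inv_mul_r, inv_mul_r]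
  rfl

lemma pull2_liftBG₂ (hχ : ∀ g ∈ U, χ g = 1) (v : ι) {F : G → G → G → k} (hF : IsLInv₂ U F) :
    pull2 (L.r v) (liftBG₂ (U := U) χ F)
      = liftBL₂ χ D v (fun j => pull2 (D.iotaMap v j) F) := by
  funext h₀ h₁ h₂
  refine evC_ext_loc χ D v fun j t => ?_
  rw [pull2_apply, evC_liftBG₂ χ hχ hF,
    evC_liftBL₂ χ D hχ v (fun j => isLInv₂_pull2_iota D v j hF), inv_mul_r, inv_mul_r, inv_mul_r]
  rfl

/-- degree `3`, coefficient form -/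
lemma evC_pull3_liftBG₃ (hχ : ∀ g ∈ U, χ g = 1) (v : ι) {F : G → G → G → G → k}
    (hF : IsLInv₃ U F) (j : D.J v) (t h₀ h₁ h₂ h₃ : L.Gv v) :
    evC χ ((L.r v t * D.y v j : G) : G ⧸ U)
        (pull3 (L.r v) (liftBG₃ (U := U) χ F) h₀ h₁ h₂ h₃)
      = omL χ D v j t * pull3 (D.iotaMap v j) F (t⁻¹ * h₀) (t⁻¹ * h₁) (t⁻¹ * h₂) (t⁻¹ * h₃) := by
  rw [pull3_apply, evC_liftBG₃ χ hχ hF, inv_mul_r, inv_mul_r, inv_mul_r, inv_mul_r]
  rfl

end LocalCoef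

end Fermat.Agent.S55.helper38
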