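import Mathlib
import Fermat.Agent.S55.helper38_ShPMemA

/-!
# S55 / SH [P-MEM] (helper38, task 428): the coinduction maps `pB_n` are chain maps preserving
level-constancy

For `D : ShData L U`, `χ|_U = 1` and helper62's coinduction maps
`pB_n χ D hU : CcAmb_n (D.localData hU) (trivRep k U) →ₗ[k] CcAmb_n L (Bp k U χ)` we prove

* `dc₁₂_pB₁`, `dc₂₃_pB₂` : `dc (pB_n x) = pB_(n+1) (dc x)`; `dc₃₄_pB₃_eq_zero`;
* `pB₁_mem_Cc1`, `pB₂_mem_Cc2`, `pB₃_mem_Cc3` : level-constancy;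
* the fields `P1_mem`, `P2_mem`, `P3_mem`, `P2_bdry`, `P3_bdry` of `helper53.ShTransportP`
  for `P_n := pB_n χ D hU` (`pB₁_mem_Zc1`, `pB₂_mem_Zc2`, `pB₃_mem_Zc3`, `pB₂_mem_Bc2`,
  `pB₃_mem_Bc3`).
-/

set_option autoImplicit false
set_option linter.unusedSectionVars false
set_option linter.unusedVariables false
set_option linter.unusedSimpArgs false
set_option linter.style.haveILetI false

open groupCohomology

noncomputable section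

namespace Fermat.Agent.S55.helper38

open Fermat.Agent.S55 Fermat.Agent.S55.helper35 Fermat.Agent.S55.helper62

/-! ### `inhom ∘ hd = d ∘ inhom` in degrees `0` and `3` -/

section InhomHd'

universe u

variable {k Γ : Type u} [CommRing k] [Group Γ] (A : Rep.{u} k Γ)

lemma inhom1_hd0 {F : Γ → A} (hF : IsEqv0 A F) :
    inhom1 A (hd0 F) = (d₀₁ A).hom (inhom0 A F) := by
  have h : hd0 F = homog1 A ((d₀₁ A).hom (inhom0 A F)) := by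
    rw [← hd0_homog0, homog0_inhom0 A hF]
  rw [h, inhom1_homog1]

lemma inhom4_hd3 {F : Γ → Γ → Γ → Γ → A} (hF : IsEqv3 A F) :
    inhom4 A (hd3 F) = d₃₄ A (inhom3 A F) := by
  have h : hd3 F = homog4 A (d₃₄ A (inhom3 A F)) := by
    rw [← hd3_homog3, homog3_inhom3 A hF]
  rw [h, inhom4_homog4]

lemma homog1_sub (f f' : Γ → A) : homog1 A (f - f') = homog1 A f - homog1 A f' := by
  funext x₀ x₁
  simp only [homog1_apply, Pi.sub_apply, map_sub]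

lemma homog2_sub (f f' : Γ × Γ → A) : homog2 A (f - f') = homog2 A f - homog2 A f' := by
  funext x₀ x₁ x₂
  simp only [homog2_apply, Pi.sub_apply, map_sub]

lemma homog3_zero : homog3 A (0 : Γ × Γ × Γ → A) = 0 := by
  funext x₀ x₁ x₂ x₃
  simp only [homog3_apply, Pi.zero_apply, map_zero]

lemma homog4_zero : homog4 A (0 : Γ × Γ × Γ × Γ → A) = 0 := by
  funext x₀ x₁ x₂ x₃ x₄
  simp only [homog4_apply, Pi.zero_apply, map_zero]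

end InhomHd'

section PullLin

variable {X Y N : Type*} [AddCommGroup N]

lemma pull1_sub (ρ : X → Y) (F F' : Y → Y → N) :
    pull1 ρ (F - F') = pull1 ρ F - pull1 ρ F' := rfl

lemma pull2_sub (ρ : X → Y) (F F' : Y → Y → Y → N) :
    pull2 ρ (F - F') = pull2 ρ F - pull2 ρ F' := rfl

lemma pull3_zero (ρ : X → Y) : pull3 ρ (0 : Y → Y → Y → Y → N) = 0 := rfl

lemma pull4_zero (ρ : X → Y) : pull4 ρ (0 : Y → Y → Y → Y → Y → N) = 0 := rfl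

lemma prism4_zero (ρ₀ ρ₁ : X → Y) : prism4 ρ₀ ρ₁ (0 : Y → Y → Y → Y → Y → N) = 0 := by
  funext x₀ x₁ x₂ x₃
  simp

end PullLin

variable {k G : Type} [Field k] [Group G] {𝒩 : Levels G} {ι : Type} {L : LocalData G 𝒩 ι}
  {U : Subgroup G}

/-! ### the scalar identities behind the chain map property -/

section Scalar

variable (D : ShData L U) [Finite (G ⧸ U)] (hU : ∃ N ∈ 𝒩.mem, N ≤ U)

lemma pull1_beta0 (v : ι) (j : D.J v) (a : ↥U → k) :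
    pull1 (D.beta0 v j) (homog1 (trivRep k ↥U) a) =
      pull1 (retr (D.Uw v j)) (homog1 (trivRep k ↥(D.Uw v j))
        (res₁ (D.localData hU) (trivRep k ↥U) ⟨v, j⟩ a)) := by
  funext x₀ x₁
  simp only [pull1_apply, homog1_apply, ShData.beta0]
  rw [← map_inv, ← map_mul]
  rfl

lemma pull3_beta0 (v : ι) (j : D.J v) (a : ↥U × ↥U × ↥U → k) :
    pull3 (D.beta0 v j) (homog3 (trivRep k ↥U) a) =
      pull3 (retr (D.Uw v j)) (homog3 (trivRep k ↥(D.Uw v j))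
        (res₃ (D.localData hU) (trivRep k ↥U) ⟨v, j⟩ a)) := by
  funext x₀ x₁ x₂ x₃
  simp only [pull3_apply, homog3_apply, ShData.beta0]
  rw [← map_inv, ← map_mul, ← map_inv, ← map_mul, ← map_inv, ← map_mul]
  rfl

/-- (S1) -/
lemma psiL₁_dc (v : ι) (j : D.J v) (a : ↥U → k) (b : k) :
    psiL₁ D v j ((d₁₂ (trivRep k ↥U)).hom a)
        (res₁ (D.localData hU) (trivRep k ↥U) ⟨v, j⟩ a
          - (d₀₁ ((D.localData hU).loc (trivRep k ↥U) ⟨v, j⟩)).hom b)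
      = pull1 (D.beta1 v j) (homog1 (trivRep k ↥U) a) - hd0 (psiL₀ D v j a b) := by
  have hp : prism2 (D.beta0 v j) (D.beta1 v j) (hd1 (homog1 (trivRep k ↥U) a)) =
      pull1 (D.beta1 v j) (homog1 (trivRep k ↥U) a) -
        pull1 (D.beta0 v j) (homog1 (trivRep k ↥U) a) -
        hd0 (prism1 (D.beta0 v j) (D.beta1 v j) (homog1 (trivRep k ↥U) a)) := by
    rw [← hd0_prism1_add]
    abel
  have hb : (d₀₁ ((D.localData hU).loc (trivRep k ↥U) ⟨v, j⟩)).hom b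
      = (d₀₁ (trivRep k ↥(D.Uw v j))).hom b := rfl
  unfold psiL₁ psiL₀
  rw [← hd1_homog1, hp, hb, hd0_add, hd0_pull0, hd0_homog0, pull1_beta0 D hU]
  refine (congrArg (· + _) ((congrArg (pull1 (retr (D.Uw v j)))
    (homog1_sub (trivRep k ↥(D.Uw v j)) _ _)).trans (pull1_sub _ _ _))).trans ?_
  abel

/-- (S2) -/
lemma psiL₂_dc (v : ι) (j : D.J v) (a : ↥U × ↥U → k) (b : ↥(D.Uw v j) → k) :
    psiL₂ D v j ((d₂₃ (trivRep k ↥U)).hom a)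
        (res₂ (D.localData hU) (trivRep k ↥U) ⟨v, j⟩ a
          - (d₁₂ ((D.localData hU).loc (trivRep k ↥U) ⟨v, j⟩)).hom b)
      = pull2 (D.beta1 v j) (homog2 (trivRep k ↥U) a) - hd1 (psiL₁ D v j a b) := by
  have hp : prism3 (D.beta0 v j) (D.beta1 v j) (hd2 (homog2 (trivRep k ↥U) a)) =
      pull2 (D.beta1 v j) (homog2 (trivRep k ↥U) a) -
        pull2 (D.beta0 v j) (homog2 (trivRep k ↥U) a) -
        hd1 (prism2 (D.beta0 v j) (D.beta1 v j) (homog2 (trivRep k ↥U) a)) := by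
    rw [← hd1_prism2_add]
    abel
  have hb : (d₁₂ ((D.localData hU).loc (trivRep k ↥U) ⟨v, j⟩)).hom b
      = (d₁₂ (trivRep k ↥(D.Uw v j))).hom b := rfl
  unfold psiL₂ psiL₁
  rw [← hd2_homog2, hp, hb, hd1_add, hd1_pull1, hd1_homog1, pull2_beta0 D hU]
  refine (congrArg (· + _) ((congrArg (pull2 (retr (D.Uw v j)))
    (homog2_sub (trivRep k ↥(D.Uw v j)) _ _)).trans (pull2_sub _ _ _))).trans ?_
  abel

/-- (S3), on cocycles -/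
lemma hd2_psiL₂ (v : ι) (j : D.J v) (z : ↥U × ↥U × ↥U → k) (b : ↥(D.Uw v j) × ↥(D.Uw v j) → k)
    (hz : d₃₄ (trivRep k ↥U) z = 0)
    (hb : res₃ (D.localData hU) (trivRep k ↥U) ⟨v, j⟩ z
      - (d₂₃ ((D.localData hU).loc (trivRep k ↥U) ⟨v, j⟩)).hom b = 0) :
    hd2 (psiL₂ D v j z b) = pull3 (D.beta1 v j) (homog3 (trivRep k ↥U) z) := by
  have hp : hd2 (prism3 (D.beta0 v j) (D.beta1 v j) (homog3 (trivRep k ↥U) z)) =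
      pull3 (D.beta1 v j) (homog3 (trivRep k ↥U) z) -
        pull3 (D.beta0 v j) (homog3 (trivRep k ↥U) z) := by
    rw [← hd2_prism3_add, hd3_homog3, hz, homog4_zero, prism4_zero, add_zero]
  have hb' : (d₂₃ (trivRep k ↥(D.Uw v j))).hom b
      = res₃ (D.localData hU) (trivRep k ↥U) ⟨v, j⟩ z := by
    have := sub_eq_zero.1 hb
    exact this.symm
  unfold psiL₂
  rw [hd2_add, hp, hd2_pull2, hd2_homog2, hb', pull3_beta0 D hU]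
  abel

end Scalar

/-! ### left invariance of the local components of `Ψ` -/

section PsiInv

variable (D : ShData L U) [Finite (G ⧸ U)]

lemma isLInv₀_psiL₀ (v : ι) (j : D.J v) (z : ↥U → k) (b : k) :
    IsLInv₀ (D.Uw v j) (psiL₀ D v j z b) := by
  intro u hu x₀
  simp only [psiL₀, Pi.add_apply, pull0_apply, prism1_apply, homog0_apply,
    beta0_mul D v j hu, beta1_mul D v j hu]
  have h := isEqv1_homog1 (trivRep k ↥U) z (D.rw v j ⟨u, hu⟩)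
  rw [h]
  rfl

lemma isLInv₁_psiL₁ (v : ι) (j : D.J v) (z : ↥U × ↥U → k) (b : ↥(D.Uw v j) → k) :
    IsLInv₁ (D.Uw v j) (psiL₁ D v j z b) := by
  intro u hu x₀ x₁
  have h1 := isLInv₁_pull1_retr' (k := k) (D.Uw v j) b u hu x₀ x₁
  have h2 := isLInv₁_prism2 D v j z u hu x₀ x₁
  simp only [psiL₁, Pi.add_apply]
  rw [h1, h2]

lemma isLInv₂_prism3 (v : ι) (j : D.J v) (a : ↥U × ↥U × ↥U → k) :
    IsLInv₂ (D.Uw v j) (prism3 (D.beta0 v j) (D.beta1 v j) (homog3 (trivRep k ↥U) a)) := by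
  intro u hu x₀ x₁ x₂
  simp only [prism3_apply, beta0_mul D v j hu, beta1_mul D v j hu]
  have h := isEqv3_homog3 (trivRep k ↥U) a (D.rw v j ⟨u, hu⟩)
  rw [h, h, h]
  rfl

lemma isLInv₂_psiL₂ (v : ι) (j : D.J v) (z : ↥U × ↥U × ↥U → k)
    (b : ↥(D.Uw v j) × ↥(D.Uw v j) → k) :
    IsLInv₂ (D.Uw v j) (psiL₂ D v j z b) := by
  intro u hu x₀ x₁ x₂
  have h1 := isLInv₂_pull2_retr' (k := k) (D.Uw v j) b u hu x₀ x₁ x₂
  have h2 := isLInv₂_prism3 D v j z u hu x₀ x₁ x₂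
  simp only [psiL₂, Pi.add_apply]
  rw [h1, h2]

end PsiInv

/-! ### the chain map property -/

section ChainMapP

variable (χ : G →* kˣ) (D : ShData L U) [Finite (G ⧸ U)] (hU : ∃ N ∈ 𝒩.mem, N ≤ U)

lemma isLInv₁_psiG₁ (z : ↥U → k) : IsLInv₁ U (psiG₁ (U := U) z) :=
  isLInv₁_pull1_retr' U z

lemma isLInv₂_psiG₂ (z : ↥U × ↥U → k) : IsLInv₂ U (psiG₂ (U := U) z) :=
  isLInv₂_pull2_retr' U z

lemma isLInv₃_psiG₃ (z : ↥U × ↥U × ↥U → k) : IsLInv₃ U (psiG₃ (U := U) z) :=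
  isLInv₃_pull3_retr' U z

lemma hd1_psiG₁ (a : ↥U → k) :
    hd1 (psiG₁ (U := U) a) = psiG₂ ((d₁₂ (trivRep k ↥U)).hom a) := by
  unfold psiG₁ psiG₂
  rw [hd1_pull1, hd1_homog1]

lemma hd2_psiG₂ (a : ↥U × ↥U → k) :
    hd2 (psiG₂ (U := U) a) = psiG₃ ((d₂₃ (trivRep k ↥U)).hom a) := by
  unfold psiG₂ psiG₃
  rw [hd2_pull2, hd2_homog2]

lemma hd3_psiG₃ {z : ↥U × ↥U × ↥U → k} (hz : d₃₄ (trivRep k ↥U) z = 0) :
    hd3 (psiG₃ (U := U) z) = 0 := by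
  unfold psiG₃
  rw [hd3_pull3, hd3_homog3, hz, homog4_zero, pull4_zero]

lemma res₁_inhom1 (v : ι) (Φ : G → G → Bp k U χ) :
    res₁ L (Bp k U χ) v (inhom1 (Bp k U χ) Φ)
      = inhom1 (L.loc (Bp k U χ) v) (pull1 (L.r v) Φ) := by
  funext s
  simp only [res₁_apply, inhom1_apply, pull1_apply, map_one]

lemma res₂_inhom2 (v : ι) (Φ : G → G → G → Bp k U χ) :
    res₂ L (Bp k U χ) v (inhom2 (Bp k U χ) Φ)
      = inhom2 (L.loc (Bp k U χ) v) (pull2 (L.r v) Φ) := by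
  funext ⟨s₁, s₂⟩
  simp only [res₂_apply, inhom2_apply, pull2_apply, map_one, map_mul]

lemma res₃_inhom3 (v : ι) (Φ : G → G → G → G → Bp k U χ) :
    res₃ L (Bp k U χ) v (inhom3 (Bp k U χ) Φ)
      = inhom3 (L.loc (Bp k U χ) v) (pull3 (L.r v) Φ) := by
  funext ⟨s₁, s₂, s₃⟩
  simp only [res₃_apply, inhom3_apply, pull3_apply, map_one, map_mul]

/-- **Chain map property in degree `1`**: `dc (pB₁ x) = pB₂ (dc x)`. -/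
theorem dc₁₂_pB₁ (hχ : ∀ g ∈ U, χ g = 1) (x : CcAmb1 (D.localData hU) (trivRep k ↥U)) :
    dc₁₂ L (Bp k U χ) (pB₁ χ D hU x)
      = pB₂ χ D hU (dc₁₂ (D.localData hU) (trivRep k ↥U) x) := by
  refine Prod.ext ?_ ?_
  · show (d₁₂ (Bp k U χ)).hom (inhom1 (Bp k U χ) (liftBG₁ χ (psiG₁ x.1)))
      = inhom2 (Bp k U χ) (liftBG₂ χ (psiG₂ ((d₁₂ (trivRep k ↥U)).hom x.1)))
    rw [← inhom2_hd1 (Bp k U χ) (isEqv1_liftBG₁ χ hχ (isLInv₁_psiG₁ x.1)),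
      hd1_liftBG₁, ← hd1_psiG₁]
  · funext v
    show res₁ L (Bp k U χ) v (inhom1 (Bp k U χ) (liftBG₁ χ (psiG₁ x.1)))
        - (d₀₁ (L.loc (Bp k U χ) v)).hom (inhom0 (L.loc (Bp k U χ) v)
            (liftBL₀ χ D v (fun j => psiL₀ D v j x.1 (x.2 ⟨v, j⟩))))
      = inhom1 (L.loc (Bp k U χ) v) (liftBL₁ χ D v (fun j => psiL₁ D v j
          ((d₁₂ (trivRep k ↥U)).hom x.1)
          (res₁ (D.localData hU) (trivRep k ↥U) ⟨v, j⟩ x.1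
            - (d₀₁ ((D.localData hU).loc (trivRep k ↥U) ⟨v, j⟩)).hom (x.2 ⟨v, j⟩))))
    rw [res₁_inhom1, ← inhom1_hd0 (L.loc (Bp k U χ) v)
      (isEqv0_liftBL₀ χ D hχ v (fun j => isLInv₀_psiL₀ D v j x.1 (x.2 ⟨v, j⟩))),
      pull1_liftBG₁ χ D hχ v (isLInv₁_psiG₁ x.1), hd0_liftBL₀]
    have e : (fun j => psiL₁ D v j ((d₁₂ (trivRep k ↥U)).hom x.1)
          (res₁ (D.localData hU) (trivRep k ↥U) ⟨v, j⟩ x.1
            - (d₀₁ ((D.localData hU).loc (trivRep k ↥U) ⟨v, j⟩)).hom (x.2 ⟨v, j⟩)))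
        = fun j => pull1 (D.iotaMap v j) (psiG₁ x.1) - hd0 (psiL₀ D v j x.1 (x.2 ⟨v, j⟩)) := by
      funext j
      exact psiL₁_dc D hU v j x.1 (x.2 ⟨v, j⟩)
    rw [e, liftBL₁_sub]
    rfl

/-- **Chain map property in degree `2`**: `dc (pB₂ x) = pB₃ (dc x)`. -/
theorem dc₂₃_pB₂ (hχ : ∀ g ∈ U, χ g = 1) (x : CcAmb2 (D.localData hU) (trivRep k ↥U)) :
    dc₂₃ L (Bp k U χ) (pB₂ χ D hU x)
      = pB₃ χ D hU (dc₂₃ (D.localData hU) (trivRep k ↥U) x) := by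
  refine Prod.ext ?_ ?_
  · show (d₂₃ (Bp k U χ)).hom (inhom2 (Bp k U χ) (liftBG₂ χ (psiG₂ x.1)))
      = inhom3 (Bp k U χ) (liftBG₃ χ (psiG₃ ((d₂₃ (trivRep k ↥U)).hom x.1)))
    rw [← inhom3_hd2 (Bp k U χ) (isEqv2_liftBG₂ χ hχ (isLInv₂_psiG₂ x.1)),
      hd2_liftBG₂, ← hd2_psiG₂]
  · funext v
    show res₂ L (Bp k U χ) v (inhom2 (Bp k U χ) (liftBG₂ χ (psiG₂ x.1)))
        - (d₁₂ (L.loc (Bp k U χ) v)).hom (inhom1 (L.loc (Bp k U χ) v)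
            (liftBL₁ χ D v (fun j => psiL₁ D v j x.1 (x.2 ⟨v, j⟩))))
      = inhom2 (L.loc (Bp k U χ) v) (liftBL₂ χ D v (fun j => psiL₂ D v j
          ((d₂₃ (trivRep k ↥U)).hom x.1)
          (res₂ (D.localData hU) (trivRep k ↥U) ⟨v, j⟩ x.1
            - (d₁₂ ((D.localData hU).loc (trivRep k ↥U) ⟨v, j⟩)).hom (x.2 ⟨v, j⟩))))
    rw [res₂_inhom2, ← inhom2_hd1 (L.loc (Bp k U χ) v)
      (isEqv1_liftBL₁ χ D hχ v (fun j => isLInv₁_psiL₁ D v j x.1 (x.2 ⟨v, j⟩))),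
      pull2_liftBG₂ χ D hχ v (isLInv₂_psiG₂ x.1), hd1_liftBL₁]
    have e : (fun j => psiL₂ D v j ((d₂₃ (trivRep k ↥U)).hom x.1)
          (res₂ (D.localData hU) (trivRep k ↥U) ⟨v, j⟩ x.1
            - (d₁₂ ((D.localData hU).loc (trivRep k ↥U) ⟨v, j⟩)).hom (x.2 ⟨v, j⟩)))
        = fun j => pull2 (D.iotaMap v j) (psiG₂ x.1) - hd1 (psiL₁ D v j x.1 (x.2 ⟨v, j⟩)) := by
      funext j
      exact psiL₂_dc D hU v j x.1 (x.2 ⟨v, j⟩)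
    rw [e, liftBL₂_sub]
    rfl

/-- **Cocycles to cocycles in degree `3`.** -/
theorem dc₃₄_pB₃_eq_zero (hχ : ∀ g ∈ U, χ g = 1)
    {y : CcAmb3 (D.localData hU) (trivRep k ↥U)}
    (hy : dc₃₄ (D.localData hU) (trivRep k ↥U) y = 0) :
    dc₃₄ L (Bp k U χ) (pB₃ χ D hU y) = 0 := by
  have hy1 : d₃₄ (trivRep k ↥U) y.1 = 0 := congrArg Prod.fst hy
  have hy2 : ∀ w : (Σ v, D.J v), res₃ (D.localData hU) (trivRep k ↥U) w y.1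
      - (d₂₃ ((D.localData hU).loc (trivRep k ↥U) w)).hom (y.2 w) = 0 :=
    fun w => congrFun (congrArg Prod.snd hy) w
  refine Prod.ext ?_ ?_
  · show d₃₄ (Bp k U χ) (inhom3 (Bp k U χ) (liftBG₃ χ (psiG₃ y.1))) = 0
    rw [← inhom4_hd3 (Bp k U χ) (isEqv3_liftBG₃ χ hχ (isLInv₃_psiG₃ y.1)),
      hd3_liftBG₃_eq_zero χ (hd3_psiG₃ hy1)]
    rfl
  · funext v
    show res₃ L (Bp k U χ) v (inhom3 (Bp k U χ) (liftBG₃ χ (psiG₃ y.1)))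
        - (d₂₃ (L.loc (Bp k U χ) v)).hom (inhom2 (L.loc (Bp k U χ) v)
            (liftBL₂ χ D v (fun j => psiL₂ D v j y.1 (y.2 ⟨v, j⟩)))) = 0
    rw [res₃_inhom3, ← inhom3_hd2 (L.loc (Bp k U χ) v)
      (isEqv2_liftBL₂ χ D hχ v (fun j => isLInv₂_psiL₂ D v j y.1 (y.2 ⟨v, j⟩))), sub_eq_zero]
    congr 1
    funext h₀ h₁ h₂ h₃
    refine evC_ext_loc χ D v fun j t => ?_
    rw [evC_pull3_liftBG₃ χ D hχ v (isLInv₃_psiG₃ y.1),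
      evC_hd2_liftBL₂ χ D hχ v (fun j => isLInv₂_psiL₂ D v j y.1 (y.2 ⟨v, j⟩)),
      hd2_psiL₂ D hU v j y.1 (y.2 ⟨v, j⟩) hy1 (hy2 ⟨v, j⟩)]
    rfl

end ChainMapP

/-! ### level-constancy -/

section LevelsP

variable (χ : G →* kˣ) (D : ShData L U) [Finite (G ⧸ U)] (hU : ∃ N ∈ 𝒩.mem, N ≤ U)

/-- a finite family of levels has a common refinement -/
lemma exists_level_le {Γ : Type} [Group Γ] (𝒩' : Levels Γ) {J : Type} [Fintype J]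
    (M : J → Subgroup Γ) (hM : ∀ j, M j ∈ 𝒩'.mem) :
    ∃ M' ∈ 𝒩'.mem, ∀ j, M' ≤ M j := by
  classical
  have key : ∀ s : Finset J, ∃ M' ∈ 𝒩'.mem, ∀ j ∈ s, M' ≤ M j := by
    intro s
    induction s using Finset.induction_on with
    | empty =>
      obtain ⟨M₀, hM₀⟩ := 𝒩'.nonempty
      exact ⟨M₀, hM₀, fun j hj => absurd hj (Finset.notMem_empty j)⟩
    | insert a s ha ih =>
      obtain ⟨M₁, hM₁, h₁⟩ := ih
      obtain ⟨M₂, hM₂, h₂⟩ := 𝒩'.directed M₁ hM₁ (M a) (hM a)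
      refine ⟨M₂, hM₂, fun j hj => ?_⟩
      rcases Finset.mem_insert.1 hj with rfl | hj
      · exact h₂.trans inf_le_right
      · exact (h₂.trans inf_le_left).trans (h₁ j hj)
  obtain ⟨M', hM', h⟩ := key Finset.univ
  exact ⟨M', hM', fun j => h j (Finset.mem_univ j)⟩

/-! global part -/

lemma isRLev₁_psiG₁ {N : Subgroup G} [N.Normal] (hNU : N ≤ U) {z : ↥U → k}
    (hz : ∀ g : ↥U, ∀ s ∈ N.subgroupOf U, z (g * s) = z g) : IsRLev₁ N (psiG₁ (U := U) z) := by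
  intro x₀ x₁ n₁ h₁
  obtain ⟨m₁, hm₁, e₁⟩ := retr_mul_right U N hNU x₁ h₁
  simp only [psiG₁, pull1_apply]
  rw [e₁]
  exact homog1_level (N.subgroupOf U) hz _ _ hm₁

lemma isRLev₂_psiG₂ {N : Subgroup G} [N.Normal] (hNU : N ≤ U) {z : ↥U × ↥U → k}
    (hz : ∀ g₁ g₂ : ↥U, ∀ s₁ ∈ N.subgroupOf U, ∀ s₂ ∈ N.subgroupOf U,
      z (g₁ * s₁, g₂ * s₂) = z (g₁, g₂)) : IsRLev₂ N (psiG₂ (U := U) z) := by
  intro x₀ x₁ x₂ n₁ h₁ n₂ h₂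
  obtain ⟨m₁, hm₁, e₁⟩ := retr_mul_right U N hNU x₁ h₁
  obtain ⟨m₂, hm₂, e₂⟩ := retr_mul_right U N hNU x₂ h₂
  simp only [psiG₂, pull2_apply]
  rw [e₁, e₂]
  exact homog2_level (N.subgroupOf U) hz _ _ _ hm₁ hm₂

lemma isRLev₃_psiG₃ {N : Subgroup G} [N.Normal] (hNU : N ≤ U) {z : ↥U × ↥U × ↥U → k}
    (hz : ∀ g₁ g₂ g₃ : ↥U, ∀ s₁ ∈ N.subgroupOf U, ∀ s₂ ∈ N.subgroupOf U,
      ∀ s₃ ∈ N.subgroupOf U, z (g₁ * s₁, g₂ * s₂, g₃ * s₃) = z (g₁, g₂, g₃)) :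
    IsRLev₃ N (psiG₃ (U := U) z) := by
  intro x₀ x₁ x₂ x₃ n₁ h₁ n₂ h₂ n₃ h₃
  obtain ⟨m₁, hm₁, e₁⟩ := retr_mul_right U N hNU x₁ h₁
  obtain ⟨m₂, hm₂, e₂⟩ := retr_mul_right U N hNU x₂ h₂
  obtain ⟨m₃, hm₃, e₃⟩ := retr_mul_right U N hNU x₃ h₃
  simp only [psiG₃, pull3_apply]
  rw [e₁, e₂, e₃]
  exact homog3_level (N.subgroupOf U) hz _ _ _ _ hm₁ hm₂ hm₃

lemma inhom1_liftBG₁_mem_C1 {N : Subgroup G} (hN : N ∈ 𝒩.mem) {F : G → G → k}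
    (hF : IsRLev₁ N F) : inhom1 (Bp k U χ) (liftBG₁ (U := U) χ F) ∈ C1 𝒩 (Bp k U χ) := by
  refine ⟨N, hN, fun g s hs => evC_ext χ fun c => ?_⟩
  rw [inhom1_apply, inhom1_apply, evC_liftBG₁_sec, evC_liftBG₁_sec]
  exact (IsRLev₁.tw (fun t => (χ t : k)) hF (sec U c)).inhom g hs

lemma inhom2_liftBG₂_mem_C2 {N : Subgroup G} (hN : N ∈ 𝒩.mem) {F : G → G → G → k}
    (hF : IsRLev₂ N F) : inhom2 (Bp k U χ) (liftBG₂ (U := U) χ F) ∈ C2 𝒩 (Bp k U χ) := by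
  haveI := 𝒩.normal N hN
  refine ⟨N, hN, fun g₁ g₂ s₁ hs₁ s₂ hs₂ => evC_ext χ fun c => ?_⟩
  rw [inhom2_apply, inhom2_apply, evC_liftBG₂_sec, evC_liftBG₂_sec]
  exact (IsRLev₂.tw (fun t => (χ t : k)) hF (sec U c)).inhom g₁ g₂ hs₁ hs₂

lemma inhom3_liftBG₃_mem_C3 {N : Subgroup G} (hN : N ∈ 𝒩.mem) {F : G → G → G → G → k}
    (hF : IsRLev₃ N F) : inhom3 (Bp k U χ) (liftBG₃ (U := U) χ F) ∈ C3 𝒩 (Bp k U χ) := by
  haveI := 𝒩.normal N hN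
  refine ⟨N, hN, fun g₁ g₂ g₃ s₁ hs₁ s₂ hs₂ s₃ hs₃ => evC_ext χ fun c => ?_⟩
  rw [inhom3_apply, inhom3_apply, evC_liftBG₃_sec, evC_liftBG₃_sec]
  exact (IsRLev₃.tw (fun t => (χ t : k)) hF (sec U c)).inhom g₁ g₂ g₃ hs₁ hs₂ hs₃

lemma pB₁_fst_mem_C1 {z : ↥U → k} (hz : z ∈ C1 (restrictLevels 𝒩 U hU) (trivRep k ↥U)) :
    inhom1 (Bp k U χ) (liftBG₁ (U := U) χ (psiG₁ z)) ∈ C1 𝒩 (Bp k U χ) := by
  obtain ⟨N', ⟨N, hN, hNU, rfl⟩, hz⟩ := hz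
  haveI := 𝒩.normal N hN
  exact inhom1_liftBG₁_mem_C1 χ hN (isRLev₁_psiG₁ hNU hz)

lemma pB₂_fst_mem_C2 {z : ↥U × ↥U → k}
    (hz : z ∈ C2 (restrictLevels 𝒩 U hU) (trivRep k ↥U)) :
    inhom2 (Bp k U χ) (liftBG₂ (U := U) χ (psiG₂ z)) ∈ C2 𝒩 (Bp k U χ) := by
  obtain ⟨N', ⟨N, hN, hNU, rfl⟩, hz⟩ := hz
  haveI := 𝒩.normal N hN
  exact inhom2_liftBG₂_mem_C2 χ hN (isRLev₂_psiG₂ hNU hz)

lemma pB₃_fst_mem_C3 {z : ↥U × ↥U × ↥U → k}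
    (hz : z ∈ C3 (restrictLevels 𝒩 U hU) (trivRep k ↥U)) :
    inhom3 (Bp k U χ) (liftBG₃ (U := U) χ (psiG₃ z)) ∈ C3 𝒩 (Bp k U χ) := by
  obtain ⟨N', ⟨N, hN, hNU, rfl⟩, hz⟩ := hz
  haveI := 𝒩.normal N hN
  exact inhom3_liftBG₃_mem_C3 χ hN (isRLev₃_psiG₃ hNU hz)

/-! local part -/

lemma exists_isRLev₁_psiL₁ (v : ι) (j : D.J v) {z : ↥U × ↥U → k}
    (hz : z ∈ C2 (restrictLevels 𝒩 U hU) (trivRep k ↥U)) {b : ↥(D.Uw v j) → k}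
    (hb : b ∈ C1 ((D.localData hU).lev ⟨v, j⟩) ((D.localData hU).loc (trivRep k ↥U) ⟨v, j⟩)) :
    ∃ M' ∈ (L.lev v).mem, IsRLev₁ M' (psiL₁ D v j z b) := by
  obtain ⟨N', ⟨N, hN, hNU, rfl⟩, hz⟩ := hz
  obtain ⟨M'', ⟨M, hM, rfl⟩, hb⟩ := hb
  haveI := 𝒩.normal N hN
  obtain ⟨M', hM', hle, hleU, hr⟩ := exists_local_level D v j hN hNU hM
  haveI := (L.lev v).normal M' hM'
  refine ⟨M', hM', fun x₀ x₁ m₁ h₁ => ?_⟩
  obtain ⟨m, hm, e⟩ := retr_mul_right (D.Uw v j) M' hleU x₁ h₁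
  obtain ⟨n₀, hn₀, e₀⟩ := beta0_mul_right D v j hN hleU hr x₁ h₁
  obtain ⟨n₁, hn₁, e₁⟩ := beta1_mul_right D v j hN hNU x₁ (hr m₁ h₁)
  have hm' : m ∈ M.subgroupOf (D.Uw v j) := by
    rw [Subgroup.mem_subgroupOf] at hm ⊢
    exact hle hm
  simp only [psiL₁, Pi.add_apply, pull1_apply, prism2_apply]
  rw [e, e₀, e₁, homog1_level (M.subgroupOf (D.Uw v j)) hb _ _ hm',
    homog2_level_last (N.subgroupOf U) hz _ _ _ hn₁,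
    homog2_level (N.subgroupOf U) hz _ _ _ hn₀ hn₁]

lemma exists_isRLev₂_psiL₂ (v : ι) (j : D.J v) {z : ↥U × ↥U × ↥U → k}
    (hz : z ∈ C3 (restrictLevels 𝒩 U hU) (trivRep k ↥U)) {b : ↥(D.Uw v j) × ↥(D.Uw v j) → k}
    (hb : b ∈ C2 ((D.localData hU).lev ⟨v, j⟩) ((D.localData hU).loc (trivRep k ↥U) ⟨v, j⟩)) :
    ∃ M' ∈ (L.lev v).mem, IsRLev₂ M' (psiL₂ D v j z b) := by
  obtain ⟨N', ⟨N, hN, hNU, rfl⟩, hz⟩ := hz
  obtain ⟨M'', ⟨M, hM, rfl⟩, hb⟩ := hb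
  haveI := 𝒩.normal N hN
  haveI := (L.lev v).normal M hM
  obtain ⟨M', hM', hle, hleU, hr⟩ := exists_local_level D v j hN hNU hM
  haveI := (L.lev v).normal M' hM'
  refine ⟨M', hM', fun x₀ x₁ x₂ m₁ h₁ m₂ h₂ => ?_⟩
  obtain ⟨m, hm, e⟩ := retr_mul_right (D.Uw v j) M' hleU x₁ h₁
  obtain ⟨m', hm', e'⟩ := retr_mul_right (D.Uw v j) M' hleU x₂ h₂
  have a₁ := beta0_mul_right D v j hN hleU hr x₁ h₁
  have a₂ := beta0_mul_right D v j hN hleU hr x₂ h₂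
  have b₁ := beta1_mul_right D v j hN hNU x₁ (hr m₁ h₁)
  have b₂ := beta1_mul_right D v j hN hNU x₂ (hr m₂ h₂)
  have hmM : m ∈ M.subgroupOf (D.Uw v j) := by
    rw [Subgroup.mem_subgroupOf] at hm ⊢
    exact hle hm
  have hmM' : m' ∈ M.subgroupOf (D.Uw v j) := by
    rw [Subgroup.mem_subgroupOf] at hm' ⊢
    exact hle hm'
  have s := exists_mul_self (N.subgroupOf U)
  simp only [psiL₂, Pi.add_apply, pull2_apply, prism3_apply]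
  rw [e, e', homog2_level (M.subgroupOf (D.Uw v j)) hb _ _ _ hmM hmM',
    homog3_level' (N.subgroupOf U) hz _ (s _) b₁ b₂,
    homog3_level' (N.subgroupOf U) hz _ a₁ b₁ b₂,
    homog3_level' (N.subgroupOf U) hz _ a₁ a₂ b₂]

lemma inhom1_liftBL₁_mem_C1 (v : ι) {M' : Subgroup (L.Gv v)} (hM' : M' ∈ (L.lev v).mem)
    {F : ∀ j : D.J v, L.Gv v → L.Gv v → k} (hF : ∀ j, IsRLev₁ M' (F j)) :
    inhom1 (L.loc (Bp k U χ) v) (liftBL₁ χ D v F) ∈ C1 (L.lev v) (L.loc (Bp k U χ) v) := by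
  refine ⟨M', hM', fun g s hs => evC_ext χ fun c => ?_⟩
  rw [inhom1_apply, inhom1_apply, evC_liftBL₁_coef, evC_liftBL₁_coef]
  exact (IsRLev₁.tw (fun _ => wL χ D v ((orbEquiv D v).symm c)) (hF _)
    (sec (D.Uw v _) ((orbEquiv D v).symm c).2)).inhom g hs

lemma inhom2_liftBL₂_mem_C2 (v : ι) {M' : Subgroup (L.Gv v)} (hM' : M' ∈ (L.lev v).mem)
    {F : ∀ j : D.J v, L.Gv v → L.Gv v → L.Gv v → k} (hF : ∀ j, IsRLev₂ M' (F j)) :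
    inhom2 (L.loc (Bp k U χ) v) (liftBL₂ χ D v F) ∈ C2 (L.lev v) (L.loc (Bp k U χ) v) := by
  haveI := (L.lev v).normal M' hM'
  refine ⟨M', hM', fun g₁ g₂ s₁ hs₁ s₂ hs₂ => evC_ext χ fun c => ?_⟩
  rw [inhom2_apply, inhom2_apply, evC_liftBL₂_coef, evC_liftBL₂_coef]
  exact (IsRLev₂.tw (fun _ => wL χ D v ((orbEquiv D v).symm c)) (hF _)
    (sec (D.Uw v _) ((orbEquiv D v).symm c).2)).inhom g₁ g₂ hs₁ hs₂

lemma pB₂_snd_mem_C1 {y : CcAmb2 (D.localData hU) (trivRep k ↥U)}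
    (hy : y ∈ Cc2 (D.localData hU) (trivRep k ↥U)) (v : ι) :
    (pB₂ χ D hU y).2 v ∈ C1 (L.lev v) (L.loc (Bp k U χ) v) := by
  obtain ⟨h1, h2⟩ := hy
  have h : ∀ j : D.J v, ∃ M' ∈ (L.lev v).mem, IsRLev₁ M' (psiL₁ D v j y.1 (y.2 ⟨v, j⟩)) :=
    fun j => exists_isRLev₁_psiL₁ D hU v j h1 (h2 ⟨v, j⟩ (Set.mem_univ _))
  choose M hM hF using h
  obtain ⟨M', hM', hle⟩ := exists_level_le (L.lev v) M hM
  exact inhom1_liftBL₁_mem_C1 χ D v hM' (fun j => (hF j).mono (hle j))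

lemma pB₃_snd_mem_C2 {y : CcAmb3 (D.localData hU) (trivRep k ↥U)}
    (hy : y ∈ Cc3 (D.localData hU) (trivRep k ↥U)) (v : ι) :
    (pB₃ χ D hU y).2 v ∈ C2 (L.lev v) (L.loc (Bp k U χ) v) := by
  obtain ⟨h1, h2⟩ := hy
  have h : ∀ j : D.J v, ∃ M' ∈ (L.lev v).mem, IsRLev₂ M' (psiL₂ D v j y.1 (y.2 ⟨v, j⟩)) :=
    fun j => exists_isRLev₂_psiL₂ D hU v j h1 (h2 ⟨v, j⟩ (Set.mem_univ _))
  choose M hM hF using h
  obtain ⟨M', hM', hle⟩ := exists_level_le (L.lev v) M hM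
  exact inhom2_liftBL₂_mem_C2 χ D v hM' (fun j => (hF j).mono (hle j))

/-- `pB₁` preserves level-constancy -/
theorem pB₁_mem_Cc1 {y : CcAmb1 (D.localData hU) (trivRep k ↥U)}
    (hy : y ∈ Cc1 (D.localData hU) (trivRep k ↥U)) :
    pB₁ χ D hU y ∈ Cc1 L (Bp k U χ) :=
  ⟨pB₁_fst_mem_C1 χ hU hy.1, Submodule.mem_top⟩

/-- `pB₂` preserves level-constancy -/
theorem pB₂_mem_Cc2 {y : CcAmb2 (D.localData hU) (trivRep k ↥U)}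
    (hy : y ∈ Cc2 (D.localData hU) (trivRep k ↥U)) :
    pB₂ χ D hU y ∈ Cc2 L (Bp k U χ) :=
  ⟨pB₂_fst_mem_C2 χ hU hy.1, fun v _ => pB₂_snd_mem_C1 χ D hU hy v⟩

/-- `pB₃` preserves level-constancy -/
theorem pB₃_mem_Cc3 {y : CcAmb3 (D.localData hU) (trivRep k ↥U)}
    (hy : y ∈ Cc3 (D.localData hU) (trivRep k ↥U)) :
    pB₃ χ D hU y ∈ Cc3 L (Bp k U χ) :=
  ⟨pB₃_fst_mem_C3 χ hU hy.1, fun v _ => pB₃_snd_mem_C2 χ D hU hy v⟩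

end LevelsP

/-! ### the fields `P1_mem`, `P2_mem`, `P3_mem`, `P2_bdry`, `P3_bdry` of `ShTransportP` -/

section Fields

variable (χ : G →* kˣ) (D : ShData L U) [Finite (G ⧸ U)] (hU : ∃ N ∈ 𝒩.mem, N ≤ U)

/-- **`P1_mem`** -/
theorem pB₁_mem_Zc1 (hχ : ∀ g ∈ U, χ g = 1) :
    ∀ y' ∈ Zc1 (D.localData hU) (trivRep k ↥U), pB₁ χ D hU y' ∈ Zc1 L (Bp k U χ) := by
  intro y hy
  refine ⟨pB₁_mem_Cc1 χ D hU hy.1, LinearMap.mem_ker.2 ?_⟩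
  rw [dc₁₂_pB₁ χ D hU hχ, LinearMap.mem_ker.1 hy.2, map_zero]

/-- **`P2_mem`** -/
theorem pB₂_mem_Zc2 (hχ : ∀ g ∈ U, χ g = 1) :
    ∀ y' ∈ Zc2 (D.localData hU) (trivRep k ↥U), pB₂ χ D hU y' ∈ Zc2 L (Bp k U χ) := by
  intro y hy
  refine ⟨pB₂_mem_Cc2 χ D hU hy.1, LinearMap.mem_ker.2 ?_⟩
  rw [dc₂₃_pB₂ χ D hU hχ, LinearMap.mem_ker.1 hy.2, map_zero]

/-- **`P3_mem`** -/
theorem pB₃_mem_Zc3 (hχ : ∀ g ∈ U, χ g = 1) :
    ∀ y' ∈ Zc3 (D.localData hU) (trivRep k ↥U), pB₃ χ D hU y' ∈ Zc3 L (Bp k U χ) := by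
  intro y hy
  exact ⟨pB₃_mem_Cc3 χ D hU hy.1,
    LinearMap.mem_ker.2 (dc₃₄_pB₃_eq_zero χ D hU hχ (LinearMap.mem_ker.1 hy.2))⟩

/-- **`P2_bdry`** -/
theorem pB₂_mem_Bc2 (hχ : ∀ g ∈ U, χ g = 1) :
    ∀ y' ∈ Bc2 (D.localData hU) (trivRep k ↥U), pB₂ χ D hU y' ∈ Bc2 L (Bp k U χ) := by
  rintro _ ⟨x, hx, rfl⟩
  exact ⟨pB₁ χ D hU x, pB₁_mem_Cc1 χ D hU hx, dc₁₂_pB₁ χ D hU hχ x⟩

/-- **`P3_bdry`** -/
theorem pB₃_mem_Bc3 (hχ : ∀ g ∈ U, χ g = 1) :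
    ∀ y' ∈ Bc3 (D.localData hU) (trivRep k ↥U), pB₃ χ D hU y' ∈ Bc3 L (Bp k U χ) := by
  rintro _ ⟨x, hx, rfl⟩
  exact ⟨pB₂ χ D hU x, pB₂_mem_Cc2 χ D hU hx, dc₂₃_pB₂ χ D hU hχ x⟩

end Fields

end Fermat.Agent.S55.helper38
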