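import Mathlib
import Fermat.Agent.S55.helper35_Prism

/-!
# S55 / SH (helper38): second-order prism operators

Companion of `helper35_Prism.lean`.  For three maps `a b c : X → Y` the prism homotopies
`P(a,b)`, `P(b,c)`, `P(a,c)` of `helper35_Prism` satisfy

`P(a,b) + P(b,c) - P(a,c) = T ∘ d - d ∘ T`

for the explicit second-order operators `tri1`, `tri2`, `tri3` (`C^{n+2}(Y) → C^n(X)`,
`n = 0, 1, 2`).  No group structure is involved.
-/

set_option autoImplicit false
set_option linter.unusedSectionVars false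

namespace Fermat.Agent.S55.helper38

open Fermat.Agent.S55.helper35

variable {X Y N : Type*} [AddCommGroup N]

/-- second-order prism `C²(Y) → C⁰(X)` -/
def tri1 (a b c : X → Y) (F : Y → Y → Y → N) : X → N := fun x₀ => F (a x₀) (b x₀) (c x₀)

/-- second-order prism `C³(Y) → C¹(X)` -/
def tri2 (a b c : X → Y) (F : Y → Y → Y → Y → N) : X → X → N := fun x₀ x₁ =>
  F (a x₀) (b x₀) (c x₀) (c x₁) - F (a x₀) (b x₀) (b x₁) (c x₁) + F (a x₀) (a x₁) (b x₁) (c x₁)

/-- second-order prism `C⁴(Y) → C²(X)` -/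
def tri3 (a b c : X → Y) (F : Y → Y → Y → Y → Y → N) : X → X → X → N := fun x₀ x₁ x₂ =>
  F (a x₀) (b x₀) (c x₀) (c x₁) (c x₂) - F (a x₀) (b x₀) (b x₁) (c x₁) (c x₂)
    + F (a x₀) (b x₀) (b x₁) (b x₂) (c x₂) + F (a x₀) (a x₁) (b x₁) (c x₁) (c x₂)
    - F (a x₀) (a x₁) (b x₁) (b x₂) (c x₂) + F (a x₀) (a x₁) (a x₂) (b x₂) (c x₂)

@[simp] lemma tri1_apply (a b c : X → Y) (F : Y → Y → Y → N) (x₀ : X) :
    tri1 a b c F x₀ = F (a x₀) (b x₀) (c x₀) := rfl

@[simp] lemma tri2_apply (a b c : X → Y) (F : Y → Y → Y → Y → N) (x₀ x₁ : X) :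
    tri2 a b c F x₀ x₁ =
      F (a x₀) (b x₀) (c x₀) (c x₁) - F (a x₀) (b x₀) (b x₁) (c x₁)
        + F (a x₀) (a x₁) (b x₁) (c x₁) := rfl

@[simp] lemma tri3_apply (a b c : X → Y) (F : Y → Y → Y → Y → Y → N) (x₀ x₁ x₂ : X) :
    tri3 a b c F x₀ x₁ x₂ =
      F (a x₀) (b x₀) (c x₀) (c x₁) (c x₂) - F (a x₀) (b x₀) (b x₁) (c x₁) (c x₂)
        + F (a x₀) (b x₀) (b x₁) (b x₂) (c x₂) + F (a x₀) (a x₁) (b x₁) (c x₁) (c x₂)
        - F (a x₀) (a x₁) (b x₁) (b x₂) (c x₂) + F (a x₀) (a x₁) (a x₂) (b x₂) (c x₂) := rfl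

@[simp] lemma tri1_zero (a b c : X → Y) : tri1 a b c (0 : Y → Y → Y → N) = 0 := by
  funext x₀; simp

@[simp] lemma tri2_zero (a b c : X → Y) : tri2 a b c (0 : Y → Y → Y → Y → N) = 0 := by
  funext x₀ x₁; simp

@[simp] lemma tri3_zero (a b c : X → Y) : tri3 a b c (0 : Y → Y → Y → Y → Y → N) = 0 := by
  funext x₀ x₁ x₂; simp

/-- second-order homotopy identity, degree `1` -/
theorem prism1_add_sub (a b c : X → Y) (F : Y → Y → N) :
    prism1 a b F + prism1 b c F - prism1 a c F = tri1 a b c (hd1 F) := by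
  funext x₀
  simp only [Pi.add_apply, Pi.sub_apply, prism1_apply, tri1_apply, hd1_apply]
  abel

/-- second-order homotopy identity, degree `2` -/
theorem prism2_add_sub (a b c : X → Y) (F : Y → Y → Y → N) :
    prism2 a b F + prism2 b c F - prism2 a c F = tri2 a b c (hd2 F) - hd0 (tri1 a b c F) := by
  funext x₀ x₁
  simp only [Pi.add_apply, Pi.sub_apply, prism2_apply, tri1_apply, tri2_apply, hd2_apply,
    hd0_apply]
  abel

/-- second-order homotopy identity, degree `3` -/
theorem prism3_add_sub (a b c : X → Y) (F : Y → Y → Y → Y → N) :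
    prism3 a b F + prism3 b c F - prism3 a c F = tri3 a b c (hd3 F) - hd1 (tri2 a b c F) := by
  funext x₀ x₁ x₂
  simp only [Pi.add_apply, Pi.sub_apply, prism3_apply, tri2_apply, tri3_apply, hd3_apply,
    hd1_apply]
  abel

/-- on `1`-cocycles the prisms are additive along `a → b → c` -/
theorem prism1_add_of_cocycle (a b c : X → Y) {F : Y → Y → N} (hF : hd1 F = 0) :
    prism1 a b F + prism1 b c F = prism1 a c F := by
  have h := prism1_add_sub a b c F
  rw [hF, tri1_zero, sub_eq_zero] at h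
  exact h

/-- on `2`-cocycles the prisms are additive along `a → b → c` up to an explicit coboundary -/
theorem prism2_add_of_cocycle (a b c : X → Y) {F : Y → Y → Y → N} (hF : hd2 F = 0) :
    prism2 a b F + prism2 b c F = prism2 a c F - hd0 (tri1 a b c F) := by
  have h := prism2_add_sub a b c F
  rw [hF, tri2_zero, zero_sub, sub_eq_iff_eq_add] at h
  rw [h]
  abel

/-- on `3`-cocycles the prisms are additive along `a → b → c` up to an explicit coboundary -/
theorem prism3_add_of_cocycle (a b c : X → Y) {F : Y → Y → Y → Y → N} (hF : hd3 F = 0) :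
    prism3 a b F + prism3 b c F = prism3 a c F - hd1 (tri2 a b c F) := by
  have h := prism3_add_sub a b c F
  rw [hF, tri3_zero, zero_sub, sub_eq_iff_eq_add] at h
  rw [h]
  abel

/-- the prism of a map with itself, degree `1` -/
lemma prism1_self (a : X → Y) (F : Y → Y → N) : prism1 a a F = fun x₀ => F (a x₀) (a x₀) := rfl

/-- the prism of a map with itself, degree `2` -/
lemma prism2_self (a : X → Y) (F : Y → Y → Y → N) :
    prism2 a a F = fun x₀ x₁ => F (a x₀) (a x₀) (a x₁) - F (a x₀) (a x₁) (a x₁) := rfl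

/-- the prism of a map with itself, degree `3` -/
lemma prism3_self (a : X → Y) (F : Y → Y → Y → Y → N) :
    prism3 a a F = fun x₀ x₁ x₂ => F (a x₀) (a x₀) (a x₁) (a x₂)
      - F (a x₀) (a x₁) (a x₁) (a x₂) + F (a x₀) (a x₁) (a x₂) (a x₂) := rfl

end Fermat.Agent.S55.helper38
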