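import Mathlib
import Fermat.Agent.S55.helper35_Prism
import Fermat.Agent.S55.helper38_Prism2

/-!
# S55 / SH-P-SURJ (helper49): the cone homotopy `Ψ ∘ c ≃ id` in the big scalar model

Purely combinatorial (no group structure).  `X` is the global set, `Xw` a local set,
`ι : Xw → X` the localisation, `ρ : X → X`, `ρw : Xw → Xw` the two "retraction" endomorphisms and
`b : Xw → X` an auxiliary map.  For a cone cochain `(F, Fw)` (homogeneous scalar cochains) put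

* `Φ (F, Fw) = (ρ^* F, ρw^* Fw + P(ι ∘ ρw, b) F + P(b, ρ ∘ ι) F)`   (this is `Ψ ∘ c`),
* `W (F, Fw) = (- P(id, ρ) F, P(id, ρw) Fw - T(ι, ι ∘ ρw, ρ ∘ ι) F - T(ι ∘ ρw, b, ρ ∘ ι) F)`.

Then for cone cocycles (`d F = 0`, `ι^* F = d Fw`) one has `(F, Fw) - Φ (F, Fw) = D (W (F, Fw))`,
where `D (F, Fw) = (d F, ι^* F - d Fw)` is the cone differential.
-/

set_option autoImplicit false
set_option linter.unusedSectionVars false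

namespace Fermat.Agent.S55.helper49

open Fermat.Agent.S55.helper35 Fermat.Agent.S55.helper38

variable {X Xw N : Type*} [AddCommGroup N]
  (ι : Xw → X) (ρ : X → X) (ρw : Xw → Xw) (b : Xw → X)

/-! ### cone degree `2` -/

/-- local component of `Φ = Ψ ∘ c` in cone degree `2` -/
def ps_phiL₁ (F : X → X → X → N) (Fw : Xw → Xw → N) : Xw → Xw → N :=
  pull1 ρw Fw + prism2 (ι ∘ ρw) b F + prism2 b (ρ ∘ ι) F

/-- global component of the homotopy in cone degree `2` -/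
def ps_homG₁ (F : X → X → X → N) : X → X → N := - prism2 id ρ F

/-- local component of the homotopy in cone degree `2` -/
def ps_homL₀ (F : X → X → X → N) (Fw : Xw → Xw → N) : Xw → N :=
  prism1 id ρw Fw - tri1 ι (ι ∘ ρw) (ρ ∘ ι) F - tri1 (ι ∘ ρw) b (ρ ∘ ι) F

lemma ps_phiL₁_apply (F : X → X → X → N) (Fw : Xw → Xw → N) (x₀ x₁ : Xw) :
    ps_phiL₁ ι ρ ρw b F Fw x₀ x₁ =
      Fw (ρw x₀) (ρw x₁)
        + (F (ι (ρw x₀)) (b x₀) (b x₁) - F (ι (ρw x₀)) (ι (ρw x₁)) (b x₁))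
        + (F (b x₀) (ρ (ι x₀)) (ρ (ι x₁)) - F (b x₀) (b x₁) (ρ (ι x₁))) := rfl

lemma ps_homG₁_apply (F : X → X → X → N) (x₀ x₁ : X) :
    ps_homG₁ ρ F x₀ x₁ = - (F x₀ (ρ x₀) (ρ x₁) - F x₀ x₁ (ρ x₁)) := rfl

lemma ps_homL₀_apply (F : X → X → X → N) (Fw : Xw → Xw → N) (x₀ : Xw) :
    ps_homL₀ ι ρ ρw b F Fw x₀ =
      Fw x₀ (ρw x₀) - F (ι x₀) (ι (ρw x₀)) (ρ (ι x₀)) - F (ι (ρw x₀)) (b x₀) (ρ (ι x₀)) := rfl

/-- global part of the homotopy identity, cone degree `2` -/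
theorem ps_homotopy₂_glob (F : X → X → X → N) (hF : hd2 F = 0) :
    hd1 (ps_homG₁ ρ F) = F - pull2 ρ F := by
  have h := pull2_sub_pull2_of_cocycle id ρ F hF
  rw [pull2_id] at h
  unfold ps_homG₁
  rw [hd1_neg, ← h]
  abel

/-- local part of the homotopy identity, cone degree `2` -/
theorem ps_homotopy₂_loc (F : X → X → X → N) (Fw : Xw → Xw → N) (hF : hd2 F = 0)
    (hFw : pull2 ι F = hd1 Fw) :
    pull1 ι (ps_homG₁ ρ F) - hd0 (ps_homL₀ ι ρ ρw b F Fw) = Fw - ps_phiL₁ ι ρ ρw b F Fw := by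
  have e1 := hd0_prism1_add id ρw Fw
  rw [← hFw, pull1_id] at e1
  have e1' : prism2 id ρw (pull2 ι F) = prism2 ι (ι ∘ ρw) F := rfl
  rw [e1'] at e1
  have e2 := prism2_add_of_cocycle ι (ι ∘ ρw) (ρ ∘ ι) hF
  have e3 := prism2_add_of_cocycle (ι ∘ ρw) b (ρ ∘ ι) hF
  have e4 : pull1 ι (ps_homG₁ ρ F) = - prism2 ι (ρ ∘ ι) F := rfl
  unfold ps_homL₀ ps_phiL₁
  rw [e4, hd0_sub, hd0_sub]
  funext x₀ x₁
  have h1 := congrFun (congrFun e1 x₀) x₁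
  have h2 := congrFun (congrFun e2 x₀) x₁
  have h3 := congrFun (congrFun e3 x₀) x₁
  simp only [Pi.add_apply, Pi.sub_apply, Pi.neg_apply] at h1 h2 h3 ⊢
  have h1' : hd0 (prism1 id ρw Fw) x₀ x₁ =
      pull1 ρw Fw x₀ x₁ - Fw x₀ x₁ - prism2 ι (ι ∘ ρw) F x₀ x₁ := by
    rw [← h1]; abel
  have h2' : prism2 ι (ρ ∘ ι) F x₀ x₁ = prism2 ι (ι ∘ ρw) F x₀ x₁
      + prism2 (ι ∘ ρw) (ρ ∘ ι) F x₀ x₁ + hd0 (tri1 ι (ι ∘ ρw) (ρ ∘ ι) F) x₀ x₁ := by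
    rw [h2]; abel
  have h3' : prism2 (ι ∘ ρw) (ρ ∘ ι) F x₀ x₁ = prism2 (ι ∘ ρw) b F x₀ x₁
      + prism2 b (ρ ∘ ι) F x₀ x₁ + hd0 (tri1 (ι ∘ ρw) b (ρ ∘ ι) F) x₀ x₁ := by
    rw [h3]; abel
  rw [h1', h2', h3']
  abel

/-! ### cone degree `3` -/

/-- local component of `Φ = Ψ ∘ c` in cone degree `3` -/
def ps_phiL₂ (F : X → X → X → X → N) (Fw : Xw → Xw → Xw → N) : Xw → Xw → Xw → N :=
  pull2 ρw Fw + prism3 (ι ∘ ρw) b F + prism3 b (ρ ∘ ι) F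

/-- global component of the homotopy in cone degree `3` -/
def ps_homG₂ (F : X → X → X → X → N) : X → X → X → N := - prism3 id ρ F

/-- local component of the homotopy in cone degree `3` -/
def ps_homL₁ (F : X → X → X → X → N) (Fw : Xw → Xw → Xw → N) : Xw → Xw → N :=
  prism2 id ρw Fw - tri2 ι (ι ∘ ρw) (ρ ∘ ι) F - tri2 (ι ∘ ρw) b (ρ ∘ ι) F

lemma ps_phiL₂_apply (F : X → X → X → X → N) (Fw : Xw → Xw → Xw → N) (x₀ x₁ x₂ : Xw) :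
    ps_phiL₂ ι ρ ρw b F Fw x₀ x₁ x₂ =
      Fw (ρw x₀) (ρw x₁) (ρw x₂)
        + (F (ι (ρw x₀)) (b x₀) (b x₁) (b x₂) - F (ι (ρw x₀)) (ι (ρw x₁)) (b x₁) (b x₂)
            + F (ι (ρw x₀)) (ι (ρw x₁)) (ι (ρw x₂)) (b x₂))
        + (F (b x₀) (ρ (ι x₀)) (ρ (ι x₁)) (ρ (ι x₂)) - F (b x₀) (b x₁) (ρ (ι x₁)) (ρ (ι x₂))
            + F (b x₀) (b x₁) (b x₂) (ρ (ι x₂))) := rfl

lemma ps_homG₂_apply (F : X → X → X → X → N) (x₀ x₁ x₂ : X) :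
    ps_homG₂ ρ F x₀ x₁ x₂ =
      - (F x₀ (ρ x₀) (ρ x₁) (ρ x₂) - F x₀ x₁ (ρ x₁) (ρ x₂) + F x₀ x₁ x₂ (ρ x₂)) := rfl

lemma ps_homL₁_apply (F : X → X → X → X → N) (Fw : Xw → Xw → Xw → N) (x₀ x₁ : Xw) :
    ps_homL₁ ι ρ ρw b F Fw x₀ x₁ =
      (Fw x₀ (ρw x₀) (ρw x₁) - Fw x₀ x₁ (ρw x₁))
        - (F (ι x₀) (ι (ρw x₀)) (ρ (ι x₀)) (ρ (ι x₁)) - F (ι x₀) (ι (ρw x₀)) (ι (ρw x₁)) (ρ (ι x₁))
            + F (ι x₀) (ι x₁) (ι (ρw x₁)) (ρ (ι x₁)))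
        - (F (ι (ρw x₀)) (b x₀) (ρ (ι x₀)) (ρ (ι x₁)) - F (ι (ρw x₀)) (b x₀) (b x₁) (ρ (ι x₁))
            + F (ι (ρw x₀)) (ι (ρw x₁)) (b x₁) (ρ (ι x₁))) := rfl

/-- global part of the homotopy identity, cone degree `3` -/
theorem ps_homotopy₃_glob (F : X → X → X → X → N) (hF : hd3 F = 0) :
    hd2 (ps_homG₂ ρ F) = F - pull3 ρ F := by
  have h := pull3_sub_pull3_of_cocycle id ρ F hF
  rw [pull3_id] at h
  unfold ps_homG₂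
  rw [hd2_neg, ← h]
  abel

/-- local part of the homotopy identity, cone degree `3` -/
theorem ps_homotopy₃_loc (F : X → X → X → X → N) (Fw : Xw → Xw → Xw → N) (hF : hd3 F = 0)
    (hFw : pull3 ι F = hd2 Fw) :
    pull2 ι (ps_homG₂ ρ F) - hd1 (ps_homL₁ ι ρ ρw b F Fw) = Fw - ps_phiL₂ ι ρ ρw b F Fw := by
  have e1 := hd1_prism2_add id ρw Fw
  rw [← hFw, pull2_id] at e1
  have e1' : prism3 id ρw (pull3 ι F) = prism3 ι (ι ∘ ρw) F := rfl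
  rw [e1'] at e1
  have e2 := prism3_add_of_cocycle ι (ι ∘ ρw) (ρ ∘ ι) hF
  have e3 := prism3_add_of_cocycle (ι ∘ ρw) b (ρ ∘ ι) hF
  have e4 : pull2 ι (ps_homG₂ ρ F) = - prism3 ι (ρ ∘ ι) F := rfl
  unfold ps_homL₁ ps_phiL₂
  rw [e4, hd1_sub, hd1_sub]
  funext x₀ x₁ x₂
  have h1 := congrFun (congrFun (congrFun e1 x₀) x₁) x₂
  have h2 := congrFun (congrFun (congrFun e2 x₀) x₁) x₂
  have h3 := congrFun (congrFun (congrFun e3 x₀) x₁) x₂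
  simp only [Pi.add_apply, Pi.sub_apply, Pi.neg_apply] at h1 h2 h3 ⊢
  have h1' : hd1 (prism2 id ρw Fw) x₀ x₁ x₂ =
      pull2 ρw Fw x₀ x₁ x₂ - Fw x₀ x₁ x₂ - prism3 ι (ι ∘ ρw) F x₀ x₁ x₂ := by
    rw [← h1]; abel
  have h2' : prism3 ι (ρ ∘ ι) F x₀ x₁ x₂ = prism3 ι (ι ∘ ρw) F x₀ x₁ x₂
      + prism3 (ι ∘ ρw) (ρ ∘ ι) F x₀ x₁ x₂ + hd1 (tri2 ι (ι ∘ ρw) (ρ ∘ ι) F) x₀ x₁ x₂ := by
    rw [h2]; abel
  have h3' : prism3 (ι ∘ ρw) (ρ ∘ ι) F x₀ x₁ x₂ = prism3 (ι ∘ ρw) b F x₀ x₁ x₂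
      + prism3 b (ρ ∘ ι) F x₀ x₁ x₂ + hd1 (tri2 (ι ∘ ρw) b (ρ ∘ ι) F) x₀ x₁ x₂ := by
    rw [h3]; abel
  rw [h1', h2', h3']
  abel

end Fermat.Agent.S55.helper49
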