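import Mathlib
import Fermat.Agent.S55.helper62_ShConeDefs
import Fermat.Agent.S55.helper38_ShTrB
import Fermat.Agent.S55.helper49_ShHomotopy

/-!
# S55 / SH-P-SURJ (helper49, task 439): `Ψ ∘ c ≃ id` on cone cocycles

Setting of module SH: `U ≤ G` open of finite index, `χ|_U = 1`, `B = k[G/U]^*(χ)` (`Bp k U χ`),
`D : ShData L U`, `cB_n` the evaluation-direction cone maps of `helper62_ShConeDefs`.

MAIN RESULTS (fields `P2_surj`, `P3_surj` of `helper53.ShTransportP`):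

* `ps_P2_surj`, `ps_P3_surj` : for every map `P_n` from cone cochains of `(U, k)` to cone cochains
  of `(G, B)` whose big-model components are helper35's `Ψ`
  (`bigG_n (P y').1 = retr^* (homog y'.1)`,
   `bigL_(n-1) ((P y').2 v) = retr_w^* (homog (y'.2 (v,j))) + prism (β₀, β₁) (homog y'.1)`),
  and every cone cocycle `y` of `(G, B)`:  `y - P_n (cB_n y) ∈ Bc_n L B`
  (so `y' := cB_n y` is the witness; `cB_n y ∈ Zc_n` is C-MEM, taken as hypothesis `hC`).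
* `ps_dc_w₁`, `ps_dc_w₂` : the explicit identity `dc (w y) = y - z` for any `z` with the big-model
  components of `Ψ (c y)`; `ps_w₁_mem`, `ps_w₂_mem` : level-constancy of the homotopy `w y`.

REUSABLE DICTIONARY between `B`-valued inhomogeneous cochains and the big scalar model:
`ps_mkB`, `ps_val`, `ps_ext` (coordinates of `B`), `ps_bigG_n_eq`, `ps_bigL_n_eq` (explicit
formulas), `ps_bigG₂_d`, `ps_bigG₃_d`, `ps_hd3_bigG₃`, `ps_bigL₁_d`, `ps_bigL₂_d`, `ps_bigL₃_d`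
(differentials), `ps_bigL_n_res` (restriction = pull-back along `iotaMap`), `ps_liftG_n`,
`ps_liftL_n` (lifts), `ps_bigG_n_lift`, `ps_bigL_n_lift` (`big ∘ lift = id` on invariant cochains),
`ps_bigG_n_inj`, `ps_bigL_n_inj` (injectivity of `big`), `ps_lInv_*`, `ps_rInv_*`
(left invariance / level-constancy), `ps_orbitEquiv` (double coset decomposition as an `Equiv`).
-/

set_option autoImplicit false
set_option linter.unusedSectionVars false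
set_option linter.unusedVariables false

open groupCohomology

noncomputable section

namespace Fermat.Agent.S55.helper49

open Fermat.Agent.S55 Fermat.Agent.S55.helper35 Fermat.Agent.S55.helper38
  Fermat.Agent.S55.helper62

variable {k G : Type} [Field k] [Group G] {𝒩 : Levels G} {ι : Type} {L : LocalData G 𝒩 ι}
  {U : Subgroup G}

/-! ### The module `B = k[G/U]^*(χ)` in coordinates -/

section Coord

variable (χ : G →* kˣ)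

/-- the functional on `k[G/U]` with value `φ c` at the basis vector `e_c` -/
def ps_mkB (φ : G ⧸ U → k) : Bp k U χ :=
  ((Finsupp.linearCombination k φ) ∘ₗ (MonoidAlgebra.coeffLinearEquiv k).toLinearMap :
    MonoidAlgebra k (G ⧸ U) →ₗ[k] k)

/-- the value of `f ∈ B` at the basis vector `e_c` -/
def ps_val (f : Bp k U χ) (c : G ⧸ U) : k :=
  (f : Module.Dual k (permRep k U)) (MonoidAlgebra.single c (1 : k))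

@[simp] lemma ps_val_mkB (φ : G ⧸ U → k) (c : G ⧸ U) : ps_val χ (ps_mkB χ φ) c = φ c := by
  change (Finsupp.linearCombination k φ) ((MonoidAlgebra.single c (1 : k)).coeff) = φ c
  rw [MonoidAlgebra.coeff_single, Finsupp.linearCombination_single, one_smul]

lemma ps_ext {f f' : Bp k U χ} (h : ∀ c, ps_val χ f c = ps_val χ f' c) : f = f' := by
  have : (f : MonoidAlgebra k (G ⧸ U) →ₗ[k] k) = f' := by
    apply MonoidAlgebra.lhom_ext'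
    intro c
    apply LinearMap.ext
    intro r
    have h1 := h c
    change (f : MonoidAlgebra k (G ⧸ U) →ₗ[k] k) (MonoidAlgebra.single c r)
      = (f' : MonoidAlgebra k (G ⧸ U) →ₗ[k] k) (MonoidAlgebra.single c r)
    have e : MonoidAlgebra.single c r = r • MonoidAlgebra.single c (1 : k) := by
      rw [MonoidAlgebra.smul_single', mul_one]
    rw [e, map_smul, map_smul]
    exact congrArg (r • ·) h1
  exact this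

lemma ps_val_add (f f' : Bp k U χ) (c : G ⧸ U) :
    ps_val χ (f + f') c = ps_val χ f c + ps_val χ f' c := rfl

lemma ps_val_sub (f f' : Bp k U χ) (c : G ⧸ U) :
    ps_val χ (f - f') c = ps_val χ f c - ps_val χ f' c := rfl

lemma ps_val_neg (f : Bp k U χ) (c : G ⧸ U) : ps_val χ (-f) c = - ps_val χ f c := rfl

lemma ps_val_rho (g : G) (f : Bp k U χ) (c : G ⧸ U) :
    ps_val χ ((Bp k U χ).ρ g f) c = (χ g : k) * ps_val χ f (g⁻¹ • c) := by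
  unfold ps_val
  rw [Rep.dualTwist_ρ_apply]
  simp only [LinearMap.smul_apply, LinearMap.comp_apply, smul_eq_mul]
  congr 2
  exact Representation.ofMulAction_single (k := k) (G := G) (H := G ⧸ U) g⁻¹ c (1 : k)

lemma ps_evB_eq (f : Bp k U χ) : evB U χ f = ps_val χ f ((1 : G) : G ⧸ U) := rfl

lemma ps_evB_rho (g : G) (f : Bp k U χ) :
    evB U χ ((Bp k U χ).ρ g f) = (χ g : k) * ps_val χ f ((g⁻¹ : G) : G ⧸ U) := by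
  rw [ps_evB_eq, ps_val_rho, MulAction.Quotient.smul_mk, smul_eq_mul, mul_one]

end Coord


/-! ### Invariance predicates for homogeneous scalar cochains -/

section Inv

variable {Γ : Type} [Group Γ]

/-- left invariance under a subgroup -/
def ps_LInv₀ (H : Subgroup Γ) (F : Γ → k) : Prop := ∀ u ∈ H, ∀ x₀, F (u * x₀) = F x₀
def ps_LInv₁ (H : Subgroup Γ) (F : Γ → Γ → k) : Prop :=
  ∀ u ∈ H, ∀ x₀ x₁, F (u * x₀) (u * x₁) = F x₀ x₁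
def ps_LInv₂ (H : Subgroup Γ) (F : Γ → Γ → Γ → k) : Prop :=
  ∀ u ∈ H, ∀ x₀ x₁ x₂, F (u * x₀) (u * x₁) (u * x₂) = F x₀ x₁ x₂
def ps_LInv₃ (H : Subgroup Γ) (F : Γ → Γ → Γ → Γ → k) : Prop :=
  ∀ u ∈ H, ∀ x₀ x₁ x₂ x₃, F (u * x₀) (u * x₁) (u * x₂) (u * x₃) = F x₀ x₁ x₂ x₃

/-- right invariance under a subgroup in all variables but the first -/
def ps_RInv₁ (M : Subgroup Γ) (F : Γ → Γ → k) : Prop :=
  ∀ x₀ x₁, ∀ s₁ ∈ M, F x₀ (x₁ * s₁) = F x₀ x₁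
def ps_RInv₂ (M : Subgroup Γ) (F : Γ → Γ → Γ → k) : Prop :=
  ∀ x₀ x₁ x₂, ∀ s₁ ∈ M, ∀ s₂ ∈ M, F x₀ (x₁ * s₁) (x₂ * s₂) = F x₀ x₁ x₂
def ps_RInv₃ (M : Subgroup Γ) (F : Γ → Γ → Γ → Γ → k) : Prop :=
  ∀ x₀ x₁ x₂ x₃, ∀ s₁ ∈ M, ∀ s₂ ∈ M, ∀ s₃ ∈ M,
    F x₀ (x₁ * s₁) (x₂ * s₂) (x₃ * s₃) = F x₀ x₁ x₂ x₃

end Inv

/-! ### The global dictionary -/

section Glob

variable (χ : G →* kˣ)

lemma ps_bigG₁_eq (y : G → Bp k U χ) (x₀ x₁ : G) :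
    bigG₁ χ y x₀ x₁ = (χ x₀ : k) * ps_val χ (y (x₀⁻¹ * x₁)) ((x₀⁻¹ : G) : G ⧸ U) := by
  unfold bigG₁
  rw [homog1_apply, ps_evB_rho]

lemma ps_bigG₂_eq (y : G × G → Bp k U χ) (x₀ x₁ x₂ : G) :
    bigG₂ χ y x₀ x₁ x₂ =
      (χ x₀ : k) * ps_val χ (y (x₀⁻¹ * x₁, x₁⁻¹ * x₂)) ((x₀⁻¹ : G) : G ⧸ U) := by
  unfold bigG₂
  rw [homog2_apply, ps_evB_rho]

lemma ps_bigG₃_eq (y : G × G × G → Bp k U χ) (x₀ x₁ x₂ x₃ : G) :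
    bigG₃ χ y x₀ x₁ x₂ x₃ =
      (χ x₀ : k) * ps_val χ (y (x₀⁻¹ * x₁, x₁⁻¹ * x₂, x₂⁻¹ * x₃)) ((x₀⁻¹ : G) : G ⧸ U) := by
  unfold bigG₃
  rw [homog3_apply, ps_evB_rho]

/-- lift of a scalar homogeneous `1`-cochain to a `B`-valued inhomogeneous `1`-cochain -/
def ps_liftG₁ (F : G → G → k) : G → Bp k U χ :=
  fun g => ps_mkB χ (fun c => (χ (sec U c) : k) * F (sec U c)⁻¹ ((sec U c)⁻¹ * g))

/-- lift of a scalar homogeneous `2`-cochain to a `B`-valued inhomogeneous `2`-cochain -/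
def ps_liftG₂ (F : G → G → G → k) : G × G → Bp k U χ :=
  fun g => ps_mkB χ (fun c => (χ (sec U c) : k) *
    F (sec U c)⁻¹ ((sec U c)⁻¹ * g.1) ((sec U c)⁻¹ * (g.1 * g.2)))

lemma ps_chi_inv_mul (g : G) : (χ g⁻¹ : k) * (χ g : k) = 1 := by
  rw [← Units.val_mul, ← map_mul, inv_mul_cancel, map_one, Units.val_one]

lemma ps_chi_mul_inv (g : G) : (χ g : k) * (χ g⁻¹ : k) = 1 := by
  rw [← Units.val_mul, ← map_mul, mul_inv_cancel, map_one, Units.val_one]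

lemma ps_val_eq_bigG₂ (y : G × G → Bp k U χ) (g : G × G) (c : G ⧸ U) :
    ps_val χ (y g) c = (χ (sec U c) : k) *
      bigG₂ χ y (sec U c)⁻¹ ((sec U c)⁻¹ * g.1) ((sec U c)⁻¹ * (g.1 * g.2)) := by
  rw [ps_bigG₂_eq, ← mul_assoc, ps_chi_mul_inv, one_mul, inv_inv, mk_sec]
  congr 2
  refine Prod.ext ?_ ?_
  · simp
  · simp only [mul_inv_rev, inv_inv]
    group

lemma ps_val_eq_bigG₃ (y : G × G × G → Bp k U χ) (g : G × G × G) (c : G ⧸ U) :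
    ps_val χ (y g) c = (χ (sec U c) : k) *
      bigG₃ χ y (sec U c)⁻¹ ((sec U c)⁻¹ * g.1) ((sec U c)⁻¹ * (g.1 * g.2.1))
        ((sec U c)⁻¹ * (g.1 * g.2.1 * g.2.2)) := by
  rw [ps_bigG₃_eq, ← mul_assoc, ps_chi_mul_inv, one_mul, inv_inv, mk_sec]
  congr 2
  refine Prod.ext ?_ (Prod.ext ?_ ?_)
  · simp
  · simp only [mul_inv_rev, inv_inv]
    group
  · simp only [mul_inv_rev, inv_inv]
    group

lemma ps_bigG₂_inj {y y' : G × G → Bp k U χ} (h : bigG₂ χ y = bigG₂ χ y') : y = y' := by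
  funext g
  apply ps_ext
  intro c
  rw [ps_val_eq_bigG₂, ps_val_eq_bigG₂, h]

lemma ps_bigG₃_inj {y y' : G × G × G → Bp k U χ} (h : bigG₃ χ y = bigG₃ χ y') : y = y' := by
  funext g
  apply ps_ext
  intro c
  rw [ps_val_eq_bigG₃, ps_val_eq_bigG₃, h]


/-! #### differentials -/

lemma ps_bigG₂_d (y : G → Bp k U χ) :
    bigG₂ χ ((d₁₂ (Bp k U χ)).hom y) = hd1 (bigG₁ χ y) := by
  funext x₀ x₁ x₂
  have h := congrFun (congrFun (congrFun (hd1_homog1 (Bp k U χ) y) x₀) x₁) x₂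
  unfold bigG₂
  rw [← h]
  simp only [hd1_apply, map_add, map_sub, bigG₁]

lemma ps_bigG₃_d (y : G × G → Bp k U χ) :
    bigG₃ χ ((d₂₃ (Bp k U χ)).hom y) = hd2 (bigG₂ χ y) := by
  funext x₀ x₁ x₂ x₃
  have h := congrFun (congrFun (congrFun (congrFun (hd2_homog2 (Bp k U χ) y) x₀) x₁) x₂) x₃
  unfold bigG₃
  rw [← h]
  simp only [hd2_apply, map_add, map_sub, bigG₂]

lemma ps_hd3_bigG₃ (y : G × G × G → Bp k U χ) (hy : d₃₄ (Bp k U χ) y = 0) :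
    hd3 (bigG₃ χ y) = 0 := by
  funext x₀ x₁ x₂ x₃ x₄
  have h := congrFun (congrFun (congrFun (congrFun (congrFun
    (hd3_homog3 (Bp k U χ) y) x₀) x₁) x₂) x₃) x₄
  rw [hy] at h
  have h2 : evB U χ (hd3 (homog3 (Bp k U χ) y) x₀ x₁ x₂ x₃ x₄) = 0 := by
    rw [h]
    simp
  simp only [hd3_apply, map_add, map_sub] at h2
  simpa only [hd3_apply, bigG₃, Pi.zero_apply] using h2

lemma ps_bigG₂_sub (y y' : G × G → Bp k U χ) :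
    bigG₂ χ (y - y') = bigG₂ χ y - bigG₂ χ y' := by
  funext x₀ x₁ x₂
  simp only [bigG₂, homog2_apply, Pi.sub_apply, map_sub]

lemma ps_bigG₃_sub (y y' : G × G × G → Bp k U χ) :
    bigG₃ χ (y - y') = bigG₃ χ y - bigG₃ χ y' := by
  funext x₀ x₁ x₂ x₃
  simp only [bigG₃, homog3_apply, Pi.sub_apply, map_sub]

/-! #### left invariance -/

lemma ps_mk_mul_inv_eq {u : G} (hu : u ∈ U) (x : G) :
    (((u * x)⁻¹ : G) : G ⧸ U) = ((x⁻¹ : G) : G ⧸ U) := by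
  rw [QuotientGroup.eq]
  have e : ((u * x)⁻¹)⁻¹ * x⁻¹ = u := by group
  rw [e]
  exact hu

lemma ps_chi_mul_of_mem (hχ : ∀ g ∈ U, χ g = 1) {u : G} (hu : u ∈ U) (x : G) :
    χ (u * x) = χ x := by
  rw [map_mul, hχ u hu, one_mul]

lemma ps_lInv_bigG₁ (hχ : ∀ g ∈ U, χ g = 1) (y : G → Bp k U χ) : ps_LInv₁ U (bigG₁ χ y) := by
  intro u hu x₀ x₁
  rw [ps_bigG₁_eq, ps_bigG₁_eq, ps_mk_mul_inv_eq hu, ps_chi_mul_of_mem χ hχ hu]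
  have e1 : (u * x₀)⁻¹ * (u * x₁) = x₀⁻¹ * x₁ := by group
  rw [e1]

lemma ps_lInv_bigG₂ (hχ : ∀ g ∈ U, χ g = 1) (y : G × G → Bp k U χ) :
    ps_LInv₂ U (bigG₂ χ y) := by
  intro u hu x₀ x₁ x₂
  rw [ps_bigG₂_eq, ps_bigG₂_eq, ps_mk_mul_inv_eq hu, ps_chi_mul_of_mem χ hχ hu]
  have e1 : (u * x₀)⁻¹ * (u * x₁) = x₀⁻¹ * x₁ := by group
  have e2 : (u * x₁)⁻¹ * (u * x₂) = x₁⁻¹ * x₂ := by group
  rw [e1, e2]

lemma ps_lInv_bigG₃ (hχ : ∀ g ∈ U, χ g = 1) (y : G × G × G → Bp k U χ) :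
    ps_LInv₃ U (bigG₃ χ y) := by
  intro u hu x₀ x₁ x₂ x₃
  rw [ps_bigG₃_eq, ps_bigG₃_eq, ps_mk_mul_inv_eq hu, ps_chi_mul_of_mem χ hχ hu]
  have e1 : (u * x₀)⁻¹ * (u * x₁) = x₀⁻¹ * x₁ := by group
  have e2 : (u * x₁)⁻¹ * (u * x₂) = x₁⁻¹ * x₂ := by group
  have e3 : (u * x₂)⁻¹ * (u * x₃) = x₂⁻¹ * x₃ := by group
  rw [e1, e2, e3]

/-! #### `big ∘ lift = id` on invariant cochains -/

lemma ps_sec_inv_spec (x₀ : G) :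
    ∃ u ∈ U, (sec U ((x₀⁻¹ : G) : G ⧸ U))⁻¹ = u * x₀ := by
  refine ⟨(sec U ((x₀⁻¹ : G) : G ⧸ U))⁻¹ * x₀⁻¹, ?_, by group⟩
  have h := sec_mk_mem U x₀⁻¹
  rw [inv_inv] at h
  have := U.inv_mem h
  simpa using this

lemma ps_chi_sec (hχ : ∀ g ∈ U, χ g = 1) (x₀ : G) :
    (χ x₀ : k) * (χ (sec U ((x₀⁻¹ : G) : G ⧸ U)) : k) = 1 := by
  obtain ⟨u, hu, h⟩ := ps_sec_inv_spec (U := U) x₀
  have h2 : sec U ((x₀⁻¹ : G) : G ⧸ U) = x₀⁻¹ * u⁻¹ := by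
    rw [← inv_inv (sec U ((x₀⁻¹ : G) : G ⧸ U)), h]
    group
  rw [h2, map_mul, hχ u⁻¹ (U.inv_mem hu), mul_one]
  exact ps_chi_mul_inv χ x₀

lemma ps_bigG₁_lift (hχ : ∀ g ∈ U, χ g = 1) {F : G → G → k} (hF : ps_LInv₁ U F) :
    bigG₁ χ (ps_liftG₁ (U := U) χ F) = F := by
  funext x₀ x₁
  rw [ps_bigG₁_eq]
  unfold ps_liftG₁
  rw [ps_val_mkB, ← mul_assoc, ps_chi_sec χ hχ, one_mul]
  obtain ⟨u, hu, h⟩ := ps_sec_inv_spec (U := U) x₀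
  rw [h]
  have e : u * x₀ * (x₀⁻¹ * x₁) = u * x₁ := by group
  rw [e]
  exact hF u hu x₀ x₁

lemma ps_bigG₂_lift (hχ : ∀ g ∈ U, χ g = 1) {F : G → G → G → k} (hF : ps_LInv₂ U F) :
    bigG₂ χ (ps_liftG₂ (U := U) χ F) = F := by
  funext x₀ x₁ x₂
  rw [ps_bigG₂_eq]
  unfold ps_liftG₂
  rw [ps_val_mkB, ← mul_assoc, ps_chi_sec χ hχ, one_mul]
  obtain ⟨u, hu, h⟩ := ps_sec_inv_spec (U := U) x₀
  rw [h]
  have e1 : u * x₀ * (x₀⁻¹ * x₁) = u * x₁ := by group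
  have e2 : u * x₀ * (x₀⁻¹ * x₁ * (x₁⁻¹ * x₂)) = u * x₂ := by group
  simp only [e1, e2]
  exact hF u hu x₀ x₁ x₂

/-! #### right invariance and level-constancy -/

lemma ps_rInv_bigG₂ {y : G × G → Bp k U χ} {N : Subgroup G} [hN : N.Normal]
    (hy : ∀ g₁ g₂ : G, ∀ s₁ ∈ N, ∀ s₂ ∈ N, y (g₁ * s₁, g₂ * s₂) = y (g₁, g₂)) :
    ps_RInv₂ N (bigG₂ χ y) := by
  intro x₀ x₁ x₂ s₁ hs₁ s₂ hs₂
  rw [ps_bigG₂_eq, ps_bigG₂_eq]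
  have e1 : x₀⁻¹ * (x₁ * s₁) = (x₀⁻¹ * x₁) * s₁ := by group
  have e2 : (x₁ * s₁)⁻¹ * (x₂ * s₂) =
      (x₁⁻¹ * x₂) * ((x₁⁻¹ * x₂)⁻¹ * s₁⁻¹ * (x₁⁻¹ * x₂) * s₂) := by group
  have hmem : (x₁⁻¹ * x₂)⁻¹ * s₁⁻¹ * (x₁⁻¹ * x₂) * s₂ ∈ N := by
    refine N.mul_mem ?_ hs₂
    have := hN.conj_mem _ (N.inv_mem hs₁) (x₁⁻¹ * x₂)⁻¹
    simpa using this
  rw [e1, e2, hy _ _ _ hs₁ _ hmem]

lemma ps_rInv_bigG₃ {y : G × G × G → Bp k U χ} {N : Subgroup G} [hN : N.Normal]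
    (hy : ∀ g₁ g₂ g₃ : G, ∀ s₁ ∈ N, ∀ s₂ ∈ N, ∀ s₃ ∈ N,
      y (g₁ * s₁, g₂ * s₂, g₃ * s₃) = y (g₁, g₂, g₃)) :
    ps_RInv₃ N (bigG₃ χ y) := by
  intro x₀ x₁ x₂ x₃ s₁ hs₁ s₂ hs₂ s₃ hs₃
  rw [ps_bigG₃_eq, ps_bigG₃_eq]
  have e1 : x₀⁻¹ * (x₁ * s₁) = (x₀⁻¹ * x₁) * s₁ := by group
  have e2 : (x₁ * s₁)⁻¹ * (x₂ * s₂) =
      (x₁⁻¹ * x₂) * ((x₁⁻¹ * x₂)⁻¹ * s₁⁻¹ * (x₁⁻¹ * x₂) * s₂) := by group
  have e3 : (x₂ * s₂)⁻¹ * (x₃ * s₃) =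
      (x₂⁻¹ * x₃) * ((x₂⁻¹ * x₃)⁻¹ * s₂⁻¹ * (x₂⁻¹ * x₃) * s₃) := by group
  have hmem2 : (x₁⁻¹ * x₂)⁻¹ * s₁⁻¹ * (x₁⁻¹ * x₂) * s₂ ∈ N := by
    refine N.mul_mem ?_ hs₂
    have := hN.conj_mem _ (N.inv_mem hs₁) (x₁⁻¹ * x₂)⁻¹
    simpa using this
  have hmem3 : (x₂⁻¹ * x₃)⁻¹ * s₂⁻¹ * (x₂⁻¹ * x₃) * s₃ ∈ N := by
    refine N.mul_mem ?_ hs₃
    have := hN.conj_mem _ (N.inv_mem hs₂) (x₂⁻¹ * x₃)⁻¹
    simpa using this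
  rw [e1, e2, e3, hy _ _ _ _ hs₁ _ hmem2 _ hmem3]

lemma ps_liftG₁_mem_C1 {F : G → G → k} {N : Subgroup G} (hN : N ∈ 𝒩.mem)
    (hF : ps_RInv₁ N F) : ps_liftG₁ (U := U) χ F ∈ C1 𝒩 (Bp k U χ) := by
  refine ⟨N, hN, fun g s hs => ?_⟩
  unfold ps_liftG₁
  congr 1
  funext c
  rw [← mul_assoc, hF _ _ s hs]

lemma ps_liftG₂_mem_C2 {F : G → G → G → k} {N : Subgroup G} (hN : N ∈ 𝒩.mem)
    (hF : ps_RInv₂ N F) : ps_liftG₂ (U := U) χ F ∈ C2 𝒩 (Bp k U χ) := by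
  have hn := 𝒩.normal N hN
  refine ⟨N, hN, fun g₁ g₂ s₁ hs₁ s₂ hs₂ => ?_⟩
  unfold ps_liftG₂
  congr 1
  funext c
  have e1 : (sec U c)⁻¹ * (g₁ * s₁) = ((sec U c)⁻¹ * g₁) * s₁ := by group
  have e2 : (sec U c)⁻¹ * (g₁ * s₁ * (g₂ * s₂)) =
      ((sec U c)⁻¹ * (g₁ * g₂)) * (g₂⁻¹ * s₁ * g₂ * s₂) := by group
  have hs : g₂⁻¹ * s₁ * g₂ * s₂ ∈ N := by
    refine N.mul_mem ?_ hs₂
    have := hn.conj_mem s₁ hs₁ g₂⁻¹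
    simpa using this
  simp only [e1, e2]
  rw [hF _ _ _ s₁ hs₁ _ hs]


/-! #### the retraction `ρ = ↑ ∘ retr` and invariance of the global homotopy -/

/-- the idempotent `ρ = ι_U ∘ retr : G → G` -/
def ps_rho (H : Subgroup G) : G → G := fun x => ((retr H x : ↥H) : G)

lemma ps_rho_mul_left (H : Subgroup G) {u : G} (hu : u ∈ H) (x : G) :
    ps_rho H (u * x) = u * ps_rho H x := by
  have h := retr_mul H ⟨u, hu⟩ x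
  have h2 := congrArg (fun t : ↥H => (t : G)) h
  exact h2

lemma ps_rho_mul_right (H : Subgroup G) {N : Subgroup G} (hN : N.Normal) (hNH : N ≤ H) (x : G)
    {n : G} (hn : n ∈ N) : ∃ m ∈ N, ps_rho H (x * n) = ps_rho H x * m := by
  obtain ⟨m, hm, h⟩ := retr_mul_right H N hNH x hn
  refine ⟨(m : G), Subgroup.mem_subgroupOf.1 hm, ?_⟩
  have h2 := congrArg (fun t : ↥H => (t : G)) h
  exact h2

lemma ps_lInv_homG₁ {F : G → G → G → k} (hF : ps_LInv₂ U F) :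
    ps_LInv₁ U (ps_homG₁ (ps_rho U) F) := by
  intro u hu x₀ x₁
  simp only [ps_homG₁_apply, ps_rho_mul_left U hu, hF u hu]

lemma ps_lInv_homG₂ {F : G → G → G → G → k} (hF : ps_LInv₃ U F) :
    ps_LInv₂ U (ps_homG₂ (ps_rho U) F) := by
  intro u hu x₀ x₁ x₂
  simp only [ps_homG₂_apply, ps_rho_mul_left U hu, hF u hu]

lemma ps_rInv_homG₁ {F : G → G → G → k} {N : Subgroup G} (hN : N.Normal) (hNU : N ≤ U)
    (hF : ps_RInv₂ N F) : ps_RInv₁ N (ps_homG₁ (ps_rho U) F) := by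
  intro x₀ x₁ s₁ hs₁
  obtain ⟨m₁, hm₁, e₁⟩ := ps_rho_mul_right U hN hNU x₁ hs₁
  simp only [ps_homG₁_apply, e₁]
  have h1 := hF x₀ (ps_rho U x₀) (ps_rho U x₁) 1 N.one_mem m₁ hm₁
  have h2 := hF x₀ x₁ (ps_rho U x₁) s₁ hs₁ m₁ hm₁
  rw [mul_one] at h1
  rw [h1, h2]

lemma ps_rInv_homG₂ {F : G → G → G → G → k} {N : Subgroup G} (hN : N.Normal) (hNU : N ≤ U)
    (hF : ps_RInv₃ N F) : ps_RInv₂ N (ps_homG₂ (ps_rho U) F) := by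
  intro x₀ x₁ x₂ s₁ hs₁ s₂ hs₂
  obtain ⟨m₁, hm₁, e₁⟩ := ps_rho_mul_right U hN hNU x₁ hs₁
  obtain ⟨m₂, hm₂, e₂⟩ := ps_rho_mul_right U hN hNU x₂ hs₂
  simp only [ps_homG₂_apply, e₁, e₂]
  have h1 := hF x₀ (ps_rho U x₀) (ps_rho U x₁) (ps_rho U x₂) 1 N.one_mem m₁ hm₁ m₂ hm₂
  have h2 := hF x₀ x₁ (ps_rho U x₁) (ps_rho U x₂) s₁ hs₁ m₁ hm₁ m₂ hm₂
  have h3 := hF x₀ x₁ x₂ (ps_rho U x₂) s₁ hs₁ s₂ hs₂ m₂ hm₂
  rw [mul_one] at h1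
  rw [h1, h2, h3]

end Glob

/-! ### The local dictionary -/

section Loc

variable (χ : G →* kˣ) (D : ShData L U) (v : ι)

lemma ps_loc_rho (h : L.Gv v) (b : L.loc (Bp k U χ) v) :
    (L.loc (Bp k U χ) v).ρ h b = (Bp k U χ).ρ (L.r v h) b := rfl

lemma ps_bigL₀_eq (j : D.J v) (b : L.loc (Bp k U χ) v) (h₀ : L.Gv v) :
    bigL₀ χ D v j b h₀ = (χ (D.iotaMap v j h₀) : k) *
      ps_val χ b (((D.iotaMap v j h₀)⁻¹ : G) : G ⧸ U) := by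
  unfold bigL₀
  rw [homog0_apply, ps_loc_rho, ← Module.End.mul_apply, ← map_mul, ps_evB_rho]
  rfl

lemma ps_bigL₁_eq (j : D.J v) (b : L.Gv v → L.loc (Bp k U χ) v) (h₀ h₁ : L.Gv v) :
    bigL₁ χ D v j b h₀ h₁ = (χ (D.iotaMap v j h₀) : k) *
      ps_val χ (b (h₀⁻¹ * h₁)) (((D.iotaMap v j h₀)⁻¹ : G) : G ⧸ U) := by
  unfold bigL₁
  rw [homog1_apply, ps_loc_rho, ← Module.End.mul_apply, ← map_mul, ps_evB_rho]
  rfl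

lemma ps_bigL₂_eq (j : D.J v) (b : L.Gv v × L.Gv v → L.loc (Bp k U χ) v) (h₀ h₁ h₂ : L.Gv v) :
    bigL₂ χ D v j b h₀ h₁ h₂ = (χ (D.iotaMap v j h₀) : k) *
      ps_val χ (b (h₀⁻¹ * h₁, h₁⁻¹ * h₂)) (((D.iotaMap v j h₀)⁻¹ : G) : G ⧸ U) := by
  unfold bigL₂
  rw [homog2_apply, ps_loc_rho, ← Module.End.mul_apply, ← map_mul, ps_evB_rho]
  rfl

/-- the scalar homogeneous cochain at `(v, j)` of a local `B`-valued `3`-cochain -/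
def ps_bigL₃ (j : D.J v) (b : L.Gv v × L.Gv v × L.Gv v → L.loc (Bp k U χ) v) :
    L.Gv v → L.Gv v → L.Gv v → L.Gv v → k :=
  fun h₀ h₁ h₂ h₃ =>
    evB U χ ((Bp k U χ).ρ (D.y v j)⁻¹ (homog3 (L.loc (Bp k U χ) v) b h₀ h₁ h₂ h₃))

lemma ps_iota_inv_mul (j : D.J v) (h₀ h₁ : L.Gv v) :
    (D.iotaMap v j h₀)⁻¹ * D.iotaMap v j h₁ = L.r v (h₀⁻¹ * h₁) := by
  unfold ShData.iotaMap
  rw [map_mul, map_inv]
  group

/-! #### restriction -/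

lemma ps_bigL₁_res (j : D.J v) (y : G → Bp k U χ) :
    bigL₁ χ D v j (res₁ L (Bp k U χ) v y) = pull1 (D.iotaMap v j) (bigG₁ χ y) := by
  funext h₀ h₁
  rw [ps_bigL₁_eq, pull1_apply, ps_bigG₁_eq, ps_iota_inv_mul]
  rfl

lemma ps_bigL₂_res (j : D.J v) (y : G × G → Bp k U χ) :
    bigL₂ χ D v j (res₂ L (Bp k U χ) v y) = pull2 (D.iotaMap v j) (bigG₂ χ y) := by
  funext h₀ h₁ h₂
  rw [ps_bigL₂_eq, pull2_apply, ps_bigG₂_eq, ps_iota_inv_mul, ps_iota_inv_mul]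
  rfl

lemma ps_bigL₃_res (j : D.J v) (y : G × G × G → Bp k U χ) :
    ps_bigL₃ χ D v j (res₃ L (Bp k U χ) v y) = pull3 (D.iotaMap v j) (bigG₃ χ y) := by
  funext h₀ h₁ h₂ h₃
  unfold ps_bigL₃
  rw [homog3_apply, ps_loc_rho, ← Module.End.mul_apply, ← map_mul, ps_evB_rho,
    pull3_apply, ps_bigG₃_eq, ps_iota_inv_mul, ps_iota_inv_mul, ps_iota_inv_mul]
  rfl

/-! #### differentials -/

lemma ps_bigL₁_d (j : D.J v) (b : L.loc (Bp k U χ) v) :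
    bigL₁ χ D v j ((d₀₁ (L.loc (Bp k U χ) v)).hom b) = hd0 (bigL₀ χ D v j b) := by
  funext h₀ h₁
  have h := congrFun (congrFun (hd0_homog0 (L.loc (Bp k U χ) v) b) h₀) h₁
  unfold bigL₁
  rw [← h]
  simp only [hd0_apply, map_sub, bigL₀]

lemma ps_bigL₂_d (j : D.J v) (b : L.Gv v → L.loc (Bp k U χ) v) :
    bigL₂ χ D v j ((d₁₂ (L.loc (Bp k U χ) v)).hom b) = hd1 (bigL₁ χ D v j b) := by
  funext h₀ h₁ h₂
  have h := congrFun (congrFun (congrFun (hd1_homog1 (L.loc (Bp k U χ) v) b) h₀) h₁) h₂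
  unfold bigL₂
  rw [← h]
  simp only [hd1_apply, map_add, map_sub, bigL₁]

lemma ps_bigL₃_d (j : D.J v) (b : L.Gv v × L.Gv v → L.loc (Bp k U χ) v) :
    ps_bigL₃ χ D v j ((d₂₃ (L.loc (Bp k U χ) v)).hom b) = hd2 (bigL₂ χ D v j b) := by
  funext h₀ h₁ h₂ h₃
  have h := congrFun (congrFun (congrFun (congrFun
    (hd2_homog2 (L.loc (Bp k U χ) v) b) h₀) h₁) h₂) h₃
  unfold ps_bigL₃
  rw [← h]
  simp only [hd2_apply, map_add, map_sub, bigL₂]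

lemma ps_bigL₁_sub (j : D.J v) (b b' : L.Gv v → L.loc (Bp k U χ) v) :
    bigL₁ χ D v j (b - b') = bigL₁ χ D v j b - bigL₁ χ D v j b' := by
  funext h₀ h₁
  simp only [bigL₁, homog1_apply, Pi.sub_apply, map_sub]

lemma ps_bigL₂_sub (j : D.J v) (b b' : L.Gv v × L.Gv v → L.loc (Bp k U χ) v) :
    bigL₂ χ D v j (b - b') = bigL₂ χ D v j b - bigL₂ χ D v j b' := by
  funext h₀ h₁ h₂
  simp only [bigL₂, homog2_apply, Pi.sub_apply, map_sub]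

lemma ps_bigL₃_sub (j : D.J v) (b b' : L.Gv v × L.Gv v × L.Gv v → L.loc (Bp k U χ) v) :
    ps_bigL₃ χ D v j (b - b') = ps_bigL₃ χ D v j b - ps_bigL₃ χ D v j b' := by
  funext h₀ h₁ h₂ h₃
  simp only [ps_bigL₃, homog3_apply, Pi.sub_apply, map_sub]


/-! #### left invariance -/

lemma ps_iota_mul_left (j : D.J v) (u h : L.Gv v) :
    D.iotaMap v j (u * h) = ((D.y v j)⁻¹ * L.r v u * D.y v j) * D.iotaMap v j h := by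
  unfold ShData.iotaMap
  rw [map_mul]
  group

lemma ps_iota_mul_right (j : D.J v) (h s : L.Gv v) :
    D.iotaMap v j (h * s) = D.iotaMap v j h * L.r v s := by
  unfold ShData.iotaMap
  rw [map_mul, mul_assoc]

lemma ps_lInv_bigL₁ (hχ : ∀ g ∈ U, χ g = 1) (j : D.J v) (b : L.Gv v → L.loc (Bp k U χ) v) :
    ps_LInv₁ (D.Uw v j) (bigL₁ χ D v j b) := by
  intro u hu x₀ x₁
  have hu' := D.mem_Uw.1 hu
  rw [ps_bigL₁_eq, ps_bigL₁_eq, ps_iota_mul_left, ps_mk_mul_inv_eq hu',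
    ps_chi_mul_of_mem χ hχ hu']
  have e1 : (u * x₀)⁻¹ * (u * x₁) = x₀⁻¹ * x₁ := by group
  rw [e1]

lemma ps_lInv_bigL₂ (hχ : ∀ g ∈ U, χ g = 1) (j : D.J v)
    (b : L.Gv v × L.Gv v → L.loc (Bp k U χ) v) :
    ps_LInv₂ (D.Uw v j) (bigL₂ χ D v j b) := by
  intro u hu x₀ x₁ x₂
  have hu' := D.mem_Uw.1 hu
  rw [ps_bigL₂_eq, ps_bigL₂_eq, ps_iota_mul_left, ps_mk_mul_inv_eq hu',
    ps_chi_mul_of_mem χ hχ hu']
  have e1 : (u * x₀)⁻¹ * (u * x₁) = x₀⁻¹ * x₁ := by group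
  have e2 : (u * x₁)⁻¹ * (u * x₂) = x₁⁻¹ * x₂ := by group
  rw [e1, e2]

/-! #### right invariance -/

lemma ps_rInv_bigL₁ (j : D.J v) {b : L.Gv v → L.loc (Bp k U χ) v} {M : Subgroup (L.Gv v)}
    (hb : ∀ g : L.Gv v, ∀ s ∈ M, b (g * s) = b g) :
    ps_RInv₁ M (bigL₁ χ D v j b) := by
  intro x₀ x₁ s₁ hs₁
  rw [ps_bigL₁_eq, ps_bigL₁_eq, ← mul_assoc, hb _ _ hs₁]

lemma ps_rInv_bigL₂ (j : D.J v) {b : L.Gv v × L.Gv v → L.loc (Bp k U χ) v}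
    {M : Subgroup (L.Gv v)} [hM : M.Normal]
    (hb : ∀ g₁ g₂ : L.Gv v, ∀ s₁ ∈ M, ∀ s₂ ∈ M, b (g₁ * s₁, g₂ * s₂) = b (g₁, g₂)) :
    ps_RInv₂ M (bigL₂ χ D v j b) := by
  intro x₀ x₁ x₂ s₁ hs₁ s₂ hs₂
  rw [ps_bigL₂_eq, ps_bigL₂_eq]
  have e1 : x₀⁻¹ * (x₁ * s₁) = (x₀⁻¹ * x₁) * s₁ := by group
  have e2 : (x₁ * s₁)⁻¹ * (x₂ * s₂) =
      (x₁⁻¹ * x₂) * ((x₁⁻¹ * x₂)⁻¹ * s₁⁻¹ * (x₁⁻¹ * x₂) * s₂) := by group
  have hmem : (x₁⁻¹ * x₂)⁻¹ * s₁⁻¹ * (x₁⁻¹ * x₂) * s₂ ∈ M := by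
    refine M.mul_mem ?_ hs₂
    have := hM.conj_mem _ (M.inv_mem hs₁) (x₁⁻¹ * x₂)⁻¹
    simpa using this
  rw [e1, e2, hb _ _ _ hs₁ _ hmem]

end Loc

/-! ### Local lifts (double coset decomposition) -/

section LocLift

variable (χ : G →* kˣ) (D : ShData L U) (v : ι) [Finite (G ⧸ U)]

/-- the double coset decomposition `⨆_j G_v/U_w ≃ G/U` -/
def ps_orbitEquiv : (Σ j : D.J v, L.Gv v ⧸ D.Uw v j) ≃ G ⧸ U :=
  Equiv.ofBijective (orbitMap D v) (orbitMap_bijective D v)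

/-- the representative `r_v (sec s) * y_j` of the coset attached to `(j, s)` -/
def ps_rep (p : Σ j : D.J v, L.Gv v ⧸ D.Uw v j) : G :=
  L.r v (sec (D.Uw v p.1) p.2) * D.y v p.1

lemma ps_mk_rep (p : Σ j : D.J v, L.Gv v ⧸ D.Uw v j) :
    ((ps_rep D v p : G) : G ⧸ U) = ps_orbitEquiv D v p := rfl

lemma ps_rep_eq (p : Σ j : D.J v, L.Gv v ⧸ D.Uw v j) :
    ps_rep D v p = (D.iotaMap v p.1 (sec (D.Uw v p.1) p.2)⁻¹)⁻¹ := by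
  unfold ps_rep ShData.iotaMap
  rw [map_inv]
  group

/-- coefficient of the lift of a family of local scalar `0`-cochains -/
def ps_coef₀ (Fw : ∀ j : D.J v, L.Gv v → k) (p : Σ j : D.J v, L.Gv v ⧸ D.Uw v j) : k :=
  (χ (ps_rep D v p) : k) * Fw p.1 (sec (D.Uw v p.1) p.2)⁻¹

/-- coefficient of the lift of a family of local scalar `1`-cochains -/
def ps_coef₁ (Fw : ∀ j : D.J v, L.Gv v → L.Gv v → k) (h : L.Gv v)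
    (p : Σ j : D.J v, L.Gv v ⧸ D.Uw v j) : k :=
  (χ (ps_rep D v p) : k) *
    Fw p.1 (sec (D.Uw v p.1) p.2)⁻¹ ((sec (D.Uw v p.1) p.2)⁻¹ * h)

/-- coefficient of the lift of a family of local scalar `2`-cochains -/
def ps_coef₂ (Fw : ∀ j : D.J v, L.Gv v → L.Gv v → L.Gv v → k) (h : L.Gv v × L.Gv v)
    (p : Σ j : D.J v, L.Gv v ⧸ D.Uw v j) : k :=
  (χ (ps_rep D v p) : k) *
    Fw p.1 (sec (D.Uw v p.1) p.2)⁻¹ ((sec (D.Uw v p.1) p.2)⁻¹ * h.1)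
      ((sec (D.Uw v p.1) p.2)⁻¹ * (h.1 * h.2))

/-- lift of a family of local scalar homogeneous `0`-cochains to an element of `B` -/
def ps_liftL₀ (Fw : ∀ j : D.J v, L.Gv v → k) : L.loc (Bp k U χ) v :=
  ps_mkB χ (fun c => ps_coef₀ χ D v Fw ((ps_orbitEquiv D v).symm c))

/-- lift of a family of local scalar homogeneous `1`-cochains to a `B`-valued `1`-cochain -/
def ps_liftL₁ (Fw : ∀ j : D.J v, L.Gv v → L.Gv v → k) : L.Gv v → L.loc (Bp k U χ) v :=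
  fun h => ps_mkB χ (fun c => ps_coef₁ χ D v Fw h ((ps_orbitEquiv D v).symm c))

lemma ps_val_liftL₀ (Fw : ∀ j : D.J v, L.Gv v → k) (p : Σ j : D.J v, L.Gv v ⧸ D.Uw v j) :
    ps_val χ (ps_liftL₀ χ D v Fw) (ps_orbitEquiv D v p) = ps_coef₀ χ D v Fw p := by
  unfold ps_liftL₀
  rw [ps_val_mkB, Equiv.symm_apply_apply]

lemma ps_val_liftL₁ (Fw : ∀ j : D.J v, L.Gv v → L.Gv v → k) (h : L.Gv v)
    (p : Σ j : D.J v, L.Gv v ⧸ D.Uw v j) :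
    ps_val χ (ps_liftL₁ χ D v Fw h) (ps_orbitEquiv D v p) = ps_coef₁ χ D v Fw h p := by
  unfold ps_liftL₁
  rw [ps_val_mkB, Equiv.symm_apply_apply]

lemma ps_chi_rep_mul (p : Σ j : D.J v, L.Gv v ⧸ D.Uw v j) :
    (χ (ps_rep D v p) : k) * (χ (D.iotaMap v p.1 (sec (D.Uw v p.1) p.2)⁻¹) : k) = 1 := by
  rw [ps_rep_eq]
  exact ps_chi_inv_mul χ _

/-- reconstruction of a local `B`-valued `1`-cochain from its scalar components -/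
lemma ps_val_eq_bigL₁ (b : L.Gv v → L.loc (Bp k U χ) v) (h : L.Gv v)
    (p : Σ j : D.J v, L.Gv v ⧸ D.Uw v j) :
    ps_val χ (b h) (ps_orbitEquiv D v p) =
      ps_coef₁ χ D v (fun j => bigL₁ χ D v j b) h p := by
  unfold ps_coef₁
  beta_reduce
  rw [ps_bigL₁_eq, ← mul_assoc, ps_chi_rep_mul, one_mul, ← ps_rep_eq, ps_mk_rep]
  congr 2
  group

/-- reconstruction of a local `B`-valued `2`-cochain from its scalar components -/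
lemma ps_val_eq_bigL₂ (b : L.Gv v × L.Gv v → L.loc (Bp k U χ) v) (h : L.Gv v × L.Gv v)
    (p : Σ j : D.J v, L.Gv v ⧸ D.Uw v j) :
    ps_val χ (b h) (ps_orbitEquiv D v p) =
      ps_coef₂ χ D v (fun j => bigL₂ χ D v j b) h p := by
  unfold ps_coef₂
  beta_reduce
  rw [ps_bigL₂_eq, ← mul_assoc, ps_chi_rep_mul, one_mul, ← ps_rep_eq, ps_mk_rep]
  congr 2
  refine Prod.ext ?_ ?_
  · simp
  · simp only [mul_inv_rev, inv_inv]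
    group

lemma ps_bigL₁_inj {b b' : L.Gv v → L.loc (Bp k U χ) v}
    (h : ∀ j, bigL₁ χ D v j b = bigL₁ χ D v j b') : b = b' := by
  funext g
  apply ps_ext
  intro c
  obtain ⟨p, rfl⟩ := (ps_orbitEquiv D v).surjective c
  rw [ps_val_eq_bigL₁, ps_val_eq_bigL₁]
  unfold ps_coef₁
  beta_reduce
  rw [h]

lemma ps_bigL₂_inj {b b' : L.Gv v × L.Gv v → L.loc (Bp k U χ) v}
    (h : ∀ j, bigL₂ χ D v j b = bigL₂ χ D v j b') : b = b' := by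
  funext g
  apply ps_ext
  intro c
  obtain ⟨p, rfl⟩ := (ps_orbitEquiv D v).surjective c
  rw [ps_val_eq_bigL₂, ps_val_eq_bigL₂]
  unfold ps_coef₂
  beta_reduce
  rw [h]

/-! #### `big ∘ lift = id` on invariant families -/

lemma ps_orbit_iota (j : D.J v) (h₀ : L.Gv v) :
    (((D.iotaMap v j h₀)⁻¹ : G) : G ⧸ U) =
      ps_orbitEquiv D v ⟨j, ((h₀⁻¹ : L.Gv v) : L.Gv v ⧸ D.Uw v j)⟩ := by
  rw [← ps_mk_rep, QuotientGroup.eq, inv_inv]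
  have h := sec_mk_mem (D.Uw v j) h₀⁻¹
  rw [inv_inv] at h
  have h2 := D.mem_Uw.1 h
  have e : D.iotaMap v j h₀ * ps_rep D v ⟨j, ((h₀⁻¹ : L.Gv v) : L.Gv v ⧸ D.Uw v j)⟩ =
      (D.y v j)⁻¹ * L.r v (h₀ * sec (D.Uw v j) ((h₀⁻¹ : L.Gv v) : L.Gv v ⧸ D.Uw v j)) *
        D.y v j := by
    unfold ShData.iotaMap ps_rep
    rw [map_mul]
    group
  rw [e]
  exact h2

lemma ps_sec_inv_spec_loc (j : D.J v) (h₀ : L.Gv v) :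
    ∃ u ∈ D.Uw v j, (sec (D.Uw v j) ((h₀⁻¹ : L.Gv v) : L.Gv v ⧸ D.Uw v j))⁻¹ = u * h₀ :=
  ps_sec_inv_spec (U := D.Uw v j) h₀

lemma ps_chi_iota_rep (hχ : ∀ g ∈ U, χ g = 1) (j : D.J v) (h₀ : L.Gv v) :
    (χ (D.iotaMap v j h₀) : k) *
      (χ (ps_rep D v ⟨j, ((h₀⁻¹ : L.Gv v) : L.Gv v ⧸ D.Uw v j)⟩) : k) = 1 := by
  have h := sec_mk_mem (D.Uw v j) h₀⁻¹
  rw [inv_inv] at h
  have h2 := hχ _ (D.mem_Uw.1 h)
  have e : D.iotaMap v j h₀ * ps_rep D v ⟨j, ((h₀⁻¹ : L.Gv v) : L.Gv v ⧸ D.Uw v j)⟩ =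
      (D.y v j)⁻¹ * L.r v (h₀ * sec (D.Uw v j) ((h₀⁻¹ : L.Gv v) : L.Gv v ⧸ D.Uw v j)) *
        D.y v j := by
    unfold ShData.iotaMap ps_rep
    rw [map_mul]
    group
  rw [← Units.val_mul, ← map_mul, e, h2, Units.val_one]

lemma ps_bigL₀_lift (hχ : ∀ g ∈ U, χ g = 1) {Fw : ∀ j : D.J v, L.Gv v → k}
    (hFw : ∀ j, ps_LInv₀ (D.Uw v j) (Fw j)) (j : D.J v) :
    bigL₀ χ D v j (ps_liftL₀ χ D v Fw) = Fw j := by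
  funext h₀
  rw [ps_bigL₀_eq, ps_orbit_iota, ps_val_liftL₀]
  unfold ps_coef₀
  rw [← mul_assoc, ps_chi_iota_rep χ D v hχ, one_mul]
  obtain ⟨u, hu, h⟩ := ps_sec_inv_spec_loc D v j h₀
  simp only [h]
  exact hFw j u hu h₀

lemma ps_bigL₁_lift (hχ : ∀ g ∈ U, χ g = 1) {Fw : ∀ j : D.J v, L.Gv v → L.Gv v → k}
    (hFw : ∀ j, ps_LInv₁ (D.Uw v j) (Fw j)) (j : D.J v) :
    bigL₁ χ D v j (ps_liftL₁ χ D v Fw) = Fw j := by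
  funext h₀ h₁
  rw [ps_bigL₁_eq, ps_orbit_iota, ps_val_liftL₁]
  unfold ps_coef₁
  rw [← mul_assoc, ps_chi_iota_rep χ D v hχ, one_mul]
  obtain ⟨u, hu, h⟩ := ps_sec_inv_spec_loc D v j h₀
  simp only [h]
  have e : u * h₀ * (h₀⁻¹ * h₁) = u * h₁ := by group
  rw [e]
  exact hFw j u hu h₀ h₁

lemma ps_liftL₁_mem_C1 {Fw : ∀ j : D.J v, L.Gv v → L.Gv v → k} {M : Subgroup (L.Gv v)}
    (hM : M ∈ (L.lev v).mem) (hF : ∀ j, ps_RInv₁ M (Fw j)) :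
    ps_liftL₁ χ D v Fw ∈ C1 (L.lev v) (L.loc (Bp k U χ) v) := by
  refine ⟨M, hM, fun g s hs => ?_⟩
  unfold ps_liftL₁
  congr 1
  funext c
  unfold ps_coef₁
  rw [← mul_assoc, hF _ _ _ s hs]

end LocLift

/-! ### Invariance of the local homotopy -/

section InvTools

variable {Γ : Type} [Group Γ] {M : Subgroup Γ}

lemma ps_RInv₂.r₁ {F : Γ → Γ → Γ → k} (hF : ps_RInv₂ M F) (x₀ x₁ x₂ : Γ) {s : Γ} (hs : s ∈ M) :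
    F x₀ (x₁ * s) x₂ = F x₀ x₁ x₂ := by
  have h := hF x₀ x₁ x₂ s hs 1 M.one_mem
  rwa [mul_one] at h

lemma ps_RInv₂.r₂ {F : Γ → Γ → Γ → k} (hF : ps_RInv₂ M F) (x₀ x₁ x₂ : Γ) {s : Γ} (hs : s ∈ M) :
    F x₀ x₁ (x₂ * s) = F x₀ x₁ x₂ := by
  have h := hF x₀ x₁ x₂ 1 M.one_mem s hs
  rwa [mul_one] at h

lemma ps_RInv₃.r₁ {F : Γ → Γ → Γ → Γ → k} (hF : ps_RInv₃ M F) (x₀ x₁ x₂ x₃ : Γ) {s : Γ}
    (hs : s ∈ M) : F x₀ (x₁ * s) x₂ x₃ = F x₀ x₁ x₂ x₃ := by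
  have h := hF x₀ x₁ x₂ x₃ s hs 1 M.one_mem 1 M.one_mem
  rwa [mul_one, mul_one] at h

lemma ps_RInv₃.r₂ {F : Γ → Γ → Γ → Γ → k} (hF : ps_RInv₃ M F) (x₀ x₁ x₂ x₃ : Γ) {s : Γ}
    (hs : s ∈ M) : F x₀ x₁ (x₂ * s) x₃ = F x₀ x₁ x₂ x₃ := by
  have h := hF x₀ x₁ x₂ x₃ 1 M.one_mem s hs 1 M.one_mem
  rwa [mul_one, mul_one] at h

lemma ps_RInv₃.r₃ {F : Γ → Γ → Γ → Γ → k} (hF : ps_RInv₃ M F) (x₀ x₁ x₂ x₃ : Γ) {s : Γ}
    (hs : s ∈ M) : F x₀ x₁ x₂ (x₃ * s) = F x₀ x₁ x₂ x₃ := by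
  have h := hF x₀ x₁ x₂ x₃ 1 M.one_mem 1 M.one_mem s hs
  rwa [mul_one, mul_one] at h

end InvTools

section LocHom

variable (D : ShData L U) (v : ι) (j : D.J v)

/-- the map `b = ↑ ∘ β₀ : G_v → G` -/
def ps_b : L.Gv v → G := fun h => ((D.beta0 v j h : ↥U) : G)

lemma ps_b_mul_left {u : L.Gv v} (hu : u ∈ D.Uw v j) (h : L.Gv v) :
    ps_b D v j (u * h) = ((D.y v j)⁻¹ * L.r v u * D.y v j) * ps_b D v j h := by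
  unfold ps_b ShData.beta0
  rw [retr_mul (D.Uw v j) ⟨u, hu⟩ h, map_mul, Subgroup.coe_mul, ShData.coe_rw]

lemma ps_b_mul_right {N : Subgroup G} (hN : N.Normal) {M : Subgroup (L.Gv v)} (hM : M.Normal)
    (hMU : M ≤ D.Uw v j) (hr : ∀ m ∈ M, L.r v m ∈ N) (x : L.Gv v) {s : L.Gv v} (hs : s ∈ M) :
    ∃ n ∈ N, ps_b D v j (x * s) = ps_b D v j x * n := by
  obtain ⟨m, hm, h1⟩ := retr_mul_right (D.Uw v j) M hMU x hs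
  refine ⟨(D.y v j)⁻¹ * L.r v (m : L.Gv v) * D.y v j, ?_, ?_⟩
  · have := hN.conj_mem _ (hr _ (Subgroup.mem_subgroupOf.1 hm)) (D.y v j)⁻¹
    rw [inv_inv] at this
    exact this
  · unfold ps_b ShData.beta0
    rw [h1, map_mul, Subgroup.coe_mul, ShData.coe_rw, ShData.coe_rw]

lemma ps_lInv_homL₀ {F : G → G → G → k} {Fw : L.Gv v → L.Gv v → k} (hF : ps_LInv₂ U F)
    (hFw : ps_LInv₁ (D.Uw v j) Fw) :
    ps_LInv₀ (D.Uw v j)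
      (ps_homL₀ (D.iotaMap v j) (ps_rho U) (ps_rho (D.Uw v j)) (ps_b D v j) F Fw) := by
  intro u hu x₀
  have hu' := D.mem_Uw.1 hu
  simp only [ps_homL₀_apply, ps_rho_mul_left (D.Uw v j) hu, ps_iota_mul_left D v j u,
    ps_rho_mul_left U hu', ps_b_mul_left D v j hu, hF _ hu', hFw u hu]

lemma ps_lInv_homL₁ {F : G → G → G → G → k} {Fw : L.Gv v → L.Gv v → L.Gv v → k}
    (hF : ps_LInv₃ U F) (hFw : ps_LInv₂ (D.Uw v j) Fw) :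
    ps_LInv₁ (D.Uw v j)
      (ps_homL₁ (D.iotaMap v j) (ps_rho U) (ps_rho (D.Uw v j)) (ps_b D v j) F Fw) := by
  intro u hu x₀ x₁
  have hu' := D.mem_Uw.1 hu
  simp only [ps_homL₁_apply, ps_rho_mul_left (D.Uw v j) hu, ps_iota_mul_left D v j u,
    ps_rho_mul_left U hu', ps_b_mul_left D v j hu, hF _ hu', hFw u hu]

lemma ps_rInv_homL₁ {F : G → G → G → G → k} {Fw : L.Gv v → L.Gv v → L.Gv v → k}
    {N : Subgroup G} (hN : N.Normal) (hNU : N ≤ U) {M : Subgroup (L.Gv v)} (hM : M.Normal)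
    (hMU : M ≤ D.Uw v j) (hr : ∀ m ∈ M, L.r v m ∈ N) (hF : ps_RInv₃ N F)
    (hFw : ps_RInv₂ M Fw) :
    ps_RInv₁ M
      (ps_homL₁ (D.iotaMap v j) (ps_rho U) (ps_rho (D.Uw v j)) (ps_b D v j) F Fw) := by
  intro x₀ x₁ s hs
  obtain ⟨m, hm, e₁⟩ := ps_rho_mul_right (D.Uw v j) hM hMU x₁ hs
  obtain ⟨n₀, hn₀, e₂⟩ := ps_b_mul_right D v j hN hM hMU hr x₁ hs
  obtain ⟨n₁, hn₁, e₃⟩ := ps_rho_mul_right U hN hNU (D.iotaMap v j x₁) (hr s hs)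
  have hrs := hr s hs
  have hrm := hr m hm
  simp only [ps_homL₁_apply, e₁, e₂, ps_iota_mul_right, e₃, hFw.r₁ _ _ _ hs, hFw.r₂ _ _ _ hm,
    hF.r₁ _ _ _ _ hrs, hF.r₁ _ _ _ _ hrm, hF.r₂ _ _ _ _ hrm, hF.r₂ _ _ _ _ hn₀,
    hF.r₃ _ _ _ _ hn₁]

end LocHom

/-! ### The homotopy in the `B`-valued cone and the identity `y - z = dc w` -/

section Main

variable (χ : G →* kˣ) (D : ShData L U) [Finite (G ⧸ U)]

/-- the homotopy cone `1`-cochain attached to a cone `2`-cochain -/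
def ps_w₁ (y : CcAmb2 L (Bp k U χ)) : CcAmb1 L (Bp k U χ) :=
  (ps_liftG₁ χ (ps_homG₁ (ps_rho U) (bigG₂ χ y.1)),
    fun v => ps_liftL₀ χ D v (fun j =>
      ps_homL₀ (D.iotaMap v j) (ps_rho U) (ps_rho (D.Uw v j)) (ps_b D v j)
        (bigG₂ χ y.1) (bigL₁ χ D v j (y.2 v))))

/-- the homotopy cone `2`-cochain attached to a cone `3`-cochain -/
def ps_w₂ (y : CcAmb3 L (Bp k U χ)) : CcAmb2 L (Bp k U χ) :=
  (ps_liftG₂ χ (ps_homG₂ (ps_rho U) (bigG₃ χ y.1)),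
    fun v => ps_liftL₁ χ D v (fun j =>
      ps_homL₁ (D.iotaMap v j) (ps_rho U) (ps_rho (D.Uw v j)) (ps_b D v j)
        (bigG₃ χ y.1) (bigL₂ χ D v j (y.2 v))))

lemma ps_exists_level (hU : ∃ N ∈ 𝒩.mem, N ≤ U) {N₁ : Subgroup G} (hN₁ : N₁ ∈ 𝒩.mem) :
    ∃ N ∈ 𝒩.mem, N ≤ N₁ ∧ N ≤ U := by
  obtain ⟨N₀, hN₀, hN₀U⟩ := hU
  obtain ⟨N, hN, hle⟩ := 𝒩.directed N₁ hN₁ N₀ hN₀
  exact ⟨N, hN, fun x hx => (hle hx).1, fun x hx => hN₀U (hle hx).2⟩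

theorem ps_w₁_mem (hU : ∃ N ∈ 𝒩.mem, N ≤ U) {y : CcAmb2 L (Bp k U χ)}
    (hy : y ∈ Cc2 L (Bp k U χ)) : ps_w₁ χ D y ∈ Cc1 L (Bp k U χ) := by
  obtain ⟨⟨N₁, hN₁, h1⟩, -⟩ := hy
  obtain ⟨N, hN, hNN₁, hNU⟩ := ps_exists_level hU hN₁
  have hn := 𝒩.normal N hN
  refine ⟨?_, trivial⟩
  refine ps_liftG₁_mem_C1 χ hN (ps_rInv_homG₁ hn hNU ?_)
  exact ps_rInv_bigG₂ χ (hN := hn) fun g₁ g₂ s₁ hs₁ s₂ hs₂ => h1 g₁ g₂ s₁ (hNN₁ hs₁) s₂ (hNN₁ hs₂)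

theorem ps_w₂_mem (hU : ∃ N ∈ 𝒩.mem, N ≤ U) {y : CcAmb3 L (Bp k U χ)}
    (hy : y ∈ Cc3 L (Bp k U χ)) : ps_w₂ χ D y ∈ Cc2 L (Bp k U χ) := by
  obtain ⟨⟨N₁, hN₁, h1⟩, h2⟩ := hy
  obtain ⟨N, hN, hNN₁, hNU⟩ := ps_exists_level hU hN₁
  have hn := 𝒩.normal N hN
  have hF : ps_RInv₃ N (bigG₃ χ y.1) :=
    ps_rInv_bigG₃ χ (hN := hn) fun g₁ g₂ g₃ s₁ hs₁ s₂ hs₂ s₃ hs₃ =>
      h1 g₁ g₂ g₃ s₁ (hNN₁ hs₁) s₂ (hNN₁ hs₂) s₃ (hNN₁ hs₃)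
  refine ⟨ps_liftG₂_mem_C2 χ hN (ps_rInv_homG₂ hn hNU hF), fun v _ => ?_⟩
  obtain ⟨M₀, hM₀, h3⟩ := h2 v (Set.mem_univ v)
  obtain ⟨M₁, hM₁, hle₁⟩ := L.compat v N hN
  obtain ⟨M, hM, hle⟩ := (L.lev v).directed M₀ hM₀ M₁ hM₁
  have hm := (L.lev v).normal M hM
  have hr : ∀ m ∈ M, L.r v m ∈ N := fun m hmm => hle₁ (hle hmm).2
  have hMU : ∀ j, M ≤ D.Uw v j := fun j m hmm => by
    rw [ShData.mem_Uw]
    have := hn.conj_mem _ (hr m hmm) (D.y v j)⁻¹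
    rw [inv_inv] at this
    exact hNU this
  refine ps_liftL₁_mem_C1 χ D v hM fun j => ?_
  refine ps_rInv_homL₁ D v j hn hNU hm (hMU j) hr hF ?_
  exact ps_rInv_bigL₂ χ D v j (hM := hm) fun g₁ g₂ s₁ hs₁ s₂ hs₂ =>
    h3 g₁ g₂ s₁ (hle hs₁).1 s₂ (hle hs₂).1

theorem ps_dc_w₁ (hχ : ∀ g ∈ U, χ g = 1) {y : CcAmb2 L (Bp k U χ)}
    (hy : dc₂₃ L (Bp k U χ) y = 0) (z : CcAmb2 L (Bp k U χ))
    (hzG : bigG₂ χ z.1 = pull2 (ps_rho U) (bigG₂ χ y.1))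
    (hzL : ∀ v j, bigL₁ χ D v j (z.2 v) =
      ps_phiL₁ (D.iotaMap v j) (ps_rho U) (ps_rho (D.Uw v j)) (ps_b D v j)
        (bigG₂ χ y.1) (bigL₁ χ D v j (y.2 v))) :
    dc₁₂ L (Bp k U χ) (ps_w₁ χ D y) = y - z := by
  have hy1 : (d₂₃ (Bp k U χ)).hom y.1 = 0 := congrArg Prod.fst hy
  have hy2 : ∀ v, res₂ L (Bp k U χ) v y.1 = (d₁₂ (L.loc (Bp k U χ) v)).hom (y.2 v) := fun v =>
    sub_eq_zero.1 (congrFun (congrArg Prod.snd hy) v)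
  have hF : hd2 (bigG₂ χ y.1) = 0 := by
    rw [← ps_bigG₃_d, hy1]
    funext x₀ x₁ x₂ x₃
    change evB U χ ((Bp k U χ).ρ x₀ 0) = 0
    rw [map_zero, map_zero]
  have hFw : ∀ v j, pull2 (D.iotaMap v j) (bigG₂ χ y.1) = hd1 (bigL₁ χ D v j (y.2 v)) :=
    fun v j => by rw [← ps_bigL₂_res, hy2, ps_bigL₂_d]
  have hLG := ps_lInv_bigG₂ χ hχ y.1
  refine Prod.ext ?_ ?_
  · apply ps_bigG₂_inj χ
    change bigG₂ χ ((d₁₂ (Bp k U χ)).hom (ps_liftG₁ χ (ps_homG₁ (ps_rho U) (bigG₂ χ y.1))))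
      = bigG₂ χ (y.1 - z.1)
    rw [ps_bigG₂_d, ps_bigG₁_lift χ hχ (ps_lInv_homG₁ hLG), ps_homotopy₂_glob _ _ hF,
      ps_bigG₂_sub, hzG]
  · funext v
    apply ps_bigL₁_inj χ D v
    intro j
    change bigL₁ χ D v j (res₁ L (Bp k U χ) v (ps_liftG₁ χ (ps_homG₁ (ps_rho U) (bigG₂ χ y.1)))
        - (d₀₁ (L.loc (Bp k U χ) v)).hom ((ps_w₁ χ D y).2 v))
      = bigL₁ χ D v j (y.2 v - z.2 v)
    rw [ps_bigL₁_sub, ps_bigL₁_res, ps_bigL₁_d, ps_bigG₁_lift χ hχ (ps_lInv_homG₁ hLG),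
      ps_bigL₁_sub, hzL]
    have hl : bigL₀ χ D v j ((ps_w₁ χ D y).2 v) =
        ps_homL₀ (D.iotaMap v j) (ps_rho U) (ps_rho (D.Uw v j)) (ps_b D v j)
          (bigG₂ χ y.1) (bigL₁ χ D v j (y.2 v)) :=
      ps_bigL₀_lift χ D v hχ
        (fun j' => ps_lInv_homL₀ D v j' hLG (ps_lInv_bigL₁ χ D v hχ j' (y.2 v))) j
    rw [hl]
    exact ps_homotopy₂_loc _ _ _ _ _ _ hF (hFw v j)

theorem ps_dc_w₂ (hχ : ∀ g ∈ U, χ g = 1) {y : CcAmb3 L (Bp k U χ)}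
    (hy : dc₃₄ L (Bp k U χ) y = 0) (z : CcAmb3 L (Bp k U χ))
    (hzG : bigG₃ χ z.1 = pull3 (ps_rho U) (bigG₃ χ y.1))
    (hzL : ∀ v j, bigL₂ χ D v j (z.2 v) =
      ps_phiL₂ (D.iotaMap v j) (ps_rho U) (ps_rho (D.Uw v j)) (ps_b D v j)
        (bigG₃ χ y.1) (bigL₂ χ D v j (y.2 v))) :
    dc₂₃ L (Bp k U χ) (ps_w₂ χ D y) = y - z := by
  have hy1 : d₃₄ (Bp k U χ) y.1 = 0 := congrArg Prod.fst hy
  have hy2 : ∀ v, res₃ L (Bp k U χ) v y.1 = (d₂₃ (L.loc (Bp k U χ) v)).hom (y.2 v) := fun v =>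
    sub_eq_zero.1 (congrFun (congrArg Prod.snd hy) v)
  have hF : hd3 (bigG₃ χ y.1) = 0 := ps_hd3_bigG₃ χ y.1 hy1
  have hFw : ∀ v j, pull3 (D.iotaMap v j) (bigG₃ χ y.1) = hd2 (bigL₂ χ D v j (y.2 v)) :=
    fun v j => by rw [← ps_bigL₃_res, hy2, ps_bigL₃_d]
  have hLG := ps_lInv_bigG₃ χ hχ y.1
  refine Prod.ext ?_ ?_
  · apply ps_bigG₃_inj χ
    change bigG₃ χ ((d₂₃ (Bp k U χ)).hom (ps_liftG₂ χ (ps_homG₂ (ps_rho U) (bigG₃ χ y.1))))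
      = bigG₃ χ (y.1 - z.1)
    rw [ps_bigG₃_d, ps_bigG₂_lift χ hχ (ps_lInv_homG₂ hLG), ps_homotopy₃_glob _ _ hF,
      ps_bigG₃_sub, hzG]
  · funext v
    apply ps_bigL₂_inj χ D v
    intro j
    change bigL₂ χ D v j (res₂ L (Bp k U χ) v (ps_liftG₂ χ (ps_homG₂ (ps_rho U) (bigG₃ χ y.1)))
        - (d₁₂ (L.loc (Bp k U χ) v)).hom ((ps_w₂ χ D y).2 v))
      = bigL₂ χ D v j (y.2 v - z.2 v)
    rw [ps_bigL₂_sub, ps_bigL₂_res, ps_bigL₂_d, ps_bigG₂_lift χ hχ (ps_lInv_homG₂ hLG),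
      ps_bigL₂_sub, hzL]
    have hl : bigL₁ χ D v j ((ps_w₂ χ D y).2 v) =
        ps_homL₁ (D.iotaMap v j) (ps_rho U) (ps_rho (D.Uw v j)) (ps_b D v j)
          (bigG₃ χ y.1) (bigL₂ χ D v j (y.2 v)) :=
      ps_bigL₁_lift χ D v hχ
        (fun j' => ps_lInv_homL₁ D v j' hLG (ps_lInv_bigL₂ χ D v hχ j' (y.2 v))) j
    rw [hl]
    exact ps_homotopy₃_loc _ _ _ _ _ _ hF (hFw v j)

end Main

/-! ### Wiring: `Ψ ∘ c` in the big model -/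

section Wire

variable (χ : G →* kˣ) (D : ShData L U) [Finite (G ⧸ U)] (hU : ∃ N ∈ 𝒩.mem, N ≤ U)

lemma ps_homog2_cB (hχ : ∀ g ∈ U, χ g = 1) (y : CcAmb2 L (Bp k U χ)) (u₀ u₁ u₂ : ↥U) :
    homog2 (trivRep k ↥U) (cB₂ χ D hU y).1 u₀ u₁ u₂ =
      bigG₂ χ y.1 (u₀ : G) (u₁ : G) (u₂ : G) := by
  rw [homog2_apply]
  change (cB₂ χ D hU y).1 (u₀⁻¹ * u₁, u₁⁻¹ * u₂) = _
  rw [cB₂_fst]
  have h := ps_lInv_bigG₂ χ hχ y.1 (u₀ : G) u₀.2 1 ((u₀⁻¹ * u₁ : ↥U) : G)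
    (((u₀⁻¹ * u₁ : ↥U) : G) * ((u₁⁻¹ * u₂ : ↥U) : G))
  rw [← h]
  have e0 : (u₀ : G) * 1 = u₀ := mul_one _
  have e1 : (u₀ : G) * ((u₀⁻¹ * u₁ : ↥U) : G) = u₁ := by
    simp only [Subgroup.coe_mul, Subgroup.coe_inv]; group
  have e2 : (u₀ : G) * (((u₀⁻¹ * u₁ : ↥U) : G) * ((u₁⁻¹ * u₂ : ↥U) : G)) = u₂ := by
    simp only [Subgroup.coe_mul, Subgroup.coe_inv]; group
  rw [e0, e1, e2]

lemma ps_homog3_cB (hχ : ∀ g ∈ U, χ g = 1) (y : CcAmb3 L (Bp k U χ)) (u₀ u₁ u₂ u₃ : ↥U) :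
    homog3 (trivRep k ↥U) (cB₃ χ D hU y).1 u₀ u₁ u₂ u₃ =
      bigG₃ χ y.1 (u₀ : G) (u₁ : G) (u₂ : G) (u₃ : G) := by
  rw [homog3_apply]
  change (cB₃ χ D hU y).1 (u₀⁻¹ * u₁, u₁⁻¹ * u₂, u₂⁻¹ * u₃) = _
  rw [cB₃_fst]
  have h := ps_lInv_bigG₃ χ hχ y.1 (u₀ : G) u₀.2 1 ((u₀⁻¹ * u₁ : ↥U) : G)
    (((u₀⁻¹ * u₁ : ↥U) : G) * ((u₁⁻¹ * u₂ : ↥U) : G))
    (((u₀⁻¹ * u₁ : ↥U) : G) * ((u₁⁻¹ * u₂ : ↥U) : G) * ((u₂⁻¹ * u₃ : ↥U) : G))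
  rw [← h]
  have e0 : (u₀ : G) * 1 = u₀ := mul_one _
  have e1 : (u₀ : G) * ((u₀⁻¹ * u₁ : ↥U) : G) = u₁ := by
    simp only [Subgroup.coe_mul, Subgroup.coe_inv]; group
  have e2 : (u₀ : G) * (((u₀⁻¹ * u₁ : ↥U) : G) * ((u₁⁻¹ * u₂ : ↥U) : G)) = u₂ := by
    simp only [Subgroup.coe_mul, Subgroup.coe_inv]; group
  have e3 : (u₀ : G) * (((u₀⁻¹ * u₁ : ↥U) : G) * ((u₁⁻¹ * u₂ : ↥U) : G)
      * ((u₂⁻¹ * u₃ : ↥U) : G)) = u₃ := by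
    simp only [Subgroup.coe_mul, Subgroup.coe_inv]; group
  rw [e0, e1, e2, e3]

lemma ps_iotaU_mul (v : ι) (j : D.J v) (u s : ↥(D.Uw v j)) :
    iotaU D v j (u * s) = ((D.y v j)⁻¹ * L.r v (u : L.Gv v) * D.y v j) * iotaU D v j s := by
  unfold iotaU
  rw [Subgroup.coe_mul, ps_iota_mul_left]

lemma ps_rwU_mul (v : ι) (j : D.J v) (u s : ↥(D.Uw v j)) :
    rwU D v j (u * s) = ((D.y v j)⁻¹ * L.r v (u : L.Gv v) * D.y v j) * rwU D v j s := by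
  unfold rwU
  rw [map_mul, Subgroup.coe_mul, ShData.coe_rw]

lemma ps_cLoc₁_inv (hχ : ∀ g ∈ U, χ g = 1) (v : ι) (j : D.J v) (y : CcAmb2 L (Bp k U χ))
    (u s₀ s₁ : ↥(D.Uw v j)) :
    cLoc₁ χ D v j y (u * s₀) (u * s₁) = cLoc₁ χ D v j y s₀ s₁ := by
  have hu' := D.mem_Uw.1 u.2
  unfold cLoc₁
  simp only [Pi.add_apply, pull1_apply, prism2_apply, ps_iotaU_mul, ps_rwU_mul,
    Subgroup.coe_mul, ps_lInv_bigG₂ χ hχ y.1 _ hu', ps_lInv_bigL₁ χ D v hχ j (y.2 v) _ u.2]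

lemma ps_cLoc₂_inv (hχ : ∀ g ∈ U, χ g = 1) (v : ι) (j : D.J v) (y : CcAmb3 L (Bp k U χ))
    (u s₀ s₁ s₂ : ↥(D.Uw v j)) :
    cLoc₂ χ D v j y (u * s₀) (u * s₁) (u * s₂) = cLoc₂ χ D v j y s₀ s₁ s₂ := by
  have hu' := D.mem_Uw.1 u.2
  unfold cLoc₂
  simp only [Pi.add_apply, pull2_apply, prism3_apply, ps_iotaU_mul, ps_rwU_mul,
    Subgroup.coe_mul, ps_lInv_bigG₃ χ hχ y.1 _ hu', ps_lInv_bigL₂ χ D v hχ j (y.2 v) _ u.2]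

lemma ps_homog1_cB (hχ : ∀ g ∈ U, χ g = 1) (v : ι) (j : D.J v) (y : CcAmb2 L (Bp k U χ))
    (s₀ s₁ : ↥(D.Uw v j)) :
    homog1 (trivRep k ↥(D.Uw v j)) ((cB₂ χ D hU y).2 ⟨v, j⟩) s₀ s₁ =
      cLoc₁ χ D v j y s₀ s₁ := by
  rw [homog1_apply]
  change (cB₂ χ D hU y).2 ⟨v, j⟩ (s₀⁻¹ * s₁) = _
  rw [cB₂_snd]
  have h := ps_cLoc₁_inv χ D hχ v j y s₀ 1 (s₀⁻¹ * s₁)
  rw [← h, mul_one, mul_inv_cancel_left]

lemma ps_homog2_cB_loc (hχ : ∀ g ∈ U, χ g = 1) (v : ι) (j : D.J v)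
    (y : CcAmb3 L (Bp k U χ)) (s₀ s₁ s₂ : ↥(D.Uw v j)) :
    homog2 (trivRep k ↥(D.Uw v j)) ((cB₃ χ D hU y).2 ⟨v, j⟩) s₀ s₁ s₂ =
      cLoc₂ χ D v j y s₀ s₁ s₂ := by
  rw [homog2_apply]
  change (cB₃ χ D hU y).2 ⟨v, j⟩ (s₀⁻¹ * s₁, s₁⁻¹ * s₂) = _
  rw [cB₃_snd]
  have h := ps_cLoc₂_inv χ D hχ v j y s₀ 1 (s₀⁻¹ * s₁) (s₀⁻¹ * s₁ * (s₁⁻¹ * s₂))
  have e2 : s₀ * (s₀⁻¹ * s₁ * (s₁⁻¹ * s₂)) = s₂ := by group
  rw [← h, mul_one, mul_inv_cancel_left, e2]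

/-- the global component of `Ψ (c y)` in the big model, cone degree `2` -/
lemma ps_psi_cB₂_glob (hχ : ∀ g ∈ U, χ g = 1) (y : CcAmb2 L (Bp k U χ)) :
    pull2 (retr U) (homog2 (trivRep k ↥U) (cB₂ χ D hU y).1) =
      pull2 (ps_rho U) (bigG₂ χ y.1) := by
  funext x₀ x₁ x₂
  simp only [pull2_apply]
  exact ps_homog2_cB χ D hU hχ y _ _ _

/-- the global component of `Ψ (c y)` in the big model, cone degree `3` -/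
lemma ps_psi_cB₃_glob (hχ : ∀ g ∈ U, χ g = 1) (y : CcAmb3 L (Bp k U χ)) :
    pull3 (retr U) (homog3 (trivRep k ↥U) (cB₃ χ D hU y).1) =
      pull3 (ps_rho U) (bigG₃ χ y.1) := by
  funext x₀ x₁ x₂ x₃
  simp only [pull3_apply]
  exact ps_homog3_cB χ D hU hχ y _ _ _ _

/-- the local component of `Ψ (c y)` in the big model, cone degree `2` -/
lemma ps_psi_cB₂_loc (hχ : ∀ g ∈ U, χ g = 1) (y : CcAmb2 L (Bp k U χ)) (v : ι) (j : D.J v) :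
    pull1 (retr (D.Uw v j)) (homog1 (trivRep k ↥(D.Uw v j)) ((cB₂ χ D hU y).2 ⟨v, j⟩))
        + prism2 (D.beta0 v j) (D.beta1 v j) (homog2 (trivRep k ↥U) (cB₂ χ D hU y).1) =
      ps_phiL₁ (D.iotaMap v j) (ps_rho U) (ps_rho (D.Uw v j)) (ps_b D v j)
        (bigG₂ χ y.1) (bigL₁ χ D v j (y.2 v)) := by
  funext x₀ x₁
  simp only [Pi.add_apply, pull1_apply, prism2_apply, ps_homog1_cB χ D hU hχ,
    ps_homog2_cB χ D hU hχ, ps_phiL₁_apply]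
  unfold cLoc₁
  simp only [Pi.add_apply, pull1_apply, prism2_apply]
  rfl

/-- the local component of `Ψ (c y)` in the big model, cone degree `3` -/
lemma ps_psi_cB₃_loc (hχ : ∀ g ∈ U, χ g = 1) (y : CcAmb3 L (Bp k U χ)) (v : ι) (j : D.J v) :
    pull2 (retr (D.Uw v j)) (homog2 (trivRep k ↥(D.Uw v j)) ((cB₃ χ D hU y).2 ⟨v, j⟩))
        + prism3 (D.beta0 v j) (D.beta1 v j) (homog3 (trivRep k ↥U) (cB₃ χ D hU y).1) =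
      ps_phiL₂ (D.iotaMap v j) (ps_rho U) (ps_rho (D.Uw v j)) (ps_b D v j)
        (bigG₃ χ y.1) (bigL₂ χ D v j (y.2 v)) := by
  funext x₀ x₁ x₂
  simp only [Pi.add_apply, pull2_apply, prism3_apply, ps_homog2_cB_loc χ D hU hχ,
    ps_homog3_cB χ D hU hχ, ps_phiL₂_apply]
  unfold cLoc₂
  simp only [Pi.add_apply, pull2_apply, prism3_apply]
  rfl

/-- **P-SURJ, degree 2**: `y - P (c y)` is a cone coboundary for every cone cocycle `y`, for any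
map `P` whose big-model components are given by helper35's `Ψ`. -/
theorem ps_P2_surj (hχ : ∀ g ∈ U, χ g = 1)
    (P2 : CcAmb2 (D.localData hU) (trivRep k ↥U) → CcAmb2 L (Bp k U χ))
    (hPG : ∀ y', bigG₂ χ (P2 y').1 = pull2 (retr U) (homog2 (trivRep k ↥U) y'.1))
    (hPL : ∀ y' v j, bigL₁ χ D v j ((P2 y').2 v) =
      pull1 (retr (D.Uw v j)) (homog1 (trivRep k ↥(D.Uw v j)) (y'.2 ⟨v, j⟩))
        + prism2 (D.beta0 v j) (D.beta1 v j) (homog2 (trivRep k ↥U) y'.1))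
    (hC : ∀ y ∈ Zc2 L (Bp k U χ), cB₂ χ D hU y ∈ Zc2 (D.localData hU) (trivRep k ↥U)) :
    ∀ y ∈ Zc2 L (Bp k U χ), ∃ y' ∈ Zc2 (D.localData hU) (trivRep k ↥U),
      y - P2 y' ∈ Bc2 L (Bp k U χ) := by
  intro y hy
  refine ⟨cB₂ χ D hU y, hC y hy, ps_w₁ χ D y, ps_w₁_mem χ D hU hy.1, ?_⟩
  refine ps_dc_w₁ χ D hχ (LinearMap.mem_ker.1 hy.2) (P2 (cB₂ χ D hU y)) ?_ ?_
  · rw [hPG]
    exact ps_psi_cB₂_glob χ D hU hχ y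
  · intro v j
    rw [hPL]
    exact ps_psi_cB₂_loc χ D hU hχ y v j

/-- **P-SURJ, degree 3**. -/
theorem ps_P3_surj (hχ : ∀ g ∈ U, χ g = 1)
    (P3 : CcAmb3 (D.localData hU) (trivRep k ↥U) → CcAmb3 L (Bp k U χ))
    (hPG : ∀ y', bigG₃ χ (P3 y').1 = pull3 (retr U) (homog3 (trivRep k ↥U) y'.1))
    (hPL : ∀ y' v j, bigL₂ χ D v j ((P3 y').2 v) =
      pull2 (retr (D.Uw v j)) (homog2 (trivRep k ↥(D.Uw v j)) (y'.2 ⟨v, j⟩))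
        + prism3 (D.beta0 v j) (D.beta1 v j) (homog3 (trivRep k ↥U) y'.1))
    (hC : ∀ y ∈ Zc3 L (Bp k U χ), cB₃ χ D hU y ∈ Zc3 (D.localData hU) (trivRep k ↥U)) :
    ∀ y ∈ Zc3 L (Bp k U χ), ∃ y' ∈ Zc3 (D.localData hU) (trivRep k ↥U),
      y - P3 y' ∈ Bc3 L (Bp k U χ) := by
  intro y hy
  refine ⟨cB₃ χ D hU y, hC y hy, ps_w₂ χ D y, ps_w₂_mem χ D hU hy.1, ?_⟩
  refine ps_dc_w₂ χ D hχ (LinearMap.mem_ker.1 hy.2) (P3 (cB₃ χ D hU y)) ?_ ?_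
  · rw [hPG]
    exact ps_psi_cB₃_glob χ D hU hχ y
  · intro v j
    rw [hPL]
    exact ps_psi_cB₃_loc χ D hU hχ y v j

end Wire

end Fermat.Agent.S55.helper49
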