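import Fermat.Agent.S55.AInterface

/-!
# S55, module A: basic cochain lemmas (A-BASIC)

* level preservation of `d`, `res`, cone differentials, maps and cups;
* `d ∘ d = 0` (including `d₃₄ ∘ d₂₃` and the cone versions), `res` commutes with `d`;
* Leibniz rules for the cone cup products in total degree `≤ 3`;
* functoriality of the cone differentials and of the cups.
-/

set_option autoImplicit false

universe u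

open groupCohomology

noncomputable section

namespace Fermat.Agent.S55

variable {k G : Type u} [Field k] [Group G] {𝒩 : Levels G} {ι : Type} (L : LocalData G 𝒩 ι)

/-! ## Unfolding lemmas -/

section Unfold

variable (A : Rep.{u} k G)

lemma loc_ρ_apply (v : ι) (s : L.Gv v) (a : A) : (L.loc A v).ρ s a = A.ρ (L.r v s) a := rfl

@[simp] lemma dc₀₁_fst (a : A) : (dc₀₁ L A a).1 = (d₀₁ A).hom a := rfl
@[simp] lemma dc₀₁_snd (a : A) (v : ι) : (dc₀₁ L A a).2 v = a := rfl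
@[simp] lemma dc₁₂_fst (x : CcAmb1 L A) : (dc₁₂ L A x).1 = (d₁₂ A).hom x.1 := rfl
@[simp] lemma dc₁₂_snd (x : CcAmb1 L A) (v : ι) (s : L.Gv v) :
    (dc₁₂ L A x).2 v s = x.1 (L.r v s) - (A.ρ (L.r v s) (x.2 v) - x.2 v) := rfl
@[simp] lemma dc₂₃_fst (x : CcAmb2 L A) : (dc₂₃ L A x).1 = (d₂₃ A).hom x.1 := rfl
@[simp] lemma dc₂₃_snd (x : CcAmb2 L A) (v : ι) (s t : L.Gv v) :
    (dc₂₃ L A x).2 v (s, t) = x.1 (L.r v s, L.r v t)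
      - (A.ρ (L.r v s) (x.2 v t) - x.2 v (s * t) + x.2 v s) := rfl
@[simp] lemma dc₃₄_fst (x : CcAmb3 L A) : (dc₃₄ L A x).1 = d₃₄ A x.1 := rfl
@[simp] lemma dc₃₄_snd (x : CcAmb3 L A) (v : ι) (s t w : L.Gv v) :
    (dc₃₄ L A x).2 v (s, t, w) = x.1 (L.r v s, L.r v t, L.r v w)
      - (A.ρ (L.r v s) (x.2 v (t, w)) - x.2 v (s * t, w) + x.2 v (s, t * w) - x.2 v (s, t)) := rfl

end Unfold

/-! ## Level preservation -/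

section LevelPreservation

variable {A : Rep.{u} k G}

lemma d₀₁_mem_C1 (hA : IsSmooth 𝒩 A) (a : A) : (d₀₁ A).hom a ∈ C1 𝒩 A := by
  obtain ⟨N, hN, h⟩ := hA
  refine ⟨N, hN, fun g s hs => ?_⟩
  simp only [d₀₁_hom_apply, map_mul, Module.End.mul_apply, h s hs]

lemma d₁₂_mem_C2 (hA : IsSmooth 𝒩 A) {x : G → A} (hx : x ∈ C1 𝒩 A) :
    (d₁₂ A).hom x ∈ C2 𝒩 A := by
  obtain ⟨N, hN, h⟩ := hA
  obtain ⟨N', hN', h'⟩ := hx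
  obtain ⟨N'', hN'', hle⟩ := 𝒩.directed N hN N' hN'
  refine ⟨N'', hN'', fun g₁ g₂ s₁ hs₁ s₂ hs₂ => ?_⟩
  have e1 : g₁ * s₁ * (g₂ * s₂) = g₁ * g₂ * ((g₂⁻¹ * s₁ * g₂) * s₂) := by group
  have hc : g₂⁻¹ * s₁ * g₂ * s₂ ∈ N' := by
    refine N'.mul_mem ?_ (hle hs₂).2
    have := (𝒩.normal N' hN').conj_mem s₁ (hle hs₁).2 g₂⁻¹
    simpa using this
  simp only [d₁₂_hom_apply, map_mul, Module.End.mul_apply, h' g₂ s₂ (hle hs₂).2,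
    h' g₁ s₁ (hle hs₁).2, e1, h' (g₁ * g₂) _ hc, h s₁ (hle hs₁).1]

lemma d₂₃_mem_C3 (hA : IsSmooth 𝒩 A) {x : G × G → A} (hx : x ∈ C2 𝒩 A) :
    (d₂₃ A).hom x ∈ C3 𝒩 A := by
  obtain ⟨N, hN, h⟩ := hA
  obtain ⟨N', hN', h'⟩ := hx
  obtain ⟨N'', hN'', hle⟩ := 𝒩.directed N hN N' hN'
  refine ⟨N'', hN'', fun g₁ g₂ g₃ s₁ hs₁ s₂ hs₂ s₃ hs₃ => ?_⟩
  have e1 : g₁ * s₁ * (g₂ * s₂) = g₁ * g₂ * ((g₂⁻¹ * s₁ * g₂) * s₂) := by group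
  have hc1 : g₂⁻¹ * s₁ * g₂ * s₂ ∈ N' := by
    refine N'.mul_mem ?_ (hle hs₂).2
    have := (𝒩.normal N' hN').conj_mem s₁ (hle hs₁).2 g₂⁻¹
    simpa using this
  have e2 : g₂ * s₂ * (g₃ * s₃) = g₂ * g₃ * ((g₃⁻¹ * s₂ * g₃) * s₃) := by group
  have hc2 : g₃⁻¹ * s₂ * g₃ * s₃ ∈ N' := by
    refine N'.mul_mem ?_ (hle hs₃).2
    have := (𝒩.normal N' hN').conj_mem s₂ (hle hs₂).2 g₃⁻¹
    simpa using this
  simp only [d₂₃_hom_apply, map_mul, Module.End.mul_apply,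
    h' g₂ g₃ s₂ (hle hs₂).2 s₃ (hle hs₃).2, h' g₁ g₂ s₁ (hle hs₁).2 s₂ (hle hs₂).2, e1, e2,
    h' (g₁ * g₂) g₃ _ hc1 s₃ (hle hs₃).2, h' g₁ (g₂ * g₃) s₁ (hle hs₁).2 _ hc2,
    h s₁ (hle hs₁).1]

lemma B1_le_C1 (hA : IsSmooth 𝒩 A) : B1 A ≤ C1 𝒩 A := by
  rintro _ ⟨a, rfl⟩
  exact d₀₁_mem_C1 hA a

lemma B1_le_Z1 (hA : IsSmooth 𝒩 A) : B1 A ≤ Z1 𝒩 A := by
  rintro _ ⟨a, rfl⟩
  exact ⟨d₀₁_mem_C1 hA a, d₀₁_comp_d₁₂_apply A a⟩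

lemma B2_le_Z2 (hA : IsSmooth 𝒩 A) : B2 𝒩 A ≤ Z2 𝒩 A := by
  rintro _ ⟨x, hx, rfl⟩
  exact ⟨d₁₂_mem_C2 hA hx, d₁₂_comp_d₂₃_apply A x⟩

lemma d₃₄_d₂₃ (A : Rep.{u} k G) (x : G × G → A) : d₃₄ A ((d₂₃ A).hom x) = 0 := by
  funext ⟨g₁, g₂, g₃, g₄⟩
  simp only [d₃₄_apply, d₂₃_hom_apply, map_sub, map_add, Pi.zero_apply, mul_assoc,
    ← Module.End.mul_apply, ← map_mul]
  abel

lemma B3_le_Z3 (hA : IsSmooth 𝒩 A) : B3 𝒩 A ≤ Z3 𝒩 A := by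
  rintro _ ⟨x, hx, rfl⟩
  exact ⟨d₂₃_mem_C3 hA hx, d₃₄_d₂₃ A x⟩

lemma isSmooth_loc (hA : IsSmooth 𝒩 A) (v : ι) : IsSmooth (L.lev v) (L.loc A v) := by
  obtain ⟨N, hN, h⟩ := hA
  obtain ⟨N', hN', hle⟩ := L.compat v N hN
  exact ⟨N', hN', fun s hs a => h (L.r v s) (hle hs) a⟩

lemma res₁_mem_C1 {x : G → A} (hx : x ∈ C1 𝒩 A) (v : ι) :
    res₁ L A v x ∈ C1 (L.lev v) (L.loc A v) := by
  obtain ⟨N, hN, h⟩ := hx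
  obtain ⟨N', hN', hle⟩ := L.compat v N hN
  refine ⟨N', hN', fun g s hs => ?_⟩
  simp only [res₁_apply, map_mul]
  exact h _ _ (hle hs)

lemma res₂_mem_C2 {x : G × G → A} (hx : x ∈ C2 𝒩 A) (v : ι) :
    res₂ L A v x ∈ C2 (L.lev v) (L.loc A v) := by
  obtain ⟨N, hN, h⟩ := hx
  obtain ⟨N', hN', hle⟩ := L.compat v N hN
  refine ⟨N', hN', fun g₁ g₂ s₁ hs₁ s₂ hs₂ => ?_⟩
  simp only [res₂_apply, map_mul]
  exact h _ _ _ (hle hs₁) _ (hle hs₂)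

lemma res₃_mem_C3 {x : G × G × G → A} (hx : x ∈ C3 𝒩 A) (v : ι) :
    res₃ L A v x ∈ C3 (L.lev v) (L.loc A v) := by
  obtain ⟨N, hN, h⟩ := hx
  obtain ⟨N', hN', hle⟩ := L.compat v N hN
  refine ⟨N', hN', fun g₁ g₂ g₃ s₁ hs₁ s₂ hs₂ s₃ hs₃ => ?_⟩
  simp only [res₃_apply, map_mul]
  exact h _ _ _ _ (hle hs₁) _ (hle hs₂) _ (hle hs₃)

lemma mem_Cc1 {x : CcAmb1 L A} : x ∈ Cc1 L A ↔ x.1 ∈ C1 𝒩 A := by
  simp [Cc1, Submodule.mem_prod]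

lemma mem_Cc2 {x : CcAmb2 L A} :
    x ∈ Cc2 L A ↔ x.1 ∈ C2 𝒩 A ∧ ∀ v, x.2 v ∈ C1 (L.lev v) (L.loc A v) := by
  simp [Cc2, Submodule.mem_prod, Submodule.mem_pi]

lemma mem_Cc3 {x : CcAmb3 L A} :
    x ∈ Cc3 L A ↔ x.1 ∈ C3 𝒩 A ∧ ∀ v, x.2 v ∈ C2 (L.lev v) (L.loc A v) := by
  simp [Cc3, Submodule.mem_prod, Submodule.mem_pi]

lemma mem_Z1 {x : G → A} : x ∈ Z1 𝒩 A ↔ x ∈ C1 𝒩 A ∧ (d₁₂ A).hom x = 0 := Iff.rfl
lemma mem_Z2 {x : G × G → A} : x ∈ Z2 𝒩 A ↔ x ∈ C2 𝒩 A ∧ (d₂₃ A).hom x = 0 := Iff.rfl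
lemma mem_Z3 {x : G × G × G → A} : x ∈ Z3 𝒩 A ↔ x ∈ C3 𝒩 A ∧ d₃₄ A x = 0 := Iff.rfl
lemma mem_B1 {x : G → A} : x ∈ B1 A ↔ ∃ a : A, (d₀₁ A).hom a = x := Iff.rfl
lemma mem_B2 {x : G × G → A} : x ∈ B2 𝒩 A ↔ ∃ y ∈ C1 𝒩 A, (d₁₂ A).hom y = x := Iff.rfl
lemma mem_B3 {x : G × G × G → A} : x ∈ B3 𝒩 A ↔ ∃ y ∈ C2 𝒩 A, (d₂₃ A).hom y = x := Iff.rfl
lemma mem_Zc1 {x : CcAmb1 L A} : x ∈ Zc1 L A ↔ x ∈ Cc1 L A ∧ dc₁₂ L A x = 0 := Iff.rfl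
lemma mem_Zc2 {x : CcAmb2 L A} : x ∈ Zc2 L A ↔ x ∈ Cc2 L A ∧ dc₂₃ L A x = 0 := Iff.rfl
lemma mem_Zc3 {x : CcAmb3 L A} : x ∈ Zc3 L A ↔ x ∈ Cc3 L A ∧ dc₃₄ L A x = 0 := Iff.rfl
lemma mem_Bc1 {x : CcAmb1 L A} : x ∈ Bc1 L A ↔ ∃ a : A, dc₀₁ L A a = x := Iff.rfl
lemma mem_Bc2 {x : CcAmb2 L A} : x ∈ Bc2 L A ↔ ∃ y ∈ Cc1 L A, dc₁₂ L A y = x := Iff.rfl
lemma mem_Bc3 {x : CcAmb3 L A} : x ∈ Bc3 L A ↔ ∃ y ∈ Cc2 L A, dc₂₃ L A y = x := Iff.rfl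
lemma mem_H0 {a : A} : a ∈ H0 A ↔ ∀ g : G, A.ρ g a = a := Iff.rfl

lemma dc₀₁_mem_Cc1 (hA : IsSmooth 𝒩 A) (a : A) : dc₀₁ L A a ∈ Cc1 L A :=
  (mem_Cc1 L).2 (d₀₁_mem_C1 hA a)

lemma dc₁₂_mem_Cc2 (hA : IsSmooth 𝒩 A) {x : CcAmb1 L A} (hx : x ∈ Cc1 L A) :
    dc₁₂ L A x ∈ Cc2 L A := by
  refine (mem_Cc2 L).2 ⟨d₁₂_mem_C2 hA ((mem_Cc1 L).1 hx), fun v => ?_⟩
  exact (C1 (L.lev v) (L.loc A v)).sub_mem (res₁_mem_C1 L ((mem_Cc1 L).1 hx) v)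
    (d₀₁_mem_C1 (isSmooth_loc L hA v) _)

lemma dc₂₃_mem_Cc3 (hA : IsSmooth 𝒩 A) {x : CcAmb2 L A} (hx : x ∈ Cc2 L A) :
    dc₂₃ L A x ∈ Cc3 L A := by
  refine (mem_Cc3 L).2 ⟨d₂₃_mem_C3 hA ((mem_Cc2 L).1 hx).1, fun v => ?_⟩
  exact (C2 (L.lev v) (L.loc A v)).sub_mem (res₂_mem_C2 L ((mem_Cc2 L).1 hx).1 v)
    (d₁₂_mem_C2 (isSmooth_loc L hA v) (((mem_Cc2 L).1 hx).2 v))

end LevelPreservation

/-! ## `d ∘ d = 0` for the cone -/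

section DD

variable (A : Rep.{u} k G)

lemma dc₁₂_dc₀₁ (a : A) : dc₁₂ L A (dc₀₁ L A a) = 0 := by
  refine Prod.ext ?_ ?_
  · exact d₀₁_comp_d₁₂_apply A a
  · funext v s
    simp only [dc₁₂_snd, dc₀₁_fst, dc₀₁_snd, d₀₁_hom_apply, Prod.snd_zero, Pi.zero_apply]
    abel

lemma dc₂₃_dc₁₂ (x : CcAmb1 L A) : dc₂₃ L A (dc₁₂ L A x) = 0 := by
  refine Prod.ext ?_ ?_
  · exact d₁₂_comp_d₂₃_apply A x.1
  · funext v ⟨s, t⟩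
    simp only [dc₂₃_snd, dc₁₂_fst, dc₁₂_snd, d₁₂_hom_apply, Prod.snd_zero, Pi.zero_apply,
      map_sub, map_mul, Module.End.mul_apply]
    abel

lemma dc₃₄_dc₂₃ (x : CcAmb2 L A) : dc₃₄ L A (dc₂₃ L A x) = 0 := by
  refine Prod.ext ?_ ?_
  · exact d₃₄_d₂₃ A x.1
  · funext v ⟨s₁, s₂, s₃⟩
    simp only [dc₃₄_snd, dc₂₃_fst, dc₂₃_snd, d₂₃_hom_apply, Prod.snd_zero, Pi.zero_apply,
      map_sub, map_add, map_mul, Module.End.mul_apply, mul_assoc]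
    abel

lemma Bc1_le_Zc1 {A : Rep.{u} k G} (hA : IsSmooth 𝒩 A) : Bc1 L A ≤ Zc1 L A := by
  rintro _ ⟨a, rfl⟩
  exact ⟨dc₀₁_mem_Cc1 L hA a, dc₁₂_dc₀₁ L A a⟩

lemma Bc2_le_Zc2 {A : Rep.{u} k G} (hA : IsSmooth 𝒩 A) : Bc2 L A ≤ Zc2 L A := by
  rintro _ ⟨x, hx, rfl⟩
  exact ⟨dc₁₂_mem_Cc2 L hA hx, dc₂₃_dc₁₂ L A x⟩

lemma Bc3_le_Zc3 {A : Rep.{u} k G} (hA : IsSmooth 𝒩 A) : Bc3 L A ≤ Zc3 L A := by
  rintro _ ⟨x, hx, rfl⟩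
  exact ⟨dc₂₃_mem_Cc3 L hA hx, dc₃₄_dc₂₃ L A x⟩

end DD

/-! ## Maps induced by (equivariant) linear maps -/

section Maps

variable {A A' : Rep.{u} k G}

lemma map_mem_C1 (f : A →ₗ[k] A') {x : G → A} (hx : x ∈ C1 𝒩 A) :
    (fun g => f (x g)) ∈ C1 𝒩 A' := by
  obtain ⟨N, hN, h⟩ := hx
  exact ⟨N, hN, fun g s hs => by simp only [h g s hs]⟩

lemma map_mem_C2 (f : A →ₗ[k] A') {x : G × G → A} (hx : x ∈ C2 𝒩 A) :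
    (fun g => f (x g)) ∈ C2 𝒩 A' := by
  obtain ⟨N, hN, h⟩ := hx
  exact ⟨N, hN, fun g₁ g₂ s₁ hs₁ s₂ hs₂ => by simp only [h g₁ g₂ s₁ hs₁ s₂ hs₂]⟩

lemma map_mem_C3 (f : A →ₗ[k] A') {x : G × G × G → A} (hx : x ∈ C3 𝒩 A) :
    (fun g => f (x g)) ∈ C3 𝒩 A' := by
  obtain ⟨N, hN, h⟩ := hx
  exact ⟨N, hN, fun g₁ g₂ g₃ s₁ hs₁ s₂ hs₂ s₃ hs₃ => by
    simp only [h g₁ g₂ g₃ s₁ hs₁ s₂ hs₂ s₃ hs₃]⟩

@[simp] lemma ccmap₁_fst (f : A →ₗ[k] A') (x : CcAmb1 L A) (g : G) :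
    (ccmap₁ L f x).1 g = f (x.1 g) := rfl
@[simp] lemma ccmap₁_snd (f : A →ₗ[k] A') (x : CcAmb1 L A) (v : ι) :
    (ccmap₁ L f x).2 v = f (x.2 v) := rfl
@[simp] lemma ccmap₂_fst (f : A →ₗ[k] A') (x : CcAmb2 L A) (g : G × G) :
    (ccmap₂ L f x).1 g = f (x.1 g) := rfl
@[simp] lemma ccmap₂_snd (f : A →ₗ[k] A') (x : CcAmb2 L A) (v : ι) (s : L.Gv v) :
    (ccmap₂ L f x).2 v s = f (x.2 v s) := rfl
@[simp] lemma ccmap₃_fst (f : A →ₗ[k] A') (x : CcAmb3 L A) (g : G × G × G) :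
    (ccmap₃ L f x).1 g = f (x.1 g) := rfl
@[simp] lemma ccmap₃_snd (f : A →ₗ[k] A') (x : CcAmb3 L A) (v : ι) (s : L.Gv v × L.Gv v) :
    (ccmap₃ L f x).2 v s = f (x.2 v s) := rfl

lemma ccmap₁_mem_Cc1 (f : A →ₗ[k] A') {x : CcAmb1 L A} (hx : x ∈ Cc1 L A) :
    ccmap₁ L f x ∈ Cc1 L A' :=
  (mem_Cc1 L).2 (map_mem_C1 f ((mem_Cc1 L).1 hx))

lemma ccmap₂_mem_Cc2 (f : A →ₗ[k] A') {x : CcAmb2 L A} (hx : x ∈ Cc2 L A) :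
    ccmap₂ L f x ∈ Cc2 L A' :=
  (mem_Cc2 L).2 ⟨map_mem_C2 f ((mem_Cc2 L).1 hx).1,
    fun v => map_mem_C1 (A := L.loc A v) (A' := L.loc A' v) f (((mem_Cc2 L).1 hx).2 v)⟩

lemma ccmap₃_mem_Cc3 (f : A →ₗ[k] A') {x : CcAmb3 L A} (hx : x ∈ Cc3 L A) :
    ccmap₃ L f x ∈ Cc3 L A' :=
  (mem_Cc3 L).2 ⟨map_mem_C3 f ((mem_Cc3 L).1 hx).1,
    fun v => map_mem_C2 (A := L.loc A v) (A' := L.loc A' v) f (((mem_Cc3 L).1 hx).2 v)⟩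

lemma d₀₁_map (f : EqHom A A') (a : A) :
    (d₀₁ A').hom (f.f a) = fun g => f.f ((d₀₁ A).hom a g) := by
  funext g
  simp only [d₀₁_hom_apply, map_sub, f.comm]

lemma d₁₂_map (f : EqHom A A') (x : G → A) :
    (d₁₂ A').hom (fun g => f.f (x g)) = fun g => f.f ((d₁₂ A).hom x g) := by
  funext g
  simp only [d₁₂_hom_apply, map_sub, map_add, f.comm]

lemma d₂₃_map (f : EqHom A A') (x : G × G → A) :
    (d₂₃ A').hom (fun g => f.f (x g)) = fun g => f.f ((d₂₃ A).hom x g) := by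
  funext g
  simp only [d₂₃_hom_apply, map_sub, map_add, f.comm]

lemma d₃₄_map (f : EqHom A A') (x : G × G × G → A) :
    d₃₄ A' (fun g => f.f (x g)) = fun g => f.f (d₃₄ A x g) := by
  funext ⟨g₁, g₂, g₃, g₄⟩
  simp only [d₃₄_apply, map_sub, map_add, f.comm]

lemma dc₀₁_map (f : EqHom A A') (a : A) :
    dc₀₁ L A' (f.f a) = ccmap₁ L f.f (dc₀₁ L A a) := by
  refine Prod.ext ?_ ?_
  · exact d₀₁_map f a
  · rfl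

lemma dc₁₂_map (f : EqHom A A') (x : CcAmb1 L A) :
    dc₁₂ L A' (ccmap₁ L f.f x) = ccmap₂ L f.f (dc₁₂ L A x) := by
  refine Prod.ext ?_ ?_
  · exact d₁₂_map f x.1
  · funext v s
    simp only [dc₁₂_snd, ccmap₁_fst, ccmap₁_snd, ccmap₂_snd, map_sub, f.comm]

lemma dc₂₃_map (f : EqHom A A') (x : CcAmb2 L A) :
    dc₂₃ L A' (ccmap₂ L f.f x) = ccmap₃ L f.f (dc₂₃ L A x) := by
  refine Prod.ext ?_ ?_
  · exact d₂₃_map f x.1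
  · funext v ⟨s, t⟩
    simp only [dc₂₃_snd, ccmap₂_fst, ccmap₂_snd, ccmap₃_snd, map_sub, map_add, f.comm]

lemma dc₃₄_map_eq_zero (f : EqHom A A') {x : CcAmb3 L A} (hx : dc₃₄ L A x = 0) :
    dc₃₄ L A' (ccmap₃ L f.f x) = 0 := by
  have h1 := congrArg Prod.fst hx
  have h2 := congrArg Prod.snd hx
  refine Prod.ext ?_ ?_
  · funext ⟨g₁, g₂, g₃, g₄⟩
    have := congrFun h1 (g₁, g₂, g₃, g₄)
    simp only [dc₃₄_fst, d₃₄_apply, Prod.fst_zero, Pi.zero_apply] at this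
    simp only [dc₃₄_fst, d₃₄_apply, ccmap₃_fst, Prod.fst_zero, Pi.zero_apply, ← f.comm,
      ← map_sub, ← map_add, this, map_zero]
  · funext v ⟨s, t, w⟩
    have := congrFun (congrFun h2 v) (s, t, w)
    simp only [dc₃₄_snd, Prod.snd_zero, Pi.zero_apply] at this
    simp only [dc₃₄_snd, ccmap₃_fst, ccmap₃_snd, Prod.snd_zero, Pi.zero_apply, ← f.comm,
      ← map_sub, ← map_add, this, map_zero]

lemma ccmap₁_mem_Zc1 (f : EqHom A A') {x : CcAmb1 L A} (hx : x ∈ Zc1 L A) :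
    ccmap₁ L f.f x ∈ Zc1 L A' := by
  rw [mem_Zc1] at hx ⊢
  exact ⟨ccmap₁_mem_Cc1 L f.f hx.1, by rw [dc₁₂_map, hx.2, map_zero]⟩

lemma ccmap₂_mem_Zc2 (f : EqHom A A') {x : CcAmb2 L A} (hx : x ∈ Zc2 L A) :
    ccmap₂ L f.f x ∈ Zc2 L A' := by
  rw [mem_Zc2] at hx ⊢
  exact ⟨ccmap₂_mem_Cc2 L f.f hx.1, by rw [dc₂₃_map, hx.2, map_zero]⟩

lemma ccmap₃_mem_Zc3 (f : EqHom A A') {x : CcAmb3 L A} (hx : x ∈ Zc3 L A) :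
    ccmap₃ L f.f x ∈ Zc3 L A' := by
  rw [mem_Zc3] at hx ⊢
  exact ⟨ccmap₃_mem_Cc3 L f.f hx.1, dc₃₄_map_eq_zero L f hx.2⟩

lemma ccmap₁_mem_Bc1 (f : EqHom A A') {x : CcAmb1 L A} (hx : x ∈ Bc1 L A) :
    ccmap₁ L f.f x ∈ Bc1 L A' := by
  obtain ⟨a, rfl⟩ := hx
  exact ⟨f.f a, dc₀₁_map L f a⟩

lemma ccmap₂_mem_Bc2 (f : EqHom A A') {x : CcAmb2 L A} (hx : x ∈ Bc2 L A) :
    ccmap₂ L f.f x ∈ Bc2 L A' := by
  obtain ⟨y, hy, rfl⟩ := hx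
  exact ⟨ccmap₁ L f.f y, ccmap₁_mem_Cc1 L f.f hy, dc₁₂_map L f y⟩

lemma ccmap₃_mem_Bc3 (f : EqHom A A') {x : CcAmb3 L A} (hx : x ∈ Bc3 L A) :
    ccmap₃ L f.f x ∈ Bc3 L A' := by
  obtain ⟨y, hy, rfl⟩ := hx
  exact ⟨ccmap₂ L f.f y, ccmap₂_mem_Cc2 L f.f hy, dc₂₃_map L f y⟩

lemma map_mem_Z1 (f : EqHom A A') {x : G → A} (hx : x ∈ Z1 𝒩 A) :
    (fun g => f.f (x g)) ∈ Z1 𝒩 A' := by
  rw [mem_Z1] at hx ⊢
  refine ⟨map_mem_C1 f.f hx.1, ?_⟩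
  rw [d₁₂_map, hx.2]
  funext g
  exact map_zero f.f

lemma map_mem_Z2 (f : EqHom A A') {x : G × G → A} (hx : x ∈ Z2 𝒩 A) :
    (fun g => f.f (x g)) ∈ Z2 𝒩 A' := by
  rw [mem_Z2] at hx ⊢
  refine ⟨map_mem_C2 f.f hx.1, ?_⟩
  rw [d₂₃_map, hx.2]
  funext g
  exact map_zero f.f

lemma map_mem_B1 (f : EqHom A A') {x : G → A} (hx : x ∈ B1 A) :
    (fun g => f.f (x g)) ∈ B1 A' := by
  obtain ⟨a, rfl⟩ := hx
  exact ⟨f.f a, d₀₁_map f a⟩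

lemma map_mem_B2 (f : EqHom A A') {x : G × G → A} (hx : x ∈ B2 𝒩 A) :
    (fun g => f.f (x g)) ∈ B2 𝒩 A' := by
  obtain ⟨y, hy, rfl⟩ := hx
  exact ⟨fun g => f.f (y g), map_mem_C1 f.f hy, d₁₂_map f y⟩

lemma map_mem_H0 (f : EqHom A A') {a : A} (ha : a ∈ H0 A) : f.f a ∈ H0 A' := by
  intro g
  rw [← f.comm, ha g]

end Maps

/-! ## Cone cup products: unfolding, Leibniz rules -/

section Cups

variable {A B C : Rep.{u} k G} (φ : EqPairing A B C)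

@[simp] lemma cupc₀₁_fst (a : A) (y : CcAmb1 L B) (g : G) :
    (cupc₀₁ L φ a y).1 g = φ.φ a (y.1 g) := rfl
@[simp] lemma cupc₀₁_snd (a : A) (y : CcAmb1 L B) (v : ι) :
    (cupc₀₁ L φ a y).2 v = φ.φ a (y.2 v) := rfl
@[simp] lemma cupc₁₀_fst (x : G → A) (b : B) (g : G) :
    (cupc₁₀ L φ x b).1 g = φ.φ (x g) (B.ρ g b) := rfl
@[simp] lemma cupc₁₀_snd (x : G → A) (b : B) (v : ι) :
    (cupc₁₀ L φ x b).2 v = 0 := rfl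
@[simp] lemma cupc₀₂_fst (a : A) (y : CcAmb2 L B) (g : G × G) :
    (cupc₀₂ L φ a y).1 g = φ.φ a (y.1 g) := rfl
@[simp] lemma cupc₀₂_snd (a : A) (y : CcAmb2 L B) (v : ι) (s : L.Gv v) :
    (cupc₀₂ L φ a y).2 v s = φ.φ a (y.2 v s) := rfl
@[simp] lemma cupc₁₁_fst (x : G → A) (y : CcAmb1 L B) (g h : G) :
    (cupc₁₁ L φ x y).1 (g, h) = φ.φ (x g) (B.ρ g (y.1 h)) := rfl
@[simp] lemma cupc₁₁_snd (x : G → A) (y : CcAmb1 L B) (v : ι) (s : L.Gv v) :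
    (cupc₁₁ L φ x y).2 v s = - φ.φ (x (L.r v s)) (B.ρ (L.r v s) (y.2 v)) := rfl
@[simp] lemma cupc₂₀_fst (x : G × G → A) (b : B) (g h : G) :
    (cupc₂₀ L φ x b).1 (g, h) = φ.φ (x (g, h)) (B.ρ (g * h) b) := rfl
@[simp] lemma cupc₂₀_snd (x : G × G → A) (b : B) (v : ι) :
    (cupc₂₀ L φ x b).2 v = 0 := rfl
@[simp] lemma cupc₀₃_fst (a : A) (y : CcAmb3 L B) (g : G × G × G) :
    (cupc₀₃ L φ a y).1 g = φ.φ a (y.1 g) := rfl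
@[simp] lemma cupc₀₃_snd (a : A) (y : CcAmb3 L B) (v : ι) (s : L.Gv v × L.Gv v) :
    (cupc₀₃ L φ a y).2 v s = φ.φ a (y.2 v s) := rfl
@[simp] lemma cupc₁₂_fst (x : G → A) (y : CcAmb2 L B) (g h j : G) :
    (cupc₁₂ L φ x y).1 (g, h, j) = φ.φ (x g) (B.ρ g (y.1 (h, j))) := rfl
@[simp] lemma cupc₁₂_snd (x : G → A) (y : CcAmb2 L B) (v : ι) (s t : L.Gv v) :
    (cupc₁₂ L φ x y).2 v (s, t) = - φ.φ (x (L.r v s)) (B.ρ (L.r v s) (y.2 v t)) := rfl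
@[simp] lemma cupc₂₁_fst (x : G × G → A) (y : CcAmb1 L B) (g h j : G) :
    (cupc₂₁ L φ x y).1 (g, h, j) = φ.φ (x (g, h)) (B.ρ (g * h) (y.1 j)) := rfl
@[simp] lemma cupc₂₁_snd (x : G × G → A) (y : CcAmb1 L B) (v : ι) (s t : L.Gv v) :
    (cupc₂₁ L φ x y).2 v (s, t) =
      φ.φ (x (L.r v s, L.r v t)) (B.ρ (L.r v s * L.r v t) (y.2 v)) := rfl
@[simp] lemma cupc₃₀_fst (x : G × G × G → A) (b : B) (g h j : G) :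
    (cupc₃₀ L φ x b).1 (g, h, j) = φ.φ (x (g, h, j)) (B.ρ (g * h * j) b) := rfl
@[simp] lemma cupc₃₀_snd (x : G × G × G → A) (b : B) (v : ι) :
    (cupc₃₀ L φ x b).2 v = 0 := rfl

/-- equivariance, in the form used for rewriting -/
lemma EqPairing.ρ_apply (g : G) (a : A) (b : B) :
    C.ρ g (φ.φ a b) = φ.φ (A.ρ g a) (B.ρ g b) := (φ.equivariant g a b).symm

/-! ### Leibniz rules `d_c (x ∪ y) = d x ∪ y + (-1)^i x ∪ d_c y` -/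

/-- `(i,j) = (0,1)` -/
lemma dc₁₂_cupc₀₁ (a : A) (y : CcAmb1 L B) :
    dc₁₂ L C (cupc₀₁ L φ a y) = cupc₁₁ L φ ((d₀₁ A).hom a) y + cupc₀₂ L φ a (dc₁₂ L B y) := by
  refine Prod.ext ?_ ?_
  · funext ⟨g, h⟩
    simp only [dc₁₂_fst, d₁₂_hom_apply, cupc₀₁_fst, Prod.fst_add, Pi.add_apply, cupc₁₁_fst,
      cupc₀₂_fst, d₀₁_hom_apply, φ.ρ_apply, map_sub, map_add, LinearMap.sub_apply]
    abel
  · funext v s
    simp only [dc₁₂_snd, cupc₀₁_fst, cupc₀₁_snd, Prod.snd_add, Pi.add_apply, cupc₁₁_snd,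
      cupc₀₂_snd, d₀₁_hom_apply, φ.ρ_apply, map_sub, LinearMap.sub_apply]
    abel

/-- `(i,j) = (0,2)` -/
lemma dc₂₃_cupc₀₂ (a : A) (y : CcAmb2 L B) :
    dc₂₃ L C (cupc₀₂ L φ a y) = cupc₁₂ L φ ((d₀₁ A).hom a) y + cupc₀₃ L φ a (dc₂₃ L B y) := by
  refine Prod.ext ?_ ?_
  · funext ⟨g, h, j⟩
    simp only [dc₂₃_fst, d₂₃_hom_apply, cupc₀₂_fst, Prod.fst_add, Pi.add_apply, cupc₁₂_fst,
      cupc₀₃_fst, d₀₁_hom_apply, φ.ρ_apply, map_sub, map_add, LinearMap.sub_apply]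
    abel
  · funext v ⟨s, t⟩
    simp only [dc₂₃_snd, cupc₀₂_fst, cupc₀₂_snd, Prod.snd_add, Pi.add_apply, cupc₁₂_snd,
      cupc₀₃_snd, d₀₁_hom_apply, φ.ρ_apply, map_sub, map_add, LinearMap.sub_apply]
    abel

/-- `(i,j) = (1,0)` -/
lemma dc₁₂_cupc₁₀ (x : G → A) (b : B) :
    dc₁₂ L C (cupc₁₀ L φ x b) = cupc₂₀ L φ ((d₁₂ A).hom x) b - cupc₁₁ L φ x (dc₀₁ L B b) := by
  refine Prod.ext ?_ ?_
  · funext ⟨g, h⟩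
    simp only [dc₁₂_fst, d₁₂_hom_apply, cupc₁₀_fst, Prod.fst_sub, Pi.sub_apply, cupc₂₀_fst,
      cupc₁₁_fst, dc₀₁_fst, d₀₁_hom_apply, φ.ρ_apply, map_sub, map_add, LinearMap.sub_apply,
      LinearMap.add_apply, map_mul, Module.End.mul_apply]
    abel
  · funext v s
    simp only [dc₁₂_snd, cupc₁₀_fst, cupc₁₀_snd, Prod.snd_sub, Pi.sub_apply, cupc₂₀_snd,
      cupc₁₁_snd, dc₀₁_snd, map_zero, Pi.zero_apply]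
    abel

/-- `(i,j) = (1,1)` -/
lemma dc₂₃_cupc₁₁ (x : G → A) (y : CcAmb1 L B) :
    dc₂₃ L C (cupc₁₁ L φ x y) = cupc₂₁ L φ ((d₁₂ A).hom x) y - cupc₁₂ L φ x (dc₁₂ L B y) := by
  refine Prod.ext ?_ ?_
  · funext ⟨g, h, j⟩
    simp only [dc₂₃_fst, d₂₃_hom_apply, cupc₁₁_fst, Prod.fst_sub, Pi.sub_apply, cupc₂₁_fst,
      cupc₁₂_fst, dc₁₂_fst, d₁₂_hom_apply, φ.ρ_apply, map_sub, map_add, LinearMap.sub_apply,
      LinearMap.add_apply, map_mul, Module.End.mul_apply]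
    abel
  · funext v ⟨s, t⟩
    simp only [dc₂₃_snd, cupc₁₁_fst, cupc₁₁_snd, Prod.snd_sub, Pi.sub_apply, cupc₂₁_snd,
      cupc₁₂_snd, dc₁₂_snd, d₁₂_hom_apply, φ.ρ_apply, map_sub, map_add, map_neg,
      LinearMap.sub_apply, LinearMap.add_apply, map_mul, Module.End.mul_apply]
    abel

/-- `(i,j) = (2,0)` -/
lemma dc₂₃_cupc₂₀ (x : G × G → A) (b : B) :
    dc₂₃ L C (cupc₂₀ L φ x b) = cupc₃₀ L φ ((d₂₃ A).hom x) b + cupc₂₁ L φ x (dc₀₁ L B b) := by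
  refine Prod.ext ?_ ?_
  · funext ⟨g, h, j⟩
    simp only [dc₂₃_fst, d₂₃_hom_apply, cupc₂₀_fst, Prod.fst_add, Pi.add_apply, cupc₃₀_fst,
      cupc₂₁_fst, dc₀₁_fst, d₀₁_hom_apply, φ.ρ_apply, map_sub, map_add, LinearMap.sub_apply,
      LinearMap.add_apply, map_mul, Module.End.mul_apply, mul_assoc]
    abel
  · funext v ⟨s, t⟩
    simp only [dc₂₃_snd, cupc₂₀_fst, cupc₂₀_snd, Prod.snd_add, Pi.add_apply, cupc₃₀_snd,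
      cupc₂₁_snd, dc₀₁_snd, map_zero, Pi.zero_apply]
    abel

/-! ### The degree 3 cups as bilinear maps -/

/-- `cupc₀₃` as a bilinear map -/
def cupL₀₃ : A →ₗ[k] CcAmb3 L B →ₗ[k] CcAmb3 L C :=
  LinearMap.mk₂ k (cupc₀₃ L φ)
    (fun a a' y => by
      refine Prod.ext ?_ ?_
      · funext g; simp only [cupc₀₃_fst, Prod.fst_add, Pi.add_apply, map_add, LinearMap.add_apply]
      · funext v t
        simp only [cupc₀₃_snd, Prod.snd_add, Pi.add_apply, map_add, LinearMap.add_apply])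
    (fun c a y => by
      refine Prod.ext ?_ ?_
      · funext g
        simp only [cupc₀₃_fst, Prod.smul_fst, Pi.smul_apply, map_smul, LinearMap.smul_apply]
      · funext v t
        simp only [cupc₀₃_snd, Prod.smul_snd, Pi.smul_apply, map_smul, LinearMap.smul_apply])
    (fun a y y' => by
      refine Prod.ext ?_ ?_
      · funext g; simp only [cupc₀₃_fst, Prod.fst_add, Pi.add_apply, map_add]
      · funext v t; simp only [cupc₀₃_snd, Prod.snd_add, Pi.add_apply, map_add])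
    (fun c a y => by
      refine Prod.ext ?_ ?_
      · funext g; simp only [cupc₀₃_fst, Prod.smul_fst, Pi.smul_apply, map_smul]
      · funext v t; simp only [cupc₀₃_snd, Prod.smul_snd, Pi.smul_apply, map_smul])

/-- `cupc₁₂` as a bilinear map -/
def cupL₁₂ : (G → A) →ₗ[k] CcAmb2 L B →ₗ[k] CcAmb3 L C :=
  LinearMap.mk₂ k (cupc₁₂ L φ)
    (fun a a' y => by
      refine Prod.ext ?_ ?_
      · funext ⟨g, h, j⟩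
        simp only [cupc₁₂_fst, Prod.fst_add, Pi.add_apply, map_add, LinearMap.add_apply]
      · funext v ⟨t, t'⟩
        simp only [cupc₁₂_snd, Prod.snd_add, Pi.add_apply, map_add, LinearMap.add_apply,
          neg_add])
    (fun c a y => by
      refine Prod.ext ?_ ?_
      · funext ⟨g, h, j⟩
        simp only [cupc₁₂_fst, Prod.smul_fst, Pi.smul_apply, map_smul, LinearMap.smul_apply]
      · funext v ⟨t, t'⟩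
        simp only [cupc₁₂_snd, Prod.smul_snd, Pi.smul_apply, map_smul, LinearMap.smul_apply,
          smul_neg])
    (fun a y y' => by
      refine Prod.ext ?_ ?_
      · funext ⟨g, h, j⟩; simp only [cupc₁₂_fst, Prod.fst_add, Pi.add_apply, map_add]
      · funext v ⟨t, t'⟩
        simp only [cupc₁₂_snd, Prod.snd_add, Pi.add_apply, map_add, neg_add])
    (fun c a y => by
      refine Prod.ext ?_ ?_
      · funext ⟨g, h, j⟩; simp only [cupc₁₂_fst, Prod.smul_fst, Pi.smul_apply, map_smul]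
      · funext v ⟨t, t'⟩
        simp only [cupc₁₂_snd, Prod.smul_snd, Pi.smul_apply, map_smul, smul_neg])

/-- `cupc₂₁` as a bilinear map -/
def cupL₂₁ : (G × G → A) →ₗ[k] CcAmb1 L B →ₗ[k] CcAmb3 L C :=
  LinearMap.mk₂ k (cupc₂₁ L φ)
    (fun a a' y => by
      refine Prod.ext ?_ ?_
      · funext ⟨g, h, j⟩
        simp only [cupc₂₁_fst, Prod.fst_add, Pi.add_apply, map_add, LinearMap.add_apply]
      · funext v ⟨t, t'⟩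
        simp only [cupc₂₁_snd, Prod.snd_add, Pi.add_apply, map_add, LinearMap.add_apply])
    (fun c a y => by
      refine Prod.ext ?_ ?_
      · funext ⟨g, h, j⟩
        simp only [cupc₂₁_fst, Prod.smul_fst, Pi.smul_apply, map_smul, LinearMap.smul_apply]
      · funext v ⟨t, t'⟩
        simp only [cupc₂₁_snd, Prod.smul_snd, Pi.smul_apply, map_smul, LinearMap.smul_apply])
    (fun a y y' => by
      refine Prod.ext ?_ ?_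
      · funext ⟨g, h, j⟩; simp only [cupc₂₁_fst, Prod.fst_add, Pi.add_apply, map_add]
      · funext v ⟨t, t'⟩; simp only [cupc₂₁_snd, Prod.snd_add, Pi.add_apply, map_add])
    (fun c a y => by
      refine Prod.ext ?_ ?_
      · funext ⟨g, h, j⟩; simp only [cupc₂₁_fst, Prod.smul_fst, Pi.smul_apply, map_smul]
      · funext v ⟨t, t'⟩; simp only [cupc₂₁_snd, Prod.smul_snd, Pi.smul_apply, map_smul])

@[simp] lemma cupL₀₃_apply (a : A) (y : CcAmb3 L B) : cupL₀₃ L φ a y = cupc₀₃ L φ a y := rfl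
@[simp] lemma cupL₁₂_apply (x : G → A) (y : CcAmb2 L B) : cupL₁₂ L φ x y = cupc₁₂ L φ x y := rfl
@[simp] lemma cupL₂₁_apply (x : G × G → A) (y : CcAmb1 L B) :
    cupL₂₁ L φ x y = cupc₂₁ L φ x y := rfl

lemma cupc₃₀_zero_left (b : B) : cupc₃₀ L φ (0 : G × G × G → A) b = 0 := by
  refine Prod.ext ?_ ?_
  · funext ⟨g, h, j⟩
    simp only [cupc₃₀_fst, Pi.zero_apply, map_zero, LinearMap.zero_apply, Prod.fst_zero]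
  · rfl

/-! ### Level preservation of the cups of total degree `≤ 2` -/

lemma cupc₀₁_mem_Cc1 (a : A) {y : CcAmb1 L B} (hy : y ∈ Cc1 L B) :
    cupc₀₁ L φ a y ∈ Cc1 L C :=
  (mem_Cc1 L).2 (map_mem_C1 (φ.φ a) ((mem_Cc1 L).1 hy))

lemma cupc₀₂_mem_Cc2 (a : A) {y : CcAmb2 L B} (hy : y ∈ Cc2 L B) :
    cupc₀₂ L φ a y ∈ Cc2 L C :=
  (mem_Cc2 L).2 ⟨map_mem_C2 (φ.φ a) ((mem_Cc2 L).1 hy).1,
    fun v => map_mem_C1 (A := L.loc B v) (A' := L.loc C v) (φ.φ a) (((mem_Cc2 L).1 hy).2 v)⟩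

lemma cupc₁₀_mem_Cc1 (hB : IsSmooth 𝒩 B) {x : G → A} (hx : x ∈ C1 𝒩 A) (b : B) :
    cupc₁₀ L φ x b ∈ Cc1 L C := by
  refine (mem_Cc1 L).2 ?_
  obtain ⟨N, hN, h⟩ := hB
  obtain ⟨N', hN', h'⟩ := hx
  obtain ⟨N'', hN'', hle⟩ := 𝒩.directed N hN N' hN'
  refine ⟨N'', hN'', fun g s hs => ?_⟩
  simp only [cupc₁₀_fst, map_mul, Module.End.mul_apply, h s (hle hs).1, h' g s (hle hs).2]

lemma cupc₁₁_mem_Cc2 (hB : IsSmooth 𝒩 B) {x : G → A} (hx : x ∈ C1 𝒩 A) {y : CcAmb1 L B}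
    (hy : y ∈ Cc1 L B) : cupc₁₁ L φ x y ∈ Cc2 L C := by
  obtain ⟨N, hN, h⟩ := hB
  obtain ⟨N', hN', h'⟩ := hx
  obtain ⟨N₁, hN₁, h₁⟩ := (mem_Cc1 L).1 hy
  obtain ⟨N₂, hN₂, hle₂⟩ := 𝒩.directed N hN N' hN'
  obtain ⟨N₃, hN₃, hle₃⟩ := 𝒩.directed N₂ hN₂ N₁ hN₁
  refine (mem_Cc2 L).2 ⟨⟨N₃, hN₃, fun g₁ g₂ s₁ hs₁ s₂ hs₂ => ?_⟩, fun v => ?_⟩
  · simp only [cupc₁₁_fst, map_mul, Module.End.mul_apply, h₁ g₂ s₂ (hle₃ hs₂).2,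
      h' g₁ s₁ (hle₂ (hle₃ hs₁).1).2]
    have e : B.ρ g₁ (B.ρ s₁ (y.1 g₂)) = B.ρ g₁ (y.1 g₂) := by
      rw [h s₁ (hle₂ (hle₃ hs₁).1).1]
    rw [e]
  · obtain ⟨M, hM, hMle⟩ := L.compat v N₂ hN₂
    refine ⟨M, hM, fun g s hs => ?_⟩
    have hs' : L.r v s ∈ N₂ := hMle hs
    simp only [cupc₁₁_snd, map_mul, Module.End.mul_apply, h' _ _ (hle₂ hs').2,
      h _ (hle₂ hs').1]

lemma cupc₂₀_mem_Cc2 (hB : IsSmooth 𝒩 B) {x : G × G → A} (hx : x ∈ C2 𝒩 A) (b : B) :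
    cupc₂₀ L φ x b ∈ Cc2 L C := by
  obtain ⟨N, hN, h⟩ := hB
  obtain ⟨N', hN', h'⟩ := hx
  obtain ⟨N'', hN'', hle⟩ := 𝒩.directed N hN N' hN'
  refine (mem_Cc2 L).2 ⟨⟨N'', hN'', fun g₁ g₂ s₁ hs₁ s₂ hs₂ => ?_⟩, fun v => ?_⟩
  · have e1 : g₁ * s₁ * (g₂ * s₂) = g₁ * g₂ * ((g₂⁻¹ * s₁ * g₂) * s₂) := by group
    have hc : g₂⁻¹ * s₁ * g₂ * s₂ ∈ N := by
      refine N.mul_mem ?_ (hle hs₂).1
      have := (𝒩.normal N hN).conj_mem s₁ (hle hs₁).1 g₂⁻¹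
      simpa using this
    simp only [cupc₂₀_fst, h' g₁ g₂ s₁ (hle hs₁).2 s₂ (hle hs₂).2, e1]
    rw [map_mul, Module.End.mul_apply, h _ hc]
  · exact (C1 (L.lev v) (L.loc C v)).zero_mem

/-! ### Consequences of the Leibniz rules: cups with coboundaries are coboundaries -/

lemma cupc₁₂_d₀₁_mem_Bc3 (a : A) {y : CcAmb2 L B} (hy : y ∈ Zc2 L B) :
    cupc₁₂ L φ ((d₀₁ A).hom a) y ∈ Bc3 L C := by
  rw [mem_Zc2] at hy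
  refine (mem_Bc3 L).2 ⟨cupc₀₂ L φ a y, cupc₀₂_mem_Cc2 L φ a hy.1, ?_⟩
  rw [dc₂₃_cupc₀₂, hy.2]
  have : cupc₀₃ L φ a (0 : CcAmb3 L B) = 0 := by
    rw [← cupL₀₃_apply, map_zero]
  rw [this, add_zero]

lemma cupc₀₃_dc₂₃_mem_Bc3 {a : A} (ha : a ∈ H0 A) {y : CcAmb2 L B} (hy : y ∈ Cc2 L B) :
    cupc₀₃ L φ a (dc₂₃ L B y) ∈ Bc3 L C := by
  refine (mem_Bc3 L).2 ⟨cupc₀₂ L φ a y, cupc₀₂_mem_Cc2 L φ a hy, ?_⟩
  rw [dc₂₃_cupc₀₂]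
  have h0 : (d₀₁ A).hom a = 0 := by
    funext g
    simp only [d₀₁_hom_apply, (mem_H0).1 ha g, sub_self]
    rfl
  have : cupc₁₂ L φ (0 : G → A) y = 0 := by
    rw [← cupL₁₂_apply, map_zero, LinearMap.zero_apply]
  rw [h0, this, zero_add]

lemma cupc₁₂_dc₁₂_mem_Bc3 (hB : IsSmooth 𝒩 B) {x : G → A} (hx : x ∈ Z1 𝒩 A)
    {y : CcAmb1 L B} (hy : y ∈ Cc1 L B) :
    cupc₁₂ L φ x (dc₁₂ L B y) ∈ Bc3 L C := by
  rw [mem_Z1] at hx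
  have h := dc₂₃_cupc₁₁ L φ x y
  rw [hx.2] at h
  have h0 : cupc₂₁ L φ (0 : G × G → A) y = 0 := by
    rw [← cupL₂₁_apply, map_zero, LinearMap.zero_apply]
  rw [h0, zero_sub] at h
  have h2 : cupc₁₂ L φ x (dc₁₂ L B y) = dc₂₃ L C (- cupc₁₁ L φ x y) := by
    rw [map_neg, h, neg_neg]
  rw [h2]
  exact (mem_Bc3 L).2 ⟨_, (Cc2 L C).neg_mem (cupc₁₁_mem_Cc2 L φ hB hx.1 hy), rfl⟩

lemma cupc₂₁_d₁₂_mem_Bc3 (hB : IsSmooth 𝒩 B) {x : G → A} (hx : x ∈ C1 𝒩 A)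
    {y : CcAmb1 L B} (hy : y ∈ Zc1 L B) :
    cupc₂₁ L φ ((d₁₂ A).hom x) y ∈ Bc3 L C := by
  rw [mem_Zc1] at hy
  have h := dc₂₃_cupc₁₁ L φ x y
  rw [hy.2] at h
  have h0 : cupc₁₂ L φ x (0 : CcAmb2 L B) = 0 := by
    rw [← cupL₁₂_apply, map_zero]
  rw [h0, sub_zero] at h
  rw [← h]
  exact (mem_Bc3 L).2 ⟨_, cupc₁₁_mem_Cc2 L φ hB hx hy.1, rfl⟩

lemma cupc₂₁_dc₀₁_mem_Bc3 (hB : IsSmooth 𝒩 B) {x : G × G → A} (hx : x ∈ Z2 𝒩 A) (b : B) :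
    cupc₂₁ L φ x (dc₀₁ L B b) ∈ Bc3 L C := by
  rw [mem_Z2] at hx
  have h := dc₂₃_cupc₂₀ L φ x b
  rw [hx.2, cupc₃₀_zero_left, zero_add] at h
  rw [← h]
  exact (mem_Bc3 L).2 ⟨_, cupc₂₀_mem_Cc2 L φ hB hx.1 b, rfl⟩

/-! ### Functoriality of the degree 3 cups -/

variable {A' B' : Rep.{u} k G} (φ' : EqPairing A' B' C)

lemma cupc₀₃_map (f : A' →ₗ[k] A) (g : B →ₗ[k] B')
    (h : ∀ (a' : A') (b : B), φ.φ (f a') b = φ'.φ a' (g b)) (a' : A') (y : CcAmb3 L B) :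
    cupc₀₃ L φ (f a') y = cupc₀₃ L φ' a' (ccmap₃ L g y) := by
  refine Prod.ext ?_ ?_
  · funext t
    simp only [cupc₀₃_fst, ccmap₃_fst, h]
  · funext v t
    simp only [cupc₀₃_snd, ccmap₃_snd, h]

lemma cupc₁₂_map (f : A' →ₗ[k] A) (g : EqHom B B')
    (h : ∀ (a' : A') (b : B), φ.φ (f a') b = φ'.φ a' (g.f b)) (x' : G → A') (y : CcAmb2 L B) :
    cupc₁₂ L φ (fun t => f (x' t)) y = cupc₁₂ L φ' x' (ccmap₂ L g.f y) := by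
  refine Prod.ext ?_ ?_
  · funext ⟨t, t', t''⟩
    simp only [cupc₁₂_fst, ccmap₂_fst, h, g.comm]
  · funext v ⟨t, t'⟩
    simp only [cupc₁₂_snd, ccmap₂_snd, h, g.comm]

lemma cupc₂₁_map (f : A' →ₗ[k] A) (g : EqHom B B')
    (h : ∀ (a' : A') (b : B), φ.φ (f a') b = φ'.φ a' (g.f b)) (x' : G × G → A')
    (y : CcAmb1 L B) :
    cupc₂₁ L φ (fun t => f (x' t)) y = cupc₂₁ L φ' x' (ccmap₁ L g.f y) := by
  refine Prod.ext ?_ ?_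
  · funext ⟨t, t', t''⟩
    simp only [cupc₂₁_fst, ccmap₁_fst, h, g.comm]
  · funext v ⟨t, t'⟩
    simp only [cupc₂₁_snd, ccmap₁_snd, h, g.comm]

end Cups

end Fermat.Agent.S55
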