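import Mathlib
import Fermat.Agent.S55.ABasic
import Fermat.Agent.S55.helper62_ShConeDefs

/-!
# S55 / SH, package [C-MEM] (helper69): the cone Shapiro maps preserve cone cocycles

For `B = Bp k U χ = k[G/U]^*(χ)`, `D : ShData L U` and the cone Shapiro maps
`cB₂ χ D hU`, `cB₃ χ D hU` of `helper62_ShConeDefs` we prove

* `cB₂_mem_Cc2`, `cB₃_mem_Cc3` : level-constant cone cochains go to level-constant cone cochains;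
* `dc₂₃_cB₂`, `dc₃₄_cB₃` : cone cocycles go to cone cocycles (if `χ|_U = 1`);
* `cB₂_mem_Zc2`, `cB₃_mem_Zc3` : the fields `c2_mem`, `c3_mem` of `helper53.ShTransport` and the
  membership half of `P2_surj`, `P3_surj` of `helper53.ShTransportP` (with `y' := cB_n y`).

Method: in the big model the homogeneous local component `cLoc_(n-1)` is `U_w`-invariant and
satisfies `hd (cLoc_(n-1) y) = r_w^* (bigG_n y₁)` for a cone cocycle `y` (prism homotopy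
`hd P + P hd = r_w^* - ι^*` and `hd (bigL b) = bigL (d b) = bigL (res y₁) = ι^* (bigG y₁)`).
Level-constancy is proved in the "coset" form `x_i⁻¹ * x_i' ∈ N → F x₀ x₁' … = F x₀ x₁ …`.
-/

set_option autoImplicit false
set_option linter.unusedSectionVars false
set_option linter.unusedVariables false
set_option linter.unusedSimpArgs false

open groupCohomology

noncomputable section

namespace Fermat.Agent.S55.helper69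

open Fermat.Agent.S55 Fermat.Agent.S55.helper35 Fermat.Agent.S55.helper62

section Generic

variable {k : Type} [Field k] {Γ Γ' : Type} [Group Γ] [Group Γ']

/-- inhomogeneous `d₁₂` (trivial coefficients, pulled back along `f`) of an invariant
homogeneous cochain -/
lemma d₁₂_res_triv_of_inv (f : Γ' →* Γ) (F : Γ' → Γ' → k)
    (hF : ∀ u x₀ x₁, F (u * x₀) (u * x₁) = F x₀ x₁) (s t : Γ') :
    (d₁₂ (Rep.res f (trivRep k Γ))).hom (fun s => F 1 s) (s, t) = hd1 F 1 s (s * t) := by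
  rw [d₁₂_hom_apply, hd1_apply]
  have := hF s 1 t
  rw [mul_one] at this
  rw [← this]
  rfl

lemma d₂₃_res_triv_of_inv (f : Γ' →* Γ) (F : Γ' → Γ' → Γ' → k)
    (hF : ∀ u x₀ x₁ x₂, F (u * x₀) (u * x₁) (u * x₂) = F x₀ x₁ x₂) (s t r : Γ') :
    (d₂₃ (Rep.res f (trivRep k Γ))).hom (fun x => F 1 x.1 (x.1 * x.2)) (s, t, r) =
      hd2 F 1 s (s * t) (s * t * r) := by
  rw [d₂₃_hom_apply, hd2_apply]
  have := hF s 1 t (t * r)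
  rw [mul_one, ← mul_assoc] at this
  rw [← this]
  simp only [mul_assoc]
  rfl

end Generic

variable {k G : Type} [Field k] [Group G] {𝒩 : Levels G} {ι : Type} {L : LocalData G 𝒩 ι}
  {U : Subgroup G}

section Inv

variable (χ : G →* kˣ) (hχ : ∀ g ∈ U, χ g = 1)

include hχ in
lemma bigG₂_inv (y₁ : G × G → Bp k U χ) {u : G} (hu : u ∈ U) (x₀ x₁ x₂ : G) :
    bigG₂ χ y₁ (u * x₀) (u * x₁) (u * x₂) = bigG₂ χ y₁ x₀ x₁ x₂ := by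
  unfold bigG₂
  rw [isEqv2_homog2, evB_rho_of_mem χ hχ hu]

include hχ in
lemma bigG₃_inv (y₁ : G × G × G → Bp k U χ) {u : G} (hu : u ∈ U) (x₀ x₁ x₂ x₃ : G) :
    bigG₃ χ y₁ (u * x₀) (u * x₁) (u * x₂) (u * x₃) = bigG₃ χ y₁ x₀ x₁ x₂ x₃ := by
  unfold bigG₃
  rw [isEqv3_homog3, evB_rho_of_mem χ hχ hu]

variable (D : ShData L U)

include hχ in
/-- `evB ∘ ρ (y⁻¹)` is invariant under `ρ (r_v u)`, `u ∈ U_w` -/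
lemma evB_rho_yinv_loc (v : ι) (j : D.J v) {u : L.Gv v} (hu : u ∈ D.Uw v j)
    (b : Bp k U χ) :
    evB U χ ((Bp k U χ).ρ (D.y v j)⁻¹ ((Bp k U χ).ρ (L.r v u) b)) =
      evB U χ ((Bp k U χ).ρ (D.y v j)⁻¹ b) := by
  have hu' : (D.y v j)⁻¹ * L.r v u * D.y v j ∈ U := (ShData.mem_Uw D).1 hu
  have e : (D.y v j)⁻¹ * L.r v u = ((D.y v j)⁻¹ * L.r v u * D.y v j) * (D.y v j)⁻¹ := by group
  rw [← Module.End.mul_apply, ← map_mul, e, map_mul, Module.End.mul_apply,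
    evB_rho_of_mem χ hχ hu']

include hχ in
lemma bigL₁_inv (v : ι) (j : D.J v) (b : L.Gv v → L.loc (Bp k U χ) v) {u : L.Gv v}
    (hu : u ∈ D.Uw v j) (h₀ h₁ : L.Gv v) :
    bigL₁ χ D v j b (u * h₀) (u * h₁) = bigL₁ χ D v j b h₀ h₁ := by
  unfold bigL₁
  rw [isEqv1_homog1]
  exact evB_rho_yinv_loc χ hχ D v j hu _

include hχ in
lemma bigL₂_inv (v : ι) (j : D.J v) (b : L.Gv v × L.Gv v → L.loc (Bp k U χ) v) {u : L.Gv v}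
    (hu : u ∈ D.Uw v j) (h₀ h₁ h₂ : L.Gv v) :
    bigL₂ χ D v j b (u * h₀) (u * h₁) (u * h₂) = bigL₂ χ D v j b h₀ h₁ h₂ := by
  unfold bigL₂
  rw [isEqv2_homog2]
  exact evB_rho_yinv_loc χ hχ D v j hu _

lemma iotaU_mul (v : ι) (j : D.J v) (u x : ↥(D.Uw v j)) :
    iotaU D v j (u * x) = rwU D v j u * iotaU D v j x := by
  simp only [iotaU, rwU, ShData.iotaMap, ShData.coe_rw, Subgroup.coe_mul, map_mul]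
  group

lemma rwU_mul (v : ι) (j : D.J v) (u x : ↥(D.Uw v j)) :
    rwU D v j (u * x) = rwU D v j u * rwU D v j x := by
  simp only [rwU, map_mul, Subgroup.coe_mul]

lemma rwU_one (v : ι) (j : D.J v) : rwU D v j 1 = 1 := by
  simp only [rwU, map_one, Subgroup.coe_one]

lemma rwU_mem (v : ι) (j : D.J v) (u : ↥(D.Uw v j)) : rwU D v j u ∈ U :=
  (D.rw v j u).2

include hχ in
lemma cLoc₁_inv (v : ι) (j : D.J v) (y : CcAmb2 L (Bp k U χ)) (u x₀ x₁ : ↥(D.Uw v j)) :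
    cLoc₁ χ D v j y (u * x₀) (u * x₁) = cLoc₁ χ D v j y x₀ x₁ := by
  simp only [cLoc₁, Pi.add_apply, pull1_apply, prism2_apply, Subgroup.coe_mul, iotaU_mul,
    rwU_mul]
  rw [bigL₁_inv χ hχ D v j _ u.2, bigG₂_inv χ hχ _ (rwU_mem D v j u),
    bigG₂_inv χ hχ _ (rwU_mem D v j u)]

include hχ in
lemma cLoc₂_inv (v : ι) (j : D.J v) (y : CcAmb3 L (Bp k U χ)) (u x₀ x₁ x₂ : ↥(D.Uw v j)) :
    cLoc₂ χ D v j y (u * x₀) (u * x₁) (u * x₂) = cLoc₂ χ D v j y x₀ x₁ x₂ := by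
  simp only [cLoc₂, Pi.add_apply, pull2_apply, prism3_apply, Subgroup.coe_mul, iotaU_mul,
    rwU_mul]
  rw [bigL₂_inv χ hχ D v j _ u.2, bigG₃_inv χ hχ _ (rwU_mem D v j u),
    bigG₃_inv χ hχ _ (rwU_mem D v j u), bigG₃_inv χ hχ _ (rwU_mem D v j u)]

end Inv

section Diff

variable (χ : G →* kˣ)

lemma hd2_bigG₂ (y₁ : G × G → Bp k U χ) (x₀ x₁ x₂ x₃ : G) :
    hd2 (bigG₂ χ y₁) x₀ x₁ x₂ x₃ =
      evB U χ (homog3 (Bp k U χ) ((d₂₃ (Bp k U χ)).hom y₁) x₀ x₁ x₂ x₃) := by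
  have := congrFun (congrFun (congrFun (congrFun (hd2_homog2 (Bp k U χ) y₁) x₀) x₁) x₂) x₃
  rw [← this, hd2_apply, hd2_apply, map_sub, map_add, map_sub]
  rfl

lemma hd3_bigG₃ (y₁ : G × G × G → Bp k U χ) (x₀ x₁ x₂ x₃ x₄ : G) :
    hd3 (bigG₃ χ y₁) x₀ x₁ x₂ x₃ x₄ =
      evB U χ (homog4 (Bp k U χ) (d₃₄ (Bp k U χ) y₁) x₀ x₁ x₂ x₃ x₄) := by
  have := congrFun (congrFun (congrFun (congrFun (congrFun
    (hd3_homog3 (Bp k U χ) y₁) x₀) x₁) x₂) x₃) x₄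
  rw [← this, hd3_apply, hd3_apply, map_add, map_sub, map_add, map_sub]
  rfl

lemma hd2_bigG₂_eq_zero {y₁ : G × G → Bp k U χ} (h : (d₂₃ (Bp k U χ)).hom y₁ = 0) :
    hd2 (bigG₂ χ y₁) = 0 := by
  funext x₀ x₁ x₂ x₃
  rw [hd2_bigG₂, h]
  show evB U χ ((Bp k U χ).ρ x₀ 0) = 0
  rw [map_zero, map_zero]

lemma hd3_bigG₃_eq_zero {y₁ : G × G × G → Bp k U χ} (h : d₃₄ (Bp k U χ) y₁ = 0) :
    hd3 (bigG₃ χ y₁) = 0 := by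
  funext x₀ x₁ x₂ x₃ x₄
  rw [hd3_bigG₃, h]
  show evB U χ ((Bp k U χ).ρ x₀ 0) = 0
  rw [map_zero, map_zero]

variable (D : ShData L U)

lemma hd1_bigL₁ (v : ι) (j : D.J v) (b : L.Gv v → L.loc (Bp k U χ) v) :
    hd1 (bigL₁ χ D v j b) = bigL₂ χ D v j ((d₁₂ (L.loc (Bp k U χ) v)).hom b) := by
  funext h₀ h₁ h₂
  have := congrFun (congrFun (congrFun (hd1_homog1 (L.loc (Bp k U χ) v) b) h₀) h₁) h₂
  unfold bigL₂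
  rw [← this, hd1_apply, hd1_apply, map_add, map_sub, map_add, map_sub]
  rfl

lemma hd2_bigL₂ (v : ι) (j : D.J v) (b : L.Gv v × L.Gv v → L.loc (Bp k U χ) v)
    (h₀ h₁ h₂ h₃ : L.Gv v) :
    hd2 (bigL₂ χ D v j b) h₀ h₁ h₂ h₃ =
      evB U χ ((Bp k U χ).ρ (D.y v j)⁻¹
        (homog3 (L.loc (Bp k U χ) v) ((d₂₃ (L.loc (Bp k U χ) v)).hom b) h₀ h₁ h₂ h₃)) := by
  have := congrFun (congrFun (congrFun (congrFun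
    (hd2_homog2 (L.loc (Bp k U χ) v) b) h₀) h₁) h₂) h₃
  rw [← this, hd2_apply, hd2_apply, map_sub, map_add, map_sub, map_sub, map_add, map_sub]
  rfl

/-- restriction compatibility of the big model, degree `2` -/
lemma bigL₂_res₂ (v : ι) (j : D.J v) (y₁ : G × G → Bp k U χ) :
    bigL₂ χ D v j (res₂ L (Bp k U χ) v y₁) = pull2 (D.iotaMap v j) (bigG₂ χ y₁) := by
  funext h₀ h₁ h₂
  have e1 : ((D.y v j)⁻¹ * L.r v h₀)⁻¹ * ((D.y v j)⁻¹ * L.r v h₁) = L.r v (h₀⁻¹ * h₁) := by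
    rw [map_mul, map_inv]; group
  have e2 : ((D.y v j)⁻¹ * L.r v h₁)⁻¹ * ((D.y v j)⁻¹ * L.r v h₂) = L.r v (h₁⁻¹ * h₂) := by
    rw [map_mul, map_inv]; group
  show evB U χ ((Bp k U χ).ρ (D.y v j)⁻¹ ((Bp k U χ).ρ (L.r v h₀)
      (y₁ (L.r v (h₀⁻¹ * h₁), L.r v (h₁⁻¹ * h₂))))) =
    evB U χ ((Bp k U χ).ρ ((D.y v j)⁻¹ * L.r v h₀)
      (y₁ (((D.y v j)⁻¹ * L.r v h₀)⁻¹ * ((D.y v j)⁻¹ * L.r v h₁),
        ((D.y v j)⁻¹ * L.r v h₁)⁻¹ * ((D.y v j)⁻¹ * L.r v h₂))))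
  rw [e1, e2, map_mul (Bp k U χ).ρ, Module.End.mul_apply]

/-- restriction compatibility of the big model, degree `3` -/
lemma evB_homog3_res₃ (v : ι) (j : D.J v) (y₁ : G × G × G → Bp k U χ) (h₀ h₁ h₂ h₃ : L.Gv v) :
    evB U χ ((Bp k U χ).ρ (D.y v j)⁻¹
        (homog3 (L.loc (Bp k U χ) v) (res₃ L (Bp k U χ) v y₁) h₀ h₁ h₂ h₃)) =
      pull3 (D.iotaMap v j) (bigG₃ χ y₁) h₀ h₁ h₂ h₃ := by
  have e1 : ((D.y v j)⁻¹ * L.r v h₀)⁻¹ * ((D.y v j)⁻¹ * L.r v h₁) = L.r v (h₀⁻¹ * h₁) := by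
    rw [map_mul, map_inv]; group
  have e2 : ((D.y v j)⁻¹ * L.r v h₁)⁻¹ * ((D.y v j)⁻¹ * L.r v h₂) = L.r v (h₁⁻¹ * h₂) := by
    rw [map_mul, map_inv]; group
  have e3 : ((D.y v j)⁻¹ * L.r v h₂)⁻¹ * ((D.y v j)⁻¹ * L.r v h₃) = L.r v (h₂⁻¹ * h₃) := by
    rw [map_mul, map_inv]; group
  show evB U χ ((Bp k U χ).ρ (D.y v j)⁻¹ ((Bp k U χ).ρ (L.r v h₀)
      (y₁ (L.r v (h₀⁻¹ * h₁), L.r v (h₁⁻¹ * h₂), L.r v (h₂⁻¹ * h₃))))) =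
    evB U χ ((Bp k U χ).ρ ((D.y v j)⁻¹ * L.r v h₀)
      (y₁ (((D.y v j)⁻¹ * L.r v h₀)⁻¹ * ((D.y v j)⁻¹ * L.r v h₁),
        ((D.y v j)⁻¹ * L.r v h₁)⁻¹ * ((D.y v j)⁻¹ * L.r v h₂),
        ((D.y v j)⁻¹ * L.r v h₂)⁻¹ * ((D.y v j)⁻¹ * L.r v h₃))))
  rw [e1, e2, e3, map_mul (Bp k U χ).ρ, Module.End.mul_apply]

end Diff

section Cocycle

variable (χ : G →* kˣ) (D : ShData L U)

lemma dc₂₃_eq_zero_iff' {A : Rep.{0} k G} (y : CcAmb2 L A) :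
    dc₂₃ L A y = 0 ↔ (d₂₃ A).hom y.1 = 0 ∧
      ∀ v, (d₁₂ (L.loc A v)).hom (y.2 v) = res₂ L A v y.1 := by
  constructor
  · intro h
    refine ⟨congrArg Prod.fst h, fun v => ?_⟩
    have := congrFun (congrArg Prod.snd h) v
    exact (sub_eq_zero.1 this).symm
  · rintro ⟨h1, h2⟩
    refine Prod.ext h1 ?_
    funext v
    exact sub_eq_zero.2 (h2 v).symm

lemma dc₃₄_eq_zero_iff' {A : Rep.{0} k G} (y : CcAmb3 L A) :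
    dc₃₄ L A y = 0 ↔ d₃₄ A y.1 = 0 ∧
      ∀ v, (d₂₃ (L.loc A v)).hom (y.2 v) = res₃ L A v y.1 := by
  constructor
  · intro h
    refine ⟨congrArg Prod.fst h, fun v => ?_⟩
    have := congrFun (congrArg Prod.snd h) v
    exact (sub_eq_zero.1 this).symm
  · rintro ⟨h1, h2⟩
    refine Prod.ext h1 ?_
    funext v
    exact sub_eq_zero.2 (h2 v).symm

/-- the homogeneous local component of `c₂ y` has differential `r_w^* (bigG₂ y₁)` -/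
lemma hd1_cLoc₁ {y : CcAmb2 L (Bp k U χ)} (hy : dc₂₃ L (Bp k U χ) y = 0) (v : ι) (j : D.J v) :
    hd1 (cLoc₁ χ D v j y) = pull2 (rwU D v j) (bigG₂ χ y.1) := by
  obtain ⟨h1, h2⟩ := (dc₂₃_eq_zero_iff' y).1 hy
  have hG : hd2 (bigG₂ χ y.1) = 0 := hd2_bigG₂_eq_zero χ h1
  have hP := pull2_sub_pull2_of_cocycle (iotaU D v j) (rwU D v j) (bigG₂ χ y.1) hG
  unfold cLoc₁
  rw [hd1_add, ← hP, hd1_pull1, hd1_bigL₁, h2 v, bigL₂_res₂, pull2_comp]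
  have : (D.iotaMap v j ∘ Subtype.val : ↥(D.Uw v j) → G) = iotaU D v j := rfl
  rw [this]
  abel

/-- the homogeneous local component of `c₃ y` has differential `r_w^* (bigG₃ y₁)` -/
lemma hd2_cLoc₂ {y : CcAmb3 L (Bp k U χ)} (hy : dc₃₄ L (Bp k U χ) y = 0) (v : ι) (j : D.J v) :
    hd2 (cLoc₂ χ D v j y) = pull3 (rwU D v j) (bigG₃ χ y.1) := by
  obtain ⟨h1, h2⟩ := (dc₃₄_eq_zero_iff' y).1 hy
  have hG : hd3 (bigG₃ χ y.1) = 0 := hd3_bigG₃_eq_zero χ h1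
  have hP := pull3_sub_pull3_of_cocycle (iotaU D v j) (rwU D v j) (bigG₃ χ y.1) hG
  have hL : hd2 (pull2 (Subtype.val : ↥(D.Uw v j) → L.Gv v) (bigL₂ χ D v j (y.2 v))) =
      pull3 (iotaU D v j) (bigG₃ χ y.1) := by
    funext x₀ x₁ x₂ x₃
    rw [hd2_pull2, pull3_apply, hd2_bigL₂, h2 v, evB_homog3_res₃]
    rfl
  unfold cLoc₂
  rw [hd2_add, ← hP, hL]
  abel

variable (hχ : ∀ g ∈ U, χ g = 1) (hU : ∃ N ∈ 𝒩.mem, N ≤ U)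

include hχ in
lemma d₁₂_cLoc₁ {y : CcAmb2 L (Bp k U χ)} (hy : dc₂₃ L (Bp k U χ) y = 0) (v : ι) (j : D.J v)
    (s t : ↥(D.Uw v j)) :
    (d₁₂ (Rep.res (D.rw v j) (trivRep k ↥U))).hom (fun s => cLoc₁ χ D v j y 1 s) (s, t) =
      bigG₂ χ y.1 1 (rwU D v j s) (rwU D v j s * rwU D v j t) := by
  have e1 := d₁₂_res_triv_of_inv (k := k) (D.rw v j) (cLoc₁ χ D v j y)
    (cLoc₁_inv χ hχ D v j y) s t
  rw [hd1_cLoc₁ χ D hy v j] at e1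
  refine e1.trans ?_
  rw [pull2_apply, rwU_one, rwU_mul]

include hχ in
lemma d₂₃_cLoc₂ {y : CcAmb3 L (Bp k U χ)} (hy : dc₃₄ L (Bp k U χ) y = 0) (v : ι) (j : D.J v)
    (s t r : ↥(D.Uw v j)) :
    (d₂₃ (Rep.res (D.rw v j) (trivRep k ↥U))).hom
        (fun x => cLoc₂ χ D v j y 1 x.1 (x.1 * x.2)) (s, t, r) =
      bigG₃ χ y.1 1 (rwU D v j s) (rwU D v j s * rwU D v j t)
        (rwU D v j s * rwU D v j t * rwU D v j r) := by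
  have e1 := d₂₃_res_triv_of_inv (k := k) (D.rw v j) (cLoc₂ χ D v j y)
    (cLoc₂_inv χ hχ D v j y) s t r
  rw [hd2_cLoc₂ χ D hy v j] at e1
  refine e1.trans ?_
  rw [pull3_apply, rwU_one, rwU_mul, rwU_mul, rwU_mul]

include hχ in
/-- `c₂` maps cone cocycles to cone cocycles (differential part) -/
theorem dc₂₃_cB₂ {y : CcAmb2 L (Bp k U χ)} (hy : dc₂₃ L (Bp k U χ) y = 0) :
    dc₂₃ (D.localData hU) (trivRep k ↥U) (cB₂ χ D hU y) = 0 := by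
  obtain ⟨h1, h2⟩ := (dc₂₃_eq_zero_iff' y).1 hy
  rw [dc₂₃_eq_zero_iff']
  refine ⟨?_, ?_⟩
  · funext ⟨u₁, u₂, u₃⟩
    rw [d₂₃_hom_apply]
    show (cB₂ χ D hU y).1 (u₂, u₃) - (cB₂ χ D hU y).1 (u₁ * u₂, u₃)
      + (cB₂ χ D hU y).1 (u₁, u₂ * u₃) - (cB₂ χ D hU y).1 (u₁, u₂) = 0
    rw [cB₂_fst_eq, cB₂_fst_eq, cB₂_fst_eq, cB₂_fst_eq]
    have := congrFun h1 ((u₁ : G), (u₂ : G), (u₃ : G))
    rw [d₂₃_hom_apply] at this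
    have h3 := congrArg (evB U χ) this
    simp only [map_sub, map_add, Pi.zero_apply, map_zero] at h3
    rw [evB_rho_of_mem χ hχ u₁.2] at h3
    exact h3
  · rintro ⟨v, j⟩
    funext ⟨s, t⟩
    exact d₁₂_cLoc₁ χ D hχ hy v j s t

include hχ in
/-- `c₃` maps cone cocycles to cone cocycles (differential part) -/
theorem dc₃₄_cB₃ {y : CcAmb3 L (Bp k U χ)} (hy : dc₃₄ L (Bp k U χ) y = 0) :
    dc₃₄ (D.localData hU) (trivRep k ↥U) (cB₃ χ D hU y) = 0 := by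
  obtain ⟨h1, h2⟩ := (dc₃₄_eq_zero_iff' y).1 hy
  rw [dc₃₄_eq_zero_iff']
  refine ⟨?_, ?_⟩
  · funext ⟨u₁, u₂, u₃, u₄⟩
    rw [d₃₄_apply]
    show (cB₃ χ D hU y).1 (u₂, u₃, u₄) - (cB₃ χ D hU y).1 (u₁ * u₂, u₃, u₄)
      + (cB₃ χ D hU y).1 (u₁, u₂ * u₃, u₄) - (cB₃ χ D hU y).1 (u₁, u₂, u₃ * u₄)
      + (cB₃ χ D hU y).1 (u₁, u₂, u₃) = 0
    rw [cB₃_fst_eq, cB₃_fst_eq, cB₃_fst_eq, cB₃_fst_eq, cB₃_fst_eq]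
    have := congrFun h1 ((u₁ : G), (u₂ : G), (u₃ : G), (u₄ : G))
    rw [d₃₄_apply] at this
    have h3 := congrArg (evB U χ) this
    simp only [map_sub, map_add, Pi.zero_apply, map_zero] at h3
    rw [evB_rho_of_mem χ hχ u₁.2] at h3
    exact h3
  · rintro ⟨v, j⟩
    funext ⟨s, t, r⟩
    exact d₂₃_cLoc₂ χ D hχ hy v j s t r

end Cocycle

section Level

/-! ### Level-constancy -/

section GenericLevel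

variable {Γ : Type} [Group Γ] (A : Rep.{0} k Γ) {N : Subgroup Γ}

lemma inv_mul_mem_of_normal (hN : N.Normal) {x₁ x₁' x₂ x₂' : Γ} (h₁ : x₁⁻¹ * x₁' ∈ N)
    (h₂ : x₂⁻¹ * x₂' ∈ N) : (x₁⁻¹ * x₂)⁻¹ * (x₁'⁻¹ * x₂') ∈ N := by
  have := N.mul_mem (hN.conj_mem _ (N.inv_mem h₁) (x₂⁻¹ * x₁)) h₂
  convert this using 1
  group

lemma homog1_congr {f : Γ → A} (hf : ∀ g, ∀ s ∈ N, f (g * s) = f g) (x₀ : Γ) {x₁ x₁' : Γ}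
    (h₁ : x₁⁻¹ * x₁' ∈ N) : homog1 A f x₀ x₁' = homog1 A f x₀ x₁ := by
  rw [homog1_apply, homog1_apply]
  have e : x₀⁻¹ * x₁' = (x₀⁻¹ * x₁) * (x₁⁻¹ * x₁') := by group
  rw [e, hf _ _ h₁]

lemma homog2_congr (hN : N.Normal) {f : Γ × Γ → A}
    (hf : ∀ g₁ g₂, ∀ s₁ ∈ N, ∀ s₂ ∈ N, f (g₁ * s₁, g₂ * s₂) = f (g₁, g₂)) (x₀ : Γ)
    {x₁ x₁' x₂ x₂' : Γ} (h₁ : x₁⁻¹ * x₁' ∈ N) (h₂ : x₂⁻¹ * x₂' ∈ N) :
    homog2 A f x₀ x₁' x₂' = homog2 A f x₀ x₁ x₂ := by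
  rw [homog2_apply, homog2_apply]
  have e1 : x₀⁻¹ * x₁' = (x₀⁻¹ * x₁) * (x₁⁻¹ * x₁') := by group
  have e2 : x₁'⁻¹ * x₂' = (x₁⁻¹ * x₂) * ((x₁⁻¹ * x₂)⁻¹ * (x₁'⁻¹ * x₂')) := by group
  rw [e1, e2, hf _ _ _ h₁ _ (inv_mul_mem_of_normal hN h₁ h₂)]

lemma homog3_congr (hN : N.Normal) {f : Γ × Γ × Γ → A}
    (hf : ∀ g₁ g₂ g₃, ∀ s₁ ∈ N, ∀ s₂ ∈ N, ∀ s₃ ∈ N,
      f (g₁ * s₁, g₂ * s₂, g₃ * s₃) = f (g₁, g₂, g₃)) (x₀ : Γ)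
    {x₁ x₁' x₂ x₂' x₃ x₃' : Γ} (h₁ : x₁⁻¹ * x₁' ∈ N) (h₂ : x₂⁻¹ * x₂' ∈ N)
    (h₃ : x₃⁻¹ * x₃' ∈ N) :
    homog3 A f x₀ x₁' x₂' x₃' = homog3 A f x₀ x₁ x₂ x₃ := by
  rw [homog3_apply, homog3_apply]
  have e1 : x₀⁻¹ * x₁' = (x₀⁻¹ * x₁) * (x₁⁻¹ * x₁') := by group
  have e2 : x₁'⁻¹ * x₂' = (x₁⁻¹ * x₂) * ((x₁⁻¹ * x₂)⁻¹ * (x₁'⁻¹ * x₂')) := by group
  have e3 : x₂'⁻¹ * x₃' = (x₂⁻¹ * x₃) * ((x₂⁻¹ * x₃)⁻¹ * (x₂'⁻¹ * x₃')) := by group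
  rw [e1, e2, e3, hf _ _ _ _ h₁ _ (inv_mul_mem_of_normal hN h₁ h₂) _
    (inv_mul_mem_of_normal hN h₂ h₃)]

/-- inhomogeneous form of a coset-constant homogeneous `1`-cochain is level-constant -/
lemma isLev₁_inhom_of_congr {X : Type} (F : Γ → Γ → X)
    (hF : ∀ x₀ x₁ x₁', x₁⁻¹ * x₁' ∈ N → F x₀ x₁' = F x₀ x₁) (g : Γ) {s : Γ} (hs : s ∈ N) :
    F 1 (g * s) = F 1 g :=
  hF 1 g (g * s) (by rwa [inv_mul_cancel_left])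

/-- inhomogeneous form of a coset-constant homogeneous `2`-cochain is level-constant -/
lemma isLev₂_inhom_of_congr (hN : N.Normal) {X : Type} (F : Γ → Γ → Γ → X)
    (hF : ∀ x₀ x₁ x₁' x₂ x₂', x₁⁻¹ * x₁' ∈ N → x₂⁻¹ * x₂' ∈ N → F x₀ x₁' x₂' = F x₀ x₁ x₂)
    (g₁ g₂ : Γ) {s₁ s₂ : Γ} (hs₁ : s₁ ∈ N) (hs₂ : s₂ ∈ N) :
    F 1 (g₁ * s₁) (g₁ * s₁ * (g₂ * s₂)) = F 1 g₁ (g₁ * g₂) := by
  refine hF 1 g₁ (g₁ * s₁) (g₁ * g₂) (g₁ * s₁ * (g₂ * s₂)) (by rwa [inv_mul_cancel_left]) ?_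
  have := N.mul_mem (hN.conj_mem _ hs₁ g₂⁻¹) hs₂
  convert this using 1
  group

end GenericLevel

variable (χ : G →* kˣ) (D : ShData L U)

lemma bigG₂_congr {N : Subgroup G} (hN : N.Normal) {y₁ : G × G → Bp k U χ}
    (hf : ∀ g₁ g₂, ∀ s₁ ∈ N, ∀ s₂ ∈ N, y₁ (g₁ * s₁, g₂ * s₂) = y₁ (g₁, g₂)) (x₀ : G)
    {x₁ x₁' x₂ x₂' : G} (h₁ : x₁⁻¹ * x₁' ∈ N) (h₂ : x₂⁻¹ * x₂' ∈ N) :
    bigG₂ χ y₁ x₀ x₁' x₂' = bigG₂ χ y₁ x₀ x₁ x₂ := by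
  unfold bigG₂
  rw [homog2_congr (Bp k U χ) hN hf x₀ h₁ h₂]

lemma bigG₃_congr {N : Subgroup G} (hN : N.Normal) {y₁ : G × G × G → Bp k U χ}
    (hf : ∀ g₁ g₂ g₃, ∀ s₁ ∈ N, ∀ s₂ ∈ N, ∀ s₃ ∈ N,
      y₁ (g₁ * s₁, g₂ * s₂, g₃ * s₃) = y₁ (g₁, g₂, g₃)) (x₀ : G)
    {x₁ x₁' x₂ x₂' x₃ x₃' : G} (h₁ : x₁⁻¹ * x₁' ∈ N) (h₂ : x₂⁻¹ * x₂' ∈ N)
    (h₃ : x₃⁻¹ * x₃' ∈ N) :
    bigG₃ χ y₁ x₀ x₁' x₂' x₃' = bigG₃ χ y₁ x₀ x₁ x₂ x₃ := by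
  unfold bigG₃
  rw [homog3_congr (Bp k U χ) hN hf x₀ h₁ h₂ h₃]

lemma bigL₁_congr (v : ι) (j : D.J v) {M : Subgroup (L.Gv v)}
    {b : L.Gv v → L.loc (Bp k U χ) v} (hb : ∀ g, ∀ s ∈ M, b (g * s) = b g) (h₀ : L.Gv v)
    {h₁ h₁' : L.Gv v} (hh₁ : h₁⁻¹ * h₁' ∈ M) :
    bigL₁ χ D v j b h₀ h₁' = bigL₁ χ D v j b h₀ h₁ := by
  unfold bigL₁
  rw [homog1_congr (L.loc (Bp k U χ) v) hb h₀ hh₁]

lemma bigL₂_congr (v : ι) (j : D.J v) {M : Subgroup (L.Gv v)} (hM : M.Normal)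
    {b : L.Gv v × L.Gv v → L.loc (Bp k U χ) v}
    (hb : ∀ g₁ g₂, ∀ s₁ ∈ M, ∀ s₂ ∈ M, b (g₁ * s₁, g₂ * s₂) = b (g₁, g₂)) (h₀ : L.Gv v)
    {h₁ h₁' h₂ h₂' : L.Gv v} (hh₁ : h₁⁻¹ * h₁' ∈ M) (hh₂ : h₂⁻¹ * h₂' ∈ M) :
    bigL₂ χ D v j b h₀ h₁' h₂' = bigL₂ χ D v j b h₀ h₁ h₂ := by
  unfold bigL₂
  rw [homog2_congr (L.loc (Bp k U χ) v) hM hb h₀ hh₁ hh₂]

lemma iotaU_inv_mul (v : ι) (j : D.J v) (x x' : ↥(D.Uw v j)) :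
    (iotaU D v j x)⁻¹ * iotaU D v j x' = L.r v ((x⁻¹ * x' : ↥(D.Uw v j)) : L.Gv v) := by
  simp only [iotaU, ShData.iotaMap, Subgroup.coe_mul, Subgroup.coe_inv, map_mul, map_inv]
  group

lemma rwU_inv_mul (v : ι) (j : D.J v) (x x' : ↥(D.Uw v j)) :
    (rwU D v j x)⁻¹ * rwU D v j x' = rwU D v j (x⁻¹ * x') := by
  simp only [rwU, map_mul, map_inv, Subgroup.coe_mul, Subgroup.coe_inv]

lemma rwU_mem_of_normal (v : ι) (j : D.J v) {N : Subgroup G} (hN : N.Normal)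
    {t : ↥(D.Uw v j)} (ht : L.r v (t : L.Gv v) ∈ N) : rwU D v j t ∈ N := by
  have := hN.conj_mem _ ht (D.y v j)⁻¹
  rw [inv_inv] at this
  simpa only [rwU, ShData.coe_rw] using this

lemma cLoc₁_congr (v : ι) (j : D.J v) {N : Subgroup G} (hN : N.Normal)
    {M : Subgroup (L.Gv v)} {y : CcAmb2 L (Bp k U χ)}
    (hy₁ : ∀ g₁ g₂, ∀ s₁ ∈ N, ∀ s₂ ∈ N, y.1 (g₁ * s₁, g₂ * s₂) = y.1 (g₁, g₂))
    (hb : ∀ g, ∀ s ∈ M, y.2 v (g * s) = y.2 v g) (x₀ : ↥(D.Uw v j))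
    {x₁ x₁' : ↥(D.Uw v j)} (hM₁ : ((x₁⁻¹ * x₁' : ↥(D.Uw v j)) : L.Gv v) ∈ M)
    (hN₁ : L.r v ((x₁⁻¹ * x₁' : ↥(D.Uw v j)) : L.Gv v) ∈ N) :
    cLoc₁ χ D v j y x₀ x₁' = cLoc₁ χ D v j y x₀ x₁ := by
  have hr₁ : (rwU D v j x₁)⁻¹ * rwU D v j x₁' ∈ N := by
    rw [rwU_inv_mul]; exact rwU_mem_of_normal D v j hN hN₁
  have hi₁ : (iotaU D v j x₁)⁻¹ * iotaU D v j x₁' ∈ N := by
    rw [iotaU_inv_mul]; exact hN₁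
  have h1 : ∀ a : G, a⁻¹ * a ∈ N := fun a => by rw [inv_mul_cancel]; exact N.one_mem
  simp only [cLoc₁, Pi.add_apply, pull1_apply, prism2_apply]
  rw [bigL₁_congr χ D v j hb (x₀ : L.Gv v) (h₁ := (x₁ : L.Gv v)) (h₁' := (x₁' : L.Gv v)) hM₁,
    bigG₂_congr χ hN hy₁ (iotaU D v j x₀) (h1 (rwU D v j x₀)) hr₁,
    bigG₂_congr χ hN hy₁ (iotaU D v j x₀) hi₁ hr₁]

lemma cLoc₂_congr (v : ι) (j : D.J v) {N : Subgroup G} (hN : N.Normal)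
    {M : Subgroup (L.Gv v)} (hM : M.Normal) {y : CcAmb3 L (Bp k U χ)}
    (hy₁ : ∀ g₁ g₂ g₃, ∀ s₁ ∈ N, ∀ s₂ ∈ N, ∀ s₃ ∈ N,
      y.1 (g₁ * s₁, g₂ * s₂, g₃ * s₃) = y.1 (g₁, g₂, g₃))
    (hb : ∀ g₁ g₂, ∀ s₁ ∈ M, ∀ s₂ ∈ M, y.2 v (g₁ * s₁, g₂ * s₂) = y.2 v (g₁, g₂))
    (x₀ : ↥(D.Uw v j)) {x₁ x₁' x₂ x₂' : ↥(D.Uw v j)}
    (hM₁ : ((x₁⁻¹ * x₁' : ↥(D.Uw v j)) : L.Gv v) ∈ M)
    (hN₁ : L.r v ((x₁⁻¹ * x₁' : ↥(D.Uw v j)) : L.Gv v) ∈ N)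
    (hM₂ : ((x₂⁻¹ * x₂' : ↥(D.Uw v j)) : L.Gv v) ∈ M)
    (hN₂ : L.r v ((x₂⁻¹ * x₂' : ↥(D.Uw v j)) : L.Gv v) ∈ N) :
    cLoc₂ χ D v j y x₀ x₁' x₂' = cLoc₂ χ D v j y x₀ x₁ x₂ := by
  have hr₁ : (rwU D v j x₁)⁻¹ * rwU D v j x₁' ∈ N := by
    rw [rwU_inv_mul]; exact rwU_mem_of_normal D v j hN hN₁
  have hi₁ : (iotaU D v j x₁)⁻¹ * iotaU D v j x₁' ∈ N := by
    rw [iotaU_inv_mul]; exact hN₁
  have hr₂ : (rwU D v j x₂)⁻¹ * rwU D v j x₂' ∈ N := by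
    rw [rwU_inv_mul]; exact rwU_mem_of_normal D v j hN hN₂
  have hi₂ : (iotaU D v j x₂)⁻¹ * iotaU D v j x₂' ∈ N := by
    rw [iotaU_inv_mul]; exact hN₂
  have h1 : ∀ a : G, a⁻¹ * a ∈ N := fun a => by rw [inv_mul_cancel]; exact N.one_mem
  simp only [cLoc₂, Pi.add_apply, pull2_apply, prism3_apply]
  rw [bigL₂_congr χ D v j hM hb (x₀ : L.Gv v) (h₁ := (x₁ : L.Gv v)) (h₁' := (x₁' : L.Gv v))
      (h₂ := (x₂ : L.Gv v)) (h₂' := (x₂' : L.Gv v)) hM₁ hM₂,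
    bigG₃_congr χ hN hy₁ (iotaU D v j x₀) (h1 (rwU D v j x₀)) hr₁ hr₂,
    bigG₃_congr χ hN hy₁ (iotaU D v j x₀) hi₁ hr₁ hr₂,
    bigG₃_congr χ hN hy₁ (iotaU D v j x₀) hi₁ hi₂ hr₂]

variable (hU : ∃ N ∈ 𝒩.mem, N ≤ U)

/-- a level of `G_v` below a given local level and below the preimage of a global level -/
lemma exists_local_level_le (v : ι) {N : Subgroup G} (hN : N ∈ 𝒩.mem)
    {M : Subgroup (L.Gv v)} (hM : M ∈ (L.lev v).mem) :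
    ∃ M'' ∈ (L.lev v).mem, M'' ≤ M ∧ ∀ t ∈ M'', L.r v t ∈ N := by
  obtain ⟨M', hM', hle'⟩ := L.compat v N hN
  obtain ⟨M'', hM'', hle''⟩ := (L.lev v).directed M hM M' hM'
  exact ⟨M'', hM'', fun t ht => (hle'' ht).1, fun t ht => hle' (hle'' ht).2⟩

lemma isLev₁_cLoc₁ (v : ι) (j : D.J v) {N : Subgroup G} (hN : N ∈ 𝒩.mem)
    {y : CcAmb2 L (Bp k U χ)}
    (hy₁ : ∀ g₁ g₂, ∀ s₁ ∈ N, ∀ s₂ ∈ N, y.1 (g₁ * s₁, g₂ * s₂) = y.1 (g₁, g₂))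
    (hy₂ : IsLev₁ (L.lev v) (y.2 v)) :
    IsLev₁ (inducedLevels (L.lev v) (D.Uw v j))
      (fun s : ↥(D.Uw v j) => cLoc₁ χ D v j y 1 s) := by
  have hNn : N.Normal := 𝒩.normal N hN
  obtain ⟨M, hM, hb⟩ := hy₂
  obtain ⟨M'', hM'', hle, hr⟩ := exists_local_level_le (L := L) v hN hM
  refine ⟨M''.subgroupOf (D.Uw v j), ⟨M'', hM'', rfl⟩, ?_⟩
  intro g s hs
  have hs' : (s : L.Gv v) ∈ M'' := Subgroup.mem_subgroupOf.1 hs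
  have e : g⁻¹ * (g * s) = s := inv_mul_cancel_left _ _
  refine cLoc₁_congr χ D v j hNn hy₁ hb 1 ?_ ?_
  · rw [e]; exact hle hs'
  · rw [e]; exact hr _ hs'

lemma isLev₂_cLoc₂ (v : ι) (j : D.J v) {N : Subgroup G} (hN : N ∈ 𝒩.mem)
    {y : CcAmb3 L (Bp k U χ)}
    (hy₁ : ∀ g₁ g₂ g₃, ∀ s₁ ∈ N, ∀ s₂ ∈ N, ∀ s₃ ∈ N,
      y.1 (g₁ * s₁, g₂ * s₂, g₃ * s₃) = y.1 (g₁, g₂, g₃))
    (hy₂ : IsLev₂ (L.lev v) (y.2 v)) :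
    IsLev₂ (inducedLevels (L.lev v) (D.Uw v j))
      (fun s : ↥(D.Uw v j) × ↥(D.Uw v j) => cLoc₂ χ D v j y 1 s.1 (s.1 * s.2)) := by
  have hNn : N.Normal := 𝒩.normal N hN
  obtain ⟨M, hM, hb⟩ := hy₂
  obtain ⟨M'', hM'', hle, hr⟩ := exists_local_level_le (L := L) v hN hM
  have hMn : M.Normal := (L.lev v).normal M hM
  have hM''n : M''.Normal := (L.lev v).normal M'' hM''
  refine ⟨M''.subgroupOf (D.Uw v j), ⟨M'', hM'', rfl⟩, ?_⟩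
  intro g₁ g₂ s₁ hs₁ s₂ hs₂
  have hs₁' : (s₁ : L.Gv v) ∈ M'' := Subgroup.mem_subgroupOf.1 hs₁
  have hs₂' : (s₂ : L.Gv v) ∈ M'' := Subgroup.mem_subgroupOf.1 hs₂
  have e₁ : g₁⁻¹ * (g₁ * s₁) = s₁ := inv_mul_cancel_left _ _
  have e₂ : (g₁ * g₂)⁻¹ * (g₁ * s₁ * (g₂ * s₂)) = (g₂⁻¹ * s₁ * g₂⁻¹⁻¹) * s₂ := by group
  have hm₂ : (((g₂⁻¹ * s₁ * g₂⁻¹⁻¹) * s₂ : ↥(D.Uw v j)) : L.Gv v) ∈ M'' := by
    have := M''.mul_mem (hM''n.conj_mem _ hs₁' (g₂ : L.Gv v)⁻¹) hs₂'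
    simpa only [Subgroup.coe_mul, Subgroup.coe_inv] using this
  show cLoc₂ χ D v j y 1 (g₁ * s₁) (g₁ * s₁ * (g₂ * s₂)) = cLoc₂ χ D v j y 1 g₁ (g₁ * g₂)
  refine cLoc₂_congr χ D v j hNn hMn hy₁ hb 1 ?_ ?_ ?_ ?_
  · rw [e₁]; exact hle hs₁'
  · rw [e₁]; exact hr _ hs₁'
  · rw [e₂]; exact hle hm₂
  · rw [e₂]; exact hr _ hm₂

/-- `c₂` preserves level-constant cone cochains -/
theorem cB₂_mem_Cc2 {y : CcAmb2 L (Bp k U χ)} (hy : y ∈ Cc2 L (Bp k U χ)) :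
    cB₂ χ D hU y ∈ Cc2 (D.localData hU) (trivRep k ↥U) := by
  rw [mem_Cc2] at hy ⊢
  obtain ⟨⟨N, hN, hy₁⟩, hy₂⟩ := hy
  have hNn : N.Normal := 𝒩.normal N hN
  refine ⟨?_, ?_⟩
  · obtain ⟨N₁, hN₁, hN₁U⟩ := hU
    obtain ⟨N₀, hN₀, hle⟩ := 𝒩.directed N hN N₁ hN₁
    refine ⟨N₀.subgroupOf U, ⟨N₀, hN₀, fun x hx => hN₁U (hle hx).2, rfl⟩, ?_⟩
    intro g₁ g₂ s₁ hs₁ s₂ hs₂
    rw [cB₂_fst_eq, cB₂_fst_eq]
    have h1 : (s₁ : G) ∈ N := (hle (Subgroup.mem_subgroupOf.1 hs₁)).1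
    have h2 : (s₂ : G) ∈ N := (hle (Subgroup.mem_subgroupOf.1 hs₂)).1
    rw [Subgroup.coe_mul, Subgroup.coe_mul, hy₁ _ _ _ h1 _ h2]
  · rintro ⟨v, j⟩
    exact isLev₁_cLoc₁ χ D v j hN hy₁ (hy₂ v)

/-- `c₃` preserves level-constant cone cochains -/
theorem cB₃_mem_Cc3 {y : CcAmb3 L (Bp k U χ)} (hy : y ∈ Cc3 L (Bp k U χ)) :
    cB₃ χ D hU y ∈ Cc3 (D.localData hU) (trivRep k ↥U) := by
  rw [mem_Cc3] at hy ⊢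
  obtain ⟨⟨N, hN, hy₁⟩, hy₂⟩ := hy
  have hNn : N.Normal := 𝒩.normal N hN
  refine ⟨?_, ?_⟩
  · obtain ⟨N₁, hN₁, hN₁U⟩ := hU
    obtain ⟨N₀, hN₀, hle⟩ := 𝒩.directed N hN N₁ hN₁
    refine ⟨N₀.subgroupOf U, ⟨N₀, hN₀, fun x hx => hN₁U (hle hx).2, rfl⟩, ?_⟩
    intro g₁ g₂ g₃ s₁ hs₁ s₂ hs₂ s₃ hs₃
    rw [cB₃_fst_eq, cB₃_fst_eq]
    have h1 : (s₁ : G) ∈ N := (hle (Subgroup.mem_subgroupOf.1 hs₁)).1
    have h2 : (s₂ : G) ∈ N := (hle (Subgroup.mem_subgroupOf.1 hs₂)).1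
    have h3 : (s₃ : G) ∈ N := (hle (Subgroup.mem_subgroupOf.1 hs₃)).1
    rw [Subgroup.coe_mul, Subgroup.coe_mul, Subgroup.coe_mul, hy₁ _ _ _ _ h1 _ h2 _ h3]
  · rintro ⟨v, j⟩
    exact isLev₂_cLoc₂ χ D v j hN hy₁ (hy₂ v)

variable (hχ : ∀ g ∈ U, χ g = 1)

include hχ in
/-- **[C-MEM], degree 2**: the cone Shapiro map `c₂` maps cone cocycles to cone cocycles
(field `c2_mem` of `helper53.ShTransport`, and the membership part of `P2_surj` of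
`helper53.ShTransportP`). -/
theorem cB₂_mem_Zc2 {y : CcAmb2 L (Bp k U χ)} (hy : y ∈ Zc2 L (Bp k U χ)) :
    cB₂ χ D hU y ∈ Zc2 (D.localData hU) (trivRep k ↥U) := by
  rw [mem_Zc2] at hy ⊢
  exact ⟨cB₂_mem_Cc2 χ D hU hy.1, dc₂₃_cB₂ χ D hχ hU hy.2⟩

include hχ in
/-- **[C-MEM], degree 3**: the cone Shapiro map `c₃` maps cone cocycles to cone cocycles
(field `c3_mem` of `helper53.ShTransport`, and the membership part of `P3_surj` of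
`helper53.ShTransportP`). -/
theorem cB₃_mem_Zc3 {y : CcAmb3 L (Bp k U χ)} (hy : y ∈ Zc3 L (Bp k U χ)) :
    cB₃ χ D hU y ∈ Zc3 (D.localData hU) (trivRep k ↥U) := by
  rw [mem_Zc3] at hy ⊢
  exact ⟨cB₃_mem_Cc3 χ D hU hy.1, dc₃₄_cB₃ χ D hχ hU hy.2⟩

end Level

end Fermat.Agent.S55.helper69
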