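import Mathlib
import Fermat.Agent.S55.helper49_ShPSurj
import Fermat.Agent.S55.helper62_ShCoindCoef
import Fermat.Agent.S55.helper69_ShCMem

/-!
# S55 / SH-P-SURJ, final form (helper49, task 439)

The fields `P2_surj`, `P3_surj` of `helper53.ShTransportP` for the coinduction maps
`P_n := helper62.pB_n χ D hU`, UNCONDITIONAL:

* `ps_pB₂_surj` : `∀ y ∈ Zc2 L B, ∃ y' ∈ Zc2 L' k, y - pB₂ χ D hU y' ∈ Bc2 L B`,
* `ps_pB₃_surj` : `∀ y ∈ Zc3 L B, ∃ y' ∈ Zc3 L' k, y - pB₃ χ D hU y' ∈ Bc3 L B`,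

(`B = Bp k U χ`, `L' = D.localData hU`), with witness `y' = cB_n χ D hU y`
(`helper69.cB₂_mem_Zc2`, `cB₃_mem_Zc3`).  Also the big-model description of `pB_n`:
`ps_bigG₂_pB₂`, `ps_bigL₁_pB₂`, `ps_bigG₃_pB₃`, `ps_bigL₂_pB₃`.
-/

set_option autoImplicit false
set_option linter.unusedSectionVars false
set_option linter.unusedVariables false
set_option linter.unusedSimpArgs false

open groupCohomology

noncomputable section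

namespace Fermat.Agent.S55.helper49

open Fermat.Agent.S55 Fermat.Agent.S55.helper35 Fermat.Agent.S55.helper38
  Fermat.Agent.S55.helper62

variable {k G : Type} [Field k] [Group G] {𝒩 : Levels G} {ι : Type} {L : LocalData G 𝒩 ι}
  {U : Subgroup G}

/-! ### left invariance of `Ψ` -/

section PsiInv

variable (D : ShData L U) [Finite (G ⧸ U)]

lemma ps_retr_inv_mul {Γ : Type} [Group Γ] (H : Subgroup Γ) {u : Γ} (hu : u ∈ H) (x x' : Γ) :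
    (retr H (u * x))⁻¹ * retr H (u * x') = (retr H x)⁻¹ * retr H x' := by
  have h : ∀ t : Γ, retr H (u * t) = (⟨u, hu⟩ : ↥H) * retr H t := fun t => retr_mul H ⟨u, hu⟩ t
  rw [h, h]
  group

lemma ps_lInv_psiG₂ (z : ↥U × ↥U → k) : ps_LInv₂ U (psiG₂ z) := by
  intro u hu x₀ x₁ x₂
  simp only [psiG₂, pull2_apply, homog2_apply, ps_retr_inv_mul U hu]
  rfl

lemma ps_lInv_psiG₃ (z : ↥U × ↥U × ↥U → k) : ps_LInv₃ U (psiG₃ z) := by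
  intro u hu x₀ x₁ x₂ x₃
  simp only [psiG₃, pull3_apply, homog3_apply, ps_retr_inv_mul U hu]
  rfl

lemma ps_beta_inv_mul (v : ι) (j : D.J v) {u : L.Gv v} (hu : u ∈ D.Uw v j) (x x' : L.Gv v) :
    (D.beta0 v j (u * x))⁻¹ * D.beta0 v j (u * x') = (D.beta0 v j x)⁻¹ * D.beta0 v j x' ∧
    (D.beta0 v j (u * x))⁻¹ * D.beta1 v j (u * x') = (D.beta0 v j x)⁻¹ * D.beta1 v j x' ∧
    (D.beta1 v j (u * x))⁻¹ * D.beta1 v j (u * x') = (D.beta1 v j x)⁻¹ * D.beta1 v j x' := by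
  rw [beta0_mul D v j hu, beta0_mul D v j hu, beta1_mul D v j hu, beta1_mul D v j hu]
  refine ⟨by group, by group, by group⟩

lemma ps_lInv_psiL₁ (v : ι) (j : D.J v) (z : ↥U × ↥U → k) (b : ↥(D.Uw v j) → k) :
    ps_LInv₁ (D.Uw v j) (psiL₁ D v j z b) := by
  intro u hu x₀ x₁
  obtain ⟨h00, h01, h11⟩ := ps_beta_inv_mul D v j hu x₀ x₁
  obtain ⟨-, h01', -⟩ := ps_beta_inv_mul D v j hu x₀ x₀
  obtain ⟨-, -, h11'⟩ := ps_beta_inv_mul D v j hu x₀ x₁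
  obtain ⟨-, h01'', -⟩ := ps_beta_inv_mul D v j hu x₁ x₁
  simp only [psiL₁, Pi.add_apply, pull1_apply, prism2_apply, homog1_apply, homog2_apply,
    ps_retr_inv_mul (D.Uw v j) hu, h00, h01, h11, h01', h01'']
  rfl

lemma ps_lInv_psiL₂ (v : ι) (j : D.J v) (z : ↥U × ↥U × ↥U → k)
    (b : ↥(D.Uw v j) × ↥(D.Uw v j) → k) :
    ps_LInv₂ (D.Uw v j) (psiL₂ D v j z b) := by
  intro u hu x₀ x₁ x₂
  have H := fun x x' => ps_beta_inv_mul D v j hu x x'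
  simp only [psiL₂, Pi.add_apply, pull2_apply, prism3_apply, homog2_apply, homog3_apply,
    ps_retr_inv_mul (D.Uw v j) hu, (H _ _).1, (H _ _).2.1, (H _ _).2.2]
  rfl

end PsiInv

/-! ### `pB_n` is the lift of `Ψ` -/

section Wire

variable (χ : G →* kˣ) (D : ShData L U) [Finite (G ⧸ U)] (hU : ∃ N ∈ 𝒩.mem, N ≤ U)

lemma ps_pB₂_fst (y' : CcAmb2 (D.localData hU) (trivRep k ↥U)) :
    (pB₂ χ D hU y').1 = ps_liftG₂ χ (psiG₂ y'.1) := by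
  funext g
  apply ps_ext
  intro c
  unfold ps_liftG₂
  rw [ps_val_mkB]
  exact pB₂_fst_single χ D hU y' g.1 g.2 c

lemma ps_pB₃_fst (y' : CcAmb3 (D.localData hU) (trivRep k ↥U)) :
    (pB₃ χ D hU y').1 = fun g : G × G × G => ps_mkB χ (fun c => (χ (sec U c) : k) *
      psiG₃ y'.1 (sec U c)⁻¹ ((sec U c)⁻¹ * g.1) ((sec U c)⁻¹ * (g.1 * g.2.1))
        ((sec U c)⁻¹ * (g.1 * g.2.1 * g.2.2))) := by
  funext g
  apply ps_ext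
  intro c
  rw [ps_val_mkB]
  exact pB₃_fst_single χ D hU y' g.1 g.2.1 g.2.2 c

lemma ps_pB₂_snd (y' : CcAmb2 (D.localData hU) (trivRep k ↥U)) (v : ι) :
    (pB₂ χ D hU y').2 v = ps_liftL₁ χ D v (fun j => psiL₁ D v j y'.1 (y'.2 ⟨v, j⟩)) := by
  funext h
  apply ps_ext
  intro c
  obtain ⟨p, rfl⟩ := (ps_orbitEquiv D v).surjective c
  rw [ps_val_liftL₁]
  exact pB₂_snd_single χ D hU y' v h p.1 p.2

/-- big model of the global component of `pB₂` -/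
theorem ps_bigG₂_pB₂ (hχ : ∀ g ∈ U, χ g = 1) (y' : CcAmb2 (D.localData hU) (trivRep k ↥U)) :
    bigG₂ χ (pB₂ χ D hU y').1 = pull2 (retr U) (homog2 (trivRep k ↥U) y'.1) := by
  rw [ps_pB₂_fst]
  exact ps_bigG₂_lift χ hχ (ps_lInv_psiG₂ y'.1)

/-- big model of the local components of `pB₂` -/
theorem ps_bigL₁_pB₂ (hχ : ∀ g ∈ U, χ g = 1) (y' : CcAmb2 (D.localData hU) (trivRep k ↥U))
    (v : ι) (j : D.J v) :
    bigL₁ χ D v j ((pB₂ χ D hU y').2 v) =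
      pull1 (retr (D.Uw v j)) (homog1 (trivRep k ↥(D.Uw v j)) (y'.2 ⟨v, j⟩))
        + prism2 (D.beta0 v j) (D.beta1 v j) (homog2 (trivRep k ↥U) y'.1) := by
  rw [ps_pB₂_snd]
  exact ps_bigL₁_lift χ D v hχ (fun j' => ps_lInv_psiL₁ D v j' y'.1 (y'.2 ⟨v, j'⟩)) j

/-- big model of the global component of `pB₃` -/
theorem ps_bigG₃_pB₃ (hχ : ∀ g ∈ U, χ g = 1) (y' : CcAmb3 (D.localData hU) (trivRep k ↥U)) :
    bigG₃ χ (pB₃ χ D hU y').1 = pull3 (retr U) (homog3 (trivRep k ↥U) y'.1) := by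
  rw [ps_pB₃_fst]
  funext x₀ x₁ x₂ x₃
  rw [ps_bigG₃_eq, ps_val_mkB, ← mul_assoc, ps_chi_sec χ hχ, one_mul]
  obtain ⟨u, hu, h⟩ := ps_sec_inv_spec (U := U) x₀
  rw [h]
  have e1 : u * x₀ * (x₀⁻¹ * x₁) = u * x₁ := by group
  have e2 : u * x₀ * (x₀⁻¹ * x₁ * (x₁⁻¹ * x₂)) = u * x₂ := by group
  have e3 : u * x₀ * (x₀⁻¹ * x₁ * (x₁⁻¹ * x₂) * (x₂⁻¹ * x₃)) = u * x₃ := by group
  simp only [e1, e2, e3]
  exact ps_lInv_psiG₃ y'.1 u hu x₀ x₁ x₂ x₃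

/-- big model of the local components of `pB₃` -/
theorem ps_bigL₂_pB₃ (hχ : ∀ g ∈ U, χ g = 1) (y' : CcAmb3 (D.localData hU) (trivRep k ↥U))
    (v : ι) (j : D.J v) :
    bigL₂ χ D v j ((pB₃ χ D hU y').2 v) =
      pull2 (retr (D.Uw v j)) (homog2 (trivRep k ↥(D.Uw v j)) (y'.2 ⟨v, j⟩))
        + prism3 (D.beta0 v j) (D.beta1 v j) (homog3 (trivRep k ↥U) y'.1) := by
  funext h₀ h₁ h₂
  rw [ps_bigL₂_eq, ps_orbit_iota]
  have hs := pB₃_snd_single χ D hU y' v (h₀⁻¹ * h₁) (h₁⁻¹ * h₂) j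
    ((h₀⁻¹ : L.Gv v) : L.Gv v ⧸ D.Uw v j)
  have hs' : ps_val χ ((pB₃ χ D hU y').2 v (h₀⁻¹ * h₁, h₁⁻¹ * h₂))
      (ps_orbitEquiv D v ⟨j, ((h₀⁻¹ : L.Gv v) : L.Gv v ⧸ D.Uw v j)⟩) = _ := hs
  rw [hs', ← mul_assoc]
  have hc := ps_chi_iota_rep χ D v hχ j h₀
  unfold ps_rep at hc
  rw [hc, one_mul]
  obtain ⟨u, hu, h⟩ := ps_sec_inv_spec_loc D v j h₀
  rw [h]
  have e1 : u * h₀ * (h₀⁻¹ * h₁) = u * h₁ := by group
  have e2 : u * h₀ * (h₀⁻¹ * h₁ * (h₁⁻¹ * h₂)) = u * h₂ := by group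
  rw [e1, e2]
  exact ps_lInv_psiL₂ D v j y'.1 (y'.2 ⟨v, j⟩) u hu h₀ h₁ h₂

/-- **P2_surj** of `helper53.ShTransportP` for `P2 := pB₂ χ D hU`. -/
theorem ps_pB₂_surj (hχ : ∀ g ∈ U, χ g = 1) :
    ∀ y ∈ Zc2 L (Bp k U χ), ∃ y' ∈ Zc2 (D.localData hU) (trivRep k ↥U),
      y - pB₂ χ D hU y' ∈ Bc2 L (Bp k U χ) :=
  ps_P2_surj χ D hU hχ (fun y' => pB₂ χ D hU y') (ps_bigG₂_pB₂ χ D hU hχ)
    (ps_bigL₁_pB₂ χ D hU hχ) (fun _ hy => helper69.cB₂_mem_Zc2 χ D hU hχ hy)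

/-- **P3_surj** of `helper53.ShTransportP` for `P3 := pB₃ χ D hU`. -/
theorem ps_pB₃_surj (hχ : ∀ g ∈ U, χ g = 1) :
    ∀ y ∈ Zc3 L (Bp k U χ), ∃ y' ∈ Zc3 (D.localData hU) (trivRep k ↥U),
      y - pB₃ χ D hU y' ∈ Bc3 L (Bp k U χ) :=
  ps_P3_surj χ D hU hχ (fun y' => pB₃ χ D hU y') (ps_bigG₃_pB₃ χ D hU hχ)
    (ps_bigL₂_pB₃ χ D hU hχ) (fun _ hy => helper69.cB₃_mem_Zc3 χ D hU hχ hy)

end Wire

end Fermat.Agent.S55.helper49
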