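import Mathlib
import Fermat.Agent.S55.helper35_Prism

/-!
# Cup products of homogeneous cochains in low degrees

For a biadditive pairing `B : N₁ →+ N₂ →+ N₃` we define the (front face / back face) cup products
of homogeneous cochains in total degree `≤ 3`, prove the Leibniz rule in total degree `≤ 2`
and the derivation property of the prism operators.
-/

set_option linter.unusedSectionVars false

namespace Fermat.Agent.S55.helper35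

variable {X Y : Type*} {N₁ N₂ N₃ : Type*} [AddCommGroup N₁] [AddCommGroup N₂] [AddCommGroup N₃]
variable (B : N₁ →+ N₂ →+ N₃)

/-! ### Definitions -/

def cup00 (F : X → N₁) (F' : X → N₂) : X → N₃ := fun x₀ => B (F x₀) (F' x₀)
def cup01 (F : X → N₁) (F' : X → X → N₂) : X → X → N₃ := fun x₀ x₁ => B (F x₀) (F' x₀ x₁)
def cup10 (F : X → X → N₁) (F' : X → N₂) : X → X → N₃ := fun x₀ x₁ => B (F x₀ x₁) (F' x₁)
def cup02 (F : X → N₁) (F' : X → X → X → N₂) : X → X → X → N₃ :=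
  fun x₀ x₁ x₂ => B (F x₀) (F' x₀ x₁ x₂)
def cup11 (F : X → X → N₁) (F' : X → X → N₂) : X → X → X → N₃ :=
  fun x₀ x₁ x₂ => B (F x₀ x₁) (F' x₁ x₂)
def cup20 (F : X → X → X → N₁) (F' : X → N₂) : X → X → X → N₃ :=
  fun x₀ x₁ x₂ => B (F x₀ x₁ x₂) (F' x₂)
def cup03 (F : X → N₁) (F' : X → X → X → X → N₂) : X → X → X → X → N₃ :=
  fun x₀ x₁ x₂ x₃ => B (F x₀) (F' x₀ x₁ x₂ x₃)
def cup12 (F : X → X → N₁) (F' : X → X → X → N₂) : X → X → X → X → N₃ :=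
  fun x₀ x₁ x₂ x₃ => B (F x₀ x₁) (F' x₁ x₂ x₃)
def cup21 (F : X → X → X → N₁) (F' : X → X → N₂) : X → X → X → X → N₃ :=
  fun x₀ x₁ x₂ x₃ => B (F x₀ x₁ x₂) (F' x₂ x₃)
def cup30 (F : X → X → X → X → N₁) (F' : X → N₂) : X → X → X → X → N₃ :=
  fun x₀ x₁ x₂ x₃ => B (F x₀ x₁ x₂ x₃) (F' x₃)

@[simp] lemma cup00_apply (F : X → N₁) (F' : X → N₂) (x₀ : X) :
    cup00 B F F' x₀ = B (F x₀) (F' x₀) := rfl
@[simp] lemma cup01_apply (F : X → N₁) (F' : X → X → N₂) (x₀ x₁ : X) :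
    cup01 B F F' x₀ x₁ = B (F x₀) (F' x₀ x₁) := rfl
@[simp] lemma cup10_apply (F : X → X → N₁) (F' : X → N₂) (x₀ x₁ : X) :
    cup10 B F F' x₀ x₁ = B (F x₀ x₁) (F' x₁) := rfl
@[simp] lemma cup02_apply (F : X → N₁) (F' : X → X → X → N₂) (x₀ x₁ x₂ : X) :
    cup02 B F F' x₀ x₁ x₂ = B (F x₀) (F' x₀ x₁ x₂) := rfl
@[simp] lemma cup11_apply (F : X → X → N₁) (F' : X → X → N₂) (x₀ x₁ x₂ : X) :
    cup11 B F F' x₀ x₁ x₂ = B (F x₀ x₁) (F' x₁ x₂) := rfl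
@[simp] lemma cup20_apply (F : X → X → X → N₁) (F' : X → N₂) (x₀ x₁ x₂ : X) :
    cup20 B F F' x₀ x₁ x₂ = B (F x₀ x₁ x₂) (F' x₂) := rfl
@[simp] lemma cup03_apply (F : X → N₁) (F' : X → X → X → X → N₂) (x₀ x₁ x₂ x₃ : X) :
    cup03 B F F' x₀ x₁ x₂ x₃ = B (F x₀) (F' x₀ x₁ x₂ x₃) := rfl
@[simp] lemma cup12_apply (F : X → X → N₁) (F' : X → X → X → N₂) (x₀ x₁ x₂ x₃ : X) :
    cup12 B F F' x₀ x₁ x₂ x₃ = B (F x₀ x₁) (F' x₁ x₂ x₃) := rfl
@[simp] lemma cup21_apply (F : X → X → X → N₁) (F' : X → X → N₂) (x₀ x₁ x₂ x₃ : X) :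
    cup21 B F F' x₀ x₁ x₂ x₃ = B (F x₀ x₁ x₂) (F' x₂ x₃) := rfl
@[simp] lemma cup30_apply (F : X → X → X → X → N₁) (F' : X → N₂) (x₀ x₁ x₂ x₃ : X) :
    cup30 B F F' x₀ x₁ x₂ x₃ = B (F x₀ x₁ x₂ x₃) (F' x₃) := rfl

/-! ### Leibniz rule, total degree `≤ 2` -/

theorem hd0_cup00 (F : X → N₁) (F' : X → N₂) :
    hd0 (cup00 B F F') = cup10 B (hd0 F) F' + cup01 B F (hd0 F') := by
  funext x₀ x₁
  simp only [hd0_apply, cup00_apply, cup10_apply, cup01_apply, Pi.add_apply, map_sub,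
    AddMonoidHom.sub_apply]
  abel

theorem hd1_cup01 (F : X → N₁) (F' : X → X → N₂) :
    hd1 (cup01 B F F') = cup11 B (hd0 F) F' + cup02 B F (hd1 F') := by
  funext x₀ x₁ x₂
  simp only [hd1_apply, hd0_apply, cup01_apply, cup11_apply, cup02_apply, Pi.add_apply, map_sub,
    map_add, AddMonoidHom.sub_apply]
  abel

theorem hd1_cup10 (F : X → X → N₁) (F' : X → N₂) :
    hd1 (cup10 B F F') = cup20 B (hd1 F) F' - cup11 B F (hd0 F') := by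
  funext x₀ x₁ x₂
  simp only [hd1_apply, hd0_apply, cup10_apply, cup11_apply, cup20_apply, Pi.sub_apply, map_sub,
    map_add, AddMonoidHom.sub_apply, AddMonoidHom.add_apply]
  abel

theorem hd2_cup02 (F : X → N₁) (F' : X → X → X → N₂) :
    hd2 (cup02 B F F') = cup12 B (hd0 F) F' + cup03 B F (hd2 F') := by
  funext x₀ x₁ x₂ x₃
  simp only [hd2_apply, hd0_apply, cup02_apply, cup12_apply, cup03_apply, Pi.add_apply, map_sub,
    map_add, AddMonoidHom.sub_apply]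
  abel

theorem hd2_cup11 (F : X → X → N₁) (F' : X → X → N₂) :
    hd2 (cup11 B F F') = cup21 B (hd1 F) F' - cup12 B F (hd1 F') := by
  funext x₀ x₁ x₂ x₃
  simp only [hd2_apply, hd1_apply, cup11_apply, cup21_apply, cup12_apply, Pi.sub_apply, map_sub,
    map_add, AddMonoidHom.sub_apply, AddMonoidHom.add_apply]
  abel

theorem hd2_cup20 (F : X → X → X → N₁) (F' : X → N₂) :
    hd2 (cup20 B F F') = cup30 B (hd2 F) F' + cup21 B F (hd0 F') := by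
  funext x₀ x₁ x₂ x₃
  simp only [hd2_apply, hd0_apply, cup20_apply, cup30_apply, cup21_apply, Pi.add_apply, map_sub,
    map_add, AddMonoidHom.sub_apply, AddMonoidHom.add_apply]
  abel

/-! ### Pull-backs are multiplicative -/

lemma pull0_cup00 (ρ : X → Y) (F : Y → N₁) (F' : Y → N₂) :
    pull0 ρ (cup00 B F F') = cup00 B (pull0 ρ F) (pull0 ρ F') := rfl
lemma pull1_cup01 (ρ : X → Y) (F : Y → N₁) (F' : Y → Y → N₂) :
    pull1 ρ (cup01 B F F') = cup01 B (pull0 ρ F) (pull1 ρ F') := rfl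
lemma pull1_cup10 (ρ : X → Y) (F : Y → Y → N₁) (F' : Y → N₂) :
    pull1 ρ (cup10 B F F') = cup10 B (pull1 ρ F) (pull0 ρ F') := rfl
lemma pull2_cup02 (ρ : X → Y) (F : Y → N₁) (F' : Y → Y → Y → N₂) :
    pull2 ρ (cup02 B F F') = cup02 B (pull0 ρ F) (pull2 ρ F') := rfl
lemma pull2_cup11 (ρ : X → Y) (F : Y → Y → N₁) (F' : Y → Y → N₂) :
    pull2 ρ (cup11 B F F') = cup11 B (pull1 ρ F) (pull1 ρ F') := rfl
lemma pull2_cup20 (ρ : X → Y) (F : Y → Y → Y → N₁) (F' : Y → N₂) :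
    pull2 ρ (cup20 B F F') = cup20 B (pull2 ρ F) (pull0 ρ F') := rfl
lemma pull3_cup03 (ρ : X → Y) (F : Y → N₁) (F' : Y → Y → Y → Y → N₂) :
    pull3 ρ (cup03 B F F') = cup03 B (pull0 ρ F) (pull3 ρ F') := rfl
lemma pull3_cup12 (ρ : X → Y) (F : Y → Y → N₁) (F' : Y → Y → Y → N₂) :
    pull3 ρ (cup12 B F F') = cup12 B (pull1 ρ F) (pull2 ρ F') := rfl
lemma pull3_cup21 (ρ : X → Y) (F : Y → Y → Y → N₁) (F' : Y → Y → N₂) :
    pull3 ρ (cup21 B F F') = cup21 B (pull2 ρ F) (pull1 ρ F') := rfl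
lemma pull3_cup30 (ρ : X → Y) (F : Y → Y → Y → Y → N₁) (F' : Y → N₂) :
    pull3 ρ (cup30 B F F') = cup30 B (pull3 ρ F) (pull0 ρ F') := rfl

/-! ### The prism operators are `(ρ₀^*, ρ₁^*)`-derivations -/

variable (ρ₀ ρ₁ : X → Y)

theorem prism1_cup01 (F : Y → N₁) (F' : Y → Y → N₂) :
    prism1 ρ₀ ρ₁ (cup01 B F F') = cup00 B (pull0 ρ₀ F) (prism1 ρ₀ ρ₁ F') := rfl

theorem prism1_cup10 (F : Y → Y → N₁) (F' : Y → N₂) :
    prism1 ρ₀ ρ₁ (cup10 B F F') = cup00 B (prism1 ρ₀ ρ₁ F) (pull0 ρ₁ F') := rfl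

theorem prism2_cup02 (F : Y → N₁) (F' : Y → Y → Y → N₂) :
    prism2 ρ₀ ρ₁ (cup02 B F F') = cup01 B (pull0 ρ₀ F) (prism2 ρ₀ ρ₁ F') := by
  funext x₀ x₁
  simp only [prism2_apply, cup02_apply, cup01_apply, pull0_apply, map_sub]

theorem prism2_cup11 (F : Y → Y → N₁) (F' : Y → Y → N₂) :
    prism2 ρ₀ ρ₁ (cup11 B F F') =
      cup01 B (prism1 ρ₀ ρ₁ F) (pull1 ρ₁ F') - cup10 B (pull1 ρ₀ F) (prism1 ρ₀ ρ₁ F') := by
  funext x₀ x₁
  simp only [prism2_apply, cup11_apply, cup01_apply, cup10_apply, prism1_apply, pull1_apply,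
    Pi.sub_apply]

theorem prism2_cup20 (F : Y → Y → Y → N₁) (F' : Y → N₂) :
    prism2 ρ₀ ρ₁ (cup20 B F F') = cup10 B (prism2 ρ₀ ρ₁ F) (pull0 ρ₁ F') := by
  funext x₀ x₁
  simp only [prism2_apply, cup20_apply, cup10_apply, pull0_apply, map_sub,
    AddMonoidHom.sub_apply]

theorem prism3_cup03 (F : Y → N₁) (F' : Y → Y → Y → Y → N₂) :
    prism3 ρ₀ ρ₁ (cup03 B F F') = cup02 B (pull0 ρ₀ F) (prism3 ρ₀ ρ₁ F') := by
  funext x₀ x₁ x₂
  simp only [prism3_apply, cup03_apply, cup02_apply, pull0_apply, map_sub, map_add]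

theorem prism3_cup12 (F : Y → Y → N₁) (F' : Y → Y → Y → N₂) :
    prism3 ρ₀ ρ₁ (cup12 B F F') =
      cup02 B (prism1 ρ₀ ρ₁ F) (pull2 ρ₁ F') - cup11 B (pull1 ρ₀ F) (prism2 ρ₀ ρ₁ F') := by
  funext x₀ x₁ x₂
  simp only [prism3_apply, cup12_apply, cup02_apply, cup11_apply, prism1_apply, prism2_apply,
    pull1_apply, pull2_apply, Pi.sub_apply, map_sub]
  abel

theorem prism3_cup21 (F : Y → Y → Y → N₁) (F' : Y → Y → N₂) :
    prism3 ρ₀ ρ₁ (cup21 B F F') =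
      cup11 B (prism2 ρ₀ ρ₁ F) (pull1 ρ₁ F') + cup20 B (pull2 ρ₀ F) (prism1 ρ₀ ρ₁ F') := by
  funext x₀ x₁ x₂
  simp only [prism3_apply, cup21_apply, cup11_apply, cup20_apply, prism1_apply, prism2_apply,
    pull1_apply, pull2_apply, Pi.add_apply, map_sub, AddMonoidHom.sub_apply]

theorem prism3_cup30 (F : Y → Y → Y → Y → N₁) (F' : Y → N₂) :
    prism3 ρ₀ ρ₁ (cup30 B F F') = cup20 B (prism3 ρ₀ ρ₁ F) (pull0 ρ₁ F') := by
  funext x₀ x₁ x₂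
  simp only [prism3_apply, cup30_apply, cup20_apply, pull0_apply, map_sub, map_add,
    AddMonoidHom.sub_apply, AddMonoidHom.add_apply]

end Fermat.Agent.S55.helper35
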