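import Mathlib
import Fermat.Agent.S55.helper62_ShCoindCoef
import Fermat.Agent.S55.helper38_ShTrB
import Fermat.Agent.S55.helper35_Cup

/-!
# S55 / SH (helper62): tools for the projection formulas `pf12`, `pf21`

* `dualOf_eq_sum` : evaluation of `dualOf χ φ` as a sum over `G/U`;
* `xt1 x`, `xt2 x` : the scalar (`U`-invariant) homogeneous cochains attached to an
  inhomogeneous `k[G/U]`-valued cochain `x` (coefficient at the trivial coset of `homog x`),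
  with the cocycle, invariance and coefficient formulas;
* `cup_liftBG₂`, `cup_liftBL₁`, ... : the cup product of `x` with a lifted cochain is the
  transfer of the scalar cup product.
-/

set_option autoImplicit false
set_option linter.unusedSectionVars false
set_option linter.unusedVariables false
set_option linter.unusedSimpArgs false
set_option linter.style.longLine false
set_option linter.style.haveILetI false

open groupCohomology

noncomputable section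

namespace Fermat.Agent.S55.helper62

open Fermat.Agent.S55 Fermat.Agent.S55.helper35 Fermat.Agent.S55.helper38

variable {k G : Type} [Field k] [Group G] {𝒩 : Levels G} {ι : Type} {L : LocalData G 𝒩 ι}
  {U : Subgroup G}

/-! ### evaluation of functionals as sums -/

lemma dualOf_eq_sum [Fintype (G ⧸ U)] (χ : G →* kˣ) (φ : G ⧸ U → k) (a : permRep k U) :
    (dualOf χ φ : Module.Dual k (permRep k U)) a
      = ∑ c : G ⧸ U, MonoidAlgebra.coeff (a : MonoidAlgebra k (G ⧸ U)) c * φ c := by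
  rw [dualOf_apply, Finsupp.linearCombination_apply, Finsupp.sum_fintype _ _ (by simp)]
  rfl

lemma h62_coeff_eq_piU (a : permRep k U) (g : G) :
    MonoidAlgebra.coeff (a : MonoidAlgebra k (G ⧸ U)) (g : G ⧸ U)
      = piU k U ((permRep k U).ρ g⁻¹ a) := by
  rw [piU_rho, inv_inv]

/-! ### the scalar homogeneous cochains of `x` -/

/-- scalar homogeneous `1`-cochain of an inhomogeneous `k[G/U]`-valued `1`-cochain -/
def xt1 (x : G → permRep k U) : G → G → k := sc1 (homog1 (permRep k U) x)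

/-- scalar homogeneous `2`-cochain of an inhomogeneous `k[G/U]`-valued `2`-cochain -/
def xt2 (x : G × G → permRep k U) : G → G → G → k := sc2 (homog2 (permRep k U) x)

lemma xt1_apply (x : G → permRep k U) (a b : G) :
    xt1 x a b = piU k U ((permRep k U).ρ a (x (a⁻¹ * b))) := rfl

lemma xt2_apply (x : G × G → permRep k U) (a b c : G) :
    xt2 x a b c = piU k U ((permRep k U).ρ a (x (a⁻¹ * b, b⁻¹ * c))) := rfl

lemma hd1_xt1 {x : G → permRep k U} (hx : (d₁₂ (permRep k U)).hom x = 0) :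
    hd1 (xt1 x) = 0 := by
  rw [xt1, ← sc2_hd1, hd1_homog1, hx, h62_homog2_zero]
  rfl

lemma isLInv₁_xt1 (x : G → permRep k U) : IsLInv₁ U (xt1 x) := fun u hu a b => by
  simp only [xt1, sc1_apply, isEqv1_homog1 (permRep k U) x u, piU_rho_of_mem hu]

lemma isLInv₂_xt2 (x : G × G → permRep k U) : IsLInv₂ U (xt2 x) := fun u hu a b c => by
  simp only [xt2, sc2_apply, isEqv2_homog2 (permRep k U) x u, piU_rho_of_mem hu]

/-- the coefficients of `ρ g⁻¹ (x g)` -/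
lemma coeff_rho_inv_x1 (x : G → permRep k U) (g s : G) :
    MonoidAlgebra.coeff ((permRep k U).ρ g⁻¹ (x g) : MonoidAlgebra k (G ⧸ U)) (s : G ⧸ U)
      = xt1 x (g * s)⁻¹ ((g * s)⁻¹ * g) := by
  rw [h62_coeff_eq_piU, xt1_apply, ← Module.End.mul_apply, ← map_mul, inv_inv,
    mul_inv_cancel_left, mul_inv_rev]

/-- the coefficients of `ρ (g₁ g₂)⁻¹ (x (g₁, g₂))` -/
lemma coeff_rho_inv_x2 (x : G × G → permRep k U) (g₁ g₂ s : G) :
    MonoidAlgebra.coeff ((permRep k U).ρ (g₁ * g₂)⁻¹ (x (g₁, g₂)) : MonoidAlgebra k (G ⧸ U))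
        (s : G ⧸ U)
      = xt2 x (g₁ * g₂ * s)⁻¹ ((g₁ * g₂ * s)⁻¹ * g₁) ((g₁ * g₂ * s)⁻¹ * (g₁ * g₂)) := by
  rw [h62_coeff_eq_piU, xt2_apply, ← Module.End.mul_apply, ← map_mul, inv_inv,
    mul_inv_cancel_left]
  have e1 : ((g₁ * g₂ * s)⁻¹ * g₁)⁻¹ * ((g₁ * g₂ * s)⁻¹ * (g₁ * g₂)) = g₂ := by group
  have e2 : s⁻¹ * (g₁ * g₂)⁻¹ = (g₁ * g₂ * s)⁻¹ := by group
  rw [e1, e2]

/-- `homog1` of the Shapiro image -/
lemma homog1_shA₁ (x : G → permRep k U) :
    homog1 (trivRep k ↥U) (shA₁ k U x) = pull1 (fun u : ↥U => (u : G)) (xt1 x) := by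
  funext u₀ u₁
  show piU k U (x ((u₀⁻¹ * u₁ : ↥U) : G)) = piU k U ((permRep k U).ρ (u₀ : G) (x ((u₀ : G)⁻¹ * u₁)))
  rw [piU_rho_of_mem u₀.2]
  rfl

/-- `homog2` of the Shapiro image -/
lemma homog2_shA₂ (x : G × G → permRep k U) :
    homog2 (trivRep k ↥U) (shA₂ k U x) = pull2 (fun u : ↥U => (u : G)) (xt2 x) := by
  funext u₀ u₁ u₂
  show piU k U (x (((u₀⁻¹ * u₁ : ↥U) : G), ((u₁⁻¹ * u₂ : ↥U) : G)))
    = piU k U ((permRep k U).ρ (u₀ : G) (x ((u₀ : G)⁻¹ * u₁, (u₁ : G)⁻¹ * u₂)))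
  rw [piU_rho_of_mem u₀.2]
  rfl

/-! ### transfers as linear maps -/

section TransferMaps

variable (χ : G →* kˣ) (D : ShData L U) [Finite (G ⧸ U)]

/-- `inhom3 ∘ trfG₃` as a linear map -/
def TG₃ : (G → G → G → G → k) →ₗ[k] (G × G × G → k) where
  toFun W := inhom3 (ofChar χ) (trfG₃ (U := U) χ W)
  map_add' W W' := by
    classical
    funext g
    simp only [inhom3, trfG₃, trf₃, Pi.add_apply, mul_add, Finset.sum_add_distrib]
  map_smul' c W := by
    classical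
    funext g
    simp only [inhom3, trfG₃, trf₃, Pi.smul_apply, smul_eq_mul, Finset.mul_sum,
      RingHom.id_apply]
    refine Finset.sum_congr rfl fun i _ => ?_
    ring

/-- `inhom2 ∘ trfG₂` as a linear map -/
def TG₂ : (G → G → G → k) →ₗ[k] (G × G → k) where
  toFun W := inhom2 (ofChar χ) (trfG₂ U χ W)
  map_add' W W' := by
    classical
    funext g
    simp only [inhom2, trfG₂, trf₂, Pi.add_apply, mul_add, Finset.sum_add_distrib]
  map_smul' c W := by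
    classical
    funext g
    simp only [inhom2, trfG₂, trf₂, Pi.smul_apply, smul_eq_mul, Finset.mul_sum,
      RingHom.id_apply]
    refine Finset.sum_congr rfl fun i _ => ?_
    ring

/-- `∑_j inhom2 ∘ trfL₂` as a linear map -/
def TL₂ (v : ι) : (∀ j : D.J v, L.Gv v → L.Gv v → L.Gv v → k) →ₗ[k] (L.Gv v × L.Gv v → k) where
  toFun W := ∑ j : D.J v, inhom2 (Rep.res (L.r v) (ofChar χ)) (D.trfL₂ χ v j (W j))
  map_add' W W' := by
    classical
    rw [← Finset.sum_add_distrib]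
    refine Finset.sum_congr rfl fun j _ => ?_
    funext g
    simp only [inhom2, ShData.trfL₂, trf₂, Pi.add_apply, mul_add, Finset.sum_add_distrib]
  map_smul' c W := by
    classical
    rw [Finset.smul_sum]
    refine Finset.sum_congr rfl fun j _ => ?_
    funext g
    simp only [inhom2, ShData.trfL₂, trf₂, Pi.smul_apply, smul_eq_mul, Finset.mul_sum,
      RingHom.id_apply]
    refine Finset.sum_congr rfl fun i _ => ?_
    ring

/-- `∑_j inhom1 ∘ trfL₁` as a linear map -/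
def TL₁ (v : ι) : (∀ j : D.J v, L.Gv v → L.Gv v → k) →ₗ[k] (L.Gv v → k) where
  toFun W := ∑ j : D.J v, inhom1 (Rep.res (L.r v) (ofChar χ)) (trfL₁ D χ v j (W j))
  map_add' W W' := by
    classical
    rw [← Finset.sum_add_distrib]
    refine Finset.sum_congr rfl fun j _ => ?_
    funext g
    simp only [inhom1, trfL₁, trf₁, Pi.add_apply, mul_add, Finset.sum_add_distrib]
  map_smul' c W := by
    classical
    rw [Finset.smul_sum]
    refine Finset.sum_congr rfl fun j _ => ?_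
    funext g
    simp only [inhom1, trfL₁, trf₁, Pi.smul_apply, smul_eq_mul, Finset.mul_sum,
      RingHom.id_apply]
    refine Finset.sum_congr rfl fun i _ => ?_
    ring

lemma TG₃_apply (W : G → G → G → G → k) :
    TG₃ (U := U) χ W = inhom3 (ofChar χ) (trfG₃ (U := U) χ W) := rfl
lemma TG₂_apply (W : G → G → G → k) :
    TG₂ (U := U) χ W = inhom2 (ofChar χ) (trfG₂ U χ W) := rfl
lemma TL₂_apply (v : ι) (W : ∀ j : D.J v, L.Gv v → L.Gv v → L.Gv v → k) :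
    TL₂ χ D v W = ∑ j : D.J v, inhom2 (Rep.res (L.r v) (ofChar χ)) (D.trfL₂ χ v j (W j)) := rfl
lemma TL₁_apply (v : ι) (W : ∀ j : D.J v, L.Gv v → L.Gv v → k) :
    TL₁ χ D v W = ∑ j : D.J v, inhom1 (Rep.res (L.r v) (ofChar χ)) (trfL₁ D χ v j (W j)) := rfl

/-- (P1) global transfer commutes with the differential -/
lemma TG₃_hd2 (hχ : ∀ g ∈ U, χ g = 1) {W : G → G → G → k} (hW : IsLInv₂ U W) :
    TG₃ (U := U) χ (hd2 W) = (d₂₃ (ofChar χ)).hom (TG₂ (U := U) χ W) := by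
  rw [TG₃_apply, TG₂_apply, trfG₃_hd2, inhom3_hd2 (ofChar χ) (isEqv2_trfG₂ U χ hχ hW)]

/-- (P2) local transfer commutes with the differential -/
lemma TL₂_hd1 (hχ : ∀ g ∈ U, χ g = 1) (v : ι) {W : ∀ j : D.J v, L.Gv v → L.Gv v → k}
    (hW : ∀ j, IsLInv₁ (D.Uw v j) (W j)) :
    TL₂ χ D v (fun j => hd1 (W j)) = (d₁₂ (L.loc (ofChar χ) v)).hom (TL₁ χ D v W) := by
  rw [TL₂_apply, TL₁_apply, map_sum]
  refine Finset.sum_congr rfl fun j _ => ?_
  rw [trfL₂_hd1, inhom2_hd1 (Rep.res (L.r v) (ofChar χ)) (isEqv1_trfL₁ D χ hχ v j (hW j))]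

/-- (P3) double coset formula: restriction of the global transfer -/
lemma res₂_TG₂ (hχ : ∀ g ∈ U, χ g = 1) (v : ι) {W : G → G → G → k} (hW : IsLInv₂ U W) :
    res₂ L (ofChar χ) v (TG₂ (U := U) χ W)
      = TL₂ χ D v (fun j => pull2 (D.iotaMap v j) W) := by
  classical
  letI : Fintype (G ⧸ U) := Fintype.ofFinite _
  letI : ∀ j, Fintype (L.Gv v ⧸ D.Uw v j) := fun j => Fintype.ofFinite _
  funext ⟨s₁, s₂⟩
  rw [TL₂_apply, Finset.sum_apply]
  set Φ : G → k := fun t => (χ t : k) *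
    W (t⁻¹ * 1) (t⁻¹ * L.r v s₁) (t⁻¹ * (L.r v s₁ * L.r v s₂)) with hΦ
  have hΦinv : ∀ t, ∀ u ∈ U, Φ (t * u) = Φ t := by
    intro t u hu
    simp only [hΦ, map_mul, hχ u hu, mul_one, mul_inv_rev, mul_assoc]
    have := hW u⁻¹ (U.inv_mem hu) t⁻¹ (t⁻¹ * L.r v s₁) (t⁻¹ * (L.r v s₁ * L.r v s₂))
    rw [this]
  have hR : res₂ L (ofChar χ) v (TG₂ (U := U) χ W) (s₁, s₂) = ∑ C : G ⧸ U, Φ (sec U C) := rfl
  have hL : ∀ j : D.J v, inhom2 (Rep.res (L.r v) (ofChar χ))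
      (D.trfL₂ χ v j (pull2 (D.iotaMap v j) W)) (s₁, s₂) =
      ∑ c : L.Gv v ⧸ D.Uw v j, Φ (L.r v (sec (D.Uw v j) c) * D.y v j) := by
    intro j
    show ∑ c : L.Gv v ⧸ D.Uw v j, (χ (L.r v (sec (D.Uw v j) c) * D.y v j) : k) *
        W (D.iotaMap v j ((sec (D.Uw v j) c)⁻¹ * 1))
          (D.iotaMap v j ((sec (D.Uw v j) c)⁻¹ * s₁))
          (D.iotaMap v j ((sec (D.Uw v j) c)⁻¹ * (s₁ * s₂))) = _
    refine Finset.sum_congr rfl fun c _ => ?_
    simp only [hΦ, ShData.iotaMap, map_mul, map_inv, mul_inv_rev, mul_assoc, mul_one]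
  rw [hR, Finset.sum_congr rfl (fun j _ => hL j)]
  exact (sum_doubleCoset D v hΦinv).symm

end TransferMaps


/-! ### cup products with lifted cochains -/

section CupLift

variable (χ : G →* kˣ) [Finite (G ⧸ U)]

/-- pairing `a` with `ρ_B g f` -/
lemma evPairing_rho (g : G) (a : permRep k U) (f : Bp k U χ) :
    (evPairing (permRep k U) χ).φ a ((Bp k U χ).ρ g f)
      = (χ g : k) * (f : Module.Dual k (permRep k U)) ((permRep k U).ρ g⁻¹ a) := by
  show ((Bp k U χ).ρ g f : Module.Dual k (permRep k U)) a = _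
  rw [Rep.dualTwist_ρ_apply]
  rfl

/-- the cup product of `x` with a lifted global `2`-cochain is the transfer of the scalar cup
product -/
lemma cup_liftBG₂ (hχ : ∀ g ∈ U, χ g = 1) (x : G → permRep k U) {F : G → G → G → k}
    (hF : IsLInv₂ U F) (g₁ g₂ g₃ : G) :
    (evPairing (permRep k U) χ).φ (x g₁)
        ((Bp k U χ).ρ g₁ (liftBG₂ (U := U) χ F 1 g₂ (g₂ * g₃)))
      = trfG₃ (U := U) χ (cup12 AddMonoidHom.mul (xt1 x) F) 1 g₁ (g₁ * g₂) (g₁ * g₂ * g₃) := by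
  classical
  letI : Fintype (G ⧸ U) := Fintype.ofFinite _
  rw [evPairing_rho]
  show (χ g₁ : k) * (dualOf χ (coefG₂ (U := U) χ F 1 g₂ (g₂ * g₃)) :
    Module.Dual k (permRep k U)) ((permRep k U).ρ g₁⁻¹ (x g₁)) = _
  rw [dualOf_eq_sum, Finset.mul_sum]
  set Ψ : G → k := fun t => (χ t : k) * (xt1 x (t⁻¹ * 1) (t⁻¹ * g₁) *
    F (t⁻¹ * g₁) (t⁻¹ * (g₁ * g₂)) (t⁻¹ * (g₁ * g₂ * g₃))) with hΨ
  have hΨinv : ∀ t, ∀ u ∈ U, Ψ (t * u) = Ψ t := by
    intro t u hu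
    simp only [hΨ, map_mul, hχ u hu, mul_one, mul_inv_rev, mul_assoc]
    rw [hF u⁻¹ (U.inv_mem hu), isLInv₁_xt1 x u⁻¹ (U.inv_mem hu)]
  have h1 : ∀ c : G ⧸ U, (χ g₁ : k) *
      (MonoidAlgebra.coeff ((permRep k U).ρ g₁⁻¹ (x g₁) : MonoidAlgebra k (G ⧸ U)) c *
        coefG₂ (U := U) χ F 1 g₂ (g₂ * g₃) c) = Ψ (g₁ * sec U c) := by
    intro c
    have e := coeff_rho_inv_x1 x g₁ (sec U c)
    rw [mk_sec] at e
    rw [e]
    simp only [hΨ, coefG₂, map_mul, Units.val_mul, mul_inv_rev, mul_assoc, inv_mul_cancel_left,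
      inv_mul_cancel, mul_one]
    ring
  rw [Finset.sum_congr rfl (fun c _ => h1 c), sum_sec_translate U hΨinv g₁]
  rfl


variable (D : ShData L U)

lemma coefL₁_orbMap (v : ι) (F : ∀ j : D.J v, L.Gv v → L.Gv v → k) (h₀ h₁ : L.Gv v)
    (j : D.J v) (s : L.Gv v ⧸ D.Uw v j) :
    coefL₁ χ D v F h₀ h₁ (orbMap D v ⟨j, s⟩)
      = (χ (L.r v (sec (D.Uw v j) s) * D.y v j) : k) *
          F j ((sec (D.Uw v j) s)⁻¹ * h₀) ((sec (D.Uw v j) s)⁻¹ * h₁) := by
  have := liftBL₁_single χ D v F h₀ h₁ j s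
  rw [← this]
  show _ = (dualOf χ (coefL₁ χ D v F h₀ h₁) : Module.Dual k (permRep k U)) _
  rw [dualOf_single, one_mul]

lemma coefL₀_orbMap (v : ι) (F : ∀ j : D.J v, L.Gv v → k) (h₀ : L.Gv v)
    (j : D.J v) (s : L.Gv v ⧸ D.Uw v j) :
    coefL₀ χ D v F h₀ (orbMap D v ⟨j, s⟩)
      = (χ (L.r v (sec (D.Uw v j) s) * D.y v j) : k) * F j ((sec (D.Uw v j) s)⁻¹ * h₀) := by
  have := liftBL₀_single χ D v F h₀ j s
  rw [← this]
  show _ = (dualOf χ (coefL₀ χ D v F h₀) : Module.Dual k (permRep k U)) _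
  rw [dualOf_single, one_mul]

/-- sums over `G/U` decompose along the orbits of `G_v` (function of the coset) -/
lemma sum_orbMap [Fintype (G ⧸ U)] (v : ι) [∀ j, Fintype (L.Gv v ⧸ D.Uw v j)]
    (φ : G ⧸ U → k) :
    ∑ c : G ⧸ U, φ c = ∑ j : D.J v, ∑ s : L.Gv v ⧸ D.Uw v j, φ (orbMap D v ⟨j, s⟩) := by
  rw [← Fintype.sum_sigma' (fun j s => φ (orbMap D v ⟨j, s⟩))]
  exact (Fintype.sum_equiv (orbEquiv D v) _ _ (fun p => rfl)).symm

lemma iotaMap_mul (v : ι) (j : D.J v) {u : L.Gv v} (hu : u ∈ D.Uw v j) (h : L.Gv v) :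
    D.iotaMap v j (u * h) = ((D.rw v j ⟨u, hu⟩ : ↥U) : G) * D.iotaMap v j h := by
  rw [ShData.coe_rw]
  simp only [ShData.iotaMap, map_mul]
  group

lemma isLInv₁_pull1_iota (v : ι) (j : D.J v) {X : G → G → k} (hX : IsLInv₁ U X) :
    IsLInv₁ (D.Uw v j) (pull1 (D.iotaMap v j) X) := by
  intro u hu a b
  simp only [pull1_apply, iotaMap_mul D v j hu]
  exact hX _ (D.rw v j ⟨u, hu⟩).2 _ _

lemma isLInv₂_pull2_iota (v : ι) (j : D.J v) {X : G → G → G → k} (hX : IsLInv₂ U X) :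
    IsLInv₂ (D.Uw v j) (pull2 (D.iotaMap v j) X) := by
  intro u hu a b c
  simp only [pull2_apply, iotaMap_mul D v j hu]
  exact hX _ (D.rw v j ⟨u, hu⟩).2 _ _ _

/-- the cup product of `x` with a lifted local `1`-cochain is the transfer of the scalar cup
product -/
lemma cup_liftBL₁ (hχ : ∀ g ∈ U, χ g = 1) (x : G → permRep k U) (v : ι)
    {F : ∀ j : D.J v, L.Gv v → L.Gv v → k} (hF : ∀ j, IsLInv₁ (D.Uw v j) (F j))
    (h₁ h₂ : L.Gv v) :
    (evPairing (permRep k U) χ).φ (x (L.r v h₁))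
        ((Bp k U χ).ρ (L.r v h₁) (liftBL₁ χ D v F 1 h₂))
      = ∑ j : D.J v, D.trfL₂ χ v j
          (cup11 AddMonoidHom.mul (pull1 (D.iotaMap v j) (xt1 x)) (F j)) 1 h₁ (h₁ * h₂) := by
  classical
  letI : Fintype (G ⧸ U) := Fintype.ofFinite _
  letI : ∀ j, Fintype (L.Gv v ⧸ D.Uw v j) := fun j => Fintype.ofFinite _
  rw [evPairing_rho]
  show (χ (L.r v h₁) : k) * (dualOf χ (coefL₁ χ D v F 1 h₂) :
    Module.Dual k (permRep k U)) ((permRep k U).ρ (L.r v h₁)⁻¹ (x (L.r v h₁))) = _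
  rw [dualOf_eq_sum, sum_orbMap D v, Finset.mul_sum]
  refine Finset.sum_congr rfl fun j _ => ?_
  rw [Finset.mul_sum]
  set Ψ : L.Gv v → k := fun t => (χ (L.r v t * D.y v j) : k) *
    (xt1 x (D.iotaMap v j (t⁻¹ * 1)) (D.iotaMap v j (t⁻¹ * h₁)) *
      F j (t⁻¹ * h₁) (t⁻¹ * (h₁ * h₂))) with hΨ
  have hΨinv : ∀ t, ∀ u ∈ D.Uw v j, Ψ (t * u) = Ψ t := by
    intro t u hu
    simp only [hΨ, map_mul, χ_r_eq_one D χ hχ v j hu, mul_one, mul_inv_rev, mul_assoc]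
    rw [hF j u⁻¹ ((D.Uw v j).inv_mem hu)]
    have := isLInv₁_pull1_iota D v j (isLInv₁_xt1 x) u⁻¹ ((D.Uw v j).inv_mem hu) t⁻¹ (t⁻¹ * h₁)
    simp only [pull1_apply] at this
    rw [this]
  have h1 : ∀ s : L.Gv v ⧸ D.Uw v j, (χ (L.r v h₁) : k) *
      (MonoidAlgebra.coeff ((permRep k U).ρ (L.r v h₁)⁻¹ (x (L.r v h₁)) :
          MonoidAlgebra k (G ⧸ U)) (orbMap D v ⟨j, s⟩) *
        coefL₁ χ D v F 1 h₂ (orbMap D v ⟨j, s⟩)) = Ψ (h₁ * sec (D.Uw v j) s) := by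
    intro s
    have e := coeff_rho_inv_x1 x (L.r v h₁) (L.r v (sec (D.Uw v j) s) * D.y v j)
    rw [coefL₁_orbMap]
    have e' : MonoidAlgebra.coeff ((permRep k U).ρ (L.r v h₁)⁻¹ (x (L.r v h₁)) :
          MonoidAlgebra k (G ⧸ U)) (orbMap D v ⟨j, s⟩) = _ := e
    rw [e']
    simp only [hΨ, ShData.iotaMap, map_mul, map_inv, Units.val_mul, mul_inv_rev, mul_assoc,
      inv_mul_cancel_left, inv_mul_cancel, mul_one]
    ring
  rw [Finset.sum_congr rfl (fun s _ => h1 s), sum_sec_translate (D.Uw v j) hΨinv h₁]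
  rfl

end CupLift


/-! ### homotopy identities -/

section Alg

/-- global homotopy identity for `pf12` -/
lemma alg12_glob {Γ : Type} (X : Γ → Γ → k) (hX : hd1 X = 0) (F : Γ → Γ → Γ → k)
    (hF : hd2 F = 0) (r : Γ → Γ) :
    cup12 AddMonoidHom.mul X F - cup12 AddMonoidHom.mul (pull1 r X) F
      = - hd2 (cup02 AddMonoidHom.mul (prism1 id r X) F) := by
  funext x₀ x₁ x₂ x₃
  have h1 := congrFun (congrFun (congrFun hX x₀) x₁) (r x₁)
  have h2 := congrFun (congrFun (congrFun hX x₀) (r x₀)) (r x₁)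
  have h3 := congrFun (congrFun (congrFun (congrFun hF x₀) x₁) x₂) x₃
  simp only [hd1_apply, hd2_apply, Pi.zero_apply] at h1 h2 h3
  simp only [Pi.sub_apply, Pi.neg_apply, cup12_apply, cup02_apply, hd2_apply, prism1_apply,
    pull1_apply, AddMonoidHom.mul_apply, id]
  linear_combination F x₁ x₂ x₃ * (h1 - h2) + X x₀ (r x₀) * h3

/-- local homotopy identity for `pf12` -/
lemma alg12_loc {H Γ V : Type} (X : Γ → Γ → k) (hX : hd1 X = 0) (Y : V → V → V → k)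
    (c : V → Γ) (i : H → Γ) (β₀ β₁ : H → V) (ρ : Γ → V) (hβ₁ : ∀ h, β₁ h = ρ (i h))
    (Φ W : H → H → k) (hΦW : Φ = W + prism2 β₀ β₁ Y) (hΦ : hd1 Φ = pull2 β₁ Y) :
    cup11 AddMonoidHom.mul (pull1 i X) Φ
        - cup11 AddMonoidHom.mul (pull1 (fun h => c (β₀ h)) X) W
        + prism3 β₀ β₁ (cup12 AddMonoidHom.mul (pull1 c X) Y)
      = pull2 i (cup02 AddMonoidHom.mul (prism1 id (fun g => c (ρ g)) X) (pull2 ρ Y))
        - hd1 (cup01 AddMonoidHom.mul (prism1 i (fun h => c (β₀ h)) X) Φ) := by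
  funext h₀ h₁ h₂
  have hΦ' := congrFun (congrFun (congrFun hΦ h₀) h₁) h₂
  have hW : ∀ a b, W a b = Φ a b - prism2 β₀ β₁ Y a b := by
    intro a b
    rw [hΦW]
    simp only [Pi.add_apply, add_sub_cancel_right]
  have h1 := congrFun (congrFun (congrFun hX (i h₀)) (i h₁)) (c (β₀ h₁))
  have h2 := congrFun (congrFun (congrFun hX (i h₀)) (c (β₀ h₀))) (c (β₀ h₁))
  have h3 := congrFun (congrFun (congrFun hX (i h₀)) (c (β₀ h₀))) (c (β₁ h₀))
  simp only [hd1_apply, Pi.zero_apply, pull2_apply] at h1 h2 h3 hΦ'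
  simp only [Pi.sub_apply, Pi.add_apply, cup11_apply, cup12_apply, cup02_apply, cup01_apply,
    hd1_apply, prism1_apply, prism3_apply, pull1_apply, pull2_apply, AddMonoidHom.mul_apply, id,
    hW, prism2_apply, ← hβ₁]
  linear_combination Φ h₁ h₂ * (h1 - h2) + X (i h₀) (c (β₀ h₀)) * hΦ'
    + Y (β₁ h₀) (β₁ h₁) (β₁ h₂) * h3

end Alg


end Fermat.Agent.S55.helper62
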