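import Mathlib
import Fermat.Agent.S55.helper62_ShPfTools

/-!
# S55 / SH (helper62): the projection formula `pf12`

For `x ∈ Z¹(G, k[G/U])` and a cone `2`-cocycle `y` of the open subgroup `U` (trivial
coefficients)

  `x ∪ pB₂ y = corCone (shA₁ x ∪ y) + dc₂₃ (E12 x y)`,

with an explicit level-constant cone `2`-cochain `E12 x y`.  Hence `pf12` of
`helper53.ShTransportP` for `s1 := shA₁`, `P2 := pB₂`, `tr' := tr ∘ corCone`.
-/

set_option autoImplicit false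
set_option linter.unusedSectionVars false
set_option linter.unusedVariables false
set_option linter.unusedSimpArgs false
set_option linter.style.longLine false
set_option linter.style.haveILetI false

open groupCohomology

noncomputable section

namespace Fermat.Agent.S55.helper62

open Fermat.Agent.S55 Fermat.Agent.S55.helper35 Fermat.Agent.S55.helper38

variable {k G : Type} [Field k] [Group G] {𝒩 : Levels G} {ι : Type} {L : LocalData G 𝒩 ι}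
  {U : Subgroup G}

/-! ### level constancy -/

section Lev

variable (χ : G →* kˣ) (D : ShData L U) [Finite (G ⧸ U)] (hU : ∃ N ∈ 𝒩.mem, N ≤ U)

/-- level constancy of the global transfer of `e ∪ Ψ` -/
lemma TG₂_cup02_mem (e : G → k) {Ψ : G → G → G → k}
    (hΨ : ∃ N ∈ 𝒩.mem, ∀ a b c : G, ∀ n₁ ∈ N, ∀ n₂ ∈ N, Ψ a (b * n₁) (c * n₂) = Ψ a b c) :
    TG₂ (U := U) χ (cup02 AddMonoidHom.mul e Ψ) ∈ C2 𝒩 (ofChar χ) := by
  classical
  letI : Fintype (G ⧸ U) := Fintype.ofFinite _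
  obtain ⟨N, hN, hΨ⟩ := hΨ
  refine ⟨N, hN, fun g₁ g₂ s₁ hs₁ s₂ hs₂ => ?_⟩
  show ∑ C : G ⧸ U, (χ (sec U C) : k) * (e ((sec U C)⁻¹ * 1) *
      Ψ ((sec U C)⁻¹ * 1) ((sec U C)⁻¹ * (g₁ * s₁)) ((sec U C)⁻¹ * (g₁ * s₁ * (g₂ * s₂)))) =
    ∑ C : G ⧸ U, (χ (sec U C) : k) * (e ((sec U C)⁻¹ * 1) *
      Ψ ((sec U C)⁻¹ * 1) ((sec U C)⁻¹ * g₁) ((sec U C)⁻¹ * (g₁ * g₂)))
  refine Finset.sum_congr rfl fun C _ => ?_
  congr 2
  have e1 : (sec U C)⁻¹ * (g₁ * s₁) = ((sec U C)⁻¹ * g₁) * s₁ := by group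
  have e2 : (sec U C)⁻¹ * (g₁ * s₁ * (g₂ * s₂)) =
      ((sec U C)⁻¹ * (g₁ * g₂)) * (g₂⁻¹ * s₁ * g₂ * s₂) := by group
  have hs : g₂⁻¹ * s₁ * g₂ * s₂ ∈ N := by
    refine N.mul_mem ?_ hs₂
    have := (𝒩.normal N hN).conj_mem s₁ hs₁ g₂⁻¹
    simpa using this
  rw [e1, e2, hΨ _ _ _ _ hs₁ _ hs]

/-- level constancy of the local transfer of `q ∪ Ψ` -/
lemma trfL₁_cup01_mem (v : ι) (j : D.J v) (q : L.Gv v → k) {Ψ : L.Gv v → L.Gv v → k}
    (hΨ : ∃ M ∈ (L.lev v).mem, ∀ a b : L.Gv v, ∀ m ∈ M, Ψ a (b * m) = Ψ a b) :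
    inhom1 (Rep.res (L.r v) (ofChar χ)) (trfL₁ D χ v j (cup01 AddMonoidHom.mul q Ψ))
      ∈ C1 (L.lev v) (L.loc (ofChar χ) v) := by
  classical
  letI : Fintype (L.Gv v ⧸ D.Uw v j) := Fintype.ofFinite _
  obtain ⟨M, hM, hΨ⟩ := hΨ
  refine ⟨M, hM, fun g s hs => ?_⟩
  show ∑ c : L.Gv v ⧸ D.Uw v j, (χ (L.r v (sec (D.Uw v j) c) * D.y v j) : k) *
      (q ((sec (D.Uw v j) c)⁻¹ * 1) *
        Ψ ((sec (D.Uw v j) c)⁻¹ * 1) ((sec (D.Uw v j) c)⁻¹ * (g * s))) =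
    ∑ c : L.Gv v ⧸ D.Uw v j, (χ (L.r v (sec (D.Uw v j) c) * D.y v j) : k) *
      (q ((sec (D.Uw v j) c)⁻¹ * 1) *
        Ψ ((sec (D.Uw v j) c)⁻¹ * 1) ((sec (D.Uw v j) c)⁻¹ * g))
  refine Finset.sum_congr rfl fun c _ => ?_
  congr 2
  rw [← mul_assoc, hΨ _ _ _ hs]

/-- right level invariance of `psiG₂` -/
lemma psiG₂_level {a : ↥U × ↥U → k}
    (ha : a ∈ C2 (restrictLevels 𝒩 U hU) (trivRep k ↥U)) :
    ∃ N ∈ 𝒩.mem, ∀ x₀ x₁ x₂ : G, ∀ n₁ ∈ N, ∀ n₂ ∈ N,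
      psiG₂ a x₀ (x₁ * n₁) (x₂ * n₂) = psiG₂ a x₀ x₁ x₂ := by
  obtain ⟨N', ⟨N, hN, hNU, rfl⟩, ha⟩ := ha
  haveI := 𝒩.normal N hN
  refine ⟨N, hN, fun x₀ x₁ x₂ n₁ hn₁ n₂ hn₂ => ?_⟩
  obtain ⟨m₁, hm₁, h1⟩ := retr_mul_right U N hNU x₁ hn₁
  obtain ⟨m₂, hm₂, h2⟩ := retr_mul_right U N hNU x₂ hn₂
  show homog2 (trivRep k ↥U) a (retr U x₀) (retr U (x₁ * n₁)) (retr U (x₂ * n₂))
    = homog2 (trivRep k ↥U) a (retr U x₀) (retr U x₁) (retr U x₂)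
  rw [h1, h2]
  exact homog2_level (N.subgroupOf U) ha _ _ _ hm₁ hm₂

/-- right level invariance of `psiL₁` -/
lemma psiL₁_level (v : ι) (j : D.J v) {a : ↥U × ↥U → k}
    (ha : a ∈ C2 (restrictLevels 𝒩 U hU) (trivRep k ↥U)) {b : ↥(D.Uw v j) → k}
    (hb : b ∈ C1 ((D.localData hU).lev ⟨v, j⟩) ((D.localData hU).loc (trivRep k ↥U) ⟨v, j⟩)) :
    ∃ M ∈ (L.lev v).mem, ∀ x₀ x₁ : L.Gv v, ∀ m ∈ M,
      psiL₁ D v j a b x₀ (x₁ * m) = psiL₁ D v j a b x₀ x₁ := by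
  obtain ⟨N', ⟨N, hN, hNU, rfl⟩, ha⟩ := ha
  obtain ⟨N'', ⟨M, hM, rfl⟩, hb⟩ := hb
  haveI := 𝒩.normal N hN
  obtain ⟨M', hM', hle, hleU, hr⟩ := exists_local_level D v j hN hNU hM
  haveI := (L.lev v).normal M' hM'
  refine ⟨M', hM', fun x₀ x₁ m hm => ?_⟩
  obtain ⟨m', hm', h1⟩ := retr_mul_right (D.Uw v j) M' hleU x₁ hm
  obtain ⟨n₀, hn₀, h0⟩ := beta0_mul_right D v j hN hleU hr x₁ hm
  obtain ⟨n₁, hn₁, h1'⟩ := beta1_mul_right D v j hN hNU x₁ (hr m hm)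
  show homog1 (trivRep k ↥(D.Uw v j)) b (retr (D.Uw v j) x₀) (retr (D.Uw v j) (x₁ * m))
      + prism2 (D.beta0 v j) (D.beta1 v j) (homog2 (trivRep k ↥U) a) x₀ (x₁ * m)
    = homog1 (trivRep k ↥(D.Uw v j)) b (retr (D.Uw v j) x₀) (retr (D.Uw v j) x₁)
      + prism2 (D.beta0 v j) (D.beta1 v j) (homog2 (trivRep k ↥U) a) x₀ x₁
  congr 1
  · rw [h1]
    refine homog1_level (M.subgroupOf (D.Uw v j)) hb _ _ ?_
    rw [Subgroup.mem_subgroupOf] at hm' ⊢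
    exact hle hm'
  · simp only [prism2_apply]
    rw [h0, h1', homog2_level_last (N.subgroupOf U) ha _ _ _ hn₁,
      homog2_level (N.subgroupOf U) ha _ _ _ hn₀ hn₁]

end Lev


/-! ### component formulas -/

section PF12

variable (χ : G →* kˣ) (D : ShData L U) [Finite (G ⧸ U)] (hU : ∃ N ∈ 𝒩.mem, N ≤ U)

lemma isLInv₁_psiL₁ (v : ι) (j : D.J v) (z : ↥U × ↥U → k) (b : ↥(D.Uw v j) → k) :
    IsLInv₁ (D.Uw v j) (psiL₁ D v j z b) := by
  intro u hu a c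
  have h1 := isLInv₁_pull1_retr D v j b u hu a c
  have h2 := isLInv₁_prism2 D v j z u hu a c
  show pull1 (retr (D.Uw v j)) (homog1 (trivRep k ↥(D.Uw v j)) b) (u * a) (u * c)
      + prism2 (D.beta0 v j) (D.beta1 v j) (homog2 (trivRep k ↥U) z) (u * a) (u * c)
    = pull1 (retr (D.Uw v j)) (homog1 (trivRep k ↥(D.Uw v j)) b) a c
      + prism2 (D.beta0 v j) (D.beta1 v j) (homog2 (trivRep k ↥U) z) a c
  rw [h1, h2]

/-- cup side, global component -/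
lemma cupc₁₂_pB₂_fst (hχ : ∀ g ∈ U, χ g = 1) (x : G → permRep k U)
    (y : CcAmb2 (D.localData hU) (trivRep k ↥U)) :
    (cupc₁₂ L (evPairing (permRep k U) χ) x (pB₂ χ D hU y)).1
      = TG₃ (U := U) χ (cup12 AddMonoidHom.mul (xt1 x) (psiG₂ y.1)) := by
  funext ⟨g₁, g₂, g₃⟩
  exact cup_liftBG₂ χ hχ x (isLInv₂_pull2_retr y.1) g₁ g₂ g₃

/-- cup side, local components -/
lemma cupc₁₂_pB₂_snd (hχ : ∀ g ∈ U, χ g = 1) (x : G → permRep k U)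
    (y : CcAmb2 (D.localData hU) (trivRep k ↥U)) (v : ι) :
    (cupc₁₂ L (evPairing (permRep k U) χ) x (pB₂ χ D hU y)).2 v
      = - TL₂ χ D v (fun j => cup11 AddMonoidHom.mul (pull1 (D.iotaMap v j) (xt1 x))
          (psiL₁ D v j y.1 (y.2 ⟨v, j⟩))) := by
  funext ⟨h₁, h₂⟩
  rw [Pi.neg_apply, TL₂_apply, Finset.sum_apply]
  have := cup_liftBL₁ χ D hχ x v (F := fun j => psiL₁ D v j y.1 (y.2 ⟨v, j⟩))
    (fun j => isLInv₁_psiL₁ D v j y.1 (y.2 ⟨v, j⟩)) h₁ h₂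
  exact congrArg Neg.neg this

/-- corestriction, global component -/
lemma corCone_fst_eq (z : CcAmb3 (D.localData hU) (trivRep k ↥U)) :
    (D.corCone χ hU z).1 = TG₃ (U := U) χ (pull3 (retr U) (homog3 (trivRep k ↥U) z.1)) := rfl

/-- corestriction, local components -/
lemma corCone_snd_eq (z : CcAmb3 (D.localData hU) (trivRep k ↥U)) (v : ι) :
    (D.corCone χ hU z).2 v
      = TL₂ χ D v (fun j => pull2 (retr (D.Uw v j)) (homog2 (trivRep k ↥(D.Uw v j)) (z.2 ⟨v, j⟩))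
          + prism3 (D.beta0 v j) (D.beta1 v j) (homog3 (trivRep k ↥U) z.1)) := by
  have h := map_add (TL₂ χ D v)
    (fun j => pull2 (retr (D.Uw v j)) (homog2 (trivRep k ↥(D.Uw v j)) (z.2 ⟨v, j⟩)))
    (fun j => prism3 (D.beta0 v j) (D.beta1 v j) (homog3 (trivRep k ↥U) z.1))
  refine Eq.trans ?_ h.symm
  rw [TL₂_apply, TL₂_apply, ← Finset.sum_add_distrib]
  rfl

/-- `homog3` of the global component of `shA₁ x ∪ y` -/
lemma homog3_cupc₁₂_fst (x : G → permRep k U) (y : CcAmb2 (D.localData hU) (trivRep k ↥U)) :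
    homog3 (trivRep k ↥U)
        (cupc₁₂ (D.localData hU) (mulPairing k ↥U) (shA₁ k U x) y).1
      = cup12 AddMonoidHom.mul (pull1 (fun u : ↥U => (u : G)) (xt1 x))
          (homog2 (trivRep k ↥U) y.1) := by
  rw [← homog1_shA₁]
  rfl

/-- `homog2` of the local components of `shA₁ x ∪ y` -/
lemma homog2_cupc₁₂_snd (x : G → permRep k U) (y : CcAmb2 (D.localData hU) (trivRep k ↥U))
    (v : ι) (j : D.J v) :
    homog2 (trivRep k ↥(D.Uw v j))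
        ((cupc₁₂ (D.localData hU) (mulPairing k ↥U) (shA₁ k U x) y).2 ⟨v, j⟩)
      = - cup11 AddMonoidHom.mul (pull1 (fun t : ↥(D.Uw v j) => ((D.rw v j t : ↥U) : G)) (xt1 x))
          (homog1 (trivRep k ↥(D.Uw v j)) (y.2 ⟨v, j⟩)) := by
  have e : pull1 (fun t : ↥(D.Uw v j) => ((D.rw v j t : ↥U) : G)) (xt1 x)
      = pull1 (D.rw v j) (homog1 (trivRep k ↥U) (shA₁ k U x)) := by
    rw [homog1_shA₁]
    rfl
  rw [e]
  funext t₀ t₁ t₂
  show - (shA₁ k U x (D.rw v j (t₀⁻¹ * t₁)) * y.2 ⟨v, j⟩ (t₁⁻¹ * t₂))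
    = - (shA₁ k U x ((D.rw v j t₀)⁻¹ * D.rw v j t₁) * y.2 ⟨v, j⟩ (t₁⁻¹ * t₂))
  rw [map_mul, map_inv]


/-! ### the correcting cochain and the main identity -/

/-- the cone `2`-cochain whose coboundary is `x ∪ pB₂ y - corCone (shA₁ x ∪ y)` -/
def E12 (x : G → permRep k U) (y : CcAmb2 (D.localData hU) (trivRep k ↥U)) :
    CcAmb2 L (ofChar χ) :=
  (- TG₂ (U := U) χ (cup02 AddMonoidHom.mul
      (prism1 id (fun g => ((retr U g : ↥U) : G)) (xt1 x)) (psiG₂ y.1)),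
   fun v => - TL₁ χ D v (fun j => cup01 AddMonoidHom.mul
      (prism1 (D.iotaMap v j) (fun h => ((D.beta0 v j h : ↥U) : G)) (xt1 x))
      (psiL₁ D v j y.1 (y.2 ⟨v, j⟩))))

lemma isLInv₂_cup02_e (x : G → permRep k U) (a : ↥U × ↥U → k) :
    IsLInv₂ U (cup02 AddMonoidHom.mul
      (prism1 id (fun g => ((retr U g : ↥U) : G)) (xt1 x)) (psiG₂ a)) := by
  intro u hu x₀ x₁ x₂
  have h1 := isLInv₂_pull2_retr (k := k) a u hu x₀ x₁ x₂
  have h2 : xt1 x (u * x₀) ((retr U (u * x₀) : ↥U) : G) = xt1 x x₀ ((retr U x₀ : ↥U) : G) := by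
    have := retr_mul U ⟨u, hu⟩ x₀
    rw [show ((⟨u, hu⟩ : ↥U) : G) = u from rfl] at this
    rw [this]
    exact isLInv₁_xt1 x u hu _ _
  show xt1 x (u * x₀) ((retr U (u * x₀) : ↥U) : G) * psiG₂ a (u * x₀) (u * x₁) (u * x₂)
    = xt1 x x₀ ((retr U x₀ : ↥U) : G) * psiG₂ a x₀ x₁ x₂
  rw [h2]
  exact congrArg _ h1

lemma isLInv₁_cup01_q (x : G → permRep k U) (v : ι) (j : D.J v) (a : ↥U × ↥U → k)
    (b : ↥(D.Uw v j) → k) :
    IsLInv₁ (D.Uw v j) (cup01 AddMonoidHom.mul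
      (prism1 (D.iotaMap v j) (fun h => ((D.beta0 v j h : ↥U) : G)) (xt1 x))
      (psiL₁ D v j a b)) := by
  intro u hu x₀ x₁
  have h1 := isLInv₁_psiL₁ D v j a b u hu x₀ x₁
  have h2 : xt1 x (D.iotaMap v j (u * x₀)) ((D.beta0 v j (u * x₀) : ↥U) : G)
      = xt1 x (D.iotaMap v j x₀) ((D.beta0 v j x₀ : ↥U) : G) := by
    rw [iotaMap_mul D v j hu, beta0_mul D v j hu, Subgroup.coe_mul]
    exact isLInv₁_xt1 x _ (D.rw v j ⟨u, hu⟩).2 _ _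
  show xt1 x (D.iotaMap v j (u * x₀)) ((D.beta0 v j (u * x₀) : ↥U) : G)
      * psiL₁ D v j a b (u * x₀) (u * x₁)
    = xt1 x (D.iotaMap v j x₀) ((D.beta0 v j x₀ : ↥U) : G) * psiL₁ D v j a b x₀ x₁
  rw [h2]
  exact congrArg _ h1

/-- `E12 x y` is level-constant -/
theorem E12_mem_Cc2 (x : G → permRep k U) {y : CcAmb2 (D.localData hU) (trivRep k ↥U)}
    (hy : y ∈ Cc2 (D.localData hU) (trivRep k ↥U)) :
    E12 χ D hU x y ∈ Cc2 L (ofChar χ) := by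
  obtain ⟨h1, h2⟩ := hy
  refine ⟨?_, fun v _ => ?_⟩
  · exact Submodule.neg_mem _ (TG₂_cup02_mem χ _ (psiG₂_level hU h1))
  · refine Submodule.neg_mem _ ?_
    show TL₁ χ D v _ ∈ C1 (L.lev v) (L.loc (ofChar χ) v)
    rw [TL₁_apply]
    refine Submodule.sum_mem _ fun j _ => ?_
    exact trfL₁_cup01_mem χ D v j _ (psiL₁_level D hU v j h1 (h2 ⟨v, j⟩ (Set.mem_univ _)))

/-- the cocycle condition for `psiL₁` -/
lemma hd1_psiL₁ {y : CcAmb2 (D.localData hU) (trivRep k ↥U)}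
    (hy : dc₂₃ (D.localData hU) (trivRep k ↥U) y = 0) (v : ι) (j : D.J v) :
    hd1 (psiL₁ D v j y.1 (y.2 ⟨v, j⟩))
      = pull2 (D.beta1 v j) (homog2 (trivRep k ↥U) y.1) := by
  have hy1 : (d₂₃ (trivRep k ↥U)).hom y.1 = 0 := congrArg Prod.fst hy
  have hy2 : res₂ (D.localData hU) (trivRep k ↥U) ⟨v, j⟩ y.1
      - (d₁₂ ((D.localData hU).loc (trivRep k ↥U) ⟨v, j⟩)).hom (y.2 ⟨v, j⟩) = 0 :=
    congrFun (congrArg Prod.snd hy) ⟨v, j⟩
  have hy2' : (d₁₂ (trivRep k ↥(D.Uw v j))).hom (y.2 ⟨v, j⟩)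
      = res₂ (D.localData hU) (trivRep k ↥U) ⟨v, j⟩ y.1 := (sub_eq_zero.1 hy2).symm
  have hY : hd2 (homog2 (trivRep k ↥U) y.1) = 0 := by
    rw [hd2_homog2, hy1, h62_homog3_zero]
  have e1 : hd1 (pull1 (retr (D.Uw v j)) (homog1 (trivRep k ↥(D.Uw v j)) (y.2 ⟨v, j⟩)))
      = pull2 (D.beta0 v j) (homog2 (trivRep k ↥U) y.1) := by
    rw [hd1_pull1, hd1_homog1, hy2', pull2_beta0 D hU]
  have e2 := pull2_sub_pull2_of_cocycle (D.beta0 v j) (D.beta1 v j)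
    (homog2 (trivRep k ↥U) y.1) hY
  show hd1 (pull1 (retr (D.Uw v j)) (homog1 (trivRep k ↥(D.Uw v j)) (y.2 ⟨v, j⟩))
    + prism2 (D.beta0 v j) (D.beta1 v j) (homog2 (trivRep k ↥U) y.1)) = _
  rw [hd1_add, e1, ← e2]
  abel

/-- **The projection formula in bidegree `(1,2)`, cochain level.** -/
theorem cupc₁₂_pB₂_eq (hχ : ∀ g ∈ U, χ g = 1) {x : G → permRep k U}
    (hx : (d₁₂ (permRep k U)).hom x = 0) {y : CcAmb2 (D.localData hU) (trivRep k ↥U)}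
    (hy : dc₂₃ (D.localData hU) (trivRep k ↥U) y = 0) :
    cupc₁₂ L (evPairing (permRep k U) χ) x (pB₂ χ D hU y)
      = D.corCone χ hU (cupc₁₂ (D.localData hU) (mulPairing k ↥U) (shA₁ k U x) y)
        + dc₂₃ L (ofChar χ) (E12 χ D hU x y) := by
  have hX := hd1_xt1 hx
  have hy1 : (d₂₃ (trivRep k ↥U)).hom y.1 = 0 := congrArg Prod.fst hy
  have hY : hd2 (homog2 (trivRep k ↥U) y.1) = 0 := by
    rw [hd2_homog2, hy1, h62_homog3_zero]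
  have hF : hd2 (psiG₂ y.1) = 0 := by
    show hd2 (pull2 (retr U) (homog2 (trivRep k ↥U) y.1)) = 0
    rw [hd2_pull2, hY]
    rfl
  refine Prod.ext ?_ ?_
  · -- global component
    show (cupc₁₂ L (evPairing (permRep k U) χ) x (pB₂ χ D hU y)).1
      = (D.corCone χ hU (cupc₁₂ (D.localData hU) (mulPairing k ↥U) (shA₁ k U x) y)).1
        + (d₂₃ (ofChar χ)).hom (E12 χ D hU x y).1
    rw [cupc₁₂_pB₂_fst χ D hU hχ, corCone_fst_eq, homog3_cupc₁₂_fst]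
    have hg := alg12_glob (xt1 x) hX (psiG₂ y.1) hF (fun g => ((retr U g : ↥U) : G))
    have e1 : pull3 (retr U) (cup12 AddMonoidHom.mul (pull1 (fun u : ↥U => (u : G)) (xt1 x))
        (homog2 (trivRep k ↥U) y.1))
        = cup12 AddMonoidHom.mul (pull1 (fun g => ((retr U g : ↥U) : G)) (xt1 x)) (psiG₂ y.1) :=
      rfl
    have e2 : (d₂₃ (ofChar χ)).hom (E12 χ D hU x y).1
        = - TG₃ (U := U) χ (hd2 (cup02 AddMonoidHom.mul
            (prism1 id (fun g => ((retr U g : ↥U) : G)) (xt1 x)) (psiG₂ y.1))) := by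
      rw [TG₃_hd2 χ hχ (isLInv₂_cup02_e x y.1)]
      show (d₂₃ (ofChar χ)).hom (- _) = _
      rw [map_neg]
    rw [e1, e2, ← map_neg, ← hg, map_sub]
    abel
  · -- local components
    funext v
    show (cupc₁₂ L (evPairing (permRep k U) χ) x (pB₂ χ D hU y)).2 v
      = (D.corCone χ hU (cupc₁₂ (D.localData hU) (mulPairing k ↥U) (shA₁ k U x) y)).2 v
        + (res₂ L (ofChar χ) v (E12 χ D hU x y).1
          - (d₁₂ (L.loc (ofChar χ) v)).hom ((E12 χ D hU x y).2 v))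
    rw [cupc₁₂_pB₂_snd χ D hU hχ, corCone_snd_eq]
    have e1 : res₂ L (ofChar χ) v (E12 χ D hU x y).1
        = - TL₂ χ D v (fun j => pull2 (D.iotaMap v j) (cup02 AddMonoidHom.mul
            (prism1 id (fun g => ((retr U g : ↥U) : G)) (xt1 x)) (psiG₂ y.1))) := by
      rw [← res₂_TG₂ χ D hχ v (isLInv₂_cup02_e x y.1)]
      show res₂ L (ofChar χ) v (- _) = _
      rw [map_neg]
    have e2 : (d₁₂ (L.loc (ofChar χ) v)).hom ((E12 χ D hU x y).2 v)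
        = - TL₂ χ D v (fun j => hd1 (cup01 AddMonoidHom.mul
            (prism1 (D.iotaMap v j) (fun h => ((D.beta0 v j h : ↥U) : G)) (xt1 x))
            (psiL₁ D v j y.1 (y.2 ⟨v, j⟩)))) := by
      rw [TL₂_hd1 χ D hχ v (fun j => isLInv₁_cup01_q D x v j y.1 (y.2 ⟨v, j⟩))]
      show (d₁₂ (L.loc (ofChar χ) v)).hom (- _) = _
      rw [map_neg]
    have key : (fun j => pull2 (retr (D.Uw v j)) (homog2 (trivRep k ↥(D.Uw v j))
          ((cupc₁₂ (D.localData hU) (mulPairing k ↥U) (shA₁ k U x) y).2 ⟨v, j⟩))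
          + prism3 (D.beta0 v j) (D.beta1 v j) (homog3 (trivRep k ↥U)
            (cupc₁₂ (D.localData hU) (mulPairing k ↥U) (shA₁ k U x) y).1))
        = (fun j => pull2 (D.iotaMap v j) (cup02 AddMonoidHom.mul
            (prism1 id (fun g => ((retr U g : ↥U) : G)) (xt1 x)) (psiG₂ y.1)))
          - (fun j => hd1 (cup01 AddMonoidHom.mul
            (prism1 (D.iotaMap v j) (fun h => ((D.beta0 v j h : ↥U) : G)) (xt1 x))
            (psiL₁ D v j y.1 (y.2 ⟨v, j⟩))))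
          - (fun j => cup11 AddMonoidHom.mul (pull1 (D.iotaMap v j) (xt1 x))
            (psiL₁ D v j y.1 (y.2 ⟨v, j⟩))) := by
      funext j
      have ha := alg12_loc (xt1 x) hX (homog2 (trivRep k ↥U) y.1) (fun u : ↥U => (u : G))
        (D.iotaMap v j) (D.beta0 v j) (D.beta1 v j) (retr U) (fun h => rfl)
        (psiL₁ D v j y.1 (y.2 ⟨v, j⟩))
        (pull1 (retr (D.Uw v j)) (homog1 (trivRep k ↥(D.Uw v j)) (y.2 ⟨v, j⟩))) rfl
        (hd1_psiL₁ D hU hy v j)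
      rw [homog3_cupc₁₂_fst, homog2_cupc₁₂_snd]
      have e3 : pull2 (retr (D.Uw v j))
          (- cup11 AddMonoidHom.mul
            (pull1 (fun t : ↥(D.Uw v j) => ((D.rw v j t : ↥U) : G)) (xt1 x))
            (homog1 (trivRep k ↥(D.Uw v j)) (y.2 ⟨v, j⟩)))
          = - cup11 AddMonoidHom.mul (pull1 (fun h => ((D.beta0 v j h : ↥U) : G)) (xt1 x))
            (pull1 (retr (D.Uw v j)) (homog1 (trivRep k ↥(D.Uw v j)) (y.2 ⟨v, j⟩))) := rfl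
      rw [e3]
      simp only [Pi.sub_apply]
      refine Eq.trans ?_ (congrArg (fun t => t - cup11 AddMonoidHom.mul
        (pull1 (D.iotaMap v j) (xt1 x)) (psiL₁ D v j y.1 (y.2 ⟨v, j⟩))) ha)
      show _ = _ - _ + _ - _
      abel
    rw [key, e1, e2, map_sub, map_sub]
    abel

/-- **Projection formula `pf12`** of `helper53.ShTransportP` (with `s1 := shA₁ k U`,
`P2 := pB₂ χ D hU`, `tr' := tr ∘ₗ D.corCone χ hU`). -/
theorem pf12 (tr : CcAmb3 L (ofChar χ) →ₗ[k] k) (htr : ∀ c ∈ Bc3 L (ofChar χ), tr c = 0)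
    (hχ : ∀ g ∈ U, χ g = 1) {x : G → permRep k U} (hx : x ∈ Z1 𝒩 (permRep k U))
    {y : CcAmb2 (D.localData hU) (trivRep k ↥U)}
    (hy : y ∈ Zc2 (D.localData hU) (trivRep k ↥U)) :
    tr (cupc₁₂ L (evPairing (permRep k U) χ) x (pB₂ χ D hU y))
      = (tr ∘ₗ D.corCone χ hU)
          (cupc₁₂ (D.localData hU) (mulPairing k ↥U) (shA₁ k U x) y) := by
  obtain ⟨-, hx2⟩ := hx
  obtain ⟨hy1, hy2⟩ := hy
  have hx' : (d₁₂ (permRep k U)).hom x = 0 := hx2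
  have hy' : dc₂₃ (D.localData hU) (trivRep k ↥U) y = 0 := hy2
  rw [cupc₁₂_pB₂_eq χ D hU hχ hx' hy', map_add, LinearMap.comp_apply,
    htr _ ⟨E12 χ D hU x y, E12_mem_Cc2 χ D hU x hy1, rfl⟩, add_zero]

end PF12

end Fermat.Agent.S55.helper62
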