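import Mathlib
import Fermat.Agent.S55.helper62_ShPf12

/-!
# S55 / SH (helper62): the projection formula `pf21`

For `x ∈ Z²(G, k[G/U])` and a cone `1`-cocycle `y` of the open subgroup `U` (trivial
coefficients)

  `x ∪ pB₁ y = corCone (shA₂ x ∪ y) + dc₂₃ (E21 x y)`,

with an explicit level-constant cone `2`-cochain `E21 x y`.  Hence `pf21` of
`helper53.ShTransportP` for `s2 := shA₂`, `P1 := pB₁`, `tr' := tr ∘ corCone`.
-/

set_option autoImplicit false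
set_option linter.unusedSectionVars false
set_option linter.unusedVariables false
set_option linter.unusedSimpArgs false
set_option linter.style.longLine false
set_option linter.style.haveILetI false

open groupCohomology

noncomputable section

namespace Fermat.Agent.S55.helper62

open Fermat.Agent.S55 Fermat.Agent.S55.helper35 Fermat.Agent.S55.helper38

variable {k G : Type} [Field k] [Group G] {𝒩 : Levels G} {ι : Type} {L : LocalData G 𝒩 ι}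
  {U : Subgroup G}

section Tools21

lemma hd2_xt2 {x : G × G → permRep k U} (hx : (d₂₃ (permRep k U)).hom x = 0) :
    hd2 (xt2 x) = 0 := by
  have h := hd2_homog2 (permRep k U) x
  rw [hx, h62_homog3_zero] at h
  funext a b c d
  have h' := congrFun (congrFun (congrFun (congrFun h a) b) c) d
  simp only [hd2_apply, Pi.zero_apply] at h'
  simp only [hd2_apply, xt2, sc2_apply, Pi.zero_apply, ← map_sub, ← map_add, h', map_zero]

variable (χ : G →* kˣ) [Finite (G ⧸ U)]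

/-- the cup product of a `2`-cochain `x` with a lifted global `1`-cochain -/
lemma cup_liftBG₁ (hχ : ∀ g ∈ U, χ g = 1) (x : G × G → permRep k U) {F : G → G → k}
    (hF : IsLInv₁ U F) (g₁ g₂ g₃ : G) :
    (evPairing (permRep k U) χ).φ (x (g₁, g₂))
        ((Bp k U χ).ρ (g₁ * g₂) (liftBG₁ (U := U) χ F 1 g₃))
      = trfG₃ (U := U) χ (cup21 AddMonoidHom.mul (xt2 x) F) 1 g₁ (g₁ * g₂) (g₁ * g₂ * g₃) := by
  classical
  letI : Fintype (G ⧸ U) := Fintype.ofFinite _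
  rw [evPairing_rho]
  show (χ (g₁ * g₂) : k) * (dualOf χ (coefG₁ (U := U) χ F 1 g₃) :
    Module.Dual k (permRep k U)) ((permRep k U).ρ (g₁ * g₂)⁻¹ (x (g₁, g₂))) = _
  rw [dualOf_eq_sum, Finset.mul_sum]
  set Ψ : G → k := fun t => (χ t : k) * (xt2 x (t⁻¹ * 1) (t⁻¹ * g₁) (t⁻¹ * (g₁ * g₂)) *
    F (t⁻¹ * (g₁ * g₂)) (t⁻¹ * (g₁ * g₂ * g₃))) with hΨ
  have hΨinv : ∀ t, ∀ u ∈ U, Ψ (t * u) = Ψ t := by
    intro t u hu
    simp only [hΨ, map_mul, hχ u hu, mul_one, mul_inv_rev, mul_assoc]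
    rw [hF u⁻¹ (U.inv_mem hu), isLInv₂_xt2 x u⁻¹ (U.inv_mem hu)]
  have h1 : ∀ c : G ⧸ U, (χ (g₁ * g₂) : k) *
      (MonoidAlgebra.coeff ((permRep k U).ρ (g₁ * g₂)⁻¹ (x (g₁, g₂)) :
          MonoidAlgebra k (G ⧸ U)) c *
        coefG₁ (U := U) χ F 1 g₃ c) = Ψ (g₁ * g₂ * sec U c) := by
    intro c
    have e := coeff_rho_inv_x2 x g₁ g₂ (sec U c)
    rw [mk_sec] at e
    rw [e]
    simp only [hΨ, coefG₁, map_mul, Units.val_mul, mul_inv_rev, mul_assoc, inv_mul_cancel_left,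
      inv_mul_cancel, mul_one]
    ring
  rw [Finset.sum_congr rfl (fun c _ => h1 c), sum_sec_translate U hΨinv (g₁ * g₂)]
  rfl

variable (D : ShData L U)

/-- the cup product of a `2`-cochain `x` with a lifted local `0`-cochain -/
lemma cup_liftBL₀ (hχ : ∀ g ∈ U, χ g = 1) (x : G × G → permRep k U) (v : ι)
    {F : ∀ j : D.J v, L.Gv v → k} (hF : ∀ j, ∀ u ∈ D.Uw v j, ∀ a, F j (u * a) = F j a)
    (h₁ h₂ : L.Gv v) :
    (evPairing (permRep k U) χ).φ (x (L.r v h₁, L.r v h₂))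
        ((Bp k U χ).ρ (L.r v h₁ * L.r v h₂) (liftBL₀ χ D v F 1))
      = ∑ j : D.J v, D.trfL₂ χ v j
          (cup20 AddMonoidHom.mul (pull2 (D.iotaMap v j) (xt2 x)) (F j)) 1 h₁ (h₁ * h₂) := by
  classical
  letI : Fintype (G ⧸ U) := Fintype.ofFinite _
  letI : ∀ j, Fintype (L.Gv v ⧸ D.Uw v j) := fun j => Fintype.ofFinite _
  rw [evPairing_rho]
  show (χ (L.r v h₁ * L.r v h₂) : k) * (dualOf χ (coefL₀ χ D v F 1) :
    Module.Dual k (permRep k U))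
      ((permRep k U).ρ (L.r v h₁ * L.r v h₂)⁻¹ (x (L.r v h₁, L.r v h₂))) = _
  rw [dualOf_eq_sum, sum_orbMap D v, Finset.mul_sum]
  refine Finset.sum_congr rfl fun j _ => ?_
  rw [Finset.mul_sum]
  set Ψ : L.Gv v → k := fun t => (χ (L.r v t * D.y v j) : k) *
    (xt2 x (D.iotaMap v j (t⁻¹ * 1)) (D.iotaMap v j (t⁻¹ * h₁))
        (D.iotaMap v j (t⁻¹ * (h₁ * h₂))) *
      F j (t⁻¹ * (h₁ * h₂))) with hΨ
  have hΨinv : ∀ t, ∀ u ∈ D.Uw v j, Ψ (t * u) = Ψ t := by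
    intro t u hu
    simp only [hΨ, map_mul, χ_r_eq_one D χ hχ v j hu, mul_one, mul_inv_rev, mul_assoc]
    rw [hF j u⁻¹ ((D.Uw v j).inv_mem hu)]
    have := isLInv₂_pull2_iota D v j (isLInv₂_xt2 x) u⁻¹ ((D.Uw v j).inv_mem hu) t⁻¹
      (t⁻¹ * h₁) (t⁻¹ * (h₁ * h₂))
    simp only [pull2_apply] at this
    rw [this]
  have h1 : ∀ s : L.Gv v ⧸ D.Uw v j, (χ (L.r v h₁ * L.r v h₂) : k) *
      (MonoidAlgebra.coeff ((permRep k U).ρ (L.r v h₁ * L.r v h₂)⁻¹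
          (x (L.r v h₁, L.r v h₂)) : MonoidAlgebra k (G ⧸ U)) (orbMap D v ⟨j, s⟩) *
        coefL₀ χ D v F 1 (orbMap D v ⟨j, s⟩)) = Ψ (h₁ * h₂ * sec (D.Uw v j) s) := by
    intro s
    have e := coeff_rho_inv_x2 x (L.r v h₁) (L.r v h₂) (L.r v (sec (D.Uw v j) s) * D.y v j)
    rw [coefL₀_orbMap]
    have e' : MonoidAlgebra.coeff ((permRep k U).ρ (L.r v h₁ * L.r v h₂)⁻¹
          (x (L.r v h₁, L.r v h₂)) : MonoidAlgebra k (G ⧸ U)) (orbMap D v ⟨j, s⟩) = _ := e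
    rw [e']
    simp only [hΨ, ShData.iotaMap, map_mul, map_inv, Units.val_mul, mul_inv_rev, mul_assoc,
      inv_mul_cancel_left, inv_mul_cancel, mul_one]
    ring
  rw [Finset.sum_congr rfl (fun s _ => h1 s), sum_sec_translate (D.Uw v j) hΨinv (h₁ * h₂)]
  rfl

end Tools21

section Alg21

/-- global homotopy identity for `pf21` -/
lemma alg21_glob {Γ : Type} (X : Γ → Γ → Γ → k) (hX : hd2 X = 0) (F : Γ → Γ → k)
    (hF : hd1 F = 0) (r : Γ → Γ) :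
    cup21 AddMonoidHom.mul X F - cup21 AddMonoidHom.mul (pull2 r X) F
      = - hd2 (cup11 AddMonoidHom.mul (prism2 id r X) F) := by
  funext x₀ x₁ x₂ x₃
  have hP := congrFun (congrFun (congrFun (pull2_sub_pull2_of_cocycle id r X hX) x₀) x₁) x₂
  have h3 := congrFun (congrFun (congrFun hF x₁) x₂) x₃
  have h4 := congrFun (congrFun (congrFun hF x₀) x₂) x₃
  have h5 := congrFun (congrFun (congrFun hF x₀) x₁) x₃
  have h6 := congrFun (congrFun (congrFun hF x₀) x₁) x₂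
  simp only [hd1_apply, hd2_apply, Pi.zero_apply, Pi.sub_apply, pull2_apply, id] at hP h3 h4 h5 h6
  simp only [Pi.sub_apply, Pi.neg_apply, cup21_apply, cup11_apply, hd2_apply,
    pull2_apply, AddMonoidHom.mul_apply, id]
  linear_combination (-F x₂ x₃) * hP - prism2 id r X x₀ x₁ * h3

end Alg21


/-! ### homotopy identities -/

section Alg21b

/-- second-order prism identity on `2`-cocycles -/
lemma prism2_triangle {H Γ : Type} (X : Γ → Γ → Γ → k) (hX : hd2 X = 0) (a b c : H → Γ) :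
    prism2 a c X - prism2 a b X - prism2 b c X = hd0 (fun h => X (a h) (b h) (c h)) := by
  funext h₀ h₁
  have h1 := congrFun (congrFun (congrFun (congrFun hX (a h₀)) (b h₀)) (c h₀)) (c h₁)
  have h2 := congrFun (congrFun (congrFun (congrFun hX (a h₀)) (b h₀)) (b h₁)) (c h₁)
  have h3 := congrFun (congrFun (congrFun (congrFun hX (a h₀)) (a h₁)) (b h₁)) (c h₁)
  simp only [hd2_apply, Pi.zero_apply] at h1 h2 h3
  simp only [Pi.sub_apply, prism2_apply, hd0_apply]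
  linear_combination -h1 + h2 - h3

/-- local homotopy identity for `pf21` -/
lemma alg21_loc {H Γ V : Type} (X : Γ → Γ → Γ → k) (hX : hd2 X = 0) (Y : V → V → k)
    (hY : hd1 Y = 0) (c : V → Γ) (i : H → Γ) (β₀ β₁ : H → V) (ρ : Γ → V)
    (hβ₁ : ∀ h, β₁ h = ρ (i h))
    (Φ W : H → k) (hΦW : Φ = W + prism1 β₀ β₁ Y) (hΦ : hd0 Φ = pull1 β₁ Y) :
    cup20 AddMonoidHom.mul (pull2 i X) Φ
        - cup20 AddMonoidHom.mul (pull2 (fun h => c (β₀ h)) X) W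
        - prism3 β₀ β₁ (cup21 AddMonoidHom.mul (pull2 c X) Y)
      = - pull2 i (cup11 AddMonoidHom.mul (prism2 id (fun g => c (ρ g)) X) (pull1 ρ Y))
        + hd1 (cup01 AddMonoidHom.mul (fun h => X (i h) (c (β₀ h)) (c (β₁ h))) (pull1 β₁ Y)
            - cup10 AddMonoidHom.mul (prism2 i (fun h => c (β₀ h)) X) Φ) := by
  funext h₀ h₁ h₂
  have hQ := congrFun (congrFun (congrFun
    (pull2_sub_pull2_of_cocycle i (fun h => c (β₀ h)) X hX) h₀) h₁) h₂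
  have hT := congrFun (congrFun
    (prism2_triangle X hX i (fun h => c (β₀ h)) (fun h => c (β₁ h))) h₀) h₁
  have hΦ' := congrFun (congrFun hΦ h₁) h₂
  have hY' := congrFun (congrFun (congrFun hY (β₁ h₀)) (β₁ h₁)) (β₁ h₂)
  have hW : ∀ a, W a = Φ a - Y (β₀ a) (β₁ a) := by
    intro a
    rw [hΦW]
    simp only [Pi.add_apply, prism1_apply, add_sub_cancel_right]
  simp only [hd0_apply, hd1_apply, Pi.zero_apply, Pi.sub_apply, pull2_apply, pull1_apply,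
    prism2_apply] at hQ hT hΦ' hY'
  simp only [Pi.sub_apply, Pi.add_apply, Pi.neg_apply, cup20_apply, cup21_apply, cup11_apply,
    cup01_apply, cup10_apply, hd1_apply, prism3_apply, prism2_apply, pull1_apply, pull2_apply,
    AddMonoidHom.mul_apply, id, hW, ← hβ₁]
  linear_combination (-Φ h₂) * hQ + Y (β₁ h₁) (β₁ h₂) * hT
    - (X (i h₀) (c (β₀ h₀)) (c (β₀ h₁)) - X (i h₀) (i h₁) (c (β₀ h₁))) * hΦ'
    - X (i h₀) (c (β₀ h₀)) (c (β₁ h₀)) * hY'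


end Alg21b

/-! ### general level lemmas -/

section Lev21

variable (χ : G →* kˣ) (D : ShData L U) [Finite (G ⧸ U)] (hU : ∃ N ∈ 𝒩.mem, N ≤ U)

/-- level constancy of a global transfer -/
lemma TG₂_mem_C2 {W : G → G → G → k}
    (hW : ∃ N ∈ 𝒩.mem, ∀ a b c : G, ∀ n₁ ∈ N, ∀ n₂ ∈ N, W a (b * n₁) (c * n₂) = W a b c) :
    TG₂ (U := U) χ W ∈ C2 𝒩 (ofChar χ) := by
  classical
  letI : Fintype (G ⧸ U) := Fintype.ofFinite _
  obtain ⟨N, hN, hW⟩ := hW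
  refine ⟨N, hN, fun g₁ g₂ s₁ hs₁ s₂ hs₂ => ?_⟩
  show ∑ C : G ⧸ U, (χ (sec U C) : k) *
      W ((sec U C)⁻¹ * 1) ((sec U C)⁻¹ * (g₁ * s₁)) ((sec U C)⁻¹ * (g₁ * s₁ * (g₂ * s₂))) =
    ∑ C : G ⧸ U, (χ (sec U C) : k) *
      W ((sec U C)⁻¹ * 1) ((sec U C)⁻¹ * g₁) ((sec U C)⁻¹ * (g₁ * g₂))
  refine Finset.sum_congr rfl fun C _ => ?_
  congr 1
  have e1 : (sec U C)⁻¹ * (g₁ * s₁) = ((sec U C)⁻¹ * g₁) * s₁ := by group
  have e2 : (sec U C)⁻¹ * (g₁ * s₁ * (g₂ * s₂)) =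
      ((sec U C)⁻¹ * (g₁ * g₂)) * (g₂⁻¹ * s₁ * g₂ * s₂) := by group
  have hs : g₂⁻¹ * s₁ * g₂ * s₂ ∈ N := by
    refine N.mul_mem ?_ hs₂
    have := (𝒩.normal N hN).conj_mem s₁ hs₁ g₂⁻¹
    simpa using this
  rw [e1, e2, hW _ _ _ _ hs₁ _ hs]

/-- level constancy of a local transfer -/
lemma trfL₁_mem_C1 (v : ι) (j : D.J v) {W : L.Gv v → L.Gv v → k}
    (hW : ∃ M ∈ (L.lev v).mem, ∀ a b : L.Gv v, ∀ m ∈ M, W a (b * m) = W a b) :
    inhom1 (Rep.res (L.r v) (ofChar χ)) (trfL₁ D χ v j W)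
      ∈ C1 (L.lev v) (L.loc (ofChar χ) v) := by
  classical
  letI : Fintype (L.Gv v ⧸ D.Uw v j) := Fintype.ofFinite _
  obtain ⟨M, hM, hW⟩ := hW
  refine ⟨M, hM, fun g s hs => ?_⟩
  show ∑ c : L.Gv v ⧸ D.Uw v j, (χ (L.r v (sec (D.Uw v j) c) * D.y v j) : k) *
        W ((sec (D.Uw v j) c)⁻¹ * 1) ((sec (D.Uw v j) c)⁻¹ * (g * s)) =
    ∑ c : L.Gv v ⧸ D.Uw v j, (χ (L.r v (sec (D.Uw v j) c) * D.y v j) : k) *
        W ((sec (D.Uw v j) c)⁻¹ * 1) ((sec (D.Uw v j) c)⁻¹ * g)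
  refine Finset.sum_congr rfl fun c _ => ?_
  congr 1
  rw [← mul_assoc, hW _ _ _ hs]

/-- right level invariance of `xt2 x` in the last two variables -/
lemma xt2_level (x : G × G → permRep k U) {N : Subgroup G} (hN : N.Normal)
    (hx : ∀ g₁ g₂ : G, ∀ s₁ ∈ N, ∀ s₂ ∈ N, x (g₁ * s₁, g₂ * s₂) = x (g₁, g₂))
    (a b c : G) {n₁ n₂ : G} (h₁ : n₁ ∈ N) (h₂ : n₂ ∈ N) :
    xt2 x a (b * n₁) (c * n₂) = xt2 x a b c := by
  rw [xt2_apply, xt2_apply]
  have e1 : a⁻¹ * (b * n₁) = (a⁻¹ * b) * n₁ := by group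
  have e2 : (b * n₁)⁻¹ * (c * n₂) =
      (b⁻¹ * c) * ((b⁻¹ * c)⁻¹ * n₁⁻¹ * (b⁻¹ * c) * n₂) := by group
  have hmem : (b⁻¹ * c)⁻¹ * n₁⁻¹ * (b⁻¹ * c) * n₂ ∈ N := by
    refine N.mul_mem ?_ h₂
    have := hN.conj_mem _ (N.inv_mem h₁) (b⁻¹ * c)⁻¹
    simpa using this
  rw [e1, e2, hx _ _ _ h₁ _ hmem]

lemma xt2_level_last (x : G × G → permRep k U) {N : Subgroup G} (hN : N.Normal)
    (hx : ∀ g₁ g₂ : G, ∀ s₁ ∈ N, ∀ s₂ ∈ N, x (g₁ * s₁, g₂ * s₂) = x (g₁, g₂))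
    (a b c : G) {n₂ : G} (h₂ : n₂ ∈ N) :
    xt2 x a b (c * n₂) = xt2 x a b c := by
  have := xt2_level x hN hx a b c N.one_mem h₂
  rwa [mul_one] at this

/-- full right level invariance of `homog1` with trivial coefficients -/
lemma h62_homog1_level_full {V : Type} [Group V] (N' : Subgroup V) [hN' : N'.Normal]
    {b : V → k} (hb : ∀ g : V, ∀ s ∈ N', b (g * s) = b g) (u₀ u₁ : V) {n₀ n₁ : V}
    (h₀ : n₀ ∈ N') (h₁ : n₁ ∈ N') :
    homog1 (trivRep k V) b (u₀ * n₀) (u₁ * n₁) = homog1 (trivRep k V) b u₀ u₁ := by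
  show b ((u₀ * n₀)⁻¹ * (u₁ * n₁)) = b (u₀⁻¹ * u₁)
  have e : (u₀ * n₀)⁻¹ * (u₁ * n₁) =
      (u₀⁻¹ * u₁) * ((u₀⁻¹ * u₁)⁻¹ * n₀⁻¹ * (u₀⁻¹ * u₁) * n₁) := by group
  have hmem : (u₀⁻¹ * u₁)⁻¹ * n₀⁻¹ * (u₀⁻¹ * u₁) * n₁ ∈ N' := by
    refine N'.mul_mem ?_ h₁
    have := hN'.conj_mem _ (N'.inv_mem h₀) (u₀⁻¹ * u₁)⁻¹
    simpa using this
  rw [e, hb _ _ hmem]

/-- a common global level for `x` and `y₁` inside `U` -/
lemma exists_common_level {x : G × G → permRep k U} (hx : x ∈ C2 𝒩 (permRep k U))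
    {a : ↥U → k} (ha : a ∈ C1 (restrictLevels 𝒩 U hU) (trivRep k ↥U)) :
    ∃ N ∈ 𝒩.mem, N ≤ U ∧
      (∀ g₁ g₂ : G, ∀ s₁ ∈ N, ∀ s₂ ∈ N, x (g₁ * s₁, g₂ * s₂) = x (g₁, g₂)) ∧
      (∀ g : ↥U, ∀ s ∈ N.subgroupOf U, a (g * s) = a g) := by
  obtain ⟨N₁, hN₁, hx⟩ := hx
  obtain ⟨N', ⟨N₂, hN₂, hN₂U, rfl⟩, ha⟩ := ha
  obtain ⟨N, hN, hle⟩ := 𝒩.directed N₁ hN₁ N₂ hN₂
  refine ⟨N, hN, fun n hn => hN₂U (hle hn).2, ?_, ?_⟩
  · intro g₁ g₂ s₁ hs₁ s₂ hs₂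
    exact hx g₁ g₂ s₁ (hle hs₁).1 s₂ (hle hs₂).1
  · intro g s hs
    refine ha g s ?_
    rw [Subgroup.mem_subgroupOf] at hs ⊢
    exact (hle hs).2

end Lev21

/-! ### component formulas -/

section PF21

variable (χ : G →* kˣ) (D : ShData L U) [Finite (G ⧸ U)] (hU : ∃ N ∈ 𝒩.mem, N ≤ U)

lemma isLInv₁_psiG₁ (a : ↥U → k) : IsLInv₁ U (psiG₁ (U := U) a) := by
  intro u hu x₀ x₁
  show homog1 (trivRep k ↥U) a (retr U (u * x₀)) (retr U (u * x₁))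
    = homog1 (trivRep k ↥U) a (retr U x₀) (retr U x₁)
  have h : ∀ x : G, retr U (u * x) = (⟨u, hu⟩ : ↥U) * retr U x := fun x => retr_mul U ⟨u, hu⟩ x
  rw [h, h]
  exact isEqv1_homog1 (trivRep k ↥U) a _ _ _

lemma psiL₀_inv (v : ι) (j : D.J v) (z : ↥U → k) (b : k) {u : L.Gv v} (hu : u ∈ D.Uw v j)
    (a : L.Gv v) : psiL₀ D v j z b (u * a) = psiL₀ D v j z b a := by
  show b + homog1 (trivRep k ↥U) z (D.beta0 v j (u * a)) (D.beta1 v j (u * a))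
    = b + homog1 (trivRep k ↥U) z (D.beta0 v j a) (D.beta1 v j a)
  rw [beta0_mul D v j hu, beta1_mul D v j hu]
  exact congrArg _ (isEqv1_homog1 (trivRep k ↥U) z _ _ _)

/-- cup side, global component -/
lemma cupc₂₁_pB₁_fst (hχ : ∀ g ∈ U, χ g = 1) (x : G × G → permRep k U)
    (y : CcAmb1 (D.localData hU) (trivRep k ↥U)) :
    (cupc₂₁ L (evPairing (permRep k U) χ) x (pB₁ χ D hU y)).1
      = TG₃ (U := U) χ (cup21 AddMonoidHom.mul (xt2 x) (psiG₁ y.1)) := by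
  funext ⟨g₁, g₂, g₃⟩
  exact cup_liftBG₁ χ hχ x (isLInv₁_psiG₁ y.1) g₁ g₂ g₃

/-- cup side, local components -/
lemma cupc₂₁_pB₁_snd (hχ : ∀ g ∈ U, χ g = 1) (x : G × G → permRep k U)
    (y : CcAmb1 (D.localData hU) (trivRep k ↥U)) (v : ι) :
    (cupc₂₁ L (evPairing (permRep k U) χ) x (pB₁ χ D hU y)).2 v
      = TL₂ χ D v (fun j => cup20 AddMonoidHom.mul (pull2 (D.iotaMap v j) (xt2 x))
          (psiL₀ D v j y.1 (y.2 ⟨v, j⟩))) := by
  funext ⟨h₁, h₂⟩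
  rw [TL₂_apply, Finset.sum_apply]
  exact cup_liftBL₀ χ D hχ x v (F := fun j => psiL₀ D v j y.1 (y.2 ⟨v, j⟩))
    (fun j u hu a => psiL₀_inv D v j y.1 (y.2 ⟨v, j⟩) hu a) h₁ h₂

/-- `homog3` of the global component of `shA₂ x ∪ y` -/
lemma homog3_cupc₂₁_fst (x : G × G → permRep k U)
    (y : CcAmb1 (D.localData hU) (trivRep k ↥U)) :
    homog3 (trivRep k ↥U)
        (cupc₂₁ (D.localData hU) (mulPairing k ↥U) (shA₂ k U x) y).1
      = cup21 AddMonoidHom.mul (pull2 (fun u : ↥U => (u : G)) (xt2 x))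
          (homog1 (trivRep k ↥U) y.1) := by
  rw [← homog2_shA₂]
  rfl

/-- `homog2` of the local components of `shA₂ x ∪ y` -/
lemma homog2_cupc₂₁_snd (x : G × G → permRep k U)
    (y : CcAmb1 (D.localData hU) (trivRep k ↥U)) (v : ι) (j : D.J v) :
    homog2 (trivRep k ↥(D.Uw v j))
        ((cupc₂₁ (D.localData hU) (mulPairing k ↥U) (shA₂ k U x) y).2 ⟨v, j⟩)
      = cup20 AddMonoidHom.mul
          (pull2 (fun t : ↥(D.Uw v j) => ((D.rw v j t : ↥U) : G)) (xt2 x))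
          (homog0 (trivRep k ↥(D.Uw v j)) (y.2 ⟨v, j⟩)) := by
  have e : pull2 (fun t : ↥(D.Uw v j) => ((D.rw v j t : ↥U) : G)) (xt2 x)
      = pull2 (D.rw v j) (homog2 (trivRep k ↥U) (shA₂ k U x)) := by
    rw [homog2_shA₂]
    rfl
  rw [e]
  funext t₀ t₁ t₂
  show shA₂ k U x (D.rw v j (t₀⁻¹ * t₁), D.rw v j (t₁⁻¹ * t₂)) * y.2 ⟨v, j⟩
    = shA₂ k U x ((D.rw v j t₀)⁻¹ * D.rw v j t₁, (D.rw v j t₁)⁻¹ * D.rw v j t₂) * y.2 ⟨v, j⟩
  rw [map_mul, map_inv, map_mul, map_inv]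

/-! ### the correcting cochain and the main identity -/

/-- the cone `2`-cochain whose coboundary is `x ∪ pB₁ y - corCone (shA₂ x ∪ y)` -/
def E21 (x : G × G → permRep k U) (y : CcAmb1 (D.localData hU) (trivRep k ↥U)) :
    CcAmb2 L (ofChar χ) :=
  (- TG₂ (U := U) χ (cup11 AddMonoidHom.mul
      (prism2 id (fun g => ((retr U g : ↥U) : G)) (xt2 x)) (psiG₁ y.1)),
   fun v => - TL₁ χ D v (fun j =>
      cup01 AddMonoidHom.mul
        (fun h => xt2 x (D.iotaMap v j h) ((D.beta0 v j h : ↥U) : G)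
          ((D.beta1 v j h : ↥U) : G))
        (pull1 (D.beta1 v j) (homog1 (trivRep k ↥U) y.1))
      - cup10 AddMonoidHom.mul
        (prism2 (D.iotaMap v j) (fun h => ((D.beta0 v j h : ↥U) : G)) (xt2 x))
        (psiL₀ D v j y.1 (y.2 ⟨v, j⟩))))

lemma isLInv₂_cup11_P (x : G × G → permRep k U) (a : ↥U → k) :
    IsLInv₂ U (cup11 AddMonoidHom.mul
      (prism2 id (fun g => ((retr U g : ↥U) : G)) (xt2 x)) (psiG₁ a)) := by
  intro u hu x₀ x₁ x₂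
  have h1 := isLInv₁_psiG₁ (k := k) a u hu x₁ x₂
  have hr : ∀ g : G, ((retr U (u * g) : ↥U) : G) = u * ((retr U g : ↥U) : G) := by
    intro g
    have := retr_mul U ⟨u, hu⟩ g
    rw [show ((⟨u, hu⟩ : ↥U) : G) = u from rfl] at this
    rw [this]
    rfl
  show (xt2 x (u * x₀) ((retr U (u * x₀) : ↥U) : G) ((retr U (u * x₁) : ↥U) : G)
      - xt2 x (u * x₀) (u * x₁) ((retr U (u * x₁) : ↥U) : G)) * psiG₁ a (u * x₁) (u * x₂)
    = (xt2 x x₀ ((retr U x₀ : ↥U) : G) ((retr U x₁ : ↥U) : G)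
      - xt2 x x₀ x₁ ((retr U x₁ : ↥U) : G)) * psiG₁ a x₁ x₂
  rw [hr, hr, isLInv₂_xt2 x u hu, isLInv₂_xt2 x u hu, h1]

lemma isLInv₁_S21 (x : G × G → permRep k U) (v : ι) (j : D.J v) (a : ↥U → k) (b : k) :
    IsLInv₁ (D.Uw v j) (cup01 AddMonoidHom.mul
        (fun h => xt2 x (D.iotaMap v j h) ((D.beta0 v j h : ↥U) : G)
          ((D.beta1 v j h : ↥U) : G))
        (pull1 (D.beta1 v j) (homog1 (trivRep k ↥U) a))
      - cup10 AddMonoidHom.mul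
        (prism2 (D.iotaMap v j) (fun h => ((D.beta0 v j h : ↥U) : G)) (xt2 x))
        (psiL₀ D v j a b)) := by
  intro u hu x₀ x₁
  have hι : ∀ h, D.iotaMap v j (u * h) = ((D.rw v j ⟨u, hu⟩ : ↥U) : G) * D.iotaMap v j h :=
    fun h => iotaMap_mul D v j hu h
  have h0 : ∀ h, ((D.beta0 v j (u * h) : ↥U) : G)
      = ((D.rw v j ⟨u, hu⟩ : ↥U) : G) * ((D.beta0 v j h : ↥U) : G) := by
    intro h
    rw [beta0_mul D v j hu, Subgroup.coe_mul]
  have h1 : ∀ h, ((D.beta1 v j (u * h) : ↥U) : G)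
      = ((D.rw v j ⟨u, hu⟩ : ↥U) : G) * ((D.beta1 v j h : ↥U) : G) := by
    intro h
    rw [beta1_mul D v j hu, Subgroup.coe_mul]
  have hΦ := psiL₀_inv D v j a b hu x₁
  have hY : homog1 (trivRep k ↥U) a (D.beta1 v j (u * x₀)) (D.beta1 v j (u * x₁))
      = homog1 (trivRep k ↥U) a (D.beta1 v j x₀) (D.beta1 v j x₁) := by
    rw [beta1_mul D v j hu, beta1_mul D v j hu]
    exact isEqv1_homog1 (trivRep k ↥U) a _ _ _
  have hX := isLInv₂_xt2 x _ (D.rw v j ⟨u, hu⟩).2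
  show xt2 x (D.iotaMap v j (u * x₀)) ((D.beta0 v j (u * x₀) : ↥U) : G)
          ((D.beta1 v j (u * x₀) : ↥U) : G)
        * homog1 (trivRep k ↥U) a (D.beta1 v j (u * x₀)) (D.beta1 v j (u * x₁))
      - (xt2 x (D.iotaMap v j (u * x₀)) ((D.beta0 v j (u * x₀) : ↥U) : G)
            ((D.beta0 v j (u * x₁) : ↥U) : G)
          - xt2 x (D.iotaMap v j (u * x₀)) (D.iotaMap v j (u * x₁))
            ((D.beta0 v j (u * x₁) : ↥U) : G)) * psiL₀ D v j a b (u * x₁)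
    = xt2 x (D.iotaMap v j x₀) ((D.beta0 v j x₀ : ↥U) : G) ((D.beta1 v j x₀ : ↥U) : G)
        * homog1 (trivRep k ↥U) a (D.beta1 v j x₀) (D.beta1 v j x₁)
      - (xt2 x (D.iotaMap v j x₀) ((D.beta0 v j x₀ : ↥U) : G) ((D.beta0 v j x₁ : ↥U) : G)
          - xt2 x (D.iotaMap v j x₀) (D.iotaMap v j x₁) ((D.beta0 v j x₁ : ↥U) : G))
        * psiL₀ D v j a b x₁
  rw [hΦ, hY, hι, hι, h0, h0, h1, hX, hX, hX]

lemma pull1_beta0 (v : ι) (j : D.J v) (a : ↥U → k) :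
    pull1 (D.beta0 v j) (homog1 (trivRep k ↥U) a) =
      pull1 (retr (D.Uw v j)) (homog1 (trivRep k ↥(D.Uw v j))
        (res₁ (D.localData hU) (trivRep k ↥U) ⟨v, j⟩ a)) := by
  funext x₀ x₁
  simp only [pull1_apply, homog1_apply, ShData.beta0]
  rw [← map_inv, ← map_mul]
  rfl

/-- the cocycle condition for `psiL₀` -/
lemma hd0_psiL₀ {y : CcAmb1 (D.localData hU) (trivRep k ↥U)}
    (hy : dc₁₂ (D.localData hU) (trivRep k ↥U) y = 0) (v : ι) (j : D.J v) :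
    hd0 (psiL₀ D v j y.1 (y.2 ⟨v, j⟩))
      = pull1 (D.beta1 v j) (homog1 (trivRep k ↥U) y.1) := by
  have hy1 : (d₁₂ (trivRep k ↥U)).hom y.1 = 0 := congrArg Prod.fst hy
  have hy2 : res₁ (D.localData hU) (trivRep k ↥U) ⟨v, j⟩ y.1
      - (d₀₁ ((D.localData hU).loc (trivRep k ↥U) ⟨v, j⟩)).hom (y.2 ⟨v, j⟩) = 0 :=
    congrFun (congrArg Prod.snd hy) ⟨v, j⟩
  have hy2' : (d₀₁ (trivRep k ↥(D.Uw v j))).hom (y.2 ⟨v, j⟩)
      = res₁ (D.localData hU) (trivRep k ↥U) ⟨v, j⟩ y.1 := (sub_eq_zero.1 hy2).symm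
  have hY : hd1 (homog1 (trivRep k ↥U) y.1) = 0 := by
    rw [hd1_homog1, hy1, h62_homog2_zero]
  have e1 : hd0 (pull0 (retr (D.Uw v j)) (homog0 (trivRep k ↥(D.Uw v j)) (y.2 ⟨v, j⟩)))
      = pull1 (D.beta0 v j) (homog1 (trivRep k ↥U) y.1) := by
    rw [hd0_pull0, hd0_homog0, hy2', pull1_beta0 D hU]
  have e2 := pull1_sub_pull1_of_cocycle (D.beta0 v j) (D.beta1 v j)
    (homog1 (trivRep k ↥U) y.1) hY
  show hd0 (pull0 (retr (D.Uw v j)) (homog0 (trivRep k ↥(D.Uw v j)) (y.2 ⟨v, j⟩))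
    + prism1 (D.beta0 v j) (D.beta1 v j) (homog1 (trivRep k ↥U) y.1)) = _
  rw [hd0_add, e1, ← e2]
  abel

/-- **The projection formula in bidegree `(2,1)`, cochain level.** -/
theorem cupc₂₁_pB₁_eq (hχ : ∀ g ∈ U, χ g = 1) {x : G × G → permRep k U}
    (hx : (d₂₃ (permRep k U)).hom x = 0) {y : CcAmb1 (D.localData hU) (trivRep k ↥U)}
    (hy : dc₁₂ (D.localData hU) (trivRep k ↥U) y = 0) :
    cupc₂₁ L (evPairing (permRep k U) χ) x (pB₁ χ D hU y)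
      = D.corCone χ hU (cupc₂₁ (D.localData hU) (mulPairing k ↥U) (shA₂ k U x) y)
        + dc₂₃ L (ofChar χ) (E21 χ D hU x y) := by
  have hX := hd2_xt2 hx
  have hy1 : (d₁₂ (trivRep k ↥U)).hom y.1 = 0 := congrArg Prod.fst hy
  have hY : hd1 (homog1 (trivRep k ↥U) y.1) = 0 := by
    rw [hd1_homog1, hy1, h62_homog2_zero]
  have hF : hd1 (psiG₁ (U := U) y.1) = 0 := by
    show hd1 (pull1 (retr U) (homog1 (trivRep k ↥U) y.1)) = 0
    rw [hd1_pull1, hY]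
    rfl
  refine Prod.ext ?_ ?_
  · -- global component
    show (cupc₂₁ L (evPairing (permRep k U) χ) x (pB₁ χ D hU y)).1
      = (D.corCone χ hU (cupc₂₁ (D.localData hU) (mulPairing k ↥U) (shA₂ k U x) y)).1
        + (d₂₃ (ofChar χ)).hom (E21 χ D hU x y).1
    rw [cupc₂₁_pB₁_fst χ D hU hχ, corCone_fst_eq, homog3_cupc₂₁_fst]
    have hg := alg21_glob (xt2 x) hX (psiG₁ (U := U) y.1) hF (fun g => ((retr U g : ↥U) : G))
    have e1 : pull3 (retr U) (cup21 AddMonoidHom.mul (pull2 (fun u : ↥U => (u : G)) (xt2 x))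
        (homog1 (trivRep k ↥U) y.1))
        = cup21 AddMonoidHom.mul (pull2 (fun g => ((retr U g : ↥U) : G)) (xt2 x))
            (psiG₁ y.1) := rfl
    have e2 : (d₂₃ (ofChar χ)).hom (E21 χ D hU x y).1
        = - TG₃ (U := U) χ (hd2 (cup11 AddMonoidHom.mul
            (prism2 id (fun g => ((retr U g : ↥U) : G)) (xt2 x)) (psiG₁ y.1))) := by
      rw [TG₃_hd2 χ hχ (isLInv₂_cup11_P x y.1)]
      show (d₂₃ (ofChar χ)).hom (- _) = _
      rw [map_neg]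
    rw [e1, e2, ← map_neg, ← hg, map_sub]
    abel
  · -- local components
    funext v
    show (cupc₂₁ L (evPairing (permRep k U) χ) x (pB₁ χ D hU y)).2 v
      = (D.corCone χ hU (cupc₂₁ (D.localData hU) (mulPairing k ↥U) (shA₂ k U x) y)).2 v
        + (res₂ L (ofChar χ) v (E21 χ D hU x y).1
          - (d₁₂ (L.loc (ofChar χ) v)).hom ((E21 χ D hU x y).2 v))
    rw [cupc₂₁_pB₁_snd χ D hU hχ, corCone_snd_eq]
    have e1 : res₂ L (ofChar χ) v (E21 χ D hU x y).1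
        = - TL₂ χ D v (fun j => pull2 (D.iotaMap v j) (cup11 AddMonoidHom.mul
            (prism2 id (fun g => ((retr U g : ↥U) : G)) (xt2 x)) (psiG₁ y.1))) := by
      rw [← res₂_TG₂ χ D hχ v (isLInv₂_cup11_P x y.1)]
      show res₂ L (ofChar χ) v (- _) = _
      rw [map_neg]
    have e2 : (d₁₂ (L.loc (ofChar χ) v)).hom ((E21 χ D hU x y).2 v)
        = - TL₂ χ D v (fun j => hd1 (cup01 AddMonoidHom.mul
            (fun h => xt2 x (D.iotaMap v j h) ((D.beta0 v j h : ↥U) : G)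
              ((D.beta1 v j h : ↥U) : G))
            (pull1 (D.beta1 v j) (homog1 (trivRep k ↥U) y.1))
          - cup10 AddMonoidHom.mul
            (prism2 (D.iotaMap v j) (fun h => ((D.beta0 v j h : ↥U) : G)) (xt2 x))
            (psiL₀ D v j y.1 (y.2 ⟨v, j⟩)))) := by
      rw [TL₂_hd1 χ D hχ v (fun j => isLInv₁_S21 D x v j y.1 (y.2 ⟨v, j⟩))]
      show (d₁₂ (L.loc (ofChar χ) v)).hom (- _) = _
      rw [map_neg]
    have key : (fun j => pull2 (retr (D.Uw v j)) (homog2 (trivRep k ↥(D.Uw v j))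
          ((cupc₂₁ (D.localData hU) (mulPairing k ↥U) (shA₂ k U x) y).2 ⟨v, j⟩))
          + prism3 (D.beta0 v j) (D.beta1 v j) (homog3 (trivRep k ↥U)
            (cupc₂₁ (D.localData hU) (mulPairing k ↥U) (shA₂ k U x) y).1))
        = (fun j => cup20 AddMonoidHom.mul (pull2 (D.iotaMap v j) (xt2 x))
            (psiL₀ D v j y.1 (y.2 ⟨v, j⟩)))
          + (fun j => pull2 (D.iotaMap v j) (cup11 AddMonoidHom.mul
            (prism2 id (fun g => ((retr U g : ↥U) : G)) (xt2 x)) (psiG₁ y.1)))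
          - (fun j => hd1 (cup01 AddMonoidHom.mul
            (fun h => xt2 x (D.iotaMap v j h) ((D.beta0 v j h : ↥U) : G)
              ((D.beta1 v j h : ↥U) : G))
            (pull1 (D.beta1 v j) (homog1 (trivRep k ↥U) y.1))
          - cup10 AddMonoidHom.mul
            (prism2 (D.iotaMap v j) (fun h => ((D.beta0 v j h : ↥U) : G)) (xt2 x))
            (psiL₀ D v j y.1 (y.2 ⟨v, j⟩)))) := by
      funext j
      have ha := alg21_loc (xt2 x) hX (homog1 (trivRep k ↥U) y.1) hY (fun u : ↥U => (u : G))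
        (D.iotaMap v j) (D.beta0 v j) (D.beta1 v j) (retr U) (fun h => rfl)
        (psiL₀ D v j y.1 (y.2 ⟨v, j⟩))
        (pull0 (retr (D.Uw v j)) (homog0 (trivRep k ↥(D.Uw v j)) (y.2 ⟨v, j⟩))) rfl
        (hd0_psiL₀ D hU hy v j)
      rw [homog3_cupc₂₁_fst, homog2_cupc₂₁_snd]
      have e3 : pull2 (retr (D.Uw v j))
          (cup20 AddMonoidHom.mul
            (pull2 (fun t : ↥(D.Uw v j) => ((D.rw v j t : ↥U) : G)) (xt2 x))
            (homog0 (trivRep k ↥(D.Uw v j)) (y.2 ⟨v, j⟩)))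
          = cup20 AddMonoidHom.mul (pull2 (fun h => ((D.beta0 v j h : ↥U) : G)) (xt2 x))
            (pull0 (retr (D.Uw v j)) (homog0 (trivRep k ↥(D.Uw v j)) (y.2 ⟨v, j⟩))) := rfl
      rw [e3]
      simp only [Pi.sub_apply, Pi.add_apply]
      have ha' : cup20 AddMonoidHom.mul (pull2 (D.iotaMap v j) (xt2 x))
            (psiL₀ D v j y.1 (y.2 ⟨v, j⟩))
          - cup20 AddMonoidHom.mul (pull2 (fun h => ((D.beta0 v j h : ↥U) : G)) (xt2 x))
            (pull0 (retr (D.Uw v j)) (homog0 (trivRep k ↥(D.Uw v j)) (y.2 ⟨v, j⟩)))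
          - prism3 (D.beta0 v j) (D.beta1 v j) (cup21 AddMonoidHom.mul
            (pull2 (fun u : ↥U => (u : G)) (xt2 x)) (homog1 (trivRep k ↥U) y.1))
          = - pull2 (D.iotaMap v j) (cup11 AddMonoidHom.mul
              (prism2 id (fun g => ((retr U g : ↥U) : G)) (xt2 x)) (psiG₁ y.1))
            + hd1 (cup01 AddMonoidHom.mul
              (fun h => xt2 x (D.iotaMap v j h) ((D.beta0 v j h : ↥U) : G)
                ((D.beta1 v j h : ↥U) : G))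
              (pull1 (D.beta1 v j) (homog1 (trivRep k ↥U) y.1))
            - cup10 AddMonoidHom.mul
              (prism2 (D.iotaMap v j) (fun h => ((D.beta0 v j h : ↥U) : G)) (xt2 x))
              (psiL₀ D v j y.1 (y.2 ⟨v, j⟩))) := ha
      rw [sub_sub, sub_eq_iff_eq_add] at ha'
      rw [ha']
      abel
    rw [key, e1, e2, map_sub, map_add]
    abel

/-! ### level constancy of `E21` and `pf21` -/

lemma iotaMap_mul_right (v : ι) (j : D.J v) (b m : L.Gv v) :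
    D.iotaMap v j (b * m) = D.iotaMap v j b * L.r v m := by
  simp only [ShData.iotaMap, map_mul, mul_assoc]

/-- `E21 x y` is level-constant -/
theorem E21_mem_Cc2 {x : G × G → permRep k U} (hx : x ∈ C2 𝒩 (permRep k U))
    {y : CcAmb1 (D.localData hU) (trivRep k ↥U)}
    (hy : y ∈ Cc1 (D.localData hU) (trivRep k ↥U)) :
    E21 χ D hU x y ∈ Cc2 L (ofChar χ) := by
  obtain ⟨hy1, -⟩ := hy
  obtain ⟨N, hN, hNU, hxN, hyN⟩ := exists_common_level hU hx hy1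
  have hNn : N.Normal := 𝒩.normal N hN
  haveI := hNn
  refine ⟨?_, fun v _ => ?_⟩
  · refine Submodule.neg_mem _ (TG₂_mem_C2 χ ⟨N, hN, fun a b c n₁ hn₁ n₂ hn₂ => ?_⟩)
    obtain ⟨m₁, hm₁, h1⟩ := retr_mul_right U N hNU b hn₁
    obtain ⟨m₂, hm₂, h2⟩ := retr_mul_right U N hNU c hn₂
    have hm₁' : (m₁ : G) ∈ N := hm₁
    show (xt2 x a ((retr U a : ↥U) : G) ((retr U (b * n₁) : ↥U) : G)
        - xt2 x a (b * n₁) ((retr U (b * n₁) : ↥U) : G))
          * homog1 (trivRep k ↥U) y.1 (retr U (b * n₁)) (retr U (c * n₂))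
      = (xt2 x a ((retr U a : ↥U) : G) ((retr U b : ↥U) : G)
        - xt2 x a b ((retr U b : ↥U) : G))
          * homog1 (trivRep k ↥U) y.1 (retr U b) (retr U c)
    rw [h1, h2, Subgroup.coe_mul, xt2_level_last x hNn hxN _ _ _ hm₁',
      xt2_level x hNn hxN _ _ _ hn₁ hm₁',
      h62_homog1_level_full (N.subgroupOf U) hyN _ _ hm₁ hm₂]
  · refine Submodule.neg_mem _ ?_
    show TL₁ χ D v _ ∈ C1 (L.lev v) (L.loc (ofChar χ) v)
    rw [TL₁_apply]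
    refine Submodule.sum_mem _ fun j _ => ?_
    refine trfL₁_mem_C1 χ D v j ?_
    obtain ⟨M, hM⟩ := (L.lev v).nonempty
    obtain ⟨M', hM', -, hleU, hr⟩ := exists_local_level D v j hN hNU hM
    haveI := (L.lev v).normal M' hM'
    refine ⟨M', hM', fun a b m hm => ?_⟩
    obtain ⟨n₀, hn₀, h0⟩ := beta0_mul_right D v j hN hleU hr b hm
    obtain ⟨n₁, hn₁, h1⟩ := beta1_mul_right D v j hN hNU b (hr m hm)
    have hn₀' : (n₀ : G) ∈ N := hn₀
    show xt2 x (D.iotaMap v j a) ((D.beta0 v j a : ↥U) : G) ((D.beta1 v j a : ↥U) : G)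
          * homog1 (trivRep k ↥U) y.1 (D.beta1 v j a) (D.beta1 v j (b * m))
        - (xt2 x (D.iotaMap v j a) ((D.beta0 v j a : ↥U) : G)
              ((D.beta0 v j (b * m) : ↥U) : G)
            - xt2 x (D.iotaMap v j a) (D.iotaMap v j (b * m))
              ((D.beta0 v j (b * m) : ↥U) : G))
          * (y.2 ⟨v, j⟩
            + homog1 (trivRep k ↥U) y.1 (D.beta0 v j (b * m)) (D.beta1 v j (b * m)))
      = xt2 x (D.iotaMap v j a) ((D.beta0 v j a : ↥U) : G) ((D.beta1 v j a : ↥U) : G)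
          * homog1 (trivRep k ↥U) y.1 (D.beta1 v j a) (D.beta1 v j b)
        - (xt2 x (D.iotaMap v j a) ((D.beta0 v j a : ↥U) : G) ((D.beta0 v j b : ↥U) : G)
            - xt2 x (D.iotaMap v j a) (D.iotaMap v j b) ((D.beta0 v j b : ↥U) : G))
          * (y.2 ⟨v, j⟩ + homog1 (trivRep k ↥U) y.1 (D.beta0 v j b) (D.beta1 v j b))
    rw [h0, h1, iotaMap_mul_right, Subgroup.coe_mul, xt2_level_last x hNn hxN _ _ _ hn₀',
      xt2_level x hNn hxN _ _ _ (hr m hm) hn₀',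
      h62_homog1_level_full (N.subgroupOf U) hyN _ _ hn₀ hn₁,
      homog1_level (N.subgroupOf U) hyN _ _ hn₁]

/-- **Projection formula `pf21`** of `helper53.ShTransportP` (with `s2 := shA₂ k U`,
`P1 := pB₁ χ D hU`, `tr' := tr ∘ₗ D.corCone χ hU`). -/
theorem pf21 (tr : CcAmb3 L (ofChar χ) →ₗ[k] k) (htr : ∀ c ∈ Bc3 L (ofChar χ), tr c = 0)
    (hχ : ∀ g ∈ U, χ g = 1) {x : G × G → permRep k U} (hx : x ∈ Z2 𝒩 (permRep k U))
    {y : CcAmb1 (D.localData hU) (trivRep k ↥U)}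
    (hy : y ∈ Zc1 (D.localData hU) (trivRep k ↥U)) :
    tr (cupc₂₁ L (evPairing (permRep k U) χ) x (pB₁ χ D hU y))
      = (tr ∘ₗ D.corCone χ hU)
          (cupc₂₁ (D.localData hU) (mulPairing k ↥U) (shA₂ k U x) y) := by
  obtain ⟨hx1, hx2⟩ := hx
  obtain ⟨hy1, hy2⟩ := hy
  have hx' : (d₂₃ (permRep k U)).hom x = 0 := hx2
  have hy' : dc₁₂ (D.localData hU) (trivRep k ↥U) y = 0 := hy2
  rw [cupc₂₁_pB₁_eq χ D hU hχ hx' hy', map_add, LinearMap.comp_apply,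
    htr _ ⟨E21 χ D hU x y, E21_mem_Cc2 χ D hU hx1 hy1, rfl⟩, add_zero]

end PF21

end Fermat.Agent.S55.helper62
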