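import Fermat.Agent.S55.helper35_ShAsm
import Fermat.Agent.S55.helper38_ShPMem
import Fermat.Agent.S55.helper49_ShPSurjFinal
import Fermat.Agent.S55.helper62_ShPf21

/-!
# S55 module SH: `ShStatement p S` (helper35, final wiring)

All fields of `helper53.ShTransportP` for the coinduction maps `pB_n` of helper62 are on main:

* `P1_mem P2_mem P3_mem P2_bdry P3_bdry` : helper38 (`helper38_ShPMem`),
* `P2_surj P3_surj` : helper49 (`helper49_ShPSurjFinal`),
* `pf21` (and `pf03`, `pf12`, the `s`-fields) : helper62.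

Hence `ShOpenFields` holds unconditionally, and with it the three deliverables of module SH.
-/

set_option autoImplicit false

open groupCohomology

noncomputable section

namespace Fermat.Agent.S55.helper35

open Fermat.Agent.S55 Fermat.Agent.S55.helper62

variable {k G : Type} [Field k] [Group G] {𝒩 : Levels G} {ι : Type} {L : LocalData G 𝒩 ι}
  {U : Subgroup G} [Finite (G ⧸ U)]

/-- All fields of `ShOpenFields` are theorems. -/
theorem shOpenFields (χ : G →* kˣ) (D : ShData L U) (hU : ∃ N ∈ 𝒩.mem, N ≤ U)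
    (tr : CcAmb3 L (ofChar χ) →ₗ[k] k) (htr : ∀ c ∈ Bc3 L (ofChar χ), tr c = 0)
    (hχ : ∀ g ∈ U, χ g = 1) : ShOpenFields χ D hU tr where
  P1_mem := helper38.pB₁_mem_Zc1 χ D hU hχ
  P2_mem := helper38.pB₂_mem_Zc2 χ D hU hχ
  P3_mem := helper38.pB₃_mem_Zc3 χ D hU hχ
  P2_bdry := helper38.pB₂_mem_Bc2 χ D hU hχ
  P3_bdry := helper38.pB₃_mem_Bc3 χ D hU hχ
  P2_surj := helper49.ps_pB₂_surj χ D hU hχ
  P3_surj := helper49.ps_pB₃_surj χ D hU hχ
  pf21 := fun _ hx _ hy => pf21 χ D hU tr htr hχ hx hy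

/-- MODULE SH, general form: for an open subgroup `U` of finite index with `χ|U = 1`, double
coset representatives `D` and a trace `tr` killing cone coboundaries:
(a) `tr ∘ cor` kills the cone coboundaries of `U`;
(b) if `[G:U]` is invertible in `k` and `tr` is nonzero on cone cocycles, so is `tr ∘ cor`;
(c) the CLAIM for `(U, k)` with `tr ∘ cor` implies the CLAIM for `(G, k[G/U])` with `tr`. -/
theorem shMain (χ : G →* kˣ) (D : ShData L U) (hU : ∃ N ∈ 𝒩.mem, N ≤ U)
    (tr : CcAmb3 L (ofChar χ) →ₗ[k] k) (htr : ∀ c ∈ Bc3 L (ofChar χ), tr c = 0)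
    (hχ : ∀ g ∈ U, χ g = 1) :
    (∀ y ∈ Bc3 (D.localData hU) (trivRep k ↥U), (tr ∘ₗ D.corCone χ hU) y = 0) ∧
    ((Nat.card (G ⧸ U) : k) ≠ 0 → (∃ z ∈ Zc3 L (ofChar χ), tr z ≠ 0) →
      ∃ y ∈ Zc3 (D.localData hU) (trivRep k ↥U), (tr ∘ₗ D.corCone χ hU) y ≠ 0) ∧
    (Claim (D.localData hU) (mulPairing k ↥U) (tr ∘ₗ D.corCone χ hU) →
      Claim L (evPairing (permRep k U) χ) tr) :=
  shStatement_of χ D hU tr htr hχ (shOpenFields χ D hU tr htr hχ)

/-- **MODULE SH, the deliverable**: `ShStatement p S`. -/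
theorem shStatement (p : ℕ) [Fact p.Prime] (S : Finset Nat.Primes) : ShStatement p S :=
  shStatement_of_fields p S fun tr _ hU _ D htr hχ =>
    shOpenFields (ExtCitation.cycloChar p) D hU tr htr hχ

end Fermat.Agent.S55.helper35
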