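import Fermat.Agent.S55.helper59_BArAsm
import Fermat.Agent.S55.TopTr

/-!
# S55 module B: the deliverable `BaseInputStatement p S` (helper59)

`baseInputStatement_of_inputs` : the statement consumed by TOP-TR and by the final assembly of
S55 (`Fermat.Agent.S55.BaseInputStatement`), from the six inputs of the arithmetic base case which
are not yet on main, each stated as a `Prop` uniformly over all arithmetic local data:

* `HypI3 p S Inv`  : reciprocity (B-AR-REC);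
* `HypI4 p S Inv`  : existence of global classes with given local components (REC3);
* `HypH3 p S`      : `H³(G_{F,S}, ℤ/p) = 0` (REC3);
* `HypI7a p S Inv` : trivial left kernel of the Sha-pairing (B-AR-SHA-L);
* `HypSha1 p S`    : `#Sha¹ ≤ #Cl_S(F)/p` (REC4);
* `HypSha2 p S`    : `#Sha² ≤ #Cl_S(F)/p` (REC3).
-/

set_option autoImplicit false

open groupCohomology ExtCitation
open scoped NumberField

noncomputable section

namespace Fermat.Agent.S55.helper59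

open Fermat.Agent.S55

local instance factOfPrimesFin (q : Nat.Primes) : Fact (q : ℕ).Prime := ⟨q.2⟩

local notation "Qbar" => AlgebraicClosure ℚ

variable (p : ℕ) [Fact p.Prime] (S : Finset Nat.Primes)

/-- (I3) for all arithmetic local data -/
def HypI3 (Inv : helper11.LocInv) : Prop :=
  ∀ (F : IntermediateField ℚ Qbar) [NumberField ↥F] (𝒩 : Levels (UF F)) (ι : Type) [Fintype ι]
    (L : LocalData (UF F) 𝒩 ι), p ≠ 2 → (⟨p, Fact.out⟩ : Nat.Primes) ∈ S →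
    F.IsUnramifiedOutside S → 𝒩.mem = sLevels S F → ∀ hL : IsArith S F L,
    ∀ ζ : (↥F)ˣ, IsPrimitiveRoot ζ p →
    ∀ inv : InvFam p L, InvCompat Inv ζ hL inv → RecipFor L inv

/-- (I4) for all arithmetic local data -/
def HypI4 (Inv : helper11.LocInv) : Prop :=
  ∀ (F : IntermediateField ℚ Qbar) [NumberField ↥F] (𝒩 : Levels (UF F)) (ι : Type) [Fintype ι]
    (L : LocalData (UF F) 𝒩 ι), p ≠ 2 → (⟨p, Fact.out⟩ : Nat.Primes) ∈ S →
    F.IsUnramifiedOutside S → 𝒩.mem = sLevels S F → ∀ hL : IsArith S F L,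
    ∀ ζ : (↥F)ˣ, IsPrimitiveRoot ζ p →
    ∀ inv : InvFam p L, InvCompat Inv ζ hL inv → InvIffFor L inv → RecipFor L inv →
      ExistsGlobal₂For L inv

/-- (I5) for all arithmetic local data -/
def HypH3 : Prop :=
  ∀ (F : IntermediateField ℚ Qbar) [NumberField ↥F] (𝒩 : Levels (UF F)),
    p ≠ 2 → (⟨p, Fact.out⟩ : Nat.Primes) ∈ S →
    F.IsUnramifiedOutside S → 𝒩.mem = sLevels S F → HasZeta p F →
    Z3 𝒩 (T (ZMod p) (UF F)) ≤ B3 𝒩 (T (ZMod p) (UF F))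

/-- (I7a) for all arithmetic local data -/
def HypI7a (Inv : helper11.LocInv) : Prop :=
  ∀ (F : IntermediateField ℚ Qbar) [NumberField ↥F] (𝒩 : Levels (UF F)) (ι : Type) [Fintype ι]
    (L : LocalData (UF F) 𝒩 ι), p ≠ 2 → (⟨p, Fact.out⟩ : Nat.Primes) ∈ S →
    F.IsUnramifiedOutside S → 𝒩.mem = sLevels S F → ∀ hL : IsArith S F L,
    ∀ ζ : (↥F)ˣ, IsPrimitiveRoot ζ p →
    ∀ inv : InvFam p L, InvCompat Inv ζ hL inv → InvIffFor L inv → RecipFor L inv →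
      Z3 𝒩 (T (ZMod p) (UF F)) ≤ B3 𝒩 (T (ZMod p) (UF F)) →
      Finite ↥(Z1 𝒩 (T (ZMod p) (UF F))) → ShaLeftFor L inv

/-- `#Sha¹ ≤ #Cl_S/p` for all arithmetic local data -/
def HypSha1 : Prop :=
  ∀ (F : IntermediateField ℚ Qbar) [NumberField ↥F] (𝒩 : Levels (UF F)) (ι : Type) [Fintype ι]
    (L : LocalData (UF F) 𝒩 ι), p ≠ 2 → (⟨p, Fact.out⟩ : Nat.Primes) ∈ S →
    F.IsUnramifiedOutside S → 𝒩.mem = sLevels S F → IsArith S F L → HasZeta p F →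
    Nat.card ↥(sha1Z (k := ZMod p) L) ≤ Nat.card (helper75.ClSModP (↥F) p S)

/-- `#Sha² ≤ #Cl_S/p` for all arithmetic local data -/
def HypSha2 : Prop :=
  ∀ (F : IntermediateField ℚ Qbar) [NumberField ↥F] (𝒩 : Levels (UF F)) (ι : Type) [Fintype ι]
    (L : LocalData (UF F) 𝒩 ι), p ≠ 2 → (⟨p, Fact.out⟩ : Nat.Primes) ∈ S →
    F.IsUnramifiedOutside S → 𝒩.mem = sLevels S F → IsArith S F L →
    ∀ ζ : (↥F)ˣ, IsPrimitiveRoot ζ p →
    Finite (↥(sha2Z (k := ZMod p) L) ⧸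
        (B2 𝒩 (T (ZMod p) (UF F))).comap (sha2Z (k := ZMod p) L).subtype) ∧
      Nat.card (↥(sha2Z (k := ZMod p) L) ⧸
        (B2 𝒩 (T (ZMod p) (UF F))).comap (sha2Z (k := ZMod p) L).subtype) ≤
      Nat.card (helper75.ClSModP (↥F) p S)

variable {p S}

/-- the arithmetic `BaseInput` for every arithmetic local datum, from the six open inputs -/
theorem baseInput_of_hyps (Inv : helper11.LocInv) (h3 : HypI3 p S Inv) (h4 : HypI4 p S Inv)
    (hH3 : HypH3 p S) (h7 : HypI7a p S Inv) (hs1 : HypSha1 p S) (hs2 : HypSha2 p S)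
    {F : IntermediateField ℚ Qbar} [NumberField ↥F] {𝒩 : Levels (UF F)} {ι : Type} [Fintype ι]
    {L : LocalData (UF F) 𝒩 ι} (hp2 : p ≠ 2) (hpS : (⟨p, Fact.out⟩ : Nat.Primes) ∈ S)
    (hF : F.IsUnramifiedOutside S) (h𝒩 : 𝒩.mem = sLevels S F) (hL : IsArith S F L)
    (ζ : (↥F)ˣ) (hζ : IsPrimitiveRoot ζ p) (hζF : HasZeta p F) :
    ∃ I : BaseInput (k := ZMod p) L, InvCompat Inv ζ hL I.inv :=
  baseInput_of_inputs hp2 hpS hF h𝒩 hL Inv ζ hζ
    (h3 F 𝒩 ι L hp2 hpS hF h𝒩 hL ζ hζ)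
    (h4 F 𝒩 ι L hp2 hpS hF h𝒩 hL ζ hζ)
    (hH3 F 𝒩 hp2 hpS hF h𝒩 hζF)
    (fun inv hinv hI1 hrec hfin => h7 F 𝒩 ι L hp2 hpS hF h𝒩 hL ζ hζ inv hinv hI1 hrec
      (hH3 F 𝒩 hp2 hpS hF h𝒩 hζF) hfin)
    (hs1 F 𝒩 ι L hp2 hpS hF h𝒩 hL hζF)
    (hs2 F 𝒩 ι L hp2 hpS hF h𝒩 hL ζ hζ)

/-- a primitive root of unity in `F` as a unit of `F` -/
lemma exists_unit_of_hasZeta {F : IntermediateField ℚ Qbar} (h : HasZeta p F) :
    ∃ ζ : (↥F)ˣ, IsPrimitiveRoot ζ p := by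
  obtain ⟨z, hz, hzF⟩ := h
  have hp : p.Prime := Fact.out
  have hz' : IsPrimitiveRoot (⟨z, hzF⟩ : ↥F) p :=
    hz.of_map_of_injective (f := F.val) Subtype.val_injective
  have hz0 : (⟨z, hzF⟩ : ↥F) ≠ 0 := hz'.ne_zero hp.ne_zero
  refine ⟨Units.mk0 _ hz0, ?_⟩
  exact IsPrimitiveRoot.of_map_of_injective (f := Units.coeHom ↥F) hz' Units.val_injective

/-- **THE DELIVERABLE OF MODULE B**: `BaseInputStatement p S`, from the six open inputs. -/
theorem baseInputStatement_of_hyps (Inv : helper11.LocInv) (h3 : HypI3 p S Inv)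
    (h4 : HypI4 p S Inv) (hH3 : HypH3 p S) (h7 : HypI7a p S Inv) (hs1 : HypSha1 p S)
    (hs2 : HypSha2 p S) : BaseInputStatement p S := by
  intro hp2 hpS F hfd hF hζF hU D
  have : NumberField ↥F := ⟨⟩
  obtain ⟨ζ, hζ⟩ := exists_unit_of_hasZeta hζF
  obtain ⟨I, hI⟩ := baseInput_of_hyps Inv h3 h4 hH3 h7 hs1 hs2 hp2 hpS hF
    (restrictLevels_mem_eq_sLevels S F hU) (shIsArith S F hU D) ζ hζ hζF
  exact ⟨I, Inv, ζ, hζ, hI⟩

end Fermat.Agent.S55.helper59
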