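import Fermat.Agent.S55.Arith
import Fermat.Agent.S55.helper35_SHDefs
import Fermat.Agent.S55.helper59_BDefs
import Fermat.Agent.S55.helper69_BArLev
import Fermat.Agent.S55.helper92_SmoothLevel

/-!
# S55 / SH-AR: the local data of an open subgroup of `G_ℚ` is arithmetic

Glue between module SH (`helper35.ShData`, `ShData.localData`) and module B (`helper59.IsArith`,
`helper59.sLevels`):

* `shIsArith S F hU D : helper59.IsArith S F (D.localData hU)` for every choice `D` of double
  coset representatives (`g_w = (y v j)⁻¹`, `j_w` = the inclusion `U_w ≤ G_v`);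
* `restrictLevels_mem_eq_sLevels` : the restricted levels are the `S`-levels below `F`;
* `exists_field_of_open` : every subgroup of `G_ℚ` containing an `S`-level is the fixing subgroup
  of a finite extension unramified outside `S`; it contains `ζ_p` if the cyclotomic character is
  trivial on it.
-/

set_option autoImplicit false

open groupCohomology ExtCitation

noncomputable section

namespace Fermat.Agent.S55

open helper35

variable (S : Finset Nat.Primes) (F : IntermediateField ℚ (AlgebraicClosure ℚ))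

/-- SH-AR: the local data `D.localData hU` of `U = Gal(ℚbar/F)` are arithmetic. -/
def shIsArith (hU : ∃ N ∈ (galLevels S).mem, N ≤ F.fixingSubgroup)
    (D : ShData (galLocal S) F.fixingSubgroup) :
    helper59.IsArith S F (D.localData hU) where
  q w := w.1.1
  q_mem w := w.1.2
  g w := (D.y w.1 w.2)⁻¹
  j w := (D.Uw w.1 w.2).subtype
  j_injective w := Subtype.val_injective
  range_j := by
    rintro ⟨v, j⟩ h
    rw [inv_inv]
    constructor
    · rintro ⟨s, rfl⟩
      exact D.mem_Uw.1 s.2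
    · intro hh
      exact ⟨⟨h, D.mem_Uw.2 hh⟩, rfl⟩
  r_eq := by
    rintro ⟨v, j⟩ s
    rw [inv_inv]
    exact D.coe_rw v j s
  lev_le := by
    rintro ⟨v, j⟩ N ⟨N₀, ⟨E, hE, hn, rfl⟩, rfl⟩
    exact ⟨_, ⟨E, hE, hn, rfl⟩, le_of_eq rfl⟩
  le_lev := by
    rintro ⟨v, j⟩ N ⟨E, hE, hn, rfl⟩
    exact ⟨_, ⟨_, ⟨E, hE, hn, rfl⟩, rfl⟩, le_of_eq rfl⟩
  cover := by
    intro q' hq' γ
    obtain ⟨j, h, u, hu, hγ⟩ := D.cover ⟨q', hq'⟩ γ⁻¹
    refine ⟨⟨⟨q', hq'⟩, j⟩, ⟨rfl, u⁻¹, inv_mem hu, h⁻¹, ?_⟩, ?_⟩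
    · have e0 : γ = (γ⁻¹)⁻¹ := (inv_inv γ).symm
      have e1 : primeLocalToGlobal q' h⁻¹ = ((galLocal S).r ⟨q', hq'⟩ h)⁻¹ :=
        map_inv (primeLocalToGlobal q') h
      change γ = u⁻¹ * (D.y ⟨q', hq'⟩ j)⁻¹ * primeLocalToGlobal q' h⁻¹
      rw [e1, e0, hγ]
      group
    · rintro ⟨⟨q'', hq''⟩, j'⟩ ⟨hq, u', hu', h', hγ'⟩
      have hq2 : q'' = q' := hq
      subst hq2
      have hjj : j = j' := by
        let h₁ : (galLocal S).Gv ⟨q'', hq''⟩ := h'
        refine D.disjoint ⟨q'', hq''⟩ j j' ⟨h₁ * h, u * u', mul_mem hu hu', ?_⟩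
        have e1 : γ⁻¹ = (galLocal S).r ⟨q'', hq''⟩ h * D.y ⟨q'', hq''⟩ j * u := hγ
        have e2 : γ = u' * (D.y ⟨q'', hq''⟩ j')⁻¹ * (galLocal S).r ⟨q'', hq''⟩ h₁ := hγ'
        have e3 : D.y ⟨q'', hq''⟩ j' = (galLocal S).r ⟨q'', hq''⟩ h₁ * γ⁻¹ * u' := by
          rw [e2]; group
        rw [e3, e1, map_mul]
        group
      subst hjj
      rfl

@[simp] lemma shIsArith_q (hU : ∃ N ∈ (galLevels S).mem, N ≤ F.fixingSubgroup)
    (D : ShData (galLocal S) F.fixingSubgroup) (w : Σ v, D.J v) :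
    (shIsArith S F hU D).q w = w.1.1 := rfl

@[simp] lemma shIsArith_g (hU : ∃ N ∈ (galLevels S).mem, N ≤ F.fixingSubgroup)
    (D : ShData (galLocal S) F.fixingSubgroup) (w : Σ v, D.J v) :
    (shIsArith S F hU D).g w = (D.y w.1 w.2)⁻¹ := rfl

@[simp] lemma shIsArith_j (hU : ∃ N ∈ (galLevels S).mem, N ≤ F.fixingSubgroup)
    (D : ShData (galLocal S) F.fixingSubgroup) (w : Σ v, D.J v) :
    (shIsArith S F hU D).j w = (D.Uw w.1 w.2).subtype := rfl

/-- the restricted levels of `U = Gal(ℚbar/F)` are the `S`-levels below `F` -/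
theorem restrictLevels_mem_eq_sLevels (hU : ∃ N ∈ (galLevels S).mem, N ≤ F.fixingSubgroup) :
    (restrictLevels (galLevels S) F.fixingSubgroup hU).mem = helper59.sLevels S F := by
  ext N
  rw [helper69.mem_sLevels_iff]
  exact Iff.rfl

/-- every subgroup of `G_ℚ` containing an `S`-level is the fixing subgroup of a finite extension
unramified outside `S` -/
theorem exists_field_of_open (U : Subgroup GQ) (hU : ∃ N ∈ (galLevels S).mem, N ≤ U) :
    ∃ F : IntermediateField ℚ (AlgebraicClosure ℚ), F.IsUnramifiedOutside S ∧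
      U = F.fixingSubgroup := by
  obtain ⟨N, ⟨hn, E, hE, rfl⟩, hle⟩ := hU
  have hA := helper69.isAlgebraic_Qbar
  have hC := helper69.isAlgClosure_Qbar
  have hN := helper69.normal_Qbar
  have hG : IsGalois ℚ (AlgebraicClosure ℚ) := ⟨⟩
  have hfd : FiniteDimensional ℚ E := hE.1
  have hopenE : IsOpen (E.fixingSubgroup : Set GQ) := IntermediateField.fixingSubgroup_isOpen E
  have hopen : IsOpen (U : Set GQ) := Subgroup.isOpen_mono hle hopenE
  have hclosed : IsClosed (U : Set GQ) := Subgroup.isClosed_of_isOpen U hopen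
  have hfix : (IntermediateField.fixedField U).fixingSubgroup = U :=
    InfiniteGalois.fixingSubgroup_fixedField ⟨U, hclosed⟩
  refine ⟨IntermediateField.fixedField U, ?_, hfix.symm⟩
  refine hE.of_le ?_
  rw [← InfiniteGalois.fixedField_fixingSubgroup E]
  exact IntermediateField.fixedField_antitone hle

/-- if the cyclotomic character is trivial on `Gal(ℚbar/F)` then `ζ_p ∈ F` -/
theorem hasZeta_of_cycloChar_eq_one (p : ℕ) [Fact p.Prime]
    (h : ∀ g ∈ F.fixingSubgroup, cycloChar p g = 1) : helper59.HasZeta p F := by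
  have hA := helper69.isAlgebraic_Qbar
  have hC := helper69.isAlgClosure_Qbar
  have hN := helper69.normal_Qbar
  have hG : IsGalois ℚ (AlgebraicClosure ℚ) := ⟨⟩
  obtain ⟨ζ, hζ⟩ := Fermat.Agent.S14.helper91.exists_primitiveRoot p
  refine ⟨ζ, hζ, ?_⟩
  rw [← InfiniteGalois.fixedField_fixingSubgroup F, IntermediateField.mem_fixedField_iff]
  intro g hg
  exact (Fermat.Agent.S14.helper91.mem_ker_cycloChar_iff p hζ g).1 (MonoidHom.mem_ker.2 (h g hg))

/-- the degree of `F` is the index of `Gal(ℚbar/F)` -/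
theorem finrank_eq_index_fixingSubgroup :
    Module.finrank ℚ F = F.fixingSubgroup.index := by
  have hA := helper69.isAlgebraic_Qbar
  have hC := helper69.isAlgClosure_Qbar
  have hN := helper69.normal_Qbar
  have hG : IsGalois ℚ (AlgebraicClosure ℚ) := ⟨⟩
  exact IntermediateField.finrank_eq_fixingSubgroup_index (F := ℚ) (E' := AlgebraicClosure ℚ) F

end Fermat.Agent.S55
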