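import Fermat.Agent.S55.helper30_TopLocBDefs
import Fermat.Agent.S55.helper4_BridgeLevels

/-!
# S55 / TOP-LOC-B (helper30, task 475): the twisted local 2-cocycle at `p`

For `d : TopLocData p ζ` (`helper30_TopLocBDefs`), the cochain

  `b (g, h) = χ(r_p g) · x0(g) · y0(h)`   (`χ = cycloChar p`, `r_p = localGaloisToGlobal p`)

on `G_p = Gal(Ω/ℚ_p)` is a level-constant 2-cocycle with values in the twisted module
`(galLocal S).loc (ofChar χ) p` (the cup product of the unramified character `x0` with the Kummer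
cocycle `y0` of `p`):

* `chiLoc`, `chiLoc_mul`, `chiLoc_eq_one_of_fixes` : the local cyclotomic character;
* `TopLocData.bTop` : the cochain; `TopLocData.bTop_apply`;
* `TopLocData.bTop_cocycle` : the twisted cocycle identity;
* `TopLocData.bTop_level` : invariance under the fixing subgroup of the finite extension
  `L0 ⊔ ℚ_p(ζ0, π0)`;
* `TopLocData.bTop_mem_Z2` : `b ∈ Z2 ((galLocal S).lev p) ((galLocal S).loc (ofChar χ) p)`;
* `exists_bTop` : the existence statement in the shape of `TopLocStatement`.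
-/

set_option autoImplicit false

open groupCohomology ExtCitation

noncomputable section

namespace Fermat.Agent.S55.helper30

open Fermat.Agent.S55 Fermat.Agent.S55.helper8

variable (p : ℕ) [Fact p.Prime]

/-- the local cyclotomic character `χ ∘ r_p` with values in `ℤ/p` -/
def chiLoc (g : PadicAlgCl p ≃ₐ[ℚ_[p]] PadicAlgCl p) : ZMod p :=
  ((cycloChar p (localGaloisToGlobal p g) : (ZMod p)ˣ) : ZMod p)

variable {p}

theorem chiLoc_mul (g h : PadicAlgCl p ≃ₐ[ℚ_[p]] PadicAlgCl p) :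
    chiLoc p (g * h) = chiLoc p g * chiLoc p h := by
  unfold chiLoc
  rw [map_mul, map_mul, Units.val_mul]

theorem chiLoc_one : chiLoc p (1 : PadicAlgCl p ≃ₐ[ℚ_[p]] PadicAlgCl p) = 1 := by
  unfold chiLoc
  rw [map_one, map_one, Units.val_one]

/-- an automorphism fixing `ζ0` has `χ = 1` -/
theorem chiLoc_eq_one_of_fixes {ζ : AlgebraicClosure ℚ} (hζ : IsPrimitiveRoot ζ p)
    {s : PadicAlgCl p ≃ₐ[ℚ_[p]] PadicAlgCl p} (hs : s (zeta0 p ζ) = zeta0 p ζ) :
    chiLoc p s = 1 := by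
  have hp : p.Prime := Fact.out
  have : NeZero p := ⟨hp.ne_zero⟩
  have hz := zeta0_isPrimitiveRoot hζ
  have h1 := apply_zeta0 hζ.pow_eq_one s
  rw [hs] at h1
  have h2 : zeta0 p ζ ^ 1 = zeta0 p ζ ^ (chiLoc p s).val := by
    rw [pow_one]
    exact h1
  have h3 := hz.pow_inj hp.one_lt (ZMod.val_lt _) h2
  have h4 : ((chiLoc p s).val : ZMod p) = chiLoc p s := ZMod.natCast_zmod_val _
  rw [← h4, ← h3, Nat.cast_one]

namespace TopLocData

variable {ζ : AlgebraicClosure ℚ} (d : TopLocData p ζ)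

/-- THE COCHAIN of TOP-LOC-B: `b (g, h) = χ(r_p g) · x0(g) · y0(h)`. -/
def bTop (s : (PadicAlgCl p ≃ₐ[ℚ_[p]] PadicAlgCl p) × (PadicAlgCl p ≃ₐ[ℚ_[p]] PadicAlgCl p)) :
    ZMod p :=
  chiLoc p s.1 * d.x0 s.1 * d.y0 s.2

theorem bTop_apply (g h : PadicAlgCl p ≃ₐ[ℚ_[p]] PadicAlgCl p) :
    d.bTop (g, h) = chiLoc p g * d.x0 g * d.y0 h := rfl

/-- the twisted cocycle identity -/
theorem bTop_cocycle (hζ : IsPrimitiveRoot ζ p)
    (g h k : PadicAlgCl p ≃ₐ[ℚ_[p]] PadicAlgCl p) :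
    chiLoc p g * d.bTop (h, k) - d.bTop (g * h, k) + d.bTop (g, h * k) - d.bTop (g, h) = 0 := by
  simp only [bTop_apply, chiLoc_mul, d.x0_mul, d.y0_mul hζ]
  unfold chiLoc
  ring

/-- `s` fixing `L0` has `x0 (g s) = x0 g` -/
theorem x0_mul_of_mem {g s : PadicAlgCl p ≃ₐ[ℚ_[p]] PadicAlgCl p}
    (hs : s ∈ d.L0.fixingSubgroup) : d.x0 (g * s) = d.x0 g := by
  rw [d.x0_mul, (d.x0_eq_zero_iff s).2 hs, add_zero]

/-- `s` fixing `π0` has `y0 (g s) = y0 g` -/
theorem y0_mul_of_fixes (hζ : IsPrimitiveRoot ζ p) {g s : PadicAlgCl p ≃ₐ[ℚ_[p]] PadicAlgCl p}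
    (hs : s d.π0 = d.π0) : d.y0 (g * s) = d.y0 g := by
  rw [d.y0_mul hζ, (d.y0_eq_zero_iff hζ s).2 hs, mul_zero, add_zero]

/-- the field of definition of `b` -/
def K0 : IntermediateField ℚ_[p] (PadicAlgCl p) :=
  d.L0 ⊔ IntermediateField.adjoin ℚ_[p] {zeta0 p ζ, d.π0}

theorem finiteDimensional_K0 : FiniteDimensional ℚ_[p] d.K0 := by
  have := d.finiteDimensional
  have h1 : Algebra.IsAlgebraic ℚ_[p] (PadicAlgCl p) := PadicAlgCl.isAlgebraic p
  have h2 : FiniteDimensional ℚ_[p]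
      (IntermediateField.adjoin ℚ_[p] ({zeta0 p ζ, d.π0} : Set (PadicAlgCl p))) :=
    IntermediateField.finiteDimensional_adjoin
      (fun x _ => (Algebra.IsAlgebraic.isAlgebraic (R := ℚ_[p]) x).isIntegral)
  exact IntermediateField.finiteDimensional_sup _ _

theorem mem_L0_of_mem_K0 {s : PadicAlgCl p ≃ₐ[ℚ_[p]] PadicAlgCl p}
    (hs : s ∈ d.K0.fixingSubgroup) : s ∈ d.L0.fixingSubgroup :=
  IntermediateField.fixingSubgroup_antitone (le_sup_left : d.L0 ≤ d.K0) hs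

theorem fixes_zeta0_of_mem_K0 {s : PadicAlgCl p ≃ₐ[ℚ_[p]] PadicAlgCl p}
    (hs : s ∈ d.K0.fixingSubgroup) : s (zeta0 p ζ) = zeta0 p ζ := by
  rw [IntermediateField.mem_fixingSubgroup_iff] at hs
  refine hs _ ((le_sup_right : _ ≤ d.K0) (IntermediateField.subset_adjoin _ _ ?_))
  exact Set.mem_insert _ _

theorem fixes_π0_of_mem_K0 {s : PadicAlgCl p ≃ₐ[ℚ_[p]] PadicAlgCl p}
    (hs : s ∈ d.K0.fixingSubgroup) : s d.π0 = d.π0 := by
  rw [IntermediateField.mem_fixingSubgroup_iff] at hs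
  refine hs _ ((le_sup_right : _ ≤ d.K0) (IntermediateField.subset_adjoin _ _ ?_))
  exact Set.mem_insert_of_mem _ rfl

/-- `b` is right-invariant under `Gal(Ω/K0)` in both variables -/
theorem bTop_level (hζ : IsPrimitiveRoot ζ p)
    (g g' s s' : PadicAlgCl p ≃ₐ[ℚ_[p]] PadicAlgCl p)
    (hs : s ∈ d.K0.fixingSubgroup) (hs' : s' ∈ d.K0.fixingSubgroup) :
    d.bTop (g * s, g' * s') = d.bTop (g, g') := by
  rw [bTop_apply, bTop_apply, chiLoc_mul,
    chiLoc_eq_one_of_fixes hζ (d.fixes_zeta0_of_mem_K0 hs), mul_one,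
    d.x0_mul_of_mem (d.mem_L0_of_mem_K0 hs), d.y0_mul_of_fixes hζ (d.fixes_π0_of_mem_K0 hs')]

/-- **TOP-LOC-B**: `b` is a level-constant twisted 2-cocycle at `p`. -/
theorem bTop_mem_Z2 (hζ : IsPrimitiveRoot ζ p) (S : Finset Nat.Primes) (hpS : pPrime p ∈ S) :
    (d.bTop : (galLocal S).Gv ⟨pPrime p, hpS⟩ × (galLocal S).Gv ⟨pPrime p, hpS⟩ →
        (galLocal S).loc (groupCohomology.ofChar (k := ZMod p) (cycloChar p)) ⟨pPrime p, hpS⟩) ∈
      Z2 ((galLocal S).lev ⟨pPrime p, hpS⟩)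
        ((galLocal S).loc (groupCohomology.ofChar (k := ZMod p) (cycloChar p))
          ⟨pPrime p, hpS⟩) := by
  refine ⟨?_, ?_⟩
  · change IsLev₂ (locLevels (pPrime p)) _
    rw [helper4.isLev₂_locLevels_iff, helper51.isLevelConstant₂_primeLocalToGlobal_iff]
    exact ⟨d.K0, d.finiteDimensional_K0, fun g g' s s' hs hs' => d.bTop_level hζ g g' s s' hs hs'⟩
  · refine LinearMap.mem_ker.2 ?_
    funext ⟨g, h, k⟩
    exact d.bTop_cocycle hζ g h k

end TopLocData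

/-- TOP-LOC-B, existence form (the first half of `TopLocStatement`). -/
theorem exists_bTop {ζ : AlgebraicClosure ℚ} (hζ : IsPrimitiveRoot ζ p) (S : Finset Nat.Primes)
    (hpS : pPrime p ∈ S) :
    ∃ (d : TopLocData p ζ)
      (b : (galLocal S).Gv ⟨pPrime p, hpS⟩ × (galLocal S).Gv ⟨pPrime p, hpS⟩ →
        (galLocal S).loc (groupCohomology.ofChar (k := ZMod p) (cycloChar p)) ⟨pPrime p, hpS⟩),
      b ∈ Z2 ((galLocal S).lev ⟨pPrime p, hpS⟩)
        ((galLocal S).loc (groupCohomology.ofChar (k := ZMod p) (cycloChar p))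
          ⟨pPrime p, hpS⟩) ∧
      ∀ g h : PadicAlgCl p ≃ₐ[ℚ_[p]] PadicAlgCl p,
        (b (g, h) : ZMod p) = chiLoc p g * d.x0 g * d.y0 h := by
  obtain ⟨d⟩ := nonempty_topLocData hζ
  exact ⟨d, d.bTop, d.bTop_mem_Z2 hζ S hpS, fun _ _ => rfl⟩

end Fermat.Agent.S55.helper30
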