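import Fermat.Agent.S55.helper97_TopLocAsm
import Fermat.Agent.S55.helper30_TopLocB
import Fermat.Agent.S55.helper59_BDic
import Fermat.Agent.S55.ShArith

/-!
# S55 / TOP-LOC-INV (helper12, task 476): restriction lemmas for the value formula
-/

set_option autoImplicit false
set_option linter.unusedSectionVars false

open groupCohomology ExtCitation

noncomputable section

namespace Fermat.Agent.S55.helper12

open Fermat.Agent.S55 Fermat.Agent.S55.helper35

attribute [local instance] Fermat.Agent.S55.helper59.factOfPrimes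

variable (p : ℕ) [Fact p.Prime] {S : Finset Nat.Primes}

/-- the local image of a global `p`-th root of unity: `ζ_w = ζ0 ^ χ(y_j)` -/
theorem coe_locUnit_eq (hpS : pPrime p ∈ S)
    (F : IntermediateField ℚ (AlgebraicClosure ℚ)) [FiniteDimensional ℚ F]
    (hU : ∃ N ∈ (galLevels S).mem, N ≤ F.fixingSubgroup)
    (D : ShData (galLocal S) F.fixingSubgroup) (ζ : (↥F)ˣ) (hζ : (ζ : ↥F) ^ p = 1)
    (j : D.J ⟨pPrime p, hpS⟩) :
    ((((shIsArith S F hU D).locUnit ⟨⟨pPrime p, hpS⟩, j⟩ ζ :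
        ((shIsArith S F hU D).Kw ⟨⟨pPrime p, hpS⟩, j⟩)ˣ) :
        (shIsArith S F hU D).Kw ⟨⟨pPrime p, hpS⟩, j⟩).1 : PadicAlgCl p) =
      helper30.zeta0 p ((ζ : ↥F) : AlgebraicClosure ℚ) ^
        ((cycloChar p (D.y ⟨pPrime p, hpS⟩ j) : (ZMod p)ˣ) : ZMod p).val := by
  have hζ' : (((ζ : ↥F) : AlgebraicClosure ℚ)) ^ p = 1 := by
    have := congrArg (Subtype.val) hζ
    simpa using this
  change padicEmbedding p ((((D.y ⟨pPrime p, hpS⟩ j)⁻¹)⁻¹ : GQ) ((ζ : ↥F) : AlgebraicClosure ℚ)) = _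
  rw [inv_inv, Fermat.Agent.S14.helper91.apply_of_pow_eq_one p _ hζ', map_pow]
  rfl

/-- the cyclotomic character is trivial on the local group `U_(p,j)` when `ζ_p ∈ F` -/
theorem cycloChar_r_eq_one (hpS : pPrime p ∈ S)
    (F : IntermediateField ℚ (AlgebraicClosure ℚ))
    (D : ShData (galLocal S) F.fixingSubgroup) (ζ : (↥F)ˣ) (hζ : IsPrimitiveRoot ζ p)
    (j : D.J ⟨pPrime p, hpS⟩) (s : ↥(D.Uw ⟨pPrime p, hpS⟩ j)) :
    cycloChar p ((galLocal S).r ⟨pPrime p, hpS⟩ ((D.Uw ⟨pPrime p, hpS⟩ j).subtype s)) = 1 := by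
  have hζ' : IsPrimitiveRoot (((ζ : ↥F) : AlgebraicClosure ℚ)) p := by
    have h1 : IsPrimitiveRoot (ζ : ↥F) p := hζ.map_of_injective (f := Units.coeHom ↥F)
      Units.val_injective
    exact h1.map_of_injective (f := F.val) F.val.injective
  have hmem := D.mem_Uw.1 s.2
  have hfix : ((D.y ⟨pPrime p, hpS⟩ j)⁻¹ * (galLocal S).r ⟨pPrime p, hpS⟩ (s : _) *
      D.y ⟨pPrime p, hpS⟩ j) ∈ (cycloChar p).ker := by
    rw [Fermat.Agent.S14.helper91.mem_ker_cycloChar_iff p hζ']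
    exact (IntermediateField.mem_fixingSubgroup_iff F _).1 hmem _ (ζ : ↥F).2
  rw [MonoidHom.mem_ker, map_mul, map_mul, map_inv, mul_comm, ← mul_assoc, mul_inv_cancel,
    one_mul] at hfix
  exact hfix

/-- `chiLoc` form of `cycloChar_r_eq_one` -/
theorem chiLoc_subtype_eq_one (hpS : pPrime p ∈ S)
    (F : IntermediateField ℚ (AlgebraicClosure ℚ))
    (D : ShData (galLocal S) F.fixingSubgroup) (ζ : (↥F)ˣ) (hζ : IsPrimitiveRoot ζ p)
    (j : D.J ⟨pPrime p, hpS⟩) (s : ↥(D.Uw ⟨pPrime p, hpS⟩ j)) :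
    helper30.chiLoc p ((D.Uw ⟨pPrime p, hpS⟩ j).subtype s) = 1 := by
  have := cycloChar_r_eq_one p hpS F D ζ hζ j s
  unfold helper30.chiLoc
  exact congrArg (fun u : (ZMod p)ˣ => (u : ZMod p)) this

/-- the restriction `locRes` of `s ∈ U_w` to a finite level `M / K_w` acts as `j_w s` -/
theorem coe_locRes_apply {F : IntermediateField ℚ (AlgebraicClosure ℚ)}
    {𝒩 : Levels (helper59.UF F)} {ι : Type} {L : LocalData (helper59.UF F) 𝒩 ι}
    (hL : helper59.IsArith S F L) (w : ι)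
    (M : IntermediateField (hL.Kw w) (PadicAlgCl (hL.q w : ℕ))) [Normal (hL.Kw w) M]
    (s : L.Gv w) (m : M) :
    (((hL.locRes w M s) m : M) : PadicAlgCl (hL.q w : ℕ)) =
      hL.jq w s (m : PadicAlgCl (hL.q w : ℕ)) := by
  rw [helper59.IsArith.locRes_eq, AlgEquiv.restrictNormalHom_apply]
  rfl

/-- for the local data of an open subgroup, `j_w` is the inclusion `U_w ≤ G_v` -/
theorem shIsArith_jq_apply (F : IntermediateField ℚ (AlgebraicClosure ℚ))
    (hU : ∃ N ∈ (galLevels S).mem, N ≤ F.fixingSubgroup)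
    (D : ShData (galLocal S) F.fixingSubgroup) (w : Σ v, D.J v)
    (s : (D.localData hU).Gv w) :
    (shIsArith S F hU D).jq w s = (D.Uw w.1 w.2).subtype s := rfl

end Fermat.Agent.S55.helper12
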