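import Fermat.Agent.S55.helper57_LocTameFinal
import Fermat.Agent.S55.helper1_Symbol
import Fermat.Agent.S55.helper33_LocRel

/-!
# S55 / TOP-LOC-INV (helper87): the value of the symbol `(x, p)`

For an unramified extension `L₀/K₀` of `q`-adic fields with Frobenius `φ`, a character `χ` of
`Gal(L₀/K₀)`, and ANY finite Galois extension `M/K` of `q`-adic fields receiving `L₀/K₀`
(`K₀ ⊆ K`, `L₀ ⊆ M`), the invariant of the symbol `(χ ∘ res, b)` over `K` is
`[K : K₀] · ord(b) · χ(φ) / N`: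

* `inv_chiClass_baseChange_of_isUnram` : the general statement
  (`helper1.locH_chiClass` + `LocInv.baseChange` + `helper57.inv_chiClass_of_isUnram`);
* `edeg_padic`, `fdeg_padic`, `ord_padic` : the normalised valuation of `ℚ_q` itself;
* `inv_chiClass_prime` : the case `K₀ = ℚ_q`, `b = q`, `χ(φ) = 1`: the invariant is
  `[K : ℚ_q] / N`;
* `zmod_eq_of_qz_eq`, `zmod_eq_natCast_of_qz_eq` : reading an identity in `ℚ/ℤ` back in `ℤ/p`.
-/

set_option autoImplicit false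
set_option linter.unusedSectionVars false
set_option linter.style.haveILetI false

namespace Fermat.Agent.S55.helper87

open Fermat.Agent.S55 Fermat.Agent.S55.helper8 Fermat.Agent.S55.helper11 groupCohomology

section General

variable (I : LocInv) (q : ℕ) [Fact q.Prime]
  (K₀ L₀ K M : Type) [Field K₀] [Field L₀] [Field K] [Field M]
  [Algebra ℚ_[q] K₀] [Algebra ℚ_[q] L₀] [Algebra K₀ L₀] [IsScalarTower ℚ_[q] K₀ L₀]
  [FiniteDimensional ℚ_[q] K₀] [FiniteDimensional K₀ L₀] [IsGalois K₀ L₀]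
  [Algebra ℚ_[q] K] [FiniteDimensional ℚ_[q] K] [Algebra K M] [FiniteDimensional K M]
  [IsGalois K M] [Algebra K₀ K] [IsScalarTower ℚ_[q] K₀ K] [FiniteDimensional K₀ K]
  [Algebra L₀ M] [Algebra K₀ M] [IsScalarTower K₀ L₀ M] [IsScalarTower K₀ K M]

/-- **Value of the symbol after base change**: the invariant over `K` of the symbol
`(χ ∘ res, b)`, for a character `χ` of an unramified extension `L₀/K₀` and `b ∈ K₀ˣ`, is
`[K : K₀] · ord(b) · χ(Frob) / N`. -/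
theorem inv_chiClass_baseChange_of_isUnram (h : IsUnram q K₀ L₀) (φ : L₀ ≃ₐ[K₀] L₀)
    (hφ : IsFrob q K₀ L₀ φ) (N : ℕ) [NeZero N]
    (χ : (L₀ ≃ₐ[K₀] L₀) →* Multiplicative (ZMod N)) (b : K₀ˣ) :
    I.inv q K M (chiClass K M N (χ.comp (locHom K₀ L₀ K M))
        (Units.map (algebraMap K₀ K : K₀ →* K) b)) =
      Module.finrank K₀ K •
        ((((ord q K₀ b : ℚ) * ((Multiplicative.toAdd (χ φ)).val : ℚ)) / (N : ℚ) : ℚ) : QZ) := by
  rw [← helper1.locH_chiClass K₀ L₀ K M N χ b, I.baseChange q K₀ L₀ K M,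
    helper57.inv_chiClass_of_isUnram q I K₀ L₀ h φ hφ N χ b]

end General

section Padic

variable (q : ℕ) [Fact q.Prime]

/-- `e(ℚ_q/ℚ_q) = 1` -/
theorem edeg_padic : edeg q ℚ_[q] = 1 := by
  have h := helper33.edeg_mul_fdeg q ℚ_[q]
  rw [Module.finrank_self] at h
  exact Nat.eq_one_of_mul_eq_one_right h

/-- `f(ℚ_q/ℚ_q) = 1` -/
theorem fdeg_padic : fdeg q ℚ_[q] = 1 := by
  have h := helper33.edeg_mul_fdeg q ℚ_[q]
  rw [Module.finrank_self] at h
  exact Nat.eq_one_of_mul_eq_one_left h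

/-- the normalised valuation of `ℚ_q` is the `q`-adic valuation -/
theorem ord_padic (x : ℚ_[q]ˣ) : ord q ℚ_[q] x = Padic.valuation (x : ℚ_[q]) := by
  have h := helper33.ord_algebraMap_padic q ℚ_[q] x
  rw [edeg_padic, Nat.cast_one, one_mul] at h
  rw [← h]
  congr 1

/-- `ord q = 1` in `ℚ_q` -/
theorem ord_padic_prime (x : ℚ_[q]ˣ) (hx : (x : ℚ_[q]) = (q : ℚ_[q])) : ord q ℚ_[q] x = 1 := by
  rw [ord_padic, hx]
  exact Padic.valuation_p

end Padic

section Prime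

variable (I : LocInv) (q : ℕ) [Fact q.Prime]
  (L₀ K M : Type) [Field L₀] [Field K] [Field M]
  [Algebra ℚ_[q] L₀] [FiniteDimensional ℚ_[q] L₀] [IsGalois ℚ_[q] L₀]
  [Algebra ℚ_[q] K] [FiniteDimensional ℚ_[q] K] [Algebra K M] [FiniteDimensional K M]
  [IsGalois K M] [Algebra L₀ M] [Algebra ℚ_[q] M] [IsScalarTower ℚ_[q] L₀ M]
  [IsScalarTower ℚ_[q] K M]

/-- **TOP-LOC-INV, value of the symbol**: for the unramified extension `L₀/ℚ_q` with Frobenius
`φ`, a character `χ` of `Gal(L₀/ℚ_q)` with `χ(φ) = 1 ∈ ℤ/N`, and any finite Galois `M/K` of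
`q`-adic fields with `L₀ ⊆ M`: `inv_K (χ ∘ res, q) = [K : ℚ_q] / N`. -/
theorem inv_chiClass_prime (h : IsUnram q ℚ_[q] L₀) (φ : L₀ ≃ₐ[ℚ_[q]] L₀)
    (hφ : IsFrob q ℚ_[q] L₀ φ) (N : ℕ) [NeZero N]
    (χ : (L₀ ≃ₐ[ℚ_[q]] L₀) →* Multiplicative (ZMod N))
    (hχ : (Multiplicative.toAdd (χ φ)).val = 1)
    (qK : Kˣ) (hqK : (qK : K) = (q : K)) :
    I.inv q K M (chiClass K M N (χ.comp (locHom ℚ_[q] L₀ K M)) qK) =
      (((Module.finrank ℚ_[q] K : ℚ) / (N : ℚ) : ℚ) : QZ) := by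
  have hq0 : (q : ℚ_[q]) ≠ 0 := by exact_mod_cast (Fact.out : q.Prime).ne_zero
  have hqK' : qK = Units.map (algebraMap ℚ_[q] K : ℚ_[q] →* K) (Units.mk0 (q : ℚ_[q]) hq0) := by
    ext
    rw [hqK]
    simp
  rw [hqK', inv_chiClass_baseChange_of_isUnram I q ℚ_[q] L₀ K M h φ hφ N χ,
    ord_padic_prime q _ rfl, hχ]
  simp only [Int.cast_one, Nat.cast_one, mul_one]
  rw [← AddCircle.coe_nsmul, nsmul_eq_mul, mul_one_div]

end Prime

section QZ

variable {p : ℕ} [Fact p.Prime]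

/-- reading an identity in `ℚ/ℤ` back in `ℤ/p` -/
theorem zmod_eq_of_qz_eq (a : ZMod p) (n : ℤ)
    (h : ((((a.val : ℚ) / (p : ℚ) : ℚ)) : QZ) = ((((n : ℚ) / (p : ℚ) : ℚ)) : QZ)) :
    a = (n : ZMod p) := by
  have hp : (p : ℚ) ≠ 0 := by exact_mod_cast (Fact.out : p.Prime).ne_zero
  rw [← sub_eq_zero, ← AddCircle.coe_sub, AddCircle.coe_eq_zero_iff] at h
  obtain ⟨k, hk⟩ := h
  rw [zsmul_eq_mul, mul_one] at hk
  have h1 : ((a.val : ℤ) : ℚ) - (n : ℚ) = ((k * p : ℤ) : ℚ) := by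
    push_cast
    field_simp at hk
    linarith
  have h2 : (a.val : ℤ) - n = k * p := by exact_mod_cast h1
  have h3 := congrArg (Int.cast : ℤ → ZMod p) h2
  push_cast at h3
  rw [ZMod.natCast_self, mul_zero, ZMod.natCast_val, ZMod.cast_id', id, sub_eq_zero] at h3
  exact h3

/-- reading an identity in `ℚ/ℤ` back in `ℤ/p`, natural number version -/
theorem zmod_eq_natCast_of_qz_eq (a : ZMod p) (n : ℕ)
    (h : ((((a.val : ℚ) / (p : ℚ) : ℚ)) : QZ) = ((((n : ℚ) / (p : ℚ) : ℚ)) : QZ)) :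
    a = (n : ZMod p) := by
  have := zmod_eq_of_qz_eq a (n : ℤ) (by push_cast; exact h)
  rw [this]
  push_cast
  rfl

end QZ

end Fermat.Agent.S55.helper87
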