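import Fermat.Agent.S55.helper59_BDic
import Fermat.Agent.S55.helper87_TopLocSymbol

/-!
# S55 / TOP-LOC-INV, generic `InvCompat` transfer (helper15)

If `inv` is compatible with the invariant system `Inv` (`helper59.InvCompat`) and the
`Inv`-invariant of the class of `ζ_w ^ c` is `n / p` in `ℚ/ℤ`, then `inv_w (infl c) = n` in
`ZMod p`.  Versions for `n : ℕ`, `n : ℤ` and `a : ZMod p` (`a.val / p`).
-/

set_option autoImplicit false
set_option linter.style.haveILetI false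
set_option linter.unusedSectionVars false
set_option linter.unusedVariables false

open groupCohomology ExtCitation

noncomputable section

namespace Fermat.Agent.S55.helper15

open Fermat.Agent.S55 Fermat.Agent.S55.helper59

local instance factOfPrimesInvT (q : Nat.Primes) : Fact (q : ℕ).Prime := ⟨q.2⟩

variable {S : Finset Nat.Primes} {F : IntermediateField ℚ (AlgebraicClosure ℚ)}
  {𝒩 : Levels (UF F)} {ι : Type} {L : LocalData (UF F) 𝒩 ι}
  {p : ℕ} [Fact p.Prime] [FiniteDimensional ℚ F]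

/-- `InvCompat` transfer, integer version -/
theorem inv_infl_eq_intCast_of_invCompat (Inv : helper11.LocInv) (ζ : (↥F)ˣ)
    (hL : IsArith S F L)
    (inv : ∀ w : ι, (L.Gv w × L.Gv w → ZMod p) →ₗ[ZMod p] ZMod p)
    (hcompat : InvCompat Inv ζ hL inv) (w : ι)
    (M : IntermediateField (hL.Kw w) (PadicAlgCl (hL.q w : ℕ)))
    [FiniteDimensional (hL.Kw w) M] [IsGalois (hL.Kw w) M]
    (c : (M ≃ₐ[hL.Kw w] M) × (M ≃ₐ[hL.Kw w] M) → ZMod p)
    (hc : c ∈ LinearMap.ker (d₂₃ (Rep.trivial (ZMod p) (M ≃ₐ[hL.Kw w] M) (ZMod p))).hom)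
    (n : ℤ)
    (h : haveI := hL.finiteDimensional_Kw w
      Inv.inv (hL.q w : ℕ) (hL.Kw w) M
        (helper8.mulClass (hL.Kw w) M (helper8.zetaCochain p
          (Units.map (algebraMap (hL.Kw w) M : (hL.Kw w) →* M) (hL.locUnit w ζ)) c)) =
        ((((n : ℚ) / (p : ℚ) : ℚ)) : helper11.QZ)) :
    inv w (infl₂ (hL.locRes w M) c) = (n : ZMod p) := by
  have h1 := hcompat w M c hc
  rw [h] at h1
  exact helper87.zmod_eq_of_qz_eq _ n h1

/-- `InvCompat` transfer, natural number version -/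
theorem inv_infl_eq_natCast_of_invCompat (Inv : helper11.LocInv) (ζ : (↥F)ˣ)
    (hL : IsArith S F L)
    (inv : ∀ w : ι, (L.Gv w × L.Gv w → ZMod p) →ₗ[ZMod p] ZMod p)
    (hcompat : InvCompat Inv ζ hL inv) (w : ι)
    (M : IntermediateField (hL.Kw w) (PadicAlgCl (hL.q w : ℕ)))
    [FiniteDimensional (hL.Kw w) M] [IsGalois (hL.Kw w) M]
    (c : (M ≃ₐ[hL.Kw w] M) × (M ≃ₐ[hL.Kw w] M) → ZMod p)
    (hc : c ∈ LinearMap.ker (d₂₃ (Rep.trivial (ZMod p) (M ≃ₐ[hL.Kw w] M) (ZMod p))).hom)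
    (n : ℕ)
    (h : haveI := hL.finiteDimensional_Kw w
      Inv.inv (hL.q w : ℕ) (hL.Kw w) M
        (helper8.mulClass (hL.Kw w) M (helper8.zetaCochain p
          (Units.map (algebraMap (hL.Kw w) M : (hL.Kw w) →* M) (hL.locUnit w ζ)) c)) =
        ((((n : ℚ) / (p : ℚ) : ℚ)) : helper11.QZ)) :
    inv w (infl₂ (hL.locRes w M) c) = (n : ZMod p) := by
  have h1 := hcompat w M c hc
  rw [h] at h1
  exact helper87.zmod_eq_natCast_of_qz_eq _ n h1

/-- `InvCompat` transfer, `ZMod p` version (`qzOfZMod p a = a.val / p`) -/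
theorem inv_infl_eq_of_invCompat (Inv : helper11.LocInv) (ζ : (↥F)ˣ)
    (hL : IsArith S F L)
    (inv : ∀ w : ι, (L.Gv w × L.Gv w → ZMod p) →ₗ[ZMod p] ZMod p)
    (hcompat : InvCompat Inv ζ hL inv) (w : ι)
    (M : IntermediateField (hL.Kw w) (PadicAlgCl (hL.q w : ℕ)))
    [FiniteDimensional (hL.Kw w) M] [IsGalois (hL.Kw w) M]
    (c : (M ≃ₐ[hL.Kw w] M) × (M ≃ₐ[hL.Kw w] M) → ZMod p)
    (hc : c ∈ LinearMap.ker (d₂₃ (Rep.trivial (ZMod p) (M ≃ₐ[hL.Kw w] M) (ZMod p))).hom)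
    (a : ZMod p)
    (h : haveI := hL.finiteDimensional_Kw w
      Inv.inv (hL.q w : ℕ) (hL.Kw w) M
        (helper8.mulClass (hL.Kw w) M (helper8.zetaCochain p
          (Units.map (algebraMap (hL.Kw w) M : (hL.Kw w) →* M) (hL.locUnit w ζ)) c)) =
        qzOfZMod p a) :
    inv w (infl₂ (hL.locRes w M) c) = a := by
  haveI : NeZero p := ⟨(Fact.out : p.Prime).ne_zero⟩
  have h1 := inv_infl_eq_natCast_of_invCompat Inv ζ hL inv hcompat w M c hc a.val h
  rw [h1, ZMod.natCast_val, ZMod.cast_id', id]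

/-- the same for a 2-cochain of `U_w` which is pointwise an inflation -/
theorem inv_eq_natCast_of_invCompat_of_eq (Inv : helper11.LocInv) (ζ : (↥F)ˣ)
    (hL : IsArith S F L)
    (inv : ∀ w : ι, (L.Gv w × L.Gv w → ZMod p) →ₗ[ZMod p] ZMod p)
    (hcompat : InvCompat Inv ζ hL inv) (w : ι)
    (M : IntermediateField (hL.Kw w) (PadicAlgCl (hL.q w : ℕ)))
    [FiniteDimensional (hL.Kw w) M] [IsGalois (hL.Kw w) M]
    (c : (M ≃ₐ[hL.Kw w] M) × (M ≃ₐ[hL.Kw w] M) → ZMod p)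
    (hc : c ∈ LinearMap.ker (d₂₃ (Rep.trivial (ZMod p) (M ≃ₐ[hL.Kw w] M) (ZMod p))).hom)
    (f : L.Gv w × L.Gv w → ZMod p)
    (hf : ∀ s t : L.Gv w, f (s, t) = c (hL.locRes w M s, hL.locRes w M t))
    (n : ℕ)
    (h : haveI := hL.finiteDimensional_Kw w
      Inv.inv (hL.q w : ℕ) (hL.Kw w) M
        (helper8.mulClass (hL.Kw w) M (helper8.zetaCochain p
          (Units.map (algebraMap (hL.Kw w) M : (hL.Kw w) →* M) (hL.locUnit w ζ)) c)) =
        ((((n : ℚ) / (p : ℚ) : ℚ)) : helper11.QZ)) :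
    inv w f = (n : ZMod p) := by
  have hfe : f = infl₂ (hL.locRes w M) c := by
    funext ⟨s, t⟩
    exact hf s t
  rw [hfe]
  exact inv_infl_eq_natCast_of_invCompat Inv ζ hL inv hcompat w M c hc n h

end Fermat.Agent.S55.helper15
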