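import Fermat.Agent.S55.helper87_TopLocCore
import Fermat.Agent.S55.helper12_TopLocInv
import Fermat.Agent.S55.helper15_TopLocInvT

/-!
# S55 / TOP-LOC-INV (helper87, task 476): the value formula and `TopLocStatement`

* `topLoc_value` : for `d : helper30.TopLocData p ζ`, `b = d.bTop` and every `j`:
  `χ(y_j)⁻¹ · inv_(p,j) (b|U_(p,j)) = [K_(p,j) : ℚ_p]` in `ℤ/p`
  (local core `exists_level_cocycle` + `helper12.coe_locUnit_eq`,
  `helper12.chiLoc_subtype_eq_one` + `helper15.inv_eq_natCast_of_invCompat_of_eq`);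
* `topLocValueStatement` : `helper97.TopLocValueStatement p S` (with `c = 1`);
* `topLocStatement` : `TopLocStatement p S`.
-/

set_option autoImplicit false
set_option linter.unusedSectionVars false
set_option linter.style.haveILetI false

open groupCohomology ExtCitation

noncomputable section

namespace Fermat.Agent.S55.helper87

open Fermat.Agent.S55 Fermat.Agent.S55.helper35 Fermat.Agent.S55.helper8
  Fermat.Agent.S55.helper11

attribute [local instance] Fermat.Agent.S55.helper59.factOfPrimes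

variable (p : ℕ) [Fact p.Prime] (S : Finset Nat.Primes)

set_option maxHeartbeats 1000000 in
/-- **TOP-LOC-INV**: the value formula for one place `(p, j)`. -/
theorem topLoc_value (hpS : pPrime p ∈ S)
    (F : IntermediateField ℚ (AlgebraicClosure ℚ)) [FiniteDimensional ℚ F]
    (hU : ∃ N ∈ (galLevels S).mem, N ≤ F.fixingSubgroup)
    (D : ShData (galLocal S) F.fixingSubgroup)
    (Inv : helper11.LocInv) (ζ : (↥F)ˣ) (hζ : IsPrimitiveRoot ζ p)
    (inv : ∀ w : Σ v, D.J v,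
      ((D.localData hU).Gv w × (D.localData hU).Gv w → ZMod p) →ₗ[ZMod p] ZMod p)
    (hcompat : helper59.InvCompat Inv ζ (shIsArith S F hU D) inv)
    (d : helper30.TopLocData p ((ζ : ↥F) : AlgebraicClosure ℚ))
    (j : D.J ⟨pPrime p, hpS⟩) :
    (((cycloChar p (D.y ⟨pPrime p, hpS⟩ j))⁻¹ : (ZMod p)ˣ) : ZMod p) *
        inv ⟨⟨pPrime p, hpS⟩, j⟩ (fun s =>
          d.bTop ((D.Uw ⟨pPrime p, hpS⟩ j).subtype s.1, (D.Uw ⟨pPrime p, hpS⟩ j).subtype s.2)) =
      ((Module.finrank ℚ_[(((shIsArith S F hU D).q ⟨⟨pPrime p, hpS⟩, j⟩ : Nat.Primes) : ℕ)]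
        ((shIsArith S F hU D).Kw ⟨⟨pPrime p, hpS⟩, j⟩) : ℕ) : ZMod p) := by
  classical
  have hp : p.Prime := Fact.out
  haveI : NeZero p := ⟨hp.ne_zero⟩
  have hζ' : IsPrimitiveRoot (((ζ : ↥F) : AlgebraicClosure ℚ)) p := by
    have h1 : IsPrimitiveRoot (ζ : ↥F) p := hζ.map_of_injective (f := Units.coeHom ↥F)
      Units.val_injective
    exact h1.map_of_injective (f := F.val) F.val.injective
  have hζp : (ζ : ↥F) ^ p = 1 := by
    have := hζ.pow_eq_one
    have h2 := congrArg (fun u : (↥F)ˣ => (u : ↥F)) this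
    simpa using h2
  let K : IntermediateField ℚ_[p] (PadicAlgCl p) :=
    (shIsArith S F hU D).Kw ⟨⟨pPrime p, hpS⟩, j⟩
  let ζK : (↥K)ˣ := (shIsArith S F hU D).locUnit ⟨⟨pPrime p, hpS⟩, j⟩ ζ
  let a : (ZMod p)ˣ := cycloChar p (D.y ⟨pPrime p, hpS⟩ j)
  haveI hKfd : FiniteDimensional ℚ_[p] K :=
    (shIsArith S F hU D).finiteDimensional_Kw ⟨⟨pPrime p, hpS⟩, j⟩
  obtain ⟨M, hMfd, hMgal, c, hc, hcval, hinv⟩ :=
    exists_level_cocycle hζ' d K ζK a
      (helper12.coe_locUnit_eq p hpS F hU D ζ hζp j) Inv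
  haveI := hMfd
  haveI := hMgal
  have hMnor : Normal K M := hMgal.to_normal
  have hf : ∀ s t : (D.localData hU).Gv ⟨⟨pPrime p, hpS⟩, j⟩,
      d.bTop ((D.Uw ⟨pPrime p, hpS⟩ j).subtype s, (D.Uw ⟨pPrime p, hpS⟩ j).subtype t) =
        c (@helper59.IsArith.locRes S F _ _ _ (shIsArith S F hU D) ⟨⟨pPrime p, hpS⟩, j⟩ M
            hMnor s,
          @helper59.IsArith.locRes S F _ _ _ (shIsArith S F hU D) ⟨⟨pPrime p, hpS⟩, j⟩ M
            hMnor t) := by
    intro s t
    have e := hcval ((shIsArith S F hU D).locEquiv ⟨⟨pPrime p, hpS⟩, j⟩ s)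
      ((shIsArith S F hU D).locEquiv ⟨⟨pPrime p, hpS⟩, j⟩ t)
    refine Eq.trans ?_ e.symm
    rw [helper30.TopLocData.bTop_apply,
      helper12.chiLoc_subtype_eq_one p hpS F D ζ hζ j s, one_mul]
    rfl
  have hn : Inv.inv p K M (mulClass K M (zetaCochain p
        (Units.map (algebraMap K M : K →* M) ζK) c)) =
      (((((Module.finrank ℚ_[p] K * ((a : ZMod p)).val : ℕ) : ℚ) / (p : ℚ) : ℚ)) :
        helper11.QZ) := by
    refine hinv.trans ?_
    push_cast
    rfl
  have hval := @helper15.inv_eq_natCast_of_invCompat_of_eq S F _ _ _ p _ _ Inv ζ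
    (shIsArith S F hU D) inv hcompat ⟨⟨pPrime p, hpS⟩, j⟩ M hMfd hMgal c hc
    (fun s => d.bTop ((D.Uw ⟨pPrime p, hpS⟩ j).subtype s.1,
      (D.Uw ⟨pPrime p, hpS⟩ j).subtype s.2))
    (fun s t => hf s t) (Module.finrank ℚ_[p] K * ((a : ZMod p)).val) hn
  rw [hval, Nat.cast_mul, ZMod.natCast_val, ZMod.cast_id', id]
  have h1 : ((a⁻¹ : (ZMod p)ˣ) : ZMod p) * (a : ZMod p) = 1 := by
    rw [← Units.val_mul, inv_mul_cancel, Units.val_one]
  calc ((a⁻¹ : (ZMod p)ˣ) : ZMod p) * ((Module.finrank ℚ_[p] K : ZMod p) * (a : ZMod p))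
      = (((a⁻¹ : (ZMod p)ˣ) : ZMod p) * (a : ZMod p)) *
          (Module.finrank ℚ_[p] K : ZMod p) := by ring
    _ = _ := by rw [h1, one_mul]; rfl

/-- **TOP-LOC-B + TOP-LOC-INV**: the local value statement (with `c = 1`). -/
theorem topLocValueStatement : helper97.TopLocValueStatement p S := by
  intro _ hpS F _ hU D Inv ζ hζ inv _ hcompat
  have hζ' : IsPrimitiveRoot (((ζ : ↥F) : AlgebraicClosure ℚ)) p := by
    have h1 : IsPrimitiveRoot (ζ : ↥F) p := hζ.map_of_injective (f := Units.coeHom ↥F)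
      Units.val_injective
    exact h1.map_of_injective (f := F.val) F.val.injective
  obtain ⟨d⟩ := helper30.nonempty_topLocData hζ'
  refine ⟨d.bTop, d.bTop_mem_Z2 hζ' S hpS, 1, one_ne_zero, fun j => ?_⟩
  rw [one_mul]
  exact topLoc_value p S hpS F hU D Inv ζ hζ inv hcompat d j

/-- **TOP-LOC**: the local computation at `p`. -/
theorem topLocStatement : TopLocStatement p S :=
  helper97.topLocStatement_of_value p S (topLocValueStatement p S)

end Fermat.Agent.S55.helper87
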