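import Fermat.Agent.S55.Final
import Fermat.Agent.S55.BaseTargetFinal
import Fermat.Agent.S55.helper35_ShStatement
import Fermat.Agent.S55.helper87_TopLocInv
import Fermat.Agent.S55.helper59_BArFinal

/-!
# S55: final wiring (SH and TOP-LOC are theorems; module B is the only open input)

* `baseTargetP_of_baseInput : BaseInputStatement p S → p ≠ 2 → p ∈ S → BaseTargetP p S`
* `s55_of_baseInput` : the statement of S55 from `BaseInputStatement p S`;
* `s55_of_hyps` : the statement of S55 from the six open inputs of module B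
  (`helper59.HypI3`, `HypI4`, `HypH3`, `HypI7a`, `HypSha1`, `HypSha2`).
-/

set_option autoImplicit false

open groupCohomology ExtCitation

noncomputable section

namespace Fermat.Agent.S55

/-- the weak base target from module B alone -/
theorem baseTargetP_of_baseInput {p : ℕ} [Fact p.Prime] (S : Finset Nat.Primes)
    (hB : BaseInputStatement p S) (hp2 : p ≠ 2) (hpS : pPrime p ∈ S) : BaseTargetP p S :=
  baseTargetP_of_statements p S (helper35.shStatement p S) hB (helper87.topLocStatement p S)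
    hp2 hpS

/-- S55 from module B alone. -/
theorem s55_of_baseInput {p : ℕ} [Fact p.Prime] (S : Finset Nat.Primes)
    (hB : BaseInputStatement p S) (hp2 : p ≠ 2) (hpS : pPrime p ∈ S)
    (M : Rep (ZMod p) (AlgebraicClosure ℚ ≃ₐ[ℚ] AlgebraicClosure ℚ))
    [FiniteDimensional (ZMod p) M]
    (hsm : ∀ m : M, ∃ F : IntermediateField ℚ (AlgebraicClosure ℚ), FiniteDimensional ℚ F ∧
      ∀ s ∈ F.fixingSubgroup, M.ρ s m = m)
    (hMur : ∀ q : Nat.Primes, q ∉ S → ∀ A : ValuationSubring (AlgebraicClosure ℚ),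
      A.LiesOverPrime (q : ℕ) → ∀ g ∈ A.inertiaSubgroupIn ℚ, M.ρ g = 1) :
    ∃ B : sha₁ S (M.dualTwist (cycloChar p)) →ₗ[ZMod p] sha₂ S M →ₗ[ZMod p] ZMod p,
      (∀ y, (∀ x, B y x = 0) → y = 0) ∧ (∀ x, (∀ y, B y x = 0) → x = 0) :=
  s55_of_baseTargetP S (baseTargetP_of_baseInput S hB hp2 hpS) hp2 hpS M hsm hMur

/-- S55 from the six open inputs of module B. -/
theorem s55_of_hyps {p : ℕ} [Fact p.Prime] (S : Finset Nat.Primes)
    (Inv : helper11.LocInv) (h3 : helper59.HypI3 p S Inv) (h4 : helper59.HypI4 p S Inv)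
    (hH3 : helper59.HypH3 p S) (h7 : helper59.HypI7a p S Inv) (hs1 : helper59.HypSha1 p S)
    (hs2 : helper59.HypSha2 p S) (hp2 : p ≠ 2) (hpS : pPrime p ∈ S)
    (M : Rep (ZMod p) (AlgebraicClosure ℚ ≃ₐ[ℚ] AlgebraicClosure ℚ))
    [FiniteDimensional (ZMod p) M]
    (hsm : ∀ m : M, ∃ F : IntermediateField ℚ (AlgebraicClosure ℚ), FiniteDimensional ℚ F ∧
      ∀ s ∈ F.fixingSubgroup, M.ρ s m = m)
    (hMur : ∀ q : Nat.Primes, q ∉ S → ∀ A : ValuationSubring (AlgebraicClosure ℚ),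
      A.LiesOverPrime (q : ℕ) → ∀ g ∈ A.inertiaSubgroupIn ℚ, M.ρ g = 1) :
    ∃ B : sha₁ S (M.dualTwist (cycloChar p)) →ₗ[ZMod p] sha₂ S M →ₗ[ZMod p] ZMod p,
      (∀ y, (∀ x, B y x = 0) → y = 0) ∧ (∀ x, (∀ y, B y x = 0) → x = 0) :=
  s55_of_baseInput S (helper59.baseInputStatement_of_hyps Inv h3 h4 hH3 h7 hs1 hs2) hp2 hpS M
    hsm hMur

end Fermat.Agent.S55
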