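import Fermat.Agent.S55.AExport
import Fermat.Agent.S55.FinalWire

/-!
# S55: exports for later statements (S56), part 2

* `claim_all'` : the CLAIM for the flipped evaluation pairing `ev' : M^*(χ) × M → k(χ)`, for all
  finite smooth `M` (from `claim_all` and double duality `helper45.ddStatement`);
* `exists_tr_claim_all_of_baseInput` : the arithmetic export with SH and TOP-LOC plugged in
  (the only remaining input is `BaseInputStatement p S`), for both pairings;
* `exists_tr_claim_all_of_hyps` : the same from the six open inputs of module B.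
-/

set_option autoImplicit false

universe u

open CategoryTheory Module groupCohomology ExtCitation

noncomputable section

namespace Fermat.Agent.S55

section Abstract

variable {k G : Type u} [Field k] [Group G] {𝒩 : Levels G} {ι : Type} (L : LocalData G 𝒩 ι)

/-- the twisted dual of a finite module is finite -/
lemma finite_dualTwist (χ : G →* kˣ) (M : Rep.{u} k G) [Module.Finite k M] :
    Module.Finite k (M.dualTwist χ) := by
  change Module.Finite k (Module.Dual k M)
  infer_instance

/-- The CLAIM for the flipped pairing `ev' : M^*(χ) × M → k(χ)`, for all finite smooth `M`. -/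
theorem claim_all' (p : ℕ) [Fact p.Prime] [CharP k p] (χ : G →* kˣ)
    (hfin : ∀ N ∈ 𝒩.mem, Finite (G ⧸ N)) (hχ : ∃ N ∈ 𝒩.mem, ∀ g ∈ N, χ g = 1)
    (tr : CcAmb3 L (groupCohomology.ofChar χ) →ₗ[k] k)
    (htr : ∀ c ∈ Bc3 L (groupCohomology.ofChar χ), tr c = 0) (hbase : BaseHypP L p χ tr) :
    ∀ M : Rep.{u} k G, Module.Finite k M → IsSmooth 𝒩 M → Claim L (evPairing' M χ) tr := by
  intro M hM hsm
  have := hM
  exact helper45.ddStatement L χ tr M hM
    (claim_all L p χ hfin hχ tr htr hbase (M.dualTwist χ) (finite_dualTwist χ M)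
      (isSmooth_dualTwist hχ hsm))

end Abstract

variable (p : ℕ) [Fact p.Prime] (S : Finset Nat.Primes)

/-- EXPORT (for S56), SH and TOP-LOC plugged in: a trace functional for `(G_ℚ, S, μ_p)`, killing
cone coboundaries and nonzero on cone cocycles, for which the duality CLAIM holds for ALL finite
smooth modules, for both evaluation pairings. -/
theorem exists_tr_claim_all_of_baseInput (hB : BaseInputStatement p S) (hp2 : p ≠ 2)
    (hpS : pPrime p ∈ S) :
    ∃ tr : CcAmb3 (galLocal S) (groupCohomology.ofChar (k := ZMod p) (cycloChar p)) →ₗ[ZMod p]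
        ZMod p,
      (∀ c ∈ Bc3 (galLocal S) (groupCohomology.ofChar (k := ZMod p) (cycloChar p)), tr c = 0) ∧
      (∃ z ∈ Zc3 (galLocal S) (groupCohomology.ofChar (k := ZMod p) (cycloChar p)), tr z ≠ 0) ∧
      (∀ M : Rep.{0} (ZMod p) GQ, Module.Finite (ZMod p) M → IsSmooth (galLevels S) M →
        Claim (galLocal S) (evPairing M (cycloChar p)) tr) ∧
      ∀ M : Rep.{0} (ZMod p) GQ, Module.Finite (ZMod p) M → IsSmooth (galLevels S) M →
        Claim (galLocal S) (evPairing' M (cycloChar p)) tr := by
  obtain ⟨tr, htr, hne⟩ := exists_top_tr p S hB (helper87.topLocStatement p S) hp2 hpS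
  obtain ⟨hfin, hχ⟩ := helper92.levelStatement p S hpS
  have : CharP (ZMod p) p := ZMod.charP p
  have hbase := baseHypP_of_statements p S (helper35.shStatement p S) hB hp2 hpS tr htr hne
  exact ⟨tr, htr, hne, claim_all (galLocal S) p (cycloChar p) hfin hχ tr htr hbase,
    claim_all' (galLocal S) p (cycloChar p) hfin hχ tr htr hbase⟩

/-- EXPORT (for S56) from the six open inputs of module B. -/
theorem exists_tr_claim_all_of_hyps (Inv : helper11.LocInv) (h3 : helper59.HypI3 p S Inv)
    (h4 : helper59.HypI4 p S Inv) (hH3 : helper59.HypH3 p S) (h7 : helper59.HypI7a p S Inv)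
    (hs1 : helper59.HypSha1 p S) (hs2 : helper59.HypSha2 p S) (hp2 : p ≠ 2)
    (hpS : pPrime p ∈ S) :
    ∃ tr : CcAmb3 (galLocal S) (groupCohomology.ofChar (k := ZMod p) (cycloChar p)) →ₗ[ZMod p]
        ZMod p,
      (∀ c ∈ Bc3 (galLocal S) (groupCohomology.ofChar (k := ZMod p) (cycloChar p)), tr c = 0) ∧
      (∃ z ∈ Zc3 (galLocal S) (groupCohomology.ofChar (k := ZMod p) (cycloChar p)), tr z ≠ 0) ∧
      (∀ M : Rep.{0} (ZMod p) GQ, Module.Finite (ZMod p) M → IsSmooth (galLevels S) M →
        Claim (galLocal S) (evPairing M (cycloChar p)) tr) ∧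
      ∀ M : Rep.{0} (ZMod p) GQ, Module.Finite (ZMod p) M → IsSmooth (galLevels S) M →
        Claim (galLocal S) (evPairing' M (cycloChar p)) tr :=
  exists_tr_claim_all_of_baseInput p S
    (helper59.baseInputStatement_of_hyps Inv h3 h4 hH3 h7 hs1 hs2) hp2 hpS

end Fermat.Agent.S55
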