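import Mathlib
import Fermat.Agent.S55.helper7_LocUnram2

/-!
# S55 / LOC-2a supplement (helper7): `K(ζ)` is unramified of degree `n` inside ANY extension

Requested by helper88 (LOC-4): for a `q`-adic field `K`, any field `Ω` over `K` and a primitive
`(q ^ (f_K * n) - 1)`-th root of unity `ζ ∈ Ω`, the field `K⟮ζ⟯` is Galois and unramified of
degree `n` over `K` (`Ω` need not be algebraically closed).
-/

set_option autoImplicit false

namespace Fermat.Agent.S55.helper7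

open Fermat.Agent.S55.helper8 IntermediateField

variable (q : ℕ) [Fact q.Prime]
variable (K : Type) [Field K] [Algebra ℚ_[q] K] [FiniteDimensional ℚ_[q] K]

theorem isUnram_adjoin_primitiveRoot (Ω : Type) [Field Ω] [Algebra ℚ_[q] Ω] [Algebra K Ω]
    [IsScalarTower ℚ_[q] K Ω] (n : ℕ) (hn : 0 < n) (ζ : Ω)
    (hζ : IsPrimitiveRoot ζ (q ^ (fdeg q K * n) - 1)) :
    FiniteDimensional K K⟮ζ⟯ ∧ IsGalois K K⟮ζ⟯ ∧ Module.finrank K K⟮ζ⟯ = n ∧
      IsUnram q K K⟮ζ⟯ := by
  rw [pow_mul] at hζ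
  have hNq := not_dvd_pow_sub_one q K hn
  have hN0 := ne_zero_of_not_dvd q hNq
  have hint : IsIntegral K ζ := by
    refine IsIntegral.of_pow (Nat.pos_of_ne_zero hN0) ?_
    rw [hζ.pow_eq_one]
    exact isIntegral_one
  have hfd : FiniteDimensional K K⟮ζ⟯ := IntermediateField.adjoin.finiteDimensional hint
  have : FiniteDimensional ℚ_[q] K⟮ζ⟯ := Module.Finite.trans K K⟮ζ⟯
  have htop : Algebra.adjoin K {IntermediateField.AdjoinSimple.gen K ζ} = ⊤ := by
    have := (IntermediateField.adjoin.powerBasis hint).adjoin_gen_eq_top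
    rwa [IntermediateField.adjoin.powerBasis_gen] at this
  have hζ' : IsPrimitiveRoot (IntermediateField.AdjoinSimple.gen K ζ)
      ((q ^ fdeg q K) ^ n - 1) := by
    refine IsPrimitiveRoot.of_map_of_injective (f := algebraMap K⟮ζ⟯ Ω) ?_
      (algebraMap K⟮ζ⟯ Ω).injective
    exact hζ
  obtain ⟨h1, h2, h3, -⟩ := unram_of_primitiveRoot q K K⟮ζ⟯ hn hζ' htop
  exact ⟨hfd, h1, h2, (helper33.isUnram_iff q K K⟮ζ⟯).mpr h3⟩

/-- Variant: `K⟮ζ⟯` is Galois and unramified for ANY root of unity `ζ` of order prime to `q`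
(no information on the degree). -/
theorem isUnram_adjoin_rootOfUnity (Ω : Type) [Field Ω] [Algebra ℚ_[q] Ω] [Algebra K Ω]
    [IsScalarTower ℚ_[q] K Ω] (N : ℕ) (hN : ¬ q ∣ N) (ζ : Ω) (hζ : ζ ^ N = 1) :
    FiniteDimensional K K⟮ζ⟯ ∧ IsGalois K K⟮ζ⟯ ∧ IsUnram q K K⟮ζ⟯ := by
  have hN0 := ne_zero_of_not_dvd q hN
  have hint : IsIntegral K ζ := by
    refine IsIntegral.of_pow (Nat.pos_of_ne_zero hN0) ?_
    rw [hζ]
    exact isIntegral_one
  have hfd : FiniteDimensional K K⟮ζ⟯ := IntermediateField.adjoin.finiteDimensional hint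
  have : FiniteDimensional ℚ_[q] K⟮ζ⟯ := Module.Finite.trans K K⟮ζ⟯
  have htop : Algebra.adjoin K {IntermediateField.AdjoinSimple.gen K ζ} = ⊤ := by
    have := (IntermediateField.adjoin.powerBasis hint).adjoin_gen_eq_top
    rwa [IntermediateField.adjoin.powerBasis_gen] at this
  have hζ' : (IntermediateField.AdjoinSimple.gen K ζ) ^ N = 1 := by
    ext
    simpa using hζ
  obtain ⟨h1, h2⟩ := isUnram_of_adjoin_rootOfUnity q K K⟮ζ⟯ hN hζ' htop
  exact ⟨hfd, h1, h2⟩

end Fermat.Agent.S55.helper7
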