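import Fermat.Agent.S55.Defs

/-!
# S55, module A: interface (shared definitions + EXACT package statements as `Prop`s)

Every package of module A proves one of the `Prop`s below (`theorem pkg : TheProp ...`), possibly
with extra explicit hypotheses discharged by other packages.  The assembly of `MainA` is compiled
against these statements.
-/

set_option autoImplicit false

universe u

open groupCohomology

noncomputable section

namespace Fermat.Agent.S55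

variable {k G : Type u} [Field k] [Group G]

/-! ## Equivariant linear maps and induced maps on cochains -/

/-- A `G`-equivariant `k`-linear map (plain linear map + commutation with the actions). -/
structure EqHom (A A' : Rep.{u} k G) where
  /-- the linear map -/
  f : A →ₗ[k] A'
  comm : ∀ (g : G) (a : A), f (A.ρ g a) = A'.ρ g (f a)

/-- identity -/
def EqHom.id (A : Rep.{u} k G) : EqHom A A := ⟨LinearMap.id, fun _ _ => rfl⟩

/-- composition -/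
def EqHom.comp {A A' A'' : Rep.{u} k G} (g : EqHom A' A'') (f : EqHom A A') : EqHom A A'' :=
  ⟨g.f ∘ₗ f.f, fun s a => by simp [f.comm, g.comm]⟩

/-- the flipped pairing -/
def EqPairing.flip {A B C : Rep.{u} k G} (φ : EqPairing A B C) : EqPairing B A C where
  φ := φ.φ.flip
  equivariant g b a := φ.equivariant g a b

/-- the transpose `f^T : A'^*(χ) → A^*(χ)` of an equivariant map `f : A → A'` -/
def EqHom.dualTwist {A A' : Rep.{u} k G} (f : EqHom A A') (χ : G →* kˣ) :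
    EqHom (A'.dualTwist χ) (A.dualTwist χ) where
  f := Module.Dual.transpose (R := k) f.f
  comm g ξ := by
    apply LinearMap.ext
    intro a
    change ((A'.dualTwist χ).ρ g ξ) (f.f a) = ((A.dualTwist χ).ρ g (ξ ∘ₗ f.f)) a
    rw [Rep.dualTwist_ρ_apply, Rep.dualTwist_ρ_apply]
    change (χ g : k) • ξ (A'.ρ g⁻¹ (f.f a)) = (χ g : k) • ξ (f.f (A.ρ g⁻¹ a))
    rw [f.comm]

variable {𝒩 : Levels G} {ι : Type} (L : LocalData G 𝒩 ι)

/-- induced map on cone 1-cochains -/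
def ccmap₁ {A A' : Rep.{u} k G} (f : A →ₗ[k] A') : CcAmb1 L A →ₗ[k] CcAmb1 L A' where
  toFun x := (fun g => f (x.1 g), fun v => f (x.2 v))
  map_add' x y := by
    refine Prod.ext ?_ ?_ <;> funext t <;> exact map_add f _ _
  map_smul' c x := by
    refine Prod.ext ?_ ?_ <;> funext t <;> exact map_smul f c _

/-- induced map on cone 2-cochains -/
def ccmap₂ {A A' : Rep.{u} k G} (f : A →ₗ[k] A') : CcAmb2 L A →ₗ[k] CcAmb2 L A' where
  toFun x := (fun g => f (x.1 g), fun v s => f (x.2 v s))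
  map_add' x y := by
    refine Prod.ext ?_ ?_
    · funext t; exact map_add f _ _
    · funext v s; exact map_add f _ _
  map_smul' c x := by
    refine Prod.ext ?_ ?_
    · funext t; exact map_smul f c _
    · funext v s; exact map_smul f c _

/-- induced map on cone 3-cochains -/
def ccmap₃ {A A' : Rep.{u} k G} (f : A →ₗ[k] A') : CcAmb3 L A →ₗ[k] CcAmb3 L A' where
  toFun x := (fun g => f (x.1 g), fun v s => f (x.2 v s))
  map_add' x y := by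
    refine Prod.ext ?_ ?_
    · funext t; exact map_add f _ _
    · funext v s; exact map_add f _ _
  map_smul' c x := by
    refine Prod.ext ?_ ?_
    · funext t; exact map_smul f c _
    · funext v s; exact map_smul f c _

/-! ## The four parts of `Claim` as separate propositions -/

section Parts

variable {A B C : Rep.{u} k G} (φ : EqPairing A B C) (tr : CcAmb3 L C →ₗ[k] k)

/-- `β⁰ : H^0(A) → (H_c^3 B)^*` is surjective -/
def Surj0 : Prop :=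
  ∀ ψ : CcAmb3 L B →ₗ[k] k, (∀ y ∈ Bc3 L B, ψ y = 0) →
    ∃ a ∈ H0 A, ∀ y ∈ Zc3 L B, ψ y = tr (cupc₀₃ L φ a y)

/-- `β¹ : H^1(A) → (H_c^2 B)^*` is injective -/
def Inj1 : Prop :=
  ∀ x ∈ Z1 𝒩 A, (∀ y ∈ Zc2 L B, tr (cupc₁₂ L φ x y) = 0) → x ∈ B1 A

/-- `β¹ : H^1(A) → (H_c^2 B)^*` is surjective -/
def Surj1 : Prop :=
  ∀ ψ : CcAmb2 L B →ₗ[k] k, (∀ y ∈ Bc2 L B, ψ y = 0) →
    ∃ x ∈ Z1 𝒩 A, ∀ y ∈ Zc2 L B, ψ y = tr (cupc₁₂ L φ x y)

/-- `β² : H^2(A) → (H_c^1 B)^*` is injective -/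
def Inj2 : Prop :=
  ∀ x ∈ Z2 𝒩 A, (∀ y ∈ Zc1 L B, tr (cupc₂₁ L φ x y) = 0) → x ∈ B2 𝒩 A

lemma claim_iff : Claim L φ tr ↔ Surj0 L φ tr ∧ Inj1 L φ tr ∧ Surj1 L φ tr ∧ Inj2 L φ tr :=
  ⟨fun h => ⟨h.surj0, h.inj1, h.surj1, h.inj2⟩, fun h => ⟨h.1, h.2.1, h.2.2.1, h.2.2.2⟩⟩

end Parts

/-! ## Extension data and retract data -/

/-- Two short exact sequences `0 → A₁ → A → A₂ → 0`, `0 → B₂ → B → B₁ → 0` of smooth modules
with compatible pairings into `C`. -/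
structure ExtData (𝒩 : Levels G) (A₁ A A₂ B₁ B B₂ C : Rep.{u} k G) where
  i : EqHom A₁ A
  π : EqHom A A₂
  j : EqHom B₂ B
  q : EqHom B B₁
  i_inj : Function.Injective i.f
  π_surj : Function.Surjective π.f
  exactA : ∀ a : A, π.f a = 0 ↔ ∃ a₁ : A₁, i.f a₁ = a
  j_inj : Function.Injective j.f
  q_surj : Function.Surjective q.f
  exactB : ∀ b : B, q.f b = 0 ↔ ∃ b₂ : B₂, j.f b₂ = b
  φ₁ : EqPairing A₁ B₁ C
  φ : EqPairing A B C
  φ₂ : EqPairing A₂ B₂ C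
  compat₁ : ∀ (a₁ : A₁) (b : B), φ.φ (i.f a₁) b = φ₁.φ a₁ (q.f b)
  compat₂ : ∀ (a : A) (b₂ : B₂), φ.φ a (j.f b₂) = φ₂.φ (π.f a) b₂
  smoothA : IsSmooth 𝒩 A
  smoothB : IsSmooth 𝒩 B
  smoothC : IsSmooth 𝒩 C

/-- `(A', B', φ')` is a retract of `(A, B, φ)`. -/
structure RetData (A A' B B' C : Rep.{u} k G) where
  s : EqHom A' A
  r : EqHom A A'
  sB : EqHom B' B
  rB : EqHom B B'
  rs : ∀ a' : A', r.f (s.f a') = a'
  rsB : ∀ b' : B', rB.f (sB.f b') = b'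
  φ : EqPairing A B C
  φ' : EqPairing A' B' C
  compat₁ : ∀ (a' : A') (b : B), φ.φ (s.f a') b = φ'.φ a' (rB.f b)
  compat₂ : ∀ (a : A) (b' : B'), φ.φ a (sB.f b') = φ'.φ (r.f a) b'

/-! ## Package statements: dévissage (four windows), retracts, zero module -/

section Statements

/-- A-DEV-0 -/
def DevSurj0 : Prop :=
  ∀ (A₁ A A₂ B₁ B B₂ C : Rep.{u} k G) (E : ExtData 𝒩 A₁ A A₂ B₁ B B₂ C)
    (tr : CcAmb3 L C →ₗ[k] k), (∀ c ∈ Bc3 L C, tr c = 0) →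
    Surj0 L E.φ₁ tr → Surj0 L E.φ₂ tr → Inj1 L E.φ₁ tr → Surj0 L E.φ tr

/-- A-DEV-1I -/
def DevInj1 : Prop :=
  ∀ (A₁ A A₂ B₁ B B₂ C : Rep.{u} k G) (E : ExtData 𝒩 A₁ A A₂ B₁ B B₂ C)
    (tr : CcAmb3 L C →ₗ[k] k), (∀ c ∈ Bc3 L C, tr c = 0) →
    Surj0 L E.φ₂ tr → Inj1 L E.φ₁ tr → Inj1 L E.φ₂ tr → Inj1 L E.φ tr

/-- A-DEV-1S -/
def DevSurj1 : Prop :=
  ∀ (A₁ A A₂ B₁ B B₂ C : Rep.{u} k G) (E : ExtData 𝒩 A₁ A A₂ B₁ B B₂ C)
    (tr : CcAmb3 L C →ₗ[k] k), (∀ c ∈ Bc3 L C, tr c = 0) →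
    Surj1 L E.φ₁ tr → Surj1 L E.φ₂ tr → Inj2 L E.φ₁ tr → Surj1 L E.φ tr

/-- A-DEV-2 -/
def DevInj2 : Prop :=
  ∀ (A₁ A A₂ B₁ B B₂ C : Rep.{u} k G) (E : ExtData 𝒩 A₁ A A₂ B₁ B B₂ C)
    (tr : CcAmb3 L C →ₗ[k] k), (∀ c ∈ Bc3 L C, tr c = 0) →
    Surj1 L E.φ₂ tr → Inj2 L E.φ₁ tr → Inj2 L E.φ₂ tr → Inj2 L E.φ tr

/-- A-RET: `Claim` passes to retracts (in particular it is invariant under isomorphisms). -/
def RetStatement : Prop :=
  ∀ (A A' B B' C : Rep.{u} k G) (R : RetData A A' B B' C) (tr : CcAmb3 L C →ₗ[k] k),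
    Claim L R.φ tr → Claim L R.φ' tr

/-- A-ZERO: `Claim` for zero modules. -/
def ZeroStatement : Prop :=
  ∀ (A B C : Rep.{u} k G) (φ : EqPairing A B C) (tr : CcAmb3 L C →ₗ[k] k),
    Subsingleton A → Subsingleton B → Claim L φ tr

/-- A-IND (the induction): `Claim` for the evaluation pairing of every finite dimensional smooth
module, from `BaseHyp`. -/
def IndStatement (p : ℕ) (χ : G →* kˣ) : Prop :=
  p.Prime → CharP k p → (∀ N ∈ 𝒩.mem, Finite (G ⧸ N)) → (∃ N ∈ 𝒩.mem, ∀ g ∈ N, χ g = 1) →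
  ∀ tr : CcAmb3 L (groupCohomology.ofChar χ) →ₗ[k] k,
    (∀ c ∈ Bc3 L (groupCohomology.ofChar χ), tr c = 0) → BaseHyp L χ tr →
    ∀ M : Rep.{u} k G, Module.Finite k M → IsSmooth 𝒩 M → Claim L (evPairing M χ) tr

/-- A-DD: `Claim` for `ev' : M^*(χ) × M → k(χ)` from `Claim` for `ev : N × N^*(χ) → k(χ)` with
`N = M^*(χ)` (double duality). -/
def DDStatement (χ : G →* kˣ) : Prop :=
  ∀ tr : CcAmb3 L (groupCohomology.ofChar χ) →ₗ[k] k,
    ∀ M : Rep.{u} k G, Module.Finite k M →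
      Claim L (evPairing (M.dualTwist χ) χ) tr → Claim L (evPairing' M χ) tr

/-- A-ADJ: graded commutativity on cocycles: for `w = (y, m) ∈ Z_c^1(B)` and `z = (x, b) ∈ Z_c^2(A)`
the cone 3-cochains `x ∪ w` and `y ∪ z` agree up to the sign `ε` modulo `B_c^3`. -/
def AdjStatement (ε : k) : Prop :=
  ∀ (A B C : Rep.{u} k G) (φ : EqPairing A B C),
    IsSmooth 𝒩 A → IsSmooth 𝒩 B → IsSmooth 𝒩 C →
    ∀ z ∈ Zc2 L A, ∀ w ∈ Zc1 L B,
      cupc₂₁ L φ z.1 w - ε • cupc₁₂ L φ.flip w.1 z ∈ Bc3 L C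

/-- A-FINAL: the Sha-pairing from `Inj1` for `(M^*(χ), M)`, `Inj2` for `(M, M^*(χ))` and the
adjunction identity (consequence of `A-ADJ`, any `ε`). -/
def FinalStatement (χ : G →* kˣ) : Prop :=
  (∃ N ∈ 𝒩.mem, ∀ g ∈ N, χ g = 1) →
  ∀ tr : CcAmb3 L (groupCohomology.ofChar χ) →ₗ[k] k,
    (∀ c ∈ Bc3 L (groupCohomology.ofChar χ), tr c = 0) →
    ∀ M : Rep.{u} k G, Module.Finite k M → IsSmooth 𝒩 M →
      (∃ ε : k, ∀ z ∈ Zc2 L M, ∀ w ∈ Zc1 L (M.dualTwist χ),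
        tr (cupc₂₁ L (evPairing M χ) z.1 w) = ε * tr (cupc₁₂ L (evPairing' M χ) w.1 z)) →
      Inj1 L (evPairing' M χ) tr → Inj2 L (evPairing M χ) tr →
      ∃ B : Sha1 L (M.dualTwist χ) →ₗ[k] Sha2 L M →ₗ[k] k, IsNondeg B

lemma evPairing_flip (M : Rep.{u} k G) (χ : G →* kˣ) :
    (evPairing M χ).flip = evPairing' M χ := rfl

lemma isSmooth_ofChar {χ : G →* kˣ} (hχ : ∃ N ∈ 𝒩.mem, ∀ g ∈ N, χ g = 1) :
    IsSmooth 𝒩 (groupCohomology.ofChar χ) := by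
  obtain ⟨N, hN, h⟩ := hχ
  refine ⟨N, hN, fun s hs a => ?_⟩
  change (χ s : k) • a = a
  rw [h s hs]
  simp

lemma isSmooth_dualTwist {χ : G →* kˣ} (hχ : ∃ N ∈ 𝒩.mem, ∀ g ∈ N, χ g = 1)
    {M : Rep.{u} k G} (hsm : IsSmooth 𝒩 M) : IsSmooth 𝒩 (M.dualTwist χ) := by
  obtain ⟨N, hN, hχN⟩ := hχ
  obtain ⟨N₁, hN₁, h₁⟩ := hsm
  obtain ⟨N₂, hN₂, hle⟩ := 𝒩.directed N hN N₁ hN₁
  refine ⟨N₂, hN₂, fun s hs ξ => ?_⟩
  rw [Rep.dualTwist_ρ_apply, hχN s (hle hs).1]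
  apply LinearMap.ext
  intro a
  have hinv : s⁻¹ ∈ N₁ := N₁.inv_mem (hle hs).2
  simp [h₁ s⁻¹ hinv a]

/-- Assembly of module A. -/
theorem mainA_of_packages (p : ℕ) (χ : G →* kˣ) (ε : k)
    (hInd : IndStatement L p χ) (hDD : DDStatement L χ) (hAdj : AdjStatement L ε)
    (hFinal : FinalStatement L χ) :
    MainA L p χ := by
  intro hp hchar hfin hχ tr htr hbase M hM hsm
  have hsm' : IsSmooth 𝒩 (M.dualTwist χ) := isSmooth_dualTwist hχ hsm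
  have hfd' : Module.Finite k (M.dualTwist χ) := by
    change Module.Finite k (Module.Dual k M)
    infer_instance
  have h1 := hInd hp hchar hfin hχ tr htr hbase M hM hsm
  have h2 := hInd hp hchar hfin hχ tr htr hbase (M.dualTwist χ) hfd' hsm'
  have h3 := hDD tr M hM h2
  refine hFinal hχ tr htr M hM hsm ⟨ε, fun z hz w hw => ?_⟩ h3.inj1 h1.inj2
  have h := hAdj M (M.dualTwist χ) _ (evPairing M χ) hsm hsm' (isSmooth_ofChar hχ) z hz w hw
  have h0 := htr _ h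
  rw [map_sub, map_smul, smul_eq_mul, sub_eq_zero, evPairing_flip] at h0
  exact h0

end Statements

end Fermat.Agent.S55
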