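import Fermat.Agent.S55.helper59_BDefs2
import Fermat.Agent.S55.helper69_BArLev
import Fermat.Agent.S14.helper91_Dictionary

/-!
# S55 module B, package B-AR-DEG (helper96, task 363)

Places of `F` above `S` and local degrees, for an ARITHMETIC local datum `hL : IsArith S F L`.

* `sum_finrank_Kw` : `∑_{w | q} [K_w : ℚ_q] = [F : ℚ]` (orbits of `D_q` on `G_ℚ / U`);
* `card_index_eq` : `#ι = #{primes of 𝓞 F above S}`.

Both statements are VERBATIM those of helper59's interface `helper59_BInterface2`.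
-/

set_option autoImplicit false

open groupCohomology ExtCitation

open scoped NumberField Pointwise

noncomputable section

namespace Fermat.Agent.S55.helper96

open Fermat.Agent.S55 Fermat.Agent.S55.helper59

local instance factOfPrimesDeg (q : Nat.Primes) : Fact (q : ℕ).Prime := ⟨q.2⟩

local notation "Qbar" => AlgebraicClosure ℚ

variable {S : Finset Nat.Primes} {F : IntermediateField ℚ Qbar}
  [FiniteDimensional ℚ F] {𝒩 : Levels (UF F)} {ι : Type} [Fintype ι]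
  {L : LocalData (UF F) 𝒩 ι}

/-! ## Part 1: local degrees -/

/-- `PadicAlgCl q / ℚ_q` is Galois -/
theorem isGalois_padicAlgCl (q : ℕ) [Fact q.Prime] : IsGalois ℚ_[q] (PadicAlgCl q) := by
  have h1 : Algebra.IsAlgebraic ℚ_[q] (PadicAlgCl q) := PadicAlgCl.isAlgebraic q
  have h2 : IsAlgClosure ℚ_[q] (PadicAlgCl q) := ⟨inferInstance, inferInstance⟩
  have h3 : Normal ℚ_[q] (PadicAlgCl q) := IsAlgClosure.normal ℚ_[q] (PadicAlgCl q)
  exact ⟨⟩

omit [FiniteDimensional ℚ F] [Fintype ι] in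
/-- `τ` fixes `K_w` iff `g_w r_q(τ) g_w⁻¹` fixes `F` -/
theorem mem_fixingSubgroup_Kw_iff (hL : IsArith S F L) (w : ι)
    (τ : PadicAlgCl (hL.q w : ℕ) ≃ₐ[ℚ_[((hL.q w : ℕ))]] PadicAlgCl (hL.q w : ℕ)) :
    τ ∈ (hL.Kw w).fixingSubgroup ↔
      hL.g w * localGaloisToGlobal (hL.q w : ℕ) τ * (hL.g w)⁻¹ ∈ F.fixingSubgroup := by
  rw [hL.conj_mem_iff, IsArith.Kw, helper74.mem_fixingSubgroup_localField_iff]

omit [FiniteDimensional ℚ F] [Fintype ι] in
/-- `[K_w : ℚ_q]` is the index of `Gal(Ω/K_w)` in `Gal(Ω/ℚ_q)` -/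
theorem finrank_Kw_eq_index (hL : IsArith S F L) (w : ι) :
    Module.finrank ℚ_[((hL.q w : ℕ))] (hL.Kw w) = (hL.Kw w).fixingSubgroup.index := by
  have := isGalois_padicAlgCl (hL.q w : ℕ)
  exact IntermediateField.finrank_eq_fixingSubgroup_index (L := hL.Kw w)

omit [Fintype ι] in
theorem finiteIndex_fixingSubgroup_Kw (hL : IsArith S F L) (w : ι) :
    (hL.Kw w).fixingSubgroup.FiniteIndex := by
  have := hL.finiteDimensional_Kw w
  refine ⟨?_⟩
  rw [← finrank_Kw_eq_index]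
  exact Module.finrank_pos.ne'

/-- the map `G_q / Gal(Ω/K_w) → G_ℚ / U`, `h ↦ r_q(h) g_w⁻¹ U` -/
def orbMap (hL : IsArith S F L) (w : ι) :
    ((PadicAlgCl (hL.q w : ℕ) ≃ₐ[ℚ_[((hL.q w : ℕ))]] PadicAlgCl (hL.q w : ℕ)) ⧸
      (hL.Kw w).fixingSubgroup) → GQ ⧸ F.fixingSubgroup :=
  Quotient.map' (fun h => localGaloisToGlobal (hL.q w : ℕ) h * (hL.g w)⁻¹) (by
    intro a b hab
    rw [QuotientGroup.leftRel_apply] at hab ⊢
    rw [mem_fixingSubgroup_Kw_iff] at hab
    have e : (localGaloisToGlobal (hL.q w : ℕ) a * (hL.g w)⁻¹)⁻¹ *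
        (localGaloisToGlobal (hL.q w : ℕ) b * (hL.g w)⁻¹) =
        hL.g w * localGaloisToGlobal (hL.q w : ℕ) (a⁻¹ * b) * (hL.g w)⁻¹ := by
      rw [map_mul, map_inv]
      group
    rw [e]
    exact hab)

omit [FiniteDimensional ℚ F] [Fintype ι] in
theorem orbMap_mk (hL : IsArith S F L) (w : ι)
    (h : PadicAlgCl (hL.q w : ℕ) ≃ₐ[ℚ_[((hL.q w : ℕ))]] PadicAlgCl (hL.q w : ℕ)) :
    orbMap hL w (QuotientGroup.mk h) =
      QuotientGroup.mk (localGaloisToGlobal (hL.q w : ℕ) h * (hL.g w)⁻¹) := rfl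

/-- the total orbit map -/
def orbMapSigma (hL : IsArith S F L) (q' : Nat.Primes) :
    (Σ w : {w : ι // hL.q w = q'},
      (PadicAlgCl (hL.q w.1 : ℕ) ≃ₐ[ℚ_[((hL.q w.1 : ℕ))]] PadicAlgCl (hL.q w.1 : ℕ)) ⧸
        (hL.Kw w.1).fixingSubgroup) → GQ ⧸ F.fixingSubgroup :=
  fun x => orbMap hL x.1.1 x.2

omit [FiniteDimensional ℚ F] [Fintype ι] in
theorem orbMapSigma_injective (hL : IsArith S F L) (q' : Nat.Primes) (hq' : q' ∈ S) :
    Function.Injective (orbMapSigma hL q') := by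
  rintro ⟨⟨w₁, hw₁⟩, x₁⟩ ⟨⟨w₂, hw₂⟩, x₂⟩ h
  obtain ⟨h₁, rfl⟩ := QuotientGroup.mk_surjective x₁
  obtain ⟨h₂, rfl⟩ := QuotientGroup.mk_surjective x₂
  simp only [orbMapSigma, orbMap_mk] at h
  rw [QuotientGroup.eq] at h
  -- `u = g₁ r(h₁)⁻¹ r(h₂) g₂⁻¹ ∈ U`
  have hw : w₁ = w₂ := by
    refine (hL.cover q' hq' (hL.g w₂ * localGaloisToGlobal (hL.q w₂ : ℕ) h₂⁻¹)).unique
      ⟨hw₁, _, inv_mem h, (h₁⁻¹ : PadicAlgCl (hL.q w₁ : ℕ) ≃ₐ[ℚ_[((hL.q w₁ : ℕ))]]
        PadicAlgCl (hL.q w₁ : ℕ)), ?_⟩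
      ⟨hw₂, 1, one_mem _, (h₂⁻¹ : PadicAlgCl (hL.q w₂ : ℕ) ≃ₐ[ℚ_[((hL.q w₂ : ℕ))]]
        PadicAlgCl (hL.q w₂ : ℕ)), ?_⟩
    · change _ = _ * hL.g w₁ * localGaloisToGlobal (hL.q w₁ : ℕ) h₁⁻¹
      rw [map_inv, map_inv]
      group
    · change _ = 1 * hL.g w₂ * localGaloisToGlobal (hL.q w₂ : ℕ) h₂⁻¹
      rw [one_mul]
  subst hw
  have hmem : h₁⁻¹ * h₂ ∈ (hL.Kw w₁).fixingSubgroup := by
    rw [mem_fixingSubgroup_Kw_iff]
    have e : hL.g w₁ * localGaloisToGlobal (hL.q w₁ : ℕ) (h₁⁻¹ * h₂) * (hL.g w₁)⁻¹ =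
        (localGaloisToGlobal (hL.q w₁ : ℕ) h₁ * (hL.g w₁)⁻¹)⁻¹ *
          (localGaloisToGlobal (hL.q w₁ : ℕ) h₂ * (hL.g w₁)⁻¹) := by
      rw [map_mul, map_inv]
      group
    rw [e]
    exact h
  have : (QuotientGroup.mk h₁ : _ ⧸ (hL.Kw w₁).fixingSubgroup) = QuotientGroup.mk h₂ :=
    QuotientGroup.eq.mpr hmem
  rw [this]

omit [FiniteDimensional ℚ F] [Fintype ι] in
theorem orbMapSigma_surjective (hL : IsArith S F L) (q' : Nat.Primes) (hq' : q' ∈ S) :
    Function.Surjective (orbMapSigma hL q') := by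
  intro x
  obtain ⟨γ, rfl⟩ := QuotientGroup.mk_surjective x
  obtain ⟨w, ⟨hw, u, hu, h₀, hγ₀⟩, -⟩ := hL.cover q' hq' γ⁻¹
  obtain ⟨h, hγ⟩ : ∃ h : PadicAlgCl (hL.q w : ℕ) ≃ₐ[ℚ_[((hL.q w : ℕ))]] PadicAlgCl (hL.q w : ℕ),
      γ⁻¹ = u * hL.g w * localGaloisToGlobal (hL.q w : ℕ) h := ⟨h₀, hγ₀⟩
  refine ⟨⟨⟨w, hw⟩, QuotientGroup.mk h⁻¹⟩, ?_⟩
  simp only [orbMapSigma, orbMap_mk]
  rw [QuotientGroup.eq]
  have hγ' : hL.g w * localGaloisToGlobal (hL.q w : ℕ) h = u⁻¹ * γ⁻¹ := by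
    rw [hγ]
    group
  have e : (localGaloisToGlobal (hL.q w : ℕ) h⁻¹ * (hL.g w)⁻¹)⁻¹ * γ = u⁻¹ := by
    rw [map_inv, mul_inv_rev, inv_inv, inv_inv, hγ']
    group
  rw [e]
  exact inv_mem hu

/-- the sum of the local degrees over the places above `q' ∈ S` is the global degree -/
theorem sum_finrank_Kw (hL : IsArith S F L) (q' : Nat.Primes) (hq' : q' ∈ S) :
    ∑ w ∈ Finset.univ.filter (fun w => hL.q w = q'),
      Module.finrank ℚ_[((hL.q w : ℕ))] (hL.Kw w) = Module.finrank ℚ F := by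
  have hG : IsGalois ℚ Qbar := Fermat.Agent.S54.helper91.isGalois_Qbar
  have : ∀ w : {w : ι // hL.q w = q'},
      Finite ((PadicAlgCl (hL.q w.1 : ℕ) ≃ₐ[ℚ_[((hL.q w.1 : ℕ))]] PadicAlgCl (hL.q w.1 : ℕ)) ⧸
        (hL.Kw w.1).fixingSubgroup) := fun w => by
    have := finiteIndex_fixingSubgroup_Kw hL w.1
    infer_instance
  have h1 : Module.finrank ℚ F = Nat.card (GQ ⧸ F.fixingSubgroup) :=
    IntermediateField.finrank_eq_fixingSubgroup_index (L := F)
  have h2 := Nat.card_congr (Equiv.ofBijective (orbMapSigma hL q')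
    ⟨orbMapSigma_injective hL q' hq', orbMapSigma_surjective hL q' hq'⟩)
  rw [Nat.card_sigma] at h2
  rw [h1, ← h2, Finset.sum_subtype (p := fun w => hL.q w = q')
    (Finset.univ.filter (fun w => hL.q w = q')) (by simp)]
  refine Finset.sum_congr rfl fun w _ => ?_
  exact finrank_Kw_eq_index hL w.1

/-! ## Part 2: the places of `F` above `S` -/

section Places

open Fermat.Agent.S54.helper91 Fermat.Agent.S14.helper91

attribute [local instance] zbarAction zbarTopology zbarActionOver zbarAlgebraOver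

/-- the prime of `Zbar` cut out by a conjugate valuation subring -/
theorem zbarPrime_smul (σ : GQ) (A : ValuationSubring Qbar) :
    zbarPrime (σ • A) = σ • zbarPrime A := by
  ext b
  rw [Ideal.mem_pointwise_smul_iff_inv_smul_mem, mem_zbarPrime_iff, mem_zbarPrime_iff,
    ← ValuationSubring.mem_nonunits_iff, ← ValuationSubring.mem_nonunits_iff]
  have h := helper69.apply_mem_nonunits_smul_iff A σ ((σ⁻¹ • b : Zbar) : Qbar)
  have e : σ ((σ⁻¹ • b : Zbar) : Qbar) = (b : Qbar) := by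
    rw [zbar_smul_coe, ← AlgEquiv.mul_apply, mul_inv_cancel, AlgEquiv.one_apply]
  rw [e] at h
  exact h

/-- a valuation subring of `ℚbar` over `ℓ` is determined by its prime of `Zbar` (one inclusion) -/
theorem le_of_zbarPrime_eq {A B : ValuationSubring Qbar} {ℓ : ℕ} (hℓ : ℓ.Prime)
    (hA : A.LiesOverPrime ℓ) (h : zbarPrime A = zbarPrime B) : A ≤ B := by
  intro a ha
  obtain ⟨s, x, hs, hx, hs1, hsx⟩ := exists_integral_fraction A hℓ hA ha (isAlgebraic_int_Qbar a)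
  have hsB : B.valuation s = 1 := by
    refine le_antisymm (valuation_le_one_of_isIntegral B hs) (not_lt.mp fun hlt => ?_)
    have h1 : (⟨s, hs⟩ : Zbar) ∈ zbarPrime B := (mem_zbarPrime_iff B _).mpr hlt
    rw [← h, mem_zbarPrime_iff] at h1
    rw [hs1] at h1
    exact lt_irrefl _ h1
  have hxB : B.valuation x ≤ 1 := valuation_le_one_of_isIntegral B hx
  rw [← B.valuation_le_one_iff]
  have h4 : B.valuation s * B.valuation a = B.valuation x := by rw [← map_mul, hsx]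
  rw [hsB, one_mul] at h4
  rw [h4]
  exact hxB

theorem eq_of_zbarPrime_eq {A B : ValuationSubring Qbar} {ℓ : ℕ} (hℓ : ℓ.Prime)
    (hA : A.LiesOverPrime ℓ) (hB : B.LiesOverPrime ℓ) (h : zbarPrime A = zbarPrime B) : A = B :=
  le_antisymm (le_of_zbarPrime_eq hℓ hA h) (le_of_zbarPrime_eq hℓ hB h.symm)

/-- a valuation subring lies over at most one prime -/
theorem liesOverPrime_unique {A : ValuationSubring Qbar} {ℓ ℓ' : ℕ} (hℓ : ℓ.Prime)
    (hℓ' : ℓ'.Prime) (hA : A.LiesOverPrime ℓ) (hA' : A.LiesOverPrime ℓ') : ℓ = ℓ' := by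
  by_contra hne
  have hcop : IsCoprime (ℓ : ℤ) (ℓ' : ℤ) :=
    Nat.isCoprime_iff_coprime.mpr ((Nat.coprime_primes hℓ hℓ').mpr hne)
  obtain ⟨a, b, hab⟩ := hcop
  have h1 : A.valuation (ℓ : Qbar) < 1 := A.mem_nonunits_iff.mp hA
  have h2 : A.valuation (ℓ' : Qbar) < 1 := A.mem_nonunits_iff.mp hA'
  have e : (1 : Qbar) = (a : Qbar) * (ℓ : Qbar) + (b : Qbar) * (ℓ' : Qbar) := by
    have := congrArg (fun n : ℤ => (n : Qbar)) hab
    simp only [Int.cast_add, Int.cast_mul, Int.cast_natCast, Int.cast_one] at this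
    exact this.symm
  have h3 : A.valuation (1 : Qbar) < 1 := by
    rw [e]
    refine Valuation.map_add_lt _ ?_ ?_
    · rw [map_mul]
      calc A.valuation (a : Qbar) * A.valuation (ℓ : Qbar)
          ≤ 1 * A.valuation (ℓ : Qbar) := by
            gcongr
            exact valuation_intCast_le_one A a
        _ = A.valuation (ℓ : Qbar) := one_mul _
        _ < 1 := h1
    · rw [map_mul]
      calc A.valuation (b : Qbar) * A.valuation (ℓ' : Qbar)
          ≤ 1 * A.valuation (ℓ' : Qbar) := by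
            gcongr
            exact valuation_intCast_le_one A b
        _ = A.valuation (ℓ' : Qbar) := one_mul _
        _ < 1 := h2
  rw [map_one] at h3
  exact lt_irrefl _ h3

/-- the prime of `ℤ` below the prime of `Zbar` cut out by a valuation subring over `ℓ` -/
theorem under_zbarPrime {A : ValuationSubring Qbar} {ℓ : ℕ} (hℓ : ℓ.Prime)
    (hA : A.LiesOverPrime ℓ) : (zbarPrime A).under ℤ = Ideal.span {(ℓ : ℤ)} := by
  have hmax : (Ideal.span {(ℓ : ℤ)}).IsMaximal :=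
    PrincipalIdealRing.isMaximal_of_irreducible (Nat.prime_iff_prime_int.mp hℓ).irreducible
  have hle : Ideal.span {(ℓ : ℤ)} ≤ (zbarPrime A).under ℤ := by
    rw [Ideal.span_singleton_le_iff_mem, Ideal.mem_comap]
    have := natCast_mem_zbarPrime A hA
    simpa using this
  have hne : (zbarPrime A).under ℤ ≠ ⊤ := by
    have : ((zbarPrime A).under ℤ).IsPrime := Ideal.comap_isPrime _ _
    exact this.ne_top
  exact (hmax.eq_of_le hne hle).symm

/-- **transitivity**: `G_ℚ` acts transitively on the valuation subrings of `ℚbar` over `ℓ` -/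
theorem exists_smul_eq_of_liesOverPrime {A B : ValuationSubring Qbar} {ℓ : ℕ} (hℓ : ℓ.Prime)
    (hA : A.LiesOverPrime ℓ) (hB : B.LiesOverPrime ℓ) : ∃ σ : GQ, B = σ • A := by
  have := compactSpace_GQ
  have := totallyDisconnectedSpace_GQ
  have := zbar_discrete
  have := zbar_continuousSMul
  have := zbar_isInvariant
  obtain ⟨σ, hσ⟩ := Algebra.IsInvariant.exists_smul_of_under_eq_of_profinite
    (A := ℤ) (B := Zbar) (G := GQ) (zbarPrime A) (zbarPrime B)
    ((under_zbarPrime hℓ hA).trans (under_zbarPrime hℓ hB).symm)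
  refine ⟨σ, eq_of_zbarPrime_eq hℓ hB (helper69.liesOverPrime_smul hA σ) ?_⟩
  rw [zbarPrime_smul, hσ]

/-- elements of `Gal(ℚbar/F)`, seen in `G_ℚ`, fix `F` -/
theorem restrictScalars_mem_fixingSubgroup (F : IntermediateField ℚ Qbar) (h : GalOver ↥F) :
    (h.restrictScalars ℚ : GQ) ∈ F.fixingSubgroup := by
  rw [IntermediateField.mem_fixingSubgroup_iff]
  intro x hx
  exact h.commutes ⟨x, hx⟩

/-- the prime of `𝓞 F` cut out by a valuation subring only depends on its `U`-orbit -/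
theorem primeOf_smul_of_mem_fixingSubgroup (F : IntermediateField ℚ Qbar) {u : GQ}
    (hu : u ∈ F.fixingSubgroup) (A : ValuationSubring Qbar) :
    primeOf ↥F (u • A) = primeOf ↥F A := by
  ext x
  rw [mem_primeOf_iff, mem_primeOf_iff, ← ValuationSubring.mem_nonunits_iff,
    ← ValuationSubring.mem_nonunits_iff]
  have h := helper69.apply_mem_nonunits_smul_iff A u (algebraMap ↥F Qbar (x : ↥F))
  have e : u (algebraMap ↥F Qbar (x : ↥F)) = algebraMap ↥F Qbar (x : ↥F) :=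
    (IntermediateField.mem_fixingSubgroup_iff _ _).mp hu _ (x : ↥F).2
  rw [e] at h
  exact h

/-- **transitivity over `F`**: two valuation subrings of `ℚbar` over `ℓ` with the same prime of
`𝓞 F` are conjugate under `U = Gal(ℚbar/F)` -/
theorem exists_smul_eq_of_primeOf_eq (F : IntermediateField ℚ Qbar)
    {A B : ValuationSubring Qbar} {ℓ : ℕ} (hℓ : ℓ.Prime)
    (hA : A.LiesOverPrime ℓ) (hB : B.LiesOverPrime ℓ) (h : primeOf ↥F A = primeOf ↥F B) :
    ∃ u ∈ F.fixingSubgroup, B = u • A := by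
  have := compactSpace_over ↥F
  have := totallyDisconnectedSpace_over ↥F
  have := zbar_discrete
  have := zbarOver_continuousSMul ↥F
  have := zbarOver_isInvariant ↥F
  have := zbarOver_smulCommClass ↥F
  obtain ⟨σ, hσ⟩ := Algebra.IsInvariant.exists_smul_of_under_eq_of_profinite
    (A := 𝓞 ↥F) (B := Zbar) (G := GalOver ↥F) (zbarPrime A) (zbarPrime B) h
  refine ⟨(σ.restrictScalars ℚ : GQ), restrictScalars_mem_fixingSubgroup F σ,
    eq_of_zbarPrime_eq hℓ hB (helper69.liesOverPrime_smul hA _) ?_⟩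
  rw [zbarPrime_smul, smul_restrictScalars, hσ]

/-- the valuation subring of `ℚbar` attached to `w` : `g_w • (place of ℚbar at q_w)` -/
def placeAt (hL : IsArith S F L) (w : ι) : ValuationSubring Qbar :=
  hL.g w • primeLocalPlace (hL.q w)

omit [FiniteDimensional ℚ F] [Fintype ι] in
theorem placeAt_liesOverPrime (hL : IsArith S F L) (w : ι) :
    (placeAt hL w).LiesOverPrime (hL.q w : ℕ) :=
  helper69.liesOverPrime_smul (helper74.primeLocalPlace_liesOverPrime (hL.q w)) (hL.g w)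

/-- the prime of `𝓞 F` attached to `w` : `{x | ‖ι_q (g_w⁻¹ x)‖ < 1}` -/
def primeAt (hL : IsArith S F L) (w : ι) : Ideal (𝓞 ↥F) :=
  primeOf ↥F (placeAt hL w)

omit [FiniteDimensional ℚ F] [Fintype ι] in
theorem natCast_mem_primeAt (hL : IsArith S F L) (w : ι) :
    ((hL.q w : ℕ) : 𝓞 ↥F) ∈ primeAt hL w :=
  natCast_mem_primeOf ↥F _ (placeAt_liesOverPrime hL w)

omit [FiniteDimensional ℚ F] [Fintype ι] in
theorem primeAt_mem [NumberField ↥F] (hL : IsArith S F L) (w : ι) :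
    primeAt hL w ∈ helper75.primesOverS ↥F S := by
  refine ⟨primeOf_isPrime ↥F _, ?_, hL.q w, hL.q_mem w, natCast_mem_primeAt hL w⟩
  intro hbot
  have h := natCast_mem_primeAt hL w
  rw [hbot, Ideal.mem_bot] at h
  exact (hL.q w).2.ne_zero (by exact_mod_cast h)

omit [FiniteDimensional ℚ F] [Fintype ι] in
theorem primeAt_injective (hL : IsArith S F L) : Function.Injective (primeAt hL) := by
  intro w₁ w₂ h
  have hq : hL.q w₁ = hL.q w₂ := by
    have h2 : (placeAt hL w₁).LiesOverPrime (hL.q w₂ : ℕ) := by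
      apply liesOverPrime_of_natCast_mem ↥F
      change _ ∈ primeAt hL w₁
      rw [h]
      exact natCast_mem_primeAt hL w₂
    exact Subtype.ext
      (liesOverPrime_unique (hL.q w₁).2 (hL.q w₂).2 (placeAt_liesOverPrime hL w₁) h2)
  have hB : (placeAt hL w₂).LiesOverPrime (hL.q w₁ : ℕ) := by
    rw [hq]
    exact placeAt_liesOverPrime hL w₂
  obtain ⟨u, hu, hu2⟩ := exists_smul_eq_of_primeOf_eq F (hL.q w₁).2
    (placeAt_liesOverPrime hL w₁) hB h
  have hσ : (hL.g w₁)⁻¹ * u⁻¹ * hL.g w₂ ∈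
      (primeLocalPlace (hL.q w₁)).decompositionSubgroup ℚ := by
    have e : hL.g w₂ • primeLocalPlace (hL.q w₁) = placeAt hL w₂ := by
      rw [hq]
      rfl
    rw [MulAction.mem_stabilizer_iff, mul_smul, mul_smul, e, hu2, inv_smul_smul]
    exact inv_smul_smul _ _
  obtain ⟨τ, hτ⟩ := helper74.exists_primeLocalToGlobal_eq (hL.q w₁) hσ
  refine (hL.cover (hL.q w₂) (hL.q_mem w₂) (hL.g w₂)).unique
    ⟨hq, u, hu, τ, ?_⟩ ⟨rfl, 1, one_mem _, 1, ?_⟩
  · rw [hτ]
    group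
  · rw [map_one, one_mul, mul_one]

omit [FiniteDimensional ℚ F] [Fintype ι] in
theorem exists_primeAt_eq [NumberField ↥F] (hL : IsArith S F L) (P : Ideal (𝓞 ↥F))
    (hP : P ∈ helper75.primesOverS ↥F S) : ∃ w, primeAt hL w = P := by
  obtain ⟨hprime, hne, q, hq, hqP⟩ := hP
  have hmax : P.IsMaximal := hprime.isMaximal hne
  obtain ⟨A, rfl⟩ := exists_primeOf_eq ↥F P
  have hA : A.LiesOverPrime (q : ℕ) := liesOverPrime_of_natCast_mem ↥F A hqP
  obtain ⟨γ, hγ⟩ := exists_smul_eq_of_liesOverPrime q.2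
    (helper74.primeLocalPlace_liesOverPrime q) hA
  obtain ⟨w, ⟨hw, u, hu, h, hγ'⟩, -⟩ := hL.cover q hq γ
  subst hw
  refine ⟨w, ?_⟩
  have hh : primeLocalToGlobal (hL.q w) h • primeLocalPlace (hL.q w) =
      primeLocalPlace (hL.q w) :=
    MulAction.mem_stabilizer_iff.mp
      (localGaloisToGlobal_mem_decompositionSubgroup (hL.q w : ℕ) h)
  rw [hγ, hγ', mul_smul, mul_smul, hh, primeOf_smul_of_mem_fixingSubgroup F hu]
  rfl

end Places

/-- `ι` is the set of primes of `F` above `S` -/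
theorem card_index_eq [NumberField ↥F] (hL : IsArith S F L) :
    Nat.card ι = Nat.card ↥(helper75.primesOverS (↥F) S) := by
  refine Nat.card_congr (Equiv.ofBijective
    (fun w => (⟨primeAt hL w, primeAt_mem hL w⟩ : ↥(helper75.primesOverS (↥F) S))) ⟨?_, ?_⟩)
  · intro w₁ w₂ h
    exact primeAt_injective hL (congrArg Subtype.val h)
  · rintro ⟨P, hP⟩
    obtain ⟨w, rfl⟩ := exists_primeAt_eq hL P hP
    exact ⟨w, rfl⟩

end Fermat.Agent.S55.helper96
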