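import Fermat.Agent.S14.Defs

/-!
# S55 / REC4 (HILB, helper75): shared definitions

`F` a number field, `S` a finite set of rational primes, `p` a prime.

* `primesOverS F S` : the nonzero primes of `𝓞 F` lying above a prime of `S`;
* `clSubgroup F p S` : the subgroup of `ClassGroup (𝓞 F)` generated by the classes of the primes
  above `S` and by all `p`-th powers;
* `ClSModP F p S` : the quotient `Cl_S(F) / p`;
* `IsSplitOverS F M S` : every prime of `F` above `S` has trivial Frobenius in the abelian
  extension `M/F` (for `M/F` unramified: splits completely).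

DEFINITIONS ONLY (sorry-free).
-/

set_option autoImplicit false

open scoped NumberField nonZeroDivisors

noncomputable section

namespace Fermat.Agent.S55.helper75

open Fermat.Agent.S14

variable (F : Type*) [Field F] [NumberField F]

/-- The nonzero primes of `𝓞 F` lying above one of the rational primes in `S`. -/
def primesOverS (S : Finset Nat.Primes) : Set (Ideal (𝓞 F)) :=
  {P | P.IsPrime ∧ P ≠ ⊥ ∧ ∃ q ∈ S, ((q : ℕ) : 𝓞 F) ∈ P}

/-- The classes of the primes above `S`. -/
def classesOverS (S : Finset Nat.Primes) : Set (ClassGroup (𝓞 F)) :=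
  {c | ∃ 𝔞 : (Ideal (𝓞 F))⁰, (𝔞 : Ideal (𝓞 F)) ∈ primesOverS F S ∧ c = ClassGroup.mk0 𝔞}

/-- The subgroup of the class group generated by the classes of the primes above `S` and by the
`p`-th powers. -/
def clSubgroup (p : ℕ) (S : Finset Nat.Primes) : Subgroup (ClassGroup (𝓞 F)) :=
  Subgroup.closure (classesOverS F S ∪ Set.range fun c : ClassGroup (𝓞 F) => c ^ p)

/-- `Cl_S(F) / p` : the `S`-class group of `F` modulo `p`-th powers. -/
abbrev ClSModP (p : ℕ) (S : Finset Nat.Primes) : Type _ :=
  ClassGroup (𝓞 F) ⧸ clSubgroup F p S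

/-- Every prime of `F` above `S` has trivial Frobenius in `M/F`. -/
def IsSplitOverS (M : Type*) [Field M] [NumberField M] [Algebra F M] [IsGalois F M]
    (S : Finset Nat.Primes) : Prop :=
  ∀ P ∈ primesOverS F S, frobAt F M P = 1

end Fermat.Agent.S55.helper75
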