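import Fermat.Agent.S55.helper59_BDic
import Fermat.Agent.S55.helper75_Rec4Defs

/-!
# S55 module B: definitions for the arithmetic packages (v2)

* `sha1Z L`, `sha2Z L` : locally trivial 1- and 2-cocycles (trivial coefficients);
* `resZ1 L` : the localisation map `Z¹(U) → ∏_w (U_w → k)`;
* the finite-level hypotheses consumed from LOC (`HypLocalDuality`).
-/

set_option autoImplicit false

universe u

open groupCohomology ExtCitation

noncomputable section

namespace Fermat.Agent.S55.helper59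

open Fermat.Agent.S55

section Sha

variable {k : Type u} [Field k] {G : Type u} [Group G] {𝒩 : Levels G} {ι : Type}
  (L : LocalData G 𝒩 ι)

/-- level 1-cocycles which vanish on every local group (`Sha¹`, trivial coefficients) -/
def sha1Z : Submodule k (G → k) :=
  Z1 𝒩 (T k G) ⊓ ⨅ w : ι, LinearMap.ker (res₁ L (T k G) w)

/-- level 2-cocycles whose restriction to every local group is a level coboundary -/
def sha2Z : Submodule k (G × G → k) :=
  Z2 𝒩 (T k G) ⊓ LocTriv2 L (T k G)

lemma mem_sha1Z_iff (x : G → k) :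
    x ∈ sha1Z L ↔ x ∈ Z1 𝒩 (T k G) ∧ ∀ w, ∀ s : L.Gv w, x (L.r w s) = 0 := by
  simp only [sha1Z, Submodule.mem_inf, Submodule.mem_iInf, LinearMap.mem_ker]
  refine and_congr Iff.rfl (forall_congr' fun w => ?_)
  exact ⟨fun h s => congrFun h s, fun h => funext h⟩

lemma mem_sha2Z_iff (z : G × G → k) :
    z ∈ sha2Z L ↔ z ∈ Z2 𝒩 (T k G) ∧
      ∀ w, (fun s : L.Gv w × L.Gv w => z (L.r w s.1, L.r w s.2)) ∈
        B2 (L.lev w) (T k (L.Gv w)) := by
  simp only [sha2Z, LocTriv2, Submodule.mem_inf, Submodule.mem_iInf, Submodule.mem_comap]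
  rfl

/-- the localisation map on level 1-cocycles -/
def resZ1 : ↥(Z1 𝒩 (T k G)) →ₗ[k] (∀ w : ι, L.Gv w → k) :=
  LinearMap.pi fun w => (res₁ L (T k G) w).comp (Z1 𝒩 (T k G)).subtype

@[simp] lemma resZ1_apply (x : ↥(Z1 𝒩 (T k G))) (w : ι) (s : L.Gv w) :
    resZ1 L x w s = (x : G → k) (L.r w s) := rfl

end Sha

/-- What module B consumes from LOC (statement of `helper8` LOC-9 `nonempty_localDuality`). -/
def HypLocalDuality (Inv : helper11.LocInv) (p : ℕ) [Fact p.Prime] : Prop :=
  ∀ (q : ℕ) [Fact q.Prime] (K Ω : Type) [Field K] [Field Ω] [Algebra ℚ_[q] K]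
    [FiniteDimensional ℚ_[q] K] [Algebra K Ω] [IsAlgClosure K Ω] (ζ : Kˣ),
    IsPrimitiveRoot ζ p → Nonempty (helper8.LocalDuality Inv q p K Ω ζ)

end Fermat.Agent.S55.helper59
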