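import Fermat.Agent.S14.helper91_Dictionary
import Fermat.Agent.S55.helper59_BDefs2

/-!
# S55 / REC4-BR-DICT (helper85, task 392): the relative prime dictionary

`F ⊆ M ⊆ ℚbar`, `M / F` normal, `A` a valuation subring of `ℚbar` over the prime `ℓ`:
the decomposition (inertia) group of `Gal(M/F)` at `primeOf M A` is the image of
`D_A ∩ Gal(ℚbar/F)` (`I_A ∩ Gal(ℚbar/F)`).
-/

set_option autoImplicit false

open groupCohomology ExtCitation
open scoped NumberField Pointwise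

noncomputable section

namespace Fermat.Agent.S55.helper85

open Fermat.Agent.S55 Fermat.Agent.S55.helper59 Fermat.Agent.S14.helper91
open Fermat.Agent.S54.helper91 hiding GQ

attribute [local instance] zbarAction zbarTopology zbarActionOver zbarAlgebraOver

/-- the prime cut out by a valuation subring over a prime number is maximal. -/
theorem primeOf_isMaximal (L : Type*) [Field L] [Algebra ℚ L] [Algebra L Qbar]
    [IsScalarTower ℚ L Qbar] (A : ValuationSubring Qbar) {ℓ : ℕ} (hℓ : ℓ.Prime)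
    (hA : A.LiesOverPrime ℓ) : (primeOf L A).IsMaximal := by
  apply Ideal.isMaximal_of_isIntegral_of_isMaximal_comap (R := ℤ)
  have hprime : ((primeOf L A).comap (algebraMap ℤ (𝓞 L))).IsPrime := Ideal.comap_isPrime _ _
  refine IsPrime.to_maximal_ideal (hpi := hprime) ?_
  intro hbot
  have hmem : (ℓ : ℤ) ∈ (primeOf L A).comap (algebraMap ℤ (𝓞 L)) := by
    rw [Ideal.mem_comap]
    have := natCast_mem_primeOf L A hA
    simpa using this
  rw [hbot, Ideal.mem_bot] at hmem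
  exact hℓ.ne_zero (by exact_mod_cast hmem)

section Dict

variable (F : IntermediateField ℚ (AlgebraicClosure ℚ))
  (M : IntermediateField ↥F (AlgebraicClosure ℚ)) [Normal ↥F ↥M]

theorem normal_over_base : Normal ↥F Qbar :=
  haveI := normal_Qbar
  Normal.tower_top_of_normal ℚ ↥F Qbar

/-- restriction to `M` is compatible with the inclusion `𝓞 M → Zbar`. -/
theorem toZbar_smul_rel (σ : Qbar ≃ₐ[↥F] Qbar) (x : 𝓞 ↥M) :
    toZbar ↥M ((AlgEquiv.restrictNormalHom ↥M σ) • x) =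
      (σ.restrictScalars ℚ : GQ) • toZbar ↥M x := by
  apply Subtype.ext
  show algebraMap ↥M Qbar ((AlgEquiv.restrictNormalHom ↥M σ) (x : ↥M)) =
    σ (algebraMap ↥M Qbar (x : ↥M))
  exact AlgEquiv.restrictNormal_commutes σ ↥M (x : ↥M)

theorem comap_smul_zbar_rel (σ : Qbar ≃ₐ[↥F] Qbar) (Q : Ideal Zbar) :
    ((σ.restrictScalars ℚ : GQ) • Q).comap (toZbar ↥M) =
      (AlgEquiv.restrictNormalHom ↥M σ) • (Q.comap (toZbar ↥M)) := by
  ext x
  rw [Ideal.mem_comap, Ideal.mem_pointwise_smul_iff_inv_smul_mem,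
    Ideal.mem_pointwise_smul_iff_inv_smul_mem, Ideal.mem_comap, ← map_inv, toZbar_smul_rel]
  rfl

omit [Normal ↥F ↥M] in
/-- an automorphism mapping the maximal ideal `primeOf M A` into itself stabilises it. -/
theorem smul_primeOf_eq (A : ValuationSubring Qbar) {ℓ : ℕ} (hℓ : ℓ.Prime)
    (hA : A.LiesOverPrime ℓ) (τ : ↥M ≃ₐ[↥F] ↥M)
    (hτ : ∀ x : 𝓞 ↥M, x ∈ primeOf ↥M A → τ • x ∈ primeOf ↥M A) :
    τ • primeOf ↥M A = primeOf ↥M A := by
  have hmax := primeOf_isMaximal ↥M A hℓ hA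
  have hle : primeOf ↥M A ≤ τ⁻¹ • primeOf ↥M A := by
    intro x hx
    rw [Ideal.mem_pointwise_smul_iff_inv_smul_mem, inv_inv]
    exact hτ x hx
  have hne : τ⁻¹ • primeOf ↥M A ≠ ⊤ := by
    intro htop
    have h1 : (1 : 𝓞 ↥M) ∈ τ⁻¹ • primeOf ↥M A := by rw [htop]; trivial
    rw [Ideal.mem_pointwise_smul_iff_inv_smul_mem, inv_inv, smul_one] at h1
    exact hmax.ne_top ((Ideal.eq_top_iff_one _).mpr h1)
  have heq : primeOf ↥M A = τ⁻¹ • primeOf ↥M A := hmax.eq_of_le hne hle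
  conv_lhs => rw [heq]
  rw [smul_smul, mul_inv_cancel, one_smul]

/-- the product of an element of `Gal(ℚbar/M)` and an element of `Gal(ℚbar/F)`, as an element
of `Gal(ℚbar/F) = F.fixingSubgroup`. -/
def liftUF (h : GalOver ↥M) (σ₀ : Qbar ≃ₐ[↥F] Qbar) : UF F :=
  ⟨(h.restrictScalars ℚ : GQ) * (σ₀.restrictScalars ℚ : GQ), by
    rw [IntermediateField.mem_fixingSubgroup_iff]
    intro x hx
    show h (σ₀ x) = x
    have h1 : σ₀ x = x := σ₀.commutes ⟨x, hx⟩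
    rw [h1]
    exact h.commutes (algebraMap ↥F ↥M ⟨x, hx⟩)⟩

omit [Normal ↥F ↥M] in
theorem coe_liftUF (h : GalOver ↥M) (σ₀ : Qbar ≃ₐ[↥F] Qbar) :
    ((liftUF F M h σ₀ : UF F) : GQ) =
      (h.restrictScalars ℚ : GQ) * (σ₀.restrictScalars ℚ : GQ) := rfl

theorem resFix_liftUF (h : GalOver ↥M) (σ₀ : Qbar ≃ₐ[↥F] Qbar) :
    resFix F M (liftUF F M h σ₀) = AlgEquiv.restrictNormalHom ↥M σ₀ := by
  ext x
  rw [resFix_apply_coe]
  show h (σ₀ (x : Qbar)) = _
  have h1 : σ₀ (x : Qbar) = ((AlgEquiv.restrictNormalHom ↥M σ₀ x : ↥M) : Qbar) :=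
    (AlgEquiv.restrictNormal_commutes σ₀ ↥M x).symm
  rw [h1]
  exact h.commutes (AlgEquiv.restrictNormalHom ↥M σ₀ x)

/-- decomposition groups: every `τ ∈ Gal(M/F)` stabilising the prime `primeOf M A` is the
restriction of an element of `D_A ∩ Gal(ℚbar/F)` -/
theorem exists_dec_lift (A : ValuationSubring (AlgebraicClosure ℚ)) {ℓ : ℕ} (hℓ : ℓ.Prime)
    (hA : A.LiesOverPrime ℓ) (τ : ↥M ≃ₐ[↥F] ↥M)
    (hτ : ∀ x : 𝓞 ↥M, x ∈ primeOf ↥M A → τ • x ∈ primeOf ↥M A) :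
    ∃ σ : UF F, ((σ : UF F) : GQ) ∈ A.decompositionSubgroup ℚ ∧ resFix F M σ = τ := by
  have := normal_over_base F
  have := compactSpace_over ↥M
  have := totallyDisconnectedSpace_over ↥M
  have := zbar_discrete
  have := zbarOver_continuousSMul ↥M
  have := zbarOver_isInvariant ↥M
  have := zbarOver_smulCommClass ↥M
  have hstab := smul_primeOf_eq F M A hℓ hA τ hτ
  obtain ⟨σ₀, hσ₀⟩ := AlgEquiv.restrictNormalHom_surjective (F := ↥F) (K₁ := ↥M) Qbar τ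
  have h1 : ((σ₀.restrictScalars ℚ : GQ) • zbarPrime A).comap (toZbar ↥M) =
      (zbarPrime A).comap (toZbar ↥M) := by
    rw [comap_smul_zbar_rel, hσ₀]; exact hstab
  obtain ⟨h, hh⟩ := Algebra.IsInvariant.exists_smul_of_under_eq_of_profinite
    (A := 𝓞 ↥M) (B := Zbar) (G := GalOver ↥M) ((σ₀.restrictScalars ℚ : GQ) • zbarPrime A)
    (zbarPrime A) h1
  refine ⟨liftUF F M h σ₀, mem_decompositionSubgroup_of_stab A hℓ hA _ ?_, ?_⟩
  · rw [coe_liftUF, zbar_mul_smul_ideal, smul_restrictScalars, ← hh]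
  · rw [resFix_liftUF, hσ₀]

/-- an element of `Gal(ℚbar/M)` as an element of `Gal(ℚbar/F) = F.fixingSubgroup`. -/
def ofGalOver (h : GalOver ↥M) : UF F :=
  ⟨(h.restrictScalars ℚ : GQ), by
    rw [IntermediateField.mem_fixingSubgroup_iff]
    intro x hx
    exact h.commutes (algebraMap ↥F ↥M ⟨x, hx⟩)⟩

theorem resFix_ofGalOver (h : GalOver ↥M) : resFix F M (ofGalOver F M h) = 1 := by
  ext x
  rw [resFix_apply_coe]
  exact h.commutes x

/-- restriction along `resFix` is compatible with the inclusion `𝓞 M → Zbar`. -/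
theorem toZbar_resFix_smul (σ : UF F) (x : 𝓞 ↥M) :
    toZbar ↥M ((resFix F M σ) • x) = ((σ : UF F) : GQ) • toZbar ↥M x := by
  apply Subtype.ext
  exact resFix_apply_coe F M σ (x : ↥M)

/-- inertia groups: every `τ ∈ Gal(M/F)` in the inertia group of `primeOf M A` is the
restriction of an element of `I_A ∩ Gal(ℚbar/F)` -/
theorem exists_inertia_lift (A : ValuationSubring (AlgebraicClosure ℚ)) {ℓ : ℕ} (hℓ : ℓ.Prime)
    (hA : A.LiesOverPrime ℓ) (τ : ↥M ≃ₐ[↥F] ↥M)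
    (hτ : ∀ x : 𝓞 ↥M, τ • x - x ∈ primeOf ↥M A) :
    ∃ σ : UF F, ((σ : UF F) : GQ) ∈ A.inertiaSubgroupIn ℚ ∧ resFix F M σ = τ := by
  have := compactSpace_over ↥M
  have := totallyDisconnectedSpace_over ↥M
  have := zbar_discrete
  have := zbarOver_continuousSMul ↥M
  have := zbarOver_isInvariant ↥M
  have := zbarOver_smulCommClass ↥M
  have hτ' : ∀ x : 𝓞 ↥M, x ∈ primeOf ↥M A → τ • x ∈ primeOf ↥M A := fun x hx => by
    have := add_mem (hτ x) hx
    rwa [sub_add_cancel] at this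
  obtain ⟨σ₁, hσ₁D, hσ₁⟩ := exists_dec_lift F M A hℓ hA τ hτ'
  have hσ₁Q : ((σ₁ : UF F) : GQ) • zbarPrime A = zbarPrime A :=
    smul_zbarPrime_of_mem_dec A hσ₁D
  have : (zbarPrime A).LiesOver (primeOf ↥M A) := ⟨rfl⟩
  -- the automorphism of `Zbar ⧸ Q` induced by `σ₁`
  let φ₀ : (Zbar ⧸ zbarPrime A) ≃ₐ[ℤ ⧸ (zbarPrime A).under ℤ] (Zbar ⧸ zbarPrime A) :=
    Ideal.Quotient.stabilizerHom (zbarPrime A) ((zbarPrime A).under ℤ) GQ
      ⟨((σ₁ : UF F) : GQ), hσ₁Q⟩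
  have hφ₀ : ∀ b : Zbar, φ₀ (Ideal.Quotient.mk _ b) =
      Ideal.Quotient.mk _ (((σ₁ : UF F) : GQ) • b) := fun b => rfl
  let φ : (Zbar ⧸ zbarPrime A) ≃ₐ[𝓞 ↥M ⧸ primeOf ↥M A] (Zbar ⧸ zbarPrime A) :=
    AlgEquiv.ofRingEquiv (f := φ₀.toRingEquiv) (by
      intro r
      obtain ⟨x, rfl⟩ := Ideal.Quotient.mk_surjective r
      show φ₀ (Ideal.Quotient.mk _ (toZbar ↥M x)) = Ideal.Quotient.mk _ (toZbar ↥M x)
      rw [hφ₀, Ideal.Quotient.eq, ← toZbar_resFix_smul, hσ₁, ← map_sub]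
      exact hτ x)
  have hφ : ∀ b : Zbar, φ (Ideal.Quotient.mk _ b) =
      Ideal.Quotient.mk _ (((σ₁ : UF F) : GQ) • b) := fun b => rfl
  obtain ⟨g, hg⟩ := Ideal.Quotient.stabilizerHom_surjective_of_profinite (G := GalOver ↥M)
    (primeOf ↥M A) (zbarPrime A) φ.symm
  have hgQ : (g.1.restrictScalars ℚ : GQ) • zbarPrime A = zbarPrime A := by
    rw [smul_restrictScalars]; exact g.2
  have hσQ : ((g.1.restrictScalars ℚ : GQ) * ((σ₁ : UF F) : GQ)) • zbarPrime A =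
      zbarPrime A := by
    rw [zbar_mul_smul_ideal, hσ₁Q, hgQ]
  refine ⟨ofGalOver F M g.1 * σ₁, ?_, ?_⟩
  · show (g.1.restrictScalars ℚ : GQ) * ((σ₁ : UF F) : GQ) ∈ A.inertiaSubgroupIn ℚ
    rw [mem_inertiaSubgroupIn_iff_zbar A hℓ hA]
    refine ⟨hσQ, fun b => ?_⟩
    rw [← Ideal.Quotient.eq]
    have h1 : Ideal.Quotient.mk (zbarPrime A)
        (((g.1.restrictScalars ℚ : GQ) * ((σ₁ : UF F) : GQ)) • b) =
        Ideal.Quotient.stabilizerHom (zbarPrime A) (primeOf ↥M A) (GalOver ↥M) g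
          (Ideal.Quotient.mk _ (((σ₁ : UF F) : GQ) • b)) := rfl
    rw [h1, hg, ← hφ, AlgEquiv.symm_apply_apply]
  · rw [map_mul, resFix_ofGalOver, one_mul, hσ₁]

end Dict

end Fermat.Agent.S55.helper85
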