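import Fermat.Agent.S55.helper8_LocDefs2

/-!
# S55 / LOC-7a (helper30, task 326): Kummer characters of `Gal(Ω/K)`, `ζ_p ∈ K`

`K` is any field containing a primitive `p`-th root of unity `ζ` and `Ω` an algebraic closure
of `K` (no separability hypothesis).  With `galLevels K Ω` and trivial `ZMod p` coefficients:

* `exists_kummerChar` : every `a : Kˣ` has a Kummer character
  (`α ^ p = a`, `σ α = ζ ^ x(σ) α`, `x` a level 1-cocycle);
* `exists_kummer_of_mem_Z1` : every level 1-cocycle (= level-constant character) is the Kummer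
  character of some `a : Kˣ` (Hilbert 90 + purely inseparable descent);
* `finite_Z1_of_finite` : `Z1` is a finite module when `Kˣ / (Kˣ)^p` is finite
  (LOC-1 input `card_units_mod_pow`);
* `mem_Z1_trivial_iff` : `Z1` unfolded; `exists_pow_mem_range_of_fixed`; `exists_units_of_char`.

The first two are the exact statements of `helper8_LocInterface2`, section LOC7.
-/

set_option autoImplicit false

namespace Fermat.Agent.S55.helper30

open Fermat.Agent.S55 Fermat.Agent.S55.helper8 groupCohomology IntermediateField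

/-- Elements of an algebraic closure fixed by all automorphisms are purely inseparable over the
base field. -/
theorem exists_pow_mem_range_of_fixed (K Ω : Type) [Field K] [Field Ω] [Algebra K Ω]
    [IsAlgClosure K Ω] (c : Ω) (hc : ∀ σ : Ω ≃ₐ[K] Ω, σ c = c) :
    ∃ n : ℕ, c ^ (ringExpChar K) ^ n ∈ (algebraMap K Ω).range := by
  classical
  have : IsAlgClosed Ω := IsAlgClosure.isAlgClosed K
  have : Algebra.IsAlgebraic K Ω := IsAlgClosure.isAlgebraic
  have : Normal K Ω := inferInstance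
  have hcalg : IsAlgebraic K c := Algebra.IsAlgebraic.isAlgebraic c
  rw [← minpoly.natSepDegree_eq_one_iff_pow_mem (ringExpChar K),
    Polynomial.natSepDegree_eq_of_isAlgClosed Ω]
  have hroots : ((minpoly K c).aroots Ω).toFinset = {c} := by
    ext y
    rw [Multiset.mem_toFinset, Finset.mem_singleton,
      Polynomial.mem_aroots]
    constructor
    · rintro ⟨_, hy⟩
      obtain ⟨σ, hσ⟩ := minpoly.exists_algEquiv_of_root' hcalg hy
      rw [← hσ, hc σ]
    · rintro rfl
      exact ⟨minpoly.ne_zero hcalg.isIntegral, minpoly.aeval K y⟩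
  rw [hroots, Finset.card_singleton]

/-- Hilbert 90 for a `μ_p`-valued character of the automorphism group of a finite extension. -/
theorem exists_units_of_char {K L : Type*} [Field K] [Field L] [Algebra K L]
    [FiniteDimensional K L] (p : ℕ) [NeZero p] (ζ : Kˣ) (hζp : ζ ^ p = 1)
    (y : (L ≃ₐ[K] L) → ZMod p) (hy : ∀ g h, y (g * h) = y g + y h) :
    ∃ β : Lˣ, ∀ τ : L ≃ₐ[K] L, τ (β : L) = algebraMap K L ((ζ : K) ^ (y τ).val) * β := by
  set ζL : Lˣ := Units.map (algebraMap K L : K →* L) ζ with hζL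
  have hζLp : ζL ^ p = 1 := by
    rw [hζL, ← map_pow, hζp, map_one]
  have hζLfix : ∀ τ : L ≃ₐ[K] L, (τ • ζL : Lˣ) = ζL := by
    intro τ
    ext
    simp [hζL, AlgEquiv.smul_units_def]
  have hcoc : IsMulCocycle₁ (fun τ : L ≃ₐ[K] L => ζL ^ (y τ).val) := by
    intro g h
    simp only
    rw [smul_pow', hζLfix, hy, ZMod.val_add, ← pow_add, add_comm (y h).val]
    conv_rhs => rw [← Nat.mod_add_div ((y g).val + (y h).val) p]
    rw [pow_add, pow_mul, hζLp, one_pow, mul_one]
  obtain ⟨β, hβ⟩ := isMulCoboundary₁_of_isMulCocycle₁_of_aut_to_units _ hcoc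
  refine ⟨β, fun τ => ?_⟩
  have h1 : (τ • β : Lˣ) / β = ζL ^ (y τ).val := hβ τ
  have h2 : (τ • β : Lˣ) = ζL ^ (y τ).val * β := by
    rw [← h1, div_mul_cancel]
  have h3 := congrArg (fun u : Lˣ => (u : L)) h2
  simp only [Units.val_mul, Units.val_pow_eq_pow_val] at h3
  rw [map_pow]
  exact h3

section kummer

variable (p : ℕ) [Fact p.Prime]
  (K Ω : Type) [Field K] [Field Ω] [Algebra K Ω]

/-- Membership in `Z1` of the Galois levels with trivial `ZMod p` coefficients, unfolded. -/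
theorem mem_Z1_trivial_iff (x : (Ω ≃ₐ[K] Ω) → ZMod p) :
    x ∈ Z1 (galLevels K Ω) (Rep.trivial (ZMod p) (Ω ≃ₐ[K] Ω) (ZMod p)) ↔
      (∃ L : IntermediateField K Ω, FiniteDimensional K L ∧ L.fixingSubgroup.Normal ∧
        ∀ g : Ω ≃ₐ[K] Ω, ∀ s ∈ L.fixingSubgroup, x (g * s) = x g) ∧
      ∀ g h : Ω ≃ₐ[K] Ω, x (g * h) = x g + x h := by
  unfold Z1
  rw [Submodule.mem_inf, mem_C1, LinearMap.mem_ker]
  constructor
  · rintro ⟨⟨N, ⟨hN, L, hL, rfl⟩, hx⟩, hd⟩
    refine ⟨⟨L, hL, hN, hx⟩, fun g h => ?_⟩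
    have := congrFun hd (g, h)
    simp only [d₁₂_hom_apply] at this
    have h2 : x h - x (g * h) + x g = 0 := this
    linear_combination -h2
  · rintro ⟨⟨L, hL, hN, hx⟩, hd⟩
    refine ⟨⟨L.fixingSubgroup, ⟨hN, L, hL, rfl⟩, hx⟩, ?_⟩
    funext g
    simp only [d₁₂_hom_apply]
    show x g.2 - x (g.1 * g.2) + x g.1 = 0
    rw [hd]
    ring

variable {p K Ω} in
/-- Uniqueness of the exponent: `ζ ^ a = ζ ^ b` for a primitive `p`-th root of unity forces
`a = b` in `ZMod p`. -/
theorem zmod_eq_of_pow_eq {M : Type*} [CommMonoid M] {z : M} (hz : IsPrimitiveRoot z p)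
    {a b : ZMod p} (h : z ^ a.val = z ^ b.val) : a = b := by
  have hp : 0 < p := (Fact.out : p.Prime).pos
  have : NeZero p := ⟨hp.ne'⟩
  have h1 := hz.pow_inj (ZMod.val_lt a) (ZMod.val_lt b) h
  exact ZMod.val_injective p h1

variable [IsAlgClosure K Ω] (ζ : Kˣ) (hζ : IsPrimitiveRoot ζ p)

include hζ in
/-- LOC-7a (Kummer theory, existence): every element of `Kˣ` has a Kummer character. -/
theorem exists_kummerChar (a : Kˣ) :
    ∃ x ∈ Z1 (galLevels K Ω) (Rep.trivial (ZMod p) (Ω ≃ₐ[K] Ω) (ZMod p)),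
      ∃ α : Ω, α ^ p = algebraMap K Ω a ∧
        ∀ σ : Ω ≃ₐ[K] Ω, σ α = algebraMap K Ω ((ζ : K) ^ (x σ).val) * α := by
  classical
  have hp : 0 < p := (Fact.out : p.Prime).pos
  have : NeZero p := ⟨hp.ne'⟩
  have : IsAlgClosed Ω := IsAlgClosure.isAlgClosed K
  have : Algebra.IsAlgebraic K Ω := IsAlgClosure.isAlgebraic
  -- the root of unity in Ω
  set z : Ω := algebraMap K Ω (ζ : K) with hz
  have hζK : IsPrimitiveRoot (ζ : K) p :=
    hζ.map_of_injective (f := Units.coeHom K) Units.val_injective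
  have hzprim : IsPrimitiveRoot z p := hζK.map_of_injective (algebraMap K Ω).injective
  -- the root α
  obtain ⟨α, hα⟩ := IsAlgClosed.exists_pow_nat_eq (algebraMap K Ω (a : K)) hp
  have hα0 : α ≠ 0 := by
    rintro rfl
    rw [zero_pow hp.ne'] at hα
    exact (a.ne_zero) ((map_eq_zero (algebraMap K Ω)).mp hα.symm)
  -- the exponents
  have hex : ∀ σ : Ω ≃ₐ[K] Ω, ∃ k : ZMod p, σ α = z ^ k.val * α := by
    intro σ
    have h1 : (σ α / α) ^ p = 1 := by
      rw [div_pow, ← map_pow, hα, AlgEquiv.commutes, div_self]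
      exact (map_ne_zero (algebraMap K Ω)).mpr a.ne_zero
    obtain ⟨k, hk, hkc⟩ := hzprim.eq_pow_of_pow_eq_one h1
    refine ⟨(k : ZMod p), ?_⟩
    rw [ZMod.val_natCast, Nat.mod_eq_of_lt hk, hkc, div_mul_cancel₀ _ hα0]
  choose x hx using hex
  have hxz : ∀ σ : Ω ≃ₐ[K] Ω, σ z = z := fun σ => σ.commutes _
  have hmul : ∀ g h : Ω ≃ₐ[K] Ω, x (g * h) = x g + x h := by
    intro g h
    apply zmod_eq_of_pow_eq hzprim
    have h1 : (g * h) α = z ^ (x g).val * z ^ (x h).val * α := by
      rw [AlgEquiv.mul_apply, hx h, map_mul, map_pow, hxz, hx g]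
      ring
    rw [hx (g * h)] at h1
    have h2 := mul_right_cancel₀ hα0 h1
    rw [h2, ← pow_add, ZMod.val_add]
    have h4 : z ^ p = 1 := hzprim.pow_eq_one
    conv_lhs => rw [← Nat.mod_add_div ((x g).val + (x h).val) p]
    rw [pow_add, pow_mul, h4, one_pow, mul_one]
  -- `x s = 0 ↔ s α = α ↔ s ∈ K⟮α⟯.fixingSubgroup`
  have hx0 : ∀ s : Ω ≃ₐ[K] Ω, x s = 0 ↔ s α = α := by
    intro s
    constructor
    · intro h
      rw [hx s, h, ZMod.val_zero, pow_zero, one_mul]
    · intro h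
      apply zmod_eq_of_pow_eq hzprim
      have h1 := hx s
      rw [h] at h1
      have h2 : z ^ (x s).val * α = 1 * α := by rw [← h1, one_mul]
      rw [mul_right_cancel₀ hα0 h2, ZMod.val_zero, pow_zero]
  have hfix : ∀ s : Ω ≃ₐ[K] Ω, s ∈ K⟮α⟯.fixingSubgroup ↔ s α = α := by
    intro s
    rw [IntermediateField.mem_fixingSubgroup_iff]
    constructor
    · intro h
      exact h α (mem_adjoin_simple_self K α)
    · intro h y hy
      have hle : K⟮α⟯ ≤ IntermediateField.fixedField (MulAction.stabilizer (Ω ≃ₐ[K] Ω) α) := by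
        rw [adjoin_simple_le_iff, IntermediateField.mem_fixedField_iff]
        intro f hf
        exact MulAction.mem_stabilizer_iff.mp hf
      exact (IntermediateField.mem_fixedField_iff _ _).mp (hle hy) s
        (MulAction.mem_stabilizer_iff.mpr h)
  have hx1 : x 1 = 0 := by
    have := hmul 1 1
    rw [mul_one] at this
    exact left_eq_add.mp this
  refine ⟨x, (mem_Z1_trivial_iff p K Ω x).mpr ⟨⟨K⟮α⟯, ?_, ?_, ?_⟩, hmul⟩, α, hα, ?_⟩
  · exact IntermediateField.adjoin.finiteDimensional (Algebra.IsIntegral.isIntegral α)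
  · constructor
    intro n hn g
    rw [hfix, ← hx0] at hn ⊢
    rw [hmul, hmul, hn, add_zero, ← hmul, mul_inv_cancel, hx1]
  · intro g s hs
    rw [hfix, ← hx0] at hs
    rw [hmul, hs, add_zero]
  · intro σ
    rw [map_pow]
    exact hx σ

include hζ in
/-- The exponential characteristic of a field containing a primitive `p`-th root of unity is
prime to `p`. -/
theorem coprime_ringExpChar_pow (n : ℕ) : Nat.Coprime ((ringExpChar K) ^ n) p := by
  have hp : p.Prime := Fact.out
  have : NeZero p := ⟨hp.ne_zero⟩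
  have hζK : IsPrimitiveRoot (ζ : K) p :=
    hζ.map_of_injective (f := Units.coeHom K) Units.val_injective
  have hne : NeZero ((p : ℕ) : K) := hζK.neZero'
  apply Nat.Coprime.pow_left
  rw [Nat.coprime_comm, hp.coprime_iff_not_dvd]
  intro hdvd
  rcases expChar_is_prime_or_one K (ringExpChar K) with h | h
  · have heq : p = ringExpChar K := (Nat.prime_dvd_prime_iff_eq hp h).mp hdvd
    have : ExpChar K p := heq ▸ (inferInstance : ExpChar K (ringExpChar K))
    have : CharP K p := by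
      rcases ‹ExpChar K p› with _ | ⟨_⟩
      · exact absurd rfl hp.one_lt.ne
      · assumption
    exact hne.out (CharP.cast_eq_zero K p)
  · rw [h] at hdvd
    exact hp.one_lt.ne' (Nat.dvd_one.mp hdvd)

include hζ in
/-- LOC-7a (Kummer theory, surjectivity): every level-constant character is a Kummer
character. -/
theorem exists_kummer_of_mem_Z1 (x : (Ω ≃ₐ[K] Ω) → ZMod p)
    (hx : x ∈ Z1 (galLevels K Ω) (Rep.trivial (ZMod p) (Ω ≃ₐ[K] Ω) (ZMod p))) :
    ∃ (a : Kˣ) (α : Ω), α ^ p = algebraMap K Ω a ∧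
      ∀ σ : Ω ≃ₐ[K] Ω, σ α = algebraMap K Ω ((ζ : K) ^ (x σ).val) * α := by
  classical
  have hp : p.Prime := Fact.out
  have : NeZero p := ⟨hp.ne_zero⟩
  have : IsAlgClosed Ω := IsAlgClosure.isAlgClosed K
  have : Algebra.IsAlgebraic K Ω := IsAlgClosure.isAlgebraic
  have : Normal K Ω := inferInstance
  obtain ⟨⟨L₀, hL₀, -, hxs⟩, hmul⟩ := (mem_Z1_trivial_iff p K Ω x).mp hx
  -- the root of unity
  set z : Ω := algebraMap K Ω (ζ : K) with hz
  have hζK : IsPrimitiveRoot (ζ : K) p :=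
    hζ.map_of_injective (f := Units.coeHom K) Units.val_injective
  have hzprim : IsPrimitiveRoot z p := hζK.map_of_injective (algebraMap K Ω).injective
  have hzp : z ^ p = 1 := hzprim.pow_eq_one
  -- the finite normal field
  set L : IntermediateField K Ω := IntermediateField.normalClosure K L₀ Ω with hL
  have hle : L₀ ≤ L := IntermediateField.le_normalClosure L₀
  have : Normal K L := inferInstance
  have : FiniteDimensional K L := inferInstance
  have hsurj : Function.Surjective (AlgEquiv.restrictNormalHom (F := K) (K₁ := Ω) L) :=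
    AlgEquiv.restrictNormalHom_surjective Ω
  -- `x` only depends on the restriction to `L`
  have hxR : ∀ σ σ' : Ω ≃ₐ[K] Ω,
      AlgEquiv.restrictNormalHom L σ = AlgEquiv.restrictNormalHom L σ' → x σ = x σ' := by
    intro σ σ' h
    have hs : σ⁻¹ * σ' ∈ L.fixingSubgroup := by
      rw [← IntermediateField.restrictNormalHom_ker, MonoidHom.mem_ker, map_mul, map_inv, h,
        inv_mul_cancel]
    have hs' : σ⁻¹ * σ' ∈ L₀.fixingSubgroup := IntermediateField.fixingSubgroup_antitone hle hs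
    have := hxs σ _ hs'
    rw [mul_inv_cancel_left] at this
    exact this.symm
  -- the character on `Gal(L/K)`
  set lift : (L ≃ₐ[K] L) → (Ω ≃ₐ[K] Ω) := Function.surjInv hsurj with hlift
  have hliftR : ∀ τ, AlgEquiv.restrictNormalHom L (lift τ) = τ := Function.surjInv_eq hsurj
  have hy : ∀ g h : L ≃ₐ[K] L, x (lift (g * h)) = x (lift g) + x (lift h) := by
    intro g h
    rw [← hmul]
    apply hxR
    rw [map_mul, hliftR, hliftR, hliftR]
  obtain ⟨β, hβ⟩ := exists_units_of_char (K := K) (L := L) p ζ hζ.pow_eq_one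
    (fun τ => x (lift τ)) hy
  -- the Kummer generator in Ω
  set α : Ω := ((β : L) : Ω) with hα
  have hα0 : α ≠ 0 := by
    rw [hα]
    simp
  have hσα : ∀ σ : Ω ≃ₐ[K] Ω, σ α = z ^ (x σ).val * α := by
    intro σ
    have h4 : σ α = algebraMap L Ω ((AlgEquiv.restrictNormalHom L σ) (β : L)) :=
      (AlgEquiv.restrictNormal_commutes σ L (β : L)).symm
    rw [h4, hβ, hxR _ _ (hliftR _), map_mul, ← IsScalarTower.algebraMap_apply, map_pow]
    rfl
  -- `α ^ p` is fixed, hence purely inseparable over `K`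
  have hfixed : ∀ σ : Ω ≃ₐ[K] Ω, σ (α ^ p) = α ^ p := by
    intro σ
    rw [map_pow, hσα, mul_pow, ← pow_mul, mul_comm _ p, pow_mul, hzp, one_pow, one_mul]
  obtain ⟨n, b, hb⟩ := exists_pow_mem_range_of_fixed K Ω (α ^ p) hfixed
  have hcop := coprime_ringExpChar_pow p K ζ hζ n
  obtain ⟨j, -, hj⟩ := Nat.exists_mul_mod_eq_one_of_coprime hcop hp.one_lt
  set e : ℕ := ringExpChar K ^ n with he
  have hb0 : b ^ j ≠ 0 := by
    intro h0
    have h1 : algebraMap K Ω (b ^ j) = 0 := by rw [h0, map_zero]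
    rw [map_pow, hb] at h1
    exact pow_ne_zero j (pow_ne_zero _ (pow_ne_zero p hα0)) h1
  refine ⟨Units.mk0 (b ^ j) hb0, α ^ (e * j), ?_, ?_⟩
  · rw [Units.val_mk0, map_pow, hb, ← pow_mul, ← pow_mul, ← pow_mul]
    congr 1
    ring
  · intro σ
    rw [map_pow, hσα, mul_pow, map_pow]
    congr 1
    rw [← pow_mul]
    conv_lhs => rw [← Nat.mod_add_div (e * j) p, hj]
    rw [mul_add, mul_one, pow_add, mul_comm p, ← mul_assoc, pow_mul _ _ p, ← pow_mul,
      mul_comm _ p, pow_mul, hzp, one_pow, mul_one]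

omit [IsAlgClosure K Ω] in
include hζ in
/-- Two elements of `Kˣ` in the same class modulo `p`-th powers have the same Kummer
character. -/
theorem kummerChar_eq_of_pow (x x' : (Ω ≃ₐ[K] Ω) → ZMod p) (a a' b : Kˣ) (hab : b ^ p = a⁻¹ * a')
    (α α' : Ω) (hα : α ^ p = algebraMap K Ω a) (hα' : α' ^ p = algebraMap K Ω a')
    (hx : ∀ σ : Ω ≃ₐ[K] Ω, σ α = algebraMap K Ω ((ζ : K) ^ (x σ).val) * α)
    (hx' : ∀ σ : Ω ≃ₐ[K] Ω, σ α' = algebraMap K Ω ((ζ : K) ^ (x' σ).val) * α') : x = x' := by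
  have hp : p.Prime := Fact.out
  have : NeZero p := ⟨hp.ne_zero⟩
  set z : Ω := algebraMap K Ω (ζ : K) with hz
  have hζK : IsPrimitiveRoot (ζ : K) p :=
    hζ.map_of_injective (f := Units.coeHom K) Units.val_injective
  have hzprim : IsPrimitiveRoot z p := hζK.map_of_injective (algebraMap K Ω).injective
  have ha0 : algebraMap K Ω (a : K) ≠ 0 := (map_ne_zero (algebraMap K Ω)).mpr a.ne_zero
  have hb0 : algebraMap K Ω (b : K) ≠ 0 := (map_ne_zero (algebraMap K Ω)).mpr b.ne_zero
  have hα0 : α ≠ 0 := by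
    rintro rfl
    rw [zero_pow hp.ne_zero] at hα
    exact ha0 hα.symm
  have hα'0 : α' ≠ 0 := by
    rintro rfl
    rw [zero_pow hp.ne_zero] at hα'
    exact (map_ne_zero (algebraMap K Ω)).mpr a'.ne_zero hα'.symm
  -- `α' = z ^ i * α * b`
  have hab' : (a' : K) = a * b ^ p := by
    have : (a' : Kˣ) = a * b ^ p := by rw [hab, mul_inv_cancel_left]
    rw [this]
    simp
  have h1 : (α' / (α * algebraMap K Ω b)) ^ p = 1 := by
    rw [div_pow, mul_pow, hα, hα', hab', map_mul, map_pow, div_self]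
    exact mul_ne_zero ha0 (pow_ne_zero _ hb0)
  obtain ⟨i, -, hi⟩ := hzprim.eq_pow_of_pow_eq_one h1
  have hα'eq : α' = z ^ i * (α * algebraMap K Ω b) := by
    rw [hi, div_mul_cancel₀ _ (mul_ne_zero hα0 hb0)]
  funext σ
  apply zmod_eq_of_pow_eq hzprim
  have h2 : σ α' = z ^ (x σ).val * α' := by
    rw [hα'eq, map_mul, map_mul, map_pow, AlgEquiv.commutes, AlgEquiv.commutes, hx σ, map_pow]
    ring
  have h3 := hx' σ
  rw [h2, map_pow] at h3
  exact mul_right_cancel₀ hα'0 h3

include hζ in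
/-- LOC-7a (finiteness of `H¹`): `Z1` is finite as soon as `Kˣ / (Kˣ)^p` is finite. -/
theorem finite_Z1_of_finite (hfin : Finite (Kˣ ⧸ (powMonoidHom p : Kˣ →* Kˣ).range)) :
    Module.Finite (ZMod p)
      ↥(Z1 (galLevels K Ω) (Rep.trivial (ZMod p) (Ω ≃ₐ[K] Ω) (ZMod p))) := by
  classical
  have hex := fun x : ↥(Z1 (galLevels K Ω) (Rep.trivial (ZMod p) (Ω ≃ₐ[K] Ω) (ZMod p))) =>
    exists_kummer_of_mem_Z1 p K Ω ζ hζ x.1 x.2
  choose a α hα hσ using hex
  have hinj : Function.Injective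
      (fun x : ↥(Z1 (galLevels K Ω) (Rep.trivial (ZMod p) (Ω ≃ₐ[K] Ω) (ZMod p))) =>
        (QuotientGroup.mk (a x) : Kˣ ⧸ (powMonoidHom p : Kˣ →* Kˣ).range)) := by
    intro x x' h
    simp only at h
    rw [QuotientGroup.eq] at h
    obtain ⟨b, hb⟩ := h
    apply Subtype.ext
    exact kummerChar_eq_of_pow p K Ω ζ hζ x.1 x'.1 (a x) (a x') b hb (α x) (α x') (hα x) (hα x')
      (hσ x) (hσ x')
  have : Finite ↥(Z1 (galLevels K Ω) (Rep.trivial (ZMod p) (Ω ≃ₐ[K] Ω) (ZMod p))) :=
    Finite.of_injective _ hinj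
  exact Module.Finite.of_finite

end kummer

end Fermat.Agent.S55.helper30
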