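import Mathlib

/-!
# S55 / REC4-TOR (task 356, helper77): `#A[p] = #(A/A^p)` for a finite commutative group
-/

set_option autoImplicit false

namespace Fermat.Agent.S55.helper77

/-- For an endomorphism of a finite group, the kernel and the cokernel have the same
cardinality. -/
theorem card_ker_eq_card_quotient_range {A : Type*} [CommGroup A] [Finite A] (f : A →* A) :
    Nat.card f.ker = Nat.card (A ⧸ f.range) := by
  have h1 : Nat.card A = Nat.card (A ⧸ f.ker) * Nat.card f.ker :=
    Subgroup.card_eq_card_quotient_mul_card_subgroup f.ker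
  have h2 : Nat.card A = Nat.card (A ⧸ f.range) * Nat.card f.range :=
    Subgroup.card_eq_card_quotient_mul_card_subgroup f.range
  have h3 : Nat.card (A ⧸ f.ker) = Nat.card f.range :=
    Nat.card_congr (QuotientGroup.quotientKerEquivRange f).toEquiv
  have hpos : 0 < Nat.card f.range := Nat.card_pos
  rw [h3] at h1
  have h4 : Nat.card f.range * Nat.card f.ker = Nat.card f.range * Nat.card (A ⧸ f.range) := by
    rw [← h1, h2, mul_comm]
  exact Nat.eq_of_mul_eq_mul_left hpos h4

/-- R4-TOR: `#A[p] = #(A/A^p)` for a finite commutative group. -/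
theorem card_ker_pow_eq_card_quotient (A : Type*) [CommGroup A] [Finite A] (p : ℕ) :
    Nat.card (powMonoidHom p : A →* A).ker = Nat.card (A ⧸ (powMonoidHom p : A →* A).range) :=
  card_ker_eq_card_quotient_range _

end Fermat.Agent.S55.helper77
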