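import Fermat.Agent.S55.helper59_BDefs2

/-!
# S55 module B, package B-AR-KUM-G (helper97, task 365): shared definitions

Setting: `F ⊆ ℚbar` a number field, `S` a finite set of rational primes, `p` a prime,
`U = Gal(ℚbar/F)`.

* `placesOver K S` : the finite places of a number field `K` above the primes of `S`
  (as a set of `HeightOneSpectrum (𝓞 K)`);
* `IsSelmer K S p a` : `p ∣ ord_v a` for every finite place `v` of `K` not above `S`;
* `IsKummerChar p ζ a α x` : `α ^ p = a` and `σ α = ζ ^ x(σ) α` for all `σ ∈ U`;
* `InSLevel S F α` : `α` lies in a finite normal extension of `ℚ` containing `F` and unramified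
  outside `S`;
* `primeClasses T` : the classes of the primes of a set `T` of places in the class group.

Definitions and small dictionary lemmas only.
-/

set_option autoImplicit false
set_option linter.unusedSectionVars false

open IsDedekindDomain
open scoped NumberField nonZeroDivisors

noncomputable section

namespace Fermat.Agent.S55.helper97

open Fermat.Agent.S55 Fermat.Agent.S55.helper59

section NF

variable (K : Type*) [Field K] [NumberField K] (S : Finset Nat.Primes)

/-- the finite places of the number field `K` above the rational primes in `S` -/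
def placesOver : Set (HeightOneSpectrum (𝓞 K)) :=
  {v | v.asIdeal ∈ helper75.primesOverS K S}

variable {K S} in
lemma mem_placesOver_iff (v : HeightOneSpectrum (𝓞 K)) :
    v ∈ placesOver K S ↔ ∃ q ∈ S, ((q : ℕ) : 𝓞 K) ∈ v.asIdeal := by
  constructor
  · rintro ⟨-, -, h⟩
    exact h
  · intro h
    exact ⟨v.isPrime, v.ne_bot, h⟩

/-- `p ∣ ord_v a` for every finite place `v` of `K` not above `S` -/
def IsSelmer (p : ℕ) (a : Kˣ) : Prop :=
  ∀ v : HeightOneSpectrum (𝓞 K), v ∉ placesOver K S →
    (p : ℤ) ∣ Multiplicative.toAdd (v.valuationOfNeZero a)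

end NF

section Ded

variable {R : Type*} [CommRing R] [IsDedekindDomain R]

/-- the classes of the primes of `T` in the class group -/
def primeClasses (T : Set (HeightOneSpectrum R)) : Set (ClassGroup R) :=
  {c | ∃ v ∈ T, c = ClassGroup.mk0 ⟨v.asIdeal, mem_nonZeroDivisors_of_ne_zero v.ne_bot⟩}

end Ded

section Kum

variable (S : Finset Nat.Primes) (F : IntermediateField ℚ (AlgebraicClosure ℚ))

/-- `α` lies in a finite normal extension of `ℚ` containing `F` and unramified outside `S` -/
def InSLevel (α : AlgebraicClosure ℚ) : Prop :=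
  ∃ E : IntermediateField ℚ (AlgebraicClosure ℚ), E.IsUnramifiedOutside S ∧
    E.fixingSubgroup.Normal ∧ F ≤ E ∧ α ∈ E

variable {F} in
/-- the Kummer relation: `α ^ p = a` and `σ α = ζ ^ x(σ) α` for all `σ ∈ Gal(ℚbar/F)` -/
def IsKummerChar (p : ℕ) (ζ a : (↥F)ˣ) (α : AlgebraicClosure ℚ) (x : UF F → ZMod p) : Prop :=
  α ^ p = ((a : ↥F) : AlgebraicClosure ℚ) ∧
    ∀ σ : UF F, (σ : GQ) α = (((ζ : ↥F) : AlgebraicClosure ℚ)) ^ (x σ).val * α

end Kum

end Fermat.Agent.S55.helper97
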