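import Mathlib
import Fermat.Agent.S14.helper54_Local
import Fermat.Agent.S55.helper77_Rec4Tor
import Fermat.Agent.S55.helper97_KumGDefs

/-!
# S55 module B, package B-AR-KUM-G3 (helper58, task 396): the Selmer group of a Dedekind domain

`card_selmerGroup` : `#K(T,n) = #(R_T^× / n) · #(Cl(R) / ⟨primes of T, n-th powers⟩)`, the counting
form of the exact sequence `1 → R_T^×/n → K(T,n) → Cl_T[n] → 1` together with
`#A[n] = #(A/n)` for the finite group `A = Cl_T` (statement VERBATIM from
`helper97_KumGInterface`).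

* `kg3_abstract` : the abstract group-theoretic statement (a hom `P : A →* G` of commutative
  groups, a subgroup `N ≤ G` with `G/N` without `n`-torsion and `G/(P(A)·N)` finite).
* `kg3Supp K T` : the invertible fractional ideals supported in `T`; dictionary lemmas
  `comap_kg3Supp`, `comap_root_eq`, `map_mk_kg3Supp`, `comap_mk_closure`.
-/

set_option autoImplicit false

open IsDedekindDomain HeightOneSpectrum FractionalIdeal
open scoped nonZeroDivisors

namespace Fermat.Agent.S55.helper58

open Fermat.Agent.S55.helper97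

section Abstract

variable {A G : Type*} [CommGroup A] [CommGroup G]

theorem kg3_uniq (N : Subgroup G) (n : ℕ) (hN : ∀ g : G, g ^ n ∈ N → g ∈ N)
    {g g' z z' : G} (hz : z ∈ N) (hz' : z' ∈ N) (h : g ^ n * z = g' ^ n * z') :
    g / g' ∈ N := by
  apply hN
  rw [div_pow]
  have : g ^ n / g' ^ n = z' / z := by
    rw [div_eq_div_iff_mul_eq_mul, h, mul_comm]
  rw [this]
  exact N.div_mem hz' hz

theorem kg3_relIndex_root (P : A →* G) (N : Subgroup G) (n : ℕ)
    (hN : ∀ g : G, g ^ n ∈ N → g ∈ N) [Finite (G ⧸ (P.range ⊔ N))] :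
    ((N.comap P) ⊔ (powMonoidHom n : A →* A).range).relIndex
        (((powMonoidHom n : G →* G).range ⊔ N).comap P) =
      ((P.range ⊔ N) ⊔ (powMonoidHom n : G →* G).range).index := by
  classical
  set E : Subgroup G := P.range ⊔ N with hE
  set Gn : Subgroup G := (powMonoidHom n : G →* G).range with hGn
  set V : Subgroup A := (Gn ⊔ N).comap P with hV
  have hNE : N ≤ E := le_sup_right
  have hPE : ∀ a : A, P a ∈ E := fun a => (le_sup_left : P.range ≤ E) ⟨a, rfl⟩
  -- the right hand side
  have hR : (E ⊔ Gn).index =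
      Nat.card ((G ⧸ E) ⧸ (powMonoidHom n : (G ⧸ E) →* (G ⧸ E)).range) := by
    rw [← Subgroup.index_eq_card]
    have hmap : (powMonoidHom n : (G ⧸ E) →* (G ⧸ E)).range = Gn.map (QuotientGroup.mk' E) := by
      ext q
      constructor
      · rintro ⟨q', rfl⟩
        obtain ⟨g, rfl⟩ := QuotientGroup.mk'_surjective E q'
        exact ⟨g ^ n, ⟨g, rfl⟩, by simp⟩
      · rintro ⟨_, ⟨g, rfl⟩, rfl⟩
        exact ⟨QuotientGroup.mk' E g, by simp⟩
    rw [hmap, ← Subgroup.index_comap_of_surjective _ (QuotientGroup.mk'_surjective E),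
      Subgroup.comap_map_eq, QuotientGroup.ker_mk', sup_comm]
  rw [hR, ← Fermat.Agent.S55.helper77.card_ker_pow_eq_card_quotient]
  -- the root map
  have key : ∀ x : V, ∃ g : G, ∃ z : G, z ∈ N ∧ g ^ n * z = P x := by
    intro x
    obtain ⟨y, ⟨g, rfl⟩, z, hz, h⟩ := Subgroup.mem_sup.mp x.2
    exact ⟨g, z, hz, h⟩
  choose root z hz hroot using key
  have hmk : ∀ {g g' : G}, g / g' ∈ E → (QuotientGroup.mk g : G ⧸ E) = QuotientGroup.mk g' := by
    intro g g' h
    rw [QuotientGroup.eq]
    have : g⁻¹ * g' = (g / g')⁻¹ := by rw [inv_div, div_eq_mul_inv, mul_comm]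
    rw [this]
    exact E.inv_mem h
  let f : V →* G ⧸ E := MonoidHom.mk' (fun x => (QuotientGroup.mk (root x) : G ⧸ E)) (by
    intro x y
    rw [← QuotientGroup.mk_mul]
    apply hmk
    apply hNE
    refine kg3_uniq N n hN (hz (x * y)) (N.mul_mem (hz x) (hz y)) ?_
    rw [hroot, Subgroup.coe_mul, map_mul, ← hroot x, ← hroot y, mul_pow]
    exact mul_mul_mul_comm _ _ _ _)
  have hf : ∀ x : V, f x = (QuotientGroup.mk (root x) : G ⧸ E) := fun x => rfl
  have hker : f.ker = ((N.comap P) ⊔ (powMonoidHom n : A →* A).range).subgroupOf V := by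
    ext x
    rw [MonoidHom.mem_ker, hf, QuotientGroup.eq_one_iff, Subgroup.mem_subgroupOf]
    constructor
    · intro h
      obtain ⟨_, ⟨y, rfl⟩, m, hm, h2⟩ := Subgroup.mem_sup.mp h
      -- root x = P y * m
      refine Subgroup.mem_sup.mpr ⟨(x : A) / y ^ n, ?_, y ^ n, ⟨y, rfl⟩, by simp⟩
      rw [Subgroup.mem_comap, map_div, map_pow, ← hroot x, ← h2, mul_pow]
      have : (P y) ^ n * m ^ n * z x / (P y) ^ n = m ^ n * z x := by
        rw [mul_assoc, mul_div_cancel_left]
      rw [this]
      exact N.mul_mem (N.pow_mem hm n) (hz x)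
    · intro h
      obtain ⟨u, hu, _, ⟨y, rfl⟩, h2⟩ := Subgroup.mem_sup.mp h
      have h3 : root x / P y ∈ N := by
        refine kg3_uniq N n hN (hz x) (hu : P u ∈ N) ?_
        rw [hroot, ← h2, map_mul, mul_comm]
        simp
      have : root x = P y * (root x / P y) := by rw [mul_div_cancel]
      rw [this]
      exact E.mul_mem (hPE y) (hNE h3)
  have hrange : f.range = (powMonoidHom n : (G ⧸ E) →* (G ⧸ E)).ker := by
    ext q
    rw [MonoidHom.mem_ker, powMonoidHom_apply]
    constructor
    · rintro ⟨x, rfl⟩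
      rw [hf, ← QuotientGroup.mk_pow, QuotientGroup.eq_one_iff]
      have : root x ^ n = P x * (z x)⁻¹ := by rw [← hroot x]; simp
      rw [this]
      exact E.mul_mem (hPE x) (E.inv_mem (hNE (hz x)))
    · intro h
      obtain ⟨g, rfl⟩ := QuotientGroup.mk_surjective q
      rw [← QuotientGroup.mk_pow, QuotientGroup.eq_one_iff] at h
      obtain ⟨_, ⟨x, rfl⟩, m, hm, h2⟩ := Subgroup.mem_sup.mp h
      have hxV : x ∈ V := by
        rw [hV, Subgroup.mem_comap]
        refine Subgroup.mem_sup.mpr ⟨g ^ n, ⟨g, rfl⟩, m⁻¹, N.inv_mem hm, ?_⟩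
        rw [← h2]; simp
      refine ⟨⟨x, hxV⟩, ?_⟩
      rw [hf]
      apply hmk
      apply hNE
      refine kg3_uniq N n hN (hz ⟨x, hxV⟩) (N.inv_mem hm) ?_
      rw [hroot, ← h2]; simp
  rw [← hrange, ← Subgroup.index_ker, hker]
  rfl

theorem kg3_abstract (P : A →* G) (N : Subgroup G) (n : ℕ)
    (hN : ∀ g : G, g ^ n ∈ N → g ∈ N) [Finite (G ⧸ (P.range ⊔ N))] :
    (powMonoidHom n : A →* A).range.relIndex (((powMonoidHom n : G →* G).range ⊔ N).comap P) =
      (powMonoidHom n : A →* A).range.relIndex (N.comap P) *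
        ((P.range ⊔ N) ⊔ (powMonoidHom n : G →* G).range).index := by
  have h1 := kg3_relIndex_root P N n hN
  have hle : (N.comap P) ⊔ (powMonoidHom n : A →* A).range ≤
      ((powMonoidHom n : G →* G).range ⊔ N).comap P := by
    refine sup_le (Subgroup.comap_mono le_sup_right) ?_
    rintro _ ⟨y, rfl⟩
    rw [Subgroup.mem_comap]
    exact (le_sup_left : (powMonoidHom n : G →* G).range ≤ _) ⟨P y, by simp⟩
  have h2 := Subgroup.relIndex_mul_relIndex (powMonoidHom n : A →* A).range
    ((N.comap P) ⊔ (powMonoidHom n : A →* A).range) _ le_sup_right hle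
  have h3 : (powMonoidHom n : A →* A).range.relIndex
      ((N.comap P) ⊔ (powMonoidHom n : A →* A).range) =
      (powMonoidHom n : A →* A).range.relIndex (N.comap P) :=
    Subgroup.relIndex_sup_right _ _
  rw [← h2, h3, h1]

end Abstract

section Dict

variable {R : Type*} [CommRing R] [IsDedekindDomain R] (K : Type*) [Field K] [Algebra R K]
  [IsFractionRing R K]

/-- the additive valuation of a nonzero element is minus the count of its principal ideal -/
theorem kg3_toAdd_valuationOfNeZero (v : HeightOneSpectrum R) (x : Kˣ) :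
    Multiplicative.toAdd (v.valuationOfNeZero x) =
      -(count K v ((toPrincipalIdeal R K x : (FractionalIdeal R⁰ K)ˣ) : FractionalIdeal R⁰ K)) := by
  have h1 := valuationOfNeZero_eq v x
  rw [Fermat.Agent.S14.helper54.valuation_eq_exp_neg_count K v x.ne_zero] at h1
  rw [coe_toPrincipalIdeal]
  have h2 : v.valuationOfNeZero x =
      Multiplicative.ofAdd (-(count K v (spanSingleton R⁰ (x : K)))) := by
    apply WithZero.coe_injective
    rw [h1]
    rfl
  rw [h2]
  rfl

theorem kg3_valuationOfNeZeroMod_eq_one_iff (v : HeightOneSpectrum R) (n : ℕ) (x : Kˣ) :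
    v.valuationOfNeZeroMod n (QuotientGroup.mk x) = 1 ↔
      (n : ℤ) ∣ count K v ((toPrincipalIdeal R K x : (FractionalIdeal R⁰ K)ˣ) :
        FractionalIdeal R⁰ K) := by
  rw [← dvd_neg, ← kg3_toAdd_valuationOfNeZero]
  have h : v.valuationOfNeZeroMod n (QuotientGroup.mk x) =
      Multiplicative.ofAdd ((Int.quotientZMultiplesNatEquivZMod n)
        (QuotientAddGroup.mk (Multiplicative.toAdd (v.valuationOfNeZero x)))) := rfl
  rw [h, ofAdd_eq_one, AddEquiv.map_eq_zero_iff, QuotientAddGroup.eq_zero_iff,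
    Int.mem_zmultiples_iff]

/-- the invertible fractional ideals supported in `T` -/
def kg3Supp (T : Set (HeightOneSpectrum R)) : Subgroup (FractionalIdeal R⁰ K)ˣ where
  carrier := {I | ∀ v, v ∉ T → count K v (I : FractionalIdeal R⁰ K) = 0}
  one_mem' := by
    intro v _
    rw [Units.val_one, count_one]
  mul_mem' := by
    intro I J hI hJ v hv
    rw [Units.val_mul, count_mul K v I.ne_zero J.ne_zero, hI v hv, hJ v hv, add_zero]
  inv_mem' := by
    intro I hI v hv
    rw [Units.val_inv_eq_inv_val, count_inv, hI v hv, neg_zero]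

variable {K} in
theorem mem_kg3Supp {T : Set (HeightOneSpectrum R)} {I : (FractionalIdeal R⁰ K)ˣ} :
    I ∈ kg3Supp K T ↔ ∀ v, v ∉ T → count K v (I : FractionalIdeal R⁰ K) = 0 := Iff.rfl

theorem kg3Supp_root (T : Set (HeightOneSpectrum R)) (n : ℕ) (hn : 0 < n)
    (g : (FractionalIdeal R⁰ K)ˣ) (h : g ^ n ∈ kg3Supp K T) : g ∈ kg3Supp K T := by
  intro v hv
  have h1 := h v hv
  rw [Units.val_pow_eq_pow_val, count_pow] at h1
  rcases mul_eq_zero.mp h1 with h2 | h2
  · exact absurd h2 (by exact_mod_cast hn.ne')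
  · exact h2

theorem comap_kg3Supp (T : Set (HeightOneSpectrum R)) :
    (kg3Supp K T).comap (toPrincipalIdeal R K) = T.unit K := by
  ext x
  rw [Subgroup.mem_comap, mem_kg3Supp]
  have hx : x ∈ T.unit K ↔ ∀ v, v ∉ T → v.valuation K (x : K) = 1 := Iff.rfl
  rw [hx]
  refine forall_congr' fun v => imp_congr_right fun _ => ?_
  rw [← valuationOfNeZero_eq, ← neg_eq_zero, ← kg3_toAdd_valuationOfNeZero]
  constructor
  · intro h
    have : v.valuationOfNeZero x = 1 := h
    rw [this]; rfl
  · intro h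
    have : v.valuationOfNeZero x = 1 := by exact_mod_cast h
    exact congrArg Multiplicative.toAdd this

theorem kg3_finprod_ne_zero (exps : HeightOneSpectrum R → ℤ)
    (h : ∀ᶠ v : HeightOneSpectrum R in Filter.cofinite, exps v = 0) :
    (∏ᶠ v : HeightOneSpectrum R, (v.asIdeal : FractionalIdeal R⁰ K) ^ exps v) ≠ 0 := by
  have h' : {v : HeightOneSpectrum R | ¬ exps v = 0}.Finite := Filter.eventually_cofinite.mp h
  rw [finprod_eq_finsetProd_of_mulSupport_subset (s := h'.toFinset)]
  · exact Finset.prod_ne_zero_iff.mpr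
      (fun v _ => zpow_ne_zero _ (coeIdeal_ne_zero.mpr v.ne_bot))
  · rw [Set.Finite.coe_toFinset]
    intro v hv h0
    rw [Function.mem_mulSupport, h0, zpow_zero] at hv
    exact hv rfl

theorem kg3_exists_unit_count (exps : HeightOneSpectrum R → ℤ)
    (h : ∀ᶠ v : HeightOneSpectrum R in Filter.cofinite, exps v = 0) :
    ∃ g : (FractionalIdeal R⁰ K)ˣ, ∀ v, count K v (g : FractionalIdeal R⁰ K) = exps v :=
  ⟨Units.mk0 _ (kg3_finprod_ne_zero K exps h), fun v => count_finprod K v exps h⟩

theorem comap_root_eq (T : Set (HeightOneSpectrum R)) (n : ℕ) :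
    ((powMonoidHom n : (FractionalIdeal R⁰ K)ˣ →* (FractionalIdeal R⁰ K)ˣ).range ⊔
        kg3Supp K T).comap (toPrincipalIdeal R K) =
      (selmerGroup (R := R) (K := K) (S := T) (n := n)).comap
        (QuotientGroup.mk' (powMonoidHom n : Kˣ →* Kˣ).range) := by
  classical
  ext x
  rw [Subgroup.mem_comap, Subgroup.mem_comap, QuotientGroup.mk'_apply]
  have hsel : (QuotientGroup.mk x : Kˣ ⧸ (powMonoidHom n : Kˣ →* Kˣ).range) ∈
      selmerGroup (R := R) (K := K) (S := T) (n := n) ↔
      ∀ v, v ∉ T → v.valuationOfNeZeroMod n (QuotientGroup.mk x) = 1 := Iff.rfl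
  rw [hsel]
  simp only [kg3_valuationOfNeZeroMod_eq_one_iff]
  constructor
  · intro h v hv
    obtain ⟨_, ⟨g, rfl⟩, m, hm, h2⟩ := Subgroup.mem_sup.mp h
    rw [← h2, Units.val_mul, count_mul K v (Units.ne_zero _) m.ne_zero, hm v hv, add_zero,
      powMonoidHom_apply, Units.val_pow_eq_pow_val, count_pow]
    exact dvd_mul_right _ _
  · intro h
    set I : (FractionalIdeal R⁰ K)ˣ := toPrincipalIdeal R K x with hI
    have hfin : ∀ᶠ v : HeightOneSpectrum R in Filter.cofinite,
        (if v ∈ T then (0 : ℤ) else count K v (I : FractionalIdeal R⁰ K) / n) = 0 := by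
      filter_upwards [finite_factors (I : FractionalIdeal R⁰ K)] with v hv
      split_ifs
      · rfl
      · rw [hv, Int.zero_ediv]
    obtain ⟨g, hg⟩ := kg3_exists_unit_count K _ hfin
    refine Subgroup.mem_sup.mpr ⟨g ^ n, ⟨g, rfl⟩, I / g ^ n, ?_, by simp⟩
    intro v hv
    rw [div_eq_mul_inv, Units.val_mul, count_mul K v I.ne_zero (Units.ne_zero _),
      Units.val_inv_eq_inv_val, count_inv, Units.val_pow_eq_pow_val, count_pow, hg, if_neg hv,
      Int.mul_ediv_cancel' (h v hv), add_neg_cancel]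

theorem kg3_mk_surjective :
    Function.Surjective (ClassGroup.mk K : (FractionalIdeal R⁰ K)ˣ →* ClassGroup R) := by
  intro c
  exact ClassGroup.induction K (P := fun c => ∃ I, ClassGroup.mk K I = c) (fun I => ⟨I, rfl⟩) c

theorem kg3_ker_mk :
    (ClassGroup.mk K : (FractionalIdeal R⁰ K)ˣ →* ClassGroup R).ker =
      (toPrincipalIdeal R K).range := by
  ext I
  rw [MonoidHom.mem_ker, ClassGroup.mk_eq_one_iff, mem_principal_ideals_iff]
  constructor
  · intro hI
    obtain ⟨x, hx⟩ := hI.principal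
    refine ⟨x, ?_⟩
    apply Subtype.coe_injective
    simp only [val_eq_coe, hx, coe_spanSingleton]
  · rintro ⟨x, hx⟩
    exact ⟨⟨x, by rw [← hx, coe_spanSingleton]⟩⟩

/-- the invertible fractional ideal attached to a prime -/
noncomputable def kg3Prime (v : HeightOneSpectrum R) : (FractionalIdeal R⁰ K)ˣ :=
  FractionalIdeal.mk0 K ⟨v.asIdeal, mem_nonZeroDivisors_of_ne_zero v.ne_bot⟩

theorem kg3Prime_val (v : HeightOneSpectrum R) :
    (kg3Prime K v : FractionalIdeal R⁰ K) = (v.asIdeal : FractionalIdeal R⁰ K) := rfl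

theorem kg3_factorization (I : (FractionalIdeal R⁰ K)ˣ) :
    ∃ s : Finset (HeightOneSpectrum R),
      (∀ v ∈ s, count K v (I : FractionalIdeal R⁰ K) ≠ 0) ∧
      I = ∏ v ∈ s, kg3Prime K v ^ count K v (I : FractionalIdeal R⁰ K) := by
  classical
  have hfin : {v : HeightOneSpectrum R | ¬ count K v (I : FractionalIdeal R⁰ K) = 0}.Finite :=
    Filter.eventually_cofinite.mp (finite_factors (I : FractionalIdeal R⁰ K))
  refine ⟨hfin.toFinset, ?_, ?_⟩
  · intro v hv
    exact (Set.Finite.mem_toFinset hfin).mp hv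
  · apply Units.ext
    rw [Units.coe_prod]
    simp only [Units.val_zpow_eq_zpow_val, kg3Prime_val]
    conv_lhs => rw [← finprod_heightOneSpectrum_factorization' K I.ne_zero]
    apply finprod_eq_finsetProd_of_mulSupport_subset
    rw [Set.Finite.coe_toFinset]
    intro v hv h0
    rw [Function.mem_mulSupport, h0, zpow_zero] at hv
    exact hv rfl

theorem map_mk_kg3Supp (T : Set (HeightOneSpectrum R)) :
    (kg3Supp K T).map (ClassGroup.mk K) = Subgroup.closure (helper97.primeClasses T) := by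
  classical
  apply le_antisymm
  · rintro _ ⟨I, hI, rfl⟩
    obtain ⟨s, hs, hIs⟩ := kg3_factorization K I
    rw [hIs, map_prod]
    refine Subgroup.prod_mem _ fun v hv => ?_
    rw [map_zpow]
    refine Subgroup.zpow_mem _ (Subgroup.subset_closure ?_) _
    have hvT : v ∈ T := by
      by_contra hvT
      exact hs v hv (hI v hvT)
    exact ⟨v, hvT, ClassGroup.mk_mk0 K _⟩
  · rw [Subgroup.closure_le]
    rintro c ⟨v, hv, rfl⟩
    refine ⟨kg3Prime K v, ?_, ClassGroup.mk_mk0 K _⟩
    intro w hw
    rw [kg3Prime_val]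
    refine count_maximal_coprime K w ?_
    rintro rfl
    exact hw hv

theorem comap_mk_closure (T : Set (HeightOneSpectrum R)) (n : ℕ) :
    (Subgroup.closure (helper97.primeClasses T ∪ Set.range fun c : ClassGroup R => c ^ n)).comap
        (ClassGroup.mk K) =
      ((toPrincipalIdeal R K).range ⊔ kg3Supp K T) ⊔
        (powMonoidHom n : (FractionalIdeal R⁰ K)ˣ →* (FractionalIdeal R⁰ K)ˣ).range := by
  have h1 : Subgroup.closure (Set.range fun c : ClassGroup R => c ^ n) =
      (powMonoidHom n : (FractionalIdeal R⁰ K)ˣ →* (FractionalIdeal R⁰ K)ˣ).range.map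
        (ClassGroup.mk K) := by
    have h2 : (Set.range fun c : ClassGroup R => c ^ n) =
        ((powMonoidHom n : ClassGroup R →* ClassGroup R).range : Set (ClassGroup R)) := by
      ext c
      simp
    rw [h2, Subgroup.closure_eq]
    ext q
    constructor
    · rintro ⟨q', rfl⟩
      obtain ⟨g, rfl⟩ := kg3_mk_surjective K q'
      exact ⟨g ^ n, ⟨g, rfl⟩, by simp⟩
    · rintro ⟨_, ⟨g, rfl⟩, rfl⟩
      exact ⟨ClassGroup.mk K g, by simp⟩
  rw [Subgroup.closure_union, h1, ← map_mk_kg3Supp K T, ← Subgroup.map_sup, Subgroup.comap_map_eq,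
    kg3_ker_mk]
  rw [sup_comm, sup_assoc]


/-- KG3: `#K(T,n) = #(R_T^×/n) · #(Cl_T(R)/n)` (from `1 → R_T^×/n → K(T,n) → Cl_T[n] → 1` and
`#A[n] = #(A/n)` for the finite group `A = Cl_T`). -/
theorem card_selmerGroup (T : Set (HeightOneSpectrum R)) (n : ℕ) (hn : 0 < n)
    [Finite (ClassGroup R)]
    (hfin : Finite ((T.unit K) ⧸ (powMonoidHom n : T.unit K →* T.unit K).range)) :
    Nat.card ↥(selmerGroup (R := R) (K := K) (S := T) (n := n)) =
      Nat.card ((T.unit K) ⧸ (powMonoidHom n : T.unit K →* T.unit K).range) *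
        Nat.card (ClassGroup R ⧸
          Subgroup.closure (primeClasses T ∪ Set.range fun c : ClassGroup R => c ^ n)) := by
  classical
  -- finiteness of `G / (P(A) N)`
  have hidx : (toPrincipalIdeal R K).range.index ≠ 0 := by
    rw [← kg3_ker_mk K, Subgroup.index_ker,
      MonoidHom.range_eq_top.mpr (kg3_mk_surjective K)]
    rw [Nat.card_congr Subgroup.topEquiv.toEquiv]
    exact Nat.card_pos.ne'
  have hfi : ((toPrincipalIdeal R K).range ⊔ kg3Supp K T).FiniteIndex :=
    @Subgroup.finiteIndex_of_le _ _ _ _ ⟨hidx⟩ le_sup_left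
  have h := kg3_abstract (toPrincipalIdeal R K) (kg3Supp K T) n (kg3Supp_root K T n hn)
  rw [comap_kg3Supp, comap_root_eq] at h
  -- the left hand side
  have hL : (powMonoidHom n : Kˣ →* Kˣ).range.relIndex
      ((selmerGroup (R := R) (K := K) (S := T) (n := n)).comap
        (QuotientGroup.mk' (powMonoidHom n : Kˣ →* Kˣ).range)) =
      Nat.card ↥(selmerGroup (R := R) (K := K) (S := T) (n := n)) := by
    have h1 := Subgroup.relIndex_comap (⊥ : Subgroup (Kˣ ⧸ (powMonoidHom n : Kˣ →* Kˣ).range))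
      (QuotientGroup.mk' (powMonoidHom n : Kˣ →* Kˣ).range)
      ((selmerGroup (R := R) (K := K) (S := T) (n := n)).comap
        (QuotientGroup.mk' (powMonoidHom n : Kˣ →* Kˣ).range))
    rw [MonoidHom.comap_bot, QuotientGroup.ker_mk',
      Subgroup.map_comap_eq_self_of_surjective (QuotientGroup.mk'_surjective _),
      Subgroup.relIndex_bot_left] at h1
    exact h1
  -- the units
  have hU : (powMonoidHom n : Kˣ →* Kˣ).range.relIndex (T.unit K) =
      Nat.card ((T.unit K) ⧸ (powMonoidHom n : T.unit K →* T.unit K).range) := by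
    rw [← Subgroup.index_eq_card]
    have : (powMonoidHom n : T.unit K →* T.unit K).range =
        (powMonoidHom n : Kˣ →* Kˣ).range.subgroupOf (T.unit K) := by
      ext y
      rw [Subgroup.mem_subgroupOf]
      constructor
      · rintro ⟨z, rfl⟩
        exact ⟨(z : Kˣ), rfl⟩
      · rintro ⟨z, hz⟩
        have hzU : z ∈ T.unit K := by
          rw [← comap_kg3Supp, Subgroup.mem_comap]
          apply kg3Supp_root K T n hn
          rw [← map_pow]
          have hy : (y : Kˣ) ∈ (kg3Supp K T).comap (toPrincipalIdeal R K) := by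
            rw [comap_kg3Supp]; exact y.2
          rw [Subgroup.mem_comap] at hy
          rw [← hz] at hy
          exact hy
        exact ⟨⟨z, hzU⟩, Subtype.ext hz⟩
    rw [this]
    rfl
  -- the class group
  have hC : (((toPrincipalIdeal R K).range ⊔ kg3Supp K T) ⊔
        (powMonoidHom n : (FractionalIdeal R⁰ K)ˣ →* (FractionalIdeal R⁰ K)ˣ).range).index =
      Nat.card (ClassGroup R ⧸
        Subgroup.closure (primeClasses T ∪ Set.range fun c : ClassGroup R => c ^ n)) := by
    rw [← Subgroup.index_eq_card, ← comap_mk_closure,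
      Subgroup.index_comap_of_surjective _ (kg3_mk_surjective K)]
  rw [hL, hU, hC] at h
  exact h

end Dict

end Fermat.Agent.S55.helper58
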