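import Fermat.Agent.S55.helper97_KumGDefs
import Fermat.Agent.S55.helper69_BArLev
import Fermat.Agent.S14.helper91_FieldObstruction
import Fermat.Agent.S14.helper90_Unramified

/-!
# S55 module B, package B-AR-KUM-G, part KG2b (helper97): S-level ⇒ Selmer

If `α ^ p = a ∈ Fˣ` and `α` lies in a finite normal extension `E ⊇ F` of `ℚ` unramified outside
`S`, then `p ∣ ord_v a` for every finite place `v` of `F` not above `S`.

* `dvd_toAdd_of_inertia_trivial` : number-field form (`K ⊆ L`, `L/ℚ` Galois, `w ∣ v` with trivial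
  inertia group in `Gal(L/ℚ)`: `e(w|v) = 1`, so `ord_v a = ord_w a = p ord_w β`);
* `isSelmer_of_inSLevel'` : the statement of KG2b.
-/

set_option autoImplicit false
set_option linter.unusedSectionVars false
set_option linter.style.haveILetI false

open IsDedekindDomain
open scoped NumberField nonZeroDivisors

noncomputable section

namespace Fermat.Agent.S55.helper97

open Fermat.Agent.S55 Fermat.Agent.S55.helper59 Fermat.Agent.S14.helper91

local notation "Qbar" => AlgebraicClosure ℚ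

section NF

variable (K L : Type*) [Field K] [NumberField K] [Field L] [NumberField L] [Algebra K L]
  [IsGalois ℚ L]

/-- trivial inertia over `ℚ` gives ramification index one over `K` -/
theorem ramificationIdx_eq_one_of_inertia_trivial
    (v : HeightOneSpectrum (𝓞 K)) (w : HeightOneSpectrum (𝓞 L)) [w.asIdeal.LiesOver v.asIdeal]
    (hI : ∀ τ ∈ Ideal.inertia Gal(L/ℚ) w.asIdeal, τ = 1) :
    w.asIdeal.ramificationIdx (𝓞 K) = 1 := by
  have h1 : Nat.card (Ideal.inertia Gal(L/ℚ) w.asIdeal) = 1 := by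
    rw [Nat.card_eq_one_iff_unique]
    exact ⟨⟨fun a b => Subtype.ext ((hI a a.2).trans (hI b b.2).symm)⟩, ⟨1⟩⟩
  have h2 : w.asIdeal.ramificationIdx (𝓞 ℚ) = 1 := by
    rw [← Fermat.Agent.S14.helper90.card_inertia_eq_ramificationIdx (K := ℚ) w.asIdeal w.ne_bot,
      h1]
  have h3 : w.asIdeal.ramificationIdx (𝓞 K) ∣ w.asIdeal.ramificationIdx (𝓞 ℚ) :=
    Ideal.ramificationIdx_above_dvd (R := 𝓞 ℚ) (S := 𝓞 K) (T := 𝓞 L) (r := w.asIdeal)
      (q := v.asIdeal)
  rw [h2] at h3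
  exact Nat.dvd_one.mp h3

/-- KG2b, number-field form -/
theorem dvd_toAdd_of_inertia_trivial
    (v : HeightOneSpectrum (𝓞 K)) (w : HeightOneSpectrum (𝓞 L)) [w.asIdeal.LiesOver v.asIdeal]
    (hI : ∀ τ ∈ Ideal.inertia Gal(L/ℚ) w.asIdeal, τ = 1) (p : ℕ) (a : Kˣ) (β : L)
    (hβ : β ^ p = algebraMap K L (a : K)) :
    (p : ℤ) ∣ Multiplicative.toAdd (v.valuationOfNeZero a) := by
  rcases Nat.eq_zero_or_pos p with hp | hp
  · subst hp
    rw [pow_zero] at hβ
    have ha1 : (a : K) = 1 := (algebraMap K L).injective (by rw [← hβ, map_one])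
    have ha : a = 1 := Units.ext ha1
    rw [ha, map_one]
    exact dvd_zero _
  have he : v.asIdeal.ramificationIdx' w.asIdeal = 1 := by
    rw [Ideal.ramificationIdx'_eq_ramificationIdx v.asIdeal w.asIdeal v.ne_bot]
    exact ramificationIdx_eq_one_of_inertia_trivial K L v w hI
  have h1 := HeightOneSpectrum.valuation_liesOver L v w (a : K)
  rw [he, pow_one, ← hβ, map_pow] at h1
  have hβ0 : β ≠ 0 := by
    rintro rfl
    rw [zero_pow hp.ne'] at hβ
    exact (map_ne_zero (algebraMap K L)).mpr a.ne_zero hβ.symm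
  have h2 : ((v.valuationOfNeZero a : Multiplicative ℤ) : WithZero (Multiplicative ℤ)) =
      (((w.valuationOfNeZero (Units.mk0 β hβ0)) ^ p : Multiplicative ℤ) :
        WithZero (Multiplicative ℤ)) := by
    rw [WithZero.coe_pow, HeightOneSpectrum.valuationOfNeZero_eq,
      HeightOneSpectrum.valuationOfNeZero_eq, h1]
    rfl
  have h3 := WithZero.coe_inj.mp h2
  rw [h3]
  exact ⟨Multiplicative.toAdd (w.valuationOfNeZero (Units.mk0 β hβ0)), by
    rw [toAdd_pow, nsmul_eq_mul]⟩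

end NF

section Main

attribute [local instance] helper69.isAlgebraic_Qbar helper69.isAlgClosure_Qbar
  helper69.normal_Qbar

variable {p : ℕ} {S : Finset Nat.Primes} {F : IntermediateField ℚ Qbar} [NumberField ↥F]

/-- KG2b (S-level ⇒ Selmer): if a `p`-th root of `a` lies in an `S`-level then `p ∣ ord_v a` for
all `v` not above `S`. -/
theorem isSelmer_of_inSLevel' (a : (↥F)ˣ) (α : Qbar) (hα : α ^ p = ((a : ↥F) : Qbar))
    (h : InSLevel S F α) : IsSelmer (↥F) S p a := by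
  obtain ⟨E, hE, -, hFE, hαE⟩ := h
  have hEE' : E ≤ IntermediateField.normalClosure ℚ E Qbar := by
    intro x hx
    unfold IntermediateField.normalClosure
    have h1 : x ∈ (E.val).fieldRange := ⟨⟨x, hx⟩, rfl⟩
    exact (le_iSup (fun f : E →ₐ[ℚ] Qbar => f.fieldRange) E.val) h1
  have hE' := helper69.isUnramifiedOutside_normalClosure hE
  set E' := IntermediateField.normalClosure ℚ E Qbar with hE'def
  haveI : FiniteDimensional ℚ E := hE.1
  haveI : FiniteDimensional ℚ E' := hE'.1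
  haveI : NumberField ↥E' := ⟨⟩
  haveI : Normal ℚ ↥E' := normalClosure.normal ℚ E Qbar
  haveI : IsGalois ℚ ↥E' := ⟨⟩
  have hFE' : F ≤ E' := hFE.trans hEE'
  letI := algebraOfLe hFE'
  intro v hv
  haveI : v.asIdeal.IsMaximal := v.isMaximal
  obtain ⟨A, hA⟩ := exists_primeOf_eq ↥F v.asIdeal
  obtain ⟨ℓ, hℓ, hℓv⟩ := exists_prime_natCast_mem v.asIdeal v.ne_bot
  have hAℓ : A.LiesOverPrime ℓ := liesOverPrime_of_natCast_mem ↥F A (by rw [hA]; exact hℓv)
  have hℓS : (⟨ℓ, hℓ⟩ : Nat.Primes) ∉ S := by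
    intro hS
    exact hv ((mem_placesOver_iff v).mpr ⟨⟨ℓ, hℓ⟩, hS, hℓv⟩)
  have hw0 : primeOf ↥E' A ≠ ⊥ := by
    intro h0
    have h1 := natCast_mem_primeOf ↥E' A hAℓ
    rw [h0, Ideal.mem_bot] at h1
    exact hℓ.ne_zero (by exact_mod_cast h1)
  set w : HeightOneSpectrum (𝓞 ↥E') := ⟨primeOf ↥E' A, inferInstance, hw0⟩ with hw
  haveI : w.asIdeal.LiesOver v.asIdeal := by
    refine ⟨?_⟩
    ext x
    rw [Ideal.mem_comap, ← hA, mem_primeOf_iff]
    show _ ↔ algebraMap (𝓞 ↥F) (𝓞 ↥E') x ∈ primeOf ↥E' A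
    rw [mem_primeOf_iff]
    rfl
  have hI : ∀ τ ∈ Ideal.inertia Gal(↥E'/ℚ) w.asIdeal, τ = 1 := by
    intro τ hτ
    obtain ⟨σ', hσ'I, hσ'⟩ := exists_mem_inertia_restrict_eq ↥E' A hℓ hAℓ τ hτ
    have := restrictNormalHom_eq_one_of_mem_fixingSubgroup E'
      (hE'.2 ⟨ℓ, hℓ⟩ hℓS A hAℓ hσ'I)
    rw [hσ'] at this
    exact this
  refine dvd_toAdd_of_inertia_trivial ↥F ↥E' v w hI p a ⟨α, hEE' hαE⟩ (Subtype.ext ?_)
  rw [algebraOfLe_algebraMap hFE' (a : ↥F), ← hα]
  rfl

end Main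

end Fermat.Agent.S55.helper97
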