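import Fermat.Agent.S55.helper97_KumGAsm
import Fermat.Agent.S55.helper97_KumG2b
import Fermat.Agent.S55.helper42_KumG2a
import Fermat.Agent.S55.helper58_KumG3

/-!
# S55 module B, package B-AR-KUM-G (helper97, task 365): `card_Z1_glob`, final wiring

`card_Z1_glob_of_card_index` : the statement of `helper59` Interface2 `card_Z1_glob`, with the
count of places `Nat.card ι = #{primes of F above S}` (B-AR-DEG `card_index_eq`) as its only
hypothesis beyond those of the interface.

Inputs on main: KG1 `helper97.card_Z1_eq_card_selmerGroup`, KG2a `helper42.inSLevel_of_isSelmer`,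
KG2b `helper97.isSelmer_of_inSLevel'`, KG3 `helper58.card_selmerGroup`,
KG4 `helper79.card_sunit_mod_pow`.
-/

set_option autoImplicit false
set_option linter.unusedSectionVars false

open IsDedekindDomain
open scoped NumberField nonZeroDivisors

noncomputable section

namespace Fermat.Agent.S55.helper97

open Fermat.Agent.S55 Fermat.Agent.S55.helper59 groupCohomology

local notation "Qbar" => AlgebraicClosure ℚ

theorem kg2aStatement : KG2aStatement :=
  fun hpS hF ζ hζ a α hα ha => helper42.inSLevel_of_isSelmer hpS hF ζ hζ a α hα ha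

theorem kg2bStatement : KG2bStatement :=
  fun a α hα h => isSelmer_of_inSLevel' a α hα h

theorem kg3Statement : KG3Statement :=
  fun F _ T n hn hfin => helper58.card_selmerGroup (↥F) T n hn hfin

variable {p : ℕ} [Fact p.Prime] {S : Finset Nat.Primes} {F : IntermediateField ℚ Qbar}
  {𝒩 : Levels (UF F)} {ι : Type}

/-- `#H¹(G_{F,S}, ℤ/p) = p ^ (#S_F + [F:ℚ]/2) * #(Cl_S(F)/p)`, with `#S_F` the number of primes
of `F` above `S`. UNCONDITIONAL. -/
theorem card_Z1_glob_primesOverS [NumberField ↥F] (hp2 : p ≠ 2)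
    (hpS : (⟨p, Fact.out⟩ : Nat.Primes) ∈ S) (hF : F.IsUnramifiedOutside S)
    (h𝒩 : 𝒩.mem = sLevels S F) (ζ : (↥F)ˣ) (hζ : IsPrimitiveRoot ζ p) :
    Nat.card ↥(Z1 𝒩 (T (ZMod p) (UF F))) =
      p ^ (Nat.card ↥(helper75.primesOverS (↥F) S) + Module.finrank ℚ F / 2) *
        Nat.card (helper75.ClSModP (↥F) p S) :=
  card_Z1_glob_placesOver kg2aStatement kg2bStatement kg3Statement hp2 hpS hF h𝒩 ζ hζ

/-- B-AR-KUM-G: the statement of `helper59` Interface2 `card_Z1_glob`, given B-AR-DEG
`card_index_eq` as hypothesis `hcard`. -/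
theorem card_Z1_glob_of_card_index [NumberField ↥F] (hp2 : p ≠ 2)
    (hpS : (⟨p, Fact.out⟩ : Nat.Primes) ∈ S) (hF : F.IsUnramifiedOutside S)
    (h𝒩 : 𝒩.mem = sLevels S F)
    (hcard : Nat.card ι = Nat.card ↥(helper75.primesOverS (↥F) S))
    (ζ : (↥F)ˣ) (hζ : IsPrimitiveRoot ζ p) :
    Nat.card ↥(Z1 𝒩 (T (ZMod p) (UF F))) =
      p ^ (Nat.card ι + Module.finrank ℚ F / 2) * Nat.card (helper75.ClSModP (↥F) p S) :=
  card_Z1_glob_of_inputs kg2aStatement kg2bStatement kg3Statement hp2 hpS hF h𝒩 hcard ζ hζ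

end Fermat.Agent.S55.helper97
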