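import Fermat.Agent.S55.Defs

/-!
# S55 module A: the dévissage principle (pure representation theory)

Let `k` be a field of characteristic `p`, `G` a group with a level structure `𝒩` all of whose
levels have finite index, and `χ : G →* kˣ` a character which is trivial on some level.
If a property `P` of `k`-representations of `G` is

* inherited by retracts (`hretract`),
* closed under extensions (`hext`), and
* holds for the permutation modules `k[G/U]`, `U` containing a level with `χ|U = 1` (`hbase`),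

then `P` holds for every finite dimensional smooth representation (`devissage`).

Proof: let `N₀` be a level acting trivially on `M` and on `χ`, `S` a Sylow `p`-subgroup of
`G/N₀` and `U` its preimage in `G`.  `M` is a retract of the induced module `Ind_U^G (M|U)`
(averaging, the index being prime to `p`), and by induction on the dimension every induced module
`Ind_U^G W` (`W` a finite dimensional `U`-module trivial on `N₀`) has `P`: a non zero `W` contains
a non zero `U`-fixed vector `w` (a `p`-group acting on an `𝔽_p`-vector space), which gives an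
exact sequence `0 → k[G/U] → Ind W → Ind (W/kw) → 0`.

The induced module is realised concretely on the function space `G ⧸ U → W` via the cocycle
`c(g, x) = σ(x)⁻¹ g σ(g⁻¹x)` attached to the section `σ = Quotient.out`.
-/

set_option autoImplicit false

universe u

noncomputable section

namespace Fermat.Agent.S55.helper57

open Fermat.Agent.S55

/-! ## The coset cocycle and the induced representation -/

section Ind

variable {k G : Type u} [Field k] [Group G] (U : Subgroup G)

/-- the chosen representative of a coset -/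
def cosetRep (x : G ⧸ U) : G := Quotient.out x

@[simp] lemma mk_cosetRep (x : G ⧸ U) : ((cosetRep U x : G) : G ⧸ U) = x :=
  QuotientGroup.out_eq' x

lemma smul_mk_cosetRep (g : G) (x : G ⧸ U) : ((g * cosetRep U x : G) : G ⧸ U) = g • x := by
  have h := MulAction.Quotient.smul_mk U g (cosetRep U x)
  rw [mk_cosetRep, smul_eq_mul] at h
  exact h.symm

/-- the cocycle `c(g, x) = σ(x)⁻¹ g σ(g⁻¹ x) ∈ U` -/
def cocyc (g : G) (x : G ⧸ U) : U :=
  ⟨(cosetRep U x)⁻¹ * g * cosetRep U (g⁻¹ • x), by
    rw [mul_assoc, ← QuotientGroup.eq, smul_mk_cosetRep, smul_inv_smul, mk_cosetRep]⟩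

@[simp] lemma coe_cocyc (g : G) (x : G ⧸ U) :
    (cocyc U g x : G) = (cosetRep U x)⁻¹ * g * cosetRep U (g⁻¹ • x) := rfl

lemma cocyc_one (x : G ⧸ U) : cocyc U 1 x = 1 := by
  apply Subtype.ext
  simp

lemma cocyc_mul (g h : G) (x : G ⧸ U) :
    cocyc U (g * h) x = cocyc U g x * cocyc U h (g⁻¹ • x) := by
  apply Subtype.ext
  simp only [coe_cocyc, Subgroup.coe_mul, mul_inv_rev, mul_smul]
  group

variable {U} {W : Type u} [AddCommGroup W] [Module k W]

/-- The induced representation `Ind_U^G τ`, realised on `G ⧸ U → W`: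
`(g • f)(x) = τ(c(g, x)) (f (g⁻¹ x))`. -/
def indRepn (τ : Representation k U W) : Representation k G (G ⧸ U → W) where
  toFun g :=
    { toFun := fun f x => τ (cocyc U g x) (f (g⁻¹ • x))
      map_add' := fun f f' => by
        funext x
        simp only [Pi.add_apply, map_add]
      map_smul' := fun c f => by
        funext x
        simp only [Pi.smul_apply, map_smul, RingHom.id_apply] }
  map_one' := by
    refine LinearMap.ext fun f => funext fun x => ?_
    simp only [LinearMap.coe_mk, AddHom.coe_mk, cocyc_one, map_one, Module.End.one_apply,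
      inv_one, one_smul]
  map_mul' g h := by
    refine LinearMap.ext fun f => funext fun x => ?_
    simp only [LinearMap.coe_mk, AddHom.coe_mk, cocyc_mul, map_mul, Module.End.mul_apply,
      mul_inv_rev, mul_smul]

@[simp] lemma indRepn_apply (τ : Representation k U W) (g : G) (f : G ⧸ U → W) (x : G ⧸ U) :
    indRepn τ g f x = τ (cocyc U g x) (f (g⁻¹ • x)) := rfl

end Ind

/-! ## A representation is a retract of the module induced from a subgroup of invertible index -/

section Retract

variable {k G : Type u} [Field k] [Group G] (U : Subgroup G)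
  {M : Type u} [AddCommGroup M] [Module k M] (ρ : Representation k G M)

/-- `M → Ind_U^G (M|U)`, `m ↦ (x ↦ σ(x)⁻¹ m)` -/
def toInd : M →ₗ[k] (G ⧸ U → M) where
  toFun m x := ρ (cosetRep U x)⁻¹ m
  map_add' m m' := by
    funext x
    simp only [map_add, Pi.add_apply]
  map_smul' c m := by
    funext x
    simp only [map_smul, RingHom.id_apply, Pi.smul_apply]

@[simp] lemma toInd_apply (m : M) (x : G ⧸ U) : toInd U ρ m x = ρ (cosetRep U x)⁻¹ m := rfl

lemma toInd_equivariant (g : G) (m : M) :
    toInd U ρ (ρ g m) = indRepn (ρ.comp U.subtype) g (toInd U ρ m) := by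
  funext x
  simp only [toInd_apply, indRepn_apply, MonoidHom.comp_apply, Subgroup.coe_subtype, coe_cocyc,
    ← Module.End.mul_apply, ← map_mul]
  congr 2
  group

variable [Fintype (G ⧸ U)]

/-- `Ind_U^G (M|U) → M`, `f ↦ [G:U]⁻¹ ∑ₓ σ(x) f(x)` -/
def ofInd : (G ⧸ U → M) →ₗ[k] M :=
  ((Fintype.card (G ⧸ U) : k)⁻¹) • ∑ x : G ⧸ U, (ρ (cosetRep U x)) ∘ₗ LinearMap.proj x

lemma ofInd_apply (f : G ⧸ U → M) :
    ofInd U ρ f = ((Fintype.card (G ⧸ U) : k)⁻¹) • ∑ x : G ⧸ U, ρ (cosetRep U x) (f x) := by
  simp only [ofInd, LinearMap.smul_apply, LinearMap.coe_sum, Finset.sum_apply,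
    LinearMap.comp_apply, LinearMap.proj_apply]

lemma ofInd_equivariant (g : G) (f : G ⧸ U → M) :
    ofInd U ρ (indRepn (ρ.comp U.subtype) g f) = ρ g (ofInd U ρ f) := by
  simp only [ofInd_apply, map_smul, map_sum]
  congr 1
  rw [← Equiv.sum_comp (MulAction.toPerm g⁻¹ : G ⧸ U ≃ G ⧸ U)
    (fun x => ρ g (ρ (cosetRep U x) (f x)))]
  refine Finset.sum_congr rfl fun x _ => ?_
  simp only [indRepn_apply, MonoidHom.comp_apply, Subgroup.coe_subtype, coe_cocyc,
    MulAction.toPerm_apply, ← Module.End.mul_apply, ← map_mul]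
  congr 2
  group

lemma ofInd_toInd (h : (Fintype.card (G ⧸ U) : k) ≠ 0) (m : M) :
    ofInd U ρ (toInd U ρ m) = m := by
  simp only [ofInd_apply, toInd_apply, ← Module.End.mul_apply, ← map_mul, mul_inv_cancel, map_one,
    Module.End.one_apply, Finset.sum_const, Finset.card_univ, ← Nat.cast_smul_eq_nsmul k,
    smul_smul, inv_mul_cancel₀ h, one_smul]

end Retract

/-! ## The exact sequence `0 → k[G/U] → Ind W → Ind (W/kw) → 0` attached to a fixed vector -/

section Exact

variable {k G : Type u} [Field k] [Group G] {U : Subgroup G}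
  {W : Type u} [AddCommGroup W] [Module k W] (τ : Representation k U W)

/-- `k[G/U] → Ind W`, `[x] ↦ (w supported at x)` -/
def permToInd (w : W) : MonoidAlgebra k (G ⧸ U) →ₗ[k] (G ⧸ U → W) where
  toFun a x := a.coeff x • w
  map_add' a b := by
    funext x
    simp only [MonoidAlgebra.coeff_add, Finsupp.coe_add, Pi.add_apply, add_smul]
  map_smul' c a := by
    funext x
    simp only [MonoidAlgebra.coeff_smul, Finsupp.coe_smul, Pi.smul_apply, smul_eq_mul, mul_smul,
      RingHom.id_apply]

@[simp] lemma permToInd_apply (w : W) (a : MonoidAlgebra k (G ⧸ U)) (x : G ⧸ U) :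
    permToInd (U := U) w a x = a.coeff x • w := rfl

lemma permToInd_equivariant {w : W} (hw : ∀ u, τ u w = w) (g : G)
    (a : MonoidAlgebra k (G ⧸ U)) :
    permToInd w (Representation.ofMulAction k G (G ⧸ U) g a) = indRepn τ g (permToInd w a) := by
  funext x
  simp only [permToInd_apply, indRepn_apply, Representation.coeff_ofMulAction, map_smul, hw]

lemma permToInd_injective {w : W} (hw : w ≠ 0) :
    Function.Injective (permToInd (k := k) (U := U) w) := by
  rw [injective_iff_map_eq_zero]
  intro a ha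
  apply MonoidAlgebra.coeff_injective
  ext x
  have h := congrFun ha x
  simp only [permToInd_apply, Pi.zero_apply, smul_eq_zero] at h
  simpa using h.resolve_right hw

lemma mem_range_permToInd [Finite (G ⧸ U)] (w : W) (f : G ⧸ U → W) :
    f ∈ LinearMap.range (permToInd (k := k) (U := U) w) ↔
      ∀ x, f x ∈ Submodule.span k {w} := by
  constructor
  · rintro ⟨a, rfl⟩ x
    exact Submodule.smul_mem _ _ (Submodule.mem_span_singleton_self w)
  · intro h
    choose c hc using fun x => Submodule.mem_span_singleton.1 (h x)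
    refine ⟨MonoidAlgebra.ofCoeff (Finsupp.equivFunOnFinite.symm c), ?_⟩
    funext x
    simp only [permToInd_apply, Finsupp.equivFunOnFinite_symm_apply_apply, hc]

/-- the line spanned by a fixed vector is a subrepresentation -/
lemma span_fixed_le_comap {w : W} (hw : ∀ u, τ u w = w) (u : U) :
    Submodule.span k {w} ≤ (Submodule.span k {w}).comap (τ u) := by
  intro v hv
  obtain ⟨c, rfl⟩ := Submodule.mem_span_singleton.1 hv
  simp only [Submodule.mem_comap, map_smul, hw]
  exact Submodule.smul_mem _ _ (Submodule.mem_span_singleton_self w)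

/-- `Ind W → Ind (W/L)` -/
def indQuot (L : Submodule k W) : (G ⧸ U → W) →ₗ[k] (G ⧸ U → W ⧸ L) :=
  L.mkQ.compLeft (G ⧸ U)

@[simp] lemma indQuot_apply (L : Submodule k W) (f : G ⧸ U → W) (x : G ⧸ U) :
    indQuot L f x = L.mkQ (f x) := rfl

lemma indQuot_surjective (L : Submodule k W) :
    Function.Surjective (indQuot (U := U) L) := by
  intro f
  choose f' hf' using fun x => L.mkQ_surjective (f x)
  exact ⟨f', funext hf'⟩

lemma indQuot_equivariant (L : Submodule k W) (hL : ∀ u, L ≤ L.comap (τ u)) (g : G)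
    (f : G ⧸ U → W) :
    indQuot L (indRepn τ g f) = indRepn (τ.quotient L hL) g (indQuot L f) := by
  funext x
  rfl

lemma indQuot_eq_zero_iff (L : Submodule k W) (f : G ⧸ U → W) :
    indQuot (U := U) L f = 0 ↔ ∀ x, f x ∈ L := by
  simp only [funext_iff, indQuot_apply, Pi.zero_apply, Submodule.mkQ_apply,
    Submodule.Quotient.mk_eq_zero]

end Exact

/-! ## Fixed vectors of `p`-groups in characteristic `p`, Sylow subgroups -/

section Fixed

/-- A finite `p`-group acting linearly on a non zero vector space over a field of characteristic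
`p` has a non zero fixed vector. -/
lemma exists_fixed_ne_zero {k : Type*} [Field k] (p : ℕ) [Fact p.Prime] [CharP k p]
    {Q : Type*} [Group Q] [Finite Q] (hQ : IsPGroup p Q)
    {W : Type*} [AddCommGroup W] [Module k W] (τ : Representation k Q W)
    {w₀ : W} (hw₀ : w₀ ≠ 0) : ∃ w : W, w ≠ 0 ∧ ∀ q, τ q w = w := by
  classical
  let A : AddSubgroup W := AddSubgroup.closure (Set.range fun q => τ q w₀)
  have hA_stable : ∀ q, ∀ a ∈ A, τ q a ∈ A := by
    intro q a ha
    induction ha using AddSubgroup.closure_induction with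
    | mem x hx =>
      obtain ⟨q', rfl⟩ := hx
      refine AddSubgroup.subset_closure ⟨q * q', ?_⟩
      simp only [map_mul, Module.End.mul_apply]
    | zero => rw [map_zero]; exact A.zero_mem
    | add x y _ _ hx hy => rw [map_add]; exact A.add_mem hx hy
    | neg x _ hx => rw [map_neg]; exact A.neg_mem hx
  have hp0 : ∀ a : W, p • a = 0 := fun a => by
    rw [← Nat.cast_smul_eq_nsmul k p a, CharP.cast_eq_zero k p, zero_smul]
  have hw₀A : w₀ ∈ A := AddSubgroup.subset_closure ⟨1, by simp⟩
  have : AddGroup.FG A := AddGroup.closure_finite_fg _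
  have hfinA : Finite A := by
    apply AddCommGroup.finite_of_fg_isAddTorsion
    intro a
    rw [isOfFinAddOrder_iff_nsmul_eq_zero]
    exact ⟨p, (Fact.out : p.Prime).pos, Subtype.ext (by simpa using hp0 a)⟩
  let _ : MulAction Q A :=
    { smul := fun q a => ⟨τ q a, hA_stable q a a.2⟩
      one_smul := fun a => Subtype.ext (by
        change τ 1 (a : W) = a
        simp)
      mul_smul := fun q q' a => Subtype.ext (by
        change τ (q * q') (a : W) = τ q (τ q' a)
        simp) }
  have hp : p ∣ Nat.card A := by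
    have h1 : addOrderOf (⟨w₀, hw₀A⟩ : A) = p :=
      addOrderOf_eq_prime (Subtype.ext (by simpa using hp0 w₀))
        (fun h => hw₀ (congrArg Subtype.val h))
    rw [← h1]
    exact addOrderOf_dvd_natCard _
  obtain ⟨b, hb, hne⟩ := hQ.exists_fixed_point_of_prime_dvd_card_of_fixed_point A hp
    (a := 0) (fun q => Subtype.ext (by
      change τ q (0 : W) = 0
      simp))
  refine ⟨b, fun h => hne (Subtype.ext h.symm), fun q => ?_⟩
  exact congrArg Subtype.val (hb q)


end Fixed

section Sylow

variable {G : Type*} [Group G] (p : ℕ) [Fact p.Prime]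

/-- The preimage `U` of a Sylow `p`-subgroup of the finite quotient `G/N₀`. -/
lemma exists_sylow_preimage (N₀ : Subgroup G) [N₀.Normal] [Finite (G ⧸ N₀)] :
    ∃ U : Subgroup G, N₀ ≤ U ∧ ¬ p ∣ U.index ∧ ∀ g ∈ U, ∃ n : ℕ, g ^ p ^ n ∈ N₀ := by
  obtain ⟨S⟩ : Nonempty (Sylow p (G ⧸ N₀)) := inferInstance
  refine ⟨(S : Subgroup (G ⧸ N₀)).comap (QuotientGroup.mk' N₀), ?_, ?_, ?_⟩
  · intro g hg
    rw [Subgroup.mem_comap, QuotientGroup.mk'_apply, (QuotientGroup.eq_one_iff g).2 hg]
    exact one_mem _
  · rw [Subgroup.index_comap_of_surjective _ (QuotientGroup.mk'_surjective N₀)]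
    exact S.not_dvd_index
  · intro g hg
    obtain ⟨n, hn⟩ := S.isPGroup' ⟨QuotientGroup.mk' N₀ g, hg⟩
    refine ⟨n, ?_⟩
    have h := congrArg Subtype.val hn
    simpa [QuotientGroup.eq_one_iff, ← QuotientGroup.mk_pow] using h

variable {p}

/-- In characteristic `p` a character which is trivial on `N₀` is trivial on every `U` with
`U/N₀` a `p`-group. -/
lemma char_trivial_of_pQuot {k : Type*} [Field k] [CharP k p] (χ : G →* kˣ) {N₀ U : Subgroup G}
    (hχ : ∀ g ∈ N₀, χ g = 1) (hc : ∀ g ∈ U, ∃ n : ℕ, g ^ p ^ n ∈ N₀) :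
    ∀ g ∈ U, χ g = 1 := by
  intro g hg
  obtain ⟨n, hn⟩ := hc g hg
  have h1 : (χ g : k) ^ p ^ n = 1 := by
    have := hχ _ hn
    rw [map_pow] at this
    simpa using congrArg Units.val this
  have h2 : ((χ g : k) - 1) ^ p ^ n = 0 := by
    rw [sub_pow_char_pow, h1, one_pow, sub_self]
  have h3 := pow_eq_zero_iff (pow_ne_zero n (Fact.out : p.Prime).ne_zero) |>.1 h2
  exact Units.ext (by simpa using sub_eq_zero.1 h3)

/-- A non zero representation of `U` which is trivial on `N₀ ∩ U`, where `U/N₀` is a finite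
`p`-group, has a non zero fixed vector. -/
lemma exists_fixed_ne_zero_of_pQuot {k : Type*} [Field k] [CharP k p] {N₀ U : Subgroup G}
    [N₀.Normal] [Finite (G ⧸ N₀)] (hc : ∀ g ∈ U, ∃ n : ℕ, g ^ p ^ n ∈ N₀)
    {W : Type*} [AddCommGroup W] [Module k W] (τ : Representation k U W)
    (hτ : ∀ u : U, (u : G) ∈ N₀ → ∀ w, τ u w = w) {w₀ : W} (hw₀ : w₀ ≠ 0) :
    ∃ w : W, w ≠ 0 ∧ ∀ u, τ u w = w := by
  have : N₀.FiniteIndex := Subgroup.finiteIndex_of_finite_quotient
  let K : Subgroup U := N₀.subgroupOf U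
  have : Representation.IsTrivial (τ.comp K.subtype) :=
    ⟨fun u => LinearMap.ext (hτ u.1 (Subgroup.mem_subgroupOf.1 u.2))⟩
  have hQ : IsPGroup p (U ⧸ K) := by
    intro x
    induction x using QuotientGroup.induction_on with
    | H u =>
      obtain ⟨n, hn⟩ := hc u u.2
      refine ⟨n, ?_⟩
      rw [← QuotientGroup.mk_pow, QuotientGroup.eq_one_iff, Subgroup.mem_subgroupOf]
      simpa using hn
  obtain ⟨w, hw, hfix⟩ := exists_fixed_ne_zero p hQ (Representation.ofQuotient τ K) hw₀
  exact ⟨w, hw, fun u => hfix (u : U ⧸ K)⟩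

end Sylow

/-! ## Smoothness and finiteness of the modules involved -/

section Smooth

variable {k G : Type u} [Field k] [Group G] {N₀ U : Subgroup G}

/-- a normal subgroup contained in `U` acts trivially on `G ⧸ U` -/
lemma smul_coset_eq_of_mem [N₀.Normal] (hle : N₀ ≤ U) {s : G} (hs : s ∈ N₀) (x : G ⧸ U) :
    s • x = x := by
  induction x using QuotientGroup.induction_on with
  | H g =>
    rw [MulAction.Quotient.smul_mk, smul_eq_mul, QuotientGroup.eq]
    apply hle
    have h := (inferInstance : N₀.Normal).conj_mem s⁻¹ (inv_mem hs) g⁻¹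
    simpa [mul_assoc] using h

lemma cocyc_mem_of_mem [N₀.Normal] (hle : N₀ ≤ U) {s : G} (hs : s ∈ N₀) (x : G ⧸ U) :
    (cocyc U s x : G) ∈ N₀ := by
  rw [coe_cocyc, smul_coset_eq_of_mem hle (inv_mem hs)]
  have h := (inferInstance : N₀.Normal).conj_mem s hs (cosetRep U x)⁻¹
  simpa [mul_assoc] using h

lemma indRepn_trivial_of_mem [N₀.Normal] (hle : N₀ ≤ U) {W : Type u} [AddCommGroup W]
    [Module k W] (τ : Representation k U W) (hτ : ∀ u : U, (u : G) ∈ N₀ → ∀ w, τ u w = w)
    {s : G} (hs : s ∈ N₀) (f : G ⧸ U → W) : indRepn τ s f = f := by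
  funext x
  rw [indRepn_apply, hτ _ (cocyc_mem_of_mem hle hs x), smul_coset_eq_of_mem hle (inv_mem hs)]

lemma ofMulAction_trivial_of_mem [N₀.Normal] (hle : N₀ ≤ U) {s : G} (hs : s ∈ N₀)
    (a : MonoidAlgebra k (G ⧸ U)) : Representation.ofMulAction k G (G ⧸ U) s a = a := by
  apply MonoidAlgebra.coeff_injective
  ext x
  rw [Representation.coeff_ofMulAction, smul_coset_eq_of_mem hle (inv_mem hs)]

end Smooth

/-! ## The dévissage -/

section Core

variable {k G : Type u} [Field k] [Group G] (𝒩 : Levels G) (P : Rep.{u} k G → Prop)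

/-- `P` is inherited by retracts (among finite dimensional smooth representations). -/
def RetractClosed : Prop :=
  ∀ (A B : Rep.{u} k G) (i : A →ₗ[k] B) (r : B →ₗ[k] A),
    (∀ g a, i (A.ρ g a) = B.ρ g (i a)) → (∀ g b, r (B.ρ g b) = A.ρ g (r b)) →
    (∀ a, r (i a) = a) → Module.Finite k A → Module.Finite k B →
    IsSmooth 𝒩 A → IsSmooth 𝒩 B → P B → P A

/-- `P` is closed under extensions (of finite dimensional smooth representations). -/
def ExtClosed : Prop :=
  ∀ (A₁ A A₂ : Rep.{u} k G) (i : A₁ →ₗ[k] A) (q : A →ₗ[k] A₂),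
    (∀ g a, i (A₁.ρ g a) = A.ρ g (i a)) → (∀ g a, q (A.ρ g a) = A₂.ρ g (q a)) →
    Function.Injective i → Function.Surjective q → LinearMap.range i = LinearMap.ker q →
    Module.Finite k A₁ → Module.Finite k A → Module.Finite k A₂ →
    IsSmooth 𝒩 A₁ → IsSmooth 𝒩 A → IsSmooth 𝒩 A₂ → P A₁ → P A₂ → P A

variable {𝒩 P}

/-- Every module induced from `U` has `P`, if `k[G/U]` has `P` and `U/N₀` is a `p`-group. -/
lemma ind_of_perm {p : ℕ} [Fact p.Prime] [CharP k p]
    (hretract : RetractClosed 𝒩 P) (hext : ExtClosed 𝒩 P)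
    {N₀ U : Subgroup G} (hN₀ : N₀ ∈ 𝒩.mem) [N₀.Normal] [Finite (G ⧸ N₀)] (hle : N₀ ≤ U)
    (hc : ∀ g ∈ U, ∃ n : ℕ, g ^ p ^ n ∈ N₀) (hPU : P (permRep k U)) :
    ∀ (n : ℕ) (W : Rep.{u} k U), Module.Finite k W →
      (∀ u : U, (u : G) ∈ N₀ → ∀ w, W.ρ u w = w) → Module.finrank k W = n →
      P (Rep.of (indRepn W.ρ)) := by
  have hfi : N₀.FiniteIndex := Subgroup.finiteIndex_of_finite_quotient
  have hfiU : U.FiniteIndex := Subgroup.finiteIndex_of_le hle
  have hfinU : Finite (G ⧸ U) := inferInstance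
  have hperm_fin : Module.Finite k (permRep k U) :=
    Module.Finite.of_basis (MonoidAlgebra.basis (G ⧸ U) k)
  have hperm_sm : IsSmooth 𝒩 (permRep k U) :=
    ⟨N₀, hN₀, fun s hs a => ofMulAction_trivial_of_mem hle hs a⟩
  intro n
  induction n using Nat.strong_induction_on with
  | _ n ih =>
    intro W hWfin hW hn
    have hind_fin : Module.Finite k (Rep.of (indRepn W.ρ)) :=
      (inferInstance : Module.Finite k (G ⧸ U → W))
    have hind_sm : IsSmooth 𝒩 (Rep.of (indRepn W.ρ)) :=
      ⟨N₀, hN₀, fun s hs f => indRepn_trivial_of_mem hle W.ρ hW hs f⟩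
    by_cases h0 : ∃ w₀ : W, w₀ ≠ 0
    · obtain ⟨w₀, hw₀⟩ := h0
      obtain ⟨w, hw, hfix⟩ := exists_fixed_ne_zero_of_pQuot hc W.ρ hW hw₀
      set L : Submodule k W := Submodule.span k {w} with hL
      have hLst : ∀ u, L ≤ L.comap (W.ρ u) := span_fixed_le_comap W.ρ hfix
      let W' : Rep.{u} k U := Rep.of (W.ρ.quotient L hLst)
      have hW'fin : Module.Finite k W' := (inferInstance : Module.Finite k (W ⧸ L))
      have hW' : ∀ u : U, (u : G) ∈ N₀ → ∀ w', W'.ρ u w' = w' := by
        intro u hu w'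
        induction w' using Submodule.Quotient.induction_on with
        | H v =>
          change L.mkQ (W.ρ u v) = L.mkQ v
          rw [hW u hu v]
      have hrank : Module.finrank k W' < n := by
        have h1 : Module.finrank k (W ⧸ L) + Module.finrank k L = Module.finrank k W :=
          Submodule.finrank_quotient_add_finrank L
        have h2 : Module.finrank k L = 1 := finrank_span_singleton hw
        change Module.finrank k (W ⧸ L) < n
        omega
      have hPW' : P (Rep.of (indRepn W'.ρ)) := ih _ hrank W' hW'fin hW' rfl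
      have hW'ind_fin : Module.Finite k (Rep.of (indRepn W'.ρ)) :=
        (inferInstance : Module.Finite k (G ⧸ U → (W ⧸ L)))
      have hW'ind_sm : IsSmooth 𝒩 (Rep.of (indRepn W'.ρ)) :=
        ⟨N₀, hN₀, fun s hs f => indRepn_trivial_of_mem hle W'.ρ hW' hs f⟩
      refine hext (permRep k U) (Rep.of (indRepn W.ρ)) (Rep.of (indRepn W'.ρ))
        (permToInd w) (indQuot L) (permToInd_equivariant W.ρ hfix)
        (indQuot_equivariant W.ρ L hLst) (permToInd_injective hw) (indQuot_surjective L) ?_
        hperm_fin hind_fin hW'ind_fin hperm_sm hind_sm hW'ind_sm hPU hPW'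
      ext f
      rw [LinearMap.mem_ker]
      exact (mem_range_permToInd w f).trans (indQuot_eq_zero_iff L f).symm
    · have hsub : ∀ f : G ⧸ U → W, f = 0 := fun f => funext fun x => by
        by_contra hne
        exact h0 ⟨f x, hne⟩
      refine hretract (Rep.of (indRepn W.ρ)) (permRep k U) 0 0 ?_ ?_ ?_
        hind_fin hperm_fin hind_sm hperm_sm hPU
      · intro g a
        simp only [LinearMap.zero_apply, map_zero]
      · intro g b
        simp only [LinearMap.zero_apply, map_zero]
      · intro a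
        rw [hsub a]
        simp only [LinearMap.zero_apply]

/-- **Dévissage.**  A property of representations which is inherited by retracts, closed under
extensions, and holds for the permutation modules `k[G/U]` (`U` containing a level, `χ|U = 1`)
holds for all finite dimensional smooth representations. -/
theorem devissage (p : ℕ) [Fact p.Prime] [CharP k p]
    (hfin : ∀ N ∈ 𝒩.mem, Finite (G ⧸ N)) (χ : G →* kˣ)
    (hχ : ∃ N ∈ 𝒩.mem, ∀ g ∈ N, χ g = 1)
    (hretract : RetractClosed 𝒩 P) (hext : ExtClosed 𝒩 P)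
    (hbase : ∀ U : Subgroup G, (∃ N ∈ 𝒩.mem, N ≤ U) → (∀ g ∈ U, χ g = 1) → P (permRep k U)) :
    ∀ M : Rep.{u} k G, Module.Finite k M → IsSmooth 𝒩 M → P M := by
  intro M hMfin hMsm
  obtain ⟨N₁, hN₁, hM⟩ := hMsm
  obtain ⟨N₂, hN₂, hχ₂⟩ := hχ
  obtain ⟨N₀, hN₀, hN₀le⟩ := 𝒩.directed N₁ hN₁ N₂ hN₂
  have hnorm : N₀.Normal := 𝒩.normal N₀ hN₀
  have hfinN₀ : Finite (G ⧸ N₀) := hfin N₀ hN₀
  obtain ⟨U, hle, hidx, hc⟩ := exists_sylow_preimage p N₀
  have hχU : ∀ g ∈ U, χ g = 1 :=
    char_trivial_of_pQuot χ (fun g hg => hχ₂ g (hN₀le hg).2) hc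
  have hPU : P (permRep k U) := hbase U ⟨N₀, hN₀, hle⟩ hχU
  have hfi : N₀.FiniteIndex := Subgroup.finiteIndex_of_finite_quotient
  have hfiU : U.FiniteIndex := Subgroup.finiteIndex_of_le hle
  have hfinU : Finite (G ⧸ U) := inferInstance
  let _ : Fintype (G ⧸ U) := Fintype.ofFinite _
  let W : Rep.{u} k U := Rep.of (M.ρ.comp U.subtype)
  have hW : ∀ u : U, (u : G) ∈ N₀ → ∀ w, W.ρ u w = w := fun u hu w => hM u (hN₀le hu).1 w
  have hPind : P (Rep.of (indRepn W.ρ)) :=
    ind_of_perm hretract hext hN₀ hle hc hPU _ W hMfin hW rfl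
  have hcard : (Fintype.card (G ⧸ U) : k) ≠ 0 := by
    rw [Ne, CharP.cast_eq_zero_iff k p, ← Nat.card_eq_fintype_card]
    exact hidx
  refine hretract M (Rep.of (indRepn W.ρ)) (toInd U M.ρ) (ofInd U M.ρ)
    (toInd_equivariant U M.ρ) (ofInd_equivariant U M.ρ) (ofInd_toInd U M.ρ hcard) hMfin
    (inferInstance : Module.Finite k (G ⧸ U → M))
    ⟨N₁, hN₁, hM⟩ ⟨N₀, hN₀, fun s hs f => indRepn_trivial_of_mem hle W.ρ hW hs f⟩ hPind

end Core

/-! ## Specialisation to the CLAIM of module A -/

section ClaimDevissage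

variable {k G : Type u} [Field k] [Group G] {𝒩 : Levels G} {ι : Type} (L : LocalData G 𝒩 ι)

/-- Dévissage for the CLAIM: if the CLAIM (for the evaluation pairings `A × A^*(χ) → k(χ)`) is
inherited by retracts and closed under extensions, then `BaseHyp` implies the CLAIM for every
finite dimensional smooth representation. -/
theorem claim_of_baseHyp (p : ℕ) [Fact p.Prime] [CharP k p]
    (hfin : ∀ N ∈ 𝒩.mem, Finite (G ⧸ N)) (χ : G →* kˣ)
    (hχ : ∃ N ∈ 𝒩.mem, ∀ g ∈ N, χ g = 1)
    (tr : CcAmb3 L (groupCohomology.ofChar χ) →ₗ[k] k)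
    (hretract : RetractClosed 𝒩 (fun A : Rep.{u} k G => Claim L (evPairing A χ) tr))
    (hext : ExtClosed 𝒩 (fun A : Rep.{u} k G => Claim L (evPairing A χ) tr))
    (hbase : BaseHyp L χ tr) :
    ∀ M : Rep.{u} k G, Module.Finite k M → IsSmooth 𝒩 M → Claim L (evPairing M χ) tr :=
  devissage p hfin χ hχ hretract hext hbase

end ClaimDevissage

end Fermat.Agent.S55.helper57
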