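import Fermat.Agent.S55.helper97_KumGDefs
import Fermat.Agent.S55.helper69_BArLev
import Fermat.Agent.S14.helper91_FieldObstruction
import Fermat.Agent.S14.helper90_Unramified

/-!
# S55 B-AR-KUM-G2b (helper52, task 395): S-level ⇒ Selmer

If a `p`-th root `α` of `a ∈ Fˣ` lies in a finite normal extension `E ⊇ F` of `ℚ` unramified
outside `S`, then `p ∣ ord_v a` for every finite place `v` of `F` not above `S`.
-/

set_option autoImplicit false
set_option linter.style.haveILetI false

open IsDedekindDomain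
open scoped NumberField nonZeroDivisors

noncomputable section

namespace Fermat.Agent.S55.helper52

open Fermat.Agent.S55 Fermat.Agent.S55.helper97 Fermat.Agent.S14.helper91
  Fermat.Agent.S54.helper91

local notation "Qbar" => AlgebraicClosure ℚ

section Val

variable (L : Type*) [Field L] [NumberField L] [Algebra L Qbar]

/-- an element of `L` which is integral at the prime `primeOf L A` lies in `A` -/
theorem valuation_le_one_of_le_one (A : ValuationSubring Qbar) (P : HeightOneSpectrum (𝓞 L))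
    (hP : P.asIdeal = primeOf L A) (x : L) (hx : P.valuation L x ≤ 1) :
    A.valuation (algebraMap L Qbar x) ≤ 1 := by
  obtain ⟨n, d, h⟩ := P.exists_primeCompl_mul_eq_of_integer x hx
  have hd1 : A.valuation (algebraMap L Qbar (algebraMap (𝓞 L) L d)) = 1 := by
    have h1 : A.valuation (algebraMap L Qbar (algebraMap (𝓞 L) L d)) ≤ 1 :=
      (A.valuation_le_one_iff _).mpr (mem_valuationSubring_of_isIntegral A (toZbar L d).2)
    have h2 : ¬ A.valuation (algebraMap L Qbar (algebraMap (𝓞 L) L d)) < 1 := by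
      rw [← mem_primeOf_iff, ← hP]
      exact d.2
    exact le_antisymm h1 (not_lt.mp h2)
  have hn1 : A.valuation (algebraMap L Qbar (algebraMap (𝓞 L) L n)) ≤ 1 :=
    (A.valuation_le_one_iff _).mpr (mem_valuationSubring_of_isIntegral A (toZbar L n).2)
  have h' := congrArg (fun y => A.valuation (algebraMap L Qbar y)) h
  simp only [map_mul] at h'
  rw [hd1, mul_one] at h'
  rw [h']
  exact hn1

/-- a unit of `L` of valuation `0` at the prime `primeOf L A` is a unit of `A` -/
theorem valuation_eq_one_of_valuationOfNeZero_eq_one (A : ValuationSubring Qbar)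
    (P : HeightOneSpectrum (𝓞 L)) (hP : P.asIdeal = primeOf L A) (x : Lˣ)
    (hx : P.valuationOfNeZero x = 1) : A.valuation (algebraMap L Qbar (x : L)) = 1 := by
  have h1 : P.valuation L (x : L) = 1 := by
    rw [← HeightOneSpectrum.valuationOfNeZero_eq, hx]; rfl
  have h2 : P.valuation L ((x⁻¹ : Lˣ) : L) = 1 := by
    rw [← HeightOneSpectrum.valuationOfNeZero_eq, map_inv, hx]; rfl
  have h3 := valuation_le_one_of_le_one L A P hP (x : L) h1.le
  have h4 := valuation_le_one_of_le_one L A P hP ((x⁻¹ : Lˣ) : L) h2.le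
  have h5 : A.valuation (algebraMap L Qbar (x : L)) *
      A.valuation (algebraMap L Qbar ((x⁻¹ : Lˣ) : L)) = 1 := by
    rw [← map_mul, ← map_mul, ← Units.val_mul, mul_inv_cancel, Units.val_one, map_one, map_one]
  refine le_antisymm h3 ?_
  by_contra hlt
  rw [not_le] at hlt
  have : A.valuation (algebraMap L Qbar (x : L)) *
      A.valuation (algebraMap L Qbar ((x⁻¹ : Lˣ) : L)) < 1 := by
    calc _ ≤ A.valuation (algebraMap L Qbar (x : L)) * 1 := mul_le_mul' le_rfl h4
      _ = A.valuation (algebraMap L Qbar (x : L)) := mul_one _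
      _ < 1 := hlt
  rw [h5] at this
  exact lt_irrefl _ this

/-- comparison of the `A`-valuations of two units of `L` through their orders at
`primeOf L A` -/
theorem valuation_zpow_eq_zpow (A : ValuationSubring Qbar)
    (P : HeightOneSpectrum (𝓞 L)) (hP : P.asIdeal = primeOf L A) (x y : Lˣ) :
    A.valuation (algebraMap L Qbar (x : L)) ^ (Multiplicative.toAdd (P.valuationOfNeZero y)) =
      A.valuation (algebraMap L Qbar (y : L)) ^ (Multiplicative.toAdd (P.valuationOfNeZero x)) := by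
  set m := Multiplicative.toAdd (P.valuationOfNeZero x) with hm
  set n := Multiplicative.toAdd (P.valuationOfNeZero y) with hn
  have hz : P.valuationOfNeZero (x ^ n / y ^ m) = 1 := by
    rw [map_div, map_zpow, map_zpow, div_eq_one]
    apply Multiplicative.toAdd.injective
    rw [toAdd_zpow, toAdd_zpow, ← hm, ← hn]
    simp [mul_comm]
  have h1 := valuation_eq_one_of_valuationOfNeZero_eq_one L A P hP _ hz
  rw [Units.val_div_eq_div_val, Units.val_zpow_eq_zpow_val, Units.val_zpow_eq_zpow_val,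
    map_div₀, map_div₀, map_zpow₀, map_zpow₀, map_zpow₀, map_zpow₀] at h1
  have hy0 : A.valuation (algebraMap L Qbar (y : L)) ^ m ≠ 0 := by
    apply zpow_ne_zero
    rw [Valuation.ne_zero_iff]
    exact (map_ne_zero _).mpr y.ne_zero
  exact (div_eq_one_iff_eq hy0).mp h1

end Val

section Ram

/-- `ramificationIdx' = 1` gives an element of the prime below whose image is not in `P ^ 2` -/
theorem exists_mem_notMem_sq {R T : Type*} [CommRing R] [CommRing T] [Algebra R T]
    (p : Ideal R) (P : Ideal T) (h : p.ramificationIdx' P = 1) :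
    ∃ t ∈ p, algebraMap R T t ∉ P ^ 2 := by
  by_contra hcon
  push Not at hcon
  have hle : p.map (algebraMap R T) ≤ P ^ 2 := by
    rw [Ideal.map_le_iff_le_comap]
    intro t ht
    exact hcon t ht
  by_cases hb : BddAbove {n | p.map (algebraMap R T) ≤ P ^ n}
  · have h2 : 2 ≤ p.ramificationIdx' P := le_csSup hb hle
    omega
  · have h0 : p.ramificationIdx' P = 0 := Nat.sSup_of_not_bddAbove hb
    omega

end Ram

section Main

variable {p : ℕ} [Fact p.Prime] {S : Finset Nat.Primes} {F : IntermediateField ℚ Qbar}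
  [NumberField ↥F]

/-- KG2b (S-level => Selmer): if a `p`-th root of `a` lies in an `S`-level then `p ∣ ord_v a` for
all `v` not above `S`. -/
theorem isSelmer_of_inSLevel (a : (↥F)ˣ) (α : Qbar) (hα : α ^ p = ((a : ↥F) : Qbar))
    (h : InSLevel S F α) : IsSelmer (↥F) S p a := by
  obtain ⟨E, hE, hN, hFE, hαE⟩ := h
  intro v hv
  haveI : FiniteDimensional ℚ E := hE.1
  haveI : NumberField E := ⟨⟩
  have hG : IsGalois ℚ Qbar := isGalois_Qbar
  haveI : IsGalois ℚ E := (InfiniteGalois.normal_iff_isGalois E).mp hN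
  haveI : v.asIdeal.IsMaximal := v.isMaximal
  obtain ⟨A, hA⟩ := exists_primeOf_eq (↥F) v.asIdeal
  obtain ⟨ℓ, hℓ, hℓv⟩ := exists_prime_natCast_mem v.asIdeal v.ne_bot
  have hAℓ : A.LiesOverPrime ℓ :=
    liesOverPrime_of_natCast_mem (↥F) A (by rw [hA]; exact hℓv)
  have hqS : (⟨ℓ, hℓ⟩ : Nat.Primes) ∉ S := fun hq =>
    hv ((mem_placesOver_iff v).mpr ⟨⟨ℓ, hℓ⟩, hq, hℓv⟩)
  have hI := hE.2 ⟨ℓ, hℓ⟩ hqS A hAℓ
  -- the prime of `E` cut out by `A`
  have hP0ne : primeOf (↥E) A ≠ ⊥ := by
    intro hbot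
    have hmem : (ℓ : 𝓞 E) ∈ primeOf (↥E) A := natCast_mem_primeOf (↥E) A hAℓ
    rw [hbot, Ideal.mem_bot] at hmem
    exact hℓ.ne_zero (by exact_mod_cast hmem)
  let P : HeightOneSpectrum (𝓞 E) := ⟨primeOf (↥E) A, inferInstance, hP0ne⟩
  have hPA : P.asIdeal = primeOf (↥E) A := rfl
  -- its inertia group is trivial
  have hin : ∀ τ ∈ Ideal.inertia (E ≃ₐ[ℚ] E) (primeOf (↥E) A), τ = 1 := by
    intro τ hτ
    obtain ⟨σ, hσI, hσ⟩ := exists_mem_inertia_restrict_eq (↥E) A hℓ hAℓ τ hτ
    rw [← hσ]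
    exact restrictNormalHom_eq_one_of_mem_fixingSubgroup E (hI hσI)
  have hcard : Nat.card (Ideal.inertia (E ≃ₐ[ℚ] E) (primeOf (↥E) A)) = 1 := by
    rw [Nat.card_eq_one_iff_unique]
    refine ⟨⟨fun x y => Subtype.ext ?_⟩, ⟨1⟩⟩
    rw [hin x x.2, hin y y.2]
  have he : (primeOf (↥E) A).ramificationIdx (𝓞 ℚ) = 1 := by
    rw [← Fermat.Agent.S14.helper90.card_inertia_eq_ramificationIdx (K := ℚ) (primeOf (↥E) A) hP0ne]
    exact hcard
  have hp0 : (primeOf (↥E) A).under (𝓞 ℚ) ≠ ⊥ := Ideal.under_ne_bot (𝓞 ℚ) hP0ne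
  have he' : ((primeOf (↥E) A).under (𝓞 ℚ)).ramificationIdx' (primeOf (↥E) A) = 1 := by
    rw [Ideal.ramificationIdx'_eq_ramificationIdx _ _ hp0, he]
  obtain ⟨t, htp, htP⟩ := exists_mem_notMem_sq _ _ he'
  have ht0 : t ≠ 0 := by
    rintro rfl
    exact htP (by rw [map_zero]; exact Ideal.zero_mem _)
  have htQ0 : ((t : 𝓞 ℚ) : ℚ) ≠ 0 := fun h0 => ht0 (NumberField.RingOfIntegers.ext h0)
  let tE : (↥E)ˣ := Units.mk0 (algebraMap ℚ E (t : ℚ)) ((map_ne_zero _).mpr htQ0)
  let tF : (↥F)ˣ := Units.mk0 (algebraMap ℚ F (t : ℚ)) ((map_ne_zero _).mpr htQ0)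
  have hα0 : α ≠ 0 := by
    intro h0
    rw [h0, zero_pow (Fact.out : p.Prime).ne_zero] at hα
    exact a.ne_zero (by exact_mod_cast hα.symm)
  let αE : (↥E)ˣ := Units.mk0 ⟨α, hαE⟩ (fun h0 => hα0 (congrArg Subtype.val h0))
  -- the order of `t` at `P` is `1`
  have hcoe : ((tE : ↥E)) = algebraMap (𝓞 E) E (algebraMap (𝓞 ℚ) (𝓞 E) t) := rfl
  have hcE : Multiplicative.toAdd (P.valuationOfNeZero tE) = -1 := by
    have h1 : (P.valuationOfNeZero tE : WithZero (Multiplicative ℤ)) = P.intValuation (algebraMap (𝓞 ℚ) (𝓞 E) t) := by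
      rw [HeightOneSpectrum.valuationOfNeZero_eq, hcoe, HeightOneSpectrum.valuation_of_algebraMap]
    have h2 : P.intValuation (algebraMap (𝓞 ℚ) (𝓞 E) t) ≤ WithZero.exp (-((1 : ℕ) : ℤ)) := by
      rw [HeightOneSpectrum.intValuation_le_pow_iff_mem, pow_one]
      exact htp
    have h3 : ¬ P.intValuation (algebraMap (𝓞 ℚ) (𝓞 E) t) ≤ WithZero.exp (-((2 : ℕ) : ℤ)) := by
      rw [HeightOneSpectrum.intValuation_le_pow_iff_mem]
      exact htP
    rw [← h1] at h2 h3
    have h4 : (P.valuationOfNeZero tE : WithZero (Multiplicative ℤ)) =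
        WithZero.exp (Multiplicative.toAdd (P.valuationOfNeZero tE)) := rfl
    rw [h4, WithZero.exp_le_exp] at h2 h3
    push_cast at h2 h3
    omega
  -- the valuation of `t`
  set wt := A.valuation (algebraMap ℚ Qbar (t : ℚ)) with hwt
  have hwt1 : wt < 1 := by
    have := (mem_primeOf_iff (↥E) A (algebraMap (𝓞 ℚ) (𝓞 E) t)).mp htp
    exact this
  have hwt0 : 0 < wt := by
    rw [hwt, zero_lt_iff, Valuation.ne_zero_iff]
    exact (map_ne_zero _).mpr htQ0
  -- the two comparisons
  have hEside := valuation_zpow_eq_zpow (↥E) A P hPA αE tE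
  have hFside := valuation_zpow_eq_zpow (↥F) A v hA.symm a tF
  have hE1 : A.valuation (algebraMap (↥E) Qbar (tE : ↥E)) = wt := rfl
  have hE2 : A.valuation (algebraMap (↥E) Qbar (αE : ↥E)) = A.valuation α := rfl
  have hF1 : A.valuation (algebraMap (↥F) Qbar (tF : ↥F)) = wt := rfl
  have hF2 : A.valuation (algebraMap (↥F) Qbar (a : ↥F)) = A.valuation α ^ p := by
    rw [← map_pow, hα]; rfl
  rw [hE1, hE2, hcE] at hEside
  rw [hF1, hF2] at hFside
  set cα := Multiplicative.toAdd (P.valuationOfNeZero αE) with hcα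
  set ca := Multiplicative.toAdd (v.valuationOfNeZero a) with hca
  set ct := Multiplicative.toAdd (v.valuationOfNeZero tF) with hct
  have hwα : A.valuation α = wt ^ (-cα) := by
    rw [zpow_neg, ← hEside, zpow_neg, zpow_one, inv_inv]
  rw [hwα, ← zpow_natCast, ← zpow_mul, ← zpow_mul] at hFside
  have hinj : -cα * ((p : ℤ) * ct) = ca := zpow_right_injective₀ hwt0 hwt1.ne hFside
  exact ⟨-cα * ct, by rw [← hinj]; ring⟩

end Main

end Fermat.Agent.S55.helper52
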