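import Fermat.Agent.S55.helper30_LocKummerFin
import Fermat.Agent.S55.helper59_BDefs2

/-!
# S55 module B, B-AR-KUM-L (helper30, task 364): the local Kummer count

* `exists_pow_eq_of_kummerChar_eq` : two elements of `Kˣ` with the same Kummer character differ
  by a `p`-th power;
* `card_Z1_gal_eq` : `#Z¹(Gal(Ω/K), ℤ/p) = #(Kˣ/Kˣᵖ)` for any field `K ∋ ζ_p` (Kummer theory);
* `card_Z1_gal` : `= p ^ (2 + [q = p][K : ℚ_q])` for a `q`-adic field (LOC-1);
* `mem_Z1_triv_iff` : `Z1` with trivial coefficients, unfolded, for abstract levels;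
* `card_Z1_loc_of` : the statement `card_Z1_loc` of `helper59_BInterface2`, with the local level
  dictionary B-AR-DIC-L (`isLev₁_loc_iff`) as an explicit hypothesis.
-/

set_option autoImplicit false

open groupCohomology ExtCitation
open scoped NumberField

noncomputable section

namespace Fermat.Agent.S55.helper30

open Fermat.Agent.S55 Fermat.Agent.S55.helper8 Fermat.Agent.S55.helper59

section general

variable (p : ℕ) [Fact p.Prime]
  (K Ω : Type) [Field K] [Field Ω] [Algebra K Ω] [IsAlgClosure K Ω]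
  (ζ : Kˣ) (hζ : IsPrimitiveRoot ζ p)

include hζ in
/-- Kummer theory, injectivity: two elements of `Kˣ` with the same Kummer character differ by a
`p`-th power. -/
theorem exists_pow_eq_of_kummerChar_eq (x : (Ω ≃ₐ[K] Ω) → ZMod p) (a a' : Kˣ) (α α' : Ω)
    (hα : α ^ p = algebraMap K Ω a) (hα' : α' ^ p = algebraMap K Ω a')
    (hx : ∀ σ : Ω ≃ₐ[K] Ω, σ α = algebraMap K Ω ((ζ : K) ^ (x σ).val) * α)
    (hx' : ∀ σ : Ω ≃ₐ[K] Ω, σ α' = algebraMap K Ω ((ζ : K) ^ (x σ).val) * α') :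
    ∃ b : Kˣ, b ^ p = a⁻¹ * a' := by
  have hp : p.Prime := Fact.out
  have ha0 : algebraMap K Ω (a : K) ≠ 0 := (map_ne_zero (algebraMap K Ω)).mpr a.ne_zero
  have ha'0 : algebraMap K Ω (a' : K) ≠ 0 := (map_ne_zero (algebraMap K Ω)).mpr a'.ne_zero
  have hα0 : α ≠ 0 := by
    rintro rfl
    rw [zero_pow hp.ne_zero] at hα
    exact ha0 hα.symm
  have hα'0 : α' ≠ 0 := by
    rintro rfl
    rw [zero_pow hp.ne_zero] at hα'
    exact ha'0 hα'.symm
  have hz0 : ∀ σ : Ω ≃ₐ[K] Ω, algebraMap K Ω ((ζ : K) ^ (x σ).val) ≠ 0 := fun σ =>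
    (map_ne_zero (algebraMap K Ω)).mpr (pow_ne_zero _ ζ.ne_zero)
  have hfix : ∀ σ : Ω ≃ₐ[K] Ω, σ (α' / α) = α' / α := by
    intro σ
    rw [map_div₀, hx σ, hx' σ, mul_div_mul_left _ _ (hz0 σ)]
  obtain ⟨n, b, hb⟩ := exists_pow_mem_range_of_fixed K Ω (α' / α) hfix
  have hcop := coprime_ringExpChar_pow p K ζ hζ n
  obtain ⟨j, -, hj⟩ := Nat.exists_mul_mod_eq_one_of_coprime hcop hp.one_lt
  set e : ℕ := ringExpChar K ^ n with he
  set c : Kˣ := a⁻¹ * a' with hc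
  have hcβ : algebraMap K Ω (c : K) = (α' / α) ^ p := by
    rw [div_pow, hα, hα', hc, Units.val_mul, Units.val_inv_eq_inv_val, map_mul, map_inv₀]
    field_simp
  have hce : (c : K) ^ e = b ^ p := by
    apply (algebraMap K Ω).injective
    rw [map_pow, map_pow, hcβ, hb, ← pow_mul, ← pow_mul, mul_comm]
  have hb0 : b ≠ 0 := by
    rintro rfl
    rw [zero_pow hp.ne_zero] at hce
    exact pow_ne_zero _ c.ne_zero hce
  set bu : Kˣ := Units.mk0 b hb0 with hbu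
  have hce' : c ^ e = bu ^ p := by
    ext
    rw [Units.val_pow_eq_pow_val, Units.val_pow_eq_pow_val, hbu, Units.val_mk0, hce]
  refine ⟨bu ^ j / c ^ (e * j / p), ?_⟩
  have h1 : c ^ (e * j) = (bu ^ j) ^ p := by
    rw [pow_mul, hce', ← pow_mul, ← pow_mul, mul_comm]
  have h2 : c ^ (e * j) = c * (c ^ (e * j / p)) ^ p := by
    conv_lhs => rw [← Nat.mod_add_div (e * j) p, hj]
    rw [pow_add, pow_one, mul_comm p, pow_mul]
  rw [div_pow, ← h1, h2, mul_div_assoc, div_self', mul_one]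

include hζ in
/-- Kummer theory: the level-constant characters `Gal(Ω/K) → ℤ/p` are in bijection with
`Kˣ/Kˣᵖ`, for any field `K` containing a primitive `p`-th root of unity. -/
theorem card_Z1_gal_eq :
    Nat.card ↥(Z1 (galLevels K Ω) (Rep.trivial (ZMod p) (Ω ≃ₐ[K] Ω) (ZMod p))) =
      Nat.card (Kˣ ⧸ (powMonoidHom p : Kˣ →* Kˣ).range) := by
  classical
  have hex := fun x : ↥(Z1 (galLevels K Ω) (Rep.trivial (ZMod p) (Ω ≃ₐ[K] Ω) (ZMod p))) =>
    exists_kummer_of_mem_Z1 p K Ω ζ hζ x.1 x.2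
  choose a α hα hσ using hex
  refine Nat.card_eq_of_bijective
    (fun x : ↥(Z1 (galLevels K Ω) (Rep.trivial (ZMod p) (Ω ≃ₐ[K] Ω) (ZMod p))) =>
        (QuotientGroup.mk (a x) : Kˣ ⧸ (powMonoidHom p : Kˣ →* Kˣ).range)) ⟨?_, ?_⟩
  · intro x x' h
    simp only at h
    rw [QuotientGroup.eq] at h
    obtain ⟨b, hb⟩ := h
    apply Subtype.ext
    exact kummerChar_eq_of_pow p K Ω ζ hζ x.1 x'.1 (a x) (a x') b hb (α x) (α x') (hα x) (hα x')
      (hσ x) (hσ x')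
  · intro c
    obtain ⟨a₀, rfl⟩ := QuotientGroup.mk_surjective c
    obtain ⟨x₀, hx₀, α₀, hα₀, hσ₀⟩ := exists_kummerChar p K Ω ζ hζ a₀
    refine ⟨⟨x₀, hx₀⟩, ?_⟩
    simp only
    rw [QuotientGroup.eq]
    obtain ⟨b, hb⟩ := exists_pow_eq_of_kummerChar_eq p K Ω ζ hζ x₀ (a ⟨x₀, hx₀⟩) a₀
      (α ⟨x₀, hx₀⟩) α₀ (hα ⟨x₀, hx₀⟩) hα₀ (hσ ⟨x₀, hx₀⟩) hσ₀
    exact ⟨b, hb⟩

end general

section local_

variable (q : ℕ) [Fact q.Prime] (p : ℕ) [Fact p.Prime]
  (K Ω : Type) [Field K] [Field Ω] [Algebra ℚ_[q] K] [FiniteDimensional ℚ_[q] K]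
  [Algebra K Ω] [IsAlgClosure K Ω] (ζ : Kˣ) (hζ : IsPrimitiveRoot ζ p)

include hζ in
/-- `#H¹(K, ℤ/p) = p ^ (2 + [q = p][K : ℚ_q])` for a `q`-adic field `K ∋ ζ_p`. -/
theorem card_Z1_gal :
    Nat.card ↥(Z1 (galLevels K Ω) (Rep.trivial (ZMod p) (Ω ≃ₐ[K] Ω) (ZMod p))) =
      p ^ (2 + if p = q then Module.finrank ℚ_[q] K else 0) := by
  have hζK : IsPrimitiveRoot (ζ : K) p :=
    hζ.map_of_injective (f := Units.coeHom K) Units.val_injective
  rw [card_Z1_gal_eq p K Ω ζ hζ]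
  exact Fermat.Agent.S55.helper27.card_units_mod_pow q K p (ζ : K) hζK

end local_

section transport

universe u

/-- `Z1` with trivial coefficients for abstract levels, unfolded. -/
theorem mem_Z1_triv_iff {k G : Type u} [CommRing k] [Group G] (𝒩 : Levels G) (x : G → k) :
    x ∈ Z1 𝒩 (Rep.trivial k G k) ↔ IsLev₁ 𝒩 x ∧ ∀ g h : G, x (g * h) = x g + x h := by
  unfold Z1
  rw [Submodule.mem_inf, mem_C1, LinearMap.mem_ker]
  refine and_congr Iff.rfl ?_
  constructor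
  · intro hd g h
    have := congrFun hd (g, h)
    simp only [d₁₂_hom_apply] at this
    have h2 : x h - x (g * h) + x g = 0 := this
    linear_combination -h2
  · intro hd
    funext g
    simp only [d₁₂_hom_apply]
    show x g.2 - x (g.1 * g.2) + x g.1 = 0
    rw [hd]
    ring

/-- transport of `Z1` (trivial coefficients) along a group isomorphism matching the levels -/
theorem card_Z1_congr {k G H : Type u} [CommRing k] [Group G] [Group H] (𝒩 : Levels G)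
    (ℳ : Levels H) (e : G ≃* H)
    (hdic : ∀ f : H → k, IsLev₁ 𝒩 (fun s => f (e s)) ↔ IsLev₁ ℳ f) :
    Nat.card ↥(Z1 𝒩 (Rep.trivial k G k)) = Nat.card ↥(Z1 ℳ (Rep.trivial k H k)) := by
  refine Nat.card_congr
    { toFun := fun x => ⟨fun σ => x.1 (e.symm σ), ?_⟩
      invFun := fun y => ⟨fun s => y.1 (e s), ?_⟩
      left_inv := ?_
      right_inv := ?_ }
  · obtain ⟨h1, h2⟩ := (mem_Z1_triv_iff 𝒩 x.1).mp x.2
    refine (mem_Z1_triv_iff ℳ _).mpr ⟨(hdic _).mp ?_, fun g h => ?_⟩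
    · simpa using h1
    · rw [map_mul, h2]
  · obtain ⟨h1, h2⟩ := (mem_Z1_triv_iff ℳ y.1).mp y.2
    refine (mem_Z1_triv_iff 𝒩 _).mpr ⟨(hdic _).mpr h1, fun g h => ?_⟩
    rw [map_mul, h2]
  · intro x
    apply Subtype.ext
    funext s
    simp
  · intro y
    apply Subtype.ext
    funext s
    simp

end transport

section arith

attribute [local instance] Fermat.Agent.S55.helper59.factOfPrimes

local notation "Qbar" => AlgebraicClosure ℚ

variable {p : ℕ} [Fact p.Prime] {S : Finset Nat.Primes} {F : IntermediateField ℚ Qbar}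
  [FiniteDimensional ℚ F] {𝒩 : Levels (UF F)} {ι : Type} [Fintype ι]
  {L : LocalData (UF F) 𝒩 ι}

omit [Fintype ι] in
/-- B-AR-KUM-L, with the local level dictionary B-AR-DIC-L (`isLev₁_loc_iff`) as a hypothesis. -/
theorem card_Z1_loc_of (hL : IsArith S F L) (ζ : (↥F)ˣ) (hζ : IsPrimitiveRoot ζ p) (w : ι)
    (hdic : ∀ f : (PadicAlgCl (hL.q w : ℕ) ≃ₐ[hL.Kw w] PadicAlgCl (hL.q w : ℕ)) → ZMod p,
      IsLev₁ (L.lev w) (fun s => f (hL.locEquiv w s)) ↔
        IsLev₁ (helper8.galLevels (hL.Kw w) (PadicAlgCl (hL.q w : ℕ))) f) :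
    Nat.card ↥(Z1 (L.lev w) (T (ZMod p) (L.Gv w))) =
      p ^ (2 + if p = (hL.q w : ℕ) then Module.finrank ℚ_[((hL.q w : ℕ))] (hL.Kw w) else 0) := by
  have hfd := hL.finiteDimensional_Kw w
  have hAC : IsAlgClosure (hL.Kw w) (PadicAlgCl (hL.q w : ℕ)) := by
    have h1 : Algebra.IsAlgebraic ℚ_[((hL.q w : ℕ))] (PadicAlgCl (hL.q w : ℕ)) :=
      PadicAlgCl.isAlgebraic (hL.q w : ℕ)
    exact ⟨inferInstance, Algebra.IsAlgebraic.tower_top (K := ℚ_[((hL.q w : ℕ))]) (hL.Kw w)⟩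
  have hζw : IsPrimitiveRoot (hL.locUnit w ζ) p :=
    hζ.map_of_injective (f := Units.map (hL.locEmb w : ↥F →* ↥(hL.Kw w)))
      (Units.map_injective (hL.locEmb w).injective)
  rw [card_Z1_congr (L.lev w) (helper8.galLevels (hL.Kw w) (PadicAlgCl (hL.q w : ℕ)))
    (hL.locEquiv w) hdic]
  exact card_Z1_gal (hL.q w : ℕ) p (hL.Kw w) (PadicAlgCl (hL.q w : ℕ)) (hL.locUnit w ζ) hζw

end arith

end Fermat.Agent.S55.helper30
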