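import Mathlib
import Fermat.Agent.S54.helper91_Frobenius

/-!
# S55 / REC4 bridge, package R4-BR-TR (helper48, task 390)

`Gal(ℚ̄/ℚ)` acts transitively on the valuation subrings of `ℚ̄` lying over a prime number `ℓ`.

Main result: `Fermat.Agent.S55.helper48.exists_smul_eq_of_liesOverPrime`.
-/

set_option autoImplicit false
set_option linter.style.haveILetI false

open scoped Pointwise

namespace Fermat.Agent.S55.helper48

open Fermat.Agent.S54.helper91

attribute [local instance] zbarAction zbarTopology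

/-- The prime of `ℤ` below `zbarPrime A` is `(ℓ)`. -/
theorem zbarPrime_under_eq_span (A : ValuationSubring Qbar) {ℓ : ℕ} (hℓ : ℓ.Prime)
    (hA : A.LiesOverPrime ℓ) :
    (zbarPrime A).under ℤ = Ideal.span {(ℓ : ℤ)} := by
  have hmax : (Ideal.span {(ℓ : ℤ)}).IsMaximal :=
    PrincipalIdealRing.isMaximal_of_irreducible
      (Nat.prime_iff_prime_int.mp hℓ).irreducible
  have hle : Ideal.span {(ℓ : ℤ)} ≤ (zbarPrime A).under ℤ := by
    rw [Ideal.span_le, Set.singleton_subset_iff]
    show (ℓ : ℤ) ∈ Ideal.comap (algebraMap ℤ Zbar) (zbarPrime A)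
    rw [Ideal.mem_comap]
    have := natCast_mem_zbarPrime A hA
    simpa using this
  have hne : (zbarPrime A).under ℤ ≠ ⊤ :=
    (Ideal.comap_isPrime (algebraMap ℤ Zbar) (zbarPrime A)).ne_top
  exact (hmax.eq_of_le hne hle).symm

/-- If `τ` carries the prime of `B` onto the prime of `A`, then it maps integral units of `B`
to units of `A`. -/
theorem valuation_apply_eq_one_of_smul_eq (A B : ValuationSubring Qbar) (τ : GQ)
    (hτ : zbarPrime A = τ • zbarPrime B) {s : Qbar} (hs : IsIntegral ℤ s)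
    (hs1 : B.valuation s = 1) : A.valuation (τ s) = 1 := by
  have hle : A.valuation (τ s) ≤ 1 := valuation_le_one_of_isIntegral A (map_isIntegral_int τ hs)
  rcases lt_or_eq_of_le hle with hlt | heq
  · exfalso
    have h1 : τ • (⟨s, hs⟩ : Zbar) ∈ zbarPrime A := by
      rw [mem_zbarPrime_iff]; exact hlt
    rw [hτ, Ideal.smul_mem_pointwise_smul_iff, mem_zbarPrime_iff] at h1
    rw [hs1] at h1
    exact lt_irrefl _ h1
  · exact heq

/-- If `τ` carries the prime of `B` onto the prime of `A`, then it maps `B` into `A`. -/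
theorem apply_mem_of_smul_eq (A B : ValuationSubring Qbar) {ℓ : ℕ} (hℓ : ℓ.Prime)
    (hB : B.LiesOverPrime ℓ) (τ : GQ) (hτ : zbarPrime A = τ • zbarPrime B) {a : Qbar}
    (ha : a ∈ B) : τ a ∈ A := by
  obtain ⟨s, x, hs, hx, hs1, hsx⟩ := exists_integral_fraction B hℓ hB ha (isAlgebraic_int_Qbar a)
  have h1 : τ s * τ a = τ x := by rw [← map_mul, hsx]
  have h2 : A.valuation (τ s) = 1 := valuation_apply_eq_one_of_smul_eq A B τ hτ hs hs1
  have h3 : A.valuation (τ x) ≤ 1 := valuation_le_one_of_isIntegral A (map_isIntegral_int τ hx)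
  rw [← A.valuation_le_one_iff]
  have h4 : A.valuation (τ s) * A.valuation (τ a) = A.valuation (τ x) := by
    rw [← map_mul, h1]
  rw [h2, one_mul] at h4
  rw [h4]; exact h3

/-- transitivity of the Galois action on the valuation subrings over a prime number -/
theorem exists_smul_eq_of_liesOverPrime {ℓ : ℕ} (hℓ : ℓ.Prime)
    (A B : ValuationSubring (AlgebraicClosure ℚ)) (hA : A.LiesOverPrime ℓ)
    (hB : B.LiesOverPrime ℓ) :
    ∃ γ : AlgebraicClosure ℚ ≃ₐ[ℚ] AlgebraicClosure ℚ, γ • B = A := by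
  haveI := compactSpace_GQ
  haveI := totallyDisconnectedSpace_GQ
  haveI := zbar_discrete
  haveI := zbar_continuousSMul
  haveI := zbar_isInvariant
  have hunder : (zbarPrime B).under ℤ = (zbarPrime A).under ℤ := by
    rw [zbarPrime_under_eq_span A hℓ hA, zbarPrime_under_eq_span B hℓ hB]
  obtain ⟨γ, hγ⟩ := Algebra.IsInvariant.exists_smul_of_under_eq_of_profinite
    (A := ℤ) (B := Zbar) (G := GQ) (zbarPrime B) (zbarPrime A) hunder
  have hγ' : zbarPrime B = γ⁻¹ • zbarPrime A := by
    ext x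
    rw [hγ, Ideal.mem_pointwise_smul_iff_inv_smul_mem, Ideal.mem_pointwise_smul_iff_inv_smul_mem,
      inv_inv]
    have hx : γ⁻¹ • γ • x = x := Subtype.ext (by simp)
    rw [hx]
  refine ⟨γ, ?_⟩
  ext y
  rw [ValuationSubring.mem_pointwise_smul_iff_inv_smul_mem]
  constructor
  · intro hy
    have := apply_mem_of_smul_eq A B hℓ hB γ hγ hy
    simpa using this
  · intro hy
    exact apply_mem_of_smul_eq B A hℓ hA γ⁻¹ hγ' hy

end Fermat.Agent.S55.helper48
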