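import Fermat.Agent.S55.Defs

/-!
# S55 module A: adjunction and the final pairing (helper53)

Against `Fermat.Agent.S55.Defs`:

* `adjunction_eq` : for `(c, e) ∈ Zc1 L A`, `(a, b) ∈ Zc2 L B` and a pair of swapped pairings
  `φ' : A × B → C`, `φ : B × A → C`, the cone 3-cochains `c ∪ (a, b)` and `a ∪ (c, e)` differ by the
  explicit cone coboundary of `(H, (e_v ∪ b_v))`, `H (s, t) = - ⟨c (s t), a (s, t)⟩`.
* `leibniz₀₂`, `leibniz₁₁`, `dc₂₃_dc₁₂` : the Leibniz rules and the complex property used for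
  well-definedness.
* `exists_nondeg_pairing_of_inj` : for swapped pairings `φ'`, `φ`, from `Claim.inj1` for `φ'` and
  `Claim.inj2` for `φ` (and `tr` killing cone coboundaries, `B` smooth) a bilinear pairing
  `Sha1 L A × Sha2 L B → k` which is non-degenerate on both sides and is given by
  `(c, y) ↦ tr (c ∪ y)` on cocycles.
* `exists_nondeg_pairing`, `exists_nondeg_pairing_of_claim` : the same for the evaluation pairing
  `M^*(χ) × M → k(χ)`, from `Claim` for `M` and for `M^*(χ)` (transport along `M ≃ M^{**}`).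
* `mainA_conclusion_of_claim` : if `Claim L (evPairing M χ) tr` holds for every finite dimensional
  smooth `M`, then the conclusion of `MainA` holds.
-/

set_option autoImplicit false

universe u

open groupCohomology

noncomputable section

namespace Fermat.Agent.S55.helper53

open Fermat.Agent.S55

variable {k G : Type u} [Field k] [Group G] {𝒩 : Levels G} {ι : Type}

/-! ## Pointwise forms of the cocycle conditions -/

section Pointwise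

variable (A : Rep.{u} k G)

lemma z1_apply {c : G → A} (hc : (d₁₂ A).hom c = 0) (g h : G) :
    c (g * h) = A.ρ g (c h) + c g := by
  have h2 : A.ρ g (c h) - c (g * h) + c g = 0 := by
    have := congrFun hc (g, h)
    rwa [d₁₂_hom_apply] at this
  have h3 : c (g * h) - (A.ρ g (c h) + c g) = -(A.ρ g (c h) - c (g * h) + c g) := by abel
  rw [← sub_eq_zero, h3, h2, neg_zero]

lemma z2_apply {a : G × G → A} (ha : (d₂₃ A).hom a = 0) (g h j : G) :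
    A.ρ g (a (h, j)) - a (g * h, j) + a (g, h * j) - a (g, h) = 0 := by
  have := congrFun ha (g, h, j)
  rw [d₂₃_hom_apply] at this
  exact this

end Pointwise

/-! ## The adjunction homotopy -/

section Adjunction

variable (L : LocalData G 𝒩 ι) {A B C : Rep.{u} k G}
  (φ' : EqPairing A B C) (φ : EqPairing B A C)

/-- global component of the adjunction homotopy: `H (s, t) = - ⟨c (s t), a (s, t)⟩` -/
def adjH (c : G → A) (a : G × G → B) : G × G → C :=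
  fun g => - φ'.φ (c (g.1 * g.2)) (a g)

/-- local components of the adjunction homotopy: `h_v (s) = ⟨e_v, b_v (s)⟩` -/
def adjh (e : ∀ v : ι, L.loc A v) (b : ∀ v : ι, L.Gv v → L.loc B v) :
    ∀ v : ι, L.Gv v → L.loc C v :=
  fun v s => φ'.φ (e v) (b v s)

/-- the adjunction homotopy as a cone 2-cochain -/
def adjCochain (x : CcAmb1 L A) (y : CcAmb2 L B) : CcAmb2 L C :=
  (adjH φ' x.1 y.1, adjh L φ' x.2 y.2)

variable {L φ' φ}

/-- ADJUNCTION (cochain level): for a cone 1-cocycle `x = (c, e)` of `A` and a cone 2-cocycle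
`y = (a, b)` of `B`,  `c ∪ (a, b) - a ∪ (c, e) = d_c (H, (e_v ∪ b_v))`. -/
theorem adjunction_eq (hsw : ∀ a b, φ'.φ a b = φ.φ b a)
    {x : CcAmb1 L A} (hx : dc₁₂ L A x = 0) {y : CcAmb2 L B} (hy : dc₂₃ L B y = 0) :
    cupc₁₂ L φ' x.1 y - cupc₂₁ L φ y.1 x = dc₂₃ L C (adjCochain L φ' x y) := by
  obtain ⟨c, e⟩ := x
  obtain ⟨a, b⟩ := y
  have hc : (d₁₂ A).hom c = 0 := congrArg Prod.fst hx
  have he : ∀ v, res₁ L A v c - (d₀₁ (L.loc A v)).hom (e v) = 0 :=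
    fun v => congrFun (congrArg Prod.snd hx) v
  have ha : (d₂₃ B).hom a = 0 := congrArg Prod.fst hy
  have hb : ∀ v, res₂ L B v a - (d₁₂ (L.loc B v)).hom (b v) = 0 :=
    fun v => congrFun (congrArg Prod.snd hy) v
  have hce : ∀ v (s : L.Gv v), c (L.r v s) = A.ρ (L.r v s) (e v) - e v := by
    intro v s
    have := congrFun (sub_eq_zero.mp (he v)) s
    rw [res₁_apply, d₀₁_hom_apply] at this
    exact this
  have hab : ∀ v (s t : L.Gv v),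
      a (L.r v s, L.r v t) = B.ρ (L.r v s) (b v t) - b v (s * t) + b v s := by
    intro v s t
    have := congrFun (sub_eq_zero.mp (hb v)) (s, t)
    rw [res₂_apply, d₁₂_hom_apply] at this
    exact this
  refine Prod.ext ?_ ?_
  · funext ⟨g₁, g₂, g₃⟩
    have e1 : c (g₁ * g₂ * g₃) = A.ρ (g₁ * g₂) (c g₃) + (A.ρ g₁ (c g₂) + c g₁) := by
      rw [z1_apply A hc (g₁ * g₂) g₃, z1_apply A hc g₁ g₂]
    have e2 : A.ρ g₁ (c (g₂ * g₃)) = A.ρ (g₁ * g₂) (c g₃) + A.ρ g₁ (c g₂) := by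
      rw [z1_apply A hc g₂ g₃, map_add, map_mul, Module.End.mul_apply]
    have e3 : a (g₁, g₂ * g₃) = a (g₁ * g₂, g₃) - B.ρ g₁ (a (g₂, g₃)) + a (g₁, g₂) := by
      have h := z2_apply B ha g₁ g₂ g₃
      have h' : a (g₁, g₂ * g₃) - (a (g₁ * g₂, g₃) - B.ρ g₁ (a (g₂, g₃)) + a (g₁, g₂))
          = B.ρ g₁ (a (g₂, g₃)) - a (g₁ * g₂, g₃) + a (g₁, g₂ * g₃) - a (g₁, g₂) := by abel
      rw [← sub_eq_zero, h', h]
    show φ'.φ (c g₁) (B.ρ g₁ (a (g₂, g₃))) - φ.φ (a (g₁, g₂)) (A.ρ (g₁ * g₂) (c g₃))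
      = (d₂₃ C).hom (adjH φ' c a) (g₁, g₂, g₃)
    rw [d₂₃_hom_apply]
    simp only [adjH, map_neg]
    rw [← φ'.equivariant g₁, e2, ← mul_assoc, e1, z1_apply A hc g₁ g₂, e3, ← hsw]
    simp only [map_add, map_sub, LinearMap.add_apply]
    abel
  · funext v
    funext ⟨s, t⟩
    show - φ'.φ (c (L.r v s)) (B.ρ (L.r v s) (b v t))
        - φ.φ (a (L.r v s, L.r v t)) (A.ρ (L.r v s * L.r v t) (e v))
      = res₂ L C v (adjH φ' c a) (s, t) - (d₁₂ (L.loc C v)).hom (adjh L φ' e b v) (s, t)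
    rw [res₂_apply, d₁₂_hom_apply]
    simp only [adjH, adjh]
    have e4 : (L.loc C v).ρ s (φ'.φ (e v) (b v t))
        = φ'.φ (A.ρ (L.r v s) (e v)) (B.ρ (L.r v s) (b v t)) :=
      (φ'.equivariant (L.r v s) (e v) (b v t)).symm
    rw [e4, ← hsw, ← map_mul, hce v (s * t), hce v s, hab v s t, map_mul, map_mul]
    simp only [map_add, map_sub, LinearMap.sub_apply,
      Module.End.mul_apply]
    abel

end Adjunction

/-! ## Level-constancy of the cochains involved -/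

section LevelConstancy

variable (L : LocalData G 𝒩 ι) {A B C : Rep.{u} k G} (φ' : EqPairing A B C)

omit [Field k] in
/-- a common level for two level-constant data -/
lemma exists_level_le {N₁ N₂ : Subgroup G} (h₁ : N₁ ∈ 𝒩.mem) (h₂ : N₂ ∈ 𝒩.mem) :
    ∃ N ∈ 𝒩.mem, N ≤ N₁ ∧ N ≤ N₂ := by
  obtain ⟨N, hN, hle⟩ := 𝒩.directed N₁ h₁ N₂ h₂
  exact ⟨N, hN, hle.trans inf_le_left, hle.trans inf_le_right⟩

/-- smoothness passes to the local modules -/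
lemma isSmooth_loc {B : Rep.{u} k G} (hB : IsSmooth 𝒩 B) (v : ι) :
    ∃ N' ∈ (L.lev v).mem, ∀ s ∈ N', ∀ b : B, B.ρ (L.r v s) b = b := by
  obtain ⟨N, hN, h⟩ := hB
  obtain ⟨N', hN', hle⟩ := L.compat v N hN
  exact ⟨N', hN', fun s hs b => h _ (hle hs) b⟩

/-- restriction of a level-constant 1-cochain is level-constant -/
lemma res₁_mem_C1 {B : Rep.{u} k G} {u : G → B} (hu : u ∈ C1 𝒩 B) (v : ι) :
    res₁ L B v u ∈ C1 (L.lev v) (L.loc B v) := by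
  obtain ⟨N, hN, h⟩ := hu
  obtain ⟨N', hN', hle⟩ := L.compat v N hN
  refine ⟨N', hN', fun g s hs => ?_⟩
  show u (L.r v (g * s)) = u (L.r v g)
  rw [map_mul]
  exact h _ _ (hle hs)

lemma adjH_mem_C2 {c : G → A} (hc : c ∈ C1 𝒩 A) {a : G × G → B} (ha : a ∈ C2 𝒩 B) :
    adjH φ' c a ∈ C2 𝒩 C := by
  obtain ⟨N₁, hN₁, h₁⟩ := hc
  obtain ⟨N₂, hN₂, h₂⟩ := ha
  obtain ⟨N, hN, hle₁, hle₂⟩ := exists_level_le hN₁ hN₂
  refine ⟨N, hN, fun g₁ g₂ s₁ hs₁ s₂ hs₂ => ?_⟩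
  have hn : N.Normal := 𝒩.normal N hN
  have hconj : g₂⁻¹ * s₁ * g₂ * s₂ ∈ N :=
    N.mul_mem (by simpa using hn.conj_mem s₁ hs₁ g₂⁻¹) hs₂
  have e : g₁ * s₁ * (g₂ * s₂) = g₁ * g₂ * (g₂⁻¹ * s₁ * g₂ * s₂) := by group
  simp only [adjH]
  rw [h₂ g₁ g₂ s₁ (hle₂ hs₁) s₂ (hle₂ hs₂), e, h₁ (g₁ * g₂) _ (hle₁ hconj)]

lemma adjh_mem_C1 (e : ∀ v : ι, L.loc A v) {b : ∀ v : ι, L.Gv v → L.loc B v} (v : ι)
    (hb : b v ∈ C1 (L.lev v) (L.loc B v)) :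
    adjh L φ' e b v ∈ C1 (L.lev v) (L.loc C v) := by
  obtain ⟨N, hN, h⟩ := hb
  exact ⟨N, hN, fun g s hs => by simp only [adjh, h g s hs]⟩

lemma adjCochain_mem_Cc2 {x : CcAmb1 L A} (hx : x ∈ Cc1 L A) {y : CcAmb2 L B}
    (hy : y ∈ Cc2 L B) : adjCochain L φ' x y ∈ Cc2 L C := by
  refine ⟨adjH_mem_C2 φ' hx.1 hy.1, fun v _ => adjh_mem_C1 L φ' x.2 v (hy.2 v (Set.mem_univ v))⟩

end LevelConstancy

/-! ## The two Leibniz rules needed for well-definedness -/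

section Leibniz

variable (L : LocalData G 𝒩 ι) {A B C : Rep.{u} k G} (φ' : EqPairing A B C)

/-- Leibniz rule in bidegree `(0,2)`: `d_c (m ∪ y) = dm ∪ y + m ∪ d_c y`. -/
theorem leibniz₀₂ (m : A) (y : CcAmb2 L B) :
    dc₂₃ L C (cupc₀₂ L φ' m y)
      = cupc₁₂ L φ' ((d₀₁ A).hom m) y + cupc₀₃ L φ' m (dc₂₃ L B y) := by
  obtain ⟨a, b⟩ := y
  refine Prod.ext ?_ ?_
  · funext ⟨g₁, g₂, g₃⟩
    show (d₂₃ C).hom (fun x => φ'.φ m (a x)) (g₁, g₂, g₃)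
      = φ'.φ ((d₀₁ A).hom m g₁) (B.ρ g₁ (a (g₂, g₃))) + φ'.φ m ((d₂₃ B).hom a (g₁, g₂, g₃))
    rw [d₂₃_hom_apply, d₂₃_hom_apply, d₀₁_hom_apply, ← φ'.equivariant g₁]
    simp only [map_add, map_sub, LinearMap.sub_apply]
    abel
  · funext v
    funext ⟨s, t⟩
    show res₂ L C v (fun x => φ'.φ m (a x)) (s, t)
        - (d₁₂ (L.loc C v)).hom (fun x => φ'.φ m (b v x)) (s, t)
      = - φ'.φ ((d₀₁ A).hom m (L.r v s)) (B.ρ (L.r v s) (b v t))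
        + φ'.φ m (res₂ L B v a (s, t) - (d₁₂ (L.loc B v)).hom (b v) (s, t))
    rw [res₂_apply, res₂_apply, d₁₂_hom_apply, d₁₂_hom_apply, d₀₁_hom_apply]
    have e4 : (L.loc C v).ρ s (φ'.φ m (b v t))
        = φ'.φ (A.ρ (L.r v s) m) (B.ρ (L.r v s) (b v t)) :=
      (φ'.equivariant (L.r v s) m (b v t)).symm
    have e5 : (L.loc B v).ρ s (b v t) = B.ρ (L.r v s) (b v t) := rfl
    rw [e4, e5]
    simp only [map_add, map_sub, LinearMap.sub_apply]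
    abel

/-- Leibniz rule in bidegree `(1,1)` for a cocycle `c`: `d_c (c ∪ w) = - c ∪ d_c w`. -/
theorem leibniz₁₁ {c : G → A} (hc : (d₁₂ A).hom c = 0) (w : CcAmb1 L B) :
    dc₂₃ L C (cupc₁₁ L φ' c w) = - cupc₁₂ L φ' c (dc₁₂ L B w) := by
  obtain ⟨u, t⟩ := w
  refine Prod.ext ?_ ?_
  · funext ⟨g₁, g₂, g₃⟩
    show (d₂₃ C).hom (fun g => φ'.φ (c g.1) (B.ρ g.1 (u g.2))) (g₁, g₂, g₃)
      = - φ'.φ (c g₁) (B.ρ g₁ ((d₁₂ B).hom u (g₂, g₃)))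
    rw [d₂₃_hom_apply, d₁₂_hom_apply, ← φ'.equivariant g₁]
    simp only [z1_apply A hc g₁ g₂, map_add, map_sub, map_mul, Module.End.mul_apply,
      LinearMap.add_apply]
    abel
  · funext v
    funext ⟨s, s'⟩
    show res₂ L C v (fun g => φ'.φ (c g.1) (B.ρ g.1 (u g.2))) (s, s')
        - (d₁₂ (L.loc C v)).hom (fun x => - φ'.φ (c (L.r v x)) (B.ρ (L.r v x) (t v))) (s, s')
      = - - φ'.φ (c (L.r v s))
          (B.ρ (L.r v s) (res₁ L B v u s' - (d₀₁ (L.loc B v)).hom (t v) s'))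
    rw [res₂_apply, d₁₂_hom_apply, res₁_apply, d₀₁_hom_apply, neg_neg]
    have e4 : (L.loc C v).ρ s (- φ'.φ (c (L.r v s')) (B.ρ (L.r v s') (t v)))
        = - φ'.φ (A.ρ (L.r v s) (c (L.r v s'))) (B.ρ (L.r v s) (B.ρ (L.r v s') (t v))) := by
      rw [map_neg]
      exact congrArg Neg.neg (φ'.equivariant (L.r v s) _ _).symm
    have e5 : (L.loc B v).ρ s' (t v) = B.ρ (L.r v s') (t v) := rfl
    rw [e4, e5]
    simp only [map_mul, z1_apply A hc (L.r v s) (L.r v s'), map_add, map_sub,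
      Module.End.mul_apply, LinearMap.add_apply]
    abel

lemma cupc₀₂_mem_Cc2 (m : A) {y : CcAmb2 L B} (hy : y ∈ Cc2 L B) :
    cupc₀₂ L φ' m y ∈ Cc2 L C := by
  obtain ⟨⟨N, hN, h⟩, h2⟩ := hy
  refine ⟨⟨N, hN, fun g₁ g₂ s₁ hs₁ s₂ hs₂ => ?_⟩, fun v _ => ?_⟩
  · show φ'.φ m (y.1 (g₁ * s₁, g₂ * s₂)) = φ'.φ m (y.1 (g₁, g₂))
    rw [h g₁ g₂ s₁ hs₁ s₂ hs₂]
  · obtain ⟨N', hN', h'⟩ := h2 v (Set.mem_univ v)
    exact ⟨N', hN', fun g s hs => by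
      show φ'.φ m (y.2 v (g * s)) = φ'.φ m (y.2 v g)
      rw [h' g s hs]⟩

lemma cupc₁₁_mem_Cc2 (hB : IsSmooth 𝒩 B) {c : G → A} (hc : c ∈ C1 𝒩 A) {w : CcAmb1 L B}
    (hw : w ∈ Cc1 L B) : cupc₁₁ L φ' c w ∈ Cc2 L C := by
  obtain ⟨N₁, hN₁, h₁⟩ := hc
  obtain ⟨N₂, hN₂, h₂⟩ := hw.1
  obtain ⟨N₃, hN₃, h₃⟩ := hB
  obtain ⟨N₄, hN₄, hle₁, hle₂⟩ := exists_level_le hN₁ hN₂
  obtain ⟨N, hN, hle₄, hle₃⟩ := exists_level_le hN₄ hN₃
  refine ⟨⟨N, hN, fun g₁ g₂ s₁ hs₁ s₂ hs₂ => ?_⟩, fun v _ => ?_⟩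
  · show φ'.φ (c (g₁ * s₁)) (B.ρ (g₁ * s₁) (w.1 (g₂ * s₂))) = φ'.φ (c g₁) (B.ρ g₁ (w.1 g₂))
    rw [h₁ g₁ s₁ (hle₁ (hle₄ hs₁)), h₂ g₂ s₂ (hle₂ (hle₄ hs₂)), map_mul, Module.End.mul_apply,
      h₃ s₁ (hle₃ hs₁)]
  · obtain ⟨N', hN', hle⟩ := L.compat v N hN
    refine ⟨N', hN', fun g s hs => ?_⟩
    show - φ'.φ (c (L.r v (g * s))) (B.ρ (L.r v (g * s)) (w.2 v))
      = - φ'.φ (c (L.r v g)) (B.ρ (L.r v g) (w.2 v))
    have hs' : L.r v s ∈ N := hle hs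
    rw [map_mul, h₁ _ _ (hle₁ (hle₄ hs')), map_mul, Module.End.mul_apply, h₃ _ (hle₃ hs')]

end Leibniz

/-! ## Descent of bilinear forms along surjections -/

section Descent

variable {V₁ V₂ W₁ W₂ : Type*} [AddCommGroup V₁] [Module k V₁] [AddCommGroup V₂] [Module k V₂]
  [AddCommGroup W₁] [Module k W₁] [AddCommGroup W₂] [Module k W₂]

/-- A bilinear form on `V₁ × V₂` vanishing on `ker p₁ × V₂` and `V₁ × ker p₂` descends along
surjections `p₁`, `p₂`. -/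
theorem exists_descended_pairing (p₁ : V₁ →ₗ[k] W₁) (p₂ : V₂ →ₗ[k] W₂)
    (hp₁ : Function.Surjective p₁) (hp₂ : Function.Surjective p₂)
    (β : V₁ →ₗ[k] V₂ →ₗ[k] k)
    (h₁ : ∀ c, p₁ c = 0 → ∀ y, β c y = 0) (h₂ : ∀ y, p₂ y = 0 → ∀ c, β c y = 0) :
    ∃ B : W₁ →ₗ[k] W₂ →ₗ[k] k, ∀ c y, B (p₁ c) (p₂ y) = β c y := by
  obtain ⟨s₁, hs₁⟩ :=
    LinearMap.exists_rightInverse_of_surjective p₁ (LinearMap.range_eq_top.mpr hp₁)
  obtain ⟨s₂, hs₂⟩ :=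
    LinearMap.exists_rightInverse_of_surjective p₂ (LinearMap.range_eq_top.mpr hp₂)
  refine ⟨β.compl₁₂ s₁ s₂, fun c y => ?_⟩
  rw [LinearMap.compl₁₂_apply]
  have e₁ : p₁ (s₁ (p₁ c) - c) = 0 := by
    have := LinearMap.congr_fun hs₁ (p₁ c)
    rw [LinearMap.comp_apply, LinearMap.id_apply] at this
    rw [map_sub, this, sub_self]
  have e₂ : p₂ (s₂ (p₂ y) - y) = 0 := by
    have := LinearMap.congr_fun hs₂ (p₂ y)
    rw [LinearMap.comp_apply, LinearMap.id_apply] at this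
    rw [map_sub, this, sub_self]
  have f₁ := h₁ _ e₁ (s₂ (p₂ y))
  have f₂ := h₂ _ e₂ c
  rw [map_sub, LinearMap.sub_apply, sub_eq_zero] at f₁
  rw [map_sub, sub_eq_zero] at f₂
  rw [f₁, f₂]

/-- descended pairing, with non-degeneracy -/
theorem exists_nondeg_descended_pairing (p₁ : V₁ →ₗ[k] W₁) (p₂ : V₂ →ₗ[k] W₂)
    (hp₁ : Function.Surjective p₁) (hp₂ : Function.Surjective p₂)
    (β : V₁ →ₗ[k] V₂ →ₗ[k] k)
    (h₁ : ∀ c, p₁ c = 0 → ∀ y, β c y = 0) (h₂ : ∀ y, p₂ y = 0 → ∀ c, β c y = 0)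
    (n₁ : ∀ c, (∀ y, β c y = 0) → p₁ c = 0) (n₂ : ∀ y, (∀ c, β c y = 0) → p₂ y = 0) :
    ∃ B : W₁ →ₗ[k] W₂ →ₗ[k] k, IsNondeg B ∧ ∀ c y, B (p₁ c) (p₂ y) = β c y := by
  obtain ⟨B, hB⟩ := exists_descended_pairing p₁ p₂ hp₁ hp₂ β h₁ h₂
  refine ⟨B, ⟨fun w₁ hw => ?_, fun w₂ hw => ?_⟩, hB⟩
  · obtain ⟨c, rfl⟩ := hp₁ w₁
    refine n₁ c fun y => ?_
    rw [← hB]
    exact hw _
  · obtain ⟨y, rfl⟩ := hp₂ w₂
    refine n₂ y fun c => ?_
    rw [← hB]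
    exact hw _

end Descent

section CupBil

variable (L : LocalData G 𝒩 ι) {A B C : Rep.{u} k G} (φ' : EqPairing A B C)

/-- the cup product `C^1(A) × C_c^2(B) → C_c^3(C)` as a bilinear map -/
def cup₁₂Bil : (G → A) →ₗ[k] CcAmb2 L B →ₗ[k] CcAmb3 L C :=
  LinearMap.mk₂ k (cupc₁₂ L φ')
    (fun x x' y => by
      refine Prod.ext ?_ ?_
      · funext g
        simp only [cupc₁₂, Pi.add_apply, map_add, LinearMap.add_apply, Prod.fst_add]
      · funext v s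
        simp only [cupc₁₂, Pi.add_apply, map_add, LinearMap.add_apply, Prod.snd_add, neg_add])
    (fun c x y => by
      refine Prod.ext ?_ ?_
      · funext g
        simp only [cupc₁₂, Pi.smul_apply, map_smul, LinearMap.smul_apply, Prod.smul_fst]
      · funext v s
        simp only [cupc₁₂, Pi.smul_apply, map_smul, LinearMap.smul_apply, Prod.smul_snd,
          smul_neg])
    (fun x y y' => by
      refine Prod.ext ?_ ?_
      · funext g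
        simp only [cupc₁₂, Pi.add_apply, map_add, Prod.fst_add]
      · funext v s
        simp only [cupc₁₂, Pi.add_apply, map_add, Prod.snd_add, neg_add])
    (fun c x y => by
      refine Prod.ext ?_ ?_
      · funext g
        simp only [cupc₁₂, Pi.smul_apply, map_smul, Prod.smul_fst]
      · funext v s
        simp only [cupc₁₂, Pi.smul_apply, map_smul, Prod.smul_snd, smul_neg])

@[simp] lemma cup₁₂Bil_apply (x : G → A) (y : CcAmb2 L B) :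
    cup₁₂Bil L φ' x y = cupc₁₂ L φ' x y := rfl

end CupBil

section DD

variable (L : LocalData G 𝒩 ι) (A : Rep.{u} k G)

lemma d₂₃_d₁₂_hom (u : G → A) : (d₂₃ A).hom ((d₁₂ A).hom u) = 0 :=
  LinearMap.mem_ker.mp (d₁₂_apply_mem_cocycles₂ u)

lemma d₁₂_d₀₁_hom (m : A) : (d₁₂ A).hom ((d₀₁ A).hom m) = 0 :=
  LinearMap.mem_ker.mp (d₀₁_apply_mem_cocycles₁ m)

/-- the cone is a complex in degrees `1 → 2 → 3` -/
lemma dc₂₃_dc₁₂ (w : CcAmb1 L A) : dc₂₃ L A (dc₁₂ L A w) = 0 := by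
  obtain ⟨u, t⟩ := w
  refine Prod.ext (d₂₃_d₁₂_hom A u) ?_
  funext v
  show res₂ L A v ((d₁₂ A).hom u)
    - (d₁₂ (L.loc A v)).hom (res₁ L A v u - (d₀₁ (L.loc A v)).hom (t v)) = 0
  rw [map_sub, d₁₂_d₀₁_hom, sub_zero, sub_eq_zero]
  funext ⟨s, s'⟩
  rw [res₂_apply, d₁₂_hom_apply, d₁₂_hom_apply, res₁_apply, res₁_apply, res₁_apply, map_mul]
  rfl

end DD

section Vanishing

variable (L : LocalData G 𝒩 ι) {A B C : Rep.{u} k G}
  (φ' : EqPairing A B C) (φ : EqPairing B A C)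

/-- the swapped pairing -/
def swapPairing (φ' : EqPairing A B C) : EqPairing B A C where
  φ := φ'.φ.flip
  equivariant g b a := φ'.equivariant g a b

lemma mem_Cc1_iff {A : Rep.{u} k G} (x : CcAmb1 L A) : x ∈ Cc1 L A ↔ x.1 ∈ C1 𝒩 A := by
  simp [Cc1, Submodule.mem_prod]

lemma mem_Cc2_iff {A : Rep.{u} k G} (y : CcAmb2 L A) :
    y ∈ Cc2 L A ↔ y.1 ∈ C2 𝒩 A ∧ ∀ v, y.2 v ∈ C1 (L.lev v) (L.loc A v) := by
  simp [Cc2, Submodule.mem_prod, Submodule.mem_pi]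

/-- a locally trivial level 1-cocycle lifts to a cone 1-cocycle -/
lemma exists_mem_Zc1 {A : Rep.{u} k G} {c : G → A} (hc : c ∈ Z1 𝒩 A) (hloc : c ∈ LocTriv1 L A) :
    ∃ e : ∀ v, L.loc A v, ((c, e) : CcAmb1 L A) ∈ Zc1 L A := by
  have h : ∀ v, ∃ e : L.loc A v, (d₀₁ (L.loc A v)).hom e = res₁ L A v c := by
    intro v
    exact (Submodule.mem_iInf _).mp hloc v
  choose e he using h
  refine ⟨e, (mem_Cc1_iff L _).mpr hc.1, ?_⟩
  refine Prod.ext hc.2 ?_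
  funext v
  show res₁ L A v c - (d₀₁ (L.loc A v)).hom (e v) = 0
  rw [he v, sub_self]

/-- the global component of a cone 1-cocycle is a locally trivial level 1-cocycle -/
lemma fst_mem_of_mem_Zc1 {A : Rep.{u} k G} {x : CcAmb1 L A} (hx : x ∈ Zc1 L A) :
    x.1 ∈ Z1 𝒩 A ∧ x.1 ∈ LocTriv1 L A := by
  obtain ⟨h1, h2⟩ := hx
  refine ⟨⟨(mem_Cc1_iff L _).mp h1, congrArg Prod.fst h2⟩, ?_⟩
  refine (Submodule.mem_iInf _).mpr fun v => ?_
  refine ⟨x.2 v, ?_⟩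
  have := congrFun (congrArg Prod.snd h2) v
  exact (sub_eq_zero.mp this).symm

/-- a locally trivial level 2-cocycle lifts to a cone 2-cocycle -/
lemma exists_mem_Zc2 {A : Rep.{u} k G} {a : G × G → A} (ha : a ∈ Z2 𝒩 A)
    (hloc : a ∈ LocTriv2 L A) :
    ∃ b : ∀ v, L.Gv v → L.loc A v, ((a, b) : CcAmb2 L A) ∈ Zc2 L A := by
  have h : ∀ v, ∃ b : L.Gv v → L.loc A v, b ∈ C1 (L.lev v) (L.loc A v) ∧
      (d₁₂ (L.loc A v)).hom b = res₂ L A v a := by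
    intro v
    exact (Submodule.mem_iInf _).mp hloc v
  choose b hb1 hb2 using h
  refine ⟨b, (mem_Cc2_iff L _).mpr ⟨ha.1, hb1⟩, ?_⟩
  refine Prod.ext ha.2 ?_
  funext v
  show res₂ L A v a - (d₁₂ (L.loc A v)).hom (b v) = 0
  rw [hb2 v, sub_self]

/-- the global component of a cone 2-cocycle is a locally trivial level 2-cocycle -/
lemma fst_mem_of_mem_Zc2 {A : Rep.{u} k G} {y : CcAmb2 L A} (hy : y ∈ Zc2 L A) :
    y.1 ∈ Z2 𝒩 A ∧ y.1 ∈ LocTriv2 L A := by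
  obtain ⟨h1, h2⟩ := hy
  obtain ⟨h1a, h1b⟩ := (mem_Cc2_iff L _).mp h1
  refine ⟨⟨h1a, congrArg Prod.fst h2⟩, ?_⟩
  refine (Submodule.mem_iInf _).mpr fun v => ?_
  refine ⟨y.2 v, h1b v, ?_⟩
  have := congrFun (congrArg Prod.snd h2) v
  exact (sub_eq_zero.mp this).symm

variable {L}

/-- `tr (c ∪ y) = 0` if `c` is a coboundary and `y` a cone cocycle. -/
lemma tr_cup_eq_zero_of_mem_B1 (tr : CcAmb3 L C →ₗ[k] k) (htr : ∀ c ∈ Bc3 L C, tr c = 0)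
    {c : G → A} (hc : c ∈ B1 A) {y : CcAmb2 L B} (hy : y ∈ Zc2 L B) :
    tr (cupc₁₂ L φ' c y) = 0 := by
  obtain ⟨m, rfl⟩ := hc
  have h := leibniz₀₂ L φ' m y
  have hy0 : dc₂₃ L B y = 0 := hy.2
  have h0 : cupc₀₃ L φ' m (0 : CcAmb3 L B) = 0 := by
    refine Prod.ext ?_ ?_
    · funext g
      show φ'.φ m 0 = 0
      rw [map_zero]
    · funext v s
      show φ'.φ m 0 = 0
      rw [map_zero]
  rw [hy0, h0, add_zero] at h
  rw [← h]
  exact htr _ ⟨_, cupc₀₂_mem_Cc2 L φ' m hy.1, rfl⟩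

/-- `tr (c ∪ y) = tr (a ∪ x)` for cone cocycles `x = (c, e)`, `y = (a, b)` (adjunction). -/
lemma tr_cup_adjunction (hsw : ∀ a b, φ'.φ a b = φ.φ b a)
    (tr : CcAmb3 L C →ₗ[k] k) (htr : ∀ c ∈ Bc3 L C, tr c = 0)
    {x : CcAmb1 L A} (hx : x ∈ Zc1 L A) {y : CcAmb2 L B} (hy : y ∈ Zc2 L B) :
    tr (cupc₁₂ L φ' x.1 y) = tr (cupc₂₁ L φ y.1 x) := by
  have h := adjunction_eq hsw hx.2 hy.2
  have h2 : tr (dc₂₃ L C (adjCochain L φ' x y)) = 0 :=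
    htr _ ⟨_, adjCochain_mem_Cc2 L φ' hx.1 hy.1, rfl⟩
  rw [← h, map_sub, sub_eq_zero] at h2
  exact h2

/-- `tr (c ∪ y) = 0` if `c` is a locally trivial cocycle and the global component of the cone
cocycle `y` is a level coboundary. -/
lemma tr_cup_eq_zero_of_fst_mem_B2 (hB : IsSmooth 𝒩 B)
    (tr : CcAmb3 L C →ₗ[k] k) (htr : ∀ c ∈ Bc3 L C, tr c = 0)
    {c : G → A} (hc : c ∈ Z1 𝒩 A) (hloc : c ∈ LocTriv1 L A)
    {y : CcAmb2 L B} (hy : y ∈ Zc2 L B) (hy1 : y.1 ∈ B2 𝒩 B) :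
    tr (cupc₁₂ L φ' c y) = 0 := by
  obtain ⟨u, hu, hua⟩ := hy1
  obtain ⟨e, hx⟩ := exists_mem_Zc1 L hc hloc
  have hwC : ((u, 0) : CcAmb1 L B) ∈ Cc1 L B := (mem_Cc1_iff L _).mpr hu
  have h1 : tr (cupc₁₂ L φ' c (dc₁₂ L B (u, 0))) = 0 := by
    have h := leibniz₁₁ L φ' hc.2 ((u, 0) : CcAmb1 L B)
    have h' : cupc₁₂ L φ' c (dc₁₂ L B (u, 0)) = - dc₂₃ L C (cupc₁₁ L φ' c (u, 0)) := by
      rw [h, neg_neg]
    rw [h', map_neg, htr _ ⟨_, cupc₁₁_mem_Cc2 L φ' hB hc.1 hwC, rfl⟩, neg_zero]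
  have hz : (y - dc₁₂ L B (u, 0)).1 = 0 := by
    show y.1 - (d₁₂ B).hom u = 0
    rw [hua, sub_self]
  have hy' : y - dc₁₂ L B (u, 0) ∈ Zc2 L B := by
    refine ⟨(mem_Cc2_iff L _).mpr ⟨?_, fun v => ?_⟩, ?_⟩
    · rw [hz]
      exact (C2 𝒩 B).zero_mem
    · show y.2 v - (res₁ L B v u - (d₀₁ (L.loc B v)).hom 0) ∈ C1 (L.lev v) (L.loc B v)
      rw [map_zero, sub_zero]
      exact (C1 _ _).sub_mem (((mem_Cc2_iff L _).mp hy.1).2 v) (res₁_mem_C1 L hu v)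
    · show dc₂₃ L B (y - dc₁₂ L B (u, 0)) = 0
      rw [map_sub, dc₂₃_dc₁₂, sub_zero]
      exact hy.2
  have h2 : tr (cupc₁₂ L φ' c (y - dc₁₂ L B (u, 0))) = 0 := by
    have h := tr_cup_adjunction (φ' := φ') (φ := swapPairing φ') (fun _ _ => rfl) tr htr hx hy'
    have h0 : cupc₂₁ L (swapPairing φ') (y - dc₁₂ L B (u, 0)).1 ((c, e) : CcAmb1 L A) = 0 := by
      rw [hz]
      refine Prod.ext ?_ ?_
      · funext g
        show (swapPairing φ').φ 0 _ = 0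
        rw [map_zero, LinearMap.zero_apply]
      · funext v s
        show (swapPairing φ').φ 0 _ = 0
        rw [map_zero, LinearMap.zero_apply]
    rw [h0, map_zero] at h
    exact h
  have hsplit : cupc₁₂ L φ' c y
      = cupc₁₂ L φ' c (dc₁₂ L B (u, 0)) + cupc₁₂ L φ' c (y - dc₁₂ L B (u, 0)) := by
    rw [← cup₁₂Bil_apply, ← cup₁₂Bil_apply, ← cup₁₂Bil_apply, ← map_add]
    congr 1
    abel
  rw [hsplit, map_add, h1, h2, add_zero]

end Vanishing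


section Final

variable (L : LocalData G 𝒩 ι) (A B : Rep.{u} k G)

/-- locally trivial level 1-cocycles -/
def ZSha1 : Submodule k ↥(Z1 𝒩 A) := (LocTriv1 L A).comap (Z1 𝒩 A).subtype

/-- locally trivial level 2-cocycles -/
def ZSha2 : Submodule k ↥(Z2 𝒩 B) := (LocTriv2 L B).comap (Z2 𝒩 B).subtype

/-- the class map `ZSha1 → Sha1` -/
def toSha1 : ↥(ZSha1 L A) →ₗ[k] ↥(Sha1 L A) :=
  (Submodule.mkQ ((B1 A).comap (Z1 𝒩 A).subtype)).submoduleMap (ZSha1 L A)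

lemma toSha1_surjective : Function.Surjective (toSha1 L A) :=
  LinearMap.submoduleMap_surjective _ _

lemma toSha1_eq_zero_iff (c : ↥(ZSha1 L A)) : toSha1 L A c = 0 ↔ c.1.1 ∈ B1 A := by
  rw [← Subtype.coe_inj]
  show Submodule.mkQ ((B1 A).comap (Z1 𝒩 A).subtype) c.1 = 0 ↔ _
  rw [Submodule.mkQ_apply, Submodule.Quotient.mk_eq_zero]
  rfl

/-- the class map `ZSha2 → Sha2` -/
def toSha2 : ↥(ZSha2 L B) →ₗ[k] ↥(Sha2 L B) :=
  (Submodule.mkQ ((B2 𝒩 B).comap (Z2 𝒩 B).subtype)).submoduleMap (ZSha2 L B)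

lemma toSha2_surjective : Function.Surjective (toSha2 L B) :=
  LinearMap.submoduleMap_surjective _ _

lemma toSha2_eq_zero_iff (a : ↥(ZSha2 L B)) : toSha2 L B a = 0 ↔ a.1.1 ∈ B2 𝒩 B := by
  rw [← Subtype.coe_inj]
  show Submodule.mkQ ((B2 𝒩 B).comap (Z2 𝒩 B).subtype) a.1 = 0 ↔ _
  rw [Submodule.mkQ_apply, Submodule.Quotient.mk_eq_zero]
  rfl

/-- the global component of a cone 2-cocycle, as a locally trivial level 2-cocycle -/
def coneFst : ↥(Zc2 L B) →ₗ[k] ↥(ZSha2 L B) :=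
  LinearMap.codRestrict (ZSha2 L B)
    (LinearMap.codRestrict (Z2 𝒩 B) ((LinearMap.fst k _ _).comp (Zc2 L B).subtype)
      (fun y => (fst_mem_of_mem_Zc2 L y.2).1))
    (fun y => (fst_mem_of_mem_Zc2 L y.2).2)

@[simp] lemma coneFst_coe (y : ↥(Zc2 L B)) : (coneFst L B y).1.1 = y.1.1 := rfl

lemma coneFst_surjective : Function.Surjective (coneFst L B) := by
  rintro ⟨⟨a, ha⟩, hloc⟩
  obtain ⟨b, hb⟩ := exists_mem_Zc2 L ha hloc
  exact ⟨⟨(a, b), hb⟩, rfl⟩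

/-- the class map from cone 2-cocycles to `Sha2` -/
def coneToSha2 : ↥(Zc2 L B) →ₗ[k] ↥(Sha2 L B) := (toSha2 L B).comp (coneFst L B)

lemma coneToSha2_surjective : Function.Surjective (coneToSha2 L B) :=
  (toSha2_surjective L B).comp (coneFst_surjective L B)

lemma coneToSha2_eq_zero_iff (y : ↥(Zc2 L B)) : coneToSha2 L B y = 0 ↔ y.1.1 ∈ B2 𝒩 B :=
  toSha2_eq_zero_iff L B _

variable {L A B} {C : Rep.{u} k G}

/-- the cochain-level pairing `ZSha1(A) × Zc2(B) → k`, `(c, y) ↦ tr (c ∪ y)` -/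
def shaPairingCochain (φ' : EqPairing A B C) (tr : CcAmb3 L C →ₗ[k] k) :
    ↥(ZSha1 L A) →ₗ[k] ↥(Zc2 L B) →ₗ[k] k :=
  (((cup₁₂Bil L φ').compr₂ tr).compl₁₂
    ((Z1 𝒩 A).subtype.comp (ZSha1 L A).subtype) (Zc2 L B).subtype)

@[simp] lemma shaPairingCochain_apply (φ' : EqPairing A B C) (tr : CcAmb3 L C →ₗ[k] k)
    (c : ↥(ZSha1 L A)) (y : ↥(Zc2 L B)) :
    shaPairingCochain φ' tr c y = tr (cupc₁₂ L φ' c.1.1 y.1) := rfl

/-- FINAL STEP OF MODULE A (general pairing form).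
Let `φ' : A × B → C` and `φ : B × A → C` be swapped equivariant pairings, `B` smooth, and let `tr`
kill cone 3-coboundaries of `C`.  If `β¹ : H^1(A) → H_c^2(B)^*` is injective (`Claim.inj1` for
`φ'`) and `β² : H^2(B) → H_c^1(A)^*` is injective (`Claim.inj2` for `φ`), then
`(c, y) ↦ tr (c ∪ y)` descends to a pairing `Sha1(A) × Sha2(B) → k` non-degenerate on both sides. -/
theorem exists_nondeg_pairing_of_inj (φ' : EqPairing A B C) (φ : EqPairing B A C)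
    (hsw : ∀ a b, φ'.φ a b = φ.φ b a) (hB : IsSmooth 𝒩 B)
    (tr : CcAmb3 L C →ₗ[k] k) (htr : ∀ c ∈ Bc3 L C, tr c = 0)
    (h1 : ∀ x ∈ Z1 𝒩 A, (∀ y ∈ Zc2 L B, tr (cupc₁₂ L φ' x y) = 0) → x ∈ B1 A)
    (h2 : ∀ x ∈ Z2 𝒩 B, (∀ y ∈ Zc1 L A, tr (cupc₂₁ L φ x y) = 0) → x ∈ B2 𝒩 B) :
    ∃ Bil : Sha1 L A →ₗ[k] Sha2 L B →ₗ[k] k, IsNondeg Bil ∧
      ∀ (c : ↥(ZSha1 L A)) (y : ↥(Zc2 L B)),
        Bil (toSha1 L A c) (coneToSha2 L B y) = tr (cupc₁₂ L φ' c.1.1 y.1) := by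
  refine exists_nondeg_descended_pairing (V₁ := ↥(ZSha1 L A)) (V₂ := ↥(Zc2 L B))
    (W₁ := ↥(Sha1 L A)) (W₂ := ↥(Sha2 L B)) (toSha1 L A) (coneToSha2 L B)
    (toSha1_surjective L A) (coneToSha2_surjective L B) (shaPairingCochain φ' tr)
    ?_ ?_ ?_ ?_
  · intro c hc y
    exact tr_cup_eq_zero_of_mem_B1 φ' tr htr ((toSha1_eq_zero_iff L A c).mp hc) y.2
  · intro y hy c
    exact tr_cup_eq_zero_of_fst_mem_B2 φ' hB tr htr c.1.2 c.2 y.2
      ((coneToSha2_eq_zero_iff L B y).mp hy)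
  · intro c hc
    refine (toSha1_eq_zero_iff L A c).mpr (h1 c.1.1 c.1.2 fun y hy => ?_)
    exact hc ⟨y, hy⟩
  · intro y hy
    refine (coneToSha2_eq_zero_iff L B y).mpr
      (h2 y.1.1 (fst_mem_of_mem_Zc2 L y.2).1 fun x hx => ?_)
    rw [← tr_cup_adjunction φ' φ hsw tr htr hx y.2]
    exact hy ⟨⟨x.1, (fst_mem_of_mem_Zc1 L hx).1⟩, (fst_mem_of_mem_Zc1 L hx).2⟩

end Final


/-! ## Transport along an equivariant linear map in the second variable -/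

section Push

variable (L : LocalData G 𝒩 ι) {A B B' C : Rep.{u} k G}

/-- post-composition of a cone 2-cochain with a linear map -/
def pushCc2 (f : B →ₗ[k] B') (y : CcAmb2 L B) : CcAmb2 L B' :=
  (fun g => f (y.1 g), fun v s => f (y.2 v s))

variable {L}

lemma pushCc2_mem_Zc2 (f : B →ₗ[k] B') (hf : ∀ g b, f (B.ρ g b) = B'.ρ g (f b))
    {y : CcAmb2 L B} (hy : y ∈ Zc2 L B) : pushCc2 L f y ∈ Zc2 L B' := by
  obtain ⟨a, b⟩ := y
  obtain ⟨hC, hd⟩ := hy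
  obtain ⟨⟨N, hN, hNa⟩, hb⟩ := (mem_Cc2_iff L _).mp hC
  have hda : (d₂₃ B).hom a = 0 := congrArg Prod.fst hd
  have hdb : ∀ v, res₂ L B v a - (d₁₂ (L.loc B v)).hom (b v) = 0 :=
    fun v => congrFun (congrArg Prod.snd hd) v
  refine ⟨(mem_Cc2_iff L _).mpr ⟨⟨N, hN, fun g₁ g₂ s₁ hs₁ s₂ hs₂ => ?_⟩, fun v => ?_⟩, ?_⟩
  · exact congrArg f (hNa g₁ g₂ s₁ hs₁ s₂ hs₂)
  · obtain ⟨N', hN', h'⟩ := hb v
    exact ⟨N', hN', fun g s hs => congrArg f (h' g s hs)⟩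
  · refine Prod.ext ?_ ?_
    · funext ⟨g₁, g₂, g₃⟩
      show (d₂₃ B').hom (fun g => f (a g)) (g₁, g₂, g₃) = 0
      rw [d₂₃_hom_apply, ← hf, ← map_sub, ← map_add, ← map_sub]
      have := z2_apply B hda g₁ g₂ g₃
      rw [this, map_zero]
    · funext v
      funext ⟨s, t⟩
      show res₂ L B' v (fun g => f (a g)) (s, t)
        - (d₁₂ (L.loc B' v)).hom (fun s => f (b v s)) (s, t) = 0
      rw [res₂_apply, d₁₂_hom_apply]
      have e5 : (L.loc B' v).ρ s (f (b v t)) = f (B.ρ (L.r v s) (b v t)) := (hf _ _).symm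
      have h := congrFun (hdb v) (s, t)
      have h' : a (L.r v s, L.r v t) - (B.ρ (L.r v s) (b v t) - b v (s * t) + b v s) = 0 := by
        have h2 : (res₂ L B v a - (d₁₂ (L.loc B v)).hom (b v)) (s, t)
            = a (L.r v s, L.r v t) - (B.ρ (L.r v s) (b v t) - b v (s * t) + b v s) := by
          rw [Pi.sub_apply, res₂_apply, d₁₂_hom_apply]
          rfl
        rw [← h2, h]
        rfl
      rw [e5, ← map_sub, ← map_add, ← map_sub, h', map_zero]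

lemma cupc₁₂_pushCc2 (φ₁ : EqPairing A B C) (φ₂ : EqPairing A B' C) (f : B →ₗ[k] B')
    (hf : ∀ g b, f (B.ρ g b) = B'.ρ g (f b)) (hφ : ∀ a b, φ₂.φ a (f b) = φ₁.φ a b)
    (x : G → A) (y : CcAmb2 L B) :
    cupc₁₂ L φ₂ x (pushCc2 L f y) = cupc₁₂ L φ₁ x y := by
  refine Prod.ext ?_ ?_
  · funext g
    show φ₂.φ (x g.1) (B'.ρ g.1 (f (y.1 (g.2.1, g.2.2)))) = φ₁.φ (x g.1) (B.ρ g.1 (y.1 (g.2.1, g.2.2)))
    rw [← hf, hφ]
  · funext v s
    show - φ₂.φ (x (L.r v s.1)) (B'.ρ (L.r v s.1) (f (y.2 v s.2)))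
      = - φ₁.φ (x (L.r v s.1)) (B.ρ (L.r v s.1) (y.2 v s.2))
    rw [← hf, hφ]

end Push


/-! ## Specialisation to the evaluation pairing -/

section Eval

variable (L : LocalData G 𝒩 ι) (M : Rep.{u} k G) (χ : G →* kˣ)

lemma evPairing'_swap (f : M.dualTwist χ) (a : M) :
    (evPairing' M χ).φ f a = (evPairing M χ).φ a f := rfl

/-- the twisted dual of a smooth module is smooth, if `χ` is trivial on a level -/
lemma isSmooth_dualTwist (hχ : ∃ N ∈ 𝒩.mem, ∀ g ∈ N, χ g = 1) (hM : IsSmooth 𝒩 M) :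
    IsSmooth 𝒩 (M.dualTwist χ) := by
  obtain ⟨N₁, hN₁, h₁⟩ := hχ
  obtain ⟨N₂, hN₂, h₂⟩ := hM
  obtain ⟨N, hN, hle₁, hle₂⟩ := exists_level_le hN₁ hN₂
  refine ⟨N, hN, fun s hs f => ?_⟩
  rw [Rep.dualTwist_ρ_apply, h₁ s (hle₁ hs), Units.val_one, one_smul]
  refine LinearMap.ext fun a => ?_
  rw [LinearMap.comp_apply, h₂ s⁻¹ (N₂.inv_mem (hle₂ hs))]

/-- the evaluation map `M → M^{**}` (double twisted dual) -/
def evalBidual : M →ₗ[k] (M.dualTwist χ).dualTwist χ := Module.Dual.eval k M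

lemma evalBidual_apply (a : M) (f : M.dualTwist χ) : evalBidual M χ a f = f a := rfl

lemma evalBidual_equivariant (g : G) (a : M) :
    evalBidual M χ (M.ρ g a) = ((M.dualTwist χ).dualTwist χ).ρ g (evalBidual M χ a) := by
  refine LinearMap.ext fun f => ?_
  rw [Rep.dualTwist_ρ_apply]
  show f (M.ρ g a) = (χ g : k) • ((M.dualTwist χ).ρ g⁻¹ f) a
  rw [Rep.dualTwist_ρ_apply]
  show f (M.ρ g a) = (χ g : k) • ((χ g⁻¹ : k) • f (M.ρ g⁻¹⁻¹ a))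
  rw [inv_inv, smul_smul, ← Units.val_mul, ← map_mul, mul_inv_cancel, map_one, Units.val_one,
    one_smul]

variable [Module.Finite k M]

/-- the inverse of the evaluation map -/
def evalBidualInv : (M.dualTwist χ).dualTwist χ →ₗ[k] M := (Module.evalEquiv k M).symm.toLinearMap

lemma evalBidual_evalBidualInv (F : (M.dualTwist χ).dualTwist χ) :
    evalBidual M χ (evalBidualInv M χ F) = F :=
  (Module.evalEquiv k M).apply_symm_apply F

lemma evalBidualInv_evalBidual (a : M) : evalBidualInv M χ (evalBidual M χ a) = a :=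
  (Module.evalEquiv k M).symm_apply_apply a

lemma evalBidualInv_equivariant (g : G) (F : (M.dualTwist χ).dualTwist χ) :
    evalBidualInv M χ (((M.dualTwist χ).dualTwist χ).ρ g F) = M.ρ g (evalBidualInv M χ F) := by
  have h := evalBidual_equivariant M χ g (evalBidualInv M χ F)
  rw [evalBidual_evalBidualInv] at h
  rw [← h, evalBidualInv_evalBidual]

lemma evPairing_evalBidualInv (f : M.dualTwist χ) (F : (M.dualTwist χ).dualTwist χ) :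
    (evPairing' M χ).φ f (evalBidualInv M χ F) = (evPairing (M.dualTwist χ) χ).φ f F := by
  show f (evalBidualInv M χ F) = F f
  conv_rhs => rw [← evalBidual_evalBidualInv M χ F]
  rfl

variable {L M χ}

/-- `Claim.inj1` for `M^*(χ) × M^{**} → k(χ)` gives the injectivity statement for
`M^*(χ) × M → k(χ)`. -/
lemma inj1_evPairing' (tr : CcAmb3 L (groupCohomology.ofChar χ) →ₗ[k] k)
    (h : ∀ x ∈ Z1 𝒩 (M.dualTwist χ),
      (∀ y ∈ Zc2 L ((M.dualTwist χ).dualTwist χ),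
        tr (cupc₁₂ L (evPairing (M.dualTwist χ) χ) x y) = 0) → x ∈ B1 (M.dualTwist χ)) :
    ∀ x ∈ Z1 𝒩 (M.dualTwist χ),
      (∀ y ∈ Zc2 L M, tr (cupc₁₂ L (evPairing' M χ) x y) = 0) → x ∈ B1 (M.dualTwist χ) := by
  intro x hx hxy
  refine h x hx fun y hy => ?_
  have h1 := pushCc2_mem_Zc2 (evalBidualInv M χ) (evalBidualInv_equivariant M χ) hy
  have h2 := cupc₁₂_pushCc2 (L := L) (evPairing (M.dualTwist χ) χ) (evPairing' M χ)
    (evalBidualInv M χ) (evalBidualInv_equivariant M χ) (evPairing_evalBidualInv M χ) x y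
  rw [← h2]
  exact hxy _ h1

/-- FINAL STEP OF MODULE A, evaluation pairing form. -/
theorem exists_nondeg_pairing (hM : IsSmooth 𝒩 M)
    (tr : CcAmb3 L (groupCohomology.ofChar χ) →ₗ[k] k)
    (htr : ∀ c ∈ Bc3 L (groupCohomology.ofChar χ), tr c = 0)
    (h1 : ∀ x ∈ Z1 𝒩 (M.dualTwist χ),
      (∀ y ∈ Zc2 L ((M.dualTwist χ).dualTwist χ),
        tr (cupc₁₂ L (evPairing (M.dualTwist χ) χ) x y) = 0) → x ∈ B1 (M.dualTwist χ))
    (h2 : ∀ x ∈ Z2 𝒩 M,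
      (∀ y ∈ Zc1 L (M.dualTwist χ), tr (cupc₂₁ L (evPairing M χ) x y) = 0) → x ∈ B2 𝒩 M) :
    ∃ Bil : Sha1 L (M.dualTwist χ) →ₗ[k] Sha2 L M →ₗ[k] k, IsNondeg Bil ∧
      ∀ (c : ↥(ZSha1 L (M.dualTwist χ))) (y : ↥(Zc2 L M)),
        Bil (toSha1 L (M.dualTwist χ) c) (coneToSha2 L M y)
          = tr (cupc₁₂ L (evPairing' M χ) c.1.1 y.1) :=
  exists_nondeg_pairing_of_inj (evPairing' M χ) (evPairing M χ) (evPairing'_swap M χ) hM tr htr
    (inj1_evPairing' tr h1) h2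

/-- FINAL STEP OF MODULE A from the CLAIM for `M` and `M^*(χ)`. -/
theorem exists_nondeg_pairing_of_claim (hM : IsSmooth 𝒩 M)
    (tr : CcAmb3 L (groupCohomology.ofChar χ) →ₗ[k] k)
    (htr : ∀ c ∈ Bc3 L (groupCohomology.ofChar χ), tr c = 0)
    (hcl : Claim L (evPairing M χ) tr) (hcl' : Claim L (evPairing (M.dualTwist χ) χ) tr) :
    ∃ Bil : Sha1 L (M.dualTwist χ) →ₗ[k] Sha2 L M →ₗ[k] k, IsNondeg Bil :=
  let ⟨Bil, h, _⟩ := exists_nondeg_pairing hM tr htr hcl'.inj1 hcl.inj2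
  ⟨Bil, h⟩

end Eval

/-- MODULE A, LAST LINK: if the CLAIM holds for every finite dimensional smooth module, then
`Sha1 (M^*(χ))` and `Sha2 (M)` are in perfect duality for every such `M`
(the conclusion of `MainA`). -/
theorem mainA_conclusion_of_claim (L : LocalData G 𝒩 ι) (χ : G →* kˣ)
    (hχ : ∃ N ∈ 𝒩.mem, ∀ g ∈ N, χ g = 1)
    (tr : CcAmb3 L (groupCohomology.ofChar χ) →ₗ[k] k)
    (htr : ∀ c ∈ Bc3 L (groupCohomology.ofChar χ), tr c = 0)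
    (hclaim : ∀ M : Rep.{u} k G, Module.Finite k M → IsSmooth 𝒩 M →
      Claim L (evPairing M χ) tr) :
    ∀ M : Rep.{u} k G, Module.Finite k M → IsSmooth 𝒩 M →
      ∃ B : Sha1 L (M.dualTwist χ) →ₗ[k] Sha2 L M →ₗ[k] k, IsNondeg B := by
  intro M hfin hM
  have := hfin
  have hfin' : Module.Finite k (M.dualTwist χ) :=
    inferInstanceAs (Module.Finite k (Module.Dual k M))
  exact exists_nondeg_pairing_of_claim hM tr htr (hclaim M hfin hM)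
    (hclaim (M.dualTwist χ) hfin' (isSmooth_dualTwist M χ hχ hM))

end Fermat.Agent.S55.helper53
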