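import Fermat.Agent.S55.AInterface
import Fermat.Agent.S55.helper53_Final

/-!
# S55 module A: the packages A-ADJ and A-FINAL in the shape of `AInterface` (helper53)

* `adjStatement`   : `AdjStatement L 1`     (graded commutativity on cocycles, sign `ε = 1`);
* `finalStatement` : `FinalStatement L χ`   (the Sha-pairing);
* `mainA_of_ind`   : `IndStatement L p χ → MainA L p χ`  (the last link of module A; neither
  `DDStatement` nor the adjunction hypothesis is needed as an input).
-/

set_option autoImplicit false

universe u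

open groupCohomology

noncomputable section

namespace Fermat.Agent.S55.helper53

open Fermat.Agent.S55

variable {k G : Type u} [Field k] [Group G] {𝒩 : Levels G} {ι : Type}

/-- A-ADJ with sign `ε = 1` (no smoothness is needed). -/
theorem adjStatement (L : LocalData G 𝒩 ι) : AdjStatement (k := k) L 1 := by
  intro A B C φ _ _ _ z hz w hw
  have h := adjunction_eq (L := L) (φ' := φ.flip) (φ := φ) (fun _ _ => rfl) hw.2 hz.2
  have hmem : adjCochain L φ.flip w z ∈ Cc2 L C := adjCochain_mem_Cc2 L φ.flip hw.1 hz.1
  have h2 : cupc₂₁ L φ z.1 w - (1 : k) • cupc₁₂ L φ.flip w.1 z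
      = dc₂₃ L C (- adjCochain L φ.flip w z) := by
    rw [map_neg, ← h, one_smul, neg_sub]
  rw [h2]
  exact ⟨_, (Cc2 L C).neg_mem hmem, rfl⟩

/-- A-FINAL (the adjunction hypothesis of `FinalStatement` is not used: it is proved in
`adjunction_eq`). -/
theorem finalStatement (L : LocalData G 𝒩 ι) (χ : G →* kˣ) : FinalStatement L χ := by
  intro _ tr htr M _ hM _ h1 h2
  obtain ⟨Bil, hBil, -⟩ := exists_nondeg_pairing_of_inj (L := L) (evPairing' M χ) (evPairing M χ)
    (evPairing'_swap M χ) hM tr htr h1 h2
  exact ⟨Bil, hBil⟩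

/-- The last link of module A: `MainA` from `IndStatement` alone. -/
theorem mainA_of_ind (L : LocalData G 𝒩 ι) (p : ℕ) (χ : G →* kˣ)
    (hInd : IndStatement L p χ) : MainA L p χ := by
  intro hp hchar hfin hχ tr htr hbase
  exact mainA_conclusion_of_claim L χ hχ tr htr (hInd hp hchar hfin hχ tr htr hbase)

end Fermat.Agent.S55.helper53
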