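import Fermat.Agent.S55.helper90_Rec3Avg

/-!
# S55 / REC3, package R3-ABS-TORS (helper60, task 491)

Every level 2-cocycle is torsion modulo level coboundaries: if `f` is constant modulo the level
`N` (of finite index `n`), then `n • f = d g` for the level 1-cochain
`g σ = ∑_{τ ∈ U/N} f (σ, τ)`.

* `cosetSum_congr`, `d₁₂_cosetSum_eq` : the averaging identity
  `d (σ ↦ ∑_τ f (σ, τ)) = [U : N] • f` for a 2-cocycle `f` constant modulo `N`;
* `exists_nsmul_mem_B2` : VERBATIM the statement of helper90's REC3 interface v1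
  (`blueprints/S55/helper90_Rec3Interface.lean`);
* `exists_nsmul_mem_B2'` : the same without the (unused) discreteness hypothesis and with the
  explicit multiplier `n = Nat.card (U ⧸ N)`.
-/

set_option autoImplicit false

open groupCohomology

noncomputable section

namespace Fermat.Agent.S55.helper60

open Fermat.Agent.S55 Fermat.Agent.S55.helper90

section Abs

variable {k U : Type} [CommRing k] [Group U] {𝒩 : Levels U}

/-- the sum over the second variable of a 2-cochain constant modulo `N` -/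
def sumSnd (N : Subgroup U) (A : Rep.{0} k U) (f : U × U → A) : U → A :=
  fun σ => cosetSum N (fun τ => f (σ, τ))

lemma sumSnd_mem_C1 {N : Subgroup U} (hN : N ∈ 𝒩.mem) (A : Rep.{0} k U) (f : U × U → A)
    (hc : ∀ g₁ g₂, ∀ s₁ ∈ N, ∀ s₂ ∈ N, f (g₁ * s₁, g₂ * s₂) = f (g₁, g₂)) :
    sumSnd N A f ∈ C1 𝒩 A := by
  refine ⟨N, hN, fun σ s hs => ?_⟩
  have h : (fun τ => f (σ * s, τ)) = fun τ => f (σ, τ) := by
    funext τ
    have := hc σ τ s hs 1 (one_mem _)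
    rwa [mul_one] at this
  change cosetSum N (fun τ => f (σ * s, τ)) = cosetSum N (fun τ => f (σ, τ))
  rw [h]

/-- **the averaging identity**: `d (σ ↦ ∑_τ f (σ, τ)) = [U : N] • f` for a 2-cocycle `f`
constant modulo `N` -/
theorem d₁₂_sumSnd_eq {N : Subgroup U} [Finite (U ⧸ N)] (A : Rep.{0} k U) (f : U × U → A)
    (hc : ∀ g₁ g₂, ∀ s₁ ∈ N, ∀ s₂ ∈ N, f (g₁ * s₁, g₂ * s₂) = f (g₁, g₂))
    (hker : (d₂₃ A).hom f = 0) :
    (d₁₂ A).hom (sumSnd N A f) = Nat.card (U ⧸ N) • f := by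
  funext ⟨g₁, g₂⟩
  rw [d₁₂_hom_apply]
  -- the cocycle identity, solved for `ρ g₁ (f (g₂, τ))`
  have hρ : ∀ τ, A.ρ g₁ (f (g₂, τ)) = f (g₁ * g₂, τ) - f (g₁, g₂ * τ) + f (g₁, g₂) := by
    intro τ
    have h := congrFun hker (g₁, g₂, τ)
    rw [d₂₃_hom_apply] at h
    have h' : A.ρ g₁ (f (g₂, τ)) - f (g₁ * g₂, τ) + f (g₁, g₂ * τ) - f (g₁, g₂) = 0 := h
    have e : A.ρ g₁ (f (g₂, τ)) = (A.ρ g₁ (f (g₂, τ)) - f (g₁ * g₂, τ) + f (g₁, g₂ * τ)
        - f (g₁, g₂)) + (f (g₁ * g₂, τ) - f (g₁, g₂ * τ) + f (g₁, g₂)) := by abel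
    rw [e, h', zero_add]
  have hinv : ∀ g, ∀ s ∈ N, (fun τ => f (g₁, τ)) (g * s) = (fun τ => f (g₁, τ)) g := by
    intro g s hs
    have := hc g₁ g 1 (one_mem _) s hs
    rwa [mul_one] at this
  have h1 : A.ρ g₁ (sumSnd N A f g₂) =
      sumSnd N A f (g₁ * g₂) - sumSnd N A f g₁ + Nat.card (U ⧸ N) • f (g₁, g₂) := by
    have e1 : A.ρ g₁ (sumSnd N A f g₂) = cosetSum N (fun τ => A.ρ g₁ (f (g₂, τ))) :=
      cosetSum_map (N := N) ((A.ρ g₁ : A.V →ₗ[k] A.V).toAddMonoidHom) (fun τ => f (g₂, τ))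
    rw [e1]
    simp only [hρ]
    rw [cosetSum_add, cosetSum_sub, cosetSum_const,
      cosetSum_translate (fun τ => f (g₁, τ)) hinv g₂]
    rfl
  change A.ρ g₁ (sumSnd N A f g₂) - sumSnd N A f (g₁ * g₂) + sumSnd N A f g₁ =
    Nat.card (U ⧸ N) • f (g₁, g₂)
  rw [h1]
  abel

/-- **R3-ABS-TORS**, explicit form: a 2-cocycle constant modulo the level `N` is killed by
`[U : N]` modulo level coboundaries. -/
theorem nsmul_mem_B2_of_level {N : Subgroup U} (hN : N ∈ 𝒩.mem) [Finite (U ⧸ N)]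
    (A : Rep.{0} k U) (f : U × U → A)
    (hc : ∀ g₁ g₂, ∀ s₁ ∈ N, ∀ s₂ ∈ N, f (g₁ * s₁, g₂ * s₂) = f (g₁, g₂))
    (hker : (d₂₃ A).hom f = 0) : Nat.card (U ⧸ N) • f ∈ B2 𝒩 A :=
  ⟨sumSnd N A f, sumSnd_mem_C1 hN A f hc, d₁₂_sumSnd_eq A f hc hker⟩

/-- **R3-ABS-TORS** without the discreteness hypothesis. -/
theorem exists_nsmul_mem_B2' (hfin : FinLevels 𝒩) (A : Rep.{0} k U)
    (f : U × U → A) (hf : f ∈ Z2 𝒩 A) : ∃ n : ℕ, 0 < n ∧ n • f ∈ B2 𝒩 A := by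
  obtain ⟨⟨N, hN, hc⟩, hker⟩ := hf
  have hfinN : Finite (U ⧸ N) := hfin N hN
  exact ⟨Nat.card (U ⧸ N), Nat.card_pos, nsmul_mem_B2_of_level hN A f hc
    (LinearMap.mem_ker.mp hker)⟩

/-- **R3-ABS-TORS**: every level 2-cocycle is torsion modulo level coboundaries
(`n = [U : N]`, `g(σ) = ∑_{τ ∈ U/N} f(σ, τ)`). -/
theorem exists_nsmul_mem_B2 (hfin : FinLevels 𝒩) (A : Rep.{0} k U) (hd : IsDisc 𝒩 A)
    (f : U × U → A) (hf : f ∈ Z2 𝒩 A) : ∃ n : ℕ, 0 < n ∧ n • f ∈ B2 𝒩 A :=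
  exists_nsmul_mem_B2' hfin A f hf

end Abs

end Fermat.Agent.S55.helper60
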