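import Fermat.Agent.S55.Defs

/-!
# S55 / REC3 (FUND), Kummer assembly, abstract part (helper90)

Abstract setting: a group `U` with a level structure `𝒩` (levels of finite index), a "big"
discrete `U`-module `E` (additively written; in the application the `S`-units of the maximal
extension unramified outside `S`), an odd prime `p`, and an equivariant embedding
`κ : ℤ/p → E` onto the `p`-torsion of `E` (in the application `a ↦ ζ ^ a`).
If `E` is `p`-divisible, the Kummer sequence `0 → ℤ/p → E → E → 0` is exact and the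
level-constant cohomology of `ℤ/p` is controlled by that of `E`:

* `h3_of_kummer` : `H³(E)[p] = 0` and `H²(E)` `p`-divisible  ⟹  `H³(U, ℤ/p) = 0`
  (this is field `h3` = (I5) of `helper59.BaseInput`);
* `exists_lift_of_torsion` : every class of `H²(E)` killed by `p` comes from `H²(U, ℤ/p)`;
* `exists_bockstein` : a class of `H²(U, ℤ/p)` dying in `H²(E)` is the Bockstein of a class of
  `H¹(E)`.
-/

set_option autoImplicit false

open groupCohomology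

noncomputable section

namespace Fermat.Agent.S55.helper90

/-! ## Level-constancy and composition -/

section Lev

variable {G : Type} [Group G] (𝒩 : Levels G) {X Y : Type*}

lemma IsLev₁.comp' {f : G → X} (hf : IsLev₁ 𝒩 f) (φ : X → Y) : IsLev₁ 𝒩 (fun g => φ (f g)) := by
  obtain ⟨N, hN, h⟩ := hf
  exact ⟨N, hN, fun g s hs => by simp only [h g s hs]⟩

lemma IsLev₂.comp' {f : G × G → X} (hf : IsLev₂ 𝒩 f) (φ : X → Y) :
    IsLev₂ 𝒩 (fun g => φ (f g)) := by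
  obtain ⟨N, hN, h⟩ := hf
  exact ⟨N, hN, fun g₁ g₂ s₁ hs₁ s₂ hs₂ => by simp only [h g₁ g₂ s₁ hs₁ s₂ hs₂]⟩

lemma IsLev₃.comp' {f : G × G × G → X} (hf : IsLev₃ 𝒩 f) (φ : X → Y) :
    IsLev₃ 𝒩 (fun g => φ (f g)) := by
  obtain ⟨N, hN, h⟩ := hf
  exact ⟨N, hN, fun g₁ g₂ g₃ s₁ hs₁ s₂ hs₂ s₃ hs₃ => by
    simp only [h g₁ g₂ g₃ s₁ hs₁ s₂ hs₂ s₃ hs₃]⟩

/-- Finitely many levels have a common lower bound. -/
lemma exists_level_le_of_finite {α : Type*} (s : Set α) (hs : s.Finite)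
    (N : α → Subgroup G) (hN : ∀ a ∈ s, N a ∈ 𝒩.mem) :
    ∃ M ∈ 𝒩.mem, ∀ a ∈ s, M ≤ N a := by
  induction s, hs using Set.Finite.induction_on with
  | empty =>
    obtain ⟨M, hM⟩ := 𝒩.nonempty
    exact ⟨M, hM, fun a ha => absurd ha (Set.notMem_empty a)⟩
  | @insert a s _ _ ih =>
    obtain ⟨M, hM, hMle⟩ := ih fun b hb => hN b (Set.mem_insert_of_mem a hb)
    obtain ⟨M', hM', hle⟩ := 𝒩.directed M hM (N a) (hN a (Set.mem_insert a s))
    refine ⟨M', hM', fun b hb => ?_⟩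
    rcases Set.mem_insert_iff.1 hb with rfl | hb
    · exact hle.trans inf_le_right
    · exact (hle.trans inf_le_left).trans (hMle b hb)

/-- all levels have finite index -/
def FinLevels : Prop := ∀ N ∈ 𝒩.mem, Finite (G ⧸ N)

variable {𝒩}

lemma IsLev₁.finite_range (hfin : FinLevels 𝒩) {f : G → X} (hf : IsLev₁ 𝒩 f) :
    (Set.range f).Finite := by
  obtain ⟨N, hN, h⟩ := hf
  have := hfin N hN
  let F : G ⧸ N → X := Quotient.lift f (by
    intro a b hab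
    have hab' : a⁻¹ * b ∈ N := QuotientGroup.leftRel_apply.mp hab
    have := h a (a⁻¹ * b) hab'
    rw [mul_inv_cancel_left] at this
    exact this.symm)
  refine (Set.finite_range F).subset ?_
  rintro _ ⟨g, rfl⟩
  exact ⟨QuotientGroup.mk g, rfl⟩

lemma IsLev₂.finite_range (hfin : FinLevels 𝒩) {f : G × G → X} (hf : IsLev₂ 𝒩 f) :
    (Set.range f).Finite := by
  obtain ⟨N, hN, h⟩ := hf
  have := hfin N hN
  have key : ∀ a b a' b' : G, a⁻¹ * a' ∈ N → b⁻¹ * b' ∈ N → f (a', b') = f (a, b) := by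
    intro a b a' b' ha hb
    have := h a b (a⁻¹ * a') ha (b⁻¹ * b') hb
    rwa [mul_inv_cancel_left, mul_inv_cancel_left] at this
  let F : (G ⧸ N) × (G ⧸ N) → X := fun x =>
    f (Quotient.out x.1, Quotient.out x.2)
  refine (Set.finite_range F).subset ?_
  rintro _ ⟨⟨g₁, g₂⟩, rfl⟩
  refine ⟨(QuotientGroup.mk g₁, QuotientGroup.mk g₂), ?_⟩
  refine key _ _ _ _ ?_ ?_
  · exact QuotientGroup.leftRel_apply.mp (Quotient.exact' (Quotient.out_eq' _).symm)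
  · exact QuotientGroup.leftRel_apply.mp (Quotient.exact' (Quotient.out_eq' _).symm)

lemma IsLev₃.finite_range (hfin : FinLevels 𝒩) {f : G × G × G → X} (hf : IsLev₃ 𝒩 f) :
    (Set.range f).Finite := by
  obtain ⟨N, hN, h⟩ := hf
  have := hfin N hN
  have key : ∀ a b c a' b' c' : G, a⁻¹ * a' ∈ N → b⁻¹ * b' ∈ N → c⁻¹ * c' ∈ N →
      f (a', b', c') = f (a, b, c) := by
    intro a b c a' b' c' ha hb hc
    have := h a b c (a⁻¹ * a') ha (b⁻¹ * b') hb (c⁻¹ * c') hc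
    rwa [mul_inv_cancel_left, mul_inv_cancel_left, mul_inv_cancel_left] at this
  let F : (G ⧸ N) × (G ⧸ N) × (G ⧸ N) → X := fun x =>
    f (Quotient.out x.1, Quotient.out x.2.1, Quotient.out x.2.2)
  refine (Set.finite_range F).subset ?_
  rintro _ ⟨⟨g₁, g₂, g₃⟩, rfl⟩
  refine ⟨(QuotientGroup.mk g₁, QuotientGroup.mk g₂, QuotientGroup.mk g₃), ?_⟩
  refine key _ _ _ _ _ _ ?_ ?_ ?_
  · exact QuotientGroup.leftRel_apply.mp (Quotient.exact' (Quotient.out_eq' _).symm)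
  · exact QuotientGroup.leftRel_apply.mp (Quotient.exact' (Quotient.out_eq' _).symm)
  · exact QuotientGroup.leftRel_apply.mp (Quotient.exact' (Quotient.out_eq' _).symm)

end Lev

/-! ## Discrete modules -/

section Disc

variable {k G : Type} [CommRing k] [Group G] (𝒩 : Levels G) (A : Rep.{0} k G)

/-- `A` is discrete: every element is fixed by some level. -/
def IsDisc : Prop := ∀ a : A, ∃ N ∈ 𝒩.mem, ∀ s ∈ N, A.ρ s a = a

variable {𝒩 A}

lemma IsDisc.exists_level_fixing (hd : IsDisc 𝒩 A) {α : Type*} (F : α → A)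
    (hF : (Set.range F).Finite) : ∃ M ∈ 𝒩.mem, ∀ x, ∀ s ∈ M, A.ρ s (F x) = F x := by
  choose N hN hfix using hd
  obtain ⟨M, hM, hle⟩ := exists_level_le_of_finite 𝒩 (Set.range F) hF N (fun a _ => hN a)
  exact ⟨M, hM, fun x s hs => hfix (F x) s (hle (F x) ⟨x, rfl⟩ hs)⟩

/-- a level-constant 1-cochain with values in a discrete module: one level for constancy and
for the values -/
lemma exists_level₁ (hfin : FinLevels 𝒩) (hd : IsDisc 𝒩 A) {f : G → A} (hf : f ∈ C1 𝒩 A) :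
    ∃ M ∈ 𝒩.mem, (∀ g, ∀ s ∈ M, f (g * s) = f g) ∧ ∀ g, ∀ s ∈ M, A.ρ s (f g) = f g := by
  obtain ⟨M₁, hM₁, h₁⟩ := hd.exists_level_fixing f (IsLev₁.finite_range hfin hf)
  obtain ⟨N, hN, h⟩ := hf
  obtain ⟨M, hM, hle⟩ := 𝒩.directed N hN M₁ hM₁
  exact ⟨M, hM, fun g s hs => h g s (hle hs).1, fun g s hs => h₁ g s (hle hs).2⟩

lemma exists_level₂ (hfin : FinLevels 𝒩) (hd : IsDisc 𝒩 A) {f : G × G → A} (hf : f ∈ C2 𝒩 A) :
    ∃ M ∈ 𝒩.mem, (∀ g₁ g₂, ∀ s₁ ∈ M, ∀ s₂ ∈ M, f (g₁ * s₁, g₂ * s₂) = f (g₁, g₂)) ∧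
      ∀ g, ∀ s ∈ M, A.ρ s (f g) = f g := by
  obtain ⟨M₁, hM₁, h₁⟩ := hd.exists_level_fixing f (IsLev₂.finite_range hfin hf)
  obtain ⟨N, hN, h⟩ := hf
  obtain ⟨M, hM, hle⟩ := 𝒩.directed N hN M₁ hM₁
  exact ⟨M, hM, fun g₁ g₂ s₁ hs₁ s₂ hs₂ => h g₁ g₂ s₁ (hle hs₁).1 s₂ (hle hs₂).1,
    fun g s hs => h₁ g s (hle hs).2⟩

/-- `d` preserves level-constancy (discrete coefficients, levels of finite index). -/
lemma d₁₂_mem_C2 (hfin : FinLevels 𝒩) (hd : IsDisc 𝒩 A) {f : G → A} (hf : f ∈ C1 𝒩 A) :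
    (d₁₂ A).hom f ∈ C2 𝒩 A := by
  obtain ⟨M, hM, hc, hv⟩ := exists_level₁ hfin hd hf
  have hnorm := 𝒩.normal M hM
  refine ⟨M, hM, fun g₁ g₂ s₁ hs₁ s₂ hs₂ => ?_⟩
  simp only [d₁₂_hom_apply]
  have e1 : f (g₂ * s₂) = f g₂ := hc g₂ s₂ hs₂
  have e2 : f (g₁ * s₁) = f g₁ := hc g₁ s₁ hs₁
  have e3 : f (g₁ * s₁ * (g₂ * s₂)) = f (g₁ * g₂) := by
    have : g₁ * s₁ * (g₂ * s₂) = g₁ * g₂ * (g₂⁻¹ * s₁ * g₂ * s₂) := by group
    rw [this]
    refine hc _ _ (Subgroup.mul_mem _ ?_ hs₂)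
    have := hnorm.conj_mem s₁ hs₁ g₂⁻¹
    simpa using this
  have e4 : A.ρ (g₁ * s₁) (f g₂) = A.ρ g₁ (f g₂) := by
    rw [map_mul, Module.End.mul_apply, hv g₂ s₁ hs₁]
  rw [e1, e2, e3, e4]

lemma d₂₃_mem_C3 (hfin : FinLevels 𝒩) (hd : IsDisc 𝒩 A) {f : G × G → A} (hf : f ∈ C2 𝒩 A) :
    (d₂₃ A).hom f ∈ C3 𝒩 A := by
  obtain ⟨M, hM, hc, hv⟩ := exists_level₂ hfin hd hf
  have hnorm := 𝒩.normal M hM
  have conj : ∀ (g : G) (s : G), s ∈ M → g⁻¹ * s * g ∈ M := fun g s hs => by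
    have := hnorm.conj_mem s hs g⁻¹
    simpa using this
  refine ⟨M, hM, fun g₁ g₂ g₃ s₁ hs₁ s₂ hs₂ s₃ hs₃ => ?_⟩
  simp only [d₂₃_hom_apply]
  have e1 : f (g₂ * s₂, g₃ * s₃) = f (g₂, g₃) := hc g₂ g₃ s₂ hs₂ s₃ hs₃
  have e2 : f (g₁ * s₁ * (g₂ * s₂), g₃ * s₃) = f (g₁ * g₂, g₃) := by
    have : g₁ * s₁ * (g₂ * s₂) = g₁ * g₂ * (g₂⁻¹ * s₁ * g₂ * s₂) := by group
    rw [this]
    exact hc _ _ _ (Subgroup.mul_mem _ (conj g₂ s₁ hs₁) hs₂) _ hs₃
  have e3 : f (g₁ * s₁, g₂ * s₂ * (g₃ * s₃)) = f (g₁, g₂ * g₃) := by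
    have : g₂ * s₂ * (g₃ * s₃) = g₂ * g₃ * (g₃⁻¹ * s₂ * g₃ * s₃) := by group
    rw [this]
    exact hc _ _ _ hs₁ _ (Subgroup.mul_mem _ (conj g₃ s₂ hs₂) hs₃)
  have e4 : f (g₁ * s₁, g₂ * s₂) = f (g₁, g₂) := hc g₁ g₂ s₁ hs₁ s₂ hs₂
  have e5 : A.ρ (g₁ * s₁) (f (g₂, g₃)) = A.ρ g₁ (f (g₂, g₃)) := by
    rw [map_mul, Module.End.mul_apply, hv (g₂, g₃) s₁ hs₁]
  rw [e1, e2, e3, e4, e5]

end Disc

/-! ## Kummer data -/

section Kummer

variable {k U : Type} [CommRing k] [Group U] (E : Rep.{0} k U) (p : ℕ) [Fact p.Prime]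

/-- An abstract Kummer sequence `0 → ℤ/p → E → E → 0` (the second map being multiplication by
`p`): `κ` is an injective equivariant map from the trivial module `ℤ/p` onto `E[p]`, and `E` is
`p`-divisible. -/
structure KummerDatum where
  /-- the embedding `a ↦ ζ ^ a` -/
  κ : ZMod p →+ E
  κ_inj : Function.Injective κ
  κ_fixed : ∀ (g : U) (a : ZMod p), E.ρ g (κ a) = κ a
  torsion : ∀ e : E, p • e = 0 → ∃ a, κ a = e
  div : ∀ e : E, ∃ e' : E, p • e' = e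

/-- the trivial module `ℤ/p` -/
abbrev Tp (U : Type) [Group U] (p : ℕ) [Fact p.Prime] : Rep.{0} (ZMod p) U :=
  Rep.trivial (ZMod p) U (ZMod p)

variable {E p} (K : KummerDatum E p)

namespace KummerDatum

lemma nsmul_κ (a : ZMod p) : p • K.κ a = 0 := by
  rw [← map_nsmul, nsmul_eq_mul, CharP.cast_eq_zero, zero_mul, map_zero]

/-- a set-theoretic `p`-th root -/
def root (e : E) : E := Classical.choose (K.div e)

lemma nsmul_root (e : E) : p • K.root e = e := Classical.choose_spec (K.div e)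

open Classical in
/-- a set-theoretic inverse of `κ` -/
def unκ (e : E) : ZMod p :=
  if h : p • e = 0 then Classical.choose (K.torsion e h) else 0

lemma κ_unκ {e : E} (h : p • e = 0) : K.κ (K.unκ e) = e := by
  rw [unκ, dif_pos h]
  exact Classical.choose_spec (K.torsion e h)

lemma d₁₂_κ (m : U → ZMod p) :
    (d₁₂ E).hom (fun x => K.κ (m x)) = fun x => K.κ ((d₁₂ (Tp U p)).hom m x) := by
  funext x
  simp only [d₁₂_hom_apply, K.κ_fixed, map_sub, map_add]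
  rfl

lemma d₂₃_κ (m : U × U → ZMod p) :
    (d₂₃ E).hom (fun x => K.κ (m x)) = fun x => K.κ ((d₂₃ (Tp U p)).hom m x) := by
  funext x
  simp only [d₂₃_hom_apply, K.κ_fixed, map_sub, map_add]
  rfl

lemma d₃₄_κ (m : U × U × U → ZMod p) :
    d₃₄ E (fun x => K.κ (m x)) = fun x => K.κ (d₃₄ (Tp U p) m x) := by
  funext ⟨g₁, g₂, g₃, g₄⟩
  simp only [d₃₄_apply, K.κ_fixed, map_sub, map_add]
  rfl

end KummerDatum

variable (𝒩 : Levels U)

/-- **KUM-H2** (Kummer sequence in degree 2): a level 2-cocycle of `E` whose class is killed by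
`p` is, up to a level coboundary, the image of a level 2-cocycle of `ℤ/p`. -/
theorem exists_lift_of_torsion (hfin : FinLevels 𝒩) (hd : IsDisc 𝒩 E)
    (y : U × U → E) (hy : y ∈ Z2 𝒩 E) (hpy : p • y ∈ B2 𝒩 E) :
    ∃ z ∈ Z2 𝒩 (Tp U p), ∃ s ∈ C1 𝒩 E, y = (fun x => K.κ (z x)) + (d₁₂ E).hom s := by
  obtain ⟨t, ht, hdt⟩ := hpy
  -- a `p`-th root of `t`
  set s : U → E := fun g => K.root (t g) with hs
  have hsC : s ∈ C1 𝒩 E := IsLev₁.comp' 𝒩 ht K.root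
  have hps : p • s = t := by
    funext g
    exact K.nsmul_root (t g)
  set w : U × U → E := y - (d₁₂ E).hom s with hw
  have hwC : w ∈ C2 𝒩 E := Submodule.sub_mem _ hy.1 (d₁₂_mem_C2 hfin hd hsC)
  have hpw : ∀ x, p • w x = 0 := by
    intro x
    have : p • w = 0 := by
      rw [hw, smul_sub, ← map_nsmul, hps, hdt, sub_self]
    exact congrFun this x
  set z : U × U → ZMod p := fun x => K.unκ (w x) with hz
  have hκz : (fun x => K.κ (z x)) = w := by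
    funext x
    exact K.κ_unκ (hpw x)
  have hzC : z ∈ C2 𝒩 (Tp U p) := IsLev₂.comp' 𝒩 hwC K.unκ
  have hdw : (d₂₃ E).hom w = 0 := by
    have h1 : (d₂₃ E).hom y = 0 := hy.2
    have h2 : (d₂₃ E).hom ((d₁₂ E).hom s) = 0 := by
      have := congrArg (fun φ => φ.hom s) (d₁₂_comp_d₂₃ E)
      exact this
    rw [hw, map_sub, h1, h2, sub_zero]
  have hzZ : (d₂₃ (Tp U p)).hom z = 0 := by
    funext x
    have := congrFun (K.d₂₃_κ z) x
    rw [hκz, hdw] at this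
    exact K.κ_inj (this.symm.trans (map_zero K.κ).symm)
  refine ⟨z, ⟨hzC, hzZ⟩, s, hsC, ?_⟩
  rw [hκz, hw]
  abel

/-- **KUM-H3** (Kummer sequence in degree 3): if `H³(E)` has no `p`-torsion and `H²(E)` is
`p`-divisible then `H³(U, ℤ/p) = 0`.  This is field `h3` (I5) of `helper59.BaseInput`. -/
theorem h3_of_kummer (K : KummerDatum E p) (hfin : FinLevels 𝒩) (hd : IsDisc 𝒩 E)
    (h3E : ∀ c ∈ Z3 𝒩 E, p • c = 0 → c ∈ B3 𝒩 E)
    (hdiv2 : ∀ ξ ∈ Z2 𝒩 E, ∃ η ∈ Z2 𝒩 E, ξ - p • η ∈ B2 𝒩 E) :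
    Z3 𝒩 (Tp U p) ≤ B3 𝒩 (Tp U p) := by
  intro c₀ hc₀
  set c : U × U × U → E := fun x => K.κ (c₀ x) with hc
  have hcC : c ∈ C3 𝒩 E := IsLev₃.comp' 𝒩 hc₀.1 K.κ
  have hcZ : d₃₄ E c = 0 := by
    rw [hc, K.d₃₄_κ]
    have h0 : d₃₄ (Tp U p) c₀ = 0 := hc₀.2
    funext x
    rw [h0]
    exact map_zero _
  have hpc : p • c = 0 := by
    funext x
    exact K.nsmul_κ (c₀ x)
  obtain ⟨y, hyC, hdy⟩ := h3E c ⟨hcC, hcZ⟩ hpc
  -- `p • y` is a cocycle
  have hpyZ : p • y ∈ Z2 𝒩 E := by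
    refine ⟨(C2 𝒩 E).nsmul_mem hyC p, ?_⟩
    change (d₂₃ E).hom (p • y) = 0
    rw [map_nsmul, hdy, hpc]
  obtain ⟨η, hη, hξ⟩ := hdiv2 (p • y) hpyZ
  -- `y - η` is a cocycle-valued correction with `p • (y - η)` a coboundary... but `y` is only
  -- a cochain; we apply the degree 2 argument by hand
  obtain ⟨t, ht, hdt⟩ := hξ
  set s : U → E := fun g => K.root (t g) with hs
  have hsC : s ∈ C1 𝒩 E := IsLev₁.comp' 𝒩 ht K.root
  have hps : p • s = t := by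
    funext g
    exact K.nsmul_root (t g)
  set w : U × U → E := y - η - (d₁₂ E).hom s with hw
  have hwC : w ∈ C2 𝒩 E :=
    Submodule.sub_mem _ (Submodule.sub_mem _ hyC hη.1) (d₁₂_mem_C2 hfin hd hsC)
  have hpw : ∀ x, p • w x = 0 := by
    intro x
    have : p • w = 0 := by
      rw [hw, smul_sub, smul_sub, ← map_nsmul, hps, hdt, sub_self]
    exact congrFun this x
  set m : U × U → ZMod p := fun x => K.unκ (w x) with hm
  have hκm : (fun x => K.κ (m x)) = w := by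
    funext x
    exact K.κ_unκ (hpw x)
  have hmC : m ∈ C2 𝒩 (Tp U p) := IsLev₂.comp' 𝒩 hwC K.unκ
  have hdw : (d₂₃ E).hom w = c := by
    have h1 : (d₂₃ E).hom η = 0 := hη.2
    have h2 : (d₂₃ E).hom ((d₁₂ E).hom s) = 0 := by
      have := congrArg (fun φ => φ.hom s) (d₁₂_comp_d₂₃ E)
      exact this
    rw [hw, map_sub, map_sub, hdy, h1, h2, sub_zero, sub_zero]
  refine ⟨m, hmC, ?_⟩
  funext x
  apply K.κ_inj
  have := congrFun (K.d₂₃_κ m) x
  rw [hκm, hdw] at this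
  exact this.symm

/-- **KUM-BOCK** (Kummer sequence, exactness at `H²(ℤ/p)`): a level 2-cocycle of `ℤ/p` whose
image in `E` is a level coboundary `d s` is the Bockstein of the level 1-cocycle `p • s`. -/
theorem nsmul_mem_Z1_of_κ_eq
    (z : U × U → ZMod p) (s : U → E) (hs : s ∈ C1 𝒩 E)
    (h : (fun x => K.κ (z x)) = (d₁₂ E).hom s) : p • s ∈ Z1 𝒩 E := by
  refine ⟨(C1 𝒩 E).nsmul_mem hs p, ?_⟩
  change (d₁₂ E).hom (p • s) = 0
  rw [map_nsmul, ← h]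
  funext x
  exact K.nsmul_κ (z x)

end Kummer

end Fermat.Agent.S55.helper90
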