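import Fermat.Agent.S55.helper90_Rec3ESeq

/-!
# S55 / REC3 (FUND): the abstract `E`-assembly, `p`-LOCAL version (helper90)

Same as `helper90_Rec3ESeq`, but WITHOUT any hypothesis on the index of the levels: the levels
only have finite index (`FinLevels`), and all the cohomological hypotheses are only required
"up to a multiplier prime to `p`".  This is the version which applies to the full `S`-tower
(`sLevels`), where only the `p`-part of the class group capitulates elementarily and where the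
class-formation results are only available for `p`-extensions (Sylow argument at finite level).

Setting: `0 → E → J → C` left exact (`X : ESeq E J C`), `X.GoodP 𝒩 p`:
levels of finite index, `J`, `C` discrete, cokernel of `π` torsion prime to `p`.

* `ESeq.GoodP.exists_of_π_mem_B2`, `.h3`, `.hasse`, `.hasse_of_torsion`, `.div2`;
* `ESeq.GoodP.h3_Tp` : `H³(U, ℤ/p) = 0`;
* `ESeq.GoodP.exists_Tp_of_J` : existence of classes of `H²(U, ℤ/p)` with prescribed image in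
  `H²(J)`.
-/

set_option autoImplicit false

open groupCohomology

noncomputable section

namespace Fermat.Agent.S55.helper90

/-- a natural-number Bezout relation for a number prime to `p` -/
lemma exists_mul_eq_one_add (p : ℕ) [Fact p.Prime] {m : ℕ} (hm : ¬ p ∣ m) :
    ∃ a b : ℕ, a * m = 1 + b * p := by
  have hp : p.Prime := Fact.out
  have hcop : Nat.Coprime m p := ((Nat.Prime.coprime_iff_not_dvd hp).2 hm).symm
  obtain ⟨a, -, ha⟩ := Nat.exists_mul_mod_eq_one_of_coprime hcop hp.one_lt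
  refine ⟨a, m * a / p, ?_⟩
  have := Nat.div_add_mod (m * a) p
  rw [ha] at this
  rw [mul_comm a m, mul_comm _ p]
  omega

/-- the product of two numbers prime to `p` is prime to `p` -/
lemma not_dvd_mul' (p : ℕ) [Fact p.Prime] {m n : ℕ} (hm : ¬ p ∣ m) (hn : ¬ p ∣ n) :
    ¬ p ∣ m * n := fun h =>
  ((Fact.out : p.Prime).dvd_mul.1 h).elim hm hn

section

variable {k U : Type} [CommRing k] [Group U]
variable {E J C : Rep.{0} k U} (X : ESeq E J C)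
variable (𝒩 : Levels U) (p : ℕ) [Fact p.Prime]

/-- the hypotheses of the abstract `p`-local `E`-assembly which do not involve cohomology -/
structure ESeq.GoodP : Prop where
  fin : FinLevels 𝒩
  discJ : IsDisc 𝒩 J
  discC : IsDisc 𝒩 C
  /-- the cokernel of `π` is torsion prime to `p` (capitulation) -/
  coker : ∀ c : C, ∃ m : ℕ, ¬ p ∣ m ∧ m • c ∈ X.D

variable {𝒩 p} {X}

/-- membership of `B2` is stable under the removal of a multiplier prime to `p` for classes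
killed by `p` -/
lemma mem_B2_of_nsmul_mem {A : Rep.{0} k U} {y : U × U → A} {m : ℕ} (hm : ¬ p ∣ m)
    (h1 : m • y ∈ B2 𝒩 A) (h2 : p • y ∈ B2 𝒩 A) : y ∈ B2 𝒩 A := by
  obtain ⟨a, b, hab⟩ := exists_mul_eq_one_add p hm
  have e : y = a • (m • y) - b • (p • y) := by
    rw [← mul_smul, ← mul_smul, hab, add_smul, one_smul]
    abel
  rw [e]
  exact Submodule.sub_mem _ ((B2 𝒩 A).nsmul_mem h1 a) ((B2 𝒩 A).nsmul_mem h2 b)

/-- same in degree 3 -/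
lemma mem_B3_of_nsmul_mem {A : Rep.{0} k U} {y : U × U × U → A} {m : ℕ} (hm : ¬ p ∣ m)
    (h1 : m • y ∈ B3 𝒩 A) (h2 : p • y ∈ B3 𝒩 A) : y ∈ B3 𝒩 A := by
  obtain ⟨a, b, hab⟩ := exists_mul_eq_one_add p hm
  have e : y = a • (m • y) - b • (p • y) := by
    rw [← mul_smul, ← mul_smul, hab, add_smul, one_smul]
    abel
  rw [e]
  exact Submodule.sub_mem _ ((B3 𝒩 A).nsmul_mem h1 a) ((B3 𝒩 A).nsmul_mem h2 b)

/-- Key step: a level cochain `j` of `J` (degree 2) with `π ∘ j = d t` for a level 1-cochain `t`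
of `C` can be corrected, after multiplication by a number prime to `p`, by a level coboundary so
that it comes from `E`. -/
lemma ESeq.GoodP.exists_correction (hG : X.GoodP 𝒩 p)
    (j : U × U → J) (hj : j ∈ C2 𝒩 J) (t : U → C) (ht : t ∈ C1 𝒩 C)
    (h : (fun x => X.π (j x)) = (d₁₂ C).hom t) :
    ∃ m : ℕ, ¬ p ∣ m ∧ ∃ s ∈ C1 𝒩 J, ∃ e ∈ C2 𝒩 E,
      (fun x => X.i (e x)) = m • j - (d₁₂ J).hom s := by
  have hfin := hG.fin
  obtain ⟨m, hm, hmt⟩ := exists_common_mult C X.D hG.coker (Set.range t)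
    (IsLev₁.finite_range hfin ht)
  set t₁ : U → C := m • t with ht₁
  have ht₁C : t₁ ∈ C1 𝒩 C := (C1 𝒩 C).nsmul_mem ht m
  set s : U → J := fun g => X.lift (t₁ g) with hs
  have hsC : s ∈ C1 𝒩 J := IsLev₁.comp' 𝒩 ht₁C X.lift
  have hπs : (fun g => X.π (s g)) = t₁ := by
    funext g
    exact X.π_lift (hmt _ ⟨g, rfl⟩)
  have hds : (d₁₂ J).hom s ∈ C2 𝒩 J := d₁₂_mem_C2 hfin hG.discJ hsC
  have hker : ∀ x, X.π ((m • j - (d₁₂ J).hom s) x) = 0 := by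
    intro x
    have e1 : X.π ((d₁₂ J).hom s x) = (d₁₂ C).hom t₁ x := by
      have := congrFun (d₁₂_map X.π_eq s) x
      rw [hπs] at this
      exact this.symm
    have e2 : (d₁₂ C).hom t₁ = m • (d₁₂ C).hom t := by
      rw [ht₁, map_nsmul]
    have e3 : X.π (j x) = (d₁₂ C).hom t x := congrFun h x
    rw [Pi.sub_apply, Pi.smul_apply, map_sub, map_nsmul, e1, e2, e3, Pi.smul_apply, sub_self]
  refine ⟨m, hm, s, hsC, fun x => X.unI ((m • j - (d₁₂ J).hom s) x), ?_, ?_⟩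
  · exact IsLev₂.comp' 𝒩 (Submodule.sub_mem _ ((C2 𝒩 J).nsmul_mem hj m) hds) X.unI
  · funext x
    exact X.i_unI (hker x)

/-- **(FE-3) existence, `p`-local**: a level 2-cocycle of `J` whose image in `C` is a level
coboundary is, up to a multiplier prime to `p`, cohomologous to the image of a level 2-cocycle
of `E`. -/
theorem ESeq.GoodP.exists_of_π_mem_B2 (hG : X.GoodP 𝒩 p)
    (j : U × U → J) (hj : j ∈ Z2 𝒩 J) (h : (fun x => X.π (j x)) ∈ B2 𝒩 C) :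
    ∃ m : ℕ, ¬ p ∣ m ∧ ∃ y ∈ Z2 𝒩 E, m • j - (fun x => X.i (y x)) ∈ B2 𝒩 J := by
  obtain ⟨t, ht, hdt⟩ := h
  obtain ⟨m, hm, s, hsC, e, heC, he⟩ := hG.exists_correction j hj.1 t ht hdt.symm
  refine ⟨m, hm, e, ⟨heC, ?_⟩, s, hsC, ?_⟩
  · change (d₂₃ E).hom e = 0
    funext x
    apply X.i_inj
    have := congrFun (d₂₃_map X.i_eq e) x
    rw [he, map_sub, map_nsmul] at this
    have h1 : (d₂₃ J).hom j = 0 := hj.2
    have h2 : (d₂₃ J).hom ((d₁₂ J).hom s) = 0 :=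
      congrArg (fun φ => φ.hom s) (d₁₂_comp_d₂₃ J)
    rw [h1, h2, smul_zero, sub_zero] at this
    exact this.symm.trans (map_zero X.i).symm
  · rw [he]
    abel

/-- **(FE-1), `p`-local**: `H³(J)(p) = 0` and `H²(J) → H²(C)` onto on `p`-parts imply
`H³(E)(p) = 0`. -/
theorem ESeq.GoodP.h3 (hG : X.GoodP 𝒩 p)
    (hJ3 : ∀ t ∈ Z3 𝒩 J, ∃ m : ℕ, ¬ p ∣ m ∧ m • t ∈ B3 𝒩 J)
    (honto : ∀ c ∈ Z2 𝒩 C, ∃ m : ℕ, ¬ p ∣ m ∧ ∃ j ∈ Z2 𝒩 J,
      m • c - (fun x => X.π (j x)) ∈ B2 𝒩 C)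
    (c : U × U × U → E) (hc : c ∈ Z3 𝒩 E) :
    ∃ m : ℕ, ¬ p ∣ m ∧ m • c ∈ B3 𝒩 E := by
  have hicC : (fun x => X.i (c x)) ∈ C3 𝒩 J := IsLev₃.comp' 𝒩 hc.1 X.i
  have hicZ : d₃₄ J (fun x => X.i (c x)) = 0 := by
    rw [d₃₄_map X.i_eq]
    have h0 : d₃₄ E c = 0 := hc.2
    funext x
    rw [h0]
    exact map_zero _
  obtain ⟨m₁, hm₁, j, hjC, hdj⟩ := hJ3 _ ⟨hicC, hicZ⟩
  -- `π ∘ j` is a level 2-cocycle of `C`
  have hπjZ : (fun x => X.π (j x)) ∈ Z2 𝒩 C := by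
    refine ⟨IsLev₂.comp' 𝒩 hjC X.π, ?_⟩
    change (d₂₃ C).hom _ = 0
    rw [d₂₃_map X.π_eq, hdj]
    funext x
    rw [Pi.smul_apply, map_nsmul, X.π_i (c x), smul_zero]
    rfl
  obtain ⟨m₂, hm₂, j₁, hj₁, t, ht, hdt⟩ := honto _ hπjZ
  have hj₂C : m₂ • j - j₁ ∈ C2 𝒩 J :=
    Submodule.sub_mem _ ((C2 𝒩 J).nsmul_mem hjC m₂) hj₁.1
  have hπ : (fun x => X.π ((m₂ • j - j₁) x)) = (d₁₂ C).hom t := by
    rw [hdt]
    funext x
    simp only [Pi.sub_apply, Pi.smul_apply, map_sub, map_nsmul]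
  obtain ⟨m₃, hm₃, s, hsC, e, heC, he⟩ := hG.exists_correction (m₂ • j - j₁) hj₂C t ht hπ
  refine ⟨m₃ * m₂ * m₁, not_dvd_mul' p (not_dvd_mul' p hm₃ hm₂) hm₁, e, heC, ?_⟩
  funext x
  apply X.i_inj
  have := congrFun (d₂₃_map X.i_eq e) x
  rw [he, map_sub, map_nsmul, map_sub, map_nsmul] at this
  have h1 : (d₂₃ J).hom j₁ = 0 := hj₁.2
  have h2 : (d₂₃ J).hom ((d₁₂ J).hom s) = 0 :=
    congrArg (fun φ => φ.hom s) (d₁₂_comp_d₂₃ J)
  rw [h1, h2, sub_zero, sub_zero, hdj] at this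
  rw [← this]
  simp only [Pi.smul_apply, map_nsmul, mul_smul]

/-- **(FE-4) Hasse principle for `E`, `p`-local**: if `H¹(C)(p) = 0`, a level 2-cochain of `E`
which becomes a level coboundary in `J` is, up to a multiplier prime to `p`, a level
coboundary. -/
theorem ESeq.GoodP.hasse (hG : X.GoodP 𝒩 p)
    (hC1 : ∀ c ∈ Z1 𝒩 C, ∃ m : ℕ, ¬ p ∣ m ∧ m • c ∈ B1 C)
    (y : U × U → E) (h : (fun x => X.i (y x)) ∈ B2 𝒩 J) :
    ∃ m : ℕ, ¬ p ∣ m ∧ m • y ∈ B2 𝒩 E := by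
  have hfin := hG.fin
  obtain ⟨s, hsC, hds⟩ := h
  -- `π ∘ s` is a level 1-cocycle of `C`
  have hπsZ : (fun g => X.π (s g)) ∈ Z1 𝒩 C := by
    refine ⟨IsLev₁.comp' 𝒩 hsC X.π, ?_⟩
    change (d₁₂ C).hom _ = 0
    rw [d₁₂_map X.π_eq, hds]
    funext x
    exact X.π_i (y x)
  obtain ⟨m₁, hm₁, c₀, hc₀⟩ := hC1 _ hπsZ
  obtain ⟨m₂, hm₂, j₀, hj₀⟩ := hG.coker c₀
  -- `π ∘ (m₂ m₁ s - d j₀) = 0`
  have hd₀J : (d₀₁ J).hom j₀ ∈ C1 𝒩 J := by
    obtain ⟨N, hN, hfix⟩ := hG.discJ j₀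
    refine ⟨N, hN, fun g s hs => ?_⟩
    simp only [d₀₁_hom_apply, map_mul, Module.End.mul_apply, hfix s hs]
  have hker : ∀ g, X.π (((m₂ * m₁) • s - (d₀₁ J).hom j₀) g) = 0 := by
    intro g
    have e1 : m₁ • X.π (s g) = C.ρ g c₀ - c₀ := by
      have := congrFun hc₀ g
      rw [d₀₁_hom_apply] at this
      exact this.symm
    have e2 : X.π ((d₀₁ J).hom j₀ g) = m₂ • (C.ρ g c₀ - c₀) := by
      rw [d₀₁_hom_apply, map_sub, X.π_eq g j₀, hj₀, smul_sub, map_nsmul]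
    rw [Pi.sub_apply, Pi.smul_apply, map_sub, map_nsmul, e2, mul_smul, e1, sub_self]
  set e : U → E := fun g => X.unI (((m₂ * m₁) • s - (d₀₁ J).hom j₀) g) with he
  have heC : e ∈ C1 𝒩 E :=
    IsLev₁.comp' 𝒩 (Submodule.sub_mem _ ((C1 𝒩 J).nsmul_mem hsC _) hd₀J) X.unI
  have hie : (fun g => X.i (e g)) = (m₂ * m₁) • s - (d₀₁ J).hom j₀ := by
    funext g
    exact X.i_unI (hker g)
  refine ⟨m₂ * m₁, not_dvd_mul' p hm₂ hm₁, e, heC, ?_⟩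
  funext x
  apply X.i_inj
  have := congrFun (d₁₂_map X.i_eq e) x
  rw [hie, map_sub, map_nsmul] at this
  have h2 : (d₁₂ J).hom ((d₀₁ J).hom j₀) = 0 :=
    congrArg (fun φ => φ.hom j₀) (d₀₁_comp_d₁₂ J)
  rw [h2, sub_zero, hds] at this
  rw [← this]
  simp only [Pi.smul_apply, map_nsmul]

/-- **(FE-4')**: for classes killed by `p` the Hasse principle is exact. -/
theorem ESeq.GoodP.hasse_of_torsion (hG : X.GoodP 𝒩 p)
    (hC1 : ∀ c ∈ Z1 𝒩 C, ∃ m : ℕ, ¬ p ∣ m ∧ m • c ∈ B1 C)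
    (y : U × U → E) (hp : p • y ∈ B2 𝒩 E) (h : (fun x => X.i (y x)) ∈ B2 𝒩 J) :
    y ∈ B2 𝒩 E := by
  obtain ⟨m, hm, hmy⟩ := hG.hasse hC1 y h
  exact mem_B2_of_nsmul_mem hm hmy hp

/-- **(FE-2), `p`-local input, exact output**: `H²(E)` is `p`-divisible if the kernel of
`H²(J) → H²(C)` is `p`-divisible up to multipliers prime to `p`. -/
theorem ESeq.GoodP.div2 (hG : X.GoodP 𝒩 p)
    (hC1 : ∀ c ∈ Z1 𝒩 C, ∃ m : ℕ, ¬ p ∣ m ∧ m • c ∈ B1 C)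
    (hdivJ : ∀ j ∈ Z2 𝒩 J, (fun x => X.π (j x)) ∈ B2 𝒩 C →
      ∃ m : ℕ, ¬ p ∣ m ∧ ∃ j' ∈ Z2 𝒩 J, (fun x => X.π (j' x)) ∈ B2 𝒩 C ∧
        m • j - p • j' ∈ B2 𝒩 J)
    (ξ : U × U → E) (hξ : ξ ∈ Z2 𝒩 E) :
    ∃ η ∈ Z2 𝒩 E, ξ - p • η ∈ B2 𝒩 E := by
  have hiξZ : (fun x => X.i (ξ x)) ∈ Z2 𝒩 J := by
    refine ⟨IsLev₂.comp' 𝒩 hξ.1 X.i, ?_⟩
    change (d₂₃ J).hom _ = 0
    rw [d₂₃_map X.i_eq]
    have h0 : (d₂₃ E).hom ξ = 0 := hξ.2
    funext x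
    rw [h0]
    exact map_zero _
  have hπ0 : (fun x => X.π (X.i (ξ x))) ∈ B2 𝒩 C := by
    have : (fun x => X.π (X.i (ξ x))) = 0 := by
      funext x
      exact X.π_i (ξ x)
    rw [this]
    exact Submodule.zero_mem _
  obtain ⟨m₁, hm₁, j', hj', hπj', hjj'⟩ := hdivJ _ hiξZ hπ0
  obtain ⟨m₂, hm₂, η, hη, hηj'⟩ := hG.exists_of_π_mem_B2 j' hj' hπj'
  -- `i (m₂ m₁ ξ - p η) = m₂ (m₁ i ξ - p j') + p (m₂ j' - i η)`
  have h1 : (fun x => X.i (((m₂ * m₁) • ξ - p • η) x)) ∈ B2 𝒩 J := by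
    have e : (fun x => X.i (((m₂ * m₁) • ξ - p • η) x)) =
        m₂ • (m₁ • (fun x => X.i (ξ x)) - p • j') + p • (m₂ • j' - fun x => X.i (η x)) := by
      funext x
      simp only [Pi.sub_apply, Pi.add_apply, Pi.smul_apply, map_sub, map_nsmul, smul_sub,
        mul_smul]
      rw [smul_comm m₂ p (j' x)]
      abel
    rw [e]
    exact Submodule.add_mem _ ((B2 𝒩 J).nsmul_mem hjj' m₂) ((B2 𝒩 J).nsmul_mem hηj' p)
  obtain ⟨m₃, hm₃, h3⟩ := hG.hasse hC1 _ h1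
  -- `m ξ - p η' ∈ B2` with `m = m₃ m₂ m₁`, `η' = m₃ η`; now Bezout
  set m := m₃ * (m₂ * m₁) with hm
  have hmp : ¬ p ∣ m := not_dvd_mul' p hm₃ (not_dvd_mul' p hm₂ hm₁)
  obtain ⟨a, b, hab⟩ := exists_mul_eq_one_add p hmp
  -- `a m ξ = ξ + b p ξ`, so `ξ - p (a m₃ η - b ξ) = a (m ξ - p m₃ η)`
  refine ⟨(a * m₃) • η - b • ξ, Submodule.sub_mem _ ((Z2 𝒩 E).nsmul_mem hη _)
    ((Z2 𝒩 E).nsmul_mem hξ _), ?_⟩
  have e : ξ - p • ((a * m₃) • η - b • ξ) = a • (m₃ • ((m₂ * m₁) • ξ - p • η)) := by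
    have h4 : (a * m) • ξ = ξ + (b * p) • ξ := by rw [hab, add_smul, one_smul]
    have h5 : a • (m₃ • ((m₂ * m₁) • ξ - p • η)) = (a * m) • ξ - (p * (a * m₃)) • η := by
      rw [smul_sub, smul_sub, ← mul_smul, ← mul_smul, ← mul_smul, ← mul_smul, hm,
        mul_comm p (a * m₃), mul_assoc a m₃ (m₂ * m₁)]
    rw [h5, h4, smul_sub, ← mul_smul, ← mul_smul, mul_comm p b]
    abel
  rw [e]
  exact (B2 𝒩 E).nsmul_mem h3 a

/-! ## Combination with the Kummer sequence -/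

/-- **FUND, `H³`, `p`-local inputs**: the abstract form of `H³(G_S, ℤ/p) = 0` (field `h3` = (I5)
of `helper59.BaseInput`). -/
theorem ESeq.GoodP.h3_Tp (hG : X.GoodP 𝒩 p) (K : KummerDatum E p) (hdE : IsDisc 𝒩 E)
    (hJ3 : ∀ t ∈ Z3 𝒩 J, ∃ m : ℕ, ¬ p ∣ m ∧ m • t ∈ B3 𝒩 J)
    (honto : ∀ c ∈ Z2 𝒩 C, ∃ m : ℕ, ¬ p ∣ m ∧ ∃ j ∈ Z2 𝒩 J,
      m • c - (fun x => X.π (j x)) ∈ B2 𝒩 C)
    (hC1 : ∀ c ∈ Z1 𝒩 C, ∃ m : ℕ, ¬ p ∣ m ∧ m • c ∈ B1 C)
    (hdivJ : ∀ j ∈ Z2 𝒩 J, (fun x => X.π (j x)) ∈ B2 𝒩 C →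
      ∃ m : ℕ, ¬ p ∣ m ∧ ∃ j' ∈ Z2 𝒩 J, (fun x => X.π (j' x)) ∈ B2 𝒩 C ∧
        m • j - p • j' ∈ B2 𝒩 J) :
    Z3 𝒩 (Tp U p) ≤ B3 𝒩 (Tp U p) :=
  h3_of_kummer 𝒩 K hG.fin hdE
    (fun c hc hpc => by
      obtain ⟨m, hm, hmc⟩ := hG.h3 hJ3 honto c hc
      refine mem_B3_of_nsmul_mem hm hmc ?_
      rw [hpc]
      exact Submodule.zero_mem _)
    (fun ξ hξ => hG.div2 hC1 hdivJ ξ hξ)

/-- **FUND, existence, `p`-local inputs**: every class of `H²(J)` killed by `p` which dies in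
`H²(C)` is the image of a class of `H²(U, ℤ/p)`. -/
theorem ESeq.GoodP.exists_Tp_of_J (hG : X.GoodP 𝒩 p) (K : KummerDatum E p) (hdE : IsDisc 𝒩 E)
    (hC1 : ∀ c ∈ Z1 𝒩 C, ∃ m : ℕ, ¬ p ∣ m ∧ m • c ∈ B1 C)
    (j : U × U → J) (hj : j ∈ Z2 𝒩 J) (hpj : p • j ∈ B2 𝒩 J)
    (hπj : (fun x => X.π (j x)) ∈ B2 𝒩 C) :
    ∃ z ∈ Z2 𝒩 (Tp U p), (fun x => X.i (K.κ (z x))) - j ∈ B2 𝒩 J := by
  have hfin := hG.fin
  obtain ⟨m, hm, y, hy, hyj⟩ := hG.exists_of_π_mem_B2 j hj hπj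
  -- `m' p y` is a coboundary of `E`
  have h1 : (fun x => X.i ((p • y) x)) ∈ B2 𝒩 J := by
    have e : (fun x => X.i ((p • y) x)) = m • (p • j) - p • (m • j - fun x => X.i (y x)) := by
      funext x
      simp only [Pi.sub_apply, Pi.smul_apply, map_nsmul, smul_sub]
      rw [smul_comm m p (j x)]
      abel
    rw [e]
    exact Submodule.sub_mem _ ((B2 𝒩 J).nsmul_mem hpj m) ((B2 𝒩 J).nsmul_mem hyj p)
  obtain ⟨m', hm', h2⟩ := hG.hasse hC1 _ h1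
  obtain ⟨a, b, hab⟩ := exists_mul_eq_one_add p (not_dvd_mul' p hm' hm)
  -- `y' = (a m') y` satisfies `j - i y' ∈ B2` and `p y' ∈ B2`
  set y' : U × U → E := (a * m') • y with hy'
  have hy'Z : y' ∈ Z2 𝒩 E := (Z2 𝒩 E).nsmul_mem hy _
  have hy'j : j - (fun x => X.i (y' x)) ∈ B2 𝒩 J := by
    have e : j - (fun x => X.i (y' x)) =
        (a * m') • (m • j - fun x => X.i (y x)) - b • (p • j) := by
      have h4 : (a * (m' * m)) • j = j + (b * p) • j := by rw [hab, add_smul, one_smul]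
      funext x
      have h4x := congrFun h4 x
      simp only [Pi.add_apply, Pi.smul_apply] at h4x
      simp only [hy', Pi.sub_apply, Pi.smul_apply, map_nsmul, smul_sub, ← mul_smul]
      rw [mul_assoc, h4x]
      abel
    rw [e]
    exact Submodule.sub_mem _ ((B2 𝒩 J).nsmul_mem hyj _) ((B2 𝒩 J).nsmul_mem hpj b)
  have hpy : p • y' ∈ B2 𝒩 E := by
    have e : p • y' = a • (m' • (p • y)) := by
      rw [hy', ← mul_smul, ← mul_smul, ← mul_smul]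
      congr 1
      ring
    rw [e]
    exact (B2 𝒩 E).nsmul_mem h2 a
  obtain ⟨z, hz, s, hsC, hys⟩ := exists_lift_of_torsion K 𝒩 hfin hdE y' hy'Z hpy
  refine ⟨z, hz, ?_⟩
  have hds : (fun x => X.i ((d₁₂ E).hom s x)) ∈ B2 𝒩 J :=
    ⟨fun g => X.i (s g), IsLev₁.comp' 𝒩 hsC X.i, d₁₂_map X.i_eq s⟩
  have e : (fun x => X.i (K.κ (z x))) - j =
      -(j - fun x => X.i (y' x)) - (fun x => X.i ((d₁₂ E).hom s x)) := by
    funext x
    have := congrFun hys x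
    simp only [Pi.add_apply] at this
    simp only [Pi.sub_apply, Pi.neg_apply, this, map_add]
    abel
  rw [e]
  exact Submodule.sub_mem _ (Submodule.neg_mem _ hy'j) hds

end

end Fermat.Agent.S55.helper90
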