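import Fermat.Agent.S55.helper57_LocTame
import Fermat.Agent.S55.helper1_Symbol

/-!
# S55 / LOC-5t (helper57): the tame formula, UNCONDITIONAL

`inv_chiClass_of_isUnram`, `inv_cyclicClass_of_isUnram` VERBATIM from `helper8_LocInterface2`
(section LOC5t), by plugging the landed symbol calculus LOC-5b (`helper1_Symbol`) into
`helper57_LocTame`.  (`finrank_nsmul_inv` is in `helper57_LocTame`; `exists_inv_eq` is
`exists_inv_eq_of_card` there, waiting for LOC-4 `card_H2`.)
-/

set_option autoImplicit false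
set_option linter.unusedSectionVars false

namespace Fermat.Agent.S55.helper57

open Fermat.Agent.S55 Fermat.Agent.S55.helper8 Fermat.Agent.S55.helper11 groupCohomology

/-- the symbol calculus LOC-5b holds (helper1) -/
theorem symbolCalc (K L : Type) [Field K] [Field L] [Algebra K L] [FiniteDimensional K L] :
    SymbolCalc K L where
  exists_dlogChar φ hφ := helper1.exists_dlogChar K L φ hφ
  cyclicClass_eq_chiClass φ hφ χ hχ b := helper1.cyclicClass_eq_chiClass K L φ hφ χ hχ b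
  chiClass_char_mul N _ χ χ' b := helper1.chiClass_char_mul K L N χ χ' b
  chiClass_cast N m hN hm χ χ' h b := helper1.chiClass_cast K L N m hN hm χ χ' h b

section LOC5t

variable (q : ℕ) [Fact q.Prime]

variable (I : LocInv) (K L : Type) [Field K] [Field L] [Algebra ℚ_[q] K] [Algebra ℚ_[q] L]
  [Algebra K L] [IsScalarTower ℚ_[q] K L] [FiniteDimensional ℚ_[q] K] [FiniteDimensional K L]
  [IsGalois K L]

/-- `inv (χ, b) = ord b · χ(Frob)` for unramified `L/K` -/
theorem inv_chiClass_of_isUnram (h : IsUnram q K L) (φ : L ≃ₐ[K] L) (hφ : IsFrob q K L φ)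
    (N : ℕ) [NeZero N] (χ : (L ≃ₐ[K] L) →* Multiplicative (ZMod N)) (b : Kˣ) :
    I.inv q K L (chiClass K L N χ b) =
      ((((ord q K b : ℚ) * ((Multiplicative.toAdd (χ φ)).val : ℚ)) / (N : ℚ) : ℚ) : QZ) :=
  inv_chiClass_of_isUnram_of q I K L (symbolCalc K L) h φ hφ N χ b

/-- `inv (χ_σ, b) = k · ord b / n` if `Frob = σ ^ k` -/
theorem inv_cyclicClass_of_isUnram (h : IsUnram q K L) (φ : L ≃ₐ[K] L) (hφ : IsFrob q K L φ)
    (σ : L ≃ₐ[K] L) (hσ : ∀ τ : L ≃ₐ[K] L, τ ∈ Subgroup.zpowers σ) (k : ℕ) (hk : φ = σ ^ k)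
    (b : Kˣ) :
    I.inv q K L (cyclicClass K L σ b) =
      ((((k : ℚ) * (ord q K b : ℚ)) / (Module.finrank K L : ℚ) : ℚ) : QZ) :=
  inv_cyclicClass_of_isUnram_of q I K L (symbolCalc K L) h φ hφ σ hσ k hk b

end LOC5t

end Fermat.Agent.S55.helper57
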