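import Fermat.Agent.S55.helper46_FG1

/-!
# S55 module FG, package FG1s: Shapiro's isomorphism made explicit, strong corestriction

Mathlib's `groupCohomology.coindIso : Hⁿ(G, Coind_S^G B) ≅ Hⁿ(S, B)` is defined abstractly through
projective resolutions.  We prove that it is the classical map: restriction to `S` followed by
evaluation at `1`,

  `fg1_coindIso_hom : (coindIso B n).hom = groupCohomology.map S.subtype (fg1Counit S B) n`.

Ingredients: naturality of `ProjectiveResolution.isoExt` in the resolution
(`fg1_isoExt_hom_naturality`), the comparison of bar resolutions `fg1BarMap : bar(S) ⟶ Res bar(G)`,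
and a cochain level computation (`fg1_shapiro_chain`).

Consequences: `fg1J_eq_res` (the transfer map of FG1 is the restriction map), `exists_cor`
(`cor ∘ res = [G : S]`), `res_injOn_pPrimary` (restriction to a Sylow `p`-subgroup is injective on
the `p`-primary part).
-/

set_option autoImplicit false

universe u

open CategoryTheory CategoryTheory.Limits

namespace Fermat.Agent.S55.helper46

section Categorical

variable {R : Type*} [Ring R] {C : Type*} [Category* C] [Abelian C] [Linear R C]

/-- The cochain map `Hom(Q, Y) ⟶ Hom(P, Y)` induced by a chain map `φ : P ⟶ Q`. -/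
noncomputable def fg1LinYonMap {P Q : ChainComplex C ℕ} (φ : P ⟶ Q) (Y : C) :
    Q.linearYonedaObj R Y ⟶ P.linearYonedaObj R Y :=
  (HomologicalComplex.unopFunctor _ _).map
    ((((linearYoneda R C).obj Y).rightOp.mapHomologicalComplex _).map φ).op

theorem fg1LinYonMap_f {P Q : ChainComplex C ℕ} (φ : P ⟶ Q) (Y : C) (i : ℕ) :
    (fg1LinYonMap (R := R) φ Y).f i = ((linearYoneda R C).obj Y).map (φ.f i).op := rfl

/-- Naturality of `homologyUnop`. -/
theorem fg1_homologyUnop_naturality {V : Type*} [Category* V] [Abelian V]
    {ι : Type*} {c : ComplexShape ι}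
    {K L : HomologicalComplex Vᵒᵖ c} (ψ : K ⟶ L) (i : ι) :
    HomologicalComplex.homologyMap ((HomologicalComplex.unopFunctor _ _).map ψ.op) i ≫
        (K.homologyUnop i).hom =
      (L.homologyUnop i).hom ≫ (HomologicalComplex.homologyMap ψ i).unop :=
  (congrArg Quiver.Hom.unop (HomologicalComplex.homologyOp_hom_naturality
    ((HomologicalComplex.unopFunctor _ _).map ψ.op) i)).symm

variable [EnoughProjectives C]

theorem fg1_isoExt_hom_eq {X : C} (P : ProjectiveResolution X) (n : ℕ) (Y : C) :
    (P.isoExt (R := R) n Y).hom =
      (P.isoLeftDerivedObj (((linearYoneda R C).obj Y).rightOp) n).inv.unop ≫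
        (HomologicalComplex.homologyUnop _ n).inv := rfl

set_option backward.isDefEq.respectTransparency false in
/-- `ProjectiveResolution.isoExt` is natural in the resolution. -/
theorem fg1_isoExt_hom_naturality {X : C} (P Q : ProjectiveResolution X)
    (φ : P.complex ⟶ Q.complex) (comm : φ.f 0 ≫ Q.π.f 0 = P.π.f 0) (n : ℕ) (Y : C) :
    (Q.isoExt (R := R) n Y).hom ≫ HomologicalComplex.homologyMap (fg1LinYonMap φ Y) n =
      (P.isoExt (R := R) n Y).hom := by
  have h1 := ProjectiveResolution.isoLeftDerivedObj_inv_naturality (𝟙 X) P Q φ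
    (comm.trans (Category.comp_id (P.π.f 0)).symm) (((linearYoneda R C).obj Y).rightOp) n
  have h1' : (P.isoLeftDerivedObj ((linearYoneda R C).obj Y).rightOp n).inv =
      HomologicalComplex.homologyMap
        ((((linearYoneda R C).obj Y).rightOp.mapHomologicalComplex _).map φ) n ≫
      (Q.isoLeftDerivedObj ((linearYoneda R C).obj Y).rightOp n).inv := by
    rw [CategoryTheory.Functor.map_id, Category.comp_id] at h1
    exact h1
  have h2 := fg1_homologyUnop_naturality
    ((((linearYoneda R C).obj Y).rightOp.mapHomologicalComplex _).map φ) n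
  rw [fg1_isoExt_hom_eq, fg1_isoExt_hom_eq, h1', unop_comp, Category.assoc, Category.assoc]
  congr 1
  rw [Iso.eq_comp_inv, Category.assoc]
  erw [h2]
  rw [Iso.inv_hom_id_assoc]

end Categorical

section GroupCoh

open groupCohomology Rep Finsupp TensorProduct

variable {k G : Type u} [CommRing k] [Group G]

set_option backward.isDefEq.respectTransparency false in
/-- `groupCohomologyIso A n P` computed through a comparison map from the bar resolution. -/
theorem fg1_groupCohomologyIso_hom_comp (A : Rep.{u} k G) (n : ℕ)
    (P : ProjectiveResolution (Rep.trivial k G k))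
    (φ : (barResolution k G).complex ⟶ P.complex)
    (comm : φ.f 0 ≫ P.π.f 0 = (barResolution k G).π.f 0) :
    (groupCohomologyIso A n P).hom ≫ HomologicalComplex.homologyMap (fg1LinYonMap φ A) n =
      HomologicalComplex.homologyMap (inhomogeneousCochainsIso A).hom n := by
  have h := fg1_isoExt_hom_naturality (R := k) (barResolution k G) P φ comm n A
  unfold groupCohomologyIso groupCohomologyIsoExt
  simp only [Iso.trans_hom, Category.assoc, Iso.symm_hom]
  rw [h]
  have h3 : (barResolution.extIso k G A n).inv ≫ ((barResolution k G).isoExt n A).hom = 𝟙 _ :=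
    ((barResolution k G).isoExt n A).inv_hom_id
  rw [h3, Category.comp_id]
  rfl

set_option backward.isDefEq.respectTransparency false in
theorem fg1_groupCohomologyIso_inv (A : Rep.{u} k G) (n : ℕ)
    (P : ProjectiveResolution (Rep.trivial k G k))
    (φ : (barResolution k G).complex ⟶ P.complex)
    (comm : φ.f 0 ≫ P.π.f 0 = (barResolution k G).π.f 0) :
    (groupCohomologyIso A n P).inv =
      HomologicalComplex.homologyMap (fg1LinYonMap φ A ≫ (inhomogeneousCochainsIso A).inv) n := by
  refine Iso.inv_ext ?_
  rw [HomologicalComplex.homologyMap_comp, ← Category.assoc,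
    fg1_groupCohomologyIso_hom_comp A n P φ comm, ← HomologicalComplex.homologyMap_comp,
    Iso.hom_inv_id, HomologicalComplex.homologyMap_id]
  rfl

set_option backward.defeqAttrib.useBackward true in
set_option backward.isDefEq.respectTransparency false in
theorem fg1_diagonalSuccIsoFree_inv_single (m : ℕ) (f : Fin m → G) (g : G) (r : k) :
    (diagonalSuccIsoFree k G m).inv.hom (single f (MonoidAlgebra.single g r)) =
      MonoidAlgebra.single (g • Fin.partialProd f) r := by
  simp only [diagonalSuccIsoFree, diagonalSuccIsoTensorTrivial, Iso.trans_inv, Rep.hom_comp,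
    Representation.IntertwiningMap.comp_apply]
  have step1 : (Hom.hom (leftRegularTensorTrivialIsoFree k G (Fin m → G)).inv)
      (single f (.single g r)) = .single g 1 ⊗ₜ[k] .single f r :=
    Representation.leftRegularTensorTrivialIsoFree_symm_apply_single_single f g r
  rw [step1]
  simp only [mkIso_inv, Representation.linearizeOfMulActionIso, Representation.Equiv.mk_symm,
    LinearEquiv.refl_symm, ConcreteCategory.hom_ofHom, Action.tensorObj_V, Action.trivial_V,
    Functor.mapIso_inv, tensor_V, tensor_ρ, Iso.symm_inv, Functor.Monoidal.μIso_hom, μ_hom,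
    MonoidalCategory.tensorIso_inv, Representation.linearizeTrivialIso, hom_tensorHom,
    Representation.IntertwiningMap.tensor_apply, Representation.Equiv.coe_toIntertwiningMap,
    Representation.Equiv.mk_apply, LinearEquiv.refl_apply]
  have key₁ := Representation.linearizeMap_single (k := k)
    (Action.diagonalSuccIsoTensorTrivial G m).inv (g, f) ((1 : k) * r)
  have key₂ := Representation.LinearizeMonoidal.μ_apply_single_single (k := k)
    (X := Action.leftRegular G) (Y := Action.trivial G (Fin m → G)) g f 1 r
  exact ((congrArg (fun z => (Representation.linearizeMap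
    (Action.diagonalSuccIsoTensorTrivial G m).inv) z) key₂).trans key₁).trans (by simp)

theorem fg1_ε_single (y : Fin 1 → G) (r : k) :
    (standardComplex.ε k G).hom (MonoidAlgebra.single y r) = r := by
  simp [standardComplex.ε]

/-- Value of the augmentation of the bar resolution on basis elements. -/
theorem fg1_barResolution_π_single (x : Fin 0 → G) (g : G) (r : k) :
    ((barResolution k G).π.f 0).hom (single x (MonoidAlgebra.single g r)) = r := by
  change (standardComplex.ε k G).hom
    ((diagonalSuccIsoFree k G 0).inv.hom (single x (MonoidAlgebra.single g r))) = r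
  rw [fg1_diagonalSuccIsoFree_inv_single]
  exact fg1_ε_single _ r

variable (S : Subgroup G)

/-- The comparison `k[S][Sⁿ] ⟶ Res_S k[G][Gⁿ]` of bar resolutions, degree `n`. -/
noncomputable def fg1BarIncl (n : ℕ) :
    free k S (Fin n → S) ⟶ res S.subtype (free k G (Fin n → G)) :=
  freeLift k S (res S.subtype (free k G (Fin n → G)))
    (fun s : Fin n → S => (single (fun i => (s i : G)) (MonoidAlgebra.single (1 : G) (1 : k)) :
      (Fin n → G) →₀ MonoidAlgebra k G))

theorem fg1BarIncl_single (n : ℕ) (x : Fin n → S) (s : S) (r : k) :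
    (fg1BarIncl (k := k) S n).hom (single x (MonoidAlgebra.single s r)) =
      (single (fun i => (x i : G)) (MonoidAlgebra.single (s : G) r) :
        (Fin n → G) →₀ MonoidAlgebra k G) := by
  simp [fg1BarIncl]

theorem fg1BarIncl_comm (n : ℕ) :
    fg1BarIncl (k := k) S (n + 1) ≫ (resFunctor S.subtype).map (barComplex.d k G n) =
      barComplex.d k S n ≫ fg1BarIncl S n := by
  refine free_ext k S _ _ _ fun x => ?_
  simp only [Rep.hom_comp, Representation.IntertwiningMap.comp_apply]
  rw [barComplex.d_single (k := k), fg1BarIncl_single]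
  change (barComplex.d k G n).hom
    (single (fun i => ((x i : S) : G)) (MonoidAlgebra.single (1 : G) (1 : k))) = _
  rw [barComplex.d_single (k := k), map_add, map_sum, fg1BarIncl_single]
  congr 1
  refine Finset.sum_congr rfl fun j _ => ?_
  rw [fg1BarIncl_single]
  have := Fin.comp_contractNth (· * ·) (· * ·) (f := ((↑) : S → G))
    (fun a b => by simp) j x
  have h2 : (fun i => ((j.contractNth (fun x1 x2 => x1 * x2) x i : S) : G)) =
      j.contractNth (fun x1 x2 => x1 * x2) (fun i => ((x i : S) : G)) := this
  rw [h2]
  rfl

/-- The comparison chain map `bar(S) ⟶ Res_S bar(G)`. -/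
noncomputable def fg1BarMap :
    barComplex k S ⟶ ((resFunctor S.subtype).mapHomologicalComplex _).obj (barComplex k G) where
  f n := fg1BarIncl S n
  comm' i j hij := by
    obtain rfl : j + 1 = i := hij
    rw [Functor.mapHomologicalComplex_obj_d, barComplex.d_def, barComplex.d_def]
    exact fg1BarIncl_comm S j

theorem fg1BarMap_f (n : ℕ) : (fg1BarMap (k := k) S).f n = fg1BarIncl S n := rfl

/-- `Res_S` of the bar resolution of `G`, as a projective resolution of the trivial
`S`-representation. -/
noncomputable abbrev fg1ResBar : ProjectiveResolution (Rep.trivial k S k) :=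
  (resFunctor S.subtype).mapProjectiveResolution (barResolution k G)

theorem fg1BarMap_comm :
    (fg1BarMap (k := k) S).f 0 ≫ (fg1ResBar (k := k) S).π.f 0 = (barResolution k S).π.f 0 := by
  refine free_ext k S _ _ _ fun x => ?_
  change ((fg1ResBar S).π.f 0).hom ((fg1BarIncl S 0).hom (single x (MonoidAlgebra.single 1 1))) =
    ((barResolution k S).π.f 0).hom (single x (MonoidAlgebra.single 1 1))
  rw [fg1BarIncl_single, fg1_barResolution_π_single]
  have h : ∀ v, ((fg1ResBar (k := k) S).π.f 0).hom v = ((barResolution k G).π.f 0).hom v := by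
    intro v
    simp [fg1ResBar]
    rfl
  exact (h _).trans (fg1_barResolution_π_single _ _ _)

/-- The counit `Res_S Coind_S^G B ⟶ B`, evaluation at `1`. -/
noncomputable def fg1Counit (B : Rep.{u} k S) : res S.subtype (coind S.subtype B) ⟶ B :=
  (resCoindAdjunction k S.subtype).counit.app B

theorem fg1Counit_apply (B : Rep.{u} k S) (f : coind S.subtype B) :
    (fg1Counit S B).hom f = f.1 1 := rfl

/-- Chain-level form of Shapiro's isomorphism. -/
theorem fg1_shapiro_chain (B : Rep.{u} k S) :
    (inhomogeneousCochainsIso (coind S.subtype B)).hom ≫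
      (linearYonedaObjResProjectiveResolutionIso (barResolution k G) B).inv ≫
      fg1LinYonMap (fg1BarMap S) B ≫ (inhomogeneousCochainsIso B).inv =
    cochainsMap S.subtype (fg1Counit S B) := by
  ext i f x
  change (freeLiftLEquiv k S (Fin i → S) B)
    ((fg1BarIncl S i) ≫ (resCoindHomEquiv S.subtype _ B).symm
      ((freeLiftLEquiv k G (Fin i → G) (coind S.subtype B)).symm f)) x = (f (fun j => (x j : G))).1 1
  have h1 : ∀ (ψ : free k S (Fin i → S) ⟶ B),
      (freeLiftLEquiv k S (Fin i → S) B) ψ x = ψ.hom (single x (MonoidAlgebra.single 1 1)) := by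
    intro ψ
    rfl
  rw [h1]
  change ((resCoindHomEquiv S.subtype _ B).symm
      ((freeLiftLEquiv k G (Fin i → G) (coind S.subtype B)).symm f)).hom
      ((fg1BarIncl S i).hom (single x (MonoidAlgebra.single 1 1))) = _
  rw [fg1BarIncl_single]
  simp only [resCoindHomEquiv]
  change ((Representation.freeLift (Representation.coind S.subtype B.ρ) f)
    (single (fun j => ((x j : S) : G)) (MonoidAlgebra.single (1 : G) (1 : k)))).1 1 = _
  rw [Representation.freeLift_single_single]
  simp

set_option backward.isDefEq.respectTransparency false in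
/-- **Shapiro's isomorphism is restriction followed by evaluation at `1`.** -/
theorem fg1_coindIso_hom (B : Rep.{u} k S) (n : ℕ) :
    (groupCohomology.coindIso B n).hom =
      groupCohomology.map S.subtype (fg1Counit S B) n := by
  have hinv := fg1_groupCohomologyIso_inv B n (fg1ResBar S) (fg1BarMap S) (fg1BarMap_comm S)
  have hchain := fg1_shapiro_chain S B
  unfold groupCohomology.coindIso
  simp only [Iso.trans_hom, Functor.mapIso_hom, Iso.symm_hom]
  erw [hinv]
  rw [HomologicalComplex.homologyFunctor_map, ← HomologicalComplex.homologyMap_comp]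
  unfold groupCohomology.map
  rw [← hchain]
  simp only [Category.assoc]

end GroupCoh

section Strong

open groupCohomology Rep

variable {k G : Type u} [CommRing k] [Group G]

/-- The transfer map `fg1J` IS the restriction map. -/
theorem fg1J_eq_res (S : Subgroup G) (A : Rep.{u} k G) (n : ℕ) :
    fg1J S A n = groupCohomology.map S.subtype (𝟙 (res S.subtype A)) n := by
  unfold fg1J
  rw [fg1_coindIso_hom]
  have h := groupCohomology.map_comp (MonoidHom.id G) S.subtype (fg1Unit S A)
    (fg1Counit S (res S.subtype A)) n
  rw [← h]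
  refine groupCohomology.map_congr rfl ?_ n
  ext a
  change ((fg1Unit S A).hom a).1 1 = a
  rw [fg1Unit_apply]
  simp

/-- FG1.c (transfer, strong form): corestriction `c` with `c ∘ res = [G : S]`. -/
theorem exists_cor (S : Subgroup G) [S.FiniteIndex] (A : Rep.{u} k G) (n : ℕ) :
    ∃ c : groupCohomology (res S.subtype A) n ⟶ groupCohomology A n,
      ∀ x : groupCohomology A n,
        c (groupCohomology.map S.subtype (𝟙 (res S.subtype A)) n x) = S.index • x := by
  refine ⟨fg1C S A n, fun x => ?_⟩
  rw [← fg1J_eq_res]
  exact fg1C_fg1J_apply S A n x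

/-- If `[G : S] • x = 0` has only the trivial solution on the `p`-part... : restriction to a
Sylow `p`-subgroup is injective on `p`-primary elements. -/
theorem res_injOn_pPrimary [Finite G] (A : Rep.{u} k G) (n p : ℕ) [Fact p.Prime]
    (P : Sylow p G) (x : groupCohomology A n) (hx : ∃ m : ℕ, p ^ m • x = 0)
    (h : groupCohomology.map (P : Subgroup G).subtype (𝟙 (res (P : Subgroup G).subtype A)) n x
      = 0) : x = 0 := by
  obtain ⟨c, hc⟩ := exists_cor (P : Subgroup G) A n
  obtain ⟨m, hm⟩ := hx
  have h1 : (P : Subgroup G).index • x = 0 := by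
    rw [← hc x, h, map_zero]
  have hcop : Nat.Coprime (p ^ m) (P : Subgroup G).index :=
    Nat.Coprime.pow_left m ((Nat.Prime.coprime_iff_not_dvd Fact.out).2 P.not_dvd_index)
  have hd1 : addOrderOf x ∣ p ^ m := addOrderOf_dvd_of_nsmul_eq_zero hm
  have hd2 : addOrderOf x ∣ (P : Subgroup G).index := addOrderOf_dvd_of_nsmul_eq_zero h1
  have : addOrderOf x = 1 := Nat.eq_one_of_dvd_coprimes hcop hd1 hd2
  exact AddMonoid.addOrderOf_eq_one_iff.mp this

/-- Restriction to a subgroup of index prime to the order of `x` detects `x`. -/
theorem res_eq_zero_imp_of_coprime (S : Subgroup G) [S.FiniteIndex] (A : Rep.{u} k G) (n : ℕ)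
    (x : groupCohomology A n) (m : ℕ) (hm : m • x = 0) (hcop : Nat.Coprime m S.index)
    (h : groupCohomology.map S.subtype (𝟙 (res S.subtype A)) n x = 0) : x = 0 := by
  obtain ⟨c, hc⟩ := exists_cor S A n
  have h1 : S.index • x = 0 := by
    rw [← hc x, h, map_zero]
  have hd1 : addOrderOf x ∣ m := addOrderOf_dvd_of_nsmul_eq_zero hm
  have hd2 : addOrderOf x ∣ S.index := addOrderOf_dvd_of_nsmul_eq_zero h1
  have : addOrderOf x = 1 := Nat.eq_one_of_dvd_coprimes hcop hd1 hd2
  exact AddMonoid.addOrderOf_eq_one_iff.mp this

end Strong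

end Fermat.Agent.S55.helper46
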