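import Mathlib

/-!
# S55-FG2 (part 2): the dimension-shifting module `Fun(G, A)`

For a representation `A` of `G` we embed `A` into `Fun(G, A)` (functions with the right
translation action) and prove

* `Fun(Γ, V)` is acyclic (Shapiro's lemma from Mathlib);
* the restriction of `Fun(G, V)` to a subgroup `S` is of the form `Fun(S, V')`, hence acyclic;
* the `S`-invariants of `Fun(G, V)` are `Fun(G ⧸ S, V)`, hence acyclic;
* taking `S`-invariants preserves short exact sequences whose left term has trivial `H¹(S, -)`.
-/

set_option autoImplicit false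
set_option linter.style.haveILetI false

universe u

open CategoryTheory CategoryTheory.Limits groupCohomology Rep

namespace Fermat.Agent.S55.helper61

section FunRep

variable (k : Type u) [CommRing k] (Γ : Type u) [Group Γ] (V : Type u) [AddCommGroup V]
  [Module k V]

/-- The right-translation representation of `Γ` on functions `Γ → V`:
`(g • f) x = f (x * g)`. -/
def funRepr : Representation k Γ (Γ → V) where
  toFun g := LinearMap.funLeft k V (· * g)
  map_one' := by ext f x; simp
  map_mul' g h := by ext f x; simp [mul_assoc]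

variable {k Γ V} in
@[simp] lemma funRepr_apply (g : Γ) (f : Γ → V) (x : Γ) : funRepr k Γ V g f x = f (x * g) := rfl

/-- `funRepr` as an object of `Rep k Γ`. -/
noncomputable abbrev funRep : Rep.{u} k Γ := Rep.of (funRepr k Γ V)

end FunRep

section Iso

variable {k G : Type u} [CommRing k] [Group G]

lemma isIso_of_bijective_hom {A B : Rep.{u} k G} (f : A ⟶ B) (h : Function.Bijective f.hom) :
    IsIso f := by
  haveI := (Rep.mono_iff_injective f).2 h.1
  haveI := (Rep.epi_iff_surjective f).2 h.2
  exact isIso_of_mono_of_epi f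

lemma isZero_groupCohomology_of_bijective {A B : Rep.{u} k G} (f : A ⟶ B)
    (h : Function.Bijective f.hom) (n : ℕ) (hB : IsZero (groupCohomology B n)) :
    IsZero (groupCohomology A n) := by
  haveI := isIso_of_bijective_hom f h
  exact hB.of_iso ((functor k G n).mapIso (asIso f))

lemma isZero_groupCohomology_of_bijective' {A B : Rep.{u} k G} (f : A ⟶ B)
    (h : Function.Bijective f.hom) (n : ℕ) (hA : IsZero (groupCohomology A n)) :
    IsZero (groupCohomology B n) := by
  haveI := isIso_of_bijective_hom f h
  exact hA.of_iso ((functor k G n).mapIso (asIso f)).symm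

end Iso

section Acyclic

variable (k : Type u) [CommRing k] (Γ : Type u) [Group Γ] (V : Type u) [AddCommGroup V]
  [Module k V]

/-- The comparison map from `funRep` to the representation coinduced from the trivial subgroup. -/
noncomputable def funRepToCoind :
    funRep k Γ V ⟶ coind (⊥ : Subgroup Γ).subtype (Rep.trivial k (⊥ : Subgroup Γ) V) :=
  Rep.ofHom
    { toFun := fun f => ⟨f, fun g h => by
        have hg : (g : Γ) = 1 := Subgroup.mem_bot.1 g.2
        simp [hg]⟩
      map_add' := fun _ _ => rfl
      map_smul' := fun _ _ => rfl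
      isIntertwining' := fun g => by ext f x; rfl }

lemma funRepToCoind_bijective : Function.Bijective (funRepToCoind k Γ V).hom := by
  constructor
  · intro f g hfg
    exact congrArg Subtype.val hfg
  · intro f
    exact ⟨f.1, Subtype.ext rfl⟩

/-- `Fun(Γ, V)` is acyclic. -/
theorem isZero_groupCohomology_funRep (n : ℕ) :
    IsZero (groupCohomology (funRep k Γ V) (n + 1)) :=
  isZero_groupCohomology_of_bijective _ (funRepToCoind_bijective k Γ V) _ <|
    (isZero_groupCohomology_succ_of_subsingleton _ n).of_iso (coindIso _ (n + 1))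

end Acyclic

section ResIso

variable (k : Type u) [CommRing k] {G : Type u} [Group G] (S : Subgroup G) (V : Type u)
  [AddCommGroup V] [Module k V]

lemma out_inv_mul_mem (g : G) : (QuotientGroup.mk (s := S) g).out⁻¹ * g ∈ S := by
  rw [← QuotientGroup.eq]
  exact QuotientGroup.out_eq' _

/-- The comparison map `Res_S (Fun(G, V)) ⟶ Fun(S, Fun(G ⧸ S, V))`. -/
noncomputable def resFunRepHom :
    res S.subtype (funRep k G V) ⟶ funRep k S (G ⧸ S → V) :=
  Rep.ofHom
    { toFun := fun f s c => f (c.out * s)
      map_add' := fun _ _ => rfl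
      map_smul' := fun _ _ => rfl
      isIntertwining' := fun t => by
        ext f s c
        show f (c.out * s * t) = f (c.out * ((s * t : S) : G))
        rw [Subgroup.coe_mul, mul_assoc] }

lemma resFunRepHom_apply (f : G → V) (s : S) (c : G ⧸ S) :
    (resFunRepHom k S V).hom f s c = f (c.out * s) := rfl

lemma resFunRepHom_bijective : Function.Bijective (resFunRepHom k S V).hom := by
  constructor
  · intro f f' h
    funext g
    have : f ((QuotientGroup.mk (s := S) g).out * ((QuotientGroup.mk (s := S) g).out⁻¹ * g)) =
        f' ((QuotientGroup.mk (s := S) g).out * ((QuotientGroup.mk (s := S) g).out⁻¹ * g)) :=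
      congrFun (congrFun h ⟨_, out_inv_mul_mem S g⟩) (QuotientGroup.mk g)
    simpa using this
  · intro F
    refine ⟨fun g => F ⟨_, out_inv_mul_mem S g⟩ (QuotientGroup.mk g), ?_⟩
    funext s c
    rw [resFunRepHom_apply]
    have key : ∀ (c' : G ⧸ S) (hc : c' = c) (hm : c'.out⁻¹ * (c.out * s) ∈ S),
        F ⟨c'.out⁻¹ * (c.out * s), hm⟩ c' = F s c := by
      intro c' hc hm
      subst hc
      congr 1
      exact Subtype.ext (by simp)
    have hc : (QuotientGroup.mk (c.out * (s : G)) : G ⧸ S) = c := by
      rw [QuotientGroup.mk_mul_of_mem _ s.2]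
      exact QuotientGroup.out_eq' _
    exact key _ hc _

/-- The restriction of `Fun(G, V)` to a subgroup is acyclic. -/
theorem isZero_groupCohomology_res_funRep (n : ℕ) :
    IsZero (groupCohomology (res S.subtype (funRep k G V)) (n + 1)) :=
  isZero_groupCohomology_of_bijective _ (resFunRepHom_bijective k S V) _
    (isZero_groupCohomology_funRep k S (G ⧸ S → V) n)

end ResIso

section InvIso

variable (k : Type u) [CommRing k] {G : Type u} [Group G] (S : Subgroup G) [S.Normal]
  (V : Type u) [AddCommGroup V] [Module k V]

/-- The comparison map `Fun(G ⧸ S, V) ⟶ Fun(G, V)^S`. -/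
noncomputable def invFunRepHom :
    funRep k (G ⧸ S) V ⟶ (funRep k G V).quotientToInvariants S :=
  Rep.ofHom
    { toFun := fun F => ⟨fun g => F (QuotientGroup.mk g), fun s => by
        funext x
        show F (QuotientGroup.mk (x * (s : G))) = F (QuotientGroup.mk x)
        rw [QuotientGroup.mk_mul_of_mem _ s.2]⟩
      map_add' := fun _ _ => rfl
      map_smul' := fun _ _ => rfl
      isIntertwining' := fun c => by
        induction c using QuotientGroup.induction_on with | H g =>
        ext F x
        rfl }

lemma invFunRepHom_apply (F : G ⧸ S → V) (g : G) :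
    ((invFunRepHom k S V).hom F).1 g = F (QuotientGroup.mk g) := rfl

lemma invFunRepHom_bijective : Function.Bijective (invFunRepHom k S V).hom := by
  constructor
  · intro F F' h
    funext c
    induction c using QuotientGroup.induction_on with | H g =>
    exact congrFun (congrArg Subtype.val h) g
  · intro f
    refine ⟨fun c => f.1 c.out, Subtype.ext ?_⟩
    funext g
    rw [invFunRepHom_apply]
    have hm := out_inv_mul_mem S g
    have hs : f.1 ((QuotientGroup.mk (s := S) g).out *
        ((QuotientGroup.mk (s := S) g).out⁻¹ * g)) = f.1 (QuotientGroup.mk (s := S) g).out :=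
      congrFun (f.2 ⟨_, hm⟩) (QuotientGroup.mk (s := S) g).out
    rw [mul_inv_cancel_left] at hs
    exact hs.symm

/-- The `S`-invariants of `Fun(G, V)` form an acyclic `G ⧸ S`-representation. -/
theorem isZero_groupCohomology_inv_funRep (n : ℕ) :
    IsZero (groupCohomology ((funRep k G V).quotientToInvariants S) (n + 1)) :=
  isZero_groupCohomology_of_bijective' _ (invFunRepHom_bijective k S V) _
    (isZero_groupCohomology_funRep k (G ⧸ S) V n)

end InvIso

section Invariants

variable {k G : Type u} [CommRing k] [Group G]

/-- If `H¹(G, A) = 0` then every 1-cocycle is a coboundary. -/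
lemma exists_eq_sub_of_isZero_H1 (A : Rep.{u} k G) (h1 : IsZero (groupCohomology A 1))
    (x : G → A) (hx : ∀ g h, x (g * h) = A.ρ g (x h) + x g) :
    ∃ a : A, ∀ g, x g = A.ρ g a - a := by
  haveI := ModuleCat.subsingleton_of_isZero h1
  have h0 : H1π A ⟨x, (mem_cocycles₁_iff x).2 hx⟩ = 0 := Subsingleton.elim _ _
  obtain ⟨a, ha⟩ := (H1π_eq_zero_iff _).1 h0
  exact ⟨a, fun g => (congrFun ha g).symm⟩

/-- The short complex of `S`-invariants (as `G ⧸ S`-representations) of a short complex of
`G`-representations. -/
noncomputable def invariantsSC (S : Subgroup G) [S.Normal] (X : ShortComplex (Rep.{u} k G)) :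
    ShortComplex (Rep.{u} k (G ⧸ S)) :=
  ShortComplex.mk
    ((quotientToInvariantsFunctor k S).map X.f) ((quotientToInvariantsFunctor k S).map X.g) <| by
    rw [← Functor.map_comp, X.zero]
    ext x
    rfl

/-- Taking `S`-invariants preserves short exact sequences `0 → X₁ → X₂ → X₃ → 0` with
`H¹(S, X₁) = 0`. -/
lemma invariantsSC_shortExact (S : Subgroup G) [S.Normal] {X : ShortComplex (Rep.{u} k G)}
    (hX : X.ShortExact) (h1 : IsZero (groupCohomology (res S.subtype X.X₁) 1)) :
    (invariantsSC S X).ShortExact := by
  have hf : Function.Injective X.f.hom := (Rep.mono_iff_injective _).1 hX.mono_f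
  have hg : Function.Surjective X.g.hom := (Rep.epi_iff_surjective _).1 hX.epi_g
  have hex : ∀ y, X.g.hom y = 0 → ∃ x, X.f.hom x = y :=
    (ShortComplex.moduleCat_exact_iff _).1 (hX.exact.map (forget₂ (Rep k G) (ModuleCat k)))
  have hgf : ∀ x, X.g.hom (X.f.hom x) = 0 := fun x => by
    have h0 : (X.f ≫ X.g).hom x = (0 : X.X₁ ⟶ X.X₃).hom x := by rw [X.zero]
    exact h0
  refine ShortComplex.ShortExact.mk' ?_ ?_ ?_
  · refine (forget₂ (Rep k (G ⧸ S)) (ModuleCat k)).reflects_exact_of_faithful _ <|
      (ShortComplex.moduleCat_exact_iff _).2 fun y hy => ?_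
    have hy' : X.g.hom (y : X.X₂.quotientToInvariants S).1 = 0 := congrArg Subtype.val hy
    obtain ⟨x, hx⟩ := hex _ hy'
    have hxinv : x ∈ Representation.invariants (X.X₁.ρ.comp S.subtype) := fun s => by
      apply hf
      have h2 := (y : X.X₂.quotientToInvariants S).2 s
      rw [← hx] at h2
      rw [← h2]
      exact Rep.hom_comm_apply X.f (s : G) x
    exact ⟨(⟨x, hxinv⟩ : X.X₁.quotientToInvariants S), Subtype.ext hx⟩
  · refine (Rep.mono_iff_injective _).2 fun a b h => ?_
    apply Subtype.ext
    apply hf
    exact congrArg Subtype.val h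
  · refine (Rep.epi_iff_surjective _).2 fun z => ?_
    obtain ⟨y, hy⟩ := hg z.1
    have hker : ∀ s : S, ∃ x, X.f.hom x = X.X₂.ρ s y - y := fun s => by
      apply hex
      rw [map_sub, Rep.hom_comm_apply, hy]
      have := z.2 s
      exact sub_eq_zero.2 this
    choose c hc using hker
    have hcoc : ∀ s t : S, c (s * t) = (res S.subtype X.X₁).ρ s (c t) + c s := fun s t => by
      apply hf
      rw [map_add, hc]
      have e1 : X.f.hom ((res S.subtype X.X₁).ρ s (c t)) = X.X₂.ρ s (X.f.hom (c t)) :=
        Rep.hom_comm_apply X.f (s : G) (c t)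
      rw [e1, hc, hc, Subgroup.coe_mul, map_mul, Module.End.mul_apply, map_sub]
      abel
    obtain ⟨a, ha⟩ := exists_eq_sub_of_isZero_H1 _ h1 c hcoc
    have hinv : y - X.f.hom a ∈ Representation.invariants (X.X₂.ρ.comp S.subtype) := fun s => by
      show X.X₂.ρ s (y - X.f.hom a) = y - X.f.hom a
      have e2 : X.f.hom ((res S.subtype X.X₁).ρ s a) = X.X₂.ρ s (X.f.hom a) :=
        Rep.hom_comm_apply X.f (s : G) a
      have e3 := hc s
      rw [ha s, map_sub, e2] at e3
      rw [map_sub]
      have e4 : X.X₂.ρ s y = X.X₂.ρ s (X.f.hom a) - X.f.hom a + y := by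
        rw [e3]; abel
      rw [e4]; abel
    refine ⟨(⟨y - X.f.hom a, hinv⟩ : X.X₂.quotientToInvariants S), Subtype.ext ?_⟩
    show X.g.hom (y - X.f.hom a) = z.1
    rw [map_sub, hgf, sub_zero, hy]

end Invariants

section Star

variable {k G : Type u} [CommRing k] [Group G] (A : Rep.{u} k G)

/-- The embedding `A ⟶ Fun(G, A)`, `a ↦ (x ↦ x • a)`. -/
noncomputable def starι : A ⟶ funRep k G A.V :=
  Rep.ofHom (ρ := A.ρ) (σ := funRepr k G A.V)
    { toFun := fun a x => A.ρ x a
      map_add' := fun a b => by funext x; simp
      map_smul' := fun c a => by funext x; simp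
      isIntertwining' := fun g => by ext a x; simp }

lemma starι_apply (a : A) (x : G) : (starι A).hom a x = A.ρ x a := rfl

lemma starι_injective : Function.Injective (starι A).hom := fun a b h => by
  have h1 : A.ρ 1 a = A.ρ 1 b := congrFun h 1
  simpa using h1

instance starι_mono : Mono (starι A) := (Rep.mono_iff_injective _).2 (starι_injective A)

/-- The dimension-shifting short exact sequence `0 → A → Fun(G, A) → A' → 0`. -/
noncomputable def starSC : ShortComplex (Rep.{u} k G) :=
  ShortComplex.mk (starι A) (cokernel.π (starι A)) (cokernel.condition _)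

lemma starSC_shortExact : (starSC A).ShortExact :=
  ShortComplex.ShortExact.mk' (ShortComplex.exact_cokernel _) (starι_mono A)
    (inferInstanceAs (Epi (cokernel.π (starι A))))

end Star

end Fermat.Agent.S55.helper61
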