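import Fermat.Agent.S55.helper61_FG2Delta
import Fermat.Agent.S55.helper61_FG2Star

/-!
# S55-FG2: inflation–restriction in higher degrees (dimension shifting)

Main results (for `S ≤ G` normal, `A : Rep k G`):

* `infH_injective_of_isZero`, `infH_resH_exact_of_isZero`: if `Hⁱ(S, A) = 0` for `1 ≤ i ≤ n`
  then `0 → Hⁿ⁺¹(G ⧸ S, A^S) → Hⁿ⁺¹(G, A) → Hⁿ⁺¹(S, A)` is exact;
* the special cases `infH_two_injective`, `infH_resH_two_exact`, `infH_three_injective`,
  `infH_resH_three_exact` of the FG interface.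
-/

set_option autoImplicit false
set_option linter.style.haveILetI false

universe u

open CategoryTheory CategoryTheory.Limits groupCohomology Rep

namespace Fermat.Agent.S55.helper61

variable {k G : Type u} [CommRing k] [Group G]

/-- Restriction `Hⁿ(G, A) ⟶ Hⁿ(S, A)` (Mathlib `groupCohomology.map`). -/
noncomputable abbrev resH (S : Subgroup G) (A : Rep k G) (n : ℕ) :
    groupCohomology A n ⟶ groupCohomology (res S.subtype A) n :=
  groupCohomology.map S.subtype (𝟙 _) n

/-- Inflation `Hⁿ(G ⧸ S, A^S) ⟶ Hⁿ(G, A)` (Mathlib `groupCohomology.map`). -/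
noncomputable abbrev infH (S : Subgroup G) [S.Normal] (A : Rep k G) (n : ℕ) :
    groupCohomology (A.quotientToInvariants S) n ⟶ groupCohomology A n :=
  groupCohomology.map (QuotientGroup.mk' S) (ofHom <| A.ρ.quotientToInvariants_lift S) n

/-- The diagram chase behind dimension shifting. -/
lemma infRes_chase {M₁ M₂ M₃ N₁ N₂ N₃ : ModuleCat.{u} k}
    (a₁ : M₁ ⟶ M₂) (a₂ : M₂ ⟶ M₃) (b₁ : N₁ ⟶ N₂) (b₂ : N₂ ⟶ N₃)
    (d₁ : M₁ ⟶ N₁) (d₂ : M₂ ⟶ N₂) (d₃ : M₃ ⟶ N₃)
    (sq1 : d₁ ≫ b₁ = a₁ ≫ d₂) (sq2 : d₂ ≫ b₂ = a₂ ≫ d₃)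
    (hd₁ : Function.Surjective d₁) (hd₂ : Function.Bijective d₂) (hd₃ : Function.Injective d₃)
    (ha₁ : Function.Injective a₁) (hexa : Function.Exact a₁ a₂) :
    Function.Injective b₁ ∧ Function.Exact b₁ b₂ := by
  have s1 : ∀ x, b₁ (d₁ x) = d₂ (a₁ x) := fun x => by
    simpa using ConcreteCategory.congr_hom sq1 x
  have s2 : ∀ x, b₂ (d₂ x) = d₃ (a₂ x) := fun x => by
    simpa using ConcreteCategory.congr_hom sq2 x
  constructor
  · intro x x' hxx'
    obtain ⟨y, rfl⟩ := hd₁ x
    obtain ⟨y', rfl⟩ := hd₁ x'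
    rw [s1, s1] at hxx'
    rw [ha₁ (hd₂.1 hxx')]
  · intro y
    constructor
    · intro hy
      obtain ⟨y', rfl⟩ := hd₂.2 y
      rw [s2] at hy
      have h0 : a₂ y' = 0 := hd₃ (by rw [hy, map_zero])
      obtain ⟨x', rfl⟩ := (hexa y').1 h0
      exact ⟨d₁ x', s1 x'⟩
    · rintro ⟨x, rfl⟩
      obtain ⟨x', rfl⟩ := hd₁ x
      rw [s1, s2, (hexa _).2 ⟨x', rfl⟩, map_zero]

/-- Inflation–restriction in degree `n + 1`, assuming `Hⁱ(S, A) = 0` for `1 ≤ i ≤ n`. -/
theorem infRes_aux (S : Subgroup G) [S.Normal] (n : ℕ) : ∀ (A : Rep.{u} k G),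
    (∀ i, i < n → IsZero (groupCohomology (res S.subtype A) (i + 1))) →
    Function.Injective (infH S A (n + 1)) ∧
      Function.Exact (infH S A (n + 1)) (resH S A (n + 1)) := by
  induction n with
  | zero =>
    intro A _
    refine ⟨(ModuleCat.mono_iff_injective _).1 (inferInstanceAs (Mono (H1InfRes A S).f)), ?_⟩
    exact (ShortComplex.ShortExact.moduleCat_exact_iff_function_exact _).1 (H1InfRes_exact A S)
  | succ n ih =>
    intro A hA
    have hX := starSC_shortExact A
    have hXS : ((starSC A).map (resFunctor S.subtype)).ShortExact :=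
      (Rep.shortExact_res S.subtype).2 hX
    have hXQ : (invariantsSC S (starSC A)).ShortExact :=
      invariantsSC_shortExact S hX (hA 0 (Nat.succ_pos n))
    -- vanishing for the shifted module
    have hA' : ∀ i, i < n → IsZero (groupCohomology (res S.subtype (starSC A).X₃) (i + 1)) := by
      intro i hi
      have hm : Mono (δ hXS (i + 1) (i + 1 + 1) rfl) :=
        mono_δ_of_isZero hXS (i + 1) (isZero_groupCohomology_res_funRep k S A.V i)
      exact @IsZero.of_mono _ _ _ _ _ (δ hXS (i + 1) (i + 1 + 1) rfl) hm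
        (hA (i + 1) (Nat.succ_lt_succ hi))
    obtain ⟨ihinj, ihex⟩ := ih (starSC A).X₃ hA'
    -- the connecting homomorphisms
    have hd₁ : Function.Surjective (δ hXQ (n + 1) (n + 1 + 1) rfl) :=
      (ModuleCat.epi_iff_surjective _).1
        (epi_δ_of_isZero hXQ (n + 1) (isZero_groupCohomology_inv_funRep k S A.V (n + 1)))
    have hd₂ : Function.Bijective (δ hX (n + 1) (n + 1 + 1) rfl) :=
      ⟨(ModuleCat.mono_iff_injective _).1
        (mono_δ_of_isZero hX (n + 1) (isZero_groupCohomology_funRep k G A.V n)),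
       (ModuleCat.epi_iff_surjective _).1
        (epi_δ_of_isZero hX (n + 1) (isZero_groupCohomology_funRep k G A.V (n + 1)))⟩
    have hd₃ : Function.Injective (δ hXS (n + 1) (n + 1 + 1) rfl) :=
      (ModuleCat.mono_iff_injective _).1
        (mono_δ_of_isZero hXS (n + 1) (isZero_groupCohomology_res_funRep k S A.V n))
    -- the commutative squares
    have sq1 : δ hXQ (n + 1) (n + 1 + 1) rfl ≫ infH S A (n + 1 + 1) =
        infH S (starSC A).X₃ (n + 1) ≫ δ hX (n + 1) (n + 1 + 1) rfl :=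
      δ_naturality_map (QuotientGroup.mk' S) hXQ hX
        (ofHom <| (starSC A).X₁.ρ.quotientToInvariants_lift S)
        (ofHom <| (starSC A).X₂.ρ.quotientToInvariants_lift S)
        (ofHom <| (starSC A).X₃.ρ.quotientToInvariants_lift S)
        (by ext x; rfl) (by ext x; rfl) (n + 1) (n + 1 + 1) rfl
    have sq2 : δ hX (n + 1) (n + 1 + 1) rfl ≫ resH S A (n + 1 + 1) =
        resH S (starSC A).X₃ (n + 1) ≫ δ hXS (n + 1) (n + 1 + 1) rfl :=
      δ_naturality_map S.subtype hX hXS (𝟙 _) (𝟙 _) (𝟙 _)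
        (by ext x; rfl) (by ext x; rfl) (n + 1) (n + 1 + 1) rfl
    exact infRes_chase _ _ _ _ _ _ _ sq1 sq2 hd₁ hd₂ hd₃ ihinj ihex

/-- General inflation–restriction, injectivity: if `Hⁱ(S, A) = 0` for `1 ≤ i ≤ n` then
`inf : Hⁿ⁺¹(G ⧸ S, A^S) → Hⁿ⁺¹(G, A)` is injective. -/
theorem infH_injective_of_isZero (S : Subgroup G) [S.Normal] (A : Rep k G) (n : ℕ)
    (h : ∀ i, 1 ≤ i → i ≤ n → IsZero (groupCohomology (res S.subtype A) i)) :
    Function.Injective (infH S A (n + 1)) :=
  (infRes_aux S n A fun i hi => h (i + 1) (Nat.succ_pos i) hi).1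

/-- General inflation–restriction, exactness: if `Hⁱ(S, A) = 0` for `1 ≤ i ≤ n` then
`Hⁿ⁺¹(G ⧸ S, A^S) → Hⁿ⁺¹(G, A) → Hⁿ⁺¹(S, A)` is exact. -/
theorem infH_resH_exact_of_isZero (S : Subgroup G) [S.Normal] (A : Rep k G) (n : ℕ)
    (h : ∀ i, 1 ≤ i → i ≤ n → IsZero (groupCohomology (res S.subtype A) i)) :
    Function.Exact (infH S A (n + 1)) (resH S A (n + 1)) :=
  (infRes_aux S n A fun i hi => h (i + 1) (Nat.succ_pos i) hi).2

/-- Degree 1 inflation is always injective. -/
theorem infH_one_injective (S : Subgroup G) [S.Normal] (A : Rep k G) :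
    Function.Injective (infH S A 1) :=
  infH_injective_of_isZero S A 0 fun i h1 h0 => absurd h1 (by omega)

/-- Degree 1 inflation–restriction is always exact. -/
theorem infH_resH_one_exact (S : Subgroup G) [S.Normal] (A : Rep k G) :
    Function.Exact (infH S A 1) (resH S A 1) :=
  infH_resH_exact_of_isZero S A 0 fun i h1 h0 => absurd h1 (by omega)

/-- FG2.a: if `H¹(S, A) = 0` then inflation `H²(G ⧸ S, A^S) → H²(G, A)` is injective. -/
theorem infH_two_injective (S : Subgroup G) [S.Normal] (A : Rep k G)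
    (h1 : IsZero (groupCohomology (res S.subtype A) 1)) :
    Function.Injective (infH S A 2) :=
  infH_injective_of_isZero S A 1 fun i hi hi' => by
    obtain rfl : i = 1 := le_antisymm hi' hi
    exact h1

/-- FG2.b: if `H¹(S, A) = 0` then `H²(G ⧸ S, A^S) → H²(G, A) → H²(S, A)` is exact. -/
theorem infH_resH_two_exact (S : Subgroup G) [S.Normal] (A : Rep k G)
    (h1 : IsZero (groupCohomology (res S.subtype A) 1)) :
    Function.Exact (infH S A 2) (resH S A 2) :=
  infH_resH_exact_of_isZero S A 1 fun i hi hi' => by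
    obtain rfl : i = 1 := le_antisymm hi' hi
    exact h1

/-- FG2.c: if `H¹(S, A) = H²(S, A) = 0` then inflation in degree 3 is injective. -/
theorem infH_three_injective (S : Subgroup G) [S.Normal] (A : Rep k G)
    (h1 : IsZero (groupCohomology (res S.subtype A) 1))
    (h2 : IsZero (groupCohomology (res S.subtype A) 2)) :
    Function.Injective (infH S A 3) :=
  infH_injective_of_isZero S A 2 fun i hi hi' => by
    obtain rfl | rfl : i = 1 ∨ i = 2 := by omega
    · exact h1
    · exact h2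

/-- FG2.d: if `H¹(S, A) = H²(S, A) = 0` then the degree 3 inflation–restriction sequence is
exact. -/
theorem infH_resH_three_exact (S : Subgroup G) [S.Normal] (A : Rep k G)
    (h1 : IsZero (groupCohomology (res S.subtype A) 1))
    (h2 : IsZero (groupCohomology (res S.subtype A) 2)) :
    Function.Exact (infH S A 3) (resH S A 3) :=
  infH_resH_exact_of_isZero S A 2 fun i hi hi' => by
    obtain rfl | rfl : i = 1 ∨ i = 2 := by omega
    · exact h1
    · exact h2

end Fermat.Agent.S55.helper61
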