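import Mathlib

/-!
# S55 / FG6 : Tate's theorem, `H³` of a class module vanishes (helper83)

Splitting module `C(γ)` of a 2-cocycle `c`, realised on
`{(a, x) : C × (G → k) | ∑ g, x g = 0}` with the twisted action
`σ • (a, x) = (σ a + ∑ τ, x τ • c (σ, τ), x (σ⁻¹ * ·))`.
-/

set_option autoImplicit false
set_option linter.unusedSectionVars false
set_option linter.unusedVariables false

open CategoryTheory CategoryTheory.Limits groupCohomology Rep

namespace Fermat.Agent.S55.helper83

noncomputable section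

section Construction

variable {k G : Type} [CommRing k] [Group G] [Fintype G] (C : Rep.{0} k G)

/-- augmentation `(G → k) → k`. -/
def aug : (G → k) →ₗ[k] k := Fintype.linearCombination k (fun _ : G => (1 : k))

lemma aug_apply (x : G → k) : aug (k := k) (G := G) x = ∑ g, x g := by
  simp [aug, Fintype.linearCombination_apply]

/-- left translation on functions: `(tr σ x) g = x (σ⁻¹ * g)`. -/
def tr (σ : G) : (G → k) →ₗ[k] (G → k) := LinearMap.funLeft k k (fun g => σ⁻¹ * g)

@[simp] lemma tr_apply (σ : G) (x : G → k) (g : G) : tr (k := k) σ x g = x (σ⁻¹ * g) := rfl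

lemma aug_tr (σ : G) (x : G → k) : aug (tr σ x) = aug x := by
  simp only [aug_apply, tr_apply]
  exact Equiv.sum_comp (Equiv.mulLeft σ⁻¹) x

lemma tr_one (x : G → k) : tr (1 : G) x = x := by
  ext g; simp

lemma tr_mul (σ τ : G) (x : G → k) : tr (σ * τ) x = tr σ (tr τ x) := by
  ext g; simp [mul_assoc]

/-- the augmentation kernel. -/
def augKer (k G : Type) [CommRing k] [Group G] [Fintype G] : Submodule k (G → k) :=
  LinearMap.ker (aug (k := k) (G := G))

lemma mem_augKer (x : G → k) : x ∈ augKer k G ↔ ∑ g, x g = 0 := by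
  simp [augKer, aug_apply]

/-- The representation of `G` on the augmentation ideal. -/
def augRho (k G : Type) [CommRing k] [Group G] [Fintype G] : Representation k G (augKer k G) where
  toFun σ := (tr σ).restrict (fun x hx => by
    rw [augKer, LinearMap.mem_ker] at hx ⊢
    rw [aug_tr, hx])
  map_one' := by
    ext x g
    simp
  map_mul' σ τ := by
    ext x g
    simp [mul_assoc]

@[simp] lemma augRho_apply_coe (σ : G) (x : augKer k G) (g : G) :
    ((augRho k G σ x : augKer k G) : G → k) g = (x : G → k) (σ⁻¹ * g) := rfl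

/-- The augmentation ideal as an object of `Rep k G`. -/
abbrev augRep (k G : Type) [CommRing k] [Group G] [Fintype G] : Rep.{0} k G := Rep.of (augRho k G)

variable {C}

/-- the twisting map `Ψ_σ(x) = ∑ τ, x τ • c (σ, τ)`. -/
def twist (c : G × G → C) (σ : G) : (G → k) →ₗ[k] C :=
  Fintype.linearCombination k (fun τ : G => c (σ, τ))

lemma twist_apply (c : G × G → C) (σ : G) (x : G → k) :
    twist c σ x = ∑ τ, x τ • c (σ, τ) := by
  simp [twist, Fintype.linearCombination_apply]

/-- the twisted map on the ambient module `C × (G → k)`. -/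
def ambT (c : G × G → C) (σ : G) : (C × (G → k)) →ₗ[k] (C × (G → k)) :=
  LinearMap.prod ((C.ρ σ).comp (LinearMap.fst k C (G → k)) + (twist c σ).comp (LinearMap.snd k C (G → k)))
    ((tr σ).comp (LinearMap.snd k C (G → k)))

lemma ambT_apply (c : G × G → C) (σ : G) (p : C × (G → k)) :
    ambT c σ p = (C.ρ σ p.1 + ∑ τ, p.2 τ • c (σ, τ), tr σ p.2) := by
  simp [ambT, twist_apply]

variable (C) in
/-- the underlying module of the splitting module. -/
def splitSub : Submodule k (C × (G → k)) :=
  (augKer k G).comap (LinearMap.snd k C (G → k))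

lemma mem_splitSub (p : C × (G → k)) : p ∈ splitSub C ↔ ∑ g, p.2 g = 0 := by
  simp [splitSub, mem_augKer]

lemma ambT_mem (c : G × G → C) (σ : G) (p : C × (G → k)) (hp : p ∈ splitSub C) :
    ambT c σ p ∈ splitSub C := by
  rw [mem_splitSub] at hp ⊢
  rw [ambT_apply]
  have := aug_tr σ p.2
  rw [aug_apply, aug_apply] at this
  show ∑ g, tr σ p.2 g = 0
  rw [this]; exact hp

/-- cocycle identity in the form we use. -/
lemma cocycle_id (c : cocycles₂ C) (σ τ ρ : G) :
    C.ρ σ (c (τ, ρ)) + c (σ, τ * ρ) = c (σ * τ, ρ) + c (σ, τ) :=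
  ((mem_cocycles₂_iff (c : G × G → C)).1 c.2 σ τ ρ).symm

lemma ambT_one (c : cocycles₂ C) (p : C × (G → k)) (hp : p ∈ splitSub C) :
    ambT c 1 p = p := by
  rw [mem_splitSub] at hp
  rw [ambT_apply]
  have h1 : ∀ τ : G, (c : G × G → C) (1, τ) = c (1, 1) := fun τ => cocycles₂_map_one_fst c τ
  have : ∑ τ, p.2 τ • (c : G × G → C) (1, τ) = 0 := by
    simp only [h1]
    rw [← Finset.sum_smul, hp, zero_smul]
  ext
  · simp [this]
  · simp

lemma ambT_mul (c : cocycles₂ C) (σ τ : G) (p : C × (G → k)) (hp : p ∈ splitSub C) :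
    ambT c (σ * τ) p = ambT c σ (ambT c τ p) := by
  rw [mem_splitSub] at hp
  simp only [ambT_apply]
  ext
  · simp only [map_mul, Module.End.mul_apply, map_add, map_sum, map_smul, tr_apply]
    rw [add_assoc]
    congr 1
    have e1 : ∑ x, p.2 (τ⁻¹ * x) • (c : G × G → C) (σ, x)
        = ∑ ρ, p.2 ρ • (c : G × G → C) (σ, τ * ρ) := by
      rw [← Equiv.sum_comp (Equiv.mulLeft τ)]
      simp
    rw [e1, ← Finset.sum_add_distrib]
    have e2 : ∀ ρ, p.2 ρ • (C.ρ σ) (c (τ, ρ)) + p.2 ρ • (c : G × G → C) (σ, τ * ρ)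
        = p.2 ρ • (c : G × G → C) (σ * τ, ρ) + p.2 ρ • (c : G × G → C) (σ, τ) := by
      intro ρ
      rw [← smul_add, cocycle_id, smul_add]
    simp only [e2]
    rw [Finset.sum_add_distrib, ← Finset.sum_smul, hp, zero_smul, add_zero]
  · simp [mul_assoc]

/-- The representation on the splitting module. -/
def splitRho (c : cocycles₂ C) : Representation k G (splitSub C) where
  toFun σ := (ambT c σ).restrict (fun p hp => ambT_mem c σ p hp)
  map_one' := by
    ext p : 2
    exact ambT_one c p.1 p.2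
  map_mul' σ τ := by
    ext p : 2
    exact ambT_mul c σ τ p.1 p.2

lemma splitRho_apply_coe (c : cocycles₂ C) (σ : G) (p : splitSub C) :
    ((splitRho c σ p : splitSub C) : C × (G → k)) = ambT c σ p := rfl

/-- The splitting module as an object of `Rep k G`. -/
abbrev splitRep (c : cocycles₂ C) : Rep.{0} k G := Rep.of (splitRho c)

end Construction

section Sequence

variable {k G : Type} [CommRing k] [Group G] [Fintype G] {C : Rep.{0} k G} (c : cocycles₂ C)

/-- the linear map `a ↦ (a, 0)` into the splitting module. -/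
def splitInclLin : C →ₗ[k] splitSub C :=
  (LinearMap.inl k C (G → k)).codRestrict (splitSub C) (fun a => by simp [mem_splitSub])

@[simp] lemma splitInclLin_coe (a : C) :
    ((splitInclLin (C := C) a : splitSub C) : C × (G → k)) = (a, 0) := rfl

/-- the linear map `(a, x) ↦ x` from the splitting module onto the augmentation ideal. -/
def splitProjLin : splitSub C →ₗ[k] augKer k G :=
  (LinearMap.snd k C (G → k)).restrict (p := splitSub C) (q := augKer k G) (fun p hp => hp)

@[simp] lemma splitProjLin_coe (p : splitSub C) :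
    ((splitProjLin (C := C) p : augKer k G) : G → k) = (p : C × (G → k)).2 := rfl

/-- the inclusion `C ⟶ C(γ)`. -/
def splitIncl : C ⟶ splitRep c :=
  ConcreteCategory.ofHom (C := Rep k G)
    ⟨splitInclLin, fun σ => by
      ext a : 1
      apply Subtype.ext
      show ((C.ρ σ a, 0) : C × (G → k)) = ambT c σ (a, 0)
      rw [ambT_apply]
      ext
      · simp
      · simp⟩

/-- the projection `C(γ) ⟶ I_G`. -/
def splitProj : splitRep c ⟶ augRep k G :=
  ConcreteCategory.ofHom (C := Rep k G)
    ⟨splitProjLin, fun σ => by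
      ext p : 1
      apply Subtype.ext
      show (ambT c σ (p : C × (G → k))).2 = tr σ (p : C × (G → k)).2
      rw [ambT_apply]⟩

lemma splitIncl_apply (a : C) :
    (((splitIncl c).hom a : splitSub C) : C × (G → k)) = (a, 0) := rfl

lemma splitProj_apply (p : splitSub C) :
    (((splitProj c).hom p : augKer k G) : G → k) = (p : C × (G → k)).2 := rfl

/-- the splitting sequence `0 → C → C(γ) → I_G → 0`. -/
def splitSeq : ShortComplex (Rep.{0} k G) :=
  ShortComplex.mk (splitIncl c) (splitProj c) (by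
    ext a : 3
    apply Subtype.ext
    rfl)

lemma splitSeq_shortExact : (splitSeq c).ShortExact where
  exact := by
    rw [← ShortComplex.exact_map_iff_of_faithful _ (forget₂ (Rep.{0} k G) (ModuleCat.{0} k)),
      ShortComplex.moduleCat_exact_iff]
    intro (p : splitSub C) hp
    have hp2 : (p : C × (G → k)).2 = 0 := by
      have := congrArg (fun x : augKer k G => (x : G → k)) hp
      exact this
    refine ⟨(p : C × (G → k)).1, ?_⟩
    apply Subtype.ext
    show (((p : C × (G → k)).1, (0 : G → k)) : C × (G → k)) = p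
    ext
    · rfl
    · rw [hp2]
  mono_f := by
    rw [Rep.mono_iff_injective]
    intro a b hab
    have := congrArg (fun x : splitSub C => (x : C × (G → k)).1) hab
    exact this
  epi_g := by
    rw [Rep.epi_iff_surjective]
    intro (x : augKer k G)
    refine ⟨(⟨(0, (x : G → k)), ?_⟩ : splitSub C), ?_⟩
    · rw [mem_splitSub]
      exact (mem_augKer _).1 x.2
    · apply Subtype.ext
      rfl

end Sequence

section Indicator

variable {k G : Type} [CommRing k] [Group G] [Fintype G]

open Classical in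
/-- the indicator function of `g`. -/
def eFun (g : G) : G → k := fun h => if h = g then 1 else 0

open Classical in
lemma eFun_apply (g h : G) : eFun (k := k) g h = if h = g then 1 else 0 := rfl

lemma tr_eFun (σ g : G) : tr σ (eFun (k := k) g) = eFun (σ * g) := by
  classical
  ext h
  simp only [tr_apply, eFun_apply, inv_mul_eq_iff_eq_mul]

lemma sum_eFun (g : G) : ∑ h, eFun (k := k) g h = 1 := by
  classical
  simp [eFun_apply]

lemma sum_eFun_smul {M : Type} [AddCommGroup M] [Module k M] (g : G) (f : G → M) :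
    ∑ τ, eFun (k := k) g τ • f τ = f g := by
  classical
  simp [eFun_apply, ite_smul]

lemma sum_eFun_mul (g : G) (f : G → k) :
    ∑ τ, eFun (k := k) g τ * f τ = f g := by
  classical
  simp [eFun_apply]

/-- `e_g - e_1`, an element of the augmentation ideal. -/
def eDiff (g : G) : augKer k G :=
  ⟨eFun g - eFun 1, by
    rw [mem_augKer]
    simp [Finset.sum_sub_distrib, sum_eFun]⟩

@[simp] lemma eDiff_coe (g : G) : ((eDiff (k := k) g : augKer k G) : G → k) = eFun g - eFun 1 := rfl

end Indicator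

section Cocycle

variable {k G U : Type} [CommRing k] [Group G] [Fintype G] [Group U] (φ : U →* G)

/-- the restriction of the augmentation ideal along `φ`. -/
abbrev augRes (k : Type) [CommRing k] (φ : U →* G) : Rep.{0} k U := res φ (augRep k G)

lemma augRes_ρ_coe (u : U) (x : augKer k G) (g : G) :
    (((augRes k φ).ρ u x : augKer k G) : G → k) g = (x : G → k) ((φ u)⁻¹ * g) := rfl

/-- the standard 1-cocycle `u ↦ e_{φ u} - e_1`. -/
def zU : cocycles₁ (augRes k φ) :=
  ⟨fun u => eDiff (φ u), (mem_cocycles₁_iff (A := augRes k φ) _).2 (fun u v => by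
    apply Subtype.ext
    show eFun (φ (u * v)) - eFun 1
      = tr (φ u) (eFun (φ v) - eFun 1) + (eFun (φ u) - eFun (1 : G) : G → k)
    rw [map_sub, tr_eFun, tr_eFun, map_mul, mul_one]
    abel)⟩

lemma zU_apply (u : U) : (zU (k := k) φ) u = eDiff (φ u) := rfl

lemma exists_equivariant_proj (hφ : Function.Injective φ) :
    ∃ pr : G → U, ∀ u g, pr (φ u * g) = u * pr g := by
  obtain ⟨T, hT, -⟩ := φ.range.exists_isComplement_right 1
  let e := MonoidHom.ofInjective hφ
  refine ⟨fun g => e.symm (hT.equiv g).1, fun u g => ?_⟩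
  have h := hT.equiv_mul_left (e u) g
  have h1 : ((e u : φ.range) : G) = φ u := rfl
  rw [h1] at h
  show e.symm (hT.equiv (φ u * g)).1 = u * e.symm (hT.equiv g).1
  rw [h]
  show e.symm (e u * (hT.equiv g).1) = u * e.symm (hT.equiv g).1
  rw [map_mul, MulEquiv.symm_apply_apply]

/-- (a) every class in `H¹(U, I_G)` is a multiple of the class of `zU`. -/
lemma H1π_augRes_eq_smul (hφ : Function.Injective φ) (z : cocycles₁ (augRes k φ)) :
    ∃ m : k, H1π (augRes k φ) z = m • H1π (augRes k φ) (zU φ) := by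
  obtain ⟨pr, hpr⟩ := exists_equivariant_proj φ hφ
  let zf : U → G → k := fun u => ((z u : augKer k G) : G → k)
  have hz : ∀ u v g, zf (u * v) g = zf v ((φ u)⁻¹ * g) + zf u g := by
    intro u v g
    have := (mem_cocycles₁_iff (A := augRes k φ) z).1 z.2 u v
    have := congrArg (fun x : augKer k G => (x : G → k) g) this
    exact this
  let x : G → k := fun g => - zf (pr g) g
  have hx : ∀ u g, x ((φ u)⁻¹ * g) - x g = zf u g := by
    intro u g
    have h1 : pr ((φ u)⁻¹ * g) = u⁻¹ * pr g := by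
      have := hpr u⁻¹ g
      rwa [map_inv] at this
    have h2 := hz u (u⁻¹ * pr g) g
    rw [mul_inv_cancel_left] at h2
    show - zf (pr ((φ u)⁻¹ * g)) ((φ u)⁻¹ * g) - (- zf (pr g) g) = zf u g
    rw [h1, h2]; ring
  let m : k := ∑ g, x g
  have hy : x - m • eFun 1 ∈ augKer k G := by
    rw [mem_augKer]
    simp only [Pi.sub_apply, Pi.smul_apply, smul_eq_mul, Finset.sum_sub_distrib,
      ← Finset.mul_sum, sum_eFun, mul_one]
    exact sub_self _
  refine ⟨m, ?_⟩
  rw [← map_smul, H1π_eq_iff]
  refine ⟨(⟨x - m • eFun 1, hy⟩ : augKer k G), ?_⟩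
  funext u
  apply Subtype.ext
  funext g
  have he : eFun (k := k) 1 ((φ u)⁻¹ * g) = eFun (φ u) g := by
    have := congrFun (tr_eFun (k := k) (φ u) 1) g
    rwa [mul_one] at this
  show x ((φ u)⁻¹ * g) - m * eFun 1 ((φ u)⁻¹ * g) - (x g - m * eFun 1 g)
    = zf u g - m * (eFun (φ u) g - eFun 1 g)
  rw [he, ← hx u g]
  ring

/-- (b) the class of `zU` is killed by `|U|`. -/
lemma card_smul_H1π_zU [Fintype U] (hφ : Function.Injective φ) :
    (Fintype.card U : k) • H1π (augRes k φ) (zU φ) = 0 := by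
  rw [← map_smul, H1π_eq_zero_iff]
  let N : G → k := ∑ u : U, eFun (φ u)
  have hN : ∀ v : U, tr (φ v) N = N := by
    intro v
    simp only [N, map_sum, tr_eFun, ← map_mul]
    exact Equiv.sum_comp (Equiv.mulLeft v) (fun u => eFun (k := k) (φ u))
  have hy : (Fintype.card U : k) • eFun 1 - N ∈ augKer k G := by
    rw [mem_augKer]
    simp only [Pi.sub_apply, Pi.smul_apply, smul_eq_mul, Finset.sum_sub_distrib,
      ← Finset.mul_sum, sum_eFun, mul_one, N, Finset.sum_apply]
    rw [Finset.sum_comm]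
    simp [sum_eFun]
  refine ⟨(⟨_, hy⟩ : augKer k G), ?_⟩
  funext v
  apply Subtype.ext
  show tr (φ v) ((Fintype.card U : k) • eFun 1 - N) - ((Fintype.card U : k) • eFun 1 - N)
    = (Fintype.card U : k) • (eFun (φ v) - eFun 1)
  rw [map_sub, map_smul, hN, tr_eFun, mul_one, smul_sub]
  abel

/-- (c) `H²(U, I_G) = 0` when `k` is torsion-free. -/
lemma isZero_H2_augRes (hφ : Function.Injective φ)
    (hk : ∀ (n : ℕ) (a : k), 0 < n → n • a = 0 → a = 0) :
    IsZero (groupCohomology (augRes k φ) 2) := by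
  obtain ⟨pr, hpr⟩ := exists_equivariant_proj φ hφ
  have : Finite U := Finite.of_injective φ hφ
  rw [ModuleCat.isZero_iff_subsingleton]
  suffices h : ∀ a : groupCohomology (augRes k φ) 2, a = 0 from
    ⟨fun a b => by rw [h a, h b]⟩
  intro a
  induction a using H2_induction_on with
  | h f =>
  rw [H2π_eq_zero_iff]
  let ff : U × U → G → k := fun p => ((f p : augKer k G) : G → k)
  have hf : ∀ u v w g,
      ff (v, w) ((φ u)⁻¹ * g) - ff (u * v, w) g + ff (u, v * w) g - ff (u, v) g = 0 := by
    intro u v w g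
    have := (mem_cocycles₂_def (A := augRes k φ) f).1 f.2 u v w
    have := congrArg (fun x : augKer k G => (x : G → k) g) this
    exact this
  have hfaug : ∀ p, ∑ g, ff p g = 0 := fun p => (mem_augKer _).1 (f p).2
  let h : U → G → k := fun u g => ff (u, u⁻¹ * pr g) g
  have hd : ∀ u v g, h v ((φ u)⁻¹ * g) - h (u * v) g + h u g = ff (u, v) g := by
    intro u v g
    have h1 : pr ((φ u)⁻¹ * g) = u⁻¹ * pr g := by
      have := hpr u⁻¹ g
      rwa [map_inv] at this
    have h2 := hf u v (v⁻¹ * (u⁻¹ * pr g)) g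
    rw [mul_inv_cancel_left] at h2
    show ff (v, v⁻¹ * pr ((φ u)⁻¹ * g)) ((φ u)⁻¹ * g) - ff (u * v, (u * v)⁻¹ * pr g) g
      + ff (u, u⁻¹ * pr g) g = ff (u, v) g
    rw [h1, mul_inv_rev, mul_assoc]
    linear_combination h2
  let χ : U → k := fun u => ∑ g, h u g
  have hχ : ∀ u v, χ (u * v) = χ u + χ v := by
    intro u v
    have h1 : ∑ g, (h v ((φ u)⁻¹ * g) - h (u * v) g + h u g) = 0 := by
      rw [← hfaug (u, v)]
      exact Finset.sum_congr rfl (fun g _ => hd u v g)
    rw [Finset.sum_add_distrib, Finset.sum_sub_distrib] at h1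
    have h2 : ∑ g, h v ((φ u)⁻¹ * g) = χ v :=
      Equiv.sum_comp (Equiv.mulLeft (φ u)⁻¹) (h v)
    rw [h2] at h1
    show χ (u * v) = χ u + χ v
    linear_combination -h1
  have hχ0 : ∀ u, χ u = 0 := by
    intro u
    have h0 : χ 1 = 0 := by
      have := hχ 1 1
      rw [mul_one] at this
      exact left_eq_add.mp this
    have hpow : ∀ n : ℕ, χ (u ^ n) = n • χ u := by
      intro n
      induction n with
      | zero => rw [pow_zero, zero_smul, h0]
      | succ n ih => rw [pow_succ, hχ, ih, succ_nsmul]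
    have h1 := hpow (orderOf u)
    rw [pow_orderOf_eq_one, h0] at h1
    exact hk _ _ (orderOf_pos u) h1.symm
  refine ⟨fun u => (⟨h u, (mem_augKer _).2 (hχ0 u)⟩ : augKer k G), ?_⟩
  funext ⟨u, v⟩
  apply Subtype.ext
  funext g
  exact hd u v g

end Cocycle

section Delta

variable {k G U : Type} [CommRing k] [Group G] [Fintype G] [Group U] {C : Rep.{0} k G}
  (c : cocycles₂ C) (φ : U →* G)

/-- the restricted splitting sequence. -/
abbrev splitSeqRes : ShortComplex (Rep.{0} k U) := (splitSeq c).map (resFunctor φ)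

lemma splitSeqRes_shortExact : (splitSeqRes c φ).ShortExact :=
  (Rep.shortExact_res φ).2 (splitSeq_shortExact c)

variable (C) in
/-- the 1-cochain `u ↦ (0, e_{φ u} - e_1)` lifting `zU`. -/
def yU : U → splitSub C := fun u =>
  ⟨(0, eFun (φ u) - eFun 1), by
    rw [mem_splitSub]
    simp [Finset.sum_sub_distrib, sum_eFun]⟩

/-- the 2-cochain `(u, v) ↦ c (φ u, φ v) - c (φ u, 1)`. -/
def xU : U × U → C := fun p => c (φ p.1, φ p.2) - c (φ p.1, 1)

lemma ambT_yU (σ : G) (g : G) :
    ambT c σ ((0 : C), eFun g - eFun 1) = (c (σ, g) - c (σ, 1), eFun (σ * g) - eFun σ) := by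
  rw [ambT_apply]
  ext1
  · show C.ρ σ 0 + ∑ τ, (eFun g - eFun 1 : G → k) τ • (c : G × G → C) (σ, τ)
      = c (σ, g) - c (σ, 1)
    simp only [map_zero, zero_add, Pi.sub_apply, sub_smul, Finset.sum_sub_distrib]
    rw [sum_eFun_smul g (fun τ => (c : G × G → C) (σ, τ)),
      sum_eFun_smul 1 (fun τ => (c : G × G → C) (σ, τ))]
  · show tr σ (eFun g - eFun 1) = eFun (σ * g) - eFun σ
    rw [map_sub, tr_eFun, tr_eFun, mul_one]

lemma δ_zU_aux :
    (splitSeqRes c φ).f.hom ∘ (xU (C := C) (G := G) c φ)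
      = d₁₂ (splitSeqRes c φ).X₂ (yU (G := G) C φ) := by
  funext ⟨u, v⟩
  apply Subtype.ext
  show ((xU c φ (u, v), 0) : C × (G → k))
    = ambT c (φ u) ((0 : C), eFun (φ v) - eFun 1) - ((0 : C), eFun (φ (u * v)) - eFun 1)
      + ((0 : C), eFun (φ u) - eFun 1)
  rw [ambT_yU, map_mul]
  ext1
  · simp [xU]
  · simp

lemma δ_zU :
    δ (splitSeqRes_shortExact c φ) 1 2 rfl (H1π (splitSeqRes c φ).X₃ (zU φ))
      = map φ (𝟙 (res φ C)) 2 (H2π C c) := by
  have hy : (splitSeqRes c φ).g.hom ∘ (yU (G := G) C φ) = zU φ := by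
    funext u; apply Subtype.ext; rfl
  rw [δ₁_apply (splitSeqRes_shortExact c φ) (zU φ) (yU C φ) hy (xU (C := C) (G := G) c φ)
    (δ_zU_aux c φ)]
  have h := congr($(H2π_comp_map φ (𝟙 (res φ C))) c)
  rw [ModuleCat.comp_apply, ModuleCat.comp_apply] at h
  rw [h]
  refine (H2π_eq_iff (A := res φ C) _ _).2 ?_
  refine ⟨fun _ => - (c : G × G → C) (1, 1), ?_⟩
  funext ⟨u, v⟩
  show (res φ C).ρ u (- (c : G × G → C) (1, 1)) - (- (c : G × G → C) (1, 1))
      + (- (c : G × G → C) (1, 1))
    = ((c : G × G → C) (φ u, φ v) - (c : G × G → C) (φ u, 1)) - (c : G × G → C) (φ u, φ v)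
  rw [cocycles₂_map_one_snd c (φ u), map_neg]
  show - C.ρ (φ u) ((c : G × G → C) (1, 1)) - (- (c : G × G → C) (1, 1))
      + (- (c : G × G → C) (1, 1))
    = ((c : G × G → C) (φ u, φ v) - C.ρ (φ u) ((c : G × G → C) (1, 1)))
      - (c : G × G → C) (φ u, φ v)
  abel

end Delta

section LES

variable {k G : Type} [CommRing k] [Group G] {X : ShortComplex (Rep.{0} k G)}
  (hX : X.ShortExact)

include hX

lemma les_exact₁ (i j : ℕ) (hij : i + 1 = j) (y : groupCohomology X.X₁ j)
    (hy : map (MonoidHom.id G) X.f j y = 0) :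
    ∃ x : groupCohomology X.X₃ i, δ hX i j hij x = y :=
  (ShortComplex.moduleCat_exact_iff _).1 (mapShortComplex₁_exact hX hij) y hy

lemma les_exact₂ (i : ℕ) (y : groupCohomology X.X₂ i)
    (hy : map (MonoidHom.id G) X.g i y = 0) :
    ∃ x : groupCohomology X.X₁ i, map (MonoidHom.id G) X.f i x = y :=
  (ShortComplex.moduleCat_exact_iff _).1 (mapShortComplex₂_exact hX i) y hy

lemma les_exact₃ (i j : ℕ) (hij : i + 1 = j) (y : groupCohomology X.X₃ i)
    (hy : δ hX i j hij y = 0) :
    ∃ x : groupCohomology X.X₂ i, map (MonoidHom.id G) X.g i x = y :=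
  (ShortComplex.moduleCat_exact_iff _).1 (mapShortComplex₃_exact hX hij) y hy

lemma les_δ_map (i j : ℕ) (hij : i + 1 = j) (x : groupCohomology X.X₂ i) :
    δ hX i j hij (map (MonoidHom.id G) X.g i x) = 0 := by
  have := congr($((mapShortComplex₃ hX hij).zero) x)
  exact this

lemma les_map_δ (i j : ℕ) (hij : i + 1 = j) (x : groupCohomology X.X₃ i) :
    map (MonoidHom.id G) X.f j (δ hX i j hij x) = 0 := by
  have := congr($((mapShortComplex₁ hX hij).zero) x)
  exact this

/-- If `H¹(X₁) = 0` and `δ : H¹(X₃) → H²(X₁)` is injective then `H¹(X₂) = 0`. -/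
lemma isZero_H1_mid (h1 : IsZero (groupCohomology X.X₁ 1))
    (hinj : ∀ x : groupCohomology X.X₃ 1, δ hX 1 2 rfl x = 0 → x = 0) :
    IsZero (groupCohomology X.X₂ 1) := by
  rw [ModuleCat.isZero_iff_subsingleton] at h1 ⊢
  suffices h : ∀ a : groupCohomology X.X₂ 1, a = 0 from ⟨fun a b => by rw [h a, h b]⟩
  intro a
  have h2 := hinj _ (les_δ_map hX 1 2 rfl a)
  obtain ⟨x, hx⟩ := les_exact₂ hX 1 a h2
  rw [← hx, Subsingleton.elim x 0, map_zero]

/-- If `δ : H¹(X₃) → H²(X₁)` is surjective and `H²(X₃) = 0` then `H²(X₂) = 0`. -/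
lemma isZero_H2_mid (h2 : IsZero (groupCohomology X.X₃ 2))
    (hsurj : ∀ y : groupCohomology X.X₁ 2, ∃ x : groupCohomology X.X₃ 1, δ hX 1 2 rfl x = y) :
    IsZero (groupCohomology X.X₂ 2) := by
  rw [ModuleCat.isZero_iff_subsingleton] at h2 ⊢
  suffices h : ∀ a : groupCohomology X.X₂ 2, a = 0 from ⟨fun a b => by rw [h a, h b]⟩
  intro a
  obtain ⟨y, hy⟩ := les_exact₂ hX 2 a (Subsingleton.elim _ _)
  obtain ⟨x, hx⟩ := hsurj y
  rw [← hy, ← hx, les_map_δ hX 1 2 rfl x]

/-- If `H²(X₃) = 0` and `H³(X₂) = 0` then `H³(X₁) = 0`. -/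
lemma isZero_H3_left (h2 : IsZero (groupCohomology X.X₃ 2))
    (h3 : IsZero (groupCohomology X.X₂ 3)) :
    IsZero (groupCohomology X.X₁ 3) := by
  rw [ModuleCat.isZero_iff_subsingleton] at h2 h3 ⊢
  suffices h : ∀ a : groupCohomology X.X₁ 3, a = 0 from ⟨fun a b => by rw [h a, h b]⟩
  intro a
  obtain ⟨x, hx⟩ := les_exact₁ hX 2 3 rfl a (Subsingleton.elim _ _)
  rw [← hx, Subsingleton.elim x 0, map_zero]

end LES

section Assembly

variable {k G : Type} [CommRing k] [Group G] [Fintype G] {C : Rep.{0} k G} (c : cocycles₂ C)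

/-- `H¹` and `H²` of the splitting module vanish after restriction along an injective `φ`,
as soon as `H¹(U, C) = 0`, `H²(U, C)` is generated by the restriction of the class of `c`, and
the annihilator of that restriction kills the class of `zU`. -/
lemma isZero_H1_H2_splitRep {U : Type} [Group U] (φ : U →* G) (hφ : Function.Injective φ)
    (hk : ∀ (n : ℕ) (a : k), 0 < n → n • a = 0 → a = 0)
    (h1 : IsZero (groupCohomology (res φ C) 1))
    (hgen : ∀ x : groupCohomology (res φ C) 2,
      ∃ m : k, x = m • map φ (𝟙 (res φ C)) 2 (H2π C c))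
    (hinj : ∀ m : k, m • map φ (𝟙 (res φ C)) 2 (H2π C c) = 0 →
      m • H1π (augRes k φ) (zU φ) = 0) :
    IsZero (groupCohomology (res φ (splitRep c)) 1) ∧
      IsZero (groupCohomology (res φ (splitRep c)) 2) := by
  have hX := splitSeqRes_shortExact c φ
  have hδ := δ_zU c φ
  constructor
  · refine isZero_H1_mid hX h1 ?_
    intro x hx
    induction x using H1_induction_on with
    | h z =>
    obtain ⟨m, hm⟩ := H1π_augRes_eq_smul φ hφ z
    have hm' : H1π (splitSeqRes c φ).X₃ z = m • H1π (splitSeqRes c φ).X₃ (zU φ) := hm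
    rw [hm'] at hx ⊢
    rw [map_smul, hδ] at hx
    exact hinj m hx
  · refine isZero_H2_mid hX (isZero_H2_augRes φ hφ hk) ?_
    intro y
    obtain ⟨m, hm⟩ := hgen y
    refine ⟨m • H1π (splitSeqRes c φ).X₃ (zU φ), ?_⟩
    rw [map_smul, hδ]
    exact hm.symm

/-- The Nakayama–Tate criterion in degree 3 (FG5), as a property of `k` and `G`. -/
def NakayamaTate (k G : Type) [CommRing k] [Group G] : Prop :=
  ∀ A : Rep.{0} k G,
    (∀ U : Subgroup G, IsZero (groupCohomology (res U.subtype A) 1)) →
    (∀ U : Subgroup G, IsZero (groupCohomology (res U.subtype A) 2)) →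
    IsZero (groupCohomology A 3)

/-- Tate's theorem in degree 3, general coefficient ring, cocycle form. -/
theorem isZero_H3_of_cocycle (hNT : NakayamaTate k G)
    (hk : ∀ (n : ℕ) (a : k), 0 < n → n • a = 0 → a = 0)
    (h1 : ∀ U : Subgroup G, IsZero (groupCohomology (res U.subtype C) 1))
    (hgen : ∀ U : Subgroup G, ∀ x : groupCohomology (res U.subtype C) 2,
      ∃ m : k, x = m • map U.subtype (𝟙 (res U.subtype C)) 2 (H2π C c))
    (hinj : ∀ (U : Subgroup G) (m : k),
      m • map U.subtype (𝟙 (res U.subtype C)) 2 (H2π C c) = 0 →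
      ∃ m' : k, m = m' * (Nat.card U : k)) :
    IsZero (groupCohomology C 3) := by
  have hM : ∀ U : Subgroup G, IsZero (groupCohomology (res U.subtype (splitRep c)) 1) ∧
      IsZero (groupCohomology (res U.subtype (splitRep c)) 2) := by
    intro U
    refine isZero_H1_H2_splitRep c U.subtype U.subtype_injective hk (h1 U) (hgen U) ?_
    intro m hm
    obtain ⟨m', rfl⟩ := hinj U m hm
    let _ : Fintype U := Fintype.ofFinite U
    have := card_smul_H1π_zU (k := k) U.subtype U.subtype_injective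
    rw [Nat.card_eq_fintype_card, mul_smul, this, smul_zero]
  have h3 : IsZero (groupCohomology (splitRep c) 3) :=
    hNT (splitRep c) (fun U => (hM U).1) (fun U => (hM U).2)
  have h2 : IsZero (groupCohomology (augRep k G) 2) :=
    isZero_H2_augRes (k := k) (MonoidHom.id G) Function.injective_id hk
  exact isZero_H3_left (splitSeq_shortExact c) h2 h3

end Assembly

section Final

/-- **FG6, conditional on FG5** (Tate's theorem in degree 3): let `C` be a `G`-module (`G` finite)
with `H¹(U, C) = 0` for all `U ≤ G` and a class `γ ∈ H²(G, C)` such that for all `U ≤ G`,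
`H²(U, C)` has exactly `|U|` elements and is generated by `res γ`. Then `H³(G, C) = 0`,
provided the Nakayama–Tate criterion `NakayamaTate ℤ G` (FG5) holds for `G`. -/
theorem isZero_H3_of_fundamentalClass_of (G : Type) [Group G] [Finite G]
    (hNT : NakayamaTate ℤ G) (C : Rep ℤ G)
    (h1 : ∀ U : Subgroup G, IsZero (groupCohomology (res U.subtype C) 1))
    (γ : groupCohomology C 2)
    (hcard : ∀ U : Subgroup G, Nat.card (groupCohomology (res U.subtype C) 2) = Nat.card U)
    (hgen : ∀ U : Subgroup G, ∀ x : groupCohomology (res U.subtype C) 2,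
      ∃ m : ℤ, x = m • groupCohomology.map U.subtype (𝟙 _) 2 γ) :
    IsZero (groupCohomology C 3) := by
  let _ : Fintype G := Fintype.ofFinite G
  obtain ⟨c, rfl⟩ := (ModuleCat.epi_iff_surjective _).1 (inferInstance : Epi (H2π C)) γ
  have hsm : ∀ (U : Subgroup G) (m : ℤ) (y : groupCohomology (res U.subtype C) 2),
      (groupCohomology (res U.subtype C) 2).isModule.smul m y = m • y := fun U m y =>
    int_smul_eq_zsmul _ m y
  refine isZero_H3_of_cocycle c hNT ?_ h1 ?_ ?_
  · intro n a hn h
    rw [nsmul_eq_mul] at h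
    rcases mul_eq_zero.1 h with h | h
    · exact absurd (by exact_mod_cast h) hn.ne'
    · exact h
  · intro U x
    obtain ⟨m, hm⟩ := hgen U x
    exact ⟨m, hm.trans (hsm U m _).symm⟩
  · intro U m hm
    set g := groupCohomology.map U.subtype (𝟙 (res U.subtype C)) 2 (H2π C c) with hg
    have htop : AddSubgroup.zmultiples g = ⊤ := by
      rw [eq_top_iff]
      intro x _
      obtain ⟨m, hm⟩ := hgen U x
      rw [AddSubgroup.mem_zmultiples_iff]
      exact ⟨m, hm.symm⟩
    have hord : addOrderOf g = Nat.card U := by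
      rw [← Nat.card_zmultiples, htop, ← hcard U]
      exact Nat.card_congr (Equiv.Set.univ _)
    have hm' : m • g = 0 := (hsm U m g).symm.trans hm
    have := (addOrderOf_dvd_iff_zsmul_eq_zero (x := g) (i := m)).2 hm'
    rw [hord] at this
    obtain ⟨m', rfl⟩ := this
    exact ⟨m', mul_comm _ _⟩

end Final



end

end Fermat.Agent.S55.helper83
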