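import Fermat.Agent.S55.helper90_FG5b
import Fermat.Agent.S55.helper83_FG6

/-!
# S55 / FG6, part b : Tate's theorem in degree 3, conditional only on FG2.d (helper83)

`helper83_FG6` proves `H³(G, C) = 0` for a class module `C` with fundamental class, conditionally
on the Nakayama–Tate criterion (FG5).  Here FG5 is plugged in from `helper90_FG5b`; the only
remaining hypothesis is FG2.d (`helper90.InfResThreeExact ℤ`, exactness of inflation–restriction
in degree 3).
-/

set_option autoImplicit false

open CategoryTheory CategoryTheory.Limits groupCohomology Rep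

namespace Fermat.Agent.S55.helper83

/-- FG5 gives the Nakayama–Tate property, conditionally on FG2.d. -/
theorem nakayamaTate_of_infRes (k : Type) [CommRing k] (hIR : helper90.InfResThreeExact k)
    (G : Type) [Group G] [Finite G] : NakayamaTate k G :=
  fun A h1 h2 => helper90.isZero_H3_of_forall_subgroup_of_infRes hIR A h1 h2

/-- **FG6, conditional only on FG2.d** (Tate's theorem in degree 3). -/
theorem isZero_H3_of_fundamentalClass_of_infRes (hIR : helper90.InfResThreeExact ℤ)
    (G : Type) [Group G] [Finite G] (C : Rep ℤ G)
    (h1 : ∀ U : Subgroup G, IsZero (groupCohomology (res U.subtype C) 1))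
    (γ : groupCohomology C 2)
    (hcard : ∀ U : Subgroup G, Nat.card (groupCohomology (res U.subtype C) 2) = Nat.card U)
    (hgen : ∀ U : Subgroup G, ∀ x : groupCohomology (res U.subtype C) 2,
      ∃ m : ℤ, x = m • groupCohomology.map U.subtype (𝟙 _) 2 γ) :
    IsZero (groupCohomology C 3) :=
  isZero_H3_of_fundamentalClass_of G (nakayamaTate_of_infRes ℤ hIR G) C h1 γ hcard hgen

end Fermat.Agent.S55.helper83
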