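import Fermat.Agent.S55.helper84_LocalTate
import Fermat.Agent.S55.helper61_FG2
import Fermat.Agent.S55.helper46_FG1Strong
import Fermat.Agent.S55.helper83_FG6b

/-!
# S55 / LOC-6 (helper84, task 247): local Tate theorem, conditional on LOC-4 only

FG6 (`helper83`), FG2.d (`helper61`) and FG1s `exists_cor` (`helper46`) are discharged here;
the only remaining inputs are LOC-4 `card_H2` and `exists_generator_H2`.
-/

set_option autoImplicit false

open CategoryTheory CategoryTheory.Limits groupCohomology Rep

namespace Fermat.Agent.S55.helper84

/-- FG6 (Tate's theorem) is available. -/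
theorem tateStatement : TateStatement :=
  fun G _ _ C h1 γ hc hg =>
    helper83.isZero_H3_of_fundamentalClass_of_infRes
      (fun _ _ S _ A h1 h2 => helper61.infH_resH_three_exact S A h1 h2) G C h1 γ hc hg

/-- FG1.c (corestriction) is available. -/
theorem corStatement : CorStatement :=
  fun _ _ S _ A n => helper46.exists_cor S A n

/-- LOC-6 (local Tate theorem `H³(Gal(L/K), Lˣ) = 0`), conditional on LOC-4 only. -/
theorem subsingleton_H3_of_loc4 (q : ℕ) [Fact q.Prime] (K : Type) [Field K] [Algebra ℚ_[q] K]
    [FiniteDimensional ℚ_[q] K] (L : Type) [Field L] [Algebra K L] [FiniteDimensional K L]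
    [IsGalois K L] (hcard : CardH2Statement q) (hgen : GenH2Statement q) :
    Subsingleton (groupCohomology (Rep.ofAlgebraAutOnUnits K L) 3) :=
  subsingleton_H3_of_cor q K L tateStatement corStatement hcard hgen

end Fermat.Agent.S55.helper84
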