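import Fermat.Agent.S55.helper8_LocUpper
import Fermat.Agent.S55.helper84_LocalTate2
import Fermat.Agent.S55.helper57_LocTameFinal

/-!
# S55 / LOC (helper8): final unconditional statements of LOC-4, LOC-5, LOC-6

One-stop import for consumers of the local class field theory module:

* `card_H2`, `exists_generator_H2` (LOC-4, in `helper8_LocUpper`);
* `nonempty_locInv : Nonempty helper11.LocInv` (LOC-5, in `helper8_LocUpper`);
* `exists_inv_eq` (LOC-5t): the image of `inv` is the `[L:K]`-torsion of `ℚ/ℤ`;
* `subsingleton_H3` (LOC-6): the local Tate theorem `H³(Gal(L/K), Lˣ) = 0`.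
-/

set_option autoImplicit false
set_option linter.unusedSectionVars false

namespace Fermat.Agent.S55.helper8

open Fermat.Agent.S55.helper11 groupCohomology

variable (q : ℕ) [Fact q.Prime]

/-- **LOC-6** (local Tate theorem), unconditional. -/
theorem subsingleton_H3 (K : Type) [Field K] [Algebra ℚ_[q] K] [FiniteDimensional ℚ_[q] K]
    (L : Type) [Field L] [Algebra K L] [FiniteDimensional K L] [IsGalois K L] :
    Subsingleton (groupCohomology (Rep.ofAlgebraAutOnUnits K L) 3) :=
  helper84.subsingleton_H3_of_loc4 q K L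
    (fun K _ _ _ L _ _ _ _ => card_H2 q K L)
    (fun K _ _ _ L _ _ _ _ => exists_generator_H2 q K L)

/-- **LOC-5t**: the image of `inv` is the `[L:K]`-torsion of `ℚ/ℤ`, unconditional. -/
theorem exists_inv_eq (I : LocInv) (K L : Type) [Field K] [Field L] [Algebra ℚ_[q] K]
    [Algebra ℚ_[q] L] [Algebra K L] [IsScalarTower ℚ_[q] K L] [FiniteDimensional ℚ_[q] K]
    [FiniteDimensional K L] [IsGalois K L] (r : QZ) (hr : Module.finrank K L • r = 0) :
    ∃ x : groupCohomology.H2 (Rep.ofAlgebraAutOnUnits K L), I.inv q K L x = r :=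
  helper57.exists_inv_eq_of_card q I K L (card_H2 q K L) r hr

end Fermat.Agent.S55.helper8
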