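import Fermat.Agent.S55.helper8_LocDefs
import Fermat.Agent.S55.helper96_CyclicH2

/-!
# S55 / LOC-2b (helper96): cohomology of unramified extensions

* `isMulCocycle₂_cyclicCochain`, `cyclicClass_mul`, `cyclicClass_surjective` : for a finite cyclic
  Galois extension `L/K` with generator `φ`, `b ↦ cyclicClass K L φ b` is a surjective
  homomorphism `Kˣ → H²(Gal(L/K), Lˣ)` (pure algebra, unconditional);
* `UnramInputs` : the statements of LOC-0, LOC-2a, LOC-3 that are used, as a `Prop`-structure;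
* `exists_norm_eq_of_isUnram_of`, `exists_inv_of_isUnram_of` : the two LOC-2b statements,
  conditional on `UnramInputs`.
-/

set_option autoImplicit false

namespace Fermat.Agent.S55.helper96

open Fermat.Agent.S55.helper8 groupCohomology

section bridge

variable (K L : Type) [Field K] [Field L] [Algebra K L]

theorem dlogAut_eq (φ σ : L ≃ₐ[K] L) : dlogAut K L φ σ = dlogG φ σ := rfl

theorem cyclicCochain_eq (φ : L ≃ₐ[K] L) (b : Kˣ) :
    cyclicCochain K L φ b = cycG φ (Units.map (algebraMap K L : K →* L) b) := rfl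

theorem smul_map_algebraMap (σ : L ≃ₐ[K] L) (b : Kˣ) :
    σ • Units.map (algebraMap K L : K →* L) b = Units.map (algebraMap K L : K →* L) b := by
  ext
  simp

variable [FiniteDimensional K L]

theorem isMulCocycle₂_cyclicCochain (φ : L ≃ₐ[K] L) (hgen : ∀ σ : L ≃ₐ[K] L, σ ∈ Subgroup.zpowers φ)
    (b : Kˣ) : IsMulCocycle₂ (cyclicCochain K L φ b) := by
  rw [cyclicCochain_eq]
  exact isMulCocycle₂_cycG (orderOf_pos φ) hgen (smul_map_algebraMap K L φ b)

theorem cyclicClass_eq (φ : L ≃ₐ[K] L) (hgen : ∀ σ : L ≃ₐ[K] L, σ ∈ Subgroup.zpowers φ)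
    (b : Kˣ) :
    cyclicClass K L φ b = H2π (Rep.ofMulDistribMulAction (L ≃ₐ[K] L) Lˣ)
      (cocyclesOfIsMulCocycle₂ (isMulCocycle₂_cyclicCochain K L φ hgen b)) := by
  rw [cyclicClass, dif_pos (isMulCocycle₂_cyclicCochain K L φ hgen b)]
  rfl

theorem cyclicClass_mul (φ : L ≃ₐ[K] L) (hgen : ∀ σ : L ≃ₐ[K] L, σ ∈ Subgroup.zpowers φ)
    (b b' : Kˣ) :
    cyclicClass K L φ (b * b') = cyclicClass K L φ b + cyclicClass K L φ b' := by
  rw [cyclicClass_eq K L φ hgen, cyclicClass_eq K L φ hgen, cyclicClass_eq K L φ hgen]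
  show _ = (H2π (Rep.ofMulDistribMulAction (L ≃ₐ[K] L) Lˣ)).hom _ + 
    (H2π (Rep.ofMulDistribMulAction (L ≃ₐ[K] L) Lˣ)).hom _
  rw [← map_add]
  show (H2π (Rep.ofMulDistribMulAction (L ≃ₐ[K] L) Lˣ)).hom _ = _
  congr 1
  apply Subtype.ext
  funext p
  show Additive.ofMul (cyclicCochain K L φ (b * b') p)
    = Additive.ofMul (cyclicCochain K L φ b p) + Additive.ofMul (cyclicCochain K L φ b' p)
  rw [← ofMul_mul]
  congr 1
  simp only [cyclicCochain, map_mul, mul_pow]

theorem cyclicClass_surjective [IsGalois K L] (φ : L ≃ₐ[K] L)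
    (hgen : ∀ σ : L ≃ₐ[K] L, σ ∈ Subgroup.zpowers φ)
    (x : H2 (Rep.ofAlgebraAutOnUnits K L)) : ∃ b : Kˣ, cyclicClass K L φ b = x := by
  change H2 (Rep.ofMulDistribMulAction (L ≃ₐ[K] L) Lˣ) at x
  induction x using H2_induction_on with
  | h c =>
    have hc : IsMulCocycle₂ (M := Lˣ) (G := L ≃ₐ[K] L) (Additive.toMul ∘ c.1) :=
      isMulCocycle₂_of_mem_cocycles₂ (M := Lˣ) (G := L ≃ₐ[K] L) c.1 c.2
    obtain ⟨b, hb, y, hy⟩ := exists_cycG_of_isMulCocycle₂ (orderOf_pos φ) hgen hc
    -- b comes from K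
    have hb' : ∀ σ : L ≃ₐ[K] L, σ (b : L) = (b : L) := fun σ => by
      have := smul_eq_of_gen hgen hb σ
      have h2 := congrArg Units.val this
      simpa using h2
    obtain ⟨b0, hb0⟩ := (IsGalois.mem_range_algebraMap_iff_fixed (F := K) (E := L) (b : L)).mpr hb'
    have hb0ne : b0 ≠ 0 := by
      rintro rfl
      rw [map_zero] at hb0
      exact b.ne_zero hb0.symm
    refine ⟨Units.mk0 b0 hb0ne, ?_⟩
    have hbb : Units.map (algebraMap K L : K →* L) (Units.mk0 b0 hb0ne) = b := by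
      ext
      simpa using hb0
    rw [cyclicClass_eq K L φ hgen]
    refine ((H2π_eq_iff (A := Rep.ofMulDistribMulAction (L ≃ₐ[K] L) Lˣ) _ _).mpr ?_).symm
    refine ⟨fun g => Additive.ofMul (y g), ?_⟩
    funext p
    obtain ⟨g, h⟩ := p
    have := hy g h
    rw [← hbb, ← cyclicCochain_eq] at this
    exact congrArg Additive.ofMul this

end bridge

section generic

theorem exists_mulEquiv_of_ker_eq {G A B : Type*} [Group G] [Group A] [Group B]
    (f : G →* A) (g : G →* B) (hf : Function.Surjective f) (hg : Function.Surjective g)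
    (hker : f.ker = g.ker) : ∃ e : A ≃* B, ∀ x, e (f x) = g x := by
  refine ⟨(QuotientGroup.quotientKerEquivOfSurjective f hf).symm.trans
    ((QuotientGroup.quotientMulEquivOfEq hker).trans
      (QuotientGroup.quotientKerEquivOfSurjective g hg)), fun x => ?_⟩
  have h1 : (QuotientGroup.quotientKerEquivOfSurjective f hf).symm (f x)
      = (QuotientGroup.mk x : G ⧸ f.ker) := by
    rw [MulEquiv.symm_apply_eq]
    rfl
  simp only [MulEquiv.trans_apply, h1]
  rfl

end generic

section unram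

variable (q : ℕ) [Fact q.Prime]
variable (K : Type) [Field K] [Algebra ℚ_[q] K] [FiniteDimensional ℚ_[q] K]
variable (L : Type) [Field L] [Algebra ℚ_[q] L] [Algebra K L] [IsScalarTower ℚ_[q] K L]
  [FiniteDimensional K L]

/-- The inputs from LOC-0 (valuation), LOC-2a (unramified extensions) and LOC-3 (cyclic
extensions) used by LOC-2b, stated exactly as in the LOC interface. -/
structure UnramInputs : Prop where
  ordK_mul : ∀ a b : Kˣ, ord q K (a * b) = ord q K a + ord q K b
  exists_ordK_one : ∃ π : Kˣ, ord q K π = 1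
  mem_unitGroupK : ∀ a : Kˣ, a ∈ unitGroup q K ↔ ord q K a = 0
  mem_unitGroupL : ∀ a : Lˣ, a ∈ unitGroup q L ↔ ord q L a = 0
  ord_norm : ∀ a : Lˣ, ord q K (normUnits K L a) = (relF q K L : ℤ) * ord q L a
  relE_mul_relF : relE q K L * relF q K L = Module.finrank K L
  isUnram_iff : IsUnram q K L ↔ relE q K L = 1
  isGalois : IsUnram q K L → IsGalois K L
  exists_frob : IsUnram q K L → ∃ φ : L ≃ₐ[K] L, IsFrob q K L φ ∧
    (∀ σ : L ≃ₐ[K] L, σ ∈ Subgroup.zpowers φ) ∧
    orderOf φ = Module.finrank K L ∧ ∀ ψ : L ≃ₐ[K] L, IsFrob q K L ψ → ψ = φ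
  card_norm : ∀ [IsGalois K L] [IsCyclic (L ≃ₐ[K] L)],
    Nat.card (Kˣ ⧸ (normUnits K L).range) = Module.finrank K L
  cyclicClass_zero : ∀ [IsGalois K L] (φ : L ≃ₐ[K] L),
    (∀ σ : L ≃ₐ[K] L, σ ∈ Subgroup.zpowers φ) →
    ∀ b : Kˣ, cyclicClass K L φ b = 0 ↔ b ∈ (normUnits K L).range

variable {q K L}

/-- `ord` as a monoid homomorphism. -/
noncomputable def ordHom (hmul : ∀ a b : Kˣ, ord q K (a * b) = ord q K a + ord q K b) :
    Kˣ →* Multiplicative ℤ :=
  MonoidHom.mk' (fun a => Multiplicative.ofAdd (ord q K a)) (fun a b => by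
    rw [hmul, ofAdd_add])

/-- `ord mod n` as a monoid homomorphism. -/
noncomputable def ordModHom (hmul : ∀ a b : Kˣ, ord q K (a * b) = ord q K a + ord q K b)
    (n : ℕ) : Kˣ →* Multiplicative (ZMod n) :=
  (AddMonoidHom.toMultiplicative (Int.castAddHom (ZMod n))).comp (ordHom hmul)

theorem ordModHom_apply (hmul : ∀ a b : Kˣ, ord q K (a * b) = ord q K a + ord q K b)
    (n : ℕ) (a : Kˣ) :
    ordModHom hmul n a = Multiplicative.ofAdd ((ord q K a : ℤ) : ZMod n) := rfl

theorem ordModHom_surjective (hmul : ∀ a b : Kˣ, ord q K (a * b) = ord q K a + ord q K b)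
    (hπ : ∃ π : Kˣ, ord q K π = 1) (n : ℕ) : Function.Surjective (ordModHom hmul n) := by
  obtain ⟨π, hπ⟩ := hπ
  intro x
  obtain ⟨k, hk⟩ := ZMod.intCast_surjective (Multiplicative.toAdd x)
  refine ⟨π ^ k, ?_⟩
  rw [map_zpow, ordModHom_apply, hπ, ← ofAdd_zsmul, Int.cast_one, zsmul_one, hk]
  rfl

theorem relF_eq_finrank (I : UnramInputs q K L) (h : IsUnram q K L) :
    relF q K L = Module.finrank K L := by
  have h1 := I.isUnram_iff.mp h
  have h2 := I.relE_mul_relF
  rw [h1, one_mul] at h2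
  exact h2

theorem range_norm_le (I : UnramInputs q K L) (h : IsUnram q K L) :
    (normUnits K L).range ≤ (ordModHom I.ordK_mul (Module.finrank K L)).ker := by
  rintro _ ⟨a, rfl⟩
  rw [MonoidHom.mem_ker, ordModHom_apply, I.ord_norm, relF_eq_finrank I h]
  simp

theorem range_norm_eq (I : UnramInputs q K L) (h : IsUnram q K L) :
    (normUnits K L).range = (ordModHom I.ordK_mul (Module.finrank K L)).ker := by
  have hn : 0 < Module.finrank K L := Module.finrank_pos
  haveI : NeZero (Module.finrank K L) := ⟨hn.ne'⟩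
  haveI := I.isGalois h
  obtain ⟨φ, -, hgen, -, -⟩ := I.exists_frob h
  haveI : IsCyclic (L ≃ₐ[K] L) := ⟨φ, fun σ => by
    obtain ⟨k, hk⟩ := Subgroup.mem_zpowers_iff.mp (hgen σ)
    exact ⟨k, hk⟩⟩
  have hle := range_norm_le I h
  have h1 : (normUnits K L).range.index = Module.finrank K L := by
    rw [Subgroup.index_eq_card]
    exact I.card_norm
  have h2 : (ordModHom I.ordK_mul (Module.finrank K L)).ker.index = Module.finrank K L := by
    rw [Subgroup.index_ker, MonoidHom.range_eq_top.mpr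
      (ordModHom_surjective I.ordK_mul I.exists_ordK_one _)]
    simp [Nat.card_eq_fintype_card, ZMod.card]
  have h3 := Subgroup.relIndex_mul_index hle
  rw [h1, h2] at h3
  have h4 : (normUnits K L).range.relIndex
      (ordModHom I.ordK_mul (Module.finrank K L)).ker = 1 := by
    have := Nat.eq_of_mul_eq_mul_right hn (by rw [h3, one_mul] :
      (normUnits K L).range.relIndex (ordModHom I.ordK_mul (Module.finrank K L)).ker
        * Module.finrank K L = 1 * Module.finrank K L)
    exact this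
  exact le_antisymm hle (Subgroup.relIndex_eq_one.mp h4)

/-- LOC-2b (1), conditional form: in an unramified extension every unit is a norm of a unit. -/
theorem exists_norm_eq_of_isUnram_of (I : UnramInputs q K L) (h : IsUnram q K L) (u : Kˣ)
    (hu : u ∈ unitGroup q K) :
    ∃ w : Lˣ, w ∈ unitGroup q L ∧ normUnits K L w = u := by
  have hn : 0 < Module.finrank K L := Module.finrank_pos
  have hu0 := (I.mem_unitGroupK u).mp hu
  have hmem : u ∈ (ordModHom I.ordK_mul (Module.finrank K L)).ker := by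
    rw [MonoidHom.mem_ker, ordModHom_apply, hu0]
    simp
  rw [← range_norm_eq I h] at hmem
  obtain ⟨w, hw⟩ := hmem
  refine ⟨w, (I.mem_unitGroupL w).mpr ?_, hw⟩
  have h1 := I.ord_norm w
  rw [hw, hu0, relF_eq_finrank I h] at h1
  rcases mul_eq_zero.mp h1.symm with h2 | h2
  · exact absurd (by exact_mod_cast h2) hn.ne'
  · exact h2

/-- LOC-2b (2), conditional form: `H²(Gal(L/K), Lˣ) ≃ ℤ/n` for unramified `L/K`, normalised
on cyclic classes. -/
theorem exists_inv_of_isUnram_of (I : UnramInputs q K L) (h : IsUnram q K L) (φ : L ≃ₐ[K] L)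
    (hφ : IsFrob q K L φ) :
    ∃ e : groupCohomology.H2 (Rep.ofAlgebraAutOnUnits K L) ≃+ ZMod (Module.finrank K L),
      ∀ b : Kˣ, e (cyclicClass K L φ b) = ((ord q K b : ℤ) : ZMod (Module.finrank K L)) := by
  haveI := I.isGalois h
  obtain ⟨φ₀, -, hgen₀, -, huniq⟩ := I.exists_frob h
  obtain rfl : φ = φ₀ := huniq φ hφ
  let f : Kˣ →* Multiplicative (groupCohomology.H2 (Rep.ofAlgebraAutOnUnits K L)) :=
    MonoidHom.mk' (fun b => Multiplicative.ofAdd (cyclicClass K L φ b)) (fun a b => by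
      rw [cyclicClass_mul K L φ hgen₀, ofAdd_add])
  have hf : Function.Surjective f := fun x => by
    obtain ⟨b, hb⟩ := cyclicClass_surjective K L φ hgen₀ (Multiplicative.toAdd x)
    exact ⟨b, by simp only [f, MonoidHom.mk'_apply, hb]; rfl⟩
  have hker : f.ker = (ordModHom I.ordK_mul (Module.finrank K L)).ker := by
    rw [← range_norm_eq I h]
    ext b
    rw [MonoidHom.mem_ker, ← I.cyclicClass_zero φ hgen₀ b]
    rfl
  obtain ⟨e, he⟩ := exists_mulEquiv_of_ker_eq f _ hf
    (ordModHom_surjective I.ordK_mul I.exists_ordK_one _) hker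
  refine ⟨AddEquiv.toMultiplicative.symm e, fun b => ?_⟩
  exact he b

end unram

end Fermat.Agent.S55.helper96
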