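import Fermat.Agent.S55.helper4_Rec3SurjDefs
import Fermat.Agent.S55.helper8_LocFinal
import Fermat.Agent.S55.helper1_Symbol
import Fermat.Agent.S55.helper96_LocUnramCoh

/-!
# S55 / REC3 R3-LOC-SURJ-FIN: classes killed by `p ^ n` are symbols (helper33, task 659)

`finChi p : helper4.FinChiStatement p`: for a finite Galois extension `M/K` of `q`-adic fields
and a character `χ : Gal(M/K) → ℤ/N` whose image has order divisible by `p ^ n`, every class of
`H²(Gal(M/K), Mˣ)` killed by `p ^ n` is a symbol `(χ, b)`, `b ∈ Kˣ`.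

* `exists_gen_of_injective` : a finite group embedded in `ℤ/N` by `χ` is cyclic, generated by the
  `φ` with `χ φ = t`, `N = |G| t`;
* `exists_chiClass_eq_of_gen` : for a cyclic extension with generator `φ` and `χ φ = t`,
  `N = ord φ · t`, every class of `H²` is a symbol `(χ, b)`;
* `exists_chiClass_eq_of_intermediate` : inflation from the cyclic subextension cut out by `χ`;
* `finChi`.
-/

set_option autoImplicit false
set_option linter.style.haveILetI false
set_option linter.unusedSectionVars false

open groupCohomology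

noncomputable section

namespace Fermat.Agent.S55.helper33

open Fermat.Agent.S55 Fermat.Agent.S55.helper8 Fermat.Agent.S55.helper11

/-! ## A finite subgroup of `ℤ/N` -/

/-- A finite group embedded in `ℤ/N` is cyclic of order `d ∣ N`, generated by the element mapping
to `N / d`. -/
theorem exists_gen_of_injective {G : Type*} [Group G] [Finite G] (N : ℕ) (hN : 0 < N)
    (χ : G →* Multiplicative (ZMod N)) (hinj : Function.Injective χ) :
    ∃ (φ : G) (t : ℕ), 0 < t ∧ N = orderOf φ * t ∧ (∀ σ : G, σ ∈ Subgroup.zpowers φ) ∧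
      χ φ = Multiplicative.ofAdd ((t : ℕ) : ZMod N) ∧ orderOf φ = Nat.card G := by
  haveI : NeZero N := ⟨hN.ne'⟩
  set d := Nat.card G with hd
  have hd0 : 0 < d := Nat.card_pos
  -- `d ∣ N`
  have hdN : d ∣ N := by
    have h1 : Nat.card χ.range = d :=
      (Nat.card_congr (MonoidHom.ofInjective hinj).toEquiv).symm
    have h2 := Subgroup.card_subgroup_dvd_card χ.range
    rw [h1] at h2
    have h3 : Nat.card (Multiplicative (ZMod N)) = N := by
      rw [Nat.card_congr Multiplicative.toAdd, Nat.card_eq_fintype_card, ZMod.card]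
    rwa [h3] at h2
  obtain ⟨t, ht⟩ := hdN
  have ht0 : 0 < t := by
    rcases Nat.eq_zero_or_pos t with h | h
    · rw [h, mul_zero] at ht; omega
    · exact h
  -- `t` divides all values
  have hval : ∀ g : G, t ∣ (Multiplicative.toAdd (χ g)).val := by
    intro g
    have h1 : g ^ d = 1 := pow_card_eq_one'
    have h2 : χ g ^ d = 1 := by rw [← map_pow, h1, map_one]
    have h3 : d • Multiplicative.toAdd (χ g) = 0 := by
      have := congrArg Multiplicative.toAdd h2
      simpa using this
    have h4 : ((d * (Multiplicative.toAdd (χ g)).val : ℕ) : ZMod N) = 0 := by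
      rw [Nat.cast_mul, ZMod.natCast_zmod_val, ← nsmul_eq_mul]
      exact h3
    rw [ZMod.natCast_eq_zero_iff] at h4
    obtain ⟨c, hc⟩ := h4
    have h5 : d * (Multiplicative.toAdd (χ g)).val = d * (t * c) := by
      rw [hc, ← mul_assoc]
      exact congrArg (· * c) ht
    exact ⟨c, Nat.eq_of_mul_eq_mul_left hd0 h5⟩
  have hlt : ∀ g : G, (Multiplicative.toAdd (χ g)).val / t < d := by
    intro g
    rw [Nat.div_lt_iff_lt_mul ht0, ← ht]
    exact ZMod.val_lt _
  -- the injective map `G → Fin d`
  let f : G → Fin d := fun g => ⟨(Multiplicative.toAdd (χ g)).val / t, hlt g⟩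
  have hf : Function.Injective f := by
    intro g g' h
    have h1 : (Multiplicative.toAdd (χ g)).val / t = (Multiplicative.toAdd (χ g')).val / t :=
      congrArg Fin.val h
    have h2 : (Multiplicative.toAdd (χ g)).val = (Multiplicative.toAdd (χ g')).val := by
      rw [← Nat.div_mul_cancel (hval g), ← Nat.div_mul_cancel (hval g'), h1]
    apply hinj
    apply Multiplicative.toAdd.injective
    exact ZMod.val_injective N h2
  have hbij : Function.Bijective f := by
    haveI : Fintype G := Fintype.ofFinite G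
    rw [Fintype.bijective_iff_injective_and_card]
    refine ⟨hf, ?_⟩
    rw [Fintype.card_fin, ← Nat.card_eq_fintype_card]
  obtain ⟨φ, hφ⟩ := hbij.2 ⟨1 % d, Nat.mod_lt _ hd0⟩
  have hφ1 : (Multiplicative.toAdd (χ φ)).val / t = 1 % d := congrArg Fin.val hφ
  have hφ2 : (Multiplicative.toAdd (χ φ)).val = 1 % d * t := by
    rw [← hφ1, Nat.div_mul_cancel (hval φ)]
  have hχφ : χ φ = Multiplicative.ofAdd ((t : ℕ) : ZMod N) := by
    apply Multiplicative.toAdd.injective
    rw [toAdd_ofAdd, ← ZMod.natCast_zmod_val (Multiplicative.toAdd (χ φ)), hφ2]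
    rcases Nat.lt_or_ge 1 d with h | h
    · rw [Nat.mod_eq_of_lt h, one_mul]
    · have hd1 : d = 1 := le_antisymm h hd0
      rw [hd1, Nat.mod_self, zero_mul, Nat.cast_zero]
      symm
      rw [ZMod.natCast_eq_zero_iff, ht, hd1, one_mul]
  have hord : orderOf φ = d := by
    rw [← orderOf_injective χ hinj φ, hχφ, orderOf_ofAdd_eq_addOrderOf,
      ZMod.addOrderOf_coe t hN.ne', ht, Nat.gcd_mul_left_left, Nat.mul_div_cancel _ ht0]
  refine ⟨φ, t, ht0, by rw [hord]; exact ht, ?_, hχφ, hord⟩
  have htop : Subgroup.zpowers φ = ⊤ := by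
    apply Subgroup.eq_top_of_card_eq
    rw [Nat.card_zpowers, hord]
  intro σ
  rw [htop]
  exact Subgroup.mem_top σ

/-! ## Symbols in a cyclic extension -/

section field

variable (K L : Type) [Field K] [Field L] [Algebra K L] [FiniteDimensional K L] [IsGalois K L]

/-- In a cyclic extension with generator `φ`, every class of `H²(Gal(L/K), Lˣ)` is a symbol
`(χ, b)` for the character `χ` with values in `ℤ/N`, `N = ord φ · t`, `χ φ = t`. -/
theorem exists_chiClass_eq_of_gen (φ : L ≃ₐ[K] L)
    (hφ : ∀ σ : L ≃ₐ[K] L, σ ∈ Subgroup.zpowers φ) (t : ℕ) (ht : 0 < t) (N : ℕ)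
    (hN : N = orderOf φ * t) (χ : (L ≃ₐ[K] L) →* Multiplicative (ZMod N))
    (hχ : χ φ = Multiplicative.ofAdd ((t : ℕ) : ZMod N))
    (y : groupCohomology.H2 (Rep.ofAlgebraAutOnUnits K L)) :
    ∃ b : Kˣ, y = chiClass K L N χ b := by
  subst hN
  have hfin : 0 < orderOf φ := orderOf_pos φ
  obtain ⟨b, hb⟩ := helper96.cyclicClass_surjective K L φ hφ y
  obtain ⟨χφ, hχφ⟩ := helper1.exists_dlogChar K L φ hφ
  refine ⟨b, ?_⟩
  rw [← hb, helper1.cyclicClass_eq_chiClass K L φ hφ χφ hχφ b]
  symm
  apply helper1.chiClass_cast K L (orderOf φ) t hfin ht χφ χ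
  intro g
  rw [helper1.chiVal_eq_dlog K L φ hφ χφ hχφ g]
  have h1 : dlogAut K L φ g = helper96.dlogG φ g := rfl
  rw [h1]
  have h2 := helper96.pow_dlogG hfin hφ g
  have h3 : χ g = Multiplicative.ofAdd
      (((t * helper96.dlogG φ g : ℕ)) : ZMod (orderOf φ * t)) := by
    conv_lhs => rw [← h2]
    rw [map_pow, hχ, ← ofAdd_nsmul, nsmul_eq_mul, Nat.cast_mul,
      mul_comm ((t : ℕ) : ZMod (orderOf φ * t))]
  rw [h3, toAdd_ofAdd, ZMod.val_natCast, Nat.mod_eq_of_lt]
  rw [mul_comm (orderOf φ) t]
  exact Nat.mul_lt_mul_of_pos_left (helper96.dlogG_lt hfin hφ g) ht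

end field

/-! ## Inflation from the cyclic subextension cut out by the character -/

section qadic

variable (q : ℕ) [Fact q.Prime] (K M : Type) [Field K] [Field M] [Algebra ℚ_[q] K]
  [FiniteDimensional ℚ_[q] K] [Algebra ℚ_[q] M] [Algebra K M] [IsScalarTower ℚ_[q] K M]
  [FiniteDimensional K M] [IsGalois K M]

/-- `locHom K E K M` is the restriction `Gal(M/K) → Gal(E/K)`. -/
lemma locHom_intermediate (E : IntermediateField K M) [Normal K E] :
    locHom K E K M = AlgEquiv.restrictNormalHom (F := K) (K₁ := M) E := by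
  ext σ x
  rfl

include q in
/-- Every class of `H²(Gal(M/K), Mˣ)` killed by `[E : K]`, `E/K` a subextension with an
injective character `χE : Gal(E/K) → ℤ/N`, is a symbol `(χE ∘ res, b)`. -/
theorem exists_chiClass_eq_of_intermediate (E : IntermediateField K M) [IsGalois K E]
    (N : ℕ) (hN : 0 < N) (χE : (E ≃ₐ[K] E) →* Multiplicative (ZMod N))
    (hinj : Function.Injective χE)
    (x : groupCohomology.H2 (Rep.ofAlgebraAutOnUnits K M))
    (hx : Module.finrank K E • x = 0) :
    ∃ b : Kˣ, x = chiClass K M N (χE.comp (AlgEquiv.restrictNormalHom E)) b := by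
  obtain ⟨I⟩ := helper8.nonempty_locInv
  have hr : Module.finrank K E • I.inv q K M x = 0 := by rw [← map_nsmul, hx, map_zero]
  obtain ⟨y, hy⟩ := helper8.exists_inv_eq q I K E (I.inv q K M x) hr
  have hbc := I.baseChange q K E K M y
  rw [Module.finrank_self, one_smul, hy] at hbc
  have hxy : (locH K E K M 2).hom y = x := I.injective q K M hbc
  obtain ⟨φ, t, ht, hNt, hgen, hχφ, -⟩ := exists_gen_of_injective N hN χE hinj
  obtain ⟨b, hb⟩ := exists_chiClass_eq_of_gen K E φ hgen t ht N hNt χE hχφ y
  refine ⟨b, ?_⟩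
  rw [← hxy, hb, helper1.locH_chiClass K E K M N χE b, locHom_intermediate K M E]
  congr 1

/-- **SURJ-FIN**: classes killed by `p ^ n` are symbols `(χ, b)` as soon as the image of `χ`
has order divisible by `p ^ n`. -/
theorem finChi (p : ℕ) : helper4.FinChiStatement p := by
  intro q _ K M _ _ _ _ _ _ _ _ _ N hN χ n hdvd x hx
  have hsurj : Function.Surjective
      (AlgEquiv.restrictNormalHom (F := K) (K₁ := M) (IntermediateField.fixedField χ.ker)) :=
    AlgEquiv.restrictNormalHom_surjective M
  have hker : (AlgEquiv.restrictNormalHom (F := K) (K₁ := M)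
      (IntermediateField.fixedField χ.ker)).ker = χ.ker := by
    rw [IntermediateField.restrictNormalHom_ker, IntermediateField.fixingSubgroup_fixedField]
  obtain ⟨χE, hcomp⟩ : ∃ χE : (IntermediateField.fixedField χ.ker ≃ₐ[K]
      IntermediateField.fixedField χ.ker) →* Multiplicative (ZMod N),
      χE.comp (AlgEquiv.restrictNormalHom (F := K) (K₁ := M)
        (IntermediateField.fixedField χ.ker)) = χ :=
    ⟨(AlgEquiv.restrictNormalHom (F := K) (K₁ := M)
        (IntermediateField.fixedField χ.ker)).liftOfSurjective hsurj ⟨χ, hker.le⟩,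
      MonoidHom.liftOfRightInverse_comp _ _ _ ⟨χ, hker.le⟩⟩
  have hinj : Function.Injective χE := by
    rw [injective_iff_map_eq_one]
    intro τ hτ
    obtain ⟨σ, rfl⟩ := hsurj τ
    have h1 : χ σ = 1 := by rw [← hcomp]; exact hτ
    have h2 : σ ∈ χ.ker := h1
    rw [← hker] at h2
    exact h2
  have hdeg : Module.finrank K (IntermediateField.fixedField χ.ker) = Nat.card χ.range := by
    rw [← IsGalois.card_aut_eq_finrank K (IntermediateField.fixedField χ.ker)]
    have h1 : χ.range = χE.range := by
      conv_lhs => rw [← hcomp]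
      rw [MonoidHom.range_comp, MonoidHom.range_eq_top.2 hsurj, ← MonoidHom.range_eq_map]
    rw [h1]
    exact Nat.card_congr (MonoidHom.ofInjective hinj).toEquiv
  have hx' : Module.finrank K (IntermediateField.fixedField χ.ker) • x = 0 := by
    rw [hdeg]
    obtain ⟨c, hc⟩ := hdvd
    rw [hc, mul_comm, mul_smul, hx, smul_zero]
  obtain ⟨b, hb⟩ := exists_chiClass_eq_of_intermediate q K M
    (IntermediateField.fixedField χ.ker) N hN χE hinj x hx'
  exact ⟨b, by rw [hb, hcomp]⟩

end qadic

end Fermat.Agent.S55.helper33
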