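import Fermat.Agent.S55.helper59_BDefs2
import Fermat.Agent.S55.helper69_BArLev

/-!
# S55 module B, package B-AR-DIC-G (helper7, task 362): the global level dictionary

`S`-level-constant cochains on `U = Gal(ℚbar/F)` are exactly the inflations of cochains on
`Gal(E/F)`, `E/F` finite Galois with `E/ℚ` unramified outside `S`.
Statements VERBATIM from `helper59_BInterface2`: `isLev₁_glob_iff`, `isLev₂_glob_iff`,
`isLev₃_glob_iff`, `exists_level_ge`.
-/

set_option autoImplicit false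

open groupCohomology ExtCitation
open scoped NumberField

noncomputable section

namespace Fermat.Agent.S55.helper7

open Fermat.Agent.S55 Fermat.Agent.S55.helper59

local notation "Qbar" => AlgebraicClosure ℚ

/-! ## Factoring through a surjective homomorphism -/

section factor

variable {G Q : Type*} [Group G] [Group Q] {X : Type*} (π : G →* Q)

lemma surjInv_eq_mul (hπ : Function.Surjective π) (g : G) :
    ∃ s ∈ π.ker, Function.surjInv hπ (π g) = g * s := by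
  refine ⟨g⁻¹ * Function.surjInv hπ (π g), ?_, by rw [mul_inv_cancel_left]⟩
  rw [MonoidHom.mem_ker, map_mul, map_inv, Function.surjInv_eq hπ, inv_mul_cancel]

lemma exists_infl₁ (hπ : Function.Surjective π) (f : G → X)
    (h : ∀ g : G, ∀ s ∈ π.ker, f (g * s) = f g) : ∃ f' : Q → X, f = infl₁ π f' := by
  refine ⟨fun τ => f (Function.surjInv hπ τ), ?_⟩
  funext g
  obtain ⟨s, hs, e⟩ := surjInv_eq_mul π hπ g
  simp only [infl₁_apply, e, h g s hs]

lemma exists_infl₂ (hπ : Function.Surjective π) (f : G × G → X)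
    (h : ∀ g₁ g₂ : G, ∀ s₁ ∈ π.ker, ∀ s₂ ∈ π.ker, f (g₁ * s₁, g₂ * s₂) = f (g₁, g₂)) :
    ∃ f' : Q × Q → X, f = infl₂ π f' := by
  refine ⟨fun τ => f (Function.surjInv hπ τ.1, Function.surjInv hπ τ.2), ?_⟩
  funext ⟨g₁, g₂⟩
  obtain ⟨s₁, hs₁, e₁⟩ := surjInv_eq_mul π hπ g₁
  obtain ⟨s₂, hs₂, e₂⟩ := surjInv_eq_mul π hπ g₂
  simp only [infl₂_apply, e₁, e₂, h g₁ g₂ s₁ hs₁ s₂ hs₂]

lemma exists_infl₃ (hπ : Function.Surjective π) (f : G × G × G → X)
    (h : ∀ g₁ g₂ g₃ : G, ∀ s₁ ∈ π.ker, ∀ s₂ ∈ π.ker, ∀ s₃ ∈ π.ker,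
      f (g₁ * s₁, g₂ * s₂, g₃ * s₃) = f (g₁, g₂, g₃)) :
    ∃ f' : Q × Q × Q → X, f = infl₃ π f' := by
  refine ⟨fun τ => f (Function.surjInv hπ τ.1, Function.surjInv hπ τ.2.1,
    Function.surjInv hπ τ.2.2), ?_⟩
  funext ⟨g₁, g₂, g₃⟩
  obtain ⟨s₁, hs₁, e₁⟩ := surjInv_eq_mul π hπ g₁
  obtain ⟨s₂, hs₂, e₂⟩ := surjInv_eq_mul π hπ g₂
  obtain ⟨s₃, hs₃, e₃⟩ := surjInv_eq_mul π hπ g₃
  simp only [infl₃_apply, e₁, e₂, e₃, h g₁ g₂ g₃ s₁ hs₁ s₂ hs₂ s₃ hs₃]

lemma infl_mul_ker (g s : G) (hs : s ∈ π.ker) : π (g * s) = π g := by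
  rw [map_mul, MonoidHom.mem_ker.mp hs, mul_one]

end factor

/-! ## Finite levels over `F` -/

section levels

attribute [local instance] helper69.isAlgebraic_Qbar helper69.isAlgClosure_Qbar
  helper69.normal_Qbar

variable {S : Finset Nat.Primes} {F : IntermediateField ℚ Qbar}

instance normal_Qbar_over (F : IntermediateField ℚ Qbar) : Normal ↥F Qbar :=
  Normal.tower_top_of_normal ℚ ↥F Qbar

/-- the kernel of `resFix F E` is the trace on `U` of the fixing subgroup of `E` -/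
lemma ker_resFix (E : IntermediateField ↥F Qbar) [Normal ↥F ↥E] :
    (resFix F E).ker = (E.restrictScalars ℚ).fixingSubgroup.subgroupOf F.fixingSubgroup := by
  ext σ
  rw [mem_ker_resFix_iff, Subgroup.mem_subgroupOf, IntermediateField.mem_fixingSubgroup_iff]
  rfl

lemma le_restrictScalars (E : IntermediateField ↥F Qbar) : F ≤ E.restrictScalars ℚ := by
  intro x hx
  exact E.algebraMap_mem ⟨x, hx⟩

/-- a normal `S`-level `E₀ ⊇ F` of `ℚ` is a finite Galois level over `F` -/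
lemma exists_level_of_normal (E₀ : IntermediateField ℚ Qbar) (hE₀ : E₀.IsUnramifiedOutside S)
    (hn : E₀.fixingSubgroup.Normal) (hle : F ≤ E₀) :
    ∃ (E : IntermediateField ↥F Qbar) (_ : FiniteDimensional ↥F ↥E) (_ : IsGalois ↥F ↥E),
      E.restrictScalars ℚ = E₀ ∧ Normal ℚ ↥(E.restrictScalars ℚ) := by
  have hG : IsGalois ℚ Qbar := ⟨⟩
  have hgal : IsGalois ℚ E₀ := (InfiniteGalois.normal_iff_isGalois E₀).mp hn
  have hfin : FiniteDimensional ℚ E₀ := hE₀.1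
  have h1 : FiniteDimensional ℚ ↥(IntermediateField.extendScalars hle) := hfin
  have h2 : IsGalois ℚ ↥(IntermediateField.extendScalars hle) := hgal
  refine ⟨IntermediateField.extendScalars hle,
    FiniteDimensional.right ℚ ↥F ↥(IntermediateField.extendScalars hle),
    IsGalois.tower_top_of_isGalois ℚ ↥F ↥(IntermediateField.extendScalars hle), rfl, ?_⟩
  exact hgal.to_normal

/-- every finite level over `F` unramified outside `S` is contained in a normal `S`-level -/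
lemma exists_normal_ge (E : IntermediateField ↥F Qbar)
    (hE : (E.restrictScalars ℚ).IsUnramifiedOutside S) :
    ∃ E₀ : IntermediateField ℚ Qbar, E₀.IsUnramifiedOutside S ∧ E₀.fixingSubgroup.Normal ∧
      F ≤ E₀ ∧ E.restrictScalars ℚ ≤ E₀ := by
  obtain ⟨E₀, hle, hE₀, hn⟩ := helper69.exists_normal_isUnramifiedOutside hE
  exact ⟨E₀, hE₀, hn, (le_restrictScalars E).trans hle, hle⟩

/-- the `S`-level attached to a normal `S`-level `E₀ ⊇ E` is contained in the kernel of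
`resFix F E` -/
lemma subgroupOf_le_ker_resFix (E : IntermediateField ↥F Qbar) [Normal ↥F ↥E]
    (E₀ : IntermediateField ℚ Qbar) (hle : E.restrictScalars ℚ ≤ E₀) :
    E₀.fixingSubgroup.subgroupOf F.fixingSubgroup ≤ (resFix F E).ker := by
  rw [ker_resFix]
  intro σ hσ
  rw [Subgroup.mem_subgroupOf] at hσ ⊢
  exact IntermediateField.fixingSubgroup_antitone hle hσ

variable [FiniteDimensional ℚ F] {𝒩 : Levels (UF F)}

omit [FiniteDimensional ℚ F] in
/-- common core of the three dictionaries: an `S`-level is the kernel of some `resFix F E`,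
and every such kernel contains an `S`-level -/
lemma exists_level_ker_eq (h𝒩 : 𝒩.mem = sLevels S F) (N : Subgroup (UF F)) (hN : N ∈ 𝒩.mem) :
    ∃ (E : IntermediateField ↥F Qbar) (_ : FiniteDimensional ↥F ↥E) (_ : IsGalois ↥F ↥E),
      (E.restrictScalars ℚ).IsUnramifiedOutside S ∧ (resFix F E).ker = N := by
  rw [h𝒩] at hN
  obtain ⟨E₀, hE₀, hn, hle, rfl⟩ := hN
  obtain ⟨E, hfin, hgal, hres, -⟩ := exists_level_of_normal E₀ hE₀ hn hle
  refine ⟨E, hfin, hgal, hres ▸ hE₀, ?_⟩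
  rw [ker_resFix, hres]

omit [FiniteDimensional ℚ F] in
lemma exists_mem_le_ker (h𝒩 : 𝒩.mem = sLevels S F) (E : IntermediateField ↥F Qbar)
    [Normal ↥F ↥E] (hE : (E.restrictScalars ℚ).IsUnramifiedOutside S) :
    ∃ N ∈ 𝒩.mem, N ≤ (resFix F E).ker := by
  obtain ⟨E₀, hE₀, hn, hle, hle'⟩ := exists_normal_ge E hE
  refine ⟨E₀.fixingSubgroup.subgroupOf F.fixingSubgroup, ?_, subgroupOf_le_ker_resFix E E₀ hle'⟩
  rw [h𝒩]
  exact ⟨E₀, hE₀, hn, hle, rfl⟩

/-! ## B-AR-DIC-G : the statements -/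

theorem isLev₁_glob_iff (hF : F.IsUnramifiedOutside S) (h𝒩 : 𝒩.mem = sLevels S F)
    {X : Type*} (f : UF F → X) :
    IsLev₁ 𝒩 f ↔ ∃ (E : IntermediateField ↥F Qbar) (_ : FiniteDimensional ↥F ↥E)
      (_ : IsGalois ↥F ↥E), (E.restrictScalars ℚ).IsUnramifiedOutside S ∧
      ∃ f' : (E ≃ₐ[↥F] E) → X, f = infl₁ (resFix F E) f' := by
  constructor
  · rintro ⟨N, hN, h⟩
    obtain ⟨E, hfin, hgal, hE, hker⟩ := exists_level_ker_eq h𝒩 N hN
    refine ⟨E, hfin, hgal, hE, ?_⟩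
    exact exists_infl₁ (resFix F E) (resFix_surjective F E) f
      (fun g s hs => h g s (hker ▸ hs))
  · rintro ⟨E, hfin, hgal, hE, f', rfl⟩
    obtain ⟨N, hN, hle⟩ := exists_mem_le_ker h𝒩 E hE
    refine ⟨N, hN, fun g s hs => ?_⟩
    simp only [infl₁_apply, infl_mul_ker (resFix F E) g s (hle hs)]

theorem isLev₂_glob_iff (hF : F.IsUnramifiedOutside S) (h𝒩 : 𝒩.mem = sLevels S F)
    {X : Type*} (f : UF F × UF F → X) :
    IsLev₂ 𝒩 f ↔ ∃ (E : IntermediateField ↥F Qbar) (_ : FiniteDimensional ↥F ↥E)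
      (_ : IsGalois ↥F ↥E), (E.restrictScalars ℚ).IsUnramifiedOutside S ∧
      ∃ f' : (E ≃ₐ[↥F] E) × (E ≃ₐ[↥F] E) → X, f = infl₂ (resFix F E) f' := by
  constructor
  · rintro ⟨N, hN, h⟩
    obtain ⟨E, hfin, hgal, hE, hker⟩ := exists_level_ker_eq h𝒩 N hN
    refine ⟨E, hfin, hgal, hE, ?_⟩
    exact exists_infl₂ (resFix F E) (resFix_surjective F E) f
      (fun g₁ g₂ s₁ hs₁ s₂ hs₂ => h g₁ g₂ s₁ (hker ▸ hs₁) s₂ (hker ▸ hs₂))
  · rintro ⟨E, hfin, hgal, hE, f', rfl⟩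
    obtain ⟨N, hN, hle⟩ := exists_mem_le_ker h𝒩 E hE
    refine ⟨N, hN, fun g₁ g₂ s₁ hs₁ s₂ hs₂ => ?_⟩
    simp only [infl₂_apply, infl_mul_ker (resFix F E) g₁ s₁ (hle hs₁),
      infl_mul_ker (resFix F E) g₂ s₂ (hle hs₂)]

theorem isLev₃_glob_iff (hF : F.IsUnramifiedOutside S) (h𝒩 : 𝒩.mem = sLevels S F)
    {X : Type*} (f : UF F × UF F × UF F → X) :
    IsLev₃ 𝒩 f ↔ ∃ (E : IntermediateField ↥F Qbar) (_ : FiniteDimensional ↥F ↥E)
      (_ : IsGalois ↥F ↥E), (E.restrictScalars ℚ).IsUnramifiedOutside S ∧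
      ∃ f' : (E ≃ₐ[↥F] E) × (E ≃ₐ[↥F] E) × (E ≃ₐ[↥F] E) → X, f = infl₃ (resFix F E) f' := by
  constructor
  · rintro ⟨N, hN, h⟩
    obtain ⟨E, hfin, hgal, hE, hker⟩ := exists_level_ker_eq h𝒩 N hN
    refine ⟨E, hfin, hgal, hE, ?_⟩
    exact exists_infl₃ (resFix F E) (resFix_surjective F E) f
      (fun g₁ g₂ g₃ s₁ hs₁ s₂ hs₂ s₃ hs₃ =>
        h g₁ g₂ g₃ s₁ (hker ▸ hs₁) s₂ (hker ▸ hs₂) s₃ (hker ▸ hs₃))
  · rintro ⟨E, hfin, hgal, hE, f', rfl⟩
    obtain ⟨N, hN, hle⟩ := exists_mem_le_ker h𝒩 E hE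
    refine ⟨N, hN, fun g₁ g₂ g₃ s₁ hs₁ s₂ hs₂ s₃ hs₃ => ?_⟩
    simp only [infl₃_apply, infl_mul_ker (resFix F E) g₁ s₁ (hle hs₁),
      infl_mul_ker (resFix F E) g₂ s₂ (hle hs₂), infl_mul_ker (resFix F E) g₃ s₃ (hle hs₃)]

/-- any two finite levels are dominated by a third one -/
theorem exists_level_ge (hF : F.IsUnramifiedOutside S) (E₁ E₂ : IntermediateField ↥F Qbar)
    [FiniteDimensional ↥F ↥E₁] [FiniteDimensional ↥F ↥E₂]
    (h₁ : (E₁.restrictScalars ℚ).IsUnramifiedOutside S)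
    (h₂ : (E₂.restrictScalars ℚ).IsUnramifiedOutside S) :
    ∃ (E : IntermediateField ↥F Qbar) (_ : FiniteDimensional ↥F ↥E) (_ : IsGalois ↥F ↥E),
      (E.restrictScalars ℚ).IsUnramifiedOutside S ∧ E₁ ≤ E ∧ E₂ ≤ E ∧
      Normal ℚ ↥(E.restrictScalars ℚ) := by
  obtain ⟨E₀, hle, hE₀, hn⟩ := helper69.exists_normal_isUnramifiedOutside (h₁.sup h₂)
  have hF₀ : F ≤ E₀ := (le_restrictScalars E₁).trans (le_sup_left.trans hle)
  obtain ⟨E, hfin, hgal, hres, hnorm⟩ := exists_level_of_normal E₀ hE₀ hn hF₀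
  refine ⟨E, hfin, hgal, hres ▸ hE₀, ?_, ?_, hnorm⟩
  · intro x hx
    have : x ∈ E.restrictScalars ℚ := by
      rw [hres]
      exact hle (le_sup_left (a := E₁.restrictScalars ℚ) hx)
    exact this
  · intro x hx
    have : x ∈ E.restrictScalars ℚ := by
      rw [hres]
      exact hle (le_sup_right (b := E₂.restrictScalars ℚ) hx)
    exact this

/-! ## Transition maps between finite levels -/

omit [FiniteDimensional ℚ F] in
lemma ker_resFix_le_of_le (E E' : IntermediateField ↥F Qbar) [Normal ↥F ↥E] [Normal ↥F ↥E']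
    (h : E ≤ E') : (resFix F E').ker ≤ (resFix F E).ker := by
  intro σ hσ
  rw [mem_ker_resFix_iff] at hσ ⊢
  exact fun x hx => hσ x (h hx)

/-- the restriction `Gal(E'/F) → Gal(E/F)` for finite levels `E ≤ E'` -/
def resTrans (E E' : IntermediateField ↥F Qbar) [Normal ↥F ↥E] [Normal ↥F ↥E'] (h : E ≤ E') :
    (E' ≃ₐ[↥F] E') →* (E ≃ₐ[↥F] E) :=
  (resFix F E').liftOfSurjective (resFix_surjective F E')
    ⟨resFix F E, ker_resFix_le_of_le E E' h⟩

omit [FiniteDimensional ℚ F] in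
@[simp] lemma resTrans_resFix (E E' : IntermediateField ↥F Qbar) [Normal ↥F ↥E]
    [Normal ↥F ↥E'] (h : E ≤ E') (σ : UF F) :
    resTrans E E' h (resFix F E' σ) = resFix F E σ := by
  unfold resTrans
  exact MonoidHom.liftOfRightInverse_comp_apply _ _ _ _ σ

omit [FiniteDimensional ℚ F] in
lemma resTrans_surjective (E E' : IntermediateField ↥F Qbar) [Normal ↥F ↥E] [Normal ↥F ↥E']
    (h : E ≤ E') : Function.Surjective (resTrans E E' h) := by
  intro τ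
  obtain ⟨σ, rfl⟩ := resFix_surjective F E τ
  exact ⟨resFix F E' σ, resTrans_resFix E E' h σ⟩

omit [FiniteDimensional ℚ F] in
lemma resTrans_apply_coe (E E' : IntermediateField ↥F Qbar) [Normal ↥F ↥E] [Normal ↥F ↥E']
    (h : E ≤ E') (τ : E' ≃ₐ[↥F] E') (x : E) :
    ((resTrans E E' h τ x : E) : Qbar) = ((τ (IntermediateField.inclusion h x) : E') : Qbar) := by
  obtain ⟨σ, rfl⟩ := resFix_surjective F E' τ
  rw [resTrans_resFix, resFix_apply_coe, resFix_apply_coe]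
  rfl

omit [FiniteDimensional ℚ F] in
lemma infl₁_resTrans (E E' : IntermediateField ↥F Qbar) [Normal ↥F ↥E] [Normal ↥F ↥E']
    (h : E ≤ E') {X : Type*} (f' : (E ≃ₐ[↥F] E) → X) :
    infl₁ (resFix F E) f' = infl₁ (resFix F E') (infl₁ (resTrans E E' h) f') := by
  funext σ
  simp only [infl₁_apply, resTrans_resFix]

omit [FiniteDimensional ℚ F] in
lemma infl₂_resTrans (E E' : IntermediateField ↥F Qbar) [Normal ↥F ↥E] [Normal ↥F ↥E']
    (h : E ≤ E') {X : Type*} (f' : (E ≃ₐ[↥F] E) × (E ≃ₐ[↥F] E) → X) :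
    infl₂ (resFix F E) f' = infl₂ (resFix F E') (infl₂ (resTrans E E' h) f') := by
  funext ⟨σ₁, σ₂⟩
  simp only [infl₂_apply, resTrans_resFix]

omit [FiniteDimensional ℚ F] in
lemma infl₃_resTrans (E E' : IntermediateField ↥F Qbar) [Normal ↥F ↥E] [Normal ↥F ↥E']
    (h : E ≤ E') {X : Type*} (f' : (E ≃ₐ[↥F] E) × (E ≃ₐ[↥F] E) × (E ≃ₐ[↥F] E) → X) :
    infl₃ (resFix F E) f' = infl₃ (resFix F E') (infl₃ (resTrans E E' h) f') := by
  funext ⟨σ₁, σ₂, σ₃⟩
  simp only [infl₃_apply, resTrans_resFix]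

omit [FiniteDimensional ℚ F] in
/-- inflation from a finite level is injective on cochains -/
lemma infl₁_injective (E : IntermediateField ↥F Qbar) [Normal ↥F ↥E] {X : Type*} :
    Function.Injective (infl₁ (resFix F E) : ((E ≃ₐ[↥F] E) → X) → (UF F → X)) := by
  intro f₁ f₂ h
  funext τ
  obtain ⟨σ, rfl⟩ := resFix_surjective F E τ
  exact congrFun h σ

omit [FiniteDimensional ℚ F] in
lemma infl₂_injective (E : IntermediateField ↥F Qbar) [Normal ↥F ↥E] {X : Type*} :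
    Function.Injective
      (infl₂ (resFix F E) : ((E ≃ₐ[↥F] E) × (E ≃ₐ[↥F] E) → X) → (UF F × UF F → X)) := by
  intro f₁ f₂ h
  funext ⟨τ₁, τ₂⟩
  obtain ⟨σ₁, rfl⟩ := resFix_surjective F E τ₁
  obtain ⟨σ₂, rfl⟩ := resFix_surjective F E τ₂
  exact congrFun h (σ₁, σ₂)

omit [FiniteDimensional ℚ F] in
lemma infl₃_injective (E : IntermediateField ↥F Qbar) [Normal ↥F ↥E] {X : Type*} :
    Function.Injective
      (infl₃ (resFix F E) : ((E ≃ₐ[↥F] E) × (E ≃ₐ[↥F] E) × (E ≃ₐ[↥F] E) → X) →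
        (UF F × UF F × UF F → X)) := by
  intro f₁ f₂ h
  funext ⟨τ₁, τ₂, τ₃⟩
  obtain ⟨σ₁, rfl⟩ := resFix_surjective F E τ₁
  obtain ⟨σ₂, rfl⟩ := resFix_surjective F E τ₂
  obtain ⟨σ₃, rfl⟩ := resFix_surjective F E τ₃
  exact congrFun h (σ₁, σ₂, σ₃)

end levels

end Fermat.Agent.S55.helper7
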