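import Fermat.Agent.S55.helper59_BDefs3
import Fermat.Agent.S55.helper7_BArDicG
import Fermat.Agent.S55.helper85_Rec4BrDict

/-!
# S55 module B, package B-AR-REC-I3 (helper98, task 552)

* `unramAt_of_isUnramifiedOutside` : THE BRIDGE.  If `E/F` is finite Galois inside `ℚbar` and
  `E` is unramified outside `S` in the sense of the Prelude (inertia groups of valuation subrings
  of `ℚbar`), then `E/F` is unramified in the ideal-theoretic sense `helper11.UnramAt` at every
  prime of `F` which is not above `S`.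
* `reciprocity_B` : field (I3) of `BaseInput` from `MixedRec` (with `V = ∅`), verbatim from
  `helper59`'s `BInterface3`.
-/

set_option autoImplicit false
set_option linter.unusedSectionVars false
set_option linter.unusedFintypeInType false
set_option linter.style.haveILetI false

open groupCohomology ExtCitation
open scoped NumberField
open IsDedekindDomain

noncomputable section

namespace Fermat.Agent.S55.helper98

open Fermat.Agent.S55 Fermat.Agent.S55.helper59 Fermat.Agent.S14.helper91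

local instance factOfPrimesI3 (q : Nat.Primes) : Fact (q : ℕ).Prime := ⟨q.2⟩

local notation "Qbar" => AlgebraicClosure ℚ

/-- A nonzero prime of the ring of integers of a number field contains a prime number. -/
theorem exists_prime_natCast_mem_of_ne_bot {K : Type*} [Field K] [NumberField K]
    (w : Ideal (𝓞 K)) [w.IsPrime] (hw : w ≠ ⊥) : ∃ ℓ : ℕ, ℓ.Prime ∧ (ℓ : 𝓞 K) ∈ w := by
  haveI : w.IsMaximal := Ring.DimensionLEOne.maximalOfPrime hw inferInstance
  letI : Field (𝓞 K ⧸ w) := Ideal.Quotient.field w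
  haveI : Finite (𝓞 K ⧸ w) := Ideal.finiteQuotientOfFreeOfNeBot w hw
  obtain ⟨ℓ, hℓ⟩ := CharP.exists (𝓞 K ⧸ w)
  haveI := hℓ
  have hℓ0 : ℓ ≠ 0 := CharP.char_ne_zero_of_finite (𝓞 K ⧸ w) ℓ
  have hℓp : ℓ.Prime := (CharP.char_is_prime_or_zero (𝓞 K ⧸ w) ℓ).resolve_right hℓ0
  refine ⟨ℓ, hℓp, ?_⟩
  rw [← Ideal.Quotient.eq_zero_iff_mem, map_natCast]
  exact CharP.cast_eq_zero _ _

section Bridge

variable {S : Finset Nat.Primes} {F : IntermediateField ℚ Qbar} [NumberField ↥F]

/-- **THE BRIDGE**: Prelude-unramifiedness outside `S` implies ideal-theoretic unramifiedness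
at all primes of `F` not above `S`. -/
theorem unramAt_of_isUnramifiedOutside (E : IntermediateField ↥F Qbar)
    [FiniteDimensional ↥F ↥E] [IsGalois ↥F ↥E] [NumberField ↥E]
    (hE : (E.restrictScalars ℚ).IsUnramifiedOutside S)
    (v : HeightOneSpectrum (𝓞 ↥F)) (hv : v.asIdeal ∉ helper75.primesOverS (↥F) S) :
    helper11.UnramAt ↥F ↥E v := by
  intro P hP hPv σ hσ
  haveI := hP
  -- a prime number in `v`
  obtain ⟨ℓ, hℓ, hℓv⟩ := exists_prime_natCast_mem_of_ne_bot v.asIdeal v.ne_bot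
  have hℓP : (ℓ : 𝓞 ↥E) ∈ P := by
    have h1 : (ℓ : 𝓞 ↥F) ∈ P.under (𝓞 ↥F) := by rw [hPv]; exact hℓv
    rw [Ideal.under, Ideal.mem_comap, map_natCast] at h1
    exact h1
  have hℓS : (⟨ℓ, hℓ⟩ : Nat.Primes) ∉ S := fun h =>
    hv ⟨v.isPrime, v.ne_bot, ⟨ℓ, hℓ⟩, h, hℓv⟩
  have hPne : P ≠ ⊥ := by
    rintro rfl
    rw [Ideal.mem_bot] at hℓP
    exact hℓ.ne_zero (by exact_mod_cast hℓP)
  haveI : P.IsMaximal := Ring.DimensionLEOne.maximalOfPrime hPne hP
  obtain ⟨A, hA⟩ := exists_primeOf_eq ↥E P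
  have hAℓ : A.LiesOverPrime ℓ := liesOverPrime_of_natCast_mem ↥E A (by rw [hA]; exact hℓP)
  haveI : Normal ↥F ↥E := IsGalois.to_normal
  obtain ⟨τ, hτI, hτ⟩ := helper85.exists_inertia_lift F E A hℓ hAℓ σ (by rw [hA]; exact hσ)
  have hfix : ((τ : UF F) : GQ) ∈ (E.restrictScalars ℚ).fixingSubgroup :=
    hE.2 ⟨ℓ, hℓ⟩ hℓS A hAℓ hτI
  rw [← hτ]
  apply AlgEquiv.ext
  intro x
  apply Subtype.ext
  rw [resFix_apply_coe]
  rw [IntermediateField.mem_fixingSubgroup_iff] at hfix
  exact hfix (x : Qbar) x.2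

end Bridge

section I3

variable {p : ℕ} [Fact p.Prime] {S : Finset Nat.Primes} {F : IntermediateField ℚ Qbar}
  [NumberField ↥F] {𝒩 : Levels (UF F)} {ι : Type} [Fintype ι]
  {L : LocalData (UF F) 𝒩 ι}

/-- B-AR-REC-I3 (from `MixedRec` with `V = ∅`, `helper7.isLev₂_glob_iff` and the bridge
`IsUnramifiedOutside S → UnramAt` at the places not above `S`). -/
theorem reciprocity_B (hF : F.IsUnramifiedOutside S) (h𝒩 : 𝒩.mem = sLevels S F)
    (Inv : helper11.LocInv) (ζ : (↥F)ˣ)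
    (inv : ∀ w : ι, (L.Gv w × L.Gv w → ZMod p) →ₗ[ZMod p] ZMod p)
    (hMix : MixedRec S L Inv ζ inv) :
    ∀ z ∈ Z2 𝒩 (T (ZMod p) (UF F)), ∑ w, inv w (fun s => z (L.r w s.1, L.r w s.2)) = 0 := by
  intro z hz
  obtain ⟨E, hfin, hgal, hE, c, rfl⟩ := (helper7.isLev₂_glob_iff hF h𝒩 z).mp hz.1
  haveI := hfin
  haveI := hgal
  haveI : Normal ↥F ↥E := IsGalois.to_normal
  haveI : Normal ↥F Qbar := helper85.normal_over_base F
  haveI : NumberField ↥E :=
    { to_charZero := inferInstance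
      to_finiteDimensional := Module.Finite.trans ↥F ↥E }
  have hsurj : Function.Surjective (resFix F E) := resFix_surjective F E
  -- `c` is a cocycle
  have hc : c ∈ LinearMap.ker (d₂₃ (Rep.trivial (ZMod p) (E ≃ₐ[↥F] E) (ZMod p))).hom := by
    rw [helper13.mem_ker_d₂₃_trivial_iff]
    intro a b d
    obtain ⟨g₁, rfl⟩ := hsurj a
    obtain ⟨g₂, rfl⟩ := hsurj b
    obtain ⟨g₃, rfl⟩ := hsurj d
    have h0 := (helper13.mem_ker_d₂₃_trivial_iff (infl₂ (resFix F E) c)).mp hz.2 g₁ g₂ g₃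
    simp only [infl₂_apply, map_mul] at h0
    exact h0
  haveI hFact : ∀ v : ↥(∅ : Finset (HeightOneSpectrum (𝓞 ↥F))),
      Fact (((fun _ => 2 : ↥(∅ : Finset (HeightOneSpectrum (𝓞 ↥F))) → ℕ) v).Prime) :=
    fun _ => ⟨Nat.prime_two⟩
  have key := hMix E c hc ∅ (fun v hv => absurd hv (Finset.notMem_empty v))
    (fun v hv _ => unramAt_of_isUnramifiedOutside E hE v hv)
    (fun _ => 2)
    (fun v => absurd v.2 (Finset.notMem_empty v.1))
    (fun v => absurd v.2 (Finset.notMem_empty v.1))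
  rw [Finset.sum_eq_zero
    (fun (v : ↥(∅ : Finset (HeightOneSpectrum (𝓞 ↥F)))) _ =>
      absurd v.2 (Finset.notMem_empty v.1)), add_zero] at key
  exact helper13.qz_injective (p := p) (key.trans (map_zero _).symm)

end I3

end Fermat.Agent.S55.helper98

end
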