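import Fermat.Agent.S55.helper31_J3Wire
import Fermat.Agent.S55.helper98_BArRecI3

/-!
# S55 / REC3 R3-J3 (helper31): wiring, second form — [UNR] discharged

`helper98.unramAt_of_isUnramifiedOutside` (the bridge from the Prelude's `IsUnramifiedOutside`
to trivial inertia groups, relative form) replaces the hypothesis `HypUNR` of
`helper31_J3Wire`: `j3S_of_ussl` needs only `HypUSSL`.
-/

set_option autoImplicit false

open scoped TensorProduct NumberField

open CategoryTheory CategoryTheory.Limits groupCohomology IsDedekindDomain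

noncomputable section

namespace Fermat.Agent.S55.helper31

open Fermat.Agent.S55 Fermat.Agent.S55.helper73 Fermat.Agent.S55.helper59
  Fermat.Agent.S55.helper69 Fermat.Agent.S55.helper90

local notation "Qbar" => AlgebraicClosure ℚ

section Unr

variable {S : Finset Nat.Primes} {F : IntermediateField ℚ Qbar} [NumberField ↥F]

/-- **[UNR]**, relative form: if `E/F` is finite Galois inside `ℚbar` and `E` is unramified
outside `S` (Prelude), then the inertia group in `Gal(E/F)` of every prime of `E` above a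
rational prime `q ∉ S` is trivial. -/
theorem inertia_eq_one_of_isUnramifiedOutside_rel (E : IntermediateField ↥F Qbar)
    [FiniteDimensional ↥F ↥E] [IsGalois ↥F ↥E] [NumberField ↥E]
    (hE : (E.restrictScalars ℚ).IsUnramifiedOutside S) (q : Nat.Primes) (hq : q ∉ S)
    (P : Ideal (𝓞 ↥E)) (hP : P.IsPrime) (hqP : ((q : ℕ) : 𝓞 ↥E) ∈ P)
    (σ : Gal(↥E/↥F)) (hσ : ∀ x : 𝓞 ↥E, σ • x - x ∈ P) : σ = 1 := by
  haveI := hP
  have hqv : ((q : ℕ) : 𝓞 ↥F) ∈ P.under (𝓞 ↥F) := by
    rw [Ideal.under, Ideal.mem_comap, map_natCast]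
    exact hqP
  have hvne : P.under (𝓞 ↥F) ≠ ⊥ := by
    intro h
    rw [h, Ideal.mem_bot] at hqv
    exact q.2.ne_zero (by exact_mod_cast hqv)
  let v : HeightOneSpectrum (𝓞 ↥F) := ⟨P.under (𝓞 ↥F), inferInstance, hvne⟩
  have hv : v.asIdeal ∉ helper75.primesOverS (↥F) S := by
    rintro ⟨-, -, ℓ, hℓS, hℓv⟩
    have hne : (ℓ : ℕ) ≠ (q : ℕ) := fun h => hq (by
      have : ℓ = q := Subtype.ext h
      exact this ▸ hℓS)
    have hcop : Nat.Coprime (ℓ : ℕ) (q : ℕ) := (Nat.coprime_primes ℓ.2 q.2).2 hne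
    have h1 : ((1 : ℤ) : 𝓞 ↥F) ∈ P.under (𝓞 ↥F) := by
      have hb := Nat.gcd_eq_gcd_ab (ℓ : ℕ) (q : ℕ)
      rw [hcop] at hb
      have hb' : ((1 : ℤ) : 𝓞 ↥F)
          = ((ℓ : ℕ) : 𝓞 ↥F) * ((Nat.gcdA ℓ q : ℤ) : 𝓞 ↥F)
            + ((q : ℕ) : 𝓞 ↥F) * ((Nat.gcdB ℓ q : ℤ) : 𝓞 ↥F) := by
        have := congrArg (fun z : ℤ => (z : 𝓞 ↥F)) hb
        simpa using this
      rw [hb']
      exact Ideal.add_mem _ (Ideal.mul_mem_right _ _ hℓv) (Ideal.mul_mem_right _ _ hqv)
    have hprime : (P.under (𝓞 ↥F)).IsPrime := inferInstance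
    exact hprime.ne_top ((Ideal.eq_top_iff_one _).2 (by simpa using h1))
  exact helper98.unramAt_of_isUnramifiedOutside E hE v hv P hP rfl σ hσ

end Unr

section Wire

variable {p : ℕ} {S : Finset Nat.Primes} {F : IntermediateField ℚ Qbar}
  [FiniteDimensional ℚ F] (hF : F.IsUnramifiedOutside S)

/-- `H³(G_S, J_S) = 0` (level-constant cochains), from [US-SL] alone. -/
theorem Z3_le_B3_repJS_of_ussl (hUS : HypUSSL) :
    Z3 (sLevelsStr S F hF) (repJS S F hF) ≤ B3 (sLevelsStr S F hF) (repJS S F hF) := by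
  refine helper46.Z3_le_B3_of_isZero (finLevels_sLevelsStr S F hF) (isDisc_repJS S F hF) ?_
  intro N hN
  obtain ⟨E₀, hE₀, hn, hle, rfl⟩ := hN
  obtain ⟨E, hfin, hgal, hres, hnor⟩ := helper7.exists_level_of_normal E₀ hE₀ hn hle
  have hE : (E.restrictScalars ℚ).IsUnramifiedOutside S := hres ▸ hE₀
  haveI : NumberField ↥F := ⟨⟩
  haveI : FiniteDimensional ℚ ↥E := Module.Finite.trans ↥F ↥E
  haveI : NumberField ↥E := ⟨⟩
  refine ⟨Dic.finRealJS S F hF E hE, ?_, ?_⟩
  · have hk : (Dic.finRealJS S F hF E hE).π.ker = (resFix F E).ker := rfl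
    rw [hk, helper7.ker_resFix, hres]
  · change IsZero (groupCohomology (repSIdele S ↥F ↥E) 3)
    exact isZero_H3_repSIdele_of_unram S ↥F ↥E hUS
      (fun q hq P hP hqP σ hσ =>
        inertia_eq_one_of_isUnramifiedOutside_rel E hE q hq P hP hqP σ hσ)

/-- **R3-J3** (helper90's interface), from [US-SL] alone. -/
theorem j3S_of_ussl [Fact p.Prime] (hUS : HypUSSL) : J3S p S F hF := by
  intro t ht
  refine ⟨1, (Fact.out : p.Prime).not_dvd_one, ?_⟩
  rw [one_smul]
  exact Z3_le_B3_repJS_of_ussl hF hUS ht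

end Wire

end Fermat.Agent.S55.helper31
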