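import Fermat.Agent.S55.helper46_FG7H3
import Fermat.Agent.S55.helper90_Rec3Kummer

/-!
# S55 / REC3 R3-DIC, abstract part (helper46)

Dictionary between level-constant cochains of a group `U` with values in a big discrete module `M`
(the `Z_n 𝒩 M`, `B_n 𝒩 M` of `Defs.lean`) and finite-level Mathlib group cohomology.
-/

set_option autoImplicit false

open CategoryTheory CategoryTheory.Limits groupCohomology Rep

noncomputable section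

namespace Fermat.Agent.S55.helper46

open Fermat.Agent.S55 Fermat.Agent.S55.helper90

/-! ## Vanishing of Mathlib's `H¹`, `H²` in terms of cochains -/

section LowDeg

universe u

variable {k G : Type u} [CommRing k] [Group G] (A : Rep.{u} k G)

/-- `H¹(G, A) = 0` iff every 1-cocycle is a 1-coboundary. -/
theorem fg7_isZero_H1_iff :
    IsZero (groupCohomology A 1) ↔
      ∀ f : G → A, (d₁₂ A).hom f = 0 → ∃ a : A, (d₀₁ A).hom a = f := by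
  constructor
  · intro h f hf
    have hz : H1π A ⟨f, hf⟩ = 0 :=
      (ModuleCat.isZero_iff_subsingleton.mp h).elim _ _
    exact (H1π_eq_zero_iff _).1 hz
  · intro h
    rw [ModuleCat.isZero_iff_subsingleton]
    refine ⟨fun x y => ?_⟩
    suffices hx : ∀ x : groupCohomology A 1, x = 0 by rw [hx x, hx y]
    intro x
    induction x using H1_induction_on with | h x =>
    exact (H1π_eq_zero_iff x).2 (h x.1 x.2)

/-- `H²(G, A) = 0` iff every 2-cocycle is a 2-coboundary. -/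
theorem fg7_isZero_H2_iff :
    IsZero (groupCohomology A 2) ↔
      ∀ f : G × G → A, (d₂₃ A).hom f = 0 → ∃ g : G → A, (d₁₂ A).hom g = f := by
  constructor
  · intro h f hf
    have hz : H2π A ⟨f, hf⟩ = 0 :=
      (ModuleCat.isZero_iff_subsingleton.mp h).elim _ _
    exact (H2π_eq_zero_iff _).1 hz
  · intro h
    rw [ModuleCat.isZero_iff_subsingleton]
    refine ⟨fun x y => ?_⟩
    suffices hx : ∀ x : groupCohomology A 2, x = 0 by rw [hx x, hx y]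
    intro x
    induction x using H2_induction_on with | h x =>
    exact (H2π_eq_zero_iff x).2 (h x.1 x.2)

end LowDeg

variable {k U : Type} [CommRing k] [Group U]

/-- A finite-level realisation of a (big, discrete) `U`-module `M`: a quotient `π : U ↠ Q` whose
kernel contains a level, a `Q`-module `M'` and an equivariant embedding `j : M' → M` onto the
`ker π`-invariants of `M`. -/
structure FinReal (𝒩 : Levels U) (M : Rep.{0} k U) where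
  /-- the finite-level group -/
  Q : Type
  /-- its group structure -/
  [grp : Group Q]
  /-- the projection -/
  π : U →* Q
  π_surj : Function.Surjective π
  ker_level : ∃ N ∈ 𝒩.mem, N ≤ π.ker
  /-- the finite-level module -/
  M' : Rep.{0} k Q
  /-- the embedding of the finite-level module -/
  j : M' →ₗ[k] M
  j_inj : Function.Injective j
  j_ρ : ∀ (u : U) (m : M'), j (M'.ρ (π u) m) = M.ρ u (j m)
  j_surj : ∀ m : M, (∀ s ∈ π.ker, M.ρ s m = m) → ∃ m', j m' = m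

attribute [instance] FinReal.grp

namespace FinReal

variable {𝒩 : Levels U} {M : Rep.{0} k U} (X : FinReal 𝒩 M)

/-- inflation of finite-level 1-cochains -/
def infl₁ : (X.Q → X.M') →ₗ[k] (U → M) where
  toFun f' := fun g => X.j (f' (X.π g))
  map_add' _ _ := by ext; simp
  map_smul' _ _ := by ext; simp

/-- inflation of finite-level 2-cochains -/
def infl₂ : (X.Q × X.Q → X.M') →ₗ[k] (U × U → M) where
  toFun f' := fun g => X.j (f' (X.π g.1, X.π g.2))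
  map_add' _ _ := by ext; simp
  map_smul' _ _ := by ext; simp

/-- inflation of finite-level 3-cochains -/
def infl₃ : (X.Q × X.Q × X.Q → X.M') →ₗ[k] (U × U × U → M) where
  toFun f' := fun g => X.j (f' (X.π g.1, X.π g.2.1, X.π g.2.2))
  map_add' _ _ := by ext; simp
  map_smul' _ _ := by ext; simp

/-- inflation of finite-level 4-cochains -/
def infl₄ : (X.Q × X.Q × X.Q × X.Q → X.M') →ₗ[k] (U × U × U × U → M) where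
  toFun f' := fun g => X.j (f' (X.π g.1, X.π g.2.1, X.π g.2.2.1, X.π g.2.2.2))
  map_add' _ _ := by ext; simp
  map_smul' _ _ := by ext; simp

@[simp] lemma infl₁_apply (f' : X.Q → X.M') (g : U) : X.infl₁ f' g = X.j (f' (X.π g)) := rfl
@[simp] lemma infl₂_apply (f' : X.Q × X.Q → X.M') (g h : U) :
    X.infl₂ f' (g, h) = X.j (f' (X.π g, X.π h)) := rfl
@[simp] lemma infl₃_apply (f' : X.Q × X.Q × X.Q → X.M') (g₁ g₂ g₃ : U) :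
    X.infl₃ f' (g₁, g₂, g₃) = X.j (f' (X.π g₁, X.π g₂, X.π g₃)) := rfl
@[simp] lemma infl₄_apply (f' : X.Q × X.Q × X.Q × X.Q → X.M') (g₁ g₂ g₃ g₄ : U) :
    X.infl₄ f' (g₁, g₂, g₃, g₄) = X.j (f' (X.π g₁, X.π g₂, X.π g₃, X.π g₄)) := rfl

/-! ### injectivity -/

lemma infl₁_injective : Function.Injective X.infl₁ := by
  intro f f' h
  funext q
  obtain ⟨g, rfl⟩ := X.π_surj q
  exact X.j_inj (congrFun h g)

lemma infl₂_injective : Function.Injective X.infl₂ := by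
  intro f f' h
  funext ⟨q₁, q₂⟩
  obtain ⟨g₁, rfl⟩ := X.π_surj q₁
  obtain ⟨g₂, rfl⟩ := X.π_surj q₂
  exact X.j_inj (congrFun h (g₁, g₂))

lemma infl₃_injective : Function.Injective X.infl₃ := by
  intro f f' h
  funext ⟨q₁, q₂, q₃⟩
  obtain ⟨g₁, rfl⟩ := X.π_surj q₁
  obtain ⟨g₂, rfl⟩ := X.π_surj q₂
  obtain ⟨g₃, rfl⟩ := X.π_surj q₃
  exact X.j_inj (congrFun h (g₁, g₂, g₃))

lemma infl₄_injective : Function.Injective X.infl₄ := by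
  intro f f' h
  funext ⟨q₁, q₂, q₃, q₄⟩
  obtain ⟨g₁, rfl⟩ := X.π_surj q₁
  obtain ⟨g₂, rfl⟩ := X.π_surj q₂
  obtain ⟨g₃, rfl⟩ := X.π_surj q₃
  obtain ⟨g₄, rfl⟩ := X.π_surj q₄
  exact X.j_inj (congrFun h (g₁, g₂, g₃, g₄))

/-! ### compatibility with the differentials -/

lemma d₀₁_j (m : X.M') : (d₀₁ M).hom (X.j m) = X.infl₁ ((d₀₁ X.M').hom m) := by
  funext g
  simp [d₀₁_hom_apply, X.j_ρ]

lemma d₁₂_infl₁ (f : X.Q → X.M') :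
    (d₁₂ M).hom (X.infl₁ f) = X.infl₂ ((d₁₂ X.M').hom f) := by
  funext ⟨g₁, g₂⟩
  simp [d₁₂_hom_apply, X.j_ρ]

lemma d₂₃_infl₂ (f : X.Q × X.Q → X.M') :
    (d₂₃ M).hom (X.infl₂ f) = X.infl₃ ((d₂₃ X.M').hom f) := by
  funext ⟨g₁, g₂, g₃⟩
  simp [d₂₃_hom_apply, X.j_ρ]

lemma d₃₄_infl₃ (f : X.Q × X.Q × X.Q → X.M') :
    d₃₄ M (X.infl₃ f) = X.infl₄ (d₃₄ X.M' f) := by
  funext ⟨g₁, g₂, g₃, g₄⟩
  simp [d₃₄_apply, X.j_ρ]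

/-! ### level-constancy of inflations -/

lemma mul_ker (g : U) {s : U} (hs : s ∈ X.π.ker) : X.π (g * s) = X.π g := by
  rw [map_mul, MonoidHom.mem_ker.1 hs, mul_one]

lemma infl₁_mem_C1 (f : X.Q → X.M') : X.infl₁ f ∈ C1 𝒩 M := by
  obtain ⟨N, hN, hle⟩ := X.ker_level
  exact ⟨N, hN, fun g s hs => by simp [X.mul_ker g (hle hs)]⟩

lemma infl₂_mem_C2 (f : X.Q × X.Q → X.M') : X.infl₂ f ∈ C2 𝒩 M := by
  obtain ⟨N, hN, hle⟩ := X.ker_level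
  exact ⟨N, hN, fun g₁ g₂ s₁ hs₁ s₂ hs₂ => by
    simp [X.mul_ker g₁ (hle hs₁), X.mul_ker g₂ (hle hs₂)]⟩

lemma infl₃_mem_C3 (f : X.Q × X.Q × X.Q → X.M') : X.infl₃ f ∈ C3 𝒩 M := by
  obtain ⟨N, hN, hle⟩ := X.ker_level
  exact ⟨N, hN, fun g₁ g₂ g₃ s₁ hs₁ s₂ hs₂ s₃ hs₃ => by
    simp [X.mul_ker g₁ (hle hs₁), X.mul_ker g₂ (hle hs₂), X.mul_ker g₃ (hle hs₃)]⟩

/-! ### cocycles and coboundaries -/

lemma infl₁_mem_Z1 {f : X.Q → X.M'} (hf : (d₁₂ X.M').hom f = 0) : X.infl₁ f ∈ Z1 𝒩 M :=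
  ⟨X.infl₁_mem_C1 f, show (d₁₂ M).hom (X.infl₁ f) = 0 by rw [d₁₂_infl₁, hf, map_zero]⟩

lemma infl₂_mem_Z2 {f : X.Q × X.Q → X.M'} (hf : (d₂₃ X.M').hom f = 0) : X.infl₂ f ∈ Z2 𝒩 M :=
  ⟨X.infl₂_mem_C2 f, show (d₂₃ M).hom (X.infl₂ f) = 0 by rw [d₂₃_infl₂, hf, map_zero]⟩

lemma infl₃_mem_Z3 {f : X.Q × X.Q × X.Q → X.M'} (hf : d₃₄ X.M' f = 0) : X.infl₃ f ∈ Z3 𝒩 M :=
  ⟨X.infl₃_mem_C3 f, show d₃₄ M (X.infl₃ f) = 0 by rw [d₃₄_infl₃, hf, map_zero]⟩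

lemma infl₁_mem_B1 (m : X.M') : X.infl₁ ((d₀₁ X.M').hom m) ∈ B1 M :=
  ⟨X.j m, X.d₀₁_j m⟩

lemma infl₂_mem_B2 (g : X.Q → X.M') : X.infl₂ ((d₁₂ X.M').hom g) ∈ B2 𝒩 M :=
  ⟨X.infl₁ g, X.infl₁_mem_C1 g, X.d₁₂_infl₁ g⟩

lemma infl₃_mem_B3 (g : X.Q × X.Q → X.M') : X.infl₃ ((d₂₃ X.M').hom g) ∈ B3 𝒩 M :=
  ⟨X.infl₂ g, X.infl₂_mem_C2 g, X.d₂₃_infl₂ g⟩

/-- a finite-level cochain whose inflation is a cocycle is a cocycle -/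
lemma d₁₂_eq_zero_of_infl {f : X.Q → X.M'} (hf : (d₁₂ M).hom (X.infl₁ f) = 0) :
    (d₁₂ X.M').hom f = 0 :=
  X.infl₂_injective (by rw [← d₁₂_infl₁, hf, map_zero])

lemma d₂₃_eq_zero_of_infl {f : X.Q × X.Q → X.M'} (hf : (d₂₃ M).hom (X.infl₂ f) = 0) :
    (d₂₃ X.M').hom f = 0 :=
  X.infl₃_injective (by rw [← d₂₃_infl₂, hf, map_zero])

lemma d₃₄_eq_zero_of_infl {f : X.Q × X.Q × X.Q → X.M'} (hf : d₃₄ M (X.infl₃ f) = 0) :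
    d₃₄ X.M' f = 0 :=
  X.infl₄_injective (by rw [← d₃₄_infl₃, hf, map_zero])

/-! ### factorisation through a finite level -/

lemma exists_j (m : M) (hm : ∀ s ∈ X.π.ker, M.ρ s m = m) : ∃ m', X.j m' = m := X.j_surj m hm

lemma exists_mul_ker {g h : U} (e : X.π h = X.π g) : ∃ s ∈ X.π.ker, h = g * s :=
  ⟨g⁻¹ * h, by rw [MonoidHom.mem_ker, map_mul, map_inv, e, inv_mul_cancel], by group⟩

theorem exists_infl₀ (m : M) (hv : ∀ s ∈ X.π.ker, M.ρ s m = m) : ∃ m', X.j m' = m :=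
  X.j_surj m hv

theorem exists_infl₁ (f : U → M) (hc : ∀ g, ∀ s ∈ X.π.ker, f (g * s) = f g)
    (hv : ∀ g, ∀ s ∈ X.π.ker, M.ρ s (f g) = f g) : ∃ f', X.infl₁ f' = f := by
  choose σ hσ using X.π_surj
  choose! t ht using fun m => X.j_surj m
  refine ⟨fun q => t (f (σ q)), ?_⟩
  funext g
  obtain ⟨s, hs, e⟩ := X.exists_mul_ker (hσ (X.π g))
  rw [infl₁_apply, ht _ (hv _), e, hc g s hs]

theorem exists_infl₂ (f : U × U → M)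
    (hc : ∀ g₁ g₂, ∀ s₁ ∈ X.π.ker, ∀ s₂ ∈ X.π.ker, f (g₁ * s₁, g₂ * s₂) = f (g₁, g₂))
    (hv : ∀ g, ∀ s ∈ X.π.ker, M.ρ s (f g) = f g) : ∃ f', X.infl₂ f' = f := by
  choose σ hσ using X.π_surj
  choose! t ht using fun m => X.j_surj m
  refine ⟨fun q => t (f (σ q.1, σ q.2)), ?_⟩
  funext ⟨g₁, g₂⟩
  obtain ⟨s₁, hs₁, e₁⟩ := X.exists_mul_ker (hσ (X.π g₁))
  obtain ⟨s₂, hs₂, e₂⟩ := X.exists_mul_ker (hσ (X.π g₂))
  rw [infl₂_apply, ht _ (hv _), e₁, e₂, hc g₁ g₂ s₁ hs₁ s₂ hs₂]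

theorem exists_infl₃ (f : U × U × U → M)
    (hc : ∀ g₁ g₂ g₃, ∀ s₁ ∈ X.π.ker, ∀ s₂ ∈ X.π.ker, ∀ s₃ ∈ X.π.ker,
      f (g₁ * s₁, g₂ * s₂, g₃ * s₃) = f (g₁, g₂, g₃))
    (hv : ∀ g, ∀ s ∈ X.π.ker, M.ρ s (f g) = f g) : ∃ f', X.infl₃ f' = f := by
  choose σ hσ using X.π_surj
  choose! t ht using fun m => X.j_surj m
  refine ⟨fun q => t (f (σ q.1, σ q.2.1, σ q.2.2)), ?_⟩
  funext ⟨g₁, g₂, g₃⟩
  obtain ⟨s₁, hs₁, e₁⟩ := X.exists_mul_ker (hσ (X.π g₁))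
  obtain ⟨s₂, hs₂, e₂⟩ := X.exists_mul_ker (hσ (X.π g₂))
  obtain ⟨s₃, hs₃, e₃⟩ := X.exists_mul_ker (hσ (X.π g₃))
  rw [infl₃_apply, ht _ (hv _), e₁, e₂, e₃, hc g₁ g₂ g₃ s₁ hs₁ s₂ hs₂ s₃ hs₃]

end FinReal

/-! ## Levels of a level-constant cochain -/

section Levels

variable {𝒩 : Levels U} {M : Rep.{0} k U}

lemma exists_level₃ (hfin : FinLevels 𝒩) (hd : IsDisc 𝒩 M) {f : U × U × U → M}
    (hf : f ∈ C3 𝒩 M) :
    ∃ N ∈ 𝒩.mem, (∀ g₁ g₂ g₃, ∀ s₁ ∈ N, ∀ s₂ ∈ N, ∀ s₃ ∈ N,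
        f (g₁ * s₁, g₂ * s₂, g₃ * s₃) = f (g₁, g₂, g₃)) ∧
      ∀ g, ∀ s ∈ N, M.ρ s (f g) = f g := by
  obtain ⟨M₁, hM₁, h₁⟩ := hd.exists_level_fixing f (IsLev₃.finite_range hfin hf)
  obtain ⟨N, hN, h⟩ := hf
  obtain ⟨N', hN', hle⟩ := 𝒩.directed N hN M₁ hM₁
  exact ⟨N', hN', fun g₁ g₂ g₃ s₁ hs₁ s₂ hs₂ s₃ hs₃ =>
    h g₁ g₂ g₃ s₁ (hle hs₁).1 s₂ (hle hs₂).1 s₃ (hle hs₃).1,
    fun g s hs => h₁ g s (hle hs).2⟩

/-- **REP, cochains, degree 1.** -/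
theorem exists_cochain₁ (hfin : FinLevels 𝒩) (hd : IsDisc 𝒩 M) {f : U → M} (hf : f ∈ C1 𝒩 M) :
    ∃ N ∈ 𝒩.mem, ∀ X : FinReal 𝒩 M, X.π.ker ≤ N → ∃ f', X.infl₁ f' = f := by
  obtain ⟨N, hN, hc, hv⟩ := exists_level₁ hfin hd hf
  exact ⟨N, hN, fun X hX => X.exists_infl₁ f (fun g s hs => hc g s (hX hs))
    (fun g s hs => hv g s (hX hs))⟩

/-- **REP, cochains, degree 2.** -/
theorem exists_cochain₂ (hfin : FinLevels 𝒩) (hd : IsDisc 𝒩 M) {f : U × U → M}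
    (hf : f ∈ C2 𝒩 M) :
    ∃ N ∈ 𝒩.mem, ∀ X : FinReal 𝒩 M, X.π.ker ≤ N → ∃ f', X.infl₂ f' = f := by
  obtain ⟨N, hN, hc, hv⟩ := exists_level₂ hfin hd hf
  exact ⟨N, hN, fun X hX => X.exists_infl₂ f
    (fun g₁ g₂ s₁ hs₁ s₂ hs₂ => hc g₁ g₂ s₁ (hX hs₁) s₂ (hX hs₂))
    (fun g s hs => hv g s (hX hs))⟩

/-- **REP, cochains, degree 3.** -/
theorem exists_cochain₃ (hfin : FinLevels 𝒩) (hd : IsDisc 𝒩 M) {f : U × U × U → M}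
    (hf : f ∈ C3 𝒩 M) :
    ∃ N ∈ 𝒩.mem, ∀ X : FinReal 𝒩 M, X.π.ker ≤ N → ∃ f', X.infl₃ f' = f := by
  obtain ⟨N, hN, hc, hv⟩ := exists_level₃ hfin hd hf
  exact ⟨N, hN, fun X hX => X.exists_infl₃ f
    (fun g₁ g₂ g₃ s₁ hs₁ s₂ hs₂ s₃ hs₃ => hc g₁ g₂ g₃ s₁ (hX hs₁) s₂ (hX hs₂) s₃ (hX hs₃))
    (fun g s hs => hv g s (hX hs))⟩

/-- **REP, invariants.** -/
theorem exists_invariant (hd : IsDisc 𝒩 M) (m : M) :
    ∃ N ∈ 𝒩.mem, ∀ X : FinReal 𝒩 M, X.π.ker ≤ N → ∃ m', X.j m' = m := by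
  obtain ⟨N, hN, h⟩ := hd m
  exact ⟨N, hN, fun X hX => X.j_surj m fun s hs => h s (hX hs)⟩

/-- **REP, cocycles, degree 1**: a level-constant 1-cocycle is the inflation of a finite-level
1-cocycle, at every sufficiently deep finite level. -/
theorem exists_cocycle₁ (hfin : FinLevels 𝒩) (hd : IsDisc 𝒩 M) {f : U → M} (hf : f ∈ Z1 𝒩 M) :
    ∃ N ∈ 𝒩.mem, ∀ X : FinReal 𝒩 M, X.π.ker ≤ N →
      ∃ f' : cocycles₁ X.M', X.infl₁ (f' : X.Q → X.M') = f := by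
  obtain ⟨N, hN, h⟩ := exists_cochain₁ hfin hd hf.1
  refine ⟨N, hN, fun X hX => ?_⟩
  obtain ⟨f', rfl⟩ := h X hX
  exact ⟨⟨f', X.d₁₂_eq_zero_of_infl hf.2⟩, rfl⟩

/-- **REP, cocycles, degree 2.** -/
theorem exists_cocycle₂ (hfin : FinLevels 𝒩) (hd : IsDisc 𝒩 M) {f : U × U → M}
    (hf : f ∈ Z2 𝒩 M) :
    ∃ N ∈ 𝒩.mem, ∀ X : FinReal 𝒩 M, X.π.ker ≤ N →
      ∃ f' : cocycles₂ X.M', X.infl₂ (f' : X.Q × X.Q → X.M') = f := by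
  obtain ⟨N, hN, h⟩ := exists_cochain₂ hfin hd hf.1
  refine ⟨N, hN, fun X hX => ?_⟩
  obtain ⟨f', rfl⟩ := h X hX
  exact ⟨⟨f', X.d₂₃_eq_zero_of_infl hf.2⟩, rfl⟩

/-- **REP, cocycles, degree 3.** -/
theorem exists_cocycle₃ (hfin : FinLevels 𝒩) (hd : IsDisc 𝒩 M) {f : U × U × U → M}
    (hf : f ∈ Z3 𝒩 M) :
    ∃ N ∈ 𝒩.mem, ∀ X : FinReal 𝒩 M, X.π.ker ≤ N →
      ∃ f' : cocycles₃ X.M', X.infl₃ (f' : X.Q × X.Q × X.Q → X.M') = f := by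
  obtain ⟨N, hN, h⟩ := exists_cochain₃ hfin hd hf.1
  refine ⟨N, hN, fun X hX => ?_⟩
  obtain ⟨f', rfl⟩ := h X hX
  exact ⟨⟨f', X.d₃₄_eq_zero_of_infl hf.2⟩, rfl⟩

/-! ## DET: coboundaries are detected at a finite level -/

/-- **DET, degree 1.** -/
theorem exists_of_mem_B1 (hd : IsDisc 𝒩 M) {f : U → M} (hf : f ∈ B1 M) :
    ∃ N ∈ 𝒩.mem, ∀ X : FinReal 𝒩 M, X.π.ker ≤ N →
      ∃ m' : X.M', X.infl₁ ((d₀₁ X.M').hom m') = f := by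
  obtain ⟨m, rfl⟩ := hf
  obtain ⟨N, hN, h⟩ := exists_invariant hd m
  refine ⟨N, hN, fun X hX => ?_⟩
  obtain ⟨m', rfl⟩ := h X hX
  exact ⟨m', (X.d₀₁_j m').symm⟩

/-- **DET, degree 2.** -/
theorem exists_of_mem_B2 (hfin : FinLevels 𝒩) (hd : IsDisc 𝒩 M) {f : U × U → M}
    (hf : f ∈ B2 𝒩 M) :
    ∃ N ∈ 𝒩.mem, ∀ X : FinReal 𝒩 M, X.π.ker ≤ N →
      ∃ g' : X.Q → X.M', X.infl₂ ((d₁₂ X.M').hom g') = f := by
  obtain ⟨g, hg, rfl⟩ := hf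
  obtain ⟨N, hN, h⟩ := exists_cochain₁ hfin hd hg
  refine ⟨N, hN, fun X hX => ?_⟩
  obtain ⟨g', rfl⟩ := h X hX
  exact ⟨g', (X.d₁₂_infl₁ g').symm⟩

/-- **DET, degree 3.** -/
theorem exists_of_mem_B3 (hfin : FinLevels 𝒩) (hd : IsDisc 𝒩 M) {f : U × U × U → M}
    (hf : f ∈ B3 𝒩 M) :
    ∃ N ∈ 𝒩.mem, ∀ X : FinReal 𝒩 M, X.π.ker ≤ N →
      ∃ g' : X.Q × X.Q → X.M', X.infl₃ ((d₂₃ X.M').hom g') = f := by
  obtain ⟨g, hg, rfl⟩ := hf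
  obtain ⟨N, hN, h⟩ := exists_cochain₂ hfin hd hg
  refine ⟨N, hN, fun X hX => ?_⟩
  obtain ⟨g', rfl⟩ := h X hX
  exact ⟨g', (X.d₂₃_infl₂ g').symm⟩

/-! ## MAIN: vanishing at cofinal finite levels -/

/-- **MAIN, degree 1.** -/
theorem Z1_le_B1_of_isZero (hfin : FinLevels 𝒩) (hd : IsDisc 𝒩 M)
    (h : ∀ N ∈ 𝒩.mem, ∃ X : FinReal 𝒩 M, X.π.ker ≤ N ∧ IsZero (groupCohomology X.M' 1)) :
    Z1 𝒩 M ≤ B1 M := by
  intro f hf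
  obtain ⟨N, hN, hrep⟩ := exists_cocycle₁ hfin hd hf
  obtain ⟨X, hX, hz⟩ := h N hN
  obtain ⟨f', rfl⟩ := hrep X hX
  obtain ⟨m, hm⟩ := (fg7_isZero_H1_iff X.M').1 hz f'.1 f'.2
  have : (f' : X.Q → X.M') = (d₀₁ X.M').hom m := hm.symm
  rw [this]
  exact X.infl₁_mem_B1 m

/-- **MAIN, degree 2.** -/
theorem Z2_le_B2_of_isZero (hfin : FinLevels 𝒩) (hd : IsDisc 𝒩 M)
    (h : ∀ N ∈ 𝒩.mem, ∃ X : FinReal 𝒩 M, X.π.ker ≤ N ∧ IsZero (groupCohomology X.M' 2)) :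
    Z2 𝒩 M ≤ B2 𝒩 M := by
  intro f hf
  obtain ⟨N, hN, hrep⟩ := exists_cocycle₂ hfin hd hf
  obtain ⟨X, hX, hz⟩ := h N hN
  obtain ⟨f', rfl⟩ := hrep X hX
  obtain ⟨g, hg⟩ := (fg7_isZero_H2_iff X.M').1 hz f'.1 f'.2
  have : (f' : X.Q × X.Q → X.M') = (d₁₂ X.M').hom g := hg.symm
  rw [this]
  exact X.infl₂_mem_B2 g

/-- **MAIN, degree 3.** -/
theorem Z3_le_B3_of_isZero (hfin : FinLevels 𝒩) (hd : IsDisc 𝒩 M)
    (h : ∀ N ∈ 𝒩.mem, ∃ X : FinReal 𝒩 M, X.π.ker ≤ N ∧ IsZero (groupCohomology X.M' 3)) :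
    Z3 𝒩 M ≤ B3 𝒩 M := by
  intro f hf
  obtain ⟨N, hN, hrep⟩ := exists_cocycle₃ hfin hd hf
  obtain ⟨X, hX, hz⟩ := h N hN
  obtain ⟨f', rfl⟩ := hrep X hX
  obtain ⟨g, hg⟩ := (isZero_H3_iff X.M').1 hz f'.1 f'.2
  have : (f' : X.Q × X.Q × X.Q → X.M') = (d₂₃ X.M').hom g := hg.symm
  rw [this]
  exact X.infl₃_mem_B3 g

end Levels

end Fermat.Agent.S55.helper46
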