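import Fermat.Agent.S55.helper89_ChevDefs

/-!
# S55 / GLOB / G7-DICT (helper24): dictionary between `ℚ_q ⊗ K` and the primes of `𝓞 K` over `q`

Statements verbatim from `helper89_G7Plan.lean`, section `Dict`.
-/

set_option autoImplicit false

open scoped TensorProduct NumberField
open IsDedekindDomain

namespace Fermat.Agent.S55.helper24

open Fermat.Agent.S55.helper73 Fermat.Agent.S55.helper89

/-! ## Units of the form `1 + c t` -/

/-- Over a local ring `R`, if `t` is integral and `c` lies in the maximal ideal, then `1 + c t`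
has an integral inverse. -/
theorem exists_integral_inverse_one_add {R A : Type*} [CommRing R] [IsLocalRing R] [CommRing A]
    [Algebra R A] (c : R) (hc : c ∈ IsLocalRing.maximalIdeal R) (t : A) (ht : IsIntegral R t) :
    ∃ w : A, IsIntegral R w ∧ (1 + algebraMap R A c * t) * w = 1 := by
  classical
  let B : Subalgebra R A := Algebra.adjoin R {t}
  have hB : Algebra.IsIntegral R B := by
    refine Algebra.IsIntegral.adjoin ?_
    rintro x (rfl : x = t)
    exact ht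
  let t' : B := ⟨t, Algebra.subset_adjoin rfl⟩
  have hjac : algebraMap R B c * t' ∈ Ideal.jacobson (⊥ : Ideal B) := by
    rw [Ideal.jacobson, Ideal.mem_sInf]
    rintro M ⟨-, hM⟩
    have := hM
    have h1 : (M.comap (algebraMap R B)).IsMaximal :=
      Ideal.isMaximal_comap_of_isIntegral_of_isMaximal (R := R) M
    have h2 : M.comap (algebraMap R B) = IsLocalRing.maximalIdeal R :=
      IsLocalRing.eq_maximalIdeal h1
    have h3 : algebraMap R B c ∈ M := by
      have : c ∈ M.comap (algebraMap R B) := h2 ▸ hc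
      exact this
    exact M.mul_mem_right _ h3
  have hunit : IsUnit (1 + algebraMap R B c * t') := by
    have := (Ideal.mem_jacobson_bot.mp hjac) 1
    simpa [add_comm] using this
  obtain ⟨u, hu⟩ := hunit
  refine ⟨((u⁻¹ : Bˣ) : B), ?_, ?_⟩
  · have : IsIntegral R ((u⁻¹ : Bˣ) : B) := Algebra.IsIntegral.isIntegral _
    exact this.map (B.val)
  · have h := u.mul_inv
    rw [hu] at h
    have := congrArg (B.val) h
    simpa using this

/-! ## The basis `1 ⊗ bᵢ` and integrality -/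

section Basis

variable (q : ℕ) [Fact q.Prime] (K : Type*) [Field K] [NumberField K]

/-- The `ℚ_q`-basis `1 ⊗ bᵢ` of `ℚ_q ⊗ K` attached to the integral basis `bᵢ` of `K`. -/
noncomputable def sbasis :
    Module.Basis (Module.Free.ChooseBasisIndex ℤ (𝓞 K)) ℚ_[q] (SemiLoc q K) :=
  Algebra.TensorProduct.basis ℚ_[q] (NumberField.integralBasis K)

lemma sbasis_apply (i : Module.Free.ChooseBasisIndex ℤ (𝓞 K)) :
    sbasis q K i = (1 : ℚ_[q]) ⊗ₜ[ℚ] (NumberField.integralBasis K i) := by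
  simp [sbasis]

lemma isIntegral_one_tmul_of_isIntegral {a : K} (ha : IsIntegral ℤ a) :
    IsIntegral ℤ_[q] ((1 : ℚ_[q]) ⊗ₜ[ℚ] a : SemiLoc q K) := by
  have h1 : IsIntegral ℤ ((1 : ℚ_[q]) ⊗ₜ[ℚ] a : SemiLoc q K) :=
    ha.map ((Algebra.TensorProduct.includeRight : K →ₐ[ℚ] SemiLoc q K).restrictScalars ℤ)
  exact h1.tower_top

lemma isIntegral_sbasis (i : Module.Free.ChooseBasisIndex ℤ (𝓞 K)) :
    IsIntegral ℤ_[q] (sbasis q K i) := by
  rw [sbasis_apply, NumberField.integralBasis_apply]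
  exact isIntegral_one_tmul_of_isIntegral q K (NumberField.RingOfIntegers.isIntegral_coe _)

lemma algebraMap_padicInt (z : ℤ_[q]) :
    algebraMap ℤ_[q] (SemiLoc q K) z = algebraMap ℚ_[q] (SemiLoc q K) (z : ℚ_[q]) := rfl

lemma isIntegral_algebraMap_of_norm_le_one {c : ℚ_[q]} (hc : ‖c‖ ≤ 1) :
    IsIntegral ℤ_[q] (algebraMap ℚ_[q] (SemiLoc q K) c) := by
  have : algebraMap ℚ_[q] (SemiLoc q K) c = algebraMap ℤ_[q] (SemiLoc q K) ⟨c, hc⟩ := rfl
  rw [this]
  exact isIntegral_algebraMap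

/-- A linear combination of the basis with coefficients in `ℤ_q` is integral. -/
lemma isIntegral_sum_smul_sbasis (c : Module.Free.ChooseBasisIndex ℤ (𝓞 K) → ℚ_[q])
    (hc : ∀ i, ‖c i‖ ≤ 1) : IsIntegral ℤ_[q] (∑ i, c i • sbasis q K i) := by
  refine IsIntegral.sum _ fun i _ => ?_
  rw [Algebra.smul_def]
  exact (isIntegral_algebraMap_of_norm_le_one q K (hc i)).mul (isIntegral_sbasis q K i)

lemma qElt_pow_mul (n : ℕ) (x : SemiLoc q K) :
    qElt q K ^ n * x = ((q : ℚ_[q]) ^ n) • x := by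
  rw [Algebra.smul_def, qElt, map_pow]

lemma exists_pow_mul_norm_le_one (c : ℚ_[q]) :
    ∃ M : ℕ, ∀ n, M ≤ n → ‖(q : ℚ_[q]) ^ n * c‖ ≤ 1 := by
  have hq1 : (1 : ℝ) < q := by exact_mod_cast (Fact.out : q.Prime).one_lt
  obtain ⟨M, hM⟩ := pow_unbounded_of_one_lt ‖c‖ hq1
  refine ⟨M, fun n hn => ?_⟩
  rw [norm_mul, Padic.norm_p_pow, zpow_neg, zpow_natCast]
  have hpos : (0 : ℝ) < (q : ℝ) ^ n := by positivity
  rw [inv_mul_le_iff₀ hpos, mul_one]
  exact hM.le.trans (pow_le_pow_right₀ hq1.le hn)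

/-- Every element of `ℚ_q ⊗ K` becomes integral after multiplication by a power of `q`. -/
lemma exists_pow_mul_integral (x : SemiLoc q K) :
    ∃ M : ℕ, IsIntegral ℤ_[q] (qElt q K ^ M * x) := by
  classical
  obtain ⟨c, rfl⟩ : ∃ c : Module.Free.ChooseBasisIndex ℤ (𝓞 K) → ℚ_[q],
      x = ∑ i, c i • sbasis q K i := ⟨_, ((sbasis q K).sum_repr x).symm⟩
  choose M hM using fun i => exists_pow_mul_norm_le_one q (c i)
  refine ⟨Finset.univ.sup M, ?_⟩
  rw [qElt_pow_mul, Finset.smul_sum]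
  simp_rw [smul_smul]
  exact isIntegral_sum_smul_sbasis q K _ fun i =>
    hM i _ (Finset.le_sup (f := M) (Finset.mem_univ i))

lemma exists_rat_approx (c : ℚ_[q]) (N : ℕ) :
    ∃ (r : ℚ) (e : ℚ_[q]), ‖e‖ ≤ 1 ∧ c - r = (q : ℚ_[q]) ^ N * e := by
  have hq0 : (0 : ℝ) < q := by exact_mod_cast (Fact.out : q.Prime).pos
  have hqne : (q : ℚ_[q]) ≠ 0 := by exact_mod_cast (Fact.out : q.Prime).ne_zero
  have hε : (0 : ℝ) < (q : ℝ) ^ (-(N : ℤ)) := by positivity
  obtain ⟨r, hr⟩ := Padic.rat_dense q c hε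
  refine ⟨r, (c - r) / (q : ℚ_[q]) ^ N, ?_, ?_⟩
  · rw [norm_div, Padic.norm_p_pow]
    rw [div_le_one (by positivity)]
    exact hr.le
  · field_simp

/-- Approximation: every element of `ℚ_q ⊗ K` is congruent to a global element modulo
`q ^ N` times an integral element. -/
lemma exists_approx (x : SemiLoc q K) (N : ℕ) :
    ∃ (a : K) (ε : SemiLoc q K), IsIntegral ℤ_[q] ε ∧
      x - (1 : ℚ_[q]) ⊗ₜ[ℚ] a = qElt q K ^ N * ε := by
  classical
  obtain ⟨c, rfl⟩ : ∃ c : Module.Free.ChooseBasisIndex ℤ (𝓞 K) → ℚ_[q],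
      x = ∑ i, c i • sbasis q K i := ⟨_, ((sbasis q K).sum_repr x).symm⟩
  choose r e he hre using fun i => exists_rat_approx q (c i) N
  refine ⟨∑ i, r i • NumberField.integralBasis K i, ∑ i, e i • sbasis q K i,
    isIntegral_sum_smul_sbasis q K e he, ?_⟩
  have h1 : ((1 : ℚ_[q]) ⊗ₜ[ℚ] (∑ i, r i • NumberField.integralBasis K i) : SemiLoc q K)
      = ∑ i, (r i : ℚ_[q]) • sbasis q K i := by
    rw [TensorProduct.tmul_sum]
    refine Finset.sum_congr rfl fun i _ => ?_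
    rw [sbasis_apply, TensorProduct.smul_tmul', ← TensorProduct.smul_tmul]
    congr 1
  rw [h1, qElt_pow_mul, Finset.smul_sum, ← Finset.sum_sub_distrib]
  refine Finset.sum_congr rfl fun i _ => ?_
  rw [← sub_smul, hre i, smul_smul]

lemma q_mem_maximalIdeal : (q : ℤ_[q]) ∈ IsLocalRing.maximalIdeal ℤ_[q] := by
  rw [PadicInt.maximalIdeal_eq_span_p]
  exact Ideal.mem_span_singleton_self _

lemma qElt_eq : qElt q K = algebraMap ℤ_[q] (SemiLoc q K) (q : ℤ_[q]) := rfl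

lemma isIntegral_qElt : IsIntegral ℤ_[q] (qElt q K) := by
  rw [qElt_eq]
  exact isIntegral_algebraMap

/-- `1 + q t` has an integral inverse when `t` is integral. -/
lemma exists_integral_inverse (t : SemiLoc q K) (ht : IsIntegral ℤ_[q] t) :
    ∃ w : SemiLoc q K, IsIntegral ℤ_[q] w ∧ (1 + qElt q K * t) * w = 1 :=
  exists_integral_inverse_one_add (q : ℤ_[q]) (q_mem_maximalIdeal q) t ht

/-- `1 + q t`, `t` integral, as an element of `U⁽¹⁾`. -/
lemma exists_oneUnit (t : SemiLoc q K) (ht : IsIntegral ℤ_[q] t) :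
    ∃ w : (SemiLoc q K)ˣ, w ∈ oneUnits q K ∧ (w : SemiLoc q K) = 1 + qElt q K * t := by
  obtain ⟨v, hv, hv1⟩ := exists_integral_inverse q K t ht
  refine ⟨⟨1 + qElt q K * t, v, hv1, by rw [mul_comm]; exact hv1⟩, ⟨⟨?_, hv⟩, t, ht, rfl⟩, rfl⟩
  exact isIntegral_one.add ((isIntegral_qElt q K).mul ht)

lemma includeRight_injective :
    Function.Injective (Algebra.TensorProduct.includeRight : K →ₐ[ℚ] SemiLoc q K) :=
  (Algebra.TensorProduct.includeRight : K →ₐ[ℚ] SemiLoc q K).toRingHom.injective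

lemma one_tmul_ne_zero {a : K} (ha : ((1 : ℚ_[q]) ⊗ₜ[ℚ] a : SemiLoc q K) ≠ 0) : a ≠ 0 := by
  rintro rfl
  exact ha (TensorProduct.tmul_zero _ _)

end Basis

/-! ## D1 and D3 -/

section D13

variable (q : ℕ) [Fact q.Prime] (K : Type*) [Field K] [NumberField K]

/-- Core of D1/D3: if `qᴹ x⁻¹` is integral, there is a global `a` with
`x (1 ⊗ a)⁻¹ ∈ U⁽¹⁾`. -/
lemma exists_locUnit_mul_mem_oneUnits_aux (x : (SemiLoc q K)ˣ) (M : ℕ)
    (hM : IsIntegral ℤ_[q] (qElt q K ^ M * ((x⁻¹ : (SemiLoc q K)ˣ) : SemiLoc q K))) :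
    ∃ a : Kˣ, x * (locUnit q K a)⁻¹ ∈ oneUnits q K := by
  obtain ⟨a, ε, hε, hxa⟩ := exists_approx q K (x : SemiLoc q K) (M + 1)
  set y : SemiLoc q K := ((x⁻¹ : (SemiLoc q K)ˣ) : SemiLoc q K) with hy
  have hxy : (x : SemiLoc q K) * y = 1 := x.mul_inv
  set t : SemiLoc q K := -(ε * (qElt q K ^ M * y)) with ht
  have htint : IsIntegral ℤ_[q] t := (hε.mul hM).neg
  have key : ((1 : ℚ_[q]) ⊗ₜ[ℚ] a : SemiLoc q K) * y = 1 + qElt q K * t := by
    have h1 : ((1 : ℚ_[q]) ⊗ₜ[ℚ] a : SemiLoc q K) = x - qElt q K ^ (M + 1) * ε := by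
      rw [← hxa]; ring
    rw [h1, ht, sub_mul, hxy]
    ring
  obtain ⟨w, hw, hw1⟩ := exists_oneUnit q K t htint
  have hunit : ((1 : ℚ_[q]) ⊗ₜ[ℚ] a : SemiLoc q K) = w * x := by
    rw [hw1, ← key, mul_assoc, mul_comm y, hxy, mul_one]
  have ha0 : a ≠ 0 := by
    apply one_tmul_ne_zero q K
    rw [hunit]
    exact (w * x).ne_zero
  refine ⟨Units.mk0 a ha0, ?_⟩
  have hloc : locUnit q K (Units.mk0 a ha0) = w * x := by
    apply Units.ext
    rw [locUnit_coe, Units.val_mk0, hunit, Units.val_mul]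
  rw [hloc, mul_inv_rev, ← mul_assoc, mul_inv_cancel, one_mul]
  exact inv_mem hw

/-- **D1** (approximation): every unit of `ℚ_q ⊗ K` is a global element times an integral
unit. -/
theorem exists_locUnit_mul_mem_intUnits (x : (SemiLoc q K)ˣ) :
    ∃ a : Kˣ, x * (locUnit q K a)⁻¹ ∈ intUnits q K := by
  obtain ⟨M, hM⟩ := exists_pow_mul_integral q K ((x⁻¹ : (SemiLoc q K)ˣ) : SemiLoc q K)
  obtain ⟨a, ha⟩ := exists_locUnit_mul_mem_oneUnits_aux q K x M hM
  exact ⟨a, oneUnits_le q K ha⟩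

/-- **D3** (reduction mod `q`): every integral unit is a global element times an element of
`U⁽¹⁾`. -/
theorem exists_locUnit_mul_mem_oneUnits (u : (SemiLoc q K)ˣ) (hu : u ∈ intUnits q K) :
    ∃ c : Kˣ, locUnit q K c ∈ intUnits q K ∧ u * (locUnit q K c)⁻¹ ∈ oneUnits q K := by
  obtain ⟨c, hc⟩ := exists_locUnit_mul_mem_oneUnits_aux q K u 0 (by simpa using hu.2)
  refine ⟨c, ?_, hc⟩
  have h1 : locUnit q K c = (u * (locUnit q K c)⁻¹)⁻¹ * u := by
    rw [mul_inv_rev, inv_inv, mul_assoc, inv_mul_cancel, mul_one]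
  rw [h1]
  exact mul_mem (inv_mem (oneUnits_le q K hc)) hu

end D13

/-! ## Rational numbers: `q`-adic integrality and valuations at the primes over `q` -/

section Rat

variable (q : ℕ) [Fact q.Prime]

lemma not_dvd_den_of_norm_le_one {c : ℚ} (hc : ‖(c : ℚ_[q])‖ ≤ 1) : ¬ q ∣ c.den := by
  intro hdvd
  have hq : q.Prime := Fact.out
  have hnum : ¬ (q : ℤ) ∣ c.num := by
    intro h
    have h1 : q ∣ c.num.natAbs := Int.natCast_dvd.mp h
    have h2 : q ∣ Nat.gcd c.num.natAbs c.den := Nat.dvd_gcd h1 hdvd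
    rw [c.reduced] at h2
    exact hq.one_lt.ne' (Nat.dvd_one.mp h2)
  have hden0 : (c.den : ℚ_[q]) ≠ 0 := by exact_mod_cast c.den_ne_zero
  have hcd : (c : ℚ_[q]) * (c.den : ℚ_[q]) = (c.num : ℚ_[q]) := by
    have := c.mul_den_eq_num
    exact_mod_cast congrArg (fun x : ℚ => (x : ℚ_[q])) this
  have hnorm_num : ‖(c.num : ℚ_[q])‖ = 1 := by
    refine le_antisymm (Padic.norm_int_le_one _) (not_lt.mp fun h => hnum ?_)
    exact Padic.norm_intCast_lt_one_iff.mp h
  have hnorm_den : ‖(c.den : ℚ_[q])‖ < 1 := Padic.norm_natCast_lt_one_iff.mpr hdvd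
  have h3 : ‖(c : ℚ_[q])‖ * ‖(c.den : ℚ_[q])‖ = 1 := by
    rw [← norm_mul, hcd, hnorm_num]
  have h4 : ‖(c : ℚ_[q])‖ * ‖(c.den : ℚ_[q])‖ < 1 := by
    calc ‖(c : ℚ_[q])‖ * ‖(c.den : ℚ_[q])‖ ≤ 1 * ‖(c.den : ℚ_[q])‖ := by gcongr
      _ < 1 := by rw [one_mul]; exact hnorm_den
  exact absurd h3 h4.ne

variable (K : Type*) [Field K] [NumberField K]

omit [NumberField K] in
lemma natCast_notMem_of_not_dvd {m : ℕ} (hm : ¬ q ∣ m) (P : HeightOneSpectrum (𝓞 K))
    (hP : (q : 𝓞 K) ∈ P.asIdeal) : (m : 𝓞 K) ∉ P.asIdeal := by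
  have hq : q.Prime := Fact.out
  have hcop : IsCoprime (q : ℤ) (m : ℤ) :=
    Nat.isCoprime_iff_coprime.mpr ((Nat.Prime.coprime_iff_not_dvd hq).mpr hm)
  have hcop' : IsCoprime (q : 𝓞 K) (m : 𝓞 K) := by
    have := hcop.map (Int.castRingHom (𝓞 K))
    simpa using this
  exact Ideal.IsPrime.notMem_of_isCoprime_of_mem hcop' hP

lemma valuation_natCast_eq_one {m : ℕ} (hm : ¬ q ∣ m) (P : HeightOneSpectrum (𝓞 K))
    (hP : (q : 𝓞 K) ∈ P.asIdeal) : P.valuation K (m : K) = 1 := by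
  have h1 : P.valuation K (algebraMap (𝓞 K) K (m : 𝓞 K)) ≤ 1 := P.valuation_le_one _
  have h2 : ¬ P.valuation K (algebraMap (𝓞 K) K (m : 𝓞 K)) < 1 := fun h =>
    natCast_notMem_of_not_dvd q K hm P hP ((P.valuation_lt_one_iff_mem _).mp h)
  have h3 : algebraMap (𝓞 K) K (m : 𝓞 K) = (m : K) := by simp
  rw [h3] at h1 h2
  exact le_antisymm h1 (not_lt.mp h2)

lemma valuation_intCast_le_one (z : ℤ) (P : HeightOneSpectrum (𝓞 K)) :
    P.valuation K (z : K) ≤ 1 := by
  have h1 : P.valuation K (algebraMap (𝓞 K) K (z : 𝓞 K)) ≤ 1 := P.valuation_le_one _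
  have h3 : algebraMap (𝓞 K) K (z : 𝓞 K) = (z : K) := by simp
  rwa [h3] at h1

lemma valuation_ratCast_le_one {c : ℚ} (hc : ¬ q ∣ c.den) (P : HeightOneSpectrum (𝓞 K))
    (hP : (q : 𝓞 K) ∈ P.asIdeal) : P.valuation K (algebraMap ℚ K c) ≤ 1 := by
  have h1 : (algebraMap ℚ K c) = (c.num : K) / (c.den : K) := by
    rw [eq_ratCast]
    exact Rat.cast_def c
  rw [h1, map_div₀, valuation_natCast_eq_one q K hc P hP, div_one]
  exact valuation_intCast_le_one K c.num P

end Rat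

/-! ## Linear independence after base change and the minimal polynomial -/

section MinPoly

open Polynomial

theorem sumExtend_inl {F V ι : Type*} [DivisionRing F] [AddCommGroup V] [Module F V]
    {v : ι → V} (hs : LinearIndependent F v) (i : ι) :
    Module.Basis.sumExtend hs (Sum.inl i) = v i := by
  simp only [Module.Basis.sumExtend, Equiv.Set.sumDiffSubset, Module.Basis.reindex_apply,
    Module.Basis.extend_apply_self]
  rfl

variable (q : ℕ) [Fact q.Prime] (K : Type*) [Field K] [NumberField K]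

lemma linearIndependent_one_tmul {ι : Type*} {v : ι → K} (hv : LinearIndependent ℚ v) :
    LinearIndependent ℚ_[q] (fun i => ((1 : ℚ_[q]) ⊗ₜ[ℚ] v i : SemiLoc q K)) := by
  have h := (Algebra.TensorProduct.basis ℚ_[q] (Module.Basis.sumExtend hv)).linearIndependent.comp
    Sum.inl Sum.inl_injective
  convert h using 1
  funext i
  simp [Algebra.TensorProduct.basis_apply, sumExtend_inl]

lemma one_tmul_pow (a : K) (n : ℕ) :
    ((1 : ℚ_[q]) ⊗ₜ[ℚ] a : SemiLoc q K) ^ n = (1 : ℚ_[q]) ⊗ₜ[ℚ] (a ^ n) := by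
  rw [Algebra.TensorProduct.tmul_pow, one_pow]

lemma aeval_one_tmul_map (a : K) (f : ℚ[X]) :
    aeval ((1 : ℚ_[q]) ⊗ₜ[ℚ] a : SemiLoc q K) (f.map (algebraMap ℚ ℚ_[q]))
      = (1 : ℚ_[q]) ⊗ₜ[ℚ] (aeval a f) := by
  rw [aeval_map_algebraMap]
  exact aeval_algHom_apply (Algebra.TensorProduct.includeRight : K →ₐ[ℚ] SemiLoc q K) a f

/-- The minimal polynomial of `a` over `ℚ` divides every polynomial over `ℚ_q` killing
`1 ⊗ a`. -/
lemma minpoly_map_dvd (a : K) (g : ℚ_[q][X])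
    (hg : aeval ((1 : ℚ_[q]) ⊗ₜ[ℚ] a : SemiLoc q K) g = 0) :
    (minpoly ℚ a).map (algebraMap ℚ ℚ_[q]) ∣ g := by
  classical
  have hint : IsIntegral ℚ a := Algebra.IsIntegral.isIntegral a
  set f := minpoly ℚ a with hf
  set f' := f.map (algebraMap ℚ ℚ_[q]) with hf'
  have hmonic : f'.Monic := (minpoly.monic hint).map _
  have hf'0 : aeval ((1 : ℚ_[q]) ⊗ₜ[ℚ] a : SemiLoc q K) f' = 0 := by
    rw [hf', aeval_one_tmul_map, hf, minpoly.aeval, TensorProduct.tmul_zero]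
  rw [← modByMonic_eq_zero_iff_dvd hmonic]
  set r := g %ₘ f' with hr
  have hr0 : aeval ((1 : ℚ_[q]) ⊗ₜ[ℚ] a : SemiLoc q K) r = 0 := by
    have h := modByMonic_add_div g f'
    have h2 := congrArg (aeval ((1 : ℚ_[q]) ⊗ₜ[ℚ] a : SemiLoc q K)) h
    rw [map_add, map_mul, hf'0, zero_mul, add_zero, hg] at h2
    exact h2
  have hn : f'.natDegree = f.natDegree := natDegree_map _
  have hne1 : f' ≠ 1 := by
    intro h1
    have : f'.natDegree = 0 := by rw [h1, natDegree_one]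
    rw [hn] at this
    exact (minpoly.natDegree_pos hint).ne' this
  have hdeg : r.natDegree < f.natDegree := by
    rw [← hn]
    exact natDegree_modByMonic_lt g hmonic hne1
  have hsum := as_sum_range' r f.natDegree hdeg
  have hli := linearIndependent_one_tmul q K (linearIndependent_pow (K := ℚ) a)
  rw [Fintype.linearIndependent_iff] at hli
  have hzero : ∑ i : Fin f.natDegree,
      r.coeff (i : ℕ) • ((1 : ℚ_[q]) ⊗ₜ[ℚ] (a ^ (i : ℕ)) : SemiLoc q K) = 0 := by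
    rw [Fin.sum_univ_eq_sum_range
      (fun i => r.coeff i • ((1 : ℚ_[q]) ⊗ₜ[ℚ] (a ^ i) : SemiLoc q K)) f.natDegree]
    rw [hsum, map_sum] at hr0
    rw [← hr0]
    refine Finset.sum_congr rfl fun i _ => ?_
    rw [aeval_monomial, one_tmul_pow, Algebra.smul_def]
  have hcoeff := hli (fun i => r.coeff (i : ℕ)) hzero
  ext i
  rw [coeff_zero]
  by_cases hi : i < f.natDegree
  · exact hcoeff ⟨i, hi⟩
  · exact coeff_eq_zero_of_natDegree_lt (lt_of_lt_of_le hdeg (not_lt.mp hi))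

/-- If `1 ⊗ a` is integral over `ℤ_q`, the minimal polynomial of `a` over `ℚ` has
`q`-integral coefficients. -/
lemma norm_coeff_minpoly_le_one (a : K)
    (ha : IsIntegral ℤ_[q] ((1 : ℚ_[q]) ⊗ₜ[ℚ] a : SemiLoc q K)) (i : ℕ) :
    ‖(((minpoly ℚ a).coeff i : ℚ) : ℚ_[q])‖ ≤ 1 := by
  obtain ⟨g, hgm, hg0⟩ := ha
  have hint : IsIntegral ℚ a := Algebra.IsIntegral.isIntegral a
  have hg' : aeval ((1 : ℚ_[q]) ⊗ₜ[ℚ] a : SemiLoc q K) (g.map (algebraMap ℤ_[q] ℚ_[q])) = 0 := by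
    rw [aeval_map_algebraMap]
    exact hg0
  have hdvd := minpoly_map_dvd q K a _ hg'
  obtain ⟨g₁, hg₁⟩ := IsIntegrallyClosed.eq_map_mul_C_of_dvd ℚ_[q] hgm hdvd
  have hmonic : ((minpoly ℚ a).map (algebraMap ℚ ℚ_[q])).Monic := (minpoly.monic hint).map _
  rw [hmonic.leadingCoeff, C_1, mul_one] at hg₁
  have h1 : ((minpoly ℚ a).map (algebraMap ℚ ℚ_[q])).coeff i = ((g₁.coeff i : ℤ_[q]) : ℚ_[q]) := by
    rw [← hg₁, coeff_map]
    rfl
  rw [coeff_map] at h1
  have h2 : (((minpoly ℚ a).coeff i : ℚ) : ℚ_[q]) = algebraMap ℚ ℚ_[q] ((minpoly ℚ a).coeff i) := by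
    rw [eq_ratCast]
  rw [h2, h1]
  exact (g₁.coeff i).2

/-- An element whose minimal polynomial over `ℚ` has coefficients of valuation `≤ 1` has
valuation `≤ 1`. -/
lemma valuation_le_one_of_coeff_minpoly (P : HeightOneSpectrum (𝓞 K)) (a : K)
    (h : ∀ i, P.valuation K (algebraMap ℚ K ((minpoly ℚ a).coeff i)) ≤ 1) :
    P.valuation K a ≤ 1 := by
  have hint : IsIntegral ℚ a := Algebra.IsIntegral.isIntegral a
  set v := P.valuation K with hv
  set fK := (minpoly ℚ a).map (algebraMap ℚ K) with hfK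
  have hmonic : fK.Monic := (minpoly.monic hint).map _
  have hlifts : fK ∈ lifts (algebraMap v.integer K) := by
    rw [lifts_iff_coeff_lifts]
    intro n
    refine ⟨⟨fK.coeff n, ?_⟩, rfl⟩
    rw [hfK, coeff_map]
    exact h n
  obtain ⟨g, hgmap, -, hgmonic⟩ := lifts_and_degree_eq_and_monic hlifts hmonic
  have hgint : IsIntegral v.integer a := by
    refine ⟨g, hgmonic, ?_⟩
    rw [eval₂_eq_eval_map, hgmap, hfK, eval_map_algebraMap, minpoly.aeval]
  exact (Valuation.integer.integers v).mem_of_integral hgint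

end MinPoly

/-! ## D2' and D2 -/

section D2

variable (q : ℕ) [Fact q.Prime] (K : Type*) [Field K] [NumberField K]

/-- Clearing denominators away from `q`. -/
lemma exists_natCast_mul_isIntegral (a : K)
    (h : ∀ P : HeightOneSpectrum (𝓞 K), (q : 𝓞 K) ∈ P.asIdeal → P.valuation K a ≤ 1) :
    ∃ m : ℕ, ¬ q ∣ m ∧ IsIntegral ℤ ((m : K) * a) := by
  have hq : q.Prime := Fact.out
  have halg : IsAlgebraic ℤ a := by
    have : IsAlgebraic ℚ a := (Algebra.IsIntegral.isIntegral a).isAlgebraic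
    exact (IsFractionRing.isAlgebraic_iff ℤ ℚ K).mpr this
  obtain ⟨d, hd0, hd⟩ := halg.exists_integral_multiple
  obtain ⟨k, m, hm, hdm⟩ := Nat.exists_eq_pow_mul_and_not_dvd (Int.natAbs_ne_zero.mpr hd0) q
    hq.ne_one
  refine ⟨m, hm, ?_⟩
  -- `|d| a` is integral
  have hdabs : IsIntegral ℤ (((d.natAbs : ℕ) : K) * a) := by
    rcases Int.natAbs_eq d with h1 | h1
    · have : ((d.natAbs : ℕ) : K) * a = d • a := by
        rw [zsmul_eq_mul]; congr 1
        conv_rhs => rw [h1]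
        simp
      rw [this]; exact hd
    · have : ((d.natAbs : ℕ) : K) * a = -(d • a) := by
        rw [zsmul_eq_mul, ← neg_mul]; congr 1
        conv_rhs => rw [h1]
        simp
      rw [this]; exact hd.neg
  have hval : ∀ P : HeightOneSpectrum (𝓞 K), P.valuation K ((m : K) * a) ≤ 1 := by
    intro P
    by_cases hP : (q : 𝓞 K) ∈ P.asIdeal
    · rw [map_mul, valuation_natCast_eq_one q K hm P hP, one_mul]
      exact h P hP
    · -- `q` is a unit at `P`
      have hqv : P.valuation K (q : K) = 1 := by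
        have h1 : P.valuation K (algebraMap (𝓞 K) K (q : 𝓞 K)) ≤ 1 := P.valuation_le_one _
        have h2 : ¬ P.valuation K (algebraMap (𝓞 K) K (q : 𝓞 K)) < 1 := fun h =>
          hP ((P.valuation_lt_one_iff_mem _).mp h)
        have h3 : algebraMap (𝓞 K) K (q : 𝓞 K) = (q : K) := by simp
        rw [h3] at h1 h2
        exact le_antisymm h1 (not_lt.mp h2)
      have h4 : ((d.natAbs : ℕ) : K) * a = (q : K) ^ k * ((m : K) * a) := by
        rw [hdm]; push_cast; ring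
      have h5 : P.valuation K (((d.natAbs : ℕ) : K) * a) ≤ 1 := by
        obtain ⟨b, hb⟩ : ∃ b : 𝓞 K, algebraMap (𝓞 K) K b = ((d.natAbs : ℕ) : K) * a :=
          ⟨⟨_, hdabs⟩, rfl⟩
        rw [← hb]
        exact P.valuation_le_one b
      rwa [h4, map_mul, map_pow, hqv, one_pow, one_mul] at h5
  obtain ⟨b, hb⟩ := HeightOneSpectrum.mem_integers_of_valuation_le_one K _ hval
  rw [← hb]
  exact NumberField.RingOfIntegers.isIntegral_coe b

/-- **D2'** : `1 ⊗ a` is integral over `ℤ_q` iff `a` is integral at all primes over `q`. -/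
theorem isIntegral_one_tmul_iff (a : K) :
    IsIntegral ℤ_[q] ((1 : ℚ_[q]) ⊗ₜ[ℚ] a : SemiLoc q K) ↔
      ∀ P : HeightOneSpectrum (𝓞 K), (q : 𝓞 K) ∈ P.asIdeal → P.valuation K a ≤ 1 := by
  constructor
  · intro ha P hP
    refine valuation_le_one_of_coeff_minpoly K P a fun i => ?_
    exact valuation_ratCast_le_one q K
      (not_dvd_den_of_norm_le_one q (norm_coeff_minpoly_le_one q K a ha i)) P hP
  · intro h
    obtain ⟨m, hm, hint⟩ := exists_natCast_mul_isIntegral q K a h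
    have hq : q.Prime := Fact.out
    have hm0 : (m : ℚ_[q]) ≠ 0 := by
      have : m ≠ 0 := by rintro rfl; exact hm (dvd_zero q)
      exact_mod_cast this
    have hnorm : ‖((m : ℚ_[q]))⁻¹‖ ≤ 1 := by
      rw [norm_inv, Padic.norm_natCast_eq_one_iff.mpr ((Nat.Prime.coprime_iff_not_dvd hq).mpr hm),
        inv_one]
    have h1 : ((1 : ℚ_[q]) ⊗ₜ[ℚ] a : SemiLoc q K)
        = algebraMap ℚ_[q] (SemiLoc q K) ((m : ℚ_[q]))⁻¹ * ((1 : ℚ_[q]) ⊗ₜ[ℚ] ((m : K) * a)) := by
      have h2 : ((1 : ℚ_[q]) ⊗ₜ[ℚ] ((m : K) * a) : SemiLoc q K) = (m : ℚ_[q]) ⊗ₜ[ℚ] a := by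
        have h3 : (m : K) * a = (m : ℚ) • a := by
          rw [Algebra.smul_def]; simp
        rw [h3, ← TensorProduct.smul_tmul]
        congr 1
        rw [Algebra.smul_def]; simp
      rw [h2, Algebra.TensorProduct.algebraMap_apply, Algebra.TensorProduct.tmul_mul_tmul,
        one_mul]
      congr 1
      simp [inv_mul_cancel₀ hm0]
    rw [h1]
    exact (isIntegral_algebraMap_of_norm_le_one q K hnorm).mul
      (isIntegral_one_tmul_of_isIntegral q K hint)

/-- **D2** : `1 ⊗ a` is an integral unit iff `a` is a unit at all primes over `q`. -/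
theorem locUnit_mem_intUnits_iff (a : Kˣ) :
    locUnit q K a ∈ intUnits q K ↔
      ∀ P : HeightOneSpectrum (𝓞 K), (q : 𝓞 K) ∈ P.asIdeal → P.valuation K (a : K) = 1 := by
  have hinv : (((locUnit q K a)⁻¹ : (SemiLoc q K)ˣ) : SemiLoc q K)
      = (1 : ℚ_[q]) ⊗ₜ[ℚ] ((a⁻¹ : Kˣ) : K) := by
    rw [← map_inv]; rfl
  rw [mem_intUnits, locUnit_coe, hinv, isIntegral_one_tmul_iff, isIntegral_one_tmul_iff]
  constructor
  · rintro ⟨h1, h2⟩ P hP
    refine le_antisymm (h1 P hP) ?_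
    have h3 := h2 P hP
    rw [Units.val_inv_eq_inv_val, map_inv₀] at h3
    have hne : P.valuation K (a : K) ≠ 0 := (Valuation.ne_zero_iff _).mpr a.ne_zero
    exact (inv_le_one₀ (zero_lt_iff.mpr hne)).mp h3
  · intro h
    refine ⟨fun P hP => (h P hP).le, fun P hP => ?_⟩
    rw [Units.val_inv_eq_inv_val, map_inv₀, h P hP, inv_one]

end D2

end Fermat.Agent.S55.helper24
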