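import Mathlib

/-!
# Inflation–restriction in degrees 1 and 2, in explicit cocycle form

For a group `G`, a normal subgroup `S` and a `G`-module `A` we prove, by direct cocycle
computations (no derived functors):

* (T1a) a 1-cocycle on `G` whose restriction to `S` is a coboundary is cohomologous to an
  inflated cocycle;
* (T1b) an inflated 1-cocycle which is a coboundary on `G` is a coboundary on `G/S`;
* (T2a) if `H¹(S, A) = 0`, a 2-cocycle on `G` whose restriction to `S` is a coboundary is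
  cohomologous to an inflated cocycle;
* (T2b) if `H¹(S, A) = 0`, an inflated 2-cocycle which is a coboundary on `G` is a coboundary
  on `G/S`.

Everything is stated both additively (`IsCocycle₁`, ...) and multiplicatively
(`IsMulCocycle₁`, ...), and in the "datum" form `π : G →* Q`, `ι : B → A` where `Q` plays the
role of `G/S` and `B` the role of `A^S`.
-/

set_option linter.style.haveILetI false

namespace Fermat.Agent.S55.helper6

open groupCohomology

section AdditiveCore

variable {G A : Type*} [Group G] [AddCommGroup A] [DistribMulAction G A]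

/-- `x : G → A` is inflated from `G/S`: right-`S`-invariant with `S`-fixed values. -/
def IsInfl₁ (S : Subgroup G) (x : G → A) : Prop :=
  (∀ g, ∀ s ∈ S, x (g * s) = x g) ∧ (∀ g, ∀ s ∈ S, s • x g = x g)

/-- `f : G × G → A` is inflated from `G/S`. -/
def IsInfl₂ (S : Subgroup G) (f : G × G → A) : Prop :=
  (∀ g h, ∀ s ∈ S, ∀ t ∈ S, f (g * s, h * t) = f (g, h)) ∧
    (∀ g h, ∀ s ∈ S, s • f (g, h) = f (g, h))

/-- `H¹(S, A) = 0`, in membership form: every function on `G` satisfying the cocycle identity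
on `S` is a coboundary on `S`. -/
def H1TrivOn (S : Subgroup G) (A : Type*) [AddCommGroup A] [DistribMulAction G A] : Prop :=
  ∀ φ : G → A, (∀ s ∈ S, ∀ t ∈ S, φ (s * t) = s • φ t + φ s) →
    ∃ a : A, ∀ s ∈ S, s • a - a = φ s

/-- The coboundary of a 1-cochain. -/
def dOne (x : G → A) : G × G → A := fun p => p.1 • x p.2 - x (p.1 * p.2) + x p.1

@[simp] lemma dOne_apply (x : G → A) (g h : G) :
    dOne x (g, h) = g • x h - x (g * h) + x g := rfl

lemma isCocycle₂_dOne (x : G → A) : IsCocycle₂ (dOne x) := by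
  intro g h j
  simp only [dOne_apply, smul_add, smul_sub, mul_smul, mul_assoc]
  abel

lemma isCocycle₂_add {f f' : G × G → A} (hf : IsCocycle₂ f) (hf' : IsCocycle₂ f') :
    IsCocycle₂ (fun p => f p + f' p) := by
  intro g h j
  have h1 := hf g h j
  have h2 := hf' g h j
  simp only [smul_add]
  linear_combination (norm := abel) h1 + h2

lemma isCocycle₂_sub {f f' : G × G → A} (hf : IsCocycle₂ f) (hf' : IsCocycle₂ f') :
    IsCocycle₂ (fun p => f p - f' p) := by
  intro g h j
  have h1 := hf g h j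
  have h2 := hf' g h j
  simp only [smul_sub]
  linear_combination (norm := abel) h1 - h2

/-- **Lemma C.** A 2-cocycle `F` with `F (g, s) = F (g, 1)` and `F (s, g) = F (1, g)` for all
`s ∈ S` is inflated. -/
lemma isInfl₂_of_normalized (S : Subgroup G) [S.Normal] {F : G × G → A} (hF : IsCocycle₂ F)
    (h1 : ∀ g, ∀ s ∈ S, F (g, s) = F (g, 1)) (h2 : ∀ g, ∀ s ∈ S, F (s, g) = F (1, g)) :
    IsInfl₂ S F := by
  obtain ⟨c, hc⟩ : ∃ c, c = F (1, 1) := ⟨_, rfl⟩
  have e1 : ∀ g, ∀ s ∈ S, F (g, s) = g • c := fun g s hs => by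
    rw [h1 g s hs, hc]; exact map_one_snd_of_isCocycle₂ hF g
  have e2 : ∀ g, ∀ s ∈ S, F (s, g) = c := fun g s hs => by
    rw [h2 g s hs, hc]; exact map_one_fst_of_isCocycle₂ hF g
  -- (a) right invariance in the second variable
  have ha : ∀ g h, ∀ t ∈ S, F (g, h * t) = F (g, h) := by
    intro g h t ht
    have k0 := hF g h t
    have k1 : F (g * h, t) = (g * h) • c := e1 _ t ht
    have k2 : g • F (h, t) = (g * h) • c := by rw [e1 _ t ht, mul_smul]
    linear_combination (norm := abel) -k0 + k1 - k2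
  -- (b) right invariance in the first variable
  have hb : ∀ g h, ∀ s ∈ S, F (g * s, h) = F (g, h) := by
    intro g h s hs
    have k0 := hF g s h
    have k1 : F (g, s) = g • c := e1 _ s hs
    have k2 : g • F (s, h) = g • c := by rw [e2 _ s hs]
    have hconj : h⁻¹ * s * h ∈ S := Subgroup.Normal.conj_mem' inferInstance s hs h
    have k3 := ha g h _ hconj
    rw [show h * (h⁻¹ * s * h) = s * h by group] at k3
    linear_combination (norm := abel) k0 - k1 + k2 + k3
  refine ⟨fun g h s hs t ht => by rw [ha _ _ t ht, hb _ _ s hs], fun g h s hs => ?_⟩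
  have k0 := hF s g h
  have k1 : F (s, g) = c := e2 _ s hs
  have k2 : F (s, g * h) = c := e2 _ s hs
  have hconj : g⁻¹ * s * g ∈ S := Subgroup.Normal.conj_mem' inferInstance s hs g
  have k3 := hb g h _ hconj
  rw [show g * (g⁻¹ * s * g) = s * g by group] at k3
  linear_combination (norm := abel) -k0 + k1 - k2 + k3

/-- The auxiliary function `θ_g(s) = f (g, g⁻¹ s g) - f (s, g)`. -/
def theta (f : G × G → A) (g s : G) : A := f (g, g⁻¹ * s * g) - f (s, g)

/-- **Lemma A.** If `f` vanishes on `S × S`, then `θ_g` is a 1-cocycle on `S`. -/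
lemma theta_mul (S : Subgroup G) [S.Normal] {f : G × G → A} (hf : IsCocycle₂ f)
    (h0 : ∀ s ∈ S, ∀ t ∈ S, f (s, t) = 0) (g s : G) (hs : s ∈ S) (t : G) (ht : t ∈ S) :
    theta f g (s * t) = s • theta f g t + theta f g s := by
  unfold theta
  have hs' : g⁻¹ * s * g ∈ S := Subgroup.Normal.conj_mem' inferInstance s hs g
  have ht' : g⁻¹ * t * g ∈ S := Subgroup.Normal.conj_mem' inferInstance t ht g
  have k1 := hf g (g⁻¹ * s * g) (g⁻¹ * t * g)
  rw [h0 _ hs' _ ht', smul_zero, zero_add, show g * (g⁻¹ * s * g) = s * g by group,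
    show g⁻¹ * s * g * (g⁻¹ * t * g) = g⁻¹ * (s * t) * g by group] at k1
  have k2 := hf s g (g⁻¹ * t * g)
  rw [show g * (g⁻¹ * t * g) = t * g by group] at k2
  have k3 := hf s t g
  rw [h0 _ hs _ ht, add_zero] at k3
  rw [smul_sub]
  linear_combination (norm := abel) -k1 - k3 + k2

/-- **Lemma B.** Dependence of `θ_g` on `g` within a coset of `S`. -/
lemma theta_mul_right (S : Subgroup G) [S.Normal] {f : G × G → A} (hf : IsCocycle₂ f)
    (h0 : ∀ s ∈ S, ∀ t ∈ S, f (s, t) = 0) (g t₀ : G) (ht₀ : t₀ ∈ S) (s : G) (hs : s ∈ S) :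
    theta f (g * t₀) s = theta f g s + s • f (g, t₀) - f (g, t₀) := by
  unfold theta
  have hs' : g⁻¹ * s * g ∈ S := Subgroup.Normal.conj_mem' inferInstance s hs g
  have hs'' : (g * t₀)⁻¹ * s * (g * t₀) ∈ S :=
    Subgroup.Normal.conj_mem' inferInstance s hs (g * t₀)
  have k1 := hf g t₀ ((g * t₀)⁻¹ * s * (g * t₀))
  rw [h0 _ ht₀ _ hs'', smul_zero, zero_add,
    show t₀ * ((g * t₀)⁻¹ * s * (g * t₀)) = g⁻¹ * s * g * t₀ by group] at k1
  have k2 := hf g (g⁻¹ * s * g) t₀
  rw [h0 _ hs' _ ht₀, smul_zero, zero_add, show g * (g⁻¹ * s * g) = s * g by group] at k2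
  have k3 := hf s g t₀
  linear_combination (norm := abel) k1 - k2 + k3

/-- **Key step of (T2a).** If `H¹(S, A) = 0` and the 2-cocycle `f` vanishes on `S × S`, then
`f + dy` is inflated for a suitable 1-cochain `y`. -/
theorem exists_isInfl₂_add_dOne (S : Subgroup G) [S.Normal] (hH1 : H1TrivOn S A)
    {f : G × G → A} (hf : IsCocycle₂ f) (h0 : ∀ s ∈ S, ∀ t ∈ S, f (s, t) = 0) :
    ∃ y : G → A, IsInfl₂ S (fun p => f p + dOne y p) := by
  have hm : ∀ g : G, ∃ m : A, ∀ s ∈ S, s • m - m = theta f g s := fun g =>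
    hH1 (theta f g) (fun s hs t ht => theta_mul S hf h0 g s hs t ht)
  choose m hm using hm
  obtain ⟨ρ, hρ1, hρ2⟩ : ∃ ρ : G → G, (∀ g, (ρ g)⁻¹ * g ∈ S) ∧
      (∀ g, ∀ s ∈ S, ρ (g * s) = ρ g) := by
    refine ⟨fun g => (QuotientGroup.mk g : G ⧸ S).out, fun g => ?_, fun g s hs => ?_⟩
    · exact QuotientGroup.eq.mp (QuotientGroup.out_eq' _)
    · exact congrArg Quotient.out (QuotientGroup.mk_mul_of_mem g hs)
  obtain ⟨y, hy⟩ : ∃ y : G → A, ∀ g, y g = m (ρ g) + f (ρ g, (ρ g)⁻¹ * g) := ⟨_, fun _ => rfl⟩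
  have P1 : ∀ g, ∀ s ∈ S, y (g * s) = y g + f (g, s) := by
    intro g s hs
    rw [hy, hy, hρ2 g s hs]
    have k := hf (ρ g) ((ρ g)⁻¹ * g) s
    rw [h0 _ (hρ1 g) _ hs, smul_zero, zero_add, show ρ g * ((ρ g)⁻¹ * g) = g by group,
      show (ρ g)⁻¹ * g * s = (ρ g)⁻¹ * (g * s) by group] at k
    linear_combination (norm := abel) -k
  have P2 : ∀ g, ∀ s ∈ S, s • y g - y g = theta f g s := by
    intro g s hs
    have k := theta_mul_right S hf h0 (ρ g) ((ρ g)⁻¹ * g) (hρ1 g) s hs
    rw [show ρ g * ((ρ g)⁻¹ * g) = g by group] at k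
    have k' := hm (ρ g) s hs
    rw [hy, smul_add]
    linear_combination (norm := abel) k' - k
  have hyS : ∀ s ∈ S, y s = y 1 := by
    intro s hs
    have := P1 1 s hs
    rw [one_mul, h0 1 S.one_mem s hs, add_zero] at this
    exact this
  have F1 : ∀ g, ∀ s ∈ S, f (g, s) + dOne y (g, s) = g • y 1 := by
    intro g s hs
    rw [dOne_apply, P1 g s hs, hyS s hs]
    abel
  have F2 : ∀ g, ∀ s ∈ S, f (s, g) + dOne y (s, g) = y 1 := by
    intro g s hs
    have hconj : g⁻¹ * s * g ∈ S := Subgroup.Normal.conj_mem' inferInstance s hs g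
    have k1 := P1 g _ hconj
    rw [show g * (g⁻¹ * s * g) = s * g by group] at k1
    have k2 := P2 g s hs
    unfold theta at k2
    rw [dOne_apply, hyS s hs]
    linear_combination (norm := abel) k2 - k1
  refine ⟨y, isInfl₂_of_normalized S (isCocycle₂_add hf (isCocycle₂_dOne y)) ?_ ?_⟩
  · intro g s hs
    show f (g, s) + dOne y (g, s) = f (g, 1) + dOne y (g, 1)
    rw [F1 g s hs, F1 g 1 S.one_mem]
  · intro g s hs
    show f (s, g) + dOne y (s, g) = f (1, g) + dOne y (1, g)
    rw [F2 g s hs, F2 g 1 S.one_mem]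

/-- **(T2a), subgroup form.** If `H¹(S, A) = 0`, a 2-cocycle on `G` whose restriction to `S` is
a coboundary is cohomologous to an inflated 2-cocycle. -/
theorem exists_isInfl₂_sub_dOne (S : Subgroup G) [S.Normal] (hH1 : H1TrivOn S A)
    {f : G × G → A} (hf : IsCocycle₂ f)
    (hres : ∃ x₀ : G → A, ∀ s ∈ S, ∀ t ∈ S, s • x₀ t - x₀ (s * t) + x₀ s = f (s, t)) :
    ∃ x : G → A, IsCocycle₂ (fun p => f p - dOne x p) ∧ IsInfl₂ S (fun p => f p - dOne x p) := by
  obtain ⟨x₀, hx₀⟩ := hres
  have hf₁ : IsCocycle₂ (fun p => f p - dOne x₀ p) := isCocycle₂_sub hf (isCocycle₂_dOne x₀)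
  have h0 : ∀ s ∈ S, ∀ t ∈ S, (fun p => f p - dOne x₀ p) (s, t) = 0 := by
    intro s hs t ht
    show f (s, t) - dOne x₀ (s, t) = 0
    rw [dOne_apply, hx₀ s hs t ht, sub_self]
  obtain ⟨y, hy⟩ := exists_isInfl₂_add_dOne S hH1 hf₁ h0
  have key : (fun p : G × G => f p - dOne (fun g => x₀ g - y g) p) =
      (fun p => (fun p => f p - dOne x₀ p) p + dOne y p) := by
    funext p
    obtain ⟨g, h⟩ := p
    simp only [dOne_apply, smul_sub]
    abel
  refine ⟨fun g => x₀ g - y g, ?_, ?_⟩
  · exact isCocycle₂_sub hf (isCocycle₂_dOne _)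
  · rw [key]; exact hy

/-- **(T2b), subgroup form.** If `H¹(S, A) = 0` and the inflated 2-cochain `f` is the
coboundary of `x`, then it is the coboundary of an inflated 1-cochain. -/
theorem exists_isInfl₁_of_dOne_eq (S : Subgroup G) [S.Normal] (hH1 : H1TrivOn S A)
    {f : G × G → A} (hinf : IsInfl₂ S f) {x : G → A}
    (hx : ∀ g h, g • x h - x (g * h) + x g = f (g, h)) :
    ∃ x' : G → A, IsInfl₁ S x' ∧ ∀ g h, g • x' h - x' (g * h) + x' g = f (g, h) := by
  obtain ⟨hinv, hfix⟩ := hinf
  obtain ⟨c, hc⟩ : ∃ c, c = f (1, 1) := ⟨_, rfl⟩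
  have hcfix : ∀ s ∈ S, s • c = c := fun s hs => by rw [hc]; exact hfix 1 1 s hs
  have hfS : ∀ g h, ∀ s ∈ S, ∀ t ∈ S, f (g * s, h * t) = f (g, h) := hinv
  have hf1 : ∀ s ∈ S, ∀ t ∈ S, f (s, t) = c := by
    intro s hs t ht
    have := hinv 1 1 s hs t ht
    rwa [one_mul, one_mul, ← hc] at this
  have hx1 : x 1 = c := by
    have := hx 1 1
    rw [one_smul, mul_one, ← hc] at this
    rw [← this]; abel
  -- the cocycle `s ↦ x s - c` on `S`
  obtain ⟨a, ha⟩ := hH1 (fun s => x s - c) (by
    intro s hs t ht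
    have k := hx s t
    rw [hf1 s hs t ht] at k
    have k' := hcfix s hs
    show x (s * t) - c = s • (x t - c) + (x s - c)
    rw [smul_sub]
    linear_combination (norm := abel) -k + k')
  obtain ⟨x₁, hx₁⟩ : ∃ x₁ : G → A, ∀ g, x₁ g = x g - (g • a - a) := ⟨_, fun _ => rfl⟩
  have hdx₁ : ∀ g h, g • x₁ h - x₁ (g * h) + x₁ g = f (g, h) := by
    intro g h
    rw [hx₁, hx₁, hx₁, ← hx g h, smul_sub, smul_sub, mul_smul]
    abel
  have hx₁S : ∀ s ∈ S, x₁ s = c := by
    intro s hs
    have : s • a - a = x s - c := ha s hs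
    rw [hx₁]
    linear_combination (norm := abel) -this
  have hf2 : ∀ g, ∀ s ∈ S, f (g, s) = g • c := by
    intro g s hs
    have k := hinv g 1 1 S.one_mem s hs
    rw [mul_one, one_mul] at k
    have k' := hdx₁ g 1
    rw [mul_one, hx₁S 1 S.one_mem] at k'
    rw [k, ← k']
    abel
  have hf3 : ∀ g, ∀ s ∈ S, f (s, g) = c := by
    intro g s hs
    have k := hinv 1 g s hs 1 S.one_mem
    rw [mul_one, one_mul] at k
    have k' := hdx₁ 1 g
    rw [one_mul, one_smul, hx₁S 1 S.one_mem] at k'
    rw [k, ← k']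
    abel
  have hr : ∀ g, ∀ s ∈ S, x₁ (g * s) = x₁ g := by
    intro g s hs
    have k := hdx₁ g s
    rw [hf2 g s hs, hx₁S s hs] at k
    linear_combination (norm := abel) -k
  refine ⟨x₁, ⟨hr, fun g s hs => ?_⟩, hdx₁⟩
  have k := hdx₁ s g
  rw [hf3 g s hs, hx₁S s hs] at k
  have hconj : g⁻¹ * s * g ∈ S := Subgroup.Normal.conj_mem' inferInstance s hs g
  have k2 := hr g _ hconj
  rw [show g * (g⁻¹ * s * g) = s * g by group] at k2
  linear_combination (norm := abel) k + k2

/-- **(T1a), subgroup form.** A 1-cocycle on `G` whose restriction to `S` is the coboundary of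
`a` becomes inflated after subtracting the coboundary of `a`. -/
theorem isInfl₁_sub_of_res (S : Subgroup G) [S.Normal] {f : G → A} (hf : IsCocycle₁ f) {a : A}
    (ha : ∀ s ∈ S, s • a - a = f s) :
    IsCocycle₁ (fun g => f g - (g • a - a)) ∧ IsInfl₁ S (fun g => f g - (g • a - a)) := by
  have hc : IsCocycle₁ (fun g => f g - (g • a - a)) := by
    intro g h
    show f (g * h) - ((g * h) • a - a) = g • (f h - (h • a - a)) + (f g - (g • a - a))
    rw [hf g h, smul_sub, smul_sub, mul_smul]
    abel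
  have h0 : ∀ s ∈ S, (fun g => f g - (g • a - a)) s = 0 := fun s hs => by
    show f s - (s • a - a) = 0
    rw [ha s hs, sub_self]
  have hr : ∀ g, ∀ s ∈ S, (fun g => f g - (g • a - a)) (g * s) = (fun g => f g - (g • a - a)) g := by
    intro g s hs
    rw [hc g s, h0 s hs, smul_zero, zero_add]
  refine ⟨hc, hr, fun g s hs => ?_⟩
  have hconj : g⁻¹ * s * g ∈ S := Subgroup.Normal.conj_mem' inferInstance s hs g
  have k := hr g _ hconj
  rw [show g * (g⁻¹ * s * g) = s * g by group, hc s g, h0 s hs, add_zero] at k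
  exact k

end AdditiveCore

section AdditiveDatum

variable {G Q A B : Type*} [Group G] [Group Q] [AddCommGroup A] [AddCommGroup B]
  [DistribMulAction G A] [DistribMulAction Q B]

/-- An (additive) inflation datum: `π : G →* Q` is surjective (so `Q = G / ker π`), and
`ι : B →+ A` identifies the `Q`-module `B` with the `ker π`-invariants of the `G`-module `A`. -/
structure AddInflDatum (π : G →* Q) (ι : B →+ A) : Prop where
  surj : Function.Surjective π
  inj : Function.Injective ι
  equivariant : ∀ g b, ι (π g • b) = g • ι b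
  exists_of_fixed : ∀ a : A, (∀ s ∈ π.ker, s • a = a) → ∃ b, ι b = a

namespace AddInflDatum

variable {π : G →* Q} {ι : B →+ A}

lemma isInfl₁_comp (D : AddInflDatum π ι) (c : Q → B) :
    IsInfl₁ π.ker (fun g => ι (c (π g))) := by
  refine ⟨fun g s hs => ?_, fun g s hs => ?_⟩
  · show ι (c (π (g * s))) = ι (c (π g))
    rw [map_mul, MonoidHom.mem_ker.mp hs, mul_one]
  · show s • ι (c (π g)) = ι (c (π g))
    rw [← D.equivariant, MonoidHom.mem_ker.mp hs, one_smul]

lemma isInfl₂_comp (D : AddInflDatum π ι) (c : Q × Q → B) :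
    IsInfl₂ π.ker (fun p => ι (c (π p.1, π p.2))) := by
  refine ⟨fun g h s hs t ht => ?_, fun g h s hs => ?_⟩
  · show ι (c (π (g * s), π (h * t))) = ι (c (π g, π h))
    rw [map_mul, map_mul, MonoidHom.mem_ker.mp hs, MonoidHom.mem_ker.mp ht, mul_one, mul_one]
  · show s • ι (c (π g, π h)) = ι (c (π g, π h))
    rw [← D.equivariant, MonoidHom.mem_ker.mp hs, one_smul]

lemma surjInv_inv_mul_mem (D : AddInflDatum π ι) (g : G) :
    (Function.surjInv D.surj (π g))⁻¹ * g ∈ π.ker := by
  rw [MonoidHom.mem_ker, map_mul, map_inv, Function.surjInv_eq D.surj, inv_mul_cancel]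

/-- An inflated 1-cochain comes from a 1-cochain on `Q` with values in `B`. -/
lemma descend₁ (D : AddInflDatum π ι) {x : G → A} (hx : IsInfl₁ π.ker x) :
    ∃ c : Q → B, ∀ g, ι (c (π g)) = x g := by
  have h : ∀ q : Q, ∃ b : B, ι b = x (Function.surjInv D.surj q) := fun q =>
    D.exists_of_fixed _ (fun s hs => hx.2 _ s hs)
  choose c hc using h
  refine ⟨c, fun g => ?_⟩
  rw [hc]
  have := hx.1 (Function.surjInv D.surj (π g)) _ (D.surjInv_inv_mul_mem g)
  rw [mul_inv_cancel_left] at this
  exact this.symm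

/-- An inflated 2-cochain comes from a 2-cochain on `Q` with values in `B`. -/
lemma descend₂ (D : AddInflDatum π ι) {f : G × G → A} (hf : IsInfl₂ π.ker f) :
    ∃ c : Q × Q → B, ∀ g h, ι (c (π g, π h)) = f (g, h) := by
  have h : ∀ q : Q × Q, ∃ b : B,
      ι b = f (Function.surjInv D.surj q.1, Function.surjInv D.surj q.2) := fun q =>
    D.exists_of_fixed _ (fun s hs => hf.2 _ _ s hs)
  choose c hc using h
  refine ⟨c, fun g h => ?_⟩
  rw [hc]
  have := hf.1 (Function.surjInv D.surj (π g)) (Function.surjInv D.surj (π h)) _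
    (D.surjInv_inv_mul_mem g) _ (D.surjInv_inv_mul_mem h)
  rw [mul_inv_cancel_left, mul_inv_cancel_left] at this
  exact this.symm

lemma isCocycle₁_comp (D : AddInflDatum π ι) {c : Q → B} (hc : IsCocycle₁ c) :
    IsCocycle₁ (fun g : G => ι (c (π g))) := by
  intro g h
  show ι (c (π (g * h))) = g • ι (c (π h)) + ι (c (π g))
  rw [map_mul, hc, map_add, D.equivariant]

lemma isCocycle₂_comp (D : AddInflDatum π ι) {c : Q × Q → B} (hc : IsCocycle₂ c) :
    IsCocycle₂ (fun p : G × G => ι (c (π p.1, π p.2))) := by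
  intro g h j
  show ι (c (π (g * h), π j)) + ι (c (π g, π h)) =
    g • ι (c (π h, π j)) + ι (c (π g, π (h * j)))
  rw [map_mul, map_mul, ← D.equivariant, ← map_add, ← map_add, hc]

lemma isCocycle₁_of_comp (D : AddInflDatum π ι) {c : Q → B}
    (hc : IsCocycle₁ (fun g : G => ι (c (π g)))) : IsCocycle₁ c := by
  intro q₁ q₂
  obtain ⟨g₁, rfl⟩ := D.surj q₁
  obtain ⟨g₂, rfl⟩ := D.surj q₂
  apply D.inj
  have := hc g₁ g₂
  simp only [map_mul] at this
  rw [this, map_add, D.equivariant]

lemma isCocycle₂_of_comp (D : AddInflDatum π ι) {c : Q × Q → B}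
    (hc : IsCocycle₂ (fun p : G × G => ι (c (π p.1, π p.2)))) : IsCocycle₂ c := by
  intro q₁ q₂ q₃
  obtain ⟨g₁, rfl⟩ := D.surj q₁
  obtain ⟨g₂, rfl⟩ := D.surj q₂
  obtain ⟨g₃, rfl⟩ := D.surj q₃
  apply D.inj
  have := hc g₁ g₂ g₃
  simp only [map_mul] at this
  rw [map_add, map_add, this, D.equivariant]

lemma isCoboundary₁_comp (D : AddInflDatum π ι) {c : Q → B} (hc : IsCoboundary₁ c) :
    IsCoboundary₁ (fun g : G => ι (c (π g))) := by
  obtain ⟨b, hb⟩ := hc
  refine ⟨ι b, fun g => ?_⟩
  show g • ι b - ι b = ι (c (π g))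
  rw [← hb, map_sub, D.equivariant]

lemma isCoboundary₂_comp (D : AddInflDatum π ι) {c : Q × Q → B} (hc : IsCoboundary₂ c) :
    IsCoboundary₂ (fun p : G × G => ι (c (π p.1, π p.2))) := by
  obtain ⟨x, hx⟩ := hc
  refine ⟨fun g => ι (x (π g)), fun g h => ?_⟩
  show g • ι (x (π h)) - ι (x (π (g * h))) + ι (x (π g)) = ι (c (π g, π h))
  rw [← hx, map_add, map_sub, D.equivariant, map_mul]

/-- **(T1a)** Exactness of inflation–restriction at `H¹(G, A)`. -/
theorem exists_infl_of_res_isCoboundary₁ (D : AddInflDatum π ι) {f : G → A}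
    (hf : IsCocycle₁ f) (hres : ∃ a : A, ∀ s ∈ π.ker, s • a - a = f s) :
    ∃ (c : Q → B) (a : A), IsCocycle₁ c ∧ ∀ g, f g = ι (c (π g)) + (g • a - a) := by
  obtain ⟨a, ha⟩ := hres
  obtain ⟨hc, hinf⟩ := isInfl₁_sub_of_res π.ker hf ha
  obtain ⟨c, hcc⟩ := D.descend₁ hinf
  refine ⟨c, a, D.isCocycle₁_of_comp ?_, fun g => ?_⟩
  · rw [show (fun g : G => ι (c (π g))) = fun g => f g - (g • a - a) from funext hcc]
    exact hc
  · rw [hcc]; abel

/-- **(T1b)** Injectivity of inflation on `H¹`. -/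
theorem isCoboundary₁_of_infl (D : AddInflDatum π ι) (c : Q → B)
    (h : IsCoboundary₁ (fun g : G => ι (c (π g)))) : IsCoboundary₁ c := by
  obtain ⟨a, ha⟩ := h
  have ha' : ∀ g : G, g • a - a = ι (c (π g)) := ha
  have h1 : ι (c 1) = 0 := by
    have := ha' 1
    rw [one_smul, sub_self, map_one] at this
    exact this.symm
  obtain ⟨b, rfl⟩ := D.exists_of_fixed a (fun s hs => by
    have := ha' s
    rw [MonoidHom.mem_ker.mp hs, h1] at this
    exact sub_eq_zero.mp this)
  refine ⟨b, fun q => ?_⟩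
  obtain ⟨g, rfl⟩ := D.surj q
  apply D.inj
  rw [map_sub, D.equivariant, ha']

/-- **(T2a)** Exactness of inflation–restriction at `H²(G, A)` when `H¹(ker π, A) = 0`. -/
theorem exists_infl_of_res_isCoboundary₂ (D : AddInflDatum π ι) (hH1 : H1TrivOn π.ker A)
    {f : G × G → A} (hf : IsCocycle₂ f)
    (hres : ∃ x₀ : G → A, ∀ s ∈ π.ker, ∀ t ∈ π.ker,
      s • x₀ t - x₀ (s * t) + x₀ s = f (s, t)) :
    ∃ (c : Q × Q → B) (x : G → A), IsCocycle₂ c ∧
      ∀ g h, f (g, h) = ι (c (π g, π h)) + (g • x h - x (g * h) + x g) := by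
  obtain ⟨x, hc, hinf⟩ := exists_isInfl₂_sub_dOne π.ker hH1 hf hres
  obtain ⟨c, hcc⟩ := D.descend₂ hinf
  refine ⟨c, x, D.isCocycle₂_of_comp ?_, fun g h => ?_⟩
  · rw [show (fun p : G × G => ι (c (π p.1, π p.2))) = fun p => f p - dOne x p from
      funext fun p => hcc p.1 p.2]
    exact hc
  · rw [hcc, dOne_apply]; abel

/-- **(T2b)** Injectivity of inflation on `H²` when `H¹(ker π, A) = 0`. -/
theorem isCoboundary₂_of_infl (D : AddInflDatum π ι) (hH1 : H1TrivOn π.ker A)
    (c : Q × Q → B) (h : IsCoboundary₂ (fun p : G × G => ι (c (π p.1, π p.2)))) :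
    IsCoboundary₂ c := by
  obtain ⟨x, hx⟩ := h
  obtain ⟨x', hx'inf, hx'⟩ := exists_isInfl₁_of_dOne_eq π.ker hH1 (D.isInfl₂_comp c) hx
  obtain ⟨c', hc'⟩ := D.descend₁ hx'inf
  refine ⟨c', fun q₁ q₂ => ?_⟩
  obtain ⟨g₁, rfl⟩ := D.surj q₁
  obtain ⟨g₂, rfl⟩ := D.surj q₂
  apply D.inj
  have := hx' g₁ g₂
  simp only at this
  rw [← this, map_add, map_sub, D.equivariant, ← map_mul, hc', hc', hc']

end AddInflDatum

end AdditiveDatum

section Multiplicative

/-- The `DistribMulAction` on `Additive M` induced by a `MulDistribMulAction` on `M`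
(a definition, not an instance; use it with `letI`). -/
@[reducible] def additiveDistribMulAction (G M : Type*) [Monoid G] [CommGroup M]
    [MulDistribMulAction G M] : DistribMulAction G (Additive M) where
  smul g a := Additive.ofMul (g • Additive.toMul a)
  one_smul a := by
    show Additive.ofMul ((1 : G) • Additive.toMul a) = a
    rw [one_smul]; rfl
  mul_smul g h a := by
    show Additive.ofMul ((g * h) • Additive.toMul a) =
      Additive.ofMul (g • Additive.toMul (Additive.ofMul (h • Additive.toMul a)))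
    rw [mul_smul]; rfl
  smul_zero g := by
    show Additive.ofMul (g • (1 : M)) = 0
    rw [smul_one]; rfl
  smul_add g a b := by
    show Additive.ofMul (g • (Additive.toMul a * Additive.toMul b)) =
      Additive.ofMul (g • Additive.toMul a) + Additive.ofMul (g • Additive.toMul b)
    rw [smul_mul']; rfl

variable {G Q M B : Type*} [Group G] [Group Q] [CommGroup M] [CommGroup B]
  [MulDistribMulAction G M] [MulDistribMulAction Q B]

/-- A (multiplicative) inflation datum: `π : G →* Q` is surjective (so `Q = G / ker π`), and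
`ι : B →* M` identifies the `Q`-module `B` with the `ker π`-invariants of the `G`-module `M`.
Typical example: `G = Gal(L/K)`, `Q = Gal(E/K)`, `M = Lˣ`, `B = Eˣ`. -/
structure InflDatum (π : G →* Q) (ι : B →* M) : Prop where
  surj : Function.Surjective π
  inj : Function.Injective ι
  equivariant : ∀ g b, ι (π g • b) = g • ι b
  exists_of_fixed : ∀ m : M, (∀ s ∈ π.ker, s • m = m) → ∃ b, ι b = m

/-- `H¹(S, M) = 1` in membership form: every function on `G` satisfying the multiplicative
cocycle identity on `S` is a coboundary on `S`. -/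
def H1TrivialOn (S : Subgroup G) (M : Type*) [CommGroup M] [MulDistribMulAction G M] : Prop :=
  ∀ φ : G → M, (∀ s ∈ S, ∀ t ∈ S, φ (s * t) = s • φ t * φ s) →
    ∃ a : M, ∀ s ∈ S, s • a / a = φ s

/-- `H¹(S, M) = 1` in membership form follows from the vanishing of `H¹(S', M)` for any group
`S'` mapping onto `S` compatibly with the actions (e.g. `S' = Gal(L/E)`, `S = ker (res)`). -/
theorem h1TrivialOn_of_hom {S' : Type*} [Group S'] [MulDistribMulAction S' M] (j : S' →* G)
    (hj : ∀ (s : S') (m : M), j s • m = s • m) (S : Subgroup G) (hS : j.range = S)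
    (h : ∀ f : S' → M, IsMulCocycle₁ f → IsMulCoboundary₁ f) : H1TrivialOn S M := by
  intro φ hφ
  have hmem : ∀ s : S', j s ∈ S := fun s => hS ▸ ⟨s, rfl⟩
  obtain ⟨a, ha⟩ := h (fun s => φ (j s)) (fun s t => by
    show φ (j (s * t)) = s • φ (j t) * φ (j s)
    rw [map_mul, hφ _ (hmem s) _ (hmem t), hj])
  refine ⟨a, fun s hs => ?_⟩
  obtain ⟨s', rfl⟩ : s ∈ j.range := hS ▸ hs
  rw [hj]
  exact ha s'

/-- `H¹(S, M) = 1` in membership form, from the vanishing of `H¹` of the subgroup `S` itself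
(acting through `G`). -/
theorem h1TrivialOn_of_subgroup (S : Subgroup G)
    (h : ∀ f : S → M, IsMulCocycle₁ f → IsMulCoboundary₁ f) : H1TrivialOn S M :=
  h1TrivialOn_of_hom S.subtype (fun _ _ => rfl) S S.range_subtype h

/-- Converter for the restriction hypothesis of (T2a): if the pull-back of `f` along an
injective `j : S' →* G` is a 2-coboundary, then `f` is a coboundary on `j.range`, in membership
form. -/
theorem res_isMulCoboundary₂_of_hom {S' : Type*} [Group S'] [MulDistribMulAction S' M]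
    (j : S' →* G) (hj : ∀ (s : S') (m : M), j s • m = s • m) (hinj : Function.Injective j)
    (f : G × G → M) (h : IsMulCoboundary₂ (fun p : S' × S' => f (j p.1, j p.2))) :
    ∃ x : G → M, ∀ s ∈ j.range, ∀ t ∈ j.range, s • x t / x (s * t) * x s = f (s, t) := by
  classical
  obtain ⟨x, hx⟩ := h
  have hx' : ∀ s t : S', s • x t / x (s * t) * x s = f (j s, j t) := hx
  refine ⟨fun g => if hg : ∃ s, j s = g then x hg.choose else 1, ?_⟩
  have key : ∀ s : S', (fun g => if hg : ∃ s, j s = g then x hg.choose else 1) (j s) = x s := by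
    intro s
    have hg : ∃ s', j s' = j s := ⟨s, rfl⟩
    show (if hg : ∃ s', j s' = j s then x hg.choose else 1) = x s
    rw [dif_pos hg, hinj hg.choose_spec]
  rintro _ ⟨s, rfl⟩ _ ⟨t, rfl⟩
  rw [← map_mul, key, key, key, hj]
  exact hx' s t

/-- Converter for the restriction hypothesis of (T1a). -/
theorem res_isMulCoboundary₁_of_hom {S' : Type*} [Group S'] [MulDistribMulAction S' M]
    (j : S' →* G) (hj : ∀ (s : S') (m : M), j s • m = s • m)
    (f : G → M) (h : IsMulCoboundary₁ (fun s : S' => f (j s))) :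
    ∃ a : M, ∀ s ∈ j.range, s • a / a = f s := by
  obtain ⟨a, ha⟩ := h
  refine ⟨a, ?_⟩
  rintro _ ⟨s, rfl⟩
  rw [hj]
  exact ha s

namespace InflDatum

variable {π : G →* Q} {ι : B →* M}

/-- A multiplicative inflation datum is an additive inflation datum for the `Additive`
modules. -/
lemma toAdd (D : InflDatum π ι) :
    @AddInflDatum G Q (Additive M) (Additive B) _ _ _ _ (additiveDistribMulAction G M)
      (additiveDistribMulAction Q B) π (MonoidHom.toAdditive ι) :=
  letI := additiveDistribMulAction G M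
  letI := additiveDistribMulAction Q B
  { surj := D.surj
    inj := D.inj
    equivariant := D.equivariant
    exists_of_fixed := D.exists_of_fixed }

lemma isMulCocycle₁_comp (D : InflDatum π ι) {c : Q → B} (hc : IsMulCocycle₁ c) :
    IsMulCocycle₁ (fun g : G => ι (c (π g))) := by
  letI := additiveDistribMulAction G M
  letI := additiveDistribMulAction Q B
  exact D.toAdd.isCocycle₁_comp (c := fun q => Additive.ofMul (c q)) hc

lemma isMulCocycle₂_comp (D : InflDatum π ι) {c : Q × Q → B} (hc : IsMulCocycle₂ c) :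
    IsMulCocycle₂ (fun p : G × G => ι (c (π p.1, π p.2))) := by
  letI := additiveDistribMulAction G M
  letI := additiveDistribMulAction Q B
  exact D.toAdd.isCocycle₂_comp (c := fun q => Additive.ofMul (c q)) hc

lemma isMulCocycle₁_of_comp (D : InflDatum π ι) {c : Q → B}
    (hc : IsMulCocycle₁ (fun g : G => ι (c (π g)))) : IsMulCocycle₁ c := by
  letI := additiveDistribMulAction G M
  letI := additiveDistribMulAction Q B
  exact D.toAdd.isCocycle₁_of_comp (c := fun q => Additive.ofMul (c q)) hc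

lemma isMulCocycle₂_of_comp (D : InflDatum π ι) {c : Q × Q → B}
    (hc : IsMulCocycle₂ (fun p : G × G => ι (c (π p.1, π p.2)))) : IsMulCocycle₂ c := by
  letI := additiveDistribMulAction G M
  letI := additiveDistribMulAction Q B
  exact D.toAdd.isCocycle₂_of_comp (c := fun q => Additive.ofMul (c q)) hc

lemma isMulCoboundary₁_comp (D : InflDatum π ι) {c : Q → B} (hc : IsMulCoboundary₁ c) :
    IsMulCoboundary₁ (fun g : G => ι (c (π g))) := by
  letI := additiveDistribMulAction G M
  letI := additiveDistribMulAction Q B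
  exact D.toAdd.isCoboundary₁_comp (c := fun q => Additive.ofMul (c q)) hc

lemma isMulCoboundary₂_comp (D : InflDatum π ι) {c : Q × Q → B} (hc : IsMulCoboundary₂ c) :
    IsMulCoboundary₂ (fun p : G × G => ι (c (π p.1, π p.2))) := by
  letI := additiveDistribMulAction G M
  letI := additiveDistribMulAction Q B
  exact D.toAdd.isCoboundary₂_comp (c := fun q => Additive.ofMul (c q)) hc

/-- **(T1a), multiplicative.** Exactness of inflation–restriction at `H¹(G, M)`: a 1-cocycle
on `G` whose restriction to `ker π` is a coboundary is cohomologous to the inflation of a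
1-cocycle on `Q` with values in `B`. -/
theorem exists_infl_of_res_isMulCoboundary₁ (D : InflDatum π ι) (f : G → M)
    (hf : IsMulCocycle₁ f) (hres : ∃ a : M, ∀ s ∈ π.ker, s • a / a = f s) :
    ∃ (c : Q → B) (a : M), IsMulCocycle₁ c ∧ ∀ g, f g = ι (c (π g)) * (g • a / a) := by
  letI := additiveDistribMulAction G M
  letI := additiveDistribMulAction Q B
  obtain ⟨c, a, hc, h⟩ := D.toAdd.exists_infl_of_res_isCoboundary₁
    (f := fun g => Additive.ofMul (f g)) hf hres
  exact ⟨fun q => Additive.toMul (c q), Additive.toMul a, hc, h⟩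

/-- **(T1b), multiplicative.** Injectivity of inflation on `H¹`. -/
theorem isMulCoboundary₁_of_infl (D : InflDatum π ι) (c : Q → B)
    (h : IsMulCoboundary₁ (fun g : G => ι (c (π g)))) : IsMulCoboundary₁ c := by
  letI := additiveDistribMulAction G M
  letI := additiveDistribMulAction Q B
  exact D.toAdd.isCoboundary₁_of_infl (fun q => Additive.ofMul (c q)) h

/-- **(T2a), multiplicative.** Exactness of inflation–restriction at `H²(G, M)` when
`H¹(ker π, M) = 1`: a 2-cocycle on `G` whose restriction to `ker π` is a coboundary is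
cohomologous to the inflation of a 2-cocycle on `Q` with values in `B`. -/
theorem exists_infl_of_res_isMulCoboundary₂ (D : InflDatum π ι) (hH1 : H1TrivialOn π.ker M)
    (f : G × G → M) (hf : IsMulCocycle₂ f)
    (hres : ∃ x : G → M, ∀ s ∈ π.ker, ∀ t ∈ π.ker, s • x t / x (s * t) * x s = f (s, t)) :
    ∃ (c : Q × Q → B) (x : G → M), IsMulCocycle₂ c ∧
      ∀ g h, f (g, h) = ι (c (π g, π h)) * (g • x h / x (g * h) * x g) := by
  letI := additiveDistribMulAction G M
  letI := additiveDistribMulAction Q B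
  obtain ⟨c, x, hc, h⟩ := D.toAdd.exists_infl_of_res_isCoboundary₂ (A := Additive M) hH1
    (f := fun p => Additive.ofMul (f p)) hf hres
  exact ⟨fun q => Additive.toMul (c q), fun g => Additive.toMul (x g), hc, h⟩

/-- **(T2b), multiplicative.** Injectivity of inflation on `H²` when `H¹(ker π, M) = 1`: if
the inflation of `c` is a coboundary on `G`, then `c` is a coboundary on `Q`. -/
theorem isMulCoboundary₂_of_infl (D : InflDatum π ι) (hH1 : H1TrivialOn π.ker M)
    (c : Q × Q → B) (h : IsMulCoboundary₂ (fun p : G × G => ι (c (π p.1, π p.2)))) :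
    IsMulCoboundary₂ c := by
  letI := additiveDistribMulAction G M
  letI := additiveDistribMulAction Q B
  exact D.toAdd.isCoboundary₂_of_infl (A := Additive M) hH1 (fun q => Additive.ofMul (c q)) h

end InflDatum

end Multiplicative

end Fermat.Agent.S55.helper6
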