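import Fermat.Agent.S55.helper97_SemiLocAbs

/-!
# S55 / GLOB-G2b (helper97): the semilocal algebra `ℚ_q ⊗ L` as a Galois algebra

Base change `bc`, Galois descent (`mem_range_bc_of_fixed`), absence of inertia, and the
specialisation of the abstract norm index theorem of `helper97_SemiLocAbs`.
-/

set_option autoImplicit false
set_option linter.style.haveILetI false

open scoped Pointwise TensorProduct NumberField

namespace Fermat.Agent.S55.helper97

open Fermat.Agent.S55.helper73

section Spec

variable (K L : Type*) [Field K] [NumberField K] [Field L] [NumberField L] [Algebra K L]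
variable (q : ℕ) [Fact q.Prime]

/-- base change `ℚ_q ⊗ K → ℚ_q ⊗ L` (same definition as in the GLOB interface). -/
noncomputable def bc : SemiLoc q K →ₐ[ℚ_[q]] SemiLoc q L :=
  Algebra.TensorProduct.map (AlgHom.id ℚ_[q] ℚ_[q]) (algebraMap K L).toRatAlgHom

@[simp]
theorem bc_tmul (a : ℚ_[q]) (k : K) : bc K L q (a ⊗ₜ[ℚ] k) = a ⊗ₜ[ℚ] algebraMap K L k := by
  simp [bc]

theorem bc_injective : Function.Injective (bc K L q) := by
  have h : Function.Injective ((algebraMap K L).toRatAlgHom.toLinearMap) :=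
    (algebraMap K L).injective
  have := Module.Flat.lTensor_preserves_injective_linearMap (M := ℚ_[q])
    ((algebraMap K L).toRatAlgHom.toLinearMap) h
  intro x y hxy
  apply this
  have key : ∀ z : SemiLoc q K, LinearMap.lTensor ℚ_[q] ((algebraMap K L).toRatAlgHom.toLinearMap) z
      = bc K L q z := by
    intro z
    induction z using TensorProduct.induction_on with
    | zero => simp
    | tmul a b => simp
    | add x y hx hy => simp only [map_add, hx, hy]
  rw [key, key, hxy]

/-- `ℚ_q ⊗ L` as an algebra over `ℚ_q ⊗ K`. -/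
@[instance_reducible]
noncomputable def semiLocAlgebra : Algebra (SemiLoc q K) (SemiLoc q L) :=
  (bc K L q).toRingHom.toAlgebra

theorem smul_bc (σ : L ≃ₐ[K] L) (a : SemiLoc q K) : σ • bc K L q a = bc K L q a := by
  induction a using TensorProduct.induction_on with
  | zero => simp
  | tmul a b => rw [bc_tmul, smul_tmul', AlgEquiv.commutes]
  | add x y hx hy => rw [map_add, smul_add, hx, hy]

theorem semiLoc_smulCommClass :
    letI := semiLocAlgebra K L q
    SMulCommClass (L ≃ₐ[K] L) (SemiLoc q K) (SemiLoc q L) := by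
  letI := semiLocAlgebra K L q
  refine ⟨fun σ a b => ?_⟩
  change σ • (bc K L q a * b) = bc K L q a * σ • b
  rw [smul_mul', smul_bc]

omit [NumberField K] in
/-- coordinates with respect to a `ℚ`-basis of `ℚ_q` commute with the Galois action -/
theorem coord_smul {ι : Type*} [DecidableEq ι] (ℬ : Module.Basis ι ℚ ℚ_[q]) (σ : L ≃ₐ[K] L)
    (x : SemiLoc q L) (i : ι) :
    TensorProduct.equivFinsuppOfBasisLeft ℬ (σ • x) i =
      σ (TensorProduct.equivFinsuppOfBasisLeft ℬ x i) := by
  induction x using TensorProduct.induction_on with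
  | zero => simp
  | tmul a b =>
    rw [smul_tmul', TensorProduct.equivFinsuppOfBasisLeft_apply_tmul_apply,
      TensorProduct.equivFinsuppOfBasisLeft_apply_tmul_apply, map_rat_smul]
  | add x y hx hy =>
    rw [smul_add, map_add, Finsupp.add_apply, hx, hy, map_add, Finsupp.add_apply, map_add]

/-- Galois descent for the semilocal algebra -/
theorem mem_range_bc_of_fixed [IsGalois K L] (x : SemiLoc q L)
    (hx : ∀ σ : L ≃ₐ[K] L, σ • x = x) : ∃ a : SemiLoc q K, bc K L q a = x := by
  classical
  let ℬ := Module.Free.chooseBasis ℚ ℚ_[q]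
  have hfix : ∀ i, ∃ k : K, algebraMap K L k = TensorProduct.equivFinsuppOfBasisLeft ℬ x i := by
    intro i
    have h1 : ∀ σ : L ≃ₐ[K] L, σ (TensorProduct.equivFinsuppOfBasisLeft ℬ x i) =
        TensorProduct.equivFinsuppOfBasisLeft ℬ x i := fun σ => by
      rw [← coord_smul, hx]
    have h2 : TensorProduct.equivFinsuppOfBasisLeft ℬ x i ∈ (⊥ : IntermediateField K L) :=
      (IsGalois.mem_bot_iff_fixed _).mpr h1
    exact IntermediateField.mem_bot.mp h2
  choose k hk using hfix
  refine ⟨(TensorProduct.equivFinsuppOfBasisLeft ℬ x).support.sum fun i => ℬ i ⊗ₜ[ℚ] k i, ?_⟩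
  rw [map_sum]
  conv_rhs => rw [← (TensorProduct.equivFinsuppOfBasisLeft ℬ).symm_apply_apply x,
    TensorProduct.equivFinsuppOfBasisLeft_symm_apply, Finsupp.sum]
  exact Finset.sum_congr rfl fun i _ => by rw [bc_tmul, hk]

theorem semiLoc_isInvariant [IsGalois K L] :
    letI := semiLocAlgebra K L q
    Algebra.IsInvariant (SemiLoc q K) (SemiLoc q L) (L ≃ₐ[K] L) := by
  letI := semiLocAlgebra K L q
  exact ⟨fun b hb => mem_range_bc_of_fixed K L q b hb⟩

omit [NumberField K] in
/-- no inertia: a nontrivial automorphism moves some `1 ⊗ α` by a unit -/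
theorem exists_isUnit_smul_sub (σ : L ≃ₐ[K] L) (hσ : σ ≠ 1) :
    ∃ b : SemiLoc q L, IsUnit (σ • b - b) := by
  have : ∃ α : L, σ α ≠ α := by
    by_contra h
    push Not at h
    exact hσ (AlgEquiv.ext h)
  obtain ⟨α, hα⟩ := this
  refine ⟨1 ⊗ₜ[ℚ] α, ?_⟩
  rw [smul_tmul', ← TensorProduct.tmul_sub]
  have hd : σ α - α ≠ 0 := sub_ne_zero.mpr hα
  refine IsUnit.of_mul_eq_one (1 ⊗ₜ[ℚ] (σ α - α)⁻¹) ?_
  rw [Algebra.TensorProduct.tmul_mul_tmul, mul_one, mul_inv_cancel₀ hd]
  rfl

end Spec

section Spec2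

variable (K L : Type*) [Field K] [NumberField K] [Field L] [NumberField L] [Algebra K L]
  [IsGalois K L]
variable (q : ℕ) [Fact q.Prime]

instance semiLoc_isReduced' : IsReduced (SemiLoc q L) := by
  have : Algebra.FormallyUnramified ℚ L := Algebra.FormallyUnramified.of_isSeparable ℚ L
  have : Algebra.FormallyUnramified ℚ_[q] (SemiLoc q L) := inferInstance
  exact Algebra.FormallyUnramified.isReduced_of_field ℚ_[q] (SemiLoc q L)

instance semiLoc_isArtinianRing : IsArtinianRing (SemiLoc q L) :=
  IsArtinianRing.of_finite ℚ_[q] (SemiLoc q L)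

/-- residue field extensions of the semilocal algebras are separable (characteristic zero) -/
theorem semiLoc_isSeparable (n : MaximalSpectrum (SemiLoc q L)) :
    letI := semiLocAlgebra K L q
    Algebra.IsSeparable (SemiLoc q K ⧸ n.asIdeal.under (SemiLoc q K))
      (SemiLoc q L ⧸ n.asIdeal) := by
  letI := semiLocAlgebra K L q
  letI := semiLoc_smulCommClass K L q
  letI := semiLoc_isInvariant K L q
  have hint : Algebra.IsIntegral (SemiLoc q K) (SemiLoc q L) :=
    Algebra.IsInvariant.isIntegral (SemiLoc q K) (SemiLoc q L) (L ≃ₐ[K] L)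
  have hnmax := n.isMaximal
  have hPmax : (n.asIdeal.under (SemiLoc q K)).IsMaximal :=
    Ideal.IsMaximal.under (SemiLoc q K) n.asIdeal
  letI := Ideal.Quotient.field (n.asIdeal.under (SemiLoc q K))
  letI := Ideal.Quotient.field n.asIdeal
  have hchar : CharZero (SemiLoc q K ⧸ n.asIdeal.under (SemiLoc q K)) :=
    algebraRat.charZero _
  have halg : Algebra.IsAlgebraic (SemiLoc q K ⧸ n.asIdeal.under (SemiLoc q K))
      (SemiLoc q L ⧸ n.asIdeal) := by
    have : Algebra.IsIntegral (SemiLoc q K ⧸ n.asIdeal.under (SemiLoc q K))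
      (SemiLoc q L ⧸ n.asIdeal) := inferInstance
    exact Algebra.IsIntegral.isAlgebraic
  infer_instance

/-- the norm index of the semilocal algebra from the local norm indices at the `G`-stable
maximal ideals. -/
theorem semiLoc_norm_index_of_loc (p : ℕ) (hp : p.Prime) (hdeg : Module.finrank K L = p)
    (hloc : ∀ n : MaximalSpectrum (SemiLoc q L), (∀ σ : Gal(L/K), σ • n = n) →
      letI := semiLocAlgebra K L q
      Nat.card ((SemiLoc q K ⧸ n.asIdeal.under (SemiLoc q K))ˣ ⧸
        (Units.map (Algebra.norm (SemiLoc q K ⧸ n.asIdeal.under (SemiLoc q K)) :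
          (SemiLoc q L ⧸ n.asIdeal) →* (SemiLoc q K ⧸ n.asIdeal.under (SemiLoc q K)))).range)
        = p) :
    ((normG Gal(L/K) (SemiLoc q L)ˣ).range.subgroupOf (fixedSub Gal(L/K) (SemiLoc q L)ˣ)).index =
      p ^ Nat.card {m : Ideal (SemiLoc q K) // m.IsMaximal ∧
        ∃! n : Ideal (SemiLoc q L), n.IsMaximal ∧ n.comap (bc K L q) = m} := by
  letI := semiLocAlgebra K L q
  letI := semiLoc_smulCommClass K L q
  letI := semiLoc_isInvariant K L q
  have hc : ∀ (σ : Gal(L/K)) (x : (SemiLoc q L)ˣ),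
      ((σ • x : (SemiLoc q L)ˣ) : SemiLoc q L) = σ • (x : SemiLoc q L) := fun σ x => rfl
  have hcard : (Nat.card Gal(L/K)).Prime := by
    rw [IsGalois.card_aut_eq_finrank, hdeg]
    exact hp
  have hinj : Function.Injective (algebraMap (SemiLoc q K) (SemiLoc q L)) := bc_injective K L q
  have hinert : ∀ (n : MaximalSpectrum (SemiLoc q L)) (σ : Gal(L/K)), σ ≠ 1 →
      ∃ b : SemiLoc q L, σ • b - b ∉ n.asIdeal := by
    intro n σ hσ
    obtain ⟨b, hb⟩ := exists_isUnit_smul_sub K L q σ hσ
    exact ⟨b, fun h => n.isMaximal.ne_top (Ideal.eq_top_of_isUnit_mem _ h hb)⟩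
  have h1 := index_normG_eq (B := SemiLoc q L) (G := Gal(L/K)) hc hcard p (fun n hn => by
    haveI := semiLoc_isSeparable K L q n
    rw [local_index_eq hc hinj n hn (hinert n)]
    exact hloc n hn)
  rw [h1, card_fixed_eq (A := SemiLoc q K) (B := SemiLoc q L) (G := Gal(L/K))]
  rfl

end Spec2

end Fermat.Agent.S55.helper97
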