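import Fermat.Agent.S55.helper33_Rec2Defs
import Fermat.Agent.S55.helper6_InfRes
import Fermat.Agent.S55.helper97_SemiLocBridge
import Fermat.Agent.S55.helper24_Dict

/-!
# S55 / REC2-G1 (helper69, task 379): the inflation datum of idele class groups

For number fields `K ⊆ L` with `L/K` Galois:

* `principalPi_injective`, `bcUnits_injective`, `bcIdele_injective`;
* `smul_bcIdele` : base-changed ideles are fixed by `Gal(L/K)`;
* `exists_bcUnits_of_fixed`, `exists_bcIdele_of_fixed` : Galois descent for units of the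
  semilocal algebra and for ideles;
* `exists_bcIdele_of_fixed_class` : a fixed idele CLASS is the class of an idele of `K`
  (Hilbert 90);
* `ideleClassMap_injective`, `exists_ideleClassMap_eq_of_fixed`, `inflDatum_ideleClassMap` :
  the statements of helper33's interface, VERBATIM.
-/

set_option autoImplicit false

open scoped TensorProduct NumberField
open groupCohomology

namespace Fermat.Agent.S55.helper69

open Fermat.Agent.S55.helper73 Fermat.Agent.S55.helper6 Fermat.Agent.S55.helper33

/-! ## Principal ideles -/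

section Principal

variable (L : Type*) [Field L] [NumberField L]

theorem one_tmul_injective (q : ℕ) [Fact q.Prime] :
    Function.Injective (fun x : L => ((1 : ℚ_[q]) ⊗ₜ[ℚ] x : SemiLoc q L)) :=
  (Algebra.TensorProduct.includeRight : L →ₐ[ℚ] SemiLoc q L).toRingHom.injective

/-- `Lˣ → ∏_q (ℚ_q ⊗ L)ˣ` is injective. -/
theorem principalPi_injective : Function.Injective (principalPi L) := by
  intro x y h
  have h2 := congrArg (fun z : IdelePi L => ((z ⟨2, Nat.prime_two⟩ : (SemiLoc 2 L)ˣ) :
    SemiLoc 2 L)) h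
  exact Units.ext (one_tmul_injective L 2 h2)

/-- `1 ⊗ a` is integral over `ℤ_q` as soon as `d a` is integral for some `d` prime to `q`. -/
theorem isIntegral_one_tmul_of_not_dvd (q : ℕ) [Fact q.Prime] (a : L) (d : ℤ)
    (hd : ¬ (q : ℤ) ∣ d) (h : IsIntegral ℤ (d • a)) :
    IsIntegral ℤ_[q] ((1 : ℚ_[q]) ⊗ₜ[ℚ] a : SemiLoc q L) := by
  have hd0 : (d : ℚ_[q]) ≠ 0 := by
    have : d ≠ 0 := by rintro rfl; exact hd (dvd_zero _)
    exact_mod_cast this
  have hnorm : ‖((d : ℚ_[q]))⁻¹‖ ≤ 1 := by
    rw [norm_inv]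
    have h1 : ‖(d : ℚ_[q])‖ = 1 := by
      have h3 : ‖(d : ℚ_[q])‖ ≤ 1 := Padic.norm_int_le_one d
      rcases h3.lt_or_eq with h4 | h4
      · exact absurd (Padic.norm_intCast_lt_one_iff.mp h4) hd
      · exact h4
    rw [h1, inv_one]
  have h1 : ((1 : ℚ_[q]) ⊗ₜ[ℚ] a : SemiLoc q L)
      = algebraMap ℚ_[q] (SemiLoc q L) ((d : ℚ_[q]))⁻¹ * ((1 : ℚ_[q]) ⊗ₜ[ℚ] (d • a)) := by
    have h2 : ((1 : ℚ_[q]) ⊗ₜ[ℚ] (d • a) : SemiLoc q L) = (d : ℚ_[q]) ⊗ₜ[ℚ] a := by
      have h3 : d • a = (d : ℚ) • a := by
        rw [zsmul_eq_mul, Algebra.smul_def]; simp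
      rw [h3, ← TensorProduct.smul_tmul]
      congr 1
      rw [Algebra.smul_def]; simp
    rw [h2, Algebra.TensorProduct.algebraMap_apply, Algebra.TensorProduct.tmul_mul_tmul,
      one_mul]
    congr 1
    simp [inv_mul_cancel₀ hd0]
  rw [h1]
  exact (helper24.isIntegral_algebraMap_of_norm_le_one q L hnorm).mul
    (helper24.isIntegral_one_tmul_of_isIntegral q L h)

theorem exists_int_ne_zero_isIntegral (a : L) : ∃ d : ℤ, d ≠ 0 ∧ IsIntegral ℤ (d • a) := by
  have halg : IsAlgebraic ℤ a := by
    have : IsAlgebraic ℚ a := (Algebra.IsIntegral.isIntegral a).isAlgebraic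
    exact (IsFractionRing.isAlgebraic_iff ℤ ℚ L).mpr this
  exact halg.exists_integral_multiple

theorem finite_primes_dvd {d : ℤ} (hd : d ≠ 0) : {q : Nat.Primes | ((q : ℕ) : ℤ) ∣ d}.Finite := by
  have hfin : {n : ℕ | n ∣ d.natAbs}.Finite :=
    (Set.finite_le_nat d.natAbs).subset fun n hn =>
      Nat.le_of_dvd (Int.natAbs_pos.mpr hd) hn
  refine (hfin.preimage (f := fun q : Nat.Primes => (q : ℕ))
    (fun a _ b _ h => Subtype.ext h)).subset fun q hq => ?_
  exact Int.natCast_dvd.mp hq

/-- IDL-1: principal ideles are ideles. -/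
theorem principalPi_mem_idele (x : Lˣ) : principalPi L x ∈ idele L := by
  obtain ⟨d, hd0, hd⟩ := exists_int_ne_zero_isIntegral L (x : L)
  obtain ⟨d', hd0', hd'⟩ := exists_int_ne_zero_isIntegral L ((x⁻¹ : Lˣ) : L)
  rw [mem_idele, Filter.eventually_cofinite]
  refine ((finite_primes_dvd hd0).union (finite_primes_dvd hd0')).subset fun q hq => ?_
  by_contra hcon
  rw [Set.mem_union, not_or] at hcon
  apply hq
  refine ⟨?_, ?_⟩
  · rw [principalPi_apply_coe]
    exact isIntegral_one_tmul_of_not_dvd L (q : ℕ) _ d hcon.1 hd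
  · have e : (principalPi L x q)⁻¹ = principalPi L x⁻¹ q := by rw [map_inv]; rfl
    rw [e, principalPi_apply_coe]
    exact isIntegral_one_tmul_of_not_dvd L (q : ℕ) _ d' hcon.2 hd'

/-- the principal idele of `x : Lˣ` -/
noncomputable def principalIdele : Lˣ →* Idele L where
  toFun x := ⟨principalPi L x, principalPi_mem_idele L x⟩
  map_one' := Subtype.ext (map_one _)
  map_mul' x y := Subtype.ext (map_mul _ x y)

@[simp] theorem coe_principalIdele (x : Lˣ) :
    ((principalIdele L x : Idele L) : IdelePi L) = principalPi L x := rfl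

theorem principalIdele_mem (x : Lˣ) : principalIdele L x ∈ principalSub L := ⟨x, rfl⟩

theorem mem_principalSub_iff (y : Idele L) :
    y ∈ principalSub L ↔ ∃ x : Lˣ, principalIdele L x = y := by
  constructor
  · rintro ⟨x, hx⟩
    exact ⟨x, Subtype.ext hx⟩
  · rintro ⟨x, rfl⟩
    exact principalIdele_mem L x

end Principal

/-! ## Base change: injectivity, invariance, descent -/

section BaseChange

variable (K L : Type*) [Field K] [NumberField K] [Field L] [NumberField L] [Algebra K L]

theorem bc_injective (q : ℕ) [Fact q.Prime] : Function.Injective (bc K L q) :=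
  helper97.bc_injective K L q

theorem bcUnits_injective (q : ℕ) [Fact q.Prime] : Function.Injective (bcUnits K L q) :=
  Units.map_injective (bc_injective K L q)

theorem bcIdele_injective : Function.Injective (bcIdele K L) := by
  intro x y h
  apply Subtype.ext
  funext q
  apply bcUnits_injective K L (q : ℕ)
  have := congrArg (fun z : Idele L => (z : IdelePi L) q) h
  simpa using this

theorem smul_bc (q : ℕ) [Fact q.Prime] (σ : L ≃ₐ[K] L) (a : SemiLoc q K) :
    σ • bc K L q a = bc K L q a :=
  helper97.smul_bc K L q σ a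

theorem smul_bcUnits (q : ℕ) [Fact q.Prime] (σ : L ≃ₐ[K] L) (a : (SemiLoc q K)ˣ) :
    σ • bcUnits K L q a = bcUnits K L q a :=
  Units.ext (smul_bc K L q σ a)

/-- base-changed ideles are fixed by `Gal(L/K)` -/
theorem smul_bcIdele (σ : L ≃ₐ[K] L) (x : Idele K) : σ • bcIdele K L x = bcIdele K L x := by
  apply Subtype.ext
  funext q
  exact smul_bcUnits K L (q : ℕ) σ _

/-- integrality descends along base change -/
theorem isIntegral_bc_iff (q : ℕ) [Fact q.Prime] (x : SemiLoc q K) :
    IsIntegral ℤ_[q] (bc K L q x) ↔ IsIntegral ℤ_[q] x :=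
  isIntegral_algHom_iff ((bc K L q).restrictScalars ℤ_[q]) (bc_injective K L q)

theorem bcUnits_mem_intUnits_iff (q : ℕ) [Fact q.Prime] (x : (SemiLoc q K)ˣ) :
    bcUnits K L q x ∈ intUnits q L ↔ x ∈ intUnits q K := by
  rw [mem_intUnits, mem_intUnits, ← map_inv, coe_bcUnits, coe_bcUnits, isIntegral_bc_iff,
    isIntegral_bc_iff]

variable [IsGalois K L]

/-- IDL-2: Galois descent for the semilocal algebra. -/
theorem mem_range_bc_iff (q : ℕ) [Fact q.Prime] (x : SemiLoc q L) :
    x ∈ (bc K L q).range ↔ ∀ σ : L ≃ₐ[K] L, σ • x = x := by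
  constructor
  · rintro ⟨a, rfl⟩ σ
    exact smul_bc K L q σ a
  · intro h
    obtain ⟨a, ha⟩ := helper97.mem_range_bc_of_fixed K L q x h
    exact ⟨a, ha⟩

/-- Galois descent for units of the semilocal algebra -/
theorem exists_bcUnits_of_fixed (q : ℕ) [Fact q.Prime] (x : (SemiLoc q L)ˣ)
    (hx : ∀ σ : L ≃ₐ[K] L, σ • x = x) : ∃ y : (SemiLoc q K)ˣ, bcUnits K L q y = x := by
  have hx1 : ∀ σ : L ≃ₐ[K] L, σ • (x : SemiLoc q L) = x := fun σ =>
    congrArg Units.val (hx σ)
  have hx2 : ∀ σ : L ≃ₐ[K] L, σ • ((x⁻¹ : (SemiLoc q L)ˣ) : SemiLoc q L) =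
      ((x⁻¹ : (SemiLoc q L)ˣ) : SemiLoc q L) := fun σ => by
    have h : σ • x⁻¹ = x⁻¹ := by rw [smul_inv', hx σ]
    exact congrArg Units.val h
  obtain ⟨a, ha⟩ := helper97.mem_range_bc_of_fixed K L q (x : SemiLoc q L) hx1
  obtain ⟨a', ha'⟩ := helper97.mem_range_bc_of_fixed K L q _ hx2
  have h1 : a * a' = 1 := by
    apply helper97.bc_injective K L q
    rw [map_mul, ha, ha', map_one, Units.mul_inv]
  have h2 : a' * a = 1 := by rw [mul_comm, h1]
  exact ⟨⟨a, a', h1, h2⟩, Units.ext ha⟩

/-- Galois descent for ideles -/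
theorem exists_bcIdele_of_fixed (x : Idele L) (hx : ∀ σ : L ≃ₐ[K] L, σ • x = x) :
    ∃ y : Idele K, bcIdele K L y = x := by
  have hq : ∀ q : Nat.Primes, ∃ y : (SemiLoc (q : ℕ) K)ˣ,
      bcUnits K L (q : ℕ) y = (x : IdelePi L) q := fun q =>
    exists_bcUnits_of_fixed K L (q : ℕ) _ fun σ => by
      have := congrArg (fun z : Idele L => (z : IdelePi L) q) (hx σ)
      exact this
  choose y hy using hq
  have hmem : y ∈ idele K := by
    rw [mem_idele]
    refine ((mem_idele L).1 x.2).mono fun q h => ?_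
    rw [← bcUnits_mem_intUnits_iff K L (q : ℕ), hy]
    exact h
  exact ⟨⟨y, hmem⟩, Subtype.ext (funext fun q => hy q)⟩

/-- a fixed idele class is the class of an idele of the base field (Hilbert 90) -/
theorem exists_bcIdele_of_fixed_class (c : IdeleClass L)
    (hc : ∀ σ : L ≃ₐ[K] L, σ • c = c) :
    ∃ y : Idele K, (QuotientGroup.mk (bcIdele K L y) : IdeleClass L) = c := by
  induction c using QuotientGroup.induction_on with
  | H x =>
    -- `σ x / x` is principal
    have h1 : ∀ σ : L ≃ₐ[K] L, ∃ u : Lˣ, principalPi L u = ((σ • x : Idele L) : IdelePi L) *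
        ((x : Idele L) : IdelePi L)⁻¹ := by
      intro σ
      have h := hc σ
      rw [smul_mk, QuotientGroup.eq] at h
      -- `(σ • x)⁻¹ * x ∈ principalSub`
      obtain ⟨u, hu⟩ := h
      refine ⟨u⁻¹, ?_⟩
      rw [map_inv, hu]
      simp only [Subgroup.coe_subtype, Subgroup.coe_mul, Subgroup.coe_inv, mul_inv_rev, inv_inv]
      rw [mul_comm]
    choose u hu using h1
    have hcoc : IsMulCocycle₁ u := by
      intro σ τ
      apply principalPi_injective L
      rw [map_mul, hu, hu, ← smul_principalPi, hu, smul_mul', smul_inv']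
      have e : ((σ * τ) • x : Idele L) = σ • τ • x := mul_smul σ τ x
      rw [e]
      simp only [coe_smul_idele]
      group
    obtain ⟨v, hv⟩ := isMulCoboundary₁_of_isMulCocycle₁_of_aut_to_units u hcoc
    have hprinc : ∀ σ : L ≃ₐ[K] L, principalPi L (σ • v) * (principalPi L v)⁻¹ =
        ((σ • x : Idele L) : IdelePi L) * ((x : Idele L) : IdelePi L)⁻¹ := by
      intro σ
      rw [← hu, ← hv σ, map_div, div_eq_mul_inv]
    -- the idele `x / v` is fixed
    have hfix : ∀ σ : L ≃ₐ[K] L, σ • (x * (principalIdele L v)⁻¹) = x * (principalIdele L v)⁻¹ := by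
      intro σ
      apply Subtype.ext
      rw [smul_mul', smul_inv']
      simp only [Subgroup.coe_mul, Subgroup.coe_inv, coe_smul_idele, coe_principalIdele]
      rw [smul_principalPi]
      have h := hprinc σ
      simp only [coe_smul_idele] at h
      have h' : σ • (x : IdelePi L) =
          principalPi L (σ • v) * (principalPi L v)⁻¹ * (x : IdelePi L) := by
        rw [h, inv_mul_cancel_right]
      rw [h', mul_assoc (principalPi L (σ • v)), mul_comm _ (principalPi L (σ • v))⁻¹,
        inv_mul_cancel_left, mul_comm]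
    obtain ⟨y, hy⟩ := exists_bcIdele_of_fixed K L _ hfix
    refine ⟨y, ?_⟩
    rw [hy, QuotientGroup.eq]
    have : (x * (principalIdele L v)⁻¹)⁻¹ * x = principalIdele L v := by group
    rw [this]
    exact principalIdele_mem L v

/-- `J_K → J_L` detects principal ideles: if `bc x` is principal then `x` is principal. -/
theorem mem_principalSub_of_bcIdele_mem (x : Idele K)
    (hx : bcIdele K L x ∈ principalSub L) : x ∈ principalSub K := by
  obtain ⟨c, hc⟩ := hx
  -- `c` is fixed by the Galois group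
  have hfix : ∀ σ : L ≃ₐ[K] L, σ • c = c := by
    intro σ
    apply principalPi_injective L
    rw [← smul_principalPi, hc]
    exact congrArg Subtype.val (smul_bcIdele K L σ x)
  have hmem : (c : L) ∈ Set.range (algebraMap K L) :=
    (IsGalois.mem_range_algebraMap_iff_fixed (c : L)).mpr fun σ =>
      congrArg Units.val (hfix σ)
  obtain ⟨c₀, hc₀⟩ := hmem
  have hc₀ne : c₀ ≠ 0 := by
    rintro rfl
    rw [map_zero] at hc₀
    exact c.ne_zero hc₀.symm
  refine ⟨Units.mk0 c₀ hc₀ne, ?_⟩
  funext q
  apply bcUnits_injective K L (q : ℕ)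
  apply Units.ext
  have h1 : bcUnits K L (q : ℕ) ((x : IdelePi K) q) = principalPi L c q :=
    (congrFun hc q).symm
  change bc K L (q : ℕ) ((1 : ℚ_[(q : ℕ)]) ⊗ₜ[ℚ] c₀) =
    ((bcUnits K L (q : ℕ) ((x : IdelePi K) q) : (SemiLoc (q : ℕ) L)ˣ) : SemiLoc (q : ℕ) L)
  rw [h1, bc_tmul, hc₀, principalPi_apply_coe]

end BaseChange

/-! ## The statements of the REC2 interface -/

section G1

variable (F E N : Type*) [Field F] [NumberField F] [Field E] [NumberField E] [Field N]
  [NumberField N] [Algebra F E] [Algebra F N] [Algebra E N] [IsScalarTower F E N]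
  [IsGalois F E] [IsGalois F N]

omit [IsGalois F E] in
/-- **R2-G1 (2)**: `C_F → C_N` is injective with image the `Gal(N/F)`-fixed points. -/
theorem ideleClassMap_injective : Function.Injective (ideleClassMap F N) := by
  rw [injective_iff_map_eq_one]
  intro a ha
  induction a using QuotientGroup.induction_on with
  | H x =>
    rw [ideleClassMap_mk, QuotientGroup.eq_one_iff] at ha
    rw [QuotientGroup.eq_one_iff]
    exact mem_principalSub_of_bcIdele_mem F N x ha

omit [Algebra F E] [Algebra E N] [IsScalarTower F E N] [IsGalois F E] [NumberField E]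
  [Field E] in
theorem exists_ideleClassMap_eq_of_fixed (c : IdeleClass N) (hc : ∀ σ : Gal(N/F), σ • c = c) :
    ∃ a : IdeleClass F, ideleClassMap F N a = c := by
  obtain ⟨y, hy⟩ := exists_bcIdele_of_fixed_class F N c hc
  exact ⟨QuotientGroup.mk y, hy⟩

omit [IsGalois F E] [IsGalois F N] [NumberField F] in
/-- base change `ℚ_q ⊗ E → ℚ_q ⊗ N` is equivariant along `Gal(N/F) → Gal(E/F)` -/
theorem bc_restrictNormal_smul [Normal F E] (q : ℕ) [Fact q.Prime] (g : Gal(N/F))
    (b : SemiLoc q E) :
    bc E N q ((AlgEquiv.restrictNormalHom E g : Gal(E/F)) • b) = g • bc E N q b := by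
  induction b using TensorProduct.induction_on with
  | zero => simp
  | tmul a e =>
    rw [smul_tmul', bc_tmul, bc_tmul, smul_tmul']
    congr 1
    exact AlgEquiv.restrictNormal_commutes g E e
  | add x y hx hy => rw [smul_add, map_add, hx, hy, map_add, smul_add]

omit [IsGalois F E] [IsGalois F N] [NumberField F] in
theorem bcIdele_restrictNormal_smul [Normal F E] (g : Gal(N/F)) (x : Idele E) :
    bcIdele E N ((AlgEquiv.restrictNormalHom E g : Gal(E/F)) • x) = g • bcIdele E N x := by
  apply Subtype.ext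
  funext q
  apply Units.ext
  exact bc_restrictNormal_smul F E N (q : ℕ) g _

omit [IsGalois F E] [IsGalois F N] [NumberField F] [NumberField E] in
/-- restriction of scalars `Gal(N/E) → Gal(N/F)` is compatible with the actions on idele
classes -/
theorem restrictScalars_smul_ideleClass (s : Gal(N/E)) (c : IdeleClass N) :
    (AlgEquiv.restrictScalarsHom F s : Gal(N/F)) • c = s • c := by
  induction c using QuotientGroup.induction_on with
  | H x =>
    rw [smul_mk, smul_mk]
    congr 1

/-- **R2-G1 (1)**: for a tower `F ⊆ E ⊆ N` with `E/F` and `N/F` Galois, `C_E → C_N` is an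
inflation datum for `Gal(N/F) → Gal(E/F)`: injective, equivariant, onto the `Gal(N/E)`-fixed
points. -/
theorem inflDatum_ideleClassMap :
    InflDatum (M := IdeleClass N) (B := IdeleClass E)
      (AlgEquiv.restrictNormalHom E : Gal(N/F) →* Gal(E/F)) (ideleClassMap E N) := by
  have hG : IsGalois E N := IsGalois.tower_top_of_isGalois F E N
  refine ⟨AlgEquiv.restrictNormalHom_surjective N, ideleClassMap_injective E N, ?_, ?_⟩
  · intro g b
    induction b using QuotientGroup.induction_on with
    | H x =>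
      rw [smul_mk, ideleClassMap_mk, ideleClassMap_mk, smul_mk, bcIdele_restrictNormal_smul]
  · intro m hm
    refine exists_ideleClassMap_eq_of_fixed E N m fun σ => ?_
    rw [← restrictScalars_smul_ideleClass F E N σ m]
    apply hm
    rw [MonoidHom.mem_ker]
    ext x
    have := AlgEquiv.restrictNormal_commutes (AlgEquiv.restrictScalarsHom F σ : Gal(N/F)) E x
    apply (algebraMap E N).injective
    refine this.trans ?_
    exact σ.commutes x

end G1

end Fermat.Agent.S55.helper69
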