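import Fermat.Agent.S55.helper73_GlobDefs2

/-!
# S55 / REC3-DIC (helper69, task 515), part 1: base change of ideles for arbitrary fields

Generic statements about helper73's semilocal algebras `ℚ_q ⊗ L` and ideles for ARBITRARY fields
of characteristic `0` (in the application `L = ℚbar` is not a number field) and arbitrary
(possibly infinite) Galois extensions `L/K`:

* `bc_injective`, `bcUnits_injective`, `bcIdele_injective`;
* `smul_bc`, `smul_bcIdele` : base-changed elements are fixed by `Gal(L/K)`;
* `isIntegral_bc_iff`, `bcUnits_mem_intUnits_iff`;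
* `mem_range_bc_of_fixed`, `exists_bcUnits_of_fixed`, `exists_bcIdele_of_fixed` : Galois descent
  (`IsGalois K L`, no finiteness);
* `principalPi_injective`, `bcIdele_principalPi`, `mem_principalSub_of_bcIdele_mem`;
* `bc_bc`, `bcIdele_bcIdele` : transitivity in towers;
* `bc_map_smul` : equivariance with respect to an automorphism of `L` stabilising `K`.
-/

set_option autoImplicit false
set_option linter.unusedSectionVars false

open scoped TensorProduct

namespace Fermat.Agent.S55.helper69.Dic

open Fermat.Agent.S55.helper73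

section Gen

variable (K L : Type*) [Field K] [CharZero K] [Field L] [CharZero L] [Algebra K L]
  (q : ℕ) [Fact q.Prime]

theorem bc_injective : Function.Injective (bc K L q) := by
  have h : Function.Injective ((algebraMap K L).toRatAlgHom.toLinearMap) :=
    (algebraMap K L).injective
  have := Module.Flat.lTensor_preserves_injective_linearMap (M := ℚ_[q])
    ((algebraMap K L).toRatAlgHom.toLinearMap) h
  intro x y hxy
  apply this
  have key : ∀ z : SemiLoc q K,
      LinearMap.lTensor ℚ_[q] ((algebraMap K L).toRatAlgHom.toLinearMap) z = bc K L q z := by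
    intro z
    induction z using TensorProduct.induction_on with
    | zero => simp
    | tmul a b => simp
    | add x y hx hy => simp only [map_add, hx, hy]
  rw [key, key, hxy]

theorem bcUnits_injective : Function.Injective (bcUnits K L q) :=
  Units.map_injective (bc_injective K L q)

theorem bcIdele_injective : Function.Injective (bcIdele K L) := by
  intro x y h
  apply Subtype.ext
  funext r
  apply bcUnits_injective K L (r : ℕ)
  have := congrArg (fun z : Idele L => (z : IdelePi L) r) h
  simpa using this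

theorem smul_bc (σ : L ≃ₐ[K] L) (a : SemiLoc q K) : σ • bc K L q a = bc K L q a := by
  induction a using TensorProduct.induction_on with
  | zero => simp
  | tmul a b => rw [bc_tmul, smul_tmul', AlgEquiv.commutes]
  | add x y hx hy => rw [map_add, smul_add, hx, hy]

theorem smul_bcUnits (σ : L ≃ₐ[K] L) (a : (SemiLoc q K)ˣ) :
    σ • bcUnits K L q a = bcUnits K L q a :=
  Units.ext (smul_bc K L q σ a)

/-- base-changed ideles are fixed by `Gal(L/K)` -/
theorem smul_bcIdele (σ : L ≃ₐ[K] L) (x : Idele K) : σ • bcIdele K L x = bcIdele K L x := by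
  apply Subtype.ext
  funext r
  exact smul_bcUnits K L (r : ℕ) σ _

/-- integrality descends along base change -/
theorem isIntegral_bc_iff (x : SemiLoc q K) :
    IsIntegral ℤ_[q] (bc K L q x) ↔ IsIntegral ℤ_[q] x :=
  isIntegral_algHom_iff ((bc K L q).restrictScalars ℤ_[q]) (bc_injective K L q)

theorem bcUnits_mem_intUnits_iff (x : (SemiLoc q K)ˣ) :
    bcUnits K L q x ∈ intUnits q L ↔ x ∈ intUnits q K := by
  rw [mem_intUnits, mem_intUnits, ← map_inv, coe_bcUnits, coe_bcUnits, isIntegral_bc_iff,
    isIntegral_bc_iff]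

/-- coordinates with respect to a `ℚ`-basis of `ℚ_q` commute with the Galois action -/
theorem coord_smul {ι : Type*} [DecidableEq ι] (ℬ : Module.Basis ι ℚ ℚ_[q]) (σ : L ≃ₐ[K] L)
    (x : SemiLoc q L) (i : ι) :
    TensorProduct.equivFinsuppOfBasisLeft ℬ (σ • x) i =
      σ (TensorProduct.equivFinsuppOfBasisLeft ℬ x i) := by
  induction x using TensorProduct.induction_on with
  | zero => simp
  | tmul a b =>
    rw [smul_tmul', TensorProduct.equivFinsuppOfBasisLeft_apply_tmul_apply,
      TensorProduct.equivFinsuppOfBasisLeft_apply_tmul_apply, map_rat_smul]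
  | add x y hx hy =>
    rw [smul_add, map_add, Finsupp.add_apply, hx, hy, map_add, Finsupp.add_apply, map_add]

/-- **Galois descent for the semilocal algebra**, for an arbitrary Galois extension. -/
theorem mem_range_bc_of_fixed [IsGalois K L] (x : SemiLoc q L)
    (hx : ∀ σ : L ≃ₐ[K] L, σ • x = x) : ∃ a : SemiLoc q K, bc K L q a = x := by
  classical
  let ℬ := Module.Free.chooseBasis ℚ ℚ_[q]
  have hfix : ∀ i, ∃ k : K, algebraMap K L k = TensorProduct.equivFinsuppOfBasisLeft ℬ x i := by
    intro i
    have h1 : ∀ σ : L ≃ₐ[K] L, σ (TensorProduct.equivFinsuppOfBasisLeft ℬ x i) =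
        TensorProduct.equivFinsuppOfBasisLeft ℬ x i := fun σ => by
      rw [← coord_smul, hx]
    have h2 : TensorProduct.equivFinsuppOfBasisLeft ℬ x i ∈ (⊥ : IntermediateField K L) :=
      (InfiniteGalois.mem_bot_iff_fixed _).mpr h1
    exact IntermediateField.mem_bot.mp h2
  choose k hk using hfix
  refine ⟨(TensorProduct.equivFinsuppOfBasisLeft ℬ x).support.sum fun i => ℬ i ⊗ₜ[ℚ] k i, ?_⟩
  rw [map_sum]
  conv_rhs => rw [← (TensorProduct.equivFinsuppOfBasisLeft ℬ).symm_apply_apply x,
    TensorProduct.equivFinsuppOfBasisLeft_symm_apply, Finsupp.sum]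
  exact Finset.sum_congr rfl fun i _ => by rw [bc_tmul, hk]

theorem mem_range_bc_iff [IsGalois K L] (x : SemiLoc q L) :
    x ∈ (bc K L q).range ↔ ∀ σ : L ≃ₐ[K] L, σ • x = x := by
  constructor
  · rintro ⟨a, rfl⟩ σ
    exact smul_bc K L q σ a
  · intro h
    obtain ⟨a, ha⟩ := mem_range_bc_of_fixed K L q x h
    exact ⟨a, ha⟩

/-- Galois descent for units of the semilocal algebra -/
theorem exists_bcUnits_of_fixed [IsGalois K L] (x : (SemiLoc q L)ˣ)
    (hx : ∀ σ : L ≃ₐ[K] L, σ • x = x) : ∃ y : (SemiLoc q K)ˣ, bcUnits K L q y = x := by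
  have hx1 : ∀ σ : L ≃ₐ[K] L, σ • (x : SemiLoc q L) = x := fun σ =>
    congrArg Units.val (hx σ)
  have hx2 : ∀ σ : L ≃ₐ[K] L, σ • ((x⁻¹ : (SemiLoc q L)ˣ) : SemiLoc q L) =
      ((x⁻¹ : (SemiLoc q L)ˣ) : SemiLoc q L) := fun σ => by
    have h : σ • x⁻¹ = x⁻¹ := by rw [smul_inv', hx σ]
    exact congrArg Units.val h
  obtain ⟨a, ha⟩ := mem_range_bc_of_fixed K L q (x : SemiLoc q L) hx1
  obtain ⟨a', ha'⟩ := mem_range_bc_of_fixed K L q _ hx2
  have h1 : a * a' = 1 := by
    apply bc_injective K L q
    rw [map_mul, ha, ha', map_one, Units.mul_inv]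
  have h2 : a' * a = 1 := by rw [mul_comm, h1]
  exact ⟨⟨a, a', h1, h2⟩, Units.ext ha⟩

/-- **Galois descent for ideles**, for an arbitrary Galois extension. -/
theorem exists_bcIdele_of_fixed [IsGalois K L] (x : Idele L)
    (hx : ∀ σ : L ≃ₐ[K] L, σ • x = x) : ∃ y : Idele K, bcIdele K L y = x := by
  have hq : ∀ r : Nat.Primes, ∃ y : (SemiLoc (r : ℕ) K)ˣ,
      bcUnits K L (r : ℕ) y = (x : IdelePi L) r := fun r =>
    exists_bcUnits_of_fixed K L (r : ℕ) _ fun σ => by
      have := congrArg (fun z : Idele L => (z : IdelePi L) r) (hx σ)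
      exact this
  choose y hy using hq
  have hmem : y ∈ idele K := by
    rw [mem_idele]
    refine ((mem_idele L).1 x.2).mono fun r h => ?_
    rw [← bcUnits_mem_intUnits_iff K L (r : ℕ), hy]
    exact h
  exact ⟨⟨y, hmem⟩, Subtype.ext (funext fun r => hy r)⟩

theorem mem_range_bcIdele_iff [IsGalois K L] (x : Idele L) :
    x ∈ (bcIdele K L).range ↔ ∀ σ : L ≃ₐ[K] L, σ • x = x := by
  constructor
  · rintro ⟨y, rfl⟩ σ
    exact smul_bcIdele K L σ y
  · intro h
    obtain ⟨y, hy⟩ := exists_bcIdele_of_fixed K L x h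
    exact ⟨y, hy⟩

end Gen

/-! ## Principal ideles -/

section Principal

variable (K L : Type*) [Field K] [CharZero K] [Field L] [CharZero L] [Algebra K L]

theorem one_tmul_injective (q : ℕ) [Fact q.Prime] :
    Function.Injective (fun x : L => ((1 : ℚ_[q]) ⊗ₜ[ℚ] x : SemiLoc q L)) :=
  (Algebra.TensorProduct.includeRight : L →ₐ[ℚ] SemiLoc q L).toRingHom.injective

/-- `Lˣ → ∏_q (ℚ_q ⊗ L)ˣ` is injective. -/
theorem principalPi_injective : Function.Injective (principalPi L) := by
  intro x y h
  have h2 := congrArg (fun z : IdelePi L => ((z ⟨2, Nat.prime_two⟩ : (SemiLoc 2 L)ˣ) :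
    SemiLoc 2 L)) h
  exact Units.ext (one_tmul_injective L 2 h2)

/-- base change of principal elements -/
theorem bcUnits_principalPi (a : Kˣ) (r : Nat.Primes) :
    bcUnits K L (r : ℕ) (principalPi K a r) =
      principalPi L (Units.map (algebraMap K L : K →* L) a) r := by
  apply Units.ext
  change bc K L (r : ℕ) ((1 : ℚ_[(r : ℕ)]) ⊗ₜ[ℚ] (a : K)) = 1 ⊗ₜ[ℚ] algebraMap K L (a : K)
  rw [bc_tmul]

/-- base change maps principal ideles to principal ideles -/
theorem bcIdele_mem_principalSub {x : Idele K} (hx : x ∈ principalSub K) :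
    bcIdele K L x ∈ principalSub L := by
  obtain ⟨a, ha⟩ := hx
  refine ⟨Units.map (algebraMap K L : K →* L) a, ?_⟩
  funext r
  have h1 : (x : IdelePi K) r = principalPi K a r := (congrFun ha r).symm
  change principalPi L _ r = bcUnits K L (r : ℕ) ((x : IdelePi K) r)
  rw [h1, bcUnits_principalPi]

/-- `J_K → J_L` detects principal ideles (arbitrary Galois extension). -/
theorem mem_principalSub_of_bcIdele_mem [IsGalois K L] (x : Idele K)
    (hx : bcIdele K L x ∈ principalSub L) : x ∈ principalSub K := by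
  obtain ⟨c, hc⟩ := hx
  have hfix : ∀ σ : L ≃ₐ[K] L, σ • c = c := by
    intro σ
    apply principalPi_injective L
    rw [← smul_principalPi, hc]
    exact congrArg Subtype.val (smul_bcIdele K L σ x)
  have hmem : (c : L) ∈ (⊥ : IntermediateField K L) :=
    (InfiniteGalois.mem_bot_iff_fixed (c : L)).mpr fun σ => congrArg Units.val (hfix σ)
  obtain ⟨c₀, hc₀⟩ := IntermediateField.mem_bot.mp hmem
  have hc₀ne : c₀ ≠ 0 := by
    rintro rfl
    rw [map_zero] at hc₀
    exact c.ne_zero hc₀.symm
  refine ⟨Units.mk0 c₀ hc₀ne, ?_⟩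
  funext r
  apply bcUnits_injective K L (r : ℕ)
  apply Units.ext
  have h1 : bcUnits K L (r : ℕ) ((x : IdelePi K) r) = principalPi L c r :=
    (congrFun hc r).symm
  change bc K L (r : ℕ) ((1 : ℚ_[(r : ℕ)]) ⊗ₜ[ℚ] c₀) =
    ((bcUnits K L (r : ℕ) ((x : IdelePi K) r) : (SemiLoc (r : ℕ) L)ˣ) : SemiLoc (r : ℕ) L)
  rw [h1, bc_tmul, hc₀, principalPi_apply_coe]

theorem bcIdele_mem_principalSub_iff [IsGalois K L] (x : Idele K) :
    bcIdele K L x ∈ principalSub L ↔ x ∈ principalSub K :=
  ⟨mem_principalSub_of_bcIdele_mem K L x, bcIdele_mem_principalSub K L⟩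

end Principal

/-! ## Towers -/

section Tower

variable (K L M : Type*) [Field K] [CharZero K] [Field L] [CharZero L] [Field M] [CharZero M]
  [Algebra K L] [Algebra L M] [Algebra K M] [IsScalarTower K L M]

theorem bc_bc (q : ℕ) [Fact q.Prime] (x : SemiLoc q K) :
    bc L M q (bc K L q x) = bc K M q x := by
  induction x using TensorProduct.induction_on with
  | zero => simp
  | tmul a b => rw [bc_tmul, bc_tmul, bc_tmul, ← IsScalarTower.algebraMap_apply]
  | add x y hx hy => rw [map_add, map_add, map_add, hx, hy]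

theorem bcUnits_bcUnits (q : ℕ) [Fact q.Prime] (x : (SemiLoc q K)ˣ) :
    bcUnits L M q (bcUnits K L q x) = bcUnits K M q x :=
  Units.ext (bc_bc K L M q x)

theorem bcIdele_bcIdele (x : Idele K) : bcIdele L M (bcIdele K L x) = bcIdele K M x := by
  apply Subtype.ext
  funext r
  exact bcUnits_bcUnits K L M (r : ℕ) _

end Tower

/-! ## Equivariance -/

section Equivariance

variable (k k' K L : Type*) [Field k] [Field k'] [Field K] [CharZero K] [Field L] [CharZero L]
  [Algebra k L] [Algebra k' K] [Algebra K L]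

/-- if the automorphism `σ` of `L` restricts to the automorphism `τ` of `K`, then base change
intertwines the two actions on the semilocal algebras -/
theorem smul_bc_of_restrict (q : ℕ) [Fact q.Prime] (σ : L ≃ₐ[k] L) (τ : K ≃ₐ[k'] K)
    (h : ∀ x : K, σ (algebraMap K L x) = algebraMap K L (τ x)) (a : SemiLoc q K) :
    σ • bc K L q a = bc K L q (τ • a) := by
  induction a using TensorProduct.induction_on with
  | zero => simp
  | tmul a b => rw [bc_tmul, smul_tmul', smul_tmul', bc_tmul, h]
  | add x y hx hy => rw [map_add, smul_add, smul_add, map_add, hx, hy]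

theorem smul_bcUnits_of_restrict (q : ℕ) [Fact q.Prime] (σ : L ≃ₐ[k] L) (τ : K ≃ₐ[k'] K)
    (h : ∀ x : K, σ (algebraMap K L x) = algebraMap K L (τ x)) (a : (SemiLoc q K)ˣ) :
    σ • bcUnits K L q a = bcUnits K L q (τ • a) :=
  Units.ext (smul_bc_of_restrict k k' K L q σ τ h a)

theorem smul_bcIdele_of_restrict (σ : L ≃ₐ[k] L) (τ : K ≃ₐ[k'] K)
    (h : ∀ x : K, σ (algebraMap K L x) = algebraMap K L (τ x)) (y : Idele K) :
    σ • bcIdele K L y = bcIdele K L (τ • y) := by
  apply Subtype.ext
  funext r
  exact smul_bcUnits_of_restrict k k' K L (r : ℕ) σ τ h _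

/-- the action on ideles only depends on the underlying ring automorphism -/
theorem smul_idele_eq_of_coe_eq (k k' L : Type*) [Field k] [Field k'] [Field L] [CharZero L]
    [Algebra k L] [Algebra k' L] (σ : L ≃ₐ[k] L)
    (σ' : L ≃ₐ[k'] L) (h : ∀ x : L, σ x = σ' x) (x : Idele L) : σ • x = σ' • x := by
  apply Subtype.ext
  funext r
  apply Units.ext
  change galSemiLocAut (r : ℕ) L k σ ((x : IdelePi L) r : SemiLoc (r : ℕ) L) =
    galSemiLocAut (r : ℕ) L k' σ' ((x : IdelePi L) r : SemiLoc (r : ℕ) L)
  generalize ((x : IdelePi L) r : SemiLoc (r : ℕ) L) = z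
  induction z using TensorProduct.induction_on with
  | zero => simp
  | tmul a b => rw [galSemiLocAut_tmul, galSemiLocAut_tmul, h]
  | add x y hx hy => rw [map_add, map_add, hx, hy]

end Equivariance

end Fermat.Agent.S55.helper69.Dic
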