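import Fermat.Agent.S55.helper90_Rec3Int
import Fermat.Agent.S55.helper46_Dic
import Fermat.Agent.S55.helper7_BArDicG
import Fermat.Agent.S55.helper69_Rec2G1
import Fermat.Agent.S55.helper69_Rec3DicGen

/-!
# S55 / REC3 / R3-DIC : the arithmetic dictionary (part 1: `J_S` and `E_S`)

For a level `E : IntermediateField ↥F Qbar`, normal over `F`, with `E.restrictScalars ℚ`
unramified outside `S`:

* `sIdele S L`, `sUnitIdele S L` : `S`-ideles / `S`-units (as principal `S`-ideles) of any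
  field `L`; `repSIdele S K L`, `repSUnitIdele S K L`, `repIdeleClass K L` : the representations of
  `Gal(L/K)` on them.
* `bcIdele_mem_smoothS`, `bcIdele_mem_sIdeleSub_iff` : base change of ideles of `E` lands in the
  smooth ideles, and detects `S`-integrality.
* `smul_bcIdele_resFix` : **(c)** equivariance of `bcIdele ↥E Qbar` along `helper59.resFix F E`.
* `exists_bcIdele_of_fix_ker` : **(a)** descent, ideles fixed by `ker (resFix F E)` come from `E`.
* `finRealJS`, `finRealES` : the finite-level realisations `helper46.FinReal` of `repJS`, `repES`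
  with `Q = Gal(E/F)`, `π = resFix F E`, `M' = repSIdele S ↥F ↥E` resp. `repSUnitIdele S ↥F ↥E`.
* `exists_finRealJS_ker_eq`, `exists_finRealES_ker_eq` : cofinality.
-/

set_option autoImplicit false
set_option linter.unusedSectionVars false
set_option linter.unusedVariables false

open scoped TensorProduct
open groupCohomology

noncomputable section

namespace Fermat.Agent.S55.helper69.Dic

open Fermat.Agent.S55 Fermat.Agent.S55.helper59 Fermat.Agent.S55.helper73
  Fermat.Agent.S55.helper90 Fermat.Agent.S55.helper46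

local notation "Qbar" => AlgebraicClosure ℚ

attribute [local instance] helper69.isAlgebraic_Qbar helper69.isAlgClosure_Qbar
  helper69.normal_Qbar

/-! ## `S`-ideles and `S`-units of an arbitrary field -/

section SIdele

variable (S : Finset Nat.Primes) (L : Type*) [Field L] [CharZero L]

/-- the `S`-ideles of `L`: integral units at all `q ∉ S` -/
def sIdele : Subgroup (Idele L) where
  carrier := {x | ∀ q : Nat.Primes, q ∉ S → (x : IdelePi L) q ∈ intUnits (q : ℕ) L}
  one_mem' := fun _ _ => one_mem _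
  mul_mem' := fun hx hy q hq => mul_mem (hx q hq) (hy q hq)
  inv_mem' := fun hx q hq => inv_mem (hx q hq)

/-- the `S`-units of `L`, as principal `S`-ideles -/
def sUnitIdele : Subgroup (Idele L) := sIdele S L ⊓ principalSub L

variable {S L}

lemma mem_sIdele {x : Idele L} :
    x ∈ sIdele S L ↔ ∀ q : Nat.Primes, q ∉ S → (x : IdelePi L) q ∈ intUnits (q : ℕ) L := Iff.rfl

lemma mem_sUnitIdele {x : Idele L} :
    x ∈ sUnitIdele S L ↔ x ∈ sIdele S L ∧ x ∈ principalSub L := Iff.rfl

lemma sIdeleSub_eq : sIdeleSub S = sIdele S Qbar := rfl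

variable (K : Type*) [Field K] [Algebra K L]

lemma smul_mem_sIdele (σ : L ≃ₐ[K] L) {x : Idele L} (hx : x ∈ sIdele S L) :
    σ • x ∈ sIdele S L := fun q hq => smul_mem_intUnits (q : ℕ) L K σ (hx q hq)

lemma smul_mem_sUnitIdele (σ : L ≃ₐ[K] L) {x : Idele L} (hx : x ∈ sUnitIdele S L) :
    σ • x ∈ sUnitIdele S L :=
  ⟨smul_mem_sIdele K σ hx.1, smul_mem_principalSub L K σ hx.2⟩

variable (S L)

/-- `Gal(L/K)` acts on the `S`-ideles -/
@[reducible] def actSIdele : MulDistribMulAction (L ≃ₐ[K] L) (sIdele S L) :=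
  stableAction _ fun σ _ hx => smul_mem_sIdele K σ hx

/-- `Gal(L/K)` acts on the `S`-units -/
@[reducible] def actSUnitIdele : MulDistribMulAction (L ≃ₐ[K] L) (sUnitIdele S L) :=
  stableAction _ fun σ _ hx => smul_mem_sUnitIdele K σ hx

end SIdele

section Reps

variable (S : Finset Nat.Primes) (K L : Type) [Field K] [Field L] [CharZero L] [Algebra K L]

/-- the `S`-ideles of `L` as a representation of `Gal(L/K)` -/
def repSIdele : Rep.{0} ℤ (L ≃ₐ[K] L) :=
  letI := actSIdele S L K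
  Rep.ofMulDistribMulAction (L ≃ₐ[K] L) (sIdele S L)

/-- the `S`-units of `L` as a representation of `Gal(L/K)` -/
def repSUnitIdele : Rep.{0} ℤ (L ≃ₐ[K] L) :=
  letI := actSUnitIdele S L K
  Rep.ofMulDistribMulAction (L ≃ₐ[K] L) (sUnitIdele S L)

/-- the idele class group of `L` as a representation of `Gal(L/K)` -/
def repIdeleClass : Rep.{0} ℤ (L ≃ₐ[K] L) :=
  Rep.ofMulDistribMulAction (L ≃ₐ[K] L) (IdeleClass L)

lemma repSIdele_ρ (σ : L ≃ₐ[K] L) (x : sIdele S L) :
    (repSIdele S K L).ρ σ (Additive.ofMul x) =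
      Additive.ofMul (⟨σ • (x : Idele L), smul_mem_sIdele K σ x.2⟩ : sIdele S L) := rfl

lemma repSUnitIdele_ρ (σ : L ≃ₐ[K] L) (x : sUnitIdele S L) :
    (repSUnitIdele S K L).ρ σ (Additive.ofMul x) =
      Additive.ofMul (⟨σ • (x : Idele L), smul_mem_sUnitIdele K σ x.2⟩ : sUnitIdele S L) := rfl

lemma repIdeleClass_ρ (σ : L ≃ₐ[K] L) (x : IdeleClass L) :
    (repIdeleClass K L).ρ σ (Additive.ofMul x) = Additive.ofMul (σ • x) := rfl

end Reps

/-! ## The level `E` -/

section Level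

variable {S : Finset Nat.Primes} {F : IntermediateField ℚ Qbar}
  (hF : F.IsUnramifiedOutside S)
  (E : IntermediateField ↥F Qbar)

instance isGalois_Qbar_over_level : IsGalois ↥E Qbar :=
  haveI : IsGalois ℚ Qbar := ⟨⟩
  IsGalois.tower_top_of_isGalois ℚ ↥E Qbar

/-- an automorphism of `ℚbar/ℚ` fixing `E` pointwise, as an automorphism of `ℚbar/E` -/
def toGalE (σ : Qbar ≃ₐ[ℚ] Qbar) (hσ : ∀ x ∈ E, σ x = x) : Qbar ≃ₐ[↥E] Qbar :=
  AlgEquiv.ofRingEquiv (f := σ.toRingEquiv) fun x => hσ x x.2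

@[simp] lemma toGalE_apply (σ : Qbar ≃ₐ[ℚ] Qbar) (hσ : ∀ x ∈ E, σ x = x) (x : Qbar) :
    toGalE E σ hσ x = σ x := rfl

lemma smul_eq_of_fix (σ : Qbar ≃ₐ[ℚ] Qbar) (hσ : ∀ x ∈ E, σ x = x) (y : Idele ↥E) :
    σ • bcIdele ↥E Qbar y = bcIdele ↥E Qbar y := by
  rw [smul_idele_eq_of_coe_eq ℚ ↥E Qbar σ (toGalE E σ hσ) (fun _ => rfl)]
  exact smul_bcIdele ↥E Qbar _ y

variable (hE : (E.restrictScalars ℚ).IsUnramifiedOutside S)

include hE in
/-- base-changed ideles of a level are smooth -/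
lemma bcIdele_mem_smoothS (y : Idele ↥E) : bcIdele ↥E Qbar y ∈ smoothS S F hF := by
  obtain ⟨E', hle, hE', hn⟩ := helper69.exists_normal_isUnramifiedOutside hE
  refine ⟨E', ⟨hE', hn, (helper7.le_restrictScalars E).trans hle⟩, fun σ hσ => ?_⟩
  refine smul_eq_of_fix E σ (fun x hx => ?_) y
  exact (IntermediateField.mem_fixingSubgroup_iff _ _).mp hσ x (hle hx)

lemma bcIdele_mem_sIdeleSub_iff (y : Idele ↥E) :
    bcIdele ↥E Qbar y ∈ sIdeleSub S ↔ y ∈ sIdele S ↥E := by
  constructor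
  · intro h q hq
    have := h q hq
    rw [bcIdele_apply, bcUnits_mem_intUnits_iff] at this
    exact this
  · intro h q hq
    rw [bcIdele_apply, bcUnits_mem_intUnits_iff]
    exact h q hq

end Level

/-! ## The finite-level realisations -/

section Real

variable (S : Finset Nat.Primes) (F : IntermediateField ℚ Qbar)
  (hF : F.IsUnramifiedOutside S)
  (E : IntermediateField ↥F Qbar) [Normal ↥F ↥E]
  (hE : (E.restrictScalars ℚ).IsUnramifiedOutside S)

lemma coe_resFix (u : UF F) (x : ↥E) :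
    (u : Qbar ≃ₐ[ℚ] Qbar) (algebraMap ↥E Qbar x) = algebraMap ↥E Qbar (resFix F E u x) :=
  (resFix_apply_coe F E u x).symm

/-- **(c) equivariance** of base change along `resFix`. -/
lemma smul_bcIdele_resFix (u : UF F) (y : Idele ↥E) :
    (u : Qbar ≃ₐ[ℚ] Qbar) • bcIdele ↥E Qbar y = bcIdele ↥E Qbar (resFix F E u • y) :=
  smul_bcIdele_of_restrict ℚ ↥F ↥E Qbar _ _ (coe_resFix F E u) y

/-- an element of `U` in the kernel of `resFix` fixes `E` pointwise -/
lemma fix_of_mem_ker {u : UF F} (hu : u ∈ (resFix F E).ker) :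
    ∀ x ∈ E, (u : Qbar ≃ₐ[ℚ] Qbar) x = x :=
  (mem_ker_resFix_iff F E u).1 hu

/-- an automorphism of `ℚbar/E`, as an element of `U` in the kernel of `resFix` -/
def ofGalE (σ : Qbar ≃ₐ[↥E] Qbar) : UF F :=
  ⟨σ.restrictScalars ℚ, by
    rw [IntermediateField.mem_fixingSubgroup_iff]
    intro x hx
    exact σ.commutes (algebraMap ↥F ↥E ⟨x, hx⟩)⟩

lemma coe_ofGalE (σ : Qbar ≃ₐ[↥E] Qbar) (x : Qbar) :
    ((ofGalE F E σ : UF F) : Qbar ≃ₐ[ℚ] Qbar) x = σ x := rfl

lemma ofGalE_mem_ker (σ : Qbar ≃ₐ[↥E] Qbar) : ofGalE F E σ ∈ (resFix F E).ker := by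
  rw [mem_ker_resFix_iff]
  intro x hx
  exact σ.commutes ⟨x, hx⟩

/-- **(a) descent**: an idele of `ℚbar` fixed by the kernel of `resFix F E` comes from `E`. -/
lemma exists_bcIdele_of_fix_ker (x : Idele Qbar)
    (hx : ∀ u : UF F, u ∈ (resFix F E).ker → (u : Qbar ≃ₐ[ℚ] Qbar) • x = x) :
    ∃ y : Idele ↥E, bcIdele ↥E Qbar y = x := by
  refine exists_bcIdele_of_fixed ↥E Qbar x fun σ => ?_
  rw [smul_idele_eq_of_coe_eq ↥E ℚ Qbar σ ((ofGalE F E σ : UF F) : Qbar ≃ₐ[ℚ] Qbar)
    (fun _ => rfl)]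
  exact hx _ (ofGalE_mem_ker F E σ)

/-- the embedding `J_S(E) → J_S` -/
def jJS : sIdele S ↥E →* bigJS S F hF where
  toFun y := ⟨bcIdele ↥E Qbar y, bcIdele_mem_smoothS hF E hE y,
    (bcIdele_mem_sIdeleSub_iff E (y : Idele ↥E)).2 y.2⟩
  map_one' := Subtype.ext (map_one _)
  map_mul' x y := Subtype.ext (map_mul _ _ _)

@[simp] lemma coe_jJS (y : sIdele S ↥E) :
    ((jJS S F hF E hE y : bigJS S F hF) : Idele Qbar) = bcIdele ↥E Qbar (y : Idele ↥E) := rfl

/-- **The finite-level realisation of `J_S` at the level `E`.** -/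
def finRealJS : FinReal (sLevelsStr S F hF) (repJS S F hF) where
  Q := ↥E ≃ₐ[↥F] ↥E
  π := resFix F E
  π_surj := resFix_surjective F E
  ker_level := helper7.exists_mem_le_ker (𝒩 := sLevelsStr S F hF) rfl E hE
  M' := repSIdele S ↥F ↥E
  j := (AddMonoidHom.toIntLinearMap (MonoidHom.toAdditive (jJS S F hF E hE)) :
    Additive (sIdele S ↥E) →ₗ[ℤ] Additive (bigJS S F hF))
  j_inj := fun x y h => by
    have h1 : jJS S F hF E hE (Additive.toMul x) = jJS S F hF E hE (Additive.toMul y) := h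
    have h2 := congrArg (fun z : bigJS S F hF => (z : Idele Qbar)) h1
    exact Subtype.ext (bcIdele_injective ↥E Qbar h2)
  j_ρ := fun u m => by
    have : jJS S F hF E hE ⟨resFix F E u • ((Additive.toMul m : sIdele S ↥E) : Idele ↥E),
        smul_mem_sIdele ↥F _ (Additive.toMul m).2⟩ =
      ⟨(u : Qbar ≃ₐ[ℚ] Qbar) • ((jJS S F hF E hE (Additive.toMul m) : bigJS S F hF) : Idele Qbar),
        smul_mem_bigJS u (jJS S F hF E hE (Additive.toMul m)).2⟩ :=
      Subtype.ext (smul_bcIdele_resFix F E u _).symm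
    exact congrArg Additive.ofMul this
  j_surj := fun m hm => by
    obtain ⟨y, hy⟩ := exists_bcIdele_of_fix_ker F E ((Additive.toMul m : bigJS S F hF) : Idele Qbar)
      fun u hu => congrArg (fun z : bigJS S F hF => (z : Idele Qbar))
        (congrArg Additive.toMul (hm u hu))
    have hyS : y ∈ sIdele S ↥E := by
      rw [← bcIdele_mem_sIdeleSub_iff, hy]
      exact (Additive.toMul m).2.2
    exact ⟨Additive.ofMul ⟨y, hyS⟩, congrArg Additive.ofMul (Subtype.ext hy)⟩

/-! ### `S`-units -/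

/-- the embedding `E_S(E) → E_S` -/
def jES : sUnitIdele S ↥E →* bigES S F hF where
  toFun y := ⟨bcIdele ↥E Qbar y, ⟨bcIdele_mem_smoothS hF E hE y,
    (bcIdele_mem_sIdeleSub_iff E (y : Idele ↥E)).2 y.2.1⟩,
    bcIdele_mem_principalSub ↥E Qbar y.2.2⟩
  map_one' := Subtype.ext (map_one _)
  map_mul' x y := Subtype.ext (map_mul _ _ _)

@[simp] lemma coe_jES (y : sUnitIdele S ↥E) :
    ((jES S F hF E hE y : bigES S F hF) : Idele Qbar) = bcIdele ↥E Qbar (y : Idele ↥E) := rfl

/-- **The finite-level realisation of `E_S` at the level `E`.** -/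
def finRealES : FinReal (sLevelsStr S F hF) (repES S F hF) where
  Q := ↥E ≃ₐ[↥F] ↥E
  π := resFix F E
  π_surj := resFix_surjective F E
  ker_level := helper7.exists_mem_le_ker (𝒩 := sLevelsStr S F hF) rfl E hE
  M' := repSUnitIdele S ↥F ↥E
  j := (AddMonoidHom.toIntLinearMap (MonoidHom.toAdditive (jES S F hF E hE)) :
    Additive (sUnitIdele S ↥E) →ₗ[ℤ] Additive (bigES S F hF))
  j_inj := fun x y h => by
    have h1 : jES S F hF E hE (Additive.toMul x) = jES S F hF E hE (Additive.toMul y) := h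
    have h2 := congrArg (fun z : bigES S F hF => (z : Idele Qbar)) h1
    exact Subtype.ext (bcIdele_injective ↥E Qbar h2)
  j_ρ := fun u m => by
    have : jES S F hF E hE ⟨resFix F E u • ((Additive.toMul m : sUnitIdele S ↥E) : Idele ↥E),
        smul_mem_sUnitIdele ↥F _ (Additive.toMul m).2⟩ =
      ⟨(u : Qbar ≃ₐ[ℚ] Qbar) • ((jES S F hF E hE (Additive.toMul m) : bigES S F hF) : Idele Qbar),
        smul_mem_bigES u (jES S F hF E hE (Additive.toMul m)).2⟩ :=
      Subtype.ext (smul_bcIdele_resFix F E u _).symm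
    exact congrArg Additive.ofMul this
  j_surj := fun m hm => by
    obtain ⟨y, hy⟩ := exists_bcIdele_of_fix_ker F E ((Additive.toMul m : bigES S F hF) : Idele Qbar)
      fun u hu => congrArg (fun z : bigES S F hF => (z : Idele Qbar))
        (congrArg Additive.toMul (hm u hu))
    have hyS : y ∈ sIdele S ↥E := by
      rw [← bcIdele_mem_sIdeleSub_iff, hy]
      exact (Additive.toMul m).2.1.2
    have hyP : y ∈ principalSub ↥E := by
      apply mem_principalSub_of_bcIdele_mem ↥E Qbar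
      rw [hy]
      exact (Additive.toMul m).2.2
    exact ⟨Additive.ofMul ⟨y, hyS, hyP⟩, congrArg Additive.ofMul (Subtype.ext hy)⟩

/-! ### Cofinality and unfolding lemmas -/

@[simp] lemma finRealJS_π : (finRealJS S F hF E hE).π = resFix F E := rfl
@[simp] lemma finRealES_π : (finRealES S F hF E hE).π = resFix F E := rfl
lemma finRealJS_M' : (finRealJS S F hF E hE).M' = repSIdele S ↥F ↥E := rfl
lemma finRealES_M' : (finRealES S F hF E hE).M' = repSUnitIdele S ↥F ↥E := rfl

lemma finRealJS_j (y : sIdele S ↥E) :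
    (Additive.toMul ((finRealJS S F hF E hE).j (Additive.ofMul y)) : bigJS S F hF) =
      jJS S F hF E hE y := rfl

lemma finRealES_j (y : sUnitIdele S ↥E) :
    (Additive.toMul ((finRealES S F hF E hE).j (Additive.ofMul y)) : bigES S F hF) =
      jES S F hF E hE y := rfl

/-- every `S`-level of `U = Gal(ℚbar/F)` is the kernel of `resFix F E` for a finite Galois
level `E/F`; the corresponding realisations of `J_S`. -/
theorem exists_finRealJS_ker_eq [FiniteDimensional ℚ F] (N : Subgroup (UF F))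
    (hN : N ∈ (sLevelsStr S F hF).mem) :
    ∃ (E : IntermediateField ↥F Qbar) (_ : FiniteDimensional ↥F ↥E) (_ : IsGalois ↥F ↥E)
      (hE : (E.restrictScalars ℚ).IsUnramifiedOutside S),
      (finRealJS S F hF E hE).π.ker = N := by
  obtain ⟨E, hfin, hgal, hE, hker⟩ :=
    helper7.exists_level_ker_eq (𝒩 := sLevelsStr S F hF) rfl N hN
  exact ⟨E, hfin, hgal, hE, hker⟩

/-- the same for `E_S`. -/
theorem exists_finRealES_ker_eq [FiniteDimensional ℚ F] (N : Subgroup (UF F))
    (hN : N ∈ (sLevelsStr S F hF).mem) :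
    ∃ (E : IntermediateField ↥F Qbar) (_ : FiniteDimensional ↥F ↥E) (_ : IsGalois ↥F ↥E)
      (hE : (E.restrictScalars ℚ).IsUnramifiedOutside S),
      (finRealES S F hF E hE).π.ker = N := by
  obtain ⟨E, hfin, hgal, hE, hker⟩ :=
    helper7.exists_level_ker_eq (𝒩 := sLevelsStr S F hF) rfl N hN
  exact ⟨E, hfin, hgal, hE, hker⟩

end Real

end Fermat.Agent.S55.helper69.Dic
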