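import Fermat.Agent.S55.helper90_Rec3Int
import Fermat.Agent.S55.helper59_BDic

/-!
# S55 / REC3 (FUND): the arithmetic local system (helper90, package R3-LOC-DEF)

For an arithmetic local datum `hL : IsArith S F L` over the `S`-levels of `F`:

* `evAt q g : ℚ_q ⊗ ℚbar →ₐ[ℚ_q] PadicAlgCl q`, `a ⊗ y ↦ a · ι_q (g⁻¹ y)`;
* `locOmega hL w : Rep ℤ (L.Gv w)` : the units of `PadicAlgCl (q w)` with the action of
  `L.Gv w` through `hL.jq w`;
* `locLam hF hL w : J_S → Ω_w` : the `q w`-component of the idele, evaluated by `evAt (q w) (g w)`;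
* `arithLocSys hF hL : LocSys (repJS S F hF) L`.
-/

set_option autoImplicit false
set_option linter.style.haveILetI false

open groupCohomology ExtCitation
open scoped TensorProduct

noncomputable section

namespace Fermat.Agent.S55.helper90

open Fermat.Agent.S55.helper59 Fermat.Agent.S55.helper73 Fermat.Agent.S55.helper69

local instance factOfPrimesR3 (q : Nat.Primes) : Fact (q : ℕ).Prime := ⟨q.2⟩

local notation "Qbar" => AlgebraicClosure ℚ

/-! ## The evaluation map -/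

section Ev

variable (q : ℕ) [Fact q.Prime]

/-- the evaluation `ℚ_q ⊗ ℚbar → PadicAlgCl q`, `a ⊗ y ↦ a · ι_q (g⁻¹ y)` -/
def evAt (g : Qbar ≃ₐ[ℚ] Qbar) : SemiLoc q Qbar →ₐ[ℚ_[q]] PadicAlgCl q :=
  Algebra.TensorProduct.lift (Algebra.ofId ℚ_[q] (PadicAlgCl q))
    ((padicEmbedding q).comp (g⁻¹ : Qbar ≃ₐ[ℚ] Qbar).toAlgHom) fun _ _ => Commute.all _ _

@[simp]
lemma evAt_tmul (g : Qbar ≃ₐ[ℚ] Qbar) (a : ℚ_[q]) (y : Qbar) :
    evAt q g (a ⊗ₜ[ℚ] y) = algebraMap ℚ_[q] (PadicAlgCl q) a *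
      padicEmbedding q ((g⁻¹ : Qbar ≃ₐ[ℚ] Qbar) y) := by
  simp [evAt, Algebra.ofId_apply]

end Ev

/-! ## The local system -/

section LocSys

variable {S : Finset Nat.Primes} {F : IntermediateField ℚ Qbar} (hF : F.IsUnramifiedOutside S)
  {ι : Type} {L : LocalData (UF F) (sLevelsStr S F hF) ι} (hL : IsArith S F L)

/-- the action of the local group on the units of `PadicAlgCl (q w)` -/
@[reducible] def locAct (w : ι) : MulDistribMulAction (L.Gv w) (PadicAlgCl (hL.q w : ℕ))ˣ :=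
  MulDistribMulAction.compHom _ (hL.jq w)

/-- the local module `Ω_w = (PadicAlgCl (q w))ˣ` -/
def locOmega (w : ι) : Rep.{0} ℤ (L.Gv w) :=
  letI := locAct hF hL w
  Rep.ofMulDistribMulAction (L.Gv w) (PadicAlgCl (hL.q w : ℕ))ˣ

lemma locOmega_ρ (w : ι) (s : L.Gv w) (x : (PadicAlgCl (hL.q w : ℕ))ˣ) :
    (locOmega hF hL w).ρ s (Additive.ofMul x) =
      Additive.ofMul (Units.map (hL.jq w s : PadicAlgCl (hL.q w : ℕ) →* PadicAlgCl (hL.q w : ℕ)) x) :=
  rfl

/-- the localisation map `J_S → Ω_w` (multiplicative version) -/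
def locLamMul (w : ι) : bigJS S F hF →* (PadicAlgCl (hL.q w : ℕ))ˣ :=
  (Units.map (evAt (hL.q w : ℕ) (hL.g w) : SemiLoc (hL.q w : ℕ) Qbar →* PadicAlgCl (hL.q w : ℕ))).comp
    ((Pi.evalMonoidHom _ (hL.q w)).comp (((idele Qbar).subtype).comp (bigJS S F hF).subtype))

lemma locLamMul_apply (w : ι) (x : bigJS S F hF) :
    ((locLamMul hF hL w x : (PadicAlgCl (hL.q w : ℕ))ˣ) : PadicAlgCl (hL.q w : ℕ)) =
      evAt (hL.q w : ℕ) (hL.g w) ((((x : Idele Qbar) : IdelePi Qbar) (hL.q w) :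
        (SemiLoc (hL.q w : ℕ) Qbar)ˣ) : SemiLoc (hL.q w : ℕ) Qbar) := rfl

/-- the localisation map `J_S → Ω_w` -/
def locLam (w : ι) : Additive (bigJS S F hF) →+ Additive (PadicAlgCl (hL.q w : ℕ))ˣ :=
  MonoidHom.toAdditive (locLamMul hF hL w)

/-- the evaluation map is equivariant: `ev (σ • z) = h (ev z)` for `σ = g · ι(h) · g⁻¹` -/
lemma evAt_smul (q : ℕ) [Fact q.Prime] (g : Qbar ≃ₐ[ℚ] Qbar)
    (h : PadicAlgCl q ≃ₐ[ℚ_[q]] PadicAlgCl q) (z : SemiLoc q Qbar) :
    evAt q g ((g * localGaloisToGlobal q h * g⁻¹ : Qbar ≃ₐ[ℚ] Qbar) • z) = h (evAt q g z) := by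
  induction z using TensorProduct.induction_on with
  | zero => simp
  | tmul a y =>
    rw [smul_tmul', evAt_tmul, evAt_tmul, map_mul, AlgEquiv.commutes]
    congr 1
    rw [← padicEmbedding_localGaloisToGlobal]
    congr 1
    simp only [AlgEquiv.mul_apply]
    rw [← AlgEquiv.mul_apply g⁻¹ g, inv_mul_cancel, AlgEquiv.one_apply]
  | add x y hx hy => rw [smul_add, map_add, map_add, map_add, hx, hy]

/-- the localisation map is equivariant along `L.r w` -/
lemma locLamMul_smul (w : ι) (s : L.Gv w) (x : bigJS S F hF) :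
    locLamMul hF hL w ⟨((L.r w s : UF F) : Qbar ≃ₐ[ℚ] Qbar) • (x : Idele Qbar),
        smul_mem_bigJS (L.r w s) x.2⟩ =
      Units.map (hL.jq w s : PadicAlgCl (hL.q w : ℕ) →* PadicAlgCl (hL.q w : ℕ))
        (locLamMul hF hL w x) := by
  apply Units.ext
  rw [locLamMul_apply, Units.coe_map, locLamMul_apply]
  have hr := hL.r_eq w s
  have e : ((((⟨((L.r w s : UF F) : Qbar ≃ₐ[ℚ] Qbar) • (x : Idele Qbar),
      smul_mem_bigJS (L.r w s) x.2⟩ : bigJS S F hF) : Idele Qbar) : IdelePi Qbar) (hL.q w) :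
        SemiLoc (hL.q w : ℕ) Qbar) =
      ((L.r w s : UF F) : Qbar ≃ₐ[ℚ] Qbar) •
        ((((x : Idele Qbar) : IdelePi Qbar) (hL.q w) : (SemiLoc (hL.q w : ℕ) Qbar)ˣ) :
          SemiLoc (hL.q w : ℕ) Qbar) := rfl
  rw [e, hr]
  exact evAt_smul (hL.q w : ℕ) (hL.g w) (hL.jq w s) _

/-- **R3-LOC-DEF**: the arithmetic local system of the `S`-ideles. -/
def arithLocSys : LocSys (repJS S F hF) L where
  Ω := locOmega hF hL
  lam := locLam hF hL
  lam_eq := fun w s x => by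
    change Additive.ofMul (locLamMul hF hL w _) = Additive.ofMul (Units.map _ _)
    exact congrArg Additive.ofMul (locLamMul_smul hF hL w s (Additive.toMul x))

end LocSys

end Fermat.Agent.S55.helper90
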