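import Fermat.Agent.S55.helper69_Rec3InjFin
import Fermat.Agent.S55.helper69_Rec3Dic
import Fermat.Agent.S55.helper90_Rec3LocDef
import Fermat.Agent.S55.helper31_J3Wire2

/-!
# S55 / REC3 / LOC-INJ, assembly [INJ-ASM] (helper46, task 529)

`loc_inj_of` : the field `inj` of `LocSys.Good` for `arithLocSys hF hL` (statement `loc_inj` of
helper90's blueprint `helper90_Rec3LocInterface`), from the two inputs

* `helper69.Inj.HypUS2` : `H²(Gal(E/F), U_q) = 0` at the primes with trivial inertia;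
* `HypInjLoc hF hL`     : **[INJ-LOC]** local triviality at all `w` gives the hypothesis `hloc` of
  `helper69.Inj.exists_d₁₂_eq_repSIdele` (orbit form) at every `S`-level `E`;
  or `HypInjLocCob hF hL` : the same with conclusion `IsMulCoboundary₂` of the `q`-components
  (`loc_inj_of_cob`).

Discharged here: REP for `j` (`helper46.exists_cocycle₂` with `helper69.Dic.finRealJS`),
[INJ-FIN] (`helper69.Inj.exists_d₁₂_eq_repSIdele`), [UNR]
(`helper31.inertia_eq_one_of_isUnramifiedOutside_rel`), DET (`FinReal.infl₂_mem_B2`).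
-/

set_option autoImplicit false
set_option linter.style.haveILetI false

open scoped TensorProduct NumberField

open groupCohomology ExtCitation

noncomputable section

namespace Fermat.Agent.S55.helper46

open Fermat.Agent.S55 Fermat.Agent.S55.helper59 Fermat.Agent.S55.helper69
  Fermat.Agent.S55.helper73 Fermat.Agent.S55.helper90

local instance factOfPrimesInjAsm (q : Nat.Primes) : Fact (q : ℕ).Prime := ⟨q.2⟩

local notation "Qbar" => AlgebraicClosure ℚ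

variable {p : ℕ} {S : Finset Nat.Primes} {F : IntermediateField ℚ Qbar}
  [FiniteDimensional ℚ F] (hF : F.IsUnramifiedOutside S)
  {ι : Type} {L : LocalData (UF F) (sLevelsStr S F hF) ι} (hL : IsArith S F L)

/-- **[INJ-LOC]** as a `Prop`: for every finite Galois `S`-level `E/F` and every 2-cocycle `c` of
`Gal(E/F)` with values in the `S`-ideles of `E` whose inflation to `G_S` is locally trivial at
all `w`, the hypothesis `hloc` of `helper69.Inj.exists_d₁₂_eq_repSIdele` holds. -/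
def HypInjLoc : Prop :=
  ∀ (E : IntermediateField ↥F Qbar) [FiniteDimensional ↥F ↥E] [IsGalois ↥F ↥E]
    (hE : (E.restrictScalars ℚ).IsUnramifiedOutside S)
    (c : (↥E ≃ₐ[↥F] ↥E) × (↥E ≃ₐ[↥F] ↥E) → helper31.repSIdele S ↥F ↥E),
    (d₂₃ (helper31.repSIdele S ↥F ↥E)).hom c = 0 →
    (∀ w, (arithLocSys hF hL).loc₂ w ((Dic.finRealJS S F hF E hE).infl₂ c) ∈
      B2 (L.lev w) ((arithLocSys hF hL).Ω w)) →
    ∀ q : Nat.Primes, q ∈ S → ∀ n : MaximalSpectrum (SemiLoc (q : ℕ) ↥E),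
      ∃ (n' : MaximalSpectrum (SemiLoc (q : ℕ) ↥E)) (g : ↥E ≃ₐ[↥F] ↥E)
        (z : (↥E ≃ₐ[↥F] ↥E) → (SemiLoc (q : ℕ) ↥E)ˣ), g • n' = n ∧
        ∀ h h' : ↥E ≃ₐ[↥F] ↥E, h • n' = n' → h' • n' = n' →
          ((Inj.compAt S ↥F ↥E q c (h, h') : (SemiLoc (q : ℕ) ↥E)ˣ) : SemiLoc (q : ℕ) ↥E) -
            ((h • z h' / z (h * h') * z h : (SemiLoc (q : ℕ) ↥E)ˣ) : SemiLoc (q : ℕ) ↥E)
              ∈ n'.asIdeal

/-- `Z²`-form of [INJ-ASM]: a level 2-cocycle of `G_S` with values in `J_S` which is locally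
trivial at all `w` is a coboundary. -/
theorem mem_B2_of_loc (hUS2 : Inj.HypUS2) (hIL : HypInjLoc hF hL)
    (j : UF F × UF F → repJS S F hF) (hj : j ∈ Z2 (sLevelsStr S F hF) (repJS S F hF))
    (h : ∀ w, (arithLocSys hF hL).loc₂ w j ∈ B2 (L.lev w) ((arithLocSys hF hL).Ω w)) :
    j ∈ B2 (sLevelsStr S F hF) (repJS S F hF) := by
  obtain ⟨N, hN, hrep⟩ :=
    exists_cocycle₂ (finLevels_sLevelsStr S F hF) (isDisc_repJS S F hF) hj
  obtain ⟨E₀, hE₀, hn, hle, rfl⟩ := hN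
  obtain ⟨E, hfin, hgal, hres, hnor⟩ := helper7.exists_level_of_normal E₀ hE₀ hn hle
  have hE : (E.restrictScalars ℚ).IsUnramifiedOutside S := hres ▸ hE₀
  haveI : NumberField ↥F := ⟨⟩
  haveI : FiniteDimensional ℚ ↥E := Module.Finite.trans ↥F ↥E
  haveI : NumberField ↥E := ⟨⟩
  have hker : (Dic.finRealJS S F hF E hE).π.ker ≤
      E₀.fixingSubgroup.subgroupOf F.fixingSubgroup := by
    have hk : (Dic.finRealJS S F hF E hE).π.ker = (resFix F E).ker := rfl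
    rw [hk, helper7.ker_resFix, hres]
  obtain ⟨c, rfl⟩ := hrep (Dic.finRealJS S F hF E hE) hker
  have hc : (d₂₃ (helper31.repSIdele S ↥F ↥E)).hom c.1 = 0 := c.2
  obtain ⟨b, hb⟩ := Inj.exists_d₁₂_eq_repSIdele S ↥F ↥E
    (fun q hq => hUS2 (q : ℕ) ↥F ↥E
      (helper31.inertia_eq_one_of_isUnramifiedOutside_rel E hE q hq))
    c.1 hc (hIL E hE c.1 hc h)
  have hb' : (c : (Dic.finRealJS S F hF E hE).Q × (Dic.finRealJS S F hF E hE).Q →
      (Dic.finRealJS S F hF E hE).M') = (d₁₂ (Dic.finRealJS S F hF E hE).M').hom b := hb.symm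
  rw [hb']
  exact (Dic.finRealJS S F hF E hE).infl₂_mem_B2 b

/-- **[INJ-LOC]** as a `Prop`, coboundary form (= the statement `injLoc_isMulCoboundary₂` announced
by helper84): the `q`-components (`q ∈ S`) of a finite-level cocycle whose inflation is locally
trivial at all `w` are coboundaries in `(ℚ_q ⊗ E)ˣ`. -/
def HypInjLocCob : Prop :=
  ∀ (E : IntermediateField ↥F Qbar) [FiniteDimensional ↥F ↥E] [IsGalois ↥F ↥E]
    (hE : (E.restrictScalars ℚ).IsUnramifiedOutside S)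
    (c : (↥E ≃ₐ[↥F] ↥E) × (↥E ≃ₐ[↥F] ↥E) → Dic.repSIdele S ↥F ↥E),
    (d₂₃ (Dic.repSIdele S ↥F ↥E)).hom c = 0 →
    (∀ w, (arithLocSys hF hL).loc₂ w ((Dic.finRealJS S F hF E hE).infl₂ c) ∈
      B2 (L.lev w) ((arithLocSys hF hL).Ω w)) →
    ∀ q : Nat.Primes, q ∈ S →
      IsMulCoboundary₂ (fun g : (↥E ≃ₐ[↥F] ↥E) × (↥E ≃ₐ[↥F] ↥E) =>
        (((Additive.toMul (c g) : Dic.sIdele S ↥E) : Idele ↥E) : IdelePi ↥E) q)

/-- `Z²`-form of [INJ-ASM], from the coboundary form of [INJ-LOC]. -/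
theorem mem_B2_of_loc_cob (hUS2 : Inj.HypUS2) (hIL : HypInjLocCob hF hL)
    (j : UF F × UF F → repJS S F hF) (hj : j ∈ Z2 (sLevelsStr S F hF) (repJS S F hF))
    (h : ∀ w, (arithLocSys hF hL).loc₂ w j ∈ B2 (L.lev w) ((arithLocSys hF hL).Ω w)) :
    j ∈ B2 (sLevelsStr S F hF) (repJS S F hF) := by
  obtain ⟨N, hN, hrep⟩ :=
    exists_cocycle₂ (finLevels_sLevelsStr S F hF) (isDisc_repJS S F hF) hj
  obtain ⟨E₀, hE₀, hn, hle, rfl⟩ := hN
  obtain ⟨E, hfin, hgal, hres, hnor⟩ := helper7.exists_level_of_normal E₀ hE₀ hn hle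
  have hE : (E.restrictScalars ℚ).IsUnramifiedOutside S := hres ▸ hE₀
  haveI : NumberField ↥F := ⟨⟩
  haveI : FiniteDimensional ℚ ↥E := Module.Finite.trans ↥F ↥E
  haveI : NumberField ↥E := ⟨⟩
  have hker : (Dic.finRealJS S F hF E hE).π.ker ≤
      E₀.fixingSubgroup.subgroupOf F.fixingSubgroup := by
    have hk : (Dic.finRealJS S F hF E hE).π.ker = (resFix F E).ker := rfl
    rw [hk, helper7.ker_resFix, hres]
  obtain ⟨c, rfl⟩ := hrep (Dic.finRealJS S F hF E hE) hker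
  have hc : (d₂₃ (Dic.repSIdele S ↥F ↥E)).hom c.1 = 0 := c.2
  have hc' : (d₂₃ (helper31.repSIdele S ↥F ↥E)).hom c.1 = 0 := c.2
  obtain ⟨b, hb⟩ := Inj.exists_d₁₂_eq_of_comp S ↥F ↥E
    (fun q hq => hUS2 (q : ℕ) ↥F ↥E
      (helper31.inertia_eq_one_of_isUnramifiedOutside_rel E hE q hq))
    c.1 hc' (fun q hq => hIL E hE c.1 hc h q hq)
  have hb' : (c : (Dic.finRealJS S F hF E hE).Q × (Dic.finRealJS S F hF E hE).Q →
      (Dic.finRealJS S F hF E hE).M') = (d₁₂ (Dic.finRealJS S F hF E hE).M').hom b := hb.symm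
  rw [hb']
  exact (Dic.finRealJS S F hF E hE).infl₂_mem_B2 b

/-- **[INJ-ASM]**, from [US2] and the coboundary form of [INJ-LOC]. -/
theorem loc_inj_of_cob [Fact p.Prime] (hUS2 : Inj.HypUS2) (hIL : HypInjLocCob hF hL)
    (j : UF F × UF F → repJS S F hF) (hj : j ∈ Z2 (sLevelsStr S F hF) (repJS S F hF))
    (h : ∀ w, (arithLocSys hF hL).loc₂ w j ∈ B2 (L.lev w) ((arithLocSys hF hL).Ω w)) :
    ∃ m : ℕ, ¬ p ∣ m ∧ m • j ∈ B2 (sLevelsStr S F hF) (repJS S F hF) := by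
  refine ⟨1, (Fact.out : p.Prime).not_dvd_one, ?_⟩
  rw [one_smul]
  exact mem_B2_of_loc_cob hF hL hUS2 hIL j hj h

/-- **[INJ-ASM]**: `loc_inj` (the field `inj` of `LocSys.Good` for `arithLocSys hF hL`), from
[US2] and [INJ-LOC]. -/
theorem loc_inj_of [Fact p.Prime] (hUS2 : Inj.HypUS2) (hIL : HypInjLoc hF hL)
    (j : UF F × UF F → repJS S F hF) (hj : j ∈ Z2 (sLevelsStr S F hF) (repJS S F hF))
    (h : ∀ w, (arithLocSys hF hL).loc₂ w j ∈ B2 (L.lev w) ((arithLocSys hF hL).Ω w)) :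
    ∃ m : ℕ, ¬ p ∣ m ∧ m • j ∈ B2 (sLevelsStr S F hF) (repJS S F hF) := by
  refine ⟨1, (Fact.out : p.Prime).not_dvd_one, ?_⟩
  rw [one_smul]
  exact mem_B2_of_loc hF hL hUS2 hIL j hj h

end Fermat.Agent.S55.helper46
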