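import Fermat.Agent.S55.helper73_GlobDefs

/-!
# S55 / GLOB-G2b (helper97): norm index of a reduced Artinian ring with a group action

Abstract form of the computation of `Ĥ^0(G, (ℚ_q ⊗ L)ˣ)`:
`B` is a reduced Artinian commutative ring (a finite product of fields), `G` a finite group of
prime order `p` acting on `B` by ring automorphisms, `A → B` a ring with `B^G = A`.
Then the index of the group norms `N_G(Bˣ)` in the `G`-fixed units equals the product of the local
indices at the `G`-stable maximal ideals of `B`.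

Everything is done elementwise with congruences modulo the maximal ideals of `B`
(Chinese remainder theorem), no product decomposition of `B` is used.
-/

set_option autoImplicit false
set_option linter.style.haveILetI false

open scoped Pointwise

namespace Fermat.Agent.S55.helper97

open Fermat.Agent.S55.helper73

section MaxAction

variable {B G : Type*} [CommRing B] [Group G] [MulSemiringAction G B]

/-- the translate of a maximal ideal is maximal -/
theorem isMaximal_smul (σ : G) (n : Ideal B) (hn : n.IsMaximal) : (σ • n).IsMaximal := by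
  rw [Ideal.pointwise_smul_eq_comap]
  exact Ideal.comap_isMaximal_of_surjective _
    (MulSemiringAction.toRingEquiv G B σ⁻¹).surjective (H := hn)

/-- `G` acts on the maximal spectrum. -/
noncomputable instance maxSpecAction : MulAction G (MaximalSpectrum B) where
  smul σ n := ⟨σ • n.asIdeal, isMaximal_smul σ n.asIdeal n.isMaximal⟩
  one_smul n := MaximalSpectrum.ext (one_smul G n.asIdeal)
  mul_smul σ τ n := MaximalSpectrum.ext (mul_smul σ τ n.asIdeal)

theorem asIdeal_smul (σ : G) (n : MaximalSpectrum B) : (σ • n).asIdeal = σ • n.asIdeal := rfl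

/-- congruences are transported by the action -/
theorem smul_sub_mem {σ : G} {n : MaximalSpectrum B} {y u : B}
    (h : y - u ∈ (σ⁻¹ • n).asIdeal) : σ • y - σ • u ∈ n.asIdeal := by
  rw [asIdeal_smul, Ideal.mem_inv_pointwise_smul_iff, smul_sub] at h
  exact h

end MaxAction

section CRT

variable {B : Type*} [CommRing B] [IsArtinianRing B]

/-- Chinese remainder theorem for the maximal ideals of an Artinian ring. -/
theorem exists_forall_sub_mem (u : MaximalSpectrum B → B) :
    ∃ y : B, ∀ n : MaximalSpectrum B, y - u n ∈ n.asIdeal :=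
  Ideal.exists_forall_sub_mem_ideal (I := fun n : MaximalSpectrum B => n.asIdeal)
    (fun _ _ h => MaximalSpectrum.isCoprime_of_ne h) u

/-- an element of a reduced Artinian ring lying in all maximal ideals is zero -/
theorem eq_zero_of_forall_mem [IsReduced B] {y : B}
    (h : ∀ n : MaximalSpectrum B, y ∈ n.asIdeal) : y = 0 := by
  have h1 : y ∈ nilradical B := by
    rw [IsArtinianRing.nilradical_eq_iInf, Ideal.mem_iInf]
    exact h
  rw [nilradical_eq_zero] at h1
  exact h1

theorem eq_of_forall_sub_mem [IsReduced B] {y z : B}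
    (h : ∀ n : MaximalSpectrum B, y - z ∈ n.asIdeal) : y = z :=
  sub_eq_zero.mp (eq_zero_of_forall_mem h)

omit [IsArtinianRing B] in
/-- an element lying in no maximal ideal is a unit -/
theorem isUnit_of_forall_notMem {y : B} (h : ∀ n : MaximalSpectrum B, y ∉ n.asIdeal) :
    IsUnit y := by
  by_contra hy
  obtain ⟨I, hI, hyI⟩ := exists_max_ideal_of_mem_nonunits (mem_nonunits_iff.mpr hy)
  exact h ⟨I, hI⟩ hyI

omit [IsArtinianRing B] in
theorem unit_notMem (x : Bˣ) (n : MaximalSpectrum B) : (x : B) ∉ n.asIdeal := fun h =>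
  n.isMaximal.ne_top (Ideal.eq_top_of_isUnit_mem _ h x.isUnit)

omit [IsArtinianRing B] in
/-- an element congruent to a unit modulo a maximal ideal is not in it -/
theorem notMem_of_sub_mem {y : B} (x : Bˣ) (n : MaximalSpectrum B)
    (h : y - (x : B) ∈ n.asIdeal) : y ∉ n.asIdeal := fun hy =>
  unit_notMem x n (by simpa using n.asIdeal.sub_mem hy h)

end CRT

section Orbits

variable {B G : Type*} [CommRing B] [Group G] [MulSemiringAction G B]

/-- in a group of prime order a non-fixed point has trivial stabiliser -/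
theorem smul_inj_of_not_fixed (hp : (Nat.card G).Prime) {n : MaximalSpectrum B}
    (hn : ¬ ∀ σ : G, σ • n = n) {σ τ : G} (h : σ • n = τ • n) : σ = τ := by
  have : Fact (Nat.card G).Prime := ⟨hp⟩
  rcases (MulAction.stabilizer G n).eq_bot_or_eq_top_of_prime_card with h0 | h0
  · have : τ⁻¹ * σ ∈ MulAction.stabilizer G n := by
      rw [MulAction.mem_stabilizer_iff, mul_smul, h, inv_smul_smul]
    rw [h0, Subgroup.mem_bot] at this
    exact (inv_mul_eq_one.mp this).symm
  · exfalso
    apply hn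
    intro ρ
    have : ρ ∈ MulAction.stabilizer G n := by rw [h0]; exact Subgroup.mem_top ρ
    exact this

/-- translates of a non-fixed point are not fixed -/
theorem not_fixed_smul {n : MaximalSpectrum B} (hn : ¬ ∀ σ : G, σ • n = n) (τ : G) :
    ¬ ∀ σ : G, σ • (τ • n) = τ • n := by
  intro h
  apply hn
  intro σ
  have := h (τ * σ * τ⁻¹)
  rw [← mul_smul, inv_mul_cancel_right, mul_smul] at this
  exact smul_left_cancel τ this

/-- a choice of representative in each orbit -/
noncomputable def orbRep (n : MaximalSpectrum B) : MaximalSpectrum B :=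
  Quotient.out (Quotient.mk (MulAction.orbitRel G (MaximalSpectrum B)) n)

theorem orbRep_smul (σ : G) (n : MaximalSpectrum B) :
    orbRep (G := G) (σ • n) = orbRep (G := G) n := by
  unfold orbRep
  congr 1
  apply Quotient.sound
  exact ⟨σ, rfl⟩

theorem exists_smul_eq_orbRep (n : MaximalSpectrum B) : ∃ σ : G, σ • n = orbRep (G := G) n := by
  have h : (MulAction.orbitRel G (MaximalSpectrum B)).r (orbRep (G := G) n) n :=
    Quotient.exact (Quotient.out_eq _)
  exact h

end Orbits

section Congr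

variable {B : Type*} [CommRing B]

/-- congruence of finite products -/
theorem prod_sub_prod_mem {ι : Type*} (s : Finset ι) (I : Ideal B) (a b : ι → B)
    (h : ∀ i ∈ s, a i - b i ∈ I) : ∏ i ∈ s, a i - ∏ i ∈ s, b i ∈ I := by
  rw [← Ideal.Quotient.eq, map_prod, map_prod]
  exact Finset.prod_congr rfl fun i hi => Ideal.Quotient.eq.mpr (h i hi)

end Congr

section Main

variable {B G : Type*} [CommRing B] [Group G] [Fintype G]
  [MulSemiringAction G B] [MulDistribMulAction G Bˣ]

/-- the units congruent to `1` modulo the maximal ideal `n` -/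
def unitsOne (n : MaximalSpectrum B) : Subgroup Bˣ where
  carrier := {x | (x : B) - 1 ∈ n.asIdeal}
  one_mem' := by simp
  mul_mem' := by
    intro x y hx hy
    have : ((x * y : Bˣ) : B) - 1 = (x : B) * ((y : B) - 1) + ((x : B) - 1) := by
      push_cast; ring
    change ((x * y : Bˣ) : B) - 1 ∈ n.asIdeal
    rw [this]
    exact n.asIdeal.add_mem (n.asIdeal.mul_mem_left _ hy) hx
  inv_mem' := by
    intro x hx
    have : ((x⁻¹ : Bˣ) : B) - 1 = -(((x⁻¹ : Bˣ) : B) * ((x : B) - 1)) := by
      rw [mul_sub, Units.inv_mul, mul_one]; ring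
    change ((x⁻¹ : Bˣ) : B) - 1 ∈ n.asIdeal
    rw [this]
    exact n.asIdeal.neg_mem (n.asIdeal.mul_mem_left _ hx)

omit [Group G] [Fintype G] [MulSemiringAction G B] [MulDistribMulAction G Bˣ] in
theorem mem_unitsOne {n : MaximalSpectrum B} {x : Bˣ} :
    x ∈ unitsOne n ↔ (x : B) - 1 ∈ n.asIdeal := Iff.rfl

omit [Group G] [Fintype G] [MulSemiringAction G B] [MulDistribMulAction G Bˣ] in
/-- `x / y ∈ unitsOne n` iff `x ≡ y mod n` -/
theorem div_mem_unitsOne {n : MaximalSpectrum B} {x y : Bˣ} :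
    x / y ∈ unitsOne n ↔ (x : B) - (y : B) ∈ n.asIdeal := by
  rw [mem_unitsOne]
  have h1 : ((x / y : Bˣ) : B) - 1 = ((y⁻¹ : Bˣ) : B) * ((x : B) - (y : B)) := by
    rw [div_eq_mul_inv, Units.val_mul, mul_sub, Units.inv_mul]; ring
  have h2 : (x : B) - (y : B) = (y : B) * (((x / y : Bˣ) : B) - 1) := by
    rw [h1, ← mul_assoc, Units.mul_inv, one_mul]
  constructor
  · intro h
    rw [h2]
    exact n.asIdeal.mul_mem_left _ h
  · intro h
    rw [h1]
    exact n.asIdeal.mul_mem_left _ h

variable (hc : ∀ (σ : G) (x : Bˣ), ((σ • x : Bˣ) : B) = σ • (x : B))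

include hc in
theorem coe_normG (x : Bˣ) : ((normG G Bˣ x : Bˣ) : B) = ∏ σ : G, σ • (x : B) := by
  rw [normG_apply, Units.coe_prod]
  exact Finset.prod_congr rfl fun σ _ => hc σ x

include hc in
omit [Fintype G] in
theorem mem_fixedSub_iff (x : Bˣ) : x ∈ fixedSub G Bˣ ↔ ∀ σ : G, σ • (x : B) = (x : B) := by
  rw [mem_fixedSub]
  constructor
  · intro h σ
    rw [← hc, h]
  · intro h σ
    apply Units.ext
    rw [hc, h]

include hc in
/-- `x ∈ N ⊔ U_n` iff `x` is congruent to a norm modulo `n` -/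
theorem mem_norm_sup_unitsOne {n : MaximalSpectrum B} {x : Bˣ} :
    x ∈ (normG G Bˣ).range ⊔ unitsOne n ↔
      ∃ z : Bˣ, (x : B) - ∏ σ : G, σ • (z : B) ∈ n.asIdeal := by
  rw [Subgroup.mem_sup]
  constructor
  · rintro ⟨y, ⟨z, rfl⟩, u, hu, rfl⟩
    refine ⟨z, ?_⟩
    rw [← coe_normG hc, ← div_mem_unitsOne, mul_div_cancel_left]
    exact hu
  · rintro ⟨z, hz⟩
    refine ⟨normG G Bˣ z, ⟨z, rfl⟩, x / normG G Bˣ z, ?_, by rw [mul_div_cancel]⟩
    rw [div_mem_unitsOne, coe_normG hc]
    exact hz

variable [IsArtinianRing B] [IsReduced B]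

include hc in
/-- KERNEL: a fixed unit which is a norm modulo every `G`-stable maximal ideal is a norm. -/
theorem mem_range_normG_of_forall (hp : (Nat.card G).Prime) {x : Bˣ} (hx : x ∈ fixedSub G Bˣ)
    (h : ∀ n : MaximalSpectrum B, (∀ σ : G, σ • n = n) →
      x ∈ (normG G Bˣ).range ⊔ unitsOne n) :
    x ∈ (normG G Bˣ).range := by
  classical
  have hz : ∀ n : MaximalSpectrum B, ∃ z : Bˣ, (∀ σ : G, σ • n = n) →
      (x : B) - ∏ σ : G, σ • (z : B) ∈ n.asIdeal := by
    intro n
    by_cases hn : ∀ σ : G, σ • n = n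
    · obtain ⟨z, hz⟩ := (mem_norm_sup_unitsOne hc).mp (h n hn)
      exact ⟨z, fun _ => hz⟩
    · exact ⟨1, fun h' => absurd h' hn⟩
  choose z hz using hz
  let u : MaximalSpectrum B → Bˣ := fun n =>
    if (∀ σ : G, σ • n = n) then z n else if orbRep (G := G) n = n then x else 1
  obtain ⟨y, hy⟩ := exists_forall_sub_mem (fun n => ((u n : Bˣ) : B))
  have hyu : IsUnit y := isUnit_of_forall_notMem fun n => notMem_of_sub_mem (u n) n (hy n)
  refine ⟨hyu.unit, ?_⟩
  apply Units.ext
  rw [coe_normG hc, IsUnit.unit_spec]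
  apply eq_of_forall_sub_mem
  intro n
  have h1 : ∏ σ : G, σ • y - ∏ σ : G, σ • ((u (σ⁻¹ • n) : Bˣ) : B) ∈ n.asIdeal :=
    prod_sub_prod_mem _ _ _ _ fun σ _ => smul_sub_mem (hy (σ⁻¹ • n))
  have h2 : ∏ σ : G, σ • ((u (σ⁻¹ • n) : Bˣ) : B) - x ∈ n.asIdeal := by
    by_cases hn : ∀ σ : G, σ • n = n
    · have hu : ∀ σ : G, u (σ⁻¹ • n) = z n := fun σ => by
        rw [hn σ⁻¹]
        simp only [u, if_pos hn]
      simp only [hu]
      have := n.asIdeal.neg_mem (hz n hn)
      rwa [neg_sub] at this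
    · obtain ⟨τ, hτ⟩ := exists_smul_eq_orbRep (G := G) n
      have key : ∀ σ : G, ((u (σ⁻¹ • n) : Bˣ) : B) = if σ = τ⁻¹ then (x : B) else 1 := by
        intro σ
        have hn' : ¬ ∀ ρ : G, ρ • (σ⁻¹ • n) = σ⁻¹ • n := not_fixed_smul hn σ⁻¹
        simp only [u, if_neg hn', orbRep_smul]
        by_cases hσ : σ = τ⁻¹
        · rw [if_pos hσ, if_pos]
          rw [hσ, inv_inv, hτ]
        · rw [if_neg hσ, if_neg, Units.val_one]
          intro h'
          apply hσ
          rw [← hτ] at h'
          have := smul_inj_of_not_fixed hp hn h'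
          rw [this, inv_inv]
      have hprod : ∏ σ : G, σ • ((u (σ⁻¹ • n) : Bˣ) : B) = τ⁻¹ • (x : B) := by
        rw [Finset.prod_eq_single τ⁻¹]
        · rw [key, if_pos rfl]
        · intro σ _ hσ
          rw [key, if_neg hσ, smul_one]
        · intro h'
          exact absurd (Finset.mem_univ _) h'
      rw [hprod, (mem_fixedSub_iff hc x).mp hx]
      simp
  have := n.asIdeal.add_mem h1 h2
  simpa using this

include hc in
/-- SURJECTIVITY: fixed units can be prescribed independently modulo the `G`-stable maximal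
ideals. -/
theorem exists_fixed_unit (c : MaximalSpectrum B → Bˣ) (hcf : ∀ n, c n ∈ fixedSub G Bˣ) :
    ∃ x : Bˣ, x ∈ fixedSub G Bˣ ∧
      ∀ n : MaximalSpectrum B, (∀ σ : G, σ • n = n) → x / c n ∈ unitsOne n := by
  classical
  let u : MaximalSpectrum B → Bˣ := fun n => if (∀ σ : G, σ • n = n) then c n else 1
  obtain ⟨y, hy⟩ := exists_forall_sub_mem (fun n => ((u n : Bˣ) : B))
  have hyu : IsUnit y := isUnit_of_forall_notMem fun n => notMem_of_sub_mem (u n) n (hy n)
  refine ⟨hyu.unit, ?_, ?_⟩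
  · rw [mem_fixedSub_iff hc]
    intro σ
    rw [IsUnit.unit_spec]
    apply eq_of_forall_sub_mem
    intro n
    have h1 : σ • y - σ • ((u (σ⁻¹ • n) : Bˣ) : B) ∈ n.asIdeal := smul_sub_mem (hy (σ⁻¹ • n))
    have h2 : σ • ((u (σ⁻¹ • n) : Bˣ) : B) = ((u n : Bˣ) : B) := by
      by_cases hn : ∀ ρ : G, ρ • n = n
      · rw [hn σ⁻¹]
        simp only [u, if_pos hn]
        exact (mem_fixedSub_iff hc (c n)).mp (hcf n) σ
      · have hn' : ¬ ∀ ρ : G, ρ • (σ⁻¹ • n) = σ⁻¹ • n := not_fixed_smul hn σ⁻¹
        simp only [u, if_neg hn, if_neg hn', Units.val_one, smul_one]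
    rw [h2] at h1
    have := n.asIdeal.sub_mem h1 (hy n)
    simpa using this
  · intro n hn
    rw [div_mem_unitsOne, IsUnit.unit_spec]
    have := hy n
    simp only [u, if_pos hn] at this
    exact this

end Main

section Index

variable {B G : Type*} [CommRing B] [Group G] [Fintype G]
  [MulSemiringAction G B] [MulDistribMulAction G Bˣ]
  [IsArtinianRing B] [IsReduced B]

variable (hc : ∀ (σ : G) (x : Bˣ), ((σ • x : Bˣ) : B) = σ • (x : B))

include hc in
/-- INDEX: the index of the norms in the fixed units is the product of the local indices at the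
`G`-stable maximal ideals. -/
theorem index_normG_eq (hp : (Nat.card G).Prime) (d : ℕ)
    (hloc : ∀ n : MaximalSpectrum B, (∀ σ : G, σ • n = n) →
      (((normG G Bˣ).range ⊔ unitsOne n).subgroupOf (fixedSub G Bˣ)).index = d) :
    ((normG G Bˣ).range.subgroupOf (fixedSub G Bˣ)).index =
      d ^ Nat.card {n : MaximalSpectrum B // ∀ σ : G, σ • n = n} := by
  classical
  letI : Fintype {n : MaximalSpectrum B // ∀ σ : G, σ • n = n} := Fintype.ofFinite _
  let F := fixedSub G Bˣ
  let M : {n : MaximalSpectrum B // ∀ σ : G, σ • n = n} → Subgroup F := fun n =>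
    ((normG G Bˣ).range ⊔ unitsOne n.1).subgroupOf F
  let Φ : F →* ∀ n : {n : MaximalSpectrum B // ∀ σ : G, σ • n = n}, F ⧸ M n :=
    MonoidHom.pi fun n => QuotientGroup.mk' (M n)
  have hker : Φ.ker = (normG G Bˣ).range.subgroupOf F := by
    ext x
    rw [MonoidHom.mem_ker, Subgroup.mem_subgroupOf]
    constructor
    · intro h
      apply mem_range_normG_of_forall hc hp x.2
      intro n hn
      have h1 : Φ x ⟨n, hn⟩ = 1 := by rw [h]; rfl
      have h2 : x ∈ M ⟨n, hn⟩ := (QuotientGroup.eq_one_iff x).mp h1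
      exact Subgroup.mem_subgroupOf.mp h2
    · intro h
      funext n
      change (QuotientGroup.mk x : F ⧸ M n) = 1
      rw [QuotientGroup.eq_one_iff]
      exact Subgroup.mem_subgroupOf.mpr (Subgroup.mem_sup_left h)
  have hsurj : Function.Surjective Φ := by
    intro t
    have hlift : ∀ n, ∃ c : F, (QuotientGroup.mk c : F ⧸ M n) = t n := fun n =>
      QuotientGroup.mk_surjective (t n)
    choose c hcn using hlift
    let c' : MaximalSpectrum B → Bˣ := fun n =>
      if h : ∀ σ : G, σ • n = n then (c ⟨n, h⟩ : Bˣ) else 1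
    have hc' : ∀ n, c' n ∈ fixedSub G Bˣ := by
      intro n
      by_cases h : ∀ σ : G, σ • n = n
      · simp only [c', dif_pos h]
        exact (c ⟨n, h⟩).2
      · simp only [c', dif_neg h]
        exact one_mem _
    obtain ⟨x, hx, hxc⟩ := exists_fixed_unit hc c' hc'
    refine ⟨⟨x, hx⟩, ?_⟩
    funext n
    change (QuotientGroup.mk (⟨x, hx⟩ : F) : F ⧸ M n) = t n
    rw [← hcn n, QuotientGroup.eq]
    apply Subgroup.mem_subgroupOf.mpr
    apply Subgroup.mem_sup_right
    have h1 := hxc n.1 n.2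
    simp only [c', dif_pos n.2] at h1
    have h2 := inv_mem h1
    rw [inv_div, div_eq_mul_inv, mul_comm] at h2
    exact h2
  rw [← hker, Subgroup.index_ker, MonoidHom.range_eq_top.mpr hsurj, Subgroup.card_top,
    Nat.card_pi]
  have : ∀ n, Nat.card (F ⧸ M n) = d := fun n => by
    rw [← Subgroup.index_eq_card]
    exact hloc n.1 n.2
  rw [Finset.prod_congr rfl fun n _ => this n, Finset.prod_const, Finset.card_univ,
    Nat.card_eq_fintype_card]

end Index

section Count

variable {A B G : Type*} [CommRing A] [CommRing B] [Algebra A B] [Group G] [Finite G]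
  [MulSemiringAction G B] [SMulCommClass G A B] [Algebra.IsInvariant A B G]

/-- COUNT: the `G`-stable maximal ideals of `B` correspond to the maximal ideals of `A` with
exactly one maximal ideal of `B` above them. -/
theorem card_fixed_eq :
    Nat.card {n : MaximalSpectrum B // ∀ σ : G, σ • n = n} =
      Nat.card {m : Ideal A // m.IsMaximal ∧
        ∃! n : Ideal B, n.IsMaximal ∧ n.comap (algebraMap A B) = m} := by
  have hint : Algebra.IsIntegral A B := Algebra.IsInvariant.isIntegral A B G
  have huniq : ∀ (n : MaximalSpectrum B), (∀ σ : G, σ • n = n) → ∀ n' : Ideal B,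
      n'.IsMaximal → n'.comap (algebraMap A B) = n.asIdeal.comap (algebraMap A B) →
      n' = n.asIdeal := by
    intro n hn n' hn' h
    have := n.isMaximal
    have := hn'
    obtain ⟨g, hg⟩ := Algebra.IsInvariant.exists_smul_of_under_eq A B G n.asIdeal n' h.symm
    rw [hg]
    exact congrArg MaximalSpectrum.asIdeal (hn g)
  let f : {n : MaximalSpectrum B // ∀ σ : G, σ • n = n} →
      {m : Ideal A // m.IsMaximal ∧
        ∃! n : Ideal B, n.IsMaximal ∧ n.comap (algebraMap A B) = m} := fun n =>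
    ⟨n.1.asIdeal.comap (algebraMap A B),
      Ideal.isMaximal_comap_of_isIntegral_of_isMaximal (R := A) n.1.asIdeal (hI := n.1.isMaximal),
      n.1.asIdeal, ⟨n.1.isMaximal, rfl⟩, fun n' hn' => huniq n.1 n.2 n' hn'.1 hn'.2⟩
  apply Nat.card_eq_of_bijective f
  constructor
  · intro n n' h
    have h1 : n'.1.asIdeal.comap (algebraMap A B) = n.1.asIdeal.comap (algebraMap A B) :=
      (congrArg Subtype.val h).symm
    have := huniq n.1 n.2 n'.1.asIdeal n'.1.isMaximal h1
    exact Subtype.ext (MaximalSpectrum.ext this.symm)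
  · rintro ⟨m, hm, n, ⟨hn, hnm⟩, hu⟩
    refine ⟨⟨⟨n, hn⟩, ?_⟩, ?_⟩
    · intro σ
      apply MaximalSpectrum.ext
      change σ • n = n
      apply hu
      refine ⟨isMaximal_smul σ n hn, ?_⟩
      rw [← hnm]
      exact Ideal.under_smul A n σ
    · exact Subtype.ext hnm

end Count

section UnitLift

variable {R : Type*} [CommRing R] [IsArtinianRing R]

/-- units of the residue field lift to units of an Artinian ring -/
theorem exists_unit_mk_eq (n : MaximalSpectrum R) (w : (R ⧸ n.asIdeal)ˣ) :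
    ∃ z : Rˣ, Ideal.Quotient.mk n.asIdeal (z : R) = (w : R ⧸ n.asIdeal) := by
  classical
  obtain ⟨z₀, hz₀⟩ := Ideal.Quotient.mk_surjective (w : R ⧸ n.asIdeal)
  have hz₀n : z₀ ∉ n.asIdeal := by
    intro h
    have h0 : (w : R ⧸ n.asIdeal) = 0 := by
      rw [← hz₀]; exact Ideal.Quotient.eq_zero_iff_mem.mpr h
    have hu := w.isUnit
    rw [h0] at hu
    have := n.isMaximal
    haveI : Nontrivial (R ⧸ n.asIdeal) := Ideal.Quotient.nontrivial_iff.mpr n.isMaximal.ne_top
    exact not_isUnit_zero hu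
  obtain ⟨y, hy⟩ := exists_forall_sub_mem (fun n' : MaximalSpectrum R => if n' = n then z₀ else 1)
  have hyu : IsUnit y := by
    apply isUnit_of_forall_notMem
    intro n' hmem
    have h1 := hy n'
    by_cases h : n' = n
    · rw [if_pos h] at h1
      subst h
      exact hz₀n (by simpa using n'.asIdeal.sub_mem hmem h1)
    · rw [if_neg h] at h1
      have : (1 : R) ∈ n'.asIdeal := by simpa using n'.asIdeal.sub_mem hmem h1
      exact n'.isMaximal.ne_top ((Ideal.eq_top_iff_one _).mpr this)
  refine ⟨hyu.unit, ?_⟩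
  rw [IsUnit.unit_spec, ← hz₀]
  have h1 := hy n
  rw [if_pos rfl] at h1
  exact Ideal.Quotient.eq.mpr h1

end UnitLift

section Local

variable {A B G : Type*} [CommRing A] [CommRing B] [Algebra A B] [Group G] [Fintype G]
  [MulSemiringAction G B] [SMulCommClass G A B]

/-- the map `G → Aut((B/n)/(A/P))` for a `G`-stable maximal ideal `n` -/
noncomputable def resGal (n : MaximalSpectrum B) (hn : ∀ σ : G, σ • n = n) :
    G →* ((B ⧸ n.asIdeal) ≃ₐ[A ⧸ n.asIdeal.under A] (B ⧸ n.asIdeal)) :=
  (Ideal.Quotient.stabilizerHom n.asIdeal (n.asIdeal.under A) G).comp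
    { toFun := fun σ => ⟨σ, congrArg MaximalSpectrum.asIdeal (hn σ)⟩
      map_one' := rfl
      map_mul' := fun _ _ => rfl }

omit [Fintype G] in
theorem resGal_mk (n : MaximalSpectrum B) (hn : ∀ σ : G, σ • n = n) (σ : G) (z : B) :
    resGal (A := A) n hn σ (Ideal.Quotient.mk n.asIdeal z) = Ideal.Quotient.mk n.asIdeal (σ • z) :=
  rfl

omit [Fintype G] in
theorem resGal_surjective [Finite G] [Algebra.IsInvariant A B G] (n : MaximalSpectrum B)
    (hn : ∀ σ : G, σ • n = n) : Function.Surjective (resGal (A := A) n hn) := by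
  have := n.isMaximal
  intro τ
  obtain ⟨g, hg⟩ := Ideal.Quotient.stabilizerHom_surjective G (n.asIdeal.under A) n.asIdeal τ
  exact ⟨g.1, hg⟩

omit [Fintype G] in
theorem resGal_injective (n : MaximalSpectrum B) (hn : ∀ σ : G, σ • n = n)
    (hinert : ∀ σ : G, σ ≠ 1 → ∃ b : B, σ • b - b ∉ n.asIdeal) :
    Function.Injective (resGal (A := A) n hn) := by
  rw [injective_iff_map_eq_one]
  intro σ hσ
  by_contra h1
  obtain ⟨b, hb⟩ := hinert σ h1
  apply hb
  have : resGal (A := A) n hn σ (Ideal.Quotient.mk n.asIdeal b) =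
      Ideal.Quotient.mk n.asIdeal b := by
    rw [hσ]; rfl
  rw [resGal_mk] at this
  exact Ideal.Quotient.eq.mp this

variable [Algebra.IsInvariant A B G]

/-- the norm of the residue field extension at a `G`-stable maximal ideal is induced by the
group norm. -/
theorem algebraMap_norm_mk (n : MaximalSpectrum B) (hn : ∀ σ : G, σ • n = n)
    (hinert : ∀ σ : G, σ ≠ 1 → ∃ b : B, σ • b - b ∉ n.asIdeal)
    [Algebra.IsSeparable (A ⧸ n.asIdeal.under A) (B ⧸ n.asIdeal)] (z : B) :
    algebraMap (A ⧸ n.asIdeal.under A) (B ⧸ n.asIdeal)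
        (Algebra.norm (A ⧸ n.asIdeal.under A) (Ideal.Quotient.mk n.asIdeal z)) =
      Ideal.Quotient.mk n.asIdeal (∏ σ : G, σ • z) := by
  have hint : Algebra.IsIntegral A B := Algebra.IsInvariant.isIntegral A B G
  have hnmax := n.isMaximal
  have hPmax : (n.asIdeal.under A).IsMaximal := Ideal.IsMaximal.under A n.asIdeal
  letI := Ideal.Quotient.field (n.asIdeal.under A)
  letI := Ideal.Quotient.field n.asIdeal
  have hnormal : Normal (A ⧸ n.asIdeal.under A) (B ⧸ n.asIdeal) :=
    Ideal.Quotient.normal G (n.asIdeal.under A) n.asIdeal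
  have hfin : Module.Finite (A ⧸ n.asIdeal.under A) (B ⧸ n.asIdeal) :=
    Ideal.Quotient.finite_of_isInvariant G (n.asIdeal.under A) n.asIdeal
  have hgal : IsGalois (A ⧸ n.asIdeal.under A) (B ⧸ n.asIdeal) := { }
  rw [Algebra.norm_eq_prod_automorphisms, map_prod]
  symm
  apply Fintype.prod_equiv (Equiv.ofBijective (resGal (A := A) n hn)
    ⟨resGal_injective n hn hinert, resGal_surjective n hn⟩)
  intro σ
  rfl

end Local

section LocalIndex

variable {A B G : Type*} [CommRing A] [CommRing B] [Algebra A B] [Group G] [Fintype G]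
  [MulSemiringAction G B] [SMulCommClass G A B] [Algebra.IsInvariant A B G]
  [IsArtinianRing A] [IsArtinianRing B] [IsReduced B] [MulDistribMulAction G Bˣ]

variable (hc : ∀ (σ : G) (x : Bˣ), ((σ • x : Bˣ) : B) = σ • (x : B))

include hc in
omit [IsArtinianRing A] [IsArtinianRing B] [IsReduced B] [Fintype G] in
/-- the fixed units are the units of `A` -/
theorem range_unitsMap_eq_fixedSub (hinj : Function.Injective (algebraMap A B)) :
    (Units.map (algebraMap A B : A →* B)).range = fixedSub G Bˣ := by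
  ext x
  rw [mem_fixedSub_iff hc]
  constructor
  · rintro ⟨a, rfl⟩ σ
    exact smul_algebraMap σ (a : A)
  · intro hx
    obtain ⟨a, ha⟩ := Algebra.IsInvariant.isInvariant (A := A) (G := G) (x : B) hx
    have hx' : ∀ σ : G, σ • ((x⁻¹ : Bˣ) : B) = ((x⁻¹ : Bˣ) : B) :=
      (mem_fixedSub_iff hc x⁻¹).mp (inv_mem ((mem_fixedSub_iff hc x).mpr hx))
    obtain ⟨a', ha'⟩ := Algebra.IsInvariant.isInvariant (A := A) (G := G) ((x⁻¹ : Bˣ) : B) hx'
    have h1 : a * a' = 1 := by
      apply hinj
      rw [map_mul, ha, ha', map_one, Units.mul_inv]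
    refine ⟨⟨a, a', h1, by rw [mul_comm, h1]⟩, ?_⟩
    apply Units.ext
    exact ha

include hc in
omit [IsReduced B] in
/-- LOCAL INDEX: at a `G`-stable maximal ideal without inertia, the local index is the norm index
of the residue field extension. -/
theorem local_index_eq (hinj : Function.Injective (algebraMap A B))
    (n : MaximalSpectrum B) (hn : ∀ σ : G, σ • n = n)
    (hinert : ∀ σ : G, σ ≠ 1 → ∃ b : B, σ • b - b ∉ n.asIdeal)
    [Algebra.IsSeparable (A ⧸ n.asIdeal.under A) (B ⧸ n.asIdeal)] :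
    (((normG G Bˣ).range ⊔ unitsOne n).subgroupOf (fixedSub G Bˣ)).index =
      Nat.card ((A ⧸ n.asIdeal.under A)ˣ ⧸
        (Units.map (Algebra.norm (A ⧸ n.asIdeal.under A) :
          (B ⧸ n.asIdeal) →* (A ⧸ n.asIdeal.under A))).range) := by
  have hint : Algebra.IsIntegral A B := Algebra.IsInvariant.isIntegral A B G
  have hnmax := n.isMaximal
  have hPmax : (n.asIdeal.under A).IsMaximal := Ideal.IsMaximal.under A n.asIdeal
  set P := n.asIdeal.under A with hP
  set R := (Units.map (Algebra.norm (A ⧸ P) : (B ⧸ n.asIdeal) →* (A ⧸ P))).range with hR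
  let j : Aˣ →* Bˣ := Units.map (algebraMap A B : A →* B)
  let κ : Aˣ →* (A ⧸ P)ˣ ⧸ R :=
    (QuotientGroup.mk' R).comp (Units.map (Ideal.Quotient.mk P : A →* A ⧸ P))
  have hinjq : Function.Injective (algebraMap (A ⧸ P) (B ⧸ n.asIdeal)) :=
    FaithfulSMul.algebraMap_injective _ _
  -- (ii)
  have hker : ((normG G Bˣ).range ⊔ unitsOne n).comap j = κ.ker := by
    ext a
    rw [Subgroup.mem_comap, mem_norm_sup_unitsOne hc, MonoidHom.mem_ker]
    change _ ↔ (QuotientGroup.mk (Units.map (Ideal.Quotient.mk P : A →* A ⧸ P) a) :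
      (A ⧸ P)ˣ ⧸ R) = 1
    rw [QuotientGroup.eq_one_iff]
    constructor
    · rintro ⟨z, hz⟩
      refine ⟨Units.map (Ideal.Quotient.mk n.asIdeal : B →* B ⧸ n.asIdeal) z, ?_⟩
      apply Units.ext
      apply hinjq
      change algebraMap (A ⧸ P) (B ⧸ n.asIdeal)
        (Algebra.norm (A ⧸ P) (Ideal.Quotient.mk n.asIdeal (z : B))) =
        algebraMap (A ⧸ P) (B ⧸ n.asIdeal) (Ideal.Quotient.mk P (a : A))
      rw [algebraMap_norm_mk n hn hinert, Ideal.Quotient.algebraMap_mk_of_liesOver]
      exact (Ideal.Quotient.eq.mpr hz).symm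
    · rintro ⟨w, hw⟩
      obtain ⟨z, hz⟩ := exists_unit_mk_eq n w
      refine ⟨z, ?_⟩
      have h1 : algebraMap (A ⧸ P) (B ⧸ n.asIdeal)
          (Algebra.norm (A ⧸ P) (Ideal.Quotient.mk n.asIdeal (z : B))) =
          algebraMap (A ⧸ P) (B ⧸ n.asIdeal) (Ideal.Quotient.mk P (a : A)) := by
        rw [hz]
        exact congrArg (fun u : (A ⧸ P)ˣ => algebraMap (A ⧸ P) (B ⧸ n.asIdeal) (u : A ⧸ P)) hw
      rw [algebraMap_norm_mk n hn hinert, Ideal.Quotient.algebraMap_mk_of_liesOver] at h1
      exact Ideal.Quotient.eq.mp h1.symm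
  -- (iii)
  have hsurj : Function.Surjective κ := by
    intro t
    obtain ⟨k, rfl⟩ := QuotientGroup.mk_surjective t
    obtain ⟨a, ha⟩ := exists_unit_mk_eq (⟨P, hPmax⟩ : MaximalSpectrum A) k
    refine ⟨a, ?_⟩
    change (QuotientGroup.mk (Units.map (Ideal.Quotient.mk P : A →* A ⧸ P) a) :
      (A ⧸ P)ˣ ⧸ R) = _
    congr 1
    apply Units.ext
    exact ha
  -- (iv)
  have h1 : (((normG G Bˣ).range ⊔ unitsOne n).subgroupOf (fixedSub G Bˣ)).index =
      (((normG G Bˣ).range ⊔ unitsOne n).comap j).index := by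
    rw [Subgroup.index_comap, range_unitsMap_eq_fixedSub hc hinj]
    rfl
  rw [h1, hker, Subgroup.index_ker, MonoidHom.range_eq_top.mpr hsurj, Subgroup.card_top]

end LocalIndex

end Fermat.Agent.S55.helper97
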