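import Fermat.Agent.S55.helper90_Rec3LocDef
import Fermat.Agent.S55.helper1_Symbol
import Fermat.Agent.S55.helper97_SemiLocAbs

/-!
# S55 / REC3 / SURJ-CRT (helper13, task 607): `exists_idele_single`

For an arithmetic local datum `hL : IsArith S F L`, a place `w : ι` and `b ∈ K_wˣ` there is a
`U`-invariant smooth `S`-idele `x` whose localisation at `w` is `b` and whose localisation at
every other place `w' ≠ w` of `ι` is `1`.

Statement verbatim from `helper4_Rec3SurjInterface.lean` (theorem `exists_idele_single`).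

Proof: Chinese remainder theorem in the Artinian ring `ℚ_q ⊗ F`, `q = hL.q w`; the maximal ideals
`ker (a ⊗ y ↦ a · ι (g⁻¹ y))` attached to `g = hL.g w` and `g' = hL.g w'` are distinct for
`w' ≠ w` by the uniqueness part of `hL.cover`.
-/

set_option autoImplicit false
set_option linter.style.haveILetI false
set_option linter.unusedSectionVars false

open groupCohomology ExtCitation
open scoped TensorProduct

noncomputable section

namespace Fermat.Agent.S55.helper13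

open Fermat.Agent.S55 Fermat.Agent.S55.helper59 Fermat.Agent.S55.helper69
  Fermat.Agent.S55.helper73 Fermat.Agent.S55.helper90

local notation "Qbar" => AlgebraicClosure ℚ

/-! ## The evaluation maps on `ℚ_q ⊗ F` -/

section Generic

variable (q : ℕ) [Fact q.Prime] (F : IntermediateField ℚ Qbar)

/-- `φ_g : ℚ_q ⊗ F → PadicAlgCl q`, `a ⊗ y ↦ a · ι (g⁻¹ y)`. -/
def crtEv (g : Qbar ≃ₐ[ℚ] Qbar) : SemiLoc q F →ₐ[ℚ_[q]] PadicAlgCl q :=
  (evAt q g).comp (helper73.bc F Qbar q)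

lemma crtEv_apply (g : Qbar ≃ₐ[ℚ] Qbar) (z : SemiLoc q F) :
    crtEv q F g z = evAt q g (helper73.bc F Qbar q z) := rfl

lemma crtEv_tmul (g : Qbar ≃ₐ[ℚ] Qbar) (a : ℚ_[q]) (y : F) :
    crtEv q F g (a ⊗ₜ[ℚ] y) = algebraMap ℚ_[q] (PadicAlgCl q) a *
      padicEmbedding q ((g⁻¹ : Qbar ≃ₐ[ℚ] Qbar) (y : Qbar)) := by
  rw [crtEv_apply, helper73.bc_tmul, evAt_tmul]
  rfl

lemma crtEv_one_tmul (g : Qbar ≃ₐ[ℚ] Qbar) (y : F) :
    crtEv q F g ((1 : ℚ_[q]) ⊗ₜ[ℚ] y) =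
      padicEmbedding q ((g⁻¹ : Qbar ≃ₐ[ℚ] Qbar) (y : Qbar)) := by
  rw [crtEv_tmul, map_one, one_mul]

/-- elements coming from `ℚ_q ⊗ F` are fixed by `Gal(ℚbar/F)` -/
lemma smul_bc_eq (σ : Qbar ≃ₐ[ℚ] Qbar) (hσ : σ ∈ F.fixingSubgroup) (z : SemiLoc q F) :
    σ • (helper73.bc F Qbar q z) = helper73.bc F Qbar q z := by
  induction z using TensorProduct.induction_on with
  | zero => simp
  | tmul a y =>
    rw [helper73.bc_tmul, smul_tmul']
    congr 1
    exact (IntermediateField.mem_fixingSubgroup_iff F σ).1 hσ _ y.2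
  | add x y hx hy => rw [map_add, smul_add, hx, hy]

/-- DISTINCTNESS: if the kernels of `φ_g` and `φ_g'` agree, then `g' · loc(h) · g⁻¹` fixes `F`
for some `h ∈ Gal(PadicAlgCl q / ℚ_q)`. -/
lemma exists_conj_of_ker_eq [FiniteDimensional ℚ F] (g g' : Qbar ≃ₐ[ℚ] Qbar)
    (hker : RingHom.ker (crtEv q F g') = RingHom.ker (crtEv q F g)) :
    ∃ h : PadicAlgCl q ≃ₐ[ℚ_[q]] PadicAlgCl q,
      g' * localGaloisToGlobal q h * g⁻¹ ∈ F.fixingSubgroup := by
  obtain ⟨α, hα⟩ := Field.exists_primitive_element ℚ F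
  have halg : IsAlgebraic ℚ_[q] (padicEmbedding q ((g⁻¹ : Qbar ≃ₐ[ℚ] Qbar) (α : Qbar))) :=
    (PadicAlgCl.isAlgebraic q).isAlgebraic _
  -- the minimal polynomial of `ι (g⁻¹ α)` kills `ι (g'⁻¹ α)`
  have h0 : Polynomial.aeval (padicEmbedding q ((g'⁻¹ : Qbar ≃ₐ[ℚ] Qbar) (α : Qbar)))
      (minpoly ℚ_[q] (padicEmbedding q ((g⁻¹ : Qbar ≃ₐ[ℚ] Qbar) (α : Qbar)))) = 0 := by
    have h1 : Polynomial.aeval ((1 : ℚ_[q]) ⊗ₜ[ℚ] α : SemiLoc q F)
        (minpoly ℚ_[q] (padicEmbedding q ((g⁻¹ : Qbar ≃ₐ[ℚ] Qbar) (α : Qbar)))) ∈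
        RingHom.ker (crtEv q F g) := by
      rw [RingHom.mem_ker, ← Polynomial.aeval_algHom_apply, crtEv_one_tmul]
      exact minpoly.aeval _ _
    rw [← hker, RingHom.mem_ker, ← Polynomial.aeval_algHom_apply, crtEv_one_tmul] at h1
    exact h1
  have h2 := minpoly.eq_of_root halg h0
  obtain ⟨h, hh⟩ := (Normal.minpoly_eq_iff_mem_orbit (PadicAlgCl q)).1 h2
  have hh' : h (padicEmbedding q ((g⁻¹ : Qbar ≃ₐ[ℚ] Qbar) (α : Qbar))) =
      padicEmbedding q ((g'⁻¹ : Qbar ≃ₐ[ℚ] Qbar) (α : Qbar)) := hh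
  -- the two embeddings of `F` agree on the primitive element, hence everywhere
  have hadj : Algebra.adjoin ℚ {α} = ⊤ := by
    have h3 := congrArg IntermediateField.toSubalgebra hα
    rw [IntermediateField.adjoin_simple_toSubalgebra_of_isAlgebraic
      (Algebra.IsAlgebraic.isAlgebraic α), IntermediateField.top_toSubalgebra] at h3
    exact h3
  have hf : (h.toRingEquiv.toRingHom.comp ((padicEmbedding q).toRingHom.comp
      ((g⁻¹ : Qbar ≃ₐ[ℚ] Qbar).toAlgHom.toRingHom.comp (algebraMap F Qbar)))).toRatAlgHom =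
      ((padicEmbedding q).toRingHom.comp
        ((g'⁻¹ : Qbar ≃ₐ[ℚ] Qbar).toAlgHom.toRingHom.comp (algebraMap F Qbar))).toRatAlgHom := by
    refine AlgHom.ext_of_adjoin_eq_top hadj ?_
    intro x hx
    rw [Set.mem_singleton_iff] at hx
    subst hx
    exact hh'
  refine ⟨h, ?_⟩
  rw [IntermediateField.mem_fixingSubgroup_iff]
  intro y hy
  have h4 := congrArg (fun f : F →ₐ[ℚ] PadicAlgCl q => f ⟨y, hy⟩) hf
  have h5 : h (padicEmbedding q ((g⁻¹ : Qbar ≃ₐ[ℚ] Qbar) y)) =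
      padicEmbedding q ((g'⁻¹ : Qbar ≃ₐ[ℚ] Qbar) y) := h4
  rw [← padicEmbedding_localGaloisToGlobal] at h5
  have h6 := (padicEmbedding q).toRingHom.injective h5
  rw [AlgEquiv.mul_apply, AlgEquiv.mul_apply, h6, ← AlgEquiv.mul_apply, mul_inv_cancel,
    AlgEquiv.one_apply]

end Generic

/-! ## Transport along equalities of primes -/

section Transport

lemma exists_primeLocalToGlobal_eq_of_eq {q₁ q₂ : Nat.Primes} (e : q₁ = q₂)
    (h : primeLocalGaloisGroup q₂) :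
    ∃ h' : primeLocalGaloisGroup q₁, primeLocalToGlobal q₁ h' = primeLocalToGlobal q₂ h := by
  subst e
  exact ⟨h, rfl⟩

lemma idelePi_mulSingle_same (q₀ : Nat.Primes) (Z : (SemiLoc (q₀ : ℕ) Qbar)ˣ) :
    (Pi.mulSingle q₀ Z : IdelePi Qbar) q₀ = Z :=
  Pi.mulSingle_eq_same (M := fun q : Nat.Primes => (SemiLoc (q : ℕ) Qbar)ˣ) q₀ Z

lemma idelePi_mulSingle_of_ne {q₀ q' : Nat.Primes} (hne : q' ≠ q₀)
    (Z : (SemiLoc (q₀ : ℕ) Qbar)ˣ) : (Pi.mulSingle q₀ Z : IdelePi Qbar) q' = 1 :=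
  Pi.mulSingle_eq_of_ne (M := fun q : Nat.Primes => (SemiLoc (q : ℕ) Qbar)ˣ) hne Z

/-- the localisation at `(q', g')` of an idele concentrated at `q₀` -/
lemma evAt_mulSingle_eq_one (q₀ q' : Nat.Primes) (Z : (SemiLoc (q₀ : ℕ) Qbar)ˣ)
    (g' : Qbar ≃ₐ[ℚ] Qbar)
    (h : q' = q₀ → Units.map (evAt (q₀ : ℕ) g' : SemiLoc (q₀ : ℕ) Qbar →* PadicAlgCl (q₀ : ℕ)) Z
      = 1) :
    Units.map (evAt (q' : ℕ) g' : SemiLoc (q' : ℕ) Qbar →* PadicAlgCl (q' : ℕ))
      ((Pi.mulSingle q₀ Z : IdelePi Qbar) q') = 1 := by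
  by_cases hq : q' = q₀
  · subst hq
    rw [idelePi_mulSingle_same]
    exact h rfl
  · rw [idelePi_mulSingle_of_ne hq, map_one]

end Transport

/-! ## The main statement -/

section Main

variable {p : ℕ} [Fact p.Prime] {S : Finset Nat.Primes} {F : IntermediateField ℚ Qbar}
  [FiniteDimensional ℚ F] (hF : F.IsUnramifiedOutside S)
  {ι : Type} {L : LocalData (UF F) (sLevelsStr S F hF) ι} (hL : IsArith S F L)

/-- **SURJ-CRT**: an `U`-invariant `S`-idele with prescribed component `b ∈ K_wˣ` at `w` and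
trivial components at all other places of `ι`. -/
theorem exists_idele_single (w : ι) (b : (↥(hL.Kw w))ˣ) :
    ∃ x : bigJS S F hF,
      (∀ σ : UF F, (σ : Qbar ≃ₐ[ℚ] Qbar) • (x : Idele Qbar) = (x : Idele Qbar)) ∧
      locLamMul hF hL w x =
        Units.map (algebraMap ↥(hL.Kw w) (PadicAlgCl (hL.q w : ℕ)) :
          ↥(hL.Kw w) →* PadicAlgCl (hL.q w : ℕ)) b ∧
      ∀ w', w' ≠ w → locLamMul hF hL w' x = 1 := by
  classical
  haveI : IsArtinianRing (SemiLoc (hL.q w : ℕ) F) :=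
    IsArtinianRing.of_finite ℚ_[(hL.q w : ℕ)] _
  -- the maximal ideals `ker φ_g`
  have hmax : ∀ g : Qbar ≃ₐ[ℚ] Qbar, (RingHom.ker (crtEv (hL.q w : ℕ) F g)).IsMaximal := by
    intro g
    haveI : (RingHom.ker (crtEv (hL.q w : ℕ) F g)).IsPrime := RingHom.ker_isPrime _
    exact IsArtinianRing.isMaximal_of_isPrime _
  -- a lift of `b`
  obtain ⟨bt, hbt⟩ : ∃ bt : SemiLoc (hL.q w : ℕ) F,
      crtEv (hL.q w : ℕ) F (hL.g w) bt = ((b : ↥(hL.Kw w)) : PadicAlgCl (hL.q w : ℕ)) := by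
    have hb : ((b : ↥(hL.Kw w)) : PadicAlgCl (hL.q w : ℕ)) ∈
        (IntermediateField.adjoin ℚ_[(hL.q w : ℕ)]
          (padicEmbedding (hL.q w : ℕ) '' (hL.conjField w : Set Qbar))).toSubalgebra :=
      (b : ↥(hL.Kw w)).2
    rw [IntermediateField.adjoin_toSubalgebra] at hb
    have hle : Algebra.adjoin ℚ_[(hL.q w : ℕ)]
        (padicEmbedding (hL.q w : ℕ) '' (hL.conjField w : Set Qbar)) ≤
        (crtEv (hL.q w : ℕ) F (hL.g w)).range := by
      apply Algebra.adjoin_le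
      rintro _ ⟨c, hc, rfl⟩
      obtain ⟨y, hy, rfl⟩ := hc
      exact ⟨(1 : ℚ_[(hL.q w : ℕ)]) ⊗ₜ[ℚ] (⟨y, hy⟩ : F), crtEv_one_tmul _ F _ _⟩
    exact hle hb
  -- Chinese remainder theorem
  obtain ⟨y, hy⟩ := helper97.exists_forall_sub_mem
    (fun n : MaximalSpectrum (SemiLoc (hL.q w : ℕ) F) =>
      if n.asIdeal = RingHom.ker (crtEv (hL.q w : ℕ) F (hL.g w)) then bt else 1)
  have hynw : crtEv (hL.q w : ℕ) F (hL.g w) y =
      ((b : ↥(hL.Kw w)) : PadicAlgCl (hL.q w : ℕ)) := by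
    have h1 := hy ⟨RingHom.ker (crtEv (hL.q w : ℕ) F (hL.g w)), hmax _⟩
    simp only [if_pos] at h1
    have h2 := RingHom.mem_ker.1 h1
    rw [map_sub, sub_eq_zero] at h2
    rw [h2, hbt]
  have hyone : ∀ g' : Qbar ≃ₐ[ℚ] Qbar,
      RingHom.ker (crtEv (hL.q w : ℕ) F g') ≠ RingHom.ker (crtEv (hL.q w : ℕ) F (hL.g w)) →
      crtEv (hL.q w : ℕ) F g' y = 1 := by
    intro g' hne
    have h1 := hy ⟨RingHom.ker (crtEv (hL.q w : ℕ) F g'), hmax _⟩
    simp only [if_neg hne] at h1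
    have h2 := RingHom.mem_ker.1 h1
    rw [map_sub, map_one, sub_eq_zero] at h2
    exact h2
  have hyu : IsUnit y := by
    apply helper97.isUnit_of_forall_notMem
    intro n hmem
    have h1 := hy n
    by_cases hn : n.asIdeal = RingHom.ker (crtEv (hL.q w : ℕ) F (hL.g w))
    · rw [hn] at hmem
      have h2 := RingHom.mem_ker.1 hmem
      rw [hynw] at h2
      have h3 : (b : ↥(hL.Kw w)) = 0 := Subtype.ext h2
      exact b.ne_zero h3
    · simp only [if_neg hn] at h1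
      have h2 : (1 : SemiLoc (hL.q w : ℕ) F) ∈ n.asIdeal := by
        simpa using n.asIdeal.sub_mem hmem h1
      exact n.isMaximal.ne_top ((Ideal.eq_top_iff_one _).mpr h2)
  -- the idele
  have hZ : ∃ Z : (SemiLoc (hL.q w : ℕ) Qbar)ˣ,
      (Z : SemiLoc (hL.q w : ℕ) Qbar) = helper73.bc F Qbar (hL.q w : ℕ) y :=
    ⟨helper73.bcUnits F Qbar (hL.q w : ℕ) hyu.unit, by
      rw [helper73.coe_bcUnits, IsUnit.unit_spec]⟩
  obtain ⟨Z, hZ⟩ := hZ
  have hxid : (Pi.mulSingle (hL.q w) Z : IdelePi Qbar) ∈ idele Qbar := by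
    rw [mem_idele, Filter.eventually_cofinite]
    refine (Set.finite_singleton (hL.q w)).subset fun q' hq' => ?_
    by_contra hne
    have hne' : q' ≠ hL.q w := fun h => hne (by rw [h]; exact Set.mem_singleton _)
    apply hq'
    rw [idelePi_mulSingle_of_ne hne' Z]
    exact one_mem _
  have hfix : ∀ σ : Qbar ≃ₐ[ℚ] Qbar, σ ∈ F.fixingSubgroup →
      σ • (⟨Pi.mulSingle (hL.q w) Z, hxid⟩ : Idele Qbar) = ⟨Pi.mulSingle (hL.q w) Z, hxid⟩ := by
    intro σ hσ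
    apply Subtype.ext
    funext q'
    change σ • ((Pi.mulSingle (hL.q w) Z : IdelePi Qbar) q') =
      (Pi.mulSingle (hL.q w) Z : IdelePi Qbar) q'
    by_cases hq : q' = hL.q w
    · subst hq
      rw [idelePi_mulSingle_same]
      apply Units.ext
      rw [helper73.coe_smul_units, hZ]
      exact smul_bc_eq _ F σ hσ y
    · rw [idelePi_mulSingle_of_ne hq Z, smul_one]
  have hxJ : (⟨Pi.mulSingle (hL.q w) Z, hxid⟩ : Idele Qbar) ∈ bigJS S F hF := by
    refine ⟨?_, ?_⟩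
    · obtain ⟨E, hE⟩ := exists_isSLevel hF
      exact ⟨E, hE, fun σ hσ => hfix σ (IntermediateField.fixingSubgroup_antitone hE.2.2 hσ)⟩
    · intro q' hq'
      have hne : q' ≠ hL.q w := fun h => hq' (h ▸ hL.q_mem w)
      change (Pi.mulSingle (hL.q w) Z : IdelePi Qbar) q' ∈ _
      rw [idelePi_mulSingle_of_ne hne Z]
      exact one_mem _
  refine ⟨⟨⟨Pi.mulSingle (hL.q w) Z, hxid⟩, hxJ⟩, fun σ => hfix σ σ.2, ?_, ?_⟩
  · apply Units.ext
    rw [locLamMul_apply, Units.coe_map]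
    change evAt (hL.q w : ℕ) (hL.g w)
      (((Pi.mulSingle (hL.q w) Z : IdelePi Qbar) (hL.q w) : (SemiLoc (hL.q w : ℕ) Qbar)ˣ) :
        SemiLoc (hL.q w : ℕ) Qbar) = _
    rw [idelePi_mulSingle_same, hZ]
    exact hynw
  · intro w' hw'
    refine evAt_mulSingle_eq_one (hL.q w) (hL.q w') Z (hL.g w') fun hq => ?_
    apply Units.ext
    rw [Units.coe_map, Units.val_one, hZ]
    refine hyone (hL.g w') fun hker => hw' ?_
    obtain ⟨h, hh⟩ := exists_conj_of_ker_eq (hL.q w : ℕ) F (hL.g w) (hL.g w') hker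
    obtain ⟨w₀, -, huniq⟩ := hL.cover (hL.q w) (hL.q_mem w) (hL.g w)
    have e1 : w = w₀ := huniq w ⟨rfl, 1, one_mem _, 1, by rw [map_one, one_mul, mul_one]⟩
    have e2 : w' = w₀ := by
      obtain ⟨h', hh'⟩ := exists_primeLocalToGlobal_eq_of_eq hq
        (show primeLocalGaloisGroup (hL.q w) from h)
      refine huniq w' ⟨hq, (hL.g w' * localGaloisToGlobal (hL.q w : ℕ) h * (hL.g w)⁻¹)⁻¹,
        inv_mem hh, h', ?_⟩
      rw [hh']
      change hL.g w = (hL.g w' * localGaloisToGlobal (hL.q w : ℕ) h * (hL.g w)⁻¹)⁻¹ *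
        hL.g w' * localGaloisToGlobal (hL.q w : ℕ) h
      group
    exact e2.trans e1.symm

end Main

end Fermat.Agent.S55.helper13
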