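import Fermat.Agent.S55.helper90_Rec3LocDef
import Fermat.Agent.S55.helper90_Rec3Kummer
import Fermat.Agent.S55.helper69_BArLev
import Fermat.Agent.S55.helper51_LocalLevels

/-!
# S55 / REC3, packages R3-LOC-FIN and R3-LOC-DISC (helper30, task 525)

For an arithmetic local datum `hL : IsArith S F L` over the `S`-levels of `F`
(`helper90_Rec3LocInterface`, namespace `LocInterface`):

* `loc_fin`  : the local levels `L.lev w` have finite index;
* `loc_disc` : the local module `Ω_w = (PadicAlgCl (q w))ˣ` of `arithLocSys hF hL` is discrete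
  for the local levels (every element of `PadicAlgCl q` is algebraic over `ℚ_q`; Krasner).

Auxiliary: `finiteIndex_comap`, `exists_lev_fixing` (a local level fixing a given element).
-/

set_option autoImplicit false

open groupCohomology ExtCitation

noncomputable section

namespace Fermat.Agent.S55.helper30

open Fermat.Agent.S55 Fermat.Agent.S55.helper59 Fermat.Agent.S55.helper69
  Fermat.Agent.S55.helper73 Fermat.Agent.S55.helper90

attribute [local instance] Fermat.Agent.S55.helper59.factOfPrimes

local notation "Qbar" => AlgebraicClosure ℚ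

/-- the pull-back of a subgroup of finite index has finite index -/
theorem finiteIndex_comap {G G' : Type*} [Group G] [Group G'] (f : G' →* G) (H : Subgroup G)
    [H.FiniteIndex] : (H.comap f).FiniteIndex := by
  refine ⟨?_⟩
  rw [Subgroup.index_comap]
  exact (Subgroup.instFiniteIndex_subgroupOf H f.range).index_ne_zero

section

variable {S : Finset Nat.Primes} {F : IntermediateField ℚ Qbar}
  {𝒩 : Levels (UF F)} {ι : Type} {L : LocalData (UF F) 𝒩 ι} (hL : IsArith S F L)

include hL in
/-- **R3-LOC-FIN** (any level structure on `U`): local levels have finite index. -/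
theorem loc_fin' (w : ι) : FinLevels (L.lev w) := by
  intro N hN
  obtain ⟨N', ⟨E, hE, -, rfl⟩, hle⟩ := hL.lev_le w N hN
  have h1 : E.fixingSubgroup.FiniteIndex := helper69.finiteIndex_fixingSubgroup E hE
  have h2 : (E.fixingSubgroup.comap ((primeLocalToGlobal (hL.q w)).comp (hL.j w))).FiniteIndex :=
    finiteIndex_comap _ _
  have h3 : N.FiniteIndex := Subgroup.finiteIndex_of_le hle
  infer_instance

/-- for every `x : PadicAlgCl (q w)` some local level fixes `x` (through `hL.jq w`) -/
theorem exists_lev_fixing (w : ι) (x : PadicAlgCl (hL.q w : ℕ)) :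
    ∃ N ∈ (L.lev w).mem, ∀ s ∈ N, hL.jq w s x = x := by
  have h1 : Algebra.IsAlgebraic ℚ_[(hL.q w : ℕ)] (PadicAlgCl (hL.q w : ℕ)) :=
    PadicAlgCl.isAlgebraic (hL.q w : ℕ)
  set K₁ : IntermediateField ℚ_[(hL.q w : ℕ)] (PadicAlgCl (hL.q w : ℕ)) :=
    IntermediateField.adjoin ℚ_[(hL.q w : ℕ)] {x} with hK₁
  have hK₁fin : FiniteDimensional ℚ_[(hL.q w : ℕ)] K₁ :=
    IntermediateField.adjoin.finiteDimensional
      (Algebra.IsAlgebraic.isAlgebraic (R := ℚ_[(hL.q w : ℕ)]) x).isIntegral
  obtain ⟨E₀, hE₀, hE₀K⟩ :=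
    helper51.exists_finiteDimensional_comap_fixingSubgroup_le (hL.q w : ℕ) K₁
  have hNQ : Normal ℚ Qbar := helper69.normal_Qbar
  set E : IntermediateField ℚ Qbar := IntermediateField.normalClosure ℚ E₀ Qbar with hE
  have hEfin : FiniteDimensional ℚ E := normalClosure.is_finiteDimensional ℚ E₀ Qbar
  have hEn : E.fixingSubgroup.Normal :=
    helper69.fixingSubgroup_normal_of_normal E (normalClosure.normal ℚ E₀ Qbar)
  have hle : E.fixingSubgroup ≤ E₀.fixingSubgroup :=
    IntermediateField.fixingSubgroup_antitone (IntermediateField.le_normalClosure E₀)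
  obtain ⟨N, hN, hNle⟩ := hL.le_lev w
    (E.fixingSubgroup.comap ((primeLocalToGlobal (hL.q w)).comp (hL.j w))) ⟨E, hEfin, hEn, rfl⟩
  refine ⟨N, hN, fun s hs => ?_⟩
  have h2 : hL.jq w s ∈ K₁.fixingSubgroup := hE₀K (hle (hNle hs))
  rw [IntermediateField.mem_fixingSubgroup_iff] at h2
  exact h2 x (IntermediateField.mem_adjoin_simple_self _ x)

end

section

variable {S : Finset Nat.Primes} {F : IntermediateField ℚ Qbar} (hF : F.IsUnramifiedOutside S)
  {ι : Type} {L : LocalData (UF F) (sLevelsStr S F hF) ι} (hL : IsArith S F L)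

include hL in
/-- **R3-LOC-FIN**: local levels have finite index. -/
theorem loc_fin (w : ι) : FinLevels (L.lev w) :=
  loc_fin' hL w

/-- **R3-LOC-DISC**: `Ω_w` is discrete for the local levels. -/
theorem loc_disc (w : ι) : IsDisc (L.lev w) ((arithLocSys hF hL).Ω w) := by
  intro a
  obtain ⟨N, hN, hfix⟩ :=
    exists_lev_fixing hL w ((Additive.toMul a : (PadicAlgCl (hL.q w : ℕ))ˣ) : PadicAlgCl (hL.q w : ℕ))
  refine ⟨N, hN, fun s hs => ?_⟩
  change (locOmega hF hL w).ρ s (Additive.ofMul (Additive.toMul a)) = _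
  rw [locOmega_ρ]
  change Additive.ofMul _ = Additive.ofMul (Additive.toMul a)
  congr 1
  apply Units.ext
  rw [Units.coe_map]
  exact hfix s hs

end

end Fermat.Agent.S55.helper30
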