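import Fermat.Agent.S55.helper8_LocDefs2

/-!
# S55 / REC3, R3-LOC-SURJ (helper4): the finite-level input (statement)

`FinChiStatement p` : for a finite Galois extension `M/K` of `q`-adic fields and a character
`χ : Gal(M/K) → ℤ/N` whose image has order divisible by `p ^ n`, every class of
`H²(Gal(M/K), Mˣ)` killed by `p ^ n` is a symbol `(χ, b)`, `b ∈ Kˣ`.
-/

set_option autoImplicit false

namespace Fermat.Agent.S55.helper4

/-- **SURJ-FIN** (statement): classes killed by `p ^ n` are symbols `(χ, b)` as soon as the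
image of `χ` has order divisible by `p ^ n`. -/
def FinChiStatement (p : ℕ) : Prop :=
  ∀ (q : ℕ) [Fact q.Prime] (K M : Type) [Field K] [Field M] [Algebra ℚ_[q] K]
    [FiniteDimensional ℚ_[q] K] [Algebra ℚ_[q] M] [Algebra K M] [IsScalarTower ℚ_[q] K M]
    [FiniteDimensional K M] [IsGalois K M]
    (N : ℕ) (_ : 0 < N) (χ : (M ≃ₐ[K] M) →* Multiplicative (ZMod N)) (n : ℕ)
    (_ : p ^ n ∣ Nat.card χ.range)
    (x : groupCohomology.H2 (Rep.ofAlgebraAutOnUnits K M)) (_ : p ^ n • x = 0),
    ∃ b : Kˣ, x = helper8.chiClass K M N χ b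

end Fermat.Agent.S55.helper4
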