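import Fermat.Agent.S55.helper33_Rec3LocFinReal
import Fermat.Agent.S55.helper30_Rec3LocFinDisc
import Fermat.Agent.S55.helper1_Symbol
import Fermat.Agent.S55.helper4_Rec3SurjDefs

/-!
# S55 / REC3, R3-LOC-SURJ (helper4): local classes are symbols (level-cochain form)

* `exists_cohomologous_of_fin` : abstract core (a level cocycle killed by `p ^ n` modulo
  coboundaries is cohomologous to a cochain with property `P` as soon as, at cofinal finite
  levels, every class killed by `p ^ n` is represented by a cocycle whose inflation has `P`);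
* `exists_chiCochain_cohomologous_of` : for a level character `ψ_w : U_w → ℤ/N` whose image has
  order divisible by `p ^ n`, every level 2-cocycle `c` of `U_w` with values in `Ω_w` such that
  `p ^ n • c` is a level coboundary is cohomologous to the symbol cochain `(ψ_w, b)` for some
  `b ∈ K_wˣ` (conditional on the finite-level statement `FinChiStatement p`).
-/

set_option autoImplicit false
set_option linter.unusedSectionVars false
set_option linter.style.haveILetI false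

open groupCohomology ExtCitation

noncomputable section

namespace Fermat.Agent.S55.helper4

open Fermat.Agent.S55 Fermat.Agent.S55.helper59 Fermat.Agent.S55.helper69
  Fermat.Agent.S55.helper73 Fermat.Agent.S55.helper90

section Abstract

variable {U : Type} [Group U] {𝒩 : Levels U} {M : Rep.{0} ℤ U}

/-- **Abstract core of SURJ-LOC.** -/
theorem exists_cohomologous_of_fin (p n : ℕ) (hfin : FinLevels 𝒩) (hd : IsDisc 𝒩 M)
    (P : (U × U → M) → Prop)
    (h : ∀ N₀ ∈ 𝒩.mem, ∃ X : helper46.FinReal 𝒩 M, X.π.ker ≤ N₀ ∧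
      ∀ x : groupCohomology.H2 X.M', p ^ n • x = 0 →
        ∃ β : cocycles₂ X.M', H2π X.M' β = x ∧ P (X.infl₂ β))
    (c : U × U → M) (hc : c ∈ Z2 𝒩 M) (hn : p ^ n • c ∈ B2 𝒩 M) :
    ∃ c₀, P c₀ ∧ c - c₀ ∈ B2 𝒩 M := by
  obtain ⟨N₁, hN₁, h₁⟩ := helper46.exists_cocycle₂ hfin hd hc
  obtain ⟨N₂, hN₂, h₂⟩ := helper46.exists_of_mem_B2 hfin hd hn
  obtain ⟨N, hN, hle⟩ := 𝒩.directed N₁ hN₁ N₂ hN₂
  obtain ⟨X, hX, hX'⟩ := h N hN
  obtain ⟨f', hf'⟩ := h₁ X (hX.trans (hle.trans inf_le_left))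
  obtain ⟨g', hg'⟩ := h₂ X (hX.trans (hle.trans inf_le_right))
  have e1 : p ^ n • (f' : X.Q × X.Q → X.M') = (d₁₂ X.M').hom g' := by
    apply X.infl₂_injective
    rw [map_nsmul, hf', hg']
  have e2 : p ^ n • H2π X.M' f' = 0 := by
    rw [← map_nsmul, H2π_eq_zero_iff]
    have : ((p ^ n • f' : cocycles₂ X.M') : X.Q × X.Q → X.M') =
        p ^ n • (f' : X.Q × X.Q → X.M') := rfl
    rw [this, e1]
    exact ⟨g', rfl⟩
  obtain ⟨β, hβ, hP⟩ := hX' _ e2
  obtain ⟨γ, hγ⟩ := (H2π_eq_iff f' β).1 hβ.symm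
  refine ⟨X.infl₂ β, hP, ?_⟩
  have e3 : c - X.infl₂ β = X.infl₂ ((d₁₂ X.M').hom γ) := by
    rw [hγ, ← hf', map_sub]
  rw [e3]
  exact X.infl₂_mem_B2 γ

end Abstract

section Arith

local instance factOfPrimesSurjLoc (q : Nat.Primes) : Fact (q : ℕ).Prime := ⟨q.2⟩

local notation "Qbar" => AlgebraicClosure ℚ

variable {p : ℕ} [Fact p.Prime] {S : Finset Nat.Primes} {F : IntermediateField ℚ Qbar}
  [FiniteDimensional ℚ F] (hF : F.IsUnramifiedOutside S)
  {ι : Type} [Fintype ι] {L : LocalData (UF F) (sLevelsStr S F hF) ι} (hL : IsArith S F L)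

/-- the symbol cochain `(ψ_w, b)` with values in `Ω_w` (additive notation) -/
def chiLocCochain (w : ι) (N : ℕ) (ψw : L.Gv w →* Multiplicative (ZMod N))
    (b : (PadicAlgCl (hL.q w : ℕ))ˣ) : L.Gv w × L.Gv w → (arithLocSys hF hL).Ω w :=
  fun s => show Additive (PadicAlgCl (hL.q w : ℕ))ˣ from
    Additive.ofMul (helper8.chiCochain N ψw b s)

lemma chiLocCochain_one (w : ι) (N : ℕ) (ψw : L.Gv w →* Multiplicative (ZMod N)) :
    chiLocCochain hF hL w N ψw 1 = 0 := by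
  funext s
  change Additive.ofMul ((1 : (PadicAlgCl (hL.q w : ℕ))ˣ) ^ _) = 0
  rw [one_pow]
  rfl

/-- finite level: a class killed by `p ^ n` is represented by a symbol cocycle -/
lemma exists_cocycle_chi_of (hfin : FinChiStatement p) (q : ℕ) [Fact q.Prime]
    (K M : Type) [Field K] [Field M] [Algebra ℚ_[q] K]
    [FiniteDimensional ℚ_[q] K] [Algebra ℚ_[q] M] [Algebra K M] [IsScalarTower ℚ_[q] K M]
    [FiniteDimensional K M] [IsGalois K M]
    (N : ℕ) (hN : 0 < N) (χ : (M ≃ₐ[K] M) →* Multiplicative (ZMod N)) (n : ℕ)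
    (hdvd : p ^ n ∣ Nat.card χ.range)
    (x : groupCohomology.H2 (Rep.ofAlgebraAutOnUnits K M)) (hx : p ^ n • x = 0) :
    ∃ (b : Kˣ) (β : cocycles₂ (Rep.ofAlgebraAutOnUnits K M)),
      H2π (Rep.ofAlgebraAutOnUnits K M) β = x ∧
      ∀ s, (β : (M ≃ₐ[K] M) × (M ≃ₐ[K] M) → Rep.ofAlgebraAutOnUnits K M) s =
        Additive.ofMul (helper8.chiCochain N χ (Units.map (algebraMap K M : K →* M) b) s) := by
  obtain ⟨b, hb⟩ := hfin q K M N hN χ n hdvd x hx
  refine ⟨b, cocyclesOfIsMulCocycle₂ (helper1.isMulCocycle₂_chiCochain_field K M N χ b), ?_,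
    fun s => rfl⟩
  rw [hb, helper8.chiClass, helper1.mulClass_of_isMulCocycle₂ K M
    (helper1.isMulCocycle₂_chiCochain_field K M N χ b)]

/-- the inflation of a finite-level symbol cocycle is the level symbol cochain -/
lemma infl₂_chi_eq (w : ι) (M : IntermediateField (hL.Kw w) (PadicAlgCl (hL.q w : ℕ)))
    [IsGalois (hL.Kw w) M] [FiniteDimensional (hL.Kw w) M]
    (N : ℕ) (ψw : L.Gv w →* Multiplicative (ZMod N))
    (χ : (↥M ≃ₐ[hL.Kw w] ↥M) →* Multiplicative (ZMod N))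
    (hχ : ∀ s, χ (hL.locRes w M s) = ψw s) (b : (↥(hL.Kw w))ˣ)
    (β : (↥M ≃ₐ[hL.Kw w] ↥M) × (↥M ≃ₐ[hL.Kw w] ↥M) → Rep.ofAlgebraAutOnUnits (hL.Kw w) ↥M)
    (hβ : ∀ s, β s = Additive.ofMul (helper8.chiCochain N χ
      (Units.map (algebraMap ↥(hL.Kw w) ↥M : ↥(hL.Kw w) →* ↥M) b) s)) :
    (helper33.locFinReal hF hL w M).infl₂ β =
      chiLocCochain hF hL w N ψw
        (Units.map (algebraMap ↥(hL.Kw w) (PadicAlgCl (hL.q w : ℕ)) :
          ↥(hL.Kw w) →* PadicAlgCl (hL.q w : ℕ)) b) := by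
  funext s
  have h1 : (helper33.locFinReal hF hL w M).infl₂ β s =
      helper33.locIncl hF hL w M (β (hL.locRes w M s.1, hL.locRes w M s.2)) := rfl
  have h2 : β (hL.locRes w M s.1, hL.locRes w M s.2) =
      Additive.ofMul ((Units.map (algebraMap ↥(hL.Kw w) ↥M : ↥(hL.Kw w) →* ↥M) b) ^
        (((Multiplicative.toAdd (ψw s.1)).val + (Multiplicative.toAdd (ψw s.2)).val) / N)) := by
    rw [hβ]
    change Additive.ofMul (_ ^ (((Multiplicative.toAdd (χ (hL.locRes w M s.1))).val +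
      (Multiplicative.toAdd (χ (hL.locRes w M s.2))).val) / N)) = _
    rw [hχ, hχ]
  have h3 : ∀ y : (↥M)ˣ, helper33.locIncl hF hL w M (Additive.ofMul y) =
      Additive.ofMul (Units.map (algebraMap ↥M (PadicAlgCl (hL.q w : ℕ)) :
        ↥M →* PadicAlgCl (hL.q w : ℕ)) y) := fun _ => rfl
  have h4 : chiLocCochain hF hL w N ψw
      (Units.map (algebraMap ↥(hL.Kw w) (PadicAlgCl (hL.q w : ℕ)) :
          ↥(hL.Kw w) →* PadicAlgCl (hL.q w : ℕ)) b) s =
      Additive.ofMul ((Units.map (algebraMap ↥(hL.Kw w) (PadicAlgCl (hL.q w : ℕ)) :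
          ↥(hL.Kw w) →* PadicAlgCl (hL.q w : ℕ)) b) ^
        (((Multiplicative.toAdd (ψw s.1)).val + (Multiplicative.toAdd (ψw s.2)).val) / N)) := rfl
  have h5 : Units.map (algebraMap ↥M (PadicAlgCl (hL.q w : ℕ)) : ↥M →* PadicAlgCl (hL.q w : ℕ))
      (Units.map (algebraMap ↥(hL.Kw w) ↥M : ↥(hL.Kw w) →* ↥M) b) =
      Units.map (algebraMap ↥(hL.Kw w) (PadicAlgCl (hL.q w : ℕ)) :
          ↥(hL.Kw w) →* PadicAlgCl (hL.q w : ℕ)) b := by
    apply Units.ext
    rfl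
  rw [h1, h2, h3, map_pow, h5, h4]


/-- the finite-level step of SURJ-LOC at a finite Galois `M / K_w` through which `ψ_w`
factors -/
lemma fin_step_chi (hfin : FinChiStatement p) (w : ι)
    (M : IntermediateField (hL.Kw w) (PadicAlgCl (hL.q w : ℕ)))
    [IsGalois (hL.Kw w) M] [FiniteDimensional (hL.Kw w) M]
    (N : ℕ) (hN : 0 < N) (ψw : L.Gv w →* Multiplicative (ZMod N))
    (hk : (hL.locRes w M).ker ≤ ψw.ker) (n : ℕ) (hdvd : p ^ n ∣ Nat.card ψw.range)
    (x : groupCohomology.H2 (Rep.ofAlgebraAutOnUnits (hL.Kw w) ↥M)) (hx : p ^ n • x = 0) :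
    ∃ β : cocycles₂ (Rep.ofAlgebraAutOnUnits (hL.Kw w) ↥M),
      H2π (Rep.ofAlgebraAutOnUnits (hL.Kw w) ↥M) β = x ∧
      ∃ b : (↥(hL.Kw w))ˣ, (helper33.locFinReal hF hL w M).infl₂ β =
        chiLocCochain hF hL w N ψw
          (Units.map (algebraMap ↥(hL.Kw w) (PadicAlgCl (hL.q w : ℕ)) :
            ↥(hL.Kw w) →* PadicAlgCl (hL.q w : ℕ)) b) := by
  haveI := hL.finiteDimensional_Kw w
  have hsurj := helper33.locRes_surjective hF hL w M
  set χ : (↥M ≃ₐ[hL.Kw w] ↥M) →* Multiplicative (ZMod N) :=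
    (hL.locRes w M).liftOfSurjective hsurj ⟨ψw, hk⟩ with hχdef
  have hχ : ∀ s, χ (hL.locRes w M s) = ψw s := fun s =>
    (hL.locRes w M).liftOfRightInverse_comp_apply _
      (Function.rightInverse_surjInv hsurj) ⟨ψw, hk⟩ s
  have hrange : χ.range = ψw.range := by
    ext z
    constructor
    · rintro ⟨σ, rfl⟩
      obtain ⟨s, rfl⟩ := hsurj σ
      exact ⟨s, (hχ s).symm⟩
    · rintro ⟨s, rfl⟩
      exact ⟨hL.locRes w M s, hχ s⟩
  have hdvd' : p ^ n ∣ Nat.card χ.range := by rw [hrange]; exact hdvd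
  obtain ⟨b, β, hβx, hβ⟩ := exists_cocycle_chi_of hfin (hL.q w : ℕ) (hL.Kw w) ↥M N hN χ n hdvd' x hx
  exact ⟨β, hβx, b, infl₂_chi_eq hF hL w M N ψw χ hχ b _ hβ⟩

/-- **SURJ-LOC** (conditional on the finite-level statement): a `p`-primary local class is a
symbol `(ψ_w, b)` for every level character `ψ_w` whose image has order divisible by `p ^ n`. -/
theorem exists_chiCochain_cohomologous_of (hfin : FinChiStatement p) (w : ι) (N : ℕ) (hN : 0 < N)
    (ψw : L.Gv w →* Multiplicative (ZMod N)) (hlev : ∃ N₀ ∈ (L.lev w).mem, N₀ ≤ ψw.ker)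
    (n : ℕ) (hdvd : p ^ n ∣ Nat.card ψw.range)
    (c : L.Gv w × L.Gv w → (arithLocSys hF hL).Ω w)
    (hc : c ∈ Z2 (L.lev w) ((arithLocSys hF hL).Ω w))
    (hn : p ^ n • c ∈ B2 (L.lev w) ((arithLocSys hF hL).Ω w)) :
    ∃ b : (↥(hL.Kw w))ˣ,
      c - chiLocCochain hF hL w N ψw
        (Units.map (algebraMap ↥(hL.Kw w) (PadicAlgCl (hL.q w : ℕ)) :
          ↥(hL.Kw w) →* PadicAlgCl (hL.q w : ℕ)) b) ∈
        B2 (L.lev w) ((arithLocSys hF hL).Ω w) := by
  obtain ⟨N₃, hN₃, hle₃⟩ := hlev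
  obtain ⟨c₀, ⟨b, rfl⟩, hmem⟩ := exists_cohomologous_of_fin p n (helper30.loc_fin hF hL w)
    (helper30.loc_disc hF hL w)
    (fun c₀ => ∃ b : (↥(hL.Kw w))ˣ, c₀ = chiLocCochain hF hL w N ψw
        (Units.map (algebraMap ↥(hL.Kw w) (PadicAlgCl (hL.q w : ℕ)) :
          ↥(hL.Kw w) →* PadicAlgCl (hL.q w : ℕ)) b))
    (fun N₀ hN₀ => by
      obtain ⟨N', hN', hle'⟩ := (L.lev w).directed N₀ hN₀ N₃ hN₃
      obtain ⟨M, hMgal, hMfd, hle, -⟩ := helper33.exists_locFinReal_le hF hL w N' hN' 1 one_pos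
      have hk : (hL.locRes w M).ker ≤ ψw.ker :=
        fun s hs => hle₃ ((hle'.trans inf_le_right) (hle hs))
      exact ⟨helper33.locFinReal hF hL w M, hle.trans (hle'.trans inf_le_left),
        fin_step_chi hF hL hfin w M N hN ψw hk n hdvd⟩) c hc hn
  exact ⟨b, hmem⟩


end Arith

end Fermat.Agent.S55.helper4
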