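import Mathlib
import Fermat.Agent.S55.helper7_LocUnram

/-!
# S55 / REC3 / LOC-SURJ-CYC (helper6, task 608)

`exists_pow_dvd_finrank_of_primitiveRoot`: the `p`-part of the degree of
`ℚ_q(ζ_{p^m}) / ℚ_q` tends to infinity with `m` (`q = p` allowed).

* `q ≠ p`: the residue of `ζ` has exact order `p ^ m` in the residue field (`q ^ f` elements),
  so `p ^ m ∣ q ^ f - 1`, and lifting the exponent gives `p ^ (m - c) ∣ f ∣ [K : ℚ_q]`
  with `c = v_p (q ^ (p - 1) - 1)`.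
* `q = p`: `p = ∏ (1 - μ)` over the primitive `p ^ m`-th roots of unity, all the factors
  having the same valuation, so `φ (p ^ m) ∣ e ∣ [K : ℚ_p]`.
-/

set_option autoImplicit false
set_option linter.unusedSectionVars false
set_option linter.unusedVariables false
set_option linter.style.haveILetI false

namespace Fermat.Agent.S55.helper6

open Fermat.Agent.S55.helper8 Fermat.Agent.S55.helper7

section SurjCyc

/-! ### elementary number theory -/

theorem surjCyc_dvd_pow_pred_sub_one {p q : ℕ} (hp : p.Prime) (hq : q.Prime) (hpq : q ≠ p) :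
    p ∣ q ^ (p - 1) - 1 := by
  have hcop : q.Coprime p := (Nat.coprime_primes hq hp).2 hpq
  have h := Nat.ModEq.pow_totient hcop
  rw [Nat.totient_prime hp] at h
  exact (Nat.modEq_iff_dvd' (Nat.one_le_pow _ _ hq.pos)).1 h.symm

/-- Lifting the exponent: if `p ^ m ∣ q ^ f - 1` (`p` odd, `q ≠ p` primes, `f > 0`) then
`p ^ (m - c) ∣ f` with `c = v_p (q ^ (p - 1) - 1)`. -/
theorem surjCyc_pow_dvd_of_dvd_pow_sub_one {p q : ℕ} [Fact p.Prime] (hq : q.Prime)
    (hp2 : p ≠ 2) (hpq : q ≠ p) {m f : ℕ} (hf : 0 < f) (h : p ^ m ∣ q ^ f - 1) :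
    p ^ (m - padicValNat p (q ^ (p - 1) - 1)) ∣ f := by
  have hp : p.Prime := Fact.out
  have hodd : Odd p := hp.odd_of_ne_two hp2
  have hp1 : p - 1 ≠ 0 := by have := hp.two_le; omega
  have hx1 : 1 < q ^ (p - 1) := Nat.one_lt_pow hp1 hq.one_lt
  have hxp : ¬ p ∣ q ^ (p - 1) := fun hd =>
    hpq ((Nat.prime_dvd_prime_iff_eq hp hq).1 (hp.dvd_of_dvd_pow hd)).symm
  have hlte := padicValNat.pow_sub_pow (p := p) hodd hx1
    (surjCyc_dvd_pow_pred_sub_one hp hq hpq) hxp hf.ne'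
  rw [one_pow, ← pow_mul] at hlte
  have hdvd : q ^ f - 1 ∣ q ^ ((p - 1) * f) - 1 := by
    rw [mul_comm, pow_mul]
    simpa only [one_pow] using Nat.sub_dvd_pow_sub_pow (q ^ f) 1 (p - 1)
  have hne : q ^ ((p - 1) * f) - 1 ≠ 0 := by
    have : 1 < q ^ ((p - 1) * f) := Nat.one_lt_pow (Nat.mul_ne_zero hp1 hf.ne') hq.one_lt
    omega
  have hle : m ≤ padicValNat p (q ^ ((p - 1) * f) - 1) :=
    (padicValNat_dvd_iff_le hne).1 (h.trans hdvd)
  rw [hlte] at hle
  exact (padicValNat_dvd_iff_le hf.ne').2 (by omega)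

/-! ### the `q`-adic part -/

variable (q : ℕ) [Fact q.Prime] (K : Type) [Field K] [Algebra ℚ_[q] K]
  [FiniteDimensional ℚ_[q] K]

/-- A primitive `N`-th root of unity with `q ∤ N` in a `q`-adic field forces
`N ∣ q ^ f - 1`. -/
theorem surjCyc_dvd_pow_fdeg_sub_one {N : ℕ} (hN : ¬ q ∣ N) {ζ : K}
    (hζ : IsPrimitiveRoot ζ N) : N ∣ q ^ fdeg q K - 1 := by
  classical
  have hN0 : N ≠ 0 := by rintro rfl; exact hN (dvd_zero q)
  have hint : 0 ≤ ordT q K ζ := (ordT_eq_zero_of_pow_eq_one q K hN0 hζ.pow_eq_one).ge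
  let a : Oq q K := ⟨ζ, hint⟩
  have haN : a ^ N = 1 := Subtype.ext (by simpa [a] using hζ.pow_eq_one)
  have ha : orderOf (res q K a) = N := by
    rw [orderOf_eq_iff (Nat.pos_of_ne_zero hN0)]
    refine ⟨?_, fun k hk hk0 hr => ?_⟩
    · rw [← map_pow, haN, map_one]
    · rw [← map_pow, ← map_one (res q K), res_eq_iff] at hr
      have h1 : (ζ ^ k) ^ N = 1 := by
        rw [← pow_mul, mul_comm, pow_mul, hζ.pow_eq_one, one_pow]
      have h2 : ζ ^ k = 1 :=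
        eq_of_pow_eq_one_of_ordT_sub_pos q K hN h1 (one_pow N) (by simpa [a] using hr)
      have h3 := (hζ.pow_eq_one_iff_dvd k).1 h2
      exact absurd (Nat.le_of_dvd hk0 h3) (not_le.2 hk)
  letI : Fintype (kq q K) := Fintype.ofFinite _
  have hcard : Fintype.card (kq q K) = q ^ fdeg q K := by
    rw [← Nat.card_eq_fintype_card, card_kq]
  have hne : res q K a ≠ 0 := by
    intro h0
    have h1 : (res q K a) ^ N = 1 := by rw [← map_pow, haN, map_one]
    rw [h0, zero_pow hN0] at h1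
    exact zero_ne_one h1
  have h := FiniteField.pow_card_sub_one_eq_one (res q K a) hne
  rw [hcard] at h
  rw [← ha]
  exact orderOf_dvd_of_pow_eq_one h

theorem surjCyc_ordT_prod {ι : Type*} (s : Finset ι) (f : ι → K) :
    ordT q K (∏ i ∈ s, f i) = ∑ i ∈ s, ordT q K (f i) := by
  classical
  induction s using Finset.induction_on with
  | empty => simp [ordT_one]
  | insert a s ha ih => rw [Finset.prod_insert ha, Finset.sum_insert ha, ordT_mul, ih]

theorem surjCyc_ordT_one_sub_pow_ge {ζ : K} (hζ : 0 ≤ ordT q K ζ) (a : ℕ) :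
    ordT q K (1 - ζ) ≤ ordT q K (1 - ζ ^ a) := by
  rw [← mul_neg_geom_sum ζ a, ordT_mul]
  have hmem : ∑ i ∈ Finset.range a, ζ ^ i ∈ Oq q K :=
    Subring.sum_mem _ (fun i _ => Subring.pow_mem _ hζ i)
  have h0 : 0 ≤ ordT q K (∑ i ∈ Finset.range a, ζ ^ i) := hmem
  exact le_add_of_nonneg_right h0

theorem surjCyc_ordT_one_sub_eq {n : ℕ} [NeZero n] {ζ μ : K} (hζ : IsPrimitiveRoot ζ n)
    (hμ : IsPrimitiveRoot μ n) : ordT q K (1 - μ) = ordT q K (1 - ζ) := by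
  have hn : n ≠ 0 := NeZero.ne n
  have hζ0 : 0 ≤ ordT q K ζ := (ordT_eq_zero_of_pow_eq_one q K hn hζ.pow_eq_one).ge
  have hμ0 : 0 ≤ ordT q K μ := (ordT_eq_zero_of_pow_eq_one q K hn hμ.pow_eq_one).ge
  obtain ⟨i, -, hi⟩ := hζ.eq_pow_of_pow_eq_one hμ.pow_eq_one
  obtain ⟨j, -, hj⟩ := hμ.eq_pow_of_pow_eq_one hζ.pow_eq_one
  refine le_antisymm ?_ ?_
  · calc ordT q K (1 - μ) ≤ ordT q K (1 - μ ^ j) := surjCyc_ordT_one_sub_pow_ge q K hμ0 j
      _ = ordT q K (1 - ζ) := by rw [hj]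
  · calc ordT q K (1 - ζ) ≤ ordT q K (1 - ζ ^ i) := surjCyc_ordT_one_sub_pow_ge q K hζ0 i
      _ = ordT q K (1 - μ) := by rw [hi]

/-- A primitive `q ^ (k + 1)`-th root of unity in a `q`-adic field forces
`φ (q ^ (k + 1)) ∣ e`. -/
theorem surjCyc_totient_dvd_edeg {k : ℕ} {ζ : K} (hζ : IsPrimitiveRoot ζ (q ^ (k + 1))) :
    Nat.totient (q ^ (k + 1)) ∣ edeg q K := by
  classical
  have hq : q.Prime := Fact.out
  haveI : NeZero (q ^ (k + 1)) := ⟨pow_ne_zero _ hq.ne_zero⟩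
  have hprod : (q : K) = ∏ μ ∈ primitiveRoots (q ^ (k + 1)) K, (1 - μ) := by
    have h1 := Polynomial.eval_one_cyclotomic_prime_pow (R := K) (p := q) k
    rw [Polynomial.cyclotomic_eq_prod_X_sub_primitiveRoots hζ, Polynomial.eval_prod] at h1
    rw [← h1]
    exact Finset.prod_congr rfl (fun μ _ => by simp)
  have hord := congrArg (ordT q K) hprod
  rw [ordT_q, surjCyc_ordT_prod] at hord
  have hconst : ∀ μ ∈ primitiveRoots (q ^ (k + 1)) K,
      ordT q K (1 - μ) = ordT q K (1 - ζ) := fun μ hμ =>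
    surjCyc_ordT_one_sub_eq q K hζ ((mem_primitiveRoots (pow_pos hq.pos _)).1 hμ)
  rw [Finset.sum_congr rfl hconst, Finset.sum_const, hζ.card_primitiveRoots] at hord
  have hne : (1 : K) - ζ ≠ 0 := by
    intro h
    have h1 : ζ = 1 := (sub_eq_zero.1 h).symm
    have h2 := (hζ.pow_eq_one_iff_dvd 1).1 (by rw [h1, one_pow])
    have h3 : 1 < q ^ (k + 1) := Nat.one_lt_pow (Nat.succ_ne_zero k) hq.one_lt
    exact absurd (Nat.le_of_dvd Nat.one_pos h2) (not_le.2 h3)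
  rw [ordT_of_ne_zero q K hne] at hord
  have hint : (edeg q K : ℤ) =
      (Nat.totient (q ^ (k + 1)) : ℤ) * ord q K (Units.mk0 _ hne) := by
    have h2 : ((edeg q K : ℤ) : WithTop ℤ) =
        (((Nat.totient (q ^ (k + 1)) : ℤ) * ord q K (Units.mk0 _ hne) : ℤ) : WithTop ℤ) := by
      rw [hord, ← nsmul_eq_mul]
      push_cast
      rfl
    exact_mod_cast h2
  exact Int.natCast_dvd_natCast.1 ⟨_, hint⟩

/-- `q ≠ p`: `p ^ (m - c)` divides the degree. -/
theorem surjCyc_pow_dvd_finrank_of_ne {p : ℕ} [Fact p.Prime] (hp2 : p ≠ 2) (hpq : q ≠ p)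
    {m : ℕ} {ζ : K} (hζ : IsPrimitiveRoot ζ (p ^ m)) :
    p ^ (m - padicValNat p (q ^ (p - 1) - 1)) ∣ Module.finrank ℚ_[q] K := by
  have hp : p.Prime := Fact.out
  have hq : q.Prime := Fact.out
  have hN : ¬ q ∣ p ^ m := fun hd =>
    hpq ((Nat.prime_dvd_prime_iff_eq hq hp).1 (hq.dvd_of_dvd_pow hd))
  have h1 := surjCyc_dvd_pow_fdeg_sub_one q K hN hζ
  have h2 := surjCyc_pow_dvd_of_dvd_pow_sub_one hq hp2 hpq (helper97.fdeg_pos q K) h1
  exact h2.trans (Dvd.intro_left _ (helper97.edeg_mul_fdeg q K))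

/-- `q = p`: `p ^ k` divides the degree of a field containing a primitive `p ^ (k + 1)`-th
root of unity. -/
theorem surjCyc_pow_dvd_finrank_of_eq {k : ℕ} {ζ : K} (hζ : IsPrimitiveRoot ζ (q ^ (k + 1))) :
    q ^ k ∣ Module.finrank ℚ_[q] K := by
  have hq : q.Prime := Fact.out
  have h1 := surjCyc_totient_dvd_edeg q K hζ
  rw [Nat.totient_prime_pow_succ hq] at h1
  exact ((Dvd.intro _ rfl).trans h1).trans (Dvd.intro _ (helper97.edeg_mul_fdeg q K))

end SurjCyc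

/-- **SURJ-CYC** (verbatim `helper4.SurjInterface.exists_pow_dvd_finrank_of_primitiveRoot`):
the `p`-part of the degree of `ℚ_q(ζ_{p^m})/ℚ_q` tends to infinity (`q = p` allowed). -/
theorem exists_pow_dvd_finrank_of_primitiveRoot {p : ℕ} [Fact p.Prime] (q : ℕ) [Fact q.Prime]
    (hp2 : p ≠ 2) (n : ℕ) :
    ∃ m : ℕ, 0 < m ∧ ∀ (K' : IntermediateField ℚ_[q] (PadicAlgCl q)) [FiniteDimensional ℚ_[q] K']
      (ζ : PadicAlgCl q), IsPrimitiveRoot ζ (p ^ m) → ζ ∈ K' →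
      p ^ n ∣ Module.finrank ℚ_[q] K' := by
  by_cases hpq : q = p
  · subst hpq
    refine ⟨n + 1, Nat.succ_pos n, fun K' _ ζ hζ hmem => ?_⟩
    have hζ' : IsPrimitiveRoot (⟨ζ, hmem⟩ : K') (q ^ (n + 1)) :=
      IsPrimitiveRoot.coe_submonoidClass_iff.1 hζ
    exact surjCyc_pow_dvd_finrank_of_eq q K' hζ'
  · refine ⟨n + padicValNat p (q ^ (p - 1) - 1) + 1, Nat.succ_pos _, fun K' _ ζ hζ hmem => ?_⟩
    have hζ' : IsPrimitiveRoot (⟨ζ, hmem⟩ : K')
        (p ^ (n + padicValNat p (q ^ (p - 1) - 1) + 1)) :=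
      IsPrimitiveRoot.coe_submonoidClass_iff.1 hζ
    have h := surjCyc_pow_dvd_finrank_of_ne q K' hp2 hpq hζ'
    refine (pow_dvd_pow p ?_).trans h
    omega

end Fermat.Agent.S55.helper6
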