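import Fermat.Agent.S55.helper4_Rec3SurjChar
import Fermat.Agent.S55.helper4_Rec3SurjLoc
import Fermat.Agent.S55.helper13_Rec3SurjCrt
import Fermat.Agent.S55.helper6_Rec3SurjCyc

/-!
# S55 / REC3, R3-LOC-SURJ (helper4): assembly

Every `p`-primary class of `H²(U_w, Ω_w)` is the localisation of a class of `H²(G_S, J_S)` which
is locally trivial at all `w' ≠ w`.  Cyclic-algebra route: the global class is the symbol
`(ψ, x)` of

* a level character `ψ : U → ℤ/N` whose restriction to the local group at `w` has image of order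
  divisible by `p ^ n` (`exists_char_locally_large_of`, cyclotomic; uses SURJ-CYC of helper6);
* an `U`-invariant `S`-idele `x` with component `b ∈ K_wˣ` at `w` and trivial components at all
  other places (`helper13.exists_idele_single`, CRT),

where `b` is such that the local class is the local symbol `(ψ_w, b)`
(`exists_chiCochain_cohomologous_of`, conditional on the finite-level statement
`FinChiStatement p`).

* `loc_surj_of` : the statement of `helper90.LocInterface.loc_surj`, with the extra hypothesis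
  `FinChiStatement p`.
-/

set_option autoImplicit false
set_option linter.unusedSectionVars false
set_option linter.unusedVariables false

open groupCohomology ExtCitation

noncomputable section

namespace Fermat.Agent.S55.helper4

open Fermat.Agent.S55 Fermat.Agent.S55.helper59 Fermat.Agent.S55.helper69
  Fermat.Agent.S55.helper73 Fermat.Agent.S55.helper90

local instance factOfPrimesSurjA (q : Nat.Primes) : Fact (q : ℕ).Prime := ⟨q.2⟩

local notation "Qbar" => AlgebraicClosure ℚ

variable {p : ℕ} [Fact p.Prime] {S : Finset Nat.Primes} {F : IntermediateField ℚ Qbar}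
  [FiniteDimensional ℚ F] (hF : F.IsUnramifiedOutside S)
  {ι : Type} [Fintype ι] {L : LocalData (UF F) (sLevelsStr S F hF) ι} (hL : IsArith S F L)

/-- **SURJ-CYC** in the packaged form used by `exists_char_locally_large_of`. -/
theorem cycDegStatement (hp2 : p ≠ 2) : CycDegStatement p :=
  fun q _ n => helper6.exists_pow_dvd_finrank_of_primitiveRoot q hp2 n

/-- the global symbol cochain `(ψ, x)` with values in `J_S` (additive notation) -/
def chiGlobCochain (N : ℕ) (ψ : UF F →* Multiplicative (ZMod N)) (x : bigJS S F hF) :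
    UF F × UF F → repJS S F hF :=
  fun s => show Additive (bigJS S F hF) from Additive.ofMul (helper8.chiCochain N ψ x s)

lemma chiGlobCochain_mem_Z2 (N : ℕ) (ψ : UF F →* Multiplicative (ZMod N))
    (hlev : ∃ N₀ ∈ (sLevelsStr S F hF).mem, N₀ ≤ ψ.ker) (x : bigJS S F hF)
    (hx : ∀ σ : UF F, (σ : Qbar ≃ₐ[ℚ] Qbar) • (x : Idele Qbar) = (x : Idele Qbar)) :
    chiGlobCochain hF N ψ x ∈ Z2 (sLevelsStr S F hF) (repJS S F hF) := by
  refine ⟨?_, ?_⟩
  · obtain ⟨N₀, hN₀, hle⟩ := hlev
    refine ⟨N₀, hN₀, fun g₁ g₂ s₁ hs₁ s₂ hs₂ => ?_⟩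
    have h1 : ψ (g₁ * s₁) = ψ g₁ := by rw [map_mul, MonoidHom.mem_ker.1 (hle hs₁), mul_one]
    have h2 : ψ (g₂ * s₂) = ψ g₂ := by rw [map_mul, MonoidHom.mem_ker.1 (hle hs₂), mul_one]
    change Additive.ofMul (x ^ (((Multiplicative.toAdd (ψ (g₁ * s₁))).val +
        (Multiplicative.toAdd (ψ (g₂ * s₂))).val) / N)) =
      Additive.ofMul (x ^ (((Multiplicative.toAdd (ψ g₁)).val +
        (Multiplicative.toAdd (ψ g₂)).val) / N))
    rw [h1, h2]
  · have hcoc := @helper1.isMulCocycle₂_chiCochain (UF F) _ (bigJS S F hF) _ (actJS S F hF) N ψ x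
      (fun g => Subtype.ext (hx g))
    exact (@cocyclesOfIsMulCocycle₂ (UF F) (bigJS S F hF) _ _ (actJS S F hF) _ hcoc).2

/-- localisation of the global symbol cochain -/
lemma loc₂_chiGlobCochain (N : ℕ) (ψ : UF F →* Multiplicative (ZMod N)) (x : bigJS S F hF)
    (w : ι) :
    (arithLocSys hF hL).loc₂ w (chiGlobCochain hF N ψ x) =
      chiLocCochain hF hL w N (ψ.comp (L.r w)) (locLamMul hF hL w x) := by
  funext s
  have h1 : (arithLocSys hF hL).loc₂ w (chiGlobCochain hF N ψ x) s =
      locLam hF hL w (chiGlobCochain hF N ψ x (L.r w s.1, L.r w s.2)) := rfl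
  have h2 : chiGlobCochain hF N ψ x (L.r w s.1, L.r w s.2) =
      Additive.ofMul (x ^ (((Multiplicative.toAdd (ψ (L.r w s.1))).val +
        (Multiplicative.toAdd (ψ (L.r w s.2))).val) / N)) := rfl
  have h3 : ∀ y : bigJS S F hF, locLam hF hL w (Additive.ofMul y) =
      Additive.ofMul (locLamMul hF hL w y) := fun _ => rfl
  have h4 : chiLocCochain hF hL w N (ψ.comp (L.r w)) (locLamMul hF hL w x) s =
      Additive.ofMul ((locLamMul hF hL w x) ^ (((Multiplicative.toAdd (ψ (L.r w s.1))).val +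
        (Multiplicative.toAdd (ψ (L.r w s.2))).val) / N)) := rfl
  rw [h1, h2, h3, map_pow, h4]

/-- **R3-LOC-SURJ**, conditional on the finite-level statement `FinChiStatement p`
(`helper33`, task 659): every `p`-primary local class at `w` is the localisation of a class of
`H²(G_S, J_S)` which is locally trivial at all `w' ≠ w`. -/
theorem loc_surj_of (hfin : FinChiStatement p) (hp2 : p ≠ 2)
    (hpS : (⟨p, Fact.out⟩ : Nat.Primes) ∈ S)
    (ζ : (↥F)ˣ) (hζ : IsPrimitiveRoot ζ p)
    (w : ι) (c : L.Gv w × L.Gv w → (arithLocSys hF hL).Ω w)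
    (hc : c ∈ Z2 (L.lev w) ((arithLocSys hF hL).Ω w)) (n : ℕ)
    (hn : p ^ n • c ∈ B2 (L.lev w) ((arithLocSys hF hL).Ω w)) :
    ∃ j ∈ Z2 (sLevelsStr S F hF) (repJS S F hF),
      (arithLocSys hF hL).loc₂ w j - c ∈ B2 (L.lev w) ((arithLocSys hF hL).Ω w) ∧
      ∀ w', w' ≠ w → (arithLocSys hF hL).loc₂ w' j ∈ B2 (L.lev w') ((arithLocSys hF hL).Ω w') := by
  obtain ⟨N, hN, ψ, hlev, hdvd⟩ :=
    exists_char_locally_large_of hF hL (cycDegStatement hp2) hp2 hpS w n
  have hlevw : ∃ N₀ ∈ (L.lev w).mem, N₀ ≤ (ψ.comp (L.r w)).ker := by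
    obtain ⟨N₀, hN₀, hle⟩ := hlev
    obtain ⟨N', hN', hle'⟩ := L.compat w N₀ hN₀
    exact ⟨N', hN', fun s hs => hle (hle' hs)⟩
  obtain ⟨b, hb⟩ := exists_chiCochain_cohomologous_of hF hL hfin w N hN (ψ.comp (L.r w))
    hlevw n hdvd c hc hn
  obtain ⟨x, hx, hxw, hxw'⟩ := helper13.exists_idele_single hF hL w b
  refine ⟨chiGlobCochain hF N ψ x, chiGlobCochain_mem_Z2 hF N ψ hlev x hx, ?_, ?_⟩
  · rw [loc₂_chiGlobCochain, hxw]
    have := (B2 (L.lev w) ((arithLocSys hF hL).Ω w)).neg_mem hb
    rwa [neg_sub] at this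
  · intro w' hw'
    rw [loc₂_chiGlobCochain, hxw' w' hw', chiLocCochain_one]
    exact (B2 (L.lev w') ((arithLocSys hF hL).Ω w')).zero_mem

end Fermat.Agent.S55.helper4
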