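import Fermat.Agent.S55.helper10_Rec3Cap

/-!
# S55 / REC3, R3-DIC (a) and R3-CAP unconditional (helper10, task 508)

Descent for ideles of `ℚbar`: an idele of `ℚbar` fixed by `Gal(ℚbar/E)` comes from an idele of
`E` (for EVERY intermediate field `E`).

Proof: choose a `ℚ`-basis `ℬ` of `ℚ_q`; every `t ∈ ℚ_q ⊗ ℚbar` is uniquely `∑ ℬ i ⊗ c i` with
`c i ∈ ℚbar`, and `σ • t = ∑ ℬ i ⊗ σ (c i)`; so `t` is fixed by `Gal(ℚbar/E)` iff all `c i` lie in
the fixed field `E`.  Base change is injective (flatness), hence reflects units and integrality.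
-/

set_option autoImplicit false
set_option linter.style.haveILetI false
set_option linter.unusedSectionVars false

open scoped TensorProduct NumberField

noncomputable section

namespace Fermat.Agent.S55.helper10

open Fermat.Agent.S55 Fermat.Agent.S55.helper59 Fermat.Agent.S55.helper69
  Fermat.Agent.S55.helper73 Fermat.Agent.S55.helper90

local notation "Qbar" => AlgebraicClosure ℚ

section Descent

variable (q : ℕ) [Fact q.Prime] (E : IntermediateField ℚ Qbar)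

/-- base change `ℚ_q ⊗ E → ℚ_q ⊗ ℚbar` is injective -/
theorem bc_injective_Qbar : Function.Injective (bc ↥E Qbar q) := by
  have h : Function.Injective
      (LinearMap.lTensor ℚ_[q] ((algebraMap ↥E Qbar).toRatAlgHom.toLinearMap)) :=
    Module.Flat.lTensor_preserves_injective_linearMap _ (algebraMap ↥E Qbar).injective
  intro x y hxy
  apply h
  have e : ∀ z : SemiLoc q ↥E,
      LinearMap.lTensor ℚ_[q] ((algebraMap ↥E Qbar).toRatAlgHom.toLinearMap) z =
        bc ↥E Qbar q z := by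
    intro z
    induction z using TensorProduct.induction_on with
    | zero => simp
    | tmul a b => simp [bc]
    | add x y hx hy => simp only [map_add, hx, hy]
  rw [e, e, hxy]

/-- the Galois action on `ℚ_q ⊗ ℚbar` in coordinates w.r.t. a `ℚ`-basis of `ℚ_q` -/
theorem equivFinsuppOfBasisLeft_smul {ι : Type*} [DecidableEq ι] (ℬ : Module.Basis ι ℚ ℚ_[q])
    (σ : Qbar ≃ₐ[ℚ] Qbar) (t : SemiLoc q Qbar) (i : ι) :
    TensorProduct.equivFinsuppOfBasisLeft ℬ (σ • t) i =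
      σ (TensorProduct.equivFinsuppOfBasisLeft ℬ t i) := by
  induction t using TensorProduct.induction_on with
  | zero => simp
  | tmul a b =>
    rw [smul_tmul', TensorProduct.equivFinsuppOfBasisLeft_apply_tmul_apply,
      TensorProduct.equivFinsuppOfBasisLeft_apply_tmul_apply, map_rat_smul]
  | add x y hx hy =>
    rw [smul_add, map_add, map_add, Finsupp.add_apply, Finsupp.add_apply, hx, hy, map_add]

/-- Galois descent for `ℚ_q ⊗ ℚbar` -/
theorem mem_range_bc_of_fixed (t : SemiLoc q Qbar)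
    (ht : ∀ σ : Qbar ≃ₐ[ℚ] Qbar, σ ∈ E.fixingSubgroup → σ • t = t) :
    ∃ s : SemiLoc q ↥E, bc ↥E Qbar q s = t := by
  classical
  have hG : IsGalois ℚ Qbar := by
    have h : (DivisionRing.toRatAlgebra : Algebra ℚ (AlgebraicClosure ℚ))
        = AlgebraicClosure.instAlgebra ℚ := Subsingleton.elim _ _
    rw [h]
    infer_instance
  let ℬ := Module.Free.chooseBasis ℚ ℚ_[q]
  have hcE : ∀ i, TensorProduct.equivFinsuppOfBasisLeft ℬ t i ∈ E := by
    intro i
    rw [← InfiniteGalois.fixedField_fixingSubgroup E, IntermediateField.mem_fixedField_iff]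
    intro σ hσ
    rw [← equivFinsuppOfBasisLeft_smul, ht σ hσ]
  have ht' : t = ∑ i ∈ (TensorProduct.equivFinsuppOfBasisLeft ℬ t).support,
      (ℬ i ⊗ₜ[ℚ] (TensorProduct.equivFinsuppOfBasisLeft ℬ t i) : SemiLoc q Qbar) := by
    conv_lhs => rw [← (TensorProduct.equivFinsuppOfBasisLeft ℬ).symm_apply_apply t,
      TensorProduct.equivFinsuppOfBasisLeft_symm_apply]
    rfl
  refine ⟨∑ i ∈ (TensorProduct.equivFinsuppOfBasisLeft ℬ t).support,
    (ℬ i ⊗ₜ[ℚ] (⟨TensorProduct.equivFinsuppOfBasisLeft ℬ t i, hcE i⟩ : ↥E) : SemiLoc q ↥E), ?_⟩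
  rw [map_sum]
  conv_rhs => rw [ht']
  refine Finset.sum_congr rfl fun i _ => ?_
  rw [bc_tmul]
  rfl

/-- a unit of `ℚ_q ⊗ ℚbar` fixed by `Gal(ℚbar/E)` comes from a unit of `ℚ_q ⊗ E` -/
theorem exists_bcUnits_of_fixed_Qbar (x : (SemiLoc q Qbar)ˣ)
    (hx : ∀ σ : Qbar ≃ₐ[ℚ] Qbar, σ ∈ E.fixingSubgroup → σ • x = x) :
    ∃ y : (SemiLoc q ↥E)ˣ, bcUnits ↥E Qbar q y = x := by
  have h1 : ∀ σ : Qbar ≃ₐ[ℚ] Qbar, σ ∈ E.fixingSubgroup →
      σ • (x : SemiLoc q Qbar) = x := fun σ hσ => congrArg Units.val (hx σ hσ)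
  have h2 : ∀ σ : Qbar ≃ₐ[ℚ] Qbar, σ ∈ E.fixingSubgroup →
      σ • ((x⁻¹ : (SemiLoc q Qbar)ˣ) : SemiLoc q Qbar) =
        ((x⁻¹ : (SemiLoc q Qbar)ˣ) : SemiLoc q Qbar) := fun σ hσ => by
    have := congrArg (fun u : (SemiLoc q Qbar)ˣ => ((u⁻¹ : (SemiLoc q Qbar)ˣ) : SemiLoc q Qbar))
      (hx σ hσ)
    exact this
  obtain ⟨y, hy⟩ := mem_range_bc_of_fixed q E _ h1
  obtain ⟨y', hy'⟩ := mem_range_bc_of_fixed q E _ h2
  have hyy : y * y' = 1 := by
    apply bc_injective_Qbar q E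
    rw [map_mul, hy, hy', map_one, Units.mul_inv]
  have hyy' : y' * y = 1 := by rw [mul_comm]; exact hyy
  exact ⟨⟨y, y', hyy, hyy'⟩, Units.ext hy⟩

/-- integrality descends along `ℚ_q ⊗ E → ℚ_q ⊗ ℚbar` -/
theorem bcUnits_mem_intUnits_iff_Qbar (x : (SemiLoc q ↥E)ˣ) :
    bcUnits ↥E Qbar q x ∈ intUnits q Qbar ↔ x ∈ intUnits q ↥E := by
  rw [mem_intUnits, mem_intUnits]
  have h1 : ((bcUnits ↥E Qbar q x : (SemiLoc q Qbar)ˣ) : SemiLoc q Qbar) =
      bc ↥E Qbar q (x : SemiLoc q ↥E) := rfl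
  have h2 : (((bcUnits ↥E Qbar q x)⁻¹ : (SemiLoc q Qbar)ˣ) : SemiLoc q Qbar) =
      bc ↥E Qbar q ((x⁻¹ : (SemiLoc q ↥E)ˣ) : SemiLoc q ↥E) := by
    rw [← map_inv]; rfl
  have hI : ∀ z : SemiLoc q ↥E, IsIntegral ℤ_[q] (bc ↥E Qbar q z) ↔ IsIntegral ℤ_[q] z :=
    fun z => isIntegral_algHom_iff ((bc ↥E Qbar q).restrictScalars ℤ_[q])
      (bc_injective_Qbar q E)
  rw [h1, h2, hI, hI]

end Descent

section Idele

variable (E : IntermediateField ℚ Qbar)

/-- `bcIdele E ℚbar` is injective -/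
theorem bcIdele_injective_Qbar : Function.Injective (bcIdele ↥E Qbar) := by
  intro x y h
  apply Subtype.ext
  funext q
  apply Units.ext
  apply bc_injective_Qbar (q : ℕ) E
  have := congrArg (fun z : Idele Qbar => (((z : IdelePi Qbar) q : (SemiLoc (q : ℕ) Qbar)ˣ) :
    SemiLoc (q : ℕ) Qbar)) h
  exact this

/-- **R3-DIC (a)**: an idele of `ℚbar` fixed by `Gal(ℚbar/E)` comes from an idele of `E`. -/
theorem exists_bcIdele_of_fixed_Qbar (x : Idele Qbar)
    (hx : ∀ σ : Qbar ≃ₐ[ℚ] Qbar, σ ∈ E.fixingSubgroup → σ • x = x) :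
    ∃ x₀ : Idele ↥E, bcIdele ↥E Qbar x₀ = x := by
  have hq : ∀ q : Nat.Primes, ∃ y : (SemiLoc (q : ℕ) ↥E)ˣ,
      bcUnits ↥E Qbar (q : ℕ) y = (x : IdelePi Qbar) q := by
    intro q
    apply exists_bcUnits_of_fixed_Qbar
    intro σ hσ
    have := congrArg (fun z : Idele Qbar => (z : IdelePi Qbar) q) (hx σ hσ)
    exact this
  choose y hy using hq
  have hmem : y ∈ idele ↥E := by
    rw [mem_idele]
    refine ((mem_idele Qbar).1 x.2).mono ?_
    intro q hq'
    rw [← hy q] at hq'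
    exact (bcUnits_mem_intUnits_iff_Qbar (q : ℕ) E (y q)).1 hq'
  refine ⟨⟨y, hmem⟩, ?_⟩
  apply Subtype.ext
  funext q
  exact hy q

/-- ideles coming from `E` are fixed by `Gal(ℚbar/E)` (no finiteness hypothesis) -/
theorem smul_bcIdele_of_mem_fixingSubgroup' (x₀ : Idele ↥E) {σ : Qbar ≃ₐ[ℚ] Qbar}
    (hσ : σ ∈ E.fixingSubgroup) : σ • bcIdele ↥E Qbar x₀ = bcIdele ↥E Qbar x₀ := by
  apply Subtype.ext
  funext q
  apply Units.ext
  change galSemiLocAut (q : ℕ) Qbar ℚ σ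
      (bc ↥E Qbar (q : ℕ) ((x₀ : IdelePi ↥E) q : SemiLoc (q : ℕ) ↥E))
    = bc ↥E Qbar (q : ℕ) ((x₀ : IdelePi ↥E) q : SemiLoc (q : ℕ) ↥E)
  generalize (((x₀ : IdelePi ↥E) q : (SemiLoc (q : ℕ) ↥E)ˣ) : SemiLoc (q : ℕ) ↥E) = t
  induction t using TensorProduct.induction_on with
  | zero => simp
  | tmul a b =>
    rw [bc_tmul, galSemiLocAut_tmul]
    congr 1
    exact (IntermediateField.mem_fixingSubgroup_iff _ _).1 hσ _ b.2
  | add s t hs ht => rw [map_add, map_add, hs, ht]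

/-- an idele of `ℚbar` is fixed by `Gal(ℚbar/E)` iff it comes from `E` -/
theorem forall_smul_eq_iff_mem_range_bcIdele (x : Idele Qbar) :
    (∀ σ : Qbar ≃ₐ[ℚ] Qbar, σ ∈ E.fixingSubgroup → σ • x = x) ↔
      x ∈ (bcIdele ↥E Qbar).range := by
  constructor
  · intro h
    obtain ⟨x₀, hx₀⟩ := exists_bcIdele_of_fixed_Qbar E x h
    exact ⟨x₀, hx₀⟩
  · rintro ⟨x₀, rfl⟩ σ hσ
    exact smul_bcIdele_of_mem_fixingSubgroup' E x₀ hσ

end Idele

section Main

/-- **R3-DIC (a)** in the shape consumed by `capS_of_descent`. -/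
theorem descentS (S : Finset Nat.Primes) (F : IntermediateField ℚ Qbar) : DescentS S F :=
  fun E _ x hx => exists_bcIdele_of_fixed_Qbar E x hx

variable {p : ℕ} [Fact p.Prime] {S : Finset Nat.Primes} {F : IntermediateField ℚ Qbar}
  (hF : F.IsUnramifiedOutside S)

/-- **R3-CAP**, unconditional: `p`-capitulation in `F_S`. -/
theorem capS' (hpS : (⟨p, Fact.out⟩ : Nat.Primes) ∈ S) : CapS p S F hF :=
  capS_of_descent hF hpS (descentS S F)

/-- **R3-CAP**: the statement of `helper90.Interface.capS`, VERBATIM. -/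
theorem capS (hpS : (⟨p, Fact.out⟩ : Nat.Primes) ∈ S)
    (ζ : (↥F)ˣ) (_hζ : IsPrimitiveRoot ζ p) : CapS p S F hF :=
  capS' hF hpS

/-- the non-cohomological hypotheses of the `p`-local `E`-assembly hold -/
theorem goodP_fundSeqS (hpS : (⟨p, Fact.out⟩ : Nat.Primes) ∈ S) :
    (fundSeqS S F hF).GoodP (sLevelsStr S F hF) p :=
  goodP_of_capS (capS' hF hpS)

end Main

end Fermat.Agent.S55.helper10

end
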