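import Fermat.Agent.S55.helper88_H2Lower

/-!
# S55 / LOC-4 (helper88): `H²(Gal(L/K), Lˣ)` is cyclic of order `[L : K]`

`card_H2` and `exists_generator_H2`, VERBATIM from `helper8_LocInterface` (section LOC346), for
a finite Galois extension `L/K` of a finite extension `K` of `ℚ_[q]`.  Unconditional.
-/

set_option autoImplicit false
set_option linter.style.haveILetI false

namespace Fermat.Agent.S55.helper88

open Fermat.Agent.S55.helper8

variable (q : ℕ) [Fact q.Prime]
variable (K : Type) [Field K] [Algebra ℚ_[q] K] [FiniteDimensional ℚ_[q] K]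
variable (L : Type) [Field L] [Algebra K L] [FiniteDimensional K L] [IsGalois K L]

include q in
/-- `H²(Gal(L/K), Lˣ)` is finite. -/
theorem finite_H2 : Finite (groupCohomology.H2 (Rep.ofAlgebraAutOnUnits K L)) :=
  (card_H2_le_finrank q K L).1

include q in
/-- `|H²(Gal(L/K), Lˣ)| = [L : K]` -/
theorem card_H2 :
    Nat.card (groupCohomology.H2 (Rep.ofAlgebraAutOnUnits K L)) = Module.finrank K L := by
  obtain ⟨hfin, hle⟩ := card_H2_le_finrank q K L
  obtain ⟨x, hx⟩ := exists_addOrderOf_eq_finrank q K L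
  refine le_antisymm hle ?_
  rw [← hx]
  exact addOrderOf_le_card

include q in
/-- a generator of `H²(Gal(L/K), Lˣ)`: any element of order `[L : K]` -/
theorem forall_exists_zsmul_of_addOrderOf (x : groupCohomology.H2 (Rep.ofAlgebraAutOnUnits K L))
    (hx : addOrderOf x = Module.finrank K L)
    (y : groupCohomology.H2 (Rep.ofAlgebraAutOnUnits K L)) : ∃ k : ℤ, y = k • x := by
  haveI := finite_H2 q K L
  have h1 : Nat.card (AddSubgroup.zmultiples x) =
      Nat.card (groupCohomology.H2 (Rep.ofAlgebraAutOnUnits K L)) := by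
    rw [Nat.card_zmultiples, hx, card_H2 q K L]
  have h2 : AddSubgroup.zmultiples x = ⊤ := AddSubgroup.eq_top_of_card_eq _ h1
  have h3 : y ∈ AddSubgroup.zmultiples x := h2 ▸ AddSubgroup.mem_top y
  obtain ⟨k, hk⟩ := AddSubgroup.mem_zmultiples_iff.mp h3
  exact ⟨k, hk.symm⟩

include q in
/-- `H²(Gal(L/K), Lˣ)` is cyclic -/
theorem exists_generator_H2 :
    ∃ u : groupCohomology.H2 (Rep.ofAlgebraAutOnUnits K L),
      ∀ x : groupCohomology.H2 (Rep.ofAlgebraAutOnUnits K L), ∃ k : ℤ, x = k • u := by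
  obtain ⟨u, hu⟩ := exists_addOrderOf_eq_finrank q K L
  exact ⟨u, forall_exists_zsmul_of_addOrderOf q K L u hu⟩

include q in
/-- a generator, with its order -/
theorem exists_generator_H2' :
    ∃ u : groupCohomology.H2 (Rep.ofAlgebraAutOnUnits K L),
      addOrderOf u = Module.finrank K L ∧
      ∀ x : groupCohomology.H2 (Rep.ofAlgebraAutOnUnits K L), ∃ k : ℤ, x = k • u := by
  obtain ⟨u, hu⟩ := exists_addOrderOf_eq_finrank q K L
  exact ⟨u, hu, forall_exists_zsmul_of_addOrderOf q K L u hu⟩

end Fermat.Agent.S55.helper88
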