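import Fermat.Agent.S55.helper33_Rec3LocFinReal
import Fermat.Agent.S55.helper30_Rec3LocFinDisc
import Fermat.Agent.S55.helper88_H2

/-!
# S55 / REC3 R3-LOC-DIV2: the `p`-primary part of the local Brauer group is `p`-divisible
(helper33, task 528)

* `div2_of_cyclic` : abstract core.  If the finite-level realisations `X` of a discrete module
  `M` are cofinal with `H²(X.Q, X.M')` cyclic, generated by a class whose order is divisible by
  any prescribed power of `p`, then every level-constant 2-cocycle `c` with `p ^ n • c ∈ B²` is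
  `p`-divisible modulo `B²`.
* `loc_div2` : VERBATIM the statement of `helper90_Rec3LocInterface` (field `div2` of
  `LocSys.Good` for `arithLocSys hF hL`), from `locFinReal`, `exists_locFinReal_le` and
  `helper88.exists_generator_H2'` (`H²(Gal(M/K_w), Mˣ)` is cyclic of order `[M : K_w]`).
-/

set_option autoImplicit false
set_option linter.style.haveILetI false
set_option linter.unusedSectionVars false

open groupCohomology ExtCitation

noncomputable section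

namespace Fermat.Agent.S55.helper33

open Fermat.Agent.S55 Fermat.Agent.S55.helper59 Fermat.Agent.S55.helper73
  Fermat.Agent.S55.helper69 Fermat.Agent.S55.helper90 Fermat.Agent.S55.helper46

section Abstract

variable {U : Type} [Group U] {𝒩 : Levels U} {M : Rep.{0} ℤ U}

/-- every class of `H²` is the class of a cocycle -/
lemma exists_H2π_eq {Q : Type} [Group Q] (A : Rep.{0} ℤ Q) (x : groupCohomology.H2 A) :
    ∃ f : cocycles₂ A, H2π A f = x :=
  H2_induction_on (C := fun x => ∃ f : cocycles₂ A, H2π A f = x) x fun f => ⟨f, rfl⟩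

/-- **Abstract core of R3-LOC-DIV2.** -/
theorem div2_of_cyclic (p : ℕ) (hp : p.Prime) (hfin : FinLevels 𝒩) (hd : IsDisc 𝒩 M)
    (h : ∀ N ∈ 𝒩.mem, ∀ k : ℕ, ∃ X : FinReal 𝒩 M, X.π.ker ≤ N ∧
      ∃ u : groupCohomology.H2 X.M', p ^ k ∣ addOrderOf u ∧
        ∀ x : groupCohomology.H2 X.M', ∃ m : ℤ, x = m • u)
    (c : U × U → M) (hc : c ∈ Z2 𝒩 M) (n : ℕ) (hn : p ^ n • c ∈ B2 𝒩 M) :
    ∃ c' ∈ Z2 𝒩 M, p • c' - c ∈ B2 𝒩 M := by
  obtain ⟨N₁, hN₁, h₁⟩ := exists_cocycle₂ hfin hd hc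
  obtain ⟨N₂, hN₂, h₂⟩ := exists_of_mem_B2 hfin hd hn
  obtain ⟨N, hN, hle⟩ := 𝒩.directed N₁ hN₁ N₂ hN₂
  obtain ⟨X, hX, u, hu, hgen⟩ := h N hN (n + 1)
  obtain ⟨f', hf'⟩ := h₁ X (hX.trans (hle.trans inf_le_left))
  obtain ⟨g', hg'⟩ := h₂ X (hX.trans (hle.trans inf_le_right))
  -- `p ^ n • f'` is a coboundary at the finite level
  have e1 : p ^ n • (f' : X.Q × X.Q → X.M') = (d₁₂ X.M').hom g' := by
    apply X.infl₂_injective
    rw [map_nsmul, hf', hg']
  have e2 : p ^ n • H2π X.M' f' = 0 := by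
    rw [← map_nsmul, H2π_eq_zero_iff]
    have : ((p ^ n • f' : cocycles₂ X.M') : X.Q × X.Q → X.M') =
        p ^ n • (f' : X.Q × X.Q → X.M') := rfl
    rw [this, e1]
    exact ⟨g', rfl⟩
  -- the class of `f'` is a multiple `m • u`, and `p ∣ m`
  obtain ⟨m, hm⟩ := hgen (H2π X.M' f')
  have e3 : ((p : ℤ) ^ n * m) • u = 0 := by
    rw [mul_smul, ← hm, ← e2]
    norm_cast
  have e4 : ((addOrderOf u : ℕ) : ℤ) ∣ (p : ℤ) ^ n * m :=
    (addOrderOf_dvd_iff_zsmul_eq_zero).2 e3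
  have e5 : ((p : ℤ) ^ n * (p : ℤ)) ∣ (p : ℤ) ^ n * m := by
    refine dvd_trans ?_ e4
    have : ((p ^ (n + 1) : ℕ) : ℤ) ∣ ((addOrderOf u : ℕ) : ℤ) := Int.natCast_dvd_natCast.2 hu
    rwa [Nat.cast_pow, pow_succ] at this
  have hp0 : ((p : ℤ) ^ n) ≠ 0 := pow_ne_zero _ (by exact_mod_cast hp.ne_zero)
  obtain ⟨m', rfl⟩ : (p : ℤ) ∣ m := (mul_dvd_mul_iff_left hp0).1 e5
  -- a cocycle representing `m' • u`
  obtain ⟨u₀, hu₀⟩ := exists_H2π_eq X.M' u
  have e6 : H2π X.M' (p • (m' • u₀)) = H2π X.M' f' := by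
    rw [hm, map_nsmul, map_zsmul, hu₀, mul_smul]
    norm_cast
  obtain ⟨h', hh'⟩ := (H2π_eq_iff (p • (m' • u₀)) f').1 e6
  refine ⟨X.infl₂ ((m' • u₀ : cocycles₂ X.M') : X.Q × X.Q → X.M'),
    X.infl₂_mem_Z2 (m' • u₀).2, ?_⟩
  have e7 : p • X.infl₂ ((m' • u₀ : cocycles₂ X.M') : X.Q × X.Q → X.M') - c =
      X.infl₂ ((d₁₂ X.M').hom h') := by
    rw [hh', ← hf', map_sub, ← map_nsmul]
    rfl
  rw [e7]
  exact X.infl₂_mem_B2 h'

end Abstract

section Arith

local instance factOfPrimesLD2 (q : Nat.Primes) : Fact (q : ℕ).Prime := ⟨q.2⟩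

local notation "Qbar" => AlgebraicClosure ℚ

variable {p : ℕ} [Fact p.Prime] {S : Finset Nat.Primes} {F : IntermediateField ℚ Qbar}
  [FiniteDimensional ℚ F] (hF : F.IsUnramifiedOutside S)
  {ι : Type} [Fintype ι] {L : LocalData (UF F) (sLevelsStr S F hF) ι} (hL : IsArith S F L)

/-- **R3-LOC-DIV2**: the `p`-primary part of the local Brauer group is `p`-divisible. -/
theorem loc_div2 (w : ι) (c : L.Gv w × L.Gv w → (arithLocSys hF hL).Ω w)
    (hc : c ∈ Z2 (L.lev w) ((arithLocSys hF hL).Ω w)) (n : ℕ)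
    (hn : p ^ n • c ∈ B2 (L.lev w) ((arithLocSys hF hL).Ω w)) :
    ∃ c' ∈ Z2 (L.lev w) ((arithLocSys hF hL).Ω w), p • c' - c ∈ B2 (L.lev w) ((arithLocSys hF hL).Ω w) := by
  refine div2_of_cyclic p Fact.out (helper30.loc_fin hF hL w) (helper30.loc_disc hF hL w)
    (fun N hN k => ?_) c hc n hn
  obtain ⟨M, hMgal, hMfd, hle, hdvd⟩ :=
    exists_locFinReal_le hF hL w N hN (p ^ k) (pow_pos (Fact.out : p.Prime).pos k)
  haveI := hL.finiteDimensional_Kw w
  obtain ⟨u, hu, hgen⟩ := helper88.exists_generator_H2' (hL.q w : ℕ) (hL.Kw w) M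
  exact ⟨locFinReal hF hL w M, hle, u, hu ▸ hdvd, hgen⟩

end Arith

end Fermat.Agent.S55.helper33
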