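import Fermat.Agent.S55.helper8_LocDefs2

/-!
# S55 / LOC-7d (task 325, helper77): level dictionary for `Gal(Ω/K)` with `galLevels`

Level-constant cocycles with trivial `ZMod p` coefficients on `Gal(Ω/K)` are exactly the
inflations of cocycles of finite Galois quotients `Gal(L/K)`.
-/

set_option autoImplicit false

namespace Fermat.Agent.S55.helper77

open Fermat.Agent.S55 Fermat.Agent.S55.helper8 groupCohomology

section generic

variable (K Ω : Type) [Field K] [Field Ω] [Algebra K Ω]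

/-- the fixing subgroup of a finite normal intermediate field is a Galois level -/
theorem fixingSubgroup_mem_galLevels (L : IntermediateField K Ω) [FiniteDimensional K L]
    [Normal K L] : L.fixingSubgroup ∈ (galLevels K Ω).mem := by
  refine ⟨?_, L, inferInstance, rfl⟩
  rw [← IntermediateField.restrictNormalHom_ker]
  exact MonoidHom.normal_ker _

variable {K Ω}

/-- if two automorphisms have the same restriction to `L`, they differ by an element of the
fixing subgroup -/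
theorem exists_mul_of_restrict_eq (L : IntermediateField K Ω) [Normal K L]
    {g g' : Ω ≃ₐ[K] Ω}
    (h : AlgEquiv.restrictNormalHom L g = AlgEquiv.restrictNormalHom L g') :
    ∃ s ∈ L.fixingSubgroup, g' = g * s := by
  refine ⟨g⁻¹ * g', ?_, by group⟩
  rw [← IntermediateField.restrictNormalHom_ker, MonoidHom.mem_ker, map_mul, map_inv, h,
    inv_mul_cancel]

end generic

section main

variable (p : ℕ) [Fact p.Prime] (K Ω : Type) [Field K] [Field Ω] [CharZero K] [Algebra K Ω]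
  [IsAlgClosure K Ω]

/-- a finite Galois intermediate field containing a given finite-dimensional one -/
theorem exists_finite_galois_ge (L₁ : IntermediateField K Ω) [FiniteDimensional K L₁] :
    ∃ (L : IntermediateField K Ω) (_ : FiniteDimensional K L) (_ : IsGalois K L), L₁ ≤ L := by
  have : Normal K Ω := IsAlgClosure.normal K Ω
  refine ⟨IntermediateField.normalClosure K L₁ Ω, normalClosure.is_finiteDimensional K L₁ Ω, ?_,
    IntermediateField.le_normalClosure L₁⟩
  have : Normal K (IntermediateField.normalClosure K L₁ Ω) := normalClosure.normal K L₁ Ω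
  exact IsGalois.mk

/-- LOC-7d (level dictionary, degree 1): a level-constant 1-cocycle with trivial coefficients
is a homomorphism factoring through a finite Galois quotient. -/
theorem exists_factor_Z1 (x : (Ω ≃ₐ[K] Ω) → ZMod p)
    (hx : x ∈ Z1 (galLevels K Ω) (Rep.trivial (ZMod p) (Ω ≃ₐ[K] Ω) (ZMod p))) :
    ∃ (L : IntermediateField K Ω) (_ : FiniteDimensional K L) (_ : IsGalois K L)
      (χ : (L ≃ₐ[K] L) →* Multiplicative (ZMod p)),
      ∀ σ : Ω ≃ₐ[K] Ω, x σ = Multiplicative.toAdd (χ (AlgEquiv.restrictNormalHom L σ)) := by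
  have : Normal K Ω := IsAlgClosure.normal K Ω
  obtain ⟨⟨N, ⟨hNn, L₁, hL₁, rfl⟩, hlev⟩, hker⟩ := hx
  obtain ⟨L, hLf, hLg, hle⟩ := exists_finite_galois_ge K Ω L₁
  have hadd : ∀ g h : Ω ≃ₐ[K] Ω, x (g * h) = x g + x h := by
    intro g h
    have h1 : (d₁₂ (Rep.trivial (ZMod p) (Ω ≃ₐ[K] Ω) (ZMod p))).hom x (g, h) = 0 := by
      rw [LinearMap.mem_ker.mp hker]; rfl
    rw [d₁₂_hom_apply] at h1
    have h2 : x h - x (g * h) + x g = 0 := h1
    linear_combination -h2
  have hone : x 1 = 0 := by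
    have := hadd 1 1
    rw [mul_one] at this
    linear_combination -this
  let X : (Ω ≃ₐ[K] Ω) →* Multiplicative (ZMod p) :=
    { toFun := fun g => Multiplicative.ofAdd (x g)
      map_one' := by rw [hone]; rfl
      map_mul' := fun g h => by rw [hadd]; rfl }
  have hXker : (AlgEquiv.restrictNormalHom (F := K) (K₁ := Ω) L).ker ≤ X.ker := by
    intro s hs
    rw [IntermediateField.restrictNormalHom_ker] at hs
    have hs' : s ∈ L₁.fixingSubgroup := IntermediateField.fixingSubgroup_antitone hle hs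
    rw [MonoidHom.mem_ker]
    change Multiplicative.ofAdd (x s) = 1
    have := hlev 1 s hs'
    rw [one_mul, hone] at this
    rw [this]
    rfl
  have hsurj : Function.Surjective (AlgEquiv.restrictNormalHom (F := K) (K₁ := Ω) L) :=
    AlgEquiv.restrictNormalHom_surjective Ω
  refine ⟨L, hLf, hLg, MonoidHom.liftOfSurjective _ hsurj ⟨X, hXker⟩, fun σ => ?_⟩
  rw [MonoidHom.liftOfRightInverse_comp_apply]
  rfl

set_option linter.unusedSectionVars false in
omit [CharZero K] in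
/-- conversely, inflations of finite-level cocycles are level-constant cocycles -/
theorem mem_Z2_of_factor (L : IntermediateField K Ω) [FiniteDimensional K L] [IsGalois K L]
    (c' : (L ≃ₐ[K] L) × (L ≃ₐ[K] L) → ZMod p)
    (hc' : c' ∈ LinearMap.ker (d₂₃ (Rep.trivial (ZMod p) (L ≃ₐ[K] L) (ZMod p))).hom) :
    (fun g : (Ω ≃ₐ[K] Ω) × (Ω ≃ₐ[K] Ω) =>
      c' (AlgEquiv.restrictNormalHom L g.1, AlgEquiv.restrictNormalHom L g.2)) ∈
      Z2 (galLevels K Ω) (Rep.trivial (ZMod p) (Ω ≃ₐ[K] Ω) (ZMod p)) := by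
  refine ⟨⟨L.fixingSubgroup, fixingSubgroup_mem_galLevels K Ω L, ?_⟩, LinearMap.mem_ker.mpr ?_⟩
  · intro g₁ g₂ s₁ hs₁ s₂ hs₂
    rw [← IntermediateField.restrictNormalHom_ker, MonoidHom.mem_ker] at hs₁ hs₂
    change c' (AlgEquiv.restrictNormalHom L (g₁ * s₁), AlgEquiv.restrictNormalHom L (g₂ * s₂)) =
      c' (AlgEquiv.restrictNormalHom L g₁, AlgEquiv.restrictNormalHom L g₂)
    rw [map_mul, map_mul, hs₁, hs₂, mul_one, mul_one]
  · funext g
    have h1 : (d₂₃ (Rep.trivial (ZMod p) (L ≃ₐ[K] L) (ZMod p))).hom c'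
        (AlgEquiv.restrictNormalHom L g.1, AlgEquiv.restrictNormalHom L g.2.1,
          AlgEquiv.restrictNormalHom L g.2.2) = 0 := by
      rw [LinearMap.mem_ker.mp hc']; rfl
    rw [d₂₃_hom_apply] at h1 ⊢
    simp only [map_mul]
    exact h1

/-- LOC-7d (level dictionary, degree 2): a level-constant 2-cocycle with trivial coefficients
is inflated from a 2-cocycle of a finite Galois quotient; the field can be chosen to contain
any given finite extension. -/
theorem exists_factor_Z2 (c : (Ω ≃ₐ[K] Ω) × (Ω ≃ₐ[K] Ω) → ZMod p)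
    (hc : c ∈ Z2 (galLevels K Ω) (Rep.trivial (ZMod p) (Ω ≃ₐ[K] Ω) (ZMod p)))
    (L₀ : IntermediateField K Ω) (hL₀ : FiniteDimensional K L₀) :
    ∃ (L : IntermediateField K Ω) (_ : FiniteDimensional K L) (_ : IsGalois K L)
      (c' : (L ≃ₐ[K] L) × (L ≃ₐ[K] L) → ZMod p), L₀ ≤ L ∧
      c' ∈ LinearMap.ker (d₂₃ (Rep.trivial (ZMod p) (L ≃ₐ[K] L) (ZMod p))).hom ∧
      ∀ g, c g = c' (AlgEquiv.restrictNormalHom L g.1, AlgEquiv.restrictNormalHom L g.2) := by
  have : Normal K Ω := IsAlgClosure.normal K Ω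
  obtain ⟨⟨N, ⟨hNn, L₁, hL₁, rfl⟩, hlev⟩, hker⟩ := hc
  obtain ⟨L, hLf, hLg, hle⟩ := exists_finite_galois_ge K Ω (L₁ ⊔ L₀)
  have hle₁ : L₁ ≤ L := le_sup_left.trans hle
  have hle₀ : L₀ ≤ L := le_sup_right.trans hle
  have hsurj : Function.Surjective (AlgEquiv.restrictNormalHom (F := K) (K₁ := Ω) L) :=
    AlgEquiv.restrictNormalHom_surjective Ω
  let lift : (L ≃ₐ[K] L) → (Ω ≃ₐ[K] Ω) := Function.surjInv hsurj
  have hlift : ∀ τ, AlgEquiv.restrictNormalHom L (lift τ) = τ := Function.surjInv_eq hsurj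
  -- `c` only depends on the restrictions
  have hwd : ∀ g₁ g₂ g₁' g₂' : Ω ≃ₐ[K] Ω,
      AlgEquiv.restrictNormalHom L g₁ = AlgEquiv.restrictNormalHom L g₁' →
      AlgEquiv.restrictNormalHom L g₂ = AlgEquiv.restrictNormalHom L g₂' →
      c (g₁', g₂') = c (g₁, g₂) := by
    intro g₁ g₂ g₁' g₂' h₁ h₂
    obtain ⟨s₁, hs₁, rfl⟩ := exists_mul_of_restrict_eq L h₁
    obtain ⟨s₂, hs₂, rfl⟩ := exists_mul_of_restrict_eq L h₂
    exact hlev g₁ g₂ s₁ (IntermediateField.fixingSubgroup_antitone hle₁ hs₁) s₂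
      (IntermediateField.fixingSubgroup_antitone hle₁ hs₂)
  have hfac : ∀ g : (Ω ≃ₐ[K] Ω) × (Ω ≃ₐ[K] Ω),
      c g = c (lift (AlgEquiv.restrictNormalHom L g.1), lift (AlgEquiv.restrictNormalHom L g.2)) :=
    fun g => (hwd _ _ g.1 g.2 (hlift _) (hlift _)).symm ▸ rfl
  refine ⟨L, hLf, hLg, fun τ => c (lift τ.1, lift τ.2), hle₀, LinearMap.mem_ker.mpr ?_, hfac⟩
  funext τ
  have h1 : (d₂₃ (Rep.trivial (ZMod p) (Ω ≃ₐ[K] Ω) (ZMod p))).hom c
      (lift τ.1, lift τ.2.1, lift τ.2.2) = 0 := by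
    rw [LinearMap.mem_ker.mp hker]; rfl
  rw [d₂₃_hom_apply] at h1 ⊢
  have e1 : c (lift (τ.1 * τ.2.1), lift τ.2.2) = c (lift τ.1 * lift τ.2.1, lift τ.2.2) :=
    hwd _ _ _ _ (by rw [map_mul, hlift, hlift, hlift]) rfl
  have e2 : c (lift τ.1, lift (τ.2.1 * τ.2.2)) = c (lift τ.1, lift τ.2.1 * lift τ.2.2) :=
    hwd _ _ _ _ rfl (by rw [map_mul, hlift, hlift, hlift])
  change (Rep.trivial (ZMod p) (L ≃ₐ[K] L) (ZMod p)).ρ τ.1 (c (lift τ.2.1, lift τ.2.2))
    - c (lift (τ.1 * τ.2.1), lift τ.2.2) + c (lift τ.1, lift (τ.2.1 * τ.2.2))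
    - c (lift τ.1, lift τ.2.1) = 0
  rw [e1, e2]
  exact h1

end main

end Fermat.Agent.S55.helper77
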