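import Fermat.Agent.S55.helper59_BDefs2
import Fermat.Agent.S55.helper69_BArLev
import Fermat.Agent.S55.helper74_Krasner
import Fermat.Agent.S55.helper77_LevelDict

/-!
# S55 module B, package B-AR-DIC-L (helper60, task 360): the local level dictionary

For an arithmetic local datum `hL : IsArith S F L` and `w : ι`, the isomorphism
`hL.locEquiv w : U_w ≃* Gal(Ω/K_w)` (`Ω = PadicAlgCl q_w`, `K_w = ℚ_q(ι(g_w⁻¹ F))`) identifies the
level-constant functions for the levels `L.lev w` with the level-constant functions for the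
Galois levels `helper8.galLevels K_w Ω`.

* `isLev₁_congr_of_cofinal`, `isLev₂_congr_of_cofinal`, `isLev₃_congr_of_cofinal` : generic
  transport of level-constancy along a group isomorphism under which two level systems are
  cofinal;
* `mem_fixingSubgroup_of_primitive` : an automorphism fixing a primitive element fixes the field;
* `exists_galLevel_sub`, `exists_lev_sub` : the two cofinality statements
  (`lev_le`/`le_lev` + Krasner `helper74.exists_rat_generator` +
  `helper74.mem_fixingSubgroup_localField_iff`);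
* `isLev₁_loc_iff`, `isLev₂_loc_iff` : VERBATIM the statements of helper59's interface v2
  (`blueprints/S55/helper59_BInterface2.lean`); `isLev₃_loc_iff` : the same in degree 3.
-/

set_option autoImplicit false
set_option linter.unusedSectionVars false

open groupCohomology ExtCitation
open scoped NumberField

noncomputable section

namespace Fermat.Agent.S55.helper60

open Fermat.Agent.S55 Fermat.Agent.S55.helper59

local instance factOfPrimesDicL (q : Nat.Primes) : Fact (q : ℕ).Prime := ⟨q.2⟩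

local notation "Qbar" => AlgebraicClosure ℚ

attribute [local instance] helper69.isAlgebraic_Qbar helper69.isAlgClosure_Qbar
  helper69.normal_Qbar

/-! ## Generic transport of level-constancy along a group isomorphism -/

section Generic

variable {G H : Type*} [Group G] [Group H] (𝒜 : Levels G) (ℬ : Levels H) (e : G ≃* H)

/-- transport of `IsLev₁` along an isomorphism under which the two level systems are cofinal -/
theorem isLev₁_congr_of_cofinal
    (hab : ∀ N ∈ 𝒜.mem, ∃ N' ∈ ℬ.mem, ∀ s : G, e s ∈ N' → s ∈ N)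
    (hba : ∀ N' ∈ ℬ.mem, ∃ N ∈ 𝒜.mem, ∀ s ∈ N, e s ∈ N')
    {X : Type*} (f : H → X) :
    IsLev₁ 𝒜 (fun s => f (e s)) ↔ IsLev₁ ℬ f := by
  constructor
  · rintro ⟨N, hN, h⟩
    obtain ⟨N', hN', hsub⟩ := hab N hN
    refine ⟨N', hN', fun g s hs => ?_⟩
    have hs' : e.symm s ∈ N := hsub _ (by rwa [MulEquiv.apply_symm_apply])
    have := h (e.symm g) (e.symm s) hs'
    simpa only [map_mul, MulEquiv.apply_symm_apply] using this
  · rintro ⟨N', hN', h⟩
    obtain ⟨N, hN, hsub⟩ := hba N' hN'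
    refine ⟨N, hN, fun g s hs => ?_⟩
    change f (e (g * s)) = f (e g)
    rw [map_mul]
    exact h (e g) (e s) (hsub s hs)

/-- transport of `IsLev₂` along an isomorphism under which the two level systems are cofinal -/
theorem isLev₂_congr_of_cofinal
    (hab : ∀ N ∈ 𝒜.mem, ∃ N' ∈ ℬ.mem, ∀ s : G, e s ∈ N' → s ∈ N)
    (hba : ∀ N' ∈ ℬ.mem, ∃ N ∈ 𝒜.mem, ∀ s ∈ N, e s ∈ N')
    {X : Type*} (f : H × H → X) :
    IsLev₂ 𝒜 (fun s => f (e s.1, e s.2)) ↔ IsLev₂ ℬ f := by
  constructor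
  · rintro ⟨N, hN, h⟩
    obtain ⟨N', hN', hsub⟩ := hab N hN
    refine ⟨N', hN', fun g₁ g₂ s₁ hs₁ s₂ hs₂ => ?_⟩
    have hs₁' : e.symm s₁ ∈ N := hsub _ (by rwa [MulEquiv.apply_symm_apply])
    have hs₂' : e.symm s₂ ∈ N := hsub _ (by rwa [MulEquiv.apply_symm_apply])
    have := h (e.symm g₁) (e.symm g₂) (e.symm s₁) hs₁' (e.symm s₂) hs₂'
    simpa only [map_mul, MulEquiv.apply_symm_apply] using this
  · rintro ⟨N', hN', h⟩
    obtain ⟨N, hN, hsub⟩ := hba N' hN'
    refine ⟨N, hN, fun g₁ g₂ s₁ hs₁ s₂ hs₂ => ?_⟩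
    change f (e (g₁ * s₁), e (g₂ * s₂)) = f (e g₁, e g₂)
    rw [map_mul, map_mul]
    exact h (e g₁) (e g₂) (e s₁) (hsub s₁ hs₁) (e s₂) (hsub s₂ hs₂)

/-- transport of `IsLev₃` along an isomorphism under which the two level systems are cofinal -/
theorem isLev₃_congr_of_cofinal
    (hab : ∀ N ∈ 𝒜.mem, ∃ N' ∈ ℬ.mem, ∀ s : G, e s ∈ N' → s ∈ N)
    (hba : ∀ N' ∈ ℬ.mem, ∃ N ∈ 𝒜.mem, ∀ s ∈ N, e s ∈ N')
    {X : Type*} (f : H × H × H → X) :
    IsLev₃ 𝒜 (fun s => f (e s.1, e s.2.1, e s.2.2)) ↔ IsLev₃ ℬ f := by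
  constructor
  · rintro ⟨N, hN, h⟩
    obtain ⟨N', hN', hsub⟩ := hab N hN
    refine ⟨N', hN', fun g₁ g₂ g₃ s₁ hs₁ s₂ hs₂ s₃ hs₃ => ?_⟩
    have hs₁' : e.symm s₁ ∈ N := hsub _ (by rwa [MulEquiv.apply_symm_apply])
    have hs₂' : e.symm s₂ ∈ N := hsub _ (by rwa [MulEquiv.apply_symm_apply])
    have hs₃' : e.symm s₃ ∈ N := hsub _ (by rwa [MulEquiv.apply_symm_apply])
    have := h (e.symm g₁) (e.symm g₂) (e.symm g₃) (e.symm s₁) hs₁' (e.symm s₂) hs₂'
      (e.symm s₃) hs₃'
    simpa only [map_mul, MulEquiv.apply_symm_apply] using this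
  · rintro ⟨N', hN', h⟩
    obtain ⟨N, hN, hsub⟩ := hba N' hN'
    refine ⟨N, hN, fun g₁ g₂ g₃ s₁ hs₁ s₂ hs₂ s₃ hs₃ => ?_⟩
    change f (e (g₁ * s₁), e (g₂ * s₂), e (g₃ * s₃)) = f (e g₁, e g₂, e g₃)
    rw [map_mul, map_mul, map_mul]
    exact h (e g₁) (e g₂) (e g₃) (e s₁) (hsub s₁ hs₁) (e s₂) (hsub s₂ hs₂) (e s₃) (hsub s₃ hs₃)

end Generic

/-- an automorphism fixing a primitive element of an intermediate field fixes the field -/
theorem mem_fixingSubgroup_of_primitive {K Ω : Type*} [Field K] [Field Ω] [Algebra K Ω]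
    (M : IntermediateField K Ω) (α : M) (hα : IntermediateField.adjoin K {α} = ⊤)
    (τ : Ω ≃ₐ[K] Ω) (h : τ (α : Ω) = α) : τ ∈ M.fixingSubgroup := by
  have hM : M = IntermediateField.adjoin K {(α : Ω)} := by
    rw [← IntermediateField.lift_adjoin_simple, hα, IntermediateField.lift_top]
  have key : (τ : Ω →ₐ[K] Ω).comp M.val = M.val := by
    refine IntermediateField.algHom_ext_of_eq_adjoin K hM fun x hx => ?_
    rw [Set.mem_singleton_iff] at hx
    subst hx
    exact h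
  rw [IntermediateField.mem_fixingSubgroup_iff]
  intro x hx
  exact congrArg (fun φ : M →ₐ[K] Ω => φ ⟨x, hx⟩) key

/-! ## The arithmetic cofinality statements -/

variable {p : ℕ} [Fact p.Prime] {S : Finset Nat.Primes} {F : IntermediateField ℚ Qbar}
  [FiniteDimensional ℚ F] {𝒩 : Levels (UF F)} {ι : Type} [Fintype ι]
  {L : LocalData (UF F) 𝒩 ι}

/-- (a) every level of `L` at `w` contains the preimage of a Galois level of `Gal(Ω/K_w)` -/
theorem exists_galLevel_sub (hL : IsArith S F L) (w : ι) (N : Subgroup (L.Gv w))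
    (hN : N ∈ (L.lev w).mem) :
    ∃ N' ∈ (helper8.galLevels (hL.Kw w) (PadicAlgCl (hL.q w : ℕ))).mem,
      ∀ s : L.Gv w, hL.locEquiv w s ∈ N' → s ∈ N := by
  obtain ⟨N₀, ⟨E, hEfd, hEn, rfl⟩, hle⟩ := hL.lev_le w N hN
  have := hEfd
  obtain ⟨α, hα⟩ := Field.exists_primitive_element ℚ E
  have hx : IsIntegral (hL.Kw w) (padicEmbedding (hL.q w : ℕ) (α : Qbar)) :=
    Algebra.IsIntegral.isIntegral _
  have : FiniteDimensional (hL.Kw w)
      (IntermediateField.adjoin (hL.Kw w) {padicEmbedding (hL.q w : ℕ) (α : Qbar)}) :=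
    IntermediateField.adjoin.finiteDimensional hx
  have : IsAlgClosure (hL.Kw w) (PadicAlgCl (hL.q w : ℕ)) := ⟨inferInstance, inferInstance⟩
  obtain ⟨M, hMfd, hMgal, hMle⟩ := helper77.exists_finite_galois_ge (hL.Kw w)
    (PadicAlgCl (hL.q w : ℕ))
    (IntermediateField.adjoin (hL.Kw w) {padicEmbedding (hL.q w : ℕ) (α : Qbar)})
  refine ⟨M.fixingSubgroup, helper77.fixingSubgroup_mem_galLevels _ _ M, fun s hs => hle ?_⟩
  rw [Subgroup.mem_comap]
  refine mem_fixingSubgroup_of_primitive E α hα _ ?_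
  have h1 : hL.locEquiv w s (padicEmbedding (hL.q w : ℕ) (α : Qbar)) =
      padicEmbedding (hL.q w : ℕ) (α : Qbar) := by
    rw [IntermediateField.mem_fixingSubgroup_iff] at hs
    exact hs _ (hMle (IntermediateField.mem_adjoin_simple_self _ _))
  rw [hL.locEquiv_apply] at h1
  apply (padicEmbedding (hL.q w : ℕ)).toRingHom.injective
  change padicEmbedding (hL.q w : ℕ) (localGaloisToGlobal (hL.q w : ℕ) (hL.jq w s) (α : Qbar)) =
    padicEmbedding (hL.q w : ℕ) (α : Qbar)
  rw [padicEmbedding_localGaloisToGlobal]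
  exact h1

/-- (b) every Galois level of `Gal(Ω/K_w)` contains the image of a level of `L` at `w` -/
theorem exists_lev_sub (hL : IsArith S F L) (w : ι)
    (N' : Subgroup (PadicAlgCl (hL.q w : ℕ) ≃ₐ[hL.Kw w] PadicAlgCl (hL.q w : ℕ)))
    (hN' : N' ∈ (helper8.galLevels (hL.Kw w) (PadicAlgCl (hL.q w : ℕ))).mem) :
    ∃ N ∈ (L.lev w).mem, ∀ s ∈ N, hL.locEquiv w s ∈ N' := by
  obtain ⟨-, M, hMfd, rfl⟩ := hN'
  have := hMfd
  obtain ⟨α, hα⟩ := Field.exists_primitive_element (hL.Kw w) M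
  obtain ⟨β, hβ⟩ := helper74.exists_rat_generator (hL.q w : ℕ) (α : PadicAlgCl (hL.q w : ℕ))
  have hβint : IsIntegral ℚ β := Algebra.IsIntegral.isIntegral _
  have : FiniteDimensional ℚ (IntermediateField.adjoin ℚ {β}) :=
    IntermediateField.adjoin.finiteDimensional hβint
  have hEfd : FiniteDimensional ℚ
      (IntermediateField.normalClosure ℚ (IntermediateField.adjoin ℚ {β}) Qbar) :=
    normalClosure.is_finiteDimensional ℚ _ Qbar
  have hEn : Normal ℚ
      (IntermediateField.normalClosure ℚ (IntermediateField.adjoin ℚ {β}) Qbar) :=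
    normalClosure.normal ℚ _ Qbar
  have hβE : β ∈ IntermediateField.normalClosure ℚ (IntermediateField.adjoin ℚ {β}) Qbar :=
    IntermediateField.le_normalClosure _ (IntermediateField.mem_adjoin_simple_self _ _)
  obtain ⟨N, hN, hle⟩ := hL.le_lev w _
    ⟨IntermediateField.normalClosure ℚ (IntermediateField.adjoin ℚ {β}) Qbar, hEfd,
      helper69.fixingSubgroup_normal_of_normal _ hEn, rfl⟩
  refine ⟨N, hN, fun s hs => ?_⟩
  have h1 := hle hs
  rw [Subgroup.mem_comap] at h1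
  have h2 : hL.jq w s ∈ (helper74.localField (hL.q w : ℕ)
      (IntermediateField.normalClosure ℚ (IntermediateField.adjoin ℚ {β}) Qbar)).fixingSubgroup :=
    (helper74.mem_fixingSubgroup_localField_iff (hL.q w : ℕ) _ _).2 h1
  have h3 : (α : PadicAlgCl (hL.q w : ℕ)) ∈ helper74.localField (hL.q w : ℕ)
      (IntermediateField.normalClosure ℚ (IntermediateField.adjoin ℚ {β}) Qbar) := by
    have : IntermediateField.adjoin ℚ_[(hL.q w : ℕ)] {padicEmbedding (hL.q w : ℕ) β} ≤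
        helper74.localField (hL.q w : ℕ)
          (IntermediateField.normalClosure ℚ (IntermediateField.adjoin ℚ {β}) Qbar) := by
      rw [IntermediateField.adjoin_simple_le_iff]
      exact helper74.padicEmbedding_mem_localField (hL.q w : ℕ) hβE
    exact this hβ
  refine mem_fixingSubgroup_of_primitive M α hα _ ?_
  rw [hL.locEquiv_apply]
  rw [IntermediateField.mem_fixingSubgroup_iff] at h2
  exact h2 _ h3

/-! ## B-AR-DIC-L : the local level dictionary (statements verbatim from the interface) -/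

/-- a function on `U_w` is level-constant for the levels of `L` iff it is level-constant for the
Galois levels of `Gal(Ω/K_w)` -/
theorem isLev₁_loc_iff (hL : IsArith S F L) (w : ι) {X : Type*}
    (f : (PadicAlgCl (hL.q w : ℕ) ≃ₐ[hL.Kw w] PadicAlgCl (hL.q w : ℕ)) → X) :
    IsLev₁ (L.lev w) (fun s => f (hL.locEquiv w s)) ↔
      IsLev₁ (helper8.galLevels (hL.Kw w) (PadicAlgCl (hL.q w : ℕ))) f :=
  isLev₁_congr_of_cofinal (L.lev w) _ (hL.locEquiv w) (exists_galLevel_sub hL w)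
    (exists_lev_sub hL w) f

theorem isLev₂_loc_iff (hL : IsArith S F L) (w : ι) {X : Type*}
    (f : (PadicAlgCl (hL.q w : ℕ) ≃ₐ[hL.Kw w] PadicAlgCl (hL.q w : ℕ)) ×
      (PadicAlgCl (hL.q w : ℕ) ≃ₐ[hL.Kw w] PadicAlgCl (hL.q w : ℕ)) → X) :
    IsLev₂ (L.lev w) (fun s => f (hL.locEquiv w s.1, hL.locEquiv w s.2)) ↔
      IsLev₂ (helper8.galLevels (hL.Kw w) (PadicAlgCl (hL.q w : ℕ))) f :=
  isLev₂_congr_of_cofinal (L.lev w) _ (hL.locEquiv w) (exists_galLevel_sub hL w)
    (exists_lev_sub hL w) f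

theorem isLev₃_loc_iff (hL : IsArith S F L) (w : ι) {X : Type*}
    (f : (PadicAlgCl (hL.q w : ℕ) ≃ₐ[hL.Kw w] PadicAlgCl (hL.q w : ℕ)) ×
      (PadicAlgCl (hL.q w : ℕ) ≃ₐ[hL.Kw w] PadicAlgCl (hL.q w : ℕ)) ×
      (PadicAlgCl (hL.q w : ℕ) ≃ₐ[hL.Kw w] PadicAlgCl (hL.q w : ℕ)) → X) :
    IsLev₃ (L.lev w) (fun s => f (hL.locEquiv w s.1, hL.locEquiv w s.2.1,
      hL.locEquiv w s.2.2)) ↔
      IsLev₃ (helper8.galLevels (hL.Kw w) (PadicAlgCl (hL.q w : ℕ))) f :=
  isLev₃_congr_of_cofinal (L.lev w) _ (hL.locEquiv w) (exists_galLevel_sub hL w)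
    (exists_lev_sub hL w) f

end Fermat.Agent.S55.helper60
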