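import Fermat.Agent.S55.helper44_H90Level
import Fermat.Agent.S55.helper90_Rec3LocDef
import Fermat.Agent.S55.helper60_BArDicL

/-!
# S55 / REC3 : R3-LOC-H90 (helper44, task 526)

`loc_hilbert90` : local Hilbert 90 for level-constant 1-cocycles of the local group `L.Gv w` with
values in `Ω_w = (PadicAlgCl q)ˣ` (field `hilbert90` of `LocSys.Good` for `arithLocSys hF hL`).
-/

set_option autoImplicit false

open groupCohomology ExtCitation

noncomputable section

namespace Fermat.Agent.S55.helper44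

open Fermat.Agent.S55 Fermat.Agent.S55.helper59 Fermat.Agent.S55.helper69
  Fermat.Agent.S55.helper73 Fermat.Agent.S55.helper90

local instance factOfPrimesH90 (q : Nat.Primes) : Fact (q : ℕ).Prime := ⟨q.2⟩

local notation "Qbar" => AlgebraicClosure ℚ

variable {p : ℕ} [Fact p.Prime] {S : Finset Nat.Primes} {F : IntermediateField ℚ Qbar}
  [FiniteDimensional ℚ F] (hF : F.IsUnramifiedOutside S)
  {ι : Type} [Fintype ι] {L : LocalData (UF F) (sLevelsStr S F hF) ι} (hL : IsArith S F L)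

/-- **R3-LOC-H90**: local Hilbert 90 for level-constant cochains. -/
theorem loc_hilbert90 (w : ι) :
    Z1 (L.lev w) ((arithLocSys hF hL).Ω w) ≤ B1 ((arithLocSys hF hL).Ω w) := by
  intro c hc
  have hlev : IsLev₁ (L.lev w) c := hc.1
  have hcoc : (d₁₂ ((arithLocSys hF hL).Ω w)).hom c = 0 := hc.2
  let f : (PadicAlgCl (hL.q w : ℕ) ≃ₐ[hL.Kw w] PadicAlgCl (hL.q w : ℕ)) →
      (PadicAlgCl (hL.q w : ℕ))ˣ := fun σ => Additive.toMul (c ((hL.locEquiv w).symm σ))
  have hfc : ∀ s, f (hL.locEquiv w s) = Additive.toMul (c s) := fun s => by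
    change Additive.toMul (c ((hL.locEquiv w).symm (hL.locEquiv w s))) = _
    rw [MulEquiv.symm_apply_apply]
  have hlevf : IsLev₁ (helper8.galLevels (hL.Kw w) (PadicAlgCl (hL.q w : ℕ))) f := by
    rw [← helper60.isLev₁_loc_iff hL w f]
    obtain ⟨N, hN, h⟩ := hlev
    exact ⟨N, hN, fun g s hs => by
      change f (hL.locEquiv w (g * s)) = f (hL.locEquiv w g)
      rw [hfc, hfc, h g s hs]⟩
  obtain ⟨N, ⟨-, M₀, hM₀fd, rfl⟩, hN⟩ := hlevf
  have hcocf : ∀ g h : PadicAlgCl (hL.q w : ℕ) ≃ₐ[hL.Kw w] PadicAlgCl (hL.q w : ℕ),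
      f (g * h) = Units.map (g : PadicAlgCl (hL.q w : ℕ) →* PadicAlgCl (hL.q w : ℕ)) (f h) *
        f g := by
    intro g h
    obtain ⟨g', rfl⟩ := (hL.locEquiv w).surjective g
    obtain ⟨h', rfl⟩ := (hL.locEquiv w).surjective h
    have h1 : ((arithLocSys hF hL).Ω w).ρ g' (c h') - c (g' * h') + c g' = 0 :=
      congrFun hcoc (g', h')
    have h2 : c (g' * h') = ((arithLocSys hF hL).Ω w).ρ g' (c h') + c g' := by
      rw [sub_add_eq_add_sub, sub_eq_zero] at h1
      exact h1.symm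
    rw [← map_mul, hfc, hfc, hfc]
    exact (congrArg Additive.toMul h2).trans rfl
  have : IsAlgClosure (hL.Kw w) (PadicAlgCl (hL.q w : ℕ)) := ⟨inferInstance, inferInstance⟩
  obtain ⟨b, hb⟩ := exists_coboundary_of_level f hcocf M₀ hN
  refine ⟨Additive.ofMul b, ?_⟩
  funext s
  have h1 := hb (hL.locEquiv w s)
  rw [hfc] at h1
  have h2 : c s = Additive.ofMul (Additive.toMul (c s)) := rfl
  rw [h2, h1]
  rfl

end Fermat.Agent.S55.helper44

end
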