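import Fermat.Agent.S55.helper59_BDefs2
import Fermat.Agent.S55.helper69_BArLev
import Fermat.Agent.S55.helper51_LocalLevels
import Fermat.Agent.S55.helper77_LevelDict

/-!
# S55 module B, B-AR-DIC-L (helper30, second proof, needed for task 364): local level dictionary

For an arithmetic local datum `hL : IsArith S F L` and `w : ι`, the isomorphism
`hL.locEquiv w : L.Gv w ≃* Gal(Ω/K_w)` matches the levels `L.lev w` with the Galois levels
`helper8.galLevels (hL.Kw w) Ω` up to cofinality: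

* `exists_galLevel_comap_le`, `exists_lev_le_comap` : the two cofinality statements;
* `isLev₁_loc_iff`, `isLev₂_loc_iff` : the statements of `helper59_BInterface2` (B-AR-DIC-L);
* `isLev₁_comp_iff`, `isLev₂_comp_iff` : the generic transport along an isomorphism.

Inputs: `helper51` (open subgroups of the local Galois group = pull-backs of global levels,
Krasner), `helper69` (normal closure), `helper77` (`fixingSubgroup_mem_galLevels`).
-/

set_option autoImplicit false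

open groupCohomology ExtCitation
open scoped NumberField

noncomputable section

namespace Fermat.Agent.S55.helper30

open Fermat.Agent.S55 Fermat.Agent.S55.helper59

section localfield

variable (q : ℕ) [Fact q.Prime] (K : IntermediateField ℚ_[q] (PadicAlgCl q))

/-- a finite extension of `ℚ_q` is contained, after extending scalars to `K`, in a finite normal
extension of `K` -/
theorem exists_galLevel_le [FiniteDimensional ℚ_[q] K]
    (K₁ : IntermediateField ℚ_[q] (PadicAlgCl q)) [FiniteDimensional ℚ_[q] K₁] :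
    ∃ M ∈ (helper8.galLevels K (PadicAlgCl q)).mem,
      ∀ τ ∈ M, (τ.restrictScalars ℚ_[q] : PadicAlgCl q ≃ₐ[ℚ_[q]] PadicAlgCl q) ∈
        K₁.fixingSubgroup := by
  have hle : K ≤ K ⊔ K₁ := le_sup_left
  set M₀ : IntermediateField K (PadicAlgCl q) := IntermediateField.extendScalars hle with hM₀
  have hfin : FiniteDimensional ℚ_[q] ↥(K ⊔ K₁) := IntermediateField.finiteDimensional_sup K K₁
  have hfin' : FiniteDimensional ℚ_[q] ↥M₀ := hfin
  have hfinK : FiniteDimensional K ↥M₀ := FiniteDimensional.right ℚ_[q] K ↥M₀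
  have hAC : IsAlgClosure K (PadicAlgCl q) := by
    have h1 : Algebra.IsAlgebraic ℚ_[q] (PadicAlgCl q) := PadicAlgCl.isAlgebraic q
    exact ⟨inferInstance, Algebra.IsAlgebraic.tower_top (K := ℚ_[q]) K⟩
  have hN : Normal K (PadicAlgCl q) := IsAlgClosure.normal K (PadicAlgCl q)
  refine ⟨(IntermediateField.normalClosure K M₀ (PadicAlgCl q)).fixingSubgroup,
    helper77.fixingSubgroup_mem_galLevels K (PadicAlgCl q) _, fun τ hτ => ?_⟩
  rw [IntermediateField.mem_fixingSubgroup_iff] at hτ ⊢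
  intro x hx
  have hx' : x ∈ M₀ := (le_sup_right : K₁ ≤ K ⊔ K₁) hx
  exact hτ x (IntermediateField.le_normalClosure M₀ hx')

/-- every Galois level of `Gal(Ω/K)` contains the trace of the fixing subgroup of a finite
extension of `ℚ_q` -/
theorem exists_finite_le_galLevel [FiniteDimensional ℚ_[q] K]
    (M : Subgroup (PadicAlgCl q ≃ₐ[K] PadicAlgCl q))
    (hM : M ∈ (helper8.galLevels K (PadicAlgCl q)).mem) :
    ∃ K₂ : IntermediateField ℚ_[q] (PadicAlgCl q), FiniteDimensional ℚ_[q] K₂ ∧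
      ∀ τ : PadicAlgCl q ≃ₐ[K] PadicAlgCl q,
        (τ.restrictScalars ℚ_[q] : PadicAlgCl q ≃ₐ[ℚ_[q]] PadicAlgCl q) ∈ K₂.fixingSubgroup →
          τ ∈ M := by
  obtain ⟨-, M₀, hM₀, rfl⟩ := hM
  have hfin : FiniteDimensional ℚ_[q] ↥M₀ := FiniteDimensional.trans ℚ_[q] K ↥M₀
  refine ⟨M₀.restrictScalars ℚ_[q], hfin, fun τ hτ => ?_⟩
  rw [IntermediateField.mem_fixingSubgroup_iff] at hτ ⊢
  intro x hx
  exact hτ x hx

end localfield

section generic

variable {G H : Type*} [Group G] [Group H] (𝒩 : Levels G) (ℳ : Levels H) (e : G ≃* H)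
  (h₁ : ∀ N ∈ 𝒩.mem, ∃ M ∈ ℳ.mem, ∀ s : G, e s ∈ M → s ∈ N)
  (h₂ : ∀ M ∈ ℳ.mem, ∃ N ∈ 𝒩.mem, ∀ s ∈ N, e s ∈ M)

include h₁ h₂ in
/-- level-constancy transports along an isomorphism matching the levels up to cofinality -/
theorem isLev₁_comp_iff {X : Type*} (f : H → X) :
    IsLev₁ 𝒩 (fun s => f (e s)) ↔ IsLev₁ ℳ f := by
  constructor
  · rintro ⟨N, hN, h⟩
    obtain ⟨M, hM, hMN⟩ := h₁ N hN
    refine ⟨M, hM, fun g s hs => ?_⟩
    have h3 := h (e.symm g) (e.symm s) (hMN _ (by rwa [MulEquiv.apply_symm_apply]))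
    simpa using h3
  · rintro ⟨M, hM, h⟩
    obtain ⟨N, hN, hNM⟩ := h₂ M hM
    refine ⟨N, hN, fun g s hs => ?_⟩
    simp only [map_mul]
    exact h (e g) (e s) (hNM s hs)

include h₁ h₂ in
theorem isLev₂_comp_iff {X : Type*} (f : H × H → X) :
    IsLev₂ 𝒩 (fun s => f (e s.1, e s.2)) ↔ IsLev₂ ℳ f := by
  constructor
  · rintro ⟨N, hN, h⟩
    obtain ⟨M, hM, hMN⟩ := h₁ N hN
    refine ⟨M, hM, fun g₁ g₂ s₁ hs₁ s₂ hs₂ => ?_⟩
    have h3 := h (e.symm g₁) (e.symm g₂) (e.symm s₁)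
      (hMN _ (by rwa [MulEquiv.apply_symm_apply])) (e.symm s₂)
      (hMN _ (by rwa [MulEquiv.apply_symm_apply]))
    simpa using h3
  · rintro ⟨M, hM, h⟩
    obtain ⟨N, hN, hNM⟩ := h₂ M hM
    refine ⟨N, hN, fun g₁ g₂ s₁ hs₁ s₂ hs₂ => ?_⟩
    simp only [map_mul]
    exact h (e g₁) (e g₂) (e s₁) (hNM s₁ hs₁) (e s₂) (hNM s₂ hs₂)

end generic

section arith

attribute [local instance] Fermat.Agent.S55.helper59.factOfPrimes

local notation "Qbar" => AlgebraicClosure ℚ

variable {S : Finset Nat.Primes} {F : IntermediateField ℚ Qbar}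
  [FiniteDimensional ℚ F] {𝒩 : Levels (UF F)} {ι : Type}
  {L : LocalData (UF F) 𝒩 ι}

omit [FiniteDimensional ℚ F] in
/-- the global image of a local element, in terms of `locEquiv` -/
theorem r_eq_localGaloisToGlobal (hL : IsArith S F L) (w : ι) (s : L.Gv w) :
    (primeLocalToGlobal (hL.q w)).comp (hL.j w) s =
      localGaloisToGlobal (hL.q w : ℕ)
        ((hL.locEquiv w s).restrictScalars ℚ_[((hL.q w : ℕ))]) := rfl

/-- B-AR-DIC-L, cofinality (1): every local level contains the pull-back of a Galois level -/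
theorem exists_galLevel_comap_le (hL : IsArith S F L) (w : ι) (N : Subgroup (L.Gv w))
    (hN : N ∈ (L.lev w).mem) :
    ∃ M ∈ (helper8.galLevels (hL.Kw w) (PadicAlgCl (hL.q w : ℕ))).mem,
      ∀ s : L.Gv w, hL.locEquiv w s ∈ M → s ∈ N := by
  have hfd := hL.finiteDimensional_Kw w
  obtain ⟨N', ⟨E, hE, -, rfl⟩, hle⟩ := hL.lev_le w N hN
  obtain ⟨K₁, hK₁, hK₁E⟩ :=
    helper51.exists_finiteDimensional_fixingSubgroup_eq_comap (hL.q w : ℕ) E
  obtain ⟨M, hM, hMK⟩ := exists_galLevel_le (hL.q w : ℕ) (hL.Kw w) K₁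
  refine ⟨M, hM, fun s hs => hle ?_⟩
  have h1 := hMK _ hs
  rw [hK₁E, Subgroup.mem_comap] at h1
  rw [Subgroup.mem_comap, r_eq_localGaloisToGlobal]
  exact h1

/-- B-AR-DIC-L, cofinality (2): every Galois level contains the image of a local level -/
theorem exists_lev_le_comap (hL : IsArith S F L) (w : ι)
    (M : Subgroup (PadicAlgCl (hL.q w : ℕ) ≃ₐ[hL.Kw w] PadicAlgCl (hL.q w : ℕ)))
    (hM : M ∈ (helper8.galLevels (hL.Kw w) (PadicAlgCl (hL.q w : ℕ))).mem) :
    ∃ N ∈ (L.lev w).mem, ∀ s ∈ N, hL.locEquiv w s ∈ M := by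
  have hfd := hL.finiteDimensional_Kw w
  obtain ⟨K₂, hK₂, hK₂M⟩ := exists_finite_le_galLevel (hL.q w : ℕ) (hL.Kw w) M hM
  obtain ⟨E₀, hE₀, hE₀K⟩ :=
    helper51.exists_finiteDimensional_comap_fixingSubgroup_le (hL.q w : ℕ) K₂
  -- normal closure
  have hNQ : Normal ℚ Qbar := helper69.normal_Qbar
  set E : IntermediateField ℚ Qbar := IntermediateField.normalClosure ℚ E₀ Qbar with hE
  have hEfin : FiniteDimensional ℚ E := normalClosure.is_finiteDimensional ℚ E₀ Qbar
  have hEn : E.fixingSubgroup.Normal :=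
    helper69.fixingSubgroup_normal_of_normal E (normalClosure.normal ℚ E₀ Qbar)
  have hle : E.fixingSubgroup ≤ E₀.fixingSubgroup :=
    IntermediateField.fixingSubgroup_antitone (IntermediateField.le_normalClosure E₀)
  obtain ⟨N, hN, hNle⟩ := hL.le_lev w
    (E.fixingSubgroup.comap ((primeLocalToGlobal (hL.q w)).comp (hL.j w))) ⟨E, hEfin, hEn, rfl⟩
  refine ⟨N, hN, fun s hs => hK₂M _ (hE₀K ?_)⟩
  have h1 := hNle hs
  rw [Subgroup.mem_comap, r_eq_localGaloisToGlobal] at h1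
  rw [Subgroup.mem_comap]
  exact hle h1

theorem isLev₁_loc_iff (hL : IsArith S F L) (w : ι) {X : Type*}
    (f : (PadicAlgCl (hL.q w : ℕ) ≃ₐ[hL.Kw w] PadicAlgCl (hL.q w : ℕ)) → X) :
    IsLev₁ (L.lev w) (fun s => f (hL.locEquiv w s)) ↔
      IsLev₁ (helper8.galLevels (hL.Kw w) (PadicAlgCl (hL.q w : ℕ))) f :=
  isLev₁_comp_iff (L.lev w) _ (hL.locEquiv w) (exists_galLevel_comap_le hL w)
    (exists_lev_le_comap hL w) f

theorem isLev₂_loc_iff (hL : IsArith S F L) (w : ι) {X : Type*}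
    (f : (PadicAlgCl (hL.q w : ℕ) ≃ₐ[hL.Kw w] PadicAlgCl (hL.q w : ℕ)) ×
      (PadicAlgCl (hL.q w : ℕ) ≃ₐ[hL.Kw w] PadicAlgCl (hL.q w : ℕ)) → X) :
    IsLev₂ (L.lev w) (fun s => f (hL.locEquiv w s.1, hL.locEquiv w s.2)) ↔
      IsLev₂ (helper8.galLevels (hL.Kw w) (PadicAlgCl (hL.q w : ℕ))) f :=
  isLev₂_comp_iff (L.lev w) _ (hL.locEquiv w) (exists_galLevel_comap_le hL w)
    (exists_lev_le_comap hL w) f

end arith

end Fermat.Agent.S55.helper30
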