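import Fermat.Agent.S55.helper30_BArKum
import Fermat.Agent.S55.helper30_BArDicL

/-!
# S55 module B, B-AR-KUM-L (helper30, task 364): `card_Z1_loc`

`#H¹(F_w, ℤ/p) = #(F_wˣ/p) = p ^ (2 + [q_w = p][F_w : ℚ_q])` for the local groups of an
arithmetic datum: the statement `card_Z1_loc` of `helper59_BInterface2`, VERBATIM, from the
Kummer count `helper30.card_Z1_loc_of` (Kummer theory + LOC-1) and the local level dictionary
`helper30.isLev₁_loc_iff`.
-/

set_option autoImplicit false

open groupCohomology ExtCitation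
open scoped NumberField

noncomputable section

namespace Fermat.Agent.S55.helper30

open Fermat.Agent.S55 Fermat.Agent.S55.helper59

attribute [local instance] Fermat.Agent.S55.helper59.factOfPrimes

local notation "Qbar" => AlgebraicClosure ℚ

variable {p : ℕ} [Fact p.Prime] {S : Finset Nat.Primes} {F : IntermediateField ℚ Qbar}
  [FiniteDimensional ℚ F] {𝒩 : Levels (UF F)} {ι : Type} [Fintype ι]
  {L : LocalData (UF F) 𝒩 ι}

set_option linter.unusedSectionVars false in
/-- local: `#H¹(F_w, ℤ/p) = #(F_wˣ/p) = p^(2 + [q_w = p][F_w : ℚ_q])` (LOC-1 + Kummer) -/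
theorem card_Z1_loc (hL : IsArith S F L) (ζ : (↥F)ˣ) (hζ : IsPrimitiveRoot ζ p) (w : ι) :
    Nat.card ↥(Z1 (L.lev w) (T (ZMod p) (L.Gv w))) =
      p ^ (2 + if p = (hL.q w : ℕ) then Module.finrank ℚ_[((hL.q w : ℕ))] (hL.Kw w) else 0) :=
  card_Z1_loc_of hL ζ hζ w (fun f => isLev₁_loc_iff hL w f)

end Fermat.Agent.S55.helper30
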