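import Mathlib
import Fermat.Agent.S55.helper59_BDefs2
import Fermat.Agent.S55.helper25_BAbs1s

/-!
# S55 module B, package B-AR-SHA-abs (helper38, task 367)

Pure linear algebra over a finite field: the Sha-pairing
`⟨x, z⟩ = ∑_w inv_w (res_w α)`, `d α = x ∪ z`, on `Sha¹ × Sha²` (trivial coefficients) is
well defined (reciprocity) and bilinear, and factors through `Sha² = sha2Z / B²`.  If its left
kernel is trivial and `#Sha² ≤ #Sha¹`, then it is perfect; in particular its right kernel is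
trivial.

Main statement: `sha_right_of_card` (= `helper59.Interface2.sha_right_of_card`, verbatim).
-/

set_option autoImplicit false
set_option linter.unusedSectionVars false
set_option linter.style.haveILetI false

universe u

open groupCohomology

noncomputable section

namespace Fermat.Agent.S55.helper38

open Fermat.Agent.S55 Fermat.Agent.S55.helper59

section ShaAbs

variable {k : Type u} [Field k] {G : Type u} [Group G] {𝒩' : Levels G} {ι' : Type}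
  [Fintype ι'] (L' : LocalData G 𝒩' ι')
  (inv : ∀ w : ι', (L'.Gv w × L'.Gv w → k) →ₗ[k] k)

/-- the sum of the local invariants of the restrictions of a global 2-cochain -/
def sumInv : (G × G → k) →ₗ[k] k where
  toFun α := ∑ w, inv w (fun s => α (L'.r w s.1, L'.r w s.2))
  map_add' α β := by
    rw [← Finset.sum_add_distrib]
    refine Finset.sum_congr rfl fun w _ => ?_
    rw [← map_add]
    rfl
  map_smul' c α := by
    rw [RingHom.id_apply, Finset.smul_sum]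
    refine Finset.sum_congr rfl fun w _ => ?_
    rw [← map_smul]
    rfl

lemma sumInv_apply (α : G × G → k) :
    sumInv L' inv α = ∑ w, inv w (fun s => α (L'.r w s.1, L'.r w s.2)) := rfl

/-- reciprocity: `sumInv` only depends on `d α` for level 2-cochains `α` -/
lemma sumInv_eq_of_d₂₃_eq
    (hrec : ∀ z ∈ Z2 𝒩' (T k G), ∑ w, inv w (fun s => z (L'.r w s.1, L'.r w s.2)) = 0)
    {α β : G × G → k} (hα : α ∈ C2 𝒩' (T k G)) (hβ : β ∈ C2 𝒩' (T k G))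
    (h : (d₂₃ (T k G)).hom α = (d₂₃ (T k G)).hom β) :
    sumInv L' inv α = sumInv L' inv β := by
  have hz : α - β ∈ Z2 𝒩' (T k G) :=
    ⟨(C2 𝒩' (T k G)).sub_mem hα hβ, LinearMap.mem_ker.2 (by rw [map_sub, h, sub_self])⟩
  have h0 : sumInv L' inv (α - β) = 0 := hrec _ hz
  rw [map_sub, sub_eq_zero] at h0
  exact h0

/-- `x ∪ z` is a level coboundary for `x ∈ Z¹`, `z ∈ Z²` if `H³ = 0` -/
lemma exists_primitive_cup₁₂ (h3 : Z3 𝒩' (T k G) ≤ B3 𝒩' (T k G))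
    {x : G → k} (hx : x ∈ Z1 𝒩' (T k G)) {z : G × G → k} (hz : z ∈ Z2 𝒩' (T k G)) :
    ∃ α ∈ C2 𝒩' (T k G), (d₂₃ (T k G)).hom α = cup₁₂ x z := by
  have hmem : cup₁₂ x z ∈ Z3 𝒩' (T k G) :=
    ⟨helper25.isLev₃_cup₁₂ 𝒩' hx.1 hz.1,
      LinearMap.mem_ker.2 (helper25.d₃₄_cup₁₂ (LinearMap.mem_ker.1 hx.2)
        (LinearMap.mem_ker.1 hz.2))⟩
  obtain ⟨α, hα, hd⟩ := h3 hmem
  exact ⟨α, hα, hd⟩

lemma cup₁₂_add_left (x x' : G → k) (z : G × G → k) :
    cup₁₂ (x + x') z = cup₁₂ x z + cup₁₂ x' z := by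
  funext ⟨g₁, g₂, g₃⟩
  simp only [cup₁₂_apply, Pi.add_apply]
  ring

lemma cup₁₂_smul_left (c : k) (x : G → k) (z : G × G → k) :
    cup₁₂ (c • x) z = c • cup₁₂ x z := by
  funext ⟨g₁, g₂, g₃⟩
  simp only [cup₁₂_apply, Pi.smul_apply, smul_eq_mul]
  ring

lemma cup₁₂_add_right (x : G → k) (z z' : G × G → k) :
    cup₁₂ x (z + z') = cup₁₂ x z + cup₁₂ x z' := by
  funext ⟨g₁, g₂, g₃⟩
  simp only [cup₁₂_apply, Pi.add_apply]
  ring

lemma cup₁₂_smul_right (c : k) (x : G → k) (z : G × G → k) :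
    cup₁₂ x (c • z) = c • cup₁₂ x z := by
  funext ⟨g₁, g₂, g₃⟩
  simp only [cup₁₂_apply, Pi.smul_apply, smul_eq_mul]
  ring

open Classical in
/-- the value of the Sha-pairing (junk value `0` if `x ∪ z` has no level primitive) -/
def shaVal (x : G → k) (z : G × G → k) : k :=
  if h : ∃ α ∈ C2 𝒩' (T k G), (d₂₃ (T k G)).hom α = cup₁₂ x z then sumInv L' inv h.choose
  else 0

lemma shaVal_eq
    (hrec : ∀ z ∈ Z2 𝒩' (T k G), ∑ w, inv w (fun s => z (L'.r w s.1, L'.r w s.2)) = 0)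
    {x : G → k} {z : G × G → k} {α : G × G → k} (hα : α ∈ C2 𝒩' (T k G))
    (hd : (d₂₃ (T k G)).hom α = cup₁₂ x z) :
    shaVal L' inv x z = sumInv L' inv α := by
  have h : ∃ α ∈ C2 𝒩' (T k G), (d₂₃ (T k G)).hom α = cup₁₂ x z := ⟨α, hα, hd⟩
  rw [shaVal, dif_pos h]
  exact sumInv_eq_of_d₂₃_eq L' inv hrec h.choose_spec.1 hα (h.choose_spec.2.trans hd.symm)

/-- the Sha-pairing as a bilinear map `sha1Z × sha2Z → k` -/
lemma exists_shaPairing
    (hrec : ∀ z ∈ Z2 𝒩' (T k G), ∑ w, inv w (fun s => z (L'.r w s.1, L'.r w s.2)) = 0)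
    (h3 : Z3 𝒩' (T k G) ≤ B3 𝒩' (T k G)) :
    ∃ Φ : ↥(sha1Z (k := k) L') →ₗ[k] ↥(sha2Z (k := k) L') →ₗ[k] k,
      ∀ (x : ↥(sha1Z (k := k) L')) (z : ↥(sha2Z (k := k) L')) (α : G × G → k),
        α ∈ C2 𝒩' (T k G) → (d₂₃ (T k G)).hom α = cup₁₂ (x : G → k) (z : G × G → k) →
        Φ x z = sumInv L' inv α := by
  have hex : ∀ (x : ↥(sha1Z (k := k) L')) (z : ↥(sha2Z (k := k) L')),
      ∃ α ∈ C2 𝒩' (T k G), (d₂₃ (T k G)).hom α = cup₁₂ (x : G → k) (z : G × G → k) :=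
    fun x z => exists_primitive_cup₁₂ h3 (((mem_sha1Z_iff L' _).1 x.2).1)
      (((mem_sha2Z_iff L' _).1 z.2).1)
  refine ⟨LinearMap.mk₂ k (fun x z => shaVal L' inv (x : G → k) (z : G × G → k))
    ?_ ?_ ?_ ?_, fun x z α hα hd => ?_⟩
  · intro x x' z
    obtain ⟨α, hα, hd⟩ := hex x z
    obtain ⟨α', hα', hd'⟩ := hex x' z
    rw [shaVal_eq L' inv hrec hα hd, shaVal_eq L' inv hrec hα' hd',
      shaVal_eq L' inv hrec ((C2 𝒩' (T k G)).add_mem hα hα')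
        (by rw [map_add, hd, hd', Submodule.coe_add, cup₁₂_add_left]), map_add]
  · intro c x z
    obtain ⟨α, hα, hd⟩ := hex x z
    rw [shaVal_eq L' inv hrec hα hd,
      shaVal_eq L' inv hrec ((C2 𝒩' (T k G)).smul_mem c hα)
        (by rw [map_smul, hd, Submodule.coe_smul, cup₁₂_smul_left]), map_smul]
  · intro x z z'
    obtain ⟨α, hα, hd⟩ := hex x z
    obtain ⟨α', hα', hd'⟩ := hex x z'
    rw [shaVal_eq L' inv hrec hα hd, shaVal_eq L' inv hrec hα' hd',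
      shaVal_eq L' inv hrec ((C2 𝒩' (T k G)).add_mem hα hα')
        (by rw [map_add, hd, hd', Submodule.coe_add, cup₁₂_add_right]), map_add]
  · intro c x z
    obtain ⟨α, hα, hd⟩ := hex x z
    rw [shaVal_eq L' inv hrec hα hd,
      shaVal_eq L' inv hrec ((C2 𝒩' (T k G)).smul_mem c hα)
        (by rw [map_smul, hd, Submodule.coe_smul, cup₁₂_smul_right]), map_smul]
  · rw [LinearMap.mk₂_apply]
    exact shaVal_eq L' inv hrec hα hd

/-- the Sha-pairing kills level coboundaries in the second variable -/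
lemma sumInv_eq_zero_of_mem_B2 {x : G → k} (hx : x ∈ sha1Z (k := k) L') {z : G × G → k}
    (hz : z ∈ B2 𝒩' (T k G)) :
    ∃ α ∈ C2 𝒩' (T k G), (d₂₃ (T k G)).hom α = cup₁₂ x z ∧ sumInv L' inv α = 0 := by
  obtain ⟨hxZ, hxloc⟩ := (mem_sha1Z_iff L' x).1 hx
  obtain ⟨a, ha, rfl⟩ := hz
  refine ⟨-cup₁₁ x a, (C2 𝒩' (T k G)).neg_mem (helper25.isLev₂_cup₁₁ 𝒩' hxZ.1 ha), ?_, ?_⟩
  · rw [map_neg, helper25.d₂₃_cup₁₁ (LinearMap.mem_ker.1 hxZ.2), neg_neg]
  · rw [sumInv_apply]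
    refine Finset.sum_eq_zero fun w _ => ?_
    have h0 : (fun s : L'.Gv w × L'.Gv w => (-cup₁₁ x a) (L'.r w s.1, L'.r w s.2)) = 0 := by
      funext s
      rw [Pi.neg_apply, cup₁₁_apply, hxloc w s.1, zero_mul, neg_zero]
      rfl
    rw [h0, map_zero]

end ShaAbs

section Main

variable {k : Type u} [Field k] [Finite k] {G : Type u} [Group G] {𝒩' : Levels G} {ι' : Type}
  [Fintype ι'] (L' : LocalData G 𝒩' ι')
  (inv : ∀ w : ι', (L'.Gv w × L'.Gv w → k) →ₗ[k] k)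

/-- B-AR-SHA-abs: right kernel from left kernel and `#Sha² ≤ #Sha¹`. -/
theorem sha_right_of_card (I1 : ∀ w, ∀ c ∈ Z2 (L'.lev w) (T k (L'.Gv w)),
      inv w c = 0 ↔ c ∈ B2 (L'.lev w) (T k (L'.Gv w)))
    (hrec : ∀ z ∈ Z2 𝒩' (T k G), ∑ w, inv w (fun s => z (L'.r w s.1, L'.r w s.2)) = 0)
    (h3 : Z3 𝒩' (T k G) ≤ B3 𝒩' (T k G))
    (hgfin : Finite ↥(Z1 𝒩' (T k G)))
    (hleft : ∀ x ∈ Z1 𝒩' (T k G), (∀ w, ∀ s : L'.Gv w, x (L'.r w s) = 0) → x ≠ 0 →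
      ∃ z ∈ Z2 𝒩' (T k G), (∀ w, (fun s : L'.Gv w × L'.Gv w => z (L'.r w s.1, L'.r w s.2)) ∈
          B2 (L'.lev w) (T k (L'.Gv w))) ∧
        ∃ α ∈ C2 𝒩' (T k G), (d₂₃ (T k G)).hom α = cup₁₂ x z ∧
          ∑ w, inv w (fun s => α (L'.r w s.1, L'.r w s.2)) ≠ 0)
    (hfin2 : Finite (↥(sha2Z (k := k) L') ⧸
        (B2 𝒩' (T k G)).comap (sha2Z (k := k) L').subtype))
    (hcard : Nat.card (↥(sha2Z (k := k) L') ⧸
        (B2 𝒩' (T k G)).comap (sha2Z (k := k) L').subtype) ≤ Nat.card ↥(sha1Z (k := k) L')) :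
    ∀ z ∈ Z2 𝒩' (T k G), (∀ w, (fun s : L'.Gv w × L'.Gv w => z (L'.r w s.1, L'.r w s.2)) ∈
        B2 (L'.lev w) (T k (L'.Gv w))) → z ∉ B2 𝒩' (T k G) →
      ∃ x ∈ Z1 𝒩' (T k G), (∀ w, ∀ s : L'.Gv w, x (L'.r w s) = 0) ∧
        ∃ α ∈ C2 𝒩' (T k G), (d₂₃ (T k G)).hom α = cup₁₂ x z ∧
          ∑ w, inv w (fun s => α (L'.r w s.1, L'.r w s.2)) ≠ 0 := by
  classical
  obtain ⟨Φ, hΦ⟩ := exists_shaPairing L' inv hrec h3
  -- descend to the quotient `W = sha2Z / B2`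
  set P : Submodule k ↥(sha2Z (k := k) L') :=
    (B2 𝒩' (T k G)).comap (sha2Z (k := k) L').subtype with hP
  have hker : P ≤ LinearMap.ker Φ.flip := by
    intro z hz
    rw [LinearMap.mem_ker]
    ext x
    obtain ⟨α, hα, hd, h0⟩ := sumInv_eq_zero_of_mem_B2 L' inv x.2 (z := (z : G × G → k)) hz
    rw [LinearMap.flip_apply, hΦ x z α hα hd, h0]
    rfl
  let Ψ : ↥(sha1Z (k := k) L') →ₗ[k] Module.Dual k (↥(sha2Z (k := k) L') ⧸ P) :=
    (P.liftQ Φ.flip hker).flip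
  have hΨ : ∀ x z, Ψ x (Submodule.Quotient.mk z) = Φ x z := fun x z => rfl
  -- injectivity of `Ψ` from `hleft`
  have hinj : Function.Injective Ψ := by
    rw [← LinearMap.ker_eq_bot, LinearMap.ker_eq_bot']
    intro x hx
    by_contra hne
    obtain ⟨hxZ, hxloc⟩ := (mem_sha1Z_iff L' _).1 x.2
    have hne' : (x : G → k) ≠ 0 := fun h => hne (Subtype.ext h)
    obtain ⟨z, hz, hzloc, α, hα, hd, hsum⟩ := hleft x hxZ hxloc hne'
    have hz' : z ∈ sha2Z (k := k) L' := (mem_sha2Z_iff L' z).2 ⟨hz, hzloc⟩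
    have h1 : Ψ x (Submodule.Quotient.mk ⟨z, hz'⟩) = sumInv L' inv α := by
      rw [hΨ]
      exact hΦ x ⟨z, hz'⟩ α hα hd
    rw [hx, LinearMap.zero_apply] at h1
    exact hsum h1.symm
  -- cardinalities
  haveI : Finite ↥(sha1Z (k := k) L') := by
    have hle : sha1Z (k := k) L' ≤ Z1 𝒩' (T k G) := inf_le_left
    exact Finite.of_injective (Submodule.inclusion hle) (Submodule.inclusion_injective hle)
  haveI : Finite (↥(sha2Z (k := k) L') ⧸ P) := hfin2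
  haveI : Module.Finite k (↥(sha2Z (k := k) L') ⧸ P) := Module.Finite.of_finite
  have hdual : Nat.card (Module.Dual k (↥(sha2Z (k := k) L') ⧸ P)) =
      Nat.card (↥(sha2Z (k := k) L') ⧸ P) :=
    (Nat.card_congr
      (Module.Free.chooseBasis k (↥(sha2Z (k := k) L') ⧸ P)).toDualEquiv.toEquiv).symm
  haveI : Finite (Module.Dual k (↥(sha2Z (k := k) L') ⧸ P)) :=
    Finite.of_equiv _
      (Module.Free.chooseBasis k (↥(sha2Z (k := k) L') ⧸ P)).toDualEquiv.toEquiv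
  have hbij : Function.Bijective Ψ :=
    hinj.bijective_of_nat_card_le (hdual.trans_le hcard)
  -- conclusion
  intro z hz hzloc hzB
  have hz' : z ∈ sha2Z (k := k) L' := (mem_sha2Z_iff L' z).2 ⟨hz, hzloc⟩
  have hmk : (Submodule.Quotient.mk ⟨z, hz'⟩ : ↥(sha2Z (k := k) L') ⧸ P) ≠ 0 := by
    rw [Ne, Submodule.Quotient.mk_eq_zero]
    exact hzB
  obtain ⟨f, hf⟩ : ∃ f : Module.Dual k (↥(sha2Z (k := k) L') ⧸ P),
      f (Submodule.Quotient.mk ⟨z, hz'⟩) ≠ 0 := by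
    by_contra hcon
    push Not at hcon
    exact hmk ((Module.forall_dual_apply_eq_zero_iff k _).1 hcon)
  obtain ⟨x, rfl⟩ := hbij.2 f
  obtain ⟨hxZ, hxloc⟩ := (mem_sha1Z_iff L' _).1 x.2
  obtain ⟨α, hα, hd⟩ := exists_primitive_cup₁₂ h3 hxZ hz
  refine ⟨x, hxZ, hxloc, α, hα, hd, ?_⟩
  have h1 : Ψ x (Submodule.Quotient.mk ⟨z, hz'⟩) = sumInv L' inv α := by
    rw [hΨ]
    exact hΦ x ⟨z, hz'⟩ α hα hd
  rw [h1] at hf
  exact hf

end Main

end Fermat.Agent.S55.helper38
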