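import Fermat.Agent.S55.helper49_BArLoc
import Fermat.Agent.S55.helper30_BArDicL

/-!
# S55 module B, package B-AR-LOC, final form (helper49, task 361)

`exists_local_inv` : the statement of `helper59_BInterface2` VERBATIM, unconditional
(`exists_local_inv_of_dic` + the local level dictionary `helper30.isLev₁_loc_iff`,
`helper30.isLev₂_loc_iff`).
-/

set_option autoImplicit false

open groupCohomology ExtCitation
open scoped NumberField

noncomputable section

namespace Fermat.Agent.S55.helper49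

open Fermat.Agent.S55 Fermat.Agent.S55.helper59

local instance bl_factOfPrimes' (q : Nat.Primes) : Fact (q : ℕ).Prime := ⟨q.2⟩

local notation "Qbar" => AlgebraicClosure ℚ

variable {p : ℕ} [Fact p.Prime] {S : Finset Nat.Primes} {F : IntermediateField ℚ Qbar}
  [FiniteDimensional ℚ F] {𝒩 : Levels (UF F)} {ι : Type} [Fintype ι]
  {L : LocalData (UF F) 𝒩 ι}

omit [Fintype ι] in
/-- fields `inv`, (I1), (I2), `loc_fin` of `BaseInput`, with the compatibility `InvCompat`. -/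
theorem exists_local_inv (hL : IsArith S F L) (Inv : helper11.LocInv)
    (hLD : HypLocalDuality Inv p) (ζ : (↥F)ˣ) (hζ : IsPrimitiveRoot ζ p) :
    ∃ inv : ∀ w : ι, (L.Gv w × L.Gv w → ZMod p) →ₗ[ZMod p] ZMod p,
      InvCompat Inv ζ hL inv ∧
      (∀ w, ∀ c ∈ Z2 (L.lev w) (T (ZMod p) (L.Gv w)),
        inv w c = 0 ↔ c ∈ B2 (L.lev w) (T (ZMod p) (L.Gv w))) ∧
      (∀ w, ∃ c ∈ Z2 (L.lev w) (T (ZMod p) (L.Gv w)), inv w c ≠ 0) ∧
      (∀ w, ∀ x ∈ Z1 (L.lev w) (T (ZMod p) (L.Gv w)),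
        (∀ y ∈ Z1 (L.lev w) (T (ZMod p) (L.Gv w)), inv w (cup₁₁ x y) = 0) → x = 0) ∧
      (∀ w, Module.Finite (ZMod p) ↥(Z1 (L.lev w) (T (ZMod p) (L.Gv w)))) :=
  exists_local_inv_of_dic hL Inv hLD ζ hζ
    (fun w f => helper30.isLev₁_loc_iff hL w f) (fun w f => helper30.isLev₂_loc_iff hL w f)

end Fermat.Agent.S55.helper49
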