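import Fermat.Agent.S55.helper50_ChevMisc

/-!
# S55 / GLOB / G7-MISC (helper50), part 2: unramified primes, `U⁽¹⁾`, parity of the degree

Statements M1 -- M3 verbatim from `helper89_G7Plan2.lean`, section `Misc`.
-/

set_option autoImplicit false
set_option linter.unusedSectionVars false
set_option linter.unusedVariables false

open scoped TensorProduct NumberField IntermediateField
open IsDedekindDomain

namespace Fermat.Agent.S55.helper50

open Fermat.Agent.S55.helper73 Fermat.Agent.S55.helper89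

section Misc

variable (K : Type*) [Field K] [NumberField K]

/-- M3 : a number field containing a primitive `p`-th root of unity, `p` odd, has even degree. -/
theorem even_finrank_of_isPrimitiveRoot (p : ℕ) (hp : p.Prime) (hp2 : p ≠ 2) (ζ : K)
    (hζ : IsPrimitiveRoot ζ p) : Even (Module.finrank ℚ K) := by
  have hint : IsIntegral ℚ ζ := Algebra.IsIntegral.isIntegral ζ
  have hpos : 0 < p := hp.pos
  have h1 : Module.finrank ℚ ℚ⟮ζ⟯ = p - 1 := by
    rw [IntermediateField.adjoin.finrank hint, ← Polynomial.cyclotomic_eq_minpoly_rat hζ hpos,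
      Polynomial.natDegree_cyclotomic, Nat.totient_prime hp]
  have h2 := Module.finrank_mul_finrank ℚ ℚ⟮ζ⟯ K
  rw [← h2, h1]
  exact Even.mul_right (hp.even_sub_one hp2) _

/-- the valuation of a natural number, via `intValuation` -/
theorem valuation_natCast_eq (P : HeightOneSpectrum (𝓞 K)) (n : ℕ) :
    P.valuation K (n : K) = P.intValuation (n : 𝓞 K) := by
  rw [← P.valuation_of_algebraMap (K := K)]
  simp

/-- an element of valuation `exp (-1)` -/
theorem intValuation_eq_exp_neg_one_iff' (P : HeightOneSpectrum (𝓞 K)) (x : 𝓞 K) :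
    P.intValuation x = WithZero.exp (-1 : ℤ) ↔ x ∈ P.asIdeal ∧ x ∉ P.asIdeal ^ 2 := by
  rw [← P.intValuation_le_pow_iff_mem x 2, ← P.intValuation_lt_one_iff_mem]
  constructor
  · intro h
    rw [h]
    refine ⟨?_, ?_⟩
    · rw [← WithZero.exp_zero, WithZero.exp_lt_exp]; norm_num
    · rw [not_le, WithZero.exp_lt_exp]; norm_num
  · rintro ⟨h1, h2⟩
    have hx : x ≠ 0 := by
      rintro rfl
      exact h2 (by simp)
    rw [P.intValuation_if_neg hx] at h1 h2 ⊢
    rw [← WithZero.exp_zero, WithZero.exp_lt_exp] at h1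
    rw [not_le, WithZero.exp_lt_exp] at h2
    congr 1
    push_cast at h2
    omega

/-- a prime whose square contains the rational prime `q` divides the different -/
theorem dvd_differentIdeal_of_sq (P : HeightOneSpectrum (𝓞 K)) (q : ℕ) (hq : q.Prime)
    (h : (q : 𝓞 K) ∈ P.asIdeal ^ 2) : P.asIdeal ∣ differentIdeal ℤ (𝓞 K) := by
  have : Fact q.Prime := ⟨hq⟩
  have : (Ideal.span {(q : ℤ)}).IsMaximal := Int.ideal_span_isMaximal_of_prime q
  have hbot : Ideal.span {(q : ℤ)} ≠ ⊥ := by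
    rw [Ne, Ideal.span_singleton_eq_bot]
    exact_mod_cast hq.ne_zero
  have h3 : P.asIdeal ^ 2 ∣ (Ideal.span {(q : ℤ)}).map (algebraMap ℤ (𝓞 K)) := by
    rw [Ideal.map_span, Set.image_singleton, Ideal.dvd_span_singleton]
    simpa using h
  have h4 := pow_sub_one_dvd_differentIdeal ℤ P.asIdeal 2 hbot h3
  simpa using h4

/-- M1 : almost all rational primes are unramified in `K`. -/
theorem exists_finset_unram : ∃ R₀ : Finset ℕ, ∀ q : ℕ, q.Prime → q ∉ R₀ →
    ∀ P : HeightOneSpectrum (𝓞 K), (q : 𝓞 K) ∈ P.asIdeal →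
      P.valuation K (q : K) = WithZero.exp (-1 : ℤ) := by
  classical
  have hD : differentIdeal ℤ (𝓞 K) ≠ ⊥ := differentIdeal_ne_bot
  have hN : Ideal.absNorm (differentIdeal ℤ (𝓞 K)) ≠ 0 := by
    rw [Ne, Ideal.absNorm_eq_zero_iff]
    exact hD
  refine ⟨(Ideal.absNorm (differentIdeal ℤ (𝓞 K))).primeFactors, fun q hq hqR P hP => ?_⟩
  rw [valuation_natCast_eq, intValuation_eq_exp_neg_one_iff']
  refine ⟨hP, fun h2 => hqR ?_⟩
  have h3 : P.asIdeal ∣ differentIdeal ℤ (𝓞 K) := dvd_differentIdeal_of_sq K P q hq h2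
  have h4 : ((Ideal.absNorm (differentIdeal ℤ (𝓞 K)) : ℕ) : 𝓞 K) ∈ P.asIdeal :=
    Ideal.dvd_iff_le.1 h3 (Ideal.absNorm_mem _)
  exact Nat.mem_primeFactors.2 ⟨hq, dvd_of_mem K P q hq hP _ h4, hN⟩

/-- M2 : for `q` unramified in `K`, a global unit congruent to `1` modulo all primes over `q`
is in `U⁽¹⁾`. -/
theorem locUnit_mem_oneUnits (q : ℕ) [Fact q.Prime]
    (hunr : ∀ P : HeightOneSpectrum (𝓞 K), (q : 𝓞 K) ∈ P.asIdeal →
      P.valuation K (q : K) = WithZero.exp (-1 : ℤ))
    (b : Kˣ) (hb : ∀ P : HeightOneSpectrum (𝓞 K), (q : 𝓞 K) ∈ P.asIdeal →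
      P.valuation K ((b : K) - 1) < 1) : locUnit q K b ∈ oneUnits q K := by
  have hq : q.Prime := Fact.out
  have hq0 : (q : K) ≠ 0 := by exact_mod_cast hq.ne_zero
  -- `b` is a unit at the primes over `q`
  have hbunit : ∀ P : HeightOneSpectrum (𝓞 K), (q : 𝓞 K) ∈ P.asIdeal →
      P.valuation K (b : K) = 1 := by
    intro P hP
    have e : (b : K) = 1 + ((b : K) - 1) := by ring
    rw [e]
    exact Valuation.map_one_add_of_lt _ (hb P hP)
  refine ⟨(helper24.locUnit_mem_intUnits_iff q K b).2 hbunit,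
    (1 : ℚ_[q]) ⊗ₜ[ℚ] (((b : K) - 1) / (q : K)), ?_, ?_⟩
  · rw [helper24.isIntegral_one_tmul_iff]
    intro P hP
    rw [map_div₀, hunr P hP]
    have h1 : P.valuation K ((b : K) - 1) ≤ WithZero.exp (-1 : ℤ) := by
      have h2 := hb P hP
      rcases eq_or_ne (P.valuation K ((b : K) - 1)) 0 with h0 | h0
      · rw [h0]
        exact zero_le
      · have h3 := WithZero.exp_log h0
        rw [← h3] at h2 ⊢
        rw [← WithZero.exp_zero, WithZero.exp_lt_exp] at h2
        rw [WithZero.exp_le_exp]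
        omega
    exact div_le_one_of_le₀ h1 zero_le
  · have hqe : qElt q K = (1 : ℚ_[q]) ⊗ₜ[ℚ] (q : K) := by
      have h1 : qElt q K = ((q : ℕ) : SemiLoc q K) := by simp [qElt]
      have h2 : ((1 : ℚ_[q]) ⊗ₜ[ℚ] (q : K) : SemiLoc q K) =
          (Algebra.TensorProduct.includeRight : K →ₐ[ℚ] SemiLoc q K) (q : K) := rfl
      rw [h1, h2, map_natCast]
    rw [locUnit_coe, hqe, Algebra.TensorProduct.tmul_mul_tmul, one_mul,
      Algebra.TensorProduct.one_def, ← TensorProduct.tmul_add]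
    congr 1
    field_simp
    ring

end Misc

end Fermat.Agent.S55.helper50
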