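import Fermat.Agent.S55.helper59_BDefs2
import Fermat.Agent.S55.helper25_BAbs1s

/-!
# S55 module B, package B-AR-ISO-abs (helper83): maximal isotropy from the cardinality count

`exists_global₁_of_card`: if the local pairings `(x, y) ↦ inv_w (x ∪ y)` are left non-degenerate
and kill level coboundaries, reciprocity holds, and
`(#Sha¹)² · ∏_w #Z¹(U_w) ≤ (#Z¹(U))²`, then the image of `Z¹(U)` in `∏_w Z¹(U_w)` is its own
orthogonal (field (I6) of `BaseInput`) and equality holds in the count.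
-/

set_option autoImplicit false
set_option linter.unusedSectionVars false
set_option linter.unusedVariables false

universe u

open groupCohomology Module

noncomputable section

namespace Fermat.Agent.S55.helper83.BArIso

open Fermat.Agent.S55 Fermat.Agent.S55.helper59

/-! ### abstract linear algebra -/

section Abstract

variable {k : Type*} [Field k] [Finite k] {P Z : Type*} [AddCommGroup P] [Module k P] [Finite P]
  [AddCommGroup Z] [Module k Z] [Finite Z]

/-- A skew, left non-degenerate form on a finite space `P`, an isotropic linear map `r : Z → P`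
with `(#ker r)² · #P ≤ (#Z)²`: then the range of `r` is its own orthogonal and equality holds. -/
theorem abstract_isotropy (B : LinearMap.BilinForm k P)
    (hleft : ∀ x, (∀ y, B x y = 0) → x = 0)
    (hskew : ∀ x y, B x y = - B y x) (r : Z →ₗ[k] P) (hiso : ∀ a b, B (r a) (r b) = 0)
    (hcard : Nat.card (LinearMap.ker r) ^ 2 * Nat.card P ≤ Nat.card Z ^ 2) :
    (∀ x, (∀ z, B x (r z) = 0) → ∃ z, r z = x) ∧
      Nat.card (LinearMap.ker r) ^ 2 * Nat.card P = Nat.card Z ^ 2 := by
  have : Module.Finite k P := Module.Finite.of_finite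
  have : Module.Finite k Z := Module.Finite.of_finite
  have hB : B.Nondegenerate :=
    ⟨fun x hx => hleft x hx, fun y hy => hleft y (fun x => by rw [hskew, hy x, neg_zero])⟩
  set W := LinearMap.range r with hWdef
  have hWle : W ≤ B.orthogonal W := by
    rintro _ ⟨b, rfl⟩ _ ⟨a, rfl⟩
    exact hiso a b
  have h1 := LinearMap.BilinForm.finrank_orthogonal hB W
  have h2 : finrank k W ≤ finrank k (B.orthogonal W) := Submodule.finrank_mono hWle
  have h3 : finrank k W + finrank k (LinearMap.ker r) = finrank k Z :=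
    LinearMap.finrank_range_add_finrank_ker r
  have hW : finrank k W ≤ finrank k P := Submodule.finrank_le W
  have q2 : 1 < Nat.card k := Finite.one_lt_card
  have cP : Nat.card P = Nat.card k ^ finrank k P := Module.natCard_eq_pow_finrank
  have cZ : Nat.card Z = Nat.card k ^ finrank k Z := Module.natCard_eq_pow_finrank
  have cK : Nat.card (LinearMap.ker r) = Nat.card k ^ finrank k (LinearMap.ker r) :=
    Module.natCard_eq_pow_finrank
  rw [cP, cZ, cK, ← pow_mul, ← pow_mul, ← pow_add] at hcard ⊢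
  have h4 : finrank k (LinearMap.ker r) * 2 + finrank k P ≤ finrank k Z * 2 :=
    (Nat.pow_le_pow_iff_right q2).1 hcard
  have h5 : finrank k W = finrank k (B.orthogonal W) := by omega
  have hWeq : W = B.orthogonal W := Submodule.eq_of_le_of_finrank_eq hWle h5
  refine ⟨fun x hx => ?_, ?_⟩
  · have hxo : x ∈ B.orthogonal W := by
      rw [LinearMap.BilinForm.mem_orthogonal_iff]
      rintro _ ⟨z, rfl⟩
      show B (r z) x = 0
      rw [hskew, hx z, neg_zero]
    rw [← hWeq] at hxo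
    exact hxo
  · congr 1
    omega

end Abstract

/-! ### the concrete pairing on `∏_w Z¹(U_w)` -/

section Concrete

variable {k : Type u} [Field k] {G : Type u} [Group G] {𝒩 : Levels G} {ι : Type} [Fintype ι]
  (L : LocalData G 𝒩 ι) (inv : ∀ w : ι, (L.Gv w × L.Gv w → k) →ₗ[k] k)

/-- the product of the local cocycle spaces -/
abbrev PP : Type u := ∀ w : ι, ↥(Z1 (L.lev w) (T k (L.Gv w)))

lemma cup₁₁_add_left' {H : Type u} (x x' y : H → k) :
    cup₁₁ (x + x') y = cup₁₁ x y + cup₁₁ x' y := by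
  funext ⟨g, h⟩
  simp [cup₁₁_apply, add_mul]

lemma cup₁₁_smul_left' {H : Type u} (c : k) (x y : H → k) :
    cup₁₁ (c • x) y = c • cup₁₁ x y := by
  funext ⟨g, h⟩
  simp [cup₁₁_apply, mul_assoc]

lemma cup₁₁_add_right' {H : Type u} (x y y' : H → k) :
    cup₁₁ x (y + y') = cup₁₁ x y + cup₁₁ x y' := by
  funext ⟨g, h⟩
  simp [cup₁₁_apply, mul_add]

lemma cup₁₁_smul_right' {H : Type u} (c : k) (x y : H → k) :
    cup₁₁ x (c • y) = c • cup₁₁ x y := by
  funext ⟨g, h⟩
  simp [cup₁₁_apply, mul_left_comm]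

lemma cup₁₁_zero_right' {H : Type u} (x : H → k) : cup₁₁ x (0 : H → k) = 0 := by
  funext ⟨g, h⟩
  simp [cup₁₁_apply]

/-- the sum of the local pairings, as a bilinear form on `∏_w Z¹(U_w)` -/
def βform : LinearMap.BilinForm k (PP (k := k) L) :=
  LinearMap.mk₂ k
    (fun x y => ∑ w, inv w (cup₁₁ (x w : L.Gv w → k) (y w : L.Gv w → k)))
    (fun x x' y => by
      simp only [Pi.add_apply, Submodule.coe_add, cup₁₁_add_left', map_add,
        Finset.sum_add_distrib])
    (fun c x y => by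
      simp only [Pi.smul_apply, Submodule.coe_smul, cup₁₁_smul_left', map_smul,
        Finset.smul_sum])
    (fun x y y' => by
      simp only [Pi.add_apply, Submodule.coe_add, cup₁₁_add_right', map_add,
        Finset.sum_add_distrib])
    (fun c x y => by
      simp only [Pi.smul_apply, Submodule.coe_smul, cup₁₁_smul_right', map_smul,
        Finset.smul_sum])

lemma βform_apply (x y : PP (k := k) L) :
    βform L inv x y = ∑ w, inv w (cup₁₁ (x w : L.Gv w → k) (y w : L.Gv w → k)) := rfl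

lemma res_mem_Z1 {y : G → k} (hy : y ∈ Z1 𝒩 (T k G)) (w : ι) :
    (fun s : L.Gv w => y (L.r w s)) ∈ Z1 (L.lev w) (T k (L.Gv w)) := by
  rw [Z1, Submodule.mem_inf] at hy ⊢
  exact ⟨helper25.isLev₁_res L hy.1 w, helper25.d₁₂_res_eq_zero L hy.2 w⟩

/-- the localisation map `Z¹(U) → ∏_w Z¹(U_w)` -/
def resP : ↥(Z1 𝒩 (T k G)) →ₗ[k] PP (k := k) L where
  toFun y := fun w => ⟨fun s => (y : G → k) (L.r w s), res_mem_Z1 L y.2 w⟩
  map_add' y y' := by
    funext w
    apply Subtype.ext
    rfl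
  map_smul' c y := by
    funext w
    apply Subtype.ext
    rfl

lemma resP_apply (y : ↥(Z1 𝒩 (T k G))) (w : ι) (s : L.Gv w) :
    ((resP L y w : ↥(Z1 (L.lev w) (T k (L.Gv w)))) : L.Gv w → k) s = (y : G → k) (L.r w s) :=
  rfl

/-- the kernel of the localisation map is `Sha¹` -/
def kerEquiv : ↥(LinearMap.ker (resP (k := k) L)) ≃ ↥(sha1Z (k := k) L) where
  toFun y := ⟨(y.1 : G → k), (mem_sha1Z_iff L _).2 ⟨y.1.2, fun w s => by
    have h := y.2
    rw [LinearMap.mem_ker] at h
    have h2 := congrArg (fun p : PP (k := k) L => (p w : L.Gv w → k) s) h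
    exact h2⟩⟩
  invFun x := ⟨⟨(x : G → k), ((mem_sha1Z_iff L _).1 x.2).1⟩, by
    rw [LinearMap.mem_ker]
    funext w
    apply Subtype.ext
    funext s
    exact ((mem_sha1Z_iff L _).1 x.2).2 w s⟩
  left_inv y := rfl
  right_inv x := rfl

end Concrete

section Main

variable {k : Type u} [Field k] [Finite k] {G : Type u} [Group G] {𝒩' : Levels G} {ι' : Type}
  [Fintype ι'] (L' : LocalData G 𝒩' ι')
  (inv : ∀ w : ι', (L'.Gv w × L'.Gv w → k) →ₗ[k] k)

/-- B-AR-ISO-abs: if the local pairings are non-degenerate, reciprocity holds and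
`(#Z¹(U))² ≥ (#Sha¹)² · ∏_w #Z¹(U_w)`, then the image of `Z¹(U)` is its own orthogonal (I6)
and equality holds in the count. -/
theorem exists_global₁_of_card
    (hI1 : ∀ w, ∀ c ∈ B2 (L'.lev w) (T k (L'.Gv w)), inv w c = 0)
    (hI2 : ∀ w, ∀ x ∈ Z1 (L'.lev w) (T k (L'.Gv w)),
      (∀ y ∈ Z1 (L'.lev w) (T k (L'.Gv w)), inv w (cup₁₁ x y) = 0) → x = 0)
    (hfin : ∀ w, Finite ↥(Z1 (L'.lev w) (T k (L'.Gv w))))
    (hgfin : Finite ↥(Z1 𝒩' (T k G)))
    (hrec : ∀ z ∈ Z2 𝒩' (T k G), ∑ w, inv w (fun s => z (L'.r w s.1, L'.r w s.2)) = 0)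
    (hcard : Nat.card ↥(sha1Z (k := k) L') ^ 2 *
        ∏ w, Nat.card ↥(Z1 (L'.lev w) (T k (L'.Gv w))) ≤ Nat.card ↥(Z1 𝒩' (T k G)) ^ 2) :
    (∀ x : ∀ w, L'.Gv w → k, (∀ w, x w ∈ Z1 (L'.lev w) (T k (L'.Gv w))) →
      (∀ y ∈ Z1 𝒩' (T k G), ∑ w, inv w (cup₁₁ (x w) (fun s => y (L'.r w s))) = 0) →
      ∃ y ∈ Z1 𝒩' (T k G), ∀ w, (fun s => y (L'.r w s)) = x w) ∧
    Nat.card ↥(sha1Z (k := k) L') ^ 2 *
        ∏ w, Nat.card ↥(Z1 (L'.lev w) (T k (L'.Gv w))) = Nat.card ↥(Z1 𝒩' (T k G)) ^ 2 := by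
  classical
  have cP : Nat.card (PP (k := k) L') = ∏ w, Nat.card ↥(Z1 (L'.lev w) (T k (L'.Gv w))) :=
    Nat.card_pi
  have cK : Nat.card ↥(LinearMap.ker (resP (k := k) L')) = Nat.card ↥(sha1Z (k := k) L') :=
    Nat.card_congr (kerEquiv L')
  have hleft : ∀ x : PP (k := k) L', (∀ y, βform L' inv x y = 0) → x = 0 := by
    intro x hx
    funext w
    apply Subtype.ext
    refine hI2 w (x w) (x w).2 (fun y hy => ?_)
    have h := hx (Pi.single w ⟨y, hy⟩)
    rw [βform_apply, Finset.sum_eq_single w] at h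
    · simpa using h
    · intro w' _ hw'
      rw [Pi.single_eq_of_ne hw']
      show inv w' (cup₁₁ _ (0 : L'.Gv w' → k)) = 0
      rw [cup₁₁_zero_right', map_zero]
    · intro hw
      exact absurd (Finset.mem_univ w) hw
  have hskew : ∀ x y : PP (k := k) L', βform L' inv x y = - βform L' inv y x := by
    intro x y
    rw [βform_apply, βform_apply, ← Finset.sum_neg_distrib]
    refine Finset.sum_congr rfl (fun w _ => ?_)
    have hx := Submodule.mem_inf.1 (x w).2
    have hy := Submodule.mem_inf.1 (y w).2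
    have h := helper25.cup₁₁_add_swap (LinearMap.mem_ker.1 hx.2) (LinearMap.mem_ker.1 hy.2)
    have hB : (d₁₂ (T k (L'.Gv w))).hom
        (fun g => (x w : L'.Gv w → k) g * (y w : L'.Gv w → k) g) ∈
        B2 (L'.lev w) (T k (L'.Gv w)) :=
      ⟨_, helper25.isLev₁_mul (L'.lev w) hx.1 hy.1, rfl⟩
    have h0 := hI1 w _ hB
    have h1 : inv w (cup₁₁ (x w : L'.Gv w → k) (y w : L'.Gv w → k))
        + inv w (cup₁₁ (y w : L'.Gv w → k) (x w : L'.Gv w → k)) = 0 := by
      rw [← map_add, h, map_neg, h0, neg_zero]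
    exact eq_neg_of_add_eq_zero_left h1
  have hiso : ∀ a b, βform L' inv (resP L' a) (resP L' b) = 0 := by
    intro a b
    have ha := Submodule.mem_inf.1 a.2
    have hb := Submodule.mem_inf.1 b.2
    have hz : cup₁₁ (a : G → k) (b : G → k) ∈ Z2 𝒩' (T k G) := by
      rw [Z2, Submodule.mem_inf]
      exact ⟨helper25.isLev₂_cup₁₁ 𝒩' ha.1 hb.1,
        LinearMap.mem_ker.2 (helper25.d₂₃_cup₁₁_eq_zero (LinearMap.mem_ker.1 ha.2)
          (LinearMap.mem_ker.1 hb.2))⟩
    have := hrec _ hz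
    rw [βform_apply]
    exact this
  have : ∀ w, Finite ↥(Z1 (L'.lev w) (T k (L'.Gv w))) := hfin
  have : Finite ↥(Z1 𝒩' (T k G)) := hgfin
  have hcard' : Nat.card ↥(LinearMap.ker (resP (k := k) L')) ^ 2 * Nat.card (PP (k := k) L')
      ≤ Nat.card ↥(Z1 𝒩' (T k G)) ^ 2 := by
    rw [cK, cP]
    exact hcard
  obtain ⟨h1, h2⟩ := abstract_isotropy (βform L' inv) hleft hskew (resP L') hiso hcard'
  refine ⟨fun x hx hxo => ?_, ?_⟩
  · obtain ⟨z, hz⟩ := h1 (fun w => ⟨x w, hx w⟩) (fun z => by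
      rw [βform_apply]
      exact hxo z.1 z.2)
    refine ⟨z.1, z.2, fun w => ?_⟩
    have := congrArg (fun p : PP (k := k) L' => (p w : L'.Gv w → k)) hz
    exact this
  · rw [← cK, ← cP]
    exact h2

end Main

end Fermat.Agent.S55.helper83.BArIso
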