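import Fermat.Agent.S55.helper8_LocDualityFinal
import Fermat.Agent.S55.helper59_BDefs2

/-!
# S55 / LOC → B (helper8): the LOC input of module B

`hypLocalDuality Inv p : helper59.HypLocalDuality Inv p` for every invariant system `Inv`, and
`exists_locInv_hypLocalDuality` : an invariant system with `HypLocalDuality` for all `p`.
-/

set_option autoImplicit false

namespace Fermat.Agent.S55.helper8

open Fermat.Agent.S55.helper11

/-- the LOC input of module B, for every invariant system -/
theorem hypLocalDuality (Inv : LocInv) (p : ℕ) [Fact p.Prime] :
    helper59.HypLocalDuality Inv p :=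
  fun q _ K Ω _ _ _ _ _ _ ζ hζ => nonempty_localDuality q Inv p K Ω ζ hζ

/-- an invariant system together with the LOC input of module B for every prime `p` -/
theorem exists_locInv_hypLocalDuality :
    ∃ Inv : LocInv, ∀ (p : ℕ) [Fact p.Prime], helper59.HypLocalDuality Inv p := by
  obtain ⟨Inv⟩ := nonempty_locInv
  exact ⟨Inv, fun p _ => hypLocalDuality Inv p⟩

end Fermat.Agent.S55.helper8
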