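import Fermat.Agent.S55.helper59_BDefs2
import Fermat.Agent.S55.helper74_LocalLevels
import Fermat.Agent.S55.helper48_Rec4BrTr
import Fermat.Agent.S55.helper85_Rec4BrDict
import Fermat.Agent.S55.helper69_BArLev

/-!
# S55 module B, package B-AR-DEG, second half (helper97): `card_index_eq`

For an arithmetic local datum `hL : IsArith S F L` the index set `ι` is in bijection with the set
of primes of `F` above `S`:  `w ↦ 𝔭_w := (g_w • A_{q_w}) ∩ 𝓞 F`, where `A_q` is the valuation
subring of `ℚbar` cut out by `ℚbar → ℚbar_q`.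

* `exists_smul_eq_of_primeOf_eq` : `Gal(ℚbar/F)` acts transitively on the valuation subrings of
  `ℚbar` above a prime of `F`;
* `primeOf_smul_of_mem_fixingSubgroup` : the prime of `F` below `u • B` is the prime below `B`
  for `u ∈ Gal(ℚbar/F)`;
* `placeIdx hL w` : the prime of `F` attached to `w : ι`;
* `placeIdx_bijective`, `card_index_eq'`.
-/

set_option autoImplicit false
set_option linter.unusedSectionVars false
set_option linter.style.haveILetI false

open scoped NumberField Pointwise
open ExtCitation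

noncomputable section

namespace Fermat.Agent.S55.helper97

open Fermat.Agent.S55 Fermat.Agent.S55.helper59 Fermat.Agent.S54.helper91
  Fermat.Agent.S14.helper91

local notation "Qbar" => AlgebraicClosure ℚ

attribute [local instance] zbarAction zbarTopology zbarActionOver zbarAlgebraOver

section Trans

variable (F : IntermediateField ℚ Qbar)

/-- the prime of `F` below `u • B` is the prime below `B` for `u ∈ Gal(ℚbar/F)` -/
theorem primeOf_smul_of_mem_fixingSubgroup (B : ValuationSubring Qbar) {u : GQ}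
    (hu : u ∈ F.fixingSubgroup) : primeOf ↥F (u • B) = primeOf ↥F B := by
  ext x
  rw [mem_primeOf_iff, mem_primeOf_iff, ← ValuationSubring.mem_nonunits_iff,
    ← ValuationSubring.mem_nonunits_iff]
  have hx : u (algebraMap ↥F Qbar (x : ↥F)) = algebraMap ↥F Qbar (x : ↥F) :=
    (IntermediateField.mem_fixingSubgroup_iff F u).mp hu _ (x : ↥F).2
  rw [← helper69.apply_mem_nonunits_smul_iff B u, hx]

/-- `Gal(ℚbar/F)` acts transitively on the valuation subrings of `ℚbar` above a prime of `F` -/
theorem exists_smul_eq_of_primeOf_eq {ℓ : ℕ} (hℓ : ℓ.Prime) (B B' : ValuationSubring Qbar)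
    (hB : B.LiesOverPrime ℓ) (hB' : B'.LiesOverPrime ℓ)
    (h : primeOf ↥F B = primeOf ↥F B') : ∃ u ∈ F.fixingSubgroup, u • B = B' := by
  haveI := compactSpace_over ↥F
  haveI := totallyDisconnectedSpace_over ↥F
  haveI := zbar_discrete
  haveI := zbarOver_continuousSMul ↥F
  haveI := zbarOver_isInvariant ↥F
  haveI := zbarOver_smulCommClass ↥F
  have hunder : (zbarPrime B).under (𝓞 ↥F) = (zbarPrime B').under (𝓞 ↥F) := h
  obtain ⟨g, hg⟩ := Algebra.IsInvariant.exists_smul_of_under_eq_of_profinite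
    (A := 𝓞 ↥F) (B := Zbar) (G := GalOver ↥F) (zbarPrime B) (zbarPrime B') hunder
  set γ : GQ := (g.restrictScalars ℚ : GQ) with hγdef
  have hγ : zbarPrime B' = γ • zbarPrime B := by
    rw [hg, hγdef, smul_restrictScalars]
  have hγ' : zbarPrime B = γ⁻¹ • zbarPrime B' := by
    ext x
    rw [hγ, Ideal.mem_pointwise_smul_iff_inv_smul_mem, Ideal.mem_pointwise_smul_iff_inv_smul_mem,
      inv_inv]
    have hx : γ⁻¹ • γ • x = x := Subtype.ext (by simp)
    rw [hx]
  refine ⟨γ, ?_, ?_⟩
  · rw [IntermediateField.mem_fixingSubgroup_iff]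
    intro x hx
    exact g.commutes ⟨x, hx⟩
  · ext y
    rw [ValuationSubring.mem_pointwise_smul_iff_inv_smul_mem]
    constructor
    · intro hy
      have := helper48.apply_mem_of_smul_eq B' B hℓ hB γ hγ hy
      simpa using this
    · intro hy
      exact helper48.apply_mem_of_smul_eq B B' hℓ hB' γ⁻¹ hγ' hy

end Trans

section Idx

variable {S : Finset Nat.Primes} {F : IntermediateField ℚ Qbar} {𝒩 : Levels (UF F)} {ι : Type}
  {L : LocalData (UF F) 𝒩 ι}

/-- the valuation subring of `ℚbar` attached to `w : ι` -/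
def valIdx (hL : IsArith S F L) (w : ι) : ValuationSubring Qbar :=
  hL.g w • primeLocalPlace (hL.q w)

theorem valIdx_liesOverPrime (hL : IsArith S F L) (w : ι) :
    (valIdx hL w).LiesOverPrime (hL.q w : ℕ) :=
  helper69.liesOverPrime_smul (helper74.primeLocalPlace_liesOverPrime (hL.q w)) (hL.g w)

variable [NumberField ↥F]

/-- a nonzero prime of `𝓞 F` contains at most one prime number -/
theorem prime_unique_of_mem {P : Ideal (𝓞 ↥F)} (hP : P.IsPrime) {q q' : Nat.Primes}
    (hq : ((q : ℕ) : 𝓞 ↥F) ∈ P) (hq' : ((q' : ℕ) : 𝓞 ↥F) ∈ P) : q = q' := by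
  by_contra hne
  have hne' : (q : ℕ) ≠ q' := fun h => hne (Subtype.ext h)
  have hcop : IsCoprime ((q : ℕ) : ℤ) ((q' : ℕ) : ℤ) :=
    Nat.isCoprime_iff_coprime.2 ((Nat.coprime_primes q.2 q'.2).2 hne')
  obtain ⟨a, b, hab⟩ := hcop
  have h1 : ((a * ((q : ℕ) : ℤ) + b * ((q' : ℕ) : ℤ) : ℤ) : 𝓞 ↥F) ∈ P := by
    push_cast
    exact P.add_mem (P.mul_mem_left _ hq) (P.mul_mem_left _ hq')
  rw [hab] at h1
  exact hP.ne_top ((Ideal.eq_top_iff_one P).mpr (by simpa using h1))

/-- the prime of `F` attached to `w : ι` -/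
def placeIdx (hL : IsArith S F L) (w : ι) : ↥(helper75.primesOverS (↥F) S) :=
  ⟨primeOf ↥F (valIdx hL w), inferInstance, by
      intro h0
      have h1 := natCast_mem_primeOf ↥F (valIdx hL w) (valIdx_liesOverPrime hL w)
      rw [h0, Ideal.mem_bot] at h1
      exact (hL.q w).2.ne_zero (by exact_mod_cast h1),
    hL.q w, hL.q_mem w, natCast_mem_primeOf ↥F (valIdx hL w) (valIdx_liesOverPrime hL w)⟩

theorem placeIdx_injective (hL : IsArith S F L) : Function.Injective (placeIdx hL) := by
  intro w w' h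
  have hP : primeOf ↥F (valIdx hL w) = primeOf ↥F (valIdx hL w') := congrArg Subtype.val h
  have hq : hL.q w = hL.q w' := by
    apply prime_unique_of_mem (P := primeOf ↥F (valIdx hL w)) inferInstance
    · exact natCast_mem_primeOf ↥F (valIdx hL w) (valIdx_liesOverPrime hL w)
    · rw [hP]
      exact natCast_mem_primeOf ↥F (valIdx hL w') (valIdx_liesOverPrime hL w')
  have hw' : (valIdx hL w').LiesOverPrime (hL.q w : ℕ) := by
    rw [hq]
    exact valIdx_liesOverPrime hL w'
  obtain ⟨u, hu, huB⟩ := exists_smul_eq_of_primeOf_eq F (hL.q w).2 (valIdx hL w) (valIdx hL w')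
    (valIdx_liesOverPrime hL w) hw' hP
  -- `g_{w'}⁻¹ u g_w` stabilises `A_q`
  have hstab : (hL.g w')⁻¹ * u * hL.g w ∈
      (primeLocalPlace (hL.q w)).decompositionSubgroup ℚ := by
    rw [ValuationSubring.decompositionSubgroup, MulAction.mem_stabilizer_iff, mul_smul, mul_smul]
    have h1 : u • hL.g w • primeLocalPlace (hL.q w) = hL.g w' • primeLocalPlace (hL.q w) := by
      have := huB
      unfold valIdx at this
      rw [this, hq]
    rw [h1, inv_smul_smul]
  obtain ⟨h, hh⟩ := helper74.exists_primeLocalToGlobal_eq (hL.q w) hstab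
  -- uniqueness in `cover`
  obtain ⟨w₀, -, huniq⟩ := hL.cover (hL.q w) (hL.q_mem w) (hL.g w)
  have e1 : w = w₀ := huniq w ⟨rfl, 1, one_mem _, 1, by rw [map_one, mul_one, one_mul]⟩
  have e2 : w' = w₀ := by
    refine huniq w' ⟨hq.symm, u⁻¹, inv_mem hu, ?_⟩
    have hcast : primeLocalGaloisGroup (hL.q w') = primeLocalGaloisGroup (hL.q w) := by rw [hq]
    refine ⟨cast hcast.symm h, ?_⟩
    have hh' : primeLocalToGlobal (hL.q w') (cast hcast.symm h) =
        primeLocalToGlobal (hL.q w) h := by
      have : ∀ (q₁ q₂ : Nat.Primes) (e : q₂ = q₁) (h : primeLocalGaloisGroup q₁),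
          primeLocalToGlobal q₂ (cast (by rw [e]) h) = primeLocalToGlobal q₁ h := by
        intro q₁ q₂ e h
        subst e
        rfl
      exact this _ _ hq.symm h
    rw [hh', hh]
    group
  rw [e1, e2]

theorem placeIdx_surjective (hL : IsArith S F L) : Function.Surjective (placeIdx hL) := by
  rintro ⟨P, hPprime, hP0, q, hqS, hqP⟩
  haveI := hPprime
  haveI : P.IsMaximal := Ring.DimensionLEOne.maximalOfPrime hP0 hPprime
  obtain ⟨B, hB⟩ := exists_primeOf_eq ↥F P
  have hBq : B.LiesOverPrime (q : ℕ) :=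
    liesOverPrime_of_natCast_mem ↥F B (by rw [hB]; exact hqP)
  obtain ⟨γ, hγ⟩ := helper48.exists_smul_eq_of_liesOverPrime q.2 B (primeLocalPlace q) hBq
    (helper74.primeLocalPlace_liesOverPrime q)
  obtain ⟨w, ⟨hqw, u, hu, h, hγeq⟩, -⟩ := hL.cover q hqS γ
  subst hqw
  refine ⟨w, Subtype.ext ?_⟩
  show primeOf ↥F (valIdx hL w) = P
  rw [← hB, ← hγ, hγeq, mul_smul, mul_smul]
  have hstab : primeLocalToGlobal (hL.q w) h • primeLocalPlace (hL.q w) =
      primeLocalPlace (hL.q w) := by
    have h1 : primeLocalToGlobal (hL.q w) h ∈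
        (primeLocalPlace (hL.q w)).decompositionSubgroup ℚ := by
      rw [← helper74.range_primeLocalToGlobal]
      exact ⟨h, rfl⟩
    rw [ValuationSubring.decompositionSubgroup, MulAction.mem_stabilizer_iff] at h1
    exact h1
  rw [hstab, primeOf_smul_of_mem_fixingSubgroup F _ hu]
  rfl

theorem placeIdx_bijective (hL : IsArith S F L) : Function.Bijective (placeIdx hL) :=
  ⟨placeIdx_injective hL, placeIdx_surjective hL⟩

/-- B-AR-DEG (second half): `ι` is the set of primes of `F` above `S`. -/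
theorem card_index_eq' (hL : IsArith S F L) :
    Nat.card ι = Nat.card ↥(helper75.primesOverS (↥F) S) :=
  Nat.card_congr (Equiv.ofBijective _ (placeIdx_bijective hL))

end Idx

end Fermat.Agent.S55.helper97
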