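import Fermat.Agent.S55.helper97_KumGFinal
import Fermat.Agent.S55.helper97_BArDegIdx

/-!
# S55 module B: B-AR-KUM-G `card_Z1_glob` and B-AR-DEG `card_index_eq`, VERBATIM (helper97)

The statements of `helper59`'s `Interface2` (`blueprints/S55/helper59_BInterface2.lean`), with the
same variable block.  UNCONDITIONAL.
-/

set_option autoImplicit false
set_option linter.unusedSectionVars false
set_option linter.unusedVariables false

open groupCohomology ExtCitation
open scoped NumberField

noncomputable section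

namespace Fermat.Agent.S55.helper97

open Fermat.Agent.S55 Fermat.Agent.S55.helper59

local notation "Qbar" => AlgebraicClosure ℚ

variable {p : ℕ} [Fact p.Prime] {S : Finset Nat.Primes} {F : IntermediateField ℚ Qbar}
  [FiniteDimensional ℚ F] {𝒩 : Levels (UF F)} {ι : Type} [Fintype ι]
  {L : LocalData (UF F) 𝒩 ι}

/-- `ι` is the set of primes of `F` above `S` -/
theorem card_index_eq [NumberField ↥F] (hL : IsArith S F L) :
    Nat.card ι = Nat.card ↥(helper75.primesOverS (↥F) S) :=
  card_index_eq' hL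

/-- global: `#H¹(G_{F,S}, ℤ/p) = p^(|S_F| + r₂) · #(Cl_S(F)/p)`
(Kummer group `V_S/Fˣᵖ`, Dirichlet S-unit theorem `helper79_SUnit`, `F` totally complex) -/
theorem card_Z1_glob [NumberField ↥F] (hp2 : p ≠ 2) (hpS : (⟨p, Fact.out⟩ : Nat.Primes) ∈ S)
    (hF : F.IsUnramifiedOutside S) (h𝒩 : 𝒩.mem = sLevels S F) (hL : IsArith S F L)
    (ζ : (↥F)ˣ) (hζ : IsPrimitiveRoot ζ p) :
    Nat.card ↥(Z1 𝒩 (T (ZMod p) (UF F))) =
      p ^ (Nat.card ι + Module.finrank ℚ F / 2) * Nat.card (helper75.ClSModP (↥F) p S) :=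
  card_Z1_glob_of_card_index hp2 hpS hF h𝒩 (card_index_eq' hL) ζ hζ

end Fermat.Agent.S55.helper97
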