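import Fermat.Agent.S55.helper59_BDefs3
import Fermat.Agent.S55.helper49_BArLocFinal
import Fermat.Agent.S55.helper83_BArIso
import Fermat.Agent.S55.helper38_BArShaAbs
import Fermat.Agent.S55.helper30_BArKumL
import Fermat.Agent.S55.helper97_BArKumG
import Fermat.Agent.S55.helper96_BArDeg
import Fermat.Agent.S55.helper50_ChevMisc2
import Fermat.Agent.S55.helper8_LocB
import Fermat.Agent.S55.ABasic

/-!
# S55 module B: assembly of the arithmetic `BaseInput` (helper59)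

`baseInput_of_inputs` : for an arithmetic local datum `hL : IsArith S F L` (`F ∋ ζ_p`, `p` odd,
`p ∈ S`, `F` unramified outside `S`, `𝒩` = the S-levels) the structure `BaseInput L` exists, with
local invariants compatible with the given invariant system `Inv`.

ON MAIN and used here: LOC (`helper8.hypLocalDuality`), B-AR-LOC (`helper49.exists_local_inv`),
B-AR-KUM-L/G (`helper30.card_Z1_loc`, `helper97.card_Z1_glob`), B-AR-DEG
(`helper96.sum_finrank_Kw`), B-AR-ISO-abs (`helper83.exists_global₁_of_card`), B-AR-SHA-abs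
(`helper38.sha_right_of_card`).

STILL HYPOTHESES (packages in progress): reciprocity (I3), existence (I4), `H³ = 0` (I5),
the left kernel of the Sha-pairing (I7a), `#Sha¹ ≤ #Cl_S/p` (REC4), `#Sha² ≤ #Cl_S/p` (REC3).
-/

set_option autoImplicit false

open groupCohomology ExtCitation
open scoped NumberField

noncomputable section

namespace Fermat.Agent.S55.helper59

open Fermat.Agent.S55

local instance factOfPrimesAsm (q : Nat.Primes) : Fact (q : ℕ).Prime := ⟨q.2⟩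

local notation "Qbar" => AlgebraicClosure ℚ

variable {p : ℕ} [Fact p.Prime] {S : Finset Nat.Primes} {F : IntermediateField ℚ Qbar}
  [NumberField ↥F] {𝒩 : Levels (UF F)} {ι : Type} [Fintype ι]
  {L : LocalData (UF F) 𝒩 ι}

/-- families of local functionals -/
abbrev InvFam (p : ℕ) (L : LocalData (UF F) 𝒩 ι) : Type :=
  ∀ w : ι, (L.Gv w × L.Gv w → ZMod p) →ₗ[ZMod p] ZMod p

/-- (I3) as a property of a family of local functionals -/
def RecipFor (L : LocalData (UF F) 𝒩 ι)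
    (inv : ∀ w : ι, (L.Gv w × L.Gv w → ZMod p) →ₗ[ZMod p] ZMod p) : Prop :=
  ∀ z ∈ Z2 𝒩 (T (ZMod p) (UF F)), ∑ w, inv w (fun s => z (L.r w s.1, L.r w s.2)) = 0

/-- (I4) as a property of a family of local functionals -/
def ExistsGlobal₂For (L : LocalData (UF F) 𝒩 ι)
    (inv : ∀ w : ι, (L.Gv w × L.Gv w → ZMod p) →ₗ[ZMod p] ZMod p) : Prop :=
  ∀ c : ∀ w, L.Gv w × L.Gv w → ZMod p, (∀ w, c w ∈ Z2 (L.lev w) (T (ZMod p) (L.Gv w))) →
    ∑ w, inv w (c w) = 0 →
    ∃ z ∈ Z2 𝒩 (T (ZMod p) (UF F)), ∀ w, (c w - fun s => z (L.r w s.1, L.r w s.2)) ∈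
      B2 (L.lev w) (T (ZMod p) (L.Gv w))

/-- (I7a) as a property of a family of local functionals -/
def ShaLeftFor (L : LocalData (UF F) 𝒩 ι)
    (inv : ∀ w : ι, (L.Gv w × L.Gv w → ZMod p) →ₗ[ZMod p] ZMod p) : Prop :=
  ∀ x ∈ Z1 𝒩 (T (ZMod p) (UF F)), (∀ w, ∀ s : L.Gv w, x (L.r w s) = 0) → x ≠ 0 →
    ∃ z ∈ Z2 𝒩 (T (ZMod p) (UF F)),
      (∀ w, (fun s : L.Gv w × L.Gv w => z (L.r w s.1, L.r w s.2)) ∈
        B2 (L.lev w) (T (ZMod p) (L.Gv w))) ∧
      ∃ α ∈ C2 𝒩 (T (ZMod p) (UF F)), (d₂₃ (T (ZMod p) (UF F))).hom α = cup₁₂ x z ∧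
        ∑ w, inv w (fun s => α (L.r w s.1, L.r w s.2)) ≠ 0

/-- `I1` (both directions) as a property of a family of local functionals -/
def InvIffFor (L : LocalData (UF F) 𝒩 ι)
    (inv : ∀ w : ι, (L.Gv w × L.Gv w → ZMod p) →ₗ[ZMod p] ZMod p) : Prop :=
  ∀ w, ∀ c ∈ Z2 (L.lev w) (T (ZMod p) (L.Gv w)),
    inv w c = 0 ↔ c ∈ B2 (L.lev w) (T (ZMod p) (L.Gv w))

omit [NumberField ↥F] [Fintype ι] in
/-- local coboundaries are local cocycles (trivial coefficients) -/
lemma B2_le_Z2_triv (w : ι) :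
    B2 (L.lev w) (T (ZMod p) (L.Gv w)) ≤ Z2 (L.lev w) (T (ZMod p) (L.Gv w)) := by
  refine B2_le_Z2 ?_
  obtain ⟨N', hN'⟩ := (L.lev w).nonempty
  exact ⟨N', hN', fun _ _ _ => rfl⟩

/-- the product of the orders of the local `H¹` -/
lemma prod_card_Z1_loc (hpS : (⟨p, Fact.out⟩ : Nat.Primes) ∈ S) (hL : IsArith S F L)
    (ζ : (↥F)ˣ) (hζ : IsPrimitiveRoot ζ p) :
    ∏ w, Nat.card ↥(Z1 (L.lev w) (T (ZMod p) (L.Gv w))) =
      p ^ (2 * Nat.card ι + Module.finrank ℚ F) := by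
  classical
  have h1 : ∀ w, Nat.card ↥(Z1 (L.lev w) (T (ZMod p) (L.Gv w))) =
      p ^ (2 + if hL.q w = (⟨p, Fact.out⟩ : Nat.Primes) then
        Module.finrank ℚ_[((hL.q w : ℕ))] (hL.Kw w) else 0) := by
    intro w
    rw [helper30.card_Z1_loc hL ζ hζ w]
    congr 2
    by_cases h : p = (hL.q w : ℕ)
    · have h' : hL.q w = (⟨p, Fact.out⟩ : Nat.Primes) := Subtype.ext h.symm
      rw [if_pos h, if_pos h']
    · have h' : ¬ hL.q w = (⟨p, Fact.out⟩ : Nat.Primes) :=
        fun h' => h (congrArg Subtype.val h').symm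
      rw [if_neg h, if_neg h']
  have hs := helper96.sum_finrank_Kw hL (⟨p, Fact.out⟩ : Nat.Primes) hpS
  rw [Finset.sum_filter] at hs
  have hs' : ∑ w, (if hL.q w = (⟨p, Fact.out⟩ : Nat.Primes) then
      Module.finrank ℚ_[((hL.q w : ℕ))] (hL.Kw w) else 0) = Module.finrank ℚ F :=
    (Finset.sum_congr rfl (fun w _ => by congr)).trans hs
  rw [Finset.prod_congr rfl (fun w _ => h1 w), Finset.prod_pow_eq_pow_sum,
    Finset.sum_add_distrib, Finset.sum_const, Finset.card_univ, smul_eq_mul,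
    hs', Nat.card_eq_fintype_card, mul_comm]

/-- B-AR-ASM (conditional assembly): the arithmetic `BaseInput`. -/
theorem baseInput_of_inputs (hp2 : p ≠ 2) (hpS : (⟨p, Fact.out⟩ : Nat.Primes) ∈ S)
    (hF : F.IsUnramifiedOutside S) (h𝒩 : 𝒩.mem = sLevels S F) (hL : IsArith S F L)
    (Inv : helper11.LocInv) (ζ : (↥F)ˣ) (hζ : IsPrimitiveRoot ζ p)
    (hI3 : ∀ inv : InvFam p L, InvCompat Inv ζ hL inv → RecipFor L inv)
    (hI4 : ∀ inv : InvFam p L, InvCompat Inv ζ hL inv → InvIffFor L inv → RecipFor L inv →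
      ExistsGlobal₂For L inv)
    (h3 : Z3 𝒩 (T (ZMod p) (UF F)) ≤ B3 𝒩 (T (ZMod p) (UF F)))
    (hI7a : ∀ inv : InvFam p L, InvCompat Inv ζ hL inv → InvIffFor L inv → RecipFor L inv →
      Finite ↥(Z1 𝒩 (T (ZMod p) (UF F))) → ShaLeftFor L inv)
    (hsha1 : Nat.card ↥(sha1Z (k := ZMod p) L) ≤ Nat.card (helper75.ClSModP (↥F) p S))
    (hsha2 : Finite (↥(sha2Z (k := ZMod p) L) ⧸
        (B2 𝒩 (T (ZMod p) (UF F))).comap (sha2Z (k := ZMod p) L).subtype) ∧
      Nat.card (↥(sha2Z (k := ZMod p) L) ⧸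
        (B2 𝒩 (T (ZMod p) (UF F))).comap (sha2Z (k := ZMod p) L).subtype) ≤
      Nat.card (helper75.ClSModP (↥F) p S)) :
    ∃ I : BaseInput (k := ZMod p) L, InvCompat Inv ζ hL I.inv := by
  classical
  have hp : p.Prime := Fact.out
  obtain ⟨inv, hinv, hI1, hne, hI2, hlocfin⟩ :=
    helper49.exists_local_inv hL Inv (helper8.hypLocalDuality Inv p) ζ hζ
  have hrec : RecipFor L inv := hI3 inv hinv
  -- cardinalities
  set h := Nat.card (helper75.ClSModP (↥F) p S) with hh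
  have hhpos : 0 < h := Nat.card_pos
  have hg := helper97.card_Z1_glob hp2 hpS hF h𝒩 hL ζ hζ
  have hgfin : Finite ↥(Z1 𝒩 (T (ZMod p) (UF F))) := by
    apply Nat.finite_of_card_ne_zero
    rw [hg]
    exact (Nat.mul_pos (pow_pos hp.pos _) hhpos).ne'
  have heven : Even (Module.finrank ℚ F) :=
    helper50.even_finrank_of_isPrimitiveRoot (↥F) p hp hp2 (ζ : ↥F)
      (hζ.map_of_injective (f := Units.coeHom ↥F) Units.val_injective)
  have hn2 : 2 * (Module.finrank ℚ F / 2) = Module.finrank ℚ F :=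
    Nat.two_mul_div_two_of_even heven
  have hprod := prod_card_Z1_loc hpS hL ζ hζ
  have hgsq : Nat.card ↥(Z1 𝒩 (T (ZMod p) (UF F))) ^ 2 =
      p ^ (2 * Nat.card ι + Module.finrank ℚ F) * h ^ 2 := by
    rw [hg, mul_pow, ← pow_mul, add_mul, mul_comm (Module.finrank ℚ F / 2) 2, hn2,
      mul_comm (Nat.card ι) 2]
  have hlfin : ∀ w, Finite ↥(Z1 (L.lev w) (T (ZMod p) (L.Gv w))) := fun w => by
    have := hlocfin w
    exact Module.finite_of_finite (ZMod p)
  have hcard : Nat.card ↥(sha1Z (k := ZMod p) L) ^ 2 *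
      ∏ w, Nat.card ↥(Z1 (L.lev w) (T (ZMod p) (L.Gv w))) ≤
        Nat.card ↥(Z1 𝒩 (T (ZMod p) (UF F))) ^ 2 := by
    rw [hprod, hgsq, mul_comm]
    exact Nat.mul_le_mul_left _ (Nat.pow_le_pow_left hsha1 2)
  obtain ⟨hI6, heq⟩ := helper83.BArIso.exists_global₁_of_card L inv
    (fun w c hc => (hI1 w c (B2_le_Z2_triv w hc)).2 hc) hI2 hlfin hgfin hrec hcard
  -- `#Sha¹ = #Cl_S/p`
  have hsha1eq : Nat.card ↥(sha1Z (k := ZMod p) L) = h := by
    rw [hprod, hgsq, mul_comm] at heq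
    have h2 := Nat.eq_of_mul_eq_mul_left (pow_pos hp.pos _) heq
    exact Nat.pow_left_injective (by norm_num : (2 : ℕ) ≠ 0) h2
  have hleft : ShaLeftFor L inv := hI7a inv hinv hI1 hrec hgfin
  have hright := helper38.sha_right_of_card L inv hI1 hrec h3 hgfin hleft hsha2.1
    (by rw [hsha1eq]; exact hsha2.2)
  have : Module.Finite (ZMod p) ↥(Z1 𝒩 (T (ZMod p) (UF F))) := Module.Finite.of_finite
  exact ⟨{ inv := inv
           inv_eq_zero_iff := hI1
           inv_ne_zero := hne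
           loc_nondeg := hI2
           loc_fin := hlocfin
           glob_fin := inferInstance
           reciprocity := hrec
           exists_global₂ := hI4 inv hinv hI1 hrec
           h3 := h3
           exists_global₁ := hI6
           sha_left := hleft
           sha_right := hright }, hinv⟩

end Fermat.Agent.S55.helper59
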