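import Mathlib

/-!
# S55 / FG2 brick (B1): naturality of the connecting homomorphism along group homomorphisms
(helper83)

Mathlib's `groupCohomology.δ_naturality` treats morphisms of short exact sequences of
representations of a fixed group.  Here the group is allowed to change: for `f : G →* H`, a short
exact sequence `X` of `H`-representations, a short exact sequence `Y` of `G`-representations and a
morphism `t : Res(f)(X) ⟶ Y`, the connecting homomorphisms commute with the maps
`groupCohomology.map f t.τᵢ`.  Special cases: restriction and inflation.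
-/

set_option autoImplicit false

universe u

open CategoryTheory CategoryTheory.Limits groupCohomology Rep

namespace Fermat.Agent.S55.helper83

variable {k G H : Type u} [CommRing k] [Group G] [Group H]

/-- The morphism of short complexes of cochain complexes induced by `f : G →* H` and
`t : Res(f)(X) ⟶ Y`. -/
noncomputable def cochainsShortComplexMap (f : G →* H) {X : ShortComplex (Rep k H)}
    {Y : ShortComplex (Rep k G)} (t : X.map (resFunctor f) ⟶ Y) :
    X.map (cochainsFunctor k H) ⟶ Y.map (cochainsFunctor k G) where
  τ₁ := cochainsMap f t.τ₁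
  τ₂ := cochainsMap f t.τ₂
  τ₃ := cochainsMap f t.τ₃
  comm₁₂ := by
    have h := t.comm₁₂
    show cochainsMap f t.τ₁ ≫ cochainsMap (MonoidHom.id G) Y.f
      = cochainsMap (MonoidHom.id H) X.f ≫ cochainsMap f t.τ₂
    exact congrArg (cochainsMap f) h
  comm₂₃ := by
    have h := t.comm₂₃
    show cochainsMap f t.τ₂ ≫ cochainsMap (MonoidHom.id G) Y.g
      = cochainsMap (MonoidHom.id H) X.g ≫ cochainsMap f t.τ₃
    exact congrArg (cochainsMap f) h

/-- **Naturality of `δ` along a group homomorphism.** -/
theorem δ_map_naturality (f : G →* H) {X : ShortComplex (Rep k H)}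
    {Y : ShortComplex (Rep k G)} (hX : X.ShortExact) (hY : Y.ShortExact)
    (t : X.map (resFunctor f) ⟶ Y) (i j : ℕ) (hij : i + 1 = j) :
    δ hX i j hij ≫ map f t.τ₁ j = map f t.τ₃ i ≫ δ hY i j hij :=
  HomologicalComplex.HomologySequence.δ_naturality (cochainsShortComplexMap f t)
    (map_cochainsFunctor_shortExact hX) (map_cochainsFunctor_shortExact hY) i j hij

/-- Elementwise form of `δ_map_naturality`. -/
theorem δ_map_naturality_apply (f : G →* H) {X : ShortComplex (Rep k H)}
    {Y : ShortComplex (Rep k G)} (hX : X.ShortExact) (hY : Y.ShortExact)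
    (t : X.map (resFunctor f) ⟶ Y) (i j : ℕ) (hij : i + 1 = j) (x : groupCohomology X.X₃ i) :
    map f t.τ₁ j (δ hX i j hij x) = δ hY i j hij (map f t.τ₃ i x) :=
  congr($(δ_map_naturality f hX hY t i j hij) x)

/-- Restriction commutes with the connecting homomorphisms. -/
theorem δ_res_naturality (f : G →* H) {X : ShortComplex (Rep k H)} (hX : X.ShortExact)
    (i j : ℕ) (hij : i + 1 = j) :
    δ hX i j hij ≫ map f (𝟙 (res f X.X₁)) j
      = map f (𝟙 (res f X.X₃)) i ≫ δ ((Rep.shortExact_res f).2 hX) i j hij :=
  δ_map_naturality f hX ((Rep.shortExact_res f).2 hX) (𝟙 _) i j hij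

/-- Elementwise form of `δ_res_naturality`. -/
theorem δ_res_naturality_apply (f : G →* H) {X : ShortComplex (Rep k H)} (hX : X.ShortExact)
    (i j : ℕ) (hij : i + 1 = j) (x : groupCohomology X.X₃ i) :
    map f (𝟙 (res f X.X₁)) j (δ hX i j hij x)
      = δ ((Rep.shortExact_res f).2 hX) i j hij (map f (𝟙 (res f X.X₃)) i x) :=
  congr($(δ_res_naturality f hX i j hij) x)

end Fermat.Agent.S55.helper83
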