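import Fermat.Agent.S55.helper60_FG3
import Fermat.Agent.S55.helper83_FG2Nat

/-!
# S55 / FG2 : inflation–restriction in all degrees by dimension shifting (helper83)
-/

set_option autoImplicit false
set_option linter.unusedSectionVars false
set_option linter.unusedVariables false

universe u

open CategoryTheory CategoryTheory.Limits groupCohomology Rep

namespace Fermat.Agent.S55.helper83

noncomputable section

section FunLike

variable {k U : Type u} [CommRing k] [Group U]

/-- A representation which is "function-like" (linearly equivalent to a function space `U → B`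
with `U` acting by right translation) is acyclic. -/
theorem isZero_of_funLike (M : Rep.{u} k U) (B : Type u) [AddCommGroup B] [Module k B]
    (e : M ≃ₗ[k] (U → B)) (he : ∀ (u v : U) (m : M), e (M.ρ u m) v = e m (v * u))
    (n : ℕ) (hn : 0 < n) : IsZero (groupCohomology M n) := by
  let B₀ : Rep.{u} k (⊥ : Subgroup U) := Rep.trivial k (⊥ : Subgroup U) B
  let V := Representation.coindV (⊥ : Subgroup U).subtype B₀.ρ
  have hV : ∀ f : U → B, f ∈ V := by
    intro f g h
    have hg : (g : U) = 1 := Subgroup.mem_bot.1 g.2
    simp [hg, B₀]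
  let e' : M ≃ₗ[k] V :=
    e.trans (LinearEquiv.ofBijective ((LinearMap.id : (U → B) →ₗ[k] (U → B)).codRestrict V hV)
      ⟨fun a b hab => congrArg Subtype.val hab, fun ⟨f, hf⟩ => ⟨f, rfl⟩⟩)
  have he' : ∀ g, e'.toLinearMap ∘ₗ (M.ρ g) = (Representation.coind (⊥ : Subgroup U).subtype B₀.ρ g) ∘ₗ e'.toLinearMap := by
    intro g
    ext m : 1
    apply Subtype.ext
    funext v
    exact he g v m
  have iso : M ≅ coind (⊥ : Subgroup U).subtype B₀ := Rep.mkIso (Representation.Equiv.mk e' he')
  exact (helper60.isZero_coind_bot B₀ n hn).of_iso ((functor k U n).mapIso iso)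

end FunLike

section Star

variable {k G : Type u} [CommRing k] [Group G]

/-- the shifting module `A* = coind_1^G (res A)` (functions `G → A`, right translation). -/
abbrev star (A : Rep.{u} k G) : Rep.{u} k G :=
  coind (⊥ : Subgroup G).subtype (res (⊥ : Subgroup G).subtype A)

lemma star_ρ_apply (A : Rep.{u} k G) (g h : G) (x : star A) :
    ((star A).ρ g x).1 h = x.1 (h * g) := rfl

lemma mem_star (A : Rep.{u} k G) (f : G → A) :
    f ∈ Representation.coindV (⊥ : Subgroup G).subtype (res (⊥ : Subgroup G).subtype A).ρ := by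
  intro g h
  have hg : (g : G) = 1 := Subgroup.mem_bot.1 g.2
  show f ((g : G) * h) = A.ρ (g : G) (f h)
  rw [hg]
  simp

/-- `A*` is acyclic for `G`. -/
lemma isZero_star (A : Rep.{u} k G) (n : ℕ) (hn : 0 < n) :
    IsZero (groupCohomology (star A) n) :=
  helper60.isZero_coind_bot _ n hn

/-- `A*` is acyclic for every subgroup. -/
lemma isZero_res_star (S : Subgroup G) (A : Rep.{u} k G) (n : ℕ) (hn : 0 < n) :
    IsZero (groupCohomology (res S.subtype (star A)) n) := by
  obtain ⟨T, hT, -⟩ := S.exists_isComplement_left 1
  let e : (res S.subtype (star A)) ≃ₗ[k] (S → (T → A)) :=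
    { toFun := fun x s t => x.1 ((t : G) * (s : G))
      map_add' := fun x y => rfl
      map_smul' := fun c x => rfl
      invFun := fun y => ⟨fun g => y (hT.equiv g).2 (hT.equiv g).1, mem_star A _⟩
      left_inv := fun x => by
        apply Subtype.ext
        funext g
        show x.1 (((hT.equiv g).1 : G) * ((hT.equiv g).2 : G)) = x.1 g
        have := hT.equiv.symm_apply_apply g
        exact congrArg x.1 this
      right_inv := fun y => by
        funext s t
        show y (hT.equiv ((t : G) * (s : G))).2 (hT.equiv ((t : G) * (s : G))).1 = y s t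
        have : hT.equiv ((t : G) * (s : G)) = (t, s) := hT.equiv.apply_symm_apply (t, s)
        rw [this] }
  refine isZero_of_funLike (res S.subtype (star A)) (T → A) e ?_ n hn
  intro u v m
  funext t
  show m.1 ((t : G) * (v : G) * (u : G)) = m.1 ((t : G) * ((v * u : S) : G))
  rw [mul_assoc]
  rfl

/-- `(A*)^S` is acyclic for `G ⧸ S`. -/
lemma isZero_inv_star (S : Subgroup G) [S.Normal] (A : Rep.{u} k G) (n : ℕ) (hn : 0 < n) :
    IsZero (groupCohomology ((star A).quotientToInvariants S) n) := by
  have hinv : ∀ (x : (star A).quotientToInvariants S) (h : G) (s : S),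
      x.1.1 (h * (s : G)) = x.1.1 h := by
    intro x h s
    have := x.2 s
    have := congrArg (fun y : star A => y.1 h) this
    exact this
  have hout : ∀ (x : (star A).quotientToInvariants S) (g : G),
      x.1.1 ((QuotientGroup.mk g : G ⧸ S).out) = x.1.1 g := by
    intro x g
    obtain ⟨s, hs⟩ := QuotientGroup.mk_out_eq_mul S g
    rw [hs, hinv]
  let e : ((star A).quotientToInvariants S) ≃ₗ[k] (G ⧸ S → A) :=
    { toFun := fun x q => x.1.1 q.out
      map_add' := fun x y => rfl
      map_smul' := fun c x => rfl
      invFun := fun y => ⟨⟨fun g => y (QuotientGroup.mk g), mem_star A _⟩, fun s => by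
        apply Subtype.ext
        funext h
        show y (QuotientGroup.mk (h * (s : G))) = y (QuotientGroup.mk h)
        rw [QuotientGroup.mk_mul_of_mem h s.2]⟩
      left_inv := fun x => by
        apply Subtype.ext
        apply Subtype.ext
        funext g
        exact hout x g
      right_inv := fun y => by
        funext q
        show y (QuotientGroup.mk q.out) = y q
        rw [QuotientGroup.out_eq'] }
  refine isZero_of_funLike ((star A).quotientToInvariants S) A e ?_ n hn
  intro u v m
  induction u using QuotientGroup.induction_on with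
  | H g =>
  show m.1.1 (v.out * g) = m.1.1 ((v * (QuotientGroup.mk g : G ⧸ S)).out)
  have h1 : (v * (QuotientGroup.mk g : G ⧸ S)) = QuotientGroup.mk (v.out * g) := by
    rw [QuotientGroup.mk_mul, QuotientGroup.out_eq']
  rw [h1, hout]

end Star

section Invariants

variable {k G : Type u} [CommRing k] [Group G]

lemma exact_apply_of_shortExact {X : ShortComplex (Rep.{u} k G)} (hX : X.ShortExact)
    (y : X.X₂) (hy : X.g.hom y = 0) : ∃ a : X.X₁, X.f.hom a = y := by
  have := hX.exact
  rw [← ShortComplex.exact_map_iff_of_faithful X (forget₂ (Rep k G) (ModuleCat k)),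
    ShortComplex.moduleCat_exact_iff] at this
  exact this y hy

lemma injective_of_shortExact {X : ShortComplex (Rep.{u} k G)} (hX : X.ShortExact) :
    Function.Injective X.f.hom :=
  (Rep.mono_iff_injective _).1 hX.mono_f

lemma surjective_of_shortExact {X : ShortComplex (Rep.{u} k G)} (hX : X.ShortExact) :
    Function.Surjective X.g.hom :=
  (Rep.epi_iff_surjective _).1 hX.epi_g

lemma zero_apply_of_shortComplex (X : ShortComplex (Rep.{u} k G)) (a : X.X₁) :
    X.g.hom (X.f.hom a) = 0 := by
  have := congr($(X.zero).hom a)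
  exact this

variable (S : Subgroup G) [S.Normal]

/-- the sequence of `S`-invariants of a short complex, as representations of `G ⧸ S`. -/
def invSeq (X : ShortComplex (Rep.{u} k G)) : ShortComplex (Rep.{u} k (G ⧸ S)) :=
  ShortComplex.mk ((quotientToInvariantsFunctor k S).map X.f)
    ((quotientToInvariantsFunctor k S).map X.g) (by
      rw [← Functor.map_comp, X.zero]
      ext x
      rfl)

/-- If `H¹(S, X₁) = 0` the sequence of `S`-invariants of a short exact sequence is short exact. -/
lemma invSeq_shortExact {X : ShortComplex (Rep.{u} k G)} (hX : X.ShortExact)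
    (h1 : IsZero (groupCohomology (res S.subtype X.X₁) 1)) :
    (invSeq S X).ShortExact := by
  have hinj := injective_of_shortExact hX
  have hsurj := surjective_of_shortExact hX
  refine helper60.shortExact_of_function_exact _ ?_ ?_ ?_
  · intro x y hxy
    apply Subtype.ext
    apply hinj
    exact congrArg Subtype.val hxy
  · intro (z : X.X₃.quotientToInvariants S)
    obtain ⟨x, hx⟩ := hsurj z.1
    -- the cocycle measuring the failure of invariance of `x`
    have hc : ∀ s : S, ∃ a : X.X₁, X.f.hom a = X.X₂.ρ s x - x := by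
      intro s
      apply exact_apply_of_shortExact hX
      rw [map_sub, hom_comm_apply, hx]
      have := z.2 s
      exact sub_eq_zero.2 this
    choose c hc using hc
    have hcoc : c ∈ cocycles₁ (res S.subtype X.X₁) := by
      rw [mem_cocycles₁_iff]
      intro s t
      apply hinj
      show X.f.hom (c (s * t)) = X.f.hom ((X.X₁.ρ s) (c t) + c s)
      rw [map_add, hom_comm_apply, hc, hc, hc]
      show X.X₂.ρ ((s : G) * (t : G)) x - x = _
      rw [map_mul, map_sub]
      simp
    have hz : H1π (res S.subtype X.X₁) ⟨c, hcoc⟩ = 0 :=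
      (ModuleCat.isZero_iff_subsingleton.1 h1).elim _ _
    rw [H1π_eq_zero_iff] at hz
    obtain ⟨a, ha⟩ := hz
    have ha' : ∀ s : S, X.X₁.ρ s a - a = c s := fun s => congrFun ha s
    refine ⟨⟨x - X.f.hom a, fun s => ?_⟩, ?_⟩
    · show X.X₂.ρ s (x - X.f.hom a) = x - X.f.hom a
      have h2 := hc s
      rw [← ha' s, map_sub, hom_comm_apply] at h2
      rw [map_sub]
      have h3 : X.X₂.ρ s x - X.X₂.ρ s (X.f.hom a) - (x - X.f.hom a) = 0 := by
        calc X.X₂.ρ s x - X.X₂.ρ s (X.f.hom a) - (x - X.f.hom a)
            = (X.X₂.ρ s x - x) - (X.X₂.ρ s (X.f.hom a) - X.f.hom a) := by abel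
          _ = 0 := by rw [h2]; exact sub_self _
      exact sub_eq_zero.1 h3
    · apply Subtype.ext
      show X.g.hom (x - X.f.hom a) = z.1
      rw [map_sub, zero_apply_of_shortComplex, sub_zero, hx]
  · intro (y : X.X₂.quotientToInvariants S)
    constructor
    · intro hy
      have hy' : X.g.hom y.1 = 0 := congrArg Subtype.val hy
      obtain ⟨a, ha⟩ := exact_apply_of_shortExact hX y.1 hy'
      refine ⟨⟨a, fun s => ?_⟩, ?_⟩
      · apply hinj
        show X.f.hom (X.X₁.ρ s a) = X.f.hom a
        rw [hom_comm_apply, ha]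
        exact y.2 s
      · apply Subtype.ext
        exact ha
    · rintro ⟨a, rfl⟩
      apply Subtype.ext
      exact zero_apply_of_shortComplex X a.1

/-- the comparison morphism from the (inflated) sequence of invariants to the sequence. -/
def invSeqTo (X : ShortComplex (Rep.{u} k G)) :
    (invSeq S X).map (resFunctor (QuotientGroup.mk' S)) ⟶ X where
  τ₁ := ofHom (X.X₁.ρ.quotientToInvariants_lift S)
  τ₂ := ofHom (X.X₂.ρ.quotientToInvariants_lift S)
  τ₃ := ofHom (X.X₃.ρ.quotientToInvariants_lift S)
  comm₁₂ := by
    ext x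
    rfl
  comm₂₃ := by
    ext x
    rfl

end Invariants

section Shift

variable {k G : Type u} [CommRing k] [Group G]

lemma δ_surjective_of_isZero {X : ShortComplex (Rep.{u} k G)} (hX : X.ShortExact) (n : ℕ)
    (h : IsZero (groupCohomology X.X₂ (n + 1))) : Function.Surjective (δ hX n (n + 1) rfl) :=
  (ModuleCat.epi_iff_surjective _).1 (epi_δ_of_isZero hX n h)

lemma δ_injective_of_isZero {X : ShortComplex (Rep.{u} k G)} (hX : X.ShortExact) (n : ℕ)
    (h : IsZero (groupCohomology X.X₂ n)) : Function.Injective (δ hX n (n + 1) rfl) :=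
  (ModuleCat.mono_iff_injective _).1 (mono_δ_of_isZero hX n h)

/-- vanishing of `Hⁿ(X₃)` from vanishing of `Hⁿ(X₂)` and `Hⁿ⁺¹(X₁)`. -/
lemma isZero_right_of_isZero {X : ShortComplex (Rep.{u} k G)} (hX : X.ShortExact) (n : ℕ)
    (h2 : IsZero (groupCohomology X.X₂ n)) (h1 : IsZero (groupCohomology X.X₁ (n + 1))) :
    IsZero (groupCohomology X.X₃ n) :=
  (mapShortComplex₃_exact hX (i := n) (j := n + 1) rfl).isZero_of_both_isZero h2 h1

variable (S : Subgroup G) [S.Normal]

/-- Inflation–restriction in degree `n` for `A`: inflation is injective and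
`Hⁿ(G ⧸ S, A^S) → Hⁿ(G, A) → Hⁿ(S, A)` is exact. -/
def InfResAt (A : Rep.{u} k G) (n : ℕ) : Prop :=
  Function.Injective
      (groupCohomology.map (QuotientGroup.mk' S) (ofHom <| A.ρ.quotientToInvariants_lift S) n :
        groupCohomology (A.quotientToInvariants S) n ⟶ groupCohomology A n) ∧
    Function.Exact
      (groupCohomology.map (QuotientGroup.mk' S) (ofHom <| A.ρ.quotientToInvariants_lift S) n :
        groupCohomology (A.quotientToInvariants S) n ⟶ groupCohomology A n)
      (groupCohomology.map S.subtype (𝟙 _) n :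
        groupCohomology A n ⟶ groupCohomology (res S.subtype A) n)

/-- Base case: inflation–restriction in degree 1 (Mathlib). -/
lemma infResAt_one (A : Rep.{u} k G) : InfResAt S A 1 := by
  constructor
  · exact (ModuleCat.mono_iff_injective _).1 (inferInstance : Mono (H1InfRes A S).f)
  · exact (ShortComplex.ShortExact.moduleCat_exact_iff_function_exact _).1 (H1InfRes_exact A S)

/-- The dimension shifting step. -/
theorem infResAt_shift {X : ShortComplex (Rep.{u} k G)} (hX : X.ShortExact) (n : ℕ)
    (h1 : IsZero (groupCohomology (res S.subtype X.X₁) 1))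
    (hG : IsZero (groupCohomology X.X₂ n)) (hG' : IsZero (groupCohomology X.X₂ (n + 1)))
    (hS : IsZero (groupCohomology (res S.subtype X.X₂) n))
    (hQ : IsZero (groupCohomology (X.X₂.quotientToInvariants S) (n + 1)))
    (hP : InfResAt S X.X₃ n) : InfResAt S X.X₁ (n + 1) := by
  have hXS : (X.map (resFunctor S.subtype)).ShortExact := (Rep.shortExact_res S.subtype).2 hX
  have hXQ : (invSeq S X).ShortExact := invSeq_shortExact S hX h1
  have N1 := δ_map_naturality_apply (QuotientGroup.mk' S) hXQ hX (invSeqTo S X) n (n + 1) rfl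
  have N2 := δ_res_naturality_apply S.subtype hX n (n + 1) rfl
  have sG := δ_surjective_of_isZero hX n hG'
  have iG := δ_injective_of_isZero hX n hG
  have iS := δ_injective_of_isZero hXS n hS
  have sQ := δ_surjective_of_isZero hXQ n hQ
  obtain ⟨hPinj, hPex⟩ := hP
  constructor
  · -- injectivity of inflation
    intro x y hxy
    obtain ⟨x', rfl⟩ := sQ x
    obtain ⟨y', rfl⟩ := sQ y
    have e1 := N1 x'
    have e2 := N1 y'
    have : δ hX n (n + 1) rfl (groupCohomology.map (QuotientGroup.mk' S) (invSeqTo S X).τ₃ n x')
        = δ hX n (n + 1) rfl (groupCohomology.map (QuotientGroup.mk' S) (invSeqTo S X).τ₃ n y') := by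
      rw [← e1, ← e2]
      exact hxy
    have := hPinj (iG this)
    rw [this]
  · -- exactness
    intro z
    constructor
    · intro hz
      obtain ⟨w, rfl⟩ := sG z
      have e := N2 w
      have hw : groupCohomology.map S.subtype (𝟙 (res S.subtype X.X₃)) n w = 0 := by
        apply iS
        exact (e.symm.trans hz).trans (map_zero _).symm
      obtain ⟨y, hy⟩ := (hPex w).1 hw
      refine ⟨δ hXQ n (n + 1) rfl y, ?_⟩
      have e1 := N1 y
      rw [← hy]
      exact e1
    · rintro ⟨x, rfl⟩
      obtain ⟨x', rfl⟩ := sQ x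
      have e1 := N1 x'
      have e3 : groupCohomology.map S.subtype (𝟙 (res S.subtype X.X₃)) n
          (groupCohomology.map (QuotientGroup.mk' S) (invSeqTo S X).τ₃ n x') = 0 :=
        (hPex _).2 ⟨x', rfl⟩
      have e2 := N2 (groupCohomology.map (QuotientGroup.mk' S) (invSeqTo S X).τ₃ n x')
      have e4 : δ hXS n (n + 1) rfl (groupCohomology.map S.subtype (𝟙 (res S.subtype X.X₃)) n
          (groupCohomology.map (QuotientGroup.mk' S) (invSeqTo S X).τ₃ n x')) = 0 :=
        (congrArg (δ hXS n (n + 1) rfl) e3).trans (map_zero _)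
      exact (congrArg (groupCohomology.map S.subtype (𝟙 (res S.subtype X.X₁)) (n + 1)) e1).trans
        (e2.trans e4)

end Shift

section Main

variable {k G : Type u} [CommRing k] [Group G]

/-- the shifting sequence `0 → A → A* → A*/A → 0`. -/
def shiftSeq (A : Rep.{u} k G) : ShortComplex (Rep.{u} k G) :=
  ShortComplex.cokernelSequence (helper60.toCoindBot A)

lemma shiftSeq_shortExact (A : Rep.{u} k G) : (shiftSeq A).ShortExact := by
  have hm : Mono (helper60.toCoindBot A) := (Rep.mono_iff_injective _).2 (fun a b h => by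
    have h1 : ((helper60.toCoindBot A).hom a).1 1 = ((helper60.toCoindBot A).hom b).1 1 := by
      rw [h]
    rw [helper60.toCoindBot_apply, helper60.toCoindBot_apply, map_one] at h1
    exact h1)
  have he : Epi (cokernel.π (helper60.toCoindBot A)) := inferInstance
  exact ShortComplex.ShortExact.mk' (ShortComplex.cokernelSequence_exact _) hm he

/-- **Inflation–restriction in all degrees** (Hochschild–Serre, by dimension shifting): if
`Hⁱ(S, A) = 0` for `0 < i < n + 1`, then inflation `Hⁿ⁺¹(G ⧸ S, A^S) → Hⁿ⁺¹(G, A)` is injective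
and `Hⁿ⁺¹(G ⧸ S, A^S) → Hⁿ⁺¹(G, A) → Hⁿ⁺¹(S, A)` is exact. -/
theorem infResAt_of_vanishing (S : Subgroup G) [S.Normal] : ∀ (n : ℕ) (A : Rep.{u} k G),
    (∀ i, 0 < i → i < n + 1 → IsZero (groupCohomology (res S.subtype A) i)) →
    InfResAt S A (n + 1) := by
  intro n
  induction n with
  | zero => intro A _; exact infResAt_one S A
  | succ n ih =>
    intro A hA
    have hX := shiftSeq_shortExact A
    have h1 : IsZero (groupCohomology (res S.subtype A) 1) := hA 1 one_pos (by omega)
    have hXS : ((shiftSeq A).map (resFunctor S.subtype)).ShortExact :=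
      (Rep.shortExact_res S.subtype).2 hX
    have hA' : ∀ i, 0 < i → i < n + 1 →
        IsZero (groupCohomology (res S.subtype (shiftSeq A).X₃) i) := by
      intro i hi hi'
      exact isZero_right_of_isZero hXS i (isZero_res_star S A i hi)
        (hA (i + 1) (by omega) (by omega))
    have hP := ih (shiftSeq A).X₃ hA'
    exact infResAt_shift S hX (n + 1) h1 (isZero_star A (n + 1) (by omega))
      (isZero_star A (n + 2) (by omega)) (isZero_res_star S A (n + 1) (by omega))
      (isZero_inv_star S A (n + 2) (by omega)) hP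

/-- FG2.a: if `H¹(S, A) = 0` then inflation `H²(G ⧸ S, A^S) → H²(G, A)` is injective. -/
theorem infH_two_injective (S : Subgroup G) [S.Normal] (A : Rep.{u} k G)
    (h1 : IsZero (groupCohomology (res S.subtype A) 1)) :
    Function.Injective
      (groupCohomology.map (QuotientGroup.mk' S) (ofHom <| A.ρ.quotientToInvariants_lift S) 2 :
        groupCohomology (A.quotientToInvariants S) 2 ⟶ groupCohomology A 2) :=
  (infResAt_of_vanishing S 1 A (fun i hi hi' => by
    obtain rfl : i = 1 := by omega
    exact h1)).1

/-- FG2.b: if `H¹(S, A) = 0` then `H²(G ⧸ S, A^S) → H²(G, A) → H²(S, A)` is exact. -/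
theorem infH_resH_two_exact (S : Subgroup G) [S.Normal] (A : Rep.{u} k G)
    (h1 : IsZero (groupCohomology (res S.subtype A) 1)) :
    Function.Exact
      (groupCohomology.map (QuotientGroup.mk' S) (ofHom <| A.ρ.quotientToInvariants_lift S) 2 :
        groupCohomology (A.quotientToInvariants S) 2 ⟶ groupCohomology A 2)
      (groupCohomology.map S.subtype (𝟙 _) 2 :
        groupCohomology A 2 ⟶ groupCohomology (res S.subtype A) 2) :=
  (infResAt_of_vanishing S 1 A (fun i hi hi' => by
    obtain rfl : i = 1 := by omega
    exact h1)).2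

/-- FG2.c: if `H¹(S, A) = H²(S, A) = 0` then inflation in degree 3 is injective. -/
theorem infH_three_injective (S : Subgroup G) [S.Normal] (A : Rep.{u} k G)
    (h1 : IsZero (groupCohomology (res S.subtype A) 1))
    (h2 : IsZero (groupCohomology (res S.subtype A) 2)) :
    Function.Injective
      (groupCohomology.map (QuotientGroup.mk' S) (ofHom <| A.ρ.quotientToInvariants_lift S) 3 :
        groupCohomology (A.quotientToInvariants S) 3 ⟶ groupCohomology A 3) :=
  (infResAt_of_vanishing S 2 A (fun i hi hi' => by
    rcases (show i = 1 ∨ i = 2 by omega) with rfl | rfl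
    · exact h1
    · exact h2)).1

/-- FG2.d: if `H¹(S, A) = H²(S, A) = 0` then the degree 3 inflation–restriction sequence is
exact. -/
theorem infH_resH_three_exact (S : Subgroup G) [S.Normal] (A : Rep.{u} k G)
    (h1 : IsZero (groupCohomology (res S.subtype A) 1))
    (h2 : IsZero (groupCohomology (res S.subtype A) 2)) :
    Function.Exact
      (groupCohomology.map (QuotientGroup.mk' S) (ofHom <| A.ρ.quotientToInvariants_lift S) 3 :
        groupCohomology (A.quotientToInvariants S) 3 ⟶ groupCohomology A 3)
      (groupCohomology.map S.subtype (𝟙 _) 3 :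
        groupCohomology A 3 ⟶ groupCohomology (res S.subtype A) 3) :=
  (infResAt_of_vanishing S 2 A (fun i hi hi' => by
    rcases (show i = 1 ∨ i = 2 by omega) with rfl | rfl
    · exact h1
    · exact h2)).2

end Main

end

end Fermat.Agent.S55.helper83
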