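import Fermat.Agent.S55.helper90_FG5b
import Fermat.Agent.S55.helper83_FG2
import Fermat.Agent.S55.helper83_FG6

/-!
# S55 / module FG : unconditional FG2.d, FG5 and FG6 (helper83)

* `infResThreeExact` : `helper90.InfResThreeExact k` (FG2.d, from `helper83_FG2`);
* `isZero_H3_of_forall_subgroup` : the Nakayama–Tate criterion in degree 3 (FG5), unconditional;
* `isZero_H3_of_fundamentalClass` : Tate's theorem in degree 3 (FG6), unconditional.

The statements are verbatim those of the FG interface (helper46), with `resH`/`infH` unfolded.
-/

set_option autoImplicit false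

universe u

open CategoryTheory CategoryTheory.Limits groupCohomology Rep

namespace Fermat.Agent.S55.helper83

/-- FG2.d in the shape used by `helper90_FG5`. -/
theorem infResThreeExact (k : Type u) [CommRing k] : helper90.InfResThreeExact k :=
  fun _ _ S _ A h1 h2 => infH_resH_three_exact S A h1 h2

/-- **FG5** (Nakayama–Tate criterion in degree 3), unconditional: if
`H¹(U, A) = H²(U, A) = 0` for all subgroups `U` of the finite group `G`, then `H³(G, A) = 0`. -/
theorem isZero_H3_of_forall_subgroup {k G : Type u} [CommRing k] [Group G] [Finite G]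
    (A : Rep k G)
    (h1 : ∀ U : Subgroup G, IsZero (groupCohomology (res U.subtype A) 1))
    (h2 : ∀ U : Subgroup G, IsZero (groupCohomology (res U.subtype A) 2)) :
    IsZero (groupCohomology A 3) :=
  helper90.isZero_H3_of_forall_subgroup_of_infRes (infResThreeExact k) A h1 h2

/-- The Nakayama–Tate property of `helper83_FG6` holds for every finite group. -/
theorem nakayamaTate (k : Type) [CommRing k] (G : Type) [Group G] [Finite G] :
    NakayamaTate k G :=
  fun A h1 h2 => isZero_H3_of_forall_subgroup A h1 h2

/-- **FG6** (Tate's theorem in degree 3), unconditional: let `C` be a `G`-module (`G` finite)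
with `H¹(U, C) = 0` for all `U ≤ G` and a class `γ ∈ H²(G, C)` such that for all `U ≤ G`,
`H²(U, C)` has exactly `|U|` elements and is generated by `res γ`. Then `H³(G, C) = 0`. -/
theorem isZero_H3_of_fundamentalClass (G : Type) [Group G] [Finite G] (C : Rep ℤ G)
    (h1 : ∀ U : Subgroup G, IsZero (groupCohomology (res U.subtype C) 1))
    (γ : groupCohomology C 2)
    (hcard : ∀ U : Subgroup G, Nat.card (groupCohomology (res U.subtype C) 2) = Nat.card U)
    (hgen : ∀ U : Subgroup G, ∀ x : groupCohomology (res U.subtype C) 2,
      ∃ m : ℤ, x = m • groupCohomology.map U.subtype (𝟙 _) 2 γ) :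
    IsZero (groupCohomology C 3) :=
  isZero_H3_of_fundamentalClass_of G (nakayamaTate ℤ G) C h1 γ hcard hgen

end Fermat.Agent.S55.helper83
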