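import Fermat.Agent.S55.helper33_Rec2Defs
import Fermat.Agent.S55.helper46_FG1Strong
import Fermat.Agent.S55.helper83_FGFinal

/-!
# S55 / REC2-TATE (helper1, task 381): the fundamental class of a `p`-extension

`L/F` a Galois extension of number fields of odd prime power degree, `C_L = IdeleClass L`.
From the packages

* `HypRec2Simple` (R2-SIMPLE, `exists_cocycle_ideleClass`): a 2-cocycle of exact order `[L:F]`,
* `HypGlobH1` (GLOB G9, `ideleClass_H1_trivial`),
* `HypGlobH2` (GLOB G9, `card_H2_ideleClass_dvd`),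

(taken as hypotheses, in the exact shapes of the interfaces) we prove the four statements of
R2-TATE of `helper33_Rec2Interface`, verbatim up to the extra hypotheses:

* `card_H2_ideleClass_of` : `H²(Gal(L/F), C_L)` is cyclic of order `[L:F]`;
* `exists_fundamentalClass_of` : a class `γ` whose restrictions generate `H²(U, C_L)`, of
  order `|U|`, for every subgroup `U`;
* `isZero_H1_res_ideleClass_of` : `H¹(U, C_L) = 0` for every subgroup `U`;
* `isZero_H3_ideleClass_of` : `H³(Gal(L/F), C_L) = 0` (Tate, via FG6 `helper83`).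
-/

set_option autoImplicit false

open scoped TensorProduct NumberField
open groupCohomology CategoryTheory

namespace Fermat.Agent.S55.helper1

open Fermat.Agent.S55.helper73 Fermat.Agent.S55.helper33

/-! ## Generic dictionary: multiplicative cocycles and `H¹`, `H²` -/

section Dict

variable {G M : Type} [Group G] [CommGroup M] [MulDistribMulAction G M]

theorem isMulCocycle₂_pow {γ : G × G → M} (hγ : IsMulCocycle₂ γ) (j : ℕ) :
    IsMulCocycle₂ (fun g : G × G => γ g ^ j) := by
  intro g h k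
  simp only [smul_pow', ← mul_pow, hγ g h k]

theorem H2π_cocycle_pow {γ : G × G → M} (hγ : IsMulCocycle₂ γ) (j : ℕ) :
    H2π (Rep.ofMulDistribMulAction G M) (cocyclesOfIsMulCocycle₂ (isMulCocycle₂_pow hγ j)) =
      j • H2π (Rep.ofMulDistribMulAction G M) (cocyclesOfIsMulCocycle₂ hγ) := by
  rw [← map_nsmul]
  rfl

theorem H2π_cocycle_eq_zero_iff {γ : G × G → M} (hγ : IsMulCocycle₂ γ) :
    H2π (Rep.ofMulDistribMulAction G M) (cocyclesOfIsMulCocycle₂ hγ) = 0 ↔
      IsMulCoboundary₂ γ := by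
  rw [H2π_eq_zero_iff]
  constructor
  · intro h
    exact isMulCoboundary₂_of_mem_coboundaries₂ _ h
  · intro h
    exact (coboundariesOfIsMulCoboundary₂ h).2

/-- The class of a multiplicative cocycle `γ` with `γ ^ j` a coboundary iff `N ∣ j` has
additive order exactly `N`. -/
theorem nsmul_H2π_cocycle_eq_zero_iff {γ : G × G → M} (hγ : IsMulCocycle₂ γ) (N : ℕ)
    (h : ∀ j : ℕ, IsMulCoboundary₂ (fun g : G × G => γ g ^ j) ↔ N ∣ j) (j : ℕ) :
    j • H2π (Rep.ofMulDistribMulAction G M) (cocyclesOfIsMulCocycle₂ hγ) = 0 ↔ N ∣ j := by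
  rw [← H2π_cocycle_pow hγ j, H2π_cocycle_eq_zero_iff, h j]

theorem isZero_H1_of_forall_isMulCoboundary₁
    (h : ∀ f : G → M, IsMulCocycle₁ f → IsMulCoboundary₁ f) :
    Limits.IsZero (groupCohomology (Rep.ofMulDistribMulAction G M) 1) := by
  have hs : Subsingleton (groupCohomology (Rep.ofMulDistribMulAction G M) 1) := by
    refine ⟨fun x y => ?_⟩
    have key : ∀ z : H1 (Rep.ofMulDistribMulAction G M), z = 0 := by
      intro z
      induction z using H1_induction_on with
      | h c =>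
        rw [H1π_eq_zero_iff]
        have h1 := isMulCocycle₁_of_mem_cocycles₁ (G := G) (M := M) (⇑c) c.2
        have h2 := h _ h1
        exact (coboundariesOfIsMulCoboundary₁ h2).2
    rw [key x, key y]
  exact ModuleCat.isZero_of_subsingleton _

end Dict

/-! ## Generic finite abelian groups -/

section Fin

variable {H : Type*} [AddCommGroup H]

theorem card_eq_and_generates_of_order [Finite H] (N : ℕ) (hcard : Nat.card H ∣ N)
    (c : H) (hc : ∀ j : ℕ, j • c = 0 ↔ N ∣ j) :
    Nat.card H = N ∧ ∀ x : H, ∃ m : ℤ, x = m • c := by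
  have hord : addOrderOf c = N := by
    apply Nat.dvd_antisymm
    · exact addOrderOf_dvd_of_nsmul_eq_zero ((hc N).2 dvd_rfl)
    · exact (hc _).1 (addOrderOf_nsmul_eq_zero c)
  have h1 : addOrderOf c ∣ Nat.card H := addOrderOf_dvd_natCard c
  have h2 : Nat.card H = N := Nat.dvd_antisymm hcard (hord ▸ h1)
  refine ⟨h2, fun x => ?_⟩
  have h3 : addOrderOf c = Nat.card H := by rw [hord, h2]
  have h4 : AddSubgroup.zmultiples c = ⊤ := by
    rw [← AddSubgroup.card_eq_iff_eq_top, Nat.card_zmultiples, h3]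
  have h5 : x ∈ AddSubgroup.zmultiples c := h4 ▸ AddSubgroup.mem_top x
  obtain ⟨m, hm⟩ := AddSubgroup.mem_zmultiples_iff.1 h5
  exact ⟨m, hm.symm⟩

theorem generates_of_order [Finite H] (r : H)
    (hr : ∀ m : ℕ, m • r = 0 → Nat.card H ∣ m) : ∀ x : H, ∃ m : ℤ, x = m • r := by
  refine (card_eq_and_generates_of_order (Nat.card H) dvd_rfl r fun j => ⟨hr j, ?_⟩).2
  rintro ⟨k, rfl⟩
  rw [mul_nsmul, card_nsmul_eq_zero', nsmul_zero]

end Fin

/-! ## Transport to subgroups -/

section Transport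

variable (F L : Type) [Field F] [NumberField F] [Field L] [NumberField L] [Algebra F L]
  [IsGalois F L]

omit [IsGalois F L] in
theorem smul_ideleClass_subgroupEquiv (U : Subgroup Gal(L/F)) (g : U) (x : IdeleClass L) :
    (IntermediateField.subgroupEquivAlgEquiv U g) • x = (g : Gal(L/F)) • x := by
  induction x using QuotientGroup.induction_on with
  | H y =>
    rw [smul_mk, smul_mk]
    rfl

/-- `Hⁱ(U, C_L) ≅ Hⁱ(Gal(L/L^U), C_L)` for a subgroup `U ≤ Gal(L/F)`. -/
noncomputable def resIdeleClassIso (U : Subgroup Gal(L/F)) (i : ℕ) :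
    groupCohomology
        (Rep.res U.subtype (Rep.ofMulDistribMulAction Gal(L/F) (IdeleClass L))) i ≅
      groupCohomology
        (Rep.ofMulDistribMulAction Gal(L/(IntermediateField.fixedField U)) (IdeleClass L)) i :=
  groupCohomology.mapIso (IntermediateField.subgroupEquivAlgEquiv U)
    (LinearEquiv.refl ℤ _)
    (fun g => by
      ext x
      exact congrArg Additive.ofMul
        (smul_ideleClass_subgroupEquiv F L U g (Additive.toMul x)).symm) i

theorem exists_finrank_fixedField_eq_pow (p : ℕ) (hp : p.Prime) (n : ℕ)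
    (hdeg : Module.finrank F L = p ^ n) (U : Subgroup Gal(L/F)) :
    ∃ k : ℕ, Module.finrank (IntermediateField.fixedField U) L = p ^ k := by
  rw [IntermediateField.finrank_fixedField_eq_card]
  have h1 : Nat.card U ∣ Nat.card Gal(L/F) := Subgroup.card_subgroup_dvd_card U
  rw [IsGalois.card_aut_eq_finrank, hdeg] at h1
  obtain ⟨k, -, hk⟩ := (Nat.dvd_prime_pow hp).1 h1
  exact ⟨k, hk⟩

end Transport

/-! ## The hypotheses (other packages) -/

/-- R2-SIMPLE `exists_cocycle_ideleClass`, as a hypothesis. -/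
def HypRec2Simple : Prop :=
  ∀ (F L : Type) [Field F] [NumberField F] [Field L] [NumberField L] [Algebra F L]
    [IsGalois F L] (p : ℕ) (_ : p.Prime) (_ : p ≠ 2) (n : ℕ)
    (_ : Module.finrank F L = p ^ n),
    ∃ γ : Gal(L/F) × Gal(L/F) → IdeleClass L, IsMulCocycle₂ γ ∧
      ∀ j : ℕ, IsMulCoboundary₂ (fun g : Gal(L/F) × Gal(L/F) => γ g ^ j) ↔ p ^ n ∣ j

/-- GLOB G9 `ideleClass_H1_trivial`, as a hypothesis. -/
def HypGlobH1 : Prop :=
  ∀ (K L : Type) [Field K] [NumberField K] [Field L] [NumberField L] [Algebra K L]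
    [IsGalois K L] (p : ℕ) (_ : p.Prime) (_ : p ≠ 2) (n : ℕ)
    (_ : Module.finrank K L = p ^ n)
    (f : Gal(L/K) → IdeleClass L) (_ : IsMulCocycle₁ f), IsMulCoboundary₁ f

/-- GLOB G9 `card_H2_ideleClass_dvd`, as a hypothesis. -/
def HypGlobH2 : Prop :=
  ∀ (K L : Type) [Field K] [NumberField K] [Field L] [NumberField L]
    [Algebra K L] [IsGalois K L] (p : ℕ) (_ : p.Prime) (_ : p ≠ 2) (n : ℕ)
    (_ : Module.finrank K L = p ^ n),
    Finite (H2 (Rep.ofMulDistribMulAction Gal(L/K) (IdeleClass L))) ∧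
    Nat.card (H2 (Rep.ofMulDistribMulAction Gal(L/K) (IdeleClass L))) ∣ p ^ n

/-! ## R2-TATE -/

section Main

variable (hS : HypRec2Simple) (hH1 : HypGlobH1) (hH2 : HypGlobH2)
  (F L : Type) [Field F] [NumberField F] [Field L] [NumberField L] [Algebra F L]
  [IsGalois F L]

include hS hH2 in
/-- The class of order `[L : F]` together with the order of `H²`. -/
theorem exists_class_of_order_of (p : ℕ) (hp : p.Prime) (hp2 : p ≠ 2) (n : ℕ)
    (hdeg : Module.finrank F L = p ^ n) :
    Nat.card (groupCohomology (Rep.ofMulDistribMulAction Gal(L/F) (IdeleClass L)) 2) = p ^ n ∧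
    ∃ γ : groupCohomology (Rep.ofMulDistribMulAction Gal(L/F) (IdeleClass L)) 2,
      (∀ j : ℕ, j • γ = 0 ↔ p ^ n ∣ j) ∧ ∀ x, ∃ m : ℤ, x = m • γ := by
  obtain ⟨γ, hγ, hord⟩ := hS F L p hp hp2 n hdeg
  obtain ⟨hfin, hdvd⟩ := hH2 F L p hp hp2 n hdeg
  have key := nsmul_H2π_cocycle_eq_zero_iff hγ (p ^ n) hord
  obtain ⟨h1, h2⟩ := card_eq_and_generates_of_order (p ^ n) hdvd _ key
  exact ⟨h1, _, key, h2⟩

include hS hH2 in
/-- **R2-TATE (1)**: `H²(Gal(L/F), C_L)` is cyclic of order `[L : F]`. -/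
theorem card_H2_ideleClass_of (p : ℕ) (hp : p.Prime) (hp2 : p ≠ 2) (n : ℕ)
    (hdeg : Module.finrank F L = p ^ n) :
    Nat.card (groupCohomology (Rep.ofMulDistribMulAction Gal(L/F) (IdeleClass L)) 2) = p ^ n ∧
    ∃ γ : groupCohomology (Rep.ofMulDistribMulAction Gal(L/F) (IdeleClass L)) 2,
      ∀ x, ∃ m : ℤ, x = m • γ := by
  obtain ⟨h1, γ, -, h2⟩ := exists_class_of_order_of hS hH2 F L p hp hp2 n hdeg
  exact ⟨h1, γ, h2⟩

include hS hH2 in
theorem card_H2_res_ideleClass_of (p : ℕ) (hp : p.Prime) (hp2 : p ≠ 2) (n : ℕ)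
    (hdeg : Module.finrank F L = p ^ n) (U : Subgroup Gal(L/F)) :
    Nat.card (groupCohomology
        (Rep.res U.subtype (Rep.ofMulDistribMulAction Gal(L/F) (IdeleClass L))) 2) =
      Nat.card U := by
  obtain ⟨k, hk⟩ := exists_finrank_fixedField_eq_pow F L p hp n hdeg U
  have h1 := (card_H2_ideleClass_of hS hH2 (IntermediateField.fixedField U) L p hp hp2 k hk).1
  rw [Nat.card_congr (resIdeleClassIso F L U 2).toLinearEquiv.toEquiv, h1, ← hk,
    IntermediateField.finrank_fixedField_eq_card]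

include hS hH2 in
/-- **R2-TATE (2)** (fundamental class). -/
theorem exists_fundamentalClass_of (p : ℕ) (hp : p.Prime) (hp2 : p ≠ 2) (n : ℕ)
    (hdeg : Module.finrank F L = p ^ n) :
    ∃ γ : groupCohomology (Rep.ofMulDistribMulAction Gal(L/F) (IdeleClass L)) 2,
      (∀ U : Subgroup Gal(L/F), Nat.card (groupCohomology
        (Rep.res U.subtype (Rep.ofMulDistribMulAction Gal(L/F) (IdeleClass L))) 2) = Nat.card U) ∧
      (∀ U : Subgroup Gal(L/F), ∀ x : groupCohomology
        (Rep.res U.subtype (Rep.ofMulDistribMulAction Gal(L/F) (IdeleClass L))) 2,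
        ∃ m : ℤ, x = m • groupCohomology.map U.subtype (𝟙 _) 2 γ) := by
  obtain ⟨-, γ, hγ, -⟩ := exists_class_of_order_of hS hH2 F L p hp hp2 n hdeg
  refine ⟨γ, fun U => card_H2_res_ideleClass_of hS hH2 F L p hp hp2 n hdeg U, fun U => ?_⟩
  have hcardU := card_H2_res_ideleClass_of hS hH2 F L p hp hp2 n hdeg U
  have hfinU : Finite (groupCohomology
      (Rep.res U.subtype (Rep.ofMulDistribMulAction Gal(L/F) (IdeleClass L))) 2) := by
    apply Nat.finite_of_card_ne_zero
    rw [hcardU]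
    exact Nat.card_pos.ne'
  apply generates_of_order
  intro m hm
  rw [hcardU]
  obtain ⟨c, hc⟩ := helper46.exists_cor U (Rep.ofMulDistribMulAction Gal(L/F) (IdeleClass L)) 2
  have h1 : (m * U.index) • γ = 0 := by
    rw [mul_nsmul', ← hc γ, ← map_nsmul, hm, map_zero]
  have h2 : p ^ n ∣ m * U.index := (hγ _).1 h1
  have h3 : U.index * Nat.card U = p ^ n := by
    rw [Subgroup.index_mul_card, IsGalois.card_aut_eq_finrank, hdeg]
  rw [← h3, mul_comm m] at h2
  exact Nat.dvd_of_mul_dvd_mul_left (Nat.pos_of_ne_zero Subgroup.index_ne_zero_of_finite) h2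

include hH1 in
/-- **R2-TATE (3)**: `H¹(U, C_L) = 0` for every subgroup. -/
theorem isZero_H1_res_ideleClass_of (p : ℕ) (hp : p.Prime) (hp2 : p ≠ 2) (n : ℕ)
    (hdeg : Module.finrank F L = p ^ n) (U : Subgroup Gal(L/F)) :
    Limits.IsZero (groupCohomology
      (Rep.res U.subtype (Rep.ofMulDistribMulAction Gal(L/F) (IdeleClass L))) 1) := by
  obtain ⟨k, hk⟩ := exists_finrank_fixedField_eq_pow F L p hp n hdeg U
  have h1 : Limits.IsZero (groupCohomology
      (Rep.ofMulDistribMulAction Gal(L/(IntermediateField.fixedField U)) (IdeleClass L)) 1) :=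
    isZero_H1_of_forall_isMulCoboundary₁
      (hH1 (IntermediateField.fixedField U) L p hp hp2 k hk)
  exact h1.of_iso (resIdeleClassIso F L U 1)

include hS hH1 hH2 in
/-- **R2-TATE (4)** (output O1): `H³(Gal(L/F), C_L) = 0`. -/
theorem isZero_H3_ideleClass_of (p : ℕ) (hp : p.Prime) (hp2 : p ≠ 2) (n : ℕ)
    (hdeg : Module.finrank F L = p ^ n) :
    Limits.IsZero
      (groupCohomology (Rep.ofMulDistribMulAction Gal(L/F) (IdeleClass L)) 3) := by
  obtain ⟨γ, hcard, hgen⟩ := exists_fundamentalClass_of hS hH2 F L p hp hp2 n hdeg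
  exact helper83.isZero_H3_of_fundamentalClass Gal(L/F)
    (Rep.ofMulDistribMulAction Gal(L/F) (IdeleClass L))
    (fun U => isZero_H1_res_ideleClass_of hH1 F L p hp hp2 n hdeg U) γ hcard hgen

end Main

end Fermat.Agent.S55.helper1
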