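import Fermat.Agent.S55.helper46_Dic2
import Fermat.Agent.S55.helper46_FG1Strong

/-!
# S55 / REC3 R3-DIC + R3-SYL, abstract part III (helper46): `p`-local dictionary

`p`-local versions of the vanishing criteria of `helper46_Dic`: if at cofinal finite levels the
cohomology is killed by integers prime to `p` (e.g. because it vanishes on a Sylow
`p`-subgroup), then every level-constant cocycle becomes a level-constant coboundary after
multiplication by an integer prime to `p`.  These are the shapes of the hypotheses of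
`helper90.ESeq.GoodP.h3_Tp` (`hJ3`, `hC1`).
-/

set_option autoImplicit false

open CategoryTheory CategoryTheory.Limits groupCohomology Rep

noncomputable section

namespace Fermat.Agent.S55.helper46

open Fermat.Agent.S55 Fermat.Agent.S55.helper90

/-! ## Sylow step at a finite level -/

section Sylow

universe u

variable {k G : Type u} [CommRing k] [Group G]

/-- a class whose restriction to a subgroup of index prime to `p` vanishes is killed by an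
integer prime to `p` -/
theorem exists_nsmul_eq_zero_of_res_eq_zero (p : ℕ) (S : Subgroup G) [S.FiniteIndex]
    (hS : ¬ p ∣ S.index) (A : Rep.{u} k G) (n : ℕ) (x : groupCohomology A n)
    (h : groupCohomology.map S.subtype (𝟙 (res S.subtype A)) n x = 0) :
    ∃ m : ℕ, ¬ p ∣ m ∧ m • x = 0 := by
  obtain ⟨c, hc⟩ := exists_cor S A n
  exact ⟨S.index, hS, by rw [← hc x, h, map_zero]⟩

/-- if the cohomology of a subgroup of index prime to `p` vanishes, every class is killed by an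
integer prime to `p` -/
theorem exists_nsmul_eq_zero_of_isZero_res (p : ℕ) (S : Subgroup G) [S.FiniteIndex]
    (hS : ¬ p ∣ S.index) (A : Rep.{u} k G) (n : ℕ)
    (hz : IsZero (groupCohomology (res S.subtype A) n)) (x : groupCohomology A n) :
    ∃ m : ℕ, ¬ p ∣ m ∧ m • x = 0 :=
  exists_nsmul_eq_zero_of_res_eq_zero p S hS A n x
    ((ModuleCat.isZero_iff_subsingleton.mp hz).elim _ _)

/-- **Sylow step**: if the cohomology of a Sylow `p`-subgroup vanishes, every class is killed by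
an integer prime to `p`. -/
theorem exists_nsmul_eq_zero_of_sylow [Finite G] (p : ℕ) [Fact p.Prime] (P : Sylow p G)
    (A : Rep.{u} k G) (n : ℕ)
    (hz : IsZero (groupCohomology (res (P : Subgroup G).subtype A) n))
    (x : groupCohomology A n) : ∃ m : ℕ, ¬ p ∣ m ∧ m • x = 0 :=
  exists_nsmul_eq_zero_of_isZero_res p (P : Subgroup G) P.not_dvd_index A n hz x

end Sylow

variable {k U : Type} [CommRing k] [Group U] {𝒩 : Levels U} {M : Rep.{0} k U}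

/-! ## `p`-local vanishing -/

/-- **MAIN, `p`-local, degree 1.** -/
theorem Z1_pLocal_of_torsion (p : ℕ) (hfin : FinLevels 𝒩) (hd : IsDisc 𝒩 M)
    (h : ∀ N ∈ 𝒩.mem, ∃ X : FinReal 𝒩 M, X.π.ker ≤ N ∧
      ∀ x : groupCohomology X.M' 1, ∃ m : ℕ, ¬ p ∣ m ∧ m • x = 0) :
    ∀ t ∈ Z1 𝒩 M, ∃ m : ℕ, ¬ p ∣ m ∧ m • t ∈ B1 M := by
  intro t ht
  obtain ⟨N, hN, hrep⟩ := exists_cocycle₁ hfin hd ht
  obtain ⟨X, hX, htor⟩ := h N hN
  obtain ⟨f', rfl⟩ := hrep X hX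
  obtain ⟨m, hm, hmx⟩ := htor (H1π X.M' f')
  refine ⟨m, hm, ?_⟩
  have h0 : H1π X.M' (m • f') = 0 := by rw [map_nsmul, hmx]
  have := X.infl₁_mem_B1_of_H1π_eq_zero h0
  rwa [show ((m • f' : cocycles₁ X.M') : X.Q → X.M') = m • (f' : X.Q → X.M') from rfl,
    map_nsmul] at this

/-- **MAIN, `p`-local, degree 2.** -/
theorem Z2_pLocal_of_torsion (p : ℕ) (hfin : FinLevels 𝒩) (hd : IsDisc 𝒩 M)
    (h : ∀ N ∈ 𝒩.mem, ∃ X : FinReal 𝒩 M, X.π.ker ≤ N ∧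
      ∀ x : groupCohomology X.M' 2, ∃ m : ℕ, ¬ p ∣ m ∧ m • x = 0) :
    ∀ t ∈ Z2 𝒩 M, ∃ m : ℕ, ¬ p ∣ m ∧ m • t ∈ B2 𝒩 M := by
  intro t ht
  obtain ⟨N, hN, hrep⟩ := exists_cocycle₂ hfin hd ht
  obtain ⟨X, hX, htor⟩ := h N hN
  obtain ⟨f', rfl⟩ := hrep X hX
  obtain ⟨m, hm, hmx⟩ := htor (H2π X.M' f')
  refine ⟨m, hm, ?_⟩
  have h0 : H2π X.M' (m • f') = 0 := by rw [map_nsmul, hmx]
  have := X.infl₂_mem_B2_of_H2π_eq_zero h0
  rwa [show ((m • f' : cocycles₂ X.M') : X.Q × X.Q → X.M') = m • (f' : X.Q × X.Q → X.M')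
    from rfl, map_nsmul] at this

/-- **MAIN, `p`-local, degree 3.** -/
theorem Z3_pLocal_of_torsion (p : ℕ) (hfin : FinLevels 𝒩) (hd : IsDisc 𝒩 M)
    (h : ∀ N ∈ 𝒩.mem, ∃ X : FinReal 𝒩 M, X.π.ker ≤ N ∧
      ∀ x : groupCohomology X.M' 3, ∃ m : ℕ, ¬ p ∣ m ∧ m • x = 0) :
    ∀ t ∈ Z3 𝒩 M, ∃ m : ℕ, ¬ p ∣ m ∧ m • t ∈ B3 𝒩 M := by
  intro t ht
  obtain ⟨N, hN, hrep⟩ := exists_cocycle₃ hfin hd ht
  obtain ⟨X, hX, htor⟩ := h N hN
  obtain ⟨f', rfl⟩ := hrep X hX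
  obtain ⟨m, hm, hmx⟩ := htor (H3π X.M' f')
  refine ⟨m, hm, ?_⟩
  have h0 : H3π X.M' (m • f') = 0 := by rw [map_nsmul, hmx]
  have := X.infl₃_mem_B3_of_H3π_eq_zero h0
  rwa [show ((m • f' : cocycles₃ X.M') : X.Q × X.Q × X.Q → X.M') =
    m • (f' : X.Q × X.Q × X.Q → X.M') from rfl, map_nsmul] at this

/-! ## `p`-local vanishing from Sylow subgroups -/

/-- **MAIN, Sylow form, degree 1**: if at cofinal finite levels `H¹` of a Sylow `p`-subgroup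
vanishes, then `H¹_lc(U, M)` is killed by integers prime to `p`. -/
theorem Z1_pLocal_of_sylow (p : ℕ) [Fact p.Prime] (hfin : FinLevels 𝒩) (hd : IsDisc 𝒩 M)
    (h : ∀ N ∈ 𝒩.mem, ∃ X : FinReal 𝒩 M, X.π.ker ≤ N ∧ ∃ _ : Finite X.Q, ∃ P : Sylow p X.Q,
      IsZero (groupCohomology (res (P : Subgroup X.Q).subtype X.M') 1)) :
    ∀ t ∈ Z1 𝒩 M, ∃ m : ℕ, ¬ p ∣ m ∧ m • t ∈ B1 M :=
  Z1_pLocal_of_torsion p hfin hd fun N hN => by
    obtain ⟨X, hX, _, P, hz⟩ := h N hN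
    exact ⟨X, hX, exists_nsmul_eq_zero_of_sylow p P X.M' 1 hz⟩

/-- **MAIN, Sylow form, degree 2.** -/
theorem Z2_pLocal_of_sylow (p : ℕ) [Fact p.Prime] (hfin : FinLevels 𝒩) (hd : IsDisc 𝒩 M)
    (h : ∀ N ∈ 𝒩.mem, ∃ X : FinReal 𝒩 M, X.π.ker ≤ N ∧ ∃ _ : Finite X.Q, ∃ P : Sylow p X.Q,
      IsZero (groupCohomology (res (P : Subgroup X.Q).subtype X.M') 2)) :
    ∀ t ∈ Z2 𝒩 M, ∃ m : ℕ, ¬ p ∣ m ∧ m • t ∈ B2 𝒩 M :=
  Z2_pLocal_of_torsion p hfin hd fun N hN => by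
    obtain ⟨X, hX, _, P, hz⟩ := h N hN
    exact ⟨X, hX, exists_nsmul_eq_zero_of_sylow p P X.M' 2 hz⟩

/-- **MAIN, Sylow form, degree 3.** -/
theorem Z3_pLocal_of_sylow (p : ℕ) [Fact p.Prime] (hfin : FinLevels 𝒩) (hd : IsDisc 𝒩 M)
    (h : ∀ N ∈ 𝒩.mem, ∃ X : FinReal 𝒩 M, X.π.ker ≤ N ∧ ∃ _ : Finite X.Q, ∃ P : Sylow p X.Q,
      IsZero (groupCohomology (res (P : Subgroup X.Q).subtype X.M') 3)) :
    ∀ t ∈ Z3 𝒩 M, ∃ m : ℕ, ¬ p ∣ m ∧ m • t ∈ B3 𝒩 M :=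
  Z3_pLocal_of_torsion p hfin hd fun N hN => by
    obtain ⟨X, hX, _, P, hz⟩ := h N hN
    exact ⟨X, hX, exists_nsmul_eq_zero_of_sylow p P X.M' 3 hz⟩

end Fermat.Agent.S55.helper46
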