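import Mathlib

/-!
# S55 / GLOB: shared definitions (helper73)

Idele-type Galois modules for number fields, in the "semilocal over `ℚ_q`" model.

* `SemiLoc q L = ℚ_[q] ⊗[ℚ] L` : the semilocal algebra (`= ∏_{w ∣ q} L_w`).
* ring automorphisms of `L` act on `SemiLoc q L` through the second factor
  (`semiLocAut`, instance `MulSemiringAction (L ≃ₐ[K] L) (SemiLoc q L)`).
* `intUnits q L` : the units of `SemiLoc q L` that are integral over `ℤ_[q]` together with their
  inverse (`= ∏_{w ∣ q} 𝓞_w^×`).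
* `Idele L` : finite ideles (restricted product over all rational primes `q`).
* `principalPi L : Lˣ →* ∏_q (SemiLoc q L)ˣ`, `IdeleClass L`.
-/

set_option autoImplicit false

open scoped TensorProduct

namespace Fermat.Agent.S55.helper73

/-- The semilocal algebra `ℚ_q ⊗_ℚ L` (for a number field `L` it is `∏_{w ∣ q} L_w`). -/
abbrev SemiLoc (q : ℕ) [Fact q.Prime] (L : Type*) [Field L] [CharZero L] : Type _ :=
  ℚ_[q] ⊗[ℚ] L

section Action

variable (q : ℕ) [Fact q.Prime] (L : Type*) [Field L] [CharZero L]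

/-- A ring automorphism of `L` acts on `ℚ_q ⊗ L` through the second factor. -/
noncomputable def semiLocAut : (L ≃+* L) →* (SemiLoc q L ≃ₐ[ℚ_[q]] SemiLoc q L) where
  toFun σ := Algebra.TensorProduct.congr AlgEquiv.refl σ.toRatAlgEquiv
  map_one' := by
    apply AlgEquiv.ext
    intro x
    induction x using TensorProduct.induction_on with
    | zero => simp
    | tmul a b => simp [Algebra.TensorProduct.congr_apply]
    | add x y hx hy => simp [map_add, hx, hy]
  map_mul' σ τ := by
    apply AlgEquiv.ext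
    intro x
    induction x using TensorProduct.induction_on with
    | zero => simp
    | tmul a b => simp [Algebra.TensorProduct.congr_apply]
    | add x y hx hy => simp only [map_add, hx, hy]

@[simp]
lemma semiLocAut_tmul (σ : L ≃+* L) (a : ℚ_[q]) (b : L) :
    semiLocAut q L σ (a ⊗ₜ[ℚ] b) = a ⊗ₜ[ℚ] σ b := by
  simp [semiLocAut, Algebra.TensorProduct.congr_apply]

variable (K : Type*) [Field K] [Algebra K L]

/-- The monoid hom `Gal(L/K) → Aut(ℚ_q ⊗ L / ℚ_q)`. -/
noncomputable def galSemiLocAut : (L ≃ₐ[K] L) →* (SemiLoc q L ≃ₐ[ℚ_[q]] SemiLoc q L) :=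
  (semiLocAut q L).comp
    { toFun := fun σ => σ.toRingEquiv
      map_one' := rfl
      map_mul' := fun _ _ => rfl }

@[simp]
lemma galSemiLocAut_tmul (σ : L ≃ₐ[K] L) (a : ℚ_[q]) (b : L) :
    galSemiLocAut q L K σ (a ⊗ₜ[ℚ] b) = a ⊗ₜ[ℚ] σ b := by
  change semiLocAut q L σ.toRingEquiv (a ⊗ₜ[ℚ] b) = _
  rw [semiLocAut_tmul]
  rfl

/-- `Gal(L/K)` acts on the semilocal algebra `ℚ_q ⊗ L`. -/
noncomputable instance semiLocAction : MulSemiringAction (L ≃ₐ[K] L) (SemiLoc q L) :=
  MulSemiringAction.compHom (SemiLoc q L) (galSemiLocAut q L K)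

lemma smul_def (σ : L ≃ₐ[K] L) (x : SemiLoc q L) : σ • x = galSemiLocAut q L K σ x := rfl

/-- `Gal(L/K)` acts on the units of the semilocal algebra. -/
noncomputable instance semiLocUnitsAction : MulDistribMulAction (L ≃ₐ[K] L) (SemiLoc q L)ˣ :=
  MulDistribMulAction.compHom (SemiLoc q L)ˣ (galSemiLocAut q L K)

lemma smul_units_def (σ : L ≃ₐ[K] L) (x : (SemiLoc q L)ˣ) :
    σ • x = Units.map (galSemiLocAut q L K σ : SemiLoc q L →* SemiLoc q L) x := rfl

@[simp]
lemma coe_smul_units (σ : L ≃ₐ[K] L) (x : (SemiLoc q L)ˣ) :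
    ((σ • x : (SemiLoc q L)ˣ) : SemiLoc q L) = galSemiLocAut q L K σ (x : SemiLoc q L) := rfl

@[simp]
lemma coe_inv_smul_units (σ : L ≃ₐ[K] L) (x : (SemiLoc q L)ˣ) :
    (((σ • x)⁻¹ : (SemiLoc q L)ˣ) : SemiLoc q L) =
      galSemiLocAut q L K σ ((x⁻¹ : (SemiLoc q L)ˣ) : SemiLoc q L) := rfl

@[simp]
lemma smul_tmul' (σ : L ≃ₐ[K] L) (a : ℚ_[q]) (b : L) :
    σ • (a ⊗ₜ[ℚ] b : SemiLoc q L) = a ⊗ₜ[ℚ] σ b := by
  rw [smul_def, galSemiLocAut_tmul]

end Action

section TateCyc

variable (G A : Type*) [Group G] [Fintype G] [CommGroup A] [MulDistribMulAction G A]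

/-- The group norm `x ↦ ∏_{σ ∈ G} σ • x` on a multiplicative `G`-module. -/
def normG : A →* A where
  toFun x := ∏ σ : G, σ • x
  map_one' := by simp
  map_mul' x y := by simp [smul_mul', Finset.prod_mul_distrib]

lemma normG_apply (x : A) : normG G A x = ∏ σ : G, σ • x := rfl

end TateCyc

section FixedSub

variable (G A : Type*) [Group G] [CommGroup A] [MulDistribMulAction G A]

/-- The subgroup of `G`-fixed points of a multiplicative `G`-module. -/
def fixedSub : Subgroup A where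
  carrier := {x | ∀ σ : G, σ • x = x}
  one_mem' := fun σ => smul_one σ
  mul_mem' := fun hx hy σ => by rw [smul_mul', hx σ, hy σ]
  inv_mem' := fun hx σ => by rw [smul_inv', hx σ]

lemma mem_fixedSub {x : A} : x ∈ fixedSub G A ↔ ∀ σ : G, σ • x = x := Iff.rfl

variable {G} in
/-- `x ↦ σ • x / x`. -/
def deltaHom (σ : G) : A →* A where
  toFun x := σ • x / x
  map_one' := by simp
  map_mul' x y := by simp [smul_mul', mul_div_mul_comm]

variable {G} in
lemma deltaHom_apply (σ : G) (x : A) : deltaHom A σ x = σ • x / x := rfl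

end FixedSub

section Units

variable (q : ℕ) [Fact q.Prime] (L : Type*) [Field L] [CharZero L]

/-- The integral units of the semilocal algebra: units `x` such that `x` and `x⁻¹` are integral
over `ℤ_[q]` (for a number field: `∏_{w ∣ q} 𝓞_w^×`). -/
def intUnits : Subgroup (SemiLoc q L)ˣ where
  carrier := {x | IsIntegral ℤ_[q] (x : SemiLoc q L) ∧
    IsIntegral ℤ_[q] ((x⁻¹ : (SemiLoc q L)ˣ) : SemiLoc q L)}
  one_mem' := ⟨by simpa using isIntegral_one, by simpa using isIntegral_one⟩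
  mul_mem' := by
    rintro x y ⟨hx, hx'⟩ ⟨hy, hy'⟩
    refine ⟨by simpa using hx.mul hy, ?_⟩
    rw [mul_inv_rev]
    simpa using hy'.mul hx'
  inv_mem' := by
    rintro x ⟨hx, hx'⟩
    exact ⟨hx', by simpa using hx⟩

lemma mem_intUnits {x : (SemiLoc q L)ˣ} : x ∈ intUnits q L ↔
    IsIntegral ℤ_[q] (x : SemiLoc q L) ∧
      IsIntegral ℤ_[q] ((x⁻¹ : (SemiLoc q L)ˣ) : SemiLoc q L) := Iff.rfl

variable (K : Type*) [Field K] [Algebra K L]

lemma smul_mem_intUnits (σ : L ≃ₐ[K] L) {x : (SemiLoc q L)ˣ} (hx : x ∈ intUnits q L) :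
    σ • x ∈ intUnits q L := by
  obtain ⟨h1, h2⟩ := hx
  refine ⟨?_, ?_⟩
  · rw [coe_smul_units]
    exact h1.map ((galSemiLocAut q L K σ).toAlgHom.restrictScalars ℤ_[q])
  · rw [coe_inv_smul_units]
    exact h2.map ((galSemiLocAut q L K σ).toAlgHom.restrictScalars ℤ_[q])

end Units

section Idele

/-- Rational primes as an index type. -/
instance factPrimes (q : Nat.Primes) : Fact (q : ℕ).Prime := ⟨q.2⟩

variable (L : Type*) [Field L] [CharZero L]

/-- The full product `∏_q (ℚ_q ⊗ L)ˣ`. -/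
abbrev IdelePi : Type _ := ∀ q : Nat.Primes, (SemiLoc (q : ℕ) L)ˣ

/-- The finite ideles of `L`, as a subgroup of the full product: almost all components are
integral units. -/
def idele : Subgroup (IdelePi L) where
  carrier := {x | ∀ᶠ q : Nat.Primes in Filter.cofinite, x q ∈ intUnits (q : ℕ) L}
  one_mem' := by
    change ∀ᶠ q : Nat.Primes in Filter.cofinite, (1 : IdelePi L) q ∈ intUnits (q : ℕ) L
    exact Filter.Eventually.of_forall fun q => one_mem (intUnits (q : ℕ) L)
  mul_mem' := by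
    intro x y hx hy
    change ∀ᶠ q : Nat.Primes in Filter.cofinite, (x * y) q ∈ intUnits (q : ℕ) L
    have hx' : ∀ᶠ q : Nat.Primes in Filter.cofinite, x q ∈ intUnits (q : ℕ) L := hx
    have hy' : ∀ᶠ q : Nat.Primes in Filter.cofinite, y q ∈ intUnits (q : ℕ) L := hy
    exact (hx'.and hy').mono fun q h => mul_mem h.1 h.2
  inv_mem' := by
    intro x hx
    change ∀ᶠ q : Nat.Primes in Filter.cofinite, (x⁻¹) q ∈ intUnits (q : ℕ) L
    have hx' : ∀ᶠ q : Nat.Primes in Filter.cofinite, x q ∈ intUnits (q : ℕ) L := hx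
    exact hx'.mono fun q h => inv_mem h

/-- The finite ideles of `L`. -/
abbrev Idele : Type _ := ↥(idele L)

lemma mem_idele {x : IdelePi L} :
    x ∈ idele L ↔ ∀ᶠ q : Nat.Primes in Filter.cofinite, x q ∈ intUnits (q : ℕ) L := Iff.rfl

/-- The diagonal map `Lˣ → ∏_q (ℚ_q ⊗ L)ˣ`, `x ↦ (1 ⊗ x)_q`. -/
noncomputable def principalPi : Lˣ →* IdelePi L :=
  MonoidHom.pi fun q =>
    Units.map ((Algebra.TensorProduct.includeRight : L →ₐ[ℚ] SemiLoc (q : ℕ) L) :
      L →* SemiLoc (q : ℕ) L)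

@[simp]
lemma principalPi_apply_coe (x : Lˣ) (q : Nat.Primes) :
    ((principalPi L x q : (SemiLoc (q : ℕ) L)ˣ) : SemiLoc (q : ℕ) L) = 1 ⊗ₜ[ℚ] (x : L) := rfl

/-- The subgroup of principal ideles. -/
noncomputable def principalSub : Subgroup (Idele L) := (principalPi L).range.subgroupOf (idele L)

instance : (principalSub L).Normal := inferInstance

/-- The (finite) idele class group `J_L / Lˣ`. -/
abbrev IdeleClass : Type _ := Idele L ⧸ principalSub L

variable (K : Type*) [Field K] [Algebra K L]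

/-- `Gal(L/K)` acts on the ideles. -/
noncomputable instance ideleAction : MulDistribMulAction (L ≃ₐ[K] L) (Idele L) where
  smul σ x := ⟨σ • x.1, ((mem_idele L).1 x.2).mono fun q h => smul_mem_intUnits (q : ℕ) L K σ h⟩
  one_smul _ := Subtype.ext (one_smul _ _)
  mul_smul _ _ _ := Subtype.ext (mul_smul _ _ _)
  smul_mul _ _ _ := Subtype.ext (smul_mul' _ _ _)
  smul_one _ := Subtype.ext (smul_one _)

@[simp]
lemma coe_smul_idele (σ : L ≃ₐ[K] L) (x : Idele L) :
    ((σ • x : Idele L) : IdelePi L) = σ • (x : IdelePi L) := rfl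

lemma smul_principalPi (σ : L ≃ₐ[K] L) (x : Lˣ) :
    σ • principalPi L x = principalPi L (σ • x) := by
  funext q
  apply Units.ext
  change galSemiLocAut (q : ℕ) L K σ (1 ⊗ₜ[ℚ] (x : L)) = 1 ⊗ₜ[ℚ] ((σ • x : Lˣ) : L)
  rw [galSemiLocAut_tmul]
  rfl

lemma smul_mem_principalSub (σ : L ≃ₐ[K] L) {x : Idele L} (hx : x ∈ principalSub L) :
    σ • x ∈ principalSub L := by
  obtain ⟨y, hy⟩ := hx
  refine ⟨σ • y, ?_⟩
  rw [← smul_principalPi, hy]
  rfl

/-- `Gal(L/K)` acts on the idele class group. -/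
noncomputable instance ideleClassAction : MulDistribMulAction (L ≃ₐ[K] L) (IdeleClass L) where
  smul σ := QuotientGroup.map (principalSub L) (principalSub L)
    (MulDistribMulAction.toMonoidHom (Idele L) σ) fun _ hx => smul_mem_principalSub L K σ hx
  one_smul x := by
    induction x using QuotientGroup.induction_on with
    | H x => exact congrArg _ (one_smul _ x)
  mul_smul σ τ x := by
    induction x using QuotientGroup.induction_on with
    | H x => exact congrArg _ (mul_smul σ τ x)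
  smul_mul σ x y := map_mul _ x y
  smul_one σ := map_one _

@[simp]
lemma smul_mk (σ : L ≃ₐ[K] L) (x : Idele L) :
    σ • (QuotientGroup.mk x : IdeleClass L) = QuotientGroup.mk (σ • x) := rfl

end Idele

end Fermat.Agent.S55.helper73
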