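import Mathlib
import Fermat.Agent.S55.helper73_GlobDefs

/-!
# S55 / GLOB G2a: Hilbert 90 for the semilocal algebra `ℚ_q ⊗ L`

Abstract form: `k` an infinite field, `A` a finite-dimensional commutative `k`-algebra, `G` a
finite group acting on `A` by `k`-algebra automorphisms such that for every maximal ideal `n` the
ring homomorphisms `c ↦ σ c mod n` (`σ ∈ G`) are pairwise distinct.  Then every `1`-cocycle
`G → Aˣ` is a coboundary (Poincaré series + Dedekind independence modulo each maximal ideal +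
a vector space over an infinite field is not a finite union of proper subspaces).
-/

set_option autoImplicit false
set_option linter.unusedSectionVars false

open scoped TensorProduct
open groupCohomology

namespace Fermat.Agent.S55.helper17

section Abstract

variable {k A G : Type*} [Field k] [Infinite k] [CommRing A] [Algebra k A] [Module.Finite k A]
  [Group G] [Fintype G]

/-- The Poincaré series `c ↦ ∑_σ f σ * φ σ c` as a `k`-linear map. -/
noncomputable def poincare (φ : G →* (A ≃ₐ[k] A)) (f : G → Aˣ) : A →ₗ[k] A :=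
  ∑ σ : G, (LinearMap.mulLeft k ((f σ : Aˣ) : A)).comp (φ σ).toLinearMap

omit [Infinite k] [Module.Finite k A] in
theorem poincare_apply (φ : G →* (A ≃ₐ[k] A)) (f : G → Aˣ) (c : A) :
    poincare φ f c = ∑ σ : G, ((f σ : Aˣ) : A) * φ σ c := by
  simp [poincare, LinearMap.sum_apply]

omit [Infinite k] [Module.Finite k A] in
/-- modulo a maximal ideal the Poincaré series is not identically zero. -/
theorem exists_poincare_notMem (φ : G →* (A ≃ₐ[k] A)) (f : G → Aˣ) (n : Ideal A)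
    [hn : n.IsMaximal]
    (hdist : ∀ σ τ : G, (∀ c : A, φ σ c - φ τ c ∈ n) → σ = τ) :
    ∃ c : A, poincare φ f c ∉ n := by
  classical
  by_contra hcon0
  have hcon : ∀ c : A, poincare φ f c ∈ n := fun c => by_contra fun h => hcon0 ⟨c, h⟩
  let _ : Field (A ⧸ n) := Ideal.Quotient.field n
  -- the characters
  let χ : G → (A →* A ⧸ n) := fun σ =>
    ((Ideal.Quotient.mk n).comp ((φ σ : A ≃ₐ[k] A) : A →+* A) : A →+* A ⧸ n)
  have hχ : Function.Injective χ := by
    intro σ τ h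
    refine hdist σ τ fun c => ?_
    have := DFunLike.congr_fun h c
    simp only [χ, MonoidHom.coe_coe, RingHom.coe_comp, Function.comp_apply] at this
    rw [← Ideal.Quotient.eq_zero_iff_mem, map_sub]
    exact sub_eq_zero.mpr this
  have hli : LinearIndependent (A ⧸ n) (fun σ : G => (χ σ : A → A ⧸ n)) :=
    (linearIndependent_monoidHom A (A ⧸ n)).comp χ hχ
  have hzero : ∑ σ : G, (Ideal.Quotient.mk n ((f σ : Aˣ) : A)) • (χ σ : A → A ⧸ n) = 0 := by
    funext c
    have h := hcon c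
    rw [poincare_apply, ← Ideal.Quotient.eq_zero_iff_mem, map_sum] at h
    simp only [Finset.sum_apply, Pi.smul_apply, smul_eq_mul, Pi.zero_apply]
    rw [← h]
    refine Finset.sum_congr rfl fun σ _ => ?_
    simp [χ]
  have h1 := (Fintype.linearIndependent_iff.mp hli) _ hzero (1 : G)
  have hunit : IsUnit (Ideal.Quotient.mk n ((f 1 : Aˣ) : A)) := (f 1).isUnit.map _
  exact hunit.ne_zero h1

/-- **Hilbert 90, abstract semilocal form.** -/
theorem exists_unit_of_cocycle (φ : G →* (A ≃ₐ[k] A)) (f : G → Aˣ)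
    (hf : ∀ g h : G, ((f (g * h) : Aˣ) : A) = φ g ((f h : Aˣ) : A) * ((f g : Aˣ) : A))
    (hdist : ∀ (n : Ideal A), n.IsMaximal → ∀ σ τ : G, (∀ c : A, φ σ c - φ τ c ∈ n) → σ = τ) :
    ∃ β : Aˣ, ∀ g : G, φ g ((β : Aˣ) : A) = ((f g : Aˣ) : A) * ((β : Aˣ) : A) := by
  classical
  have : IsArtinianRing A := IsArtinianRing.of_finite k A
  -- the bad subspaces
  let V : MaximalSpectrum A → Subspace k A := fun n =>
    (n.asIdeal.restrictScalars k).comap (poincare φ f)
  have hV : ∀ n, V n ≠ ⊤ := by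
    intro n h
    have := n.isMaximal
    obtain ⟨c, hc⟩ := exists_poincare_notMem φ f n.asIdeal (hdist n.asIdeal n.isMaximal)
    have : c ∈ V n := by rw [h]; trivial
    exact hc this
  have hcov : ⋃ n, (V n : Set A) ≠ Set.univ := by
    intro h
    obtain ⟨n, hn⟩ := Subspace.exists_eq_top_of_iUnion_eq_univ h
    exact hV n hn
  obtain ⟨c, hc⟩ : ∃ c : A, c ∉ ⋃ n, (V n : Set A) := by
    by_contra hcon0
    have hcon : ∀ c : A, c ∈ ⋃ n, (V n : Set A) := fun c => by_contra fun h => hcon0 ⟨c, h⟩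
    exact hcov (Set.eq_univ_of_forall hcon)
  have hu : IsUnit (poincare φ f c) := by
    by_contra hnu
    obtain ⟨m, hm, hmem⟩ := exists_max_ideal_of_mem_nonunits hnu
    apply hc
    rw [Set.mem_iUnion]
    exact ⟨⟨m, hm⟩, hmem⟩
  obtain ⟨u, hu'⟩ := hu
  -- transformation rule of the Poincaré series
  have htrans : ∀ g : G, ((f g : Aˣ) : A) * φ g (u : A) = (u : A) := by
    intro g
    rw [hu', poincare_apply, map_sum, Finset.mul_sum]
    rw [← Fintype.sum_bijective (fun i : G => g * i) (Group.mulLeft_bijective g)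
      (fun i => ((f g : Aˣ) : A) * φ g (((f i : Aˣ) : A) * φ i c))
      (fun i => ((f i : Aˣ) : A) * φ i c) ?_]
    intro i
    rw [hf g i, map_mul, map_mul φ g i]
    simp only [AlgEquiv.mul_apply]
    ring
  refine ⟨u⁻¹, fun g => ?_⟩
  have h1 : φ g ((u⁻¹ : Aˣ) : A) * φ g (u : A) = 1 := by
    rw [← map_mul]
    simp
  have h2 : ((u⁻¹ : Aˣ) : A) * (u : A) = 1 := by simp
  have h3 := htrans g
  -- φ g u⁻¹ = f g * u⁻¹
  calc φ g ((u⁻¹ : Aˣ) : A)
      = φ g ((u⁻¹ : Aˣ) : A) * ((u : A) * ((u⁻¹ : Aˣ) : A)) := by simp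
    _ = φ g ((u⁻¹ : Aˣ) : A) * ((((f g : Aˣ) : A) * φ g (u : A)) * ((u⁻¹ : Aˣ) : A)) := by rw [h3]
    _ = (φ g ((u⁻¹ : Aˣ) : A) * φ g (u : A)) * (((f g : Aˣ) : A) * ((u⁻¹ : Aˣ) : A)) := by ring
    _ = ((f g : Aˣ) : A) * ((u⁻¹ : Aˣ) : A) := by rw [h1, one_mul]

end Abstract

/-! ### Cocycles on a cyclic group from elements of norm one -/

section Cyclic

variable {G M : Type*} [Group G] [Fintype G] [CommGroup M] [MulDistribMulAction G M]

/-- partial norms `∏_{j<i} σ^j • x`. -/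
def pnorm (σ : G) (x : M) (i : ℕ) : M := ∏ j ∈ Finset.range i, (σ ^ j) • x

omit [Fintype G] in
theorem pnorm_add (σ : G) (x : M) (i j : ℕ) :
    pnorm σ x (i + j) = pnorm σ x i * (σ ^ i) • pnorm σ x j := by
  rw [pnorm, Finset.prod_range_add]
  congr 1
  rw [pnorm, Finset.smul_prod']
  refine Finset.prod_congr rfl fun l _ => ?_
  rw [pow_add, mul_smul]

omit [Fintype G] in
theorem pnorm_one (σ : G) (x : M) : pnorm σ x 1 = x := by
  simp [pnorm]

theorem pnorm_orderOf {σ : G} (hσ : ∀ τ : G, τ ∈ Subgroup.zpowers σ) (x : M)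
    (hx : ∏ g : G, g • x = 1) : pnorm σ x (orderOf σ) = 1 := by
  classical
  rw [← hx, pnorm]
  have hinj : Set.InjOn (fun j : ℕ => σ ^ j) (Finset.range (orderOf σ) : Set ℕ) := by
    intro a ha b hb h
    exact pow_injOn_Iio_orderOf (by simpa using ha) (by simpa using hb) h
  rw [← Finset.prod_image (s := Finset.range (orderOf σ)) (g := fun j : ℕ => σ ^ j)
    (f := fun g : G => g • x) hinj]
  congr 1
  ext τ
  simp only [Finset.mem_image, Finset.mem_range, Finset.mem_univ, iff_true]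
  have h1 : τ ∈ Submonoid.powers σ := mem_powers_iff_mem_zpowers.mpr (hσ τ)
  obtain ⟨m, hm⟩ := h1
  exact ⟨m % orderOf σ, Nat.mod_lt _ (orderOf_pos σ), by rw [pow_mod_orderOf]; exact hm⟩

theorem pnorm_add_mul_orderOf {σ : G} (hσ : ∀ τ : G, τ ∈ Subgroup.zpowers σ) (x : M)
    (hx : ∏ g : G, g • x = 1) (i t : ℕ) :
    pnorm σ x (i + t * orderOf σ) = pnorm σ x i := by
  induction t with
  | zero => simp
  | succ t ih =>
    rw [Nat.succ_mul, ← add_assoc, pnorm_add, ih, pnorm_orderOf hσ x hx, smul_one, mul_one]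

theorem pnorm_congr {σ : G} (hσ : ∀ τ : G, τ ∈ Subgroup.zpowers σ) (x : M)
    (hx : ∏ g : G, g • x = 1) {i j : ℕ} (h : σ ^ i = σ ^ j) :
    pnorm σ x i = pnorm σ x j := by
  have hmod : i % orderOf σ = j % orderOf σ := pow_eq_pow_iff_modEq.mp h
  have hi := pnorm_add_mul_orderOf hσ x hx (i % orderOf σ) (i / orderOf σ)
  have hj := pnorm_add_mul_orderOf hσ x hx (j % orderOf σ) (j / orderOf σ)
  rw [mul_comm, Nat.mod_add_div] at hi hj
  rw [hi, hj, hmod]

/-- An element of norm one in a module over a finite cyclic group is the value at the generator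
of a `1`-cocycle. -/
theorem exists_cocycle_of_norm_eq_one {σ : G} (hσ : ∀ τ : G, τ ∈ Subgroup.zpowers σ) (x : M)
    (hx : ∏ g : G, g • x = 1) : ∃ f : G → M, IsMulCocycle₁ f ∧ f σ = x := by
  classical
  have hex : ∀ τ : G, ∃ m : ℕ, σ ^ m = τ := fun τ => by
    obtain ⟨m, hm⟩ := mem_powers_iff_mem_zpowers.mpr (hσ τ)
    exact ⟨m, hm⟩
  choose e he using hex
  refine ⟨fun τ => pnorm σ x (e τ), ?_, ?_⟩
  · intro g h
    have h1 : pnorm σ x (e (g * h)) = pnorm σ x (e g + e h) := by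
      apply pnorm_congr hσ x hx
      rw [he, pow_add, he, he]
    show pnorm σ x (e (g * h)) = g • pnorm σ x (e h) * pnorm σ x (e g)
    rw [h1, pnorm_add, he, mul_comm]
  · show pnorm σ x (e σ) = x
    rw [pnorm_congr hσ x hx (i := e σ) (j := 1) (by rw [he, pow_one]), pnorm_one]

end Cyclic

/-! ### The semilocal algebra -/

section SemiLoc

open Fermat.Agent.S55.helper73

variable (K L : Type*) [Field K] [NumberField K] [Field L] [NumberField L] [Algebra K L]
  [IsGalois K L]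

/-- elements `1 ⊗ d` with `d ≠ 0` are units of `ℚ_q ⊗ L`. -/
theorem isUnit_one_tmul (q : ℕ) [Fact q.Prime] {d : L} (hd : d ≠ 0) :
    IsUnit ((1 : ℚ_[q]) ⊗ₜ[ℚ] d : SemiLoc q L) := by
  refine IsUnit.of_mul_eq_one ((1 : ℚ_[q]) ⊗ₜ[ℚ] d⁻¹) ?_
  rw [Algebra.TensorProduct.tmul_mul_tmul, mul_one, mul_inv_cancel₀ hd]
  rfl

/-- **Hilbert 90 for the semilocal algebra** (1-cocycle form, any finite Galois `L/K`). -/
theorem semiLoc_H1_trivial (q : ℕ) [Fact q.Prime]
    (f : Gal(L/K) → (SemiLoc q L)ˣ) (hf : IsMulCocycle₁ f) : IsMulCoboundary₁ f := by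
  classical
  have : Fintype Gal(L/K) := Fintype.ofFinite _
  have hfin : Module.Finite ℚ_[q] (SemiLoc q L) := inferInstance
  obtain ⟨β, hβ⟩ := exists_unit_of_cocycle (k := ℚ_[q]) (A := SemiLoc q L)
    (galSemiLocAut q L K) f
    (fun g h => by
      have := congrArg (fun u : (SemiLoc q L)ˣ => (u : SemiLoc q L)) (hf g h)
      simpa using this)
    (fun n hn σ τ h => by
      apply AlgEquiv.ext
      intro l
      by_contra hne
      have hd : σ l - τ l ≠ 0 := sub_ne_zero.mpr hne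
      have hmem := h ((1 : ℚ_[q]) ⊗ₜ[ℚ] l)
      rw [galSemiLocAut_tmul, galSemiLocAut_tmul, ← TensorProduct.tmul_sub] at hmem
      exact hn.ne_top (Ideal.eq_top_of_isUnit_mem _ hmem (isUnit_one_tmul L q hd)))
  refine ⟨β, fun g => ?_⟩
  rw [div_eq_iff_eq_mul]
  apply Units.ext
  rw [coe_smul_units, Units.val_mul]
  exact hβ g

/-- **Hilbert 90 for the semilocal algebra** (cyclic form). -/
theorem semiLoc_hilbert90 (q : ℕ) [Fact q.Prime]
    (σ : Gal(L/K)) (hσ : ∀ τ : Gal(L/K), τ ∈ Subgroup.zpowers σ)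
    (x : (SemiLoc q L)ˣ) (hN : normG Gal(L/K) (SemiLoc q L)ˣ x = 1) :
    ∃ y : (SemiLoc q L)ˣ, σ • y / y = x := by
  obtain ⟨f, hf, hfσ⟩ := exists_cocycle_of_norm_eq_one hσ x (by rwa [normG_apply] at hN)
  obtain ⟨y, hy⟩ := semiLoc_H1_trivial K L q f hf
  exact ⟨y, by rw [hy σ, hfσ]⟩

end SemiLoc

end Fermat.Agent.S55.helper17
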