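import Mathlib
import Fermat.Agent.S55.helper6_InfRes

/-!
# Towers of `p`-extensions: induction skeleton and inflation data

* `exists_intermediate_of_finrank_pow_succ`: a finite Galois extension `L/K` of degree `p^(n+1)`
  contains `E` with `E/K` Galois of degree `p` and `[L : E] = p^n`.
* `pExt_induction`, `pExt_induction_numberField`: the corresponding induction principles.
* `inflDatum_units`: the inflation datum `(Gal(L/K) → Gal(E/K), Eˣ → Lˣ)`.
* `h1TrivialOn_units`: Hilbert 90 in the membership form of `helper6_InfRes`.
-/

set_option autoImplicit false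
set_option linter.style.haveILetI false

universe u

open groupCohomology IntermediateField

namespace Fermat.Agent.S55.helper6

section Tower

/-- A finite Galois extension of degree `p^(n+1)` contains an intermediate field `E`, Galois of
degree `p` over the base, with `[L : E] = p^n`. -/
theorem exists_intermediate_of_finrank_pow_succ (p n : ℕ) [Fact p.Prime] (K L : Type*)
    [Field K] [Field L] [Algebra K L] [FiniteDimensional K L] [IsGalois K L]
    (h : Module.finrank K L = p ^ (n + 1)) :
    ∃ E : IntermediateField K L, IsGalois K E ∧ Module.finrank K E = p ∧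
      Module.finrank E L = p ^ n := by
  have hp : p.Prime := Fact.out
  have hcard : Nat.card Gal(L/K) = p ^ (n + 1) := by
    rw [IsGalois.card_aut_eq_finrank, h]
  obtain ⟨S, hS⟩ := Sylow.exists_subgroup_card_pow_prime (G := Gal(L/K)) p
    (n := n) (by rw [hcard]; exact pow_dvd_pow p (Nat.le_succ n))
  have hidx : S.index = p := by
    have h1 := S.card_mul_index
    rw [hS, hcard, pow_succ] at h1
    exact Nat.eq_of_mul_eq_mul_left (pow_pos hp.pos n) h1
  have hnorm : S.Normal := by
    apply Subgroup.normal_of_index_eq_minFac_card
    rw [hidx, hcard, Nat.Prime.pow_minFac hp (Nat.succ_ne_zero n)]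
  refine ⟨fixedField S, inferInstance, ?_, ?_⟩
  · have h1 : Module.finrank (fixedField S) L = p ^ n := by
      rw [finrank_fixedField_eq_card, hS]
    have h2 := Module.finrank_mul_finrank K (fixedField S) L
    rw [h, h1, pow_succ, mul_comm] at h2
    exact Nat.eq_of_mul_eq_mul_left (pow_pos hp.pos n) h2
  · rw [finrank_fixedField_eq_card, hS]

/-- Induction principle for Galois extensions of `p`-power degree. -/
theorem pExt_induction (p : ℕ) [Fact p.Prime]
    (P : ∀ (K L : Type u) [Field K] [Field L] [Algebra K L], Prop)
    (h0 : ∀ (K L : Type u) [Field K] [Field L] [Algebra K L] [FiniteDimensional K L]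
      [IsGalois K L], Module.finrank K L = 1 → P K L)
    (hstep : ∀ (K L : Type u) [Field K] [Field L] [Algebra K L] [FiniteDimensional K L]
      [IsGalois K L] (E : IntermediateField K L) [IsGalois K E],
      Module.finrank K E = p → P E L → P K L) :
    ∀ (n : ℕ) (K L : Type u) [Field K] [Field L] [Algebra K L] [FiniteDimensional K L]
      [IsGalois K L], Module.finrank K L = p ^ n → P K L := by
  intro n
  induction n with
  | zero =>
    intro K L _ _ _ _ _ h
    exact h0 K L (by simpa using h)
  | succ n ih =>
    intro K L _ _ _ _ _ h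
    obtain ⟨E, hE, hKE, hEL⟩ := exists_intermediate_of_finrank_pow_succ p n K L h
    exact hstep K L E hKE (ih E L hEL)

/-- Induction principle for Galois extensions of number fields of `p`-power degree. -/
theorem pExt_induction_numberField (p : ℕ) [Fact p.Prime]
    (P : ∀ (K L : Type u) [Field K] [NumberField K] [Field L] [NumberField L] [Algebra K L],
      Prop)
    (h0 : ∀ (K L : Type u) [Field K] [NumberField K] [Field L] [NumberField L] [Algebra K L]
      [IsGalois K L], Module.finrank K L = 1 → P K L)
    (hstep : ∀ (K L : Type u) [Field K] [NumberField K] [Field L] [NumberField L] [Algebra K L]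
      [IsGalois K L] (E : IntermediateField K L) [IsGalois K E],
      Module.finrank K E = p → P E L → P K L) :
    ∀ (n : ℕ) (K L : Type u) [Field K] [NumberField K] [Field L] [NumberField L] [Algebra K L]
      [IsGalois K L], Module.finrank K L = p ^ n → P K L := by
  intro n
  induction n with
  | zero =>
    intro K L _ _ _ _ _ _ h
    exact h0 K L (by simpa using h)
  | succ n ih =>
    intro K L _ _ _ _ _ _ h
    haveI : FiniteDimensional K L := Module.Finite.of_restrictScalars_finite ℚ K L
    obtain ⟨E, hE, hKE, hEL⟩ := exists_intermediate_of_finrank_pow_succ p n K L h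
    exact hstep K L E hKE (ih E L hEL)

end Tower

section Units

variable (K L : Type*) [Field K] [Field L] [Algebra K L] [FiniteDimensional K L] [IsGalois K L]
  (E : IntermediateField K L) [IsGalois K E]

/-- The inflation datum `(Gal(L/K) → Gal(E/K), Eˣ → Lˣ)` of a tower `K ⊆ E ⊆ L`. -/
theorem inflDatum_units :
    InflDatum (AlgEquiv.restrictNormalHom E : Gal(L/K) →* Gal(E/K))
      (Units.map (algebraMap E L : E →* L)) where
  surj := AlgEquiv.restrictNormalHom_surjective L
  inj := Units.map_injective (algebraMap E L).injective
  equivariant g b := by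
    apply Units.ext
    exact AlgEquiv.restrictNormal_commutes g E b
  exists_of_fixed m hm := by
    have hmem : (m : L) ∈ fixedField (fixingSubgroup E) := by
      intro s
      have := hm s.1 (by rw [E.restrictNormalHom_ker]; exact s.2)
      exact congrArg Units.val this
    rw [IsGalois.fixedField_fixingSubgroup] at hmem
    have hinv : ((m⁻¹ : Lˣ) : L) ∈ E := by
      rw [Units.val_inv_eq_inv_val]
      exact E.inv_mem hmem
    exact ⟨⟨⟨m, hmem⟩, ⟨(m⁻¹ : Lˣ), hinv⟩, Subtype.ext m.mul_inv, Subtype.ext m.inv_mul⟩,
      Units.ext rfl⟩

omit [IsGalois K L] in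
/-- Hilbert 90 for `L/E`, in the membership form of `helper6_InfRes`. -/
theorem h1TrivialOn_units :
    H1TrivialOn (AlgEquiv.restrictNormalHom E : Gal(L/K) →* Gal(E/K)).ker Lˣ := by
  refine h1TrivialOn_of_hom (S' := Gal(L/E)) (AlgEquiv.restrictScalarsHom K) (fun _ _ => rfl) _
    ?_ (fun f hf => isMulCoboundary₁_of_isMulCocycle₁_of_aut_to_units f hf)
  rw [E.restrictNormalHom_ker]
  ext g
  constructor
  · rintro ⟨s, rfl⟩ x
    exact s.commutes x
  · intro hg
    exact ⟨{ g with commutes' := fun x => hg x }, by ext; rfl⟩

end Units

end Fermat.Agent.S55.helper6
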