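import Mathlib
import Fermat.Agent.S55.helper6_G9Tower
import Fermat.Agent.S55.helper73_GlobDefs
import Fermat.Agent.S55.helper97_SemiLocBridge
import Fermat.Agent.S55.helper17_SemiLocH90

/-!
# Inflation data for the semilocal units `(ℚ_q ⊗ L)ˣ` in a tower `K ⊆ E ⊆ L`
-/

set_option autoImplicit false
set_option linter.style.haveILetI false
set_option linter.unusedSectionVars false

open groupCohomology IntermediateField Fermat.Agent.S55.helper73

open scoped TensorProduct

namespace Fermat.Agent.S55.helper6

variable (K L : Type*) [Field K] [NumberField K] [Field L] [NumberField L] [Algebra K L]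
  [IsGalois K L] (E : IntermediateField K L) [IsGalois K E] (q : ℕ) [Fact q.Prime]

/-- Base change `ℚ_q ⊗ E → ℚ_q ⊗ L` is equivariant along `Gal(L/K) → Gal(E/K)`. -/
theorem bc_restrictNormal_smul (g : Gal(L/K)) (b : SemiLoc q E) :
    helper97.bc E L q ((AlgEquiv.restrictNormalHom E g : Gal(E/K)) • b) =
      g • helper97.bc E L q b := by
  induction b using TensorProduct.induction_on with
  | zero => simp
  | tmul a e =>
    rw [smul_tmul', helper97.bc_tmul, helper97.bc_tmul, smul_tmul']
    congr 1
    exact AlgEquiv.restrictNormal_commutes g E e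
  | add x y hx hy => rw [smul_add, map_add, hx, hy, map_add, smul_add]

/-- The restriction of scalars `Gal(L/E) → Gal(L/K)` is compatible with the actions on
`ℚ_q ⊗ L`. -/
theorem restrictScalars_smul_semiLoc (s : Gal(L/E)) (x : SemiLoc q L) :
    (AlgEquiv.restrictScalarsHom K s : Gal(L/K)) • x = s • x := by
  induction x using TensorProduct.induction_on with
  | zero => simp
  | tmul a e => rw [smul_tmul', smul_tmul']; rfl
  | add x y hx hy => rw [smul_add, smul_add, hx, hy]

/-- The inflation datum `(Gal(L/K) → Gal(E/K), (ℚ_q ⊗ E)ˣ → (ℚ_q ⊗ L)ˣ)`. -/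
theorem inflDatum_semiLoc :
    InflDatum (AlgEquiv.restrictNormalHom E : Gal(L/K) →* Gal(E/K))
      (Units.map (helper97.bc E L q : SemiLoc q E →* SemiLoc q L)) where
  surj := AlgEquiv.restrictNormalHom_surjective L
  inj := Units.map_injective (helper97.bc_injective E L q)
  equivariant g b := by
    apply Units.ext
    exact bc_restrictNormal_smul K L E q g b
  exists_of_fixed m hm := by
    have hfix : ∀ (y : (SemiLoc q L)ˣ), (∀ s ∈ (AlgEquiv.restrictNormalHom E :
        Gal(L/K) →* Gal(E/K)).ker, s • y = y) → ∀ σ : Gal(L/E), σ • (y : SemiLoc q L) = y := by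
      intro y hy σ
      have hmem : (AlgEquiv.restrictScalarsHom K σ : Gal(L/K)) ∈
          (AlgEquiv.restrictNormalHom E : Gal(L/K) →* Gal(E/K)).ker := by
        rw [E.restrictNormalHom_ker]
        intro x
        exact σ.commutes x
      have := congrArg Units.val (hy _ hmem)
      rw [← restrictScalars_smul_semiLoc K L E q σ]
      exact this
    have hm' : ∀ s ∈ (AlgEquiv.restrictNormalHom E : Gal(L/K) →* Gal(E/K)).ker,
        s • m⁻¹ = m⁻¹ := fun s hs => by rw [smul_inv', hm s hs]
    obtain ⟨a, ha⟩ := helper97.mem_range_bc_of_fixed E L q (m : SemiLoc q L) (hfix m hm)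
    obtain ⟨a', ha'⟩ := helper97.mem_range_bc_of_fixed E L q ((m⁻¹ : (SemiLoc q L)ˣ) :
      SemiLoc q L) (hfix m⁻¹ hm')
    have h1 : a * a' = 1 := by
      apply helper97.bc_injective E L q
      rw [map_mul, ha, ha', map_one, Units.mul_inv]
    have h2 : a' * a = 1 := by rw [mul_comm, h1]
    exact ⟨⟨a, a', h1, h2⟩, Units.ext ha⟩

/-- Semilocal Hilbert 90 for `L/E`, in the membership form of `helper6_InfRes`. -/
theorem h1TrivialOn_semiLoc :
    H1TrivialOn (AlgEquiv.restrictNormalHom E : Gal(L/K) →* Gal(E/K)).ker (SemiLoc q L)ˣ := by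
  refine h1TrivialOn_of_hom (S' := Gal(L/E)) (AlgEquiv.restrictScalarsHom K)
    (fun s m => Units.ext (restrictScalars_smul_semiLoc K L E q s m)) _ ?_
    (fun f hf => helper17.semiLoc_H1_trivial E L q f hf)
  rw [E.restrictNormalHom_ker]
  ext g
  constructor
  · rintro ⟨s, rfl⟩ x
    exact s.commutes x
  · intro hg
    exact ⟨{ g with commutes' := fun x => hg x }, by ext; rfl⟩

end Fermat.Agent.S55.helper6
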