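import Mathlib
import Fermat.Agent.S55.helper6_G9SemiLoc

/-!
# Hasse principle for `H²(Gal(L/K), Lˣ)`, `L/K` of `p`-power degree, from the cyclic case

By induction along a tower `K ⊆ E ⊆ L` with `E/K` of degree `p`, using inflation–restriction
for `Lˣ` and for the semilocal units `(ℚ_q ⊗ L)ˣ`.
-/

set_option autoImplicit false
set_option linter.style.haveILetI false
set_option linter.unusedSectionVars false

universe u

open groupCohomology IntermediateField Fermat.Agent.S55.helper73

open scoped TensorProduct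

namespace Fermat.Agent.S55.helper6

section General

variable {G M : Type*} [Group G] [CommGroup M] [MulDistribMulAction G M]

lemma isMulCoboundary₂_mul {f₁ f₂ : G × G → M} (h₁ : IsMulCoboundary₂ f₁)
    (h₂ : IsMulCoboundary₂ f₂) : IsMulCoboundary₂ (fun p => f₁ p * f₂ p) := by
  obtain ⟨x₁, hx₁⟩ := h₁
  obtain ⟨x₂, hx₂⟩ := h₂
  refine ⟨fun g => x₁ g * x₂ g, fun g h => ?_⟩
  show g • (x₁ h * x₂ h) / (x₁ (g * h) * x₂ (g * h)) * (x₁ g * x₂ g) = f₁ (g, h) * f₂ (g, h)
  rw [← hx₁, ← hx₂, smul_mul']
  simp only [div_eq_mul_inv, mul_inv]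
  ac_rfl

lemma isMulCoboundary₂_div {f₁ f₂ : G × G → M} (h₁ : IsMulCoboundary₂ f₁)
    (h₂ : IsMulCoboundary₂ f₂) : IsMulCoboundary₂ (fun p => f₁ p / f₂ p) := by
  obtain ⟨x₁, hx₁⟩ := h₁
  obtain ⟨x₂, hx₂⟩ := h₂
  refine ⟨fun g => x₁ g / x₂ g, fun g h => ?_⟩
  show g • (x₁ h / x₂ h) / (x₁ (g * h) / x₂ (g * h)) * (x₁ g / x₂ g) = f₁ (g, h) / f₂ (g, h)
  rw [← hx₁, ← hx₂, smul_div']
  simp only [div_eq_mul_inv, mul_inv, inv_inv, mul_assoc, mul_comm, mul_left_comm]

lemma isMulCoboundary₂_congr {f₁ f₂ : G × G → M} (h : ∀ g h, f₁ (g, h) = f₂ (g, h))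
    (h₁ : IsMulCoboundary₂ f₁) : IsMulCoboundary₂ f₂ := by
  obtain ⟨x, hx⟩ := h₁
  exact ⟨x, fun g k => (hx g k).trans (h g k)⟩

/-- Equivariant homomorphisms map coboundaries to coboundaries. -/
lemma isMulCoboundary₂_map {M' : Type*} [CommGroup M'] [MulDistribMulAction G M']
    (φ : M →* M') (hφ : ∀ (g : G) (m : M), φ (g • m) = g • φ m) {f : G × G → M}
    (h : IsMulCoboundary₂ f) : IsMulCoboundary₂ (fun p => φ (f p)) := by
  obtain ⟨x, hx⟩ := h
  refine ⟨fun g => φ (x g), fun g k => ?_⟩
  show g • φ (x k) / φ (x (g * k)) * φ (x g) = φ (f (g, k))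
  rw [← hx, map_mul, map_div, hφ]

/-- On a trivial group every 2-cocycle is a coboundary. -/
lemma isMulCoboundary₂_of_subsingleton [Subsingleton G] (f : G × G → M) :
    IsMulCoboundary₂ f := by
  refine ⟨fun _ => f (1, 1), fun g h => ?_⟩
  have hg : g = 1 := Subsingleton.elim _ _
  have hh : h = 1 := Subsingleton.elim _ _
  subst hg hh
  simp

end General

section Tower

variable (K L : Type*) [Field K] [Field L] [Algebra K L] [FiniteDimensional K L]
  (E : IntermediateField K L) [IsGalois K E]

/-- The image of `Gal(L/E)` in `Gal(L/K)` is the kernel of the restriction to `E`. -/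
theorem range_restrictScalarsHom :
    (AlgEquiv.restrictScalarsHom K : Gal(L/E) →* Gal(L/K)).range =
      (AlgEquiv.restrictNormalHom E : Gal(L/K) →* Gal(E/K)).ker := by
  rw [E.restrictNormalHom_ker]
  ext g
  constructor
  · rintro ⟨s, rfl⟩ x
    exact s.commutes x
  · intro hg
    exact ⟨{ g with commutes' := fun x => hg x }, by ext; rfl⟩

theorem restrictScalarsHom_injective :
    Function.Injective (AlgEquiv.restrictScalarsHom K : Gal(L/E) →* Gal(L/K)) :=
  AlgEquiv.restrictScalars_injective K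

end Tower

section Hasse

/-- The component at `q` of the diagonal embedding, as a monoid homomorphism. -/
noncomputable def principalAt (L : Type*) [Field L] [CharZero L] (q : Nat.Primes) :
    Lˣ →* (SemiLoc (q : ℕ) L)ˣ :=
  (Pi.evalMonoidHom _ q).comp (principalPi L)

lemma principalAt_apply (L : Type*) [Field L] [CharZero L] (q : Nat.Primes) (x : Lˣ) :
    principalAt L q x = principalPi L x q := rfl

lemma principalAt_smul (K L : Type*) [Field K] [Field L] [CharZero L] [Algebra K L]
    (q : Nat.Primes) (σ : Gal(L/K)) (x : Lˣ) :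
    principalAt L q (σ • x) = σ • principalAt L q x :=
  (congrFun (smul_principalPi L K σ x) q).symm

/-- The Hasse principle for `H²(Gal(L/K), Lˣ)` in semilocal form, as a property of `L/K`. -/
def HasseH2 (K L : Type*) [Field K] [NumberField K] [Field L] [NumberField L] [Algebra K L] :
    Prop :=
  ∀ x : Gal(L/K) × Gal(L/K) → Lˣ, IsMulCocycle₂ x →
    (∀ q : Nat.Primes,
      IsMulCoboundary₂ (fun g : Gal(L/K) × Gal(L/K) => principalPi L (x g) q)) →
    IsMulCoboundary₂ x

variable (K L : Type*) [Field K] [NumberField K] [Field L] [NumberField L] [Algebra K L]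
  [IsGalois K L] (E : IntermediateField K L) [IsGalois K E]

lemma map_bc_principalPi (q : Nat.Primes) (e : Eˣ) :
    Units.map (helper97.bc E L (q : ℕ) : SemiLoc (q : ℕ) E →* SemiLoc (q : ℕ) L)
      (principalPi E e q) = principalPi L (Units.map (algebraMap E L : E →* L) e) q := by
  apply Units.ext
  show helper97.bc E L (q : ℕ) (1 ⊗ₜ[ℚ] (e : E)) = 1 ⊗ₜ[ℚ] (algebraMap E L (e : E))
  rw [helper97.bc_tmul]

/-- **Induction step.** The Hasse principle for `L/E` and for `E/K` implies it for `L/K`. -/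
theorem hasseH2_step (hEL : HasseH2 E L) (hKE : HasseH2 K E) : HasseH2 K L := by
  intro x hx hloc
  haveI : FiniteDimensional K L := Module.Finite.of_restrictScalars_finite ℚ K L
  -- Step 1: the restriction to `Gal(L/E)` is a coboundary
  have hx' : IsMulCocycle₂ (fun p : Gal(L/E) × Gal(L/E) =>
      x (AlgEquiv.restrictScalarsHom K p.1, AlgEquiv.restrictScalarsHom K p.2)) := by
    intro s t u
    show x (AlgEquiv.restrictScalarsHom K (s * t), AlgEquiv.restrictScalarsHom K u) *
        x (AlgEquiv.restrictScalarsHom K s, AlgEquiv.restrictScalarsHom K t) =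
      s • x (AlgEquiv.restrictScalarsHom K t, AlgEquiv.restrictScalarsHom K u) *
        x (AlgEquiv.restrictScalarsHom K s, AlgEquiv.restrictScalarsHom K (t * u))
    rw [map_mul, map_mul]
    exact hx (AlgEquiv.restrictScalarsHom K s) (AlgEquiv.restrictScalarsHom K t)
      (AlgEquiv.restrictScalarsHom K u)
  have hloc' : ∀ q : Nat.Primes, IsMulCoboundary₂ (fun g : Gal(L/E) × Gal(L/E) =>
      principalPi L (x (AlgEquiv.restrictScalarsHom K g.1, AlgEquiv.restrictScalarsHom K g.2))
        q) := by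
    intro q
    obtain ⟨y, hy⟩ := hloc q
    refine ⟨fun s => y (AlgEquiv.restrictScalarsHom K s), fun s t => ?_⟩
    have := hy (AlgEquiv.restrictScalarsHom K s) (AlgEquiv.restrictScalarsHom K t)
    show s • y (AlgEquiv.restrictScalarsHom K t) / y (AlgEquiv.restrictScalarsHom K (s * t)) *
      y (AlgEquiv.restrictScalarsHom K s) = _
    rw [map_mul]
    exact this
  have hcob' := hEL _ hx' hloc'
  -- Step 2: inflation-restriction for `Lˣ`
  obtain ⟨x₀, hx₀⟩ := res_isMulCoboundary₂_of_hom
    (AlgEquiv.restrictScalarsHom K : Gal(L/E) →* Gal(L/K)) (fun _ _ => rfl)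
    (restrictScalarsHom_injective K L E) x hcob'
  rw [range_restrictScalarsHom] at hx₀
  obtain ⟨c, y, hc, hxy⟩ := (inflDatum_units K L E).exists_infl_of_res_isMulCoboundary₂
    (h1TrivialOn_units K L E) x hx ⟨x₀, hx₀⟩
  -- Step 3: `c` is locally a coboundary
  have hcloc : ∀ q : Nat.Primes, IsMulCoboundary₂ (fun g : Gal(E/K) × Gal(E/K) =>
      principalPi E (c g) q) := by
    intro q
    apply (inflDatum_semiLoc K L E (q : ℕ)).isMulCoboundary₂_of_infl
      (h1TrivialOn_semiLoc K L E (q : ℕ))
    have h0 : IsMulCoboundary₂ (fun p : Gal(L/K) × Gal(L/K) =>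
        p.1 • y p.2 / y (p.1 * p.2) * y p.1) := ⟨y, fun _ _ => rfl⟩
    have h1 := isMulCoboundary₂_map (principalAt L q) (principalAt_smul K L q) h0
    have h2 := isMulCoboundary₂_div (hloc q) h1
    refine isMulCoboundary₂_congr (fun g h => ?_) h2
    show principalPi L (x (g, h)) q / principalAt L q (g • y h / y (g * h) * y g) = _
    rw [map_bc_principalPi, ← principalAt_apply, ← principalAt_apply, hxy g h, map_mul,
      mul_div_cancel_right]
  -- Step 4: conclude
  have hccob := hKE c hc hcloc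
  have h3 := (inflDatum_units K L E).isMulCoboundary₂_comp hccob
  have h4 : IsMulCoboundary₂ (fun p : Gal(L/K) × Gal(L/K) =>
      p.1 • y p.2 / y (p.1 * p.2) * y p.1) := ⟨y, fun _ _ => rfl⟩
  exact isMulCoboundary₂_congr (fun g h => (hxy g h).symm) (isMulCoboundary₂_mul h3 h4)

/-- The cyclic case (degree `p`) of the Hasse principle, as a hypothesis. -/
def HasseCyc (p : ℕ) : Prop :=
  ∀ (K L : Type u) [Field K] [NumberField K] [Field L] [NumberField L] [Algebra K L]
    [IsGalois K L], Module.finrank K L = p → HasseH2 K L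

/-- **Hasse principle for `p`-extensions from the cyclic case of degree `p`.** -/
theorem hasseH2_of_cyc (p : ℕ) [Fact p.Prime] (hcyc : HasseCyc.{u} p) :
    ∀ (n : ℕ) (K L : Type u) [Field K] [NumberField K] [Field L] [NumberField L]
      [Algebra K L] [IsGalois K L], Module.finrank K L = p ^ n → HasseH2 K L := by
  apply pExt_induction_numberField p (fun K L _ _ _ _ _ => HasseH2 K L)
  · intro K L _ _ _ _ _ _ h x _ _
    haveI : FiniteDimensional K L := Module.Finite.of_restrictScalars_finite ℚ K L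
    have hcard : Nat.card Gal(L/K) = 1 := by rw [IsGalois.card_aut_eq_finrank, h]
    haveI : Subsingleton Gal(L/K) := (Nat.card_eq_one_iff_unique.mp hcard).1
    exact isMulCoboundary₂_of_subsingleton x
  · intro K L _ _ _ _ _ _ E _ hKE hEL
    exact hasseH2_step K L E hEL (hcyc K E hKE)

/-- The same statement in the shape of `helper73.Interface.hasse_principle_H2` /
`helper60.GlobHasse` (hypotheses unfolded). -/
theorem hasse_principle_H2_of_cyc (p : ℕ) [Fact p.Prime] (hcyc : HasseCyc.{u} p)
    (K L : Type u) [Field K] [NumberField K] [Field L] [NumberField L] [Algebra K L]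
    [IsGalois K L] (n : ℕ) (hdeg : Module.finrank K L = p ^ n)
    (x : Gal(L/K) × Gal(L/K) → Lˣ) (hx : IsMulCocycle₂ x)
    (hloc : ∀ q : Nat.Primes,
      IsMulCoboundary₂ (fun g : Gal(L/K) × Gal(L/K) => principalPi L (x g) q)) :
    IsMulCoboundary₂ x :=
  hasseH2_of_cyc p hcyc n K L hdeg x hx hloc

end Hasse

end Fermat.Agent.S55.helper6
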