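import Fermat.Agent.S55.helper73_GlobDefs2

/-!
# S55 / GLOB-G8 (helper84, task 350): Hilbert 90 for the idele class group and the
Hasse norm theorem (cyclic extensions of prime degree), conditional on the two inequalities

* `map_normG`, `normG_smul`, `normG_smul_div` : generalities on the group norm;
* `ideleClass_hilbert90_of` : `Ĥ^{-1}(G, C_L) = 1` from `ineq1` and `ineq2`;
* `hasse_norm_of_hilbert90` : the Hasse norm theorem from Hilbert 90 for `C_L`;
* `hasse_norm_of_ineq` : the Hasse norm theorem for `L/K` cyclic of prime degree `p`, given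
  `ineq1`, `ineq2` for `L/K`, G3a and G1 (all in the exact shapes of the GLOB interface).
-/

set_option autoImplicit false
set_option linter.unusedSectionVars false
set_option linter.style.haveILetI false

open scoped TensorProduct NumberField

namespace Fermat.Agent.S55.helper84

open Fermat.Agent.S55.helper73

section NormLemmas

variable {G A B : Type*} [Group G] [Fintype G] [CommGroup A] [CommGroup B]
  [MulDistribMulAction G A] [MulDistribMulAction G B]

theorem map_normG (f : A →* B) (hf : ∀ (σ : G) (a : A), f (σ • a) = σ • f a) (x : A) :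
    f (normG G A x) = normG G B (f x) := by
  rw [normG_apply, normG_apply, map_prod]
  exact Finset.prod_congr rfl fun σ _ => hf σ x

theorem normG_smul (σ : G) (x : A) : normG G A (σ • x) = normG G A x := by
  rw [normG_apply, normG_apply]
  simp_rw [← mul_smul]
  exact Fintype.prod_bijective (fun τ => τ * σ) (Group.mulRight_bijective σ) _ _ (fun _ => rfl)

theorem normG_smul_div (σ : G) (x : A) : normG G A (σ • x / x) = 1 := by
  rw [map_div, normG_smul, div_self']

end NormLemmas

section HN

variable (K L : Type*) [Field K] [NumberField K] [Field L] [NumberField L] [Algebra K L]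
  [IsGalois K L]

/-- evaluation of an idele at `q`, as a monoid hom. -/
noncomputable def ideleEval (q : Nat.Primes) : Idele L →* (SemiLoc (q : ℕ) L)ˣ where
  toFun x := (x : IdelePi L) q
  map_one' := rfl
  map_mul' _ _ := rfl

theorem ideleEval_smul (q : Nat.Primes) (σ : Gal(L/K)) (x : Idele L) :
    ideleEval L q (σ • x) = σ • ideleEval L q x := rfl

/-- the `q`-component of the principal idele, as a monoid hom. -/
noncomputable def principalAt (q : Nat.Primes) : Lˣ →* (SemiLoc (q : ℕ) L)ˣ where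
  toFun x := principalPi L x q
  map_one' := by rw [map_one]; rfl
  map_mul' x y := by rw [map_mul]; rfl

theorem principalAt_smul (q : Nat.Primes) (σ : Gal(L/K)) (x : Lˣ) :
    principalAt L q (σ • x) = σ • principalAt L q x := by
  have := congrFun (smul_principalPi L K σ x) q
  exact this.symm

end HN

end Fermat.Agent.S55.helper84

namespace Fermat.Agent.S55.helper84

open Fermat.Agent.S55.helper73

section HN2

variable (K L : Type*) [Field K] [NumberField K] [Field L] [NumberField L] [Algebra K L]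
  [IsGalois K L]

theorem smul_algebraMap_units (τ : Gal(L/K)) (b : Kˣ) :
    τ • Units.map (algebraMap K L : K →* L) b = Units.map (algebraMap K L : K →* L) b := by
  apply Units.ext
  exact τ.commutes (b : K)

/-- Hasse norm theorem from Hilbert 90 for the idele class group. -/
theorem hasse_norm_of_hilbert90 (σ : Gal(L/K))
    (hH90 : ∀ x : IdeleClass L, normG Gal(L/K) (IdeleClass L) x = 1 →
      ∃ y : IdeleClass L, σ • y / y = x)
    (hG3a : ∃ T : Finset Nat.Primes, ∀ q : Nat.Primes, q ∉ T →
      (∀ x ∈ intUnits (q : ℕ) L, (∀ τ : Gal(L/K), τ • x = x) →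
        ∃ y ∈ intUnits (q : ℕ) L, normG Gal(L/K) (SemiLoc (q : ℕ) L)ˣ y = x))
    (hmem : ∀ x : Lˣ, principalPi L x ∈ idele L)
    (hinj : Function.Injective (principalPi L))
    (b : Kˣ)
    (hloc : ∀ q : Nat.Primes, ∃ y : (SemiLoc (q : ℕ) L)ˣ,
      normG Gal(L/K) (SemiLoc (q : ℕ) L)ˣ y =
        principalPi L (Units.map (algebraMap K L : K →* L) b) q) :
    ∃ y : Lˣ, normG Gal(L/K) Lˣ y = Units.map (algebraMap K L : K →* L) b := by
  classical
  obtain ⟨T, hT⟩ := hG3a
  set b' : Lˣ := Units.map (algebraMap K L : K →* L) b with hb'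
  have hβ : principalPi L b' ∈ idele L := hmem b'
  have hfix : ∀ (q : Nat.Primes) (τ : Gal(L/K)), τ • principalPi L b' q = principalPi L b' q := by
    intro q τ
    have h := principalAt_smul K L q τ b'
    rw [smul_algebraMap_units K L τ b] at h
    exact h.symm
  -- choice of local solutions, integral whenever possible
  have hex : ∀ q : Nat.Primes, ∃ y : (SemiLoc (q : ℕ) L)ˣ,
      normG Gal(L/K) (SemiLoc (q : ℕ) L)ˣ y = principalPi L b' q ∧
      ((q ∉ T ∧ principalPi L b' q ∈ intUnits (q : ℕ) L) → y ∈ intUnits (q : ℕ) L) := by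
    intro q
    by_cases hq : q ∉ T ∧ principalPi L b' q ∈ intUnits (q : ℕ) L
    · obtain ⟨y, hy, hN⟩ := hT q hq.1 _ hq.2 (hfix q)
      exact ⟨y, hN, fun _ => hy⟩
    · obtain ⟨y, hy⟩ := hloc q
      exact ⟨y, hy, fun h => absurd h hq⟩
  choose y hyN hyint using hex
  have hyid : y ∈ idele L := by
    rw [mem_idele]
    have h1 : ∀ᶠ q : Nat.Primes in Filter.cofinite, q ∉ T := by
      rw [Filter.eventually_cofinite]
      simp only [not_not]
      exact T.finite_toSet
    have h2 : ∀ᶠ q : Nat.Primes in Filter.cofinite,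
        principalPi L b' q ∈ intUnits (q : ℕ) L := (mem_idele L).1 hβ
    exact (h1.and h2).mono fun q h => hyint q h
  let Y : Idele L := ⟨y, hyid⟩
  -- the class of `Y` has norm one
  have hNY : normG Gal(L/K) (Idele L) Y = ⟨principalPi L b', hβ⟩ := by
    apply Subtype.ext
    funext q
    have h := map_normG (G := Gal(L/K)) (ideleEval L q) (ideleEval_smul K L q) Y
    exact h.trans (hyN q)
  have hcl : normG Gal(L/K) (IdeleClass L) (QuotientGroup.mk Y) = 1 := by
    have h := map_normG (G := Gal(L/K)) (A := Idele L) (B := IdeleClass L)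
      (QuotientGroup.mk' (principalSub L))
      (fun τ x => (smul_mk L K τ x).symm) Y
    rw [QuotientGroup.mk'_apply, QuotientGroup.mk'_apply] at h
    rw [← h, hNY]
    rw [QuotientGroup.eq_one_iff]
    exact ⟨b', rfl⟩
  obtain ⟨c, hc⟩ := hH90 _ hcl
  obtain ⟨Z, rfl⟩ := QuotientGroup.mk_surjective c
  have hc' : (QuotientGroup.mk (σ • Z / Z) : IdeleClass L) = QuotientGroup.mk Y := by
    rw [← hc, QuotientGroup.mk_div, smul_mk]
  rw [QuotientGroup.eq] at hc'
  obtain ⟨a, ha⟩ := hc'
  refine ⟨a, ?_⟩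
  apply hinj
  funext q
  have h1 : principalPi L (normG Gal(L/K) Lˣ a) q =
      normG Gal(L/K) (SemiLoc (q : ℕ) L)ˣ (principalPi L a q) :=
    map_normG (G := Gal(L/K)) (principalAt L q) (principalAt_smul K L q) a
  rw [h1]
  have h2 : principalPi L a q = ideleEval L q ((σ • Z / Z)⁻¹ * Y) := by
    have := congrFun ha q
    exact this
  rw [h2, ← map_normG (G := Gal(L/K)) (ideleEval L q) (ideleEval_smul K L q), map_mul, map_inv,
    normG_smul_div, inv_one, one_mul, hNY]
  rfl

end HN2

end Fermat.Agent.S55.helper84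

namespace Fermat.Agent.S55.helper84

open Fermat.Agent.S55.helper73

section HN3

variable (K L : Type*) [Field K] [NumberField K] [Field L] [NumberField L] [Algebra K L]
  [IsGalois K L]

/-- `Ĥ^{-1}(G, C_L) = 1` from the two inequalities. -/
theorem ideleClass_hilbert90_of (p : ℕ) (hp : 0 < p) (σ : Gal(L/K))
    (h1 : hMinus (IdeleClass L) σ ≠ 0 ∧
      hZero Gal(L/K) (IdeleClass L) = p * hMinus (IdeleClass L) σ)
    (h2 : ((normG Gal(L/K) (IdeleClass L)).range.subgroupOf
      (fixedSub Gal(L/K) (IdeleClass L))).index ∣ p)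
    (x : IdeleClass L) (hx : normG Gal(L/K) (IdeleClass L) x = 1) :
    ∃ y : IdeleClass L, σ • y / y = x := by
  have h3 : p * hMinus (IdeleClass L) σ ∣ p := by
    rw [← h1.2]
    exact h2
  have h4 : hMinus (IdeleClass L) σ = 1 := by
    have : p * hMinus (IdeleClass L) σ ∣ p * 1 := by simpa using h3
    exact Nat.dvd_one.mp (Nat.dvd_of_mul_dvd_mul_left hp this)
  rw [hMinus_def, Subgroup.index_eq_one, Subgroup.subgroupOf_eq_top] at h4
  obtain ⟨y, hy⟩ := h4 (MonoidHom.mem_ker.mpr hx)
  exact ⟨y, hy⟩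

/-- a Galois group of prime order has a generator, which is not `1`. -/
theorem exists_generator_of_finrank_prime (p : ℕ) (hp : p.Prime)
    (hdeg : Module.finrank K L = p) :
    ∃ σ : Gal(L/K), σ ≠ 1 ∧ ∀ τ : Gal(L/K), τ ∈ Subgroup.zpowers σ := by
  have hcard : Nat.card Gal(L/K) = p := by
    rw [IsGalois.card_aut_eq_finrank, hdeg]
  haveI : Fact p.Prime := ⟨hp⟩
  have hcyc : IsCyclic Gal(L/K) := isCyclic_of_prime_card hcard
  obtain ⟨g, hg⟩ := hcyc.exists_generator
  refine ⟨g, ?_, hg⟩
  rintro rfl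
  have htop : (⊤ : Subgroup Gal(L/K)) = ⊥ := by
    rw [eq_bot_iff]
    intro τ _
    have := hg τ
    rw [Subgroup.zpowers_one_eq_bot] at this
    exact this
  have h1 : Nat.card Gal(L/K) = 1 := by
    rw [← Subgroup.card_top (G := Gal(L/K)), htop, Subgroup.card_bot]
  rw [hcard] at h1
  exact hp.one_lt.ne' h1

/-- HASSE NORM THEOREM for cyclic extensions of odd prime degree `p` when the two inequalities
hold for `L/K` (e.g. `ζ_p ∈ K`).  Inputs in the exact shapes of the GLOB interface:
`ineq1` (v2), `ineq2` (v1), G3a `exists_finset_intUnits_trivial` (v2),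
G1 `principalPi_mem_idele`, `principalPi_injective` (v1). -/
theorem hasse_norm_of_ineq (p : ℕ) (hp : p.Prime) (hdeg : Module.finrank K L = p)
    (hI1 : ∀ σ : Gal(L/K), σ ≠ 1 → hMinus (IdeleClass L) σ ≠ 0 ∧
      hZero Gal(L/K) (IdeleClass L) = p * hMinus (IdeleClass L) σ)
    (hI2 : ((normG Gal(L/K) (IdeleClass L)).range.subgroupOf
      (fixedSub Gal(L/K) (IdeleClass L))).index ∣ p)
    (hG3a : ∀ σ : Gal(L/K), (∀ τ : Gal(L/K), τ ∈ Subgroup.zpowers σ) →
      ∃ T : Finset Nat.Primes, ∀ q : Nat.Primes, q ∉ T →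
      (∀ x ∈ intUnits (q : ℕ) L, (∀ τ : Gal(L/K), τ • x = x) →
        ∃ y ∈ intUnits (q : ℕ) L, normG Gal(L/K) (SemiLoc (q : ℕ) L)ˣ y = x) ∧
      (∀ x ∈ intUnits (q : ℕ) L, normG Gal(L/K) (SemiLoc (q : ℕ) L)ˣ x = 1 →
        ∃ y ∈ intUnits (q : ℕ) L, σ • y / y = x))
    (hmem : ∀ x : Lˣ, principalPi L x ∈ idele L)
    (hinj : Function.Injective (principalPi L))
    (b : Kˣ)
    (hloc : ∀ q : Nat.Primes, ∃ y : (SemiLoc (q : ℕ) L)ˣ,
      normG Gal(L/K) (SemiLoc (q : ℕ) L)ˣ y =
        principalPi L (Units.map (algebraMap K L : K →* L) b) q) :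
    ∃ y : Lˣ, normG Gal(L/K) Lˣ y = Units.map (algebraMap K L : K →* L) b := by
  obtain ⟨σ, hσ1, hσ⟩ := exists_generator_of_finrank_prime K L p hp hdeg
  obtain ⟨T, hT⟩ := hG3a σ hσ
  exact hasse_norm_of_hilbert90 K L σ
    (ideleClass_hilbert90_of K L p hp.pos σ (hI1 σ hσ1) hI2)
    ⟨T, fun q hq => (hT q hq).1⟩ hmem hinj b hloc

end HN3

end Fermat.Agent.S55.helper84
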