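import Fermat.Agent.S55.helper8_LocDefs
import Fermat.Agent.S55.helper96_LocUnramCoh

/-!
# S55 / LOC (helper96): a cyclic class is trivial iff `b` is a norm

Generic part: for a group `G` generated by `φ` of finite order `n` acting on a commutative
group `M`, the cyclic cochain `cycG φ b` is a coboundary iff `b = ∏_{k<n} φ^k • y` for some `y`.
Field part: `cyclicClass_eq_zero_iff'` for a finite Galois extension with cyclic group
(the statement `cyclicClass_eq_zero_iff` of the LOC interface, pure algebra).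
-/

set_option autoImplicit false

namespace Fermat.Agent.S55.helper96

open Fermat.Agent.S55.helper8 groupCohomology

section generic

variable {G : Type*} [Group G] {M : Type*} [CommGroup M] [MulDistribMulAction G M] {φ : G}

/-- `normProd φ y m = ∏_{k<m} φ^k • y`. -/
noncomputable def normProd (φ : G) (y : M) (m : ℕ) : M :=
  ∏ k ∈ Finset.range m, (φ ^ k) • y

theorem normProd_add (y : M) (i j : ℕ) :
    normProd φ y (i + j) = normProd φ y i * (φ ^ i) • normProd φ y j := by
  simp only [normProd]
  rw [Finset.prod_range_add, Finset.smul_prod']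
  congr 1
  refine Finset.prod_congr rfl fun k _ => ?_
  rw [smul_smul, pow_add]

theorem smul_normProd_orderOf (y : M) :
    φ • normProd φ y (orderOf φ) = normProd φ y (orderOf φ) := by
  have h1 := normProd_add (φ := φ) y 1 (orderOf φ)
  have h2 := normProd_add (φ := φ) y (orderOf φ) 1
  rw [add_comm 1 (orderOf φ), h2] at h1
  have h3 : normProd φ y 1 = y := by simp [normProd]
  rw [h3, pow_orderOf_eq_one, one_smul, pow_one, mul_comm] at h1
  exact (mul_left_cancel h1).symm

theorem pow_smul_normProd_orderOf (y : M) (i : ℕ) :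
    (φ ^ i) • normProd φ y (orderOf φ) = normProd φ y (orderOf φ) := by
  induction i with
  | zero => simp
  | succ i ih => rw [pow_succ, mul_smul, smul_normProd_orderOf, ih]

theorem normProd_add_mul (y : M) (r k : ℕ) :
    normProd φ y (r + orderOf φ * k) = normProd φ y r * normProd φ y (orderOf φ) ^ k := by
  induction k with
  | zero => simp
  | succ k ih =>
    rw [Nat.mul_succ, ← add_assoc, normProd_add, ih, pow_smul_normProd_orderOf, pow_succ,
      mul_assoc]

theorem normProd_eq_mod (y : M) (m : ℕ) :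
    normProd φ y m
      = normProd φ y (m % orderOf φ) * normProd φ y (orderOf φ) ^ (m / orderOf φ) := by
  conv_lhs => rw [← Nat.mod_add_div m (orderOf φ)]
  exact normProd_add_mul y _ _

/-- If `b` is a norm, the cyclic cochain is a coboundary. -/
theorem isMulCoboundary₂_cycG_normProd (hfin : 0 < orderOf φ)
    (hgen : ∀ σ : G, σ ∈ Subgroup.zpowers φ) (y : M) :
    IsMulCoboundary₂ (cycG φ (normProd φ y (orderOf φ))) := by
  refine ⟨fun σ => normProd φ y (dlogG φ σ), fun g h => ?_⟩
  have h1 := normProd_add (φ := φ) y (dlogG φ g) (dlogG φ h)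
  rw [pow_dlogG hfin hgen, normProd_eq_mod, ← dlogG_mul hfin hgen] at h1
  simp only [cycG]
  rw [div_mul_eq_mul_div, div_eq_iff_eq_mul, mul_comm (g • _), ← h1, mul_comm]

/-- If the cyclic cochain is a coboundary, `b` is a norm. -/
theorem exists_normProd_eq_of_isMulCoboundary₂ (hfin : 0 < orderOf φ)
    (hgen : ∀ σ : G, σ ∈ Subgroup.zpowers φ) {b : M}
    (h : IsMulCoboundary₂ (cycG φ b)) : ∃ y : M, normProd φ y (orderOf φ) = b := by
  rcases Nat.lt_or_ge (orderOf φ) 2 with h1 | h2
  · -- order one
    have hn : orderOf φ = 1 := by omega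
    refine ⟨b, ?_⟩
    rw [hn]
    simp [normProd]
  · obtain ⟨x, hx⟩ := h
    refine ⟨x φ, ?_⟩
    have hdφ : dlogG φ φ = 1 := by
      have := dlogG_pow hfin hgen 1
      rw [pow_one, Nat.mod_eq_of_lt (by omega)] at this
      exact this
    have key : ∀ i ∈ Finset.range (orderOf φ),
        (φ ^ i) • x φ * (x (φ ^ i) / x (φ ^ (i + 1))) = b ^ ((i + 1) / orderOf φ) := by
      intro i hi
      have hi' := Finset.mem_range.mp hi
      have := hx (φ ^ i) φ
      simp only [cycG] at this
      rw [dlogG_pow hfin hgen, Nat.mod_eq_of_lt hi', hdφ, ← pow_succ] at this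
      rw [← this, div_mul_eq_mul_div, mul_div_assoc]
    have hprod := Finset.prod_congr rfl key
    rw [Finset.prod_mul_distrib, Finset.prod_range_div' (fun i => x (φ ^ i)),
      pow_orderOf_eq_one, pow_zero, div_self', mul_one] at hprod
    rw [normProd, hprod]
    obtain ⟨n, hn⟩ : ∃ n, orderOf φ = n + 1 := ⟨orderOf φ - 1, by omega⟩
    rw [hn, Finset.prod_range_succ, Nat.div_self (by omega), pow_one]
    have : ∀ i ∈ Finset.range n, b ^ ((i + 1) / (n + 1)) = 1 := by
      intro i hi
      have hi' := Finset.mem_range.mp hi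
      rw [Nat.div_eq_of_lt (by omega), pow_zero]
    rw [Finset.prod_eq_one this, one_mul]

theorem isMulCoboundary₂_cycG_iff (hfin : 0 < orderOf φ)
    (hgen : ∀ σ : G, σ ∈ Subgroup.zpowers φ) (b : M) :
    IsMulCoboundary₂ (cycG φ b) ↔ ∃ y : M, normProd φ y (orderOf φ) = b :=
  ⟨exists_normProd_eq_of_isMulCoboundary₂ hfin hgen, fun ⟨y, hy⟩ => by
    rw [← hy]; exact isMulCoboundary₂_cycG_normProd hfin hgen y⟩

theorem prod_univ_eq_prod_range [Fintype G] {N : Type*} [CommMonoid N]
    (hgen : ∀ σ : G, σ ∈ Subgroup.zpowers φ) (f : G → N) :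
    ∏ σ : G, f σ = ∏ k ∈ Finset.range (orderOf φ), f (φ ^ k) := by
  classical
  have hfin : 0 < orderOf φ := orderOf_pos φ
  have h1 : (Finset.univ : Finset G) = (Finset.range (orderOf φ)).image (fun k => φ ^ k) := by
    ext σ
    simp only [Finset.mem_univ, Finset.mem_image, Finset.mem_range, true_iff]
    exact ⟨dlogG φ σ, dlogG_lt hfin hgen σ, pow_dlogG hfin hgen σ⟩
  rw [h1, Finset.prod_image]
  intro a ha b hb hab
  exact pow_injOn_Iio_orderOf (by simpa using ha) (by simpa using hb) hab

end generic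

section field

variable (K L : Type) [Field K] [Field L] [Algebra K L] [FiniteDimensional K L] [IsGalois K L]

theorem map_normUnits_eq_normProd (φ : L ≃ₐ[K] L)
    (hgen : ∀ σ : L ≃ₐ[K] L, σ ∈ Subgroup.zpowers φ) (y : Lˣ) :
    Units.map (algebraMap K L : K →* L) (normUnits K L y) = normProd φ y (orderOf φ) := by
  classical
  ext
  simp only [normUnits, Units.coe_map, MonoidHom.coe_coe, normProd, Units.coe_prod]
  rw [Algebra.norm_eq_prod_automorphisms, prod_univ_eq_prod_range hgen]
  rfl

theorem isMulCoboundary₂_cyclicCochain_iff (φ : L ≃ₐ[K] L)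
    (hgen : ∀ σ : L ≃ₐ[K] L, σ ∈ Subgroup.zpowers φ) (b : Kˣ) :
    IsMulCoboundary₂ (cyclicCochain K L φ b) ↔ b ∈ (normUnits K L).range := by
  rw [cyclicCochain_eq, isMulCoboundary₂_cycG_iff (orderOf_pos φ) hgen]
  have hinj : Function.Injective (Units.map (algebraMap K L : K →* L)) :=
    Units.map_injective (algebraMap K L).injective
  constructor
  · rintro ⟨y, hy⟩
    refine ⟨y, hinj ?_⟩
    rw [map_normUnits_eq_normProd K L φ hgen, hy]
  · rintro ⟨y, rfl⟩
    exact ⟨y, (map_normUnits_eq_normProd K L φ hgen y).symm⟩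

/-- The cyclic class `(χ_φ, b)` is trivial iff `b` is a norm (statement
`cyclicClass_eq_zero_iff` of the LOC interface, without the unused `q`-adic structure). -/
theorem cyclicClass_eq_zero_iff' (φ : L ≃ₐ[K] L)
    (hφ : ∀ σ : L ≃ₐ[K] L, σ ∈ Subgroup.zpowers φ) (b : Kˣ) :
    cyclicClass K L φ b = 0 ↔ b ∈ (normUnits K L).range := by
  rw [← isMulCoboundary₂_cyclicCochain_iff K L φ hφ, cyclicClass_eq K L φ hφ]
  constructor
  · intro h
    have h1 := (H2π_eq_zero_iff (A := Rep.ofMulDistribMulAction (L ≃ₐ[K] L) Lˣ) _).mp h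
    exact isMulCoboundary₂_of_mem_coboundaries₂ (M := Lˣ) (G := L ≃ₐ[K] L) _ h1
  · intro h
    refine (H2π_eq_zero_iff (A := Rep.ofMulDistribMulAction (L ≃ₐ[K] L) Lˣ) _).mpr ?_
    exact (coboundariesOfIsMulCoboundary₂ h).2

end field

section interface

variable (q : ℕ) [Fact q.Prime]
variable (K : Type) [Field K] [Algebra ℚ_[q] K] [FiniteDimensional ℚ_[q] K]
variable (L : Type) [Field L] [Algebra K L] [FiniteDimensional K L] [IsGalois K L]

include q in
/-- the cyclic class `(χ_φ, b)` is trivial iff `b` is a norm (LOC interface, verbatim) -/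
theorem cyclicClass_eq_zero_iff (φ : L ≃ₐ[K] L) (hφ : ∀ σ : L ≃ₐ[K] L, σ ∈ Subgroup.zpowers φ)
    (b : Kˣ) : cyclicClass K L φ b = 0 ↔ b ∈ (normUnits K L).range :=
  cyclicClass_eq_zero_iff' K L φ hφ b

end interface

end Fermat.Agent.S55.helper96
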