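import Mathlib
import Fermat.Agent.S55.helper6_G9Hasse
import Fermat.Agent.S55.helper96_CyclicNorm
import Fermat.Agent.S55.helper84_HasseNorm

/-!
# The cyclic case of the Hasse principle for `H²` from the Hasse norm theorem
-/

set_option autoImplicit false
set_option linter.style.haveILetI false
set_option linter.unusedSectionVars false

universe u

open groupCohomology IntermediateField Fermat.Agent.S55.helper73

open scoped TensorProduct

namespace Fermat.Agent.S55.helper6

section Generic

variable {G M M' : Type*} [Group G] [CommGroup M] [CommGroup M'] [MulDistribMulAction G M]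
  [MulDistribMulAction G M']

/-- A finite cyclic group: a 2-cocycle is a coboundary iff its cyclic invariant is a norm;
transported along an equivariant homomorphism. Abstract form of the cyclic Hasse principle. -/
theorem isMulCoboundary₂_of_cyclic_of_norm [Fintype G] (φ : G)
    (hgen : ∀ σ : G, σ ∈ Subgroup.zpowers φ) {x : G × G → M} (hx : IsMulCocycle₂ x)
    (hnorm : ∀ b : M, (∀ g : G, g • b = b) →
      IsMulCoboundary₂ (fun p => x p / helper96.cycG φ b p) → ∃ y : M, ∏ g : G, g • y = b) :
    IsMulCoboundary₂ x := by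
  have hfin : 0 < orderOf φ := orderOf_pos φ
  obtain ⟨b, hb, y, hy⟩ := helper96.exists_cycG_of_isMulCocycle₂ hfin hgen hx
  have hbG : ∀ g : G, g • b = b := helper96.smul_eq_of_gen hgen hb
  obtain ⟨z, hz⟩ := hnorm b hbG ⟨y, hy⟩
  have hz' : helper96.normProd φ z (orderOf φ) = b := by
    rw [← hz, helper96.normProd, helper96.prod_univ_eq_prod_range hgen]
  have h1 : IsMulCoboundary₂ (helper96.cycG φ b) := by
    rw [← hz']
    exact helper96.isMulCoboundary₂_cycG_normProd hfin hgen z
  have h2 : IsMulCoboundary₂ (fun p => x p / helper96.cycG φ b p) := ⟨y, hy⟩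
  refine isMulCoboundary₂_congr (fun g h => ?_) (isMulCoboundary₂_mul h2 h1)
  exact div_mul_cancel _ _

end Generic

section NumberField

/-- The Hasse norm theorem for cyclic extensions of degree `p`, as a hypothesis
(shape of `helper73.Interface.hasse_norm`). -/
def HasseNormCyc (p : ℕ) : Prop :=
  ∀ (K L : Type u) [Field K] [NumberField K] [Field L] [NumberField L] [Algebra K L]
    [IsGalois K L], Module.finrank K L = p → ∀ b : Kˣ,
      (∀ q : Nat.Primes, ∃ y : (SemiLoc (q : ℕ) L)ˣ,
        normG Gal(L/K) (SemiLoc (q : ℕ) L)ˣ y =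
          principalPi L (Units.map (algebraMap K L : K →* L) b) q) →
      ∃ y : Lˣ, normG Gal(L/K) Lˣ y = Units.map (algebraMap K L : K →* L) b

lemma principalAt_cycG {G : Type*} [Group G] (L : Type*) [Field L] [CharZero L]
    (q : Nat.Primes) (φ : G) (b : Lˣ) (g h : G) :
    principalAt L q (helper96.cycG φ b (g, h)) = helper96.cycG φ (principalAt L q b) (g, h) := by
  simp only [helper96.cycG, map_pow]

/-- The cyclic case of the Hasse principle for `H²` follows from the Hasse norm theorem. -/
theorem hasseCyc_of_hasseNorm (p : ℕ) [Fact p.Prime] (h : HasseNormCyc.{u} p) :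
    HasseCyc.{u} p := by
  intro K L _ _ _ _ _ _ hdeg x hx hloc
  haveI : FiniteDimensional K L := Module.Finite.of_restrictScalars_finite ℚ K L
  obtain ⟨σ, -, hσ⟩ := helper84.exists_generator_of_finrank_prime K L p Fact.out hdeg
  have hfin : 0 < orderOf σ := orderOf_pos σ
  apply isMulCoboundary₂_of_cyclic_of_norm σ hσ hx
  intro b hb hcob
  -- `b` comes from `K`
  obtain ⟨k, hk⟩ : (b : L) ∈ Set.range (algebraMap K L) :=
    (IsGalois.mem_range_algebraMap_iff_fixed (F := K) (E := L) (b : L)).2
      (fun g => congrArg Units.val (hb g))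
  have hk0 : k ≠ 0 := by
    rintro rfl
    rw [map_zero] at hk
    exact b.ne_zero hk.symm
  have hb₀ : Units.map (algebraMap K L : K →* L) (Units.mk0 k hk0) = b := Units.ext hk
  -- local norms
  have hlocn : ∀ q : Nat.Primes, ∃ y : (SemiLoc (q : ℕ) L)ˣ,
      normG Gal(L/K) (SemiLoc (q : ℕ) L)ˣ y =
        principalPi L (Units.map (algebraMap K L : K →* L) (Units.mk0 k hk0)) q := by
    intro q
    have h1 := isMulCoboundary₂_map (principalAt L q) (principalAt_smul K L q) hcob
    have h2 := isMulCoboundary₂_div (hloc q) h1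
    have h3 : IsMulCoboundary₂ (helper96.cycG σ (principalAt L q b)) := by
      refine isMulCoboundary₂_congr (fun g h => ?_) h2
      show principalPi L (x (g, h)) q / principalAt L q (x (g, h) / helper96.cycG σ b (g, h)) = _
      rw [← principalAt_apply, map_div, principalAt_cycG, div_div_cancel]
    obtain ⟨z, hz⟩ := helper96.exists_normProd_eq_of_isMulCoboundary₂ hfin hσ h3
    refine ⟨z, ?_⟩
    rw [normG_apply, helper96.prod_univ_eq_prod_range hσ, hb₀, ← principalAt_apply, ← hz]
    rfl
  obtain ⟨y, hy⟩ := h K L hdeg (Units.mk0 k hk0) hlocn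
  refine ⟨y, ?_⟩
  rw [← hb₀, ← hy]
  rfl

/-- **Hasse principle for `H²` of `p`-extensions from the Hasse norm theorem for cyclic
extensions of degree `p`**, in the shape of `helper73.Interface.hasse_principle_H2` /
`helper60.GlobHasse`. -/
theorem hasse_principle_H2_of_hasseNorm (p : ℕ) [Fact p.Prime] (h : HasseNormCyc.{u} p)
    (K L : Type u) [Field K] [NumberField K] [Field L] [NumberField L] [Algebra K L]
    [IsGalois K L] (n : ℕ) (hdeg : Module.finrank K L = p ^ n)
    (x : Gal(L/K) × Gal(L/K) → Lˣ) (hx : IsMulCocycle₂ x)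
    (hloc : ∀ q : Nat.Primes,
      IsMulCoboundary₂ (fun g : Gal(L/K) × Gal(L/K) => principalPi L (x g) q)) :
    IsMulCoboundary₂ x :=
  hasse_principle_H2_of_cyc p (hasseCyc_of_hasseNorm p h) K L n hdeg x hx hloc

end NumberField

end Fermat.Agent.S55.helper6
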