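import Mathlib
import Fermat.Agent.S55.helper6_G9Hasse
import Fermat.Agent.S55.helper96_CyclicNorm

/-!
# Generic cocycle lemmas for the `p`-extension inductions (GLOB G9)

* `|G|` kills `H¹` and `H²` (cocycle form);
* coprime powers;
* cyclic `H¹` from "norm one ⇒ `σ y / y`";
* base-change descent: if `b ∘ f ∘ e` is a coboundary and `N ∘ b = (·)^d`, then `f^d` is a
  coboundary.
-/

set_option autoImplicit false
set_option linter.style.haveILetI false
set_option linter.unusedSectionVars false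
set_option linter.unusedSimpArgs false

open groupCohomology

namespace Fermat.Agent.S55.helper6

section Closure

variable {G M : Type*} [Group G] [CommGroup M] [MulDistribMulAction G M]

lemma isMulCoboundary₁_one : IsMulCoboundary₁ (fun _ : G => (1 : M)) :=
  ⟨1, fun g => by simp⟩

lemma isMulCoboundary₁_mul {f₁ f₂ : G → M} (h₁ : IsMulCoboundary₁ f₁)
    (h₂ : IsMulCoboundary₁ f₂) : IsMulCoboundary₁ (fun g => f₁ g * f₂ g) := by
  obtain ⟨x₁, hx₁⟩ := h₁
  obtain ⟨x₂, hx₂⟩ := h₂
  refine ⟨x₁ * x₂, fun g => ?_⟩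
  beta_reduce
  rw [← hx₁, ← hx₂, smul_mul', mul_div_mul_comm]

lemma isMulCoboundary₁_inv {f : G → M} (h : IsMulCoboundary₁ f) :
    IsMulCoboundary₁ (fun g => (f g)⁻¹) := by
  obtain ⟨x, hx⟩ := h
  refine ⟨x⁻¹, fun g => ?_⟩
  beta_reduce
  rw [← hx, smul_inv', inv_div_inv, inv_div]

lemma isMulCoboundary₁_div {f₁ f₂ : G → M} (h₁ : IsMulCoboundary₁ f₁)
    (h₂ : IsMulCoboundary₁ f₂) : IsMulCoboundary₁ (fun g => f₁ g / f₂ g) := by
  simp only [div_eq_mul_inv]
  exact isMulCoboundary₁_mul h₁ (isMulCoboundary₁_inv h₂)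

lemma isMulCoboundary₁_pow {f : G → M} (h : IsMulCoboundary₁ f) (n : ℕ) :
    IsMulCoboundary₁ (fun g => f g ^ n) := by
  obtain ⟨x, hx⟩ := h
  refine ⟨x ^ n, fun g => ?_⟩
  beta_reduce
  rw [← hx, smul_pow', div_pow]

lemma isMulCoboundary₁_zpow {f : G → M} (h : IsMulCoboundary₁ f) (n : ℤ) :
    IsMulCoboundary₁ (fun g => f g ^ n) := by
  cases n with
  | ofNat n => simpa using isMulCoboundary₁_pow h n
  | negSucc n =>
    simp only [zpow_negSucc]
    exact isMulCoboundary₁_inv (isMulCoboundary₁_pow h (n + 1))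

lemma isMulCoboundary₁_congr {f₁ f₂ : G → M} (h : ∀ g, f₁ g = f₂ g)
    (h₁ : IsMulCoboundary₁ f₁) : IsMulCoboundary₁ f₂ := by
  obtain ⟨x, hx⟩ := h₁
  exact ⟨x, fun g => (hx g).trans (h g)⟩

lemma isMulCoboundary₂_one : IsMulCoboundary₂ (fun _ : G × G => (1 : M)) :=
  ⟨fun _ => 1, fun g h => by simp⟩

lemma isMulCoboundary₂_inv {f : G × G → M} (h : IsMulCoboundary₂ f) :
    IsMulCoboundary₂ (fun p => (f p)⁻¹) := by
  have := isMulCoboundary₂_div (isMulCoboundary₂_one (G := G) (M := M)) h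
  simpa using this

lemma isMulCoboundary₂_pow {f : G × G → M} (h : IsMulCoboundary₂ f) (n : ℕ) :
    IsMulCoboundary₂ (fun p => f p ^ n) := by
  induction n with
  | zero => simpa using isMulCoboundary₂_one (G := G) (M := M)
  | succ n ih =>
    simp only [pow_succ]
    exact isMulCoboundary₂_mul ih h

lemma isMulCoboundary₂_zpow {f : G × G → M} (h : IsMulCoboundary₂ f) (n : ℤ) :
    IsMulCoboundary₂ (fun p => f p ^ n) := by
  cases n with
  | ofNat n => simpa using isMulCoboundary₂_pow h n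
  | negSucc n =>
    simp only [zpow_negSucc]
    exact isMulCoboundary₂_inv (isMulCoboundary₂_pow h (n + 1))

/-- If `f^a` and `f^b` are coboundaries with `a`, `b` coprime, then `f` is a coboundary. -/
lemma isMulCoboundary₁_of_pow_coprime {f : G → M} {a b : ℕ} (hab : Nat.Coprime a b)
    (ha : IsMulCoboundary₁ (fun g => f g ^ a)) (hb : IsMulCoboundary₁ (fun g => f g ^ b)) :
    IsMulCoboundary₁ f := by
  have hbez : (a : ℤ) * Nat.gcdA a b + (b : ℤ) * Nat.gcdB a b = 1 := by
    have := Nat.gcd_eq_gcd_ab a b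
    rw [hab.gcd_eq_one] at this
    exact_mod_cast this.symm
  refine isMulCoboundary₁_congr (fun g => ?_)
    (isMulCoboundary₁_mul (isMulCoboundary₁_zpow ha (Nat.gcdA a b))
      (isMulCoboundary₁_zpow hb (Nat.gcdB a b)))
  show (f g ^ a) ^ Nat.gcdA a b * (f g ^ b) ^ Nat.gcdB a b = f g
  rw [← zpow_natCast, ← zpow_natCast, ← zpow_mul, ← zpow_mul, ← zpow_add, hbez, zpow_one]

lemma isMulCoboundary₂_of_pow_coprime {f : G × G → M} {a b : ℕ} (hab : Nat.Coprime a b)
    (ha : IsMulCoboundary₂ (fun p => f p ^ a)) (hb : IsMulCoboundary₂ (fun p => f p ^ b)) :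
    IsMulCoboundary₂ f := by
  have hbez : (a : ℤ) * Nat.gcdA a b + (b : ℤ) * Nat.gcdB a b = 1 := by
    have := Nat.gcd_eq_gcd_ab a b
    rw [hab.gcd_eq_one] at this
    exact_mod_cast this.symm
  refine isMulCoboundary₂_congr (fun g h => ?_)
    (isMulCoboundary₂_mul (isMulCoboundary₂_zpow ha (Nat.gcdA a b))
      (isMulCoboundary₂_zpow hb (Nat.gcdB a b)))
  show (f (g, h) ^ a) ^ Nat.gcdA a b * (f (g, h) ^ b) ^ Nat.gcdB a b = f (g, h)
  rw [← zpow_natCast, ← zpow_natCast, ← zpow_mul, ← zpow_mul, ← zpow_add, hbez, zpow_one]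

end Closure

section Card

variable {G M : Type*} [Group G] [Fintype G] [CommGroup M] [MulDistribMulAction G M]

/-- `|G|` kills `H¹(G, M)`. -/
theorem isMulCoboundary₁_pow_card {f : G → M} (hf : IsMulCocycle₁ f) :
    IsMulCoboundary₁ (fun g => f g ^ Fintype.card G) := by
  refine ⟨(∏ h : G, f h)⁻¹, fun g => ?_⟩
  have h1 : ∏ h : G, f (g * h) = ∏ h : G, f h :=
    Fintype.prod_equiv (Equiv.mulLeft g) _ _ (fun _ => rfl)
  have h2 : ∏ h : G, f (g * h) = (g • ∏ h : G, f h) * f g ^ Fintype.card G := by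
    simp only [hf g, Finset.prod_mul_distrib, Finset.prod_const, Finset.card_univ,
      Finset.smul_prod']
  have key : ∏ h : G, f h = (g • ∏ h : G, f h) * f g ^ Fintype.card G := h1.symm.trans h2
  rw [smul_inv', div_eq_mul_inv, inv_inv, inv_mul_eq_iff_eq_mul]
  exact key

/-- `|G|` kills `H²(G, M)`. -/
theorem isMulCoboundary₂_pow_card {f : G × G → M} (hf : IsMulCocycle₂ f) :
    IsMulCoboundary₂ (fun p => f p ^ Fintype.card G) := by
  refine ⟨fun g => ∏ j : G, f (g, j), fun g h => ?_⟩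
  have h1 : ∏ j : G, f (g, h * j) = ∏ j : G, f (g, j) :=
    Fintype.prod_equiv (Equiv.mulLeft h) _ _ (fun _ => rfl)
  have h2 : ∏ j : G, (f (g * h, j) * f (g, h)) = ∏ j : G, (g • f (h, j) * f (g, h * j)) :=
    Finset.prod_congr rfl (fun j _ => hf g h j)
  rw [Finset.prod_mul_distrib, Finset.prod_mul_distrib, Finset.prod_const, Finset.card_univ,
    h1, ← Finset.smul_prod'] at h2
  beta_reduce
  have h3 : f (g, h) ^ Fintype.card G =
      (g • ∏ j : G, f (h, j)) * (∏ j : G, f (g, j)) / (∏ j : G, f (g * h, j)) := by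
    rw [← h2, mul_div_cancel_left]
  rw [h3]
  simp only [div_eq_mul_inv, mul_assoc, mul_comm, mul_left_comm, mul_inv_cancel_left]

end Card

section Cyclic

variable {G M : Type*} [Group G] [Fintype G] [CommGroup M] [MulDistribMulAction G M]

/-- Values of a 1-cocycle on the powers of an element. -/
lemma cocycle_pow_eq_normProd {f : G → M} (hf : IsMulCocycle₁ f) (σ : G) (k : ℕ) :
    f (σ ^ k) = helper96.normProd σ (f σ) k := by
  induction k with
  | zero =>
    rw [pow_zero, map_one_of_isMulCocycle₁ hf]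
    simp [helper96.normProd]
  | succ k ih =>
    rw [pow_succ, hf (σ ^ k) σ, ih, helper96.normProd, helper96.normProd,
      Finset.prod_range_succ, mul_comm]

/-- **Cyclic `H¹`.** If `G = ⟨σ⟩` is finite and every element of norm one is of the form
`σ • y / y`, then every 1-cocycle is a coboundary. -/
theorem isMulCoboundary₁_of_cyclic (σ : G) (hgen : ∀ τ : G, τ ∈ Subgroup.zpowers σ)
    (h90 : ∀ x : M, ∏ g : G, g • x = 1 → ∃ y : M, σ • y / y = x)
    {f : G → M} (hf : IsMulCocycle₁ f) : IsMulCoboundary₁ f := by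
  have hfin : 0 < orderOf σ := orderOf_pos σ
  have hnorm : ∏ g : G, g • f σ = 1 := by
    rw [helper96.prod_univ_eq_prod_range hgen]
    have := cocycle_pow_eq_normProd hf σ (orderOf σ)
    rw [pow_orderOf_eq_one, map_one_of_isMulCocycle₁ hf] at this
    exact this.symm
  obtain ⟨y, hy⟩ := h90 (f σ) hnorm
  refine ⟨y, fun g => ?_⟩
  have hpow : ∀ k : ℕ, f (σ ^ k) = (σ ^ k) • y / y := by
    intro k
    induction k with
    | zero => rw [pow_zero, map_one_of_isMulCocycle₁ hf, one_smul, div_self']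
    | succ k ih =>
      rw [pow_succ, hf (σ ^ k) σ, ih, ← hy, smul_div', mul_smul, div_mul_div_cancel]
  obtain ⟨k, hk⟩ := helper96.exists_pow_eq_of_gen hfin hgen g
  rw [← hk, hpow k]

end Cyclic

section BaseChange

variable {G G' M M' : Type*} [Group G] [Group G'] [CommGroup M] [CommGroup M']
  [MulDistribMulAction G M] [MulDistribMulAction G' M']

/-- **Base-change descent, degree 1.** -/
theorem isMulCoboundary₁_pow_of_baseChange (e : G' →* G) (he : Function.Surjective e)
    (b : M →* M') (N : M' →* M) (hN : ∀ (g' : G') (m' : M'), N (g' • m') = e g' • N m')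
    (d : ℕ) (hNb : ∀ m : M, N (b m) = m ^ d) {f : G → M}
    (h : IsMulCoboundary₁ (fun g' : G' => b (f (e g')))) :
    IsMulCoboundary₁ (fun g => f g ^ d) := by
  obtain ⟨y, hy⟩ := h
  refine ⟨N y, fun g => ?_⟩
  obtain ⟨g', rfl⟩ := he g
  have := congrArg N (hy g')
  rw [map_div, hN, hNb] at this
  exact this

/-- **Base-change descent, degree 2.** -/
theorem isMulCoboundary₂_pow_of_baseChange (e : G' ≃* G)
    (b : M →* M') (N : M' →* M) (hN : ∀ (g' : G') (m' : M'), N (g' • m') = e g' • N m')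
    (d : ℕ) (hNb : ∀ m : M, N (b m) = m ^ d) {f : G × G → M}
    (h : IsMulCoboundary₂ (fun p : G' × G' => b (f (e p.1, e p.2)))) :
    IsMulCoboundary₂ (fun p => f p ^ d) := by
  obtain ⟨y, hy⟩ := h
  refine ⟨fun g => N (y (e.symm g)), fun g h => ?_⟩
  have := congrArg N (hy (e.symm g) (e.symm h))
  simp only [map_mul, map_div, hN, hNb, MulEquiv.apply_symm_apply] at this
  show g • N (y (e.symm h)) / N (y (e.symm (g * h))) * N (y (e.symm g)) = f (g, h) ^ d
  rw [map_mul]
  exact this

/-- **Base-change descent, conclusion in degree 1**: for a finite group `G` of order prime to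
`d`, a 1-cocycle whose base change is a coboundary is a coboundary. -/
theorem isMulCoboundary₁_of_baseChange [Fintype G] (e : G' →* G) (he : Function.Surjective e)
    (b : M →* M') (N : M' →* M) (hN : ∀ (g' : G') (m' : M'), N (g' • m') = e g' • N m')
    (d : ℕ) (hNb : ∀ m : M, N (b m) = m ^ d) (hd : Nat.Coprime d (Fintype.card G))
    {f : G → M} (hf : IsMulCocycle₁ f)
    (h : IsMulCoboundary₁ (fun g' : G' => b (f (e g')))) : IsMulCoboundary₁ f :=
  isMulCoboundary₁_of_pow_coprime hd (isMulCoboundary₁_pow_of_baseChange e he b N hN d hNb h)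
    (isMulCoboundary₁_pow_card hf)

/-- **Base-change descent, conclusion in degree 2.** -/
theorem isMulCoboundary₂_of_baseChange [Fintype G] (e : G' ≃* G)
    (b : M →* M') (N : M' →* M) (hN : ∀ (g' : G') (m' : M'), N (g' • m') = e g' • N m')
    (d : ℕ) (hNb : ∀ m : M, N (b m) = m ^ d) (hd : Nat.Coprime d (Fintype.card G))
    {f : G × G → M} (hf : IsMulCocycle₂ f)
    (h : IsMulCoboundary₂ (fun p : G' × G' => b (f (e p.1, e p.2)))) : IsMulCoboundary₂ f :=
  isMulCoboundary₂_of_pow_coprime hd (isMulCoboundary₂_pow_of_baseChange e b N hN d hNb h)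
    (isMulCoboundary₂_pow_card hf)

end BaseChange

end Fermat.Agent.S55.helper6
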