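import Mathlib
import Fermat.Agent.S55.helper6_G9Abs

/-!
# Descent along an inflation datum with kernel of order prime to `|G|`

Setting: `π : Γ →* G` surjective with finite kernel, `b : M →* M'` an inflation datum for `π`;
`G'` a group acting on `M'` through `j' : G' →* Γ` such that `π ∘ j'` is bijective.  The norm
along `ker π` gives `N : M' →* M` with `N ∘ b = (·)^|ker π|`, hence a cocycle on `G` whose base
change to `G'` is a coboundary is itself a coboundary when `|ker π|` is prime to `|G|`.
-/

set_option autoImplicit false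
set_option linter.style.haveILetI false
set_option linter.unusedSectionVars false
set_option linter.unusedSimpArgs false

open groupCohomology

namespace Fermat.Agent.S55.helper6

section KerNorm

variable {Γ G M M' : Type*} [Group Γ] [Fintype Γ] [Group G] [CommGroup M] [CommGroup M']
  [MulDistribMulAction G M] [MulDistribMulAction Γ M']

open Classical in
/-- The finite set of elements of the kernel. -/
noncomputable def kerFinset (π : Γ →* G) : Finset Γ := Finset.univ.filter (fun s => π s = 1)

lemma mem_kerFinset (π : Γ →* G) (s : Γ) : s ∈ kerFinset π ↔ π s = 1 := by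
  classical
  simp [kerFinset]

lemma card_kerFinset (π : Γ →* G) : (kerFinset π).card = Nat.card π.ker := by
  rw [← Nat.card_eq_finsetCard]
  exact Nat.card_congr (Equiv.subtypeEquivRight (fun s => by
    rw [mem_kerFinset, MonoidHom.mem_ker]))

/-- The norm along the kernel of `π`, as a monoid homomorphism. -/
noncomputable def kerNorm (π : Γ →* G) : M' →* M' where
  toFun m := ∏ s ∈ kerFinset π, s • m
  map_one' := by simp
  map_mul' x y := by simp [smul_mul', Finset.prod_mul_distrib]

lemma kerNorm_apply (π : Γ →* G) (m : M') : kerNorm π m = ∏ s ∈ kerFinset π, s • m := rfl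

/-- The norm along the (normal) kernel commutes with the action of `Γ`. -/
lemma smul_kerNorm (π : Γ →* G) (γ : Γ) (m : M') : γ • kerNorm π m = kerNorm π (γ • m) := by
  rw [kerNorm_apply, kerNorm_apply, Finset.smul_prod']
  refine Finset.prod_bij (fun s _ => γ * s * γ⁻¹) ?_ ?_ ?_ ?_
  · intro s hs
    rw [mem_kerFinset] at hs ⊢
    rw [map_mul, map_mul, hs, mul_one, map_inv, mul_inv_cancel]
  · intro s _ t _ h
    exact mul_left_cancel (mul_right_cancel h)
  · intro t ht
    refine ⟨γ⁻¹ * t * γ, ?_, by group⟩
    rw [mem_kerFinset] at ht ⊢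
    rw [map_mul, map_mul, ht, mul_one, map_inv, inv_mul_cancel]
  · intro s _
    rw [← mul_smul, ← mul_smul, inv_mul_cancel_right]

/-- The norm is fixed by the kernel. -/
lemma smul_kerNorm_of_mem (π : Γ →* G) {t : Γ} (ht : t ∈ π.ker) (m : M') :
    t • kerNorm π m = kerNorm π m := by
  rw [kerNorm_apply, Finset.smul_prod']
  refine Finset.prod_bij (fun s _ => t * s) ?_ ?_ ?_ ?_
  · intro s hs
    rw [mem_kerFinset] at hs ⊢
    rw [map_mul, hs, mul_one]
    exact ht
  · intro s _ u _ h
    exact mul_left_cancel h
  · intro u hu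
    refine ⟨t⁻¹ * u, ?_, by group⟩
    rw [mem_kerFinset] at hu ⊢
    rw [map_mul, hu, mul_one, map_inv, MonoidHom.mem_ker.mp ht, inv_one]
  · intro s _
    rw [mul_smul]

/-- On elements fixed by the kernel, the norm is the `|ker π|`-th power. -/
lemma kerNorm_of_fixed (π : Γ →* G) {m : M'} (hm : ∀ s ∈ π.ker, s • m = m) :
    kerNorm π m = m ^ Nat.card π.ker := by
  rw [kerNorm_apply, ← card_kerFinset, ← Finset.prod_const]
  refine Finset.prod_congr rfl (fun s hs => hm s ?_)
  rw [mem_kerFinset] at hs
  exact hs

variable {π : Γ →* G} {b : M →* M'}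

/-- The norm `M' → M` of an inflation datum, as a function. -/
noncomputable def InflDatum.normAux (D : InflDatum π b) (m : M') : M :=
  (D.exists_of_fixed (kerNorm π m) (fun _ hs => smul_kerNorm_of_mem π hs m)).choose

lemma InflDatum.map_normAux (D : InflDatum π b) (m : M') : b (D.normAux m) = kerNorm π m :=
  (D.exists_of_fixed (kerNorm π m) (fun _ hs => smul_kerNorm_of_mem π hs m)).choose_spec

/-- The norm `M' → M` of an inflation datum. -/
noncomputable def InflDatum.norm (D : InflDatum π b) : M' →* M where
  toFun := D.normAux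
  map_one' := by
    apply D.inj
    rw [D.map_normAux, map_one, map_one]
  map_mul' x y := by
    apply D.inj
    rw [D.map_normAux, map_mul, map_mul, D.map_normAux, D.map_normAux]

lemma InflDatum.map_norm (D : InflDatum π b) (m : M') : b (D.norm m) = kerNorm π m :=
  D.map_normAux m

lemma InflDatum.norm_smul (D : InflDatum π b) (γ : Γ) (m : M') :
    D.norm (γ • m) = π γ • D.norm m := by
  apply D.inj
  rw [D.map_norm, D.equivariant, D.map_norm, smul_kerNorm]

lemma InflDatum.norm_map (D : InflDatum π b) (m : M) : D.norm (b m) = m ^ Nat.card π.ker := by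
  apply D.inj
  rw [D.map_norm, map_pow]
  refine kerNorm_of_fixed π (fun s hs => ?_)
  rw [← D.equivariant, MonoidHom.mem_ker.mp hs, one_smul]

end KerNorm

section Descent

variable {Γ G G' M M' : Type*} [Group Γ] [Fintype Γ] [Group G] [Fintype G] [Group G']
  [CommGroup M] [CommGroup M'] [MulDistribMulAction G M] [MulDistribMulAction Γ M']
  [MulDistribMulAction G' M'] {π : Γ →* G} {b : M →* M'}

/-- **Descent in degree 1.** -/
theorem InflDatum.isMulCoboundary₁_of_descent (D : InflDatum π b) (j' : G' →* Γ)
    (hj' : ∀ (g' : G') (m' : M'), j' g' • m' = g' • m')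
    (he : Function.Surjective (π.comp j'))
    (hd : Nat.Coprime (Nat.card π.ker) (Fintype.card G))
    {f : G → M} (hf : IsMulCocycle₁ f)
    (h : IsMulCoboundary₁ (fun g' : G' => b (f (π (j' g'))))) : IsMulCoboundary₁ f :=
  isMulCoboundary₁_of_baseChange (π.comp j') he b D.norm
    (fun g' m' => by rw [← hj', D.norm_smul]; rfl) (Nat.card π.ker) D.norm_map hd hf h

/-- **Descent in degree 2.** -/
theorem InflDatum.isMulCoboundary₂_of_descent (D : InflDatum π b) (j' : G' →* Γ)
    (hj' : ∀ (g' : G') (m' : M'), j' g' • m' = g' • m')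
    (he : Function.Bijective (π.comp j'))
    (hd : Nat.Coprime (Nat.card π.ker) (Fintype.card G))
    {f : G × G → M} (hf : IsMulCocycle₂ f)
    (h : IsMulCoboundary₂ (fun p : G' × G' => b (f (π (j' p.1), π (j' p.2))))) :
    IsMulCoboundary₂ f :=
  isMulCoboundary₂_of_baseChange (MulEquiv.ofBijective (π.comp j') he) b D.norm
    (fun g' m' => by rw [← hj', D.norm_smul]; rfl) (Nat.card π.ker) D.norm_map hd hf h

end Descent

end Fermat.Agent.S55.helper6
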