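import Fermat.Agent.S55.helper73_GlobDefs2

/-!
# S55 / REC2 (class formation): shared definitions (helper33)

The *cyclotomic idele symbol*.  For a number field `K`, a prime `l` and `m ≥ 1` we define

  `cycSym K l m : Idele K → (ZMod (l ^ m))ˣ`,
  `y ↦ ∏_q cycSymLoc l m q (N_{ℚ_q ⊗ K / ℚ_q} (y_q))`

where, for `a ∈ ℚ_qˣ`,
* `cycSymLoc l m q a = (q mod l^m) ^ v_q(a)` if `q ≠ l`,
* `cycSymLoc l m l a = ((a / l ^ v_l(a)) mod l^m)⁻¹`.

It is the (finite part of the) idelic Artin map of `K(ζ_{l^m})/K`, read through the cyclotomic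
character; no completions, no ideals and no Frobenius elements are needed to define it.
-/

set_option autoImplicit false

open scoped TensorProduct

namespace Fermat.Agent.S55.helper33

open Fermat.Agent.S55.helper73

section Local

variable (q : ℕ) [Fact q.Prime]

/-- The `q`-adic valuation as a group homomorphism `ℚ_qˣ → ℤ`. -/
noncomputable def padicValHom : ℚ_[q]ˣ →* Multiplicative ℤ where
  toFun a := Multiplicative.ofAdd (Padic.valuation (a : ℚ_[q]))
  map_one' := by simp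
  map_mul' a b := by
    rw [Units.val_mul, Padic.valuation_mul a.ne_zero b.ne_zero]
    rfl

lemma padicValHom_apply (a : ℚ_[q]ˣ) :
    padicValHom q a = Multiplicative.ofAdd (Padic.valuation (a : ℚ_[q])) := rfl

lemma norm_unitPart_aux (a : ℚ_[q]ˣ) :
    ‖(a : ℚ_[q]) * (q : ℚ_[q]) ^ (-Padic.valuation (a : ℚ_[q]))‖ = 1 := by
  have hq : (q : ℝ) ≠ 0 := by exact_mod_cast (Fact.out : q.Prime).ne_zero
  rw [norm_mul, norm_zpow, Padic.norm_p, Padic.norm_eq_zpow_neg_valuation a.ne_zero]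
  rw [inv_zpow', neg_neg, ← zpow_add₀ hq, neg_add_cancel, zpow_zero]

/-- The unit part `a / q ^ v(a)` of a nonzero `q`-adic number. -/
noncomputable def padicUnitPart : ℚ_[q]ˣ →* ℤ_[q]ˣ where
  toFun a := PadicInt.mkUnits (norm_unitPart_aux q a)
  map_one' := by
    apply Units.ext
    apply Subtype.ext
    simp [PadicInt.mkUnits]
  map_mul' a b := by
    apply Units.ext
    apply Subtype.ext
    have hq : (q : ℚ_[q]) ≠ 0 := by exact_mod_cast (Fact.out : q.Prime).ne_zero
    change ((a * b : ℚ_[q]ˣ) : ℚ_[q]) * (q : ℚ_[q]) ^ (-Padic.valuation ((a * b : ℚ_[q]ˣ) : ℚ_[q]))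
      = ((a : ℚ_[q]) * (q : ℚ_[q]) ^ (-Padic.valuation (a : ℚ_[q]))) *
        ((b : ℚ_[q]) * (q : ℚ_[q]) ^ (-Padic.valuation (b : ℚ_[q])))
    rw [Units.val_mul, Padic.valuation_mul a.ne_zero b.ne_zero, neg_add, zpow_add₀ hq]
    ring

lemma coe_padicUnitPart (a : ℚ_[q]ˣ) :
    (((padicUnitPart q a : ℤ_[q]ˣ) : ℤ_[q]) : ℚ_[q]) =
      (a : ℚ_[q]) * (q : ℚ_[q]) ^ (-Padic.valuation (a : ℚ_[q])) := rfl

variable (l m : ℕ) [Fact l.Prime]

/-- The unit symbol at `l`: `a ↦ (a / l ^ v(a)) mod l ^ m`. -/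
noncomputable def unitSym : ℚ_[l]ˣ →* (ZMod (l ^ m))ˣ :=
  (Units.map ((PadicInt.toZModPow m : ℤ_[l] →+* ZMod (l ^ m)) : ℤ_[l] →* ZMod (l ^ m))).comp
    (padicUnitPart l)

/-- The class of the prime `q ≠ l` in `(ℤ/l^m)ˣ`. -/
noncomputable def primeUnit (h : q ≠ l) : (ZMod (l ^ m))ˣ :=
  ZMod.unitOfCoprime q
    (Nat.Coprime.pow_right m ((Nat.coprime_primes Fact.out Fact.out).mpr h))

/-- The valuation symbol at `q ≠ l`: `a ↦ (q mod l ^ m) ^ v_q(a)`. -/
noncomputable def valSym (h : q ≠ l) : ℚ_[q]ˣ →* (ZMod (l ^ m))ˣ :=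
  ((zpowersHom (ZMod (l ^ m))ˣ) (primeUnit q l m h)).comp (padicValHom q)

open Classical in
/-- The local cyclotomic symbol `ℚ_qˣ → (ℤ/l^m)ˣ`:
`a ↦ (q mod l^m) ^ v_q(a)` for `q ≠ l`, and `a ↦ ((a / l^v(a)) mod l^m)⁻¹` for `q = l`. -/
noncomputable def cycSymLoc : ℚ_[q]ˣ →* (ZMod (l ^ m))ˣ :=
  if h : q = l then (by subst h; exact (unitSym q m)⁻¹) else valSym q l m h

lemma cycSymLoc_of_ne (h : q ≠ l) : cycSymLoc q l m = valSym q l m h := by
  rw [cycSymLoc, dif_neg h]

lemma cycSymLoc_self : cycSymLoc l l m = (unitSym l m)⁻¹ := by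
  rw [cycSymLoc, dif_pos rfl]

lemma cycSymLoc_apply_of_ne (h : q ≠ l) (a : ℚ_[q]ˣ) :
    cycSymLoc q l m a = primeUnit q l m h ^ Padic.valuation (a : ℚ_[q]) := by
  rw [cycSymLoc_of_ne q l m h]
  rfl

lemma cycSymLoc_self_apply (a : ℚ_[l]ˣ) :
    cycSymLoc l l m a =
      (Units.map ((PadicInt.toZModPow m : ℤ_[l] →+* ZMod (l ^ m)) : ℤ_[l] →* ZMod (l ^ m))
        (padicUnitPart l a))⁻¹ := by
  rw [cycSymLoc_self]
  rfl

end Local

section Global

variable (K : Type*) [Field K] [CharZero K]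

/-- The norm `(ℚ_q ⊗ K)ˣ → ℚ_qˣ` of the semilocal algebra. -/
noncomputable def semiNorm (q : ℕ) [Fact q.Prime] : (SemiLoc q K)ˣ →* ℚ_[q]ˣ :=
  Units.map (Algebra.norm ℚ_[q] : SemiLoc q K →* ℚ_[q])

lemma coe_semiNorm (q : ℕ) [Fact q.Prime] (x : (SemiLoc q K)ˣ) :
    ((semiNorm K q x : ℚ_[q]ˣ) : ℚ_[q]) = Algebra.norm ℚ_[q] (x : SemiLoc q K) := rfl

variable (l m : ℕ) [Fact l.Prime]

/-- The component at `q` of the cyclotomic idele symbol. -/
noncomputable def cycSymAt (q : ℕ) [Fact q.Prime] : (SemiLoc q K)ˣ →* (ZMod (l ^ m))ˣ :=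
  (cycSymLoc q l m).comp (semiNorm K q)

/-- The cyclotomic idele symbol modulo `l ^ m` (as a function on the full product; it is a
group homomorphism on `idele K`, see `cycSym`). -/
noncomputable def cycSymPi (y : IdelePi K) : (ZMod (l ^ m))ˣ :=
  ∏ᶠ q : Nat.Primes, cycSymAt K l m (q : ℕ) (y q)

/-- The cyclotomic idele symbol modulo `l ^ m` on ideles (plain function; multiplicativity is
package R2-SYM-P). -/
noncomputable def cycSymFun (y : Idele K) : (ZMod (l ^ m))ˣ := cycSymPi K l m (y : IdelePi K)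

end Global

section Maps

variable (K : Type*) [Field K] [CharZero K]

open Classical in
/-- The idele with component `x` at `q` and `1` elsewhere. -/
noncomputable def singleIdele (q : Nat.Primes) (x : (SemiLoc (q : ℕ) K)ˣ) : Idele K :=
  ⟨Pi.mulSingle q x, by
    rw [mem_idele]
    refine Filter.eventually_cofinite.mpr (Set.Finite.subset (Set.finite_singleton q) ?_)
    intro q' hq'
    by_contra hne
    apply hq'
    rw [Set.mem_singleton_iff] at hne
    rw [Pi.mulSingle_eq_of_ne hne]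
    exact one_mem _⟩

open Classical in
lemma singleIdele_apply_self (q : Nat.Primes) (x : (SemiLoc (q : ℕ) K)ˣ) :
    (singleIdele K q x : IdelePi K) q = x := by
  simp [singleIdele]

open Classical in
lemma singleIdele_apply_of_ne (q : Nat.Primes) (x : (SemiLoc (q : ℕ) K)ˣ) (q' : Nat.Primes)
    (h : q' ≠ q) : (singleIdele K q x : IdelePi K) q' = 1 := by
  simp [singleIdele, Pi.mulSingle_eq_of_ne h]

variable (L : Type*) [Field L] [CharZero L] [Algebra K L]

lemma bcIdele_mem_principalSub {x : Idele K} (hx : x ∈ principalSub K) :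
    bcIdele K L x ∈ principalSub L := by
  obtain ⟨c, hc⟩ := hx
  refine ⟨Units.map (algebraMap K L : K →* L) c, ?_⟩
  funext q
  apply Units.ext
  have h1 : (x : IdelePi K) q = principalPi K c q := by
    have := congrFun hc q
    exact this.symm
  change (1 : ℚ_[(q : ℕ)]) ⊗ₜ[ℚ] (algebraMap K L (c : K)) =
    bc K L (q : ℕ) (((x : IdelePi K) q : (SemiLoc (q : ℕ) K)ˣ) : SemiLoc (q : ℕ) K)
  rw [h1, principalPi_apply_coe, bc_tmul]

/-- The map `C_K → C_L` on idele class groups induced by base change. -/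
noncomputable def ideleClassMap : IdeleClass K →* IdeleClass L :=
  QuotientGroup.map (principalSub K) (principalSub L) (bcIdele K L)
    fun _ hx => bcIdele_mem_principalSub K L hx

@[simp]
lemma ideleClassMap_mk (x : Idele K) :
    ideleClassMap K L (QuotientGroup.mk x : IdeleClass K) = QuotientGroup.mk (bcIdele K L x) :=
  rfl

end Maps

end Fermat.Agent.S55.helper33
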