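import Mathlib
import Fermat.Agent.S55.helper6_G9Abs
import Fermat.Agent.S55.helper6_G9Cyc
import Fermat.Agent.S55.helper33_Rec2Defs

/-!
# `H¹(Gal(L/K), C_L) = 1` for `p`-extensions containing `ζ_p`, by tower induction

Conditional on the cyclic case (`ideleClass_hilbert90`, GLOB G8) and on the inflation datum of
idele class groups (REC2-G1 / GLOB G1), both taken as hypotheses in their interface shapes.
-/

set_option autoImplicit false
set_option linter.style.haveILetI false
set_option linter.unusedSectionVars false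

universe u

open groupCohomology IntermediateField Fermat.Agent.S55.helper73

open scoped TensorProduct

namespace Fermat.Agent.S55.helper6

/-- `H¹(Gal(L/K), C_L) = 1`, as a property of `L/K`. -/
def IdeleClassH1 (K L : Type*) [Field K] [NumberField K] [Field L] [NumberField L]
    [Algebra K L] : Prop :=
  ∀ f : Gal(L/K) → IdeleClass L, IsMulCocycle₁ f → IsMulCoboundary₁ f

/-- Hypothesis (INF): the inflation datum of idele class groups
(`helper33.Interface.inflDatum_ideleClassMap`). -/
def HypInfl : Prop :=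
  ∀ (F E N : Type u) [Field F] [NumberField F] [Field E] [NumberField E] [Field N]
    [NumberField N] [Algebra F E] [Algebra F N] [Algebra E N] [IsScalarTower F E N]
    [IsGalois F E] [IsGalois F N],
    InflDatum (M := IdeleClass N) (B := IdeleClass E)
      (AlgEquiv.restrictNormalHom E : Gal(N/F) →* Gal(E/F)) (helper33.ideleClassMap E N)

/-- Hypothesis (H90): `Ĥ⁻¹(C_L) = 1` for cyclic extensions of degree `p` containing `ζ_p`
(`helper73.Interface.ideleClass_hilbert90`). -/
def HypH90 (p : ℕ) : Prop :=
  ∀ (K L : Type u) [Field K] [NumberField K] [Field L] [NumberField L] [Algebra K L]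
    [IsGalois K L], Module.finrank K L = p → (∃ ζ : K, IsPrimitiveRoot ζ p) →
    ∀ σ : Gal(L/K), σ ≠ 1 → ∀ x : IdeleClass L, normG Gal(L/K) (IdeleClass L) x = 1 →
      ∃ y : IdeleClass L, σ • y / y = x

section Step

variable (K L : Type*) [Field K] [NumberField K] [Field L] [NumberField L] [Algebra K L]
  [IsGalois K L] (E : IntermediateField K L) [IsGalois K E]

/-- The restriction of scalars `Gal(L/E) → Gal(L/K)` is compatible with the actions on `C_L`. -/
theorem restrictScalars_smul_ideleClass (s : Gal(L/E)) (c : IdeleClass L) :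
    (AlgEquiv.restrictScalarsHom K s : Gal(L/K)) • c = s • c := by
  induction c using QuotientGroup.induction_on with
  | H x => rfl

/-- **Induction step for `H¹`.** -/
theorem ideleClassH1_step
    (hinfl : InflDatum (M := IdeleClass L) (B := IdeleClass E)
      (AlgEquiv.restrictNormalHom E : Gal(L/K) →* Gal(E/K)) (helper33.ideleClassMap E L))
    (hEL : IdeleClassH1 E L) (hKE : IdeleClassH1 K E) : IdeleClassH1 K L := by
  intro f hf
  haveI : FiniteDimensional K L := Module.Finite.of_restrictScalars_finite ℚ K L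
  have hf' : IsMulCocycle₁ (fun s : Gal(L/E) => f (AlgEquiv.restrictScalarsHom K s)) := by
    intro s t
    show f (AlgEquiv.restrictScalarsHom K (s * t)) =
      s • f (AlgEquiv.restrictScalarsHom K t) * f (AlgEquiv.restrictScalarsHom K s)
    rw [map_mul, hf, restrictScalars_smul_ideleClass]
  obtain ⟨a, ha⟩ := res_isMulCoboundary₁_of_hom
    (AlgEquiv.restrictScalarsHom K : Gal(L/E) →* Gal(L/K))
    (restrictScalars_smul_ideleClass K L E) f (hEL _ hf')
  rw [range_restrictScalarsHom] at ha
  obtain ⟨c, a', hc, hfc⟩ := hinfl.exists_infl_of_res_isMulCoboundary₁ f hf ⟨a, ha⟩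
  have h1 := hinfl.isMulCoboundary₁_comp (hKE c hc)
  have h2 : IsMulCoboundary₁ (fun g : Gal(L/K) => g • a' / a') := ⟨a', fun _ => rfl⟩
  exact isMulCoboundary₁_congr (fun g => (hfc g).symm) (isMulCoboundary₁_mul h1 h2)

end Step

/-- The cyclic case of degree `p` from (H90). -/
theorem ideleClassH1_of_h90 (p : ℕ) [Fact p.Prime] (h90 : HypH90.{u} p)
    (K L : Type u) [Field K] [NumberField K] [Field L] [NumberField L] [Algebra K L]
    [IsGalois K L] (hdeg : Module.finrank K L = p) (hζ : ∃ ζ : K, IsPrimitiveRoot ζ p) :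
    IdeleClassH1 K L := by
  intro f hf
  haveI : FiniteDimensional K L := Module.Finite.of_restrictScalars_finite ℚ K L
  obtain ⟨σ, hσ1, hσ⟩ := helper84.exists_generator_of_finrank_prime K L p Fact.out hdeg
  exact isMulCoboundary₁_of_cyclic σ hσ (fun x hx => h90 K L hdeg hζ σ hσ1 x hx) hf

/-- **`H¹(Gal(L/K), C_L) = 1` for `p`-extensions of fields containing `ζ_p`.** -/
theorem ideleClassH1_of_zeta (p : ℕ) [Fact p.Prime] (hinfl : HypInfl.{u}) (h90 : HypH90.{u} p) :
    ∀ (n : ℕ) (K L : Type u) [Field K] [NumberField K] [Field L] [NumberField L]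
      [Algebra K L] [IsGalois K L], Module.finrank K L = p ^ n →
      (∃ ζ : K, IsPrimitiveRoot ζ p) → IdeleClassH1 K L := by
  apply pExt_induction_numberField p
    (fun K L _ _ _ _ _ => (∃ ζ : K, IsPrimitiveRoot ζ p) → IdeleClassH1 K L)
  · intro K L _ _ _ _ _ _ h _ f hf
    haveI : FiniteDimensional K L := Module.Finite.of_restrictScalars_finite ℚ K L
    have hcard : Nat.card Gal(L/K) = 1 := by rw [IsGalois.card_aut_eq_finrank, h]
    haveI : Subsingleton Gal(L/K) := (Nat.card_eq_one_iff_unique.mp hcard).1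
    refine ⟨1, fun g => ?_⟩
    rw [Subsingleton.elim g 1, map_one_of_isMulCocycle₁ hf, smul_one, div_self']
  · intro K L _ _ _ _ _ _ E _ hKE hEL hζ
    obtain ⟨ζ, hζ'⟩ := hζ
    have hζE : ∃ ζ : E, IsPrimitiveRoot ζ p :=
      ⟨algebraMap K E ζ, hζ'.map_of_injective (algebraMap K E).injective⟩
    exact ideleClassH1_step K L E (hinfl K E L) (hEL hζE)
      (ideleClassH1_of_h90 p h90 K E hKE ⟨ζ, hζ'⟩)

end Fermat.Agent.S55.helper6
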