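import Mathlib

/-!
# Adjoining `ζ_p` to a Galois extension of number fields of `p`-power degree

For `L/K` Galois of degree `p ^ n`, put `L' = L(ζ_p)` (a cyclotomic extension of `L`) and
`K' = K(ζ_p) ⊆ L'`.  Then `L'/K` is Galois, `[L' : L]` is prime to `p`, `[L' : K'] = p ^ n`,
and restriction `Gal(L'/K') → Gal(L/K)` is bijective.
-/

set_option autoImplicit false
set_option linter.style.haveILetI false
set_option linter.unusedSectionVars false

universe u v

open IntermediateField Polynomial

namespace Fermat.Agent.S55.helper6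

section Generic

variable (p : ℕ) [Fact p.Prime]

/-- a divisor of `p - 1` is prime to `p` -/
theorem coprime_of_dvd_pred {d : ℕ} (h : d ∣ p - 1) : Nat.Coprime d p := by
  have hp : p.Prime := Fact.out
  rw [Nat.coprime_comm, Nat.Prime.coprime_iff_not_dvd hp]
  intro hpd
  have h1 : p ∣ p - 1 := hpd.trans h
  have h2 : 0 < p - 1 := by have := hp.two_le; omega
  have := Nat.le_of_dvd h2 h1
  omega

variable (F E : Type*) [Field F] [Field E] [Algebra F E] [CharZero F]

/-- the degree of a `p`-th cyclotomic extension divides `p - 1` -/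
theorem finrank_dvd_pred_of_isCyclotomicExtension [IsCyclotomicExtension {p} F E] :
    Module.finrank F E ∣ p - 1 := by
  haveI : NeZero p := ⟨(Fact.out : p.Prime).ne_zero⟩
  haveI : IsGalois F E := IsCyclotomicExtension.isGalois {p} F E
  haveI : FiniteDimensional F E := IsCyclotomicExtension.finiteDimensional {p} F E
  have hζ := IsCyclotomicExtension.zeta_spec p F E
  rw [← IsGalois.card_aut_eq_finrank F E]
  have h2 : Nat.card Gal(E/F) ∣ Nat.card (ZMod p)ˣ :=
    Subgroup.card_dvd_of_injective (hζ.autToPow F) (hζ.autToPow_injective F)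
  have h3 : Nat.card (ZMod p)ˣ = p - 1 := by
    rw [Nat.card_eq_fintype_card, ZMod.card_units_eq_totient, Nat.totient_prime Fact.out]
  rwa [h3] at h2

end Generic

section Tower

variable (p : ℕ) [Fact p.Prime] (K : Type*) (L : Type*) (L' : Type*) [Field K] [Field L]
  [Field L'] [Algebra K L] [Algebra L L'] [Algebra K L'] [IsScalarTower K L L'] [CharZero K]
  [FiniteDimensional K L] [IsGalois K L] [IsCyclotomicExtension {p} L L']

include p L in
/-- `L(ζ_p)/K` is finite. -/
theorem finiteDimensional_cyclo : FiniteDimensional K L' := by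
  haveI : FiniteDimensional L L' := IsCyclotomicExtension.finiteDimensional {p} L L'
  exact FiniteDimensional.trans K L L'

include p L in
/-- `L(ζ_p)/K` is Galois. -/
theorem isGalois_cyclo : IsGalois K L' := by
  haveI : NeZero p := ⟨(Fact.out : p.Prime).ne_zero⟩
  haveI : FiniteDimensional K L' := finiteDimensional_cyclo p K L L'
  obtain ⟨f, hfs, hf⟩ := IsGalois.is_separable_splitting_field K L
  haveI := hf
  have hf0 : f ≠ 0 := hfs.ne_zero
  have hg0 : (X ^ p - 1 : K[X]) ≠ 0 := by
    have h := X_pow_sub_C_ne_zero (NeZero.pos p) (1 : K)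
    simpa using h
  haveI : IsSplittingField L L' ((X ^ p - 1 : K[X]).map (algebraMap K L)) := by
    have h := IsCyclotomicExtension.isSplittingField_X_pow_sub_one (n := p) L L'
    simpa using h
  haveI : IsSplittingField K L' (f * (X ^ p - 1)) := IsSplittingField.mul (K := L) L' f (X ^ p - 1) hf0 hg0
  haveI : Normal K L' := Normal.of_isSplittingField (f * (X ^ p - 1))
  exact ⟨⟩

omit [Fact p.Prime] [CharZero K] [FiniteDimensional K L] [IsGalois K L]
  [IsCyclotomicExtension {p} L L'] in
/-- an automorphism of `L'` over `K(ζ)` which restricts to the identity of `L` is the identity,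
if `L' = L(ζ)`. -/
theorem eq_one_of_restrictNormal_eq_one [Normal K L] (ζ : L')
    (htop : Algebra.adjoin L ({ζ} : Set L') = ⊤)
    (g : Gal(L'/(IntermediateField.adjoin K ({ζ} : Set L'))))
    (hg : AlgEquiv.restrictNormalHom L (AlgEquiv.restrictScalarsHom K g : Gal(L'/K)) = 1) :
    g = 1 := by
  have h1 : ∀ x : L, g (algebraMap L L' x) = algebraMap L L' x := by
    intro x
    have h := AlgEquiv.restrictNormal_commutes (AlgEquiv.restrictScalarsHom K g : Gal(L'/K)) L x
    have h' : (AlgEquiv.restrictScalarsHom K g : Gal(L'/K)).restrictNormal L = 1 := hg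
    rw [h'] at h
    exact h.symm
  have h2 : g ζ = ζ :=
    g.commutes (⟨ζ, IntermediateField.mem_adjoin_simple_self K ζ⟩ :
      IntermediateField.adjoin K ({ζ} : Set L'))
  let φ : L' →ₐ[L] L' := { (g : L' →+* L') with commutes' := h1 }
  have hφ : φ = AlgHom.id L L' := by
    refine AlgHom.ext_of_adjoin_eq_top htop ?_
    intro x hx
    rw [Set.mem_singleton_iff] at hx
    subst hx
    exact h2
  ext x
  exact DFunLike.congr_fun hφ x

include p L in
/-- the degree of `K(ζ_p)/K` divides `p - 1` -/
theorem finrank_adjoin_zeta_dvd (ζ : L') (hζ : IsPrimitiveRoot ζ p) :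
    Module.finrank K (IntermediateField.adjoin K ({ζ} : Set L')) ∣ p - 1 := by
  haveI : NeZero p := ⟨(Fact.out : p.Prime).ne_zero⟩
  haveI : FiniteDimensional K L' := finiteDimensional_cyclo p K L L'
  haveI : IsCyclotomicExtension {p} K (IntermediateField.adjoin K ({ζ} : Set L')) :=
    hζ.intermediateField_adjoin_isCyclotomicExtension K
  exact finrank_dvd_pred_of_isCyclotomicExtension p K _

/-- **the tower `K ⊆ K(ζ_p) ⊆ L(ζ_p)`.** -/
theorem finrank_zeta_tower (n : ℕ) (hdeg : Module.finrank K L = p ^ n) (ζ : L')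
    (hζ : IsPrimitiveRoot ζ p) :
    Module.finrank (IntermediateField.adjoin K ({ζ} : Set L')) L' = p ^ n ∧
    Function.Bijective ((AlgEquiv.restrictNormalHom L : Gal(L'/K) →* Gal(L/K)).comp
      (AlgEquiv.restrictScalarsHom K :
        Gal(L'/(IntermediateField.adjoin K ({ζ} : Set L'))) →* Gal(L'/K))) := by
  haveI : NeZero p := ⟨(Fact.out : p.Prime).ne_zero⟩
  have hp : p.Prime := Fact.out
  haveI : FiniteDimensional K L' := finiteDimensional_cyclo p K L L'
  haveI : FiniteDimensional L L' := IsCyclotomicExtension.finiteDimensional {p} L L'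
  haveI : IsGalois K L' := isGalois_cyclo p K L L'
  set K' := IntermediateField.adjoin K ({ζ} : Set L') with hK'
  set e := ((AlgEquiv.restrictNormalHom L : Gal(L'/K) →* Gal(L/K)).comp
      (AlgEquiv.restrictScalarsHom K : Gal(L'/K') →* Gal(L'/K))) with he
  have hinj : Function.Injective e := by
    rw [injective_iff_map_eq_one]
    intro g hg
    exact eq_one_of_restrictNormal_eq_one K L L' ζ
      (IsCyclotomicExtension.adjoin_primitive_root_eq_top hζ) g hg
  -- degrees
  have hd1 : Module.finrank K' L' ∣ p ^ n := by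
    rw [← hdeg, ← IsGalois.card_aut_eq_finrank K L, ← IsGalois.card_aut_eq_finrank K' L']
    exact Subgroup.card_dvd_of_injective e hinj
  have hd2 : Module.finrank K K' ∣ p - 1 := finrank_adjoin_zeta_dvd p K L L' ζ hζ
  have hd3 : Module.finrank K K' * Module.finrank K' L' =
      Module.finrank K L * Module.finrank L L' := by
    rw [Module.finrank_mul_finrank, Module.finrank_mul_finrank]
  have hd4 : p ^ n ∣ Module.finrank K' L' := by
    have h1 : p ^ n ∣ Module.finrank K K' * Module.finrank K' L' := by
      rw [hd3, hdeg]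
      exact dvd_mul_right _ _
    have hc : Nat.Coprime (p ^ n) (Module.finrank K K') :=
      Nat.Coprime.pow_left n (coprime_of_dvd_pred p hd2).symm
    exact hc.dvd_of_dvd_mul_left h1
  have hd5 : Module.finrank K' L' = p ^ n := Nat.dvd_antisymm hd1 hd4
  refine ⟨hd5, ?_⟩
  rw [Nat.bijective_iff_injective_and_card]
  refine ⟨hinj, ?_⟩
  rw [IsGalois.card_aut_eq_finrank K L, IsGalois.card_aut_eq_finrank K' L', hd5, hdeg]

include p in
/-- the kernel of restriction `Gal(L(ζ_p)/K) → Gal(L/K)` has order `[L(ζ_p) : L]`, prime to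
`p` -/
theorem card_ker_restrictNormalHom_cyclo :
    Nat.card (AlgEquiv.restrictNormalHom L : Gal(L'/K) →* Gal(L/K)).ker =
      Module.finrank L L' ∧ Nat.Coprime (Module.finrank L L') p := by
  haveI : FiniteDimensional K L' := finiteDimensional_cyclo p K L L'
  haveI : FiniteDimensional L L' := IsCyclotomicExtension.finiteDimensional {p} L L'
  haveI : IsGalois K L' := isGalois_cyclo p K L L'
  haveI : CharZero L := charZero_of_injective_algebraMap (algebraMap K L).injective
  refine ⟨?_, coprime_of_dvd_pred p (finrank_dvd_pred_of_isCyclotomicExtension p L L')⟩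
  have hsurj : Function.Surjective (AlgEquiv.restrictNormalHom L : Gal(L'/K) →* Gal(L/K)) :=
    AlgEquiv.restrictNormalHom_surjective L'
  have h1 := Subgroup.card_eq_card_quotient_mul_card_subgroup
    (AlgEquiv.restrictNormalHom L : Gal(L'/K) →* Gal(L/K)).ker
  have h2 : Nat.card (Gal(L'/K) ⧸ (AlgEquiv.restrictNormalHom L : Gal(L'/K) →* Gal(L/K)).ker) =
      Nat.card Gal(L/K) :=
    Nat.card_congr (QuotientGroup.quotientKerEquivOfSurjective _ hsurj).toEquiv
  rw [h2, IsGalois.card_aut_eq_finrank, IsGalois.card_aut_eq_finrank,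
    ← Module.finrank_mul_finrank K L L'] at h1
  have hpos : 0 < Module.finrank K L := Module.finrank_pos
  exact (Nat.eq_of_mul_eq_mul_left hpos h1).symm

end Tower

/-- **Adjoining `ζ_p`**: for `L/K` Galois of degree `p ^ n` (number fields) there is a finite
Galois extension `L'/K` containing `L` and an intermediate field `K'` of `L'/K` containing
`ζ_p`, with `[L' : K'] = p ^ n`, `[L' : L]` prime to `p` and
`Gal(L'/K') → Gal(L/K)` bijective. -/
theorem exists_zeta_tower (p n : ℕ) [Fact p.Prime] (K : Type u) (L : Type v) [Field K]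
    [NumberField K] [Field L] [NumberField L] [Algebra K L] [IsGalois K L]
    (hdeg : Module.finrank K L = p ^ n) :
    ∃ (L' : Type v) (_ : Field L') (_ : NumberField L') (_ : Algebra K L') (_ : Algebra L L')
      (_ : IsScalarTower K L L') (_ : IsGalois K L') (_ : IsGalois L L')
      (K' : IntermediateField K L'),
      (∃ ζ : K', IsPrimitiveRoot ζ p) ∧ Module.finrank K' L' = p ^ n ∧
      Nat.Coprime (Module.finrank L L') p ∧
      Nat.card (AlgEquiv.restrictNormalHom L : Gal(L'/K) →* Gal(L/K)).ker =
        Module.finrank L L' ∧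
      Function.Bijective ((AlgEquiv.restrictNormalHom L : Gal(L'/K) →* Gal(L/K)).comp
        (AlgEquiv.restrictScalarsHom K : Gal(L'/K') →* Gal(L'/K))) := by
  haveI : NeZero p := ⟨(Fact.out : p.Prime).ne_zero⟩
  haveI : FiniteDimensional K L := Module.Finite.of_restrictScalars_finite ℚ K L
  haveI hG : IsGalois K (CyclotomicField p L) := isGalois_cyclo p K L (CyclotomicField p L)
  haveI hG' : IsGalois L (CyclotomicField p L) :=
    IsCyclotomicExtension.isGalois {p} L (CyclotomicField p L)
  have hζ := IsCyclotomicExtension.zeta_spec p L (CyclotomicField p L)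
  set ζ := IsCyclotomicExtension.zeta p L (CyclotomicField p L) with hζdef
  obtain ⟨h1, h2⟩ := finrank_zeta_tower p K L (CyclotomicField p L) n hdeg ζ hζ
  obtain ⟨h3, h4⟩ := card_ker_restrictNormalHom_cyclo p K L (CyclotomicField p L)
  refine ⟨CyclotomicField p L, inferInstance, inferInstance, inferInstance, inferInstance,
    inferInstance, hG, hG', IntermediateField.adjoin K ({ζ} : Set (CyclotomicField p L)),
    ⟨⟨ζ, IntermediateField.mem_adjoin_simple_self K ζ⟩, ?_⟩, h1, h4, h3, h2⟩
  exact IsPrimitiveRoot.coe_submonoidClass_iff.mp hζ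

end Fermat.Agent.S55.helper6
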