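import Fermat.Agent.S55.helper73_GlobDefs2
import Fermat.Agent.S55.helper6_InfRes

/-!
# S55 / GLOB-G9 (helper78): definitions for the `p`-extension package

* `H1Trivial G M` : every multiplicative 1-cocycle `G → M` is a coboundary.
* `Z2 G M`, `B2 G M` : multiplicative 2-cocycles / 2-coboundaries as subgroups of `G × G → M`.
* `h2card G M` : the order of `H²(G, M)` as the index `[Z² : B²]` (`0` if infinite).
* `bcClass K L : IdeleClass K →* IdeleClass L` : base change on idele classes.
* `CyclicH90 p` : the statement "`Ĥ^{-1}(G, C_L) = 1` for cyclic extensions of degree `p` of number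
  fields containing the `p`-th roots of unity" (= GLOB interface `ideleClass_hilbert90`), as a Prop.
* `CyclicH90' p` : the same without the hypothesis on roots of unity.
* `CyclicIneq1 p` : the statement of GLOB `ineq1` (interface v2), as a Prop.
-/

set_option autoImplicit false

open scoped TensorProduct NumberField
open groupCohomology

namespace Fermat.Agent.S55.helper78

open Fermat.Agent.S55.helper73

section Abstract

variable (G M : Type*) [Group G] [CommGroup M] [MulDistribMulAction G M]

/-- `H¹(G, M) = 1` in cocycle form. -/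
def H1Trivial : Prop := ∀ f : G → M, IsMulCocycle₁ f → IsMulCoboundary₁ f

/-- The multiplicative 2-cocycles, as a subgroup of `G × G → M`. -/
def Z2 : Subgroup (G × G → M) where
  carrier := {f | IsMulCocycle₂ f}
  one_mem' := fun g h j => by simp
  mul_mem' := by
    intro a b ha hb g h j
    have h1 := ha g h j
    have h2 := hb g h j
    simp only [Pi.mul_apply, smul_mul'] at *
    rw [mul_mul_mul_comm, h1, h2, mul_mul_mul_comm]
  inv_mem' := by
    intro a ha g h j
    have h1 := ha g h j
    simp only [Pi.inv_apply, smul_inv'] at *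
    rw [← mul_inv, ← mul_inv, h1]

/-- The multiplicative 2-coboundaries, as a subgroup of `G × G → M`. -/
def B2 : Subgroup (G × G → M) where
  carrier := {f | IsMulCoboundary₂ f}
  one_mem' := ⟨fun _ => 1, fun g h => by simp⟩
  mul_mem' := by
    rintro a b ⟨x, hx⟩ ⟨y, hy⟩
    refine ⟨fun g => x g * y g, fun g h => ?_⟩
    simp only [Pi.mul_apply, smul_mul']
    rw [← hx g h, ← hy g h, mul_div_mul_comm, mul_mul_mul_comm]
  inv_mem' := by
    rintro a ⟨x, hx⟩
    refine ⟨fun g => (x g)⁻¹, fun g h => ?_⟩
    simp only [Pi.inv_apply, smul_inv']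
    rw [← hx g h, inv_div_inv, mul_inv, inv_div]

variable {G M} in
lemma mem_Z2 {f : G × G → M} : f ∈ Z2 G M ↔ IsMulCocycle₂ f := Iff.rfl

variable {G M} in
lemma mem_B2 {f : G × G → M} : f ∈ B2 G M ↔ IsMulCoboundary₂ f := Iff.rfl

/-- The order of `H²(G, M)`, as the index of the coboundaries in the cocycles (`0` if
infinite). -/
noncomputable def h2card : ℕ := (B2 G M).relIndex (Z2 G M)

end Abstract

section BaseChange

variable (K L : Type*) [Field K] [CharZero K] [Field L] [CharZero L] [Algebra K L]

lemma bcIdele_principal (x : Kˣ) (q : Nat.Primes) :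
    bcUnits K L (q : ℕ) (principalPi K x q) =
      principalPi L (Units.map (algebraMap K L : K →* L) x) q := by
  apply Units.ext
  simp [bcUnits, bc]

lemma bcIdele_mem_principalSub {x : Idele K} (hx : x ∈ principalSub K) :
    bcIdele K L x ∈ principalSub L := by
  obtain ⟨y, hy⟩ := hx
  refine ⟨Units.map (algebraMap K L : K →* L) y, ?_⟩
  funext q
  have h := congrFun hy q
  change principalPi L _ q = bcUnits K L (q : ℕ) ((x : IdelePi K) q)
  rw [← bcIdele_principal]
  exact congrArg _ h

/-- Base change on idele classes `C_K → C_L`. -/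
noncomputable def bcClass : IdeleClass K →* IdeleClass L :=
  QuotientGroup.map (principalSub K) (principalSub L) (bcIdele K L)
    fun _ hx => bcIdele_mem_principalSub K L hx

@[simp]
lemma bcClass_mk (x : Idele K) :
    bcClass K L (QuotientGroup.mk x) = QuotientGroup.mk (bcIdele K L x) := rfl

end BaseChange

section Props

/-- GLOB `ideleClass_hilbert90` as a Prop: `Ĥ^{-1}(G, C_L) = 1` for cyclic `L/K` of odd prime
degree `p` with `ζ_p ∈ K`. -/
def CyclicH90.{u, v} (p : ℕ) : Prop :=
  ∀ (K : Type u) (L : Type v) [Field K] [NumberField K] [Field L] [NumberField L] [Algebra K L]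
    [IsGalois K L], Module.finrank K L = p → (∃ ζ : K, IsPrimitiveRoot ζ p) →
    ∀ σ : Gal(L/K), σ ≠ 1 → ∀ x : IdeleClass L,
      normG Gal(L/K) (IdeleClass L) x = 1 → ∃ y : IdeleClass L, σ • y / y = x

/-- The same without the hypothesis on roots of unity. -/
def CyclicH90'.{u, v} (p : ℕ) : Prop :=
  ∀ (K : Type u) (L : Type v) [Field K] [NumberField K] [Field L] [NumberField L] [Algebra K L]
    [IsGalois K L], Module.finrank K L = p →
    ∀ σ : Gal(L/K), σ ≠ 1 → ∀ x : IdeleClass L,
      normG Gal(L/K) (IdeleClass L) x = 1 → ∃ y : IdeleClass L, σ • y / y = x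

/-- GLOB `ineq1` (interface v2) as a Prop. -/
def CyclicIneq1.{u, v} (p : ℕ) : Prop :=
  ∀ (K : Type u) (L : Type v) [Field K] [NumberField K] [Field L] [NumberField L] [Algebra K L]
    [IsGalois K L], Module.finrank K L = p →
    ∀ σ : Gal(L/K), σ ≠ 1 →
      hMinus (IdeleClass L) σ ≠ 0 ∧
        hZero Gal(L/K) (IdeleClass L) = p * hMinus (IdeleClass L) σ

end Props

end Fermat.Agent.S55.helper78
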