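import Mathlib
import Fermat.Agent.S55.helper6_G9H1
import Fermat.Agent.S55.helper6_G9Descent
import Fermat.Agent.S55.helper6_G9Zeta
import Fermat.Agent.S55.helper69_Rec2G1
import Fermat.Agent.S55.helper78_G9Defs

/-!
# `H¹(Gal(L/K), C_L) = 1` for `p`-extensions of number fields, without roots of unity

The `ζ_p`-case is `ideleClassH1_of_zeta`; the general case follows by descent from
`L(ζ_p)/K(ζ_p)` (`exists_zeta_tower`), the degree `[L(ζ_p) : L]` being prime to `p`.
Conditional only on the cyclic case of degree `p` with `ζ_p ∈ K` (`HypH90 p`).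
-/

set_option autoImplicit false
set_option linter.style.haveILetI false
set_option linter.unusedSectionVars false

universe u v

open groupCohomology IntermediateField Fermat.Agent.S55.helper73

open scoped TensorProduct

namespace Fermat.Agent.S55.helper6

section Abstract

variable {G M : Type*} [Group G] [Fintype G] [CommGroup M] [MulDistribMulAction G M]

/-- For a finite cyclic group, the cocycle attached to an element of norm `1`. -/
theorem isMulCocycle₁_normProd_dlogG (σ : G) (hgen : ∀ τ : G, τ ∈ Subgroup.zpowers σ)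
    (x : M) (hx : ∏ g : G, g • x = 1) :
    IsMulCocycle₁ (fun g : G => helper96.normProd σ x (helper96.dlogG σ g)) := by
  have hfin : 0 < orderOf σ := orderOf_pos σ
  have hN : helper96.normProd σ x (orderOf σ) = 1 := by
    rw [helper96.normProd, ← helper96.prod_univ_eq_prod_range hgen (fun g => g • x)]
    exact hx
  intro g h
  show helper96.normProd σ x (helper96.dlogG σ (g * h)) =
    g • helper96.normProd σ x (helper96.dlogG σ h) * helper96.normProd σ x (helper96.dlogG σ g)
  have h1 := helper96.normProd_eq_mod (φ := σ) x (helper96.dlogG σ g + helper96.dlogG σ h)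
  rw [hN, one_pow, mul_one, ← helper96.dlogG_mul hfin hgen] at h1
  rw [← h1, helper96.normProd_add, helper96.pow_dlogG hfin hgen, mul_comm]

/-- **`H¹ = 1` implies Hilbert 90** for a finite cyclic group. -/
theorem exists_smul_div_of_h1 (σ : G) (hgen : ∀ τ : G, τ ∈ Subgroup.zpowers σ)
    (h1 : ∀ f : G → M, IsMulCocycle₁ f → IsMulCoboundary₁ f)
    (x : M) (hx : ∏ g : G, g • x = 1) : ∃ y : M, σ • y / y = x := by
  have hfin : 0 < orderOf σ := orderOf_pos σ
  obtain ⟨y, hy⟩ := h1 _ (isMulCocycle₁_normProd_dlogG σ hgen x hx)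
  refine ⟨y, ?_⟩
  have h2 := hy σ
  have h3 : helper96.dlogG σ σ = 1 % orderOf σ := by
    have := helper96.dlogG_pow hfin hgen 1
    rwa [pow_one] at this
  rw [h2]
  show helper96.normProd σ x (helper96.dlogG σ σ) = x
  rw [h3]
  rcases Nat.lt_or_ge (orderOf σ) 2 with h | h
  · have h4 : orderOf σ = 1 := by omega
    have hN : helper96.normProd σ x (orderOf σ) = 1 := by
      rw [helper96.normProd, ← helper96.prod_univ_eq_prod_range hgen (fun g => g • x)]
      exact hx
    rw [h4] at hN ⊢
    simp only [helper96.normProd, Finset.range_one, Finset.prod_singleton, pow_zero,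
      one_smul] at hN
    simp [helper96.normProd, hN]
  · rw [Nat.mod_eq_of_lt h]
    simp [helper96.normProd]

end Abstract

section Descent

variable (p : ℕ) [Fact p.Prime]

/-- **Descent of `H¹(C) = 1` from `L(ζ_p)/K(ζ_p)` to `L/K`.** -/
theorem ideleClassH1_of_zetaCase (n : ℕ) (K : Type u) (L : Type v) [Field K] [NumberField K]
    [Field L] [NumberField L] [Algebra K L] [IsGalois K L]
    (hdeg : Module.finrank K L = p ^ n)
    (H : ∀ (K' L' : Type v) [Field K'] [NumberField K'] [Field L'] [NumberField L']
      [Algebra K' L'] [IsGalois K' L'], Module.finrank K' L' = p ^ n →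
      (∃ ζ : K', IsPrimitiveRoot ζ p) → IdeleClassH1 K' L') :
    IdeleClassH1 K L := by
  obtain ⟨L', _, _, _, _, _, hG, hG', K', hζ, hdeg', hcop, hker, hbij⟩ :=
    exists_zeta_tower p n K L hdeg
  have H' : IdeleClassH1 K' L' := H K' L' hdeg' hζ
  intro f hf
  haveI : FiniteDimensional K L := Module.Finite.of_restrictScalars_finite ℚ K L
  haveI : FiniteDimensional K L' := Module.Finite.of_restrictScalars_finite ℚ K L'
  letI : Fintype Gal(L'/K) := Fintype.ofFinite _
  letI : Fintype Gal(L/K) := Fintype.ofFinite _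
  have D := helper69.inflDatum_ideleClassMap K L L'
  refine D.isMulCoboundary₁_of_descent
    (AlgEquiv.restrictScalarsHom K : Gal(L'/K') →* Gal(L'/K))
    (helper69.restrictScalars_smul_ideleClass K K' L') hbij.surjective ?_ hf (H' _ ?_)
  · rw [hker, ← Nat.card_eq_fintype_card, IsGalois.card_aut_eq_finrank, hdeg]
    exact Nat.Coprime.pow_right n hcop
  · intro s t
    show helper33.ideleClassMap L L' (f (AlgEquiv.restrictNormalHom L
        (AlgEquiv.restrictScalarsHom K (s * t)))) =
      s • helper33.ideleClassMap L L' (f (AlgEquiv.restrictNormalHom L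
        (AlgEquiv.restrictScalarsHom K t))) *
      helper33.ideleClassMap L L' (f (AlgEquiv.restrictNormalHom L
        (AlgEquiv.restrictScalarsHom K s)))
    rw [map_mul, map_mul, hf, map_mul, D.equivariant,
      helper69.restrictScalars_smul_ideleClass K K' L']

/-- Hypothesis (INF) holds (GLOB G1 / REC2-G1, `helper69.inflDatum_ideleClassMap`). -/
theorem hypInfl : HypInfl.{u} :=
  fun F E N _ _ _ _ _ _ _ _ _ _ _ _ => helper69.inflDatum_ideleClassMap F E N

/-- **`H¹(Gal(L/K), C_L) = 1` for every Galois extension of number fields of degree `p ^ n`**,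
conditional only on the cyclic case of degree `p` over a field containing `ζ_p`. -/
theorem ideleClassH1_of_hypH90 (h90 : HypH90.{v} p) (n : ℕ) (K : Type u) (L : Type v)
    [Field K] [NumberField K] [Field L] [NumberField L] [Algebra K L] [IsGalois K L]
    (hdeg : Module.finrank K L = p ^ n) : IdeleClassH1 K L :=
  ideleClassH1_of_zetaCase p n K L hdeg
    (fun K' L' _ _ _ _ _ _ hd hζ => ideleClassH1_of_zeta p hypInfl h90 n K' L' hd hζ)

/-- GLOB G9 `ideleClass_H1_trivial` (statement of `helper73_GlobInterface`), conditional only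
on `HypH90 p`. -/
theorem ideleClass_H1_trivial_of_hypH90 (h90 : HypH90.{v} p) (K : Type u) (L : Type v)
    [Field K] [NumberField K] [Field L] [NumberField L] [Algebra K L] [IsGalois K L]
    (n : ℕ) (hdeg : Module.finrank K L = p ^ n)
    (f : Gal(L/K) → IdeleClass L) (hf : IsMulCocycle₁ f) : IsMulCoboundary₁ f :=
  ideleClassH1_of_hypH90 p h90 n K L hdeg f hf

/-- `helper78.H1Trivial` form. -/
theorem h1Trivial_ideleClass_of_cyclicH90 (h90 : helper78.CyclicH90.{v, v} p) (K : Type u)
    (L : Type v) [Field K] [NumberField K] [Field L] [NumberField L] [Algebra K L]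
    [IsGalois K L] (n : ℕ) (hdeg : Module.finrank K L = p ^ n) :
    helper78.H1Trivial Gal(L/K) (IdeleClass L) :=
  ideleClassH1_of_hypH90 p h90 n K L hdeg

end Descent

/-- **GLOB G9-C** (`helper78` interface, verbatim): removal of the roots of unity in the idele
class Hilbert 90 for cyclic extensions of degree `p`. -/
theorem cyclicH90'_of_cyclicH90.{u₁, v₁} (p : ℕ) (hp : p.Prime) (_hp2 : p ≠ 2)
    (h : helper78.CyclicH90.{v₁, v₁} p) : helper78.CyclicH90'.{u₁, v₁} p := by
  haveI : Fact p.Prime := ⟨hp⟩
  intro K L _ _ _ _ _ _ hdeg σ hσ x hx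
  haveI : FiniteDimensional K L := Module.Finite.of_restrictScalars_finite ℚ K L
  have H1 : IdeleClassH1 K L :=
    ideleClassH1_of_hypH90 p h 1 K L (by rw [pow_one]; exact hdeg)
  have hcard : Nat.card Gal(L/K) = p := by rw [IsGalois.card_aut_eq_finrank, hdeg]
  have hgen : ∀ τ : Gal(L/K), τ ∈ Subgroup.zpowers σ := by
    intro τ
    rw [zpowers_eq_top_of_prime_card hcard hσ]
    exact Subgroup.mem_top τ
  exact exists_smul_div_of_h1 σ hgen H1 x hx

end Fermat.Agent.S55.helper6
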