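import Fermat.Agent.S55.helper73_GlobDefs2

/-!
# S55 / GLOB, package G1 (helper73): basic structure of the ideles

* `principalPi_mem_idele`, `principalPi_injective`
* `bc_injective`, `mem_range_bc_iff` (Galois descent), `isIntegral_bc_iff`
* `semiLoc_finite`, `semiLoc_finrank`, `semiLoc_isReduced`
* `exists_bcIdele_of_fixed`, `exists_bcIdele_of_fixed_class` : fixed points of `J_L`, `C_L`
-/

set_option autoImplicit false

open scoped TensorProduct NumberField

namespace Fermat.Agent.S55.helper73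

section Basic

variable (L : Type*) [Field L] [NumberField L]

/-- The image of an integral element of `L` in `ℚ_q ⊗ L` is integral over `ℤ_[q]`. -/
lemma isIntegral_one_tmul_of_isIntegral (q : ℕ) [Fact q.Prime] {a : L} (ha : IsIntegral ℤ a) :
    IsIntegral ℤ_[q] ((1 : ℚ_[q]) ⊗ₜ[ℚ] a : SemiLoc q L) := by
  have h1 : IsIntegral ℤ ((1 : ℚ_[q]) ⊗ₜ[ℚ] a : SemiLoc q L) :=
    ha.map ((Algebra.TensorProduct.includeRight : L →ₐ[ℚ] SemiLoc q L).restrictScalars ℤ)
  exact h1.tower_top

/-- `r ⊗ a` is integral when `r ∈ ℤ_[q]` and `a` is integral. -/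
lemma isIntegral_tmul_of_isIntegral (q : ℕ) [Fact q.Prime] (r : ℤ_[q]) {a : L}
    (ha : IsIntegral ℤ a) : IsIntegral ℤ_[q] (((r : ℚ_[q])) ⊗ₜ[ℚ] a : SemiLoc q L) := by
  have h := (isIntegral_one_tmul_of_isIntegral L q ha).smul r
  have e : r • ((1 : ℚ_[q]) ⊗ₜ[ℚ] a : SemiLoc q L) = ((r : ℚ_[q])) ⊗ₜ[ℚ] a := by
    rw [← algebraMap_smul ℚ_[q] r ((1 : ℚ_[q]) ⊗ₜ[ℚ] a : SemiLoc q L), TensorProduct.smul_tmul']
    simp
  rwa [e] at h

/-- Every element of a number field has a nonzero integer multiple which is integral. -/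
lemma exists_int_smul_isIntegral (y : L) : ∃ m : ℤ, m ≠ 0 ∧ IsIntegral ℤ (m • y) := by
  have halg : IsAlgebraic ℤ y :=
    (IsFractionRing.isAlgebraic_iff ℤ ℚ L).2 (Algebra.IsAlgebraic.isAlgebraic y)
  obtain ⟨m, hm, h⟩ := halg.exists_integral_multiple
  exact ⟨m, hm, h⟩

/-- If `m • y` is integral and `q ∤ m` then `1 ⊗ y` is integral over `ℤ_[q]`. -/
lemma isIntegral_one_tmul_of_not_dvd (q : ℕ) [Fact q.Prime] {y : L} {m : ℤ}
    (hm : IsIntegral ℤ (m • y)) (hq : ¬ (q : ℤ) ∣ m) :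
    IsIntegral ℤ_[q] ((1 : ℚ_[q]) ⊗ₜ[ℚ] y : SemiLoc q L) := by
  have hm0 : m ≠ 0 := fun h => hq (h ▸ dvd_zero _)
  have hnorm : ‖(m : ℚ_[q])‖ = 1 := by
    have h1 : ‖(m : ℚ_[q])‖ ≤ 1 := Padic.norm_int_le_one m
    rcases lt_or_eq_of_le h1 with h | h
    · exact absurd (Padic.norm_intCast_lt_one_iff.1 h) hq
    · exact h
  have hinv : ‖((m : ℚ_[q]))⁻¹‖ ≤ 1 := by rw [norm_inv, hnorm, inv_one]
  have key := isIntegral_tmul_of_isIntegral L q ⟨((m : ℚ_[q]))⁻¹, hinv⟩ hm
  have e : (((⟨((m : ℚ_[q]))⁻¹, hinv⟩ : ℤ_[q]) : ℚ_[q])) ⊗ₜ[ℚ] (m • y) =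
      ((1 : ℚ_[q]) ⊗ₜ[ℚ] y : SemiLoc q L) := by
    have hmq : ((m : ℚ_[q])) ≠ 0 := by exact_mod_cast hm0
    have : (m • y : L) = (m : ℚ) • y := by
      rw [Int.cast_smul_eq_zsmul]
    rw [this, TensorProduct.tmul_smul, TensorProduct.smul_tmul']
    congr 1
    change (m : ℚ) • ((m : ℚ_[q]))⁻¹ = 1
    rw [Algebra.smul_def]
    simp [hmq]
  rwa [e] at key

/-- For every `y : L`, the element `1 ⊗ y` of `ℚ_q ⊗ L` is integral for almost all `q`. -/
lemma eventually_isIntegral_one_tmul (y : L) :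
    ∀ᶠ q : Nat.Primes in Filter.cofinite,
      IsIntegral ℤ_[(q : ℕ)] ((1 : ℚ_[(q : ℕ)]) ⊗ₜ[ℚ] y : SemiLoc (q : ℕ) L) := by
  obtain ⟨m, hm0, hm⟩ := exists_int_smul_isIntegral L y
  rw [Filter.eventually_cofinite]
  have hfin : {q : Nat.Primes | ((q : ℕ) : ℤ) ∣ m}.Finite := by
    have : {q : Nat.Primes | ((q : ℕ) : ℤ) ∣ m} ⊆
        (fun q : Nat.Primes => (q : ℕ)) ⁻¹' {n : ℕ | n ≤ m.natAbs} := by
      intro q hq
      have h1 : (q : ℕ) ∣ m.natAbs := Int.natCast_dvd.1 hq
      exact Nat.le_of_dvd (Int.natAbs_pos.2 hm0) h1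
    exact ((Set.finite_le_nat _).preimage
      (fun a _ b _ h => Subtype.ext h)).subset this
  refine hfin.subset ?_
  intro q hq
  by_contra hdvd
  exact hq (isIntegral_one_tmul_of_not_dvd L (q : ℕ) hm hdvd)

/-- IDL-1: principal ideles are ideles. -/
theorem principalPi_mem_idele (x : Lˣ) : principalPi L x ∈ idele L := by
  rw [mem_idele]
  have h1 := eventually_isIntegral_one_tmul L (x : L)
  have h2 := eventually_isIntegral_one_tmul L ((x⁻¹ : Lˣ) : L)
  refine (h1.and h2).mono ?_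
  rintro q ⟨ha, hb⟩
  refine ⟨?_, ?_⟩
  · rw [principalPi_apply_coe]
    exact ha
  · have : (principalPi L x q)⁻¹ = principalPi L x⁻¹ q := by
      rw [map_inv]; rfl
    rw [this, principalPi_apply_coe]
    exact hb

/-- IDL-1: `Lˣ → ∏_q (ℚ_q ⊗ L)ˣ` is injective. -/
theorem principalPi_injective : Function.Injective (principalPi L) := by
  intro x y h
  have h2 := congrArg (fun z : IdelePi L => ((z ⟨2, Nat.prime_two⟩ :
    (SemiLoc (2 : ℕ) L)ˣ) : SemiLoc (2 : ℕ) L)) h
  have hinj : Function.Injective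
      (Algebra.TensorProduct.includeRight : L →ₐ[ℚ] SemiLoc (2 : ℕ) L) :=
    Algebra.TensorProduct.includeRight_injective (algebraMap ℚ ℚ_[2]).injective
  exact Units.ext (hinj h2)

/-- The principal idele of `x`, as an element of `Idele L`. -/
noncomputable def principalIdele : Lˣ →* Idele L :=
  (principalPi L).codRestrict (idele L) (principalPi_mem_idele L)

@[simp]
lemma coe_principalIdele (x : Lˣ) : (principalIdele L x : IdelePi L) = principalPi L x := rfl

lemma principalIdele_injective : Function.Injective (principalIdele L) := by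
  intro x y h
  exact principalPi_injective L (congrArg Subtype.val h)

lemma mem_principalSub_iff {x : Idele L} :
    x ∈ principalSub L ↔ ∃ y : Lˣ, principalIdele L y = x := by
  constructor
  · rintro ⟨y, hy⟩
    exact ⟨y, Subtype.ext hy⟩
  · rintro ⟨y, rfl⟩
    exact ⟨y, rfl⟩

end Basic



section Descent

variable (K L : Type*) [Field K] [NumberField K] [Field L] [NumberField L] [Algebra K L]

/-- IDL-2: base change `ℚ_q ⊗ K → ℚ_q ⊗ L` is injective. -/
theorem bc_injective (q : ℕ) [Fact q.Prime] : Function.Injective (bc K L q) := by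
  have h : Function.Injective
      (LinearMap.lTensor ℚ_[q] ((algebraMap K L).toRatAlgHom.toLinearMap)) :=
    Module.Flat.lTensor_preserves_injective_linearMap _ (algebraMap K L).injective
  intro x y hxy
  apply h
  have e : ∀ z : SemiLoc q K,
      LinearMap.lTensor ℚ_[q] ((algebraMap K L).toRatAlgHom.toLinearMap) z = bc K L q z := by
    intro z
    induction z using TensorProduct.induction_on with
    | zero => simp
    | tmul a b => simp [bc]
    | add x y hx hy => simp only [map_add, hx, hy]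
  rw [e, e, hxy]

/-- IDL-2: integrality descends along base change. -/
theorem isIntegral_bc_iff (q : ℕ) [Fact q.Prime] (x : SemiLoc q K) :
    IsIntegral ℤ_[q] (bc K L q x) ↔ IsIntegral ℤ_[q] x :=
  isIntegral_algHom_iff ((bc K L q).restrictScalars ℤ_[q]) (bc_injective K L q)

lemma bcUnits_injective (q : ℕ) [Fact q.Prime] : Function.Injective (bcUnits K L q) := by
  intro x y h
  apply Units.ext
  apply bc_injective K L q
  exact congrArg Units.val h

lemma bcUnits_mem_intUnits_iff (q : ℕ) [Fact q.Prime] (x : (SemiLoc q K)ˣ) :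
    bcUnits K L q x ∈ intUnits q L ↔ x ∈ intUnits q K := by
  rw [mem_intUnits, mem_intUnits]
  have h1 : ((bcUnits K L q x : (SemiLoc q L)ˣ) : SemiLoc q L) = bc K L q (x : SemiLoc q K) := rfl
  have h2 : (((bcUnits K L q x)⁻¹ : (SemiLoc q L)ˣ) : SemiLoc q L) =
      bc K L q ((x⁻¹ : (SemiLoc q K)ˣ) : SemiLoc q K) := by
    rw [← map_inv]; rfl
  rw [h1, h2, isIntegral_bc_iff, isIntegral_bc_iff]

lemma smul_bc (q : ℕ) [Fact q.Prime] (σ : L ≃ₐ[K] L) (x : SemiLoc q K) :
    σ • bc K L q x = bc K L q x := by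
  induction x using TensorProduct.induction_on with
  | zero => simp
  | tmul a b => simp [bc]
  | add x y hx hy => rw [map_add, smul_add, hx, hy]

/-- IDL-3: the semilocal algebra is finite over `ℚ_[q]`. -/
theorem semiLoc_finite (q : ℕ) [Fact q.Prime] : Module.Finite ℚ_[q] (SemiLoc q L) :=
  inferInstance

/-- IDL-3: its dimension is `[L : ℚ]`. -/
theorem semiLoc_finrank (q : ℕ) [Fact q.Prime] :
    Module.finrank ℚ_[q] (SemiLoc q L) = Module.finrank ℚ L :=
  Module.finrank_baseChange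

/-- IDL-3: the semilocal algebra is reduced. -/
theorem semiLoc_isReduced (q : ℕ) [Fact q.Prime] : IsReduced (SemiLoc q L) := by
  have : Algebra.FormallyUnramified ℚ L := Algebra.FormallyUnramified.of_isSeparable ℚ L
  have : Algebra.FormallyUnramified ℚ_[q] (SemiLoc q L) :=
    Algebra.FormallyUnramified.base_change ℚ_[q]
  exact Algebra.FormallyUnramified.isReduced_of_field ℚ_[q] (SemiLoc q L)

section Galois

variable [IsGalois K L]

/-- The trace `ℚ_q ⊗ L → ℚ_q ⊗ K` (as a `ℚ`-linear map). -/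
noncomputable def semiLocTrace (q : ℕ) [Fact q.Prime] : SemiLoc q L →ₗ[ℚ] SemiLoc q K :=
  LinearMap.lTensor ℚ_[q] ((Algebra.trace K L).restrictScalars ℚ)

lemma sum_smul_eq_bc_trace (q : ℕ) [Fact q.Prime] (x : SemiLoc q L) :
    ∑ σ : L ≃ₐ[K] L, σ • x = bc K L q (semiLocTrace K L q x) := by
  induction x using TensorProduct.induction_on with
  | zero => simp
  | tmul a b =>
    simp only [smul_tmul', semiLocTrace, LinearMap.lTensor_tmul, LinearMap.coe_restrictScalars,
      bc_tmul]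
    rw [trace_eq_sum_automorphisms, TensorProduct.tmul_sum]
  | add x y hx hy =>
    simp only [smul_add, Finset.sum_add_distrib, map_add, hx, hy]

/-- IDL-2: Galois descent for the semilocal algebra. -/
theorem mem_range_bc_iff (q : ℕ) [Fact q.Prime] (x : SemiLoc q L) :
    x ∈ (bc K L q).range ↔ ∀ σ : L ≃ₐ[K] L, σ • x = x := by
  constructor
  · intro hx σ
    obtain ⟨y, rfl⟩ := (AlgHom.mem_range _).1 hx
    exact smul_bc K L q σ y
  · intro hx
    have h := sum_smul_eq_bc_trace K L q x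
    simp only [hx, Finset.sum_const, Finset.card_univ] at h
    have hn : (Fintype.card (L ≃ₐ[K] L) : ℚ_[q]) ≠ 0 := by
      exact_mod_cast Fintype.card_ne_zero
    refine (AlgHom.mem_range _).2
      ⟨((Fintype.card (L ≃ₐ[K] L) : ℚ_[q]))⁻¹ • semiLocTrace K L q x, ?_⟩
    rw [map_smul, ← h, ← Nat.cast_smul_eq_nsmul ℚ_[q], smul_smul,
      inv_mul_cancel₀ hn, one_smul]

/-- A fixed unit of `ℚ_q ⊗ L` comes from a unit of `ℚ_q ⊗ K`. -/
theorem exists_bcUnits_of_fixed (q : ℕ) [Fact q.Prime] (x : (SemiLoc q L)ˣ)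
    (hx : ∀ σ : L ≃ₐ[K] L, σ • x = x) : ∃ y : (SemiLoc q K)ˣ, bcUnits K L q y = x := by
  have h1 : ∀ σ : L ≃ₐ[K] L, σ • (x : SemiLoc q L) = x := fun σ =>
    congrArg Units.val (hx σ)
  have h2 : ∀ σ : L ≃ₐ[K] L, σ • ((x⁻¹ : (SemiLoc q L)ˣ) : SemiLoc q L) =
      ((x⁻¹ : (SemiLoc q L)ˣ) : SemiLoc q L) := fun σ => by
    have := congrArg (fun u : (SemiLoc q L)ˣ => ((u⁻¹ : (SemiLoc q L)ˣ) : SemiLoc q L)) (hx σ)
    exact this
  obtain ⟨y, hy⟩ := (AlgHom.mem_range _).1 ((mem_range_bc_iff K L q _).2 h1)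
  obtain ⟨y', hy'⟩ := (AlgHom.mem_range _).1 ((mem_range_bc_iff K L q _).2 h2)
  have hyy : y * y' = 1 := by
    apply bc_injective K L q
    rw [map_mul, hy, hy', map_one, Units.mul_inv]
  have hyy' : y' * y = 1 := by rw [mul_comm]; exact hyy
  exact ⟨⟨y, y', hyy, hyy'⟩, Units.ext hy⟩

/-- Fixed ideles of `L` come from ideles of `K`. -/
theorem exists_bcIdele_of_fixed (x : Idele L) (hx : ∀ σ : L ≃ₐ[K] L, σ • x = x) :
    ∃ y : Idele K, bcIdele K L y = x := by
  have hq : ∀ q : Nat.Primes, ∃ y : (SemiLoc (q : ℕ) K)ˣ,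
      bcUnits K L (q : ℕ) y = (x : IdelePi L) q := by
    intro q
    apply exists_bcUnits_of_fixed
    intro σ
    have := congrArg (fun z : Idele L => (z : IdelePi L) q) (hx σ)
    exact this
  choose y hy using hq
  have hmem : y ∈ idele K := by
    rw [mem_idele]
    refine ((mem_idele L).1 x.2).mono ?_
    intro q hq'
    rw [← hy q] at hq'
    exact (bcUnits_mem_intUnits_iff K L (q : ℕ) (y q)).1 hq'
  refine ⟨⟨y, hmem⟩, ?_⟩
  apply Subtype.ext
  funext q
  exact hy q

omit [IsGalois K L] in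
lemma bcIdele_principalIdele (x : Kˣ) :
    bcIdele K L (principalIdele K x) =
      principalIdele L (Units.map (algebraMap K L : K →* L) x) := by
  apply Subtype.ext
  funext q
  apply Units.ext
  change bc K L (q : ℕ) (1 ⊗ₜ[ℚ] (x : K)) = 1 ⊗ₜ[ℚ] (algebraMap K L (x : K))
  rw [bc_tmul]

omit [NumberField K] [IsGalois K L] in
lemma smul_principalIdele (σ : L ≃ₐ[K] L) (x : Lˣ) :
    σ • principalIdele L x = principalIdele L (σ • x) :=
  Subtype.ext (smul_principalPi L K σ x)

/-- Fixed idele classes of `L` are represented by ideles of `K` (uses Hilbert 90). -/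
theorem exists_bcIdele_of_fixed_class (c : IdeleClass L)
    (hc : ∀ σ : L ≃ₐ[K] L, σ • c = c) :
    ∃ y : Idele K, (QuotientGroup.mk (bcIdele K L y) : IdeleClass L) = c := by
  induction c using QuotientGroup.induction_on with
  | H x =>
    -- the cocycle `σ ↦ σ x / x`
    have hσ : ∀ σ : L ≃ₐ[K] L, ∃ z : Lˣ, principalIdele L z = σ • x / x := by
      intro σ
      have h := hc σ
      rw [smul_mk] at h
      have h' : (σ • x / x) ∈ principalSub L := by
        have := QuotientGroup.eq.1 h.symm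
        rw [div_eq_mul_inv, mul_comm]
        exact this
      exact (mem_principalSub_iff L).1 h'
    choose z hz using hσ
    have hcoc : groupCohomology.IsMulCocycle₁ z := by
      intro g h
      apply principalIdele_injective L
      rw [hz, map_mul, ← smul_principalIdele, hz, hz, mul_smul, smul_div']
      rw [div_mul_div_cancel]
    obtain ⟨w, hw⟩ := groupCohomology.isMulCoboundary₁_of_isMulCocycle₁_of_aut_to_units z hcoc
    -- `x / w` is fixed
    have hfix : ∀ σ : L ≃ₐ[K] L, σ • (x / principalIdele L w) = x / principalIdele L w := by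
      intro σ
      rw [smul_div', smul_principalIdele, div_eq_div_iff_div_eq_div, ← hz σ, ← map_div, hw σ]
    obtain ⟨y, hy⟩ := exists_bcIdele_of_fixed K L _ hfix
    refine ⟨y, ?_⟩
    rw [hy]
    apply QuotientGroup.eq.2
    rw [div_eq_mul_inv, mul_inv_rev, inv_inv, mul_assoc, inv_mul_cancel, mul_one]
    exact (mem_principalSub_iff L).2 ⟨w, rfl⟩

end Galois

end Descent

end Fermat.Agent.S55.helper73
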