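import Mathlib
import Fermat.Agent.S55.helper73_GlobDefs

/-!
# S55 / GLOB-LAT (helper31): units of a filtered ring with a cohomologically trivial lattice

Abstract setting (`FiltRing`): a commutative ring `A` with an action of a finite cyclic group
`G = ⟨φ⟩`, a multiplicative `G`-stable filtration `B j` (`j : ℤ`) and a `G`-stable "lattice"
filtration `M j` with `B (j + c) ≤ M j ≤ B j`, such that `A` is separated and complete and the
lattices `M j` are cohomologically trivial `G`-modules (fixed elements are traces, elements of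
small trace are of the form `φ y - y` up to a small error).

Then `Vk 0 = {u : Aˣ | u - 1 ∈ M (c + 1)}` is a `G`-stable subgroup of `Aˣ` all of whose fixed
elements are norms (`fixed_is_norm`) and all of whose elements of norm one are of the form
`φ w / w` (`norm_one_is_delta`); it has finite index in every group of units that are bounded
together with their inverses if `B 0` is totally bounded (`relIndex_Vk_ne_zero`).
-/

set_option autoImplicit false
set_option linter.unusedSectionVars false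

namespace Fermat.Agent.S55.helper31

open Finset Fermat.Agent.S55.helper73

/-! ### Successive approximation in an abstract commutative group -/

section glift

variable {U : Type*} [CommGroup U] (F : U →* U) (P : U → Prop) (Vk : ℕ → Subgroup U)
  (hstep : ∀ k (u : U), u ∈ Vk k → P u → ∃ w ∈ Vk k, u / F w ∈ Vk (k + 1) ∧ P (u / F w))

open Classical in
/-- The correction chosen at step `k`. -/
noncomputable def gLiftNext (k : ℕ) (u : U) : U :=
  if h : u ∈ Vk k ∧ P u then (hstep k u h.1 h.2).choose else 1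

/-- The sequence of remainders. -/
noncomputable def gLiftU (u : U) : ℕ → U
  | 0 => u
  | k + 1 => gLiftU u k / F (gLiftNext F P Vk hstep k (gLiftU u k))

/-- The sequence of corrections. -/
noncomputable def gLiftW (u : U) (k : ℕ) : U :=
  gLiftNext F P Vk hstep k (gLiftU F P Vk hstep u k)

theorem gLiftU_succ (u : U) (k : ℕ) :
    gLiftU F P Vk hstep u (k + 1) = gLiftU F P Vk hstep u k / F (gLiftW F P Vk hstep u k) := rfl

theorem gLiftU_mem (u : U) (hu : u ∈ Vk 0) (hP : P u) (k : ℕ) :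
    gLiftU F P Vk hstep u k ∈ Vk k ∧ P (gLiftU F P Vk hstep u k) := by
  induction k with
  | zero => exact ⟨hu, hP⟩
  | succ k ih =>
    rw [gLiftU_succ, gLiftW, gLiftNext, dif_pos ih]
    exact (hstep k _ ih.1 ih.2).choose_spec.2

theorem gLiftW_mem (u : U) (hu : u ∈ Vk 0) (hP : P u) (k : ℕ) :
    gLiftW F P Vk hstep u k ∈ Vk k := by
  have ih := gLiftU_mem F P Vk hstep u hu hP k
  rw [gLiftW, gLiftNext, dif_pos ih]
  exact (hstep k _ ih.1 ih.2).choose_spec.1

/-- Partial products of the corrections. -/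
noncomputable def gLiftProd (u : U) (k : ℕ) : U := ∏ i ∈ Finset.range k, gLiftW F P Vk hstep u i

theorem gLiftProd_succ (u : U) (k : ℕ) :
    gLiftProd F P Vk hstep u (k + 1)
      = gLiftProd F P Vk hstep u k * gLiftW F P Vk hstep u k := by
  simp [gLiftProd, Finset.prod_range_succ]

theorem map_gLiftProd_mul (u : U) (k : ℕ) :
    F (gLiftProd F P Vk hstep u k) * gLiftU F P Vk hstep u k = u := by
  induction k with
  | zero => simp [gLiftProd, gLiftU]
  | succ k ih =>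
    rw [gLiftProd_succ, gLiftU_succ, map_mul]
    rw [show F (gLiftProd F P Vk hstep u k) * F (gLiftW F P Vk hstep u k) *
        (gLiftU F P Vk hstep u k / F (gLiftW F P Vk hstep u k))
        = F (gLiftProd F P Vk hstep u k) * gLiftU F P Vk hstep u k by
      rw [mul_assoc, mul_div_cancel]]
    exact ih

theorem gLiftProd_mem (hmono : ∀ k, Vk (k + 1) ≤ Vk k) (u : U) (hu : u ∈ Vk 0) (hP : P u)
    (k : ℕ) : gLiftProd F P Vk hstep u k ∈ Vk 0 := by
  have hanti : ∀ i, Vk i ≤ Vk 0 := by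
    intro i
    induction i with
    | zero => exact le_rfl
    | succ i ih => exact (hmono i).trans ih
  exact Subgroup.prod_mem _ fun i _ => hanti i (gLiftW_mem F P Vk hstep u hu hP i)

end glift

/-! ### Filtered rings -/

/-- The data of a filtered ring with a cohomologically trivial lattice. -/
structure FiltRing (G A : Type*) [Group G] [Fintype G] [CommRing A] [MulSemiringAction G A]
    [MulDistribMulAction G Aˣ] where
  /-- the multiplicative filtration -/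
  B : ℤ → AddSubgroup A
  /-- the lattice filtration -/
  M : ℤ → AddSubgroup A
  /-- the conductor of the lattice -/
  c : ℤ
  hc0 : 0 ≤ c
  B_anti : ∀ {i j : ℤ}, i ≤ j → B j ≤ B i
  M_anti : ∀ {i j : ℤ}, i ≤ j → M j ≤ M i
  one_mem : (1 : A) ∈ B 0
  mul_mem : ∀ {i j : ℤ} {x y : A}, x ∈ B i → y ∈ B j → x * y ∈ B (i + j)
  M_le_B : ∀ j : ℤ, M j ≤ B j
  B_le_M : ∀ j : ℤ, B (j + c) ≤ M j
  smul_B : ∀ (σ : G) {j : ℤ} {x : A}, x ∈ B j → σ • x ∈ B j
  smul_M : ∀ (σ : G) {j : ℤ} {x : A}, x ∈ M j → σ • x ∈ M j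
  coe_smul : ∀ (σ : G) (u : Aˣ), ((σ • u : Aˣ) : A) = σ • (u : A)
  sep : ∀ x : A, (∀ k : ℕ, x ∈ B k) → x = 0
  complete : ∀ x : ℕ → A, (∀ k : ℕ, x (k + 1) - x k ∈ M k) → ∃ y : A, ∀ k : ℕ, y - x k ∈ M k
  fixed_trace : ∀ {j : ℤ} {x : A}, x ∈ M j → (∀ σ : G, σ • x = x) →
    ∃ y ∈ M j, ∑ σ : G, σ • y = x
  /-- the generator of the group -/
  φ : G
  hφ : ∀ σ : G, σ ∈ Subgroup.zpowers φ
  decomp : ∀ {j k : ℤ} {x : A}, x ∈ M j → ∑ σ : G, σ • x ∈ M k →
    ∃ y ∈ M j, x - (φ • y - y) ∈ M k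

namespace FiltRing

variable {G A : Type*} [Group G] [Fintype G] [CommRing A] [MulSemiringAction G A]
  [MulDistribMulAction G Aˣ] (D : FiltRing G A)

theorem mul_mem_of_le {i j k : ℤ} {x y : A} (hx : x ∈ D.B i) (hy : y ∈ D.B j) (h : k ≤ i + j) :
    x * y ∈ D.B k :=
  D.B_anti h (D.mul_mem hx hy)

theorem B_le_M_of_le {i j : ℤ} (h : j + D.c ≤ i) : D.B i ≤ D.M j :=
  (D.B_anti h).trans (D.B_le_M j)

theorem prod_mem_B_zero {ι : Type*} {s : Finset ι} {f : ι → A}
    (h : ∀ i ∈ s, f i ∈ D.B 0) : ∏ i ∈ s, f i ∈ D.B 0 := by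
  classical
  induction s using Finset.induction_on with
  | empty => simpa using D.one_mem
  | insert a s ha ih =>
    rw [Finset.prod_insert ha]
    have := D.mul_mem (h a (Finset.mem_insert_self a s))
      (ih fun i hi => h i (Finset.mem_insert_of_mem hi))
    simpa using this

/-- `∏ (1 + z i) - 1 - ∑ z i ∈ B (2 j)` when all `z i ∈ B j`, `j ≥ 0`. -/
theorem prod_one_add_sub {ι : Type*} (s : Finset ι) (z : ι → A) {j : ℤ} (hj : 0 ≤ j)
    (hz : ∀ i ∈ s, z i ∈ D.B j) :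
    (∏ i ∈ s, (1 + z i) - 1 - ∑ i ∈ s, z i ∈ D.B (j + j)) ∧
      (∏ i ∈ s, (1 + z i) - 1 ∈ D.B j) := by
  classical
  induction s using Finset.induction_on with
  | empty => simp
  | insert a s ha ih =>
    obtain ⟨h1, h2⟩ := ih fun i hi => hz i (Finset.mem_insert_of_mem hi)
    have hza := hz a (Finset.mem_insert_self a s)
    rw [Finset.prod_insert ha, Finset.sum_insert ha]
    have e1 : (1 + z a) * ∏ i ∈ s, (1 + z i) - 1 - (z a + ∑ i ∈ s, z i)
        = (∏ i ∈ s, (1 + z i) - 1 - ∑ i ∈ s, z i) + z a * (∏ i ∈ s, (1 + z i) - 1) := by ring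
    have e2 : (1 + z a) * ∏ i ∈ s, (1 + z i) - 1
        = ((1 + z a) * ∏ i ∈ s, (1 + z i) - 1 - (z a + ∑ i ∈ s, z i))
          + (z a + ∑ i ∈ s, z i) := by ring
    have h3 : (1 + z a) * ∏ i ∈ s, (1 + z i) - 1 - (z a + ∑ i ∈ s, z i) ∈ D.B (j + j) := by
      rw [e1]
      exact (D.B (j + j)).add_mem h1 (D.mul_mem hza h2)
    refine ⟨h3, ?_⟩
    rw [e2]
    refine (D.B j).add_mem (D.B_anti (by omega) h3) ?_
    exact (D.B j).add_mem hza
      (AddSubgroup.sum_mem _ fun i hi => hz i (Finset.mem_insert_of_mem hi))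

/-- `∏ a i - ∏ b i ∈ B k` if all `a i - b i ∈ B k` and all `a i, b i ∈ B 0`. -/
theorem prod_sub_prod_mem {ι : Type*} (s : Finset ι) (a b : ι → A) {k : ℤ}
    (ha : ∀ i ∈ s, a i ∈ D.B 0) (hb : ∀ i ∈ s, b i ∈ D.B 0)
    (hab : ∀ i ∈ s, a i - b i ∈ D.B k) :
    ∏ i ∈ s, a i - ∏ i ∈ s, b i ∈ D.B k := by
  classical
  induction s using Finset.induction_on with
  | empty => simp
  | insert c s hc ih =>
    rw [Finset.prod_insert hc, Finset.prod_insert hc]
    have e : a c * ∏ i ∈ s, a i - b c * ∏ i ∈ s, b i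
        = (a c - b c) * ∏ i ∈ s, a i + b c * (∏ i ∈ s, a i - ∏ i ∈ s, b i) := by ring
    rw [e]
    refine (D.B k).add_mem ?_ ?_
    · have := D.mul_mem (hab c (Finset.mem_insert_self c s))
        (D.prod_mem_B_zero fun i hi => ha i (Finset.mem_insert_of_mem hi))
      simpa using this
    · have := D.mul_mem (hb c (Finset.mem_insert_self c s))
        (ih (fun i hi => ha i (Finset.mem_insert_of_mem hi))
          (fun i hi => hb i (Finset.mem_insert_of_mem hi))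
          (fun i hi => hab i (Finset.mem_insert_of_mem hi)))
      simpa using this

/-- **Geometric series**: `1 + y` is a unit for `y ∈ M j`, `j ≥ c + 1`, with inverse in
`1 + M j`. -/
theorem exists_unit_one_add {j : ℤ} (hj : D.c + 1 ≤ j) {y : A} (hy : y ∈ D.M j) :
    ∃ w : Aˣ, (w : A) = 1 + y ∧ ((w⁻¹ : Aˣ) : A) - 1 ∈ D.M j := by
  have hc0 := D.hc0
  have hj0 : 0 ≤ j := by omega
  set t : A := -y with ht
  have htM : t ∈ D.M j := (D.M j).neg_mem hy
  have hpow : ∀ k : ℕ, t ^ (k + 1) ∈ D.M (j + k) := by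
    intro k
    induction k with
    | zero => simpa using htM
    | succ k ih =>
      rw [pow_succ]
      have h1 := D.mul_mem (D.M_le_B _ ih) (D.M_le_B _ htM)
      refine D.B_le_M_of_le ?_ h1
      push_cast
      omega
  set S : ℕ → A := fun k => ∑ i ∈ range k, t ^ (i + 1) with hS
  have hSsucc : ∀ k, S (k + 1) = S k + t ^ (k + 1) := by
    intro k
    simp only [hS, Finset.sum_range_succ]
  have hSmem : ∀ k, S k ∈ D.M j := fun k =>
    AddSubgroup.sum_mem _ fun i _ => D.M_anti (by omega) (hpow i)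
  have hcauchy : ∀ k : ℕ, S (k + 1) - S k ∈ D.M k := by
    intro k
    rw [hSsucc, add_sub_cancel_left]
    exact D.M_anti (by omega) (hpow k)
  obtain ⟨z, hz⟩ := D.complete S hcauchy
  have hzM : z ∈ D.M j := by
    have h1 := hz j.toNat
    have h2 : z = (z - S j.toNat) + S j.toNat := by ring
    rw [h2]
    exact (D.M j).add_mem (D.M_anti (Int.self_le_toNat j) h1) (hSmem _)
  have hgeom : ∀ k : ℕ, (1 - t) * (1 + S k) = 1 - t ^ (k + 1) := by
    intro k
    induction k with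
    | zero => simp [hS]
    | succ k ih =>
      rw [hSsucc]
      have e : (1 - t) * (1 + (S k + t ^ (k + 1)))
          = (1 - t) * (1 + S k) + (1 - t) * t ^ (k + 1) := by ring
      rw [e, ih]
      ring
  have h1t : 1 - t ∈ D.B 0 := (D.B 0).sub_mem D.one_mem (D.B_anti hj0 (D.M_le_B _ htM))
  have hE : (1 + y) * (1 + z) - 1 = 0 := by
    apply D.sep
    intro k
    have e : (1 + y) * (1 + z) - 1 = (1 - t) * (z - S k) - t ^ (k + 1) := by
      have h3 := hgeom k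
      have hy' : 1 + y = 1 - t := by rw [ht]; ring
      rw [hy']
      linear_combination h3
    rw [e]
    refine (D.B k).sub_mem ?_ ?_
    · have := D.mul_mem h1t (D.M_le_B _ (hz k))
      simpa using this
    · exact D.B_anti (by omega) (D.M_le_B _ (hpow k))
  have hE' : (1 + y) * (1 + z) = 1 := sub_eq_zero.1 hE
  refine ⟨⟨1 + y, 1 + z, hE', by rw [mul_comm]; exact hE'⟩, rfl, ?_⟩
  change 1 + z - 1 ∈ D.M j
  simpa using hzM

/-- The group `{u | u - 1 ∈ M j}` for `j ≥ c + 1`. -/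
def Vgrp (j : ℤ) (hj : D.c + 1 ≤ j) : Subgroup Aˣ where
  carrier := {u | (u : A) - 1 ∈ D.M j}
  one_mem' := by
    change ((1 : Aˣ) : A) - 1 ∈ D.M j
    simp
  mul_mem' := by
    intro a b ha hb
    change (a : A) - 1 ∈ D.M j at ha
    change (b : A) - 1 ∈ D.M j at hb
    change ((a * b : Aˣ) : A) - 1 ∈ D.M j
    have e : ((a * b : Aˣ) : A) - 1
        = ((a : A) - 1) + ((b : A) - 1) + ((a : A) - 1) * ((b : A) - 1) := by
      rw [Units.val_mul]; ring
    rw [e]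
    refine AddSubgroup.add_mem _ (AddSubgroup.add_mem _ ha hb) ?_
    have hc0 := D.hc0
    exact D.B_le_M_of_le (by omega) (D.mul_mem (D.M_le_B _ ha) (D.M_le_B _ hb))
  inv_mem' := by
    intro a ha
    change (a : A) - 1 ∈ D.M j at ha
    change ((a⁻¹ : Aˣ) : A) - 1 ∈ D.M j
    obtain ⟨w, hw, hwi⟩ := D.exists_unit_one_add hj ha
    have hwa : w = a := Units.ext (by rw [hw]; ring)
    rw [hwa] at hwi
    exact hwi

theorem mem_Vgrp {j : ℤ} {hj : D.c + 1 ≤ j} {u : Aˣ} :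
    u ∈ D.Vgrp j hj ↔ (u : A) - 1 ∈ D.M j := Iff.rfl

theorem val_mem_B_zero {j : ℤ} {hj : D.c + 1 ≤ j} {u : Aˣ} (hu : u ∈ D.Vgrp j hj) :
    (u : A) ∈ D.B 0 := by
  have hc0 := D.hc0
  have e : (u : A) = 1 + ((u : A) - 1) := by ring
  rw [e]
  exact (D.B 0).add_mem D.one_mem (D.B_anti (by omega) (D.M_le_B _ hu))

theorem inv_mem_B_zero {j : ℤ} {hj : D.c + 1 ≤ j} {u : Aˣ} (hu : u ∈ D.Vgrp j hj) :
    ((u⁻¹ : Aˣ) : A) ∈ D.B 0 :=
  D.val_mem_B_zero ((D.Vgrp j hj).inv_mem hu)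

/-- The filtration used for the successive approximation. -/
def Vk (k : ℕ) : Subgroup Aˣ := D.Vgrp (D.c + 1 + k) (by omega)

theorem mem_Vk {k : ℕ} {u : Aˣ} : u ∈ D.Vk k ↔ (u : A) - 1 ∈ D.M (D.c + 1 + k) := Iff.rfl

theorem mem_Vk_succ {k : ℕ} {u : Aˣ} :
    u ∈ D.Vk (k + 1) ↔ (u : A) - 1 ∈ D.M (D.c + 1 + k + 1) := by
  rw [mem_Vk]
  have : D.c + 1 + ((k + 1 : ℕ) : ℤ) = D.c + 1 + k + 1 := by push_cast; ring
  rw [this]

theorem Vk_mono (k : ℕ) : D.Vk (k + 1) ≤ D.Vk k := by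
  intro u hu
  rw [mem_Vk] at hu ⊢
  exact D.M_anti (by push_cast; omega) hu

theorem Vk_le_zero (k : ℕ) : D.Vk k ≤ D.Vk 0 := by
  intro u hu
  rw [mem_Vk] at hu ⊢
  exact D.M_anti (by push_cast; omega) hu

theorem Vk_val_mem (k : ℕ) {u : Aˣ} (hu : u ∈ D.Vk k) : (u : A) ∈ D.B 0 :=
  D.val_mem_B_zero hu

theorem Vk_inv_mem (k : ℕ) {u : Aˣ} (hu : u ∈ D.Vk k) : ((u⁻¹ : Aˣ) : A) ∈ D.B 0 :=
  D.inv_mem_B_zero hu

theorem Vk_sub_one_mem_B (k : ℕ) {u : Aˣ} (hu : u ∈ D.Vk k) : (u : A) - 1 ∈ D.B k := by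
  have hc0 := D.hc0
  rw [mem_Vk] at hu
  exact D.B_anti (by omega) (D.M_le_B _ hu)

/-- Stability of `Vk` under the group. -/
theorem smul_mem_Vk (k : ℕ) (τ : G) {u : Aˣ} (hu : u ∈ D.Vk k) : τ • u ∈ D.Vk k := by
  rw [mem_Vk] at hu ⊢
  have e : ((τ • u : Aˣ) : A) - 1 = τ • ((u : A) - 1) := by
    rw [D.coe_smul, smul_sub, smul_one]
  rw [e]
  exact D.smul_M τ hu

include D in
theorem coe_normG (u : Aˣ) : ((normG G Aˣ u : Aˣ) : A) = ∏ σ : G, σ • (u : A) := by
  rw [normG_apply, Units.coe_prod]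
  exact Finset.prod_congr rfl fun σ _ => D.coe_smul σ u

theorem normG_mem_Vk (k : ℕ) {u : Aˣ} (hu : u ∈ D.Vk k) : normG G Aˣ u ∈ D.Vk k := by
  rw [normG_apply]
  exact Subgroup.prod_mem _ fun σ _ => D.smul_mem_Vk k σ hu

theorem deltaHom_mem_Vk (k : ℕ) (τ : G) {u : Aˣ} (hu : u ∈ D.Vk k) :
    deltaHom Aˣ τ u ∈ D.Vk k := by
  rw [deltaHom_apply]
  exact Subgroup.div_mem _ (D.smul_mem_Vk k τ hu) hu

omit D in
theorem smul_normG_units (τ : G) (u : Aˣ) : τ • normG G Aˣ u = normG G Aˣ u := by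
  rw [normG_apply, Finset.smul_prod']
  simp_rw [← mul_smul]
  exact Fintype.prod_equiv (Equiv.mulLeft τ) _ _ (fun σ => rfl)

omit D in
theorem normG_smul_units (τ : G) (u : Aˣ) : normG G Aˣ (τ • u) = normG G Aˣ u := by
  rw [normG_apply, normG_apply]
  simp_rw [← mul_smul]
  exact Fintype.prod_equiv (Equiv.mulRight τ) _ _ (fun σ => rfl)

omit D in
theorem normG_deltaHom_units (τ : G) (u : Aˣ) : normG G Aˣ (deltaHom Aˣ τ u) = 1 := by
  rw [deltaHom_apply, map_div, normG_smul_units, div_self']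

/-- A unit `1 + y` with `y` in the lattice. -/
theorem exists_unit_one_add_Vk {k : ℕ} {y : A} (hy : y ∈ D.M (D.c + 1 + k)) :
    ∃ w : Aˣ, (w : A) = 1 + y ∧ w ∈ D.Vk k := by
  obtain ⟨w, hw, -⟩ := D.exists_unit_one_add (j := D.c + 1 + k) (by omega) hy
  refine ⟨w, hw, ?_⟩
  rw [mem_Vk, hw]
  simpa using hy

/-- **Norm step**: a fixed element of `Vk k` is a norm from `Vk k` up to `Vk (k+1)`. -/
theorem norm_step (k : ℕ) (u : Aˣ) (hu : u ∈ D.Vk k) (hfix : ∀ σ : G, σ • u = u) :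
    ∃ w ∈ D.Vk k, u / normG G Aˣ w ∈ D.Vk (k + 1) ∧
      ∀ σ : G, σ • (u / normG G Aˣ w) = u / normG G Aˣ w := by
  have hc0 := D.hc0
  rw [mem_Vk] at hu
  have hfix' : ∀ σ : G, σ • ((u : A) - 1) = (u : A) - 1 := by
    intro σ
    have := congrArg (fun w : Aˣ => (w : A)) (hfix σ)
    simp only [D.coe_smul] at this
    rw [smul_sub, smul_one, this]
  obtain ⟨y, hy, hyx⟩ := D.fixed_trace hu hfix'
  obtain ⟨w, hw, hwV⟩ := D.exists_unit_one_add_Vk hy
  refine ⟨w, hwV, ?_, ?_⟩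
  · have hz : ∀ σ ∈ (Finset.univ : Finset G), σ • y ∈ D.B (D.c + 1 + k) :=
      fun σ _ => D.smul_B σ (D.M_le_B _ hy)
    have hr := (D.prod_one_add_sub Finset.univ (fun σ : G => σ • y) (by omega) hz).1
    have hN : ((normG G Aˣ w : Aˣ) : A) = ∏ σ : G, (1 + σ • y) := by
      rw [D.coe_normG, hw]
      refine Finset.prod_congr rfl fun σ _ => ?_
      rw [smul_add, smul_one]
    have hNV := D.normG_mem_Vk k hwV
    have hNinv : ((normG G Aˣ w : Aˣ) : A) * (((normG G Aˣ w)⁻¹ : Aˣ) : A) = 1 :=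
      Units.mul_inv _
    rw [mem_Vk_succ]
    have e : ((u / normG G Aˣ w : Aˣ) : A) - 1
        = -((∏ σ : G, (1 + σ • y) - 1 - ∑ σ : G, σ • y)
            * (((normG G Aˣ w)⁻¹ : Aˣ) : A)) := by
      rw [div_eq_mul_inv, Units.val_mul, hyx, ← hN]
      linear_combination hNinv
    rw [e]
    refine AddSubgroup.neg_mem _ ?_
    have h1 := D.mul_mem hr (D.Vk_inv_mem k hNV)
    exact D.B_le_M_of_le (by omega) h1
  · intro σ
    rw [smul_div', hfix σ, smul_normG_units]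

/-- **`δ` step**: an element of norm one of `Vk k` is of the form `φ w / w`, `w ∈ Vk k`, up to
`Vk (k+1)`. -/
theorem delta_step (k : ℕ) (u : Aˣ) (hu : u ∈ D.Vk k) (hN : normG G Aˣ u = 1) :
    ∃ w ∈ D.Vk k, u / deltaHom Aˣ D.φ w ∈ D.Vk (k + 1) ∧
      normG G Aˣ (u / deltaHom Aˣ D.φ w) = 1 := by
  have hc0 := D.hc0
  have huV := hu
  rw [mem_Vk] at hu
  set x : A := (u : A) - 1 with hx
  have hz : ∀ σ ∈ (Finset.univ : Finset G), σ • x ∈ D.B (D.c + 1 + k) :=
    fun σ _ => D.smul_B σ (D.M_le_B _ hu)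
  have hr := (D.prod_one_add_sub Finset.univ (fun σ : G => σ • x) (by omega) hz).1
  have hNu : ∏ σ : G, (1 + σ • x) = 1 := by
    have h1 := congrArg (fun w : Aˣ => (w : A)) hN
    simp only [D.coe_normG, Units.val_one] at h1
    refine Eq.trans (Finset.prod_congr rfl fun σ _ => ?_) h1
    rw [hx, smul_sub, smul_one]; ring
  rw [hNu, sub_self, zero_sub] at hr
  have htr : ∑ σ : G, σ • x ∈ D.M (D.c + 1 + k + 1) := by
    have := (D.B _).neg_mem hr
    rw [neg_neg] at this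
    exact D.B_le_M_of_le (by omega) this
  obtain ⟨y, hy, hdec⟩ := D.decomp hu htr
  obtain ⟨w, hw, hwV⟩ := D.exists_unit_one_add_Vk hy
  have hφwV := D.smul_mem_Vk k D.φ hwV
  refine ⟨w, hwV, ?_, ?_⟩
  · rw [mem_Vk_succ]
    have hφw : ((D.φ • w : Aˣ) : A) = 1 + D.φ • y := by
      rw [D.coe_smul, hw, smul_add, smul_one]
    -- `E = u * w - φ w`
    have hE : (u : A) * (w : A) - ((D.φ • w : Aˣ) : A)
        = (x - (D.φ • y - y)) + x * y := by
      rw [hφw, hw]
      have hu1 : (u : A) = 1 + x := by rw [hx]; ring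
      rw [hu1]
      ring
    have hEmem : (u : A) * (w : A) - ((D.φ • w : Aˣ) : A) ∈ D.M (D.c + 1 + k + 1) := by
      rw [hE]
      refine AddSubgroup.add_mem _ hdec ?_
      exact D.B_le_M_of_le (by omega) (D.mul_mem (D.M_le_B _ hu) (D.M_le_B _ hy))
    have hinv1 : ((D.φ • w : Aˣ) : A) * (((D.φ • w)⁻¹ : Aˣ) : A) = 1 := Units.mul_inv _
    have e : ((u / deltaHom Aˣ D.φ w : Aˣ) : A) - 1
        = ((u : A) * (w : A) - ((D.φ • w : Aˣ) : A))
          + ((u : A) * (w : A) - ((D.φ • w : Aˣ) : A)) * ((((D.φ • w)⁻¹ : Aˣ) : A) - 1) := by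
      rw [deltaHom_apply, div_div_eq_mul_div, div_eq_mul_inv, Units.val_mul, Units.val_mul]
      linear_combination hinv1
    rw [e]
    refine AddSubgroup.add_mem _ hEmem ?_
    have h3 : (((D.φ • w)⁻¹ : Aˣ) : A) - 1 ∈ D.B (D.c + 1 + k) :=
      D.M_le_B _ (D.mem_Vk.1 ((D.Vk k).inv_mem hφwV))
    have h4 := D.mul_mem (D.M_le_B _ hEmem) h3
    exact D.B_le_M_of_le (by omega) h4
  · rw [map_div, hN, normG_deltaHom_units, div_one]

/-- **Lifting lemma** (successive approximation) in a filtered ring. -/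
theorem lift_exists (F : Aˣ →* Aˣ) (P : Aˣ → Prop)
    (hstep : ∀ k (u : Aˣ), u ∈ D.Vk k → P u →
      ∃ w ∈ D.Vk k, u / F w ∈ D.Vk (k + 1) ∧ P (u / F w))
    (hF_cont : ∀ y W : Aˣ, y ∈ D.Vk 0 → W ∈ D.Vk 0 → ∀ k : ℕ,
      (y : A) - W ∈ D.B k → ((F y : Aˣ) : A) - (F W : Aˣ) ∈ D.B k)
    (u : Aˣ) (hu : u ∈ D.Vk 0) (hP : P u) : ∃ w ∈ D.Vk 0, F w = u := by
  have hc0 := D.hc0
  set W := gLiftProd F P D.Vk hstep u with hW
  have hWmem := gLiftProd_mem F P D.Vk hstep D.Vk_mono u hu hP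
  have hcauchy : ∀ k : ℕ, ((W (k + 1) : Aˣ) : A) - W k ∈ D.M k := by
    intro k
    rw [hW, gLiftProd_succ, Units.val_mul]
    have e : ((gLiftProd F P D.Vk hstep u k : Aˣ) : A) * ((gLiftW F P D.Vk hstep u k : Aˣ) : A)
        - ((gLiftProd F P D.Vk hstep u k : Aˣ) : A)
        = ((gLiftProd F P D.Vk hstep u k : Aˣ) : A)
          * (((gLiftW F P D.Vk hstep u k : Aˣ) : A) - 1) := by ring
    rw [e]
    have h1 : ((gLiftProd F P D.Vk hstep u k : Aˣ) : A) ∈ D.B 0 := D.Vk_val_mem 0 (hWmem k)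
    have h2 := D.M_le_B _ (D.mem_Vk.1 (gLiftW_mem F P D.Vk hstep u hu hP k))
    exact D.B_le_M_of_le (by omega) (D.mul_mem h1 h2)
  obtain ⟨y, hy⟩ := D.complete (fun k => ((W k : Aˣ) : A)) hcauchy
  have hy1 : y - 1 ∈ D.M (D.c + 1 + (0 : ℕ)) := by
    have h1 := hy (D.c + 1).toNat
    have h2 := D.mem_Vk.1 (hWmem (D.c + 1).toNat)
    have e : y - 1 = (y - ((W (D.c + 1).toNat : Aˣ) : A))
        + (((W (D.c + 1).toNat : Aˣ) : A) - 1) := by ring
    rw [e]
    refine AddSubgroup.add_mem _ (D.M_anti ?_ h1) h2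
    have := Int.self_le_toNat (D.c + 1)
    push_cast
    omega
  obtain ⟨yu, hyu, hyV⟩ := D.exists_unit_one_add_Vk hy1
  have hyu' : (yu : A) = y := by rw [hyu]; ring
  refine ⟨yu, hyV, ?_⟩
  have hall : ∀ k : ℕ, ((F yu : Aˣ) : A) - (u : A) ∈ D.B k := by
    intro k
    have hyW : (yu : A) - ((W k : Aˣ) : A) ∈ D.B k := by
      rw [hyu']
      exact D.M_le_B _ (hy k)
    have h1 := hF_cont yu (W k) hyV (hWmem k) k hyW
    have hk := map_gLiftProd_mul F P D.Vk hstep u k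
    have hUk := gLiftU_mem F P D.Vk hstep u hu hP k
    have hFW : F (W k) ∈ D.Vk 0 := by
      have e : F (W k) = u / gLiftU F P D.Vk hstep u k := by
        rw [eq_div_iff_mul_eq']
        exact hk
      rw [e]
      exact (D.Vk 0).div_mem hu (D.Vk_le_zero k hUk.1)
    have h2 : ((F (W k) : Aˣ) : A) - (u : A) ∈ D.B k := by
      have e : ((F (W k) : Aˣ) : A) - (u : A)
          = -(((F (W k) : Aˣ) : A) * (((gLiftU F P D.Vk hstep u k : Aˣ) : A) - 1)) := by
        conv_lhs => rw [← hk]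
        rw [Units.val_mul]; ring
      rw [e]
      refine (D.B k).neg_mem ?_
      have := D.mul_mem (D.Vk_val_mem 0 hFW) (D.Vk_sub_one_mem_B k hUk.1)
      simpa using this
    have e : ((F yu : Aˣ) : A) - (u : A)
        = (((F yu : Aˣ) : A) - (F (W k) : Aˣ)) + (((F (W k) : Aˣ) : A) - (u : A)) := by ring
    rw [e]
    exact (D.B k).add_mem h1 h2
  exact Units.ext (sub_eq_zero.1 (D.sep _ hall))

/-- **Degree `0`**: fixed elements of `Vk 0` are norms from `Vk 0`. -/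
theorem fixed_is_norm (u : Aˣ) (hu : u ∈ D.Vk 0) (hfix : ∀ σ : G, σ • u = u) :
    ∃ w ∈ D.Vk 0, normG G Aˣ w = u := by
  refine D.lift_exists (normG G Aˣ) (fun u => ∀ σ : G, σ • u = u)
    (fun k u hu hP => D.norm_step k u hu hP) ?_ u hu hfix
  intro y W hy hW k hyW
  rw [D.coe_normG, D.coe_normG]
  refine D.prod_sub_prod_mem _ _ _ (fun σ _ => ?_) (fun σ _ => ?_) (fun σ _ => ?_)
  · exact D.smul_B σ (D.Vk_val_mem 0 hy)
  · exact D.smul_B σ (D.Vk_val_mem 0 hW)
  · rw [← smul_sub]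
    exact D.smul_B σ hyW

/-- **Degree `-1`**: elements of norm one of `Vk 0` are of the form `φ w / w`, `w ∈ Vk 0`. -/
theorem norm_one_is_delta (u : Aˣ) (hu : u ∈ D.Vk 0) (hN : normG G Aˣ u = 1) :
    ∃ w ∈ D.Vk 0, deltaHom Aˣ D.φ w = u := by
  refine D.lift_exists (deltaHom Aˣ D.φ) (fun u => normG G Aˣ u = 1)
    (fun k u hu hP => D.delta_step k u hu hP) ?_ u hu hN
  intro y W hy hW k hyW
  have hy1 : (y : A) * ((y⁻¹ : Aˣ) : A) = 1 := Units.mul_inv _
  have hW1 : (W : A) * ((W⁻¹ : Aˣ) : A) = 1 := Units.mul_inv _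
  have e : ((deltaHom Aˣ D.φ y : Aˣ) : A) - (deltaHom Aˣ D.φ W : Aˣ)
      = (D.φ • ((y : A) - W) * W - D.φ • (W : A) * ((y : A) - W))
        * (((y⁻¹ : Aˣ) : A) * ((W⁻¹ : Aˣ) : A)) := by
    rw [deltaHom_apply, deltaHom_apply, div_eq_mul_inv, div_eq_mul_inv, Units.val_mul,
      Units.val_mul, D.coe_smul, D.coe_smul, smul_sub]
    linear_combination
      (-(D.φ • (y : A)) * ((y⁻¹ : Aˣ) : A)) * hW1 + (D.φ • (W : A) * ((W⁻¹ : Aˣ) : A)) * hy1
  rw [e]
  have h1 : D.φ • ((y : A) - W) * W ∈ D.B k := by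
    have := D.mul_mem (D.smul_B D.φ hyW) (D.Vk_val_mem 0 hW)
    simpa using this
  have h2 : D.φ • (W : A) * ((y : A) - W) ∈ D.B k := by
    have := D.mul_mem (D.smul_B D.φ (D.Vk_val_mem 0 hW)) hyW
    simpa using this
  have h3 : ((y⁻¹ : Aˣ) : A) * ((W⁻¹ : Aˣ) : A) ∈ D.B 0 := by
    have := D.mul_mem (D.Vk_inv_mem 0 hy) (D.Vk_inv_mem 0 hW)
    simpa using this
  have := D.mul_mem ((D.B k).sub_mem h1 h2) h3
  simpa using this

/-- `Vk 0` has finite index in any group of units that are bounded together with their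
inverses, if `B 0` is totally bounded. -/
theorem relIndex_Vk_ne_zero
    (hfin : ∀ r : ℕ, ∃ S : Finset A, ∀ x ∈ D.B 0, ∃ s ∈ S, x - s ∈ D.B r)
    (U : Subgroup Aˣ) (hU : ∀ u ∈ U, (u : A) ∈ D.B 0 ∧ ((u⁻¹ : Aˣ) : A) ∈ D.B 0) :
    (D.Vk 0).relIndex U ≠ 0 := by
  classical
  have hc0 := D.hc0
  obtain ⟨S, hS⟩ := hfin (D.c + 1 + D.c).toNat
  have hr : ((D.c + 1 + D.c).toNat : ℤ) = D.c + 1 + D.c := Int.toNat_of_nonneg (by omega)
  rw [hr] at hS
  rw [Subgroup.relIndex]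
  have hU' : ∀ a : U, ((a : Aˣ) : A) ∈ D.B 0 := fun a => (hU a a.2).1
  let f : U ⧸ (D.Vk 0).subgroupOf U → S := fun q =>
    ⟨(hS _ (hU' q.out)).choose, (hS _ (hU' q.out)).choose_spec.1⟩
  have hf : Function.Injective f := by
    intro q q' hqq
    have h1 := (hS _ (hU' q.out)).choose_spec.2
    have h2 := (hS _ (hU' q'.out)).choose_spec.2
    have hs : (hS _ (hU' q.out)).choose = (hS _ (hU' q'.out)).choose :=
      congrArg Subtype.val hqq
    rw [hs] at h1
    have h3 : (((q'.out : U) : Aˣ) : A) - (((q.out : U) : Aˣ) : A) ∈ D.B (D.c + 1 + D.c) := by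
      have := (D.B _).sub_mem h2 h1
      simpa using this
    have hinv := (hU _ (q.out : U).2).2
    have h4 : (((q.out : U)⁻¹ * (q'.out : U) : U) : Aˣ) ∈ D.Vk 0 := by
      rw [mem_Vk]
      have h5 : (((q.out : U) : Aˣ) : A) * ((((q.out : U) : Aˣ)⁻¹ : Aˣ) : A) = 1 :=
        Units.mul_inv _
      have e : ((((q.out : U)⁻¹ * (q'.out : U) : U) : Aˣ) : A) - 1
          = ((((q'.out : U) : Aˣ) : A) - (((q.out : U) : Aˣ) : A))
            * ((((q.out : U) : Aˣ)⁻¹ : Aˣ) : A) := by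
        simp only [Subgroup.coe_mul, Subgroup.coe_inv, Units.val_mul]
        linear_combination h5
      rw [e]
      have := D.mul_mem h3 hinv
      exact D.B_le_M_of_le (by push_cast; omega) this
    have h6 : (QuotientGroup.mk (q.out : U) : U ⧸ (D.Vk 0).subgroupOf U)
        = QuotientGroup.mk (q'.out : U) := by
      rw [QuotientGroup.eq]
      exact Subgroup.mem_subgroupOf.2 h4
    rw [QuotientGroup.out_eq', QuotientGroup.out_eq'] at h6
    exact h6
  haveI : Finite (U ⧸ (D.Vk 0).subgroupOf U) := Finite.of_injective f hf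
  exact Subgroup.index_ne_zero_of_finite

end FiltRing

end Fermat.Agent.S55.helper31
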