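import Mathlib

/-!
# S55 / GLOB-LAT (helper31): a global normal basis lattice

For a finite Galois extension `L/K` of number fields: a `ℚ`-basis `β` of `L` indexed by
`Fin n × Gal(L/K)` consisting of algebraic integers which is permuted by the Galois group
(`σ (β (i, τ)) = β (i, σ * τ)`), together with its trace-dual family `d` and a nonzero integer
`m` such that all `m • d l` are algebraic integers.
-/

set_option autoImplicit false

namespace Fermat.Agent.S55.helper31

open scoped NumberField

/-- A Galois-permuted integral basis of `L` over `ℚ` with an integral multiple of its dual. -/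
structure GlobLatt (K L : Type*) [Field K] [NumberField K] [Field L] [NumberField L]
    [Algebra K L] where
  /-- the degree of `K` over `ℚ` -/
  n : ℕ
  /-- the basis -/
  β : Module.Basis (Fin n × Gal(L/K)) ℚ L
  β_int : ∀ k, IsIntegral ℤ (β k)
  β_perm : ∀ (σ : Gal(L/K)) (i : Fin n) (τ : Gal(L/K)), σ (β (i, τ)) = β (i, σ * τ)
  /-- the dual family -/
  d : Fin n × Gal(L/K) → L
  d_trace_self : ∀ k, Algebra.trace ℚ L (β k * d k) = 1
  d_trace_ne : ∀ k l, k ≠ l → Algebra.trace ℚ L (β k * d l) = 0
  /-- the denominator of the dual family -/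
  m : ℤ
  hm : m ≠ 0
  d_int : ∀ l, IsIntegral ℤ (m • d l)

variable (K L : Type*) [Field K] [NumberField K] [Field L] [NumberField L] [Algebra K L]
  [IsGalois K L]

/-- Existence of a global normal basis lattice. -/
theorem exists_globLatt : Nonempty (GlobLatt K L) := by
  classical
  obtain ⟨θ₀, hli⟩ := exists_linearIndependent_algEquiv_apply K L
  obtain ⟨y, hy, hyint⟩ := exists_integral_multiples ℤ ℚ ({θ₀} : Finset L)
  have hθint : IsIntegral ℤ (y • θ₀) := hyint θ₀ (Finset.mem_singleton_self _)
  set θ : L := y • θ₀ with hθ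
  have hyK : (y : K) ≠ 0 := by exact_mod_cast hy
  have hli' : LinearIndependent K (fun σ : Gal(L/K) => σ θ) := by
    have := hli.units_smul (fun _ => Units.mk0 (y : K) hyK)
    convert this using 1
    funext σ
    simp only [Pi.smul_apply', hθ, Units.smul_def, Units.val_mk0]
    rw [map_zsmul, Int.cast_smul_eq_zsmul]
  have hcard : Fintype.card Gal(L/K) = Module.finrank K L := by
    rw [Fintype.card_eq_nat_card, IsGalois.card_aut_eq_finrank]
  set nb : Module.Basis Gal(L/K) K L := basisOfLinearIndependentOfCardEqFinrank hli' hcard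
    with hnb
  have hnbσ : ∀ σ, nb σ = σ θ := by
    intro σ
    rw [hnb, coe_basisOfLinearIndependentOfCardEqFinrank]
  set ω : Module.Basis (Fin (Fintype.card (Module.Free.ChooseBasisIndex ℤ (𝓞 K)))) ℚ K :=
    (NumberField.integralBasis K).reindex (Fintype.equivFin _) with hω
  have hωint : ∀ i, IsIntegral ℤ (ω i) := by
    intro i
    rw [hω, Module.Basis.reindex_apply, NumberField.integralBasis_apply]
    exact NumberField.RingOfIntegers.isIntegral_coe _
  set β := ω.smulTower nb with hβ
  have hβapp : ∀ i τ, β (i, τ) = ω i • τ θ := by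
    intro i τ
    rw [hβ, Module.Basis.smulTower_apply, hnbσ]
  have hβint : ∀ k, IsIntegral ℤ (β k) := by
    rintro ⟨i, τ⟩
    rw [hβapp, Algebra.smul_def]
    exact (map_isIntegral_int (algebraMap K L) (hωint i)).mul (map_isIntegral_int τ hθint)
  have hβperm : ∀ (σ : Gal(L/K)) (i) (τ : Gal(L/K)), σ (β (i, τ)) = β (i, σ * τ) := by
    intro σ i τ
    rw [hβapp, hβapp, Algebra.smul_def, Algebra.smul_def, map_mul, AlgEquiv.commutes,
      AlgEquiv.mul_apply]
  have hB := traceForm_nondegenerate ℚ L
  set d := (Algebra.traceForm ℚ L).dualBasis hB β with hd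
  obtain ⟨m, hm, hmint⟩ := exists_integral_multiples ℤ ℚ (Finset.univ.image fun l => d l)
  refine ⟨⟨_, β, hβint, hβperm, fun l => d l, ?_, ?_, m, hm, ?_⟩⟩
  · intro k
    rw [← Algebra.traceForm_apply, hd,
      LinearMap.BilinForm.apply_dualBasis_right hB (Algebra.traceForm_isSymm ℚ), if_pos rfl]
  · intro k l hkl
    rw [← Algebra.traceForm_apply, hd,
      LinearMap.BilinForm.apply_dualBasis_right hB (Algebra.traceForm_isSymm ℚ), if_neg hkl]
  · intro l
    exact hmint _ (Finset.mem_image_of_mem _ (Finset.mem_univ l))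

end Fermat.Agent.S55.helper31
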