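import Mathlib

/-!
# S55 / GLOB-LAT (helper31): the balls `q ^ j ℤ_q` of `ℚ_q`

`Qb q j = {c : ℚ_q | ‖c‖ ≤ q ^ (-j)}` (`j : ℤ`) as additive subgroups of `ℚ_q`: multiplicativity,
separatedness, completeness, total boundedness, integrality.
-/

set_option autoImplicit false

namespace Fermat.Agent.S55.helper31

variable (q : ℕ) [Fact q.Prime]

/-- The ball `{c | ‖c‖ ≤ q ^ (-j)}` of `ℚ_q`, as an additive subgroup. -/
def Qb (j : ℤ) : AddSubgroup ℚ_[q] where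
  carrier := {c | ‖c‖ ≤ (q : ℝ) ^ (-j)}
  zero_mem' := by
    change ‖(0 : ℚ_[q])‖ ≤ _
    rw [norm_zero]
    positivity
  add_mem' := by
    intro a b ha hb
    exact (Padic.nonarchimedean a b).trans (max_le ha hb)
  neg_mem' := by
    intro a ha
    change ‖-a‖ ≤ _
    rw [norm_neg]
    exact ha

theorem mem_Qb {j : ℤ} {c : ℚ_[q]} : c ∈ Qb q j ↔ ‖c‖ ≤ (q : ℝ) ^ (-j) := Iff.rfl

theorem one_lt_q_real : (1 : ℝ) < q := by exact_mod_cast (Fact.out : q.Prime).one_lt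

theorem q_real_pos : (0 : ℝ) < q := lt_trans zero_lt_one (one_lt_q_real q)

theorem q_padic_ne_zero : (q : ℚ_[q]) ≠ 0 := by
  exact_mod_cast (Fact.out : q.Prime).ne_zero

theorem Qb_anti {i j : ℤ} (h : i ≤ j) : Qb q j ≤ Qb q i := by
  intro c hc
  rw [mem_Qb] at hc ⊢
  exact hc.trans (zpow_le_zpow_right₀ (one_lt_q_real q).le (by omega))

theorem mul_mem_Qb {i j : ℤ} {x y : ℚ_[q]} (hx : x ∈ Qb q i) (hy : y ∈ Qb q j) :
    x * y ∈ Qb q (i + j) := by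
  rw [mem_Qb] at hx hy ⊢
  rw [norm_mul, neg_add, zpow_add₀ (q_real_pos q).ne']
  exact mul_le_mul hx hy (norm_nonneg _) (zpow_nonneg (q_real_pos q).le _)

theorem one_mem_Qb : (1 : ℚ_[q]) ∈ Qb q 0 := by
  rw [mem_Qb]
  simp

theorem q_zpow_mem_Qb (j : ℤ) : (q : ℚ_[q]) ^ j ∈ Qb q j := by
  rw [mem_Qb, Padic.norm_p_zpow]

theorem zpow_mul_mem_Qb {i j : ℤ} {c : ℚ_[q]} (hc : c ∈ Qb q j) :
    (q : ℚ_[q]) ^ i * c ∈ Qb q (i + j) :=
  mul_mem_Qb q (q_zpow_mem_Qb q i) hc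

theorem mem_Qb_of_zpow_mul {i j : ℤ} {c : ℚ_[q]} (hc : (q : ℚ_[q]) ^ i * c ∈ Qb q (i + j)) :
    c ∈ Qb q j := by
  have := zpow_mul_mem_Qb q (i := -i) hc
  rwa [← mul_assoc, ← zpow_add₀ (q_padic_ne_zero q), neg_add_cancel, zpow_zero, one_mul,
    neg_add_cancel_left] at this

theorem intCast_mem_Qb_zero (n : ℤ) : (n : ℚ_[q]) ∈ Qb q 0 := by
  rw [mem_Qb]
  simpa using Padic.norm_int_le_one n

theorem natCast_mem_Qb_zero (n : ℕ) : (n : ℚ_[q]) ∈ Qb q 0 := by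
  have := intCast_mem_Qb_zero q (n : ℤ)
  simpa using this

theorem mem_Qb_zero_iff {c : ℚ_[q]} : c ∈ Qb q 0 ↔ ‖c‖ ≤ 1 := by
  rw [mem_Qb]
  simp

/-- The elements of `Qb q 0` are the elements integral over `ℤ_q`. -/
theorem mem_Qb_zero_iff_isIntegral {c : ℚ_[q]} : c ∈ Qb q 0 ↔ IsIntegral ℤ_[q] c := by
  rw [mem_Qb_zero_iff]
  constructor
  · intro h
    have : c = algebraMap ℤ_[q] ℚ_[q] ⟨c, h⟩ := rfl
    rw [this]
    exact isIntegral_algebraMap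
  · intro h
    obtain ⟨y, hy⟩ := IsIntegrallyClosed.isIntegral_iff.1 h
    rw [← hy]
    exact y.2

theorem exists_zpow_lt {ε : ℝ} (hε : 0 < ε) : ∃ N : ℕ, (q : ℝ) ^ (-(N : ℤ)) < ε := by
  obtain ⟨N, hN⟩ := exists_pow_lt_of_lt_one hε
    (inv_lt_one_of_one_lt₀ (one_lt_q_real q))
  refine ⟨N, ?_⟩
  rwa [zpow_neg, zpow_natCast, ← inv_pow]

/-- Separatedness. -/
theorem Qb_sep (c : ℚ_[q]) (h : ∀ k : ℕ, c ∈ Qb q k) : c = 0 := by
  by_contra hc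
  have hpos : 0 < ‖c‖ := norm_pos_iff.2 hc
  obtain ⟨N, hN⟩ := exists_zpow_lt q hpos
  have := (mem_Qb q).1 (h N)
  linarith

/-- Completeness. -/
theorem Qb_complete (x : ℕ → ℚ_[q]) (hx : ∀ k : ℕ, x (k + 1) - x k ∈ Qb q k) :
    ∃ y : ℚ_[q], ∀ k : ℕ, y - x k ∈ Qb q k := by
  have hkm : ∀ k m : ℕ, k ≤ m → x m - x k ∈ Qb q k := by
    intro k m hkm
    induction m, hkm using Nat.le_induction with
    | base => simp
    | succ m hm ih =>
      have e : x (m + 1) - x k = (x (m + 1) - x m) + (x m - x k) := by ring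
      rw [e]
      exact (Qb q k).add_mem (Qb_anti q (by exact_mod_cast hm) (hx m)) ih
  have hcau : CauchySeq x := by
    rw [Metric.cauchySeq_iff']
    intro ε hε
    obtain ⟨N, hN⟩ := exists_zpow_lt q hε
    refine ⟨N, fun n hn => ?_⟩
    rw [dist_eq_norm]
    exact lt_of_le_of_lt ((mem_Qb q).1 (hkm N n hn)) hN
  obtain ⟨y, hy⟩ := cauchySeq_tendsto_of_complete hcau
  refine ⟨y, fun k => ?_⟩
  rw [mem_Qb]
  have h1 : Filter.Tendsto (fun m => ‖x m - x k‖) Filter.atTop (nhds ‖y - x k‖) :=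
    (hy.sub_const (x k)).norm
  refine le_of_tendsto h1 ?_
  rw [Filter.eventually_atTop]
  exact ⟨k, fun m hm => (mem_Qb q).1 (hkm k m hm)⟩

/-- Total boundedness. -/
theorem Qb_totallyBounded (i r : ℤ) :
    ∃ S : Finset ℚ_[q], ∀ a ∈ Qb q i, ∃ s ∈ S, a - s ∈ Qb q r := by
  classical
  set n : ℕ := (r - i).toNat with hn
  refine ⟨(Finset.range (q ^ n)).image fun m : ℕ => (q : ℚ_[q]) ^ i * (m : ℚ_[q]),
    fun a ha => ?_⟩
  have ha' : (q : ℚ_[q]) ^ (-i) * a ∈ Qb q 0 := by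
    have := zpow_mul_mem_Qb q (i := -i) ha
    rwa [neg_add_cancel] at this
  set z : ℤ_[q] := ⟨(q : ℚ_[q]) ^ (-i) * a, (mem_Qb_zero_iff q).1 ha'⟩ with hz
  have hspec := PadicInt.appr_spec n z
  rw [← PadicInt.norm_le_pow_iff_mem_span_pow] at hspec
  refine ⟨(q : ℚ_[q]) ^ i * ((z.appr n : ℕ) : ℚ_[q]), ?_, ?_⟩
  · rw [Finset.mem_image]
    exact ⟨z.appr n, Finset.mem_range.2 (PadicInt.appr_lt z n), rfl⟩
  · have e : a - (q : ℚ_[q]) ^ i * ((z.appr n : ℕ) : ℚ_[q])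
        = (q : ℚ_[q]) ^ i * (((z - (z.appr n : ℕ) : ℤ_[q]) : ℚ_[q])) := by
      have h1 : (q : ℚ_[q]) ^ i * ((q : ℚ_[q]) ^ (-i) * a) = a := by
        rw [← mul_assoc, ← zpow_add₀ (q_padic_ne_zero q), add_neg_cancel, zpow_zero, one_mul]
      simp only [hz, PadicInt.coe_sub, PadicInt.coe_natCast]
      rw [mul_sub, h1]
    rw [e]
    have h2 : ((z - (z.appr n : ℕ) : ℤ_[q]) : ℚ_[q]) ∈ Qb q n := by
      rw [mem_Qb]
      exact hspec
    have h3 := zpow_mul_mem_Qb q (i := i) h2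
    refine Qb_anti q ?_ h3
    have := Int.self_le_toNat (r - i)
    omega

end Fermat.Agent.S55.helper31
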