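import Mathlib

/-!
# S55 / LOC-3 (helper31): elementary lemmas on `ℤ`-valued additive valuations

`v : AddValuation L (WithTop ℤ)` on a field `L`; balls `ball v r = {x | r ≤ v x}`.
-/

set_option autoImplicit false

namespace Fermat.Agent.S55.helper31

variable {L : Type*} [Field L] (v : AddValuation L (WithTop ℤ))

/-- The ball `{x | r ≤ v x}` as an additive subgroup. -/
def ball (r : ℤ) : AddSubgroup L where
  carrier := {x | ((r : ℤ) : WithTop ℤ) ≤ v x}
  zero_mem' := by simp
  add_mem' := fun {a b} ha hb => v.map_le_add ha hb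
  neg_mem' := fun {a} ha => by simpa [AddValuation.map_neg] using ha

theorem mem_ball {r : ℤ} {x : L} : x ∈ ball v r ↔ ((r : ℤ) : WithTop ℤ) ≤ v x := Iff.rfl

theorem ball_mono {r s : ℤ} (h : r ≤ s) : ball v s ≤ ball v r := fun _ hx =>
  le_trans (WithTop.coe_le_coe.2 h) hx

theorem mul_mem_ball {r s : ℤ} {x y : L} (hx : x ∈ ball v r) (hy : y ∈ ball v s) :
    x * y ∈ ball v (r + s) := by
  rw [mem_ball, v.map_mul, WithTop.coe_add]
  exact add_le_add hx hy

theorem one_mem_ball : (1 : L) ∈ ball v 0 := by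
  rw [mem_ball, v.map_one]; rfl

theorem sum_mem_ball {ι : Type*} {s : Finset ι} {f : ι → L} {r : ℤ}
    (h : ∀ i ∈ s, f i ∈ ball v r) : ∑ i ∈ s, f i ∈ ball v r :=
  AddSubgroup.sum_mem _ h

theorem prod_mem_ball_zero {ι : Type*} {s : Finset ι} {f : ι → L}
    (h : ∀ i ∈ s, f i ∈ ball v 0) : ∏ i ∈ s, f i ∈ ball v 0 := by
  classical
  induction s using Finset.induction_on with
  | empty => simpa using one_mem_ball v
  | insert a s ha ih =>
    rw [Finset.prod_insert ha]
    have := mul_mem_ball v (h a (Finset.mem_insert_self a s))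
      (ih fun i hi => h i (Finset.mem_insert_of_mem hi))
    simpa using this

/-- An element of arbitrarily large valuation is zero. -/
theorem eq_zero_of_forall_mem_ball {z : L} (h : ∀ k : ℕ, z ∈ ball v k) : z = 0 := by
  by_contra hz
  have hne : v z ≠ ⊤ := (AddValuation.ne_top_iff v).2 hz
  obtain ⟨m, hm⟩ := WithTop.ne_top_iff_exists.1 hne
  have := h (m.toNat + 1)
  rw [mem_ball, ← hm, WithTop.coe_le_coe] at this
  have h2 : m ≤ m.toNat := Int.self_le_toNat m
  push_cast at this
  omega

/-- The valuation of a nonzero element, as an integer. -/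
noncomputable def valInt (x : L) : ℤ := (v x).untopD 0

theorem coe_valInt {x : L} (hx : x ≠ 0) : ((valInt v x : ℤ) : WithTop ℤ) = v x := by
  have hne : v x ≠ ⊤ := (AddValuation.ne_top_iff v).2 hx
  obtain ⟨m, hm⟩ := WithTop.ne_top_iff_exists.1 hne
  rw [valInt, ← hm]
  rfl

theorem valInt_mul {x y : L} (hx : x ≠ 0) (hy : y ≠ 0) :
    valInt v (x * y) = valInt v x + valInt v y := by
  have h := v.map_mul x y
  rw [← coe_valInt v hx, ← coe_valInt v hy, ← coe_valInt v (mul_ne_zero hx hy),
    ← WithTop.coe_add, WithTop.coe_eq_coe] at h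
  exact h

theorem valInt_one : valInt v (1 : L) = 0 := by
  simp [valInt, v.map_one]

/-- The valuation as a group homomorphism on units. -/
noncomputable def valU : Lˣ →* Multiplicative ℤ where
  toFun u := Multiplicative.ofAdd (valInt v (u : L))
  map_one' := by simp [valInt_one]
  map_mul' a b := by
    rw [Units.val_mul, valInt_mul v a.ne_zero b.ne_zero, ofAdd_add]

theorem valU_apply (u : Lˣ) : valU v u = Multiplicative.ofAdd (valInt v (u : L)) := rfl

theorem mem_ker_valU {u : Lˣ} : u ∈ (valU v).ker ↔ v (u : L) = 0 := by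
  rw [MonoidHom.mem_ker, valU_apply, ← coe_valInt v u.ne_zero]
  constructor
  · intro h
    have : valInt v (u : L) = 0 := by simpa using h
    rw [this]; rfl
  · intro h
    have : valInt v (u : L) = 0 := by exact_mod_cast h
    rw [this]; rfl

/-- If `0 < r ≤ v (x - 1)` then `v x = 0`. -/
theorem v_eq_zero_of_sub_one_mem_ball {r : ℤ} (hr : 0 < r) {x : L} (h : x - 1 ∈ ball v r) :
    v x = 0 := by
  have h1 : v (1 : L) < v (x - 1) := by
    rw [v.map_one]
    exact lt_of_lt_of_le (by exact_mod_cast hr) h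
  have := v.map_add_eq_of_lt_left h1
  rw [add_sub_cancel, v.map_one] at this
  exact this

/-- `∏ (1 + z i) - 1 - ∑ z i` has valuation `≥ 2 j` when all `z i` have valuation `≥ j ≥ 0`. -/
theorem prod_one_add_sub {ι : Type*} (s : Finset ι) (z : ι → L) {j : ℤ} (hj : 0 ≤ j)
    (hz : ∀ i ∈ s, z i ∈ ball v j) :
    (∏ i ∈ s, (1 + z i) - 1 - ∑ i ∈ s, z i ∈ ball v (j + j)) ∧
      (∏ i ∈ s, (1 + z i) - 1 ∈ ball v j) := by
  classical
  induction s using Finset.induction_on with
  | empty => simp
  | insert a s ha ih =>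
    obtain ⟨h1, h2⟩ := ih fun i hi => hz i (Finset.mem_insert_of_mem hi)
    have hza := hz a (Finset.mem_insert_self a s)
    rw [Finset.prod_insert ha, Finset.sum_insert ha]
    have e1 : (1 + z a) * ∏ i ∈ s, (1 + z i) - 1 - (z a + ∑ i ∈ s, z i)
        = (∏ i ∈ s, (1 + z i) - 1 - ∑ i ∈ s, z i) + z a * (∏ i ∈ s, (1 + z i) - 1) := by ring
    have e2 : (1 + z a) * ∏ i ∈ s, (1 + z i) - 1
        = ((1 + z a) * ∏ i ∈ s, (1 + z i) - 1 - (z a + ∑ i ∈ s, z i))
          + (z a + ∑ i ∈ s, z i) := by ring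
    have h3 : (1 + z a) * ∏ i ∈ s, (1 + z i) - 1 - (z a + ∑ i ∈ s, z i) ∈ ball v (j + j) := by
      rw [e1]
      exact (ball v (j + j)).add_mem h1 (mul_mem_ball v hza h2)
    refine ⟨h3, ?_⟩
    rw [e2]
    refine (ball v j).add_mem (ball_mono v (by omega) h3) ?_
    exact (ball v j).add_mem hza (sum_mem_ball v fun i hi => hz i (Finset.mem_insert_of_mem hi))

/-- `∏ a i - ∏ b i` has valuation `≥ k` if all `a i - b i` do and all `a i, b i` are integral. -/
theorem prod_sub_prod_mem_ball {ι : Type*} (s : Finset ι) (a b : ι → L) {k : ℤ}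
    (ha : ∀ i ∈ s, a i ∈ ball v 0) (hb : ∀ i ∈ s, b i ∈ ball v 0)
    (hab : ∀ i ∈ s, a i - b i ∈ ball v k) :
    ∏ i ∈ s, a i - ∏ i ∈ s, b i ∈ ball v k := by
  classical
  induction s using Finset.induction_on with
  | empty => simp
  | insert c s hc ih =>
    rw [Finset.prod_insert hc, Finset.prod_insert hc]
    have e : a c * ∏ i ∈ s, a i - b c * ∏ i ∈ s, b i
        = (a c - b c) * ∏ i ∈ s, a i + b c * (∏ i ∈ s, a i - ∏ i ∈ s, b i) := by ring
    rw [e]
    refine (ball v k).add_mem ?_ ?_
    · have := mul_mem_ball v (hab c (Finset.mem_insert_self c s))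
        (prod_mem_ball_zero v fun i hi => ha i (Finset.mem_insert_of_mem hi))
      simpa using this
    · have := mul_mem_ball v (hb c (Finset.mem_insert_self c s))
        (ih (fun i hi => ha i (Finset.mem_insert_of_mem hi))
          (fun i hi => hb i (Finset.mem_insert_of_mem hi))
          (fun i hi => hab i (Finset.mem_insert_of_mem hi)))
      simpa using this

end Fermat.Agent.S55.helper31
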