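import Mathlib
import Fermat.Agent.S55.helper31_ValLemmas

/-!
# S55 / LOC-3 (helper31): the normal basis lattice

`L/K` finite Galois, `v` a Galois-invariant `ℤ`-valued valuation on `L`, `b σ = σ θ` a normal
basis with `θ` integral.  `latt v b j` is the set of `x : L` all of whose coordinates have
valuation `≥ j`.
-/

set_option autoImplicit false
set_option linter.unusedSectionVars false

namespace Fermat.Agent.S55.helper31

open Finset

section lattice

variable {K L : Type} [Field K] [Field L] [Algebra K L] [FiniteDimensional K L]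
variable (v : AddValuation L (WithTop ℤ))
variable (b : Module.Basis (L ≃ₐ[K] L) K L)

/-- The lattice of elements whose coordinates in the basis `b` have valuation `≥ j`. -/
def latt (j : ℤ) : AddSubgroup L where
  carrier := {x | ∀ σ, algebraMap K L (b.repr x σ) ∈ ball v j}
  zero_mem' := by intro σ; simp
  add_mem' := by
    intro x y hx hy σ
    simp only [map_add, Finsupp.coe_add, Pi.add_apply]
    exact (ball v j).add_mem (hx σ) (hy σ)
  neg_mem' := by
    intro x hx σ
    simp only [map_neg, Finsupp.coe_neg, Pi.neg_apply]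
    exact (ball v j).neg_mem (hx σ)

theorem mem_latt {j : ℤ} {x : L} :
    x ∈ latt v b j ↔ ∀ σ, algebraMap K L (b.repr x σ) ∈ ball v j := Iff.rfl

theorem latt_mono {i j : ℤ} (h : i ≤ j) : latt v b j ≤ latt v b i := fun _ hx σ =>
  ball_mono v h (hx σ)

theorem smul_basis_mem_latt {j : ℤ} {c : K} (hc : algebraMap K L c ∈ ball v j)
    (σ : L ≃ₐ[K] L) : c • b σ ∈ latt v b j := by
  classical
  intro τ
  rw [map_smul, Module.Basis.repr_self, Finsupp.smul_apply, Finsupp.single_apply]
  split_ifs with h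
  · simpa using hc
  · simp

theorem sum_smul_basis_mem_latt {ι : Type*} (s : Finset ι) {j : ℤ} (c : ι → K)
    (g : ι → (L ≃ₐ[K] L)) (hc : ∀ i ∈ s, algebraMap K L (c i) ∈ ball v j) :
    ∑ i ∈ s, c i • b (g i) ∈ latt v b j :=
  AddSubgroup.sum_mem _ fun i hi => smul_basis_mem_latt v b (hc i hi) (g i)

theorem smul_mem_latt {i j : ℤ} {c : K} (hc : algebraMap K L c ∈ ball v i) {x : L}
    (hx : x ∈ latt v b j) : c • x ∈ latt v b (i + j) := by
  intro σ
  rw [map_smul, Finsupp.smul_apply, smul_eq_mul, map_mul]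
  exact mul_mem_ball v hc (hx σ)

variable {b} in
/-- The lattice is contained in the ball, if the basis is integral. -/
theorem latt_le_ball (hb0 : ∀ σ, b σ ∈ ball v 0) (j : ℤ) : latt v b j ≤ ball v j := by
  intro x hx
  rw [← b.sum_repr x]
  refine sum_mem_ball v fun σ _ => ?_
  rw [Algebra.smul_def]
  have := mul_mem_ball v (hx σ) (hb0 σ)
  simpa using this

end lattice

section galois

variable {K L : Type} [Field K] [Field L] [Algebra K L] [FiniteDimensional K L] [IsGalois K L]
variable (v : AddValuation L (WithTop ℤ))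
variable (hinv : ∀ (σ : L ≃ₐ[K] L) (x : L), v (σ x) = v x)
variable (b : Module.Basis (L ≃ₐ[K] L) K L)

include hinv in
theorem algEquiv_mem_ball {r : ℤ} {x : L} (hx : x ∈ ball v r) (σ : L ≃ₐ[K] L) :
    σ x ∈ ball v r := by
  rw [mem_ball, hinv]; exact hx

include hinv in
/-- The trace does not decrease the valuation. -/
theorem trace_mem_ball {r : ℤ} {x : L} (hx : x ∈ ball v r) :
    algebraMap K L (Algebra.trace K L x) ∈ ball v r := by
  rw [trace_eq_sum_automorphisms]
  exact sum_mem_ball v fun σ _ => algEquiv_mem_ball v hinv hx σ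

include hinv in
/-- **Dual basis bound**: there is `c ≥ 0` such that the ball of radius `j + c` is contained
in the lattice `latt v b j`, for all `j`. -/
theorem exists_ball_le_latt : ∃ c : ℤ, 0 ≤ c ∧ ∀ j : ℤ, ball v (j + c) ≤ latt v b j := by
  classical
  have hB := traceForm_nondegenerate K L
  set d := (Algebra.traceForm K L).dualBasis hB b with hd
  have hrepr : ∀ x σ, b.repr x σ = Algebra.trace K L (x * d σ) := by
    intro x σ
    have h1 := LinearMap.BilinForm.dualBasis_repr_apply hB d x σ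
    rw [hd, LinearMap.BilinForm.dualBasis_dualBasis hB (Algebra.traceForm_isSymm K)] at h1
    rw [h1, ← hd, Algebra.traceForm_apply]
  have hne : ∀ σ, d σ ≠ 0 := fun σ => d.ne_zero σ
  -- choose a common lower bound `-c` for the valuations of the `d σ`
  obtain ⟨c, hc0, hc⟩ : ∃ c : ℤ, 0 ≤ c ∧ ∀ σ, d σ ∈ ball v (-c) := by
    refine ⟨∑ σ, |valInt v (d σ)|, Finset.sum_nonneg fun σ _ => abs_nonneg _, fun σ => ?_⟩
    rw [mem_ball, ← coe_valInt v (hne σ), WithTop.coe_le_coe]
    have h1 : |valInt v (d σ)| ≤ ∑ τ, |valInt v (d τ)| :=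
      Finset.single_le_sum (f := fun τ => |valInt v (d τ)|) (fun τ _ => abs_nonneg _)
        (Finset.mem_univ σ)
    have h2 := neg_abs_le (valInt v (d σ))
    omega
  refine ⟨c, hc0, fun j x hx σ => ?_⟩
  rw [hrepr]
  have := trace_mem_ball v hinv (mul_mem_ball v hx (hc σ))
  simpa using this

variable (θ : L) (hb : ∀ σ, b σ = σ θ)

include hb in
theorem algEquiv_basis (τ σ : L ≃ₐ[K] L) : τ (b σ) = b (τ * σ) := by
  rw [hb, hb, AlgEquiv.mul_apply]

include hb in
/-- Coordinates of `τ x`. -/
theorem repr_algEquiv (τ : L ≃ₐ[K] L) (x : L) (σ : L ≃ₐ[K] L) :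
    b.repr (τ x) σ = b.repr x (τ⁻¹ * σ) := by
  have h1 : τ x = ∑ ρ, b.repr x (τ⁻¹ * ρ) • b ρ := by
    conv_lhs => rw [← b.sum_repr x]
    rw [map_sum]
    simp_rw [map_smul, algEquiv_basis b θ hb]
    exact Fintype.sum_equiv (Equiv.mulLeft τ) _ _ (fun ρ => by simp)
  rw [h1, Module.Basis.repr_sum_self]

include hb in
/-- The lattice is Galois stable. -/
theorem algEquiv_mem_latt {j : ℤ} {x : L} (hx : x ∈ latt v b j) (τ : L ≃ₐ[K] L) :
    τ x ∈ latt v b j := by
  intro σ
  rw [repr_algEquiv b θ hb]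
  exact hx _

include hb in
/-- Fixed elements of the lattice are traces from the lattice. -/
theorem exists_trace_eq_of_fixed {j : ℤ} {x : L} (hx : x ∈ latt v b j)
    (hfix : ∀ σ : L ≃ₐ[K] L, σ x = x) :
    ∃ y ∈ latt v b j, ∑ σ : L ≃ₐ[K] L, σ y = x := by
  set a := b.repr x 1 with ha
  have hall : ∀ σ, b.repr x σ = a := by
    intro σ
    have := repr_algEquiv b θ hb σ x σ
    rw [hfix σ, inv_mul_cancel] at this
    exact this
  refine ⟨a • θ, ?_, ?_⟩
  · have := smul_basis_mem_latt v b (hx 1) 1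
    rwa [hb 1, AlgEquiv.one_apply] at this
  · conv_rhs => rw [← b.sum_repr x]
    refine Finset.sum_congr rfl fun σ _ => ?_
    rw [hall σ, map_smul, hb]

include hb in
/-- Sum of the coordinates and the trace. -/
theorem trace_eq_sum_repr_smul (x : L) :
    ∑ σ : L ≃ₐ[K] L, σ x = ∑ τ : L ≃ₐ[K] L, (∑ σ, b.repr x σ) • b τ := by
  have h1 : ∀ σ : L ≃ₐ[K] L, σ x = ∑ ρ, b.repr x (σ⁻¹ * ρ) • b ρ := by
    intro σ
    conv_lhs => rw [← b.sum_repr (σ x)]
    refine Finset.sum_congr rfl fun ρ _ => ?_
    rw [repr_algEquiv b θ hb]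
  simp_rw [h1]
  rw [Finset.sum_comm]
  refine Finset.sum_congr rfl fun ρ _ => ?_
  rw [← Finset.sum_smul]
  congr 1
  exact Fintype.sum_equiv ((Equiv.inv _).trans (Equiv.mulRight ρ)) _ _ (fun σ => by simp)

include hb in
/-- If the trace of `x` lies in the lattice `latt v b j`, the sum of the coordinates of `x` has
valuation `≥ j`. -/
theorem sum_repr_mem_ball_of_trace_mem {j : ℤ} {x : L}
    (h : ∑ σ : L ≃ₐ[K] L, σ x ∈ latt v b j) :
    algebraMap K L (∑ σ, b.repr x σ) ∈ ball v j := by
  rw [trace_eq_sum_repr_smul b θ hb] at h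
  have := h 1
  rwa [Module.Basis.repr_sum_self] at this

end galois

section abel

variable {K L : Type*} [Ring K] [AddCommGroup L] [Module K L]

/-- Abel summation. -/
theorem abel_sum (a : ℕ → K) (c : ℕ → L) (n : ℕ) :
    ∑ i ∈ range n, (-(∑ k ∈ range (i + 1), a k)) • (c (i + 1) - c i)
      = ∑ i ∈ range n, a i • c i - (∑ k ∈ range n, a k) • c n := by
  induction n with
  | zero => simp
  | succ n ih =>
    rw [Finset.sum_range_succ, ih, Finset.sum_range_succ (fun i => a i • c i),
      Finset.sum_range_succ a n]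
    simp only [neg_smul, smul_sub, add_smul]
    abel

end abel

end Fermat.Agent.S55.helper31

namespace Fermat.Agent.S55.helper31

open Finset

section cyclicSum

variable {G M : Type*} [Group G] [Fintype G] [AddCommMonoid M]

/-- Sums over a finite cyclic group, indexed by powers of a generator. -/
theorem sum_univ_eq_sum_range_pow (φ : G) (hφ : ∀ σ : G, σ ∈ Subgroup.zpowers φ) (f : G → M) :
    ∑ σ, f σ = ∑ i ∈ range (orderOf φ), f (φ ^ i) := by
  symm
  refine Finset.sum_nbij (fun i => φ ^ i) (fun _ _ => Finset.mem_univ _) ?_ ?_ (fun _ _ => rfl)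
  · intro a ha b hb hab
    simp only [Finset.coe_range, Set.mem_Iio] at ha hb
    exact pow_injOn_Iio_orderOf ha hb hab
  · intro σ _
    have h' : σ ∈ Submonoid.powers φ := (mem_powers_iff_mem_zpowers).2 (hφ σ)
    obtain ⟨i, hi⟩ := h'
    refine ⟨i % orderOf φ, ?_, ?_⟩
    · simp only [Finset.coe_range, Set.mem_Iio]
      exact Nat.mod_lt _ (orderOf_pos φ)
    · simp only
      rw [pow_mod_orderOf]; exact hi

end cyclicSum

section decomp

variable {K L : Type} [Field K] [Field L] [Algebra K L] [FiniteDimensional K L] [IsGalois K L]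
variable (v : AddValuation L (WithTop ℤ))
variable (b : Module.Basis (L ≃ₐ[K] L) K L)
variable (θ : L) (hb : ∀ σ, b σ = σ θ)

include hb in
/-- **Cohomological triviality of the lattice, degree `-1`**: every `x` in the lattice is
`φ y - y + s • θ` with `y` in the lattice and `s` the sum of the coordinates of `x`. -/
theorem exists_decomp (φ : L ≃ₐ[K] L) (hφ : ∀ σ : L ≃ₐ[K] L, σ ∈ Subgroup.zpowers φ)
    {j : ℤ} {x : L} (hx : x ∈ latt v b j) :
    ∃ y ∈ latt v b j, x = φ y - y + (∑ σ, b.repr x σ) • θ := by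
  set n := orderOf φ with hn
  set a : ℕ → K := fun i => b.repr x (φ ^ i) with ha
  set c : ℕ → L := fun i => b (φ ^ i) with hc
  have hsx : x = ∑ i ∈ range n, a i • c i := by
    conv_lhs => rw [← b.sum_repr x]
    exact sum_univ_eq_sum_range_pow φ hφ (fun σ => b.repr x σ • b σ)
  have hs : ∑ σ, b.repr x σ = ∑ i ∈ range n, a i :=
    sum_univ_eq_sum_range_pow φ hφ (fun σ => b.repr x σ)
  have hcn : c n = θ := by
    simp only [hc, hn, pow_orderOf_eq_one, hb, AlgEquiv.one_apply]
  have hβ : ∀ i, algebraMap K L (-(∑ k ∈ range (i + 1), a k)) ∈ ball v j := by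
    intro i
    rw [map_neg, map_sum]
    exact (ball v j).neg_mem (sum_mem_ball v fun k _ => hx _)
  refine ⟨∑ i ∈ range n, (-(∑ k ∈ range (i + 1), a k)) • c i, ?_, ?_⟩
  · exact sum_smul_basis_mem_latt v b _ _ _ fun i _ => hβ i
  · have hφy : φ (∑ i ∈ range n, (-(∑ k ∈ range (i + 1), a k)) • c i)
        = ∑ i ∈ range n, (-(∑ k ∈ range (i + 1), a k)) • c (i + 1) := by
      rw [map_sum]
      refine Finset.sum_congr rfl fun i _ => ?_
      rw [map_smul]
      simp only [hc]
      rw [algEquiv_basis b θ hb, ← pow_succ']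
    rw [hφy, ← Finset.sum_sub_distrib]
    simp_rw [← smul_sub]
    rw [abel_sum, hcn, ← hsx, hs]
    abel

end decomp

end Fermat.Agent.S55.helper31
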