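import Mathlib
import Fermat.Agent.S55.helper31_Lattice

/-!
# S55 / GLOB-LAT (helper31): permutation lattices

`A` a free `R`-module with a basis `E` indexed by `ι × G` which is permuted by a finite group `G`
acting `R`-linearly on `A`: `σ • E (i, τ) = E (i, σ * τ)`.  For a filtration `Q j` (`j : ℤ`) of
`R` by additive subgroups, `plat E Q j` is the set of elements all of whose coordinates lie in
`Q j`.  These lattices are `G`-stable and cohomologically trivial:

* `exists_trace_eq_of_fixed_plat` : fixed elements are traces;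
* `exists_decomp_plat` : an element whose trace lies in `plat E Q k` is `φ • y - y` modulo
  `plat E Q k` (for a generator `φ` of `G`).

They inherit separatedness, completeness and total boundedness from `Q`.
-/

set_option autoImplicit false
set_option linter.unusedSectionVars false

namespace Fermat.Agent.S55.helper31

open Finset

section plat

variable {R A ι G : Type*} [CommRing R] [AddCommGroup A] [Module R A] [Group G] [Fintype G]
  [Fintype ι] [DistribMulAction G A]
variable (E : Module.Basis (ι × G) R A) (Q : ℤ → AddSubgroup R)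

/-- The lattice of elements whose coordinates in the basis `E` lie in `Q j`. -/
def plat (j : ℤ) : AddSubgroup A where
  carrier := {x | ∀ k, E.repr x k ∈ Q j}
  zero_mem' := by
    intro k
    simp
  add_mem' := by
    intro x y hx hy k
    simp only [map_add, Finsupp.coe_add, Pi.add_apply]
    exact (Q j).add_mem (hx k) (hy k)
  neg_mem' := by
    intro x hx k
    simp only [map_neg, Finsupp.coe_neg, Pi.neg_apply]
    exact (Q j).neg_mem (hx k)

theorem mem_plat {j : ℤ} {x : A} : x ∈ plat E Q j ↔ ∀ k, E.repr x k ∈ Q j := Iff.rfl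

theorem plat_anti (hQ : ∀ {i j : ℤ}, i ≤ j → Q j ≤ Q i) {i j : ℤ} (h : i ≤ j) :
    plat E Q j ≤ plat E Q i := fun _ hx k => hQ h (hx k)

theorem smul_basis_mem_plat {j : ℤ} {c : R} (hc : c ∈ Q j) (k : ι × G) :
    c • E k ∈ plat E Q j := by
  classical
  intro l
  rw [map_smul, Module.Basis.repr_self, Finsupp.smul_apply, Finsupp.single_apply]
  split_ifs with h
  · simpa using hc
  · simp

theorem sum_smul_mem_plat {j : ℤ} (c : ι × G → R) (hc : ∀ k, c k ∈ Q j) :
    ∑ k, c k • E k ∈ plat E Q j :=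
  AddSubgroup.sum_mem _ fun k _ => smul_basis_mem_plat E Q (hc k) k

theorem repr_sum_smul (c : ι × G → R) (l : ι × G) : E.repr (∑ k, c k • E k) l = c l := by
  rw [Module.Basis.repr_sum_self]

theorem smul_mem_plat_of_mem
    (hQmul : ∀ {i j : ℤ} {x y : R}, x ∈ Q i → y ∈ Q j → x * y ∈ Q (i + j))
    {i j : ℤ} {r : R} (hr : r ∈ Q i) {x : A} (hx : x ∈ plat E Q j) :
    r • x ∈ plat E Q (i + j) := by
  intro k
  rw [map_smul, Finsupp.smul_apply, smul_eq_mul]
  exact hQmul hr (hx k)

/-- Separatedness. -/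
theorem plat_sep (hQsep : ∀ r : R, (∀ k : ℕ, r ∈ Q k) → r = 0) (x : A)
    (h : ∀ k : ℕ, x ∈ plat E Q k) : x = 0 := by
  apply E.repr.injective
  ext l
  rw [map_zero, Finsupp.zero_apply]
  exact hQsep _ fun k => h k l

/-- Completeness. -/
theorem plat_complete
    (hQc : ∀ x : ℕ → R, (∀ k : ℕ, x (k + 1) - x k ∈ Q k) → ∃ y : R, ∀ k : ℕ, y - x k ∈ Q k)
    (x : ℕ → A) (hx : ∀ k : ℕ, x (k + 1) - x k ∈ plat E Q k) :
    ∃ y : A, ∀ k : ℕ, y - x k ∈ plat E Q k := by
  have h : ∀ l, ∃ y : R, ∀ k : ℕ, y - E.repr (x k) l ∈ Q k := by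
    intro l
    refine hQc (fun k => E.repr (x k) l) fun k => ?_
    have := hx k l
    simpa using this
  choose y hy using h
  refine ⟨∑ l, y l • E l, fun k l => ?_⟩
  rw [map_sub, Finsupp.sub_apply, repr_sum_smul]
  exact hy l k

/-- Total boundedness. -/
theorem plat_totallyBounded
    (hQtb : ∀ i r : ℤ, ∃ S : Finset R, ∀ a ∈ Q i, ∃ s ∈ S, a - s ∈ Q r) (i r : ℤ) :
    ∃ S : Finset A, ∀ x ∈ plat E Q i, ∃ s ∈ S, x - s ∈ plat E Q r := by
  classical
  obtain ⟨S₀, hS₀⟩ := hQtb i r
  refine ⟨(Fintype.piFinset fun _ : ι × G => S₀).image fun f => ∑ l, f l • E l, fun x hx => ?_⟩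
  have h : ∀ l, ∃ s ∈ S₀, E.repr x l - s ∈ Q r := fun l => hS₀ _ (hx l)
  choose s hs hsx using h
  refine ⟨∑ l, s l • E l, ?_, fun l => ?_⟩
  · rw [Finset.mem_image]
    exact ⟨s, Fintype.mem_piFinset.2 hs, rfl⟩
  · rw [map_sub, Finsupp.sub_apply, repr_sum_smul]
    exact hsx l

variable (hE : ∀ (σ : G) (i : ι) (τ : G), σ • E (i, τ) = E (i, σ * τ))
  (hlin : ∀ (σ : G) (r : R) (x : A), σ • (r • x) = r • (σ • x))

include hE hlin in
/-- Coordinates of `σ • x`. -/
theorem repr_smul_plat (σ : G) (x : A) (i : ι) (τ : G) :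
    E.repr (σ • x) (i, τ) = E.repr x (i, σ⁻¹ * τ) := by
  have h1 : σ • x = ∑ k : ι × G, E.repr x (k.1, σ⁻¹ * k.2) • E k := by
    conv_lhs => rw [← E.sum_repr x]
    rw [Finset.smul_sum]
    simp_rw [hlin]
    refine Fintype.sum_equiv ((Equiv.refl ι).prodCongr (Equiv.mulLeft σ)) _ _ ?_
    rintro ⟨i, τ⟩
    simp only [Equiv.prodCongr_apply, Equiv.coe_refl, Prod.map_apply, id_eq,
      Equiv.coe_mulLeft, inv_mul_cancel_left]
    rw [hE]
  rw [h1, repr_sum_smul]

include hE hlin in
/-- The lattice is stable under the group. -/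
theorem smul_mem_plat {j : ℤ} {x : A} (hx : x ∈ plat E Q j) (σ : G) :
    σ • x ∈ plat E Q j := by
  rintro ⟨i, τ⟩
  rw [repr_smul_plat E hE hlin]
  exact hx _

include hE hlin in
/-- Coordinates of the trace. -/
theorem repr_trace_plat (x : A) (i : ι) (τ : G) :
    E.repr (∑ σ : G, σ • x) (i, τ) = ∑ ρ : G, E.repr x (i, ρ) := by
  rw [map_sum, Finsupp.coe_finsetSum, Finset.sum_apply]
  simp_rw [repr_smul_plat E hE hlin]
  exact Fintype.sum_equiv ((Equiv.inv G).trans (Equiv.mulRight τ)) _ _ (fun σ => by simp)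

include hE hlin in
/-- Fixed elements of the lattice are traces from the lattice. -/
theorem exists_trace_eq_of_fixed_plat {j : ℤ} {x : A} (hx : x ∈ plat E Q j)
    (hfix : ∀ σ : G, σ • x = x) :
    ∃ y ∈ plat E Q j, ∑ σ : G, σ • y = x := by
  classical
  have hall : ∀ (i : ι) (τ : G), E.repr x (i, τ) = E.repr x (i, 1) := by
    intro i τ
    have := repr_smul_plat E hE hlin τ x i τ
    rw [hfix τ, inv_mul_cancel] at this
    exact this
  set c : ι × G → R := fun k => if k.2 = 1 then E.repr x (k.1, 1) else 0 with hc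
  have hcQ : ∀ k, c k ∈ Q j := by
    intro k
    simp only [hc]
    split_ifs
    · exact hx _
    · exact (Q j).zero_mem
  refine ⟨∑ k, c k • E k, sum_smul_mem_plat E Q c hcQ, ?_⟩
  apply E.repr.injective
  ext ⟨i, τ⟩
  rw [repr_trace_plat E hE hlin]
  simp_rw [repr_sum_smul]
  rw [hall i τ]
  simp only [hc]
  rw [Finset.sum_ite_eq' Finset.univ (1 : G) fun _ => E.repr x (i, 1)]
  simp

include hE hlin in
/-- **Cohomological triviality of the lattice, degree `-1`**: if the trace of `x` lies in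
`plat E Q k` then `x` is of the form `φ • y - y` modulo `plat E Q k`, with `y` as integral
as `x`. -/
theorem exists_decomp_plat (φ : G) (hφ : ∀ σ : G, σ ∈ Subgroup.zpowers φ)
    {j k : ℤ} {x : A} (hx : x ∈ plat E Q j) (htr : ∑ σ : G, σ • x ∈ plat E Q k) :
    ∃ y ∈ plat E Q j, x - (φ • y - y) ∈ plat E Q k := by
  classical
  set n := orderOf φ with hn
  set a : ι → ℕ → R := fun i m => E.repr x (i, φ ^ m) with ha
  set c : ι → ℕ → A := fun i m => E (i, φ ^ m) with hc
  have hsx : x = ∑ i, ∑ m ∈ range n, a i m • c i m := by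
    conv_lhs => rw [← E.sum_repr x]
    rw [Fintype.sum_prod_type]
    refine Finset.sum_congr rfl fun i _ => ?_
    exact sum_univ_eq_sum_range_pow φ hφ (fun σ => E.repr x (i, σ) • E (i, σ))
  have hs : ∀ i, ∑ σ, E.repr x (i, σ) = ∑ m ∈ range n, a i m := fun i =>
    sum_univ_eq_sum_range_pow φ hφ (fun σ => E.repr x (i, σ))
  have hcn : ∀ i, c i n = E (i, 1) := by
    intro i
    simp only [hc, hn, pow_orderOf_eq_one]
  have hβ : ∀ i m, -(∑ l ∈ range (m + 1), a i l) ∈ Q j := by
    intro i m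
    exact (Q j).neg_mem (AddSubgroup.sum_mem _ fun l _ => hx _)
  set y : A := ∑ i, ∑ m ∈ range n, (-(∑ l ∈ range (m + 1), a i l)) • c i m with hy
  have hyM : y ∈ plat E Q j :=
    AddSubgroup.sum_mem _ fun i _ => AddSubgroup.sum_mem _ fun m _ =>
      smul_basis_mem_plat E Q (hβ i m) _
  refine ⟨y, hyM, ?_⟩
  have hφy : φ • y = ∑ i, ∑ m ∈ range n, (-(∑ l ∈ range (m + 1), a i l)) • c i (m + 1) := by
    rw [hy, Finset.smul_sum]
    refine Finset.sum_congr rfl fun i _ => ?_
    rw [Finset.smul_sum]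
    refine Finset.sum_congr rfl fun m _ => ?_
    rw [hlin]
    simp only [hc]
    rw [hE, ← pow_succ']
  have hdiff : φ • y - y = (∑ i, ∑ m ∈ range n, a i m • c i m)
      - ∑ i, (∑ m ∈ range n, a i m) • E (i, 1) := by
    rw [hφy, hy, ← Finset.sum_sub_distrib, ← Finset.sum_sub_distrib]
    refine Finset.sum_congr rfl fun i _ => ?_
    rw [← Finset.sum_sub_distrib]
    simp_rw [← smul_sub]
    rw [abel_sum, hcn]
  rw [hdiff, ← hsx, sub_sub_cancel]
  refine AddSubgroup.sum_mem _ fun i _ => smul_basis_mem_plat E Q ?_ _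
  rw [← hs]
  have := htr (i, 1)
  rwa [repr_trace_plat E hE hlin] at this

end plat

end Fermat.Agent.S55.helper31
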