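import Mathlib

/-!
# S55 / GLOB-LAT (helper31): the trace of an integral element is integral

For a finite-dimensional commutative algebra `A` over a field `K` (not necessarily a field) and a
subring `R`, the trace of an element of `A` integral over `R` is integral over `R`
(`isIntegral_trace_of_isIntegral`).  Also: the trace of `1 ⊗ y` in a base change.
-/

set_option autoImplicit false

namespace Fermat.Agent.S55.helper31

open scoped TensorProduct

/-- The trace of an element integral over `R` is integral over `R`. -/
theorem isIntegral_trace_of_isIntegral {R K A : Type*} [CommRing R] [Field K] [CommRing A]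
    [Algebra R K] [Algebra K A] [Algebra R A] [IsScalarTower R K A] [Module.Finite K A]
    {x : A} (hx : IsIntegral R x) : IsIntegral R (Algebra.trace K A x) := by
  classical
  obtain ⟨P, hP, hPx⟩ := hx
  rw [← Polynomial.aeval_def] at hPx
  let b := Module.Free.chooseBasis K A
  rw [Algebra.trace_eq_matrix_trace b]
  set M := Algebra.leftMulMatrix b x with hM
  have hPM : Polynomial.aeval M P = 0 := by
    have := Polynomial.aeval_algHom_apply ((Algebra.leftMulMatrix b).restrictScalars R) x P
    rw [hPx, map_zero] at this
    exact this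
  let Ω := AlgebraicClosure K
  let g : Matrix (Module.Free.ChooseBasisIndex K A) (Module.Free.ChooseBasisIndex K A) K →ₐ[R]
      Matrix (Module.Free.ChooseBasisIndex K A) (Module.Free.ChooseBasisIndex K A) Ω :=
    (IsScalarTower.toAlgHom R K Ω).mapMatrix
  have hPM' : Polynomial.aeval (g M) P = 0 := by
    rw [Polynomial.aeval_algHom_apply, hPM, map_zero]
  have htr : algebraMap K Ω M.trace = (g M).trace := by
    simp [g, Matrix.trace, Matrix.diag]
  rw [← isIntegral_algebraMap_iff (algebraMap K Ω).injective, htr,
    Matrix.trace_eq_sum_roots_charpoly]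
  refine IsIntegral.multiset_sum fun μ hμ => ?_
  have hroot : (g M).charpoly.IsRoot μ :=
    (Polynomial.mem_roots (Matrix.charpoly_monic _).ne_zero).1 hμ
  have hspec : μ ∈ spectrum Ω (g M) := Matrix.mem_spectrum_iff_isRoot_charpoly.2 hroot
  have h1 : Polynomial.eval μ (P.map (algebraMap R Ω))
      ∈ spectrum Ω (Polynomial.aeval (g M) (P.map (algebraMap R Ω))) :=
    spectrum.subset_polynomial_aeval (g M) (P.map (algebraMap R Ω)) ⟨μ, hspec, rfl⟩
  have h0 : Polynomial.eval μ (P.map (algebraMap R Ω)) = 0 := by
    by_contra hne
    rw [Polynomial.aeval_map_algebraMap, hPM', spectrum.mem_iff, sub_zero] at h1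
    exact h1 ((IsUnit.mk0 _ hne).map (algebraMap Ω _))
  refine ⟨P, hP, ?_⟩
  rw [← h0, Polynomial.eval_map]

/-- The trace of `1 ⊗ y` in a base change is the trace of `y`. -/
theorem trace_one_tmul {R S : Type*} [CommRing R] [CommRing S] [Algebra R S]
    [Module.Free R S] [Module.Finite R S] (T : Type*) [CommRing T] [Algebra R T] (y : S) :
    Algebra.trace T (T ⊗[R] S) (1 ⊗ₜ[R] y) = algebraMap R T (Algebra.trace R S y) := by
  rw [Algebra.trace_apply, Algebra.trace_apply, ← LinearMap.trace_baseChange]
  congr 1
  apply TensorProduct.AlgebraTensorModule.ext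
  intro a s
  simp [LinearMap.baseChange_tmul, Algebra.TensorProduct.tmul_mul_tmul]

end Fermat.Agent.S55.helper31
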