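import Fermat.Agent.S55.helper73_GlobDefs

/-!
# S55 / GLOB: shared definitions, part 2 (helper73)

* `hZero G A`, `hMinus A σ` : the orders of `Ĥ^0(G, A)` and `Ĥ^{-1}(G, A)` of a multiplicative
  `G`-module (as indices, `0` if infinite); for `G = ⟨σ⟩` finite cyclic.
* `stableAction H hH` : the action of `G` on a `G`-stable subgroup `H` (a `def`, use `letI`).
* `intUnitsAction` : instance, `Gal(L/K)` acts on `↥(intUnits q L)`.
* `princUnits q L` : the principal units `1 + q·𝓞` of `ℚ_q ⊗ L` (subgroup of the units).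
* `UnitIdele L := ∀ q, ↥(intUnits q L)` : the unit ideles `∏_q U_q`, with `unitIdeleHom` into
  `Idele L` and `unitIdeleClassHom` into `IdeleClass L`.
* `bc K L q : ℚ_q ⊗ K → ℚ_q ⊗ L` : base change, `bcUnits`, `bcIdele : Idele K →* Idele L`.
* `globalUnits L : Subgroup Lˣ` : the units of the ring of integers, as a subgroup of `Lˣ`.
-/

set_option autoImplicit false

open scoped TensorProduct

namespace Fermat.Agent.S55.helper73

section Herbrand

variable (G A : Type*) [Group G] [Fintype G] [CommGroup A] [MulDistribMulAction G A]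

/-- `|Ĥ^0(G, A)| = [A^G : N A]` (`0` if infinite). -/
noncomputable def hZero : ℕ := ((normG G A).range.subgroupOf (fixedSub G A)).index

variable {G} in
/-- `|Ĥ^{-1}(G, A)| = [ker N : (σ - 1) A]` (`0` if infinite), for `G` cyclic generated by `σ`. -/
noncomputable def hMinus (σ : G) : ℕ :=
  ((deltaHom A σ).range.subgroupOf (normG G A).ker).index

lemma hZero_def : hZero G A = ((normG G A).range.subgroupOf (fixedSub G A)).index := rfl

variable {G} in
lemma hMinus_def (σ : G) :
    hMinus A σ = ((deltaHom A σ).range.subgroupOf (normG G A).ker).index := rfl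

end Herbrand

section Stable

variable {G A : Type*} [Group G] [CommGroup A] [MulDistribMulAction G A]

/-- The action of `G` on a `G`-stable subgroup (not an instance: use `letI`). -/
@[reducible]
def stableAction (H : Subgroup A) (hH : ∀ (σ : G) (x : A), x ∈ H → σ • x ∈ H) :
    MulDistribMulAction G H where
  smul σ x := ⟨σ • x.1, hH σ x.1 x.2⟩
  one_smul _ := Subtype.ext (one_smul _ _)
  mul_smul _ _ _ := Subtype.ext (mul_smul _ _ _)
  smul_mul _ _ _ := Subtype.ext (smul_mul' _ _ _)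
  smul_one _ := Subtype.ext (smul_one _)

end Stable

section IntUnits

variable (q : ℕ) [Fact q.Prime] (L : Type*) [Field L] [CharZero L]
  (K : Type*) [Field K] [Algebra K L]

/-- `Gal(L/K)` acts on the integral units of `ℚ_q ⊗ L`. -/
noncomputable instance intUnitsAction : MulDistribMulAction (L ≃ₐ[K] L) (intUnits q L) :=
  stableAction (intUnits q L) fun σ _ hx => smul_mem_intUnits q L K σ hx

@[simp]
lemma coe_smul_intUnits (σ : L ≃ₐ[K] L) (x : intUnits q L) :
    ((σ • x : intUnits q L) : (SemiLoc q L)ˣ) = σ • (x : (SemiLoc q L)ˣ) := rfl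

/-- The principal units `1 + q·𝓞` of the semilocal algebra: units `x` such that
`x = 1 + q z` and `x⁻¹ = 1 + q z'` with `z`, `z'` integral over `ℤ_[q]`. -/
def princUnits : Subgroup (SemiLoc q L)ˣ where
  carrier := {x |
    (∃ z : SemiLoc q L, IsIntegral ℤ_[q] z ∧ (x : SemiLoc q L) = 1 + (q : ℚ_[q]) • z) ∧
    (∃ z : SemiLoc q L, IsIntegral ℤ_[q] z ∧
      ((x⁻¹ : (SemiLoc q L)ˣ) : SemiLoc q L) = 1 + (q : ℚ_[q]) • z)}
  one_mem' := ⟨⟨0, isIntegral_zero, by simp⟩, ⟨0, isIntegral_zero, by simp⟩⟩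
  mul_mem' := by
    rintro x y ⟨⟨z, hz, hx⟩, ⟨z', hz', hx'⟩⟩ ⟨⟨w, hw, hy⟩, ⟨w', hw', hy'⟩⟩
    have hq : IsIntegral ℤ_[q] (algebraMap ℚ_[q] (SemiLoc q L) (q : ℚ_[q])) := by
      have : algebraMap ℚ_[q] (SemiLoc q L) (q : ℚ_[q]) =
          algebraMap ℤ_[q] (SemiLoc q L) (q : ℤ_[q]) := by
        rw [IsScalarTower.algebraMap_apply ℤ_[q] ℚ_[q] (SemiLoc q L)]
        simp
      rw [this]
      exact isIntegral_algebraMap
    refine ⟨⟨z + w + algebraMap ℚ_[q] (SemiLoc q L) (q : ℚ_[q]) * (z * w),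
      (hz.add hw).add (hq.mul (hz.mul hw)), ?_⟩,
      ⟨w' + z' + algebraMap ℚ_[q] (SemiLoc q L) (q : ℚ_[q]) * (w' * z'),
      (hw'.add hz').add (hq.mul (hw'.mul hz')), ?_⟩⟩
    · rw [Units.val_mul, hx, hy]
      simp only [Algebra.smul_def]
      ring
    · rw [mul_inv_rev, Units.val_mul, hx', hy']
      simp only [Algebra.smul_def]
      ring
  inv_mem' := by
    rintro x ⟨h1, h2⟩
    exact ⟨h2, by simpa using h1⟩

lemma mem_princUnits {x : (SemiLoc q L)ˣ} : x ∈ princUnits q L ↔
    (∃ z : SemiLoc q L, IsIntegral ℤ_[q] z ∧ (x : SemiLoc q L) = 1 + (q : ℚ_[q]) • z) ∧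
    (∃ z : SemiLoc q L, IsIntegral ℤ_[q] z ∧
      ((x⁻¹ : (SemiLoc q L)ˣ) : SemiLoc q L) = 1 + (q : ℚ_[q]) • z) := Iff.rfl

end IntUnits

section UnitIdele

variable (L : Type*) [Field L] [CharZero L]

/-- The unit ideles `∏_q U_q` (a type synonym of the product, with its own instances). -/
def UnitIdele : Type _ := ∀ q : Nat.Primes, intUnits (q : ℕ) L

noncomputable instance unitIdeleCommGroup : CommGroup (UnitIdele L) :=
  inferInstanceAs (CommGroup (∀ q : Nat.Primes, intUnits (q : ℕ) L))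

/-- Components of a unit idele. -/
def UnitIdele.comp {L : Type*} [Field L] [CharZero L] (u : UnitIdele L) (q : Nat.Primes) :
    intUnits (q : ℕ) L := u q

/-- Build a unit idele from its components. -/
def UnitIdele.mk {L : Type*} [Field L] [CharZero L]
    (u : ∀ q : Nat.Primes, intUnits (q : ℕ) L) : UnitIdele L := u

@[simp] lemma UnitIdele.comp_mk (u : ∀ q : Nat.Primes, intUnits (q : ℕ) L) (q : Nat.Primes) :
    (UnitIdele.mk u).comp q = u q := rfl

@[simp] lemma UnitIdele.comp_one (q : Nat.Primes) : (1 : UnitIdele L).comp q = 1 := rfl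

@[simp] lemma UnitIdele.comp_mul (u v : UnitIdele L) (q : Nat.Primes) :
    (u * v).comp q = u.comp q * v.comp q := rfl

@[simp] lemma UnitIdele.comp_inv (u : UnitIdele L) (q : Nat.Primes) :
    (u⁻¹).comp q = (u.comp q)⁻¹ := rfl

@[simp] lemma UnitIdele.comp_div (u v : UnitIdele L) (q : Nat.Primes) :
    (u / v).comp q = u.comp q / v.comp q := rfl

@[ext] lemma UnitIdele.ext {u v : UnitIdele L} (h : ∀ q, u.comp q = v.comp q) : u = v :=
  funext h

/-- The inclusion of the unit ideles into the ideles. -/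
noncomputable def unitIdeleHom : UnitIdele L →* Idele L where
  toFun u := ⟨fun q => (u.comp q : (SemiLoc (q : ℕ) L)ˣ),
    (mem_idele L).2 (Filter.Eventually.of_forall fun q => (u.comp q).2)⟩
  map_one' := rfl
  map_mul' _ _ := rfl

@[simp]
lemma unitIdeleHom_apply (u : UnitIdele L) (q : Nat.Primes) :
    (unitIdeleHom L u : IdelePi L) q = (u.comp q : (SemiLoc (q : ℕ) L)ˣ) := rfl

lemma unitIdeleHom_injective : Function.Injective (unitIdeleHom L) := by
  intro u v h
  apply UnitIdele.ext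
  intro q
  apply Subtype.ext
  have := congrArg (fun x : Idele L => (x : IdelePi L) q) h
  simpa using this

/-- The map from the unit ideles to the idele class group. -/
noncomputable def unitIdeleClassHom : UnitIdele L →* IdeleClass L :=
  (QuotientGroup.mk' (principalSub L)).comp (unitIdeleHom L)

variable (K : Type*) [Field K] [Algebra K L]

/-- `Gal(L/K)` acts on the unit ideles (componentwise). -/
noncomputable instance unitIdeleAction : MulDistribMulAction (L ≃ₐ[K] L) (UnitIdele L) :=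
  @Pi.mulDistribMulAction Nat.Primes (fun q => intUnits (q : ℕ) L) (L ≃ₐ[K] L) _ _
    (fun q => intUnitsAction (q : ℕ) L K)

@[simp]
lemma UnitIdele.comp_smul (σ : L ≃ₐ[K] L) (u : UnitIdele L) (q : Nat.Primes) :
    (σ • u).comp q = σ • u.comp q := rfl

lemma unitIdeleHom_smul (σ : L ≃ₐ[K] L) (u : UnitIdele L) :
    unitIdeleHom L (σ • u) = σ • unitIdeleHom L u := rfl

lemma unitIdeleClassHom_smul (σ : L ≃ₐ[K] L) (u : UnitIdele L) :
    unitIdeleClassHom L (σ • u) = σ • unitIdeleClassHom L u := rfl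

end UnitIdele

section BaseChange

variable (K L : Type*) [Field K] [CharZero K] [Field L] [CharZero L] [Algebra K L]

/-- Base change `ℚ_q ⊗ K → ℚ_q ⊗ L`. -/
noncomputable def bc (q : ℕ) [Fact q.Prime] : SemiLoc q K →ₐ[ℚ_[q]] SemiLoc q L :=
  Algebra.TensorProduct.map (AlgHom.id ℚ_[q] ℚ_[q]) (algebraMap K L).toRatAlgHom

@[simp]
lemma bc_tmul (q : ℕ) [Fact q.Prime] (a : ℚ_[q]) (b : K) :
    bc K L q (a ⊗ₜ[ℚ] b) = a ⊗ₜ[ℚ] algebraMap K L b := by
  simp [bc]

/-- Base change on units. -/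
noncomputable def bcUnits (q : ℕ) [Fact q.Prime] : (SemiLoc q K)ˣ →* (SemiLoc q L)ˣ :=
  Units.map (bc K L q : SemiLoc q K →* SemiLoc q L)

@[simp]
lemma coe_bcUnits (q : ℕ) [Fact q.Prime] (x : (SemiLoc q K)ˣ) :
    ((bcUnits K L q x : (SemiLoc q L)ˣ) : SemiLoc q L) = bc K L q (x : SemiLoc q K) := rfl

lemma bcUnits_mem_intUnits (q : ℕ) [Fact q.Prime] {x : (SemiLoc q K)ˣ}
    (hx : x ∈ intUnits q K) : bcUnits K L q x ∈ intUnits q L := by
  obtain ⟨h1, h2⟩ := hx
  exact ⟨h1.map ((bc K L q).restrictScalars ℤ_[q]), h2.map ((bc K L q).restrictScalars ℤ_[q])⟩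

/-- Base change on ideles `J_K → J_L`. -/
noncomputable def bcIdele : Idele K →* Idele L where
  toFun x := ⟨fun q => bcUnits K L (q : ℕ) ((x : IdelePi K) q),
    ((mem_idele K).1 x.2).mono fun q h => bcUnits_mem_intUnits K L (q : ℕ) h⟩
  map_one' := by
    apply Subtype.ext
    funext q
    exact map_one _
  map_mul' x y := by
    apply Subtype.ext
    funext q
    exact map_mul _ _ _

@[simp]
lemma bcIdele_apply (x : Idele K) (q : Nat.Primes) :
    (bcIdele K L x : IdelePi L) q = bcUnits K L (q : ℕ) ((x : IdelePi K) q) := rfl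

end BaseChange

section GlobalUnits

variable (L : Type*) [Field L]

/-- The units of the ring of integers of `L`, as a subgroup of `Lˣ`: `x` and `x⁻¹` integral
over `ℤ`. -/
def globalUnits : Subgroup Lˣ where
  carrier := {x | IsIntegral ℤ (x : L) ∧ IsIntegral ℤ ((x⁻¹ : Lˣ) : L)}
  one_mem' := ⟨by simpa using isIntegral_one, by simpa using isIntegral_one⟩
  mul_mem' := by
    rintro x y ⟨hx, hx'⟩ ⟨hy, hy'⟩
    refine ⟨by simpa using hx.mul hy, ?_⟩
    rw [mul_inv_rev]
    simpa using hy'.mul hx'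
  inv_mem' := by
    rintro x ⟨hx, hx'⟩
    exact ⟨hx', by simpa using hx⟩

lemma mem_globalUnits {x : Lˣ} : x ∈ globalUnits L ↔
    IsIntegral ℤ (x : L) ∧ IsIntegral ℤ ((x⁻¹ : Lˣ) : L) := Iff.rfl

end GlobalUnits

end Fermat.Agent.S55.helper73
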