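import Mathlib
import Fermat.Agent.S55.helper73_GlobDefs2
import Fermat.Agent.S55.helper31_FiltRing
import Fermat.Agent.S55.helper31_PermLattice
import Fermat.Agent.S55.helper31_PadicBall
import Fermat.Agent.S55.helper31_TraceIntegral
import Fermat.Agent.S55.helper31_GlobLatt

/-!
# S55 / GLOB-LAT (helper31): the filtered ring structure of the semilocal algebra `ℚ_q ⊗ L`

For a finite Galois extension `L/K` of number fields with cyclic group `⟨σ⟩`, a global normal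
basis lattice `D : GlobLatt K L` and a prime `q`:

* `Bfil q L j = q ^ j • (integral closure of ℤ_q in ℚ_q ⊗ L)`;
* `D.Mfil q j` = the elements whose coordinates in the basis `1 ⊗ D.β` lie in `q ^ j ℤ_q`;
* `D.cond q = v_q (D.m)` and `Bfil (j + cond) ≤ Mfil j ≤ Bfil j` (the first inclusion by the
  integrality of the trace);
* `D.filtRing q σ hσ : FiltRing Gal(L/K) (ℚ_q ⊗ L)`.
-/

set_option autoImplicit false
set_option linter.unusedSectionVars false

namespace Fermat.Agent.S55.helper31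

open scoped TensorProduct NumberField
open Fermat.Agent.S55.helper73

section general

variable (q : ℕ) [Fact q.Prime] (L : Type*) [Field L] [NumberField L]

theorem isIntegral_one_tmul_of_isIntegral {y : L} (hy : IsIntegral ℤ y) :
    IsIntegral ℤ_[q] ((1 : ℚ_[q]) ⊗ₜ[ℚ] y : SemiLoc q L) := by
  have h1 : IsIntegral ℤ ((1 : ℚ_[q]) ⊗ₜ[ℚ] y : SemiLoc q L) :=
    map_isIntegral_int (Algebra.TensorProduct.includeRight : L →ₐ[ℚ] SemiLoc q L) hy
  exact h1.tower_top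

theorem isIntegral_smul_of_mem_Qb {c : ℚ_[q]} (hc : c ∈ Qb q 0) {z : SemiLoc q L}
    (hz : IsIntegral ℤ_[q] z) : IsIntegral ℤ_[q] (c • z) := by
  have hc' := (mem_Qb_zero_iff q).1 hc
  let y : ℤ_[q] := ⟨c, hc'⟩
  have : c • z = y • z := by
    rw [← algebraMap_smul ℚ_[q] y z]
    rfl
  rw [this]
  exact hz.smul _

/-- The multiplicative filtration `q ^ j • 𝓞` of the semilocal algebra. -/
def Bfil (j : ℤ) : AddSubgroup (SemiLoc q L) where
  carrier := {x | ∃ z : SemiLoc q L, IsIntegral ℤ_[q] z ∧ x = ((q : ℚ_[q]) ^ j) • z}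
  zero_mem' := ⟨0, isIntegral_zero, by simp⟩
  add_mem' := by
    rintro _ _ ⟨z, hz, rfl⟩ ⟨w, hw, rfl⟩
    exact ⟨z + w, hz.add hw, by rw [smul_add]⟩
  neg_mem' := by
    rintro _ ⟨z, hz, rfl⟩
    exact ⟨-z, hz.neg, by rw [smul_neg]⟩

theorem mem_Bfil {j : ℤ} {x : SemiLoc q L} :
    x ∈ Bfil q L j ↔ ∃ z : SemiLoc q L, IsIntegral ℤ_[q] z ∧ x = ((q : ℚ_[q]) ^ j) • z :=
  Iff.rfl

theorem mem_Bfil_zero {x : SemiLoc q L} : x ∈ Bfil q L 0 ↔ IsIntegral ℤ_[q] x := by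
  rw [mem_Bfil]
  constructor
  · rintro ⟨z, hz, rfl⟩
    simpa using hz
  · intro h
    exact ⟨x, h, by simp⟩

theorem mem_Bfil_one {x : SemiLoc q L} :
    x ∈ Bfil q L 1 ↔ ∃ z : SemiLoc q L, IsIntegral ℤ_[q] z ∧ x = (q : ℚ_[q]) • z := by
  rw [mem_Bfil]
  simp only [zpow_one]

theorem Bfil_anti {i j : ℤ} (h : i ≤ j) : Bfil q L j ≤ Bfil q L i := by
  rintro _ ⟨z, hz, rfl⟩
  refine ⟨((q : ℚ_[q]) ^ (j - i)) • z, ?_, ?_⟩
  · refine isIntegral_smul_of_mem_Qb q L ?_ hz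
    exact Qb_anti q (by omega) (q_zpow_mem_Qb q (j - i))
  · rw [smul_smul, ← zpow_add₀ (q_padic_ne_zero q)]
    congr 2
    ring

theorem one_mem_Bfil : (1 : SemiLoc q L) ∈ Bfil q L 0 :=
  (mem_Bfil_zero q L).2 isIntegral_one

theorem mul_mem_Bfil {i j : ℤ} {x y : SemiLoc q L} (hx : x ∈ Bfil q L i)
    (hy : y ∈ Bfil q L j) : x * y ∈ Bfil q L (i + j) := by
  obtain ⟨z, hz, rfl⟩ := hx
  obtain ⟨w, hw, rfl⟩ := hy
  refine ⟨z * w, hz.mul hw, ?_⟩
  rw [smul_mul_smul_comm, ← zpow_add₀ (q_padic_ne_zero q)]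

variable (K : Type*) [Field K] [NumberField K] [Algebra K L]

theorem smul_comm_semiLoc (σ : Gal(L/K)) (r : ℚ_[q]) (x : SemiLoc q L) :
    σ • (r • x) = r • (σ • x) := by
  rw [smul_def, smul_def, map_smul]

theorem isIntegral_smul_semiLoc (σ : Gal(L/K)) {z : SemiLoc q L} (hz : IsIntegral ℤ_[q] z) :
    IsIntegral ℤ_[q] (σ • z) := by
  rw [smul_def]
  exact hz.map ((galSemiLocAut q L K σ).toAlgHom.restrictScalars ℤ_[q])

theorem smul_mem_Bfil (σ : Gal(L/K)) {j : ℤ} {x : SemiLoc q L} (hx : x ∈ Bfil q L j) :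
    σ • x ∈ Bfil q L j := by
  obtain ⟨z, hz, rfl⟩ := hx
  exact ⟨σ • z, isIntegral_smul_semiLoc q L K σ hz, smul_comm_semiLoc q L K σ _ z⟩

end general

namespace GlobLatt

variable (q : ℕ) [Fact q.Prime] {K L : Type*} [Field K] [NumberField K] [Field L]
  [NumberField L] [Algebra K L] (D : GlobLatt K L)

/-- The basis `1 ⊗ β` of the semilocal algebra over `ℚ_q`. -/
noncomputable def E : Module.Basis (Fin D.n × Gal(L/K)) ℚ_[q] (SemiLoc q L) :=
  Algebra.TensorProduct.basis ℚ_[q] D.β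

theorem E_apply (k : Fin D.n × Gal(L/K)) : D.E q k = (1 : ℚ_[q]) ⊗ₜ[ℚ] D.β k :=
  Algebra.TensorProduct.basis_apply D.β k

theorem smul_E (σ : Gal(L/K)) (i : Fin D.n) (τ : Gal(L/K)) :
    σ • D.E q (i, τ) = D.E q (i, σ * τ) := by
  rw [E_apply, E_apply, smul_tmul', D.β_perm]

theorem isIntegral_E (k : Fin D.n × Gal(L/K)) : IsIntegral ℤ_[q] (D.E q k) := by
  rw [E_apply]
  exact isIntegral_one_tmul_of_isIntegral q L (D.β_int k)

/-- The coordinates are given by the trace against the dual family. -/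
theorem repr_eq_trace (x : SemiLoc q L) (l : Fin D.n × Gal(L/K)) :
    (D.E q).repr x l
      = Algebra.trace ℚ_[q] (SemiLoc q L) (x * ((1 : ℚ_[q]) ⊗ₜ[ℚ] D.d l)) := by
  classical
  have h : (D.E q).coord l = (Algebra.trace ℚ_[q] (SemiLoc q L)).comp
      (LinearMap.mulRight ℚ_[q] ((1 : ℚ_[q]) ⊗ₜ[ℚ] D.d l : SemiLoc q L)) := by
    apply (D.E q).ext
    intro k
    rw [Module.Basis.coord_apply, Module.Basis.repr_self, LinearMap.comp_apply,
      LinearMap.mulRight_apply, E_apply, Algebra.TensorProduct.tmul_mul_tmul, mul_one,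
      trace_one_tmul, Finsupp.single_apply]
    split_ifs with hkl
    · rw [hkl, D.d_trace_self, map_one]
    · rw [D.d_trace_ne k l hkl, map_zero]
  have := LinearMap.congr_fun h x
  simpa using this

/-- The conductor of the lattice at `q`: the `q`-adic valuation of the denominator. -/
noncomputable def cond : ℤ := (padicValInt q D.m : ℕ)

theorem cond_nonneg : 0 ≤ D.cond q := Int.natCast_nonneg _

theorem cond_eq_zero_of_not_dvd (h : ¬ (q : ℤ) ∣ D.m) : D.cond q = 0 := by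
  rw [cond, padicValInt.eq_zero_of_not_dvd h]
  rfl

theorem norm_m : ‖(D.m : ℚ_[q])‖ = (q : ℝ) ^ (-(D.cond q)) := by
  have h : (D.m : ℚ_[q]) ≠ 0 := Int.cast_ne_zero.2 D.hm
  rw [Padic.norm_eq_zpow_neg_valuation h, Padic.valuation_intCast, cond]

/-- **Boundedness of the integral closure**: the coordinates of an integral element have
bounded denominators. -/
theorem repr_mem_of_isIntegral {z : SemiLoc q L} (hz : IsIntegral ℤ_[q] z)
    (l : Fin D.n × Gal(L/K)) : (D.E q).repr z l ∈ Qb q (-(D.cond q)) := by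
  have h1 : IsIntegral ℤ_[q]
      (Algebra.trace ℚ_[q] (SemiLoc q L) (z * ((1 : ℚ_[q]) ⊗ₜ[ℚ] (D.m • D.d l)))) :=
    isIntegral_trace_of_isIntegral (hz.mul (isIntegral_one_tmul_of_isIntegral q L (D.d_int l)))
  have h2 : z * ((1 : ℚ_[q]) ⊗ₜ[ℚ] (D.m • D.d l) : SemiLoc q L)
      = (D.m : ℚ_[q]) • (z * ((1 : ℚ_[q]) ⊗ₜ[ℚ] D.d l)) := by
    rw [← Int.cast_smul_eq_zsmul ℚ D.m (D.d l), TensorProduct.tmul_smul, mul_smul_comm,
      ← algebraMap_smul ℚ_[q] (D.m : ℚ)]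
    congr 1
  rw [h2, map_smul, ← D.repr_eq_trace q, smul_eq_mul] at h1
  have h3 := (mem_Qb_zero_iff q).1 ((mem_Qb_zero_iff_isIntegral q).2 h1)
  rw [norm_mul, D.norm_m q] at h3
  rw [mem_Qb, neg_neg]
  have hpos : (0 : ℝ) < (q : ℝ) ^ (D.cond q) := zpow_pos (q_real_pos q) _
  have h4 : (q : ℝ) ^ (-(D.cond q)) * (q : ℝ) ^ (D.cond q) = 1 := by
    rw [← zpow_add₀ (q_real_pos q).ne', neg_add_cancel, zpow_zero]
  calc ‖(D.E q).repr z l‖
      = (q : ℝ) ^ (D.cond q) * ((q : ℝ) ^ (-(D.cond q)) * ‖(D.E q).repr z l‖) := by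
        rw [← mul_assoc, mul_comm ((q : ℝ) ^ (D.cond q)), h4, one_mul]
    _ ≤ (q : ℝ) ^ (D.cond q) * 1 := mul_le_mul_of_nonneg_left h3 hpos.le
    _ = (q : ℝ) ^ (D.cond q) := mul_one _

/-- The lattice filtration of the semilocal algebra. -/
noncomputable def Mfil (j : ℤ) : AddSubgroup (SemiLoc q L) := plat (D.E q) (Qb q) j

theorem mem_Mfil {j : ℤ} {x : SemiLoc q L} :
    x ∈ D.Mfil q j ↔ ∀ k, (D.E q).repr x k ∈ Qb q j := Iff.rfl

theorem Mfil_anti {i j : ℤ} (h : i ≤ j) : D.Mfil q j ≤ D.Mfil q i :=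
  plat_anti (D.E q) (Qb q) (fun h => Qb_anti q h) h

theorem Mfil_le_Bfil (j : ℤ) : D.Mfil q j ≤ Bfil q L j := by
  intro x hx
  refine ⟨∑ l, ((q : ℚ_[q]) ^ (-j) * (D.E q).repr x l) • D.E q l, ?_, ?_⟩
  · refine IsIntegral.sum _ fun l _ => isIntegral_smul_of_mem_Qb q L ?_ (D.isIntegral_E q l)
    have := zpow_mul_mem_Qb q (i := -j) (hx l)
    rwa [neg_add_cancel] at this
  · conv_lhs => rw [← (D.E q).sum_repr x]
    rw [Finset.smul_sum]
    refine Finset.sum_congr rfl fun l _ => ?_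
    rw [smul_smul, ← mul_assoc, ← zpow_add₀ (q_padic_ne_zero q), add_neg_cancel, zpow_zero,
      one_mul]

theorem Bfil_le_Mfil (j : ℤ) : Bfil q L (j + D.cond q) ≤ D.Mfil q j := by
  rintro _ ⟨z, hz, rfl⟩ l
  rw [map_smul, Finsupp.smul_apply, smul_eq_mul]
  have := zpow_mul_mem_Qb q (i := j + D.cond q) (D.repr_mem_of_isIntegral q hz l)
  rwa [add_neg_cancel_right] at this

variable [IsGalois K L]

/-- The filtered ring structure on the semilocal algebra. -/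
noncomputable def filtRing (σ : Gal(L/K)) (hσ : ∀ τ : Gal(L/K), τ ∈ Subgroup.zpowers σ) :
    FiltRing Gal(L/K) (SemiLoc q L) where
  B := Bfil q L
  M := D.Mfil q
  c := D.cond q
  hc0 := D.cond_nonneg q
  B_anti := fun h => Bfil_anti q L h
  M_anti := fun h => D.Mfil_anti q h
  one_mem := one_mem_Bfil q L
  mul_mem := fun hx hy => mul_mem_Bfil q L hx hy
  M_le_B := D.Mfil_le_Bfil q
  B_le_M := D.Bfil_le_Mfil q
  smul_B := fun τ _ _ hx => smul_mem_Bfil q L K τ hx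
  smul_M := fun τ _ _ hx =>
    smul_mem_plat (D.E q) (Qb q) (D.smul_E q) (smul_comm_semiLoc q L K) hx τ
  coe_smul := fun _ _ => rfl
  sep := by
    intro x hx
    refine plat_sep (D.E q) (Qb q) (Qb_sep q) x fun k => ?_
    have h1 := hx (k + (D.cond q).toNat)
    have h2 : ((k + (D.cond q).toNat : ℕ) : ℤ) = k + D.cond q := by
      rw [Nat.cast_add, Int.toNat_of_nonneg (D.cond_nonneg q)]
    rw [h2] at h1
    exact D.Bfil_le_Mfil q k h1
  complete := plat_complete (D.E q) (Qb q) (Qb_complete q)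
  fixed_trace := fun hx hfix =>
    exists_trace_eq_of_fixed_plat (D.E q) (Qb q) (D.smul_E q) (smul_comm_semiLoc q L K) hx hfix
  φ := σ
  hφ := hσ
  decomp := fun hx htr =>
    exists_decomp_plat (D.E q) (Qb q) (D.smul_E q) (smul_comm_semiLoc q L K) σ hσ hx htr

@[simp] theorem filtRing_B (σ : Gal(L/K)) (hσ : ∀ τ : Gal(L/K), τ ∈ Subgroup.zpowers σ) :
    (D.filtRing q σ hσ).B = Bfil q L := rfl

@[simp] theorem filtRing_M (σ : Gal(L/K)) (hσ : ∀ τ : Gal(L/K), τ ∈ Subgroup.zpowers σ) :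
    (D.filtRing q σ hσ).M = D.Mfil q := rfl

@[simp] theorem filtRing_c (σ : Gal(L/K)) (hσ : ∀ τ : Gal(L/K), τ ∈ Subgroup.zpowers σ) :
    (D.filtRing q σ hσ).c = D.cond q := rfl

@[simp] theorem filtRing_φ (σ : Gal(L/K)) (hσ : ∀ τ : Gal(L/K), τ ∈ Subgroup.zpowers σ) :
    (D.filtRing q σ hσ).φ = σ := rfl

include D in
/-- Total boundedness of the integral closure. -/
theorem Bfil_totallyBounded (r : ℕ) :
    ∃ S : Finset (SemiLoc q L), ∀ x ∈ Bfil q L 0, ∃ s ∈ S, x - s ∈ Bfil q L r := by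
  obtain ⟨S, hS⟩ := plat_totallyBounded (D.E q) (Qb q) (Qb_totallyBounded q) (-(D.cond q)) r
  refine ⟨S, fun x hx => ?_⟩
  have hx' : x ∈ D.Mfil q (-(D.cond q)) := by
    apply D.Bfil_le_Mfil q
    rwa [neg_add_cancel]
  obtain ⟨s, hs, hxs⟩ := hS x hx'
  exact ⟨s, hs, D.Mfil_le_Bfil q r hxs⟩

end GlobLatt

end Fermat.Agent.S55.helper31
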