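import Mathlib
import Fermat.Agent.S55.helper73_GlobDefs

/-!
# S55 / GLOB request (F1): Herbrand quotient toolkit in the GLOB vocabulary (helper42)

Multiplicative `G`-modules `A` (`[CommGroup A] [MulDistribMulAction G A]`, `G` finite), with
helper73's `normG G A`, `fixedSub G A`, `deltaHom A σ`.

* abstract part: a commutative group `B` with two endomorphisms `D`, `N` such that
  `D ∘ N = 1 = N ∘ D`, and stable subgroups `S ≤ T`; the "relative Herbrand numbers"
  `relH D N T = [T ∩ ker D : N T]`, `quotH D N S T = "h(T/S)"` and the six-number factorisation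
  (`relH_hexagon`), finite-index invariance (`relH_mul_of_relIndex_ne_zero`);
* `G`-module part: the same for `D = deltaHom A σ`, `N = normG G A`.
-/

set_option autoImplicit false

namespace Fermat.Agent.S55.helper42

open Fermat.Agent.S55.helper73

/-! ## Abstract part -/

section AbstractMul

variable {B : Type*} [CommGroup B]

/-- The relative Herbrand number `[T ∩ ker D : N(T)]` (junk value `0` if infinite). -/
noncomputable def relH (D N : B →* B) (T : Subgroup B) : ℕ :=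
  (T.map N).relIndex (T ⊓ D.ker)

/-- The Herbrand number of the quotient `T/S`, expressed inside the ambient group:
`[{t ∈ T | D t ∈ S} : N(T) S]`. -/
noncomputable def quotH (D N : B →* B) (S T : Subgroup B) : ℕ :=
  (T.map N ⊔ S).relIndex (T ⊓ S.comap D)

/-- First hexagon number. -/
noncomputable def mhexA (D N : B →* B) (S T : Subgroup B) : ℕ :=
  (T.map N ⊔ (S ⊓ D.ker)).relIndex (T ⊓ D.ker)

/-- Second hexagon number. -/
noncomputable def mhexB (D N : B →* B) (S T : Subgroup B) : ℕ :=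
  (S ⊓ T.map N).relIndex (S ⊓ D.ker)

/-- Third hexagon number. -/
noncomputable def mhexC (N : B →* B) (S T : Subgroup B) : ℕ :=
  (S.map N).relIndex (S ⊓ T.map N)

theorem map_le_inf_ker {D N : B →* B} (hDN : ∀ x, D (N x) = 1) {T : Subgroup B}
    (hTN : T.map N ≤ T) : T.map N ≤ T ⊓ D.ker := by
  refine le_inf hTN ?_
  rintro _ ⟨x, -, rfl⟩
  exact hDN x

theorem relH_eq_mhex (D N : B →* B) (hDN : ∀ x, D (N x) = 1) (S T : Subgroup B)
    (hST : S ≤ T) (hTN : T.map N ≤ T) :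
    relH D N T = mhexA D N S T * mhexB D N S T := by
  unfold relH mhexA mhexB
  have hle : T.map N ≤ T ⊓ D.ker := map_le_inf_ker hDN hTN
  have hle' : S ⊓ D.ker ≤ T ⊓ D.ker := inf_le_inf_right _ hST
  have h1 := Subgroup.relIndex_mul_relIndex (T.map N) (T.map N ⊔ (S ⊓ D.ker)) (T ⊓ D.ker)
    le_sup_left (sup_le hle hle')
  have h2 : (T.map N).relIndex (T.map N ⊔ (S ⊓ D.ker)) =
      (S ⊓ T.map N).relIndex (S ⊓ D.ker) := by
    rw [Subgroup.relIndex_sup_left, ← Subgroup.inf_relIndex_right]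
    congr 1
    apply le_antisymm
    · exact le_inf (inf_le_right.trans inf_le_left) inf_le_left
    · exact le_inf inf_le_right (le_inf inf_le_left (inf_le_right.trans (hle.trans inf_le_right)))
  rw [← h1, h2, mul_comm]

theorem relH_sub_eq_mhex (D N : B →* B) (hDN : ∀ x, D (N x) = 1) (S T : Subgroup B)
    (hST : S ≤ T) (hSN : S.map N ≤ S) (hTN : T.map N ≤ T) :
    relH D N S = mhexB D N S T * mhexC N S T := by
  unfold relH mhexB mhexC
  have hle : T.map N ≤ T ⊓ D.ker := map_le_inf_ker hDN hTN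
  have h1 : S.map N ≤ S ⊓ T.map N := le_inf hSN (Subgroup.map_mono hST)
  rw [mul_comm]
  exact (Subgroup.relIndex_mul_relIndex _ _ _ h1
    (inf_le_inf_left S (hle.trans inf_le_right))).symm

theorem quotH_eq_mhex (D N : B →* B) (hDN : ∀ x, D (N x) = 1) (S T : Subgroup B)
    (hST : S ≤ T) (hSD : S.map D ≤ S) (hTN : T.map N ≤ T) :
    quotH D N S T = mhexC D S T * mhexA D N S T := by
  unfold quotH mhexC mhexA
  have hle : T.map N ≤ T ⊓ D.ker := map_le_inf_ker hDN hTN
  have hS' : S ≤ S.comap D := fun x hx => hSD ⟨x, hx, rfl⟩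
  have hK : T ⊓ D.ker ≤ T ⊓ S.comap D := by
    refine inf_le_inf_left T ?_
    intro x hx
    rw [Subgroup.mem_comap, MonoidHom.mem_ker.1 hx]
    exact S.one_mem
  -- the middle group `H = (T ⊓ ker D) ⊔ S`
  have hH : (T ⊓ D.ker) ⊔ S ≤ T ⊓ S.comap D := sup_le hK (le_inf hST hS')
  -- (3a)
  have e1 : (S.map D).relIndex (S ⊓ T.map D) =
      ((T ⊓ D.ker) ⊔ S).relIndex (T ⊓ S.comap D) := by
    have hmapH : ((T ⊓ D.ker) ⊔ S).map D = S.map D := by
      rw [Subgroup.map_sup]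
      have : (T ⊓ D.ker).map D = ⊥ := by
        rw [eq_bot_iff]
        rintro _ ⟨x, hx, rfl⟩
        exact MonoidHom.mem_ker.1 hx.2
      rw [this, bot_sup_eq]
    have hmapK : (T ⊓ S.comap D).map D = S ⊓ T.map D := by
      ext y
      constructor
      · rintro ⟨x, ⟨hxT, hxS⟩, rfl⟩
        exact ⟨hxS, ⟨x, hxT, rfl⟩⟩
      · rintro ⟨hyS, ⟨x, hxT, rfl⟩⟩
        exact ⟨x, ⟨hxT, hyS⟩, rfl⟩
    have := Subgroup.relIndex_map_map D ((T ⊓ D.ker) ⊔ S) (T ⊓ S.comap D)
    rw [hmapH, hmapK] at this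
    rw [this]
    have h3 : T ⊓ S.comap D ⊔ D.ker = (T ⊓ S.comap D) ⊔ ((T ⊓ D.ker) ⊔ S ⊔ D.ker) := by
      rw [← sup_assoc, sup_eq_left.2 hH]
    rw [h3, Subgroup.relIndex_sup_right, ← Subgroup.inf_relIndex_right,
      sup_inf_assoc_of_le _ hH]
    congr 1
    apply sup_eq_left.2
    intro x hx
    exact Subgroup.mem_sup_left ⟨hx.2.1, hx.1⟩
  -- (3b)
  have e2 : (T.map N ⊔ (S ⊓ D.ker)).relIndex (T ⊓ D.ker) =
      (T.map N ⊔ S).relIndex ((T ⊓ D.ker) ⊔ S) := by
    have h3 : (T ⊓ D.ker) ⊔ S = (T ⊓ D.ker) ⊔ (T.map N ⊔ S) := by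
      rw [← sup_assoc, sup_eq_left.2 hle]
    rw [h3, Subgroup.relIndex_sup_right, ← Subgroup.inf_relIndex_right (T.map N ⊔ S),
      sup_inf_assoc_of_le _ hle]
    congr 2
    apply le_antisymm
    · exact le_inf inf_le_left (le_inf (inf_le_left.trans hST) inf_le_right)
    · exact le_inf inf_le_left (inf_le_right.trans inf_le_right)
  rw [e1, e2, mul_comm]
  exact (Subgroup.relIndex_mul_relIndex _ _ _ (sup_le (hle.trans le_sup_left) le_sup_right)
    hH).symm

/-- **Herbrand hexagon, relative form.** For stable subgroups `S ≤ T` of a commutative group with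
endomorphisms `D`, `N`, `D N = N D = 1`, the six Herbrand numbers of `T`, `S` and `T/S` factor
through six numbers (orders of the images of the six maps of the exact hexagon). No finiteness
assumption: `0` means infinite. -/
theorem relH_hexagon (D N : B →* B) (hDN : ∀ x, D (N x) = 1) (hND : ∀ x, N (D x) = 1)
    (S T : Subgroup B) (hST : S ≤ T) (hSD : S.map D ≤ S) (hSN : S.map N ≤ S)
    (hTD : T.map D ≤ T) (hTN : T.map N ≤ T) :
    ∃ a0 b0 c0 a1 b1 c1 : ℕ,
      relH D N T = a0 * b0 ∧ relH D N S = b0 * c0 ∧ quotH D N S T = c1 * a0 ∧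
      relH N D T = a1 * b1 ∧ relH N D S = b1 * c1 ∧ quotH N D S T = c0 * a1 :=
  ⟨mhexA D N S T, mhexB D N S T, mhexC N S T, mhexA N D S T, mhexB N D S T, mhexC D S T,
    relH_eq_mhex D N hDN S T hST hTN, relH_sub_eq_mhex D N hDN S T hST hSN hTN,
    quotH_eq_mhex D N hDN S T hST hSD hTN,
    relH_eq_mhex N D hND S T hST hTD, relH_sub_eq_mhex N D hND S T hST hSD hTD,
    quotH_eq_mhex N D hND S T hST hSN hTD⟩

/-- The Herbrand quotient of a finite quotient `T/S` is `1` (ambient form): if `[T : S]` is finite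
then `quotH D N S T = quotH N D S T ≠ 0`. -/
theorem quotH_comm_of_relIndex_ne_zero (D N : B →* B) (hDN : ∀ x, D (N x) = 1)
    (hND : ∀ x, N (D x) = 1) (S T : Subgroup B) (hST : S ≤ T) (hSD : S.map D ≤ S)
    (hSN : S.map N ≤ S) (hTD : T.map D ≤ T) (hTN : T.map N ≤ T) (hfin : S.relIndex T ≠ 0) :
    quotH D N S T = quotH N D S T ∧ quotH D N S T ≠ 0 := by
  unfold quotH
  -- first isomorphism theorem in ambient form
  have first : ∀ (E : B →* B), (T ⊓ S.comap E).relIndex T = S.relIndex (T.map E ⊔ S) := by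
    intro E
    rw [inf_comm, Subgroup.inf_relIndex_right, Subgroup.relIndex_comap,
      Subgroup.relIndex_sup_right]
  have hS' : ∀ (E : B →* B), S.map E ≤ S → S ≤ S.comap E := fun E h x hx => h ⟨x, hx, rfl⟩
  have hIK : ∀ (E F : B →* B), (∀ x, E (F x) = 1) → T.map F ≤ T → S.map E ≤ S →
      T.map F ⊔ S ≤ T ⊓ S.comap E := by
    intro E F hEF hTF hSE
    refine sup_le (le_inf hTF ?_) (le_inf hST (hS' E hSE))
    rintro _ ⟨x, -, rfl⟩
    rw [Subgroup.mem_comap, hEF]
    exact S.one_mem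
  have c1 : S.relIndex (T.map N ⊔ S) * (T.map N ⊔ S).relIndex (T ⊓ S.comap D) *
      S.relIndex (T.map D ⊔ S) = S.relIndex T := by
    rw [Subgroup.relIndex_mul_relIndex _ _ _ le_sup_right (hIK D N hDN hTN hSD), ← first D,
      Subgroup.relIndex_mul_relIndex _ _ _ (le_inf hST (hS' D hSD)) inf_le_left]
  have c2 : S.relIndex (T.map D ⊔ S) * (T.map D ⊔ S).relIndex (T ⊓ S.comap N) *
      S.relIndex (T.map N ⊔ S) = S.relIndex T := by
    rw [Subgroup.relIndex_mul_relIndex _ _ _ le_sup_right (hIK N D hND hTD hSN), ← first N,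
      Subgroup.relIndex_mul_relIndex _ _ _ (le_inf hST (hS' N hSN)) inf_le_left]
  have hne : S.relIndex (T.map N ⊔ S) * (T.map N ⊔ S).relIndex (T ⊓ S.comap D) *
      S.relIndex (T.map D ⊔ S) ≠ 0 := by rw [c1]; exact hfin
  have hx : S.relIndex (T.map N ⊔ S) ≠ 0 := left_ne_zero_of_mul (left_ne_zero_of_mul hne)
  have hy : S.relIndex (T.map D ⊔ S) ≠ 0 := right_ne_zero_of_mul hne
  refine ⟨?_, right_ne_zero_of_mul (left_ne_zero_of_mul hne)⟩
  have e : S.relIndex (T.map N ⊔ S) * S.relIndex (T.map D ⊔ S) *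
      (T.map N ⊔ S).relIndex (T ⊓ S.comap D) =
      S.relIndex (T.map N ⊔ S) * S.relIndex (T.map D ⊔ S) *
      (T.map D ⊔ S).relIndex (T ⊓ S.comap N) := by
    calc _ = S.relIndex (T.map N ⊔ S) * (T.map N ⊔ S).relIndex (T ⊓ S.comap D) *
          S.relIndex (T.map D ⊔ S) := by ring
      _ = S.relIndex T := c1
      _ = S.relIndex (T.map D ⊔ S) * (T.map D ⊔ S).relIndex (T ⊓ S.comap N) *
          S.relIndex (T.map N ⊔ S) := c2.symm
      _ = _ := by ring
  exact Nat.eq_of_mul_eq_mul_left (Nat.pos_of_ne_zero (mul_ne_zero hx hy)) e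

/-- **Finite-index invariance of the Herbrand quotient** (ambient form): for stable subgroups
`S ≤ T` with `[T : S]` finite, `h⁰(T) h¹(S) = h¹(T) h⁰(S)`, and finiteness of each Herbrand
number passes between `S` and `T`. -/
theorem relH_mul_of_relIndex_ne_zero (D N : B →* B) (hDN : ∀ x, D (N x) = 1)
    (hND : ∀ x, N (D x) = 1) (S T : Subgroup B) (hST : S ≤ T) (hSD : S.map D ≤ S)
    (hSN : S.map N ≤ S) (hTD : T.map D ≤ T) (hTN : T.map N ≤ T) (hfin : S.relIndex T ≠ 0) :
    relH D N T * relH N D S = relH N D T * relH D N S ∧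
    (relH D N T ≠ 0 ↔ relH D N S ≠ 0) ∧ (relH N D T ≠ 0 ↔ relH N D S ≠ 0) := by
  obtain ⟨a0, b0, c0, a1, b1, c1, h1, h2, h3, h4, h5, h6⟩ :=
    relH_hexagon D N hDN hND S T hST hSD hSN hTD hTN
  obtain ⟨hq, hq0⟩ := quotH_comm_of_relIndex_ne_zero D N hDN hND S T hST hSD hSN hTD hTN hfin
  rw [h3, h6] at hq
  rw [h3] at hq0
  have hc1 : c1 ≠ 0 := left_ne_zero_of_mul hq0
  have ha0 : a0 ≠ 0 := right_ne_zero_of_mul hq0
  have hq1 : c0 * a1 ≠ 0 := by rw [← hq]; exact hq0
  have hc0 : c0 ≠ 0 := left_ne_zero_of_mul hq1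
  have ha1 : a1 ≠ 0 := right_ne_zero_of_mul hq1
  rw [h1, h2, h4, h5]
  refine ⟨?_, ?_, ?_⟩
  · calc a0 * b0 * (b1 * c1) = (c1 * a0) * (b0 * b1) := by ring
      _ = (c0 * a1) * (b0 * b1) := by rw [hq]
      _ = a1 * b1 * (b0 * c0) := by ring
  · constructor
    · intro h
      exact mul_ne_zero (right_ne_zero_of_mul h) hc0
    · intro h
      exact mul_ne_zero ha0 (left_ne_zero_of_mul h)
  · constructor
    · intro h
      exact mul_ne_zero (right_ne_zero_of_mul h) hc1
    · intro h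
      exact mul_ne_zero ha1 (left_ne_zero_of_mul h)

/-- Herbrand quotient `1` on finite groups, abstract multiplicative form. -/
theorem relIndex_range_ker_comm_mul [Finite B] (D N : B →* B) (hDN : ∀ x, D (N x) = 1)
    (hND : ∀ x, N (D x) = 1) :
    N.range.relIndex D.ker = D.range.relIndex N.ker ∧ N.range.relIndex D.ker ≠ 0 := by
  have hle : N.range ≤ D.ker := by
    rintro _ ⟨x, rfl⟩
    exact hDN x
  have hle' : D.range ≤ N.ker := by
    rintro _ ⟨x, rfl⟩
    exact hND x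
  have h1 : Nat.card N.range * N.range.relIndex D.ker = Nat.card D.ker := by
    have := Subgroup.relIndex_mul_relIndex ⊥ N.range D.ker bot_le hle
    rwa [Subgroup.relIndex_bot_left, Subgroup.relIndex_bot_left] at this
  have h2 : Nat.card D.range * D.range.relIndex N.ker = Nat.card N.ker := by
    have := Subgroup.relIndex_mul_relIndex ⊥ D.range N.ker bot_le hle'
    rwa [Subgroup.relIndex_bot_left, Subgroup.relIndex_bot_left] at this
  have h3 : Nat.card D.ker * Nat.card D.range = Nat.card B := by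
    rw [← Subgroup.index_ker]
    exact Subgroup.card_mul_index _
  have h4 : Nat.card N.ker * Nat.card N.range = Nat.card B := by
    rw [← Subgroup.index_ker]
    exact Subgroup.card_mul_index _
  have hpos : 0 < Nat.card N.range * Nat.card D.range :=
    Nat.mul_pos Nat.card_pos Nat.card_pos
  constructor
  · apply Nat.eq_of_mul_eq_mul_left hpos
    calc Nat.card N.range * Nat.card D.range * N.range.relIndex D.ker
        = (Nat.card N.range * N.range.relIndex D.ker) * Nat.card D.range := by ring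
      _ = Nat.card B := by rw [h1, h3]
      _ = (Nat.card D.range * D.range.relIndex N.ker) * Nat.card N.range := by rw [h2, h4]
      _ = Nat.card N.range * Nat.card D.range * D.range.relIndex N.ker := by ring
  · intro h0
    rw [h0, mul_zero] at h1
    exact Nat.card_pos.ne' h1.symm

/-- Transport of `[ker D₁ : im N₁]` along an injective map (multiplicative form). -/
theorem relIndex_eq_relH_of_injective {A' : Type*} [CommGroup A'] (f : A' →* B)
    (hf : Function.Injective f) (D₁ N₁ : A' →* A') (D N : B →* B)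
    (hD : ∀ x, f (D₁ x) = D (f x)) (hN : ∀ x, f (N₁ x) = N (f x)) :
    N₁.range.relIndex D₁.ker = relH D N f.range := by
  unfold relH
  rw [← Subgroup.relIndex_map_map_of_injective (f := f) _ _ hf]
  congr 1
  · ext y
    constructor
    · rintro ⟨_, ⟨x, rfl⟩, rfl⟩
      exact ⟨f x, ⟨x, rfl⟩, (hN x).symm⟩
    · rintro ⟨_, ⟨x, rfl⟩, rfl⟩
      exact ⟨N₁ x, ⟨x, rfl⟩, hN x⟩
  · ext y
    constructor
    · rintro ⟨x, hx, rfl⟩
      refine ⟨⟨x, rfl⟩, ?_⟩
      show D (f x) = 1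
      rw [← hD]
      have : D₁ x = 1 := hx
      rw [this, map_one]
    · rintro ⟨⟨x, rfl⟩, hx⟩
      refine ⟨x, ?_, rfl⟩
      have hx' : D (f x) = 1 := hx
      rw [← hD] at hx'
      have : f (D₁ x) = f 1 := by rw [hx', map_one]
      exact hf this

/-- Transport of `[ker D₃ : im N₃]` along a surjective map (multiplicative form). -/
theorem relIndex_eq_quotH_of_surjective {C' : Type*} [CommGroup C'] (g : B →* C')
    (hg : Function.Surjective g) (D₃ N₃ : C' →* C') (D N : B →* B)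
    (hD : ∀ x, g (D x) = D₃ (g x)) (hN : ∀ x, g (N x) = N₃ (g x)) :
    N₃.range.relIndex D₃.ker = quotH D N g.ker ⊤ := by
  unfold quotH
  have h1 : N₃.range.comap g = N.range ⊔ g.ker := by
    have : N₃.range = N.range.map g := by
      ext y
      constructor
      · rintro ⟨x, rfl⟩
        obtain ⟨b, rfl⟩ := hg x
        exact ⟨N b, ⟨b, rfl⟩, hN b⟩
      · rintro ⟨_, ⟨b, rfl⟩, rfl⟩
        exact ⟨g b, (hN b).symm⟩
    rw [this, Subgroup.comap_map_eq]
  have h2 : D₃.ker.comap g = g.ker.comap D := by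
    ext x
    simp only [Subgroup.mem_comap, MonoidHom.mem_ker, hD]
  rw [top_inf_eq, ← MonoidHom.range_eq_map, ← h1, ← h2, Subgroup.relIndex_comap,
    Subgroup.map_comap_eq_self_of_surjective hg]

theorem relH_top (D N : B →* B) : relH D N ⊤ = N.range.relIndex D.ker := by
  unfold relH
  rw [top_inf_eq, ← MonoidHom.range_eq_map]

end AbstractMul

/-! ## `G`-modules -/

section GModule

variable (G : Type*) [Group G] [Fintype G] (A : Type*) [CommGroup A] [MulDistribMulAction G A]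

/-- `|Ĥ⁰(G, A)| = [A^G : N A]` (junk value `0` if infinite), in the exact shape used by the GLOB
interface. -/
noncomputable def hq0 : ℕ := ((normG G A).range.subgroupOf (fixedSub G A)).index

variable {G} in
/-- `|Ĥ⁻¹(G, A)| = [ker N : (σ - 1) A]` (junk value `0` if infinite), in the exact shape used by
the GLOB interface. -/
noncomputable def hq1 (σ : G) : ℕ := ((deltaHom A σ).range.subgroupOf (normG G A).ker).index

theorem hq0_def : hq0 G A = ((normG G A).range.subgroupOf (fixedSub G A)).index := rfl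

variable {G} in
theorem hq1_def (σ : G) :
    hq1 A σ = ((deltaHom A σ).range.subgroupOf (normG G A).ker).index := rfl

/-- Ambient Herbrand number of a subgroup `T` of `A`: `[T ∩ A^G : N T]`. -/
noncomputable def rel0 (T : Subgroup A) : ℕ :=
  (T.map (normG G A)).relIndex (T ⊓ fixedSub G A)

variable {G} in
/-- Ambient Herbrand number of a subgroup `T` of `A`: `[T ∩ ker N : (σ - 1) T]`. -/
noncomputable def rel1 (σ : G) (T : Subgroup A) : ℕ :=
  (T.map (deltaHom A σ)).relIndex (T ⊓ (normG G A).ker)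

variable {G A}

theorem normG_smul (σ : G) (x : A) : normG G A (σ • x) = normG G A x := by
  rw [normG_apply, normG_apply]
  refine Fintype.prod_equiv (Equiv.mulRight σ) _ _ fun τ => ?_
  simp [mul_smul]

theorem smul_normG (σ : G) (x : A) : σ • normG G A x = normG G A x := by
  rw [normG_apply]
  have h : σ • (∏ τ : G, τ • x) = ∏ τ : G, σ • τ • x :=
    map_prod (MulDistribMulAction.toMonoidHom A σ) _ _
  rw [h]
  refine Fintype.prod_equiv (Equiv.mulLeft σ) _ _ fun τ => ?_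
  simp [mul_smul]

theorem normG_deltaHom (σ : G) (x : A) : normG G A (deltaHom A σ x) = 1 := by
  rw [deltaHom_apply, map_div, normG_smul, div_self']

theorem deltaHom_normG (σ : G) (x : A) : deltaHom A σ (normG G A x) = 1 := by
  rw [deltaHom_apply, smul_normG, div_self']

omit [Fintype G] in
theorem mem_ker_deltaHom {σ : G} {x : A} : x ∈ (deltaHom A σ).ker ↔ σ • x = x := by
  rw [MonoidHom.mem_ker, deltaHom_apply, div_eq_one]

omit [Fintype G] in
/-- For a generator `σ` of `G`, the fixed points are the kernel of `σ - 1`. -/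
theorem fixedSub_eq_ker_deltaHom {σ : G} (hσ : ∀ τ : G, τ ∈ Subgroup.zpowers σ) :
    fixedSub G A = (deltaHom A σ).ker := by
  ext x
  rw [mem_fixedSub, mem_ker_deltaHom]
  constructor
  · intro h
    exact h σ
  · intro h τ
    have hmem : τ ∈ MulAction.stabilizer G x := by
      have hle : Subgroup.zpowers σ ≤ MulAction.stabilizer G x := by
        rw [Subgroup.zpowers_le]
        exact h
      exact hle (hσ τ)
    exact hmem

omit [Fintype G] in
theorem map_deltaHom_le {T : Subgroup A} (hT : ∀ (τ : G), ∀ x ∈ T, τ • x ∈ T) (σ : G) :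
    T.map (deltaHom A σ) ≤ T := by
  rintro _ ⟨x, hx, rfl⟩
  rw [deltaHom_apply]
  exact T.div_mem (hT σ x hx) hx

theorem map_normG_le {T : Subgroup A} (hT : ∀ (τ : G), ∀ x ∈ T, τ • x ∈ T) :
    T.map (normG G A) ≤ T := by
  rintro _ ⟨x, hx, rfl⟩
  rw [normG_apply]
  exact Subgroup.prod_mem T fun τ _ => hT τ x hx

theorem hq0_eq_relIndex {σ : G} (hσ : ∀ τ : G, τ ∈ Subgroup.zpowers σ) :
    hq0 G A = (normG G A).range.relIndex (deltaHom A σ).ker := by
  rw [hq0_def, fixedSub_eq_ker_deltaHom hσ]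
  rfl

theorem hq1_eq_relIndex (σ : G) :
    hq1 A σ = (deltaHom A σ).range.relIndex (normG G A).ker := rfl

theorem rel0_eq_relH {σ : G} (hσ : ∀ τ : G, τ ∈ Subgroup.zpowers σ) (T : Subgroup A) :
    rel0 G A T = relH (deltaHom A σ) (normG G A) T := by
  unfold rel0 relH
  rw [fixedSub_eq_ker_deltaHom hσ]

theorem rel1_eq_relH (σ : G) (T : Subgroup A) :
    rel1 A σ T = relH (normG G A) (deltaHom A σ) T := rfl

theorem rel0_top {σ : G} (hσ : ∀ τ : G, τ ∈ Subgroup.zpowers σ) : rel0 G A ⊤ = hq0 G A := by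
  rw [rel0_eq_relH hσ, relH_top, hq0_eq_relIndex hσ]

theorem rel1_top (σ : G) : rel1 A σ ⊤ = hq1 A σ := by
  rw [rel1_eq_relH, relH_top, hq1_eq_relIndex]

/-- Trivial `Ĥ⁰` of a subgroup, in elementwise form. -/
theorem rel0_eq_one_iff (T : Subgroup A) :
    rel0 G A T = 1 ↔ ∀ x ∈ T, (∀ τ : G, τ • x = x) → ∃ y ∈ T, normG G A y = x := by
  unfold rel0
  rw [Subgroup.relIndex_eq_one]
  constructor
  · intro h x hx hfix
    obtain ⟨y, hy, hyx⟩ := h ⟨hx, hfix⟩
    exact ⟨y, hy, hyx⟩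
  · rintro h x ⟨hx, hfix⟩
    obtain ⟨y, hy, hyx⟩ := h x hx hfix
    exact ⟨y, hy, hyx⟩

/-- Trivial `Ĥ⁻¹` of a subgroup, in elementwise form. -/
theorem rel1_eq_one_iff (σ : G) (T : Subgroup A) :
    rel1 A σ T = 1 ↔ ∀ x ∈ T, normG G A x = 1 → ∃ y ∈ T, σ • y / y = x := by
  unfold rel1
  rw [Subgroup.relIndex_eq_one]
  constructor
  · intro h x hx hN
    obtain ⟨y, hy, hyx⟩ := h ⟨hx, hN⟩
    exact ⟨y, hy, hyx⟩
  · rintro h x ⟨hx, hN⟩
    obtain ⟨y, hy, hyx⟩ := h x hx hN
    exact ⟨y, hy, hyx⟩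

/-- **Herbrand hexagon for stable subgroups `S ≤ T` of a `G`-module**, `G` cyclic with generator
`σ`: six-number factorisation of the Herbrand numbers of `T`, `S` and `T/S` (the last in ambient
form `quotH`). -/
theorem rel_hexagon {σ : G} (hσ : ∀ τ : G, τ ∈ Subgroup.zpowers σ) (S T : Subgroup A)
    (hST : S ≤ T) (hS : ∀ (τ : G), ∀ x ∈ S, τ • x ∈ S) (hT : ∀ (τ : G), ∀ x ∈ T, τ • x ∈ T) :
    ∃ a0 b0 c0 a1 b1 c1 : ℕ,
      rel0 G A T = a0 * b0 ∧ rel0 G A S = b0 * c0 ∧
      quotH (deltaHom A σ) (normG G A) S T = c1 * a0 ∧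
      rel1 A σ T = a1 * b1 ∧ rel1 A σ S = b1 * c1 ∧
      quotH (normG G A) (deltaHom A σ) S T = c0 * a1 := by
  rw [rel0_eq_relH hσ, rel0_eq_relH hσ, rel1_eq_relH, rel1_eq_relH]
  exact relH_hexagon (deltaHom A σ) (normG G A) (deltaHom_normG σ) (normG_deltaHom σ) S T hST
    (map_deltaHom_le hS σ) (map_normG_le hS) (map_deltaHom_le hT σ) (map_normG_le hT)

/-- **Finite-index invariance of the Herbrand quotient** for stable subgroups `S ≤ T` of a
`G`-module, `G` cyclic with generator `σ`. -/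
theorem rel_mul_of_relIndex_ne_zero {σ : G} (hσ : ∀ τ : G, τ ∈ Subgroup.zpowers σ)
    (S T : Subgroup A) (hST : S ≤ T) (hS : ∀ (τ : G), ∀ x ∈ S, τ • x ∈ S)
    (hT : ∀ (τ : G), ∀ x ∈ T, τ • x ∈ T) (hfin : S.relIndex T ≠ 0) :
    rel0 G A T * rel1 A σ S = rel1 A σ T * rel0 G A S ∧
    (rel0 G A T ≠ 0 ↔ rel0 G A S ≠ 0) ∧ (rel1 A σ T ≠ 0 ↔ rel1 A σ S ≠ 0) := by
  rw [rel0_eq_relH hσ, rel0_eq_relH hσ, rel1_eq_relH, rel1_eq_relH]
  exact relH_mul_of_relIndex_ne_zero (deltaHom A σ) (normG G A) (deltaHom_normG σ)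
    (normG_deltaHom σ) S T hST (map_deltaHom_le hS σ) (map_normG_le hS) (map_deltaHom_le hT σ)
    (map_normG_le hT) hfin

/-- Finite-index invariance, absolute form: a stable subgroup `S` of finite index in `A`. -/
theorem hq_mul_of_index_ne_zero {σ : G} (hσ : ∀ τ : G, τ ∈ Subgroup.zpowers σ)
    (S : Subgroup A) (hS : ∀ (τ : G), ∀ x ∈ S, τ • x ∈ S) (hfin : S.index ≠ 0) :
    hq0 G A * rel1 A σ S = hq1 A σ * rel0 G A S ∧
    (hq0 G A ≠ 0 ↔ rel0 G A S ≠ 0) ∧ (hq1 A σ ≠ 0 ↔ rel1 A σ S ≠ 0) := by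
  have := rel_mul_of_relIndex_ne_zero hσ S ⊤ le_top hS (fun _ _ _ => Subgroup.mem_top _)
    (by rwa [Subgroup.relIndex_top_right])
  rwa [rel0_top hσ, rel1_top] at this

/-- The Herbrand quotient of a finite `G`-module is `1`. -/
theorem hq0_eq_hq1_of_finite [Finite A] {σ : G} (hσ : ∀ τ : G, τ ∈ Subgroup.zpowers σ) :
    hq0 G A = hq1 A σ ∧ hq0 G A ≠ 0 := by
  rw [hq0_eq_relIndex hσ, hq1_eq_relIndex]
  exact relIndex_range_ker_comm_mul (deltaHom A σ) (normG G A) (deltaHom_normG σ)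
    (normG_deltaHom σ)

/-- The Herbrand quotient of a finite stable subgroup is `1` (ambient form). -/
theorem rel0_eq_rel1_of_finite {σ : G} (hσ : ∀ τ : G, τ ∈ Subgroup.zpowers σ)
    (T : Subgroup A) [Finite T] (hT : ∀ (τ : G), ∀ x ∈ T, τ • x ∈ T) :
    rel0 G A T = rel1 A σ T ∧ rel0 G A T ≠ 0 := by
  have hbot : (⊥ : Subgroup A).relIndex T ≠ 0 := by
    rw [Subgroup.relIndex_bot_left]
    exact Nat.card_pos.ne'
  have hS : ∀ (τ : G), ∀ x ∈ (⊥ : Subgroup A), τ • x ∈ (⊥ : Subgroup A) := by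
    intro τ x hx
    rw [Subgroup.mem_bot] at hx ⊢
    rw [hx, smul_one]
  obtain ⟨h1, h2, -⟩ := rel_mul_of_relIndex_ne_zero hσ ⊥ T bot_le hS hT hbot
  have e0 : rel0 G A (⊥ : Subgroup A) = 1 := by
    unfold rel0
    rw [Subgroup.relIndex_eq_one, Subgroup.map_bot]
    exact inf_le_left
  have e1 : rel1 A σ (⊥ : Subgroup A) = 1 := by
    unfold rel1
    rw [Subgroup.relIndex_eq_one, Subgroup.map_bot]
    exact inf_le_left
  rw [e0, e1, mul_one, mul_one] at h1
  exact ⟨h1, h2.2 (by rw [e0]; exact one_ne_zero)⟩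

end GModule

/-! ## Equivariant maps and short exact sequences -/

section Exact

variable {G : Type*} [Group G] [Fintype G]
  {A' A A'' : Type*} [CommGroup A'] [CommGroup A] [CommGroup A'']
  [MulDistribMulAction G A'] [MulDistribMulAction G A] [MulDistribMulAction G A'']

theorem map_normG (f : A' →* A) (hf : ∀ (τ : G) (x : A'), f (τ • x) = τ • f x) (x : A') :
    f (normG G A' x) = normG G A (f x) := by
  rw [normG_apply, normG_apply, map_prod]
  exact Finset.prod_congr rfl fun τ _ => hf τ x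

omit [Fintype G] in
theorem map_deltaHom (f : A' →* A) (hf : ∀ (τ : G) (x : A'), f (τ • x) = τ • f x) (σ : G)
    (x : A') : f (deltaHom A' σ x) = deltaHom A σ (f x) := by
  rw [deltaHom_apply, deltaHom_apply, map_div, hf]

omit [Fintype G] in
theorem smul_mem_range (f : A' →* A) (hf : ∀ (τ : G) (x : A'), f (τ • x) = τ • f x) (τ : G) :
    ∀ x ∈ f.range, τ • x ∈ f.range := by
  rintro _ ⟨x, rfl⟩
  exact ⟨τ • x, hf τ x⟩

omit [Fintype G] in
theorem smul_mem_ker (g : A →* A'') (hg : ∀ (τ : G) (x : A), g (τ • x) = τ • g x) (τ : G) :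
    ∀ x ∈ g.ker, τ • x ∈ g.ker := by
  intro x hx
  rw [MonoidHom.mem_ker] at hx ⊢
  rw [hg, hx, smul_one]

/-- `Ĥ⁰` of a `G`-module equals the ambient Herbrand number of its image under an injective
equivariant map. -/
theorem hq0_eq_rel0_range {σ : G} (hσ : ∀ τ : G, τ ∈ Subgroup.zpowers σ) (f : A' →* A)
    (hinj : Function.Injective f) (hf : ∀ (τ : G) (x : A'), f (τ • x) = τ • f x) :
    hq0 G A' = rel0 G A f.range := by
  rw [hq0_eq_relIndex hσ, rel0_eq_relH hσ]
  exact relIndex_eq_relH_of_injective f hinj _ _ _ _ (map_deltaHom f hf σ) (map_normG f hf)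

theorem hq1_eq_rel1_range (σ : G) (f : A' →* A)
    (hinj : Function.Injective f) (hf : ∀ (τ : G) (x : A'), f (τ • x) = τ • f x) :
    hq1 A' σ = rel1 A σ f.range := by
  rw [hq1_eq_relIndex, rel1_eq_relH]
  exact relIndex_eq_relH_of_injective f hinj _ _ _ _ (map_normG f hf) (map_deltaHom f hf σ)

/-- `Ĥ⁰` of a quotient `G`-module in ambient form. -/
theorem hq0_eq_quotH_ker {σ : G} (hσ : ∀ τ : G, τ ∈ Subgroup.zpowers σ) (g : A →* A'')
    (hsurj : Function.Surjective g) (hg : ∀ (τ : G) (x : A), g (τ • x) = τ • g x) :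
    hq0 G A'' = quotH (deltaHom A σ) (normG G A) g.ker ⊤ := by
  rw [hq0_eq_relIndex hσ]
  exact relIndex_eq_quotH_of_surjective g hsurj _ _ _ _ (map_deltaHom g hg σ) (map_normG g hg)

theorem hq1_eq_quotH_ker (σ : G) (g : A →* A'')
    (hsurj : Function.Surjective g) (hg : ∀ (τ : G) (x : A), g (τ • x) = τ • g x) :
    hq1 A'' σ = quotH (normG G A) (deltaHom A σ) g.ker ⊤ := by
  rw [hq1_eq_relIndex]
  exact relIndex_eq_quotH_of_surjective g hsurj _ _ _ _ (map_normG g hg) (map_deltaHom g hg σ)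

/-- **Herbrand hexagon for a short exact sequence `1 → A' → A → A'' → 1` of `G`-modules**, `G`
cyclic with generator `σ`: the six numbers `|Ĥ⁰|`, `|Ĥ⁻¹|` factor through six numbers.
Unconditional (`0` = infinite). -/
theorem hq_hexagon {σ : G} (hσ : ∀ τ : G, τ ∈ Subgroup.zpowers σ) (f : A' →* A) (g : A →* A'')
    (hinj : Function.Injective f) (hsurj : Function.Surjective g) (hex : f.range = g.ker)
    (hf : ∀ (τ : G) (x : A'), f (τ • x) = τ • f x)
    (hg : ∀ (τ : G) (x : A), g (τ • x) = τ • g x) :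
    ∃ a0 b0 c0 a1 b1 c1 : ℕ,
      hq0 G A = a0 * b0 ∧ hq0 G A' = b0 * c0 ∧ hq0 G A'' = c1 * a0 ∧
      hq1 A σ = a1 * b1 ∧ hq1 A' σ = b1 * c1 ∧ hq1 A'' σ = c0 * a1 := by
  have h := rel_hexagon hσ f.range ⊤ le_top (smul_mem_range f hf)
    (fun _ _ _ => Subgroup.mem_top _)
  rw [rel0_top hσ, rel1_top] at h
  rw [hq0_eq_rel0_range hσ f hinj hf, hq1_eq_rel1_range σ f hinj hf,
    hq0_eq_quotH_ker hσ g hsurj hg, hq1_eq_quotH_ker σ g hsurj hg, ← hex]
  exact h

/-- **Multiplicativity of the Herbrand quotient** (product form, unconditional). -/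
theorem hq_mul_of_exact {σ : G} (hσ : ∀ τ : G, τ ∈ Subgroup.zpowers σ) (f : A' →* A)
    (g : A →* A'') (hinj : Function.Injective f) (hsurj : Function.Surjective g)
    (hex : f.range = g.ker) (hf : ∀ (τ : G) (x : A'), f (τ • x) = τ • f x)
    (hg : ∀ (τ : G) (x : A), g (τ • x) = τ • g x) :
    hq0 G A * hq1 A' σ * hq1 A'' σ = hq1 A σ * hq0 G A' * hq0 G A'' := by
  obtain ⟨a0, b0, c0, a1, b1, c1, h1, h2, h3, h4, h5, h6⟩ :=
    hq_hexagon hσ f g hinj hsurj hex hf hg
  rw [h1, h2, h3, h4, h5, h6]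
  ring

/-- Finiteness of the Herbrand numbers of the middle term from the outer terms. -/
theorem hq_ne_zero_mid {σ : G} (hσ : ∀ τ : G, τ ∈ Subgroup.zpowers σ) (f : A' →* A)
    (g : A →* A'') (hinj : Function.Injective f) (hsurj : Function.Surjective g)
    (hex : f.range = g.ker) (hf : ∀ (τ : G) (x : A'), f (τ • x) = τ • f x)
    (hg : ∀ (τ : G) (x : A), g (τ • x) = τ • g x)
    (h0' : hq0 G A' ≠ 0) (h1' : hq1 A' σ ≠ 0) (h0'' : hq0 G A'' ≠ 0) (h1'' : hq1 A'' σ ≠ 0) :
    hq0 G A ≠ 0 ∧ hq1 A σ ≠ 0 := by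
  obtain ⟨a0, b0, c0, a1, b1, c1, h1, h2, h3, h4, h5, h6⟩ :=
    hq_hexagon hσ f g hinj hsurj hex hf hg
  rw [h2] at h0'
  rw [h5] at h1'
  rw [h3] at h0''
  rw [h6] at h1''
  rw [h1, h4]
  exact ⟨mul_ne_zero (right_ne_zero_of_mul h0'') (left_ne_zero_of_mul h0'),
    mul_ne_zero (right_ne_zero_of_mul h1'') (left_ne_zero_of_mul h1')⟩

/-- Finiteness of the Herbrand numbers of the left term from the middle and right terms. -/
theorem hq_ne_zero_left {σ : G} (hσ : ∀ τ : G, τ ∈ Subgroup.zpowers σ) (f : A' →* A)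
    (g : A →* A'') (hinj : Function.Injective f) (hsurj : Function.Surjective g)
    (hex : f.range = g.ker) (hf : ∀ (τ : G) (x : A'), f (τ • x) = τ • f x)
    (hg : ∀ (τ : G) (x : A), g (τ • x) = τ • g x)
    (h0 : hq0 G A ≠ 0) (h1 : hq1 A σ ≠ 0) (h0'' : hq0 G A'' ≠ 0) (h1'' : hq1 A'' σ ≠ 0) :
    hq0 G A' ≠ 0 ∧ hq1 A' σ ≠ 0 := by
  obtain ⟨a0, b0, c0, a1, b1, c1, e1, e2, e3, e4, e5, e6⟩ :=
    hq_hexagon hσ f g hinj hsurj hex hf hg
  rw [e1] at h0
  rw [e4] at h1
  rw [e3] at h0''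
  rw [e6] at h1''
  rw [e2, e5]
  exact ⟨mul_ne_zero (right_ne_zero_of_mul h0) (left_ne_zero_of_mul h1''),
    mul_ne_zero (right_ne_zero_of_mul h1) (left_ne_zero_of_mul h0'')⟩

/-- Finiteness of the Herbrand numbers of the right term from the left and middle terms. -/
theorem hq_ne_zero_right {σ : G} (hσ : ∀ τ : G, τ ∈ Subgroup.zpowers σ) (f : A' →* A)
    (g : A →* A'') (hinj : Function.Injective f) (hsurj : Function.Surjective g)
    (hex : f.range = g.ker) (hf : ∀ (τ : G) (x : A'), f (τ • x) = τ • f x)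
    (hg : ∀ (τ : G) (x : A), g (τ • x) = τ • g x)
    (h0 : hq0 G A ≠ 0) (h1 : hq1 A σ ≠ 0) (h0' : hq0 G A' ≠ 0) (h1' : hq1 A' σ ≠ 0) :
    hq0 G A'' ≠ 0 ∧ hq1 A'' σ ≠ 0 := by
  obtain ⟨a0, b0, c0, a1, b1, c1, e1, e2, e3, e4, e5, e6⟩ :=
    hq_hexagon hσ f g hinj hsurj hex hf hg
  rw [e1] at h0
  rw [e4] at h1
  rw [e2] at h0'
  rw [e5] at h1'
  rw [e3, e6]
  exact ⟨mul_ne_zero (right_ne_zero_of_mul h1') (left_ne_zero_of_mul h0),
    mul_ne_zero (right_ne_zero_of_mul h0') (left_ne_zero_of_mul h1)⟩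

end Exact

end Fermat.Agent.S55.helper42
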