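import Mathlib
import Fermat.Agent.S55.helper73_GlobDefs2
import Fermat.Agent.S55.helper42_HerbrandMul
import Fermat.Agent.S55.helper31_SemiLocLatt

/-!
# S55 / GLOB-LAT (helper31): package LAT of the GLOB interface v2 (helper73)

`L/K` a finite Galois extension of number fields with cyclic group `⟨σ⟩`.

* `exists_trivial_unit_subgroup` (LAT-1): for every prime `q` the integral units of `ℚ_q ⊗ L`
  contain a Galois-stable subgroup `V` of finite index with `Ĥ^0(G, V) = Ĥ^{-1}(G, V) = 1`.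
* `exists_finset_princUnits_trivial` (LAT-2): for almost all `q` the principal units `1 + q 𝓞`
  are cohomologically trivial.
* `intUnits_herbrand` (LAT-3): the Herbrand quotient of the integral units is `1`.

The three statements are verbatim those of section LAT of `helper73_GlobInterface2`.
-/

set_option autoImplicit false

open scoped TensorProduct NumberField

namespace Fermat.Agent.S55.helper31

open Fermat.Agent.S55.helper73

variable (K L : Type*) [Field K] [NumberField K] [Field L] [NumberField L] [Algebra K L]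
  [IsGalois K L]

/-- LAT-1 with an explicit lattice datum: `V = {u | u - 1 ∈ q ^ (c + 1) N}`. -/
theorem GlobLatt.trivial_unit_subgroup {K L : Type*} [Field K] [NumberField K] [Field L]
    [NumberField L] [Algebra K L] [IsGalois K L] (D : GlobLatt K L) (q : ℕ) [Fact q.Prime]
    (σ : Gal(L/K)) (hσ : ∀ τ : Gal(L/K), τ ∈ Subgroup.zpowers σ) :
    (D.filtRing q σ hσ).Vk 0 ≤ intUnits q L ∧
      (∀ (τ : Gal(L/K)) (x : (SemiLoc q L)ˣ),
        x ∈ (D.filtRing q σ hσ).Vk 0 → τ • x ∈ (D.filtRing q σ hσ).Vk 0) ∧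
      ((D.filtRing q σ hσ).Vk 0).relIndex (intUnits q L) ≠ 0 ∧
      (∀ x ∈ (D.filtRing q σ hσ).Vk 0, (∀ τ : Gal(L/K), τ • x = x) →
        ∃ y ∈ (D.filtRing q σ hσ).Vk 0, normG Gal(L/K) (SemiLoc q L)ˣ y = x) ∧
      (∀ x ∈ (D.filtRing q σ hσ).Vk 0, normG Gal(L/K) (SemiLoc q L)ˣ x = 1 →
        ∃ y ∈ (D.filtRing q σ hσ).Vk 0, σ • y / y = x) := by
  set F := D.filtRing q σ hσ with hF
  refine ⟨?_, fun τ x hx => F.smul_mem_Vk 0 τ hx, ?_,
    fun x hx hfix => F.fixed_is_norm x hx hfix, fun x hx hN => ?_⟩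
  · intro u hu
    exact ⟨(mem_Bfil_zero q L).1 (F.Vk_val_mem 0 hu), (mem_Bfil_zero q L).1 (F.Vk_inv_mem 0 hu)⟩
  · refine F.relIndex_Vk_ne_zero (D.Bfil_totallyBounded q) (intUnits q L) fun u hu => ?_
    exact ⟨(mem_Bfil_zero q L).2 hu.1, (mem_Bfil_zero q L).2 hu.2⟩
  · obtain ⟨w, hw, hwx⟩ := F.norm_one_is_delta x hx hN
    exact ⟨w, hw, hwx⟩

/-- LAT-1 (all `q`, any cyclic `L/K`): the integral units of `ℚ_q ⊗ L` contain a `G`-stable
subgroup `V` of finite index with `Ĥ^0(G, V) = Ĥ^{-1}(G, V) = 1`. -/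
theorem exists_trivial_unit_subgroup (q : ℕ) [Fact q.Prime]
    (σ : Gal(L/K)) (hσ : ∀ τ : Gal(L/K), τ ∈ Subgroup.zpowers σ) :
    ∃ V : Subgroup (SemiLoc q L)ˣ, V ≤ intUnits q L ∧
      (∀ (τ : Gal(L/K)) (x : (SemiLoc q L)ˣ), x ∈ V → τ • x ∈ V) ∧
      V.relIndex (intUnits q L) ≠ 0 ∧
      (∀ x ∈ V, (∀ τ : Gal(L/K), τ • x = x) →
        ∃ y ∈ V, normG Gal(L/K) (SemiLoc q L)ˣ y = x) ∧
      (∀ x ∈ V, normG Gal(L/K) (SemiLoc q L)ˣ x = 1 → ∃ y ∈ V, σ • y / y = x) := by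
  obtain ⟨D⟩ := exists_globLatt K L
  exact ⟨_, D.trivial_unit_subgroup q σ hσ⟩

/-- At the primes not dividing the denominator of the dual lattice, the principal units are
the group `V` of LAT-1. -/
theorem GlobLatt.mem_princUnits_iff {K L : Type*} [Field K] [NumberField K] [Field L]
    [NumberField L] [Algebra K L] [IsGalois K L] (D : GlobLatt K L) (q : ℕ) [Fact q.Prime]
    (hq : ¬ (q : ℤ) ∣ D.m)
    (σ : Gal(L/K)) (hσ : ∀ τ : Gal(L/K), τ ∈ Subgroup.zpowers σ) (x : (SemiLoc q L)ˣ) :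
    x ∈ princUnits q L ↔ x ∈ (D.filtRing q σ hσ).Vk 0 := by
  have hc : D.cond q = 0 := D.cond_eq_zero_of_not_dvd q hq
  set F := D.filtRing q σ hσ with hF
  have hFc : F.c = 0 := hc
  have key : ∀ y : (SemiLoc q L)ˣ,
      (∃ z : SemiLoc q L, IsIntegral ℤ_[q] z ∧ (y : SemiLoc q L) = 1 + (q : ℚ_[q]) • z)
        ↔ y ∈ F.Vk 0 := by
    intro y
    rw [F.mem_Vk]
    constructor
    · rintro ⟨z, hz, hy⟩
      have h1 : (y : SemiLoc q L) - 1 ∈ Bfil q L 1 := by
        rw [mem_Bfil_one]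
        exact ⟨z, hz, by rw [hy]; ring⟩
      refine F.B_le_M_of_le ?_ h1
      rw [hFc]
      simp
    · intro h
      have h1 : (y : SemiLoc q L) - 1 ∈ Bfil q L 1 := by
        have := F.M_le_B _ h
        refine Bfil_anti q L ?_ this
        rw [hFc]
        simp
      obtain ⟨z, hz, hy⟩ := (mem_Bfil_one q L).1 h1
      exact ⟨z, hz, by rw [← hy]; ring⟩
  rw [mem_princUnits, key x, key x⁻¹]
  constructor
  · exact fun h => h.1
  · exact fun h => ⟨h, (F.Vk 0).inv_mem h⟩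

/-- LAT-2 (almost all `q`): the principal units `1 + q 𝓞` are cohomologically trivial. -/
theorem exists_finset_princUnits_trivial
    (σ : Gal(L/K)) (hσ : ∀ τ : Gal(L/K), τ ∈ Subgroup.zpowers σ) :
    ∃ T : Finset Nat.Primes, ∀ q : Nat.Primes, q ∉ T →
      (∀ x ∈ princUnits (q : ℕ) L, (∀ τ : Gal(L/K), τ • x = x) →
        ∃ y ∈ princUnits (q : ℕ) L, normG Gal(L/K) (SemiLoc (q : ℕ) L)ˣ y = x) ∧
      (∀ x ∈ princUnits (q : ℕ) L, normG Gal(L/K) (SemiLoc (q : ℕ) L)ˣ x = 1 →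
        ∃ y ∈ princUnits (q : ℕ) L, σ • y / y = x) := by
  classical
  obtain ⟨D⟩ := exists_globLatt K L
  refine ⟨(Nat.primeFactors D.m.natAbs).attach.image
    (fun p => (⟨p.1, Nat.prime_of_mem_primeFactors p.2⟩ : Nat.Primes)), fun q hq => ?_⟩
  have hqm : ¬ (((q : ℕ) : ℤ)) ∣ D.m := by
    intro h
    apply hq
    rw [Finset.mem_image]
    have hmem : (q : ℕ) ∈ Nat.primeFactors D.m.natAbs := by
      rw [Nat.mem_primeFactors]
      exact ⟨q.2, Int.natCast_dvd.1 h, Int.natAbs_ne_zero.2 D.hm⟩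
    exact ⟨⟨(q : ℕ), hmem⟩, Finset.mem_attach _ _, Subtype.ext rfl⟩
  obtain ⟨-, -, -, h0, h1⟩ := D.trivial_unit_subgroup (q : ℕ) σ hσ
  have hiff := D.mem_princUnits_iff (q : ℕ) hqm σ hσ
  refine ⟨fun x hx hfix => ?_, fun x hx hN => ?_⟩
  · obtain ⟨y, hy, hyx⟩ := h0 x ((hiff x).1 hx) hfix
    exact ⟨y, (hiff y).2 hy, hyx⟩
  · obtain ⟨y, hy, hyx⟩ := h1 x ((hiff x).1 hx) hN
    exact ⟨y, (hiff y).2 hy, hyx⟩

/-- LAT-3 (consequence of LAT-1 + finite-index invariance): the Herbrand quotient of the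
integral units is `1`. -/
theorem intUnits_herbrand (q : ℕ) [Fact q.Prime]
    (σ : Gal(L/K)) (hσ : ∀ τ : Gal(L/K), τ ∈ Subgroup.zpowers σ) :
    hZero Gal(L/K) (intUnits q L) ≠ 0 ∧
      hZero Gal(L/K) (intUnits q L) = hMinus (intUnits q L) σ := by
  obtain ⟨V, hVle, hVst, hVfin, hV0, hV1⟩ := exists_trivial_unit_subgroup K L q σ hσ
  have hinj : Function.Injective (intUnits q L).subtype := Subtype.val_injective
  have heq : ∀ (τ : Gal(L/K)) (x : intUnits q L),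
      (intUnits q L).subtype (τ • x) = τ • (intUnits q L).subtype x := fun _ _ => rfl
  have e0 : hZero Gal(L/K) (intUnits q L)
      = helper42.rel0 Gal(L/K) (SemiLoc q L)ˣ (intUnits q L) := by
    have := helper42.hq0_eq_rel0_range hσ (intUnits q L).subtype hinj heq
    rwa [Subgroup.range_subtype] at this
  have e1 : hMinus (intUnits q L) σ = helper42.rel1 (SemiLoc q L)ˣ σ (intUnits q L) := by
    have := helper42.hq1_eq_rel1_range σ (intUnits q L).subtype hinj heq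
    rwa [Subgroup.range_subtype] at this
  have hS0 : helper42.rel0 Gal(L/K) (SemiLoc q L)ˣ V = 1 :=
    (helper42.rel0_eq_one_iff V).2 hV0
  have hS1 : helper42.rel1 (SemiLoc q L)ˣ σ V = 1 :=
    (helper42.rel1_eq_one_iff σ V).2 hV1
  obtain ⟨h1, h2, -⟩ := helper42.rel_mul_of_relIndex_ne_zero hσ V (intUnits q L) hVle
    (fun τ x hx => hVst τ x hx) (fun τ x hx => smul_mem_intUnits q L K τ hx) hVfin
  rw [hS0, hS1, mul_one, mul_one] at h1
  rw [e0, e1]
  refine ⟨h2.2 ?_, h1⟩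
  rw [hS0]
  exact one_ne_zero

end Fermat.Agent.S55.helper31
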