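import Mathlib

/-!
# S55 / GLOB-RES (helper3): commutative algebra for the residue part

A commutative ring `O` in which a prime number `q` lies in every maximal ideal and such that
`O / q O` is spanned by `d < q` elements has fewer than `q` maximal ideals; hence if
`u₁, …, uₙ` generate the unit ideal, some combination with natural number coefficients is a unit.
-/

set_option autoImplicit false

namespace Fermat.Agent.S55.helper3

open Finset

section FewMaximal

variable {O : Type*} [CommRing O]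

/-- natural numbers `< q` are distinct modulo a proper ideal containing `q`. -/
lemma natCast_sub_mem_imp_eq {q : ℕ} (hq : q.Prime) {M : Ideal O} (hM : M ≠ ⊤)
    (hqM : (q : O) ∈ M) {a b : ℕ} (ha : a < q) (hb : b < q)
    (hab : (a : O) - (b : O) ∈ M) : a = b := by
  by_contra hne
  apply hM
  rw [Ideal.eq_top_iff_one]
  -- `a - b` is prime to `q`
  have hcop : IsCoprime ((a : ℤ) - b) (q : ℤ) := by
    rw [Int.isCoprime_iff_gcd_eq_one]
    have h1 : ¬ (q : ℤ) ∣ (a : ℤ) - b := by
      intro hdvd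
      have h2 : |(a : ℤ) - b| < q := by
        rw [abs_lt]
        constructor <;> omega
      have h3 := Int.eq_zero_of_abs_lt_dvd hdvd h2
      apply hne
      omega
    have hp : Prime (q : ℤ) := Nat.prime_iff_prime_int.mp hq
    rw [Int.gcd_comm]
    exact (Int.isCoprime_iff_gcd_eq_one.mp
      ((Prime.coprime_iff_not_dvd hp).2 h1))
  obtain ⟨s, t, hst⟩ := hcop
  have h4 : ((s : O) * ((a : O) - (b : O)) + (t : O) * (q : O)) = 1 := by
    have := congrArg (fun z : ℤ => (z : O)) hst
    simpa [Int.cast_add, Int.cast_mul, Int.cast_sub] using this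
  rw [← h4]
  exact M.add_mem (M.mul_mem_left _ hab) (M.mul_mem_left _ hqM)

/-- **Few maximal ideals**: there is no injective family of `q` maximal ideals. -/
theorem not_injective_maximal {q d : ℕ} (hq : q.Prime) (hd : d < q)
    (hjac : ∀ M : Ideal O, M.IsMaximal → (q : O) ∈ M)
    (e : Fin d → O)
    (he : ∀ z : O, ∃ c : Fin d → ℕ, z - ∑ i, c i • e i ∈ Ideal.span {(q : O)})
    (f : Fin q → Ideal O) (hf : ∀ t, (f t).IsMaximal) : ¬ Function.Injective f := by
  intro hinj
  have hq0 : 0 < q := hq.pos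
  have hcop : Pairwise (Function.onFun IsCoprime f) := by
    intro s t hst
    exact Ideal.isCoprime_iff_sup_eq.mpr ((hf s).coprime_of_ne (hf t) (fun h => hst (hinj h)))
  have hsurj := Ideal.quotientInfToPiQuotient_surj hcop
  -- the map from coordinates
  let g : (Fin d → Fin q) → (∀ t, O ⧸ f t) :=
    fun c t => Ideal.Quotient.mk (f t) (∑ i, ((c i : ℕ)) • e i)
  have hg : Function.Surjective g := by
    intro b
    obtain ⟨z', hz'⟩ := hsurj b
    obtain ⟨z, rfl⟩ := Ideal.Quotient.mk_surjective z'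
    obtain ⟨c, hc⟩ := he z
    refine ⟨fun i => ⟨c i % q, Nat.mod_lt _ hq0⟩, ?_⟩
    funext t
    have h1 : b t = Ideal.Quotient.mk (f t) z := by
      rw [← hz']; rfl
    rw [h1]
    change Ideal.Quotient.mk (f t) (∑ i, (c i % q) • e i) = _
    rw [Ideal.Quotient.eq]
    have hspan : Ideal.span {(q : O)} ≤ f t := by
      rw [Ideal.span_le, Set.singleton_subset_iff]
      exact hjac _ (hf t)
    have h2 : (∑ i, (c i % q) • e i) - ∑ i, c i • e i ∈ f t := by
      rw [← Finset.sum_sub_distrib]
      refine (f t).sum_mem fun i _ => ?_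
      have h3 : (c i % q) • e i - c i • e i = - ((q : O) * (((c i / q : ℕ) : O) * e i)) := by
        have h4 : (Nat.cast (c i) : O)
            = Nat.cast q * Nat.cast (c i / q) + Nat.cast (c i % q) := by
          rw [← Nat.cast_mul, ← Nat.cast_add, Nat.div_add_mod]
        simp only [nsmul_eq_mul]
        rw [h4]
        ring
      rw [h3]
      exact (f t).neg_mem ((f t).mul_mem_right _ (hjac _ (hf t)))
    have h5 : (∑ i, (c i % q) • e i) - z
        = ((∑ i, (c i % q) • e i) - ∑ i, c i • e i) - (z - ∑ i, c i • e i) := by ring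
    rw [h5]
    exact (f t).sub_mem h2 (hspan hc)
  -- the injection of functions
  let h : (Fin q → Fin q) → (∀ t, O ⧸ f t) :=
    fun c t => Ideal.Quotient.mk (f t) (((c t : ℕ) : O))
  have hh : Function.Injective h := by
    intro c c' hcc
    funext t
    have h1 := congrFun hcc t
    change Ideal.Quotient.mk (f t) _ = Ideal.Quotient.mk (f t) _ at h1
    rw [Ideal.Quotient.eq] at h1
    exact Fin.ext (natCast_sub_mem_imp_eq hq (hf t).ne_top (hjac _ (hf t)) (c t).2 (c' t).2 h1)
  have : Finite (∀ t, O ⧸ f t) := Finite.of_surjective g hg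
  have c1 : Nat.card (Fin q → Fin q) ≤ Nat.card (∀ t, O ⧸ f t) :=
    Nat.card_le_card_of_injective h hh
  have c2 : Nat.card (∀ t, O ⧸ f t) ≤ Nat.card (Fin d → Fin q) :=
    Nat.card_le_card_of_surjective g hg
  have c3 : q ^ q ≤ q ^ d := by
    have := c1.trans c2
    simpa [Nat.card_eq_fintype_card] using this
  have := (Nat.pow_le_pow_iff_right hq.one_lt).1 c3
  omega

/-- if `(a - b) x ∈ M` with distinct natural numbers `a, b < q` and `q ∈ M`, then `x ∈ M`. -/
lemma mem_of_natCast_sub_mul_mem {q : ℕ} (hq : q.Prime) {M : Ideal O}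
    (hqM : (q : O) ∈ M) {a b : ℕ} (ha : a < q) (hb : b < q) (hne : a ≠ b) {x : O}
    (hab : ((a : O) - (b : O)) * x ∈ M) : x ∈ M := by
  have hcop : IsCoprime ((a : ℤ) - b) (q : ℤ) := by
    have h1 : ¬ (q : ℤ) ∣ (a : ℤ) - b := by
      intro hdvd
      have h2 : |(a : ℤ) - b| < q := by
        rw [abs_lt]
        constructor <;> omega
      have h3 := Int.eq_zero_of_abs_lt_dvd hdvd h2
      apply hne
      omega
    have hp : Prime (q : ℤ) := Nat.prime_iff_prime_int.mp hq
    exact ((Prime.coprime_iff_not_dvd hp).2 h1).symm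
  obtain ⟨s, t, hst⟩ := hcop
  have h4 : ((s : O) * ((a : O) - (b : O)) + (t : O) * (q : O)) = 1 := by
    have := congrArg (fun z : ℤ => (z : O)) hst
    simpa [Int.cast_add, Int.cast_mul, Int.cast_sub] using this
  have h5 : x = (s : O) * (((a : O) - (b : O)) * x) + (t : O) * x * (q : O) := by
    calc x = ((s : O) * ((a : O) - (b : O)) + (t : O) * (q : O)) * x := by rw [h4, one_mul]
      _ = _ := by ring
  rw [h5]
  exact M.add_mem (M.mul_mem_left _ hab) (M.mul_mem_left _ hqM)

/-- two generators. -/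
theorem exists_add_smul_sup_eq_top {q d : ℕ} (hq : q.Prime) (hd : d < q)
    (hjac : ∀ M : Ideal O, M.IsMaximal → (q : O) ∈ M)
    (e : Fin d → O)
    (he : ∀ z : O, ∃ c : Fin d → ℕ, z - ∑ i, c i • e i ∈ Ideal.span {(q : O)})
    (a b : O) (I : Ideal O) (h : Ideal.span {a, b} ⊔ I = ⊤) :
    ∃ t : ℕ, Ideal.span {a + t • b} ⊔ I = ⊤ := by
  by_contra hcon
  have hne : ∀ t : ℕ, Ideal.span {a + t • b} ⊔ I ≠ ⊤ := fun t ht => hcon ⟨t, ht⟩
  choose M hM hMle using fun t : ℕ => Ideal.exists_le_maximal _ (hne t)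
  refine not_injective_maximal hq hd hjac e he (fun t : Fin q => M (t : ℕ)) (fun t => hM _) ?_
  intro s t hst
  by_contra hne'
  have hst' : M (s : ℕ) = M (t : ℕ) := hst
  have hs : a + (s : ℕ) • b ∈ M (s : ℕ) :=
    hMle _ (Ideal.mem_sup_left (Ideal.subset_span (Set.mem_singleton _)))
  have ht : a + (t : ℕ) • b ∈ M (s : ℕ) := by
    rw [hst']
    exact hMle _ (Ideal.mem_sup_left (Ideal.subset_span (Set.mem_singleton _)))
  have hI : I ≤ M (s : ℕ) := le_trans le_sup_right (hMle _)
  have hsub : (((s : ℕ) : O) - ((t : ℕ) : O)) * b ∈ M (s : ℕ) := by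
    have : (((s : ℕ) : O) - ((t : ℕ) : O)) * b = (a + (s : ℕ) • b) - (a + (t : ℕ) • b) := by
      simp only [nsmul_eq_mul]
      ring
    rw [this]
    exact (M (s : ℕ)).sub_mem hs ht
  have hb : b ∈ M (s : ℕ) :=
    mem_of_natCast_sub_mul_mem hq (hjac _ (hM _)) s.2 t.2 (fun h => hne' (Fin.ext h)) hsub
  have ha : a ∈ M (s : ℕ) := by
    have : a = (a + (s : ℕ) • b) - (s : ℕ) • b := by ring
    rw [this]
    exact (M (s : ℕ)).sub_mem hs ((M (s : ℕ)).smul_of_tower_mem _ hb)
  have htop : Ideal.span {a, b} ⊔ I ≤ M (s : ℕ) := by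
    refine sup_le ?_ hI
    rw [Ideal.span_le]
    intro x hx
    rcases hx with rfl | rfl
    · exact ha
    · exact hb
  rw [h] at htop
  exact (hM (s : ℕ)).ne_top (top_le_iff.mp htop)

/-- **Unit combinations**: if `u₁, …, uₙ` generate the unit ideal then some combination with
natural number coefficients is a unit. -/
theorem exists_isUnit_combination {q d : ℕ} (hq : q.Prime) (hd : d < q)
    (hjac : ∀ M : Ideal O, M.IsMaximal → (q : O) ∈ M)
    (e : Fin d → O)
    (he : ∀ z : O, ∃ c : Fin d → ℕ, z - ∑ i, c i • e i ∈ Ideal.span {(q : O)})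
    {J : Type*} [Fintype J] (u m : J → O) (h : ∑ j, m j * u j = 1) :
    ∃ l : J → ℕ, IsUnit (∑ j, l j • u j) := by
  classical
  have key : ∀ s : Finset J, ∀ I : Ideal O, Ideal.span (u '' (s : Set J)) ⊔ I = ⊤ →
      ∃ l : J → ℕ, Ideal.span {∑ j ∈ s, l j • u j} ⊔ I = ⊤ := by
    intro s
    induction s using Finset.induction_on with
    | empty =>
      intro I hI
      refine ⟨fun _ => 0, ?_⟩
      simpa using hI
    | insert j₀ s hj₀ ih =>
      intro I hI
      have h1 : Ideal.span (u '' ((insert j₀ s : Finset J) : Set J))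
          = Ideal.span {u j₀} ⊔ Ideal.span (u '' (s : Set J)) := by
        rw [Finset.coe_insert, Set.image_insert_eq, Set.insert_eq, Ideal.span_union]
      rw [h1] at hI
      obtain ⟨l, hl⟩ := ih (Ideal.span {u j₀} ⊔ I) (by
        rw [← hI]
        ac_rfl)
      have h2 : Ideal.span {∑ j ∈ s, l j • u j, u j₀} ⊔ I = ⊤ := by
        rw [← hl, Set.insert_eq, Ideal.span_union, sup_assoc]
      obtain ⟨t, ht⟩ := exists_add_smul_sup_eq_top hq hd hjac e he _ _ I h2
      refine ⟨Function.update l j₀ t, ?_⟩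
      rw [Finset.sum_insert hj₀, Function.update_self]
      have h3 : ∑ j ∈ s, Function.update l j₀ t j • u j = ∑ j ∈ s, l j • u j := by
        refine Finset.sum_congr rfl fun j hj => ?_
        rw [Function.update_of_ne]
        rintro rfl
        exact hj₀ hj
      rw [h3, add_comm]
      exact ht
  have htop : Ideal.span (u '' ((Finset.univ : Finset J) : Set J)) ⊔ (⊥ : Ideal O) = ⊤ := by
    rw [sup_bot_eq, Ideal.eq_top_iff_one, ← h]
    refine Ideal.sum_mem _ fun j _ => Ideal.mul_mem_left _ _ (Ideal.subset_span ?_)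
    exact ⟨j, by simp, rfl⟩
  obtain ⟨l, hl⟩ := key Finset.univ ⊥ htop
  rw [sup_bot_eq, Ideal.span_singleton_eq_top] at hl
  exact ⟨l, hl⟩

end FewMaximal

end Fermat.Agent.S55.helper3
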