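import Fermat.Agent.S55.helper73_GlobDefs2
import Fermat.Agent.S55.helper42_HerbrandMul
import Fermat.Agent.S55.helper3_ResAlg

/-!
# S55 / GLOB-RES (helper3): the residue part of the units, local statement at one prime `q`

Given, at a prime `q`: a family of `d < q` integral elements spanning the integral closure of
`ℤ_q` in `ℚ_q ⊗ L` and a "dual basis" `θ, θ'` with `∑_j θ'_j τ(θ_j) = δ_{τ,1}`, the groups
`Ĥ^0` and `Ĥ^{-1}` of `U_q / (1 + q 𝓞)` vanish (ambient form).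
-/

set_option autoImplicit false

open scoped TensorProduct

noncomputable section

namespace Fermat.Agent.S55.helper3

open Fermat.Agent.S55.helper73 Finset

section Basic

variable (q : ℕ) [Fact q.Prime] (L : Type*) [Field L] [CharZero L]

/-- the ring of integral elements of `ℚ_q ⊗ L` -/
abbrev OInt : Subalgebra ℤ_[q] (SemiLoc q L) := integralClosure ℤ_[q] (SemiLoc q L)

lemma mem_OInt {z : SemiLoc q L} : z ∈ OInt q L ↔ IsIntegral ℤ_[q] z := Iff.rfl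

lemma qsmul_eq (z : SemiLoc q L) :
    (q : ℚ_[q]) • z = algebraMap ℤ_[q] (SemiLoc q L) (q : ℤ_[q]) * z := by
  rw [Algebra.smul_def, IsScalarTower.algebraMap_apply ℤ_[q] ℚ_[q] (SemiLoc q L)]
  simp

lemma isIntegral_q : IsIntegral ℤ_[q] (algebraMap ℤ_[q] (SemiLoc q L) (q : ℤ_[q])) :=
  isIntegral_algebraMap

/-- `q` lies in every maximal ideal of the ring of integral elements. -/
lemma q_mem_of_isMaximal (M : Ideal (OInt q L)) (hM : M.IsMaximal) :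
    ((q : ℕ) : OInt q L) ∈ M := by
  have := hM
  have h1 : (M.comap (algebraMap ℤ_[q] (OInt q L))).IsMaximal :=
    Ideal.isMaximal_comap_of_isIntegral_of_isMaximal M
  have h2 := IsLocalRing.eq_maximalIdeal h1
  have h3 : (q : ℤ_[q]) ∈ M.comap (algebraMap ℤ_[q] (OInt q L)) := by
    rw [h2, PadicInt.maximalIdeal_eq_span_p]
    exact Ideal.subset_span (Set.mem_singleton _)
  rw [Ideal.mem_comap] at h3
  simpa using h3

/-- a unit of the ring of integral elements gives an integral unit -/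
lemma exists_mem_intUnits_of_isUnit {u : OInt q L} (hu : IsUnit u) :
    ∃ Y : (SemiLoc q L)ˣ, Y ∈ intUnits q L ∧ (Y : SemiLoc q L) = (u : SemiLoc q L) := by
  obtain ⟨v, hv⟩ := hu
  refine ⟨Units.map (OInt q L).val.toMonoidHom v, ⟨?_, ?_⟩, ?_⟩
  · exact (v : OInt q L).2
  · exact ((v⁻¹ : (OInt q L)ˣ) : OInt q L).2
  · rw [← hv]; rfl

/-- an integral unit congruent to `1` modulo `q` is a principal unit -/
lemma mem_princUnits_of {s : (SemiLoc q L)ˣ} (hs : s ∈ intUnits q L) {z : SemiLoc q L}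
    (hz : IsIntegral ℤ_[q] z) (h : (s : SemiLoc q L) = 1 + (q : ℚ_[q]) • z) :
    s ∈ princUnits q L := by
  refine ⟨⟨z, hz, h⟩, ⟨-(z * ((s⁻¹ : (SemiLoc q L)ˣ) : SemiLoc q L)), (hz.mul hs.2).neg, ?_⟩⟩
  have h1 : ((s⁻¹ : (SemiLoc q L)ˣ) : SemiLoc q L) * (s : SemiLoc q L) = 1 := by
    rw [← Units.val_mul, inv_mul_cancel, Units.val_one]
  rw [qsmul_eq] at h ⊢
  have h2 : ((s⁻¹ : (SemiLoc q L)ˣ) : SemiLoc q L)
      = ((s⁻¹ : (SemiLoc q L)ˣ) : SemiLoc q L) * (s : SemiLoc q L)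
        - algebraMap ℤ_[q] (SemiLoc q L) (q : ℤ_[q]) * (z * ((s⁻¹ : (SemiLoc q L)ˣ) : SemiLoc q L)) := by
    rw [h]; ring
  rw [h1] at h2
  rw [mul_neg, ← sub_eq_add_neg]
  exact h2

lemma princUnits_le_intUnits' : princUnits q L ≤ intUnits q L := by
  rintro x ⟨⟨z, hz, hx⟩, ⟨z', hz', hx'⟩⟩
  refine ⟨?_, ?_⟩
  · rw [hx, qsmul_eq]
    exact isIntegral_one.add ((isIntegral_q q L).mul hz)
  · rw [hx', qsmul_eq]
    exact isIntegral_one.add ((isIntegral_q q L).mul hz')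

/-- if `x - x' ∈ q 𝓞` for integral units `x, x'` then `x'⁻¹ x` is a principal unit -/
lemma inv_mul_mem_princUnits {x x' : (SemiLoc q L)ˣ} (hx : x ∈ intUnits q L)
    (hx' : x' ∈ intUnits q L) {z : SemiLoc q L} (hz : IsIntegral ℤ_[q] z)
    (h : (x : SemiLoc q L) - (x' : SemiLoc q L) = (q : ℚ_[q]) • z) :
    x'⁻¹ * x ∈ princUnits q L := by
  refine mem_princUnits_of q L ((intUnits q L).mul_mem ((intUnits q L).inv_mem hx') hx)
    (z := ((x'⁻¹ : (SemiLoc q L)ˣ) : SemiLoc q L) * z) (hx'.2.mul hz) ?_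
  have h1 : ((x'⁻¹ : (SemiLoc q L)ˣ) : SemiLoc q L) * (x' : SemiLoc q L) = 1 := by
    rw [← Units.val_mul, inv_mul_cancel, Units.val_one]
  have h2 : (x : SemiLoc q L) = (x' : SemiLoc q L) + (q : ℚ_[q]) • z := by
    rw [← h]; ring
  rw [Units.val_mul, h2, mul_add, h1, qsmul_eq, qsmul_eq]
  ring

/-- difference of two combinations with coefficients congruent modulo `q` -/
lemma exists_sub_eq_qsmul {d : ℕ} (e : Fin d → SemiLoc q L) (he_int : ∀ i, IsIntegral ℤ_[q] (e i))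
    (c c' : Fin d → ℤ_[q]) (h : ∀ i, c i - c' i ∈ IsLocalRing.maximalIdeal ℤ_[q]) :
    ∃ z : SemiLoc q L, IsIntegral ℤ_[q] z ∧
      (∑ i, c i • e i) - (∑ i, c' i • e i) = (q : ℚ_[q]) • z := by
  have h' : ∀ i, ∃ w : ℤ_[q], w * (q : ℤ_[q]) = c i - c' i := by
    intro i
    have := h i
    rw [PadicInt.maximalIdeal_eq_span_p, Ideal.mem_span_singleton'] at this
    exact this
  choose w hw using h'
  refine ⟨∑ i, w i • e i, IsIntegral.sum _ fun i _ => (he_int i).smul (w i), ?_⟩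
  rw [← Finset.sum_sub_distrib, qsmul_eq, Finset.mul_sum]
  refine Finset.sum_congr rfl fun i _ => ?_
  rw [← sub_smul, ← hw i, Algebra.smul_def, Algebra.smul_def, map_mul]
  ring

/-- the principal units have finite index in the integral units -/
lemma relIndex_princUnits_ne_zero {d : ℕ} (e : Fin d → SemiLoc q L)
    (he_int : ∀ i, IsIntegral ℤ_[q] (e i))
    (he : ∀ z : SemiLoc q L, IsIntegral ℤ_[q] z → ∃ c : Fin d → ℤ_[q], z = ∑ i, c i • e i) :
    (princUnits q L).relIndex (intUnits q L) ≠ 0 := by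
  classical
  choose c hc using fun x : intUnits q L => he (x : (SemiLoc q L)ˣ) x.2.1
  let φ : intUnits q L → (Fin d → ZMod q) := fun x i => PadicInt.toZMod (c x i)
  have key : ∀ x x' : intUnits q L, φ x = φ x' →
      (x' : (SemiLoc q L)ˣ)⁻¹ * (x : (SemiLoc q L)ˣ) ∈ princUnits q L := by
    intro x x' hxx
    have h1 : ∀ i, c x i - c x' i ∈ IsLocalRing.maximalIdeal ℤ_[q] := by
      intro i
      rw [← PadicInt.ker_toZMod, RingHom.mem_ker, map_sub, sub_eq_zero]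
      exact congrFun hxx i
    obtain ⟨z, hz, hzz⟩ := exists_sub_eq_qsmul q L e he_int (c x) (c x') h1
    rw [← hc x, ← hc x'] at hzz
    exact inv_mul_mem_princUnits q L x.2 x'.2 hz hzz
  let ψ : (intUnits q L ⧸ (princUnits q L).subgroupOf (intUnits q L)) → (Fin d → ZMod q) :=
    fun ξ => φ (Quotient.out ξ)
  have hψ : Function.Injective ψ := by
    intro ξ ξ' hξ
    have h2 := key _ _ hξ
    rw [← QuotientGroup.out_eq' ξ, ← QuotientGroup.out_eq' ξ']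
    symm
    rw [QuotientGroup.eq]
    rw [Subgroup.mem_subgroupOf]
    simpa using h2
  have : Finite (intUnits q L ⧸ (princUnits q L).subgroupOf (intUnits q L)) :=
    Finite.of_injective ψ hψ
  rw [Subgroup.relIndex]
  exact Subgroup.index_ne_zero_of_finite

/-- the spanning family, modulo `q`, with natural number coefficients -/
lemma exists_nat_coeff {d : ℕ} (e : Fin d → SemiLoc q L)
    (he_int : ∀ i, IsIntegral ℤ_[q] (e i))
    (he : ∀ z : SemiLoc q L, IsIntegral ℤ_[q] z → ∃ c : Fin d → ℤ_[q], z = ∑ i, c i • e i)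
    (z : OInt q L) :
    ∃ c : Fin d → ℕ, z - ∑ i, c i • (⟨e i, he_int i⟩ : OInt q L)
      ∈ Ideal.span {((q : ℕ) : OInt q L)} := by
  obtain ⟨c, hc⟩ := he (z : SemiLoc q L) z.2
  let n : Fin d → ℕ := fun i => (PadicInt.toZMod (c i)).val
  have h1 : ∀ i, c i - ((n i : ℕ) : ℤ_[q]) ∈ IsLocalRing.maximalIdeal ℤ_[q] := by
    intro i
    have := PadicInt.toZMod_spec (c i)
    rwa [ZMod.natCast_val] 
  obtain ⟨w, hw, hww⟩ := exists_sub_eq_qsmul q L e he_int c (fun i => ((n i : ℕ) : ℤ_[q])) h1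
  refine ⟨n, ?_⟩
  rw [Ideal.mem_span_singleton']
  refine ⟨⟨w, hw⟩, ?_⟩
  apply Subtype.ext
  have h2 : ((∑ i, n i • (⟨e i, he_int i⟩ : OInt q L) : OInt q L) : SemiLoc q L)
      = ∑ i, ((n i : ℕ) : ℤ_[q]) • e i := by
    rw [AddSubmonoidClass.coe_finsetSum]
    refine Finset.sum_congr rfl fun i _ => ?_
    simp [Nat.cast_smul_eq_nsmul]
  change w * (((q : ℕ) : OInt q L) : SemiLoc q L) = (z : SemiLoc q L) - _
  rw [h2, hc, hww, qsmul_eq]
  simp [mul_comm]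

end Basic

section Poincare

variable (q : ℕ) [Fact q.Prime] (L : Type*) [Field L] [CharZero L]
  (K : Type*) [Field K] [Algebra K L]

lemma coe_smul_units_eq (τ : L ≃ₐ[K] L) (x : (SemiLoc q L)ˣ) :
    ((τ • x : (SemiLoc q L)ˣ) : SemiLoc q L) = τ • (x : SemiLoc q L) := rfl

lemma isIntegral_smul (τ : L ≃ₐ[K] L) {z : SemiLoc q L} (hz : IsIntegral ℤ_[q] z) :
    IsIntegral ℤ_[q] (τ • z) := by
  rw [smul_def]
  exact hz.map ((galSemiLocAut q L K τ).toAlgHom.restrictScalars ℤ_[q])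

/-- the partial norms `x · σ x ⋯ σ^{i-1} x` -/
def xi (σ : L ≃ₐ[K] L) (x : (SemiLoc q L)ˣ) (i : ℕ) : (SemiLoc q L)ˣ :=
  ∏ k ∈ Finset.range i, (σ ^ k) • x

lemma xi_zero (σ : L ≃ₐ[K] L) (x : (SemiLoc q L)ˣ) : xi q L K σ x 0 = 1 := by
  simp [xi]

lemma xi_succ (σ : L ≃ₐ[K] L) (x : (SemiLoc q L)ˣ) (i : ℕ) :
    xi q L K σ x (i + 1) = x * σ • xi q L K σ x i := by
  unfold xi
  rw [Finset.prod_range_succ', pow_zero, one_smul, mul_comm]
  congr 1
  have h : σ • (∏ k ∈ Finset.range i, (σ ^ k) • x) = ∏ k ∈ Finset.range i, σ • (σ ^ k) • x :=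
    map_prod (MulDistribMulAction.toMonoidHom (SemiLoc q L)ˣ σ) _ _
  rw [h]
  refine Finset.prod_congr rfl fun k _ => ?_
  rw [← mul_smul, ← pow_succ']

lemma xi_mem_intUnits (σ : L ≃ₐ[K] L) {x : (SemiLoc q L)ˣ} (hx : x ∈ intUnits q L) (i : ℕ) :
    xi q L K σ x i ∈ intUnits q L :=
  Subgroup.prod_mem _ fun k _ => smul_mem_intUnits q L K (σ ^ k) hx

lemma xi_orderOf [Fintype (L ≃ₐ[K] L)] (σ : L ≃ₐ[K] L)
    (hσ : ∀ τ : L ≃ₐ[K] L, τ ∈ Subgroup.zpowers σ) (x : (SemiLoc q L)ˣ) :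
    xi q L K σ x (orderOf σ) = normG (L ≃ₐ[K] L) (SemiLoc q L)ˣ x := by
  classical
  rw [normG_apply, ← IsCyclic.image_range_orderOf hσ, Finset.prod_image]
  · rfl
  · intro i hi j hj h
    exact pow_injOn_Iio_orderOf (by simpa using hi) (by simpa using hj) h

/-- the Poincaré series `c ↦ ∑_i x_i σ^i(c)`, as an additive map -/
def poin (σ : L ≃ₐ[K] L) (x : (SemiLoc q L)ˣ) : SemiLoc q L →+ SemiLoc q L :=
  ∑ i ∈ Finset.range (orderOf σ),
    (AddMonoidHom.mulLeft (xi q L K σ x i : SemiLoc q L)).comp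
      (DistribSMul.toAddMonoidHom (SemiLoc q L) (σ ^ i))

lemma poin_apply (σ : L ≃ₐ[K] L) (x : (SemiLoc q L)ˣ) (c : SemiLoc q L) :
    poin q L K σ x c
      = ∑ i ∈ Finset.range (orderOf σ), (xi q L K σ x i : SemiLoc q L) * ((σ ^ i) • c) := by
  simp [poin]

lemma isIntegral_poin (σ : L ≃ₐ[K] L) {x : (SemiLoc q L)ˣ} (hx : x ∈ intUnits q L)
    {c : SemiLoc q L} (hc : IsIntegral ℤ_[q] c) : IsIntegral ℤ_[q] (poin q L K σ x c) := by
  rw [poin_apply]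
  exact IsIntegral.sum _ fun i _ =>
    (xi_mem_intUnits q L K σ hx i).1.mul (isIntegral_smul q L K (σ ^ i) hc)

/-- the fundamental relation `x σ(P c) = P c - c + x_n c` -/
lemma poin_rel (σ : L ≃ₐ[K] L) (x : (SemiLoc q L)ˣ) (c : SemiLoc q L) :
    (x : SemiLoc q L) * σ • poin q L K σ x c
      = poin q L K σ x c - c + (xi q L K σ x (orderOf σ) : SemiLoc q L) * c := by
  set f : ℕ → SemiLoc q L := fun i => (xi q L K σ x i : SemiLoc q L) * ((σ ^ i) • c) with hf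
  have h1 : (x : SemiLoc q L) * σ • poin q L K σ x c
      = ∑ i ∈ Finset.range (orderOf σ), f (i + 1) := by
    rw [poin_apply, Finset.smul_sum, Finset.mul_sum]
    refine Finset.sum_congr rfl fun i _ => ?_
    rw [hf]
    simp only
    rw [xi_succ, smul_mul', ← mul_smul, ← pow_succ', Units.val_mul, coe_smul_units_eq, mul_assoc]
  have h2 : poin q L K σ x c = ∑ i ∈ Finset.range (orderOf σ), f i := poin_apply q L K σ x c
  have h3 := Finset.sum_range_succ' f (orderOf σ)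
  have h4 := Finset.sum_range_succ f (orderOf σ)
  have h5 : f 0 = c := by simp [hf, xi_zero]
  have h6 : f (orderOf σ) = (xi q L K σ x (orderOf σ) : SemiLoc q L) * c := by
    simp [hf, pow_orderOf_eq_one]
  rw [h1, h2, ← h6, ← h5]
  have : ∑ i ∈ Finset.range (orderOf σ), f (i + 1) + f 0
      = ∑ i ∈ Finset.range (orderOf σ), f i + f (orderOf σ) := by rw [← h3, ← h4]
  linear_combination this

/-- the dual basis identity gives `∑_j θ'_j P(θ_j) = 1` -/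
lemma sum_mul_poin [Finite (L ≃ₐ[K] L)] (σ : L ≃ₐ[K] L) (x : (SemiLoc q L)ˣ)
    {J : Type*} [Fintype J] (θ θ' : J → SemiLoc q L)
    (hd1 : ∑ j, θ' j * θ j = 1)
    (hd0 : ∀ τ : L ≃ₐ[K] L, τ ≠ 1 → ∑ j, θ' j * (τ • θ j) = 0) :
    ∑ j, θ' j * poin q L K σ x (θ j) = 1 := by
  classical
  simp_rw [poin_apply, Finset.mul_sum]
  rw [Finset.sum_comm]
  have h1 : ∀ i ∈ Finset.range (orderOf σ),
      ∑ j, θ' j * ((xi q L K σ x i : SemiLoc q L) * ((σ ^ i) • θ j))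
        = if i = 0 then 1 else 0 := by
    intro i hi
    have h2 : ∑ j, θ' j * ((xi q L K σ x i : SemiLoc q L) * ((σ ^ i) • θ j))
        = (xi q L K σ x i : SemiLoc q L) * ∑ j, θ' j * ((σ ^ i) • θ j) := by
      rw [Finset.mul_sum]
      refine Finset.sum_congr rfl fun j _ => ?_
      ring
    rw [h2]
    by_cases hi0 : i = 0
    · subst hi0
      simp [xi_zero, hd1]
    · rw [if_neg hi0, hd0 _ (pow_ne_one_of_lt_orderOf hi0 (Finset.mem_range.mp hi)), mul_zero]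
  rw [Finset.sum_congr rfl h1,
    Finset.sum_ite_eq' (Finset.range (orderOf σ)) 0 (fun _ => (1 : SemiLoc q L))]
  rw [if_pos (Finset.mem_range.mpr (orderOf_pos σ))]

end Poincare

section Local

variable (q : ℕ) [Fact q.Prime] (L : Type*) [Field L] [CharZero L]
  (K : Type*) [Field K] [Algebra K L]

lemma smul_mem_princUnits' (τ : L ≃ₐ[K] L) {x : (SemiLoc q L)ˣ} (hx : x ∈ princUnits q L) :
    τ • x ∈ princUnits q L := by
  obtain ⟨⟨z, hz, h1⟩, ⟨z', hz', h2⟩⟩ := hx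
  refine ⟨⟨τ • z, isIntegral_smul q L K τ hz, ?_⟩, ⟨τ • z', isIntegral_smul q L K τ hz', ?_⟩⟩
  · rw [coe_smul_units, h1, map_add, map_one, map_smul]
    rfl
  · rw [coe_inv_smul_units, h2, map_add, map_one, map_smul]
    rfl

variable [Fintype (L ≃ₐ[K] L)]

/-- some integral `c` has `P(c)` an integral unit -/
lemma exists_poin_mem_intUnits {d : ℕ} (hd : d < q) (e : Fin d → SemiLoc q L)
    (he_int : ∀ i, IsIntegral ℤ_[q] (e i))
    (he : ∀ z : SemiLoc q L, IsIntegral ℤ_[q] z → ∃ c : Fin d → ℤ_[q], z = ∑ i, c i • e i)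
    {J : Type*} [Fintype J] (θ θ' : J → SemiLoc q L)
    (hθ : ∀ j, IsIntegral ℤ_[q] (θ j)) (hθ' : ∀ j, IsIntegral ℤ_[q] (θ' j))
    (hd1 : ∑ j, θ' j * θ j = 1)
    (hd0 : ∀ τ : L ≃ₐ[K] L, τ ≠ 1 → ∑ j, θ' j * (τ • θ j) = 0)
    (σ : L ≃ₐ[K] L) {x : (SemiLoc q L)ˣ} (hx : x ∈ intUnits q L) :
    ∃ (c : SemiLoc q L) (Y : (SemiLoc q L)ˣ), IsIntegral ℤ_[q] c ∧ Y ∈ intUnits q L ∧
      (Y : SemiLoc q L) = poin q L K σ x c := by
  classical
  let u : J → OInt q L := fun j => ⟨poin q L K σ x (θ j), isIntegral_poin q L K σ hx (hθ j)⟩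
  let m : J → OInt q L := fun j => ⟨θ' j, hθ' j⟩
  have h : ∑ j, m j * u j = 1 := by
    apply Subtype.ext
    rw [AddSubmonoidClass.coe_finsetSum]
    exact sum_mul_poin q L K σ x θ θ' hd1 hd0
  obtain ⟨l, hl⟩ := exists_isUnit_combination (Fact.out : q.Prime) hd (q_mem_of_isMaximal q L)
    (fun i => (⟨e i, he_int i⟩ : OInt q L)) (exists_nat_coeff q L e he_int he) u m h
  obtain ⟨Y, hY, hYv⟩ := exists_mem_intUnits_of_isUnit q L hl
  refine ⟨∑ j, l j • θ j, Y, IsIntegral.sum _ fun j _ => (hθ j).nsmul (l j), hY, ?_⟩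
  rw [hYv, AddSubmonoidClass.coe_finsetSum, map_sum]
  refine Finset.sum_congr rfl fun j _ => ?_
  rw [map_nsmul]
  rfl

/-- `Ĥ^{-1}` of `U / P` vanishes (ambient form) -/
theorem exists_div_deltaHom_mem_princUnits {d : ℕ} (hd : d < q) (e : Fin d → SemiLoc q L)
    (he_int : ∀ i, IsIntegral ℤ_[q] (e i))
    (he : ∀ z : SemiLoc q L, IsIntegral ℤ_[q] z → ∃ c : Fin d → ℤ_[q], z = ∑ i, c i • e i)
    {J : Type*} [Fintype J] (θ θ' : J → SemiLoc q L)
    (hθ : ∀ j, IsIntegral ℤ_[q] (θ j)) (hθ' : ∀ j, IsIntegral ℤ_[q] (θ' j))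
    (hd1 : ∑ j, θ' j * θ j = 1)
    (hd0 : ∀ τ : L ≃ₐ[K] L, τ ≠ 1 → ∑ j, θ' j * (τ • θ j) = 0)
    (σ : L ≃ₐ[K] L) (hσ : ∀ τ : L ≃ₐ[K] L, τ ∈ Subgroup.zpowers σ)
    {x : (SemiLoc q L)ˣ} (hx : x ∈ intUnits q L)
    (hN : normG (L ≃ₐ[K] L) (SemiLoc q L)ˣ x ∈ princUnits q L) :
    ∃ y ∈ intUnits q L, x / (σ • y / y) ∈ princUnits q L := by
  obtain ⟨c, Y, hc, hY, hYc⟩ :=
    exists_poin_mem_intUnits q L K hd e he_int he θ θ' hθ hθ' hd1 hd0 σ hx
  obtain ⟨⟨z, hz, hNz⟩, -⟩ := hN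
  have hrel := poin_rel q L K σ x c
  rw [xi_orderOf q L K σ hσ x, hNz, ← hYc, ← coe_smul_units_eq] at hrel
  have hσY : σ • Y ∈ intUnits q L := smul_mem_intUnits q L K σ hY
  have hYi : Y⁻¹ ∈ intUnits q L := (intUnits q L).inv_mem hY
  refine ⟨Y⁻¹, hYi, ?_⟩
  have hs : x / (σ • Y⁻¹ / Y⁻¹) = x * σ • Y * Y⁻¹ := by
    rw [smul_inv', inv_div_inv, div_div_eq_mul_div, div_eq_mul_inv]
  rw [hs]
  refine mem_princUnits_of q L
    ((intUnits q L).mul_mem ((intUnits q L).mul_mem hx hσY) hYi)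
    (z := z * c * ((Y⁻¹ : (SemiLoc q L)ˣ) : SemiLoc q L)) ((hz.mul hc).mul hYi.1) ?_
  have h1 : (Y : SemiLoc q L) * ((Y⁻¹ : (SemiLoc q L)ˣ) : SemiLoc q L) = 1 := by
    rw [← Units.val_mul, mul_inv_cancel, Units.val_one]
  rw [Units.val_mul, Units.val_mul, hrel]
  simp only [Algebra.smul_def]
  linear_combination (1 : SemiLoc q L) * h1

/-- **RES, local form**: at a prime `q` with the spanning family `e` (`d < q`) and the dual
basis `θ, θ'`, the groups `Ĥ^0` and `Ĥ^{-1}` of `U_q / (1 + q 𝓞)` vanish. -/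
theorem res_local {d : ℕ} (hd : d < q) (e : Fin d → SemiLoc q L)
    (he_int : ∀ i, IsIntegral ℤ_[q] (e i))
    (he : ∀ z : SemiLoc q L, IsIntegral ℤ_[q] z → ∃ c : Fin d → ℤ_[q], z = ∑ i, c i • e i)
    {J : Type*} [Fintype J] (θ θ' : J → SemiLoc q L)
    (hθ : ∀ j, IsIntegral ℤ_[q] (θ j)) (hθ' : ∀ j, IsIntegral ℤ_[q] (θ' j))
    (hd1 : ∑ j, θ' j * θ j = 1)
    (hd0 : ∀ τ : L ≃ₐ[K] L, τ ≠ 1 → ∑ j, θ' j * (τ • θ j) = 0)
    (σ : L ≃ₐ[K] L) (hσ : ∀ τ : L ≃ₐ[K] L, τ ∈ Subgroup.zpowers σ) :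
    (∀ x ∈ intUnits q L, (∀ τ : L ≃ₐ[K] L, τ • x = x) →
      ∃ y ∈ intUnits q L,
        x / normG (L ≃ₐ[K] L) (SemiLoc q L)ˣ y ∈ princUnits q L) ∧
    (∀ x ∈ intUnits q L, normG (L ≃ₐ[K] L) (SemiLoc q L)ˣ x = 1 →
      ∃ y ∈ intUnits q L, x / (σ • y / y) ∈ princUnits q L) := by
  have hminus : ∀ x ∈ intUnits q L,
      normG (L ≃ₐ[K] L) (SemiLoc q L)ˣ x ∈ princUnits q L →
      ∃ y ∈ intUnits q L, x / (σ • y / y) ∈ princUnits q L := fun x hx hN =>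
    exists_div_deltaHom_mem_princUnits q L K hd e he_int he θ θ' hθ hθ' hd1 hd0 σ hσ hx hN
  refine ⟨?_, fun x hx hN => hminus x hx (hN ▸ (princUnits q L).one_mem)⟩
  intro x hx hfix
  have hTst : ∀ (τ : L ≃ₐ[K] L), ∀ x ∈ intUnits q L, τ • x ∈ intUnits q L :=
    fun τ x hx => smul_mem_intUnits q L K τ hx
  have hSst : ∀ (τ : L ≃ₐ[K] L), ∀ x ∈ princUnits q L, τ • x ∈ princUnits q L :=
    fun τ x hx => smul_mem_princUnits' q L K τ hx
  obtain ⟨hcomm, -⟩ := helper42.quotH_comm_of_relIndex_ne_zero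
    (deltaHom (SemiLoc q L)ˣ σ) (normG (L ≃ₐ[K] L) (SemiLoc q L)ˣ)
    (helper42.deltaHom_normG σ) (helper42.normG_deltaHom σ)
    (princUnits q L) (intUnits q L) (princUnits_le_intUnits' q L)
    (helper42.map_deltaHom_le hSst σ) (helper42.map_normG_le hSst)
    (helper42.map_deltaHom_le hTst σ) (helper42.map_normG_le hTst)
    (relIndex_princUnits_ne_zero q L e he_int he)
  have h1 : helper42.quotH (normG (L ≃ₐ[K] L) (SemiLoc q L)ˣ) (deltaHom (SemiLoc q L)ˣ σ)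
      (princUnits q L) (intUnits q L) = 1 := by
    unfold helper42.quotH
    rw [Subgroup.relIndex_eq_one]
    rintro t ⟨ht, htN⟩
    obtain ⟨y, hy, hyt⟩ := hminus t ht htN
    rw [Subgroup.mem_sup]
    refine ⟨σ • y / y, ⟨y, hy, rfl⟩, t / (σ • y / y), hyt, ?_⟩
    rw [mul_div_cancel]
  rw [h1] at hcomm
  unfold helper42.quotH at hcomm
  rw [Subgroup.relIndex_eq_one] at hcomm
  have hx' : x ∈ intUnits q L ⊓ (princUnits q L).comap (deltaHom (SemiLoc q L)ˣ σ) := by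
    refine Subgroup.mem_inf.mpr ⟨hx, ?_⟩
    rw [Subgroup.mem_comap, deltaHom_apply, hfix σ, div_self']
    exact (princUnits q L).one_mem
  obtain ⟨a, ⟨y, hy, rfl⟩, s, hs, hxs⟩ := Subgroup.mem_sup.mp (hcomm hx')
  refine ⟨y, hy, ?_⟩
  rw [← hxs, mul_div_cancel_left]
  exact hs

end Local

end Fermat.Agent.S55.helper3
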