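import Fermat.Agent.S55.helper24_Dict
import Fermat.Agent.S55.helper3_ResLocal

/-!
# S55 / GLOB-RES (helper3): the residue part of the units at almost all primes

`exists_finset_intUnits_mod_princUnits` : for a cyclic extension `L/K` of number fields and almost
all rational primes `q`, the groups `Ĥ^0` and `Ĥ^{-1}` of `U_q / (1 + q 𝓞)` are trivial
(ambient form).  Statement verbatim from `helper73_GlobInterface2` (RES).
-/

set_option autoImplicit false

open scoped TensorProduct NumberField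

noncomputable section

namespace Fermat.Agent.S55.helper3

open Fermat.Agent.S55.helper73

/-! ## The trace-dual basis of a Galois extension -/

section Dual

variable (K L : Type*) [Field K] [Field L] [Algebra K L] [FiniteDimensional K L] [IsGalois K L]

/-- a basis `b` and its trace-dual `b'` satisfy `∑_j b'_j τ(b_j) = δ_{τ,1}` -/
theorem exists_dual_family :
    ∃ (n : ℕ) (b b' : Fin n → L), (∑ j, b' j * b j = 1) ∧
      ∀ τ : L ≃ₐ[K] L, τ ≠ 1 → ∑ j, b' j * τ (b j) = 0 := by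
  classical
  let n := Module.finrank K L
  let bK : Module.Basis (Fin n) K L := Module.finBasis K L
  let b'K : Module.Basis (Fin n) K L :=
    (Algebra.traceForm K L).dualBasis (traceForm_nondegenerate K L) bK
  have hcard : Fintype.card (L ≃ₐ[K] L) = Fintype.card (Fin n) := by
    rw [Fintype.card_fin, ← Nat.card_eq_fintype_card]
    exact IsGalois.card_aut_eq_finrank K L
  let e : (L ≃ₐ[K] L) ≃ Fin n := Fintype.equivOfCardEq hcard
  let A : Matrix (Fin n) (Fin n) L := fun i j => (e.symm i) (bK j)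
  let B : Matrix (Fin n) (Fin n) L := fun i k => (e.symm k) (b'K i)
  have hBA : B * A = 1 := by
    ext i j
    rw [Matrix.mul_apply]
    have h1 : ∑ k, B i k * A k j = ∑ τ : L ≃ₐ[K] L, τ (b'K i * bK j) := by
      rw [← Equiv.sum_comp e.symm]
      refine Finset.sum_congr rfl fun k _ => ?_
      simp only [A, B, map_mul]
    rw [h1, ← trace_eq_sum_automorphisms, ← Algebra.traceForm_apply,
      LinearMap.BilinForm.apply_dualBasis_left, Matrix.one_apply]
    split_ifs with h1 h2 h2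
    · simp
    · exact absurd h1.symm h2
    · exact absurd h2.symm h1
    · simp
  have hAB : A * B = 1 := mul_eq_one_comm.mp hBA
  have key : ∀ τ : L ≃ₐ[K] L, ∑ j, b'K j * τ (bK j) = if e τ = e 1 then 1 else 0 := by
    intro τ
    have h := congrFun (congrFun hAB (e τ)) (e 1)
    rw [Matrix.mul_apply, Matrix.one_apply] at h
    rw [← h]
    refine Finset.sum_congr rfl fun j _ => ?_
    simp only [A, B, Equiv.symm_apply_apply, AlgEquiv.one_apply]
    ring
  refine ⟨n, fun j => bK j, fun j => b'K j, ?_, ?_⟩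
  · have := key 1
    simpa using this
  · intro τ hτ
    rw [key τ, if_neg]
    exact fun h => hτ (e.injective h)

end Dual

/-! ## Integral elements of `ℚ_q ⊗ L` -/

section Integral

open Fermat.Agent.S55.helper24

variable (q : ℕ) [Fact q.Prime] (L : Type*) [Field L] [NumberField L]

/-- `1 ⊗ a` is integral over `ℤ_q` as soon as `m a` is integral for some `m` prime to `q` -/
lemma isIntegral_one_tmul_of_mul {m : ℕ} (hm : ¬ q ∣ m) {a : L}
    (hint : IsIntegral ℤ ((m : L) * a)) :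
    IsIntegral ℤ_[q] ((1 : ℚ_[q]) ⊗ₜ[ℚ] a : SemiLoc q L) := by
  rw [isIntegral_one_tmul_iff]
  intro P hP
  obtain ⟨b, hb⟩ : ∃ b : 𝓞 L, algebraMap (𝓞 L) L b = (m : L) * a := ⟨⟨_, hint⟩, rfl⟩
  have h1 : P.valuation L ((m : L) * a) ≤ 1 := by
    rw [← hb]
    exact P.valuation_le_one b
  rwa [map_mul, valuation_natCast_eq_one q L hm P hP, one_mul] at h1

/-- the coordinates of an integral element in the basis `1 ⊗ bᵢ` are `q`-adic integers -/
theorem exists_repr_of_isIntegral (z : SemiLoc q L) (hz : IsIntegral ℤ_[q] z) :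
    ∃ c : Module.Free.ChooseBasisIndex ℤ (𝓞 L) → ℤ_[q], z = ∑ i, c i • sbasis q L i := by
  classical
  have hq : q.Prime := Fact.out
  obtain ⟨c, hzc⟩ : ∃ c : Module.Free.ChooseBasisIndex ℤ (𝓞 L) → ℚ_[q],
      z = ∑ i, c i • sbasis q L i := ⟨_, ((sbasis q L).sum_repr z).symm⟩
  choose r e he hre using fun i => exists_rat_approx q (c i) 0
  have hre' : ∀ i, c i = (r i : ℚ_[q]) + e i := by
    intro i
    have := hre i
    rw [pow_zero, one_mul] at this
    rw [← this]; ring
  set a : L := ∑ i, r i • NumberField.integralBasis L i with ha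
  have h1 : ((1 : ℚ_[q]) ⊗ₜ[ℚ] a : SemiLoc q L) = ∑ i, (r i : ℚ_[q]) • sbasis q L i := by
    rw [ha, TensorProduct.tmul_sum]
    refine Finset.sum_congr rfl fun i _ => ?_
    rw [sbasis_apply, TensorProduct.smul_tmul', ← TensorProduct.smul_tmul]
    congr 1
  have h2 : ((1 : ℚ_[q]) ⊗ₜ[ℚ] a : SemiLoc q L) = z - ∑ i, e i • sbasis q L i := by
    rw [h1, hzc, ← Finset.sum_sub_distrib]
    refine Finset.sum_congr rfl fun i _ => ?_
    rw [← sub_smul, hre' i]
    congr 1
    ring
  have h3 : IsIntegral ℤ_[q] ((1 : ℚ_[q]) ⊗ₜ[ℚ] a : SemiLoc q L) := by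
    rw [h2]
    exact hz.sub (isIntegral_sum_smul_sbasis q L e he)
  obtain ⟨m, hm, hint⟩ :=
    exists_natCast_mul_isIntegral q L a ((isIntegral_one_tmul_iff q L a).mp h3)
  have hm0 : m ≠ 0 := by rintro rfl; exact hm (dvd_zero q)
  -- the coordinates of `m a` are integers
  have h5 : ∀ i, ∃ n : ℤ, (n : ℚ) = (m : ℚ) * r i := by
    have hmem : (m : L) * a ∈ Submodule.span ℤ (Set.range (NumberField.integralBasis L)) := by
      rw [NumberField.mem_span_integralBasis]
      exact ⟨⟨_, hint⟩, rfl⟩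
    rw [Module.Basis.mem_span_iff_repr_mem] at hmem
    intro i
    obtain ⟨n, hn⟩ := hmem i
    refine ⟨n, ?_⟩
    have h6 : (m : L) * a = ∑ i, ((m : ℚ) * r i) • NumberField.integralBasis L i := by
      rw [ha, Finset.mul_sum]
      refine Finset.sum_congr rfl fun i _ => ?_
      rw [mul_smul, Algebra.smul_def (m : ℚ)]
      simp
    rw [h6, Module.Basis.repr_sum_self] at hn
    simpa using hn
  have hnorm_m : ‖(m : ℚ_[q])‖ = 1 :=
    Padic.norm_natCast_eq_one_iff.mpr ((Nat.Prime.coprime_iff_not_dvd hq).mpr hm)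
  have h7 : ∀ i, ‖(r i : ℚ_[q])‖ ≤ 1 := by
    intro i
    obtain ⟨n, hn⟩ := h5 i
    have h8 : (m : ℚ_[q]) * (r i : ℚ_[q]) = (n : ℚ_[q]) := by
      have := congrArg (fun x : ℚ => (x : ℚ_[q])) hn
      simp only [Rat.cast_mul, Rat.cast_natCast, Rat.cast_intCast] at this
      exact this.symm
    have h9 : ‖(m : ℚ_[q])‖ * ‖(r i : ℚ_[q])‖ = ‖(n : ℚ_[q])‖ := by
      rw [← norm_mul, h8]
    rw [hnorm_m, one_mul] at h9
    rw [h9]
    exact Padic.norm_int_le_one n
  have h10 : ∀ i, ‖c i‖ ≤ 1 := by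
    intro i
    rw [hre' i]
    exact (Padic.nonarchimedean _ _).trans (max_le (h7 i) (he i))
  refine ⟨fun i => ⟨c i, h10 i⟩, ?_⟩
  rw [hzc]
  rfl

end Integral

/-! ## The theorem -/

section Main

open Fermat.Agent.S55.helper24

lemma exists_nat_mul_isIntegral {L : Type*} [Field L] [NumberField L] (a : L) :
    ∃ D : ℕ, 0 < D ∧ IsIntegral ℤ ((D : L) * a) := by
  have halg : IsAlgebraic ℤ a := by
    have : IsAlgebraic ℚ a := (Algebra.IsIntegral.isIntegral a).isAlgebraic
    exact (IsFractionRing.isAlgebraic_iff ℤ ℚ L).mpr this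
  obtain ⟨d, hd0, hd⟩ := halg.exists_integral_multiple
  refine ⟨d.natAbs, Int.natAbs_pos.mpr hd0, ?_⟩
  rcases Int.natAbs_eq d with h1 | h1
  · have : ((d.natAbs : ℕ) : L) * a = d • a := by
      rw [zsmul_eq_mul]; congr 1
      conv_rhs => rw [h1]
      simp
    rw [this]; exact hd
  · have : ((d.natAbs : ℕ) : L) * a = -(d • a) := by
      rw [zsmul_eq_mul, ← neg_mul]; congr 1
      conv_rhs => rw [h1]
      simp
    rw [this]; exact hd.neg

variable (K L : Type*) [Field K] [NumberField K] [Field L] [NumberField L] [Algebra K L]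
  [IsGalois K L]

/-- **RES** (almost all `q`): `Ĥ^0` and `Ĥ^{-1}` of `U_q / (1 + q 𝓞) = (𝓞/q)ˣ` are trivial. -/
theorem exists_finset_intUnits_mod_princUnits
    (σ : Gal(L/K)) (hσ : ∀ τ : Gal(L/K), τ ∈ Subgroup.zpowers σ) :
    ∃ T : Finset Nat.Primes, ∀ q : Nat.Primes, q ∉ T →
      (∀ x ∈ intUnits (q : ℕ) L, (∀ τ : Gal(L/K), τ • x = x) →
        ∃ y ∈ intUnits (q : ℕ) L,
          x / normG Gal(L/K) (SemiLoc (q : ℕ) L)ˣ y ∈ princUnits (q : ℕ) L) ∧
      (∀ x ∈ intUnits (q : ℕ) L, normG Gal(L/K) (SemiLoc (q : ℕ) L)ˣ x = 1 →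
        ∃ y ∈ intUnits (q : ℕ) L, x / (σ • y / y) ∈ princUnits (q : ℕ) L) := by
  classical
  obtain ⟨n, b, b', hd1, hd0⟩ := exists_dual_family K L
  choose D hD0 hD using fun j => exists_nat_mul_isIntegral (b j)
  choose D' hD'0 hD' using fun j => exists_nat_mul_isIntegral (b' j)
  let ι := Module.Free.ChooseBasisIndex ℤ (𝓞 L)
  let d := Fintype.card ι
  let B : ℕ := d + ∑ j, D j + ∑ j, D' j + 1
  let T : Finset Nat.Primes := (Finset.range B).subtype Nat.Prime
  refine ⟨T, fun q hq => ?_⟩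
  have hqB : B ≤ (q : ℕ) := by
    by_contra h
    exact hq (Finset.mem_subtype.mpr (Finset.mem_range.mpr (not_le.mp h)))
  have hDj : ∀ j, D j ≤ ∑ j, D j := fun j =>
    Finset.single_le_sum (fun i _ => Nat.zero_le (D i)) (Finset.mem_univ j)
  have hD'j : ∀ j, D' j ≤ ∑ j, D' j := fun j =>
    Finset.single_le_sum (fun i _ => Nat.zero_le (D' i)) (Finset.mem_univ j)
  have hdq : d < (q : ℕ) := by omega
  have hndvd : ∀ j, ¬ (q : ℕ) ∣ D j := fun j =>
    Nat.not_dvd_of_pos_of_lt (hD0 j) (by have := hDj j; omega)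
  have hndvd' : ∀ j, ¬ (q : ℕ) ∣ D' j := fun j =>
    Nat.not_dvd_of_pos_of_lt (hD'0 j) (by have := hD'j j; omega)
  let ε : ι ≃ Fin d := Fintype.equivFin ι
  refine res_local (q : ℕ) L K hdq (fun k => sbasis (q : ℕ) L (ε.symm k))
    (fun k => isIntegral_sbasis (q : ℕ) L _) ?_
    (fun j => ((1 : ℚ_[(q : ℕ)]) ⊗ₜ[ℚ] b j : SemiLoc (q : ℕ) L))
    (fun j => ((1 : ℚ_[(q : ℕ)]) ⊗ₜ[ℚ] b' j : SemiLoc (q : ℕ) L))
    (fun j => isIntegral_one_tmul_of_mul (q : ℕ) L (hndvd j) (hD j))
    (fun j => isIntegral_one_tmul_of_mul (q : ℕ) L (hndvd' j) (hD' j)) ?_ ?_ σ hσ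
  · intro z hz
    obtain ⟨c, hc⟩ := exists_repr_of_isIntegral (q : ℕ) L z hz
    refine ⟨fun k => c (ε.symm k), ?_⟩
    rw [hc]
    exact (Equiv.sum_comp ε.symm (fun i => c i • sbasis (q : ℕ) L i)).symm
  · simp only [Algebra.TensorProduct.tmul_mul_tmul, mul_one]
    rw [← TensorProduct.tmul_sum, hd1]
    rfl
  · intro τ hτ
    simp only [smul_tmul', Algebra.TensorProduct.tmul_mul_tmul, mul_one]
    rw [← TensorProduct.tmul_sum, hd0 τ hτ, TensorProduct.tmul_zero]

end Main

end Fermat.Agent.S55.helper3
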