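import Fermat.Agent.S55.helper21_Ineq1c
import Fermat.Agent.S55.helper31_GlobLat
import Fermat.Agent.S55.helper3_ResGlobal

/-!
# S55 / GLOB: the first inequality, unconditional (helper73, coordinator wiring)

`ineq1` : for `L/K` cyclic of odd prime degree `p` the Herbrand quotient of the (finite) idele
class group is `p`:  `|Ĥ^0(G, C_L)| = p · |Ĥ^{-1}(G, C_L)|`, both finite.

Wiring of: helper21 (assembly), helper31 (LAT-1, LAT-2), helper3 (RES), helper26/helper5/helper24
(CL), helper42 (HQ), helper44 (units), helper73 (G1).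
-/

set_option autoImplicit false

open scoped TensorProduct NumberField

namespace Fermat.Agent.S55.helper73

variable (K L : Type*) [Field K] [NumberField K] [Field L] [NumberField L] [Algebra K L]
  [IsGalois K L]

/-- **INEQ1** (interface v2 form). -/
theorem ineq1 (p : ℕ) (hp : p.Prime) (hp2 : p ≠ 2) (hdeg : Module.finrank K L = p)
    (σ : Gal(L/K)) (hσ : σ ≠ 1) :
    hMinus (IdeleClass L) σ ≠ 0 ∧
      hZero Gal(L/K) (IdeleClass L) = p * hMinus (IdeleClass L) σ := by
  have : Fact p.Prime := ⟨hp⟩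
  have hσgen : ∀ τ : Gal(L/K), τ ∈ Subgroup.zpowers σ := by
    intro τ
    rw [Fermat.Agent.S14.helper44.zpowers_eq_top_of_ne_one hdeg hσ]
    exact Subgroup.mem_top τ
  exact Fermat.Agent.S55.helper21.ineq1_of_LAT_RES K L p hp hp2 hdeg σ hσ
    (fun q => Fermat.Agent.S55.helper31.exists_trivial_unit_subgroup K L (q : ℕ) σ hσgen)
    (Fermat.Agent.S55.helper31.exists_finset_princUnits_trivial K L σ hσgen)
    (Fermat.Agent.S55.helper3.exists_finset_intUnits_mod_princUnits K L σ hσgen)

/-- **INEQ1** (interface v1 form, indices spelled out). -/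
theorem ineq1' (p : ℕ) (hp : p.Prime) (hp2 : p ≠ 2) (hdeg : Module.finrank K L = p)
    (σ : Gal(L/K)) (hσ : σ ≠ 1) :
    ((deltaHom (IdeleClass L) σ).range.subgroupOf (normG Gal(L/K) (IdeleClass L)).ker).index ≠ 0 ∧
    ((normG Gal(L/K) (IdeleClass L)).range.subgroupOf (fixedSub Gal(L/K) (IdeleClass L))).index =
      p * ((deltaHom (IdeleClass L) σ).range.subgroupOf
        (normG Gal(L/K) (IdeleClass L)).ker).index :=
  ineq1 K L p hp hp2 hdeg σ hσ

end Fermat.Agent.S55.helper73
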