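import Mathlib
import Fermat.Agent.S55.helper6_G9Final
import Fermat.Agent.S55.helper6_G9Cyc
import Fermat.Agent.S55.helper73_Ineq1Final
import Fermat.Agent.S55.helper73_IdlBasic
import Fermat.Agent.S55.helper84_HasseNorm

/-!
# GLOB G8 / G9 wiring: everything from the second inequality alone

With `ineq1` (first inequality), G1 and G3a on main, the statements

* `ideleClass_hilbert90` (`Ĥ⁻¹(C_L) = 1`, cyclic of degree `p`), with and without `ζ_p`,
* `hasse_norm` (Hasse norm theorem, cyclic of degree `p`, no roots of unity),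
* `ideleClass_H1_trivial` and `hasse_principle_H2` for Galois extensions of degree `p ^ n`

are all consequences of the single hypothesis `HypIneq2 p` (Chevalley's second inequality for
cyclic extensions of degree `p` of fields containing `ζ_p`, statement of
`helper73.Interface.ineq2`).
-/

set_option autoImplicit false
set_option linter.style.haveILetI false
set_option linter.unusedSectionVars false
set_option linter.unusedVariables false

universe u v

open groupCohomology IntermediateField Fermat.Agent.S55.helper73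

open scoped TensorProduct

namespace Fermat.Agent.S55.helper6

/-- Hypothesis (INEQ2): Chevalley's second inequality `[C_K : N C_L] ∣ p` for cyclic extensions
of degree `p` of number fields containing `ζ_p` (`helper73.Interface.ineq2`). -/
def HypIneq2 (p : ℕ) : Prop :=
  ∀ (K L : Type u) [Field K] [NumberField K] [Field L] [NumberField L] [Algebra K L]
    [IsGalois K L], Module.finrank K L = p → (∃ ζ : K, IsPrimitiveRoot ζ p) →
    ((normG Gal(L/K) (IdeleClass L)).range.subgroupOf
      (fixedSub Gal(L/K) (IdeleClass L))).index ∣ p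

/-- G3a: at almost all primes the integral units are cohomologically trivial
(`helper73.Interface2.exists_finset_intUnits_trivial`, from LAT-2 and RES). -/
theorem exists_finset_intUnits_trivial (K L : Type*) [Field K] [NumberField K] [Field L]
    [NumberField L] [Algebra K L] [IsGalois K L]
    (σ : Gal(L/K)) (hσ : ∀ τ : Gal(L/K), τ ∈ Subgroup.zpowers σ) :
    ∃ T : Finset Nat.Primes, ∀ q : Nat.Primes, q ∉ T →
      (∀ x ∈ intUnits (q : ℕ) L, (∀ τ : Gal(L/K), τ • x = x) →
        ∃ y ∈ intUnits (q : ℕ) L, normG Gal(L/K) (SemiLoc (q : ℕ) L)ˣ y = x) ∧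
      (∀ x ∈ intUnits (q : ℕ) L, normG Gal(L/K) (SemiLoc (q : ℕ) L)ˣ x = 1 →
        ∃ y ∈ intUnits (q : ℕ) L, σ • y / y = x) := by
  classical
  obtain ⟨T₁, h₁⟩ := helper31.exists_finset_princUnits_trivial K L σ hσ
  obtain ⟨T₂, h₂⟩ := helper3.exists_finset_intUnits_mod_princUnits K L σ hσ
  refine ⟨T₁ ∪ T₂, fun q hq => ?_⟩
  rw [Finset.mem_union, not_or] at hq
  exact helper21.intUnits_trivial_of_LAT2_RES K L (q : ℕ) σ (h₁ q hq.1) (h₂ q hq.2)

section Wire

variable (p : ℕ)

/-- GLOB G8 `ideleClass_hilbert90` (with `ζ_p ∈ K`) from the second inequality. -/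
theorem cyclicH90_of_ineq2 (hp : p.Prime) (hp2 : p ≠ 2) (h2 : HypIneq2.{v} p) :
    helper78.CyclicH90.{v, v} p :=
  fun K L _ _ _ _ _ _ hdeg hζ σ hσ x hx =>
    helper84.ideleClass_hilbert90_of K L p hp.pos σ (helper73.ineq1 K L p hp hp2 hdeg σ hσ)
      (h2 K L hdeg hζ) x hx

/-- `ideleClass_hilbert90` WITHOUT roots of unity from the second inequality. -/
theorem cyclicH90'_of_ineq2 (hp : p.Prime) (hp2 : p ≠ 2) (h2 : HypIneq2.{v} p) :
    helper78.CyclicH90'.{u, v} p :=
  cyclicH90'_of_cyclicH90 p hp hp2 (cyclicH90_of_ineq2 p hp hp2 h2)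

/-- GLOB G8 `hasse_norm` (no roots of unity) from `ideleClass_hilbert90` (with `ζ_p`). -/
theorem hasseNormCyc_of_cyclicH90 (hp : p.Prime) (hp2 : p ≠ 2)
    (h : helper78.CyclicH90.{u, u} p) : HasseNormCyc.{u} p := by
  intro K L _ _ _ _ _ _ hdeg b hloc
  obtain ⟨σ, hσ1, hσ⟩ := helper84.exists_generator_of_finrank_prime K L p hp hdeg
  obtain ⟨T, hT⟩ := exists_finset_intUnits_trivial K L σ hσ
  exact helper84.hasse_norm_of_hilbert90 K L σ
    (fun x hx => cyclicH90'_of_cyclicH90 p hp hp2 h K L hdeg σ hσ1 x hx)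
    ⟨T, fun q hq => (hT q hq).1⟩ (helper73.principalPi_mem_idele L)
    (helper73.principalPi_injective L) b hloc

/-- GLOB G8 `hasse_norm` from the second inequality. -/
theorem hasseNormCyc_of_ineq2 (hp : p.Prime) (hp2 : p ≠ 2) (h2 : HypIneq2.{u} p) :
    HasseNormCyc.{u} p :=
  hasseNormCyc_of_cyclicH90 p hp hp2 (cyclicH90_of_ineq2 p hp hp2 h2)

/-- **GLOB G9 `ideleClass_H1_trivial`** (statement of `helper73_GlobInterface`), conditional
only on the second inequality. -/
theorem ideleClass_H1_trivial_of_ineq2 (h2 : HypIneq2.{v} p) (K : Type u) (L : Type v)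
    [Field K] [NumberField K] [Field L] [NumberField L] [Algebra K L] [IsGalois K L]
    (hp : p.Prime) (hp2 : p ≠ 2) (n : ℕ) (hdeg : Module.finrank K L = p ^ n)
    (f : Gal(L/K) → IdeleClass L) (hf : IsMulCocycle₁ f) : IsMulCoboundary₁ f :=
  haveI : Fact p.Prime := ⟨hp⟩
  ideleClass_H1_trivial_of_hypH90 p (cyclicH90_of_ineq2 p hp hp2 h2) K L n hdeg f hf

/-- **GLOB G9 `hasse_principle_H2`** (statement of `helper73_GlobInterface`), conditional only
on the second inequality. -/
theorem hasse_principle_H2_of_ineq2 (h2 : HypIneq2.{u} p) (K L : Type u)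
    [Field K] [NumberField K] [Field L] [NumberField L] [Algebra K L] [IsGalois K L]
    (hp : p.Prime) (hp2 : p ≠ 2) (n : ℕ) (hdeg : Module.finrank K L = p ^ n)
    (x : Gal(L/K) × Gal(L/K) → Lˣ) (hx : IsMulCocycle₂ x)
    (hloc : ∀ q : Nat.Primes,
      IsMulCoboundary₂ (fun g : Gal(L/K) × Gal(L/K) => principalPi L (x g) q)) :
    IsMulCoboundary₂ x :=
  haveI : Fact p.Prime := ⟨hp⟩
  hasse_principle_H2_of_hasseNorm p (hasseNormCyc_of_ineq2 p hp hp2 h2) K L n hdeg x hx hloc

end Wire

end Fermat.Agent.S55.helper6
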