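import Fermat.Agent.S55.helper90_Rec3Defs

/-!
# S55 / REC3 (FUND): the arithmetic instance on the FULL `S`-tower, definitions (helper90)

`F ⊆ ℚbar` finite, unramified outside `S`; `U = Gal(ℚbar/F)`; levels = `sLevelsStr S F hF`
(`helper69_BArLev`), i.e. the subgroups `Gal(ℚbar/E)`, `E/ℚ` finite Galois unramified outside `S`,
`F ≤ E`.

* `IsSLevel S F E`;
* big modules inside `Idele ℚbar` with the action of `U`:
  `smoothS` (ideles fixed by `Gal(ℚbar/E)` for some `S`-level `E`), `bigJS` (smooth `S`-ideles),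
  `bigES` (`S`-units of `F_S`, as principal ideles), `BigCS = smoothS ⧸ principal` (idele classes
  of `F_S`);
* `repES`, `repJS`, `repCS : Rep ℤ (UF F)`; `fundSeqS : ESeq repES repJS repCS`
  (`0 → E_S → J_S → C`); discreteness.
-/

set_option autoImplicit false
set_option linter.style.haveILetI false

open groupCohomology

noncomputable section

namespace Fermat.Agent.S55.helper90

open Fermat.Agent.S55.helper59 Fermat.Agent.S55.helper73 Fermat.Agent.S55.helper69

local notation "Qbar" => AlgebraicClosure ℚ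

/-! ## `S`-levels -/

section SLevel

variable (S : Finset Nat.Primes) (F : IntermediateField ℚ Qbar)

/-- `E/ℚ` is finite Galois, unramified outside `S`, and contains `F`. -/
def IsSLevel (E : IntermediateField ℚ Qbar) : Prop :=
  E.IsUnramifiedOutside S ∧ E.fixingSubgroup.Normal ∧ F ≤ E

variable {S F}

lemma IsSLevel.sup {E₁ E₂ : IntermediateField ℚ Qbar} (h₁ : IsSLevel S F E₁)
    (h₂ : IsSLevel S F E₂) : IsSLevel S F (E₁ ⊔ E₂) := by
  obtain ⟨hu₁, hn₁, hle₁⟩ := h₁
  obtain ⟨hu₂, hn₂, hle₂⟩ := h₂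
  refine ⟨hu₁.sup hu₂, ?_, le_sup_of_le_left hle₁⟩
  rw [IntermediateField.fixingSubgroup_sup]
  infer_instance

lemma exists_isSLevel (hF : F.IsUnramifiedOutside S) : ∃ E, IsSLevel S F E := by
  obtain ⟨E, hle, hE, hn⟩ := exists_normal_isUnramifiedOutside hF
  exact ⟨E, hE, hn, hle⟩

lemma IsSLevel.mem_sLevels {E : IntermediateField ℚ Qbar} (hE : IsSLevel S F E) :
    E.fixingSubgroup.subgroupOf F.fixingSubgroup ∈ sLevels S F :=
  ⟨E, hE.1, hE.2.1, hE.2.2, rfl⟩

/-- conjugation by any `τ` preserves `Gal(ℚbar/E)` for an `S`-level `E` -/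
lemma IsSLevel.conj_mem {E : IntermediateField ℚ Qbar} (hE : IsSLevel S F E)
    (τ : Qbar ≃ₐ[ℚ] Qbar) {σ : Qbar ≃ₐ[ℚ] Qbar} (hσ : σ ∈ E.fixingSubgroup) :
    τ⁻¹ * σ * τ ∈ E.fixingSubgroup := by
  have hn := hE.2.1
  have := hn.conj_mem σ hσ τ⁻¹
  simpa using this

end SLevel

/-! ## The big modules -/

section Big

variable (S : Finset Nat.Primes) (F : IntermediateField ℚ Qbar)
  (hF : F.IsUnramifiedOutside S)

/-- ideles of `ℚbar` fixed by `Gal(ℚbar/E)` for some `p`-level `E` -/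
def smoothS : Subgroup (Idele Qbar) where
  carrier := {x | ∃ E, IsSLevel S F E ∧
    ∀ σ : Qbar ≃ₐ[ℚ] Qbar, σ ∈ E.fixingSubgroup → σ • x = x}
  one_mem' := by
    obtain ⟨E, hE⟩ := exists_isSLevel hF
    exact ⟨E, hE, fun σ _ => smul_one σ⟩
  mul_mem' := by
    rintro x y ⟨E₁, h₁, hx⟩ ⟨E₂, h₂, hy⟩
    refine ⟨E₁ ⊔ E₂, h₁.sup h₂, fun σ hσ => ?_⟩
    rw [smul_mul', hx σ (IntermediateField.fixingSubgroup_antitone le_sup_left hσ),
      hy σ (IntermediateField.fixingSubgroup_antitone le_sup_right hσ)]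
  inv_mem' := by
    rintro x ⟨E, hE, hx⟩
    exact ⟨E, hE, fun σ hσ => by rw [smul_inv', hx σ hσ]⟩

/-- smooth `S`-ideles -/
def bigJS : Subgroup (Idele Qbar) := smoothS S F hF ⊓ sIdeleSub S

/-- smooth principal ideles -/
def bigPS : Subgroup (Idele Qbar) := smoothS S F hF ⊓ principalSub Qbar

/-- the `S`-units (of the maximal pro-`p` extension of `F` unramified outside `S`), as principal
ideles -/
def bigES : Subgroup (Idele Qbar) := bigJS S F hF ⊓ principalSub Qbar

variable {S F hF}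

lemma smul_mem_smoothS (τ : UF F) {x : Idele Qbar} (hx : x ∈ smoothS S F hF) :
    τ • x ∈ smoothS S F hF := by
  obtain ⟨E, hE, hfix⟩ := hx
  refine ⟨E, hE, fun σ hσ => ?_⟩
  have h1 : (τ : Qbar ≃ₐ[ℚ] Qbar)⁻¹ * σ * τ ∈ E.fixingSubgroup := hE.conj_mem τ hσ
  have h2 := hfix _ h1
  change σ • ((τ : Qbar ≃ₐ[ℚ] Qbar) • x) = (τ : Qbar ≃ₐ[ℚ] Qbar) • x
  calc σ • ((τ : Qbar ≃ₐ[ℚ] Qbar) • x)
      = (τ : Qbar ≃ₐ[ℚ] Qbar) • (((τ : Qbar ≃ₐ[ℚ] Qbar)⁻¹ * σ * τ) • x) := by
        rw [← mul_smul, ← mul_smul]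
        congr 1
        group
    _ = (τ : Qbar ≃ₐ[ℚ] Qbar) • x := by rw [h2]

lemma smul_mem_bigJS (τ : UF F) {x : Idele Qbar} (hx : x ∈ bigJS S F hF) :
    τ • x ∈ bigJS S F hF :=
  ⟨smul_mem_smoothS τ hx.1, smul_mem_sIdeleSub τ hx.2⟩

lemma smul_mem_bigES (τ : UF F) {x : Idele Qbar} (hx : x ∈ bigES S F hF) :
    τ • x ∈ bigES S F hF :=
  ⟨smul_mem_bigJS τ hx.1, smul_mem_principalSub' τ hx.2⟩

variable (S F hF)

/-- `U` acts on the smooth ideles -/
@[reducible] def actSmoothS : MulDistribMulAction (UF F) (smoothS S F hF) :=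
  stableAction _ fun τ _ hx => smul_mem_smoothS τ hx

/-- `U` acts on the smooth `S`-ideles -/
@[reducible] def actJS : MulDistribMulAction (UF F) (bigJS S F hF) :=
  stableAction _ fun τ _ hx => smul_mem_bigJS τ hx

/-- `U` acts on the `S`-units -/
@[reducible] def actES : MulDistribMulAction (UF F) (bigES S F hF) :=
  stableAction _ fun τ _ hx => smul_mem_bigES τ hx

/-- the smooth principal ideles inside the smooth ideles -/
def bigPS' : Subgroup (smoothS S F hF) := (principalSub Qbar).subgroupOf _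

/-- the big idele class group -/
abbrev BigCS : Type := smoothS S F hF ⧸ bigPS' S F hF

/-- `U` acts on the big idele class group -/
@[reducible] def actCS : MulDistribMulAction (UF F) (BigCS S F hF) :=
  letI := actSmoothS S F hF
  quotientAction (bigPS' S F hF) fun τ x hx => by
    have h1 : (x : Idele Qbar) ∈ principalSub Qbar := Subgroup.mem_subgroupOf.1 hx
    exact Subgroup.mem_subgroupOf.2 (smul_mem_principalSub' τ h1)

/-- the `S`-units as a representation of `U` -/
def repES : Rep.{0} ℤ (UF F) :=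
  letI := actES S F hF
  Rep.ofMulDistribMulAction (UF F) (bigES S F hF)

/-- the smooth `S`-ideles as a representation of `U` -/
def repJS : Rep.{0} ℤ (UF F) :=
  letI := actJS S F hF
  Rep.ofMulDistribMulAction (UF F) (bigJS S F hF)

/-- the big idele class group as a representation of `U` -/
def repCS : Rep.{0} ℤ (UF F) :=
  letI := actCS S F hF
  Rep.ofMulDistribMulAction (UF F) (BigCS S F hF)

/-! ## The fundamental left exact sequence -/

lemma repES_ρ (τ : UF F) (x : bigES S F hF) :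
    (repES S F hF).ρ τ (Additive.ofMul x) =
      Additive.ofMul (⟨τ • (x : Idele Qbar), smul_mem_bigES τ x.2⟩ : bigES S F hF) := rfl

lemma repJS_ρ (τ : UF F) (x : bigJS S F hF) :
    (repJS S F hF).ρ τ (Additive.ofMul x) =
      Additive.ofMul (⟨τ • (x : Idele Qbar), smul_mem_bigJS τ x.2⟩ : bigJS S F hF) := rfl

/-- the inclusion `E → J` -/
def incEJS : Additive (bigES S F hF) →+ Additive (bigJS S F hF) :=
  MonoidHom.toAdditive (Subgroup.inclusion (inf_le_left : bigES S F hF ≤ bigJS S F hF))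

/-- the projection `J → C` -/
def projJCS : Additive (bigJS S F hF) →+ Additive (BigCS S F hF) :=
  MonoidHom.toAdditive ((QuotientGroup.mk' (bigPS' S F hF)).comp
    (Subgroup.inclusion (inf_le_left : bigJS S F hF ≤ smoothS S F hF)))

/-- **The fundamental sequence** `0 → E_S → J_S → C`. -/
def fundSeqS : ESeq (repES S F hF) (repJS S F hF) (repCS S F hF) where
  i := incEJS S F hF
  π := projJCS S F hF
  i_eq := fun _ _ => rfl
  π_eq := fun _ _ => rfl
  i_inj := fun x y h => by
    have h' : Subgroup.inclusion (inf_le_left : bigES S F hF ≤ bigJS S F hF)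
        (Additive.toMul x) = Subgroup.inclusion inf_le_left (Additive.toMul y) := h
    exact Subgroup.inclusion_injective _ h'
  π_i := fun e => by
    have he : ((Additive.toMul e : bigES S F hF) : Idele Qbar) ∈ principalSub Qbar :=
      (Additive.toMul e).2.2
    change Additive.ofMul ((QuotientGroup.mk' (bigPS' S F hF)) _) = 0
    rw [← ofMul_one]
    congr 1
    exact (QuotientGroup.eq_one_iff _).2 (Subgroup.mem_subgroupOf.2 he)
  exact := fun j hj => by
    have h1 : (QuotientGroup.mk' (bigPS' S F hF))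
        (Subgroup.inclusion (inf_le_left : bigJS S F hF ≤ smoothS S F hF)
          (Additive.toMul j)) = 1 := hj
    have h2 := Subgroup.mem_subgroupOf.1 ((QuotientGroup.eq_one_iff _).1 h1)
    exact ⟨Additive.ofMul ⟨(Additive.toMul j).1, (Additive.toMul j).2, h2⟩, rfl⟩

/-- `E_S` is discrete -/
theorem isDisc_repES : IsDisc (sLevelsStr S F hF) (repES S F hF) := by
  intro a
  obtain ⟨E, hE, hfix⟩ := (Additive.toMul a).2.1.1
  refine ⟨_, hE.mem_sLevels, fun s hs => ?_⟩
  have := hfix (s : Qbar ≃ₐ[ℚ] Qbar) (Subgroup.mem_subgroupOf.1 hs)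
  exact congrArg Additive.ofMul (Subtype.ext this)

/-- `J_S` is discrete -/
theorem isDisc_repJS : IsDisc (sLevelsStr S F hF) (repJS S F hF) := by
  intro a
  obtain ⟨E, hE, hfix⟩ := (Additive.toMul a).2.1
  refine ⟨_, hE.mem_sLevels, fun s hs => ?_⟩
  have := hfix (s : Qbar ≃ₐ[ℚ] Qbar) (Subgroup.mem_subgroupOf.1 hs)
  exact congrArg Additive.ofMul (Subtype.ext this)

/-- `C` is discrete -/
theorem isDisc_repCS : IsDisc (sLevelsStr S F hF) (repCS S F hF) := by
  intro a
  obtain ⟨x, hx⟩ := QuotientGroup.mk_surjective (Additive.toMul a)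
  obtain ⟨E, hE, hfix⟩ := x.2
  refine ⟨_, hE.mem_sLevels, fun s hs => ?_⟩
  have := hfix (s : Qbar ≃ₐ[ℚ] Qbar) (Subgroup.mem_subgroupOf.1 hs)
  have hx' : a = Additive.ofMul (QuotientGroup.mk x) := by rw [hx]; rfl
  rw [hx']
  change Additive.ofMul (QuotientGroup.mk _) = _
  congr 2
  exact Subtype.ext this

end Big

end Fermat.Agent.S55.helper90
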