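import Fermat.Agent.S55.helper90_Rec3PLoc
import Fermat.Agent.S55.helper90_Rec3Tower
import Fermat.Agent.S55.helper59_BDefs2

/-!
# S55 / REC3 (FUND): INTERFACE v1, definitions (helper90)

DEFINITIONS ONLY (no proofs missing).  The arithmetic packages of REC3 are the `Prop`s / structures of
this file; the abstract assembly consumes them.

## Abstract part (`U`, levels `𝒩`, `0 → E → J → C`, local data `L`)

* `LocSys J L` : a system of local modules `Ω w` (for `Gal(ℚbar_q/K_w)` acting on `ℚbar_qˣ`)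
  with localisation maps `lam w : J → Ω w`;  `LocSys.loc₂` : localisation of 2-cochains;
  `LocSys.κ` : the local Kummer map `ℤ/p → Ω w`.
* `LocSys.Good` : the local inputs: local Hilbert 90, Kummer theory of `Ω w`, divisibility of
  the `p`-part of the local Brauer group, and the semi-local description of `H²(J)`
  (`inj`, `surj`).
* `C1P`, `J3P`, `C2Cyc` : `H¹(C)(p) = 0`, `H³(J)(p) = 0`, `H²(C)(p)` is locally cyclic.
* `OntoP`, `DivJP` : derived statements (inputs of `ESeq.GoodP.h3_Tp`).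
* `H1ModP 𝒩 p E` : `H¹(U, E)/p`.

## Arithmetic instance (full `S`-tower, `helper90_Rec3Tower`)

`CapS`, `C1S`, `J3S`, `C2S` : the statements for `fundSeqS S F hF`.
-/

set_option autoImplicit false

open groupCohomology

noncomputable section

namespace Fermat.Agent.S55.helper90

/-! ## Abstract part -/

section Abs

variable {k U : Type} [CommRing k] [Group U] {𝒩 : Levels U} {ι : Type}
variable {E J C : Rep.{0} k U} (X : ESeq E J C) (L : LocalData U 𝒩 ι)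

/-- A system of local modules for `J` along the local data `L`. -/
structure LocSys (J : Rep.{0} k U) (L : LocalData U 𝒩 ι) where
  /-- the local module at `w` (`ℚbar_qˣ` with the action of `Gal(ℚbar_q/K_w)`) -/
  Ω : ∀ w : ι, Rep.{0} k (L.Gv w)
  /-- the localisation map -/
  lam : ∀ w : ι, J →+ Ω w
  lam_eq : ∀ (w : ι) (s : L.Gv w) (x : J), lam w (J.ρ (L.r w s) x) = (Ω w).ρ s (lam w x)

variable {L}

namespace LocSys

variable (Λ : LocSys J L)

/-- localisation of 1-cochains -/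
def loc₁ (w : ι) (f : U → J) : L.Gv w → Λ.Ω w := fun s => Λ.lam w (f (L.r w s))

/-- localisation of 2-cochains -/
def loc₂ (w : ι) (f : U × U → J) : L.Gv w × L.Gv w → Λ.Ω w :=
  fun s => Λ.lam w (f (L.r w s.1, L.r w s.2))

/-- the local Kummer map -/
def κ {p : ℕ} [Fact p.Prime] (K : KummerDatum E p) (w : ι) : ZMod p →+ Λ.Ω w :=
  (Λ.lam w).comp (X.i.comp K.κ)

lemma κ_apply {p : ℕ} [Fact p.Prime] (K : KummerDatum E p) (w : ι) (a : ZMod p) :
    Λ.κ X K w a = Λ.lam w (X.i (K.κ a)) := rfl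

/-- The local inputs of REC3. -/
structure Good (p : ℕ) [Fact p.Prime] (K : KummerDatum E p) : Prop where
  /-- the local levels have finite index -/
  fin : ∀ w, FinLevels (L.lev w)
  /-- the local modules are discrete -/
  disc : ∀ w, IsDisc (L.lev w) (Λ.Ω w)
  /-- local Hilbert 90 -/
  hilbert90 : ∀ w, Z1 (L.lev w) (Λ.Ω w) ≤ B1 (Λ.Ω w)
  /-- `Ω w` is `p`-divisible -/
  div : ∀ w (x : Λ.Ω w), ∃ y : Λ.Ω w, p • y = x
  /-- the `p`-torsion of `Ω w` is the image of the local Kummer map -/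
  torsion : ∀ w (x : Λ.Ω w), p • x = 0 → ∃ a : ZMod p, Λ.κ X K w a = x
  /-- the local Kummer map is injective -/
  κ_inj : ∀ w, Function.Injective (Λ.κ X K w)
  /-- the `p`-primary part of the local Brauer group is `p`-divisible -/
  div2 : ∀ w, ∀ c ∈ Z2 (L.lev w) (Λ.Ω w), ∀ n : ℕ, p ^ n • c ∈ B2 (L.lev w) (Λ.Ω w) →
    ∃ c' ∈ Z2 (L.lev w) (Λ.Ω w), p • c' - c ∈ B2 (L.lev w) (Λ.Ω w)
  /-- a class of `H²(J)` which is locally trivial everywhere is trivial (up to a multiplier prime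
  to `p`) -/
  inj : ∀ j ∈ Z2 𝒩 J, (∀ w, Λ.loc₂ w j ∈ B2 (L.lev w) (Λ.Ω w)) →
    ∃ m : ℕ, ¬ p ∣ m ∧ m • j ∈ B2 𝒩 J
  /-- every `p`-primary local class at `w` is the localisation of a class of `H²(J)` which is
  locally trivial at all `w' ≠ w` -/
  surj : ∀ w, ∀ c ∈ Z2 (L.lev w) (Λ.Ω w), ∀ n : ℕ, p ^ n • c ∈ B2 (L.lev w) (Λ.Ω w) →
    ∃ j ∈ Z2 𝒩 J, Λ.loc₂ w j - c ∈ B2 (L.lev w) (Λ.Ω w) ∧
      ∀ w', w' ≠ w → Λ.loc₂ w' j ∈ B2 (L.lev w') (Λ.Ω w')

end LocSys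

variable (𝒩) (p : ℕ)

/-- `H¹(C)` is torsion prime to `p`. -/
def C1P (C : Rep.{0} k U) : Prop :=
  ∀ c ∈ Z1 𝒩 C, ∃ m : ℕ, ¬ p ∣ m ∧ m • c ∈ B1 C

/-- `H³(J)` is torsion prime to `p`. -/
def J3P (J : Rep.{0} k U) : Prop :=
  ∀ t ∈ Z3 𝒩 J, ∃ m : ℕ, ¬ p ∣ m ∧ m • t ∈ B3 𝒩 J

/-- the `p`-primary part of `H²(C)` is locally cyclic: a `p`-primary class `c₁` of order
`> p ^ n` generates every class `c₂` killed by `p ^ (n + 1)`. -/
def C2Cyc (C : Rep.{0} k U) : Prop :=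
  ∀ c₁ ∈ Z2 𝒩 C, ∀ c₂ ∈ Z2 𝒩 C, ∀ n N : ℕ, p ^ N • c₁ ∈ B2 𝒩 C → p ^ n • c₁ ∉ B2 𝒩 C →
    p ^ (n + 1) • c₂ ∈ B2 𝒩 C → ∃ a : ℕ, c₂ - a • c₁ ∈ B2 𝒩 C

/-- `H²(J) → H²(C)` is onto up to multipliers prime to `p`. -/
def OntoP : Prop :=
  ∀ c ∈ Z2 𝒩 C, ∃ m : ℕ, ¬ p ∣ m ∧ ∃ j ∈ Z2 𝒩 J, m • c - (fun x => X.π (j x)) ∈ B2 𝒩 C

/-- the kernel of `H²(J) → H²(C)` is `p`-divisible up to multipliers prime to `p`. -/
def DivJP : Prop :=
  ∀ j ∈ Z2 𝒩 J, (fun x => X.π (j x)) ∈ B2 𝒩 C →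
    ∃ m : ℕ, ¬ p ∣ m ∧ ∃ j' ∈ Z2 𝒩 J, (fun x => X.π (j' x)) ∈ B2 𝒩 C ∧
      m • j - p • j' ∈ B2 𝒩 J

/-- the subgroup `B¹(E) + p Z¹(E)` of level 1-cochains -/
def pZ1B1 (E : Rep.{0} k U) : Submodule k (U → E) :=
  B1 E ⊔ (Z1 𝒩 E).map ((p : k) • LinearMap.id)

/-- `H¹(U, E) / p` -/
abbrev H1ModP (E : Rep.{0} k U) : Type :=
  ↥(Z1 𝒩 E) ⧸ (pZ1B1 𝒩 p E).comap (Z1 𝒩 E).subtype

end Abs

/-! ## The arithmetic instance on the full `S`-tower -/

section Arith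

open Fermat.Agent.S55.helper59 Fermat.Agent.S55.helper69

local notation "Qbar" => AlgebraicClosure ℚ

variable (p : ℕ) (S : Finset Nat.Primes) (F : IntermediateField ℚ Qbar)
  (hF : F.IsUnramifiedOutside S)

/-- **R3-CAP** (`p`-capitulation in `F_S`): the cokernel of `J_S → C(F_S)` is torsion prime to
`p`. -/
def CapS : Prop :=
  ∀ c : repCS S F hF, ∃ m : ℕ, ¬ p ∣ m ∧ m • c ∈ (fundSeqS S F hF).D

/-- **R3-C1**: `H¹(G_S, C(F_S))(p) = 0`. -/
def C1S : Prop := C1P (sLevelsStr S F hF) p (repCS S F hF)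

/-- **R3-J3**: `H³(G_S, J_S)(p) = 0`. -/
def J3S : Prop := J3P (sLevelsStr S F hF) p (repJS S F hF)

/-- **R3-C2**: `H²(G_S, C(F_S))(p)` is locally cyclic. -/
def C2S : Prop := C2Cyc (sLevelsStr S F hF) p (repCS S F hF)

/-- the principal idele of `ζ ^ a` (as an element of the full product) -/
def zetaPi {p : ℕ} {F : IntermediateField ℚ Qbar} (ζ : (↥F)ˣ) (a : ZMod p) :
    helper73.IdelePi Qbar :=
  helper73.principalPi Qbar (Units.map (algebraMap ↥F Qbar : ↥F →* Qbar) ζ ^ a.val)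

/-- `S`-levels have finite index -/
theorem finLevels_sLevelsStr : FinLevels (sLevelsStr S F hF) := fun N hN =>
  finite_quotient_of_mem_sLevels S F N hN

variable {p S F hF}

/-- the non-cohomological hypotheses of the `p`-local `E`-assembly hold, given capitulation -/
theorem goodP_of_capS [Fact p.Prime] (hcap : CapS p S F hF) :
    (fundSeqS S F hF).GoodP (sLevelsStr S F hF) p where
  fin := finLevels_sLevelsStr S F hF
  discJ := isDisc_repJS S F hF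
  discC := isDisc_repCS S F hF
  coker := hcap

end Arith

end Fermat.Agent.S55.helper90
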