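import Mathlib
import Fermat.Agent.S55.helper6_G9Wire
import Fermat.Agent.S55.helper1_Rec2Tate
import Fermat.Agent.S55.helper46_Dic3
import Fermat.Agent.S55.helper90_Rec3Int

/-!
# S55 / REC3 / R3-C1 : `H¹(G_S, C(F_S))` is torsion prime to `p`

* `isZero_H1_res_ideleClass_of_isPGroup` : `H¹(P, C_E) = 0` for a `p`-subgroup `P` of the Galois
  group of ANY finite Galois extension `E/K` of number fields (GLOB G9 for `E / E^P`).
* `IdeleClassReal 𝒩 C` : a finite-level realisation of a big module `C` by the idele class group
  of a finite Galois extension (the shape of the arithmetic dictionary R3-DIC for `C`).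
* `c1P_of_ideleClassReal`, `c1S_of` : the statement R3-C1 from cofinal idele class realisations.

Conditional on the second inequality `HypIneq2 p` (GLOB G7) only.
-/

set_option autoImplicit false
set_option linter.style.haveILetI false
set_option linter.unusedSectionVars false
set_option linter.unusedVariables false

open groupCohomology CategoryTheory.Limits Fermat.Agent.S55.helper73

namespace Fermat.Agent.S55.helper6

section Finite

variable (p : ℕ) [Fact p.Prime]

/-- **`H¹(P, C_E) = 0`** for every `p`-subgroup `P` of `Gal(E/K)`, `E/K` any finite Galois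
extension of number fields. -/
theorem isZero_H1_res_ideleClass_of_isPGroup (hp2 : p ≠ 2) (h2 : HypIneq2.{0} p)
    (K E : Type) [Field K] [NumberField K] [Field E] [NumberField E] [Algebra K E]
    [IsGalois K E] (P : Subgroup Gal(E/K)) (hP : IsPGroup p P) :
    IsZero (groupCohomology
      (Rep.res P.subtype (Rep.ofMulDistribMulAction Gal(E/K) (IdeleClass E))) 1) := by
  haveI : FiniteDimensional K E := Module.Finite.of_restrictScalars_finite ℚ K E
  obtain ⟨k, hk⟩ := IsPGroup.iff_card.mp hP
  have hdeg : Module.finrank (IntermediateField.fixedField P) E = p ^ k := by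
    rw [IntermediateField.finrank_fixedField_eq_card, hk]
  have h1 : IsZero (groupCohomology
      (Rep.ofMulDistribMulAction Gal(E/(IntermediateField.fixedField P)) (IdeleClass E)) 1) :=
    helper1.isZero_H1_of_forall_isMulCoboundary₁
      (ideleClass_H1_trivial_of_ineq2 p h2 (IntermediateField.fixedField P) E Fact.out hp2 k
        hdeg)
  exact h1.of_iso (helper1.resIdeleClassIso K E P 1)

end Finite

section Real

variable {U : Type} [Group U]

/-- A finite-level realisation of a big `U`-module `C` by the idele class group of a finite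
Galois extension `E/K` of number fields: `π : U ↠ Gal(E/K)` whose kernel contains a level and an
equivariant embedding `j : C_E → C` onto the `ker π`-invariants. -/
structure IdeleClassReal (𝒩 : Levels U) (C : Rep.{0} ℤ U) where
  /-- the base field -/
  K : Type
  /-- the top field -/
  E : Type
  [fieldK : Field K]
  [numberFieldK : NumberField K]
  [fieldE : Field E]
  [numberFieldE : NumberField E]
  [algebra : Algebra K E]
  [isGalois : IsGalois K E]
  /-- the projection -/
  π : U →* Gal(E/K)
  π_surj : Function.Surjective π
  ker_level : ∃ N ∈ 𝒩.mem, N ≤ π.ker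
  /-- the embedding of the idele class group -/
  j : Additive (IdeleClass E) →+ C
  j_inj : Function.Injective j
  j_ρ : ∀ (u : U) (m : IdeleClass E),
    j (Additive.ofMul (π u • m)) = C.ρ u (j (Additive.ofMul m))
  j_surj : ∀ m : C, (∀ s ∈ π.ker, C.ρ s m = m) → ∃ m', j m' = m

attribute [instance] IdeleClassReal.fieldK IdeleClassReal.numberFieldK IdeleClassReal.fieldE
  IdeleClassReal.numberFieldE IdeleClassReal.algebra IdeleClassReal.isGalois

variable {𝒩 : Levels U} {C : Rep.{0} ℤ U}

/-- The underlying abstract finite-level realisation. -/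
noncomputable def IdeleClassReal.toFinReal (X : IdeleClassReal 𝒩 C) : helper46.FinReal 𝒩 C where
  Q := Gal(X.E/X.K)
  π := X.π
  π_surj := X.π_surj
  ker_level := X.ker_level
  M' := Rep.ofMulDistribMulAction Gal(X.E/X.K) (IdeleClass X.E)
  j :=
    letI : Module ℤ ↑C := C.hV2
    { toFun := fun m => X.j m
      map_add' := X.j.map_add
      map_smul' := fun n m => by
        have h := map_intCast_smul X.j ℤ ℤ n m
        simp only [Int.cast_eq, eq_intCast] at h ⊢
        exact h }
  j_inj := X.j_inj
  j_ρ := fun u m => X.j_ρ u (Additive.toMul m)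
  j_surj := X.j_surj

/-- **R3-C1, abstract form**: if the big module `C` is realised at cofinal finite levels by
idele class groups, then `H¹_lc(U, C)` is torsion prime to `p`. -/
theorem c1P_of_ideleClassReal (p : ℕ) [Fact p.Prime] (hp2 : p ≠ 2) (h2 : HypIneq2.{0} p)
    (hfin : helper90.FinLevels 𝒩) (hd : helper90.IsDisc 𝒩 C)
    (h : ∀ N ∈ 𝒩.mem, ∃ X : IdeleClassReal 𝒩 C, X.π.ker ≤ N) : helper90.C1P 𝒩 p C := by
  refine helper46.Z1_pLocal_of_sylow p hfin hd (fun N hN => ?_)
  obtain ⟨X, hX⟩ := h N hN
  haveI : FiniteDimensional X.K X.E := Module.Finite.of_restrictScalars_finite ℚ X.K X.E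
  have hfinQ : Finite Gal(X.E/X.K) := inferInstance
  obtain ⟨P⟩ : Nonempty (Sylow p Gal(X.E/X.K)) := inferInstance
  exact ⟨X.toFinReal, hX, hfinQ, P,
    isZero_H1_res_ideleClass_of_isPGroup p hp2 h2 X.K X.E P P.isPGroup'⟩

end Real

section STower

local notation "Qbar" => AlgebraicClosure ℚ

variable {p : ℕ} [Fact p.Prime] {S : Finset Nat.Primes} {F : IntermediateField ℚ Qbar}
  (hF : F.IsUnramifiedOutside S)

/-- **R3-C1** (`helper90.Interface.c1S`), conditional on the second inequality and on the
arithmetic dictionary for `C` (idele class realisations at cofinal `S`-levels). -/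
theorem c1S_of (hp2 : p ≠ 2) (h2 : HypIneq2.{0} p)
    (h : ∀ N ∈ (helper69.sLevelsStr S F hF).mem,
      ∃ X : IdeleClassReal (helper69.sLevelsStr S F hF) (helper90.repCS S F hF),
        X.π.ker ≤ N) : helper90.C1S p S F hF :=
  c1P_of_ideleClassReal p hp2 h2 (helper90.finLevels_sLevelsStr S F hF)
    (helper90.isDisc_repCS S F hF) h

end STower

end Fermat.Agent.S55.helper6
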