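import Fermat.Agent.S55.helper69_Rec3Dic
import Fermat.Agent.S55.helper6_Rec3C1

/-!
# S55 / REC3 / R3-DIC : the arithmetic dictionary (part 2: the idele class module `C`)

For a level `E : IntermediateField ↥F Qbar`, normal over `F`, with `E.restrictScalars ℚ`
unramified outside `S`:

* `exists_bcIdele_inv_mul_mem_principalSub` : generic Hilbert 90 descent of idele classes from an
  infinite Galois extension `Ω/K` of a number field `K` (through a finite Galois level `L/K`).
* `jSm : Idele ↥E →* smoothS S F hF`, `jCS : IdeleClass ↥E →* BigCS S F hF` : base change;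
  `jCS_injective` (b), `jCS_smul` (c), `exists_jCS_eq_of_fix` (d).
* `ideleClassReal S F hF E hE : helper6.IdeleClassReal (sLevelsStr S F hF) (repCS S F hF)` and
  `finRealCS S F hF E hE : helper46.FinReal (sLevelsStr S F hF) (repCS S F hF)`, with
  `K = ↥F`, `E = ↥E`, `π = resFix F E`, `M' = repIdeleClass ↥F ↥E`.
* `exists_ideleClassReal`, `exists_finRealCS_ker_eq` : cofinality.
* `fundSeqS_i_jES`, `fundSeqS_π_jJS`, `fundSeqS_i_finRealES`, `fundSeqS_π_finRealJS` : the two
  commuting squares with the fundamental sequence.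
-/

set_option autoImplicit false
set_option linter.unusedSectionVars false
set_option linter.unusedVariables false

open scoped TensorProduct
open groupCohomology

noncomputable section

namespace Fermat.Agent.S55.helper69.Dic

open Fermat.Agent.S55 Fermat.Agent.S55.helper59 Fermat.Agent.S55.helper73
  Fermat.Agent.S55.helper90 Fermat.Agent.S55.helper46

local notation "Qbar" => AlgebraicClosure ℚ

attribute [local instance] helper69.isAlgebraic_Qbar helper69.isAlgClosure_Qbar
  helper69.normal_Qbar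

section GenDescent

variable (K Ω : Type*) [Field K] [NumberField K] [Field Ω] [CharZero Ω] [Algebra K Ω]
  [IsGalois K Ω]

/-- **Hilbert 90 descent of idele classes, infinite level.**  An idele `x` of `Ω` which is fixed
by `Gal(Ω/L)` for a finite Galois extension `L/K` inside `Ω`, and whose class modulo principal
ideles is fixed by `Gal(Ω/K)`, is the base change of an idele of `K` up to a principal idele. -/
theorem exists_bcIdele_inv_mul_mem_principalSub (L : IntermediateField K Ω)
    [FiniteDimensional K L] [IsGalois K L] (x : Idele Ω)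
    (h1 : ∀ σ : Ω ≃ₐ[↥L] Ω, σ • x = x)
    (h2 : ∀ σ : Ω ≃ₐ[K] Ω, (σ • x)⁻¹ * x ∈ principalSub Ω) :
    ∃ y : Idele K, (bcIdele K Ω y)⁻¹ * x ∈ principalSub Ω := by
  have : NumberField ↥L := NumberField.of_module_finite K ↥L
  have : IsGalois ↥L Ω := IsGalois.tower_top_of_isGalois K ↥L Ω
  obtain ⟨x', hx'⟩ := exists_bcIdele_of_fixed ↥L Ω x h1
  have hfixc : ∀ τ : ↥L ≃ₐ[K] ↥L,
      τ • (QuotientGroup.mk x' : IdeleClass ↥L) = QuotientGroup.mk x' := by
    intro τ
    rw [smul_mk, QuotientGroup.eq]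
    apply mem_principalSub_of_bcIdele_mem ↥L Ω
    rw [map_mul, map_inv, hx',
      ← smul_bcIdele_of_restrict K K ↥L Ω (τ.liftNormal Ω) τ
        (fun z => AlgEquiv.liftNormal_commutes τ Ω z) x', hx']
    exact h2 _
  obtain ⟨y, hy⟩ := helper69.exists_bcIdele_of_fixed_class K ↥L _ hfixc
  refine ⟨y, ?_⟩
  have h3 : (bcIdele K ↥L y)⁻¹ * x' ∈ principalSub ↥L := QuotientGroup.eq.1 hy
  have h4 := bcIdele_mem_principalSub ↥L Ω h3
  rwa [map_mul, map_inv, bcIdele_bcIdele K ↥L Ω, hx'] at h4

end GenDescent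

section CS

variable (S : Finset Nat.Primes) (F : IntermediateField ℚ Qbar)
  (hF : F.IsUnramifiedOutside S)
  (E : IntermediateField ↥F Qbar) [Normal ↥F ↥E]
  (hE : (E.restrictScalars ℚ).IsUnramifiedOutside S)

/-- the embedding `J(E) → smooth ideles` -/
def jSm : Idele ↥E →* smoothS S F hF where
  toFun y := ⟨bcIdele ↥E Qbar y, bcIdele_mem_smoothS hF E hE y⟩
  map_one' := Subtype.ext (map_one _)
  map_mul' x y := Subtype.ext (map_mul _ _ _)

@[simp] lemma coe_jSm (y : Idele ↥E) :
    ((jSm S F hF E hE y : smoothS S F hF) : Idele Qbar) = bcIdele ↥E Qbar y := rfl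

lemma principalSub_le_comap_jSm :
    principalSub ↥E ≤ (bigPS' S F hF).comap (jSm S F hF E hE) :=
  fun y hy => by
    rw [Subgroup.mem_comap]
    exact Subgroup.mem_subgroupOf.2 (bcIdele_mem_principalSub ↥E Qbar hy)

/-- the embedding `C(E) → C` -/
def jCS : IdeleClass ↥E →* BigCS S F hF :=
  QuotientGroup.map (principalSub ↥E) (bigPS' S F hF) (jSm S F hF E hE)
    (principalSub_le_comap_jSm S F hF E hE)

@[simp] lemma jCS_mk (y : Idele ↥E) :
    jCS S F hF E hE (QuotientGroup.mk y) = QuotientGroup.mk (jSm S F hF E hE y) := rfl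

lemma jCS_injective : Function.Injective (jCS S F hF E hE) := by
  rw [injective_iff_map_eq_one]
  intro c hc
  induction c using QuotientGroup.induction_on with
  | H y =>
    rw [jCS_mk, QuotientGroup.eq_one_iff] at hc
    have h1 : bcIdele ↥E Qbar y ∈ principalSub Qbar := Subgroup.mem_subgroupOf.1 hc
    exact (QuotientGroup.eq_one_iff _).2 (mem_principalSub_of_bcIdele_mem ↥E Qbar y h1)

lemma repCS_ρ_mk (u : UF F) (x : smoothS S F hF) :
    (repCS S F hF).ρ u (Additive.ofMul (QuotientGroup.mk x : BigCS S F hF)) =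
      Additive.ofMul (QuotientGroup.mk
        (⟨(u : Qbar ≃ₐ[ℚ] Qbar) • (x : Idele Qbar), smul_mem_smoothS u x.2⟩ : smoothS S F hF) :
          BigCS S F hF) := rfl

lemma jCS_smul (u : UF F) (c : IdeleClass ↥E) :
    Additive.ofMul (jCS S F hF E hE (resFix F E u • c)) =
      (repCS S F hF).ρ u (Additive.ofMul (jCS S F hF E hE c)) := by
  induction c using QuotientGroup.induction_on with
  | H y =>
    rw [smul_mk, jCS_mk, jCS_mk, repCS_ρ_mk]
    congr 2
    exact Subtype.ext (smul_bcIdele_resFix F E u y).symm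

end CS

section OverLevel

variable {S : Finset Nat.Primes} {F : IntermediateField ℚ Qbar} (E : IntermediateField ↥F Qbar)

/-- a level is finite over `ℚ` -/
lemma finiteDimensional_level (hE : (E.restrictScalars ℚ).IsUnramifiedOutside S) :
    FiniteDimensional ℚ ↥E :=
  (hE.1 : FiniteDimensional ℚ ↥(E.restrictScalars ℚ))

/-- a level is a number field -/
lemma numberField_level (hE : (E.restrictScalars ℚ).IsUnramifiedOutside S) : NumberField ↥E :=
  haveI := finiteDimensional_level E hE
  ⟨⟩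

/-- a field `E₂ ⊇ E`, as an intermediate field of `ℚbar/E` -/
def overLevel (E₂ : IntermediateField ℚ Qbar) (h : E.restrictScalars ℚ ≤ E₂) :
    IntermediateField ↥E Qbar :=
  E₂.toSubfield.toIntermediateField (fun x => h x.2)

lemma mem_overLevel {E₂ : IntermediateField ℚ Qbar} (h : E.restrictScalars ℚ ≤ E₂) (x : Qbar) :
    x ∈ overLevel E E₂ h ↔ x ∈ E₂ := Iff.rfl

lemma finiteDimensional_overLevel {E₂ : IntermediateField ℚ Qbar}
    (h : E.restrictScalars ℚ ≤ E₂) [h₂ : FiniteDimensional ℚ ↥E₂] :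
    FiniteDimensional ↥E ↥(overLevel E E₂ h) :=
  haveI : FiniteDimensional ℚ ↥(overLevel E E₂ h) := h₂
  Module.Finite.of_restrictScalars_finite ℚ ↥E ↥(overLevel E E₂ h)

lemma isGalois_overLevel {E₂ : IntermediateField ℚ Qbar}
    (h : E.restrictScalars ℚ ≤ E₂) (hn : E₂.fixingSubgroup.Normal) :
    IsGalois ↥E ↥(overLevel E E₂ h) :=
  haveI h₂ : IsGalois ℚ ↥E₂ := (InfiniteGalois.normal_iff_isGalois E₂).mp hn
  haveI : IsGalois ℚ ↥(overLevel E E₂ h) := h₂
  IsGalois.tower_top_of_isGalois ℚ ↥E ↥(overLevel E E₂ h)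

end OverLevel

section CSDescent

variable (S : Finset Nat.Primes) (F : IntermediateField ℚ Qbar)
  (hF : F.IsUnramifiedOutside S)
  (E : IntermediateField ↥F Qbar) [Normal ↥F ↥E]
  (hE : (E.restrictScalars ℚ).IsUnramifiedOutside S)

/-- **(d)**: a class of `C` fixed by the kernel of `resFix F E` is the class of an idele of
`E`. -/
theorem exists_jCS_eq_of_fix (c : BigCS S F hF)
    (hc : ∀ u : UF F, u ∈ (resFix F E).ker →
      (repCS S F hF).ρ u (Additive.ofMul c) = Additive.ofMul c) :
    ∃ c' : IdeleClass ↥E, jCS S F hF E hE c' = c := by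
  obtain ⟨x, rfl⟩ := QuotientGroup.mk_surjective c
  obtain ⟨E₁, hE₁, hfix⟩ := x.2
  obtain ⟨E₀, hle, hE₀, hn⟩ := helper69.exists_normal_isUnramifiedOutside hE
  have hE₀' : IsSLevel S F E₀ := ⟨hE₀, hn, (helper7.le_restrictScalars E).trans hle⟩
  have hE₂ : IsSLevel S F (E₁ ⊔ E₀) := hE₁.sup hE₀'
  have hle₂ : E.restrictScalars ℚ ≤ E₁ ⊔ E₀ := hle.trans le_sup_right
  have : NumberField ↥E := numberField_level E hE
  have : FiniteDimensional ℚ ↥(E₁ ⊔ E₀) := hE₂.1.1
  have : FiniteDimensional ↥E ↥(overLevel E _ hle₂) := finiteDimensional_overLevel E hle₂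
  have : IsGalois ↥E ↥(overLevel E _ hle₂) := isGalois_overLevel E hle₂ hE₂.2.1
  have h1 : ∀ σ : Qbar ≃ₐ[↥(overLevel E _ hle₂)] Qbar, σ • (x : Idele Qbar) = x := by
    intro σ
    rw [smul_idele_eq_of_coe_eq ↥(overLevel E _ hle₂) ℚ Qbar σ (σ.restrictScalars ℚ)
      (fun _ => rfl)]
    apply hfix
    rw [IntermediateField.mem_fixingSubgroup_iff]
    intro z hz
    exact σ.commutes ⟨z, (le_sup_left : E₁ ≤ E₁ ⊔ E₀) hz⟩
  have h2 : ∀ σ : Qbar ≃ₐ[↥E] Qbar,
      (σ • (x : Idele Qbar))⁻¹ * (x : Idele Qbar) ∈ principalSub Qbar := by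
    intro σ
    have h4 := hc (ofGalE F E σ) (ofGalE_mem_ker F E σ)
    rw [repCS_ρ_mk] at h4
    have h5 := QuotientGroup.eq.1 (congrArg Additive.toMul h4)
    have h6 := Subgroup.mem_subgroupOf.1 h5
    rw [smul_idele_eq_of_coe_eq ↥E ℚ Qbar σ ((ofGalE F E σ : UF F) : Qbar ≃ₐ[ℚ] Qbar)
      (fun _ => rfl)]
    exact h6
  obtain ⟨y, hy⟩ := exists_bcIdele_inv_mul_mem_principalSub ↥E Qbar (overLevel E _ hle₂)
    (x : Idele Qbar) h1 h2
  refine ⟨QuotientGroup.mk y, ?_⟩
  rw [jCS_mk]
  exact QuotientGroup.eq.2 (Subgroup.mem_subgroupOf.2 hy)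

/-! ### The finite-level realisation of `C` -/

/-- **The idele class realisation of `C` at the level `E`** (in the shape of
`helper6.IdeleClassReal`): `K = ↥F`, `E = ↥E`, `π = resFix F E`, `j = ` class of
`bcIdele ↥E ℚbar`. -/
def ideleClassReal : helper6.IdeleClassReal (sLevelsStr S F hF) (repCS S F hF) :=
  haveI : FiniteDimensional ℚ ↥F := hF.1
  haveI : NumberField ↥F := ⟨⟩
  haveI : NumberField ↥E := numberField_level E hE
  haveI : IsGalois ↥F ↥E := ⟨⟩
  { K := ↥F
    E := ↥E
    π := resFix F E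
    π_surj := resFix_surjective F E
    ker_level := helper7.exists_mem_le_ker (𝒩 := sLevelsStr S F hF) rfl E hE
    j := (MonoidHom.toAdditive (jCS S F hF E hE) :
      Additive (IdeleClass ↥E) →+ Additive (BigCS S F hF))
    j_inj := fun x y h => jCS_injective S F hF E hE h
    j_ρ := fun u m => jCS_smul S F hF E hE u m
    j_surj := fun m hm => by
      obtain ⟨c', hc'⟩ := exists_jCS_eq_of_fix S F hF E hE (Additive.toMul m) hm
      exact ⟨Additive.ofMul c', congrArg Additive.ofMul hc'⟩ }

/-- **The finite-level realisation of `C` at the level `E`.** -/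
def finRealCS : FinReal (sLevelsStr S F hF) (repCS S F hF) :=
  (ideleClassReal S F hF E hE).toFinReal

@[simp] lemma ideleClassReal_π : (ideleClassReal S F hF E hE).π = resFix F E := rfl
@[simp] lemma finRealCS_π : (finRealCS S F hF E hE).π = resFix F E := rfl
lemma finRealCS_M' : (finRealCS S F hF E hE).M' = repIdeleClass ↥F ↥E := rfl

lemma finRealCS_j (c : IdeleClass ↥E) :
    (Additive.toMul ((finRealCS S F hF E hE).j (Additive.ofMul c)) : BigCS S F hF) =
      jCS S F hF E hE c := rfl

/-- **R3-DIC for `C`, in the shape requested by R3-C1 / R3-C2**: every `S`-level contains the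
kernel of an idele class realisation. -/
theorem exists_ideleClassReal' (N : Subgroup (UF F)) (hN : N ∈ (sLevelsStr S F hF).mem) :
    ∃ X : helper6.IdeleClassReal (sLevelsStr S F hF) (repCS S F hF), X.π.ker ≤ N := by
  have : FiniteDimensional ℚ ↥F := hF.1
  obtain ⟨E, hfin, hgal, hE, hker⟩ :=
    helper7.exists_level_ker_eq (𝒩 := sLevelsStr S F hF) rfl N hN
  exact ⟨ideleClassReal S F hF E hE, hker.le⟩

/-- cofinality of the realisations `finRealCS`. -/
theorem exists_finRealCS_ker_eq (N : Subgroup (UF F)) (hN : N ∈ (sLevelsStr S F hF).mem) :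
    ∃ (E : IntermediateField ↥F Qbar) (_ : FiniteDimensional ↥F ↥E) (_ : IsGalois ↥F ↥E)
      (hE : (E.restrictScalars ℚ).IsUnramifiedOutside S),
      (finRealCS S F hF E hE).π.ker = N := by
  have : FiniteDimensional ℚ ↥F := hF.1
  obtain ⟨E, hfin, hgal, hE, hker⟩ :=
    helper7.exists_level_ker_eq (𝒩 := sLevelsStr S F hF) rfl N hN
  exact ⟨E, hfin, hgal, hE, hker⟩

/-! ### Compatibility with the fundamental sequence -/

/-- the square `E_S(E) → J_S(E)`, `E_S → J_S` commutes -/
lemma fundSeqS_i_jES (y : sUnitIdele S ↥E) :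
    (fundSeqS S F hF).i (Additive.ofMul (jES S F hF E hE y)) =
      Additive.ofMul (jJS S F hF E hE ⟨(y : Idele ↥E), y.2.1⟩) := rfl

/-- the square `J_S(E) → C(E)`, `J_S → C` commutes -/
lemma fundSeqS_π_jJS (y : sIdele S ↥E) :
    (fundSeqS S F hF).π (Additive.ofMul (jJS S F hF E hE y)) =
      Additive.ofMul (jCS S F hF E hE (QuotientGroup.mk (y : Idele ↥E))) := rfl

/-- the same squares, for the realisations -/
lemma fundSeqS_i_finRealES (m : (finRealES S F hF E hE).M') :
    (fundSeqS S F hF).i ((finRealES S F hF E hE).j m) =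
      (finRealJS S F hF E hE).j
        (Additive.ofMul (⟨((Additive.toMul m : sUnitIdele S ↥E) : Idele ↥E),
          (Additive.toMul m : sUnitIdele S ↥E).2.1⟩ : sIdele S ↥E)) := rfl

lemma fundSeqS_π_finRealJS (m : (finRealJS S F hF E hE).M') :
    (fundSeqS S F hF).π ((finRealJS S F hF E hE).j m) =
      (finRealCS S F hF E hE).j
        (Additive.ofMul (QuotientGroup.mk ((Additive.toMul m : sIdele S ↥E) : Idele ↥E) :
          IdeleClass ↥E)) := rfl

end CSDescent

section Exists

variable {S : Finset Nat.Primes} {F : IntermediateField ℚ Qbar}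

/-- **R3-DIC for `C`**, verbatim in the shape requested by helper6 (R3-C1, #1045). -/
theorem exists_ideleClassReal (hF : F.IsUnramifiedOutside S) (N : Subgroup (UF F))
    (hN : N ∈ (helper69.sLevelsStr S F hF).mem) :
    ∃ X : helper6.IdeleClassReal (helper69.sLevelsStr S F hF) (helper90.repCS S F hF),
      X.π.ker ≤ N :=
  exists_ideleClassReal' S F hF N hN

end Exists

end Fermat.Agent.S55.helper69.Dic
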