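import Fermat.Agent.S55.helper84_ZetaExt
import Fermat.Agent.S55.helper73_IdlBasic

/-!
# S55 / GLOB G8 (helper84): the Hasse norm theorem without roots of unity

`hasse_norm_of_inputs`: the Hasse norm theorem for every cyclic extension `L/K` of number fields
of prime degree `p` (no hypothesis on roots of unity), given the first inequality, the second
inequality and G3a for all cyclic extensions `L'/K'` of degree `p` with `ζ_p ∈ K'`
(in the universe of `L`).  G1 (`principalPi_mem_idele`, `principalPi_injective`) is used from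
`helper73_IdlBasic`.
-/

set_option autoImplicit false
set_option linter.style.haveILetI false
set_option linter.unusedSectionVars false
set_option linter.unusedVariables false

open scoped TensorProduct NumberField

universe u v

namespace Fermat.Agent.S55.helper84

open Fermat.Agent.S55.helper73

/-- First inequality (interface v2 shape) for all cyclic extensions of degree `p` whose base
field contains `ζ_p`. -/
def Ineq1Zeta (p : ℕ) : Prop :=
  ∀ (K L : Type u) [Field K] [NumberField K] [Field L] [NumberField L] [Algebra K L]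
    [IsGalois K L], Module.finrank K L = p → (∃ ζ : K, IsPrimitiveRoot ζ p) →
    ∀ σ : Gal(L/K), σ ≠ 1 → hMinus (IdeleClass L) σ ≠ 0 ∧
      hZero Gal(L/K) (IdeleClass L) = p * hMinus (IdeleClass L) σ

/-- Second inequality (interface shape) for all cyclic extensions of degree `p` whose base
field contains `ζ_p`. -/
def Ineq2Zeta (p : ℕ) : Prop :=
  ∀ (K L : Type u) [Field K] [NumberField K] [Field L] [NumberField L] [Algebra K L]
    [IsGalois K L], Module.finrank K L = p → (∃ ζ : K, IsPrimitiveRoot ζ p) →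
    ((normG Gal(L/K) (IdeleClass L)).range.subgroupOf
      (fixedSub Gal(L/K) (IdeleClass L))).index ∣ p

/-- G3a (interface v2 shape) for all cyclic extensions of degree `p` whose base field
contains `ζ_p`. -/
def G3aZeta (p : ℕ) : Prop :=
  ∀ (K L : Type u) [Field K] [NumberField K] [Field L] [NumberField L] [Algebra K L]
    [IsGalois K L], Module.finrank K L = p → (∃ ζ : K, IsPrimitiveRoot ζ p) →
    ∀ σ : Gal(L/K), (∀ τ : Gal(L/K), τ ∈ Subgroup.zpowers σ) →
      ∃ T : Finset Nat.Primes, ∀ q : Nat.Primes, q ∉ T →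
      (∀ x ∈ intUnits (q : ℕ) L, (∀ τ : Gal(L/K), τ • x = x) →
        ∃ y ∈ intUnits (q : ℕ) L, normG Gal(L/K) (SemiLoc (q : ℕ) L)ˣ y = x) ∧
      (∀ x ∈ intUnits (q : ℕ) L, normG Gal(L/K) (SemiLoc (q : ℕ) L)ˣ x = 1 →
        ∃ y ∈ intUnits (q : ℕ) L, σ • y / y = x)

/-- The Hasse norm theorem when `ζ_p ∈ K`, from the inputs. -/
theorem hasse_norm_zeta_of_inputs (p : ℕ) (hp : p.Prime)
    (hI1 : Ineq1Zeta.{u} p) (hI2 : Ineq2Zeta.{u} p) (hG3a : G3aZeta.{u} p)
    (K L : Type u) [Field K] [NumberField K] [Field L] [NumberField L] [Algebra K L]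
    [IsGalois K L] (hdeg : Module.finrank K L = p) (hζ : ∃ ζ : K, IsPrimitiveRoot ζ p)
    (b : Kˣ)
    (hloc : ∀ q : Nat.Primes, ∃ y : (SemiLoc (q : ℕ) L)ˣ,
      normG Gal(L/K) (SemiLoc (q : ℕ) L)ˣ y =
        principalPi L (Units.map (algebraMap K L : K →* L) b) q) :
    ∃ y : Lˣ, normG Gal(L/K) Lˣ y = Units.map (algebraMap K L : K →* L) b :=
  hasse_norm_of_ineq K L p hp hdeg (hI1 K L hdeg hζ) (hI2 K L hdeg hζ) (hG3a K L hdeg hζ)
    (principalPi_mem_idele L) (principalPi_injective L) b hloc

/-- **HASSE NORM THEOREM** for cyclic extensions of prime degree `p` of number fields, with no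
hypothesis on roots of unity, from the two inequalities and G3a in the presence of `ζ_p`. -/
theorem hasse_norm_of_inputs (p : ℕ) (hp : p.Prime)
    (hI1 : Ineq1Zeta.{u} p) (hI2 : Ineq2Zeta.{u} p) (hG3a : G3aZeta.{u} p)
    (K : Type v) (L : Type u) [Field K] [NumberField K] [Field L] [NumberField L] [Algebra K L]
    [IsGalois K L] (hdeg : Module.finrank K L = p)
    (b : Kˣ)
    (hloc : ∀ q : Nat.Primes, ∃ y : (SemiLoc (q : ℕ) L)ˣ,
      normG Gal(L/K) (SemiLoc (q : ℕ) L)ˣ y =
        principalPi L (Units.map (algebraMap K L : K →* L) b) q) :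
    ∃ y : Lˣ, normG Gal(L/K) Lˣ y = Units.map (algebraMap K L : K →* L) b := by
  haveI : Fact p.Prime := ⟨hp⟩
  haveI := isGalois_zetaK K L p
  refine hasse_norm_descent K L (zetaK K L p) (CyclotomicField p L) p hp hdeg
    (coprime_finrank_zetaK K L p) (resGal_zeta_injective K L p) ?_ b hloc
  intro hdeg' b' hloc'
  exact hasse_norm_zeta_of_inputs p hp hI1 hI2 hG3a (zetaK K L p) (CyclotomicField p L) hdeg'
    ⟨zetaKgen K L p, zetaKgen_spec K L p⟩ b' hloc'

end Fermat.Agent.S55.helper84
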