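import Fermat.Agent.S55.helper89_Ineq2
import Fermat.Agent.S55.helper84_HasseNorm2
import Fermat.Agent.S55.helper6_G9Wire

/-!
# S55 / GLOB / G7 (helper89): the second inequality in the hypothesis shapes of G8 / G9

* `ineq2Zeta p hp hp2 : helper84.Ineq2Zeta p`
* `hypIneq2 p hp hp2 : helper6.HypIneq2 p`
-/

set_option autoImplicit false

universe u

namespace Fermat.Agent.S55.helper89

/-- the hypothesis `Ineq2Zeta` of G8 (helper84). -/
theorem ineq2Zeta (p : ℕ) (hp : p.Prime) (hp2 : p ≠ 2) :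
    Fermat.Agent.S55.helper84.Ineq2Zeta.{u} p :=
  fun K L _ _ _ _ _ _ hdeg hζ => ineq2 K L p hp hp2 hdeg hζ

/-- the hypothesis `HypIneq2` of G9 (helper6). -/
theorem hypIneq2 (p : ℕ) (hp : p.Prime) (hp2 : p ≠ 2) :
    Fermat.Agent.S55.helper6.HypIneq2.{u} p :=
  fun K L _ _ _ _ _ _ hdeg hζ => ineq2 K L p hp hp2 hdeg hζ

end Fermat.Agent.S55.helper89
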