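import Fermat.Agent.S55.helper90_Rec3Int

/-!
# S55 / REC3 (FUND), R3-ABS-LKB: the local Kummer bridge (helper26, task 493)

`LocSys.Good.mem_B2_of_κ` : a level 2-cocycle `z` of `ℤ/p` on the local group `L.Gv w` whose image
under the local Kummer map `κ_w : ℤ/p → Ω w` is a level coboundary is itself a level coboundary.

Proof: `κ z = d β` with `β` a level 1-cochain of `Ω w`; then `p β` is a level 1-cocycle, hence a
coboundary `d₀₁ γ` (local Hilbert 90); write `γ = p δ` (divisibility), so `p (β - d₀₁ δ) = 0` and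
`β - d₀₁ δ = κ ∘ b` (Kummer theory) with `b` a level 1-cochain of `ℤ/p`; finally
`κ (d b) = d (β - d₀₁ δ) = d β = κ z` and `κ` is injective.
-/

set_option autoImplicit false

open groupCohomology

noncomputable section

namespace Fermat.Agent.S55.helper26

open Fermat.Agent.S55 Fermat.Agent.S55.helper90

section Aux

variable {k U : Type} [CommRing k] [Group U] {𝒩 : Levels U} {ι : Type}
variable {E J C : Rep.{0} k U} {X : ESeq E J C} {L : LocalData U 𝒩 ι}
variable {p : ℕ} [Fact p.Prime]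

/-- the local Kummer map takes values in the invariants of `Ω w` -/
lemma LocSys.κ_fixed (Λ : LocSys J L) (K : KummerDatum E p) (w : ι) (s : L.Gv w)
    (a : ZMod p) : (Λ.Ω w).ρ s (Λ.κ X K w a) = Λ.κ X K w a := by
  rw [LocSys.κ_apply, ← Λ.lam_eq, ← X.i_eq, K.κ_fixed]

/-- the local Kummer map takes values in the `p`-torsion of `Ω w` -/
lemma LocSys.nsmul_κ (Λ : LocSys J L) (K : KummerDatum E p) (w : ι) (a : ZMod p) :
    p • Λ.κ X K w a = 0 := by
  rw [← map_nsmul, nsmul_eq_mul, CharP.cast_eq_zero, zero_mul, map_zero]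

/-- the local Kummer map commutes with `d₁₂` -/
lemma LocSys.d₁₂_κ (Λ : LocSys J L) (K : KummerDatum E p) (w : ι)
    (m : L.Gv w → ZMod p) :
    (d₁₂ (Λ.Ω w)).hom (fun x => Λ.κ X K w (m x)) =
      fun x => Λ.κ X K w ((d₁₂ (Tp (L.Gv w) p)).hom m x) := by
  funext x
  simp only [d₁₂_hom_apply, LocSys.κ_fixed, map_sub, map_add]
  rfl

/-- a `0`-coboundary with values in a discrete module is a level cochain -/
lemma d₀₁_mem_C1_of_isDisc {G : Type} [Group G] {𝒩' : Levels G} {A : Rep.{0} k G}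
    (hd : IsDisc 𝒩' A) (a : A) : (d₀₁ A).hom a ∈ C1 𝒩' A := by
  obtain ⟨N, hN, hfix⟩ := hd a
  refine ⟨N, hN, fun g s hs => ?_⟩
  simp only [d₀₁_hom_apply]
  rw [map_mul, Module.End.mul_apply, hfix s hs]

set_option linter.unusedVariables false in
/-- **R3-ABS-LKB** (local Kummer bridge), without the finiteness assumption on the index set. -/
theorem LocSys.Good.mem_B2_of_κ_aux (Λ : LocSys J L) (K : KummerDatum E p) (hΛ : Λ.Good X p K)
    (w : ι) (z : L.Gv w × L.Gv w → ZMod p) (hz : z ∈ Z2 (L.lev w) (Tp (L.Gv w) p))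
    (h : (fun s => Λ.κ X K w (z s)) ∈ B2 (L.lev w) (Λ.Ω w)) :
    z ∈ B2 (L.lev w) (Tp (L.Gv w) p) := by
  obtain ⟨β, hβ, hdβ⟩ := h
  -- `p β` is a level 1-cocycle
  have hpβ : p • β ∈ Z1 (L.lev w) (Λ.Ω w) := by
    refine ⟨(C1 (L.lev w) (Λ.Ω w)).nsmul_mem hβ p, ?_⟩
    change (d₁₂ (Λ.Ω w)).hom (p • β) = 0
    rw [map_nsmul, hdβ]
    funext x
    exact LocSys.nsmul_κ (X := X) Λ K w (z x)
  -- local Hilbert 90
  obtain ⟨γ, hγ⟩ := hΛ.hilbert90 w hpβ
  -- divisibility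
  obtain ⟨δ, hδ⟩ := hΛ.div w γ
  set β' : L.Gv w → Λ.Ω w := β - (d₀₁ (Λ.Ω w)).hom δ with hβ'
  have hβ'C : β' ∈ C1 (L.lev w) (Λ.Ω w) :=
    Submodule.sub_mem _ hβ (d₀₁_mem_C1_of_isDisc (hΛ.disc w) δ)
  have hpβ' : ∀ g, p • β' g = 0 := by
    intro g
    have : p • β' = 0 := by
      rw [hβ', smul_sub, ← map_nsmul, hδ, hγ, sub_self]
    exact congrFun this g
  -- Kummer theory
  choose b hb using fun g => hΛ.torsion w (β' g) (hpβ' g)
  have hbfun : (fun g => Λ.κ X K w (b g)) = β' := funext hb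
  have hbC : b ∈ C1 (L.lev w) (Tp (L.Gv w) p) := by
    obtain ⟨N, hN, hc⟩ := hβ'C
    refine ⟨N, hN, fun g s hs => ?_⟩
    apply hΛ.κ_inj w
    rw [hb, hb, hc g s hs]
  refine ⟨b, hbC, ?_⟩
  funext x
  apply hΛ.κ_inj w
  have h1 := congrFun (LocSys.d₁₂_κ (X := X) Λ K w b) x
  rw [hbfun] at h1
  have h2 : (d₁₂ (Λ.Ω w)).hom β' = fun s => Λ.κ X K w (z s) := by
    have h3 : (d₁₂ (Λ.Ω w)).hom ((d₀₁ (Λ.Ω w)).hom δ) = 0 := by
      have := congrArg (fun φ => φ.hom δ) (d₀₁_comp_d₁₂ (Λ.Ω w))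
      exact this
    rw [hβ', map_sub, hdβ, h3, sub_zero]
  rw [h2] at h1
  exact h1.symm

end Aux

section Abs

variable {k U : Type} [CommRing k] [Group U] {𝒩 : Levels U} {ι : Type} [Fintype ι]
variable {E J C : Rep.{0} k U} {X : ESeq E J C} {L : LocalData U 𝒩 ι}
variable {p : ℕ} [Fact p.Prime]

set_option linter.unusedSectionVars false in
/-- **R3-ABS-LKB** (local Kummer bridge): a level 2-cocycle `z` of `ℤ/p` on the local group whose
image in `Ω w` is a level coboundary is a level coboundary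
(`κ z = d β ⇒ p β ∈ Z¹ = B¹ ⇒ β = d₀₁ δ + κ b ⇒ z = d b`). -/
theorem LocSys.Good.mem_B2_of_κ (Λ : LocSys J L) (K : KummerDatum E p) (hΛ : Λ.Good X p K)
    (w : ι) (z : L.Gv w × L.Gv w → ZMod p) (hz : z ∈ Z2 (L.lev w) (Tp (L.Gv w) p))
    (h : (fun s => Λ.κ X K w (z s)) ∈ B2 (L.lev w) (Λ.Ω w)) :
    z ∈ B2 (L.lev w) (Tp (L.Gv w) p) :=
  LocSys.Good.mem_B2_of_κ_aux Λ K hΛ w z hz h

end Abs

end Fermat.Agent.S55.helper26
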