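import Fermat.Agent.S55.helper90_Rec3Wire2
import Fermat.Agent.S55.helper26_Rec3LKB

/-!
# S55 / REC3, package R3-ABS-I4 (helper90): global classes with prescribed local invariants

`exists_global₂_abs` : field `exists_global₂` (I4) of `helper59.BaseInput`, abstract form:
every family of local classes of `H²(U_w, ℤ/p)` with vanishing sum of invariants is the family of
restrictions of a global class.

Proof: for `w ≠ w₀` the class `t_w - a • t_{w₀}` of `H²(J)` (`t_w` from R3-ABS-T) dies in `H²(C)`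
(`C2Cyc`), so `exists_Tp_of_J` gives a global class `z_w` of `H²(U, ℤ/p)` with non-zero invariant
at `w` and trivial restriction outside `{w, w₀}` (local Kummer bridge); a linear combination of
the `z_w` has the prescribed invariants at all `w ≠ w₀`, and then also at `w₀` by reciprocity.
-/

set_option autoImplicit false
set_option linter.unusedSectionVars false
set_option linter.unusedFintypeInType false

open groupCohomology

noncomputable section

namespace Fermat.Agent.S55.helper90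

open Fermat.Agent.S55 Fermat.Agent.S55.helper59

section Abs

variable {k U : Type} [CommRing k] [Group U] {𝒩 : Levels U} {ι : Type} [Fintype ι]
variable {E J C : Rep.{0} k U} {X : ESeq E J C} {L : LocalData U 𝒩 ι}
variable {p : ℕ} [Fact p.Prime]

/-- restriction of 2-cochains of `ℤ/p` to the local group, as a linear map -/
def resL (L : LocalData U 𝒩 ι) (p : ℕ) (w : ι) :
    (U × U → ZMod p) →ₗ[ZMod p] (L.Gv w × L.Gv w → ZMod p) :=
  LinearMap.funLeft (ZMod p) (ZMod p) (fun s : L.Gv w × L.Gv w => (L.r w s.1, L.r w s.2))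

lemma resL_apply (w : ι) (z : U × U → ZMod p) :
    resL L p w z = fun s => z (L.r w s.1, L.r w s.2) := rfl

lemma resL_mem_Z2 (w : ι) {z : U × U → ZMod p} (hz : z ∈ Z2 𝒩 (Tp U p)) :
    resL L p w z ∈ Z2 (L.lev w) (Tp (L.Gv w) p) :=
  helper85.resTp_mem_Z2 L w hz

/-- **the two-point classes**: for `w ≠ w₀` a global class of `H²(U, ℤ/p)` with non-zero
invariant at `w` and trivial restriction outside `{w, w₀}`. -/
theorem exists_two_point_class (hG : X.GoodP 𝒩 p) (K : KummerDatum E p) (hdE : IsDisc 𝒩 E)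
    (hC1 : C1P 𝒩 p C) (hC2 : C2Cyc 𝒩 p C) (Λ : LocSys J L) (hΛ : Λ.Good X p K)
    (inv : ∀ w : ι, (L.Gv w × L.Gv w → ZMod p) →ₗ[ZMod p] ZMod p)
    (hinv : InvHyp 𝒩 L p inv) (w₀ w : ι) (hw : w ≠ w₀) :
    ∃ z ∈ Z2 𝒩 (Tp U p), inv w (resL L p w z) ≠ 0 ∧
      ∀ w', w' ≠ w → w' ≠ w₀ → inv w' (resL L p w' z) = 0 := by
  obtain ⟨c₀, hc₀, hc₀'⟩ := hinv.I1' w₀
  obtain ⟨c₁, hc₁, hc₁'⟩ := hinv.I1' w
  obtain ⟨t₀, ht₀, hpt₀, -, hloc₀, hπt₀⟩ :=
    helper85.exists_local_class hG K hdE hC1 Λ hΛ inv hinv.I1 hinv.I3 w₀ c₀ hc₀ hc₀'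
  obtain ⟨t₁, ht₁, hpt₁, hloc₁w, hloc₁, -⟩ :=
    helper85.exists_local_class hG K hdE hC1 Λ hΛ inv hinv.I1 hinv.I3 w c₁ hc₁ hc₁'
  -- `π t₁ ~ a π t₀`
  have hπZ₀ : (fun x => X.π (t₀ x)) ∈ Z2 𝒩 C := helper43.piComp_mem_Z2 ht₀
  have hπZ₁ : (fun x => X.π (t₁ x)) ∈ Z2 𝒩 C := helper43.piComp_mem_Z2 ht₁
  have hp₀ : p ^ 1 • (fun x => X.π (t₀ x)) ∈ B2 𝒩 C := by
    rw [pow_one, ← helper43.piComp_nsmul]
    exact helper43.piComp_mem_B2 hpt₀
  have hp₁ : p ^ (0 + 1) • (fun x => X.π (t₁ x)) ∈ B2 𝒩 C := by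
    rw [zero_add, pow_one, ← helper43.piComp_nsmul]
    exact helper43.piComp_mem_B2 hpt₁
  have hn₀ : p ^ 0 • (fun x => X.π (t₀ x)) ∉ B2 𝒩 C := by
    rw [pow_zero, one_smul]
    exact hπt₀
  obtain ⟨a, ha⟩ := hC2 _ hπZ₀ _ hπZ₁ 0 1 hp₀ hn₀ hp₁
  -- the class `j = t₁ - a t₀`
  set j : U × U → J := t₁ - a • t₀ with hj
  have hjZ : j ∈ Z2 𝒩 J := Submodule.sub_mem _ ht₁ ((Z2 𝒩 J).nsmul_mem ht₀ a)
  have hpj : p • j ∈ B2 𝒩 J := by
    rw [hj, smul_sub, smul_comm p a t₀]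
    exact Submodule.sub_mem _ hpt₁ ((B2 𝒩 J).nsmul_mem hpt₀ a)
  have hπj : (fun x => X.π (j x)) ∈ B2 𝒩 C := by
    have e : (fun x => X.π (j x)) = (fun x => X.π (t₁ x)) - a • fun x => X.π (t₀ x) := by
      rw [hj, helper43.piComp_sub, helper43.piComp_nsmul]
    rw [e]
    exact ha
  obtain ⟨z, hz, hzj⟩ := hG.exists_Tp_of_J K hdE hC1 j hjZ hpj hπj
  refine ⟨z, hz, ?_, ?_⟩
  · -- at `w`
    have h1 : Λ.loc₂ w (fun x => X.i (K.κ (z x))) - Λ.loc₂ w j ∈ B2 (L.lev w) (Λ.Ω w) := by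
      rw [← helper85.loc₂_sub]
      exact helper85.loc₂_mem_B2 Λ w hzj
    have h2 : Λ.loc₂ w j - (fun s => Λ.κ X K w (c₁ s)) ∈ B2 (L.lev w) (Λ.Ω w) := by
      have e : Λ.loc₂ w j - (fun s => Λ.κ X K w (c₁ s)) =
          (Λ.loc₂ w t₁ - fun s => Λ.κ X K w (c₁ s)) - a • Λ.loc₂ w t₀ := by
        rw [hj, helper85.loc₂_sub, helper85.loc₂_nsmul]
        abel
      rw [e]
      exact Submodule.sub_mem _ hloc₁w ((B2 _ _).nsmul_mem (hloc₀ w hw) a)
    have h3 : (fun s => Λ.κ X K w ((resL L p w z - c₁) s)) ∈ B2 (L.lev w) (Λ.Ω w) := by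
      have e : (fun s => Λ.κ X K w ((resL L p w z - c₁) s)) =
          (Λ.loc₂ w (fun x => X.i (K.κ (z x))) - Λ.loc₂ w j) +
            (Λ.loc₂ w j - fun s => Λ.κ X K w (c₁ s)) := by
        funext s
        simp only [Pi.sub_apply, Pi.add_apply, map_sub, LocSys.loc₂, LocSys.κ_apply, resL_apply]
        abel
      rw [e]
      exact Submodule.add_mem _ h1 h2
    have h4 : resL L p w z - c₁ ∈ B2 (L.lev w) (Tp (L.Gv w) p) :=
      helper26.LocSys.Good.mem_B2_of_κ Λ K hΛ w _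
        (Submodule.sub_mem _ (resL_mem_Z2 w hz) hc₁) h3
    have h5 : inv w (resL L p w z - c₁) = 0 :=
      (hinv.I1 w _ (Submodule.sub_mem _ (resL_mem_Z2 w hz) hc₁)).2 h4
    rw [map_sub, sub_eq_zero] at h5
    rw [h5]
    exact hc₁'
  · -- outside `{w, w₀}`
    intro w' hw' hw'₀
    have h1 : Λ.loc₂ w' (fun x => X.i (K.κ (z x))) - Λ.loc₂ w' j ∈ B2 (L.lev w') (Λ.Ω w') := by
      rw [← helper85.loc₂_sub]
      exact helper85.loc₂_mem_B2 Λ w' hzj
    have h2 : Λ.loc₂ w' j ∈ B2 (L.lev w') (Λ.Ω w') := by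
      rw [hj, helper85.loc₂_sub, helper85.loc₂_nsmul]
      exact Submodule.sub_mem _ (hloc₁ w' hw') ((B2 _ _).nsmul_mem (hloc₀ w' hw'₀) a)
    have h3 : (fun s => Λ.κ X K w' ((resL L p w' z) s)) ∈ B2 (L.lev w') (Λ.Ω w') := by
      have e : (fun s => Λ.κ X K w' ((resL L p w' z) s)) =
          (Λ.loc₂ w' (fun x => X.i (K.κ (z x))) - Λ.loc₂ w' j) + Λ.loc₂ w' j := by
        funext s
        simp only [Pi.sub_apply, Pi.add_apply, LocSys.loc₂, LocSys.κ_apply, resL_apply]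
        abel
      rw [e]
      exact Submodule.add_mem _ h1 h2
    have h4 : resL L p w' z ∈ B2 (L.lev w') (Tp (L.Gv w') p) :=
      helper26.LocSys.Good.mem_B2_of_κ Λ K hΛ w' _ (resL_mem_Z2 w' hz) h3
    exact (hinv.I1 w' _ (resL_mem_Z2 w' hz)).2 h4

/-- **R3-ABS-I4**: (I4) of `BaseInput`: every family of local classes with vanishing sum of
invariants is global. -/
theorem exists_global₂_abs (hG : X.GoodP 𝒩 p) (K : KummerDatum E p) (hdE : IsDisc 𝒩 E)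
    (hC1 : C1P 𝒩 p C) (hC2 : C2Cyc 𝒩 p C) (Λ : LocSys J L) (hΛ : Λ.Good X p K)
    (inv : ∀ w : ι, (L.Gv w × L.Gv w → ZMod p) →ₗ[ZMod p] ZMod p)
    (hinv : InvHyp 𝒩 L p inv)
    (c : ∀ w, L.Gv w × L.Gv w → ZMod p) (hc : ∀ w, c w ∈ Z2 (L.lev w) (Tp (L.Gv w) p))
    (hsum : ∑ w, inv w (c w) = 0) :
    ∃ z ∈ Z2 𝒩 (Tp U p), ∀ w, (c w - fun s => z (L.r w s.1, L.r w s.2)) ∈
      B2 (L.lev w) (Tp (L.Gv w) p) := by
  classical
  rcases isEmpty_or_nonempty ι with hι | ⟨⟨w₀⟩⟩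
  · exact ⟨0, Submodule.zero_mem _, fun w => (hι.false w).elim⟩
  -- the two-point classes
  have hex : ∀ w : ι, ∃ z : U × U → ZMod p, w ≠ w₀ → (z ∈ Z2 𝒩 (Tp U p) ∧
      inv w (resL L p w z) ≠ 0 ∧
      ∀ w', w' ≠ w → w' ≠ w₀ → inv w' (resL L p w' z) = 0) := by
    intro w
    by_cases hw : w = w₀
    · exact ⟨0, fun h => (h hw).elim⟩
    · obtain ⟨z, hz, h1, h2⟩ := exists_two_point_class hG K hdE hC1 hC2 Λ hΛ inv hinv w₀ w hw
      exact ⟨z, fun _ => ⟨hz, h1, h2⟩⟩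
  choose zz hzz using hex
  -- the coefficients
  set b : ι → ZMod p := fun w => inv w (c w) * (inv w (resL L p w (zz w)))⁻¹ with hb
  set z : U × U → ZMod p := ∑ w ∈ Finset.univ.erase w₀, b w • zz w with hzdef
  have hzZ : z ∈ Z2 𝒩 (Tp U p) :=
    Submodule.sum_mem _ fun w hw =>
      Submodule.smul_mem _ _ (hzz w (Finset.ne_of_mem_erase hw)).1
  -- the invariants of `z` at `w ≠ w₀`
  have hinvz : ∀ w, w ≠ w₀ → inv w (resL L p w z) = inv w (c w) := by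
    intro w hw
    rw [hzdef, map_sum, map_sum]
    rw [Finset.sum_eq_single w]
    · rw [map_smul, map_smul, smul_eq_mul, hb]
      simp only
      rw [mul_assoc, inv_mul_cancel₀ (hzz w hw).2.1, mul_one]
    · intro w' hw' hne
      rw [map_smul, map_smul, (hzz w' (Finset.ne_of_mem_erase hw')).2.2 w hne.symm hw,
        smul_zero]
    · intro h
      exact (h (Finset.mem_erase.2 ⟨hw, Finset.mem_univ _⟩)).elim
  -- the invariant at `w₀`
  have hinvz₀ : inv w₀ (resL L p w₀ z) = inv w₀ (c w₀) := by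
    have h1 := hinv.I3 z hzZ
    have h1' : ∑ w, inv w (resL L p w z) = 0 := h1
    rw [← Finset.add_sum_erase _ _ (Finset.mem_univ w₀)] at h1' hsum
    have h2 : ∑ w ∈ Finset.univ.erase w₀, inv w (resL L p w z) =
        ∑ w ∈ Finset.univ.erase w₀, inv w (c w) :=
      Finset.sum_congr rfl fun w hw => hinvz w (Finset.ne_of_mem_erase hw)
    rw [h2] at h1'
    exact add_right_cancel (h1'.trans hsum.symm)
  refine ⟨z, hzZ, fun w => ?_⟩
  have hZ : c w - resL L p w z ∈ Z2 (L.lev w) (Tp (L.Gv w) p) :=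
    Submodule.sub_mem _ (hc w) (resL_mem_Z2 w hzZ)
  refine (hinv.I1 w _ hZ).1 ?_
  rw [map_sub, sub_eq_zero]
  by_cases hw : w = w₀
  · rw [hw]
    exact hinvz₀.symm
  · exact (hinvz w hw).symm

end Abs

section Arith

open Fermat.Agent.S55.helper69 ExtCitation

local notation "Qbar" => AlgebraicClosure ℚ

variable {p : ℕ} [Fact p.Prime] {S : Finset Nat.Primes} {F : IntermediateField ℚ Qbar}
  {𝒩 : Levels (UF F)} {ι : Type} [Fintype ι] {L : LocalData (UF F) 𝒩 ι}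

/-- **REC3 deliverable (c)** = field `exists_global₂` (I4) of `helper59.BaseInput`, conditional
on the arithmetic packages (bundle `Rec3Arith`) and on (I1), (I3) for `inv`. -/
theorem exists_global₂_of_arith [NumberField ↥F]
    (hF : F.IsUnramifiedOutside S) (h𝒩 : 𝒩.mem = sLevels S F) (hL : IsArith S F L) (ζ : (↥F)ˣ)
    (hA : ∀ (L' : LocalData (UF F) (sLevelsStr S F hF) ι) (hL' : IsArith S F L'),
      Rec3Arith hF hL' ζ p)
    (inv : ∀ w : ι, (L.Gv w × L.Gv w → ZMod p) →ₗ[ZMod p] ZMod p)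
    (hinv : InvHyp 𝒩 L p inv)
    (c : ∀ w, L.Gv w × L.Gv w → ZMod p) (hc : ∀ w, c w ∈ Z2 (L.lev w) (T (ZMod p) (L.Gv w)))
    (hsum : ∑ w, inv w (c w) = 0) :
    ∃ z ∈ Z2 𝒩 (T (ZMod p) (UF F)), ∀ w, (c w - fun s => z (L.r w s.1, L.r w s.2)) ∈
      B2 (L.lev w) (T (ZMod p) (L.Gv w)) := by
  have h := levels_eq_sLevelsStr hF h𝒩
  subst h
  have hA' := hA L hL
  obtain ⟨K, hK⟩ := hA'.kum
  exact exists_global₂_abs (goodP_of_capS hA'.cap) K (isDisc_repES S F hF) hA'.c1 hA'.c2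
    (arithLocSys hF hL) (hA'.loc K hK) inv hinv c hc hsum

end Arith

end Fermat.Agent.S55.helper90
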