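import Fermat.Agent.S55.helper42_KumG2a

/-!
# S55 (helper42): `n`-th roots of `S`-Selmer elements lie in `S`-levels, for every `n` whose prime
factors lie in `S`

Generalisation of KG2a (`inSLevel_of_isSelmer`, exponent `p`) to arbitrary exponents `n`
(e.g. `n = p ^ k`), as needed for capitulation / Kummer towers inside `ℚ_S`.
-/

set_option autoImplicit false
set_option linter.unusedSectionVars false

open IsDedekindDomain
open scoped NumberField nonZeroDivisors

noncomputable section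

namespace Fermat.Agent.S55.helper42

open Fermat.Agent.S55 Fermat.Agent.S55.helper59 Fermat.Agent.S55.helper97

local notation "Qbar" => AlgebraicClosure ℚ

section Roots

variable {S : Finset Nat.Primes} {F : IntermediateField ℚ Qbar} [NumberField ↥F]

/-- a unit `a` of `F` with `n ∣ ord_v a` is a `v`-unit times an `n`-th power -/
theorem exists_pow_mul_unit' (n : ℕ) (v : HeightOneSpectrum (𝓞 ↥F)) (a : (↥F)ˣ)
    (ha : (n : ℤ) ∣ Multiplicative.toAdd (v.valuationOfNeZero a)) :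
    ∃ b : (↥F)ˣ, v.valuation ↥F (((a / b ^ n : (↥F)ˣ) : ↥F)) = 1 := by
  obtain ⟨m, hm⟩ := ha
  obtain ⟨π, hπ⟩ := v.valuation_exists_uniformizer ↥F
  have hπ0 : π ≠ 0 := by
    rintro rfl
    rw [map_zero] at hπ
    exact WithZero.exp_ne_zero hπ.symm
  have h1 : v.valuationOfNeZero (Units.mk0 π hπ0) = Multiplicative.ofAdd (-1 : ℤ) := by
    apply WithZero.coe_injective
    rw [HeightOneSpectrum.valuationOfNeZero_eq]
    exact hπ
  have h2 : v.valuationOfNeZero a = Multiplicative.ofAdd ((n : ℤ) * m) := by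
    rw [← hm]
    rfl
  refine ⟨(Units.mk0 π hπ0) ^ (-m), ?_⟩
  rw [← HeightOneSpectrum.valuationOfNeZero_eq]
  have h3 : v.valuationOfNeZero (a / ((Units.mk0 π hπ0) ^ (-m)) ^ n) = 1 := by
    rw [map_div, map_pow, map_zpow, h1, h2]
    apply Multiplicative.toAdd.injective
    simp only [toAdd_div, toAdd_pow, toAdd_zpow, toAdd_ofAdd, toAdd_one, smul_eq_mul,
      nsmul_eq_mul]
    ring
  rw [h3]
  rfl

/-- a natural number all of whose prime factors lie in `S` is a unit at every valuation subring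
of `ℚbar` over a prime outside `S` -/
theorem valuation_natCast_eq_one (F : IntermediateField ℚ Qbar) [NumberField ↥F] {n : ℕ}
    (hn : ∀ q : Nat.Primes, (q : ℕ) ∣ n → q ∈ S) {q : Nat.Primes} (hq : q ∉ S)
    {A : ValuationSubring Qbar} (hA : A.LiesOverPrime (q : ℕ)) :
    A.valuation ((n : ℕ) : Qbar) = 1 := by
  have hle : A.valuation ((n : ℕ) : Qbar) ≤ 1 := by
    have := valuation_integer_le_one F A (n : 𝓞 ↥F)
    exact_mod_cast this
  refine le_antisymm hle (not_lt.1 fun hlt => ?_)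
  have hqn : ¬ (q : ℕ) ∣ n := fun h => hq (hn q h)
  have hcop : IsCoprime ((n : ℕ) : ℤ) ((q : ℕ) : ℤ) :=
    Nat.isCoprime_iff_coprime.2 ((Nat.Coprime.symm ((Nat.Prime.coprime_iff_not_dvd q.2).2 hqn)))
  obtain ⟨u, w, huw⟩ := hcop
  have hqlt : A.valuation ((q : ℕ) : Qbar) < 1 := A.mem_nonunits_iff.mp hA
  have hint : ∀ z : ℤ, A.valuation ((z : ℤ) : Qbar) ≤ 1 := by
    intro z
    have := valuation_integer_le_one F A (z : 𝓞 ↥F)
    exact_mod_cast this
  have h1 : A.valuation (1 : Qbar) < 1 := by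
    have h2 : (1 : Qbar) = (u : Qbar) * ((n : ℕ) : Qbar) + (w : Qbar) * ((q : ℕ) : Qbar) := by
      have := congrArg (Int.cast : ℤ → Qbar) huw
      push_cast at this
      exact this.symm
    rw [h2]
    refine Valuation.map_add_lt _ ?_ ?_
    · rw [map_mul]
      exact lt_of_le_of_lt (mul_le_of_le_one_left' (hint u)) hlt
    · rw [map_mul]
      exact lt_of_le_of_lt (mul_le_of_le_one_left' (hint w)) hqlt
  rw [map_one] at h1
  exact lt_irrefl _ h1

/-- inertia outside `S` fixes the `n`-th roots of elements `a` with `n ∣ ord_v a` outside `S`,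
for `n` with prime factors in `S` -/
theorem apply_eq_of_forall_dvd {n : ℕ}
    (hn : ∀ q : Nat.Primes, (q : ℕ) ∣ n → q ∈ S)
    (hF : F.IsUnramifiedOutside S) (a : (↥F)ˣ) (α : Qbar) (hα : α ^ n = ((a : ↥F) : Qbar))
    (ha : ∀ v : HeightOneSpectrum (𝓞 ↥F), v ∉ placesOver (↥F) S →
      (n : ℤ) ∣ Multiplicative.toAdd (v.valuationOfNeZero a))
    {q : Nat.Primes} (hq : q ∉ S) {A : ValuationSubring Qbar}
    (hA : A.LiesOverPrime (q : ℕ)) {σ : GQ} (hσ : σ ∈ A.inertiaSubgroupIn ℚ) : σ α = α := by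
  have hσF : σ ∈ F.fixingSubgroup := hF.2 q hq A hA hσ
  have hv := placeOf_notMem_placesOver F hq hA
  have hnA : A.valuation ((n : ℕ) : Qbar) = 1 := valuation_natCast_eq_one F hn hq hA
  obtain ⟨b, hb⟩ := exists_pow_mul_unit' n (placeOf F q.2 hA) a (ha _ hv)
  have hb1 := valuation_eq_one_of_place F q.2 hA _ hb
  have hb0 : ((b : ↥F) : Qbar) ≠ 0 := by
    have : (b : ↥F) ≠ 0 := b.ne_zero
    exact fun h => this (Subtype.ext h)
  have hβp : (α / ((b : ↥F) : Qbar)) ^ n = (((a / b ^ n : (↥F)ˣ) : ↥F) : Qbar) := by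
    rw [div_pow, hα]
    simp [Units.val_div_eq_div_val]
  have hfix : σ ((α / ((b : ↥F) : Qbar)) ^ n) = (α / ((b : ↥F) : Qbar)) ^ n := by
    rw [hβp]
    exact (IntermediateField.mem_fixingSubgroup_iff _ _).1 hσF _ (SetLike.coe_mem _)
  have h := apply_eq_of_mem_inertia_of_pow A hσ hnA (by rw [hβp]; exact hb1) hfix
  have hσb : σ ((b : ↥F) : Qbar) = ((b : ↥F) : Qbar) :=
    (IntermediateField.mem_fixingSubgroup_iff _ _).1 hσF _ (SetLike.coe_mem _)
  rw [map_div₀, hσb] at h
  exact (div_left_inj' hb0).1 h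

/-- `F(α)` is unramified outside `S` when `α ^ n = a ∈ Fˣ`, `n ∣ ord_v a` outside `S`, and the
prime factors of `n` lie in `S`. -/
theorem isUnramifiedOutside_sup_adjoin {n : ℕ}
    (hn : ∀ q : Nat.Primes, (q : ℕ) ∣ n → q ∈ S)
    (hF : F.IsUnramifiedOutside S) (a : (↥F)ˣ) (α : Qbar) (hα : α ^ n = ((a : ↥F) : Qbar))
    (ha : ∀ v : HeightOneSpectrum (𝓞 ↥F), v ∉ placesOver (↥F) S →
      (n : ℤ) ∣ Multiplicative.toAdd (v.valuationOfNeZero a)) :
    (F ⊔ IntermediateField.adjoin ℚ {α}).IsUnramifiedOutside S := by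
  have hfin := hF.1
  have hαint : IsIntegral ℚ α := by
    have := helper69.isAlgebraic_Qbar
    exact Algebra.IsIntegral.isIntegral α
  have : FiniteDimensional ℚ (IntermediateField.adjoin ℚ {α}) :=
    IntermediateField.adjoin.finiteDimensional hαint
  refine ⟨IntermediateField.finiteDimensional_sup F _, fun q hq A hA σ hσ => ?_⟩
  rw [IntermediateField.fixingSubgroup_sup]
  refine ⟨hF.2 q hq A hA hσ, ?_⟩
  exact helper51.mem_fixingSubgroup_adjoin_simple_iff.2
    (apply_eq_of_forall_dvd hn hF a α hα ha hq hA hσ)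

/-- `n`-th roots of `S`-Selmer elements (exponent `n`, prime factors of `n` in `S`) lie in
`S`-levels. -/
theorem inSLevel_of_forall_dvd {n : ℕ}
    (hn : ∀ q : Nat.Primes, (q : ℕ) ∣ n → q ∈ S)
    (hF : F.IsUnramifiedOutside S) (a : (↥F)ˣ) (α : Qbar) (hα : α ^ n = ((a : ↥F) : Qbar))
    (ha : ∀ v : HeightOneSpectrum (𝓞 ↥F), v ∉ placesOver (↥F) S →
      (n : ℤ) ∣ Multiplicative.toAdd (v.valuationOfNeZero a)) :
    InSLevel S F α := by
  obtain ⟨E, hle, hE, hnE⟩ := helper69.exists_normal_isUnramifiedOutside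
    (isUnramifiedOutside_sup_adjoin hn hF a α hα ha)
  exact ⟨E, hE, hnE, le_sup_left.trans hle,
    hle ((le_sup_right : IntermediateField.adjoin ℚ {α} ≤ _)
      (IntermediateField.mem_adjoin_simple_self ℚ α))⟩

/-- roots of unity of order `n` (prime factors of `n` in `S`) lie in `S`-levels: `F(ζ_n)` is
unramified outside `S`. -/
theorem inSLevel_of_pow_eq_one {n : ℕ}
    (hn : ∀ q : Nat.Primes, (q : ℕ) ∣ n → q ∈ S)
    (hF : F.IsUnramifiedOutside S) (z : Qbar) (hz : z ^ n = 1) : InSLevel S F z :=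
  inSLevel_of_forall_dvd hn hF 1 z (by simpa using hz) (fun v _ => by simp)

end Roots

end Fermat.Agent.S55.helper42
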