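import Mathlib

set_option autoImplicit false

open scoped TensorProduct NumberField
open IsDedekindDomain

namespace Fermat.Agent.S55.helper5


section Denominators

variable (L : Type*) [Field L] [NumberField L]

/-- local denominators: if `v(x) ≤ 1` then some `a ∉ v` has `a • x` integral. -/
lemma exists_notMem_mul_eq (v : HeightOneSpectrum (𝓞 L)) (b d : 𝓞 L) (hd : d ≠ 0)
    (h : v.intValuation b ≤ v.intValuation d) :
    ∃ a c : 𝓞 L, a ∉ v.asIdeal ∧ a * b = c * d := by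
  classical
  set k : ℕ := (Associates.mk v.asIdeal).count (Associates.mk (Ideal.span {d} : Ideal (𝓞 L))).factors
    with hk
  have hvd : v.intValuation d = WithZero.exp (-(k : ℤ)) := v.intValuation_if_neg hd
  have h1 : v.asIdeal ^ k ∣ Ideal.span {d} := (v.intValuation_le_pow_iff_dvd d k).1 hvd.le
  have h2 : b ∈ v.asIdeal ^ k := (v.intValuation_le_pow_iff_mem b k).1 (hvd ▸ h)
  have h3 : ¬ v.asIdeal ^ (k + 1) ∣ Ideal.span {d} := by
    intro h3
    have := (v.intValuation_le_pow_iff_dvd d (k + 1)).2 h3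
    rw [hvd, WithZero.exp_le_exp] at this
    push_cast at this
    omega
  obtain ⟨J, hJ⟩ := h1
  have hJP : ¬ J ≤ v.asIdeal := by
    intro hle
    obtain ⟨J', hJ'⟩ := Ideal.dvd_iff_le.2 hle
    apply h3
    refine ⟨J', ?_⟩
    rw [hJ, hJ', pow_succ, mul_assoc]
  obtain ⟨a, haJ, haP⟩ := Set.not_subset.1 hJP
  have : a * b ∈ Ideal.span {d} := by
    rw [hJ, mul_comm a b]
    exact Ideal.mul_mem_mul h2 haJ
  obtain ⟨c, hc⟩ := Ideal.mem_span_singleton'.1 this
  exact ⟨a, c, haP, hc.symm⟩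

/-- global denominators prime to `q`: if `v(x) ≤ 1` for all `v ∣ q`, then `m x` is integral
for some integer `m` prime to `q`. -/
lemma exists_nat_mul_isIntegral (q : ℕ) (hq : q.Prime) (x : L)
    (h : ∀ v : HeightOneSpectrum (𝓞 L), (q : 𝓞 L) ∈ v.asIdeal → v.valuation L x ≤ 1) :
    ∃ m : ℕ, ¬ q ∣ m ∧ ∃ c : 𝓞 L, (m : L) * x = algebraMap (𝓞 L) L c := by
  classical
  obtain ⟨⟨b, d, hd⟩, hx⟩ := IsLocalization.surj (nonZeroDivisors (𝓞 L)) x
  have hd0 : d ≠ 0 := nonZeroDivisors.ne_zero hd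
  have hd0' : algebraMap (𝓞 L) L d ≠ 0 := by
    simpa using hd0
  simp only at hx
  -- the ideal of denominators
  set I : Ideal (𝓞 L) := (Ideal.span {d}).colon ({b} : Set (𝓞 L)) with hI
  have hmemI : ∀ a : 𝓞 L, a ∈ I ↔ ∃ c, a * b = c * d := by
    intro a
    rw [hI, Submodule.mem_colon_singleton, smul_eq_mul, Ideal.mem_span_singleton']
    exact ⟨fun ⟨c, hc⟩ => ⟨c, hc.symm⟩, fun ⟨c, hc⟩ => ⟨c, hc.symm⟩⟩
  have hq0 : (q : 𝓞 L) ≠ 0 := by
    exact_mod_cast hq.ne_zero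
  have htop : I ⊔ Ideal.span {(q : 𝓞 L)} = ⊤ := by
    by_contra hne
    obtain ⟨P, hP, hle⟩ := Ideal.exists_le_maximal _ hne
    have hqP : (q : 𝓞 L) ∈ P := hle (Ideal.mem_sup_right (Ideal.mem_span_singleton_self _))
    have hPbot : P ≠ ⊥ := fun hb => hq0 (by simpa [hb] using hqP)
    set v : HeightOneSpectrum (𝓞 L) := ⟨P, hP.isPrime, hPbot⟩ with hv
    have hvx := h v hqP
    have hval : v.intValuation b ≤ v.intValuation d := by
      have e : v.valuation L x * v.valuation L (algebraMap (𝓞 L) L d) =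
          v.valuation L (algebraMap (𝓞 L) L b) := by
        rw [← map_mul, hx]
      rw [v.valuation_of_algebraMap, v.valuation_of_algebraMap] at e
      rw [← e]
      calc v.valuation L x * v.intValuation d ≤ 1 * v.intValuation d := by gcongr
        _ = v.intValuation d := one_mul _
    obtain ⟨a, c, haP, hac⟩ := exists_notMem_mul_eq L v b d hd0 hval
    exact haP (hle (Ideal.mem_sup_left ((hmemI a).2 ⟨c, hac⟩)))
  -- a positive integer in `I`
  have hdI : d ∈ I := (hmemI d).2 ⟨b, mul_comm d b⟩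
  set N : ℕ := Ideal.absNorm (Ideal.span {d}) with hN
  have hN0 : N ≠ 0 := by
    rw [hN, Ne, Ideal.absNorm_eq_zero_iff, Ideal.span_singleton_eq_bot]
    exact hd0
  have hNI : (N : 𝓞 L) ∈ I := by
    have h1 : (N : 𝓞 L) ∈ Ideal.span {d} := Ideal.absNorm_mem _
    obtain ⟨c, hc⟩ := Ideal.mem_span_singleton'.1 h1
    rw [← hc]
    exact I.mul_mem_left c hdI
  obtain ⟨k, m, hm, hNk⟩ := Nat.exists_eq_pow_mul_and_not_dvd hN0 q hq.ne_one
  have htopk : I ⊔ Ideal.span {(q : 𝓞 L)} ^ k = ⊤ := Ideal.sup_pow_eq_top htop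
  have hmI : (m : 𝓞 L) ∈ I := by
    have h1 : (1 : 𝓞 L) ∈ I ⊔ Ideal.span {(q : 𝓞 L)} ^ k := by
      rw [htopk]; exact Submodule.mem_top
    obtain ⟨a', ha', e, he, hae⟩ := Submodule.mem_sup.1 h1
    rw [Ideal.span_singleton_pow, Ideal.mem_span_singleton'] at he
    obtain ⟨c, hc⟩ := he
    have : (m : 𝓞 L) = (m : 𝓞 L) * a' + c * (N : 𝓞 L) := by
      rw [hNk]
      push_cast
      linear_combination (-(m : 𝓞 L)) * hae - (m : 𝓞 L) * hc
    rw [this]
    exact I.add_mem (I.mul_mem_left _ ha') (I.mul_mem_left _ hNI)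
  obtain ⟨c, hc⟩ := (hmemI _).1 hmI
  refine ⟨m, hm, c, ?_⟩
  have e1 : algebraMap (𝓞 L) L ((m : 𝓞 L) * b) = algebraMap (𝓞 L) L (c * d) := by rw [hc]
  rw [map_mul, map_mul, ← hx, map_natCast] at e1
  have e2 : ((m : L) * x - algebraMap (𝓞 L) L c) * algebraMap (𝓞 L) L d = 0 := by
    linear_combination e1
  rcases mul_eq_zero.1 e2 with h' | h'
  · exact sub_eq_zero.1 h'
  · exact absurd h' hd0'

end Denominators

end Fermat.Agent.S55.helper5
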