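import Fermat.Agent.S55.helper73_GlobDefs

/-!
# S55 / GLOB / G7 (helper89): definitions for Chevalley's second inequality

Vocabulary used by the G7 packages (all in the semilocal model of `helper73_GlobDefs`):

* `locUnit q K : Kˣ →* (SemiLoc q K)ˣ` : the diagonal embedding at one rational prime;
* `oneUnits q K` : the subgroup `U⁽¹⁾ = {w ∈ intUnits | w = 1 + q t, t integral}`;
* `bcUnits K L q : (SemiLoc q K)ˣ →* (SemiLoc q L)ˣ` : base change on units;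
* `IsLocNorm K L q x` : `x ∈ (ℚ_q ⊗ K)ˣ` is a norm from `(ℚ_q ⊗ L)ˣ`;
* `IsLocIntNorm K L q x` : `x` is the norm of an integral unit of `ℚ_q ⊗ L`;
* `IsPowMod K p P c` : `c` is a `p`-th power modulo the prime `P` of `𝓞 K`;
* `IsUnramAt K L P` : the prime `P` of `𝓞 K` is unramified in `L`.
-/

set_option autoImplicit false

open scoped TensorProduct NumberField
open IsDedekindDomain

namespace Fermat.Agent.S55.helper89

open Fermat.Agent.S55.helper73

section OneField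

variable (q : ℕ) [Fact q.Prime] (K : Type*) [Field K] [CharZero K]

/-- The diagonal embedding `Kˣ → (ℚ_q ⊗ K)ˣ`, `a ↦ 1 ⊗ a`. -/
noncomputable def locUnit : Kˣ →* (SemiLoc q K)ˣ :=
  Units.map ((Algebra.TensorProduct.includeRight : K →ₐ[ℚ] SemiLoc q K) : K →* SemiLoc q K)

@[simp]
lemma locUnit_coe (a : Kˣ) : ((locUnit q K a : (SemiLoc q K)ˣ) : SemiLoc q K) = 1 ⊗ₜ[ℚ] (a : K) :=
  rfl

lemma principalPi_apply (a : Kˣ) (r : Nat.Primes) : principalPi K a r = locUnit (r : ℕ) K a := rfl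

/-- The prime `q` as an element of the semilocal algebra. -/
noncomputable def qElt : SemiLoc q K := algebraMap ℚ_[q] (SemiLoc q K) (q : ℚ_[q])

/-- The subgroup `U⁽¹⁾` of integral units congruent to `1` modulo `q`. -/
def oneUnits : Subgroup (SemiLoc q K)ˣ where
  carrier := {w | w ∈ intUnits q K ∧
    ∃ t : SemiLoc q K, IsIntegral ℤ_[q] t ∧ (w : SemiLoc q K) = 1 + qElt q K * t}
  one_mem' := ⟨one_mem _, 0, isIntegral_zero, by simp⟩
  mul_mem' := by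
    rintro a b ⟨ha, s, hs, has⟩ ⟨hb, t, ht, hbt⟩
    refine ⟨mul_mem ha hb, s + t + qElt q K * s * t, ?_, ?_⟩
    · have hq : IsIntegral ℤ_[q] (qElt q K) := by
        have h2 : qElt q K = ((q : ℕ) : SemiLoc q K) := by
          simp [qElt]
        rw [h2]; exact isIntegral_natCast q
      exact (hs.add ht).add ((hq.mul hs).mul ht)
    · rw [Units.val_mul, has, hbt]; ring
  inv_mem' := by
    rintro a ⟨ha, s, hs, has⟩
    refine ⟨inv_mem ha, -(s * ((a⁻¹ : (SemiLoc q K)ˣ) : SemiLoc q K)), ?_, ?_⟩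
    · exact (hs.mul ha.2).neg
    · have h1 : (a : SemiLoc q K) * ((a⁻¹ : (SemiLoc q K)ˣ) : SemiLoc q K) = 1 := a.mul_inv
      have h2 : ((a⁻¹ : (SemiLoc q K)ˣ) : SemiLoc q K) =
          1 - qElt q K * s * ((a⁻¹ : (SemiLoc q K)ˣ) : SemiLoc q K) := by
        rw [has] at h1
        linear_combination h1
      linear_combination h2

lemma mem_oneUnits {w : (SemiLoc q K)ˣ} : w ∈ oneUnits q K ↔ w ∈ intUnits q K ∧
    ∃ t : SemiLoc q K, IsIntegral ℤ_[q] t ∧ (w : SemiLoc q K) = 1 + qElt q K * t := Iff.rfl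

lemma oneUnits_le : oneUnits q K ≤ intUnits q K := fun _ h => h.1

end OneField

section TwoFields

variable (K L : Type*) [Field K] [NumberField K] [Field L] [NumberField L] [Algebra K L]
  (q : ℕ) [Fact q.Prime]

/-- Base change `ℚ_q ⊗ K → ℚ_q ⊗ L` (same as `helper73.Interface.bc`, which is not on main). -/
noncomputable def bcAlg : SemiLoc q K →ₐ[ℚ_[q]] SemiLoc q L :=
  Algebra.TensorProduct.map (AlgHom.id ℚ_[q] ℚ_[q]) (algebraMap K L).toRatAlgHom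

@[simp]
lemma bcAlg_tmul (c : ℚ_[q]) (a : K) : bcAlg K L q (c ⊗ₜ[ℚ] a) = c ⊗ₜ[ℚ] algebraMap K L a := by
  simp [bcAlg]

/-- Base change on units. -/
noncomputable def bcUnits : (SemiLoc q K)ˣ →* (SemiLoc q L)ˣ :=
  Units.map ((bcAlg K L q : SemiLoc q K →ₐ[ℚ_[q]] SemiLoc q L) : SemiLoc q K →* SemiLoc q L)

@[simp]
lemma bcUnits_coe (x : (SemiLoc q K)ˣ) :
    ((bcUnits K L q x : (SemiLoc q L)ˣ) : SemiLoc q L) = bcAlg K L q (x : SemiLoc q K) := rfl

/-- `x ∈ (ℚ_q ⊗ K)ˣ` is a norm from `(ℚ_q ⊗ L)ˣ`. -/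
def IsLocNorm (x : (SemiLoc q K)ˣ) : Prop :=
  ∃ y : (SemiLoc q L)ˣ, normG Gal(L/K) (SemiLoc q L)ˣ y = bcUnits K L q x

/-- `x ∈ (ℚ_q ⊗ K)ˣ` is the norm of an integral unit of `ℚ_q ⊗ L`. -/
def IsLocIntNorm (x : (SemiLoc q K)ˣ) : Prop :=
  ∃ y : (SemiLoc q L)ˣ, y ∈ intUnits q L ∧ normG Gal(L/K) (SemiLoc q L)ˣ y = bcUnits K L q x

lemma IsLocIntNorm.isLocNorm {x : (SemiLoc q K)ˣ} (h : IsLocIntNorm K L q x) :
    IsLocNorm K L q x := by
  obtain ⟨y, -, hy⟩ := h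
  exact ⟨y, hy⟩

lemma IsLocNorm.mul {x y : (SemiLoc q K)ˣ} (hx : IsLocNorm K L q x) (hy : IsLocNorm K L q y) :
    IsLocNorm K L q (x * y) := by
  obtain ⟨a, ha⟩ := hx
  obtain ⟨b, hb⟩ := hy
  exact ⟨a * b, by rw [map_mul, map_mul, ha, hb]⟩

lemma IsLocIntNorm.mul {x y : (SemiLoc q K)ˣ} (hx : IsLocIntNorm K L q x)
    (hy : IsLocIntNorm K L q y) : IsLocIntNorm K L q (x * y) := by
  obtain ⟨a, ha', ha⟩ := hx
  obtain ⟨b, hb', hb⟩ := hy
  exact ⟨a * b, mul_mem ha' hb', by rw [map_mul, map_mul, ha, hb]⟩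

lemma IsLocNorm.inv {x : (SemiLoc q K)ˣ} (hx : IsLocNorm K L q x) : IsLocNorm K L q x⁻¹ := by
  obtain ⟨a, ha⟩ := hx
  exact ⟨a⁻¹, by rw [map_inv, map_inv, ha]⟩

lemma IsLocNorm.zpow {x : (SemiLoc q K)ˣ} (hx : IsLocNorm K L q x) (n : ℤ) :
    IsLocNorm K L q (x ^ n) := by
  obtain ⟨a, ha⟩ := hx
  exact ⟨a ^ n, by rw [map_zpow, map_zpow, ha]⟩

lemma isLocNorm_one : IsLocNorm K L q 1 := ⟨1, by simp⟩

end TwoFields

section Primes

variable (K : Type*) [Field K] [NumberField K]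

/-- `c` is a `p`-th power modulo `P` (meaningful for `c` a unit at `P`). -/
def IsPowMod (p : ℕ) (P : HeightOneSpectrum (𝓞 K)) (c : K) : Prop :=
  ∃ d : K, P.valuation K d = 1 ∧ P.valuation K (c - d ^ p) < 1

variable (L : Type*) [Field L] [NumberField L] [Algebra K L]

/-- The prime `P` of `𝓞 K` is unramified in `L`. -/
def IsUnramAt (P : HeightOneSpectrum (𝓞 K)) : Prop :=
  ∀ Q : Ideal (𝓞 L), Q.IsPrime → Q.LiesOver P.asIdeal → Q.ramificationIdx (𝓞 K) = 1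

end Primes

end Fermat.Agent.S55.helper89
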