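import Fermat.Agent.S55.helper73_GlobDefs2
import Fermat.Agent.S55.helper89_ChevDefs
import Fermat.Agent.S55.helper5_Denom

/-!
# S55 / GLOB / CL (helper5): the bridging lemma

Integrality of `1 ⊗ x` in `ℚ_q ⊗ L` over `ℤ_q` is equivalent to `v(x) ≤ 1` at all primes `v` of
`𝓞 L` above `q`; consequences for the integral units and the global units.
-/

set_option autoImplicit false

open scoped TensorProduct NumberField
open IsDedekindDomain Polynomial

namespace Fermat.Agent.S55.helper5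

open Fermat.Agent.S55.helper73

section Bridge

variable (L : Type*) [Field L] [NumberField L]

/-- `1 ⊗ c` is integral over `ℤ_q` for `c` integral over `ℤ`. -/
lemma isIntegral_one_tmul_of_isIntegral (q : ℕ) [Fact q.Prime] (c : L) (hc : IsIntegral ℤ c) :
    IsIntegral ℤ_[q] ((1 : ℚ_[q]) ⊗ₜ[ℚ] c : SemiLoc q L) := by
  have h1 : IsIntegral ℤ ((1 : ℚ_[q]) ⊗ₜ[ℚ] c : SemiLoc q L) :=
    hc.map ((Algebra.TensorProduct.includeRight : L →ₐ[ℚ] SemiLoc q L).restrictScalars ℤ)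
  exact h1.tower_top

/-- the inverse of an integer prime to `q` is integral in `ℚ_q ⊗ L`. -/
lemma isIntegral_algebraMap_inv_natCast (q : ℕ) [Fact q.Prime] (m : ℕ) (hm : ¬ q ∣ m) :
    IsIntegral ℤ_[q] (algebraMap ℚ_[q] (SemiLoc q L) ((m : ℚ_[q])⁻¹)) := by
  have hq : q.Prime := Fact.out
  have hn : ‖(m : ℚ_[q])‖ = 1 := by
    rw [Padic.norm_natCast_eq_one_iff]
    exact (Nat.Prime.coprime_iff_not_dvd hq).2 hm
  have hn' : ‖(m : ℚ_[q])⁻¹‖ ≤ 1 := by
    rw [norm_inv, hn, inv_one]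
  obtain ⟨z, hz⟩ : ∃ z : ℤ_[q], (z : ℚ_[q]) = (m : ℚ_[q])⁻¹ := ⟨⟨_, hn'⟩, rfl⟩
  have : algebraMap ℚ_[q] (SemiLoc q L) ((m : ℚ_[q])⁻¹) =
      algebraMap ℤ_[q] (SemiLoc q L) z := by
    rw [IsScalarTower.algebraMap_apply ℤ_[q] ℚ_[q] (SemiLoc q L), ← hz]
    rfl
  rw [this]
  exact isIntegral_algebraMap

/-- (⇐) of the bridging lemma. -/
lemma isIntegral_one_tmul_of_valuation_le (q : ℕ) [Fact q.Prime] (x : L)
    (h : ∀ v : HeightOneSpectrum (𝓞 L), (q : 𝓞 L) ∈ v.asIdeal → v.valuation L x ≤ 1) :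
    IsIntegral ℤ_[q] ((1 : ℚ_[q]) ⊗ₜ[ℚ] x : SemiLoc q L) := by
  have hq : q.Prime := Fact.out
  obtain ⟨m, hm, c, hc⟩ := exists_nat_mul_isIntegral L q hq x h
  have hm0 : (m : ℚ) ≠ 0 := by
    intro h0
    apply hm
    have : m = 0 := by exact_mod_cast h0
    rw [this]; exact dvd_zero _
  have hx : x = ((m : ℚ)⁻¹) • (algebraMap (𝓞 L) L c) := by
    rw [← hc, Algebra.smul_def, ← mul_assoc]
    have : algebraMap ℚ L ((m : ℚ)⁻¹) * (m : L) = 1 := by
      rw [map_inv₀, map_natCast]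
      have hmL : (m : L) ≠ 0 := by
        intro h0
        apply hm0
        have : m = 0 := by exact_mod_cast h0
        rw [this]; simp
      exact inv_mul_cancel₀ hmL
    rw [this, one_mul]
  have e : ((1 : ℚ_[q]) ⊗ₜ[ℚ] x : SemiLoc q L) =
      algebraMap ℚ_[q] (SemiLoc q L) ((m : ℚ_[q])⁻¹) *
        ((1 : ℚ_[q]) ⊗ₜ[ℚ] (algebraMap (𝓞 L) L c)) := by
    rw [hx, TensorProduct.tmul_smul, Algebra.TensorProduct.algebraMap_apply,
      Algebra.TensorProduct.tmul_mul_tmul, one_mul, mul_one]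
    rw [TensorProduct.smul_tmul', Algebra.smul_def, mul_one]
    congr 1
    simp
  rw [e]
  exact (isIntegral_algebraMap_inv_natCast L q m hm).mul
    (isIntegral_one_tmul_of_isIntegral L q _ (NumberField.RingOfIntegers.isIntegral_coe c))

/-- Gauss lemma step: if `1 ⊗ x` is integral over `ℤ_q` then the minimal polynomial of `x` over
`ℚ` has `q`-integral coefficients. -/
lemma norm_coeff_minpoly_le_one (q : ℕ) [Fact q.Prime] (x : L)
    (hx : IsIntegral ℤ_[q] ((1 : ℚ_[q]) ⊗ₜ[ℚ] x : SemiLoc q L)) (k : ℕ) :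
    ‖(((minpoly ℚ x).coeff k : ℚ) : ℚ_[q])‖ ≤ 1 := by
  classical
  obtain ⟨g, hg, hgx⟩ := hx
  set y : SemiLoc q L := (1 : ℚ_[q]) ⊗ₜ[ℚ] x with hy
  set m := minpoly ℚ x with hm
  have hxint : IsIntegral ℚ x := Algebra.IsIntegral.isIntegral x
  have hmm : m.Monic := minpoly.monic hxint
  set M : ℚ_[q][X] := m.map (algebraMap ℚ ℚ_[q]) with hM
  have hMm : M.Monic := hmm.map _
  set G : ℚ_[q][X] := g.map (algebraMap ℤ_[q] ℚ_[q]) with hG
  have hGy : aeval y G = 0 := by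
    rw [hG, aeval_map_algebraMap, aeval_def]; exact hgx
  have hMy : aeval y M = 0 := by
    rw [hM, aeval_map_algebraMap]
    have : aeval y m = (Algebra.TensorProduct.includeRight : L →ₐ[ℚ] SemiLoc q L) (aeval x m) := by
      rw [← aeval_algHom_apply]; rfl
    rw [this, hm, minpoly.aeval, map_zero]
  have hRy : aeval y (G %ₘ M) = 0 := by
    have := congrArg (aeval y) (modByMonic_add_div G M)
    rw [map_add, map_mul, hMy, zero_mul, add_zero, hGy] at this
    exact this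
  have h1 : M.natDegree = m.natDegree := natDegree_map _
  have hpos : 0 < m.natDegree := minpoly.natDegree_pos hxint
  have hdeg : (G %ₘ M).natDegree < m.natDegree := by
    rw [← h1]
    exact natDegree_modByMonic_lt G hMm (by intro h; rw [h, natDegree_one] at h1; omega)
  have hli := Module.Flat.linearIndependent_one_tmul (S := ℚ_[q])
    (linearIndependent_pow (K := ℚ) x)
  have hsum := aeval_eq_sum_range' hdeg y
  rw [hRy] at hsum
  have hR0 : G %ₘ M = 0 := by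
    ext i
    rw [coeff_zero]
    by_cases hi : i < m.natDegree
    · refine Fintype.linearIndependent_iff.1 hli (fun j => (G %ₘ M).coeff j) ?_ ⟨i, hi⟩
      rw [Fin.sum_univ_eq_sum_range (fun i => (G %ₘ M).coeff i • ((1 : ℚ_[q]) ⊗ₜ[ℚ] (x ^ i) : SemiLoc q L))]
      rw [hsum]
      refine Finset.sum_congr rfl fun j _ => ?_
      rw [hy, Algebra.TensorProduct.tmul_pow, one_pow]
    · exact coeff_eq_zero_of_natDegree_lt (by omega)
  have hdvd : M ∣ G := (modByMonic_eq_zero_iff_dvd hMm).1 hR0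
  obtain ⟨g', hg'⟩ := IsIntegrallyClosed.eq_map_mul_C_of_dvd ℚ_[q] hg hdvd
  rw [hMm.leadingCoeff, C_1, mul_one] at hg'
  have e : (((m.coeff k : ℚ)) : ℚ_[q]) = ((g'.coeff k : ℤ_[q]) : ℚ_[q]) := by
    have := congrArg (fun p => p.coeff k) hg'
    simp only [coeff_map, hM] at this
    rw [eq_ratCast] at this
    rw [← this]
    rfl
  rw [e]
  exact PadicInt.norm_le_one _

/-- a rational number that is a `q`-adic integer has valuation `≤ 1` at every prime over `q`. -/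
lemma valuation_algebraMap_rat_le_one (q : ℕ) [Fact q.Prime] (c : ℚ) (hc : ‖(c : ℚ_[q])‖ ≤ 1)
    (v : HeightOneSpectrum (𝓞 L)) (hv : (q : 𝓞 L) ∈ v.asIdeal) :
    v.valuation L (algebraMap ℚ L c) ≤ 1 := by
  have hq : q.Prime := Fact.out
  have hden : ¬ q ∣ c.den := by
    rw [Padic.norm_rat_le_one_iff_padicValuation_le_one, Rat.padicValuation_le_one_iff] at hc
    exact hc
  have hc' : algebraMap ℚ L c =
      algebraMap (𝓞 L) L (c.num : 𝓞 L) / algebraMap (𝓞 L) L (c.den : 𝓞 L) := by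
    rw [eq_ratCast, Rat.cast_def]
    simp
  have hdv : (c.den : 𝓞 L) ∉ v.asIdeal := by
    intro hmem
    have hcop : Nat.Coprime q c.den := (Nat.Prime.coprime_iff_not_dvd hq).2 hden
    obtain ⟨a, b, hab⟩ : IsCoprime (q : ℤ) (c.den : ℤ) := Nat.isCoprime_iff_coprime.2 hcop
    have h1 : (1 : 𝓞 L) ∈ v.asIdeal := by
      have : (1 : 𝓞 L) = (a : 𝓞 L) * (q : 𝓞 L) + (b : 𝓞 L) * (c.den : 𝓞 L) := by
        have := congrArg (Int.cast : ℤ → 𝓞 L) hab
        push_cast at this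
        exact this.symm
      rw [this]
      exact v.asIdeal.add_mem (v.asIdeal.mul_mem_left _ hv) (v.asIdeal.mul_mem_left _ hmem)
    exact v.isPrime.ne_top ((Ideal.eq_top_iff_one _).2 h1)
  rw [hc', map_div₀, v.valuation_of_algebraMap, v.valuation_of_algebraMap]
  have hd1 : v.intValuation (c.den : 𝓞 L) = 1 := v.intValuation_eq_one_iff.2 hdv
  rw [hd1, div_one]
  exact v.intValuation_le_one _

/-- an element whose minimal polynomial over `ℚ` has coefficients of valuation `≤ 1` has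
valuation `≤ 1`. -/
lemma valuation_le_one_of_coeff_minpoly (v : HeightOneSpectrum (𝓞 L)) (x : L)
    (hcoef : ∀ k, v.valuation L (algebraMap ℚ L ((minpoly ℚ x).coeff k)) ≤ 1) :
    v.valuation L x ≤ 1 := by
  have hxint : IsIntegral ℚ x := Algebra.IsIntegral.isIntegral x
  set p : L[X] := (minpoly ℚ x).map (algebraMap ℚ L) with hp
  have hpc : (↑p.coeffs : Set L) ⊆ ((v.valuation L).integer : Set L) := by
    intro c hc
    obtain ⟨k, -, rfl⟩ := mem_coeffs_iff.1 hc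
    rw [hp, coeff_map]
    exact hcoef k
  have hint : IsIntegral (v.valuation L).integer x := by
    refine ⟨p.toSubring _ hpc, (monic_toSubring _ _ _).2 ((minpoly.monic hxint).map _), ?_⟩
    have h1 : algebraMap (v.valuation L).integer L = (v.valuation L).integer.subtype := rfl
    rw [h1, eval₂_eq_eval_map, map_toSubring, hp, eval_map_algebraMap, minpoly.aeval]
  exact (Valuation.integer.integers (v.valuation L)).mem_of_integral hint

/-- (⇒) of the bridging lemma. -/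
lemma valuation_le_one_of_isIntegral_one_tmul (q : ℕ) [Fact q.Prime] (x : L)
    (hx : IsIntegral ℤ_[q] ((1 : ℚ_[q]) ⊗ₜ[ℚ] x : SemiLoc q L))
    (v : HeightOneSpectrum (𝓞 L)) (hv : (q : 𝓞 L) ∈ v.asIdeal) : v.valuation L x ≤ 1 :=
  valuation_le_one_of_coeff_minpoly L v x fun k =>
    valuation_algebraMap_rat_le_one L q _ (norm_coeff_minpoly_le_one L q x hx k) v hv

/-- CL-1' = D2' (cast of `q` through `ℕ`): `1 ⊗ x` is integral over `ℤ_q` iff `x` is integral at
all primes over `q`. -/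
theorem isIntegral_one_tmul_iff' (q : ℕ) [Fact q.Prime] (x : L) :
    IsIntegral ℤ_[q] ((1 : ℚ_[q]) ⊗ₜ[ℚ] x : SemiLoc q L) ↔
      ∀ v : HeightOneSpectrum (𝓞 L), (q : 𝓞 L) ∈ v.asIdeal → v.valuation L x ≤ 1 :=
  ⟨fun hx v hv => valuation_le_one_of_isIntegral_one_tmul L q x hx v hv,
    isIntegral_one_tmul_of_valuation_le L q x⟩

/-- CL-1' (cast of `q` through `ℤ`). -/
theorem isIntegral_one_tmul_iff (q : ℕ) [Fact q.Prime] (x : L) :
    IsIntegral ℤ_[q] ((1 : ℚ_[q]) ⊗ₜ[ℚ] x : SemiLoc q L) ↔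
      ∀ v : IsDedekindDomain.HeightOneSpectrum (𝓞 L),
        ((q : ℤ) : 𝓞 L) ∈ v.asIdeal → v.valuation L x ≤ 1 := by
  rw [isIntegral_one_tmul_iff']
  simp only [Int.cast_natCast]

/-- `1 ⊗ x` is an integral unit iff `x` is a unit at all primes over `q`. -/
theorem one_tmul_mem_intUnits_iff (q : ℕ) [Fact q.Prime] (x : Lˣ) :
    Units.map ((Algebra.TensorProduct.includeRight : L →ₐ[ℚ] SemiLoc q L) :
      L →* SemiLoc q L) x ∈ intUnits q L ↔
      ∀ v : HeightOneSpectrum (𝓞 L), (q : 𝓞 L) ∈ v.asIdeal → v.valuation L (x : L) = 1 := by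
  rw [mem_intUnits]
  have e1 : ((Units.map ((Algebra.TensorProduct.includeRight : L →ₐ[ℚ] SemiLoc q L) :
      L →* SemiLoc q L) x : (SemiLoc q L)ˣ) : SemiLoc q L) = (1 : ℚ_[q]) ⊗ₜ[ℚ] (x : L) := rfl
  have e2 : (((Units.map ((Algebra.TensorProduct.includeRight : L →ₐ[ℚ] SemiLoc q L) :
      L →* SemiLoc q L) x)⁻¹ : (SemiLoc q L)ˣ) : SemiLoc q L) =
      (1 : ℚ_[q]) ⊗ₜ[ℚ] ((x⁻¹ : Lˣ) : L) := by
    rw [← map_inv]
    rfl
  rw [e1, e2, isIntegral_one_tmul_iff', isIntegral_one_tmul_iff']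
  constructor
  · rintro ⟨h1, h2⟩ v hv
    have h1' := h1 v hv
    have h2' := h2 v hv
    rw [Units.val_inv_eq_inv_val, map_inv₀] at h2'
    have hne : v.valuation L (x : L) ≠ 0 := by
      rw [Ne, map_eq_zero]
      exact x.ne_zero
    exact le_antisymm h1' ((inv_le_one₀ (zero_lt_iff.2 hne)).1 h2')
  · intro h
    refine ⟨fun v hv => (h v hv).le, fun v hv => ?_⟩
    rw [Units.val_inv_eq_inv_val, map_inv₀, h v hv, inv_one]

/-- CL-1 (bridging): `1 ⊗ x` is an integral unit of `ℚ_q ⊗ L` iff `x` is a unit at all primes of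
`𝓞 L` above `q`. -/
theorem principalPi_mem_intUnits_iff (q : Nat.Primes) (x : Lˣ) :
    principalPi L x q ∈ intUnits (q : ℕ) L ↔
      ∀ v : IsDedekindDomain.HeightOneSpectrum (𝓞 L),
        (((q : ℕ) : ℤ) : 𝓞 L) ∈ v.asIdeal → v.valuation L (x : L) = 1 := by
  have := one_tmul_mem_intUnits_iff L (q : ℕ) x
  simp only [Int.cast_natCast]
  exact this

/-- D2 : `1 ⊗ a` is an integral unit iff `a` is a unit at all primes over `q`. -/
theorem locUnit_mem_intUnits_iff (q : ℕ) [Fact q.Prime] (a : Lˣ) :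
    helper89.locUnit q L a ∈ intUnits q L ↔
      ∀ P : HeightOneSpectrum (𝓞 L), (q : 𝓞 L) ∈ P.asIdeal → P.valuation L (a : L) = 1 :=
  one_tmul_mem_intUnits_iff L q a

/-- every prime of `𝓞 L` lies over a rational prime. -/
lemma exists_prime_natCast_mem (v : HeightOneSpectrum (𝓞 L)) :
    ∃ q : Nat.Primes, ((q : ℕ) : 𝓞 L) ∈ v.asIdeal := by
  have := v.isMaximal
  obtain ⟨p, n, -, hp, hpp, -⟩ := Ideal.exists_prime_and_absNorm_eq_pow v.asIdeal
  exact ⟨⟨p, hpp⟩, hp⟩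

/-- an element of `L` that is integral at all primes is integral over `ℤ`. -/
lemma isIntegral_of_forall_valuation_le_one (x : L)
    (h : ∀ v : HeightOneSpectrum (𝓞 L), v.valuation L x ≤ 1) : IsIntegral ℤ x := by
  obtain ⟨c, hc⟩ := HeightOneSpectrum.mem_integers_of_valuation_le_one L x h
  rw [← hc]
  exact NumberField.RingOfIntegers.isIntegral_coe c

/-- CL-2: `Lˣ ∩ ∏_q U_q = (𝓞 L)ˣ`. -/
theorem forall_principalPi_mem_intUnits_iff (x : Lˣ) :
    (∀ q : Nat.Primes, principalPi L x q ∈ intUnits (q : ℕ) L) ↔ x ∈ globalUnits L := by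
  rw [mem_globalUnits]
  constructor
  · intro h
    have hv : ∀ v : HeightOneSpectrum (𝓞 L), v.valuation L (x : L) = 1 := by
      intro v
      obtain ⟨q, hq⟩ := exists_prime_natCast_mem L v
      exact (one_tmul_mem_intUnits_iff L (q : ℕ) x).1 (h q) v hq
    refine ⟨isIntegral_of_forall_valuation_le_one L _ fun v => (hv v).le,
      isIntegral_of_forall_valuation_le_one L _ fun v => ?_⟩
    rw [Units.val_inv_eq_inv_val, map_inv₀, hv v, inv_one]
  · rintro ⟨h1, h2⟩ q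
    rw [mem_intUnits]
    refine ⟨isIntegral_one_tmul_of_isIntegral L (q : ℕ) _ h1, ?_⟩
    have e2 : (((principalPi L x q)⁻¹ : (SemiLoc (q : ℕ) L)ˣ) : SemiLoc (q : ℕ) L) =
        (1 : ℚ_[(q : ℕ)]) ⊗ₜ[ℚ] ((x⁻¹ : Lˣ) : L) := by
      rw [← Pi.inv_apply, ← map_inv]
      rfl
    rw [e2]
    exact isIntegral_one_tmul_of_isIntegral L (q : ℕ) _ h2

/-- `q` is integral in `ℚ_q ⊗ L`. -/
lemma isIntegral_algebraMap_q (q : ℕ) [Fact q.Prime] :
    IsIntegral ℤ_[q] (algebraMap ℚ_[q] (SemiLoc q L) (q : ℚ_[q])) := by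
  have : algebraMap ℚ_[q] (SemiLoc q L) (q : ℚ_[q]) =
      algebraMap ℤ_[q] (SemiLoc q L) (q : ℤ_[q]) := by
    rw [IsScalarTower.algebraMap_apply ℤ_[q] ℚ_[q] (SemiLoc q L)]
    simp
  rw [this]
  exact isIntegral_algebraMap

/-- CL-3': principal units are integral units. -/
theorem princUnits_le_intUnits (q : ℕ) [Fact q.Prime] : princUnits q L ≤ intUnits q L := by
  rintro x ⟨⟨z, hz, hx⟩, ⟨z', hz', hx'⟩⟩
  rw [mem_intUnits, hx, hx']
  simp only [Algebra.smul_def]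
  exact ⟨isIntegral_one.add ((isIntegral_algebraMap_q L q).mul hz),
    isIntegral_one.add ((isIntegral_algebraMap_q L q).mul hz')⟩

/-- principal units are one-units (in the sense of `helper89.oneUnits`), and conversely. -/
theorem princUnits_eq_oneUnits (q : ℕ) [Fact q.Prime] :
    princUnits q L = helper89.oneUnits q L := by
  ext x
  rw [helper89.mem_oneUnits, mem_princUnits]
  constructor
  · intro h
    refine ⟨princUnits_le_intUnits L q h, ?_⟩
    obtain ⟨⟨z, hz, hx⟩, -⟩ := h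
    exact ⟨z, hz, by rw [hx, Algebra.smul_def]; rfl⟩
  · rintro ⟨hint, t, ht, hxt⟩
    have hinv := (helper89.oneUnits q L).inv_mem ⟨hint, t, ht, hxt⟩
    obtain ⟨-, t', ht', hxt'⟩ := hinv
    exact ⟨⟨t, ht, by rw [hxt, Algebra.smul_def]; rfl⟩,
      ⟨t', ht', by rw [hxt', Algebra.smul_def]; rfl⟩⟩

end Bridge

end Fermat.Agent.S55.helper5
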