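import Fermat.Agent.S55.helper97_KumGDefs
import Fermat.Agent.S55.helper30_LocKummer
import Fermat.Agent.S55.helper69_BArLev

/-!
# S55 module B, package B-AR-KUM-G, part KG1 (helper97, task 365): the global Kummer dictionary

`F ⊆ ℚbar` finite over `ℚ`, `ζ ∈ F` a primitive `p`-th root of unity, `U = Gal(ℚbar/F)`,
`𝒩` the S-levels of `U`.

* `mk_mem_selmerGroup_iff` : membership in Mathlib's `selmerGroup`, unfolded;
* `mem_Z1_sLevels_iff` : `Z1 𝒩 (T (ZMod p) U)` unfolded (characters trivial on an S-level);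
* `exists_isKummerChar`, `exists_isKummerChar_of_mem_Z1`, `isKummerChar_eq_iff` : Kummer theory
  for `U` (from `helper30_LocKummer` applied to `K = F`, `Ω = ℚbar`);
* `mem_Z1_iff_inSLevel` : the Kummer character of `a` is S-level-constant iff a `p`-th root of `a`
  lies in an S-level;
* `card_Z1_eq_card_selmerGroup` : `#Z¹(U, ℤ/p) = #F(S_F, p)` given the ramification criterion
  (KG2a + KG2b) as hypotheses.
-/

set_option autoImplicit false
set_option linter.unusedSectionVars false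
set_option linter.style.haveILetI false

open IsDedekindDomain
open scoped NumberField nonZeroDivisors

noncomputable section

namespace Fermat.Agent.S55.helper97

open Fermat.Agent.S55 Fermat.Agent.S55.helper59 groupCohomology

local notation "Qbar" => AlgebraicClosure ℚ

/-! ## Membership in the Selmer group -/

section Bridge

variable {R : Type*} [CommRing R] [IsDedekindDomain R] {K : Type*} [Field K] [Algebra R K]
  [IsFractionRing R K]

theorem valuationOfNeZeroMod_mk (v : HeightOneSpectrum R) (n : ℕ) (a : Kˣ) :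
    v.valuationOfNeZeroMod n (QuotientGroup.mk a : Kˣ ⧸ (powMonoidHom n : Kˣ →* Kˣ).range) =
      Multiplicative.ofAdd ((Multiplicative.toAdd (v.valuationOfNeZero a) : ℤ) : ZMod n) := rfl

theorem valuationOfNeZeroMod_mk_eq_one_iff (v : HeightOneSpectrum R) (n : ℕ) (a : Kˣ) :
    v.valuationOfNeZeroMod n (QuotientGroup.mk a : Kˣ ⧸ (powMonoidHom n : Kˣ →* Kˣ).range) = 1 ↔
      (n : ℤ) ∣ Multiplicative.toAdd (v.valuationOfNeZero a) := by
  rw [valuationOfNeZeroMod_mk, ofAdd_eq_one, ZMod.intCast_zmod_eq_zero_iff_dvd]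

/-- membership of the class of `a` in the Selmer group `K(T, n)`, unfolded -/
theorem mk_mem_selmerGroup_iff (T : Set (HeightOneSpectrum R)) (n : ℕ) (a : Kˣ) :
    (QuotientGroup.mk a : Kˣ ⧸ (powMonoidHom n : Kˣ →* Kˣ).range) ∈
        selmerGroup (R := R) (K := K) (S := T) (n := n) ↔
      ∀ v : HeightOneSpectrum R, v ∉ T →
        (n : ℤ) ∣ Multiplicative.toAdd (v.valuationOfNeZero a) := by
  constructor
  · intro h v hv
    exact (valuationOfNeZeroMod_mk_eq_one_iff v n a).mp (h v hv)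
  · intro h v hv
    exact (valuationOfNeZeroMod_mk_eq_one_iff v n a).mpr (h v hv)

end Bridge

/-! ## Kummer theory for `U = Gal(ℚbar/F)` -/

section KG1

attribute [local instance] helper69.isAlgebraic_Qbar helper69.isAlgClosure_Qbar
  helper69.normal_Qbar

variable {p : ℕ} [Fact p.Prime] {S : Finset Nat.Primes} {F : IntermediateField ℚ Qbar}
  {𝒩 : Levels (UF F)}

theorem isAlgClosure_over (F : IntermediateField ℚ Qbar) : IsAlgClosure ↥F Qbar :=
  have : Algebra.IsAlgebraic ℚ Qbar := helper69.isAlgebraic_Qbar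
  ⟨inferInstance, Algebra.IsAlgebraic.tower_top (K := ℚ) ↥F⟩

theorem fixingSubgroupEquiv_apply' (σ : UF F) (y : Qbar) :
    (F.fixingSubgroupEquiv σ) y = (σ : GQ) y := rfl

theorem fixingSubgroupEquiv_symm_apply' (σ : Qbar ≃ₐ[↥F] Qbar) (y : Qbar) :
    ((F.fixingSubgroupEquiv.symm σ : UF F) : GQ) y = σ y := rfl

/-- `Z1` of the S-levels with trivial `ZMod p` coefficients, unfolded. -/
theorem mem_Z1_sLevels_iff (h𝒩 : 𝒩.mem = sLevels S F) (x : UF F → ZMod p) :
    x ∈ Z1 𝒩 (T (ZMod p) (UF F)) ↔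
      (∃ E : IntermediateField ℚ Qbar, E.IsUnramifiedOutside S ∧ E.fixingSubgroup.Normal ∧
        F ≤ E ∧ ∀ g s : UF F, (s : GQ) ∈ E.fixingSubgroup → x (g * s) = x g) ∧
      ∀ g h : UF F, x (g * h) = x g + x h := by
  unfold Z1
  rw [Submodule.mem_inf, mem_C1, LinearMap.mem_ker]
  have hd : (d₁₂ (T (ZMod p) (UF F))).hom x = 0 ↔ ∀ g h : UF F, x (g * h) = x g + x h := by
    constructor
    · intro hd g h
      have := congrFun hd (g, h)
      simp only [d₁₂_hom_apply] at this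
      have h2 : x h - x (g * h) + x g = 0 := this
      linear_combination -h2
    · intro hd
      funext g
      simp only [d₁₂_hom_apply]
      show x g.2 - x (g.1 * g.2) + x g.1 = 0
      rw [hd]
      ring
  rw [hd]
  refine and_congr ?_ Iff.rfl
  constructor
  · rintro ⟨N, hN, hx⟩
    rw [h𝒩] at hN
    obtain ⟨E, hE, hEn, hFE, rfl⟩ := hN
    exact ⟨E, hE, hEn, hFE, fun g s hs => hx g s (Subgroup.mem_subgroupOf.mpr hs)⟩
  · rintro ⟨E, hE, hEn, hFE, hx⟩
    refine ⟨E.fixingSubgroup.subgroupOf F.fixingSubgroup, ?_, fun g s hs => hx g s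
      (Subgroup.mem_subgroupOf.mp hs)⟩
    rw [h𝒩]
    exact ⟨E, hE, hEn, hFE, rfl⟩

/-- every `a ∈ Fˣ` has a Kummer character, which is a homomorphism -/
theorem exists_isKummerChar (ζ : (↥F)ˣ) (hζ : IsPrimitiveRoot ζ p) (a : (↥F)ˣ) :
    ∃ (α : Qbar) (x : UF F → ZMod p), IsKummerChar p ζ a α x ∧
      ∀ g h : UF F, x (g * h) = x g + x h := by
  haveI := isAlgClosure_over F
  obtain ⟨x, hx, α, hα, hσ⟩ := helper30.exists_kummerChar p ↥F Qbar ζ hζ a
  have hhom := ((helper30.mem_Z1_trivial_iff p ↥F Qbar x).mp hx).2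
  refine ⟨α, fun σ => x (F.fixingSubgroupEquiv σ), ⟨hα, fun σ => ?_⟩, fun g h => ?_⟩
  · have := hσ (F.fixingSubgroupEquiv σ)
    rw [fixingSubgroupEquiv_apply', map_pow] at this
    exact this
  · show x (F.fixingSubgroupEquiv (g * h)) = _
    rw [map_mul, hhom]

/-- the exponent of a Kummer character is determined by the root -/
theorem IsKummerChar.eq_zero_iff {ζ a : (↥F)ˣ} (hζ : IsPrimitiveRoot ζ p) {α : Qbar}
    {x : UF F → ZMod p} (h : IsKummerChar p ζ a α x) (σ : UF F) :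
    x σ = 0 ↔ (σ : GQ) α = α := by
  have hp : p.Prime := Fact.out
  have : NeZero p := ⟨hp.ne_zero⟩
  have hζK : IsPrimitiveRoot (ζ : ↥F) p :=
    hζ.map_of_injective (f := Units.coeHom ↥F) Units.val_injective
  have hz : IsPrimitiveRoot (((ζ : ↥F) : Qbar)) p :=
    hζK.map_of_injective (f := algebraMap ↥F Qbar) (algebraMap ↥F Qbar).injective
  have hα0 : α ≠ 0 := by
    rintro rfl
    have h1 := h.1
    rw [zero_pow hp.ne_zero] at h1
    exact (map_ne_zero (algebraMap ↥F Qbar)).mpr a.ne_zero h1.symm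
  constructor
  · intro hx
    rw [h.2 σ, hx, ZMod.val_zero, pow_zero, one_mul]
  · intro hσ
    have h1 := h.2 σ
    rw [hσ] at h1
    have h2 : (((ζ : ↥F) : Qbar)) ^ (x σ).val = (((ζ : ↥F) : Qbar)) ^ (0 : ZMod p).val := by
      rw [ZMod.val_zero, pow_zero]
      exact (mul_right_cancel₀ hα0 (by rw [one_mul]; exact h1)).symm
    exact helper30.zmod_eq_of_pow_eq hz h2

/-- a Kummer character is a homomorphism -/
theorem IsKummerChar.map_mul {ζ a : (↥F)ˣ} (hζ : IsPrimitiveRoot ζ p) {α : Qbar}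
    {x : UF F → ZMod p} (h : IsKummerChar p ζ a α x) (g k : UF F) :
    x (g * k) = x g + x k := by
  have hp : p.Prime := Fact.out
  have : NeZero p := ⟨hp.ne_zero⟩
  have hζK : IsPrimitiveRoot (ζ : ↥F) p :=
    hζ.map_of_injective (f := Units.coeHom ↥F) Units.val_injective
  have hz : IsPrimitiveRoot (((ζ : ↥F) : Qbar)) p :=
    hζK.map_of_injective (f := algebraMap ↥F Qbar) (algebraMap ↥F Qbar).injective
  have hα0 : α ≠ 0 := by
    rintro rfl
    have h1 := h.1
    rw [zero_pow hp.ne_zero] at h1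
    exact (map_ne_zero (algebraMap ↥F Qbar)).mpr a.ne_zero h1.symm
  have hfix : ∀ (σ : UF F) (n : ℕ), (σ : GQ) ((((ζ : ↥F) : Qbar)) ^ n) = (((ζ : ↥F) : Qbar)) ^ n := by
    intro σ n
    rw [map_pow]
    congr 1
    exact (IntermediateField.mem_fixingSubgroup_iff F (σ : GQ)).mp σ.2 _ (ζ : ↥F).2
  apply helper30.zmod_eq_of_pow_eq hz
  have h1 : ((g * k : UF F) : GQ) α = (((ζ : ↥F) : Qbar)) ^ (x (g * k)).val * α := h.2 (g * k)
  have h2 : ((g * k : UF F) : GQ) α = (g : GQ) ((k : GQ) α) := rfl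
  rw [h2, h.2 k, _root_.map_mul, hfix, h.2 g] at h1
  have h3 : (((ζ : ↥F) : Qbar)) ^ (x (g * k)).val =
      (((ζ : ↥F) : Qbar)) ^ (x k).val * (((ζ : ↥F) : Qbar)) ^ (x g).val := by
    apply mul_right_cancel₀ hα0
    rw [← h1]
    ring
  rw [h3, ← pow_add, ZMod.val_add, add_comm (x k).val]
  conv_lhs => rw [← Nat.mod_add_div ((x g).val + (x k).val) p]
  rw [pow_add, pow_mul, hz.pow_eq_one, one_pow, mul_one]

theorem IsKummerChar.ne_zero {ζ a : (↥F)ˣ} {α : Qbar} {x : UF F → ZMod p}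
    (h : IsKummerChar p ζ a α x) : α ≠ 0 := by
  have hp : p.Prime := Fact.out
  rintro rfl
  have h1 := h.1
  rw [zero_pow hp.ne_zero] at h1
  exact (map_ne_zero (algebraMap ↥F Qbar)).mpr a.ne_zero h1.symm

/-- Galois correspondence: an element fixed by `Gal(ℚbar/E)` lies in `E` -/
theorem mem_of_forall_fixingSubgroup (E : IntermediateField ℚ Qbar) (y : Qbar)
    (h : ∀ s ∈ E.fixingSubgroup, s y = y) : y ∈ E := by
  have hG : IsGalois ℚ Qbar := ⟨⟩
  rw [← InfiniteGalois.fixedField_fixingSubgroup E, IntermediateField.mem_fixedField_iff]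
  exact h

/-- KG1d: the Kummer character of `a` is S-level-constant iff a `p`-th root of `a` lies in an
S-level. -/
theorem mem_Z1_iff_inSLevel (h𝒩 : 𝒩.mem = sLevels S F) {ζ a : (↥F)ˣ}
    (hζ : IsPrimitiveRoot ζ p) {α : Qbar} {x : UF F → ZMod p} (h : IsKummerChar p ζ a α x) :
    x ∈ Z1 𝒩 (T (ZMod p) (UF F)) ↔ InSLevel S F α := by
  rw [mem_Z1_sLevels_iff h𝒩]
  constructor
  · rintro ⟨⟨E, hE, hEn, hFE, hx⟩, hhom⟩
    refine ⟨E, hE, hEn, hFE, mem_of_forall_fixingSubgroup E α fun s hs => ?_⟩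
    have hsF : s ∈ F.fixingSubgroup := IntermediateField.fixingSubgroup_antitone hFE hs
    have h1 : x 1 = 0 := by
      have := hhom 1 1
      rw [mul_one] at this
      exact left_eq_add.mp this
    have h2 := hx 1 ⟨s, hsF⟩ hs
    rw [one_mul, h1] at h2
    exact (h.eq_zero_iff hζ ⟨s, hsF⟩).mp h2
  · rintro ⟨E, hE, hEn, hFE, hα⟩
    refine ⟨⟨E, hE, hEn, hFE, fun g s hs => ?_⟩, h.map_mul hζ⟩
    rw [h.map_mul hζ]
    have : x s = 0 := (h.eq_zero_iff hζ s).mpr
      ((IntermediateField.mem_fixingSubgroup_iff E (s : GQ)).mp hs α hα)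
    rw [this, add_zero]

/-- KG1b: every S-level character is a Kummer character. -/
theorem exists_isKummerChar_of_mem_Z1 (h𝒩 : 𝒩.mem = sLevels S F) (ζ : (↥F)ˣ)
    (hζ : IsPrimitiveRoot ζ p) (x : UF F → ZMod p) (hx : x ∈ Z1 𝒩 (T (ZMod p) (UF F))) :
    ∃ (a : (↥F)ˣ) (α : Qbar), IsKummerChar p ζ a α x := by
  haveI := isAlgClosure_over F
  obtain ⟨⟨E, hE, hEn, hFE, hxE⟩, hhom⟩ := (mem_Z1_sLevels_iff h𝒩 x).mp hx
  set y : (Qbar ≃ₐ[↥F] Qbar) → ZMod p := fun σ => x (F.fixingSubgroupEquiv.symm σ) with hy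
  have hyZ : y ∈ Z1 (helper8.galLevels ↥F Qbar)
      (Rep.trivial (ZMod p) (Qbar ≃ₐ[↥F] Qbar) (ZMod p)) := by
    rw [helper30.mem_Z1_trivial_iff]
    refine ⟨⟨IntermediateField.extendScalars hFE, ?_, ?_, ?_⟩, fun g h => ?_⟩
    · haveI : FiniteDimensional ℚ ↥E := hE.1
      have : FiniteDimensional ℚ ↥(IntermediateField.extendScalars hFE) := hE.1
      exact Module.Finite.of_restrictScalars_finite ℚ ↥F ↥(IntermediateField.extendScalars hFE)
    · refine ⟨fun n hn g => ?_⟩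
      rw [IntermediateField.mem_fixingSubgroup_iff] at hn ⊢
      intro z hz
      have hn' : (F.fixingSubgroupEquiv.symm n : GQ) ∈ E.fixingSubgroup := by
        rw [IntermediateField.mem_fixingSubgroup_iff]
        intro w hw
        exact hn w hw
      have := hEn.conj_mem _ hn' (F.fixingSubgroupEquiv.symm g : GQ)
      exact (IntermediateField.mem_fixingSubgroup_iff E _).mp this z hz
    · intro g s hs
      show x (F.fixingSubgroupEquiv.symm (g * s)) = x (F.fixingSubgroupEquiv.symm g)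
      rw [_root_.map_mul]
      refine hxE _ _ ?_
      rw [IntermediateField.mem_fixingSubgroup_iff] at hs ⊢
      intro w hw
      exact hs w hw
    · show x (F.fixingSubgroupEquiv.symm (g * h)) = _
      rw [_root_.map_mul, hhom]
  obtain ⟨a, α, hα, hσ⟩ := helper30.exists_kummer_of_mem_Z1 p ↥F Qbar ζ hζ y hyZ
  refine ⟨a, α, hα, fun σ => ?_⟩
  have := hσ (F.fixingSubgroupEquiv σ)
  rw [fixingSubgroupEquiv_apply', map_pow, hy] at this
  simpa using this

/-- KG1c: two Kummer characters agree iff the elements agree modulo `p`-th powers. -/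
theorem isKummerChar_eq_iff {ζ a a' : (↥F)ˣ} (hζ : IsPrimitiveRoot ζ p) {α α' : Qbar}
    {x x' : UF F → ZMod p} (h : IsKummerChar p ζ a α x) (h' : IsKummerChar p ζ a' α' x') :
    x = x' ↔ ∃ b : (↥F)ˣ, b ^ p = a⁻¹ * a' := by
  have hp : p.Prime := Fact.out
  constructor
  · rintro rfl
    have hα0 := h.ne_zero
    have hα'0 := h'.ne_zero
    have hβF : α' / α ∈ F := by
      have hG : IsGalois ℚ Qbar := ⟨⟩
      rw [← InfiniteGalois.fixedField_fixingSubgroup F, IntermediateField.mem_fixedField_iff]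
      intro s hs
      have h1 := h.2 ⟨s, hs⟩
      have h2 := h'.2 ⟨s, hs⟩
      have h1' : s α = (((ζ : ↥F) : Qbar)) ^ (x ⟨s, hs⟩).val * α := h1
      have h2' : s α' = (((ζ : ↥F) : Qbar)) ^ (x ⟨s, hs⟩).val * α' := h2
      have hz0 : (((ζ : ↥F) : Qbar)) ^ (x ⟨s, hs⟩).val ≠ 0 :=
        pow_ne_zero _ ((map_ne_zero (algebraMap ↥F Qbar)).mpr ζ.ne_zero)
      rw [map_div₀, h1', h2']
      field_simp
    have hβ0 : (⟨α' / α, hβF⟩ : ↥F) ≠ 0 := by
      intro h0
      have := congrArg (fun z : ↥F => (z : Qbar)) h0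
      exact div_ne_zero hα'0 hα0 this
    refine ⟨Units.mk0 _ hβ0, ?_⟩
    apply Units.ext
    apply Subtype.ext
    simp only [Units.val_pow_eq_pow_val, Units.val_mk0, Units.val_mul, Units.val_inv_eq_inv_val]
    push_cast
    rw [div_pow, h.1, h'.1]
    field_simp
  · rintro ⟨b, hb⟩
    haveI := isAlgClosure_over F
    have key := helper30.kummerChar_eq_of_pow p ↥F Qbar ζ hζ
      (fun σ => x (F.fixingSubgroupEquiv.symm σ)) (fun σ => x' (F.fixingSubgroupEquiv.symm σ))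
      a a' b hb α α' h.1 h'.1
      (fun σ => by
        have := h.2 (F.fixingSubgroupEquiv.symm σ)
        rw [fixingSubgroupEquiv_symm_apply'] at this
        rw [this, map_pow]
        rfl)
      (fun σ => by
        have := h'.2 (F.fixingSubgroupEquiv.symm σ)
        rw [fixingSubgroupEquiv_symm_apply'] at this
        rw [this, map_pow]
        rfl)
    funext σ
    have := congrFun key (F.fixingSubgroupEquiv σ)
    simpa using this

/-- KG1: `#Z¹(U, ℤ/p) = #F(S_F, p)` (the Selmer group of `F` relative to the places above `S`),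
given the ramification criterion for Kummer extensions (KG2a, KG2b). -/
theorem card_Z1_eq_card_selmerGroup [NumberField ↥F] (h𝒩 : 𝒩.mem = sLevels S F) (ζ : (↥F)ˣ)
    (hζ : IsPrimitiveRoot ζ p)
    (h2a : ∀ (a : (↥F)ˣ) (α : Qbar), α ^ p = ((a : ↥F) : Qbar) → IsSelmer (↥F) S p a →
      InSLevel S F α)
    (h2b : ∀ (a : (↥F)ˣ) (α : Qbar), α ^ p = ((a : ↥F) : Qbar) → InSLevel S F α →
      IsSelmer (↥F) S p a) :
    Nat.card ↥(Z1 𝒩 (T (ZMod p) (UF F))) =
      Nat.card ↥(selmerGroup (R := 𝓞 ↥F) (K := ↥F) (S := placesOver (↥F) S) (n := p)) := by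
  have hex := fun x : ↥(Z1 𝒩 (T (ZMod p) (UF F))) =>
    exists_isKummerChar_of_mem_Z1 h𝒩 ζ hζ x.1 x.2
  choose a α hK using hex
  have hmem : ∀ x : ↥(Z1 𝒩 (T (ZMod p) (UF F))),
      (QuotientGroup.mk (a x) : (↥F)ˣ ⧸ (powMonoidHom p : (↥F)ˣ →* (↥F)ˣ).range) ∈
        selmerGroup (R := 𝓞 ↥F) (K := ↥F) (S := placesOver (↥F) S) (n := p) := fun x =>
    (mk_mem_selmerGroup_iff _ _ _).mpr
      (h2b (a x) (α x) (hK x).1 ((mem_Z1_iff_inSLevel h𝒩 hζ (hK x)).mp x.2))
  refine Nat.card_congr (Equiv.ofBijective (fun x => ⟨_, hmem x⟩) ⟨?_, ?_⟩)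
  · intro x x' hxx'
    have h1 : (QuotientGroup.mk (a x) : (↥F)ˣ ⧸ (powMonoidHom p : (↥F)ˣ →* (↥F)ˣ).range) =
        QuotientGroup.mk (a x') := congrArg Subtype.val hxx'
    rw [QuotientGroup.eq] at h1
    obtain ⟨b, hb⟩ := h1
    exact Subtype.ext ((isKummerChar_eq_iff hζ (hK x) (hK x')).mpr ⟨b, hb⟩)
  · rintro ⟨c, hc⟩
    obtain ⟨a₀, rfl⟩ := QuotientGroup.mk_surjective c
    obtain ⟨α₀, x₀, hK₀, -⟩ := exists_isKummerChar (F := F) ζ hζ a₀
    have hsel : IsSelmer (↥F) S p a₀ := (mk_mem_selmerGroup_iff _ _ _).mp hc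
    have hx₀ : x₀ ∈ Z1 𝒩 (T (ZMod p) (UF F)) :=
      (mem_Z1_iff_inSLevel h𝒩 hζ hK₀).mpr (h2a a₀ α₀ hK₀.1 hsel)
    refine ⟨⟨x₀, hx₀⟩, Subtype.ext ?_⟩
    show (QuotientGroup.mk (a ⟨x₀, hx₀⟩) :
      (↥F)ˣ ⧸ (powMonoidHom p : (↥F)ˣ →* (↥F)ˣ).range) = QuotientGroup.mk a₀
    rw [QuotientGroup.eq]
    exact (isKummerChar_eq_iff hζ (hK ⟨x₀, hx₀⟩) hK₀).mp rfl

end KG1

end Fermat.Agent.S55.helper97
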