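import Fermat.Agent.S55.helper90_Rec3Int
import Fermat.Agent.S55.helper42_KumRoots
import Fermat.Agent.S55.helper5_Bridge
import Fermat.Agent.S55.helper69_Rec2G1
import Fermat.Agent.S55.helper97_KumG1

/-!
# S55 / REC3 / R3-KUM (helper97, task 506): the Kummer sequence of the `S`-units of `F_S`

`exists_kummerDatumS` (verbatim from helper90's blueprint): the Kummer datum
`0 → ℤ/p → E_S → E_S → 0` on `repES S F hF` with `κ a = ` principal idele of `ζ ^ a`.

By-products (general char-0 fields, no `NumberField` hypothesis): injectivity of the base change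
`ℚ_q ⊗ K → ℚ_q ⊗ L`, descent of integrality, `principalPi` is injective, principal ideles of
`ℚbar` are ideles, and the description `mem_bigES_iff` of the `S`-units of `F_S`.
-/

set_option autoImplicit false
set_option linter.unusedSectionVars false
set_option linter.style.haveILetI false

open scoped TensorProduct NumberField
open groupCohomology IsDedekindDomain

noncomputable section

namespace Fermat.Agent.S55.helper97

open Fermat.Agent.S55 Fermat.Agent.S55.helper59 Fermat.Agent.S55.helper69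
  Fermat.Agent.S55.helper73 Fermat.Agent.S55.helper90

local notation "Qbar" => AlgebraicClosure ℚ

/-! ## General base change -/

section General

variable (K L : Type*) [Field K] [CharZero K] [Field L] [CharZero L] [Algebra K L]
variable (q : ℕ) [Fact q.Prime]

/-- the base change `ℚ_q ⊗ K → ℚ_q ⊗ L` is injective (flatness) -/
theorem bc_injective' : Function.Injective (helper73.bc K L q) := by
  have h : Function.Injective ((algebraMap K L).toRatAlgHom.toLinearMap) :=
    (algebraMap K L).injective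
  have := Module.Flat.lTensor_preserves_injective_linearMap (M := ℚ_[q])
    ((algebraMap K L).toRatAlgHom.toLinearMap) h
  intro x y hxy
  apply this
  have key : ∀ z : SemiLoc q K,
      LinearMap.lTensor ℚ_[q] ((algebraMap K L).toRatAlgHom.toLinearMap) z
        = helper73.bc K L q z := by
    intro z
    induction z using TensorProduct.induction_on with
    | zero => simp
    | tmul a b => simp
    | add x y hx hy => simp only [map_add, hx, hy]
  rw [key, key, hxy]

/-- integrality descends along base change -/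
theorem isIntegral_bc_iff' (x : SemiLoc q K) :
    IsIntegral ℤ_[q] (helper73.bc K L q x) ↔ IsIntegral ℤ_[q] x :=
  isIntegral_algHom_iff ((helper73.bc K L q).restrictScalars ℤ_[q]) (bc_injective' K L q)

theorem bcUnits_mem_intUnits_iff' (x : (SemiLoc q K)ˣ) :
    bcUnits K L q x ∈ intUnits q L ↔ x ∈ intUnits q K := by
  rw [mem_intUnits, mem_intUnits, ← map_inv, coe_bcUnits, coe_bcUnits, isIntegral_bc_iff',
    isIntegral_bc_iff']

theorem one_tmul_injective' :
    Function.Injective (fun x : L => ((1 : ℚ_[q]) ⊗ₜ[ℚ] x : SemiLoc q L)) :=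
  (Algebra.TensorProduct.includeRight : L →ₐ[ℚ] SemiLoc q L).toRingHom.injective

omit q in
/-- `Lˣ → ∏_q (ℚ_q ⊗ L)ˣ` is injective. -/
theorem principalPi_injective' : Function.Injective (principalPi L) := by
  intro x y h
  have h2 := congrArg (fun z : IdelePi L => ((z ⟨2, Nat.prime_two⟩ : (SemiLoc 2 L)ˣ) :
    SemiLoc 2 L)) h
  exact Units.ext (one_tmul_injective' L 2 h2)

omit q in
theorem bcUnits_principalPi (x : Kˣ) (q : Nat.Primes) :
    bcUnits K L (q : ℕ) (principalPi K x q) =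
      principalPi L (Units.map (algebraMap K L : K →* L) x) q := by
  apply Units.ext
  rw [coe_bcUnits, principalPi_apply_coe, helper73.bc_tmul]
  rfl

end General

/-! ## Principal ideles of `ℚbar` -/

section QbarPrincipal

/-- an element of an intermediate field as a unit of it -/
def unitOfMem (E : IntermediateField ℚ Qbar) (x : Qbarˣ) (hx : (x : Qbar) ∈ E) : (↥E)ˣ :=
  Units.mk0 ⟨(x : Qbar), hx⟩ (fun h => x.ne_zero (congrArg Subtype.val h))

@[simp] lemma coe_unitOfMem (E : IntermediateField ℚ Qbar) (x : Qbarˣ) (hx : (x : Qbar) ∈ E) :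
    (((unitOfMem E x hx : (↥E)ˣ) : ↥E) : Qbar) = x := rfl

lemma map_unitOfMem (E : IntermediateField ℚ Qbar) (x : Qbarˣ) (hx : (x : Qbar) ∈ E) :
    Units.map (algebraMap ↥E Qbar : ↥E →* Qbar) (unitOfMem E x hx) = x :=
  Units.ext rfl

lemma principalPi_eq_bcUnits (E : IntermediateField ℚ Qbar) (x : Qbarˣ) (hx : (x : Qbar) ∈ E)
    (q : Nat.Primes) :
    principalPi Qbar x q = bcUnits ↥E Qbar (q : ℕ) (principalPi ↥E (unitOfMem E x hx) q) := by
  rw [bcUnits_principalPi, map_unitOfMem]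

/-- every element of `ℚbarˣ` lies in a finite subextension -/
lemma exists_finiteDimensional_mem (x : Qbar) :
    ∃ E : IntermediateField ℚ Qbar, FiniteDimensional ℚ E ∧ x ∈ E := by
  have := helper69.isAlgebraic_Qbar
  have hx : IsIntegral ℚ x := Algebra.IsIntegral.isIntegral x
  exact ⟨IntermediateField.adjoin ℚ {x}, IntermediateField.adjoin.finiteDimensional hx,
    IntermediateField.mem_adjoin_simple_self ℚ x⟩

/-- principal ideles of `ℚbar` are ideles -/
theorem principalPi_mem_idele_Qbar (x : Qbarˣ) : principalPi Qbar x ∈ idele Qbar := by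
  obtain ⟨E, hE, hx⟩ := exists_finiteDimensional_mem (x : Qbar)
  haveI : NumberField ↥E := ⟨⟩
  have h := helper69.principalPi_mem_idele ↥E (unitOfMem E x hx)
  rw [mem_idele] at h ⊢
  refine h.mono fun q hq => ?_
  rw [principalPi_eq_bcUnits E x hx q]
  exact bcUnits_mem_intUnits ↥E Qbar (q : ℕ) hq

/-- the principal idele of `x : ℚbarˣ` -/
def principalIdeleQbar : Qbarˣ →* Idele Qbar where
  toFun x := ⟨principalPi Qbar x, principalPi_mem_idele_Qbar x⟩
  map_one' := Subtype.ext (map_one _)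
  map_mul' x y := Subtype.ext (map_mul _ x y)

@[simp] theorem coe_principalIdeleQbar (x : Qbarˣ) :
    ((principalIdeleQbar x : Idele Qbar) : IdelePi Qbar) = principalPi Qbar x := rfl

theorem principalIdeleQbar_injective : Function.Injective principalIdeleQbar := fun _ _ h =>
  principalPi_injective' Qbar (congrArg Subtype.val h)

theorem principalIdeleQbar_mem (x : Qbarˣ) : principalIdeleQbar x ∈ principalSub Qbar :=
  ⟨x, rfl⟩

theorem mem_principalSub_Qbar_iff (y : Idele Qbar) :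
    y ∈ principalSub Qbar ↔ ∃ x : Qbarˣ, principalIdeleQbar x = y := by
  constructor
  · rintro ⟨x, hx⟩
    exact ⟨x, Subtype.ext hx⟩
  · rintro ⟨x, rfl⟩
    exact principalIdeleQbar_mem x

/-- the Galois action on principal ideles -/
theorem smul_principalIdeleQbar (σ : Qbar ≃ₐ[ℚ] Qbar) (x : Qbarˣ) :
    σ • principalIdeleQbar x = principalIdeleQbar (σ • x) :=
  Subtype.ext (smul_principalPi Qbar ℚ σ x)

end QbarPrincipal

/-! ## The `S`-units of `F_S` -/

section Big

variable {S : Finset Nat.Primes} {F : IntermediateField ℚ Qbar} (hF : F.IsUnramifiedOutside S)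

/-- a principal idele is smooth iff the element lies in an `S`-level -/
theorem principalIdeleQbar_mem_smoothS_iff (x : Qbarˣ) :
    principalIdeleQbar x ∈ smoothS S F hF ↔ InSLevel S F (x : Qbar) := by
  constructor
  · rintro ⟨E, hE, hfix⟩
    refine ⟨E, hE.1, hE.2.1, hE.2.2, mem_of_forall_fixingSubgroup E _ fun σ hσ => ?_⟩
    have h1 := hfix σ hσ
    rw [smul_principalIdeleQbar] at h1
    have h2 := principalIdeleQbar_injective h1
    exact congrArg Units.val h2
  · rintro ⟨E, hE, hEn, hFE, hx⟩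
    refine ⟨E, ⟨hE, hEn, hFE⟩, fun σ hσ => ?_⟩
    rw [smul_principalIdeleQbar]
    congr 1
    apply Units.ext
    exact (IntermediateField.mem_fixingSubgroup_iff _ _).1 hσ _ hx

/-- the unit condition outside `S` -/
def IsUnitOutside (S : Finset Nat.Primes) (x : Qbarˣ) : Prop :=
  ∀ q : Nat.Primes, q ∉ S → principalPi Qbar x q ∈ intUnits (q : ℕ) Qbar

theorem principalIdeleQbar_mem_sIdeleSub_iff (x : Qbarˣ) :
    principalIdeleQbar x ∈ sIdeleSub S ↔ IsUnitOutside S x := Iff.rfl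

/-- the `S`-units of `F_S`: principal ideles of elements of `S`-levels which are units outside
`S` -/
theorem principalIdeleQbar_mem_bigES_iff (x : Qbarˣ) :
    principalIdeleQbar x ∈ bigES S F hF ↔ InSLevel S F (x : Qbar) ∧ IsUnitOutside S x := by
  constructor
  · rintro ⟨⟨h1, h2⟩, -⟩
    exact ⟨(principalIdeleQbar_mem_smoothS_iff hF x).1 h1, h2⟩
  · rintro ⟨h1, h2⟩
    exact ⟨⟨(principalIdeleQbar_mem_smoothS_iff hF x).2 h1, h2⟩, principalIdeleQbar_mem x⟩

theorem mem_bigES_iff (e : Idele Qbar) :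
    e ∈ bigES S F hF ↔
      ∃ x : Qbarˣ, principalIdeleQbar x = e ∧ InSLevel S F (x : Qbar) ∧ IsUnitOutside S x := by
  constructor
  · intro he
    obtain ⟨x, rfl⟩ := (mem_principalSub_Qbar_iff e).1 he.2
    exact ⟨x, rfl, (principalIdeleQbar_mem_bigES_iff hF x).1 he⟩
  · rintro ⟨x, rfl, h⟩
    exact (principalIdeleQbar_mem_bigES_iff hF x).2 h

/-- unit condition: roots -/
theorem IsUnitOutside.of_pow {x : Qbarˣ} {n : ℕ} (hn : 0 < n) (h : IsUnitOutside S (x ^ n)) :
    IsUnitOutside S x := by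
  intro q hq
  obtain ⟨h1, h2⟩ := h q hq
  rw [map_pow, Pi.pow_apply] at h1 h2
  refine ⟨IsIntegral.of_pow hn ?_, IsIntegral.of_pow hn ?_⟩
  · rw [← Units.val_pow_eq_pow_val]
    exact h1
  · rw [← Units.val_pow_eq_pow_val, inv_pow]
    exact h2

/-- unit condition: elements integral over `ℤ` with integral inverse -/
theorem isUnitOutside_of_isIntegral {x : Qbarˣ} (h1 : IsIntegral ℤ (x : Qbar))
    (h2 : IsIntegral ℤ ((x⁻¹ : Qbarˣ) : Qbar)) : IsUnitOutside S x := by
  intro q _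
  refine ⟨?_, ?_⟩
  · have h : IsIntegral ℤ ((1 : ℚ_[(q : ℕ)]) ⊗ₜ[ℚ] (x : Qbar) : SemiLoc (q : ℕ) Qbar) :=
      h1.map ((Algebra.TensorProduct.includeRight :
        Qbar →ₐ[ℚ] SemiLoc (q : ℕ) Qbar).restrictScalars ℤ)
    exact h.tower_top
  · have e : (principalPi Qbar x q)⁻¹ = principalPi Qbar x⁻¹ q := by rw [map_inv]; rfl
    rw [e]
    have h : IsIntegral ℤ ((1 : ℚ_[(q : ℕ)]) ⊗ₜ[ℚ] ((x⁻¹ : Qbarˣ) : Qbar) :
        SemiLoc (q : ℕ) Qbar) :=
      h2.map ((Algebra.TensorProduct.includeRight :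
        Qbar →ₐ[ℚ] SemiLoc (q : ℕ) Qbar).restrictScalars ℤ)
    exact h.tower_top

/-- the unit condition descends to a number field containing the element -/
theorem IsUnitOutside.valuation_eq_one {x : Qbarˣ} (h : IsUnitOutside S x)
    (E : IntermediateField ℚ Qbar) [NumberField ↥E] (hx : (x : Qbar) ∈ E)
    (v : HeightOneSpectrum (𝓞 ↥E)) (hv : v ∉ placesOver (↥E) S) :
    v.valuation ↥E ((unitOfMem E x hx : (↥E)ˣ) : ↥E) = 1 := by
  obtain ⟨q, hq⟩ := helper5.exists_prime_natCast_mem ↥E v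
  have hqS : q ∉ S := fun hqS => hv ((mem_placesOver_iff v).2 ⟨q, hqS, hq⟩)
  have h1 := h q hqS
  rw [principalPi_eq_bcUnits E x hx q, bcUnits_mem_intUnits_iff'] at h1
  exact (helper5.one_tmul_mem_intUnits_iff ↥E (q : ℕ) (unitOfMem E x hx)).1 h1 v hq

end Big

/-! ## The Kummer datum -/

section Kummer

variable {p : ℕ} [Fact p.Prime] {S : Finset Nat.Primes} {F : IntermediateField ℚ Qbar}
  (hF : F.IsUnramifiedOutside S)

/-- `ζ` as a unit of `ℚbar` -/
def zetaQbar (ζ : (↥F)ˣ) : Qbarˣ := Units.map (algebraMap ↥F Qbar : ↥F →* Qbar) ζ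

lemma coe_zetaQbar (ζ : (↥F)ˣ) : ((zetaQbar ζ : Qbarˣ) : Qbar) = ((ζ : ↥F) : Qbar) := rfl

lemma zetaQbar_isPrimitiveRoot {ζ : (↥F)ˣ} (hζ : IsPrimitiveRoot ζ p) :
    IsPrimitiveRoot (zetaQbar ζ) p :=
  hζ.map_of_injective (f := Units.map (algebraMap ↥F Qbar : ↥F →* Qbar))
    (Units.map_injective (algebraMap ↥F Qbar).injective)

lemma zetaQbar_pow_mem (ζ : (↥F)ˣ) (n : ℕ) : (((zetaQbar ζ ^ n : Qbarˣ)) : Qbar) ∈ F := by
  rw [Units.val_pow_eq_pow_val, coe_zetaQbar]
  exact pow_mem (SetLike.coe_mem _) n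

lemma isIntegral_of_pow_eq_one {x : Qbarˣ} {n : ℕ} (hn : 0 < n) (h : x ^ n = 1) :
    IsIntegral ℤ (x : Qbar) := by
  refine IsIntegral.of_pow hn ?_
  rw [← Units.val_pow_eq_pow_val, h, Units.val_one]
  exact isIntegral_one

lemma isUnitOutside_of_pow_eq_one {x : Qbarˣ} {n : ℕ} (hn : 0 < n) (h : x ^ n = 1) :
    IsUnitOutside S x :=
  isUnitOutside_of_isIntegral (isIntegral_of_pow_eq_one hn h)
    (isIntegral_of_pow_eq_one hn (by rw [inv_pow, h, inv_one]))

lemma zetaQbar_pow_pow {ζ : (↥F)ˣ} (hζ : IsPrimitiveRoot ζ p) (n : ℕ) :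
    (zetaQbar ζ ^ n) ^ p = 1 := by
  rw [← pow_mul, mul_comm, pow_mul, (zetaQbar_isPrimitiveRoot hζ).pow_eq_one, one_pow]

lemma zetaQbar_pow_mem_bigES {ζ : (↥F)ˣ} (hζ : IsPrimitiveRoot ζ p) (n : ℕ) :
    principalIdeleQbar (zetaQbar ζ ^ n) ∈ bigES S F hF := by
  have hp : p.Prime := Fact.out
  rw [principalIdeleQbar_mem_bigES_iff]
  refine ⟨?_, isUnitOutside_of_pow_eq_one hp.pos (zetaQbar_pow_pow hζ n)⟩
  obtain ⟨E, hE⟩ := exists_isSLevel hF
  exact ⟨E, hE.1, hE.2.1, hE.2.2, hE.2.2 (zetaQbar_pow_mem ζ n)⟩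

/-- the elements `ζ ^ a` of `E_S` -/
def zetaES {ζ : (↥F)ˣ} (hζ : IsPrimitiveRoot ζ p) (a : ZMod p) : bigES S F hF :=
  ⟨principalIdeleQbar (zetaQbar ζ ^ a.val), zetaQbar_pow_mem_bigES hF hζ a.val⟩

lemma zetaES_add {ζ : (↥F)ˣ} (hζ : IsPrimitiveRoot ζ p) (a b : ZMod p) :
    zetaES hF hζ (a + b) = zetaES hF hζ a * zetaES hF hζ b := by
  apply Subtype.ext
  change principalIdeleQbar _ = principalIdeleQbar _ * principalIdeleQbar _
  rw [← map_mul, ← pow_add, ZMod.val_add,
    ← pow_eq_pow_mod _ (zetaQbar_isPrimitiveRoot hζ).pow_eq_one]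

/-- the Kummer map `a ↦ ζ ^ a` -/
def kappaS {ζ : (↥F)ˣ} (hζ : IsPrimitiveRoot ζ p) : ZMod p →+ (repES S F hF) :=
  AddMonoidHom.mk' (fun a => (Additive.ofMul (zetaES hF hζ a) : Additive (bigES S F hF)))
    (fun a b => by
      rw [zetaES_add]
      rfl)

lemma kappaS_apply {ζ : (↥F)ˣ} (hζ : IsPrimitiveRoot ζ p) (a : ZMod p) :
    kappaS hF hζ a = (Additive.ofMul (zetaES hF hζ a) : Additive (bigES S F hF)) := rfl
lemma kappaS_injective {ζ : (↥F)ˣ} (hζ : IsPrimitiveRoot ζ p) :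
    Function.Injective (kappaS hF hζ) := by
  intro a b h
  have hp : p.Prime := Fact.out
  haveI : NeZero p := ⟨hp.ne_zero⟩
  have h1 : zetaES hF hζ a = zetaES hF hζ b := Additive.ofMul.injective h
  have h2 : principalIdeleQbar (zetaQbar ζ ^ a.val) = principalIdeleQbar (zetaQbar ζ ^ b.val) :=
    congrArg Subtype.val h1
  have h3 := principalIdeleQbar_injective h2
  have h4 := (zetaQbar_isPrimitiveRoot hζ).pow_inj (ZMod.val_lt a) (ZMod.val_lt b) h3
  exact ZMod.val_injective p h4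

lemma smul_zetaQbar_pow (ζ : (↥F)ˣ) (n : ℕ) (g : UF F) :
    (g : Qbar ≃ₐ[ℚ] Qbar) • (zetaQbar ζ ^ n : Qbarˣ) = zetaQbar ζ ^ n := by
  apply Units.ext
  exact (IntermediateField.mem_fixingSubgroup_iff _ _).1 g.2 _ (zetaQbar_pow_mem ζ n)

lemma kappaS_fixed {ζ : (↥F)ˣ} (hζ : IsPrimitiveRoot ζ p) (g : UF F) (a : ZMod p) :
    (repES S F hF).ρ g (kappaS hF hζ a) = kappaS hF hζ a := by
  rw [kappaS_apply]
  refine (repES_ρ S F hF g (zetaES hF hζ a)).trans ?_
  congr 1
  apply Subtype.ext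
  change (g : Qbar ≃ₐ[ℚ] Qbar) • principalIdeleQbar _ = principalIdeleQbar _
  rw [smul_principalIdeleQbar, smul_zetaQbar_pow]

lemma kappaS_torsion {ζ : (↥F)ˣ} (hζ : IsPrimitiveRoot ζ p) (e : repES S F hF)
    (he : p • e = 0) : ∃ a, kappaS hF hζ a = e := by
  have hp : p.Prime := Fact.out
  haveI : NeZero p := ⟨hp.ne_zero⟩
  have key : ∀ x : bigES S F hF, x ^ p = 1 →
      ∃ a, kappaS hF hζ a = (Additive.ofMul x : Additive (bigES S F hF)) := by
    intro x h1
    obtain ⟨u, hu, -, -⟩ := (mem_bigES_iff hF (x : Idele Qbar)).1 x.2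
    have h2 : principalIdeleQbar (u ^ p) = principalIdeleQbar 1 := by
      rw [map_pow, hu, map_one]
      exact congrArg Subtype.val h1
    have h3 : u ^ p = 1 := principalIdeleQbar_injective h2
    have h3' : (u : Qbar) ^ p = 1 := by
      rw [← Units.val_pow_eq_pow_val, h3, Units.val_one]
    have hζ' : IsPrimitiveRoot ((zetaQbar ζ : Qbarˣ) : Qbar) p :=
      IsPrimitiveRoot.coe_units_iff.2 (zetaQbar_isPrimitiveRoot hζ)
    obtain ⟨i, hi, hiu⟩ := hζ'.eq_pow_of_pow_eq_one h3'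
    have hiu' : zetaQbar ζ ^ i = u := by
      apply Units.ext
      rw [Units.val_pow_eq_pow_val]
      exact hiu
    refine ⟨(i : ZMod p), ?_⟩
    rw [kappaS_apply]
    congr 1
    apply Subtype.ext
    change principalIdeleQbar _ = _
    rw [ZMod.val_natCast_of_lt hi, hiu', hu]
  exact key (Additive.toMul (show Additive (bigES S F hF) from e))
    (Additive.ofMul.injective he)


/-- `E_S` is `p`-divisible (`p ∈ S`, `ζ_p ∈ F`): `p`-th roots of `S`-units of `S`-levels are
`S`-units of `S`-levels. -/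
lemma exists_pow_eq_bigES (hpS : (⟨p, Fact.out⟩ : Nat.Primes) ∈ S) (x : bigES S F hF) :
    ∃ y : bigES S F hF, y ^ p = x := by
  have hp : p.Prime := Fact.out
  obtain ⟨u, hu, ⟨E, hE, hEn, hFE, huE⟩, hunit⟩ := (mem_bigES_iff hF (x : Idele Qbar)).1 x.2
  obtain ⟨β, hβ⟩ := IsAlgClosed.exists_pow_nat_eq (u : Qbar) hp.pos
  have hβ0 : β ≠ 0 := by
    rintro rfl
    rw [zero_pow hp.ne_zero] at hβ
    exact u.ne_zero hβ.symm
  have hβu : (Units.mk0 β hβ0) ^ p = u := by
    apply Units.ext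
    rw [Units.val_pow_eq_pow_val]
    exact hβ
  haveI := hE.1
  haveI : NumberField ↥E := ⟨⟩
  have hn : ∀ q : Nat.Primes, (q : ℕ) ∣ p → q ∈ S := by
    intro q hq
    have h1 : (q : ℕ) = p := (Nat.prime_dvd_prime_iff_eq q.2 hp).1 hq
    have h2 : q = ⟨p, Fact.out⟩ := Subtype.ext h1
    rw [h2]
    exact hpS
  have ha : ∀ v : HeightOneSpectrum (𝓞 ↥E), v ∉ placesOver (↥E) S →
      (p : ℤ) ∣ Multiplicative.toAdd (v.valuationOfNeZero (unitOfMem E u huE)) := by
    intro v hv
    have h1 := hunit.valuation_eq_one E huE v hv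
    have h2 : v.valuationOfNeZero (unitOfMem E u huE) = 1 := by
      apply WithZero.coe_injective
      rw [HeightOneSpectrum.valuationOfNeZero_eq]
      exact h1
    rw [h2]
    exact dvd_zero _
  obtain ⟨E', hE', hE'n, hEE', hβE'⟩ :=
    helper42.inSLevel_of_forall_dvd hn hE (unitOfMem E u huE) β hβ ha
  have hunitβ : IsUnitOutside S (Units.mk0 β hβ0) := by
    refine IsUnitOutside.of_pow hp.pos ?_
    rw [hβu]
    exact hunit
  refine ⟨⟨principalIdeleQbar (Units.mk0 β hβ0),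
    (principalIdeleQbar_mem_bigES_iff hF _).2 ⟨⟨E', hE', hE'n, hFE.trans hEE', hβE'⟩, hunitβ⟩⟩, ?_⟩
  apply Subtype.ext
  change principalIdeleQbar _ ^ p = _
  rw [← map_pow, hβu, hu]

lemma kappaS_div (hpS : (⟨p, Fact.out⟩ : Nat.Primes) ∈ S) (e : repES S F hF) :
    ∃ e' : repES S F hF, p • e' = e := by
  obtain ⟨y, hy⟩ := exists_pow_eq_bigES hF hpS
    (Additive.toMul (show Additive (bigES S F hF) from e))
  exact ⟨(Additive.ofMul y : Additive (bigES S F hF)), congrArg Additive.ofMul hy⟩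

/-- the Kummer datum of the `S`-units of `F_S` -/
def kummerDatumS (hpS : (⟨p, Fact.out⟩ : Nat.Primes) ∈ S) {ζ : (↥F)ˣ}
    (hζ : IsPrimitiveRoot ζ p) : KummerDatum (repES S F hF) p where
  κ := kappaS hF hζ
  κ_inj := kappaS_injective hF hζ
  κ_fixed := kappaS_fixed hF hζ
  torsion := kappaS_torsion hF hζ
  div := kappaS_div hF hpS

end Kummer

section Final

variable {p : ℕ} [Fact p.Prime] {S : Finset Nat.Primes} {F : IntermediateField ℚ Qbar}
  [FiniteDimensional ℚ F] (hF : F.IsUnramifiedOutside S)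

/-- **R3-KUM**: the Kummer sequence `0 → μ_p → E_S → E_S → 0` of the `S`-units of `F_S`
(`p ∈ S`: `E(u^{1/p})/E` is unramified outside `S` for an `S`-unit `u`). -/
theorem exists_kummerDatumS (hpS : (⟨p, Fact.out⟩ : Nat.Primes) ∈ S)
    (ζ : (↥F)ˣ) (hζ : IsPrimitiveRoot ζ p) :
    ∃ K : KummerDatum (repES S F hF) p, ∀ a : ZMod p,
      (((Additive.toMul (K.κ a) : bigES S F hF) : Idele Qbar) : IdelePi Qbar) = zetaPi ζ a :=
  ⟨kummerDatumS hF hpS hζ, fun _ => rfl⟩

end Final

end Fermat.Agent.S55.helper97
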