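import Mathlib
import Fermat.Agent.S55.helper33_Rec2Defs

/-!
# S55 / REC2-SYM-P (helper15, task 373): the cyclotomic idele symbol, basic properties

Verbatim statements of the REC2 interface (helper33), section R2-SYM:

* `cycSymAt_eq_one_of_mem_intUnits` : the local symbol at `q ≠ l` is trivial on integral units;
* `cycSymFun_mul`, `exists_cycSym` (and the homomorphism `cycSym`);
* `semiNorm_principalPi` : `N_{ℚ_q ⊗ K/ℚ_q}(1 ⊗ c) = N_{K/ℚ}(c)`;
* `cycSymFun_principal` : the product formula, `cycSymFun (principal)^2 = 1`;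
* `cycSymFun_singleIdele`, `cycSymAt_principalPi`.

Tools: `norm_one_tmul` (the norm commutes with base change), `exists_multiset_norm_eq_prod`
(over an algebraically closed field the norm is a product of roots of any annihilating
polynomial), `norm_norm_le_one_of_isIntegral` (the norm of an element of a finite free
`ℚ_q`-algebra which is integral over `ℤ_q` is a `q`-adic integer), and the product formula
`ratSym_sq` on `ℚˣ` (multiplicativity + the values on the primes).
-/

set_option autoImplicit false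
set_option linter.style.haveILetI false
set_option linter.unusedSectionVars false
set_option linter.unusedVariables false

open scoped TensorProduct NumberField
open Polynomial

namespace Fermat.Agent.S55.helper15

/-! ## Norms and base change -/

section NormBaseChange

/-- The norm commutes with base change: `N_{A ⊗ S / A} (1 ⊗ s) = N_{S/R} s`. -/
theorem norm_one_tmul {R : Type*} [CommRing R] (A : Type*) [CommRing A] [Algebra R A]
    {S : Type*} [CommRing S] [Algebra R S] [Module.Free R S] [Module.Finite R S] (s : S) :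
    Algebra.norm A ((1 : A) ⊗ₜ[R] s) = algebraMap R A (Algebra.norm R s) := by
  rw [Algebra.norm_apply, Algebra.norm_apply, ← LinearMap.det_baseChange]
  congr 1
  apply LinearMap.ext
  intro z
  induction z using TensorProduct.induction_on with
  | zero => simp
  | tmul a b =>
    simp [LinearMap.baseChange_tmul, Algebra.TensorProduct.tmul_mul_tmul]
  | add x y hx hy => rw [map_add, map_add, hx, hy]

/-- Over an algebraically closed field, the norm of an element `t` of a finite free algebra is a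
product of roots of any polynomial annihilating `t`. -/
theorem exists_multiset_norm_eq_prod {E : Type*} [Field E] [IsAlgClosed E] {T : Type*}
    [CommRing T] [Algebra E T] [Module.Finite E T] (t : T) (P : E[X])
    (hP : Polynomial.aeval t P = 0) :
    ∃ s : Multiset E, (∀ μ ∈ s, P.IsRoot μ) ∧ Algebra.norm E t = s.prod := by
  set f : Module.End E T := LinearMap.mul E T t with hf
  have hfP : Polynomial.aeval f P = 0 := by
    have h := Polynomial.aeval_algHom_apply (Algebra.lmul E T) t P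
    rw [hP, map_zero] at h
    exact h
  refine ⟨f.charpoly.roots, ?_, ?_⟩
  · intro μ hμ
    have h1 : f.charpoly.IsRoot μ := (Polynomial.mem_roots'.mp hμ).2
    have h2 : f.HasEigenvalue μ := (Module.End.hasEigenvalue_iff_isRoot_charpoly f μ).mpr h1
    have h3 : (minpoly E f).IsRoot μ := Module.End.isRoot_of_hasEigenvalue h2
    obtain ⟨Q, hQ⟩ := minpoly.dvd E f hfP
    rw [Polynomial.IsRoot, hQ, Polynomial.eval_mul, h3, zero_mul]
  · rw [Algebra.norm_apply]
    change LinearMap.det f = _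
    rw [LinearMap.det_eq_sign_charpoly_coeff]
    have hsplit : f.charpoly.Splits := IsAlgClosed.splits _
    have hmonic : f.charpoly.Monic := LinearMap.charpoly_monic f
    have hdeg : f.charpoly.natDegree = Module.finrank E T := LinearMap.charpoly_natDegree f
    rw [hsplit.coeff_zero_eq_prod_roots_of_monic hmonic, hdeg, ← mul_assoc, ← pow_add,
      ← two_mul, pow_mul]
    simp

end NormBaseChange

section PadicNorm

variable (q : ℕ) [Fact q.Prime]

/-- Elements integral over `ℤ_[q]` have spectral norm `≤ 1`. -/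
theorem spectralNorm_le_one_of_isIntegral_padicInt {K : Type*} [Field K] [Algebra ℚ_[q] K]
    [Algebra.IsAlgebraic ℚ_[q] K] {x : K} {f : ℤ_[q][X]} (hf : f.Monic)
    (hfx : Polynomial.eval₂ ((algebraMap ℚ_[q] K).comp (algebraMap ℤ_[q] ℚ_[q])) x f = 0) :
    spectralNorm ℚ_[q] K x ≤ 1 := by
  have hg : (f.map (algebraMap ℤ_[q] ℚ_[q])).Monic := hf.map _
  have hgx : Polynomial.aeval x (f.map (algebraMap ℤ_[q] ℚ_[q])) = 0 := by
    rw [Polynomial.aeval_def, Polynomial.eval₂_map]
    exact hfx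
  have h1 : spectralAlgNorm ℚ_[q] K x ≤ spectralValue (f.map (algebraMap ℤ_[q] ℚ_[q])) :=
    norm_root_le_spectralValue spectralAlgNorm_isPowMul isNonarchimedean_spectralNorm hg hgx
  refine h1.trans ((spectralValue_le_one_iff hg).mpr (fun n => ?_))
  rw [Polynomial.coeff_map]
  exact PadicInt.norm_le_one _

theorem spectralNorm_multiset_prod_le_one {K : Type*} [Field K] [Algebra ℚ_[q] K]
    [Algebra.IsAlgebraic ℚ_[q] K] (s : Multiset K) (hs : ∀ μ ∈ s, spectralNorm ℚ_[q] K μ ≤ 1) :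
    spectralNorm ℚ_[q] K s.prod ≤ 1 := by
  induction s using Multiset.induction_on with
  | empty => simp [spectralNorm_one]
  | cons a s ih =>
    rw [Multiset.prod_cons]
    have h1 : spectralNorm ℚ_[q] K (a * s.prod) =
        spectralNorm ℚ_[q] K a * spectralNorm ℚ_[q] K s.prod :=
      spectralAlgNorm_mul (K := ℚ_[q]) (L := K) a s.prod
    rw [h1]
    have h2 := hs a (Multiset.mem_cons_self a s)
    have h3 := ih (fun μ hμ => hs μ (Multiset.mem_cons_of_mem hμ))
    calc spectralNorm ℚ_[q] K a * spectralNorm ℚ_[q] K s.prod ≤ 1 * 1 :=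
          mul_le_mul h2 h3 (spectralNorm_nonneg _) zero_le_one
      _ = 1 := one_mul 1

/-- The norm of an element integral over `ℤ_[q]` of a finite free `ℚ_[q]`-algebra is a
`q`-adic integer. -/
theorem norm_norm_le_one_of_isIntegral {S : Type*} [CommRing S] [Algebra ℚ_[q] S]
    [Module.Free ℚ_[q] S] [Module.Finite ℚ_[q] S] [Algebra ℤ_[q] S] [IsScalarTower ℤ_[q] ℚ_[q] S]
    {x : S} (hx : IsIntegral ℤ_[q] x) : ‖Algebra.norm ℚ_[q] x‖ ≤ 1 := by
  obtain ⟨f, hf, hfx⟩ := hx
  let E := AlgebraicClosure ℚ_[q]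
  set t : E ⊗[ℚ_[q]] S := (1 : E) ⊗ₜ[ℚ_[q]] x with ht
  set P : E[X] := f.map ((algebraMap ℚ_[q] E).comp (algebraMap ℤ_[q] ℚ_[q])) with hPdef
  have hP : Polynomial.aeval t P = 0 := by
    rw [hPdef, Polynomial.aeval_def, Polynomial.eval₂_map]
    have hcomp : (algebraMap E (E ⊗[ℚ_[q]] S)).comp
        ((algebraMap ℚ_[q] E).comp (algebraMap ℤ_[q] ℚ_[q])) =
        ((Algebra.TensorProduct.includeRight : S →ₐ[ℚ_[q]] E ⊗[ℚ_[q]] S) : S →+* _).comp
          (algebraMap ℤ_[q] S) := by
      ext z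
      simp only [RingHom.comp_apply, Algebra.TensorProduct.algebraMap_apply, AlgHom.coe_toRingHom,
        Algebra.TensorProduct.includeRight_apply]
      rw [IsScalarTower.algebraMap_apply ℤ_[q] ℚ_[q] S]
      generalize algebraMap ℤ_[q] ℚ_[q] z = r
      calc (algebraMap ℚ_[q] E r) ⊗ₜ[ℚ_[q]] (1 : S) = (r • (1 : E)) ⊗ₜ[ℚ_[q]] (1 : S) := by
            rw [Algebra.algebraMap_eq_smul_one]
        _ = (1 : E) ⊗ₜ[ℚ_[q]] (r • (1 : S)) := TensorProduct.smul_tmul r 1 1
        _ = (1 : E) ⊗ₜ[ℚ_[q]] (algebraMap ℚ_[q] S r) := by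
            rw [Algebra.algebraMap_eq_smul_one]
    rw [hcomp]
    have h2 : t = ((Algebra.TensorProduct.includeRight : S →ₐ[ℚ_[q]] E ⊗[ℚ_[q]] S) : S →+* _) x :=
      rfl
    rw [h2, ← Polynomial.hom_eval₂, hfx, map_zero]
  obtain ⟨s, hs, hnorm⟩ := exists_multiset_norm_eq_prod t P hP
  rw [ht, norm_one_tmul] at hnorm
  have h3 : spectralNorm ℚ_[q] E s.prod ≤ 1 := by
    apply spectralNorm_multiset_prod_le_one
    intro μ hμ
    have hroot := hs μ hμ
    apply spectralNorm_le_one_of_isIntegral_padicInt q hf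
    rw [← Polynomial.eval_map]
    exact hroot
  rw [← hnorm, spectralNorm_extends] at h3
  exact h3

end PadicNorm

section RatSym

open Fermat.Agent.S55.helper73 Fermat.Agent.S55.helper33

variable (l m : ℕ) [Fact l.Prime]

/-- The image of a nonzero rational number in `ℚ_qˣ`. -/
noncomputable def ratUnit (q : ℕ) [Fact q.Prime] : ℚˣ →* ℚ_[q]ˣ :=
  Units.map ((algebraMap ℚ ℚ_[q] : ℚ →+* ℚ_[q]) : ℚ →* ℚ_[q])

theorem coe_ratUnit (q : ℕ) [Fact q.Prime] (a : ℚˣ) :
    ((ratUnit q a : ℚ_[q]ˣ) : ℚ_[q]) = ((a : ℚ) : ℚ_[q]) := by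
  show algebraMap ℚ ℚ_[q] (a : ℚ) = _
  rw [eq_ratCast]

/-- The local symbol of a rational number at `q ≠ l`. -/
theorem cycSymLoc_ratUnit_of_ne (q : ℕ) [Fact q.Prime] (hq : q ≠ l) (a : ℚˣ) :
    cycSymLoc q l m (ratUnit q a) = primeUnit q l m hq ^ padicValRat q (a : ℚ) := by
  rw [cycSymLoc_apply_of_ne q l m hq, coe_ratUnit, Padic.valuation_ratCast]

/-- The set of primes with nonzero valuation at a nonzero rational number is finite. -/
theorem finite_setOf_padicValRat_ne_zero (a : ℚˣ) :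
    {q : Nat.Primes | padicValRat (q : ℕ) (a : ℚ) ≠ 0}.Finite := by
  have hnum : (a : ℚ).num ≠ 0 := Rat.num_ne_zero.mpr a.ne_zero
  have hden : (a : ℚ).den ≠ 0 := (a : ℚ).den_nz
  have hfin : {q : Nat.Primes | (q : ℕ) ∈
      ((a : ℚ).num.natAbs * (a : ℚ).den).primeFactors}.Finite :=
    Set.Finite.preimage (Set.injOn_of_injective Subtype.val_injective) (Finset.finite_toSet _)
  refine hfin.subset ?_
  intro q hq
  rw [Set.mem_ofPred_eq] at hq ⊢
  rw [Nat.mem_primeFactors]
  refine ⟨q.2, ?_, mul_ne_zero (Int.natAbs_ne_zero.mpr hnum) hden⟩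
  by_contra hndvd
  apply hq
  have h1 : ¬ (q : ℕ) ∣ (a : ℚ).num.natAbs := fun h => hndvd (Dvd.dvd.mul_right h _)
  have h2 : ¬ (q : ℕ) ∣ (a : ℚ).den := fun h => hndvd (Dvd.dvd.mul_left h _)
  unfold padicValRat
  rw [padicValInt, padicValNat.eq_zero_of_not_dvd h1, padicValNat.eq_zero_of_not_dvd h2]
  simp

/-- Finite support of the local symbols of a rational number. -/
theorem finite_mulSupport_ratSym (a : ℚˣ) :
    (Function.mulSupport fun q : Nat.Primes => cycSymLoc (q : ℕ) l m (ratUnit (q : ℕ) a)).Finite := by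
  have h2 : {q : Nat.Primes | (q : ℕ) = l}.Finite := by
    apply Set.Subsingleton.finite
    intro a ha b hb
    exact Subtype.ext (ha.trans hb.symm)
  refine ((finite_setOf_padicValRat_ne_zero a).union h2).subset ?_
  intro q hq
  rw [Function.mem_mulSupport] at hq
  by_cases hql : (q : ℕ) = l
  · exact Or.inr hql
  · left
    intro h0
    apply hq
    rw [cycSymLoc_ratUnit_of_ne l m (q : ℕ) hql, h0, zpow_zero]

/-- The product of the local symbols of a rational number. -/
noncomputable def ratSym : ℚˣ →* (ZMod (l ^ m))ˣ where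
  toFun a := ∏ᶠ q : Nat.Primes, cycSymLoc (q : ℕ) l m (ratUnit (q : ℕ) a)
  map_one' := by
    simp only [map_one, finprod_one]
  map_mul' a b := by
    rw [← finprod_mul_distrib (finite_mulSupport_ratSym l m a) (finite_mulSupport_ratSym l m b)]
    refine finprod_congr (fun q => ?_)
    rw [map_mul, map_mul]

theorem ratSym_apply (a : ℚˣ) :
    ratSym l m a = ∏ᶠ q : Nat.Primes, cycSymLoc (q : ℕ) l m (ratUnit (q : ℕ) a) := rfl

/-- The unit `r` of `ℚ` attached to a nonzero natural number. -/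
noncomputable def natUnit (n : ℕ) (hn : n ≠ 0) : ℚˣ := Units.mk0 (n : ℚ) (by exact_mod_cast hn)

/-- the symbol at `l` of a prime `r ≠ l`. -/
theorem cycSymLoc_self_natUnit (r : ℕ) (hr : r.Prime) (hrl : r ≠ l) :
    haveI : Fact r.Prime := ⟨hr⟩
    cycSymLoc l l m (ratUnit l (natUnit r hr.ne_zero)) = (primeUnit r l m hrl)⁻¹ := by
  haveI : Fact r.Prime := ⟨hr⟩
  rw [cycSymLoc_self_apply]
  congr 1
  apply Units.ext
  rw [Units.coe_map]
  have hl : (l : ℚ_[l]) ≠ 0 := by exact_mod_cast (Fact.out : l.Prime).ne_zero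
  have hval : Padic.valuation ((ratUnit l (natUnit r hr.ne_zero) : ℚ_[l]ˣ) : ℚ_[l]) = 0 := by
    rw [coe_ratUnit, Padic.valuation_ratCast]
    show padicValRat l ((r : ℕ) : ℚ) = 0
    rw [padicValRat.of_nat, padicValNat_primes (Ne.symm hrl)]
    rfl
  have h1 : ((padicUnitPart l (ratUnit l (natUnit r hr.ne_zero)) : ℤ_[l]ˣ) : ℤ_[l]) =
      ((r : ℕ) : ℤ_[l]) := by
    apply Subtype.ext
    rw [coe_padicUnitPart, hval, neg_zero, zpow_zero, mul_one, coe_ratUnit]
    show (((r : ℕ) : ℚ) : ℚ_[l]) = _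
    simp
  show (PadicInt.toZModPow m) ((padicUnitPart l (ratUnit l (natUnit r hr.ne_zero)) : ℤ_[l]ˣ) : ℤ_[l])
    = _
  rw [h1, map_natCast]
  rfl

/-- the symbol at `l` of `l`. -/
theorem cycSymLoc_self_natUnit_self :
    cycSymLoc l l m (ratUnit l (natUnit l (Fact.out : l.Prime).ne_zero)) = 1 := by
  rw [cycSymLoc_self_apply, inv_eq_one]
  have hl : (l : ℚ_[l]) ≠ 0 := by exact_mod_cast (Fact.out : l.Prime).ne_zero
  have hval : Padic.valuation ((ratUnit l (natUnit l (Fact.out : l.Prime).ne_zero) :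
      ℚ_[l]ˣ) : ℚ_[l]) = 1 := by
    rw [coe_ratUnit, Padic.valuation_ratCast]
    show padicValRat l ((l : ℕ) : ℚ) = 1
    rw [padicValRat.of_nat, padicValNat_self]
    rfl
  have h1 : padicUnitPart l (ratUnit l (natUnit l (Fact.out : l.Prime).ne_zero)) = 1 := by
    apply Units.ext
    apply Subtype.ext
    rw [coe_padicUnitPart, hval, coe_ratUnit]
    show (((l : ℕ) : ℚ) : ℚ_[l]) * (l : ℚ_[l]) ^ (-(1 : ℤ)) = 1
    rw [zpow_neg_one]
    simp [hl]
  rw [h1, map_one]

/-- the product formula for a prime number. -/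
theorem ratSym_natUnit_prime (r : ℕ) (hr : r.Prime) : ratSym l m (natUnit r hr.ne_zero) = 1 := by
  classical
  haveI : Fact r.Prime := ⟨hr⟩
  have hl : l.Prime := Fact.out
  obtain ⟨r', hr'⟩ : ∃ r' : Nat.Primes, (r' : ℕ) = r := ⟨⟨r, hr⟩, rfl⟩
  obtain ⟨l', hl'⟩ : ∃ l' : Nat.Primes, (l' : ℕ) = l := ⟨⟨l, hl⟩, rfl⟩
  have hval : ∀ q : Nat.Primes, (q : ℕ) ≠ r →
      padicValRat (q : ℕ) ((natUnit r hr.ne_zero : ℚˣ) : ℚ) = 0 := by
    intro q hq
    show padicValRat (q : ℕ) ((r : ℕ) : ℚ) = 0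
    rw [padicValRat.of_nat, padicValNat_primes hq]
    rfl
  have hone : ∀ q : Nat.Primes, q ≠ r' → q ≠ l' →
      cycSymLoc (q : ℕ) l m (ratUnit (q : ℕ) (natUnit r hr.ne_zero)) = 1 := by
    intro q h1 h2
    have hq1 : (q : ℕ) ≠ r := fun h => h1 (Subtype.ext (h.trans hr'.symm))
    have hq2 : (q : ℕ) ≠ l := fun h => h2 (Subtype.ext (h.trans hl'.symm))
    rw [cycSymLoc_ratUnit_of_ne l m (q : ℕ) hq2, hval q hq1, zpow_zero]
  have hatl : ∀ hrl : r ≠ l,
      cycSymLoc (l' : ℕ) l m (ratUnit (l' : ℕ) (natUnit r hr.ne_zero)) =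
      (primeUnit r l m hrl)⁻¹ := by
    intro hrl
    subst hl'
    exact cycSymLoc_self_natUnit (l' : ℕ) m r hr hrl
  by_cases hrl : r = l
  · have hrl' : r' = l' := Subtype.ext (hr'.trans (hrl.trans hl'.symm))
    rw [ratSym_apply, finprod_eq_single _ l' (fun q hq => hone q (hrl' ▸ hq) hq)]
    subst hrl
    subst hl'
    exact cycSymLoc_self_natUnit_self (l' : ℕ) m
  · have hrl' : r' ≠ l' := fun h => hrl (hr'.symm.trans ((congrArg Subtype.val h).trans hl'))
    rw [ratSym_apply, finprod_eq_prod_of_mulSupport_subset _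
      (s := ({r', l'} : Finset Nat.Primes))]
    · rw [Finset.prod_pair hrl', hatl hrl]
      have h1 : cycSymLoc (r' : ℕ) l m (ratUnit (r' : ℕ) (natUnit r hr.ne_zero)) =
          primeUnit r l m hrl := by
        subst hr'
        rw [cycSymLoc_ratUnit_of_ne l m (r' : ℕ) hrl]
        have : padicValRat (r' : ℕ) ((natUnit (r' : ℕ) hr.ne_zero : ℚˣ) : ℚ) = 1 := by
          show padicValRat (r' : ℕ) (((r' : ℕ) : ℕ) : ℚ) = 1
          rw [padicValRat.of_nat, padicValNat_self]
          rfl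
        rw [this, zpow_one]
      rw [h1, mul_inv_cancel]
    · intro q hq
      rw [Function.mem_mulSupport] at hq
      rw [Finset.coe_insert, Finset.coe_singleton, Set.mem_insert_iff, Set.mem_singleton_iff]
      by_contra hcon
      push Not at hcon
      exact hq (hone q hcon.1 hcon.2)

/-- the product formula for positive integers. -/
theorem ratSym_natUnit (n : ℕ) (hn : n ≠ 0) : ratSym l m (natUnit n hn) = 1 := by
  induction n using Nat.recOnMul with
  | zero => exact absurd rfl hn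
  | one =>
    have : natUnit 1 hn = 1 := by
      apply Units.ext
      show ((1 : ℕ) : ℚ) = 1
      simp
    rw [this, map_one]
  | prime r hr => exact ratSym_natUnit_prime l m r hr
  | mul a b ha hb =>
    have ha0 : a ≠ 0 := fun h => hn (by rw [h, zero_mul])
    have hb0 : b ≠ 0 := fun h => hn (by rw [h, mul_zero])
    have : natUnit (a * b) hn = natUnit a ha0 * natUnit b hb0 := by
      apply Units.ext
      show ((a * b : ℕ) : ℚ) = (a : ℚ) * (b : ℚ)
      push_cast
      rfl
    rw [this, map_mul, ha ha0, hb hb0, one_mul]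

/-- **The product formula** on `ℚˣ`: the product of the local symbols is `±1`. -/
theorem ratSym_sq (a : ℚˣ) : ratSym l m a ^ 2 = 1 := by
  have hnum : (a : ℚ).num.natAbs ≠ 0 := Int.natAbs_ne_zero.mpr (Rat.num_ne_zero.mpr a.ne_zero)
  have hden : (a : ℚ).den ≠ 0 := (a : ℚ).den_nz
  have h1 : a ^ 2 * natUnit ((a : ℚ).den ^ 2) (pow_ne_zero _ hden) =
      natUnit ((a : ℚ).num.natAbs ^ 2) (pow_ne_zero _ hnum) := by
    apply Units.ext
    show (a : ℚ) ^ 2 * (((a : ℚ).den ^ 2 : ℕ) : ℚ) = (((a : ℚ).num.natAbs ^ 2 : ℕ) : ℚ)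
    have h2 : ((a : ℚ).num.natAbs : ℚ) ^ 2 = ((a : ℚ).num : ℚ) ^ 2 := by
      have : (((a : ℚ).num.natAbs : ℤ) : ℚ) ^ 2 = ((a : ℚ).num : ℚ) ^ 2 := by
        rw [← Int.cast_pow, ← Int.cast_pow, Int.natAbs_sq]
      simp
    push_cast
    rw [h2]
    have h3 : (a : ℚ) * ((a : ℚ).den : ℚ) = ((a : ℚ).num : ℚ) := Rat.mul_den_eq_num (a : ℚ)
    rw [← h3]
    ring
  have h4 := congrArg (ratSym l m) h1
  rw [map_mul, ratSym_natUnit, ratSym_natUnit, mul_one, map_pow] at h4
  exact h4

end RatSym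

section Sym

open Fermat.Agent.S55.helper73 Fermat.Agent.S55.helper33

variable (K : Type*) [Field K] [NumberField K] (l m : ℕ) [Fact l.Prime]

/-- The norm of an integral unit of the semilocal algebra has valuation `0`. -/
theorem valuation_semiNorm_of_mem_intUnits (q : ℕ) [Fact q.Prime]
    (x : (SemiLoc q K)ˣ) (hx : x ∈ intUnits q K) :
    Padic.valuation ((semiNorm K q x : ℚ_[q]ˣ) : ℚ_[q]) = 0 := by
  obtain ⟨h1, h2⟩ := hx
  have n1 : ‖((semiNorm K q x : ℚ_[q]ˣ) : ℚ_[q])‖ ≤ 1 := by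
    rw [coe_semiNorm]
    exact norm_norm_le_one_of_isIntegral q h1
  have n2 : ‖((semiNorm K q x⁻¹ : ℚ_[q]ˣ) : ℚ_[q])‖ ≤ 1 := by
    rw [coe_semiNorm]
    exact norm_norm_le_one_of_isIntegral q h2
  have hmul : ((semiNorm K q x : ℚ_[q]ˣ) : ℚ_[q]) * ((semiNorm K q x⁻¹ : ℚ_[q]ˣ) : ℚ_[q]) = 1 := by
    rw [← Units.val_mul, ← map_mul, mul_inv_cancel, map_one, Units.val_one]
  have hne : ((semiNorm K q x : ℚ_[q]ˣ) : ℚ_[q]) ≠ 0 := (semiNorm K q x).ne_zero
  have n3 : ‖((semiNorm K q x : ℚ_[q]ˣ) : ℚ_[q])‖ = 1 := by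
    have h3 := congrArg norm hmul
    rw [norm_mul, norm_one] at h3
    refine le_antisymm n1 ?_
    by_contra hlt
    push Not at hlt
    have h4 : ‖((semiNorm K q x : ℚ_[q]ˣ) : ℚ_[q])‖ * ‖((semiNorm K q x⁻¹ : ℚ_[q]ˣ) : ℚ_[q])‖ < 1 := by
      calc _ ≤ ‖((semiNorm K q x : ℚ_[q]ˣ) : ℚ_[q])‖ * 1 :=
            mul_le_mul_of_nonneg_left n2 (norm_nonneg _)
        _ < 1 := by rw [mul_one]; exact hlt
    rw [h3] at h4
    exact lt_irrefl _ h4
  rw [Padic.norm_eq_zpow_neg_valuation hne] at n3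
  have hq1 : (1 : ℝ) < (q : ℝ) := by exact_mod_cast (Fact.out : q.Prime).one_lt
  have h5 := (zpow_eq_one_iff_right₀ (by positivity) hq1.ne').mp n3
  omega

/-- **R2-SYM-P (1)**: finite support. -/
theorem cycSymAt_eq_one_of_mem_intUnits (q : ℕ) [Fact q.Prime] (hq : q ≠ l)
    (x : (SemiLoc q K)ˣ) (hx : x ∈ intUnits q K) : cycSymAt K l m q x = 1 := by
  show cycSymLoc q l m (semiNorm K q x) = 1
  rw [cycSymLoc_apply_of_ne q l m hq, valuation_semiNorm_of_mem_intUnits K q x hx, zpow_zero]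

/-- The support of the cyclotomic symbol of an idele is finite. -/
theorem finite_mulSupport_cycSymAt (y : Idele K) :
    (Function.mulSupport fun q : Nat.Primes =>
      cycSymAt K l m (q : ℕ) ((y : IdelePi K) q)).Finite := by
  have h1 : {q : Nat.Primes | ¬ (y : IdelePi K) q ∈ intUnits (q : ℕ) K}.Finite :=
    Filter.eventually_cofinite.mp ((mem_idele K).mp y.2)
  have h2 : {q : Nat.Primes | (q : ℕ) = l}.Finite := by
    apply Set.Subsingleton.finite
    intro a ha b hb
    exact Subtype.ext (ha.trans hb.symm)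
  refine (h1.union h2).subset ?_
  intro q hq
  rw [Function.mem_mulSupport] at hq
  by_cases hql : (q : ℕ) = l
  · exact Or.inr hql
  · left
    intro hmem
    exact hq (cycSymAt_eq_one_of_mem_intUnits K l m (q : ℕ) hql _ hmem)

/-- **R2-SYM-P (2)**: the symbol is multiplicative on ideles. -/
theorem cycSymFun_mul (y y' : Idele K) :
    cycSymFun K l m (y * y') = cycSymFun K l m y * cycSymFun K l m y' := by
  unfold cycSymFun cycSymPi
  rw [← finprod_mul_distrib (finite_mulSupport_cycSymAt K l m y)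
    (finite_mulSupport_cycSymAt K l m y')]
  refine finprod_congr (fun q => ?_)
  rw [← map_mul]
  rfl

theorem cycSymFun_one : cycSymFun K l m 1 = 1 := by
  unfold cycSymFun cycSymPi
  have h : ∀ q : Nat.Primes, cycSymAt K l m (q : ℕ) (((1 : Idele K) : IdelePi K) q) = 1 := by
    intro q
    exact map_one _
  simp only [h, finprod_one]

/-- The cyclotomic idele symbol modulo `l ^ m` as a group homomorphism. -/
noncomputable def cycSym : Idele K →* (ZMod (l ^ m))ˣ where
  toFun := cycSymFun K l m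
  map_one' := cycSymFun_one K l m
  map_mul' := cycSymFun_mul K l m

theorem cycSym_apply (y : Idele K) : cycSym K l m y = cycSymFun K l m y := rfl

/-- The cyclotomic idele symbol as a homomorphism (specification). -/
theorem exists_cycSym :
    ∃ Θ : Idele K →* (ZMod (l ^ m))ˣ, ∀ y, Θ y = cycSymFun K l m y :=
  ⟨cycSym K l m, fun _ => rfl⟩

/-- **R2-SYM-V**: value on a single-component idele. -/
theorem cycSymFun_singleIdele (q : Nat.Primes) (x : (SemiLoc (q : ℕ) K)ˣ) :
    cycSymFun K l m (singleIdele K q x) = cycSymAt K l m (q : ℕ) x := by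
  unfold cycSymFun cycSymPi
  rw [finprod_eq_single _ q]
  · rw [singleIdele_apply_self]
  · intro q' hq'
    rw [singleIdele_apply_of_ne K q x q' hq', map_one]

/-- **R2-SYM-P (3)**: norm of a global element: `N_{ℚ_q ⊗ K/ℚ_q}(1 ⊗ c) = N_{K/ℚ}(c)`. -/
theorem semiNorm_principalPi (q : Nat.Primes) (c : Kˣ) :
    ((semiNorm K (q : ℕ) (principalPi K c q) : ℚ_[(q : ℕ)]ˣ) : ℚ_[(q : ℕ)]) =
      ((Algebra.norm ℚ (c : K) : ℚ) : ℚ_[(q : ℕ)]) := by
  rw [coe_semiNorm, principalPi_apply_coe, norm_one_tmul, eq_ratCast]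

/-- **R2-SYM-V'**: value at `q ≠ l` on a global element. -/
theorem cycSymAt_principalPi (q : Nat.Primes) (hq : (q : ℕ) ≠ l) (c : Kˣ) :
    cycSymAt K l m (q : ℕ) (principalPi K c q) =
      primeUnit (q : ℕ) l m hq ^ padicValRat (q : ℕ) (Algebra.norm ℚ (c : K)) := by
  show cycSymLoc (q : ℕ) l m (semiNorm K (q : ℕ) (principalPi K c q)) = _
  rw [cycSymLoc_apply_of_ne (q : ℕ) l m hq, semiNorm_principalPi, Padic.valuation_ratCast]


/-- The norm of a global unit, as a unit of `ℚ`. -/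
noncomputable def normUnitRat (c : Kˣ) : ℚˣ := Units.map (Algebra.norm ℚ : K →* ℚ) c

theorem semiNorm_principalPi_eq_ratUnit (q : Nat.Primes) (c : Kˣ) :
    semiNorm K (q : ℕ) (principalPi K c q) = ratUnit (q : ℕ) (normUnitRat K c) := by
  apply Units.ext
  rw [semiNorm_principalPi, coe_ratUnit]
  rfl

/-- The symbol of a principal idele is the rational symbol of the norm. -/
theorem cycSymFun_eq_ratSym (y : Idele K) (c : Kˣ) (hc : principalPi K c = (y : IdelePi K)) :
    cycSymFun K l m y = ratSym l m (normUnitRat K c) := by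
  unfold cycSymFun cycSymPi
  rw [ratSym_apply]
  refine finprod_congr (fun q => ?_)
  rw [← hc]
  show cycSymLoc (q : ℕ) l m (semiNorm K (q : ℕ) (principalPi K c q)) = _
  rw [semiNorm_principalPi_eq_ratUnit]

/-- **R2-SYM-P (4)**: product formula: the symbol of a principal idele is `±1`. -/
theorem cycSymFun_principal (y : Idele K) (hy : y ∈ principalSub K) :
    cycSymFun K l m y ^ 2 = 1 := by
  obtain ⟨c, hc⟩ := hy
  rw [cycSymFun_eq_ratSym K l m y c hc]
  exact ratSym_sq l m _

end Sym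

end Fermat.Agent.S55.helper15
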