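import Fermat.Agent.S55.helper15_RecN1
import Fermat.Agent.S14.helper69_ZetaPole

/-!
# S55 / REC-N1 wiring (helper15): the zeta-pole hypothesis discharged

* `zetaPoleLemma` : the hypothesis `ZetaPoleLemma` of the REC interface holds (it is helper69's
  `exists_degree_one_prime_not_split'`);
* `exists_aux_prime_multi_uncond` : the simultaneous auxiliary prime, unconditionally.
-/

set_option autoImplicit false

open scoped NumberField

namespace Fermat.Agent.S55.helper15

/-- The zeta-pole lemma (Z), in the shape of the REC interface. -/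
theorem zetaPoleLemma : ZetaPoleLemma :=
  fun K L _ _ _ _ _ _ h T =>
    Fermat.Agent.S14.helper69.exists_degree_one_prime_not_split' K L h T

/-- **REC-N1**, unconditional: for an odd prime `p`, `m > 0`, a finite set `Q` of primes and a
finite set `T` of excluded numbers there is a prime `l ∉ T`, `l ≡ 1 mod p ^ m`, such that no
`q ∈ Q` is a `p`-th power modulo `l`. -/
theorem exists_aux_prime_multi_uncond (p : ℕ) [Fact p.Prime] (hp2 : p ≠ 2)
    (m : ℕ) (hm : 0 < m) (Q : Finset ℕ) (hQ : ∀ q ∈ Q, q.Prime) (T : Finset ℕ) :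
    ∃ l : ℕ, l.Prime ∧ l ∉ T ∧ l % p ^ m = 1 ∧
      ∀ q ∈ Q, ¬ ∃ y : ZMod l, y ^ p = (q : ZMod l) :=
  exists_aux_prime_multi zetaPoleLemma p hp2 m hm Q hQ T

end Fermat.Agent.S55.helper15
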