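import Fermat.Agent.S55.helper33_Rec2Defs
import Fermat.Agent.S55.helper96_CyclicNorm

/-!
# S55 / REC2 / R2-INEQ (helper37, task 380): the second inequality in norm-index form

Generic part (pure algebra, unconditional): for a finite cyclic group `G` generated by `φ` and a
multiplicative `G`-module `M`,

* `cycClassHom φ hgen : fixedSub G M →* Multiplicative (H2 (Rep.ofMulDistribMulAction G M))`,
  `b ↦ [cycG φ b]`, is a surjective homomorphism with kernel the norm subgroup;
* `hZero_eq_card_H2 : hZero G M = Nat.card (H2 (Rep.ofMulDistribMulAction G M))`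
  (`Ĥ⁰ ≅ H²` for cyclic groups, as an equality of cardinalities; both sides are `0` in the
  infinite case).

Arithmetic part: `hZero_ideleClass_dvd_of` = the statement R2-INEQ of the REC2 interface
(`helper33_Rec2Interface`), conditional ONLY on GLOB G9 `card_H2_ideleClass_dvd` in the shape of
the GLOB interface v1 (`CardH2IdeleClassDvd`).
-/

set_option autoImplicit false

open scoped NumberField
open groupCohomology

namespace Fermat.Agent.S55.helper37

open Fermat.Agent.S55.helper73 Fermat.Agent.S55.helper96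

section generic

variable {G : Type} [Group G] [Fintype G] {M : Type} [CommGroup M] [MulDistribMulAction G M]
  {φ : G}

/-- The group norm is the cyclic norm product. -/
theorem normG_eq_normProd (hgen : ∀ σ : G, σ ∈ Subgroup.zpowers φ) (y : M) :
    normG G M y = normProd φ y (orderOf φ) := by
  rw [normG_apply, prod_univ_eq_prod_range hgen]
  rfl

/-- The class of the cyclic cocycle attached to a fixed element. -/
noncomputable def cycClass (φ : G) (hgen : ∀ σ : G, σ ∈ Subgroup.zpowers φ)
    (b : fixedSub G M) : H2 (Rep.ofMulDistribMulAction G M) :=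
  H2π (Rep.ofMulDistribMulAction G M)
    (cocyclesOfIsMulCocycle₂ (isMulCocycle₂_cycG (orderOf_pos φ) hgen (b.2 φ)))

theorem cycClass_mul (hgen : ∀ σ : G, σ ∈ Subgroup.zpowers φ) (b b' : fixedSub G M) :
    cycClass φ hgen (b * b') = cycClass φ hgen b + cycClass φ hgen b' := by
  unfold cycClass
  show _ = (H2π (Rep.ofMulDistribMulAction G M)).hom _ +
    (H2π (Rep.ofMulDistribMulAction G M)).hom _
  rw [← map_add]
  show (H2π (Rep.ofMulDistribMulAction G M)).hom _ = _
  congr 1
  apply Subtype.ext
  funext p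
  show Additive.ofMul (cycG φ ((b * b' : fixedSub G M) : M) p)
    = Additive.ofMul (cycG φ (b : M) p) + Additive.ofMul (cycG φ (b' : M) p)
  rw [← ofMul_mul]
  congr 1
  simp only [cycG, Subgroup.coe_mul, mul_pow]

theorem cycClass_eq_zero_iff (hgen : ∀ σ : G, σ ∈ Subgroup.zpowers φ) (b : fixedSub G M) :
    cycClass φ hgen b = 0 ↔ (b : M) ∈ (normG G M).range := by
  have h1 : IsMulCoboundary₂ (cycG φ (b : M)) ↔ (b : M) ∈ (normG G M).range := by
    rw [isMulCoboundary₂_cycG_iff (orderOf_pos φ) hgen]
    constructor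
    · rintro ⟨y, hy⟩
      exact ⟨y, by rw [normG_eq_normProd hgen, hy]⟩
    · rintro ⟨y, hy⟩
      exact ⟨y, by rw [← normG_eq_normProd hgen, hy]⟩
  rw [← h1]
  unfold cycClass
  constructor
  · intro h
    have h2 := (H2π_eq_zero_iff (A := Rep.ofMulDistribMulAction G M) _).mp h
    exact isMulCoboundary₂_of_mem_coboundaries₂ (M := M) (G := G) _ h2
  · intro h
    refine (H2π_eq_zero_iff (A := Rep.ofMulDistribMulAction G M) _).mpr ?_
    exact (coboundariesOfIsMulCoboundary₂ h).2

theorem cycClass_surjective (hgen : ∀ σ : G, σ ∈ Subgroup.zpowers φ)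
    (x : H2 (Rep.ofMulDistribMulAction G M)) : ∃ b : fixedSub G M, cycClass φ hgen b = x := by
  induction x using H2_induction_on with
  | h c =>
    have hc : IsMulCocycle₂ (M := M) (G := G) (Additive.toMul ∘ c.1) :=
      isMulCocycle₂_of_mem_cocycles₂ (M := M) (G := G) c.1 c.2
    obtain ⟨b, hb, y, hy⟩ := exists_cycG_of_isMulCocycle₂ (orderOf_pos φ) hgen hc
    refine ⟨⟨b, fun σ => smul_eq_of_gen hgen hb σ⟩, ?_⟩
    unfold cycClass
    refine ((H2π_eq_iff (A := Rep.ofMulDistribMulAction G M) _ _).mpr ?_).symm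
    refine ⟨fun g => Additive.ofMul (y g), ?_⟩
    funext p
    obtain ⟨g, h⟩ := p
    exact congrArg Additive.ofMul (hy g h)

/-- `b ↦ [cycG φ b]` as a homomorphism `M^G → H²(G, M)`. -/
noncomputable def cycClassHom (φ : G) (hgen : ∀ σ : G, σ ∈ Subgroup.zpowers φ) :
    fixedSub G M →* Multiplicative (H2 (Rep.ofMulDistribMulAction G M)) :=
  MonoidHom.mk' (fun b => Multiplicative.ofAdd (cycClass φ hgen b)) (fun a b => by
    rw [cycClass_mul hgen, ofAdd_add])

theorem cycClassHom_apply (hgen : ∀ σ : G, σ ∈ Subgroup.zpowers φ) (b : fixedSub G M) :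
    cycClassHom φ hgen b = Multiplicative.ofAdd (cycClass φ hgen b) := rfl

theorem cycClassHom_surjective (hgen : ∀ σ : G, σ ∈ Subgroup.zpowers φ) :
    Function.Surjective (cycClassHom (M := M) φ hgen) := fun x => by
  obtain ⟨b, hb⟩ := cycClass_surjective hgen (Multiplicative.toAdd x)
  exact ⟨b, by rw [cycClassHom_apply, hb]; rfl⟩

theorem ker_cycClassHom (hgen : ∀ σ : G, σ ∈ Subgroup.zpowers φ) :
    (cycClassHom (M := M) φ hgen).ker = (normG G M).range.subgroupOf (fixedSub G M) := by
  ext b
  rw [MonoidHom.mem_ker, Subgroup.mem_subgroupOf, ← cycClass_eq_zero_iff hgen b,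
    cycClassHom_apply]
  rfl

/-- **`Ĥ⁰ ≅ H²` for finite cyclic groups**, as an equality of cardinalities (both sides are `0`
when infinite). -/
theorem hZero_eq_card_H2 (hgen : ∀ σ : G, σ ∈ Subgroup.zpowers φ) :
    hZero G M = Nat.card (H2 (Rep.ofMulDistribMulAction G M)) := by
  rw [hZero_def, ← ker_cycClassHom hgen, Subgroup.index_ker,
    MonoidHom.range_eq_top.mpr (cycClassHom_surjective hgen)]
  rw [Nat.card_congr (Subgroup.topEquiv (G := Multiplicative (H2 (Rep.ofMulDistribMulAction G M)))).toEquiv]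
  exact Nat.card_congr Multiplicative.toAdd

/-- Version for `IsCyclic G`. -/
theorem hZero_eq_card_H2_of_isCyclic (G : Type) [Group G] [Fintype G] [IsCyclic G]
    (M : Type) [CommGroup M] [MulDistribMulAction G M] :
    hZero G M = Nat.card (H2 (Rep.ofMulDistribMulAction G M)) := by
  obtain ⟨φ, hφ⟩ := IsCyclic.exists_generator (α := G)
  exact hZero_eq_card_H2 (φ := φ) hφ

end generic

section arithmetic

/-- GLOB G9 (`card_H2_ideleClass_dvd` of the GLOB interface v1, helper73), as a hypothesis:
`|H²(Gal(L/K), C_L)|` divides `[L : K]` for Galois extensions of odd prime power degree. -/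
def CardH2IdeleClassDvd : Prop :=
  ∀ (K L : Type) [Field K] [NumberField K] [Field L] [NumberField L]
    [Algebra K L] [IsGalois K L] (p : ℕ) (_ : p.Prime) (_ : p ≠ 2) (n : ℕ)
    (_ : Module.finrank K L = p ^ n),
    Finite (H2 (Rep.ofMulDistribMulAction Gal(L/K) (IdeleClass L))) ∧
    Nat.card (H2 (Rep.ofMulDistribMulAction Gal(L/K) (IdeleClass L))) ∣ p ^ n

/-- **R2-INEQ**, conditional on GLOB G9: for a cyclic extension `L/K` of number fields of odd
prime power degree the norm index `[C_K : N C_L]` (`= hZero`) divides `[L : K]`. -/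
theorem hZero_ideleClass_dvd_of (hG9 : CardH2IdeleClassDvd)
    (K L : Type) [Field K] [NumberField K] [Field L] [NumberField L]
    [Algebra K L] [IsGalois K L] [IsCyclic Gal(L/K)] (p : ℕ) (hp : p.Prime) (hp2 : p ≠ 2)
    (n : ℕ) (hdeg : Module.finrank K L = p ^ n) :
    hZero Gal(L/K) (IdeleClass L) ∣ p ^ n := by
  rw [hZero_eq_card_H2_of_isCyclic]
  exact (hG9 K L p hp hp2 n hdeg).2

/-- The norm index of a cyclic extension equals `|H²(Gal(L/K), C_L)|` (unconditional). -/
theorem hZero_ideleClass_eq_card_H2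
    (K L : Type) [Field K] [NumberField K] [Field L] [NumberField L]
    [Algebra K L] [IsGalois K L] [IsCyclic Gal(L/K)] :
    hZero Gal(L/K) (IdeleClass L) =
      Nat.card (H2 (Rep.ofMulDistribMulAction Gal(L/K) (IdeleClass L))) :=
  hZero_eq_card_H2_of_isCyclic _ _

end arithmetic

end Fermat.Agent.S55.helper37
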