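import Fermat.Agent.S55.helper6_InfRes
import Fermat.Agent.S55.helper96_CyclicNorm

/-!
# S55 / REC2 R2-ABS (helper56, task 372): the abstract theorem of the class-formation step

Pure cocycle algebra.  `G × H` acts on `C`, `H` is cyclic, `A = C^{1 × H}`, `B = C^{G × 1}`,
`A₀ = C^{G × H}`; `H¹` vanishes for the two factors, the norm subgroup of `A` (norms from `C`
along `H`) has index dividing `|H|`, a symbol `𝔄 : A₀ → T` kills the norms from `B` and
`𝔄 (N_G β)` has order `|H|`, `|G| ∣ |H|`.  Then there is a 2-cocycle of `G` with values in `A`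
whose class has order exactly `|G|`.

* `isMulCoboundary₂_mul_of`, `isMulCoboundary₂_inv_of`, `isMulCoboundary₂_pow_of`,
  `isMulCoboundary₂_iff_of_eq_mul` : the multiplicative 2-coboundaries form a group;
* `mem_of_map_eq_one` : kernel criterion (`Φ` kills `S`, `Φ β` has order `m`, `[A : S] ∣ m`
  imply `ker Φ ≤ S`);
* **`exists_cocycle_of_order`** : the exact statement R2-ABS of the REC2 interface v1.
-/

set_option autoImplicit false
set_option linter.unusedSectionVars false
set_option linter.style.haveILetI false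

namespace Fermat.Agent.S55.helper56

open groupCohomology Fermat.Agent.S55.helper6 Fermat.Agent.S55.helper96

section basics

variable {G M : Type*} [Group G] [CommGroup M] [MulDistribMulAction G M]

lemma isMulCoboundary₂_mul_of {f f' : G × G → M} (hf : IsMulCoboundary₂ f)
    (hf' : IsMulCoboundary₂ f') : IsMulCoboundary₂ (fun p => f p * f' p) := by
  obtain ⟨x, hx⟩ := hf
  obtain ⟨x', hx'⟩ := hf'
  refine ⟨fun g => x g * x' g, fun g h => ?_⟩
  show g • (x h * x' h) / (x (g * h) * x' (g * h)) * (x g * x' g) = f (g, h) * f' (g, h)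
  rw [← hx, ← hx', smul_mul']
  simp only [div_eq_mul_inv, mul_inv, mul_comm, mul_left_comm, mul_assoc]

lemma isMulCoboundary₂_inv_of {f : G × G → M} (hf : IsMulCoboundary₂ f) :
    IsMulCoboundary₂ (fun p => (f p)⁻¹) := by
  obtain ⟨x, hx⟩ := hf
  refine ⟨fun g => (x g)⁻¹, fun g h => ?_⟩
  show g • (x h)⁻¹ / (x (g * h))⁻¹ * (x g)⁻¹ = (f (g, h))⁻¹
  rw [← hx, smul_inv']
  simp only [div_eq_mul_inv, mul_inv, inv_inv, mul_comm, mul_left_comm]

lemma isMulCoboundary₂_pow_of {f : G × G → M} (hf : IsMulCoboundary₂ f) (j : ℕ) :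
    IsMulCoboundary₂ (fun p => f p ^ j) := by
  obtain ⟨x, hx⟩ := hf
  refine ⟨fun g => x g ^ j, fun g h => ?_⟩
  show g • (x h ^ j) / (x (g * h)) ^ j * (x g) ^ j = f (g, h) ^ j
  rw [← hx, smul_pow', ← div_pow, ← mul_pow]

/-- If `f = f' * (coboundary of x)` pointwise, then `f` is a coboundary iff `f'` is. -/
lemma isMulCoboundary₂_iff_of_eq_mul {f f' : G × G → M} {x : G → M}
    (h : ∀ g h, f (g, h) = f' (g, h) * (g • x h / x (g * h) * x g)) :
    IsMulCoboundary₂ f ↔ IsMulCoboundary₂ f' := by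
  have hx : IsMulCoboundary₂ (fun p : G × G => p.1 • x p.2 / x (p.1 * p.2) * x p.1) :=
    ⟨x, fun _ _ => rfl⟩
  constructor
  · intro hf
    have := isMulCoboundary₂_mul_of hf (isMulCoboundary₂_inv_of hx)
    convert this using 1
    funext p
    obtain ⟨g, k⟩ := p
    show f' (g, k) = f (g, k) * (g • x k / x (g * k) * x g)⁻¹
    rw [h g k, mul_inv_cancel_right]
  · intro hf'
    have := isMulCoboundary₂_mul_of hf' hx
    convert this using 1
    funext p
    obtain ⟨g, k⟩ := p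
    exact h g k

end basics

section kernel

variable {A T : Type*} [CommGroup A] [CommGroup T]

/-- kernel criterion: `Φ` kills `S`, `Φ β` has order `m`, and `[A : S] ∣ m`; then `ker Φ ≤ S`. -/
lemma mem_of_map_eq_one (S : Subgroup A) (Φ : A →* T) (hS : ∀ a ∈ S, Φ a = 1) (β : A) (m : ℕ)
    (hm : 0 < m) (hord : orderOf (Φ β) = m) (hidx : S.index ∣ m) (a : A) (ha : Φ a = 1) :
    a ∈ S := by
  have hidx0 : S.index ≠ 0 := fun h0 => by
    rw [h0, zero_dvd_iff] at hidx
    omega
  haveI : Finite (A ⧸ S) := by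
    rw [Subgroup.index_eq_card] at hidx0
    exact Nat.finite_of_card_ne_zero hidx0
  set Φq : A ⧸ S →* T := QuotientGroup.lift S Φ (fun a ha => hS a ha) with hΦq
  have hΦq_mk : ∀ a : A, Φq (a : A ⧸ S) = Φ a := fun a => rfl
  set x : A ⧸ S := (β : A ⧸ S) with hx
  have h1 : orderOf (Φq x) ∣ orderOf x := orderOf_map_dvd Φq x
  have h2 : orderOf x ∣ Nat.card (A ⧸ S) := orderOf_dvd_natCard x
  have h3 : Nat.card (A ⧸ S) ∣ m := by rwa [← Subgroup.index_eq_card]
  have h4 : orderOf (Φq x) = m := by rw [hΦq_mk, hord]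
  have hox : orderOf x = m := Nat.dvd_antisymm (h2.trans h3) (h4 ▸ h1)
  have hcard : Nat.card (A ⧸ S) = m := Nat.dvd_antisymm h3 (hox ▸ h2)
  have hgen : ∀ y : A ⧸ S, y ∈ Subgroup.zpowers x := by
    intro y
    have htop : Subgroup.zpowers x = ⊤ := by
      apply Subgroup.eq_top_of_card_eq
      rw [Nat.card_zpowers, hox, hcard]
    rw [htop]
    exact Subgroup.mem_top y
  obtain ⟨k, hk⟩ := Subgroup.mem_zpowers_iff.mp (hgen (a : A ⧸ S))
  have h5 : Φq x ^ k = 1 := by
    rw [← map_zpow, hk, hΦq_mk, ha]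
  have h6 : (m : ℤ) ∣ k := by
    rw [← h4]
    exact orderOf_dvd_iff_zpow_eq_one.mpr h5
  have h7 : x ^ k = 1 := by
    rw [← hox] at h6
    exact orderOf_dvd_iff_zpow_eq_one.mp h6
  rw [h7] at hk
  exact (QuotientGroup.eq_one_iff a).mp hk.symm

end kernel


section main

lemma smul_prod_univ_smul {G A : Type*} [Group G] [Fintype G] [CommGroup A]
    [MulDistribMulAction G A] (g : G) (a : A) : g • ∏ x : G, x • a = ∏ x : G, x • a := by
  rw [Finset.smul_prod']
  simp only [smul_smul]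
  exact Fintype.prod_equiv (Equiv.mulLeft g) _ _ (fun x => rfl)

/-- the cyclic cochain of a fixed element, for the generator of a finite cyclic group: its
`j`-th power is a coboundary iff ... (abstract form used below) -/
lemma cycG_pow_apply {H B : Type*} [Group H] [CommGroup B] [MulDistribMulAction H B] (σ : H)
    (b : B) (j : ℕ) (p : H × H) : cycG σ (b ^ j) p = cycG σ b p ^ j := by
  simp only [cycG]
  exact pow_right_comm b j _

theorem exists_cocycle_of_order
    {G H C A B A₀ T : Type*} [Group G] [Fintype G] [Group H] [Fintype H]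
    [CommGroup C] [CommGroup A] [CommGroup B] [CommGroup A₀] [CommGroup T]
    [MulDistribMulAction (G × H) C] [MulDistribMulAction G A] [MulDistribMulAction H B]
    (ιA : A →* C) (DA : InflDatum (MonoidHom.fst G H) ιA)
    (ιB : B →* C) (DB : InflDatum (MonoidHom.snd G H) ιB)
    (ι₀ : A₀ →* C) (hinj₀ : Function.Injective ι₀)
    (hfix₀ : ∀ c : C, (∀ g : G × H, g • c = c) → ∃ a, ι₀ a = c)
    (σ : H) (hσ : ∀ s : H, s ∈ Subgroup.zpowers σ)
    (hdvd : Fintype.card G ∣ Fintype.card H)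
    (h1A : H1TrivialOn (MonoidHom.fst G H).ker C)
    (h1B : H1TrivialOn (MonoidHom.snd G H).ker C)
    (h2 : ∀ S : Subgroup A,
      (∀ a, a ∈ S ↔ ∃ z : C, ιA a = ∏ s : H, ((1 : G), s) • z) → S.index ∣ Fintype.card H)
    (𝔄 : A₀ →* T)
    (h3 : ∀ (a₀ : A₀) (y : B), ι₀ a₀ = ιB (∏ s : H, s • y) → 𝔄 a₀ = 1)
    (β : A) (b₀ : A₀) (hb₀ : ι₀ b₀ = ιA (∏ g : G, g • β))
    (h4 : orderOf (𝔄 b₀) = Fintype.card H) :
    ∃ γ : G × G → A, IsMulCocycle₂ γ ∧
      ∀ j : ℕ, IsMulCoboundary₂ (fun p : G × G => γ p ^ j) ↔ Fintype.card G ∣ j := by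
  classical
  have hordσ : orderOf σ = Fintype.card H := by
    rw [orderOf_eq_card_of_forall_mem_zpowers hσ, Nat.card_eq_fintype_card]
  have hσpos : 0 < orderOf σ := orderOf_pos σ
  obtain ⟨d, hd⟩ := hdvd
  have hGpos : 0 < Fintype.card G := Fintype.card_pos
  have hHpos : 0 < Fintype.card H := Fintype.card_pos
  have hdpos : 0 < d := by
    rcases Nat.eq_zero_or_pos d with h0 | h0
    · rw [h0, mul_zero] at hd
      omega
    · exact h0
  have eqA : ∀ (g : G) (h : H) (a : A), (g, h) • ιA a = ιA (g • a) :=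
    fun g h a => (DA.equivariant (g, h) a).symm
  have eqB : ∀ (g : G) (h : H) (b : B), (g, h) • ιB b = ιB (h • b) :=
    fun g h b => (DB.equivariant (g, h) b).symm
  -- Step 0 : the norm map `A → A₀`
  have hfixN : ∀ a : A, ∀ x : G × H, x • ιA (∏ g : G, g • a) = ιA (∏ g : G, g • a) := by
    rintro a ⟨g, h⟩
    rw [eqA, smul_prod_univ_smul]
  have hex : ∀ a : A, ∃ a₀ : A₀, ι₀ a₀ = ιA (∏ g : G, g • a) := fun a => hfix₀ _ (hfixN a)
  choose a0 ha0 using hex
  have ha0_mul : ∀ a a', a0 (a * a') = a0 a * a0 a' := by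
    intro a a'
    apply hinj₀
    rw [map_mul, ha0, ha0, ha0, ← map_mul, ← Finset.prod_mul_distrib]
    simp only [smul_mul']
  have ha0_one : a0 1 = 1 := by
    apply hinj₀
    rw [ha0, map_one]
    simp
  let Φ : A →* T := 𝔄.comp ⟨⟨a0, ha0_one⟩, ha0_mul⟩
  have hΦ : ∀ a, Φ a = 𝔄 (a0 a) := fun a => rfl
  have ha0β : a0 β = b₀ := hinj₀ (by rw [ha0, hb₀])
  -- the norm subgroup
  let S : Subgroup A :=
    { carrier := {a | ∃ z : C, ιA a = ∏ s : H, ((1 : G), s) • z}
      one_mem' := ⟨1, by simp⟩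
      mul_mem' := by
        rintro a a' ⟨z, hz⟩ ⟨z', hz'⟩
        refine ⟨z * z', ?_⟩
        rw [map_mul, hz, hz', ← Finset.prod_mul_distrib]
        simp only [smul_mul']
      inv_mem' := by
        rintro a ⟨z, hz⟩
        refine ⟨z⁻¹, ?_⟩
        rw [map_inv, hz, ← Finset.prod_inv_distrib]
        simp only [smul_inv'] }
  have hSmem : ∀ a, a ∈ S ↔ ∃ z : C, ιA a = ∏ s : H, ((1 : G), s) • z := fun a => Iff.rfl
  have hidx : S.index ∣ Fintype.card H := h2 S hSmem
  -- `Φ` kills `S`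
  have hΦS : ∀ a ∈ S, Φ a = 1 := by
    rintro a ⟨z, hz⟩
    rw [hΦ]
    have hwfix : ∀ x ∈ (MonoidHom.snd G H).ker, x • (∏ g : G, (g, (1 : H)) • z) =
        ∏ g : G, (g, (1 : H)) • z := by
      rintro ⟨g, h⟩ hx
      have hh : h = 1 := hx
      subst hh
      rw [Finset.smul_prod']
      simp only [smul_smul, Prod.mk_mul_mk, mul_one]
      exact Fintype.prod_equiv (Equiv.mulLeft g) _ _ (fun x => rfl)
    obtain ⟨y, hy⟩ := DB.exists_of_fixed _ hwfix
    apply h3 (a0 a) y
    rw [ha0, map_prod, map_prod]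
    have e1 : ∀ g : G, ιA (g • a) = ∏ s : H, (g, s) • z := by
      intro g
      rw [← eqA g 1, hz, Finset.smul_prod']
      simp only [smul_smul, Prod.mk_mul_mk, mul_one, one_mul]
    have e2 : ∀ s : H, ιB (s • y) = ∏ g : G, (g, s) • z := by
      intro s
      rw [← eqB 1 s, hy, Finset.smul_prod']
      simp only [smul_smul, Prod.mk_mul_mk, mul_one, one_mul]
    simp only [e1, e2]
    exact Finset.prod_comm
  -- Step 1 : `b = N_G β`, and `b ^ d` is a norm from `C`
  set b : A := ∏ g : G, g • β with hb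
  have hιb : ιA b = ι₀ b₀ := hb₀.symm
  have ha0b : a0 b = b₀ ^ Fintype.card G := by
    apply hinj₀
    rw [ha0, map_pow, ← hιb, ← map_pow]
    congr 1
    have : ∀ g : G, g • b = b := fun g => smul_prod_univ_smul g β
    simp only [this, Finset.prod_const, Finset.card_univ]
  have hΦbd : Φ (b ^ d) = 1 := by
    rw [map_pow, hΦ, ha0b, map_pow, ← pow_mul, ← hd, ← h4]
    exact pow_orderOf_eq_one _
  have hbdS : b ^ d ∈ S :=
    mem_of_map_eq_one S Φ hΦS β (Fintype.card H) hHpos (by rw [hΦ, ha0β]; exact h4) hidx _ hΦbd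
  obtain ⟨z, hz⟩ := hbdS
  -- Step 2 : `b' ∈ B` with `ιB b' = ι₀ b₀`, fixed by `H`
  have hfixb₀ : ∀ x : G × H, x • ι₀ b₀ = ι₀ b₀ := fun x => by rw [hb₀]; exact hfixN β x
  obtain ⟨b', hb'⟩ := DB.exists_of_fixed (ι₀ b₀) (fun x _ => hfixb₀ x)
  have hb'fix : ∀ s : H, s • b' = b' := by
    intro s
    apply DB.inj
    rw [← eqB 1 s, hb', hfixb₀]
  have hb'pow_fix : ∀ (j : ℕ) (s : H), s • b' ^ j = b' ^ j := by
    intro j s
    rw [smul_pow', hb'fix]
  -- the cyclic cocycles `u j = cycG σ (b' ^ j)` of `H` with values in `B`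
  have hu : ∀ j : ℕ, IsMulCocycle₂ (cycG σ (b' ^ j) : H × H → B) :=
    fun j => isMulCocycle₂_cycG hσpos hσ (hb'pow_fix j σ)
  have hucob : ∀ j : ℕ, IsMulCoboundary₂ (cycG σ (b' ^ j) : H × H → B) ↔
      Fintype.card H ∣ j := by
    intro j
    rw [isMulCoboundary₂_cycG_iff hσpos hσ]
    constructor
    · rintro ⟨y, hy⟩
      have hy' : ∏ s : H, s • y = b' ^ j := by
        rw [prod_univ_eq_prod_range hσ (fun s => s • y)]
        exact hy
      have h5 : 𝔄 (b₀ ^ j) = 1 := by
        apply h3 (b₀ ^ j) y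
        rw [hy', map_pow, map_pow, hb']
      rw [map_pow] at h5
      rw [← h4]
      exact orderOf_dvd_of_pow_eq_one h5
    · rintro ⟨k, hk⟩
      refine ⟨b' ^ k, ?_⟩
      simp only [normProd]
      have : ∀ i ∈ Finset.range (orderOf σ), (σ ^ i) • b' ^ k = b' ^ k :=
        fun i _ => hb'pow_fix k _
      rw [Finset.prod_congr rfl this, Finset.prod_const, Finset.card_range, hordσ, ← pow_mul,
        hk, mul_comm]
  -- Step 3 : inflation to `G × H`
  have hw : ∀ j : ℕ, IsMulCocycle₂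
      (fun p : (G × H) × (G × H) => ιB (cycG σ (b' ^ j) (MonoidHom.snd G H p.1,
        MonoidHom.snd G H p.2))) := fun j => DB.isMulCocycle₂_comp (hu j)
  have hwcob : ∀ j : ℕ, IsMulCoboundary₂
      (fun p : (G × H) × (G × H) => ιB (cycG σ (b' ^ j) (MonoidHom.snd G H p.1,
        MonoidHom.snd G H p.2))) ↔ Fintype.card H ∣ j := by
    intro j
    rw [← hucob j]
    exact ⟨fun h => DB.isMulCoboundary₂_of_infl h1B _ h, fun h => DB.isMulCoboundary₂_comp h⟩
  -- Step 4 : the restriction of `w d` to `1 × H` is a coboundary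
  have hres : ∃ x : G × H → C, ∀ s ∈ (MonoidHom.fst G H).ker, ∀ t ∈ (MonoidHom.fst G H).ker,
      s • x t / x (s * t) * x s =
        ιB (cycG σ (b' ^ d) (MonoidHom.snd G H s, MonoidHom.snd G H t)) := by
    letI actHC : MulDistribMulAction H C := MulDistribMulAction.compHom C (MonoidHom.inr G H)
    have hact : ∀ (s : H) (c : C), s • c = ((1 : G), s) • c := fun _ _ => rfl
    have hc : (ιB b') ^ d = normProd σ z (orderOf σ) := by
      rw [hb', ← hιb, ← map_pow, hz, prod_univ_eq_prod_range hσ (fun s => ((1 : G), s) • z)]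
      rfl
    have hcob : IsMulCoboundary₂ (cycG σ (normProd σ z (orderOf σ)) : H × H → C) :=
      isMulCoboundary₂_cycG_normProd hσpos hσ z
    have hfun : (fun p : H × H => ιB (cycG σ (b' ^ d)
        (MonoidHom.snd G H (MonoidHom.inr G H p.1), MonoidHom.snd G H (MonoidHom.inr G H p.2))))
        = (cycG σ (normProd σ z (orderOf σ)) : H × H → C) := by
      funext p
      rw [← hc]
      simp only [cycG, MonoidHom.inr_apply, MonoidHom.coe_snd, map_pow]
    obtain ⟨x, hx⟩ := res_isMulCoboundary₂_of_hom (MonoidHom.inr G H) (fun _ _ => rfl)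
      (fun a a' h => by simpa using congrArg Prod.snd h)
      (fun p : (G × H) × (G × H) => ιB (cycG σ (b' ^ d) (MonoidHom.snd G H p.1,
        MonoidHom.snd G H p.2))) (by rw [hfun]; exact hcob)
    refine ⟨x, fun s hs t ht => hx s ?_ t ?_⟩
    · obtain ⟨g, h⟩ := s
      have hg : g = 1 := hs
      subst hg
      exact ⟨h, rfl⟩
    · obtain ⟨g, h⟩ := t
      have hg : g = 1 := ht
      subst hg
      exact ⟨h, rfl⟩
  -- Step 5 : descend to a cocycle of `G` with values in `A`
  obtain ⟨γ, x, hγ, hγx⟩ := DA.exists_infl_of_res_isMulCoboundary₂ h1A _ (hw d) hres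
  refine ⟨γ, hγ, fun j => ?_⟩
  -- Step 6 : the order of `γ`
  have e1 : IsMulCoboundary₂ (fun p : G × G => γ p ^ j) ↔
      IsMulCoboundary₂ (fun p : (G × H) × (G × H) =>
        ιA ((fun q : G × G => γ q ^ j) (MonoidHom.fst G H p.1, MonoidHom.fst G H p.2))) :=
    ⟨fun h => DA.isMulCoboundary₂_comp h, fun h => DA.isMulCoboundary₂_of_infl h1A _ h⟩
  have e2 : IsMulCoboundary₂ (fun p : (G × H) × (G × H) =>
        ιB (cycG σ (b' ^ (d * j)) (MonoidHom.snd G H p.1, MonoidHom.snd G H p.2))) ↔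
      IsMulCoboundary₂ (fun p : (G × H) × (G × H) =>
        ιA ((fun q : G × G => γ q ^ j) (MonoidHom.fst G H p.1, MonoidHom.fst G H p.2))) := by
    apply isMulCoboundary₂_iff_of_eq_mul (x := fun g => x g ^ j)
    intro g h
    show ιB (cycG σ (b' ^ (d * j)) (MonoidHom.snd G H g, MonoidHom.snd G H h)) =
      ιA (γ (MonoidHom.fst G H g, MonoidHom.fst G H h) ^ j) *
        (g • (x h ^ j) / x (g * h) ^ j * x g ^ j)
    rw [pow_mul, cycG_pow_apply, map_pow, hγx g h, map_pow, smul_pow', mul_pow, mul_pow,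
      div_pow]
  rw [e1, ← e2, hwcob, hd, mul_comm (Fintype.card G) d]
  exact Nat.mul_dvd_mul_iff_left hdpos

end main

end Fermat.Agent.S55.helper56
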