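import Mathlib

/-!
# S55 / REC2, package R2-BETA (helper63, task 377)

For every number field `L` and every finite set `T` of primes there are a prime `q ∉ T` and
`x ∈ Lˣ` with `v_q(N_{L/ℚ} x) = 1`.

Elementary proof: `θ` an integral primitive element, `g = minpoly ℤ θ`; `N(a - θ) = g(a)`;
primes dividing values of `g` are infinite (Schur); for `q` prime to a Bezout constant of
`(g, g')`, one of `g(a)`, `g(a + q)` has `q`-adic valuation exactly one.
-/

set_option autoImplicit false

open Polynomial IntermediateField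

namespace Fermat.Agent.S55.helper63

/-- **Schur.** For a non-constant integer polynomial and a finite set `T` there is a prime
`q ∉ T` dividing some value `g(a)`. -/
theorem exists_prime_dvd_eval_not_mem (g : ℤ[X]) (hg : 0 < g.natDegree) (T : Finset ℕ) :
    ∃ q : ℕ, q.Prime ∧ q ∉ T ∧ ∃ a : ℤ, (q : ℤ) ∣ g.eval a := by
  classical
  set c : ℤ := g.eval 0 with hc
  by_cases hc0 : c = 0
  · obtain ⟨q, hqT, hq⟩ := Nat.exists_infinite_primes (T.sup id + 1)
    refine ⟨q, hq, ?_, q, ?_⟩
    · intro hmem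
      have := Finset.le_sup (f := id) hmem
      simp only [id] at this
      omega
    · have := Polynomial.sub_dvd_eval_sub (q : ℤ) 0 g
      simpa [← hc, hc0] using this
  · set P : ℤ := ∏ q ∈ T.filter Nat.Prime, (q : ℤ) with hP
    have hP0 : P ≠ 0 := by
      rw [hP, Finset.prod_ne_zero_iff]
      intro q hq
      have := (Finset.mem_filter.mp hq).2
      exact_mod_cast this.ne_zero
    have hcP : c * P ≠ 0 := mul_ne_zero hc0 hP0
    set G : ℤ[X] := g.comp (C (c * P) * X) with hG
    have hGdeg : G.natDegree = g.natDegree := by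
      rw [hG, natDegree_comp, natDegree_C_mul_X _ hcP, mul_one]
    have hG0 : G ≠ 0 := by
      intro h
      rw [h, natDegree_zero] at hGdeg
      omega
    have hG1 : G - C c ≠ 0 := by
      intro h
      have : (G - C c).natDegree = G.natDegree := natDegree_sub_C
      rw [h, natDegree_zero] at this
      omega
    have hG2 : G + C c ≠ 0 := by
      intro h
      have : (G + C c).natDegree = G.natDegree := natDegree_add_C
      rw [h, natDegree_zero] at this
      omega
    have hH : G * (G - C c) * (G + C c) ≠ 0 := mul_ne_zero (mul_ne_zero hG0 hG1) hG2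
    obtain ⟨t, ht⟩ : ∃ t : ℤ, (G * (G - C c) * (G + C c)).eval t ≠ 0 := by
      by_contra hcon
      push Not at hcon
      exact hH (Polynomial.funext fun r => by rw [hcon r, eval_zero])
    simp only [eval_mul, eval_sub, eval_add, eval_C, mul_ne_zero_iff] at ht
    obtain ⟨⟨ht0, ht1⟩, ht2⟩ := ht
    have hGt : G.eval t = g.eval (c * P * t) := by
      simp [hG, eval_comp]
    obtain ⟨k, hk⟩ : c * P * t ∣ G.eval t - c := by
      have := Polynomial.sub_dvd_eval_sub (c * P * t) 0 g
      simpa [hGt, ← hc] using this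
    have hval : G.eval t = c * (1 + P * t * k) := by
      have : G.eval t = c + c * P * t * k := by linarith
      rw [this]; ring
    set h : ℤ := 1 + P * t * k with hh
    have hh0 : h ≠ 0 := by
      intro h0
      apply ht0
      rw [hval, h0, mul_zero]
    have hh1 : h ≠ 1 := by
      intro h1
      apply ht1
      rw [hval, h1, mul_one, sub_self]
    have hh2 : h ≠ -1 := by
      intro h1
      apply ht2
      rw [hval, h1]; ring
    have hnat : h.natAbs ≠ 1 := by
      intro h1
      rcases Int.natAbs_eq h with h' | h'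
      · rw [h1] at h'; exact hh1 (by simpa using h')
      · rw [h1] at h'; exact hh2 (by simpa using h')
    obtain ⟨q, hq, hqd⟩ := Nat.exists_prime_and_dvd hnat
    have hqh : (q : ℤ) ∣ h := Int.natCast_dvd.mpr hqd
    refine ⟨q, hq, ?_, c * P * t, ?_⟩
    · intro hmem
      have hqP : (q : ℤ) ∣ P := by
        rw [hP]
        exact Finset.dvd_prod_of_mem (fun q : ℕ => (q : ℤ)) (Finset.mem_filter.mpr ⟨hmem, hq⟩)
      have h1 : (q : ℤ) ∣ 1 := by
        have h2 : (q : ℤ) ∣ P * t * k := Dvd.dvd.mul_right (Dvd.dvd.mul_right hqP t) k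
        have h3 : (1 : ℤ) = h - P * t * k := by rw [hh]; ring
        rw [h3]
        exact dvd_sub hqh h2
      have : q ∣ 1 := by exact_mod_cast h1
      exact hq.one_lt.ne' (Nat.dvd_one.mp this)
    · rw [← hGt, hval]
      exact Dvd.dvd.mul_left hqh c

/-- **Bezout constant.** If `g ∈ ℤ[X]` is separable over `ℚ` there is a nonzero integer `D`
such that every common divisor of `g(a)` and `g'(a)` (`a ∈ ℤ`) divides `D`. -/
theorem exists_bezout_const (g : ℤ[X]) (hsep : (g.map (Int.castRingHom ℚ)).Separable) :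
    ∃ D : ℤ, D ≠ 0 ∧ ∀ a m : ℤ, m ∣ g.eval a → m ∣ (derivative g).eval a → m ∣ D := by
  obtain ⟨u, v, huv⟩ := hsep
  obtain ⟨b₁, hb₁, hU⟩ := IsLocalization.integerNormalization_spec (nonZeroDivisors ℤ) u
  obtain ⟨b₂, hb₂, hV⟩ := IsLocalization.integerNormalization_spec (nonZeroDivisors ℤ) v
  set U := IsLocalization.integerNormalization (nonZeroDivisors ℤ) u
  set V := IsLocalization.integerNormalization (nonZeroDivisors ℤ) v
  have hb₁0 : b₁ ≠ 0 := nonZeroDivisors.ne_zero hb₁
  have hb₂0 : b₂ ≠ 0 := nonZeroDivisors.ne_zero hb₂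
  have hinj : Function.Injective (Polynomial.map (Int.castRingHom ℚ)) :=
    Polynomial.map_injective _ Int.cast_injective
  have key : (b₂ : ℤ[X]) * U * g + (b₁ : ℤ[X]) * V * derivative g = ((b₁ * b₂ : ℤ) : ℤ[X]) := by
    apply hinj
    have hU' : U.map (Int.castRingHom ℚ) = (b₁ : ℚ[X]) * u := by
      rw [← zsmul_eq_mul]; exact hU
    have hV' : V.map (Int.castRingHom ℚ) = (b₂ : ℚ[X]) * v := by
      rw [← zsmul_eq_mul]; exact hV
    simp only [Polynomial.map_add, Polynomial.map_mul, Polynomial.map_intCast, hU', hV',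
      ← derivative_map, Int.cast_mul]
    have : (b₂ : ℚ[X]) * ((b₁ : ℚ[X]) * u) * g.map (Int.castRingHom ℚ)
        + (b₁ : ℚ[X]) * ((b₂ : ℚ[X]) * v) * derivative (g.map (Int.castRingHom ℚ))
        = (b₁ : ℚ[X]) * (b₂ : ℚ[X]) * (u * g.map (Int.castRingHom ℚ)
          + v * derivative (g.map (Int.castRingHom ℚ))) := by ring
    rw [this, huv, mul_one]
  refine ⟨b₁ * b₂, mul_ne_zero hb₁0 hb₂0, fun a m h1 h2 => ?_⟩
  have := congrArg (eval a) key
  simp only [eval_add, eval_mul, eval_intCast, Int.cast_id] at this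
  rw [← this]
  exact dvd_add (Dvd.dvd.mul_left h1 _) (Dvd.dvd.mul_left h2 _)

/-- Norm of `a - θ` for the generator `θ` of a power basis: the value of the minimal
polynomial at `a`. -/
theorem norm_algebraMap_sub_gen_eq_eval_minpoly {K L : Type*} [Field K] [Field L] [Algebra K L]
    (pb : PowerBasis K L) (a : K) :
    Algebra.norm K (algebraMap K L a - pb.gen) = (minpoly K pb.gen).eval a := by
  classical
  rw [Algebra.norm_eq_matrix_det pb.basis, map_sub, AlgHom.commutes, ← charpoly_leftMulMatrix pb,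
    Matrix.eval_charpoly]
  rfl

/-- `v_q(z) = 1` for an integer `z` divisible by `q` but not by `q ^ 2`. -/
theorem padicValInt_eq_one_of_dvd_of_not_sq_dvd (q : ℕ) [hq : Fact q.Prime] (z : ℤ)
    (h1 : (q : ℤ) ∣ z) (h2 : ¬ (q : ℤ) ^ 2 ∣ z) : padicValInt q z = 1 := by
  have hz : z ≠ 0 := by
    rintro rfl
    exact h2 (dvd_zero _)
  have a1 : 1 ≤ padicValInt q z := by
    have := (padicValInt_dvd_iff (p := q) 1 z).mp (by simpa using h1)
    rcases this with h | h
    · exact absurd h hz
    · exact h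
  have a2 : ¬ 2 ≤ padicValInt q z := by
    intro h
    exact h2 ((padicValInt_dvd_iff (p := q) 2 z).mpr (Or.inr h))
  omega

/-- **R2-BETA.** For every number field `L` and every finite set `T` of primes there are a prime
`q ∉ T` and `x ∈ Lˣ` with `v_q(N_{L/ℚ} x) = 1`. -/
theorem exists_prime_norm_valuation_one (L : Type*) [Field L] [NumberField L] (T : Finset ℕ) :
    ∃ q : ℕ, q.Prime ∧ q ∉ T ∧ ∃ x : Lˣ, padicValRat q (Algebra.norm ℚ (x : L)) = 1 := by
  classical
  -- an integral primitive element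
  obtain ⟨α, hα⟩ := Field.exists_primitive_element ℚ L
  obtain ⟨⟨m, hm⟩, hmα⟩ := IsIntegral.exists_multiple_integral_of_isLocalization
    (nonZeroDivisors ℤ) (Rₘ := ℚ) α (Algebra.IsIntegral.isIntegral α)
  have hm0 : m ≠ 0 := nonZeroDivisors.ne_zero hm
  change IsIntegral ℤ (m • α) at hmα
  set θ : L := m • α with hθdef
  have hθ : ℚ⟮θ⟯ = ⊤ := by
    rw [eq_top_iff, ← hα, IntermediateField.adjoin_simple_le_iff]
    have h1 : θ ∈ ℚ⟮θ⟯ := IntermediateField.mem_adjoin_simple_self ℚ θ
    have h2 : α = ((m : ℚ)⁻¹) • θ := by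
      rw [hθdef, ← Int.cast_smul_eq_zsmul ℚ m α, smul_smul, inv_mul_cancel₀, one_smul]
      exact_mod_cast hm0
    rw [h2]
    exact ℚ⟮θ⟯.smul_mem h1
  have hθint : IsIntegral ℚ θ := Algebra.IsIntegral.isIntegral θ
  -- power basis with generator `θ`
  let pb : PowerBasis ℚ L := (IntermediateField.adjoin.powerBasis hθint).map
    ((IntermediateField.equivOfEq hθ).trans IntermediateField.topEquiv)
  have hpb : pb.gen = θ := by
    simp [pb]
  -- the minimal polynomial
  set g : ℤ[X] := minpoly ℤ θ with hg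
  have hgmap : minpoly ℚ θ = g.map (Int.castRingHom ℚ) :=
    minpoly.isIntegrallyClosed_eq_field_fractions' ℚ hmα
  have hgdeg : 0 < g.natDegree := minpoly.natDegree_pos hmα
  have hsep : (g.map (Int.castRingHom ℚ)).Separable := by
    rw [← hgmap]
    exact (minpoly.irreducible hθint).separable
  have hnorm : ∀ a : ℤ, Algebra.norm ℚ ((a : L) - θ) = ((g.eval a : ℤ) : ℚ) := by
    intro a
    have := norm_algebraMap_sub_gen_eq_eval_minpoly pb (a : ℚ)
    rw [hpb, hgmap, eval_intCast_map, Int.cast_id] at this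
    simpa using this
  -- the Bezout constant and the prime
  obtain ⟨D, hD0, hD⟩ := exists_bezout_const g hsep
  obtain ⟨q, hq, hqT, a, hqa⟩ :=
    exists_prime_dvd_eval_not_mem g hgdeg (T ∪ D.natAbs.primeFactors)
  have : Fact q.Prime := ⟨hq⟩
  have hqT' : q ∉ T := fun h => hqT (Finset.mem_union_left _ h)
  have hqD : ¬ (q : ℤ) ∣ D := by
    intro h
    apply hqT
    apply Finset.mem_union_right
    rw [Nat.mem_primeFactors]
    exact ⟨hq, Int.natCast_dvd.mp h, by simpa using hD0⟩
  have hder : ¬ (q : ℤ) ∣ (derivative g).eval a := fun h => hqD (hD a q hqa h)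
  -- one of `g(a)`, `g(a + q)` has valuation one
  obtain ⟨k, hk⟩ := Polynomial.binomExpansion g a (q : ℤ)
  have hqa' : (q : ℤ) ∣ g.eval (a + q) := by
    rw [hk]
    refine dvd_add (dvd_add hqa (Dvd.intro_left _ rfl)) ?_
    exact Dvd.dvd.mul_left (dvd_pow_self _ two_ne_zero) _
  have hone : ¬ (q : ℤ) ^ 2 ∣ g.eval a ∨ ¬ (q : ℤ) ^ 2 ∣ g.eval (a + q) := by
    by_contra hcon
    push Not at hcon
    obtain ⟨h1, h2⟩ := hcon
    rw [hk] at h2
    have h3 : (q : ℤ) ^ 2 ∣ (derivative g).eval a * q := by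
      have h4 : (q : ℤ) ^ 2 ∣ k * (q : ℤ) ^ 2 := Dvd.intro_left _ rfl
      have h5 := dvd_sub (dvd_sub h2 h4) h1
      have h6 : eval a g + eval a (derivative g) * ↑q + k * ↑q ^ 2 - k * ↑q ^ 2 - eval a g
          = (derivative g).eval a * q := by ring
      rwa [h6] at h5
    apply hder
    have hq0 : (q : ℤ) ≠ 0 := by exact_mod_cast hq.ne_zero
    rw [pow_two] at h3
    exact (mul_dvd_mul_iff_right hq0).mp h3
  have main : ∀ b : ℤ, (q : ℤ) ∣ g.eval b → ¬ (q : ℤ) ^ 2 ∣ g.eval b →
      ∃ x : Lˣ, padicValRat q (Algebra.norm ℚ (x : L)) = 1 := by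
    intro b hb1 hb2
    have hv : padicValRat q (Algebra.norm ℚ ((b : L) - θ)) = 1 := by
      rw [hnorm b, padicValRat.of_int, padicValInt_eq_one_of_dvd_of_not_sq_dvd q _ hb1 hb2]
      rfl
    have hx : (b : L) - θ ≠ 0 := by
      intro h0
      rw [h0, Algebra.norm_zero] at hv
      simp at hv
    exact ⟨Units.mk0 _ hx, hv⟩
  rcases hone with h | h
  · exact ⟨q, hq, hqT', main a hqa h⟩
  · exact ⟨q, hq, hqT', main (a + q) hqa' h⟩

end Fermat.Agent.S55.helper63
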