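import Fermat.Agent.S55.helper33_Rec2Defs
import Fermat.Agent.S55.helper15_Rec2Sym

/-!
# S55 / REC2, package R2-SYM-N (helper67, task 374): norm functoriality of the cyclotomic
idele symbol

* `semiNorm_eq_of_bcUnits_eq_normG` : if `bc x = ∏ σ • y` then
  `N_{ℚ_q ⊗ K/ℚ_q} x = N_{ℚ_q ⊗ L/ℚ_q} y`;
* `cycSymFun_eq_of_bcIdele_eq_normG` : transitivity of the symbol;
* `cycSymFun_bcIdele` : the symbol of an idele of the base field.

The statements are VERBATIM those of `helper33_Rec2Interface.lean` (section `SymNorm`).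
-/

set_option autoImplicit false
set_option linter.style.haveILetI false

open scoped TensorProduct NumberField

namespace Fermat.Agent.S55.helper67

open Fermat.Agent.S55.helper73 Fermat.Agent.S55.helper33

section SemiLocFree

variable (K L : Type*) [Field K] [NumberField K] [Field L] [NumberField L] [Algebra K L]
variable (q : ℕ) [Fact q.Prime]

/-- `ℚ_q ⊗ L` as an algebra over `ℚ_q ⊗ K` via base change (a `def`; use `letI`). -/
@[reducible]
noncomputable def rec2Algebra : Algebra (SemiLoc q K) (SemiLoc q L) :=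
  (bc K L q).toRingHom.toAlgebra

theorem rec2_algebraMap_apply (a : SemiLoc q K) :
    letI := rec2Algebra K L q
    algebraMap (SemiLoc q K) (SemiLoc q L) a = bc K L q a := rfl

theorem rec2_smul_def (a : SemiLoc q K) (z : SemiLoc q L) :
    letI := rec2Algebra K L q
    a • z = bc K L q a * z := rfl

theorem rec2_isScalarTower :
    letI := rec2Algebra K L q
    IsScalarTower ℚ_[q] (SemiLoc q K) (SemiLoc q L) := by
  letI := rec2Algebra K L q
  exact IsScalarTower.of_algebraMap_eq fun r => ((bc K L q).commutes r).symm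

theorem rec2_bc_injective : Function.Injective (bc K L q) := by
  have h : Function.Injective ((algebraMap K L).toRatAlgHom.toLinearMap) :=
    (algebraMap K L).injective
  have := Module.Flat.lTensor_preserves_injective_linearMap (M := ℚ_[q])
    ((algebraMap K L).toRatAlgHom.toLinearMap) h
  intro x y hxy
  apply this
  have key : ∀ z : SemiLoc q K,
      LinearMap.lTensor ℚ_[q] ((algebraMap K L).toRatAlgHom.toLinearMap) z = bc K L q z := by
    intro z
    induction z using TensorProduct.induction_on with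
    | zero => simp
    | tmul a b => simp
    | add x y hx hy => simp only [map_add, hx, hy]
  rw [key, key, hxy]

theorem rec2_smul_bc (σ : Gal(L/K)) (a : SemiLoc q K) : σ • bc K L q a = bc K L q a := by
  induction a using TensorProduct.induction_on with
  | zero => simp
  | tmul a b => rw [bc_tmul, smul_tmul', AlgEquiv.commutes]
  | add x y hx hy => rw [map_add, smul_add, hx, hy]

/-- The family `1 ⊗ b_j` attached to a family `b` of elements of `L`. -/
noncomputable def rec2Fam {ι : Type*} (b : ι → L) (j : ι) : SemiLoc q L := (1 : ℚ_[q]) ⊗ₜ[ℚ] b j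

theorem rec2_linComb_surjective {ι : Type*} [Fintype ι] (b : Module.Basis ι K L) :
    letI := rec2Algebra K L q
    Function.Surjective (Fintype.linearCombination (SemiLoc q K) (rec2Fam L q b)) := by
  letI := rec2Algebra K L q
  intro z
  induction z using TensorProduct.induction_on with
  | zero => exact ⟨0, map_zero _⟩
  | tmul a l =>
    refine ⟨fun j => a ⊗ₜ[ℚ] (b.repr l j), ?_⟩
    rw [Fintype.linearCombination_apply]
    have h1 : ∀ j, (a ⊗ₜ[ℚ] (b.repr l j) : SemiLoc q K) • rec2Fam L q b j
        = a ⊗ₜ[ℚ] (b.repr l j • b j) := by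
      intro j
      rw [rec2_smul_def, bc_tmul, rec2Fam, Algebra.TensorProduct.tmul_mul_tmul, mul_one,
        Algebra.smul_def]
    simp_rw [h1]
    rw [← TensorProduct.tmul_sum, b.sum_repr]
  | add x y hx hy =>
    obtain ⟨cx, hcx⟩ := hx
    obtain ⟨cy, hcy⟩ := hy
    exact ⟨cx + cy, by rw [map_add, hcx, hcy]⟩

theorem rec2_finrank_semiLoc : Module.finrank ℚ_[q] (SemiLoc q L) = Module.finrank ℚ L :=
  Module.finrank_baseChange

theorem rec2_linComb_injective {ι : Type*} [Fintype ι] (b : Module.Basis ι K L) :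
    letI := rec2Algebra K L q
    Function.Injective (Fintype.linearCombination (SemiLoc q K) (rec2Fam L q b)) := by
  letI := rec2Algebra K L q
  haveI := rec2_isScalarTower K L q
  have hsurj := rec2_linComb_surjective K L q b
  let Φ : (ι → SemiLoc q K) →ₗ[ℚ_[q]] SemiLoc q L :=
    (Fintype.linearCombination (SemiLoc q K) (rec2Fam L q b)).restrictScalars ℚ_[q]
  have hfin : Module.finrank ℚ_[q] (ι → SemiLoc q K) = Module.finrank ℚ_[q] (SemiLoc q L) := by
    rw [Module.finrank_pi_fintype, Finset.sum_const, Finset.card_univ, smul_eq_mul,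
      rec2_finrank_semiLoc, rec2_finrank_semiLoc, ← Module.finrank_eq_card_basis b,
      ← Module.finrank_mul_finrank ℚ K L, mul_comm]
  have h := (LinearMap.injective_iff_surjective_of_finrank_eq_finrank (f := Φ) hfin).2 hsurj
  exact h

/-- The `ℚ_q ⊗ K`-basis `1 ⊗ b_j` of `ℚ_q ⊗ L` attached to a `K`-basis `b` of `L`. -/
noncomputable def rec2Basis {ι : Type*} [Fintype ι] (b : Module.Basis ι K L) :
    letI := rec2Algebra K L q
    Module.Basis ι (SemiLoc q K) (SemiLoc q L) :=
  letI := rec2Algebra K L q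
  Module.Basis.mk (v := rec2Fam L q b)
    (linearIndependent_iff_injective_fintypeLinearCombination.2
      (rec2_linComb_injective K L q b))
    (by
      rw [← Fintype.range_linearCombination]
      exact (LinearMap.range_eq_top.2 (rec2_linComb_surjective K L q b)).ge)

theorem rec2Basis_apply {ι : Type*} [Fintype ι] (b : Module.Basis ι K L) (j : ι) :
    letI := rec2Algebra K L q
    rec2Basis K L q b j = (1 : ℚ_[q]) ⊗ₜ[ℚ] b j := by
  letI := rec2Algebra K L q
  rw [rec2Basis, Module.Basis.mk_apply]
  rfl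

theorem rec2_free :
    letI := rec2Algebra K L q
    Module.Free (SemiLoc q K) (SemiLoc q L) := by
  letI := rec2Algebra K L q
  exact Module.Free.of_basis (rec2Basis K L q (Module.finBasis K L))

theorem rec2_finrank :
    letI := rec2Algebra K L q
    Module.finrank (SemiLoc q K) (SemiLoc q L) = Module.finrank K L := by
  letI := rec2Algebra K L q
  rw [Module.finrank_eq_card_basis (rec2Basis K L q (Module.finBasis K L)),
    Fintype.card_fin]

end SemiLocFree

section GaloisNorm

variable (K L : Type*) [Field K] [NumberField K] [Field L] [NumberField L] [Algebra K L]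
  [IsGalois K L]
variable (q : ℕ) [Fact q.Prime]

/-- The matrix `(σ (b j))_{σ, j}` of conjugates of a basis has nonzero determinant. -/
theorem rec2_det_conj_ne_zero [DecidableEq Gal(L/K)] (b : Module.Basis Gal(L/K) K L) :
    (Matrix.of fun (σ : Gal(L/K)) (j : Gal(L/K)) => σ (b j)).det ≠ 0 := by
  intro h
  have h1 : Matrix.transpose (Matrix.of fun (σ : Gal(L/K)) (j : Gal(L/K)) => σ (b j)) *
      (Matrix.of fun (σ : Gal(L/K)) (j : Gal(L/K)) => σ (b j)) =
      (Algebra.traceMatrix K b).map (algebraMap K L) := by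
    ext i j
    rw [Matrix.mul_apply, Matrix.map_apply, Algebra.traceMatrix_apply, Algebra.traceForm_apply,
      trace_eq_sum_automorphisms]
    simp [Matrix.transpose_apply, map_mul]
  have h2 := congrArg Matrix.det h1
  rw [Matrix.det_mul, Matrix.det_transpose, h, mul_zero] at h2
  have h3 : ((Algebra.traceMatrix K b).map (algebraMap K L)).det =
      algebraMap K L (Algebra.discr K b) := by
    rw [Algebra.discr_def, RingHom.map_det]
    rfl
  rw [h3] at h2
  exact Algebra.discr_not_zero_of_basis K b
    ((algebraMap K L).injective (by rw [← h2, map_zero]))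

/-- **Semilocal norm = product of the conjugates**: for the Galois algebra
`ℚ_q ⊗ L / ℚ_q ⊗ K`, `bc (N y) = ∏ σ, σ • y`. -/
theorem rec2_bc_norm_eq_prod_smul (y : SemiLoc q L) :
    letI := rec2Algebra K L q
    bc K L q (Algebra.norm (SemiLoc q K) y) = ∏ σ : Gal(L/K), σ • y := by
  classical
  letI := rec2Algebra K L q
  have hcard : Fintype.card (Fin (Module.finrank K L)) = Fintype.card Gal(L/K) := by
    rw [Fintype.card_fin, ← Nat.card_eq_fintype_card, IsGalois.card_aut_eq_finrank]
  let e : Fin (Module.finrank K L) ≃ Gal(L/K) := Fintype.equivOfCardEq hcard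
  let b : Module.Basis Gal(L/K) K L := (Module.finBasis K L).reindex e
  let v := rec2Basis K L q b
  let M : Matrix Gal(L/K) Gal(L/K) (SemiLoc q K) := Algebra.leftMulMatrix v y
  have hM : ∀ i j, M i j = v.repr (y * v j) i := fun i j =>
    Algebra.leftMulMatrix_eq_repr_mul v y i j
  let E₀ : Matrix Gal(L/K) Gal(L/K) L := Matrix.of fun σ j => σ (b j)
  let inc : L →+* SemiLoc q L :=
    (Algebra.TensorProduct.includeRight : L →ₐ[ℚ] SemiLoc q L).toRingHom
  let E : Matrix Gal(L/K) Gal(L/K) (SemiLoc q L) := E₀.map inc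
  have hE : ∀ σ j, E σ j = σ • v j := by
    intro σ j
    change (1 : ℚ_[q]) ⊗ₜ[ℚ] σ (b j) = σ • rec2Basis K L q b j
    rw [rec2Basis_apply, smul_tmul']
  have hEdet : IsUnit E.det := by
    have h0 : E.det = inc E₀.det := by
      rw [RingHom.map_det]
      rfl
    rw [h0]
    exact (IsUnit.mk0 _ (rec2_det_conj_ne_zero K L b)).map inc
  have h1 : ∀ j, y * v j = ∑ i, M i j • v i := by
    intro j
    conv_lhs => rw [← v.sum_repr (y * v j)]
    exact Finset.sum_congr rfl fun i _ => by rw [hM]
  have key : Matrix.diagonal (fun σ : Gal(L/K) => σ • y) * E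
      = E * M.map (algebraMap (SemiLoc q K) (SemiLoc q L)) := by
    ext σ j
    rw [Matrix.diagonal_mul, Matrix.mul_apply, hE, ← smul_mul', h1 j, Finset.smul_sum]
    refine Finset.sum_congr rfl fun i _ => ?_
    rw [Matrix.map_apply, hE, rec2_algebraMap_apply, rec2_smul_def, smul_mul', rec2_smul_bc,
      mul_comm]
  have hdet := congrArg Matrix.det key
  rw [Matrix.det_mul, Matrix.det_mul, Matrix.det_diagonal, mul_comm] at hdet
  have h2 := hEdet.mul_left_cancel hdet
  rw [h2, Algebra.norm_eq_matrix_det v y]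
  exact RingHom.map_det (algebraMap (SemiLoc q K) (SemiLoc q L)) M

end GaloisNorm

section SymNorm

variable (K L : Type*) [Field K] [NumberField K] [Field L] [NumberField L] [Algebra K L]
  [IsGalois K L] (l m : ℕ) [Fact l.Prime]

/-- **R2-SYM-N (1)** (semilocal norm = product of the conjugates):
if `bc x = ∏ σ • y` then `N_{ℚ_q ⊗ K/ℚ_q} x = N_{ℚ_q ⊗ L/ℚ_q} y`. -/
theorem semiNorm_eq_of_bcUnits_eq_normG (q : ℕ) [Fact q.Prime] (x : (SemiLoc q K)ˣ)
    (y : (SemiLoc q L)ˣ) (h : bcUnits K L q x = normG Gal(L/K) (SemiLoc q L)ˣ y) :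
    semiNorm K q x = semiNorm L q y := by
  letI := rec2Algebra K L q
  haveI := rec2_isScalarTower K L q
  haveI := rec2_free K L q
  have h1 : bc K L q (x : SemiLoc q K) = ∏ σ : Gal(L/K), σ • (y : SemiLoc q L) := by
    have h0 := congrArg (fun u : (SemiLoc q L)ˣ => (u : SemiLoc q L)) h
    simp only [coe_bcUnits, normG_apply, Units.coe_prod] at h0
    exact h0
  have h2 : (x : SemiLoc q K) = Algebra.norm (SemiLoc q K) (y : SemiLoc q L) :=
    rec2_bc_injective K L q (h1.trans (rec2_bc_norm_eq_prod_smul K L q (y : SemiLoc q L)).symm)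
  apply Units.ext
  rw [coe_semiNorm, coe_semiNorm, h2]
  exact Algebra.norm_norm

/-- **R2-SYM-N (2)** (transitivity of the symbol). -/
theorem cycSymFun_eq_of_bcIdele_eq_normG (x : Idele K) (y : Idele L)
    (h : bcIdele K L x = normG Gal(L/K) (Idele L) y) :
    cycSymFun K l m x = cycSymFun L l m y := by
  unfold cycSymFun cycSymPi
  refine finprod_congr fun q => ?_
  have hq : bcUnits K L (q : ℕ) ((x : IdelePi K) q) =
      normG Gal(L/K) (SemiLoc (q : ℕ) L)ˣ ((y : IdelePi L) q) := by
    have h0 := congrArg (fun u : Idele L => (u : IdelePi L) q) h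
    simp only [bcIdele_apply] at h0
    rw [h0, normG_apply, normG_apply, Subgroup.val_finsetProd, Finset.prod_apply]
    rfl
  change cycSymLoc (q : ℕ) l m (semiNorm K (q : ℕ) ((x : IdelePi K) q)) =
    cycSymLoc (q : ℕ) l m (semiNorm L (q : ℕ) ((y : IdelePi L) q))
  rw [semiNorm_eq_of_bcUnits_eq_normG K L (q : ℕ) _ _ hq]

omit [IsGalois K L] in
/-- **R2-SYM-N (3)** (symbol of an idele of the base field). -/
theorem cycSymFun_bcIdele (x : Idele K) :
    cycSymFun L l m (bcIdele K L x) = cycSymFun K l m x ^ Module.finrank K L := by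
  unfold cycSymFun cycSymPi
  rw [finprod_pow (Fermat.Agent.S55.helper15.finite_mulSupport_cycSymAt K l m x)]
  refine finprod_congr fun q => ?_
  letI := rec2Algebra K L (q : ℕ)
  haveI := rec2_isScalarTower K L (q : ℕ)
  haveI := rec2_free K L (q : ℕ)
  rw [← map_pow]
  change cycSymLoc (q : ℕ) l m (semiNorm L (q : ℕ) (bcUnits K L (q : ℕ) ((x : IdelePi K) q))) =
    cycSymLoc (q : ℕ) l m (semiNorm K (q : ℕ) (((x : IdelePi K) q) ^ Module.finrank K L))
  congr 1
  apply Units.ext
  rw [coe_semiNorm, coe_semiNorm, coe_bcUnits, Units.val_pow_eq_pow_val,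
    ← Algebra.norm_norm (R := ℚ_[(q : ℕ)]) (S := SemiLoc (q : ℕ) K)
      (a := bc K L (q : ℕ) (((x : IdelePi K) q : (SemiLoc (q : ℕ) K)ˣ) : SemiLoc (q : ℕ) K)),
    ← rec2_finrank K L (q : ℕ)]
  congr 1
  exact Algebra.norm_algebraMap (((x : IdelePi K) q : (SemiLoc (q : ℕ) K)ˣ) : SemiLoc (q : ℕ) K)

end SymNorm

end Fermat.Agent.S55.helper67
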