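import Fermat.Agent.S55.helper5_Bridge
import Fermat.Agent.S55.helper24_Dict

/-!
# S55 / GLOB / CL-3 (helper5): local approximation `(ℚ_q ⊗ L)ˣ = Lˣ · (1 + q 𝓞)`

Wrapper around the approximation lemma of `helper24_Dict` (`exists_locUnit_mul_mem_oneUnits_aux`)
in the vocabulary of `helper73_GlobDefs2` (`principalPi`, `princUnits`).
-/

set_option autoImplicit false

open scoped TensorProduct NumberField
open IsDedekindDomain

namespace Fermat.Agent.S55.helper5

open Fermat.Agent.S55.helper73

section Approx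

variable (L : Type*) [Field L] [NumberField L]

/-- every unit of `ℚ_q ⊗ L` is a global element times a principal unit (`helper89.locUnit`
shape). -/
theorem exists_locUnit_div_mem_princUnits (q : ℕ) [Fact q.Prime] (x : (SemiLoc q L)ˣ) :
    ∃ y : Lˣ, x / helper89.locUnit q L y ∈ princUnits q L := by
  obtain ⟨M, hM⟩ :=
    helper24.exists_pow_mul_integral q L ((x⁻¹ : (SemiLoc q L)ˣ) : SemiLoc q L)
  obtain ⟨a, ha⟩ := helper24.exists_locUnit_mul_mem_oneUnits_aux q L x M hM
  refine ⟨a, ?_⟩
  rw [princUnits_eq_oneUnits, div_eq_mul_inv]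
  exact ha

/-- CL-3 (local approximation): `(ℚ_q ⊗ L)ˣ = Lˣ · (1 + q 𝓞)`. -/
theorem exists_principal_div_mem_princUnits (q : Nat.Primes) (x : (SemiLoc (q : ℕ) L)ˣ) :
    ∃ y : Lˣ, x / principalPi L y q ∈ princUnits (q : ℕ) L :=
  exists_locUnit_div_mem_princUnits L (q : ℕ) x

/-- every integral unit of `ℚ_q ⊗ L` is a global element, unit at all primes over `q`, times a
principal unit. -/
theorem exists_principal_div_mem_princUnits_of_mem_intUnits (q : Nat.Primes)
    (x : (SemiLoc (q : ℕ) L)ˣ) (hx : x ∈ intUnits (q : ℕ) L) :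
    ∃ y : Lˣ, principalPi L y q ∈ intUnits (q : ℕ) L ∧
      x / principalPi L y q ∈ princUnits (q : ℕ) L := by
  obtain ⟨y, hy⟩ := exists_principal_div_mem_princUnits L q x
  refine ⟨y, ?_, hy⟩
  have h1 : principalPi L y q = (x / principalPi L y q)⁻¹ * x := by
    rw [inv_div, div_mul_cancel]
  rw [h1]
  exact mul_mem (inv_mem (princUnits_le_intUnits L (q : ℕ) hy)) hx

end Approx

end Fermat.Agent.S55.helper5
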