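import Fermat.Agent.S55.helper82_Rec2SymD
import Fermat.Agent.S55.helper5_Approx

/-!
# S55 / REC2, package R2-SYM-D (helper82, task 376): unconditional density step

* `exists_principal_cycSymAt_eq` : VERBATIM statement of the REC2 interface (R2-SYM-D), using
  the landed GLOB CL-3 (`helper5.exists_principal_div_mem_princUnits`);
* `cycSymFun_eq_one_of_primitiveRoot_of_congr` : (T3) with the only remaining package R2-SYM-C
  (global cyclotomic congruence) as hypothesis.
-/

set_option autoImplicit false

open scoped TensorProduct NumberField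

namespace Fermat.Agent.S55.helper82

open Fermat.Agent.S55.helper73 Fermat.Agent.S55.helper33

section Sym

variable (K : Type*) [Field K] [NumberField K] (l : ℕ) [Fact l.Prime]

/-- **R2-SYM-D** (density, modulus `l`): every value of the local symbol is attained on a
global element. -/
theorem exists_principal_cycSymAt_eq (q : Nat.Primes) (z : (SemiLoc (q : ℕ) K)ˣ) :
    ∃ c : Kˣ, cycSymAt K l 1 (q : ℕ) z = cycSymAt K l 1 (q : ℕ) (principalPi K c q) :=
  exists_principal_cycSymAt_eq_of K l (helper5.exists_principal_div_mem_princUnits K) q z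

/-- **(T3)** with R2-SYM-C as the only hypothesis. -/
theorem cycSymFun_eq_one_of_primitiveRoot_of_congr
    (hC : ∀ m : ℕ, 2 < l ^ m → (∃ ζ : K, IsPrimitiveRoot ζ (l ^ m)) →
      ∀ (q : Nat.Primes) (c : Kˣ), cycSymAt K l m (q : ℕ) (principalPi K c q) = 1)
    (hl : l ≠ 2) (hζ : ∃ ζ : K, IsPrimitiveRoot ζ l)
    (y : Idele K) : cycSymFun K l 1 y = 1 :=
  cycSymFun_eq_one_of_primitiveRoot_of K l (helper5.exists_principal_div_mem_princUnits K) hC
    hl hζ y

end Sym

end Fermat.Agent.S55.helper82
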