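import Fermat.Agent.S55.helper33_Rec2Defs

/-!
# S55 / REC2, package R2-SYM-C (helper92, task 375): the global cyclotomic congruence

If a number field `K` contains a primitive `l^m`-th root of unity (`l^m > 2`), then all local
cyclotomic symbols `cycSymAt K l m q` of global elements `c ∈ Kˣ` are trivial:

* `K` has no real place, so `N_{K/ℚ}(c) > 0` (`norm_pos_of_isPrimitiveRoot`);
* every nonzero prime `P ∤ l` of `𝓞 K` has `N(P) ≡ 1 mod l^m`
  (`cast_absNorm_eq_one_of_coprime`);
* hence the `q`-part (`q ≠ l`) and the prime-to-`l` part of the norm of every nonzero ideal are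
  `≡ 1 mod l^m` (`cast_expVal_absNorm`).

The file also proves `N_{ℚ_q ⊗ K/ℚ_q}(1 ⊗ c) = N_{K/ℚ}(c)` (`norm_one_tmul`,
`coe_semiNorm_principalPi`).
-/

set_option autoImplicit false

open scoped NumberField TensorProduct
open NumberField NumberField.InfinitePlace Ideal

namespace Fermat.Agent.S55.helper92

open Fermat.Agent.S55.helper73 Fermat.Agent.S55.helper33

section Positivity

variable {K : Type*} [Field K] [NumberField K]

open scoped Classical in
/-- In a number field without real places, the product of the conjugates of `x` over the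
embeddings lying above one infinite place is the real number `(w x) ^ 2`. -/
theorem prod_filter_mk_eq (h0 : nrRealPlaces K = 0) (x : K) (w : InfinitePlace K) :
    ∏ φ ∈ (Finset.univ.filter fun φ : K →+* ℂ => InfinitePlace.mk φ = w), φ x =
      (((w x) ^ 2 : ℝ) : ℂ) := by
  have hw : ¬ IsReal w := by
    intro hreal
    have : IsEmpty {w : InfinitePlace K // IsReal w} := by
      rw [← Fintype.card_eq_zero_iff]
      exact h0
    exact this.false ⟨w, hreal⟩
  have hne : embedding w ≠ ComplexEmbedding.conjugate (embedding w) := by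
    rwa [Ne, eq_comm, ← ComplexEmbedding.isReal_iff, ← isReal_iff]
  have hfilter : (Finset.univ.filter fun φ : K →+* ℂ => InfinitePlace.mk φ = w) =
      {embedding w, ComplexEmbedding.conjugate (embedding w)} := by
    ext φ
    simp only [Finset.mem_filter, Finset.mem_univ, true_and, Finset.mem_insert,
      Finset.mem_singleton]
    conv_lhs => rw [← mk_embedding w, mk_eq_iff]
    constructor
    · rintro (h | h)
      · exact Or.inl h
      · right
        rw [← h, ComplexEmbedding.conjugate, star_star]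
        -- conjugate (conjugate φ) = φ
    · rintro (h | h)
      · exact Or.inl h
      · right
        rw [h]
        simp [ComplexEmbedding.conjugate]
  rw [hfilter, Finset.prod_pair hne, ComplexEmbedding.conjugate_coe_eq]
  have h1 : w x = ‖embedding w x‖ := by
    conv_lhs => rw [← mk_embedding w]
    rfl
  rw [h1, Complex.mul_conj, Complex.normSq_eq_norm_sq]

/-- In a number field without real places all norms of nonzero elements are positive. -/
theorem norm_pos_of_nrRealPlaces_eq_zero (h0 : nrRealPlaces K = 0) {x : K} (hx : x ≠ 0) :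
    0 < Algebra.norm ℚ x := by
  classical
  have key : ((Algebra.norm ℚ x : ℚ) : ℂ) = ((∏ w : InfinitePlace K, (w x) ^ 2 : ℝ) : ℂ) := by
    have h1 := Algebra.norm_eq_prod_embeddings ℚ ℂ x
    rw [eq_ratCast] at h1
    rw [h1, ← Fintype.prod_equiv (RingHom.equivRatAlgHom K ℂ) (fun f => f x)
      (fun φ => φ x) fun _ => by simp [RingHom.equivRatAlgHom_apply]]
    rw [← Finset.prod_fiberwise Finset.univ InfinitePlace.mk (fun φ => φ x)]
    rw [Complex.ofReal_prod]
    exact Finset.prod_congr rfl fun w _ => prod_filter_mk_eq h0 x w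
  have hpos : 0 < ∏ w : InfinitePlace K, (w x) ^ 2 :=
    Finset.prod_pos fun w _ => pow_pos (InfinitePlace.pos_iff.mpr hx) 2
  have h2 : ((Algebra.norm ℚ x : ℚ) : ℝ) = ∏ w : InfinitePlace K, (w x) ^ 2 := by
    have : (((Algebra.norm ℚ x : ℚ) : ℝ) : ℂ) = ((∏ w : InfinitePlace K, (w x) ^ 2 : ℝ) : ℂ) := by
      rw [← key]
      simp
    exact_mod_cast this
  have h3 : (0 : ℝ) < ((Algebra.norm ℚ x : ℚ) : ℝ) := by rw [h2]; exact hpos
  exact_mod_cast h3

/-- A number field containing a root of unity of order `> 2` has only positive norms. -/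
theorem norm_pos_of_isPrimitiveRoot {ζ : K} {k : ℕ} (hk : 2 < k) (hζ : IsPrimitiveRoot ζ k)
    {x : K} (hx : x ≠ 0) : 0 < Algebra.norm ℚ x :=
  norm_pos_of_nrRealPlaces_eq_zero (hζ.nrRealPlaces_eq_zero_of_two_lt hk) hx

end Positivity

section Primes

variable {K : Type*} [Field K] [NumberField K]

/-- If `K` contains a primitive `n`-th root of unity and `P` is a nonzero prime of `𝓞 K` whose
norm is prime to `n`, then `N(P) ≡ 1 mod n`. -/
theorem dvd_absNorm_sub_one_of_isPrimitiveRoot {ζ : K} {n : ℕ} [NeZero n]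
    (hζ : IsPrimitiveRoot ζ n) {P : Ideal (𝓞 K)} (hP₀ : P ≠ ⊥) (hP₁ : P.IsPrime)
    (hP₂ : (absNorm P).Coprime n) : n ∣ absNorm P - 1 := by
  have : P.IsMaximal := Ring.DimensionLEOne.maximalOfPrime hP₀ hP₁
  let _ := Ideal.Quotient.field P
  have hP₃ : absNorm P ≠ 1 := absNorm_eq_one_iff.not.mpr <| IsPrime.ne_top hP₁
  have h := Subgroup.card_dvd_of_injective _ (Ideal.rootsOfUnityMapQuot_injective n hP₃ hP₂)
  have hcard : Nat.card (rootsOfUnity n (𝓞 K)) = n := by
    exact hζ.toInteger_isPrimitiveRoot.card_rootsOfUnity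
  rw [hcard] at h
  rwa [Nat.card_units] at h

/-- The norm of a nonzero prime ideal is a power of a prime number. -/
theorem exists_prime_pow_eq_absNorm {P : Ideal (𝓞 K)} (hP₀ : P ≠ ⊥) (hP₁ : P.IsPrime) :
    ∃ p j : ℕ, p.Prime ∧ absNorm P = p ^ j := by
  have hne1 : absNorm P ≠ 1 := absNorm_eq_one_iff.not.mpr <| IsPrime.ne_top hP₁
  have hmem : ((absNorm P : ℕ) : 𝓞 K) ∈ P := absNorm_mem P
  have hne0 : absNorm P ≠ 0 := by
    rw [Ne, absNorm_eq_zero_iff]
    exact hP₀
  -- some prime factor of the norm lies in `P`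
  have hex : ∃ p : ℕ, p.Prime ∧ ((p : ℕ) : 𝓞 K) ∈ P := by
    have hprod : ((absNorm P).primeFactorsList.prod : ℕ) = absNorm P :=
      Nat.prod_primeFactorsList hne0
    have hmem' : (((absNorm P).primeFactorsList.map (fun p : ℕ => (p : 𝓞 K))).prod) ∈ P := by
      have : (((absNorm P).primeFactorsList.map (fun p : ℕ => (p : 𝓞 K))).prod) =
          ((absNorm P : ℕ) : 𝓞 K) := by
        conv_rhs => rw [← hprod]
        rw [Nat.cast_list_prod]
      rw [this]
      exact hmem
    rw [← Multiset.prod_coe] at hmem'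
    obtain ⟨x, hx, hxP⟩ := (hP₁.multiset_prod_mem_iff_exists_mem _).1 hmem'
    rw [Multiset.mem_coe] at hx
    obtain ⟨p, hp, rfl⟩ := List.mem_map.1 hx
    exact ⟨p, Nat.prime_of_mem_primeFactorsList hp, hxP⟩
  obtain ⟨p, hp, hpP⟩ := hex
  have hle : Ideal.span {((p : ℕ) : 𝓞 K)} ≤ P := by
    rw [Ideal.span_le, Set.singleton_subset_iff]
    exact hpP
  have hdvd : absNorm P ∣ absNorm (Ideal.span {((p : ℕ) : 𝓞 K)}) :=
    Ideal.absNorm_dvd_absNorm_of_le hle
  have hnorm : absNorm (Ideal.span {((p : ℕ) : 𝓞 K)}) = p ^ Module.finrank ℚ K := by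
    rw [Ideal.absNorm_span_singleton]
    have h1 : Algebra.norm ℤ ((p : ℕ) : 𝓞 K) = (p : ℤ) ^ Module.finrank ℚ K := by
      have := Algebra.norm_algebraMap (R := ℤ) (S := 𝓞 K) (p : ℤ)
      rw [RingOfIntegers.rank] at this
      simpa using this
    rw [h1]
    simp [Int.natAbs_pow]
  rw [hnorm] at hdvd
  obtain ⟨j, -, hj⟩ := (Nat.dvd_prime_pow hp).1 hdvd
  exact ⟨p, j, hp, hj⟩

end Primes

section Induction

variable {K : Type*} [Field K] [NumberField K]

/-- Multiplicative induction over the nonzero ideals of `𝓞 K`. -/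
theorem cast_apply_absNorm_eq_one (N : ℕ) (f : ℕ → ℕ) (hf1 : f 1 = 1)
    (hfmul : ∀ a b : ℕ, a ≠ 0 → b ≠ 0 → f (a * b) = f a * f b)
    (hprime : ∀ P : Ideal (𝓞 K), P ≠ ⊥ → P.IsPrime → ((f (absNorm P) : ℕ) : ZMod N) = 1)
    (I : Ideal (𝓞 K)) (hI : I ≠ ⊥) : ((f (absNorm I) : ℕ) : ZMod N) = 1 := by
  revert hI
  refine UniqueFactorizationMonoid.induction_on_prime I ?_ ?_ ?_
  · intro h
    exact absurd rfl h
  · intro x hx _
    rw [Ideal.isUnit_iff] at hx
    rw [hx, Ideal.absNorm_top, hf1, Nat.cast_one]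
  · intro a p ha hp ih hpa
    have hp0 : p ≠ ⊥ := hp.ne_zero
    have hpP : p.IsPrime := (Ideal.prime_iff_isPrime hp0).1 hp
    have h1 : absNorm p ≠ 0 := by
      rw [Ne, absNorm_eq_zero_iff]; exact hp0
    have h2 : absNorm a ≠ 0 := by
      rw [Ne, absNorm_eq_zero_iff]; exact ha
    rw [map_mul, hfmul _ _ h1 h2, Nat.cast_mul, hprime p hp0 hpP, ih ha, one_mul]

end Induction

section BaseChangeNorm

variable (K : Type*) [Field K] [NumberField K]

/-- `N_{ℚ_q ⊗ K / ℚ_q}(1 ⊗ c) = N_{K/ℚ}(c)`. -/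
theorem norm_one_tmul (q : ℕ) [Fact q.Prime] (c : K) :
    Algebra.norm ℚ_[q] ((1 : ℚ_[q]) ⊗ₜ[ℚ] c : SemiLoc q K) =
      ((Algebra.norm ℚ c : ℚ) : ℚ_[q]) := by
  have h1 : Algebra.lmul ℚ_[q] (SemiLoc q K) ((1 : ℚ_[q]) ⊗ₜ[ℚ] c) =
      (Algebra.lmul ℚ K c).baseChange ℚ_[q] := by
    apply LinearMap.ext
    intro x
    induction x using TensorProduct.induction_on with
    | zero => simp
    | tmul a b =>
      simp [Algebra.TensorProduct.tmul_mul_tmul, LinearMap.baseChange_tmul]
    | add x y hx hy => rw [map_add, map_add, hx, hy]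
  rw [Algebra.norm_apply, h1, LinearMap.det_baseChange, ← Algebra.norm_apply, eq_ratCast]

theorem coe_semiNorm_principalPi (q : Nat.Primes) (c : Kˣ) :
    ((semiNorm K (q : ℕ) (principalPi K c q) : ℚ_[(q : ℕ)]ˣ) : ℚ_[(q : ℕ)]) =
      ((Algebra.norm ℚ (c : K) : ℚ) : ℚ_[(q : ℕ)]) := by
  rw [coe_semiNorm, principalPi_apply_coe]
  exact norm_one_tmul K (q : ℕ) (c : K)

end BaseChangeNorm

section LocalNat

variable (q : ℕ) [Fact q.Prime] (l m : ℕ) [Fact l.Prime]

/-- The natural number whose class modulo `l ^ m` is (up to inversion) the local cyclotomic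
symbol at `q` of the positive integer `n`: the prime-to-`l` part of `n` if `q = l`, and the
`q`-part of `n` otherwise. -/
def expVal (n : ℕ) : ℕ := if q = l then ordCompl[l] n else ordProj[q] n

omit [Fact q.Prime] [Fact l.Prime] in
theorem expVal_one : expVal q l 1 = 1 := by
  unfold expVal
  split_ifs <;> simp

omit [Fact q.Prime] [Fact l.Prime] in
theorem expVal_mul {a b : ℕ} (ha : a ≠ 0) (hb : b ≠ 0) :
    expVal q l (a * b) = expVal q l a * expVal q l b := by
  unfold expVal
  split_ifs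
  · exact Nat.ordCompl_mul a b l
  · exact Nat.ordProj_mul q ha hb

theorem cycSymLoc_eq_one_of_natCast (a : ℚ_[q]ˣ) (n : ℕ)
    (ha : (a : ℚ_[q]) = (n : ℚ_[q])) (hE : ((expVal q l n : ℕ) : ZMod (l ^ m)) = 1) :
    cycSymLoc q l m a = 1 := by
  by_cases h : q = l
  · subst h
    rw [expVal, if_pos rfl] at hE
    rw [cycSymLoc_self_apply, inv_eq_one]
    apply Units.ext
    rw [Units.coe_map, Units.val_one]
    have hq : (q : ℚ_[q]) ≠ 0 := by exact_mod_cast (Fact.out : q.Prime).ne_zero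
    have hval : (((padicUnitPart q a : ℤ_[q]ˣ) : ℤ_[q])) = ((ordCompl[q] n : ℕ) : ℤ_[q]) := by
      apply Subtype.ext
      rw [coe_padicUnitPart, ha, Padic.valuation_natCast, PadicInt.coe_natCast]
      have h1 : (n : ℚ_[q]) = ((ordProj[q] n : ℕ) : ℚ_[q]) * ((ordCompl[q] n : ℕ) : ℚ_[q]) := by
        rw [← Nat.cast_mul, Nat.ordProj_mul_ordCompl_eq_self]
      have h2 : ((ordProj[q] n : ℕ) : ℚ_[q]) = (q : ℚ_[q]) ^ (padicValNat q n : ℤ) := by
        rw [Nat.factorization_def n (Fact.out : q.Prime), Nat.cast_pow, zpow_natCast]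
      conv_lhs => rw [h1, h2]
      rw [mul_comm, ← mul_assoc, ← zpow_add₀ hq, neg_add_cancel, zpow_zero, one_mul]
    change (PadicInt.toZModPow m) (((padicUnitPart q a : ℤ_[q]ˣ) : ℤ_[q])) = 1
    rw [hval, map_natCast]
    exact hE
  · rw [expVal, if_neg h] at hE
    rw [cycSymLoc_apply_of_ne q l m h, ha, Padic.valuation_natCast, zpow_natCast]
    apply Units.ext
    rw [Units.val_pow_eq_pow_val, Units.val_one, primeUnit, ZMod.coe_unitOfCoprime,
      ← Nat.cast_pow, ← Nat.factorization_def n (Fact.out : q.Prime)]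
    exact hE

end LocalNat

section Main

variable (K : Type*) [Field K] [NumberField K] (l m : ℕ) [Fact l.Prime]

/-- If `K ∋ ζ_{l^m}`, the norm of a nonzero prime of `𝓞 K` not above `l` is `≡ 1 mod l^m`. -/
theorem cast_absNorm_eq_one_of_coprime {ζ : K} (hζ : IsPrimitiveRoot ζ (l ^ m))
    {P : Ideal (𝓞 K)} (hP₀ : P ≠ ⊥) (hP₁ : P.IsPrime) (hcop : (absNorm P).Coprime l) :
    ((absNorm P : ℕ) : ZMod (l ^ m)) = 1 := by
  have : NeZero (l ^ m) := ⟨pow_ne_zero m (Fact.out : l.Prime).ne_zero⟩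
  have hdvd := dvd_absNorm_sub_one_of_isPrimitiveRoot hζ hP₀ hP₁ (Nat.Coprime.pow_right m hcop)
  have hpos : 1 ≤ absNorm P := by
    have : absNorm P ≠ 0 := by
      rw [Ne, absNorm_eq_zero_iff]; exact hP₀
    omega
  have h1 : absNorm P = (absNorm P - 1) + 1 := by omega
  rw [h1, Nat.cast_add, Nat.cast_one, (ZMod.natCast_eq_zero_iff _ _).2 hdvd, zero_add]

/-- The expected value of the local symbol at `q` on the norm of a nonzero prime ideal is
`≡ 1 mod l^m`. -/
theorem cast_expVal_absNorm_prime {ζ : K} (hζ : IsPrimitiveRoot ζ (l ^ m)) (q : ℕ)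
    [Fact q.Prime] {P : Ideal (𝓞 K)} (hP₀ : P ≠ ⊥) (hP₁ : P.IsPrime) :
    ((expVal q l (absNorm P) : ℕ) : ZMod (l ^ m)) = 1 := by
  have hl : l.Prime := Fact.out
  have hq : q.Prime := Fact.out
  obtain ⟨p, j, hp, hj⟩ := exists_prime_pow_eq_absNorm hP₀ hP₁
  have hone : p ≠ l → ((absNorm P : ℕ) : ZMod (l ^ m)) = 1 := by
    intro hpl
    refine cast_absNorm_eq_one_of_coprime K l m hζ hP₀ hP₁ ?_
    rw [hj]
    exact Nat.Coprime.pow_left j ((Nat.coprime_primes hp hl).2 hpl)
  unfold expVal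
  split_ifs with h
  · by_cases hpl : p = l
    · rw [hj, hpl, Nat.ordCompl_self_pow hl, Nat.cast_one]
    · have h2 : ordCompl[l] (absNorm P) = absNorm P := by
        rw [hj]
        have hnd : ¬ l ∣ p ^ j := fun hd =>
          hpl ((Nat.prime_dvd_prime_iff_eq hl hp).1 (hl.dvd_of_dvd_pow hd)).symm
        have := Nat.ordCompl_pow_mul_of_not_dvd 0 hl hnd
        simpa using this
      rw [h2]
      exact hone hpl
  · by_cases hpq : p = q
    · have hpl : p ≠ l := fun hpl => h (hpq.symm.trans hpl)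
      have h2 : ordProj[q] (absNorm P) = absNorm P := by
        rw [hj, hpq, Nat.ordProj_self_pow hq]
      rw [h2]
      exact hone hpl
    · have h2 : (absNorm P).factorization q = 0 := by
        rw [hj, Nat.factorization_pow, Finsupp.smul_apply,
          Nat.factorization_eq_zero_of_not_dvd
            (fun hd => hpq ((Nat.prime_dvd_prime_iff_eq hq hp).1 hd).symm), smul_zero]
      rw [h2, pow_zero, Nat.cast_one]

/-- The expected value of the local symbol at `q` on the norm of a nonzero ideal. -/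
theorem cast_expVal_absNorm {ζ : K} (hζ : IsPrimitiveRoot ζ (l ^ m)) (q : ℕ)
    [Fact q.Prime] (I : Ideal (𝓞 K)) (hI : I ≠ ⊥) :
    ((expVal q l (absNorm I) : ℕ) : ZMod (l ^ m)) = 1 :=
  cast_apply_absNorm_eq_one (l ^ m) (expVal q l) (expVal_one q l)
    (fun _ _ ha hb => expVal_mul q l ha hb)
    (fun _ hP₀ hP₁ => cast_expVal_absNorm_prime K l m hζ q hP₀ hP₁) I hI

/-- The norm of a nonzero integer of a field containing a root of unity of order `> 2` is the
absolute norm of the ideal it generates. -/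
theorem norm_eq_absNorm_span {ζ : K} {k : ℕ} (hk : 2 < k) (hζ : IsPrimitiveRoot ζ k)
    (a : 𝓞 K) (ha : a ≠ 0) :
    Algebra.norm ℚ (a : K) = ((absNorm (Ideal.span {a}) : ℕ) : ℚ) := by
  have ha' : (a : K) ≠ 0 := by
    intro h
    apply ha
    exact RingOfIntegers.coe_injective (by simpa using h)
  have hpos := norm_pos_of_isPrimitiveRoot hk hζ ha'
  have h1 : ((Algebra.norm ℤ a : ℤ) : ℚ) = Algebra.norm ℚ (a : K) := Algebra.coe_norm_int a
  have h2 : (0 : ℤ) < Algebra.norm ℤ a := by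
    have : (0 : ℚ) < ((Algebra.norm ℤ a : ℤ) : ℚ) := by rw [h1]; exact hpos
    exact_mod_cast this
  have h5 : ((absNorm (Ideal.span {a}) : ℕ) : ℤ) = Algebra.norm ℤ a := by
    rw [Ideal.absNorm_span_singleton]
    exact Int.natAbs_of_nonneg h2.le
  rw [← h1, ← h5]
  push_cast
  rfl

/-- **R2-SYM-C** (global cyclotomic congruence): if `K` contains a primitive `l^m`-th root of
unity (`l^m > 2`), the local symbols of all global elements are trivial. -/
theorem cycSymAt_principalPi_eq_one_of_primitiveRoot (hlm : 2 < l ^ m)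
    (hζ : ∃ ζ : K, IsPrimitiveRoot ζ (l ^ m)) (q : Nat.Primes) (c : Kˣ) :
    cycSymAt K l m (q : ℕ) (principalPi K c q) = 1 := by
  obtain ⟨ζ, hζ⟩ := hζ
  obtain ⟨a, b, hb, hab⟩ := IsFractionRing.div_surjective (A := 𝓞 K) (c : K)
  have hb0 : b ≠ 0 := nonZeroDivisors.ne_zero hb
  have ha0 : a ≠ 0 := by
    rintro rfl
    rw [map_zero, zero_div] at hab
    exact c.ne_zero hab.symm
  set A : ℕ := absNorm (Ideal.span {a}) with hA
  set B : ℕ := absNorm (Ideal.span {b}) with hB
  have hIa : Ideal.span {a} ≠ ⊥ := by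
    rw [Ne, Ideal.span_singleton_eq_bot]; exact ha0
  have hIb : Ideal.span {b} ≠ ⊥ := by
    rw [Ne, Ideal.span_singleton_eq_bot]; exact hb0
  have hA0 : A ≠ 0 := by
    rw [hA, Ne, absNorm_eq_zero_iff]; exact hIa
  have hB0 : B ≠ 0 := by
    rw [hB, Ne, absNorm_eq_zero_iff]; exact hIb
  have hb' : ((b : 𝓞 K) : K) ≠ 0 := by
    intro h
    apply hb0
    exact RingOfIntegers.coe_injective (by simpa using h)
  have hcb : (c : K) * ((b : 𝓞 K) : K) = ((a : 𝓞 K) : K) := by
    rw [← hab]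
    change algebraMap (𝓞 K) K a / algebraMap (𝓞 K) K b * algebraMap (𝓞 K) K b = _
    rw [div_mul_cancel₀]
    exact hb'
  have hnorm : Algebra.norm ℚ (c : K) * (B : ℚ) = (A : ℚ) := by
    rw [hA, hB, ← norm_eq_absNorm_span K hlm hζ a ha0, ← norm_eq_absNorm_span K hlm hζ b hb0,
      ← map_mul, hcb]
  have hAq : ((A : ℕ) : ℚ_[(q : ℕ)]) ≠ 0 := by exact_mod_cast hA0
  have hBq : ((B : ℕ) : ℚ_[(q : ℕ)]) ≠ 0 := by exact_mod_cast hB0
  let uA : ℚ_[(q : ℕ)]ˣ := Units.mk0 _ hAq
  let uB : ℚ_[(q : ℕ)]ˣ := Units.mk0 _ hBq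
  have hs : semiNorm K (q : ℕ) (principalPi K c q) * uB = uA := by
    apply Units.ext
    rw [Units.val_mul, coe_semiNorm_principalPi]
    change ((Algebra.norm ℚ (c : K) : ℚ) : ℚ_[(q : ℕ)]) * ((B : ℕ) : ℚ_[(q : ℕ)]) =
      ((A : ℕ) : ℚ_[(q : ℕ)])
    have := congrArg (fun r : ℚ => (r : ℚ_[(q : ℕ)])) hnorm
    simpa using this
  have hEA := cycSymLoc_eq_one_of_natCast (q : ℕ) l m uA A rfl
    (cast_expVal_absNorm K l m hζ (q : ℕ) _ hIa)
  have hEB := cycSymLoc_eq_one_of_natCast (q : ℕ) l m uB B rfl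
    (cast_expVal_absNorm K l m hζ (q : ℕ) _ hIb)
  have h := congrArg (cycSymLoc (q : ℕ) l m) hs
  rw [map_mul, hEA, hEB, mul_one] at h
  exact h

end Main

end Fermat.Agent.S55.helper92
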