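import Mathlib

/-!
# S55 / REC2-FIELD (helper99, task 378): the auxiliary fields of REC2

For a Galois extension `L/F` of number fields and primes `p ≠ l`:
`M₁ = F(ζ_l)`, `M₀ =` the maximal `p`-power-degree subextension of `M₁/F` (fixed field of the
prime-to-`p` part of the cyclic group `Gal(M₁/F)`), `N = L M₀` (compositum).

* `exists_compositum_gen` : compositum of two Galois extensions of a number field, generated by
  the two fields (an automorphism trivial on both is trivial).
* `exists_aux_fields` : statement R2-FIELD of `helper33_Rec2Interface` v1.1, verbatim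
  (with the clause `Module.finrank F M₀ ∣ l - 1`).
-/

set_option autoImplicit false
set_option linter.style.haveILetI false
set_option linter.unusedSectionVars false
set_option linter.unusedVariables false

open scoped NumberField

namespace Fermat.Agent.S55.helper99

open IntermediateField

/-- Compositum of two finite Galois extensions `L`, `M` of a number field `F`: Galois over `F`,
`L` and `M`, and generated by `L` and `M`. -/
theorem exists_compositum_gen (F L M : Type) [Field F] [NumberField F] [Field L]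
    [NumberField L] [Field M] [NumberField M] [Algebra F L] [Algebra F M] [IsGalois F L]
    [IsGalois F M] :
    ∃ (N : Type) (_ : Field N) (_ : NumberField N) (_ : Algebra F N) (_ : Algebra L N)
      (_ : Algebra M N) (_ : IsScalarTower F L N) (_ : IsScalarTower F M N)
      (_ : IsGalois F N) (_ : IsGalois L N) (_ : IsGalois M N),
      ∀ σ : Gal(N/F), AlgEquiv.restrictNormalHom L σ = 1 →
        AlgEquiv.restrictNormalHom M σ = 1 → σ = 1 := by
  classical
  haveI : FiniteDimensional F L := Module.Finite.of_restrictScalars_finite ℚ F L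
  haveI : FiniteDimensional F M := Module.Finite.of_restrictScalars_finite ℚ F M
  let Ω := AlgebraicClosure F
  let fL : L →ₐ[F] Ω := IsAlgClosed.lift
  let fM : M →ₐ[F] Ω := IsAlgClosed.lift
  let EL : IntermediateField F Ω := fL.fieldRange
  let EM : IntermediateField F Ω := fM.fieldRange
  let eL : L ≃ₐ[F] EL := AlgEquiv.ofInjectiveField fL
  let eM : M ≃ₐ[F] EM := AlgEquiv.ofInjectiveField fM
  haveI : IsGalois F EL := IsGalois.of_algEquiv eL
  haveI : IsGalois F EM := IsGalois.of_algEquiv eM
  haveI : FiniteDimensional F EL := eL.toLinearEquiv.finiteDimensional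
  haveI : FiniteDimensional F EM := eM.toLinearEquiv.finiteDimensional
  let E : IntermediateField F Ω := EL ⊔ EM
  haveI : FiniteDimensional F E := IntermediateField.finiteDimensional_sup EL EM
  haveI : Normal F E := inferInstanceAs (Normal F (EL ⊔ EM : IntermediateField F Ω))
  haveI : Algebra.IsSeparable F E :=
    inferInstanceAs (Algebra.IsSeparable F (EL ⊔ EM : IntermediateField F Ω))
  haveI : IsGalois F E := ⟨⟩
  have hL : ∀ x : L, fL x ∈ E := fun x =>
    (le_sup_left : EL ≤ E) (AlgHom.mem_fieldRange.mpr ⟨x, rfl⟩)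
  have hM : ∀ x : M, fM x ∈ E := fun x =>
    (le_sup_right : EM ≤ E) (AlgHom.mem_fieldRange.mpr ⟨x, rfl⟩)
  let gL : L →ₐ[F] E := fL.codRestrict E.toSubalgebra hL
  let gM : M →ₐ[F] E := fM.codRestrict E.toSubalgebra hM
  letI aL : Algebra L E := gL.toRingHom.toAlgebra
  letI aM : Algebra M E := gM.toRingHom.toAlgebra
  haveI tL : IsScalarTower F L E := IsScalarTower.of_algebraMap_eq fun x => (gL.commutes x).symm
  haveI tM : IsScalarTower F M E := IsScalarTower.of_algebraMap_eq fun x => (gM.commutes x).symm
  haveI : NumberField E := NumberField.of_module_finite F E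
  refine ⟨E, inferInstance, inferInstance, inferInstance, aL, aM, tL, tM, inferInstance,
    IsGalois.tower_top_of_isGalois F L E, IsGalois.tower_top_of_isGalois F M E, ?_⟩
  intro σ hσL hσM
  -- `σ` fixes the images of `L` and `M`
  have h1 : ∀ x : L, σ (gL x) = gL x := by
    intro x
    have h := AlgEquiv.restrictNormal_commutes σ L x
    have h' : AlgEquiv.restrictNormal σ L = 1 := hσL
    rw [h'] at h
    exact h.symm
  have h2 : ∀ x : M, σ (gM x) = gM x := by
    intro x
    have h := AlgEquiv.restrictNormal_commutes σ M x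
    have h' : AlgEquiv.restrictNormal σ M = 1 := hσM
    rw [h'] at h
    exact h.symm
  have key : (σ : E →ₐ[F] E) = AlgHom.id F E := by
    apply IntermediateField.algHom_ext_of_eq_adjoin F
      (IntermediateField.sup_def EL EM)
    intro x hx
    rcases hx with hx | hx
    · obtain ⟨y, rfl⟩ := AlgHom.mem_fieldRange.mp hx
      exact h1 y
    · obtain ⟨y, rfl⟩ := AlgHom.mem_fieldRange.mp hx
      exact h2 y
  apply AlgEquiv.ext
  intro x
  exact DFunLike.congr_fun key x

section Cyclo

variable (p l : ℕ) [Fact p.Prime] [Fact l.Prime] (F E : Type*) [Field F] [NumberField F]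
  [Field E] [NumberField E] [Algebra F E] [IsGalois F E] [IsCyclotomicExtension {l} F E]
  {ζ : E} (hζ : IsPrimitiveRoot ζ l)

/-- The automorphisms of `F(ζ_l)/F` of order prime to `p`: those whose cyclotomic character is
killed by the prime-to-`p` part of `l - 1`. -/
noncomputable def rec2Subgroup : Subgroup Gal(E/F) :=
  (powMonoidHom (ordCompl[p] (l - 1)) : (ZMod l)ˣ →* (ZMod l)ˣ).ker.comap (hζ.autToPow F)

/-- The maximal `p`-power-degree subextension of `F(ζ_l)/F`. -/
noncomputable def rec2Field : IntermediateField F E :=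
  IntermediateField.fixedField (rec2Subgroup p l F E hζ)

lemma mem_rec2Subgroup (τ : Gal(E/F)) :
    τ ∈ rec2Subgroup p l F E hζ ↔ hζ.autToPow F τ ^ (ordCompl[p] (l - 1)) = 1 := by
  unfold rec2Subgroup
  rw [Subgroup.mem_comap, MonoidHom.mem_ker]
  rfl

lemma pow_eq_one_of_mem_rec2Subgroup (τ : Gal(E/F)) (hτ : τ ∈ rec2Subgroup p l F E hζ) :
    τ ^ (ordCompl[p] (l - 1)) = 1 := by
  apply hζ.autToPow_injective F
  rw [map_pow, map_one]
  exact (mem_rec2Subgroup p l F E hζ τ).mp hτ

lemma pow_mem_rec2Subgroup (τ : Gal(E/F)) :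
    τ ^ (p ^ (l - 1).factorization p) ∈ rec2Subgroup p l F E hζ := by
  rw [mem_rec2Subgroup, map_pow, ← pow_mul, Nat.ordProj_mul_ordCompl_eq_self]
  exact ZMod.units_pow_card_sub_one_eq_one l _

lemma not_dvd_card_rec2Subgroup : ¬ p ∣ Nat.card (rec2Subgroup p l F E hζ) := by
  intro hdvd
  have hl1 : l - 1 ≠ 0 := by
    have := (Fact.out : l.Prime).two_le
    omega
  obtain ⟨x, hx⟩ := exists_prime_orderOf_dvd_card' p hdvd
  have h1 : x ^ (ordCompl[p] (l - 1)) = 1 := by
    apply Subtype.ext
    rw [Subgroup.coe_pow, Subgroup.coe_one]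
    exact pow_eq_one_of_mem_rec2Subgroup p l F E hζ x.1 x.2
  have h2 : p ∣ ordCompl[p] (l - 1) := by
    have h3 : orderOf x ∣ ordCompl[p] (l - 1) := orderOf_dvd_of_pow_eq_one h1
    rwa [hx] at h3
  exact Nat.not_dvd_ordCompl (Fact.out : p.Prime) hl1 h2

include hζ in
lemma card_gal_cyclo_dvd : Nat.card Gal(E/F) ∣ l - 1 := by
  have h2 : Nat.card Gal(E/F) ∣ Nat.card (ZMod l)ˣ :=
    Subgroup.card_dvd_of_injective (hζ.autToPow F) (hζ.autToPow_injective F)
  have h3 : Nat.card (ZMod l)ˣ = l - 1 := by
    rw [Nat.card_eq_fintype_card, ZMod.card_units_eq_totient, Nat.totient_prime Fact.out]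
  rwa [h3] at h2

lemma card_rec2Subgroup_dvd : Nat.card (rec2Subgroup p l F E hζ) ∣ l - 1 :=
  (Subgroup.card_subgroup_dvd_card _).trans (card_gal_cyclo_dvd l F E hζ)

lemma finrank_rec2Field_dvd [IsGalois F (rec2Field p l F E hζ)] :
    Module.finrank F (rec2Field p l F E hζ) ∣ l - 1 := by
  rw [← IsGalois.card_aut_eq_finrank F (rec2Field p l F E hζ)]
  exact (Subgroup.card_dvd_of_surjective
    (AlgEquiv.restrictNormalHom (rec2Field p l F E hζ))
    (AlgEquiv.restrictNormalHom_surjective E)).trans (card_gal_cyclo_dvd l F E hζ)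

lemma finrank_rec2Field_top :
    Module.finrank (rec2Field p l F E hζ) E = Nat.card (rec2Subgroup p l F E hζ) := by
  classical
  unfold rec2Field
  rw [IntermediateField.finrank_fixedField_eq_card]

lemma restrict_rec2Field_eq_one [Normal F (rec2Field p l F E hζ)] (τ : Gal(E/F))
    (hτ : τ ∈ rec2Subgroup p l F E hζ) :
    AlgEquiv.restrictNormalHom (rec2Field p l F E hζ) τ = 1 := by
  apply AlgEquiv.ext
  intro x
  apply Subtype.ext
  have h := AlgEquiv.restrictNormal_commutes τ (rec2Field p l F E hζ) x
  have hx : (x : E) ∈ IntermediateField.fixedField (rec2Subgroup p l F E hζ) := x.2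
  have h' : τ (x : E) = x := (IntermediateField.mem_fixedField_iff _ _).mp hx τ hτ
  exact h.trans h'

end Cyclo

/-- **R2-FIELD.** For a Galois extension `L/F` of number fields and primes `p ≠ l` there are
number fields `M₀ ⊆ M₁` over `F` and `N ⊇ L, M₀` such that `M₀/F` is cyclic of `p`-power degree,
`M₁ ∋ ζ_l`, `[M₁ : M₀]` is prime to `p` and divides `l - 1`, `N/F` is Galois and generated by
`L` and `M₀` (an automorphism of `N/F` trivial on `L` and on `M₀` is trivial); `[M₀ : F]` divides
`l - 1`.  (Interface v1.1 of helper33.) -/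
theorem exists_aux_fields (F L : Type) [Field F] [NumberField F] [Field L] [NumberField L]
    [Algebra F L] [IsGalois F L] (p l : ℕ) [Fact p.Prime] [Fact l.Prime] (hpl : p ≠ l) :
    ∃ (M₀ : Type) (_ : Field M₀) (_ : NumberField M₀) (_ : Algebra F M₀) (_ : IsGalois F M₀)
      (M₁ : Type) (_ : Field M₁) (_ : NumberField M₁) (_ : Algebra M₀ M₁) (_ : IsGalois M₀ M₁)
      (N : Type) (_ : Field N) (_ : NumberField N) (_ : Algebra F N) (_ : Algebra L N)
      (_ : Algebra M₀ N) (_ : IsScalarTower F L N) (_ : IsScalarTower F M₀ N)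
      (_ : IsGalois F N) (_ : IsGalois L N) (_ : IsGalois M₀ N),
      IsCyclic Gal(M₀/F) ∧ (∃ k : ℕ, Module.finrank F M₀ = p ^ k) ∧
      Module.finrank F M₀ ∣ l - 1 ∧
      (∃ ζ : M₁, IsPrimitiveRoot ζ l) ∧ Module.finrank M₀ M₁ ∣ l - 1 ∧
      ¬ p ∣ Module.finrank M₀ M₁ ∧
      (∀ σ : Gal(N/F), AlgEquiv.restrictNormalHom L σ = 1 →
        AlgEquiv.restrictNormalHom M₀ σ = 1 → σ = 1) := by
  classical
  have hp : p.Prime := Fact.out
  haveI : IsGalois F (CyclotomicField l F) :=
    IsCyclotomicExtension.isGalois {l} F (CyclotomicField l F)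
  have hζ : IsPrimitiveRoot (IsCyclotomicExtension.zeta l F (CyclotomicField l F)) l :=
    IsCyclotomicExtension.zeta_spec l F (CyclotomicField l F)
  haveI hnorm : (rec2Subgroup p l F (CyclotomicField l F) hζ).Normal := by
    unfold rec2Subgroup
    infer_instance
  haveI hgal : IsGalois F (rec2Field p l F (CyclotomicField l F) hζ) :=
    IsGalois.of_fixedField_normal_subgroup (rec2Subgroup p l F (CyclotomicField l F) hζ)
  haveI hcyc : IsCyclic Gal(CyclotomicField l F/F) :=
    isCyclic_of_injective (hζ.autToPow F) (hζ.autToPow_injective F)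
  obtain ⟨N, iN1, iN2, iN3, iN4, iN5, iN6, iN7, iN8, iN9, iN10, hN⟩ :=
    exists_compositum_gen F L (rec2Field p l F (CyclotomicField l F) hζ)
  refine ⟨rec2Field p l F (CyclotomicField l F) hζ, inferInstance, inferInstance, inferInstance,
    hgal, CyclotomicField l F, inferInstance, inferInstance, inferInstance, inferInstance,
    N, iN1, iN2, iN3, iN4, iN5, iN6, iN7, iN8, iN9, iN10, ?_, ?_,
    finrank_rec2Field_dvd p l F (CyclotomicField l F) hζ, ⟨_, hζ⟩, ?_, ?_, hN⟩
  · exact isCyclic_of_surjective
      (AlgEquiv.restrictNormalHom (rec2Field p l F (CyclotomicField l F) hζ))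
      (AlgEquiv.restrictNormalHom_surjective (CyclotomicField l F))
  · rw [← IsGalois.card_aut_eq_finrank F (rec2Field p l F (CyclotomicField l F) hζ)]
    have hpg : IsPGroup p Gal(rec2Field p l F (CyclotomicField l F) hζ/F) := by
      intro g
      obtain ⟨τ, rfl⟩ := AlgEquiv.restrictNormalHom_surjective (F := F)
        (K₁ := rec2Field p l F (CyclotomicField l F) hζ) (CyclotomicField l F) g
      refine ⟨(l - 1).factorization p, ?_⟩
      rw [← map_pow]
      exact restrict_rec2Field_eq_one p l F (CyclotomicField l F) hζ _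
        (pow_mem_rec2Subgroup p l F (CyclotomicField l F) hζ τ)
    exact (IsPGroup.iff_card.mp hpg)
  · rw [finrank_rec2Field_top]
    exact card_rec2Subgroup_dvd p l F (CyclotomicField l F) hζ
  · rw [finrank_rec2Field_top]
    exact not_dvd_card_rec2Subgroup p l F (CyclotomicField l F) hζ

end Fermat.Agent.S55.helper99
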