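import Fermat.Agent.S55.helper33_Rec2Simple
import Fermat.Agent.S55.helper15_Rec2Sym
import Fermat.Agent.S55.helper67_Rec2SymN
import Fermat.Agent.S55.helper82_Rec2SymDFinal
import Fermat.Agent.S55.helper92_Rec2SymC
import Fermat.Agent.S55.helper56_Rec2Abs
import Fermat.Agent.S55.helper63_Rec2Beta
import Fermat.Agent.S55.helper15_RecN1Wiring
import Fermat.Agent.S55.helper99_Rec2Field
import Fermat.Agent.S55.helper69_Rec2G1
import Fermat.Agent.S55.helper37_Rec2Ineq
import Fermat.Agent.S55.helper1_Rec2Tate

/-!
# S55 / REC2: wiring of the assembly R2-SIMPLE and of R2-TATE (helper33, tasks 251/382)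

All REC2 packages are on main; the only remaining inputs are the two GLOB G9 statements
`helper1.HypGlobH1` (`H¹(Gal(L/K), C_L) = 1`) and `helper1.HypGlobH2`
(`|H²(Gal(L/K), C_L)| ∣ [L : K]`), for Galois extensions of odd prime power degree.

* `symHyp : SymHyp` -- unconditional;
* `rec2Hyp_of_glob` : `Rec2Hyp` from the two GLOB G9 statements;
* `hypRec2Simple_of_glob` : `helper1.HypRec2Simple` (= R2-SIMPLE) from the two GLOB G9 statements;
* `isZero_H3_ideleClass_of_glob`, `card_H2_ideleClass_of_glob`,
  `exists_fundamentalClass_of_glob`, `isZero_H1_res_ideleClass_of_glob` : R2-TATE from the two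
  GLOB G9 statements only.
-/

set_option autoImplicit false

open scoped TensorProduct NumberField
open groupCohomology

namespace Fermat.Agent.S55.helper33

open Fermat.Agent.S55.helper73 Fermat.Agent.S55.helper6

/-- The package statements on the cyclotomic idele symbol, unconditional. -/
theorem symHyp : SymHyp where
  mul := fun K _ _ l _ y y' => helper15.cycSymFun_mul K l 1 y y'
  principal := fun K _ _ l _ y hy => helper15.cycSymFun_principal K l 1 y hy
  single := fun K _ _ l _ q x => helper15.cycSymFun_singleIdele K l 1 q x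
  atPrincipal := fun K _ _ l _ q hq c => helper15.cycSymAt_principalPi K l 1 q hq c
  normG := fun K L _ _ _ _ _ _ l _ x y h =>
    helper67.cycSymFun_eq_of_bcIdele_eq_normG K L l 1 x y h
  bc := fun K L _ _ _ _ _ l _ x => helper67.cycSymFun_bcIdele K L l 1 x
  root := fun K _ _ l _ hl hζ y =>
    helper82.cycSymFun_eq_one_of_primitiveRoot_of_congr K l
      (fun m hlm hζm q c =>
        helper92.cycSymAt_principalPi_eq_one_of_primitiveRoot K l m hlm hζm q c) hl hζ y

/-- Package R2-ABS, unconditional. -/
theorem absStatement : AbsStatement :=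
  fun ιA DA ιB DB ι₀ hinj₀ hfix₀ σ hσ hdvd h1A h1B h2 𝔄 h3 β b₀ hb₀ h4 =>
    helper56.exists_cocycle_of_order ιA DA ιB DB ι₀ hinj₀ hfix₀ σ hσ hdvd h1A h1B h2 𝔄 h3 β b₀
      hb₀ h4

/-- Package R2-BETA, unconditional. -/
theorem betaStatement : BetaStatement :=
  fun L _ _ T => helper63.exists_prime_norm_valuation_one L T

/-- REC-N1, unconditional. -/
theorem n1Statement : N1Statement :=
  fun p _ hp2 m hm Q hQ T => helper15.exists_aux_prime_multi_uncond p hp2 m hm Q hQ T

/-- Package R2-FIELD, unconditional. -/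
theorem fieldStatement : FieldStatement :=
  fun F L _ _ _ _ _ _ p l _ _ hpl => helper99.exists_aux_fields F L p l hpl

/-- Package R2-G1 (1), unconditional. -/
theorem inflStatement : InflStatement :=
  fun F E N _ _ _ _ _ _ _ _ _ _ _ _ => helper69.inflDatum_ideleClassMap F E N

/-- Package R2-G1 (3), unconditional. -/
theorem fixedClassStatement : FixedClassStatement :=
  fun F N _ _ _ _ _ _ c hc => helper69.exists_ideleClassMap_eq_of_fixed F N c hc

/-- GLOB G1 (descent of fixed ideles), unconditional. -/
theorem fixedIdeleDescent : FixedIdeleDescent :=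
  fun K L _ _ _ _ _ _ x hx => helper69.exists_bcIdele_of_fixed K L x hx

/-- Package R2-G1 (2), unconditional. -/
theorem ideleClassMapInjective : IdeleClassMapInjective :=
  fun K L _ _ _ _ _ _ => helper69.ideleClassMap_injective K L

/-- All inputs of the assembly R2-SIMPLE, from the two GLOB G9 statements. -/
theorem rec2Hyp_of_glob (hH1 : helper1.HypGlobH1) (hH2 : helper1.HypGlobH2) : Rec2Hyp where
  sym := symHyp
  abs := absStatement
  beta := betaStatement
  n1 := n1Statement
  field := fieldStatement
  infl := inflStatement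
  fixedClass := fixedClassStatement
  fixedIdele := fixedIdeleDescent
  inj := ideleClassMapInjective
  h1 := fun K L _ _ _ _ _ _ p hp hp2 n hdeg f hf => hH1 K L p hp hp2 n hdeg f hf
  ineq := fun K L _ _ _ _ _ _ _ p hp hp2 n hdeg =>
    helper37.hZero_ideleClass_dvd_of hH2 K L p hp hp2 n hdeg

/-- **R2-SIMPLE** from the two GLOB G9 statements: for `L/F` Galois of odd prime power degree
`p ^ n` there is a 2-cocycle of `Gal(L/F)` with values in `C_L` whose class has exact order
`p ^ n`. -/
theorem hypRec2Simple_of_glob (hH1 : helper1.HypGlobH1) (hH2 : helper1.HypGlobH2) :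
    helper1.HypRec2Simple :=
  fun F L _ _ _ _ _ _ p hp hp2 n hdeg =>
    exists_cocycle_ideleClass_of (rec2Hyp_of_glob hH1 hH2) F L p hp hp2 n hdeg

section Tate

variable (hH1 : helper1.HypGlobH1) (hH2 : helper1.HypGlobH2)
  (F L : Type) [Field F] [NumberField F] [Field L] [NumberField L] [Algebra F L]
  [IsGalois F L] (p : ℕ) (hp : p.Prime) (hp2 : p ≠ 2) (n : ℕ)
  (hdeg : Module.finrank F L = p ^ n)

include hH1 hH2 hp hp2 hdeg

/-- **R2-TATE (O1)**: `H³(Gal(L/F), C_L) = 0`, from the two GLOB G9 statements. -/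
theorem isZero_H3_ideleClass_of_glob :
    CategoryTheory.Limits.IsZero
      (groupCohomology (Rep.ofMulDistribMulAction Gal(L/F) (IdeleClass L)) 3) :=
  helper1.isZero_H3_ideleClass_of (hypRec2Simple_of_glob hH1 hH2) hH1 hH2 F L p hp hp2 n hdeg

/-- **R2-TATE**: `|H²(Gal(L/F), C_L)| = [L : F]` and `H²` is cyclic, from the two GLOB G9
statements. -/
theorem card_H2_ideleClass_of_glob :
    Nat.card (groupCohomology (Rep.ofMulDistribMulAction Gal(L/F) (IdeleClass L)) 2) = p ^ n ∧
      ∃ γ : groupCohomology (Rep.ofMulDistribMulAction Gal(L/F) (IdeleClass L)) 2,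
        ∀ x, ∃ m : ℤ, x = m • γ :=
  helper1.card_H2_ideleClass_of (hypRec2Simple_of_glob hH1 hH2) hH2 F L p hp hp2 n hdeg

/-- **R2-TATE (2)** (fundamental class), from the two GLOB G9 statements. -/
theorem exists_fundamentalClass_of_glob :
    ∃ γ : groupCohomology (Rep.ofMulDistribMulAction Gal(L/F) (IdeleClass L)) 2,
      (∀ U : Subgroup Gal(L/F), Nat.card (groupCohomology
        (Rep.res U.subtype (Rep.ofMulDistribMulAction Gal(L/F) (IdeleClass L))) 2) =
          Nat.card U) ∧
      (∀ U : Subgroup Gal(L/F), ∀ x : groupCohomology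
        (Rep.res U.subtype (Rep.ofMulDistribMulAction Gal(L/F) (IdeleClass L))) 2,
        ∃ m : ℤ, x = m • groupCohomology.map U.subtype (CategoryTheory.CategoryStruct.id _) 2 γ) :=
  helper1.exists_fundamentalClass_of (hypRec2Simple_of_glob hH1 hH2) hH2 F L p hp hp2 n hdeg

/-- The class of exact order `[L : F]` generating `H²(Gal(L/F), C_L)`, from the two GLOB G9
statements. -/
theorem exists_class_of_order_of_glob :
    Nat.card (groupCohomology (Rep.ofMulDistribMulAction Gal(L/F) (IdeleClass L)) 2) = p ^ n ∧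
      ∃ γ : groupCohomology (Rep.ofMulDistribMulAction Gal(L/F) (IdeleClass L)) 2,
        (∀ j : ℕ, j • γ = 0 ↔ p ^ n ∣ j) ∧ ∀ x, ∃ m : ℤ, x = m • γ :=
  helper1.exists_class_of_order_of (hypRec2Simple_of_glob hH1 hH2) hH2 F L p hp hp2 n hdeg

end Tate

end Fermat.Agent.S55.helper33
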