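import Fermat.Agent.S55.helper37_G9CField

/-!
# S55 / GLOB-G9-C (helper37, task 405): removal of the roots of unity

`cyclicH90'_of_cyclicH90 : CyclicH90.{v, v} p → CyclicH90'.{u, v} p` (statement of package C of
`helper78_G9Interface`, VERBATIM, unconditional): Hilbert 90 for the idele class group of a
cyclic extension `L/K` of degree `p` follows from the case where the base field contains the
`p`-th roots of unity.

Route: `L' = L(ζ_p)`, `K' = K(ζ_p) ⊆ L'`; restriction `Gal(L'/K') → Gal(L/K)` is bijective;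
`x' = bc(x)` has norm `1` for `L'/K'`, so `x' = σ' y' / y'`; the norm `N_Δ`, `Δ = Gal(L'/L)` of
order `d` prime to `p`, gives `x ^ d = σ y / y`; with `x ^ p ∈ (σ - 1) C_L` and Bezout,
`x ∈ (σ - 1) C_L`.
-/

set_option autoImplicit false
set_option linter.style.haveILetI false
set_option linter.unusedSectionVars false

open scoped NumberField
open Polynomial IntermediateField

namespace Fermat.Agent.S55.helper37

open Fermat.Agent.S55.helper73 Fermat.Agent.S55.helper78 Fermat.Agent.S55.helper96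

section norm

variable {G A : Type*} [Group G] [Fintype G] [CommGroup A] [MulDistribMulAction G A]

theorem smul_normG_self (σ : G) (x : A) : σ • normG G A x = normG G A x := by
  rw [normG_apply, Finset.smul_prod']
  simp_rw [← mul_smul]
  exact Fintype.prod_bijective (fun τ => σ * τ) (Group.mulLeft_bijective σ) _ _ (fun _ => rfl)

theorem normG_of_fixed (x : A) (hx : ∀ σ : G, σ • x = x) :
    normG G A x = x ^ Fintype.card G := by
  rw [normG_apply]
  simp_rw [hx]
  rw [Finset.prod_const, Finset.card_univ]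

end norm

section core

/-- The core descent: Hilbert 90 for `C_L`, `L/K` cyclic of degree `p`, from the statement for
extensions of fields containing `ζ_p`, using any cyclotomic extension `L' = L(ζ_p)`. -/
theorem cyclicH90_descent.{u, v} (K : Type u) (L L' : Type v) [Field K] [NumberField K] [Field L]
    [NumberField L] [Field L'] [NumberField L'] [Algebra K L] [Algebra L L'] [Algebra K L']
    [IsScalarTower K L L'] [IsGalois K L] (p : ℕ) [IsCyclotomicExtension {p} L L']
    (hp : p.Prime) (h : CyclicH90.{v, v} p)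
    (hdeg : Module.finrank K L = p) (σ : Gal(L/K)) (hσ : σ ≠ 1) (x : IdeleClass L)
    (hx : normG Gal(L/K) (IdeleClass L) x = 1) : ∃ y : IdeleClass L, σ • y / y = x := by
  classical
  haveI : NeZero p := ⟨hp.ne_zero⟩
  haveI : Fact p.Prime := ⟨hp⟩
  haveI : FiniteDimensional K L := Module.Finite.of_restrictScalars_finite ℚ K L
  haveI : FiniteDimensional K L' := Module.Finite.of_restrictScalars_finite ℚ K L'
  haveI : FiniteDimensional L L' := Module.Finite.of_restrictScalars_finite ℚ L L'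
  haveI : IsGalois K L' := isGalois_of_cyclotomic K L L' p
  haveI : IsGalois L L' := IsCyclotomicExtension.isGalois {p} L L'
  obtain ⟨ζ, hζ⟩ :=
    IsCyclotomicExtension.exists_isPrimitiveRoot L L' (Set.mem_singleton p) hp.ne_zero
  have hζK' : ζ ∈ K⟮ζ⟯ := IntermediateField.mem_adjoin_simple_self K ζ
  have hζ' : IsPrimitiveRoot (⟨ζ, hζK'⟩ : K⟮ζ⟯) p :=
    IsPrimitiveRoot.of_map_of_injective (f := algebraMap K⟮ζ⟯ L')
      (by exact hζ) (algebraMap K⟮ζ⟯ L').injective
  -- the restriction map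
  have hρ := resHom_commutes K L L' K⟮ζ⟯
  have hρinj := resHom_injective K L L' K⟮ζ⟯ p hζ hζK'
  have hτζ : ∀ τ : Gal(L'/K⟮ζ⟯), τ ζ = ζ := fun τ => τ.commutes (⟨ζ, hζK'⟩ : K⟮ζ⟯)
  -- degrees
  have hd1 : Module.finrank K K⟮ζ⟯ ≤ p - 1 := finrank_adjoin_primitiveRoot_le K L L' p hp hζ
  have hd1pos : 0 < Module.finrank K K⟮ζ⟯ := Module.finrank_pos
  have hdpos : 0 < Module.finrank L L' := Module.finrank_pos
  have hmul1 : Module.finrank K L * Module.finrank L L' = Module.finrank K L' :=
    Module.finrank_mul_finrank K L L'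
  have hmul2 : Module.finrank K K⟮ζ⟯ * Module.finrank K⟮ζ⟯ L' = Module.finrank K L' :=
    Module.finrank_mul_finrank K K⟮ζ⟯ L'
  have hcardG : Nat.card Gal(L/K) = p := by rw [IsGalois.card_aut_eq_finrank K L, hdeg]
  have hcard' : Nat.card Gal(L'/K⟮ζ⟯) ∣ p := by
    have := Subgroup.card_dvd_of_injective (resHom K L L' K⟮ζ⟯) hρinj
    rwa [hcardG] at this
  have hp1 : 1 ≤ p := hp.pos
  have hK'L' : Module.finrank K⟮ζ⟯ L' = p := by
    rw [IsGalois.card_aut_eq_finrank] at hcard'
    rcases (Nat.dvd_prime hp).1 hcard' with h1 | h1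
    · exfalso
      rw [h1, mul_one, ← hmul1, hdeg] at hmul2
      have : p ≤ p * Module.finrank L L' := Nat.le_mul_of_pos_right p hdpos
      omega
    · exact h1
  have hd : Module.finrank L L' = Module.finrank K K⟮ζ⟯ := by
    rw [hK'L', ← hmul1, hdeg, mul_comm] at hmul2
    exact (Nat.eq_of_mul_eq_mul_left hp.pos hmul2).symm
  have hcardΔ : Fintype.card Gal(L'/L) = Module.finrank L L' := by
    rw [← Nat.card_eq_fintype_card, IsGalois.card_aut_eq_finrank]
  have hcop : Nat.Coprime (Fintype.card Gal(L'/L)) p := by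
    rw [hcardΔ, hd, Nat.coprime_comm, Nat.Prime.coprime_iff_not_dvd hp]
    intro hdvd
    have := Nat.le_of_dvd hd1pos hdvd
    omega
  have hρbij : Function.Bijective (resHom K L L' K⟮ζ⟯) := by
    rw [Nat.bijective_iff_injective_and_card]
    refine ⟨hρinj, ?_⟩
    rw [hcardG, IsGalois.card_aut_eq_finrank, hK'L']
  obtain ⟨σ', hσ'⟩ := hρbij.2 σ
  have hσ'1 : σ' ≠ 1 := by
    rintro rfl
    exact hσ (by rw [← hσ', map_one])
  -- the base-changed class
  have hequiv : ∀ (τ : Gal(L'/K⟮ζ⟯)) (c : IdeleClass L),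
      τ • bcClass L L' c = bcClass L L' (resHom K L L' K⟮ζ⟯ τ • c) :=
    fun τ c => smul_bcClass_of_comm τ (resHom K L L' K⟮ζ⟯ τ) (hρ τ) c
  have hNx' : normG Gal(L'/K⟮ζ⟯) (IdeleClass L') (bcClass L L' x) = 1 := by
    have hprod : ∏ τ : Gal(L'/K⟮ζ⟯), resHom K L L' K⟮ζ⟯ τ • x =
        normG Gal(L/K) (IdeleClass L) x :=
      Fintype.prod_bijective (resHom K L L' K⟮ζ⟯) hρbij
        (fun τ => resHom K L L' K⟮ζ⟯ τ • x) (fun g => g • x) (fun _ => rfl)
    rw [normG_apply]
    simp_rw [hequiv]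
    rw [← map_prod, hprod, hx, map_one]
  obtain ⟨y', hy'⟩ := h K⟮ζ⟯ L' hK'L' ⟨⟨ζ, hζK'⟩, hζ'⟩ σ' hσ'1 (bcClass L L' x) hNx'
  -- commutation of `σ'` with `Gal(L'/L)`
  have hcomm : ∀ (δ : Gal(L'/L)) (z : L'), σ' (δ z) = δ (σ' z) := by
    intro δ z
    refine ringHom_eq_of_cyclotomic L L' p hζ
      ((σ' : L' →+* L').comp (δ : L' →+* L')) ((δ : L' →+* L').comp (σ' : L' →+* L'))
      (fun l => ?_) ?_ z
    · show σ' (δ (algebraMap L L' l)) = δ (σ' (algebraMap L L' l))
      rw [δ.commutes, hρ σ' l, δ.commutes]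
    · show σ' (δ ζ) = δ (σ' ζ)
      rw [hτζ σ']
      have hpow : (δ ζ) ^ p = 1 := by rw [← map_pow, hζ.pow_eq_one, map_one]
      obtain ⟨i, -, hi⟩ := hζ.eq_pow_of_pow_eq_one hpow
      rw [← hi, map_pow, hτζ σ']
  -- the norm along `Gal(L'/L)`
  have hNfix : ∀ δ : Gal(L'/L), δ • normG Gal(L'/L) (IdeleClass L') y' =
      normG Gal(L'/L) (IdeleClass L') y' := fun δ => smul_normG_self δ y'
  obtain ⟨y, hy⟩ := exists_bcClass_eq_of_fixed L L' _ hNfix
  have hσN : normG Gal(L'/L) (IdeleClass L') (σ' • y') =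
      σ' • normG Gal(L'/L) (IdeleClass L') y' := by
    rw [normG_apply, normG_apply, Finset.smul_prod']
    exact Finset.prod_congr rfl fun δ _ =>
      (smul_smul_ideleClass_comm σ' δ (hcomm δ) y').symm
  have hNx'd : normG Gal(L'/L) (IdeleClass L') (bcClass L L' x) =
      bcClass L L' x ^ Fintype.card Gal(L'/L) :=
    normG_of_fixed _ fun δ => smul_bcClass δ x
  have e1 : bcClass L L' (x ^ Fintype.card Gal(L'/L)) = bcClass L L' (σ • y / y) := by
    rw [map_pow, ← hNx'd, ← hy', _root_.map_div, hσN, ← hy, hequiv σ' y, hσ', _root_.map_div]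
  have e2 : x ^ Fintype.card Gal(L'/L) = σ • y / y := bcClass_injective_of_isGalois L L' e1
  -- `σ` generates
  have hgen : ∀ τ : Gal(L/K), τ ∈ Subgroup.zpowers σ := fun τ =>
    mem_zpowers_of_prime_card hcardG hσ
  obtain ⟨z, hz⟩ := exists_smul_div_eq_pow_card σ hgen x hx
  have hcardG' : Fintype.card Gal(L/K) = p := by rw [← Nat.card_eq_fintype_card, hcardG]
  rw [hcardG'] at hz
  exact exists_smul_div_eq_of_coprime σ x _ p hcop ⟨y, e2.symm⟩ ⟨z, hz⟩

end core

/-- **GLOB-G9-C** (statement of `helper78_G9Interface`, verbatim): Hilbert 90 for the idele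
class group of cyclic extensions of degree `p`, without roots of unity, from the case with
roots of unity. -/
theorem cyclicH90'_of_cyclicH90.{u, v} (p : ℕ) (hp : p.Prime) (hp2 : p ≠ 2)
    (h : CyclicH90.{v, v} p) : CyclicH90'.{u, v} p := by
  have _ := hp2
  intro K L _ _ _ _ _ _ hdeg σ hσ x hx
  exact cyclicH90_descent K L (CyclotomicField p L) p hp h hdeg σ hσ x hx

end Fermat.Agent.S55.helper37
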