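import Fermat.Agent.S55.helper78_G9Defs
import Fermat.Agent.S55.helper69_Rec2G1

/-!
# S55 / GLOB-G9, package B (helper7, task 404): descent for idele classes in a tower

The six statements of section B of helper78's G9 interface, VERBATIM, for a tower
`K ⊆ M ⊆ L` of number fields with `L/K` and `M/K` Galois:

* `bcClass_injective` : `C_M → C_L` is injective;
* `bcClass_smul` : base change is equivariant along `Gal(L/K) → Gal(M/K)`;
* `ideleClass_inflDatum` : `C_M → C_L` is an inflation datum for `Gal(L/K) → Gal(M/K)`;
* `restrictScalars_smul_ideleClass` : the two actions of `Gal(L/M)` on `C_L` agree;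
* `restrictScalarsHom_injective`, `range_restrictScalarsHom` : `Gal(L/M)` is the kernel of
  `Gal(L/K) → Gal(M/K)`.

The arithmetic content (Hilbert 90 for ideles, injectivity of `C_M → C_L`) is helper69's
`helper69_Rec2G1`; here `helper78.bcClass` is identified with `helper33.ideleClassMap`
(`bcClass_eq_ideleClassMap`, by `rfl`).
-/

set_option autoImplicit false

open scoped TensorProduct NumberField
open groupCohomology

namespace Fermat.Agent.S55.helper7

open Fermat.Agent.S55.helper73 Fermat.Agent.S55.helper6 Fermat.Agent.S55.helper78

/-- helper78's `bcClass` is helper33's `ideleClassMap`. -/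
theorem bcClass_eq_ideleClassMap (K L : Type*) [Field K] [CharZero K] [Field L] [CharZero L]
    [Algebra K L] : bcClass K L = helper33.ideleClassMap K L := rfl

section B

variable (K M L : Type*) [Field K] [NumberField K] [Field M] [NumberField M] [Field L]
  [NumberField L] [Algebra K M] [Algebra M L] [Algebra K L] [IsScalarTower K M L]
  [IsGalois K L] [IsGalois K M]

/-- `C_M → C_L` is injective -/
theorem bcClass_injective (M L : Type*) [Field M] [NumberField M] [Field L] [NumberField L]
    [Algebra M L] [IsGalois M L] : Function.Injective (bcClass M L) :=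
  helper69.ideleClassMap_injective M L

/-- a `Gal(L/M)`-fixed idele class of `L` comes from `M` -/
theorem exists_bcClass_eq_of_fixed (M L : Type*) [Field M] [NumberField M] [Field L]
    [NumberField L] [Algebra M L] [IsGalois M L] (c : IdeleClass L)
    (hc : ∀ σ : Gal(L/M), σ • c = c) : ∃ a : IdeleClass M, bcClass M L a = c :=
  helper69.exists_ideleClassMap_eq_of_fixed M L c hc

/-- the inflation datum of idele classes for `Gal(L/K) → Gal(M/K)` -/
theorem ideleClass_inflDatum :
    InflDatum (M := IdeleClass L) (B := IdeleClass M)
      (AlgEquiv.restrictNormalHom M : Gal(L/K) →* Gal(M/K)) (bcClass M L) :=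
  helper69.inflDatum_ideleClassMap K M L

/-- equivariance of base change (elementwise form) -/
theorem bcClass_smul (σ : Gal(L/K)) (c : IdeleClass M) :
    bcClass M L (AlgEquiv.restrictNormalHom M σ • c) = σ • bcClass M L c :=
  (ideleClass_inflDatum K M L).equivariant σ c

omit [NumberField K] [NumberField M] [IsGalois K L] [IsGalois K M] in
/-- the two actions of `Gal(L/M)` on `C_L` agree -/
theorem restrictScalars_smul_ideleClass (s : Gal(L/M)) (c : IdeleClass L) :
    (AlgEquiv.restrictScalarsHom K s : Gal(L/K)) • c = s • c :=
  helper69.restrictScalars_smul_ideleClass K M L s c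

omit [NumberField K] [NumberField M] [NumberField L] [IsGalois K L] [IsGalois K M] in
theorem restrictScalarsHom_injective :
    Function.Injective (AlgEquiv.restrictScalarsHom K : Gal(L/M) →* Gal(L/K)) :=
  AlgEquiv.restrictScalars_injective K

omit [NumberField K] [NumberField M] [NumberField L] [IsGalois K L] in
theorem range_restrictScalarsHom :
    (AlgEquiv.restrictScalarsHom K : Gal(L/M) →* Gal(L/K)).range =
      (AlgEquiv.restrictNormalHom M : Gal(L/K) →* Gal(M/K)).ker := by
  ext g
  rw [MonoidHom.mem_range, MonoidHom.mem_ker]
  constructor
  · rintro ⟨s, rfl⟩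
    ext x
    apply (algebraMap M L).injective
    have h := AlgEquiv.restrictNormal_commutes (AlgEquiv.restrictScalarsHom K s : Gal(L/K)) M x
    exact h.trans (s.commutes x)
  · intro hg
    have hcomm : ∀ x : M, g (algebraMap M L x) = algebraMap M L x := by
      intro x
      have h := AlgEquiv.restrictNormal_commutes g M x
      have h1 : (AlgEquiv.restrictNormal g M) x = x := by
        have := congrArg (fun t : Gal(M/K) => t x) hg
        exact this
      rw [h1] at h
      exact h.symm
    refine ⟨{ g.toEquiv with
      map_mul' := map_mul g
      map_add' := map_add g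
      commutes' := hcomm }, ?_⟩
    ext y
    rfl

end B

end Fermat.Agent.S55.helper7
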