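import Fermat.Agent.S55.helper78_G9H2
import Fermat.Agent.S55.helper7_G9B
import Fermat.Agent.S55.helper37_G9C
import Fermat.Agent.S55.helper73_Ineq1Final
import Fermat.Agent.S55.helper84_HasseNorm2

/-!
# S55 / GLOB-G9 (helper78): final wiring

All inputs of G9 except the second inequality are on main; this file states the G9 theorems
`ideleClass_H1_trivial` and `card_H2_ideleClass_dvd` of the GLOB interface, conditional ONLY on
`helper84.Ineq2Zeta p` (= GLOB `ineq2`: `[C_K : N C_L] ∣ p` for cyclic extensions of degree `p`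
of number fields containing `ζ_p`).

* `descentPkg` : `DescentPkg` (from `helper7` G9-B);
* `cyclicIneq1` : `CyclicIneq1 p` (from `helper73.ineq1`);
* `cyclicH90_of_ineq2`, `cyclicH90'_of_ineq2` : Hilbert 90 for `C_L`, cyclic degree `p`;
* `ideleClass_H1_trivial_of_ineq2`, `card_H2_ideleClass_dvd_of_ineq2`,
  `h2card_ideleClass_dvd_of_ineq2`.
-/

set_option autoImplicit false

open scoped NumberField
open groupCohomology

namespace Fermat.Agent.S55.helper78

open Fermat.Agent.S55.helper73 Fermat.Agent.S55.helper6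

/-- the descent package G9-B (helper7) -/
theorem descentPkg.{u, v} : DescentPkg.{u, v} :=
  fun K M L _ _ _ _ _ _ _ _ _ _ _ _ =>
    ⟨helper7.ideleClass_inflDatum K M L, helper7.restrictScalars_smul_ideleClass K M L⟩

/-- the first inequality (helper73) -/
theorem cyclicIneq1.{u, v} (p : ℕ) (hp : p.Prime) (hp2 : p ≠ 2) : CyclicIneq1.{u, v} p :=
  fun K L _ _ _ _ _ _ hdeg σ hσ => ineq1 K L p hp hp2 hdeg σ hσ

/-- Hilbert 90 for `C_L` (cyclic of degree `p`, `ζ_p ∈ K`) from the two inequalities -/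
theorem cyclicH90_of_ineq2.{v} (p : ℕ) (hp : p.Prime) (hp2 : p ≠ 2)
    (hI2 : helper84.Ineq2Zeta.{v} p) : CyclicH90.{v, v} p :=
  fun K L _ _ _ _ _ _ hdeg hζ σ hσ x hx =>
    helper84.ideleClass_hilbert90_of K L p hp.pos σ (ineq1 K L p hp hp2 hdeg σ hσ)
      (hI2 K L hdeg hζ) x hx

/-- Hilbert 90 for `C_L` (cyclic of degree `p`, no roots of unity) -/
theorem cyclicH90'_of_ineq2.{u, v} (p : ℕ) (hp : p.Prime) (hp2 : p ≠ 2)
    (hI2 : helper84.Ineq2Zeta.{v} p) : CyclicH90'.{u, v} p :=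
  helper37.cyclicH90'_of_cyclicH90 p hp hp2 (cyclicH90_of_ineq2 p hp hp2 hI2)

/-- **GLOB G9 `ideleClass_H1_trivial`**, conditional only on the second inequality. -/
theorem ideleClass_H1_trivial_of_ineq2.{u, v} (p : ℕ) (hp : p.Prime) (hp2 : p ≠ 2)
    (hI2 : helper84.Ineq2Zeta.{v} p)
    (K : Type u) (L : Type v) [Field K] [NumberField K] [Field L] [NumberField L] [Algebra K L]
    [IsGalois K L] (n : ℕ) (hdeg : Module.finrank K L = p ^ n)
    (f : Gal(L/K) → IdeleClass L) (hf : IsMulCocycle₁ f) : IsMulCoboundary₁ f :=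
  ideleClass_H1_trivial_of p hp (cyclicH90'_of_ineq2 p hp hp2 hI2) descentPkg n K L hdeg f hf

/-- `|H²(Gal(L/K), C_L)|` divides `[L : K]`, index form, conditional only on the second
inequality. -/
theorem h2card_ideleClass_dvd_of_ineq2.{u, v} (p : ℕ) (hp : p.Prime) (hp2 : p ≠ 2)
    (hI2 : helper84.Ineq2Zeta.{v} p)
    (K : Type u) (L : Type v) [Field K] [NumberField K] [Field L] [NumberField L] [Algebra K L]
    [IsGalois K L] (n : ℕ) (hdeg : Module.finrank K L = p ^ n) :
    h2card Gal(L/K) (IdeleClass L) ≠ 0 ∧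
      h2card Gal(L/K) (IdeleClass L) ∣ Module.finrank K L :=
  h2card_ideleClass_dvd_of p hp (cyclicH90'_of_ineq2 p hp hp2 hI2) (cyclicIneq1 p hp hp2)
    descentPkg n K L hdeg

/-- **GLOB G9 `card_H2_ideleClass_dvd`**, conditional only on the second inequality. -/
theorem card_H2_ideleClass_dvd_of_ineq2 (p : ℕ) (hp : p.Prime) (hp2 : p ≠ 2)
    (hI2 : helper84.Ineq2Zeta.{0} p)
    (K L : Type) [Field K] [NumberField K] [Field L] [NumberField L]
    [Algebra K L] [IsGalois K L] (n : ℕ) (hdeg : Module.finrank K L = p ^ n) :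
    Finite (H2 (Rep.ofMulDistribMulAction Gal(L/K) (IdeleClass L))) ∧
    Nat.card (H2 (Rep.ofMulDistribMulAction Gal(L/K) (IdeleClass L))) ∣ p ^ n :=
  card_H2_ideleClass_dvd_of p hp (cyclicH90'_of_ineq2 p hp hp2 hI2) (cyclicIneq1 p hp hp2)
    descentPkg K L n hdeg

end Fermat.Agent.S55.helper78
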