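import Mathlib
import Fermat.Agent.S55.helper6_Rec3C1
import Fermat.Agent.S55.helper78_G9Final

/-!
# S55 / REC3: finite-level class formation statements for `p`-subgroups, from `HypIneq2` and
`HypRec2Simple` alone

* `hypGlobH1_of_ineq2`, `hypGlobH2_of_ineq2` : the two GLOB G9 hypotheses of `helper1_Rec2Tate`
  from the second inequality.
* `card_H2_res_ideleClass_of_isPGroup` : for ANY finite Galois extension `E/K` of number fields
  and any `p`-subgroup `P ≤ Gal(E/K)`, `H²(P, C_E)` is cyclic of order `|P|`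
  (input (B) of R3-C2).
-/

set_option autoImplicit false
set_option linter.style.haveILetI false
set_option linter.unusedSectionVars false
set_option linter.unusedVariables false

open groupCohomology CategoryTheory.Limits Fermat.Agent.S55.helper73

namespace Fermat.Agent.S55.helper6

/-- `HypIneq2` and `helper84.Ineq2Zeta` are the same statement. -/
theorem ineq2Zeta_of_hypIneq2 {p : ℕ} (h : HypIneq2.{0} p) : helper84.Ineq2Zeta.{0} p := h

/-- GLOB G9 `ideleClass_H1_trivial` (hypothesis `HypGlobH1` of `helper1_Rec2Tate`) from the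
second inequality. -/
theorem hypGlobH1_of_ineq2 (h2 : ∀ p : ℕ, p.Prime → p ≠ 2 → HypIneq2.{0} p) :
    helper1.HypGlobH1 :=
  fun K L _ _ _ _ _ _ p hp hp2 n hdeg f hf =>
    ideleClass_H1_trivial_of_ineq2 p (h2 p hp hp2) K L hp hp2 n hdeg f hf

/-- GLOB G9 `card_H2_ideleClass_dvd` (hypothesis `HypGlobH2` of `helper1_Rec2Tate`) from the
second inequality. -/
theorem hypGlobH2_of_ineq2 (h2 : ∀ p : ℕ, p.Prime → p ≠ 2 → HypIneq2.{0} p) :
    helper1.HypGlobH2 :=
  fun K L _ _ _ _ _ _ p hp hp2 n hdeg =>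
    helper78.card_H2_ideleClass_dvd_of_ineq2 p hp hp2 (h2 p hp hp2) K L n hdeg

/-- **`H²(P, C_E)` is cyclic of order `|P|`** for every `p`-subgroup `P` of `Gal(E/K)`, `E/K`
any finite Galois extension of number fields. -/
theorem card_H2_res_ideleClass_of_isPGroup (hS : helper1.HypRec2Simple)
    (h2 : ∀ p : ℕ, p.Prime → p ≠ 2 → HypIneq2.{0} p) (p : ℕ) (hp : p.Prime) (hp2 : p ≠ 2)
    (K E : Type) [Field K] [NumberField K] [Field E] [NumberField E] [Algebra K E]
    [IsGalois K E] (P : Subgroup Gal(E/K)) (hP : IsPGroup p P) :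
    Nat.card (groupCohomology
      (Rep.res P.subtype (Rep.ofMulDistribMulAction Gal(E/K) (IdeleClass E))) 2) = Nat.card P ∧
    ∃ γ : groupCohomology
        (Rep.res P.subtype (Rep.ofMulDistribMulAction Gal(E/K) (IdeleClass E))) 2,
      ∀ x, ∃ m : ℤ, x = m • γ := by
  haveI : Fact p.Prime := ⟨hp⟩
  haveI : FiniteDimensional K E := Module.Finite.of_restrictScalars_finite ℚ K E
  obtain ⟨k, hk⟩ := IsPGroup.iff_card.mp hP
  have hdeg : Module.finrank (IntermediateField.fixedField P) E = p ^ k := by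
    rw [IntermediateField.finrank_fixedField_eq_card, hk]
  obtain ⟨hcard, γ, hγ⟩ := helper1.card_H2_ideleClass_of hS (hypGlobH2_of_ineq2 h2)
    (IntermediateField.fixedField P) E p hp hp2 k hdeg
  let e := (helper1.resIdeleClassIso K E P 2).toLinearEquiv
  refine ⟨?_, e.symm γ, fun x => ?_⟩
  · rw [Nat.card_congr e.toEquiv, hcard, hk]
  · obtain ⟨m, hm⟩ := hγ (e x)
    refine ⟨m, ?_⟩
    apply e.injective
    rw [hm, map_zsmul, LinearEquiv.apply_symm_apply]

end Fermat.Agent.S55.helper6
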