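import Mathlib
import Fermat.Agent.S55.helper6_Rec3Fin
import Fermat.Agent.S55.helper33_Rec2Wiring

/-!
# S55 / REC3: finite-level class formation statements from the second inequality ALONE

REC2 (`helper33_Rec2Wiring`) is complete modulo GLOB G9, and GLOB G9 is complete modulo the
second inequality; hence every finite-level class formation statement follows from
`∀ p, p.Prime → p ≠ 2 → HypIneq2 p`.
-/

set_option autoImplicit false
set_option linter.style.haveILetI false
set_option linter.unusedSectionVars false
set_option linter.unusedVariables false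

open groupCohomology CategoryTheory.Limits Fermat.Agent.S55.helper73

namespace Fermat.Agent.S55.helper6

/-- R2-SIMPLE from the second inequality. -/
theorem hypRec2Simple_of_ineq2 (h2 : ∀ p : ℕ, p.Prime → p ≠ 2 → HypIneq2.{0} p) :
    helper1.HypRec2Simple :=
  helper33.hypRec2Simple_of_glob (hypGlobH1_of_ineq2 h2) (hypGlobH2_of_ineq2 h2)

/-- **`H²(P, C_E)` is cyclic of order `|P|`** for every `p`-subgroup `P` of `Gal(E/K)`, `E/K`
any finite Galois extension of number fields; from the second inequality alone. -/
theorem card_H2_res_ideleClass_of_isPGroup' (h2 : ∀ p : ℕ, p.Prime → p ≠ 2 → HypIneq2.{0} p)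
    (p : ℕ) (hp : p.Prime) (hp2 : p ≠ 2)
    (K E : Type) [Field K] [NumberField K] [Field E] [NumberField E] [Algebra K E]
    [IsGalois K E] (P : Subgroup Gal(E/K)) (hP : IsPGroup p P) :
    Nat.card (groupCohomology
      (Rep.res P.subtype (Rep.ofMulDistribMulAction Gal(E/K) (IdeleClass E))) 2) = Nat.card P ∧
    ∃ γ : groupCohomology
        (Rep.res P.subtype (Rep.ofMulDistribMulAction Gal(E/K) (IdeleClass E))) 2,
      ∀ x, ∃ m : ℤ, x = m • γ :=
  card_H2_res_ideleClass_of_isPGroup (hypRec2Simple_of_ineq2 h2) h2 p hp hp2 K E P hP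

/-- `H³(Gal(L/F), C_L) = 0` for Galois extensions of odd prime power degree, from the second
inequality alone. -/
theorem isZero_H3_ideleClass_of_ineq2 (h2 : ∀ p : ℕ, p.Prime → p ≠ 2 → HypIneq2.{0} p)
    (F L : Type) [Field F] [NumberField F] [Field L] [NumberField L] [Algebra F L]
    [IsGalois F L] (p : ℕ) (hp : p.Prime) (hp2 : p ≠ 2) (n : ℕ)
    (hdeg : Module.finrank F L = p ^ n) :
    IsZero (groupCohomology (Rep.ofMulDistribMulAction Gal(L/F) (IdeleClass L)) 3) :=
  helper33.isZero_H3_ideleClass_of_glob (hypGlobH1_of_ineq2 h2) (hypGlobH2_of_ineq2 h2)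
    F L p hp hp2 n hdeg

end Fermat.Agent.S55.helper6
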