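import Fermat.Agent.S55.helper9_Rec3C2
import Fermat.Agent.S55.helper6_Rec3Fin2

/-!
# S55 / REC3 / R3-C2 : wiring with the second inequality (helper9, task 511)

`c2S_of_ineq2` : `helper90.C2S p S F hF` from the second inequality `helper6.HypIneq2` (for all
odd primes, as REC2 quantifies over the prime) and the arithmetic dictionary for `C`
(`helper6.IdeleClassReal` at cofinal `S`-levels): the same two hypotheses as `helper6.c1S_of`.
-/

set_option autoImplicit false

noncomputable section

namespace Fermat.Agent.S55.helper9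

open Fermat.Agent.S55 Fermat.Agent.S55.helper90

/-- the finite-level input of R3-C2 from the second inequality alone -/
theorem hypH2Cyc_of_ineq2 (h2 : ∀ p : ℕ, p.Prime → p ≠ 2 → helper6.HypIneq2.{0} p) (p : ℕ)
    (hp : p.Prime) (hp2 : p ≠ 2) : HypH2Cyc p :=
  hypH2Cyc_of_glob (helper6.hypGlobH1_of_ineq2 h2) (helper6.hypGlobH2_of_ineq2 h2) p hp hp2

local notation "Qbar" => AlgebraicClosure ℚ

variable {p : ℕ} [Fact p.Prime] {S : Finset Nat.Primes} {F : IntermediateField ℚ Qbar}
  (hF : F.IsUnramifiedOutside S)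

/-- **R3-C2** (`helper90.Interface.c2S`), conditional on the second inequality and on the
arithmetic dictionary for `C`. -/
theorem c2S_of_ineq2 (hp2 : p ≠ 2)
    (h2 : ∀ p : ℕ, p.Prime → p ≠ 2 → helper6.HypIneq2.{0} p)
    (h : ∀ N ∈ (helper69.sLevelsStr S F hF).mem,
      ∃ X : helper6.IdeleClassReal (helper69.sLevelsStr S F hF) (repCS S F hF),
        X.π.ker ≤ N) : C2S p S F hF :=
  c2S_of hF (hypH2Cyc_of_ineq2 h2 p Fact.out hp2) h

end Fermat.Agent.S55.helper9
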