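import Fermat.Agent.S55.helper90_Rec3Wire2
import Fermat.Agent.S55.helper90_Rec3I4
import Fermat.Agent.S55.helper59_BArAsm
import Fermat.Agent.S55.helper97_Rec3Kum
import Fermat.Agent.S55.helper10_Rec3Descent
import Fermat.Agent.S55.helper69_Rec3DicC
import Fermat.Agent.S55.helper9_Rec3C2Wire
import Fermat.Agent.S55.helper89_Ineq2Wire
import Fermat.Agent.S55.helper31_J3Wire2
import Fermat.Agent.S55.helper30_Rec3LocFinDisc
import Fermat.Agent.S55.helper44_Rec3LocH90
import Fermat.Agent.S55.helper98_Rec3LocKum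
import Fermat.Agent.S55.helper33_Rec3LocDiv2

/-!
# S55 / REC3: the final wiring (helper90)

* `HypRec3Arith p S` : the bundle `Rec3Arith` for all arithmetic local data;
* `hypRec3Arith_of` : `HypRec3Arith p S` from the packages which are on main (KUM, CAP, C1, C2, DIC,
  LOC-FIN/DISC/H90/KUM/DIV2, J3 wiring), conditional on the named `Prop`s of the packages which are
  still open: `helper31.HypUSSL` (J3), `HypLocInj p S`, `HypLocSurj p S`
  (R3-LOC), `HypH1E p S` (R3-H1E);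
* `hypI4_of_arith`, `hypH3_of_arith`, `hypSha2_of_arith` : the three deliverables of REC3 for
  module B (`HypI4R`, `HypH3R` = `helper59.HypI4`, `helper59.HypH3` with `inv_ne_zero`, per local
  datum; `helper59.HypSha2` verbatim), from `HypRec3Arith p S`.
-/

set_option autoImplicit false

open groupCohomology ExtCitation
open scoped NumberField

noncomputable section

namespace Fermat.Agent.S55.helper90

open Fermat.Agent.S55 Fermat.Agent.S55.helper59 Fermat.Agent.S55.helper69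
  Fermat.Agent.S55.helper73

local instance factOfPrimesR3Fin (q : Nat.Primes) : Fact (q : ℕ).Prime := ⟨q.2⟩

local notation "Qbar" => AlgebraicClosure ℚ

section Props

variable (p : ℕ) [Fact p.Prime] (S : Finset Nat.Primes)

/-- the bundle `Rec3Arith` for all arithmetic local data -/
def HypRec3Arith : Prop :=
  ∀ (F : IntermediateField ℚ Qbar) [NumberField ↥F] (hF : F.IsUnramifiedOutside S)
    (ι : Type) [Fintype ι] (L : LocalData (UF F) (sLevelsStr S F hF) ι) (hL : IsArith S F L)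
    (ζ : (↥F)ˣ), p ≠ 2 → (⟨p, Fact.out⟩ : Nat.Primes) ∈ S → IsPrimitiveRoot ζ p →
    Rec3Arith hF hL ζ p

/-- **R3-LOC-INJ** for all arithmetic local data (statement of `LocInterface.loc_inj`) -/
def HypLocInj : Prop :=
  ∀ (F : IntermediateField ℚ Qbar) [FiniteDimensional ℚ F] (hF : F.IsUnramifiedOutside S)
    (ι : Type) [Fintype ι] (L : LocalData (UF F) (sLevelsStr S F hF) ι) (hL : IsArith S F L),
    p ≠ 2 → (⟨p, Fact.out⟩ : Nat.Primes) ∈ S →
    ∀ j ∈ Z2 (sLevelsStr S F hF) (repJS S F hF),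
      (∀ w, (arithLocSys hF hL).loc₂ w j ∈ B2 (L.lev w) ((arithLocSys hF hL).Ω w)) →
      ∃ m : ℕ, ¬ p ∣ m ∧ m • j ∈ B2 (sLevelsStr S F hF) (repJS S F hF)

/-- **R3-LOC-SURJ** for all arithmetic local data (statement of `LocInterface.loc_surj`) -/
def HypLocSurj : Prop :=
  ∀ (F : IntermediateField ℚ Qbar) [FiniteDimensional ℚ F] (hF : F.IsUnramifiedOutside S)
    (ι : Type) [Fintype ι] (L : LocalData (UF F) (sLevelsStr S F hF) ι) (hL : IsArith S F L),
    p ≠ 2 → (⟨p, Fact.out⟩ : Nat.Primes) ∈ S → ∀ ζ : (↥F)ˣ, IsPrimitiveRoot ζ p →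
    ∀ w, ∀ c ∈ Z2 (L.lev w) ((arithLocSys hF hL).Ω w), ∀ n : ℕ,
      p ^ n • c ∈ B2 (L.lev w) ((arithLocSys hF hL).Ω w) →
      ∃ j ∈ Z2 (sLevelsStr S F hF) (repJS S F hF),
        (arithLocSys hF hL).loc₂ w j - c ∈ B2 (L.lev w) ((arithLocSys hF hL).Ω w) ∧
        ∀ w', w' ≠ w →
          (arithLocSys hF hL).loc₂ w' j ∈ B2 (L.lev w') ((arithLocSys hF hL).Ω w')

/-- **R3-H1E** for all `F` (statement of `Interface.card_H1ModP_le`) -/
def HypH1E : Prop :=
  ∀ (F : IntermediateField ℚ Qbar) [NumberField ↥F] (hF : F.IsUnramifiedOutside S),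
    (⟨p, Fact.out⟩ : Nat.Primes) ∈ S →
    Finite (H1ModP (sLevelsStr S F hF) p (repES S F hF)) ∧
    Nat.card (H1ModP (sLevelsStr S F hF) p (repES S F hF)) ≤
      Nat.card (helper75.ClSModP ↥F p S)

/-- `helper59.HypI4` with the hypothesis `inv_ne_zero` -/
def HypI4R (Inv : helper11.LocInv) : Prop :=
  ∀ (F : IntermediateField ℚ Qbar) [NumberField ↥F] (𝒩 : Levels (UF F)) (ι : Type) [Fintype ι]
    (L : LocalData (UF F) 𝒩 ι), p ≠ 2 → (⟨p, Fact.out⟩ : Nat.Primes) ∈ S →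
    F.IsUnramifiedOutside S → 𝒩.mem = sLevels S F → ∀ hL : IsArith S F L,
    ∀ ζ : (↥F)ˣ, IsPrimitiveRoot ζ p →
    ∀ inv : InvFam p L, InvCompat Inv ζ hL inv → InvIffFor L inv →
      (∀ w, ∃ c ∈ Z2 (L.lev w) (T (ZMod p) (L.Gv w)), inv w c ≠ 0) → RecipFor L inv →
      ExistsGlobal₂For L inv

/-- `helper59.HypH3`, per local datum and per family of local invariants -/
def HypH3R (Inv : helper11.LocInv) : Prop :=
  ∀ (F : IntermediateField ℚ Qbar) [NumberField ↥F] (𝒩 : Levels (UF F)) (ι : Type) [Fintype ι]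
    (L : LocalData (UF F) 𝒩 ι), p ≠ 2 → (⟨p, Fact.out⟩ : Nat.Primes) ∈ S →
    F.IsUnramifiedOutside S → 𝒩.mem = sLevels S F → ∀ hL : IsArith S F L,
    ∀ ζ : (↥F)ˣ, IsPrimitiveRoot ζ p →
    ∀ inv : InvFam p L, InvCompat Inv ζ hL inv → InvIffFor L inv →
      (∀ w, ∃ c ∈ Z2 (L.lev w) (T (ZMod p) (L.Gv w)), inv w c ≠ 0) → RecipFor L inv →
      Z3 𝒩 (T (ZMod p) (UF F)) ≤ B3 𝒩 (T (ZMod p) (UF F))

end Props

variable {p : ℕ} [Fact p.Prime] {S : Finset Nat.Primes}

/-- **REC3, arithmetic part**: the bundle `Rec3Arith`, from the packages on main and the named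
`Prop`s of the open ones. -/
theorem hypRec3Arith_of (hUS : helper31.HypUSSL)
    (hinj : HypLocInj p S) (hsurj : HypLocSurj p S) (hh1 : HypH1E p S) :
    HypRec3Arith p S := by
  intro F _ hF ι _ L hL ζ hp2 hpS hζ
  have hp : p.Prime := Fact.out
  have hdic := helper69.Dic.exists_ideleClassReal hF
  exact
    { kum := helper97.exists_kummerDatumS hF hpS ζ hζ
      cap := helper10.capS' hF hpS
      c1 := helper6.c1S_of hF hp2 (helper89.hypIneq2 p hp hp2) hdic
      c2 := helper9.c2S_of_ineq2 hF hp2 (fun p hp hp2 => helper89.hypIneq2 p hp hp2) hdic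
      j3 := helper31.j3S_of_ussl hF hUS
      loc := fun K hK => arithLocSys_good hF hL K
        (fun w => helper30.loc_fin hF hL w)
        (fun w => helper30.loc_disc hF hL w)
        (fun w => helper44.loc_hilbert90 hF hL w)
        (fun w x => helper98.loc_div hF hL w x)
        (fun w x hx => helper98.loc_torsion hF hL ζ hζ K hK w x hx)
        (fun w => helper98.loc_κ_inj hF hL ζ hζ K hK w)
        (fun w c hc n hn => helper33.loc_div2 hF hL w c hc n hn)
        (fun j hj h => hinj F hF ι L hL hp2 hpS j hj h)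
        (fun w c hc n hn => hsurj F hF ι L hL hp2 hpS ζ hζ w c hc n hn)
      h1e := hh1 F hF hpS }

/-- `InvHyp` from the three properties of module B -/
lemma invHyp_of {F : IntermediateField ℚ Qbar} [NumberField ↥F] {𝒩 : Levels (UF F)} {ι : Type}
    [Fintype ι] {L : LocalData (UF F) 𝒩 ι} {inv : InvFam p L} (h1 : InvIffFor L inv)
    (hne : ∀ w, ∃ c ∈ Z2 (L.lev w) (T (ZMod p) (L.Gv w)), inv w c ≠ 0)
    (h3 : RecipFor L inv) : InvHyp 𝒩 L p inv :=
  ⟨h1, hne, h3⟩

/-- **REC3 deliverable (c)**: (I4) for all arithmetic local data. -/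
theorem hypI4_of_arith (Inv : helper11.LocInv) (hA : HypRec3Arith p S) : HypI4R p S Inv := by
  intro F _ 𝒩 ι _ L hp2 hpS hF h𝒩 hL ζ hζ inv _ h1 hne h3 c hc hsum
  exact exists_global₂_of_arith hF h𝒩 hL ζ (fun L' hL' => hA F hF ι L' hL' ζ hp2 hpS hζ)
    inv (invHyp_of h1 hne h3) c hc hsum

/-- **REC3 deliverable (b)**: (I5) `H³(G_{F,S}, ℤ/p) = 0` for all arithmetic local data. -/
theorem hypH3_of_arith (Inv : helper11.LocInv) (hA : HypRec3Arith p S) : HypH3R p S Inv := by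
  intro F _ 𝒩 ι _ L hp2 hpS hF h𝒩 hL ζ hζ inv _ h1 hne h3
  exact h3_of_arith hpS hF h𝒩 hL ζ (fun L' hL' => hA F hF ι L' hL' ζ hp2 hpS hζ)
    inv (invHyp_of h1 hne h3)

/-- **REC3 deliverable (a)**: `#Sha² ≤ #Cl_S/p`, VERBATIM `helper59.HypSha2`
(stated here in unfolded form; `helper59_BArFinal` is not imported). -/
theorem hypSha2_of_arith (hA : HypRec3Arith p S) :
    ∀ (F : IntermediateField ℚ Qbar) [NumberField ↥F] (𝒩 : Levels (UF F)) (ι : Type) [Fintype ι]
      (L : LocalData (UF F) 𝒩 ι), p ≠ 2 → (⟨p, Fact.out⟩ : Nat.Primes) ∈ S →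
      F.IsUnramifiedOutside S → 𝒩.mem = sLevels S F → IsArith S F L →
      ∀ ζ : (↥F)ˣ, IsPrimitiveRoot ζ p →
      Finite (↥(sha2Z (k := ZMod p) L) ⧸
          (B2 𝒩 (T (ZMod p) (UF F))).comap (sha2Z (k := ZMod p) L).subtype) ∧
        Nat.card (↥(sha2Z (k := ZMod p) L) ⧸
          (B2 𝒩 (T (ZMod p) (UF F))).comap (sha2Z (k := ZMod p) L).subtype) ≤
        Nat.card (helper75.ClSModP (↥F) p S) := by
  intro F _ 𝒩 ι _ L hp2 hpS hF h𝒩 hL ζ hζ
  exact card_sha2_le_of_arith hF h𝒩 hL ζ (fun L' hL' => hA F hF ι L' hL' ζ hp2 hpS hζ)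

end Fermat.Agent.S55.helper90
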