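import Fermat.Agent.S55.helper59_BArI7a
import Fermat.Agent.S55.helper90_Rec3Final

/-!
# S55 module B: `BaseInputStatement p S` from the arithmetic bundle of REC3 (helper59)

`baseInputStatement_of_rec3Arith : helper90.HypRec3Arith p S → BaseInputStatement p S` :
everything of module B except the arithmetic bundle `Rec3Arith` of REC3 is discharged.
-/

set_option autoImplicit false

open groupCohomology ExtCitation
open scoped NumberField

noncomputable section

namespace Fermat.Agent.S55.helper59

open Fermat.Agent.S55

variable {p : ℕ} [Fact p.Prime] {S : Finset Nat.Primes}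

/-- **MODULE B, conditional only on the arithmetic bundle of REC3.** -/
theorem baseInputStatement_of_rec3Arith (hA : helper90.HypRec3Arith p S) :
    BaseInputStatement p S := by
  obtain ⟨Inv⟩ := helper8.nonempty_locInv
  exact baseInputStatement_of_rec3 Inv (helper90.hypI4_of_arith Inv hA)
    (helper90.hypH3_of_arith Inv hA) (hypSha2'_of_hypSha2 Inv (helper90.hypSha2_of_arith hA))

/-- **MODULE B, conditional only on the four open packages of REC3.** -/
theorem baseInputStatement_of_rec3Packages (hUS : helper31.HypUSSL)
    (hinj : helper90.HypLocInj p S) (hsurj : helper90.HypLocSurj p S)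
    (hh1 : helper90.HypH1E p S) : BaseInputStatement p S :=
  baseInputStatement_of_rec3Arith (helper90.hypRec3Arith_of hUS hinj hsurj hh1)

end Fermat.Agent.S55.helper59
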