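import Mathlib
import Fermat.Agent.S55.helper7_LocUnram

/-!
# S55 / REC1 (helper2): the place of a number field induced by an embedding into a `q`-adic field

`F` a number field, `K` a `q`-adic field (`[Algebra ℚ_[q] K] [FiniteDimensional ℚ_[q] K]`),
`[Algebra F K]` an embedding.  With the density hypothesis
`hdense : Algebra.adjoin ℚ_[q] (Set.range (algebraMap F K)) = ⊤`:

* `ordT_algebraMap_int_nonneg` (F1) : algebraic integers have valuation `≥ 0`;
* `inducedPrime q F K`, `inducedPlace q F K` (F2) : the prime `{a ∈ 𝓞 F | 0 < ordT (a)}`;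
* `exists_approx_norm`, `exists_approx` (F4) : `F` is dense in `K`;
* `exists_ordT_eq_one` (F5) : `F` contains an element of valuation `1`;
* `valuation_eq_exp_neg_ord_of` (F6) : the adic valuation of `F` at the induced prime is the
  restriction of the normalised valuation of `K`;
* `exists_int_approx` (F7), `resHom_surjective`, `card_quotient_inducedPrime` (F8) :
  `𝓞 F ⧸ 𝔭 ≃ k_K`, in particular `#(𝓞 F ⧸ 𝔭) = q ^ fdeg q K`.
-/

set_option autoImplicit false
set_option linter.unusedSectionVars false
set_option linter.style.haveILetI false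

open scoped NumberField
open IsDedekindDomain NumberField

namespace Fermat.Agent.S55.helper2

open Fermat.Agent.S55.helper8 Fermat.Agent.S55.helper7

section Place

variable (q : ℕ) [Fact q.Prime] (F : Type) [Field F] [NumberField F]
  (K : Type) [Field K] [Algebra ℚ_[q] K] [FiniteDimensional ℚ_[q] K] [Algebra F K]

/-- The normalised valuation of a `q`-adic field as an `AddValuation`. -/
noncomputable def ordVal : AddValuation K (WithTop ℤ) :=
  AddValuation.of (ordT q K) (ordT_zero q K) (ordT_one q K) (ordT_add_ge q K) (ordT_mul q K)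

@[simp] lemma ordVal_apply (x : K) : ordVal q K x = ordT q K x := rfl

lemma ordT_add_eq_left {x y : K} (h : ordT q K x < ordT q K y) :
    ordT q K (x + y) = ordT q K x :=
  (ordVal q K).map_add_eq_of_lt_left h

lemma ordT_sub_eq_left {x y : K} (h : ordT q K x < ordT q K y) :
    ordT q K (x - y) = ordT q K x := by
  rw [sub_eq_add_neg]
  exact ordT_add_eq_left q K (by rwa [ordT_neg])

/-- (F1) algebraic integers have non-negative valuation. -/
theorem ordT_algebraMap_int_nonneg (a : 𝓞 F) : 0 ≤ ordT q K (algebraMap F K (a : F)) := by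
  rw [helper97.ordT_nonneg_iff]
  obtain ⟨g, hg, hga⟩ := RingOfIntegers.isIntegral_coe a
  refine ⟨g.map (Int.castRingHom ℚ_[q]), hg.map _, fun i => ?_, ?_⟩
  · rw [Polynomial.coeff_map, eq_intCast]
    exact Padic.norm_int_le_one _
  · rw [Polynomial.aeval_def, Polynomial.eval₂_map]
    have h1 : (algebraMap ℚ_[q] K).comp (Int.castRingHom ℚ_[q]) =
        (algebraMap F K).comp (algebraMap ℤ F) := RingHom.ext_int _ _
    rw [h1, ← Polynomial.hom_eval₂, hga, map_zero]

/-- The ring homomorphism `𝓞 F → 𝒪_K`. -/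
noncomputable def intHom : 𝓞 F →+* Oq q K :=
  ((algebraMap F K).comp (algebraMap (𝓞 F) F)).codRestrict (Oq q K)
    (fun a => ordT_algebraMap_int_nonneg q F K a)

@[simp] lemma coe_intHom (a : 𝓞 F) : ((intHom q F K a : Oq q K) : K) = algebraMap F K (a : F) :=
  rfl

/-- (F2) The prime of `𝓞 F` induced by the embedding `F → K`. -/
noncomputable def inducedPrime : Ideal (𝓞 F) := (Mq q K).comap (intHom q F K)

lemma mem_inducedPrime (a : 𝓞 F) :
    a ∈ inducedPrime q F K ↔ 0 < ordT q K (algebraMap F K (a : F)) := by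
  rw [inducedPrime, Ideal.mem_comap, mem_Mq, coe_intHom]

instance inducedPrime_isPrime : (inducedPrime q F K).IsPrime := by
  unfold inducedPrime
  infer_instance

lemma natCast_mem_inducedPrime : (q : 𝓞 F) ∈ inducedPrime q F K := by
  rw [mem_inducedPrime]
  have : algebraMap F K ((q : 𝓞 F) : F) = (q : K) := by
    simp
  rw [this]
  exact ordT_q_pos q K

lemma inducedPrime_ne_bot : inducedPrime q F K ≠ ⊥ := by
  intro h
  have h1 := natCast_mem_inducedPrime q F K
  rw [h, Ideal.mem_bot] at h1
  have hq : (q : 𝓞 F) ≠ 0 := Nat.cast_ne_zero.mpr (Fact.out : q.Prime).ne_zero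
  exact hq h1

instance inducedPrime_isMaximal : (inducedPrime q F K).IsMaximal :=
  Ring.DimensionLEOne.maximalOfPrime (inducedPrime_ne_bot q F K) inferInstance

/-- The induced prime as a height one prime. -/
noncomputable def inducedPlace : HeightOneSpectrum (𝓞 F) :=
  ⟨inducedPrime q F K, inferInstance, inducedPrime_ne_bot q F K⟩

end Place

section Approx

variable (q : ℕ) [Fact q.Prime] (F : Type) [Field F] [NumberField F]
  (K : Type) [Field K] [Algebra ℚ_[q] K] [FiniteDimensional ℚ_[q] K] [Algebra F K]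

/-- (F4) density of `F` in `K` for the spectral norm. -/
theorem exists_approx_norm (hdense : Algebra.adjoin ℚ_[q] (Set.range (algebraMap F K)) = ⊤)
    (x : K) : ∀ ε : ℝ, 0 < ε → ∃ a : F, spectralNorm ℚ_[q] K (x - algebraMap F K a) < ε := by
  have hx : x ∈ Algebra.adjoin ℚ_[q] (Set.range (algebraMap F K)) := by
    rw [hdense]; exact Algebra.mem_top
  induction hx using Algebra.adjoin_induction with
  | mem y hy =>
    intro ε hε
    obtain ⟨a, rfl⟩ := hy
    exact ⟨a, by rw [sub_self, spectralNorm_zero]; exact hε⟩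
  | algebraMap c =>
    intro ε hε
    obtain ⟨r, hr⟩ := Padic.rat_dense q c hε
    refine ⟨(r : F), ?_⟩
    have h1 : algebraMap F K (r : F) = algebraMap ℚ_[q] K (r : ℚ_[q]) := by
      rw [map_ratCast, map_ratCast]
    rw [h1, ← map_sub, spectralNorm_extends]
    exact hr
  | add y z _ _ hy hz =>
    intro ε hε
    obtain ⟨a, ha⟩ := hy ε hε
    obtain ⟨b, hb⟩ := hz ε hε
    refine ⟨a + b, ?_⟩
    have h1 : y + z - algebraMap F K (a + b) = (y - algebraMap F K a) + (z - algebraMap F K b) := by
      rw [map_add]; ring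
    rw [h1]
    exact lt_of_le_of_lt (helper71.spectralNorm_add_le q K _ _) (max_lt ha hb)
  | mul y z _ _ hy hz =>
    intro ε hε
    have hNy : 0 ≤ spectralNorm ℚ_[q] K y := spectralNorm_nonneg _
    obtain ⟨b, hb⟩ := hz (ε / (spectralNorm ℚ_[q] K y + 1)) (by positivity)
    have hNb : 0 ≤ spectralNorm ℚ_[q] K (algebraMap F K b) := spectralNorm_nonneg _
    obtain ⟨a, ha⟩ := hy (ε / (spectralNorm ℚ_[q] K (algebraMap F K b) + 1)) (by positivity)
    refine ⟨a * b, ?_⟩
    have h1 : y * z - algebraMap F K (a * b) =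
        y * (z - algebraMap F K b) + (y - algebraMap F K a) * algebraMap F K b := by
      rw [map_mul]; ring
    rw [h1]
    refine lt_of_le_of_lt (helper71.spectralNorm_add_le q K _ _) (max_lt ?_ ?_)
    · rw [helper71.spectralNorm_mul']
      calc spectralNorm ℚ_[q] K y * spectralNorm ℚ_[q] K (z - algebraMap F K b)
          ≤ spectralNorm ℚ_[q] K y * (ε / (spectralNorm ℚ_[q] K y + 1)) :=
            mul_le_mul_of_nonneg_left hb.le hNy
        _ = ε * (spectralNorm ℚ_[q] K y / (spectralNorm ℚ_[q] K y + 1)) := by ring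
        _ < ε * 1 := by
            apply mul_lt_mul_of_pos_left _ hε
            rw [div_lt_one (by positivity)]
            linarith
        _ = ε := mul_one ε
    · rw [helper71.spectralNorm_mul']
      calc spectralNorm ℚ_[q] K (y - algebraMap F K a) * spectralNorm ℚ_[q] K (algebraMap F K b)
          ≤ (ε / (spectralNorm ℚ_[q] K (algebraMap F K b) + 1)) *
              spectralNorm ℚ_[q] K (algebraMap F K b) :=
            mul_le_mul_of_nonneg_right ha.le hNb
        _ = ε * (spectralNorm ℚ_[q] K (algebraMap F K b) /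
              (spectralNorm ℚ_[q] K (algebraMap F K b) + 1)) := by ring
        _ < ε * 1 := by
            apply mul_lt_mul_of_pos_left _ hε
            rw [div_lt_one (by positivity)]
            linarith
        _ = ε := mul_one ε

/-- (F4) density of `F` in `K`, valuation form. -/
theorem exists_approx (hdense : Algebra.adjoin ℚ_[q] (Set.range (algebraMap F K)) = ⊤)
    (x : K) (n : ℤ) : ∃ a : F, (n : WithTop ℤ) ≤ ordT q K (x - algebraMap F K a) := by
  obtain ⟨a, ha⟩ := exists_approx_norm q F K hdense x (helper71.rho q K ^ n)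
    (zpow_pos (helper71.rho_pos q K) n)
  exact ⟨a, (helper71.le_ordT_iff q K _ n).mpr ha.le⟩

end Approx

section Val

variable (q : ℕ) [Fact q.Prime] (F : Type) [Field F] [NumberField F]
  (K : Type) [Field K] [Algebra ℚ_[q] K] [FiniteDimensional ℚ_[q] K] [Algebra F K]

lemma ordT_map_unit (c : Fˣ) :
    ordT q K (algebraMap F K (c : F)) =
      ((ord q K (Units.map (algebraMap F K : F →* K) c) : ℤ) : WithTop ℤ) := by
  rw [← helper97.ordT_unit]
  rfl

/-- `ord` as a monoid homomorphism. -/
noncomputable def ordHom : Kˣ →* Multiplicative ℤ where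
  toFun a := Multiplicative.ofAdd (ord q K a)
  map_one' := by
    have h := helper97.ord_one q K
    rw [h]; rfl
  map_mul' a b := by
    rw [helper97.ord_mul]; rfl

lemma ord_zpow (a : Kˣ) (k : ℤ) : ord q K (a ^ k) = k * ord q K a := by
  have h := map_zpow (ordHom q K) a k
  have h1 : Multiplicative.toAdd (ordHom q K (a ^ k)) = ord q K (a ^ k) := rfl
  have h2 : Multiplicative.toAdd (ordHom q K a ^ k) = k * ord q K a := by
    rw [toAdd_zpow]; rfl
  rw [← h1, h, h2]

/-- (F5) there is an element of `F` of valuation one. -/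
theorem exists_ordT_eq_one (hdense : Algebra.adjoin ℚ_[q] (Set.range (algebraMap F K)) = ⊤) :
    ∃ a : F, ordT q K (algebraMap F K a) = 1 := by
  obtain ⟨π, hπ⟩ := helper97.exists_ord_eq_one q K
  have hπT : ordT q K (π : K) = 1 := by
    rw [helper97.ordT_unit, hπ]; rfl
  obtain ⟨a, ha⟩ := exists_approx q F K hdense (π : K) 2
  refine ⟨a, ?_⟩
  have h1 : algebraMap F K a = (π : K) - ((π : K) - algebraMap F K a) := by ring
  have h2 : ordT q K (π : K) < ordT q K ((π : K) - algebraMap F K a) := by
    rw [hπT]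
    refine lt_of_lt_of_le ?_ ha
    exact_mod_cast (by norm_num : (1 : ℤ) < 2)
  rw [h1, ordT_sub_eq_left q K h2, hπT]

variable {q F K}
variable (v : HeightOneSpectrum (𝓞 F)) (hv : v.asIdeal = inducedPrime q F K)
include hv

lemma ordT_eq_zero_of_notMem {y : 𝓞 F} (hy : y ∉ v.asIdeal) :
    ordT q K (algebraMap F K (y : F)) = 0 := by
  rw [hv, mem_inducedPrime, not_lt] at hy
  exact le_antisymm hy (ordT_algebraMap_int_nonneg q F K y)

lemma ordT_nonneg_of_valuation_le_one {z : F} (hz : v.valuation F z ≤ 1) :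
    0 ≤ ordT q K (algebraMap F K z) ∧
      (v.valuation F z < 1 → 0 < ordT q K (algebraMap F K z)) := by
  obtain ⟨n, ⟨d, hd⟩, hnd⟩ := v.exists_primeCompl_mul_eq_of_integer z hz
  have hd' : d ∉ v.asIdeal := hd
  have hnd' : z * algebraMap (𝓞 F) F d = algebraMap (𝓞 F) F n := hnd
  have hwd := ordT_eq_zero_of_notMem v hv hd'
  have h1 : ordT q K (algebraMap F K z) = ordT q K (algebraMap F K (n : F)) := by
    have h2 : algebraMap F K (n : F) = algebraMap F K z * algebraMap F K (d : F) := by
      rw [← map_mul]; exact congrArg _ hnd'.symm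
    rw [h2, ordT_mul, hwd, add_zero]
  refine ⟨h1 ▸ ordT_algebraMap_int_nonneg q F K n, fun hlt => ?_⟩
  rw [h1, ← mem_inducedPrime, ← hv, ← v.intValuation_lt_one_iff_mem]
  have h3 : v.valuation F (algebraMap (𝓞 F) F n) = v.valuation F z := by
    rw [← hnd', map_mul]
    have : v.valuation F (algebraMap (𝓞 F) F d) = 1 :=
      (v.valuation_of_algebraMap d).trans (HeightOneSpectrum.intValuation_eq_one_iff.mpr hd')
    rw [this, mul_one]
  rw [← v.valuation_of_algebraMap (K := F) n, h3]
  exact hlt

lemma valuation_eq_one_of_ordT_eq_zero {z : F} (hz : ordT q K (algebraMap F K z) = 0) :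
    v.valuation F z = 1 := by
  have hz0 : z ≠ 0 := by
    rintro rfl
    rw [map_zero, ordT_zero] at hz
    exact WithTop.top_ne_zero hz
  rcases lt_trichotomy (v.valuation F z) 1 with h | h | h
  · have := (ordT_nonneg_of_valuation_le_one v hv h.le).2 h
    rw [hz] at this
    exact absurd this (lt_irrefl _)
  · exact h
  · have hinv : v.valuation F z⁻¹ < 1 := by
      rw [map_inv₀]
      exact inv_lt_one_of_one_lt₀ h
    have h1 := (ordT_nonneg_of_valuation_le_one v hv hinv.le).2 hinv
    have h2 := ordT_inv q K ((map_ne_zero (algebraMap F K)).mpr hz0)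
    rw [hz, zero_add, ← map_inv₀] at h2
    rw [h2] at h1
    exact absurd h1 (lt_irrefl _)

end Val

section Val2

variable {q : ℕ} [Fact q.Prime] {F : Type} [Field F] [NumberField F]
  {K : Type} [Field K] [Algebra ℚ_[q] K] [FiniteDimensional ℚ_[q] K] [Algebra F K]

lemma ordT_zpow_of_eq {y : K} {m : ℤ} (hy : ordT q K y = (m : WithTop ℤ)) (k : ℤ) :
    ordT q K (y ^ k) = ((k * m : ℤ) : WithTop ℤ) := by
  have hy0 : y ≠ 0 := by
    rintro rfl
    rw [ordT_zero] at hy
    exact WithTop.top_ne_coe hy
  have h1 : ord q K (Units.mk0 y hy0) = m := by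
    have := helper97.ordT_unit q K (Units.mk0 y hy0)
    rw [Units.val_mk0, hy] at this
    exact_mod_cast this.symm
  have h2 : y ^ k = ((Units.mk0 y hy0 ^ k : Kˣ) : K) := by
    rw [Units.val_zpow_eq_zpow_val, Units.val_mk0]
  rw [h2, helper97.ordT_unit, ord_zpow, h1]

variable (v : HeightOneSpectrum (𝓞 F)) (hv : v.asIdeal = inducedPrime q F K)
include hv

/-- (F6) The `v`-adic valuation of `F` is the restriction of the normalised valuation of `K`. -/
theorem valuation_eq_exp_neg_ord_of
    (hdense : Algebra.adjoin ℚ_[q] (Set.range (algebraMap F K)) = ⊤) (c : Fˣ) :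
    v.valuation F (c : F) =
      WithZero.exp (-(ord q K (Units.map (algebraMap F K : F →* K) c))) := by
  obtain ⟨a₀, ha₀⟩ := exists_ordT_eq_one q F K hdense
  have ha₀' : ordT q K (algebraMap F K a₀) = ((1 : ℤ) : WithTop ℤ) := by
    rw [ha₀]; rfl
  have ha₀0 : a₀ ≠ 0 := by
    rintro rfl
    rw [map_zero, ordT_zero] at ha₀
    exact WithTop.top_ne_one ha₀
  have ht0 : v.valuation F a₀ ≠ 0 := (Valuation.ne_zero_iff _).mpr ha₀0
  -- Step A
  have hA : ∀ x : Fˣ, v.valuation F (x : F) =
      v.valuation F a₀ ^ (ord q K (Units.map (algebraMap F K : F →* K) x)) := by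
    intro x
    obtain ⟨m, hm⟩ : ∃ m : ℤ, m = ord q K (Units.map (algebraMap F K : F →* K) x) := ⟨_, rfl⟩
    rw [← hm]
    have hz : ordT q K (algebraMap F K ((x : F) * a₀ ^ (-m))) = 0 := by
      rw [map_mul, ordT_mul, map_zpow₀, ordT_zpow_of_eq ha₀' (-m), ordT_map_unit, ← hm,
        ← WithTop.coe_add]
      have : m + -m * 1 = 0 := by ring
      rw [this]; rfl
    have h1 := valuation_eq_one_of_ordT_eq_zero v hv hz
    rw [map_mul, map_zpow₀, zpow_neg] at h1
    have h2 : v.valuation F a₀ ^ m ≠ 0 := zpow_ne_zero _ ht0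
    calc v.valuation F (x : F)
        = v.valuation F (x : F) * (v.valuation F a₀ ^ m)⁻¹ * v.valuation F a₀ ^ m := by
          rw [mul_assoc, inv_mul_cancel₀ h2, mul_one]
      _ = v.valuation F a₀ ^ m := by rw [h1, one_mul]
  -- Step B : the valuation of `a₀` is `exp (-1)`
  have htlt : v.valuation F a₀ < 1 := by
    by_contra hcon
    rw [not_lt] at hcon
    have hinv : v.valuation F a₀⁻¹ ≤ 1 := by
      rw [map_inv₀]
      exact inv_le_one_of_one_le₀ hcon
    have h1 := (ordT_nonneg_of_valuation_le_one v hv hinv).1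
    have h2 := ordT_inv q K ((map_ne_zero (algebraMap F K)).mpr ha₀0)
    rw [← map_inv₀, ha₀] at h2
    have h3 : (1 : WithTop ℤ) ≤ 1 + ordT q K (algebraMap F K a₀⁻¹) :=
      le_add_of_nonneg_right h1
    rw [h2] at h3
    exact absurd h3 (by decide)
  obtain ⟨j, hj⟩ : ∃ j : ℤ, v.valuation F a₀ = WithZero.exp (-j) :=
    ⟨-WithZero.log (v.valuation F a₀), by rw [neg_neg, WithZero.exp_log ht0]⟩
  have hjpos : 0 < j := by
    rw [hj, ← WithZero.exp_zero, WithZero.exp_lt_exp] at htlt
    omega
  obtain ⟨u, hu⟩ := v.valuation_exists_uniformizer F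
  have hu0 : u ≠ 0 := by
    rintro rfl
    rw [map_zero] at hu
    exact WithZero.exp_ne_zero hu.symm
  have h4 := hA (Units.mk0 u hu0)
  rw [Units.val_mk0, hu, hj, ← WithZero.exp_zsmul, WithZero.exp_inj, smul_eq_mul] at h4
  have hj1 : j = 1 := by
    have h5 : j * ord q K (Units.map (algebraMap F K : F →* K) (Units.mk0 u hu0)) = 1 := by
      linarith
    exact Int.eq_one_of_mul_eq_one_right hjpos.le h5
  rw [hA c, hj, hj1, ← WithZero.exp_zsmul, smul_eq_mul, mul_neg, mul_one]

end Val2

section Residue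

variable {q : ℕ} [Fact q.Prime] {F : Type} [Field F] [NumberField F]
  {K : Type} [Field K] [Algebra ℚ_[q] K] [FiniteDimensional ℚ_[q] K] [Algebra F K]

/-- (F7) every residue class of `𝒪_K` contains an element of `𝓞 F`. -/
theorem exists_int_approx (hdense : Algebra.adjoin ℚ_[q] (Set.range (algebraMap F K)) = ⊤)
    {x : K} (hx : 0 ≤ ordT q K x) :
    ∃ a : 𝓞 F, 0 < ordT q K (x - algebraMap F K (a : F)) := by
  obtain ⟨v, hv⟩ : ∃ v : HeightOneSpectrum (𝓞 F), v.asIdeal = inducedPrime q F K :=
    ⟨inducedPlace q F K, rfl⟩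
  obtain ⟨b, hb⟩ := exists_approx q F K hdense x 1
  have hb_pos : 0 < ordT q K (x - algebraMap F K b) :=
    lt_of_lt_of_le (by exact_mod_cast (by norm_num : (0 : ℤ) < 1)) hb
  have hb_nonneg : 0 ≤ ordT q K (algebraMap F K b) := by
    have h1 : algebraMap F K b = x - (x - algebraMap F K b) := by ring
    rw [h1]
    exact le_trans (le_min hx hb_pos.le) (ordT_sub_ge q K _ _)
  have hvb : v.valuation F b ≤ 1 := by
    by_cases hb0 : b = 0
    · rw [hb0, map_zero]; exact zero_le
    · have h1 := valuation_eq_exp_neg_ord_of v hv hdense (Units.mk0 b hb0)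
      rw [Units.val_mk0] at h1
      have h2 := ordT_map_unit q F K (Units.mk0 b hb0)
      rw [Units.val_mk0] at h2
      rw [h2] at hb_nonneg
      have h3 : 0 ≤ ord q K (Units.map (algebraMap F K : F →* K) (Units.mk0 b hb0)) := by
        exact_mod_cast hb_nonneg
      rw [h1, ← WithZero.exp_zero, WithZero.exp_le_exp]
      omega
  obtain ⟨n, ⟨d, hd⟩, hnd⟩ := v.exists_primeCompl_mul_eq_of_integer b hvb
  have hd' : d ∉ v.asIdeal := hd
  have hnd' : b * algebraMap (𝓞 F) F d = algebraMap (𝓞 F) F n := hnd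
  obtain ⟨d', i, hi, hdi⟩ := v.isMaximal.exists_inv hd'
  refine ⟨n * d', ?_⟩
  have hi' : 0 < ordT q K (algebraMap F K (i : F)) := by
    rw [← mem_inducedPrime, ← hv]; exact hi
  have h1 : x - algebraMap F K ((n * d' : 𝓞 F) : F) =
      (x - algebraMap F K b) + algebraMap F K b * algebraMap F K (i : F) := by
    have h2 : ((n * d' : 𝓞 F) : F) = b * (1 - (i : F)) := by
      have h3 : ((d' * d + i : 𝓞 F) : F) = 1 := by rw [hdi]; rfl
      have h4 : (d' : F) * (d : F) + (i : F) = 1 := by
        rw [← h3]; push_cast; ring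
      have h5 : ((n * d' : 𝓞 F) : F) = (n : F) * (d' : F) := by push_cast; ring
      rw [h5]
      have h6 : (n : F) = b * (d : F) := hnd'.symm
      rw [h6]
      linear_combination b * h4
    rw [h2, map_mul, map_sub, map_one]
    ring
  rw [h1]
  refine lt_of_lt_of_le (lt_min hb_pos ?_) (ordT_add_ge q K _ _)
  rw [ordT_mul]
  exact lt_of_lt_of_le hi' (le_add_of_nonneg_left hb_nonneg)

/-- The ring homomorphism `𝓞 F → k_K`. -/
noncomputable def resHom (q : ℕ) [Fact q.Prime] (F : Type) [Field F] [NumberField F]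
    (K : Type) [Field K] [Algebra ℚ_[q] K] [FiniteDimensional ℚ_[q] K] [Algebra F K] :
    𝓞 F →+* kq q K := (res q K).comp (intHom q F K)

lemma ker_resHom : RingHom.ker (resHom q F K) = inducedPrime q F K := by
  ext a
  rw [RingHom.mem_ker, mem_inducedPrime, resHom, RingHom.comp_apply, res_eq_zero_iff, coe_intHom]

lemma resHom_surjective (hdense : Algebra.adjoin ℚ_[q] (Set.range (algebraMap F K)) = ⊤) :
    Function.Surjective (resHom q F K) := by
  intro c
  obtain ⟨x, rfl⟩ := res_surjective q K c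
  obtain ⟨a, ha⟩ := exists_int_approx (F := F) hdense x.2
  refine ⟨a, ?_⟩
  rw [resHom, RingHom.comp_apply, eq_comm, res_eq_iff, coe_intHom]
  exact ha

/-- (F8) the residue field of the induced prime has `q ^ f` elements. -/
theorem card_quotient_inducedPrime
    (hdense : Algebra.adjoin ℚ_[q] (Set.range (algebraMap F K)) = ⊤) :
    Nat.card (𝓞 F ⧸ inducedPrime q F K) = q ^ fdeg q K := by
  rw [← card_kq q K, ← ker_resHom]
  exact Nat.card_congr (RingHom.quotientKerEquivOfSurjective (resHom_surjective hdense)).toEquiv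

end Residue

end Fermat.Agent.S55.helper2
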