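import Mathlib
import Fermat.Agent.S14.helper12_Artin
import Fermat.Agent.S55.helper11_RecDefs
import Fermat.Agent.S55.helper2_LocPlace

/-!
# S55 / REC1 R-DEC (helper2, task 291): decomposition group and valuation of a local datum

Statements VERBATIM from `helper11_Rec1Interface` (section R-DEC):
`locHom_injective`, `valuation_eq_exp_neg_ord`.
-/

set_option autoImplicit false
set_option linter.unusedSectionVars false
set_option linter.style.haveILetI false

open scoped NumberField
open IsDedekindDomain NumberField

namespace Fermat.Agent.S55.helper2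

open Fermat.Agent.S55.helper8 Fermat.Agent.S55.helper7

section Dec

open Fermat.Agent.S55.helper11 Fermat.Agent.S14

variable (q : ℕ) [Fact q.Prime]

/-- R-DEC (1): the restriction map `Gal(Lw/Kv) → Gal(L/F)` of a local datum is injective. -/
theorem locHom_injective (F L : Type) [Field F] [Field L] [Algebra F L]
    [FiniteDimensional F L] [IsGalois F L] (D : LocDatum q F L) :
    Function.Injective (locHom F L D.Kv D.Lw) := by
  rw [injective_iff_map_eq_one]
  intro σ hσ
  have h1 : ∀ x : L, σ (algebraMap L D.Lw x) = algebraMap L D.Lw x := by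
    intro x
    rw [← algebraMap_locHom F L D.Kv D.Lw σ x, hσ]
    rfl
  have h3 : (σ.restrictScalars ℚ_[q] : D.Lw →ₐ[ℚ_[q]] D.Lw) = AlgHom.id ℚ_[q] D.Lw :=
    AlgHom.ext_of_adjoin_eq_top D.denseL (by
      rintro _ ⟨x, rfl⟩
      exact h1 x)
  ext y
  exact DFunLike.congr_fun h3 y

lemma asIdeal_eq_inducedPrime_of_atPlace {F L : Type} [Field F] [NumberField F] [Field L]
    [Algebra F L] (D : LocDatum q F L) (v : HeightOneSpectrum (𝓞 F)) (hv : D.AtPlace v) :
    v.asIdeal = inducedPrime q F D.Kv := by
  ext a
  rw [mem_inducedPrime]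
  exact hv a

lemma atPlace_iff {F L : Type} [Field F] [NumberField F] [Field L]
    [Algebra F L] (D : LocDatum q F L) (v : HeightOneSpectrum (𝓞 F)) :
    D.AtPlace v ↔ v.asIdeal = inducedPrime q F D.Kv :=
  ⟨asIdeal_eq_inducedPrime_of_atPlace q D v, fun h a => by rw [h, mem_inducedPrime]⟩

/-- Every local datum sits over its induced place. -/
lemma atPlace_inducedPlace {F L : Type} [Field F] [NumberField F] [Field L]
    [Algebra F L] (D : LocDatum q F L) : D.AtPlace (inducedPlace q F D.Kv) :=
  (atPlace_iff q D _).mpr rfl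

/-- R-DEC (2): the valuation of the place of a local datum. -/
theorem valuation_eq_exp_neg_ord (F L : Type) [Field F] [NumberField F]
    [Field L] [Algebra F L] (D : LocDatum q F L) (v : HeightOneSpectrum (𝓞 F))
    (hv : D.AtPlace v) (c : Fˣ) :
    v.valuation F (c : F) =
      WithZero.exp (-(ord q D.Kv (Units.map (algebraMap F D.Kv : F →* D.Kv) c))) :=
  valuation_eq_exp_neg_ord_of v (asIdeal_eq_inducedPrime_of_atPlace q D v hv) D.denseK c

end Dec

end Fermat.Agent.S55.helper2
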