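import Mathlib
import Fermat.Agent.S14.helper2_LocalP
import Fermat.Agent.S55.helper2_RecDec

/-!
# S55 / REC1 R-DEC (helper2, task 291), part 2: `unram_locDatum`

Statement VERBATIM from `helper11_Rec1Interface` (section R-DEC).
-/

set_option autoImplicit false
set_option linter.unusedSectionVars false
set_option linter.style.haveILetI false

open scoped NumberField
open IsDedekindDomain NumberField

namespace Fermat.Agent.S55.helper2

open Fermat.Agent.S55.helper8 Fermat.Agent.S55.helper7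
open Fermat.Agent.S55.helper11 Fermat.Agent.S14

section Unram

variable (q : ℕ) [Fact q.Prime] (F M : Type) [Field F] [NumberField F] [Field M]
  [NumberField M] [Algebra F M] [IsGalois F M] (D : LocDatum q F M)

/-- the embeddings of a local datum are compatible -/
lemma algebraMap_compat (a : F) :
    algebraMap M D.Lw (algebraMap F M a) = algebraMap D.Kv D.Lw (algebraMap F D.Kv a) := by
  rw [← IsScalarTower.algebraMap_apply F M D.Lw, ← IsScalarTower.algebraMap_apply F D.Kv D.Lw]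

instance finiteDimensional_Lw : FiniteDimensional ℚ_[q] D.Lw := Module.Finite.trans D.Kv D.Lw

/-- (G1) the induced prime of `M → Lw` lies over the induced prime of `F → Kv`. -/
theorem under_inducedPrime :
    (inducedPrime q M D.Lw).under (𝓞 F) = inducedPrime q F D.Kv := by
  ext a
  rw [Ideal.under_def, Ideal.mem_comap, mem_inducedPrime, mem_inducedPrime]
  have h1 : ((algebraMap (𝓞 F) (𝓞 M) a : 𝓞 M) : M) = algebraMap F M (a : F) := rfl
  rw [h1, algebraMap_compat, ordT_algebraMap_pos_iff]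

/-- trivial inertia gives ramification index one -/
lemma ramificationIdx_eq_one_of_inertia (𝔭 : Ideal (𝓞 F)) [𝔭.IsMaximal] (P : Ideal (𝓞 M))
    [P.IsPrime] [P.LiesOver 𝔭]
    (h : ∀ σ : Gal(M/F), (∀ x : 𝓞 M, σ • x - x ∈ P) → σ = 1) :
    P.ramificationIdx (𝓞 F) = 1 := by
  rw [← Ideal.ramificationIdxIn_eq_ramificationIdx 𝔭 P Gal(M/F),
    ← Ideal.card_inertia_eq_ramificationIdxIn (G := Gal(M/F)) 𝔭 P, Nat.card_eq_one_iff_unique]
  refine ⟨⟨fun a b => ?_⟩, ⟨1⟩⟩
  have h1 : ∀ c : Ideal.inertia Gal(M/F) P, (c : Gal(M/F)) = 1 := fun c =>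
    h c (fun x => c.2 x)
  exact Subtype.ext ((h1 a).trans (h1 b).symm)

/-- (G2) if the inertia group of the induced prime is trivial then `Lw/Kv` is unramified. -/
theorem isUnram_of_inertia
    (h : ∀ σ : Gal(M/F), (∀ x : 𝓞 M, σ • x - x ∈ inducedPrime q M D.Lw) → σ = 1) :
    IsUnram q D.Kv D.Lw := by
  rw [helper33.isUnram_iff]
  obtain ⟨v, hv⟩ : ∃ v : HeightOneSpectrum (𝓞 F), v.asIdeal = inducedPrime q F D.Kv :=
    ⟨inducedPlace q F D.Kv, rfl⟩
  obtain ⟨w, hw⟩ : ∃ w : HeightOneSpectrum (𝓞 M), w.asIdeal = inducedPrime q M D.Lw :=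
    ⟨inducedPlace q M D.Lw, rfl⟩
  haveI : v.asIdeal.IsMaximal := v.isMaximal
  haveI hlo : w.asIdeal.LiesOver v.asIdeal := ⟨by rw [hw, hv, under_inducedPrime]⟩
  have he : w.asIdeal.ramificationIdx (𝓞 F) = 1 :=
    ramificationIdx_eq_one_of_inertia F M v.asIdeal w.asIdeal (by rw [hw]; exact h)
  obtain ⟨a, ha⟩ := exists_ordT_eq_one q F D.Kv D.denseK
  have ha0 : a ≠ 0 := by
    rintro rfl
    rw [map_zero, ordT_zero] at ha
    exact WithTop.top_ne_one ha
  have haM0 : algebraMap F M a ≠ 0 := (map_ne_zero _).mpr ha0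
  -- valuations
  have h1 := valuation_eq_exp_neg_ord_of v hv D.denseK (Units.mk0 a ha0)
  have h2 := valuation_eq_exp_neg_ord_of w hw D.denseL (Units.mk0 (algebraMap F M a) haM0)
  have h3 := Fermat.Agent.S14.helper2.lp_valuation_eq v w he a
  rw [Units.val_mk0] at h1 h2
  rw [h2, h1, WithZero.exp_inj, neg_inj] at h3
  -- ord on the `Kv` side is `1`
  have h4 : ord q D.Kv (Units.map (algebraMap F D.Kv : F →* D.Kv) (Units.mk0 a ha0)) = 1 := by
    have := ordT_map_unit q F D.Kv (Units.mk0 a ha0)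
    rw [Units.val_mk0, ha] at this
    exact_mod_cast this.symm
  rw [h4] at h3
  -- ord on the `Lw` side is `relE`
  have hK0 : algebraMap F D.Kv a ≠ 0 := (map_ne_zero _).mpr ha0
  have h5 := ordT_algebraMap_of_ne_zero q D.Kv D.Lw hK0
  have h6 := ordT_map_unit q M D.Lw (Units.mk0 (algebraMap F M a) haM0)
  rw [Units.val_mk0, algebraMap_compat, h5, h3] at h6
  have h7 : ord q D.Kv (Units.mk0 (algebraMap F D.Kv a) hK0) = 1 := by
    rw [← h4]
    congr 1
    exact Units.ext rfl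
  rw [h7, mul_one] at h6
  exact_mod_cast h6

/-- (G4) for a Frobenius `φ` of `Lw/Kv`, the restriction `locHom φ` is an arithmetic Frobenius
at the induced prime. -/
theorem isArithFrobAt_locHom (φ : D.Lw ≃ₐ[D.Kv] D.Lw) (hφ : IsFrob q D.Kv D.Lw φ) :
    IsArithFrobAt (𝓞 F) (locHom F M D.Kv D.Lw φ) (inducedPrime q M D.Lw) := by
  intro y
  have hN : Nat.card (𝓞 F ⧸ (inducedPrime q M D.Lw).under (𝓞 F)) = q ^ fdeg q D.Kv := by
    rw [under_inducedPrime]
    exact card_quotient_inducedPrime D.denseK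
  rw [hN, mem_inducedPrime]
  have h1 : (((MulSemiringAction.toAlgHom (𝓞 F) (𝓞 M) (locHom F M D.Kv D.Lw φ)) y -
      y ^ (q ^ fdeg q D.Kv) : 𝓞 M) : M) =
      (locHom F M D.Kv D.Lw φ) (y : M) - (y : M) ^ (q ^ fdeg q D.Kv) := rfl
  rw [h1, map_sub, map_pow, algebraMap_locHom]
  exact hφ _ (ordT_algebraMap_int_nonneg q M D.Lw y)

end Unram

section Main

variable (q : ℕ) [Fact q.Prime]

/-- R-DEC (3): at an unramified place the completion is unramified, its Galois group is
generated by a Frobenius element, and this Frobenius restricts to the global Frobenius. -/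
theorem unram_locDatum (F M : Type) [Field F] [NumberField F] [Field M]
    [NumberField M] [Algebra F M] [IsAbelianGalois F M] (D : LocDatum q F M)
    (v : HeightOneSpectrum (𝓞 F)) (hv : D.AtPlace v)
    (hunr : ∀ P : Ideal (𝓞 M), P.IsPrime → P.under (𝓞 F) = v.asIdeal →
      ∀ σ : Gal(M/F), (∀ x : 𝓞 M, σ • x - x ∈ P) → σ = 1) :
    IsUnram q D.Kv D.Lw ∧ ∃ φ : D.Lw ≃ₐ[D.Kv] D.Lw, IsFrob q D.Kv D.Lw φ ∧
      (∀ τ : D.Lw ≃ₐ[D.Kv] D.Lw, τ ∈ Subgroup.zpowers φ) ∧
      locHom F M D.Kv D.Lw φ = frobAt F M v.asIdeal := by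
  have hvF : v.asIdeal = inducedPrime q F D.Kv := asIdeal_eq_inducedPrime_of_atPlace q D v hv
  have hPv : (inducedPrime q M D.Lw).under (𝓞 F) = v.asIdeal := by
    rw [under_inducedPrime, hvF]
  have hunrP := hunr (inducedPrime q M D.Lw) inferInstance hPv
  have hU : IsUnram q D.Kv D.Lw := isUnram_of_inertia q F M D hunrP
  obtain ⟨φ, hφ, hgen, -, -⟩ := exists_frob_of_isUnram q D.Kv D.Lw hU
  refine ⟨hU, φ, hφ, hgen, ?_⟩
  have h1 := helper12.eq_frobAt_of_isArithFrobAt F M (inducedPrime q M D.Lw)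
    (inducedPrime_ne_bot q M D.Lw) hunrP _ (isArithFrobAt_locHom q F M D φ hφ)
  rw [h1, hPv]

end Main

end Fermat.Agent.S55.helper2
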