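import Fermat.Agent.S55.helper71_H3SemiLoc
import Fermat.Agent.S55.helper2_RecUnram
import Fermat.Agent.S55.helper97_LocVal

/-!
# S55 / REC3 (helper31): integral units of `ℚ_q ⊗ E` and the local unit groups

Leaf lemmas shared by the semilocal Shapiro arguments for integral units in degree 3 ([US-SL],
R3-J3) and in degree 2 (LOC-INJ):

* `isIntegral_of_forall_maximal` : in a reduced Artinian algebra, integrality can be checked
  modulo all maximal ideals;
* `mem_unitGroup_iff_isIntegral` : `u ∈ U_K` iff `u` and `u⁻¹` are integral over `ℤ_q`;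
* `mem_intUnits_iff_forall_slPhi` : `u` is an integral unit of `ℚ_q ⊗ E` iff all its components
  are local units;
* `exists_intUnits_forall_sub_mem` : Chinese remainder theorem on the integral units;
* `exists_intUnits_slPhi_eq` : every local unit is the component of an integral unit;
* `isUnram_slDatum_of_inertia` : trivial inertia at the primes above `q` makes all local
  extensions `slDatum q F E n` unramified.
-/

set_option autoImplicit false
set_option linter.unusedSectionVars false

open scoped TensorProduct NumberField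

noncomputable section

namespace Fermat.Agent.S55.helper31

open Fermat.Agent.S55 Fermat.Agent.S55.helper8 Fermat.Agent.S55.helper11
  Fermat.Agent.S55.helper73 Fermat.Agent.S55.helper97 Fermat.Agent.S55.helper71

section Generic

variable {R B : Type*} [CommRing R] [CommRing B] [Algebra R B] [IsArtinianRing B] [IsReduced B]

/-- In a reduced Artinian algebra, integrality can be checked modulo all maximal ideals. -/
theorem isIntegral_of_forall_maximal {x : B}
    (h : ∀ n : MaximalSpectrum B, IsIntegral R (Ideal.Quotient.mk n.asIdeal x)) :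
    IsIntegral R x := by
  classical
  haveI : Finite (MaximalSpectrum B) := inferInstance
  letI := Fintype.ofFinite (MaximalSpectrum B)
  choose P hPm hP using h
  refine ⟨∏ n, P n, Polynomial.monic_prod_of_monic _ _ (fun n _ => hPm n), ?_⟩
  apply eq_zero_of_forall_mem
  intro n
  rw [← Ideal.Quotient.eq_zero_iff_mem, Polynomial.hom_eval₂, Polynomial.eval₂_finsetProd]
  exact Finset.prod_eq_zero (Finset.mem_univ n) (hP n)

end Generic

section Local

variable (q : ℕ) [Fact q.Prime]
variable (K : Type) [Field K] [Algebra ℚ_[q] K] [FiniteDimensional ℚ_[q] K]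
variable [Algebra ℤ_[q] K] [IsScalarTower ℤ_[q] ℚ_[q] K]

theorem isIntegral_iff_ordT_nonneg (x : K) : IsIntegral ℤ_[q] x ↔ 0 ≤ ordT q K x := by
  rw [← mem_ball_zero_iff, ← mem_intClosure_iff, mem_integralClosure_iff]

/-- `u ∈ U_K` iff `u` and `u⁻¹` are integral over `ℤ_q`. -/
theorem mem_unitGroup_iff_isIntegral (u : Kˣ) :
    u ∈ unitGroup q K ↔
      IsIntegral ℤ_[q] (u : K) ∧ IsIntegral ℤ_[q] ((u⁻¹ : Kˣ) : K) := by
  rw [helper97.mem_unitGroup_iff, isIntegral_iff_ordT_nonneg, isIntegral_iff_ordT_nonneg,
    helper97.ordT_unit, helper97.ordT_unit, helper97.ord_inv]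
  constructor
  · intro h
    rw [h]
    simp
  · rintro ⟨h1, h2⟩
    have h1' : (0 : ℤ) ≤ ord q K u := by exact_mod_cast h1
    have h2' : (0 : ℤ) ≤ -ord q K u := by exact_mod_cast h2
    omega

end Local

section SemiLocal

variable (q : ℕ) [Fact q.Prime] (F E : Type) [Field F] [NumberField F] [Field E] [NumberField E]
  [Algebra F E] [IsGalois F E]

/-- integrality in `ℚ_q ⊗ E` can be checked in the residue fields -/
theorem isIntegral_iff_forall_slPi (x : SemiLoc q E) :
    IsIntegral ℤ_[q] x ↔
      ∀ n : MaximalSpectrum (SemiLoc q E), IsIntegral ℤ_[q] (slPi q E n x) := by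
  constructor
  · intro h n
    exact h.map ((slPi q E n).restrictScalars ℤ_[q])
  · intro h
    exact isIntegral_of_forall_maximal (R := ℤ_[q]) (B := SemiLoc q E) h

/-- the local unit group of the residue field at `n`, in terms of integrality -/
theorem mem_unitGroup_slRes_iff (n : MaximalSpectrum (SemiLoc q E)) (v : (slRes q E n)ˣ) :
    v ∈ unitGroup q (slRes q E n) ↔
      IsIntegral ℤ_[q] (v : slRes q E n) ∧ IsIntegral ℤ_[q] ((v⁻¹ : (slRes q E n)ˣ) : slRes q E n) :=
  mem_unitGroup_iff_isIntegral q (slRes q E n) v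

/-- **(b2)** a unit of `ℚ_q ⊗ E` is an integral unit iff all its components are local units. -/
theorem mem_intUnits_iff_forall_slPhi (u : (SemiLoc q E)ˣ) :
    u ∈ intUnits q E ↔ ∀ n : MaximalSpectrum (SemiLoc q E),
      (Additive.toMul (slPhi q F E n (Additive.ofMul u)) : (slDatum q F E n).Lwˣ) ∈
        unitGroup q (slDatum q F E n).Lw := by
  rw [mem_intUnits, isIntegral_iff_forall_slPi, isIntegral_iff_forall_slPi, ← forall_and]
  refine forall_congr' fun n => ?_
  exact (mem_unitGroup_slRes_iff q E n
    (Units.map ((slPi q E n : SemiLoc q E →ₐ[ℚ_[q]] slRes q E n) :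
      SemiLoc q E →* slRes q E n) u)).symm

attribute [local instance] additiveDMA

variable {q F E}

/-- congruent units have the same component -/
theorem slPhi_eq_of_sub_mem {n : MaximalSpectrum (SemiLoc q E)} {u u' : Additive (SemiLoc q E)ˣ}
    (h : u - u' ∈ oneModAdd n.asIdeal) : slPhi q F E n u = slPhi q F E n u' := by
  rw [← slPhi_eq_zero_iff (F := F), map_sub, sub_eq_zero] at h
  exact h

variable (q F E)

/-- **(a)** Chinese remainder theorem on the integral units: a family of units whose `n`-th
member has an integral `n`-component is congruent to one integral unit. -/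
theorem exists_intUnits_of_forall_unitGroup
    (f : MaximalSpectrum (SemiLoc q E) → Additive (SemiLoc q E)ˣ)
    (hf : ∀ n, (Additive.toMul (slPhi q F E n (f n)) : (slDatum q F E n).Lwˣ) ∈
      unitGroup q (slDatum q F E n).Lw) :
    ∃ m : Additive (SemiLoc q E)ˣ, (Additive.toMul m : (SemiLoc q E)ˣ) ∈ intUnits q E ∧
      ∀ n, m - f n ∈ oneModAdd n.asIdeal := by
  obtain ⟨m, hm⟩ := exists_forall_sub_mem_oneModAdd (B := SemiLoc q E) f
  refine ⟨m, ?_, hm⟩
  rw [mem_intUnits_iff_forall_slPhi q F E]
  intro n
  have h1 : slPhi q F E n (Additive.ofMul (Additive.toMul m)) = slPhi q F E n (f n) :=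
    slPhi_eq_of_sub_mem (hm n)
  rw [h1]
  exact hf n

include F in
/-- Chinese remainder theorem for families of integral units. -/
theorem exists_intUnits_forall_sub_mem
    (f : MaximalSpectrum (SemiLoc q E) → Additive (SemiLoc q E)ˣ)
    (hf : ∀ n, (Additive.toMul (f n) : (SemiLoc q E)ˣ) ∈ intUnits q E) :
    ∃ m : Additive (SemiLoc q E)ˣ, (Additive.toMul m : (SemiLoc q E)ˣ) ∈ intUnits q E ∧
      ∀ n, m - f n ∈ oneModAdd n.asIdeal :=
  exists_intUnits_of_forall_unitGroup q F E f
    (fun n => (mem_intUnits_iff_forall_slPhi q F E _).1 (hf n) n)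

/-- every local unit at `n` is the `n`-component of an integral unit -/
theorem exists_intUnits_slPhi_eq (n : MaximalSpectrum (SemiLoc q E))
    (v : Additive (slDatum q F E n).Lwˣ)
    (hv : (Additive.toMul v : (slDatum q F E n).Lwˣ) ∈ unitGroup q (slDatum q F E n).Lw) :
    ∃ u : Additive (SemiLoc q E)ˣ, (Additive.toMul u : (SemiLoc q E)ˣ) ∈ intUnits q E ∧
      slPhi q F E n u = v := by
  classical
  obtain ⟨u₀, hu₀⟩ := slPhi_surjective (q := q) (F := F) (L := E) (n := n) v
  obtain ⟨m, hm, hmf⟩ := exists_intUnits_of_forall_unitGroup q F E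
    (fun n' => if n' = n then u₀ else 0) (fun n' => by
      by_cases h : n' = n
      · subst h
        rw [if_pos rfl, hu₀]
        exact hv
      · rw [if_neg h, map_zero]
        exact one_mem _)
  refine ⟨m, hm, ?_⟩
  have := slPhi_eq_of_sub_mem (F := F) (hmf n)
  rw [if_pos rfl] at this
  rw [this, hu₀]

/-- **(c)** trivial inertia at the primes of `E` above `q` makes all the local extensions of the
data `slDatum q F E n` unramified. -/
theorem isUnram_slDatum_of_inertia
    (hunr : ∀ P : Ideal (𝓞 E), P.IsPrime → ((q : ℕ) : 𝓞 E) ∈ P →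
      ∀ σ : Gal(E/F), (∀ x : 𝓞 E, σ • x - x ∈ P) → σ = 1)
    (n : MaximalSpectrum (SemiLoc q E)) :
    IsUnram q (slDatum q F E n).Kv (slDatum q F E n).Lw :=
  helper2.isUnram_of_inertia q F E (slDatum q F E n)
    (hunr (helper2.inducedPrime q E (slDatum q F E n).Lw) inferInstance
      (helper2.natCast_mem_inducedPrime q E (slDatum q F E n).Lw))

end SemiLocal

end Fermat.Agent.S55.helper31
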