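import Fermat.Agent.S55.helper46_FG7H3

/-!
# S55 / REC3 R3-J3 (helper31): abstract cochain lemmas in degree 3

* `isZero_H3_of_family` : if `A → ∏ i, B i` (equivariant, componentwise) is bijective and
  `H³(G, B i) = 0` for all `i`, then `H³(G, A) = 0` (no finiteness of the index set);
* `isZero_H3_of_equiv` : transport of `H³ = 0` along a group isomorphism and a compatible additive
  bijection of the modules;
* `isZero_H3_of_addEquiv` : the special case of the same group.
-/

set_option autoImplicit false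

universe u

open CategoryTheory CategoryTheory.Limits groupCohomology

namespace Fermat.Agent.S55.helper31

open Fermat.Agent.S55 Fermat.Agent.S55.helper46

section Family

variable {k G : Type u} [CommRing k] [Group G]

/-- **Products**: `H³(G, ∏ B i) = 0` if all `H³(G, B i) = 0`, in recognised form. -/
theorem isZero_H3_of_family {A : Rep.{u} k G} {ι : Type*} (B : ι → Rep.{u} k G)
    (p : ∀ i, A →+ B i)
    (hp : ∀ (i : ι) (g : G) (a : A), p i (A.ρ g a) = (B i).ρ g (p i a))
    (hinj : ∀ a : A, (∀ i, p i a = 0) → a = 0)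
    (hsurj : ∀ b : ∀ i, B i, ∃ a : A, ∀ i, p i a = b i)
    (hB : ∀ i, IsZero (groupCohomology (B i) 3)) : IsZero (groupCohomology A 3) := by
  rw [isZero_H3_iff]
  intro f hf
  have hcomp : ∀ i, ∃ g : G × G → B i, (d₂₃ (B i)).hom g = fun x => p i (f x) := by
    intro i
    refine (isZero_H3_iff (B i)).1 (hB i) _ ?_
    funext x
    have := congrFun hf x
    obtain ⟨g₁, g₂, g₃, g₄⟩ := x
    rw [d₃₄_apply] at this ⊢
    simp only [Pi.zero_apply] at this ⊢
    rw [← hp, ← map_sub, ← map_add, ← map_sub, ← map_add, this, map_zero]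
  choose gi hgi using hcomp
  choose g hg using fun x : G × G => hsurj (fun i => gi i x)
  refine ⟨g, ?_⟩
  funext x
  rw [← sub_eq_zero]
  refine hinj _ fun i => ?_
  have h1 := congrFun (hgi i) x
  obtain ⟨g₁, g₂, g₃⟩ := x
  rw [d₂₃_hom_apply] at h1 ⊢
  simp only at h1 ⊢
  rw [map_sub, map_sub, map_add, map_sub, hp, hg, hg, hg, hg, h1, sub_self]

end Family

section Equiv

variable {k G G' : Type u} [CommRing k] [Group G] [Group G']

/-- **Transport** of `H³ = 0` along a group isomorphism and a compatible additive bijection. -/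
theorem isZero_H3_of_equiv {A : Rep.{u} k G} {A' : Rep.{u} k G'} (e : G' ≃* G) (j : A' ≃+ A)
    (hj : ∀ (g : G') (a : A'), j (A'.ρ g a) = A.ρ (e g) (j a))
    (hA : IsZero (groupCohomology A 3)) : IsZero (groupCohomology A' 3) := by
  rw [isZero_H3_iff] at hA ⊢
  intro f hf
  obtain ⟨g, hg⟩ := hA (fun x => j (f (e.symm x.1, e.symm x.2.1, e.symm x.2.2))) (by
    funext x
    obtain ⟨g₁, g₂, g₃, g₄⟩ := x
    have := congrFun hf (e.symm g₁, e.symm g₂, e.symm g₃, e.symm g₄)
    rw [d₃₄_apply] at this ⊢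
    simp only [Pi.zero_apply, map_mul] at this ⊢
    have h1 : A.ρ g₁ (j (f (e.symm g₂, e.symm g₃, e.symm g₄))) =
        j (A'.ρ (e.symm g₁) (f (e.symm g₂, e.symm g₃, e.symm g₄))) := by
      rw [hj, MulEquiv.apply_symm_apply]
    rw [h1, ← map_sub, ← map_add, ← map_sub, ← map_add, this, map_zero])
  refine ⟨fun x => j.symm (g (e x.1, e x.2)), ?_⟩
  funext x
  obtain ⟨g₁, g₂, g₃⟩ := x
  have h1 := congrFun hg (e g₁, e g₂, e g₃)
  rw [d₂₃_hom_apply] at h1 ⊢
  simp only [MulEquiv.symm_apply_apply, map_mul] at h1 ⊢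
  apply j.injective
  rw [← h1, map_sub, map_add, map_sub, hj, AddEquiv.apply_symm_apply, AddEquiv.apply_symm_apply,
    AddEquiv.apply_symm_apply, AddEquiv.apply_symm_apply]

/-- **Transport** of `H³ = 0` along a compatible additive bijection (same group). -/
theorem isZero_H3_of_addEquiv {A A' : Rep.{u} k G} (j : A' ≃+ A)
    (hj : ∀ (g : G) (a : A'), j (A'.ρ g a) = A.ρ g (j a))
    (hA : IsZero (groupCohomology A 3)) : IsZero (groupCohomology A' 3) :=
  isZero_H3_of_equiv (MulEquiv.refl G) j hj hA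

end Equiv

end Fermat.Agent.S55.helper31
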