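import Fermat.Agent.S55.helper31_J3Defs
import Fermat.Agent.S55.helper31_J3Abs

/-!
# S55 / REC3 R3-J3 (helper31): `H³` of the finite-level `S`-ideles

`isZero_H3_repSIdele` : for any extension `L/K` (fields of characteristic `0`, no finiteness
needed) the `S`-ideles `J_{L,S} = ∏_{q ∈ S} (ℚ_q ⊗ L)ˣ × ∏_{q ∉ S} U_q` have `H³ = 0` as soon as
`H³(Gal(L/K), (ℚ_q ⊗ L)ˣ) = 0` for `q ∈ S` and `H³(Gal(L/K), U_q) = 0` for `q ∉ S`.
-/

set_option autoImplicit false

open scoped TensorProduct

open CategoryTheory CategoryTheory.Limits groupCohomology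

noncomputable section

namespace Fermat.Agent.S55.helper31

open Fermat.Agent.S55.helper73

variable (S : Finset Nat.Primes) (K L : Type) [Field K] [Field L] [CharZero L] [Algebra K L]

/-- the index type of the local components of the `S`-ideles -/
abbrev SIdx : Type := {q : Nat.Primes // q ∈ S} ⊕ {q : Nat.Primes // q ∉ S}

/-- the local components of the `S`-ideles, as representations -/
def sIdeleComp : SIdx S → Rep.{0} ℤ (L ≃ₐ[K] L) :=
  Sum.elim (fun q => repSemiLocUnits (q.1 : ℕ) K L) (fun q => repIntUnits (q.1 : ℕ) K L)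

variable {S} in
/-- the component at `q` of an `S`-idele -/
def sIdeleProjS (q : Nat.Primes) : sIdele S L →* (SemiLoc (q : ℕ) L)ˣ where
  toFun x := ((x : Idele L) : IdelePi L) q
  map_one' := rfl
  map_mul' _ _ := rfl

variable {S} in
/-- the component at `q ∉ S` of an `S`-idele, an integral unit -/
def sIdeleProjU (q : Nat.Primes) (hq : q ∉ S) : sIdele S L →* intUnits (q : ℕ) L where
  toFun x := ⟨((x : Idele L) : IdelePi L) q, x.2 q hq⟩
  map_one' := rfl
  map_mul' _ _ := rfl

/-- the projections of the `S`-ideles onto their local components -/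
def sIdeleProj : ∀ i : SIdx S, repSIdele S K L →+ sIdeleComp S K L i
  | Sum.inl q =>
    show Additive (sIdele S L) →+ Additive (SemiLoc (q.1 : ℕ) L)ˣ from
      MonoidHom.toAdditive (sIdeleProjS L q.1)
  | Sum.inr q =>
    show Additive (sIdele S L) →+ Additive (intUnits (q.1 : ℕ) L) from
      MonoidHom.toAdditive (sIdeleProjU L q.1 q.2)

/-- **`H³` of the `S`-ideles** vanishes if it vanishes for all local components. -/
theorem isZero_H3_repSIdele
    (hS : ∀ q : Nat.Primes, q ∈ S → IsZero (groupCohomology (repSemiLocUnits (q : ℕ) K L) 3))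
    (hU : ∀ q : Nat.Primes, q ∉ S → IsZero (groupCohomology (repIntUnits (q : ℕ) K L) 3)) :
    IsZero (groupCohomology (repSIdele S K L) 3) := by
  classical
  refine isZero_H3_of_family (sIdeleComp S K L) (sIdeleProj S K L) ?_ ?_ ?_ ?_
  · rintro (q | q) g a
    · rfl
    · rfl
  · intro a ha
    have h1 : ∀ q : Nat.Primes, (((Additive.toMul a : sIdele S L) : Idele L) : IdelePi L) q = 1 := by
      intro q
      by_cases hq : q ∈ S
      · exact ha (Sum.inl ⟨q, hq⟩)
      · have := ha (Sum.inr ⟨q, hq⟩)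
        exact congrArg Subtype.val this
    have h2 : (Additive.toMul a : sIdele S L) = 1 := by
      apply Subtype.ext
      apply Subtype.ext
      funext q
      exact h1 q
    exact h2
  · intro b
    let x : IdelePi L := fun q =>
      if hq : q ∈ S then (Additive.toMul (b (Sum.inl ⟨q, hq⟩)) : (SemiLoc (q : ℕ) L)ˣ)
      else ((Additive.toMul (b (Sum.inr ⟨q, hq⟩)) : intUnits (q : ℕ) L) : (SemiLoc (q : ℕ) L)ˣ)
    have hx : ∀ q : Nat.Primes, q ∉ S → x q ∈ intUnits (q : ℕ) L := by
      intro q hq
      simp only [x, dif_neg hq]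
      exact (Additive.toMul (b (Sum.inr ⟨q, hq⟩)) : intUnits (q : ℕ) L).2
    refine ⟨Additive.ofMul (⟨⟨x, mem_idele_of_forall_notMem hx⟩, hx⟩ : sIdele S L), ?_⟩
    rintro (q | q)
    · change Additive.ofMul (x q.1) = b (Sum.inl q)
      simp only [x, dif_pos q.2]
      rfl
    · change Additive.ofMul (⟨x q.1, hx q.1 q.2⟩ : intUnits (q.1 : ℕ) L) = b (Sum.inr q)
      have : (⟨x q.1, hx q.1 q.2⟩ : intUnits (q.1 : ℕ) L) =
          Additive.toMul (b (Sum.inr q)) := by
        apply Subtype.ext
        simp only [x, dif_neg q.2]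
        rfl
      rw [this]
      rfl
  · rintro (q | q)
    · exact hS q.1 q.2
    · exact hU q.1 q.2

end Fermat.Agent.S55.helper31
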