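import Fermat.Agent.S55.helper17_RecSL
import Fermat.Agent.S55.helper31_J3Prod
import Fermat.Agent.S55.helper46_Dic

/-!
# S55 / REC3 / LOC-INJ, finite-level half [INJ-FIN] (helper69)

* `exists_primitive_smul`, `isCoboundary₂_of_partition_orbit`,
  `isMulCoboundary₂_of_partition_orbit`, `isMulCoboundary₂_of_forall_maximal_orbit` : the
  semilocal Shapiro lemma of `helper17` in ORBIT form (local triviality is needed at one point of
  every orbit only; transport by the conjugation homotopy).
* `exists_d₁₂_eq_of_family` : products in degree 2, cochain form.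
* `compAt`, `isMulCocycle₂_compAt`, `exists_d₁₂_eq_of_comp` : the `S`-ideles of `L`.
* `HypUS2` : the degree-2 vanishing of the cohomology of unramified integral units, as a `Prop`.
* `exists_d₁₂_eq_repSIdele` : **[INJ-FIN]**.
-/

set_option autoImplicit false
set_option linter.unusedSectionVars false
set_option linter.unusedVariables false

universe u

open scoped TensorProduct
open groupCohomology CategoryTheory CategoryTheory.Limits

noncomputable section

namespace Fermat.Agent.S55.helper69.Inj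

open Fermat.Agent.S55 Fermat.Agent.S55.helper17 Fermat.Agent.S55.helper73
  Fermat.Agent.S55.helper97

/-! ## Abstract: transport of local primitives along orbits -/

section Abstract

variable {G M I : Type*} [Group G] [AddCommGroup M] [DistribMulAction G M] [MulAction G I]

/-- **Transport of local primitives along the orbit.**  If the 2-cocycle `c` is, after applying
`e i`, the coboundary of `z` on the stabiliser of `i`, then it is, after applying `e (g • i)`, the
coboundary of an explicit `z'` on the stabiliser of `g • i` (conjugation homotopy). -/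
theorem exists_primitive_smul (e : I → M →+ M)
    (he : ∀ (g : G) (i : I) (m : M), g • e i m = e (g • i) (g • m))
    {c : G × G → M} (hc : IsCocycle₂ c) (i : I) (g : G) (z : G → M)
    (hz : ∀ h h' : G, h • i = i → h' • i = i →
      e i (c (h, h')) = e i (h • z h' - z (h * h') + z h)) :
    ∃ z' : G → M, ∀ k k' : G, k • (g • i) = g • i → k' • (g • i) = g • i →
      e (g • i) (c (k, k')) = e (g • i) (k • z' k' - z' (k * k') + z' k) := by
  refine ⟨fun k => g • z (g⁻¹ * k * g) - (c (g, g⁻¹ * k * g) - c (k, g)), fun k k' hk hk' => ?_⟩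
  have hk1 : (g⁻¹ * k * g) • i = i := by
    rw [mul_smul, mul_smul, hk, inv_smul_smul]
  have hk2 : (g⁻¹ * k' * g) • i = i := by
    rw [mul_smul, mul_smul, hk', inv_smul_smul]
  have h0 := hz _ _ hk1 hk2
  have h1 := congrArg (fun m => g • m) h0
  simp only [he] at h1
  -- cocycle identities
  have c1 := hc g (g⁻¹ * k * g) (g⁻¹ * k' * g)
  have c2 := hc k g (g⁻¹ * k' * g)
  have c3 := hc k k' g
  have e1 : g * (g⁻¹ * k * g) = k * g := by group
  have e2 : g * (g⁻¹ * k' * g) = k' * g := by group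
  have e3 : g⁻¹ * k * g * (g⁻¹ * k' * g) = g⁻¹ * (k * k') * g := by group
  rw [e1, e3] at c1
  rw [e2] at c2
  rw [e3] at h1
  have key : c (k, k') = g • c (g⁻¹ * k * g, g⁻¹ * k' * g)
      - (k • (c (g, g⁻¹ * k' * g) - c (k', g))
        - (c (g, g⁻¹ * (k * k') * g) - c (k * k', g))
        + (c (g, g⁻¹ * k * g) - c (k, g))) := by
    have c1' : g • c (g⁻¹ * k * g, g⁻¹ * k' * g) =
        c (k * g, g⁻¹ * k' * g) + c (g, g⁻¹ * k * g) - c (g, g⁻¹ * (k * k') * g) := by
      rw [eq_sub_iff_add_eq, ← c1]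
    have c2' : c (k * g, g⁻¹ * k' * g) = k • c (g, g⁻¹ * k' * g) + c (k, k' * g) - c (k, g) := by
      rw [eq_sub_iff_add_eq, ← c2]
    have c3' : c (k, k' * g) = c (k * k', g) + c (k, k') - k • c (k', g) := by
      rw [eq_sub_iff_add_eq, add_comm, ← c3]
    rw [c1', c2', c3']
    simp only [smul_sub]
    abel
  have h2 : g • (g⁻¹ * k * g) • z (g⁻¹ * k' * g) = k • g • z (g⁻¹ * k' * g) := by
    rw [smul_smul, smul_smul, e1]
  rw [key, map_sub, h1]
  rw [← map_sub]
  congr 1
  simp only [smul_sub, smul_add, h2]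
  abel

/-- **Abstract semilocal Shapiro lemma, degree 2, orbit form (additive).**  It suffices to know
the local triviality at one point of every orbit. -/
theorem isCoboundary₂_of_partition_orbit [Fintype I] (e : I → M →+ M)
    (he : ∀ (g : G) (i : I) (m : M), g • e i m = e (g • i) (g • m))
    (hsum : ∀ m : M, ∑ i : I, e i m = m)
    (c : G × G → M) (hc : IsCocycle₂ c)
    (hloc : ∀ i : I, ∃ (i' : I) (g : G) (z : G → M), g • i' = i ∧
      ∀ h h' : G, h • i' = i' → h' • i' = i' →
        e i' (c (h, h')) = e i' (h • z h' - z (h * h') + z h)) :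
    IsCoboundary₂ c := by
  refine isCoboundary₂_of_partition e he hsum c hc fun i => ?_
  obtain ⟨i', g, z, rfl, hz⟩ := hloc i
  exact exists_primitive_smul e he hc i' g z hz

end Abstract

section Mul

variable {G M I : Type*} [Group G] [CommGroup M] [MulDistribMulAction G M] [MulAction G I]
  [Fintype I]

/-- **Abstract semilocal Shapiro lemma, degree 2, orbit form (multiplicative).** -/
theorem isMulCoboundary₂_of_partition_orbit (e : I → M →* M)
    (he : ∀ (g : G) (i : I) (m : M), g • e i m = e (g • i) (g • m))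
    (hprod : ∀ m : M, ∏ i : I, e i m = m)
    (c : G × G → M) (hc : IsMulCocycle₂ c)
    (hloc : ∀ i : I, ∃ (i' : I) (g : G) (z : G → M), g • i' = i ∧
      ∀ h h' : G, h • i' = i' → h' • i' = i' →
        e i' (c (h, h')) = e i' (h • z h' / z (h * h') * z h)) :
    IsMulCoboundary₂ c := by
  let _ : DistribMulAction G (Additive M) := shAddAction G M
  have key : IsCoboundary₂ (fun p : G × G => Additive.ofMul (c p)) := by
    refine isCoboundary₂_of_partition_orbit (G := G) (M := Additive M) (I := I)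
      (fun i => MonoidHom.toAdditive (e i)) ?_ ?_ _ ?_ ?_
    · intro g i m
      exact congrArg Additive.ofMul (he g i m.toMul)
    · intro m
      have h := hprod m.toMul
      apply Additive.toMul.injective
      rw [toMul_sum]
      exact h
    · intro g h j
      exact congrArg Additive.ofMul (hc g h j)
    · intro i
      obtain ⟨i', g, z, hg, hz⟩ := hloc i
      refine ⟨i', g, fun g => Additive.ofMul (z g), hg, fun h h' hh hh' => ?_⟩
      exact congrArg Additive.ofMul (hz h h' hh hh')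
  obtain ⟨y, hy⟩ := key
  exact ⟨fun g => (y g).toMul, fun g h => congrArg Additive.toMul (hy g h)⟩

end Mul

section Ring

variable {B : Type*} [CommRing B] [IsArtinianRing B] [IsReduced B]
  {G : Type*} [Group G] [MulSemiringAction G B] [MulDistribMulAction G Bˣ]

/-- **Semilocal Shapiro, degree 2, for the units of a reduced Artinian ring, orbit form.** -/
theorem isMulCoboundary₂_of_forall_maximal_orbit
    (hc : ∀ (σ : G) (x : Bˣ), ((σ • x : Bˣ) : B) = σ • (x : B))
    (c : G × G → Bˣ) (hcoc : IsMulCocycle₂ c)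
    (hloc : ∀ n : MaximalSpectrum B, ∃ (n' : MaximalSpectrum B) (g : G) (z : G → Bˣ),
      g • n' = n ∧ ∀ h h' : G, h • n' = n' → h' • n' = n' →
        ((c (h, h') : Bˣ) : B) - ((h • z h' / z (h * h') * z h : Bˣ) : B) ∈ n'.asIdeal) :
    IsMulCoboundary₂ c := by
  have : Fintype (MaximalSpectrum B) := Fintype.ofFinite _
  refine isMulCoboundary₂_of_partition_orbit (G := G) (M := Bˣ) (I := MaximalSpectrum B)
    (fun n => shProj n) (fun g n u => smul_shProj hc g n u) (fun u => prod_shProj u) c hcoc ?_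
  intro n
  obtain ⟨n', g, z, hg, hz⟩ := hloc n
  exact ⟨n', g, z, hg, fun h h' hh hh' => shProj_congr n' (hz h h' hh hh')⟩

end Ring

/-! ## Products in degree 2 -/

section Family

variable {k G : Type u} [CommRing k] [Group G]

lemma d₂₃_comp {A B : Rep.{u} k G} (p : A →+ B)
    (hp : ∀ (g : G) (a : A), p (A.ρ g a) = B.ρ g (p a)) (f : G × G → A) :
    (d₂₃ B).hom (fun x => p (f x)) = fun x => p ((d₂₃ A).hom f x) := by
  funext ⟨g₁, g₂, g₃⟩
  rw [d₂₃_hom_apply, d₂₃_hom_apply]
  simp only [map_sub, map_add, hp]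

lemma d₁₂_comp {A B : Rep.{u} k G} (p : A →+ B)
    (hp : ∀ (g : G) (a : A), p (A.ρ g a) = B.ρ g (p a)) (f : G → A) :
    (d₁₂ B).hom (fun x => p (f x)) = fun x => p ((d₁₂ A).hom f x) := by
  funext ⟨g₁, g₂⟩
  rw [d₁₂_hom_apply, d₁₂_hom_apply]
  simp only [map_sub, map_add, hp]

/-- **Products, degree 2, cochain form**: a 2-cochain of `A ≅ ∏ B i` all of whose components are
coboundaries is a coboundary. -/
theorem exists_d₁₂_eq_of_family {A : Rep.{u} k G} {ι : Type*} (B : ι → Rep.{u} k G)
    (p : ∀ i, A →+ B i)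
    (hp : ∀ (i : ι) (g : G) (a : A), p i (A.ρ g a) = (B i).ρ g (p i a))
    (hinj : ∀ a : A, (∀ i, p i a = 0) → a = 0)
    (hsurj : ∀ b : ∀ i, B i, ∃ a : A, ∀ i, p i a = b i)
    (f : G × G → A)
    (hcomp : ∀ i, ∃ g : G → B i, (d₁₂ (B i)).hom g = fun x => p i (f x)) :
    ∃ g : G → A, (d₁₂ A).hom g = f := by
  choose gi hgi using hcomp
  choose g hg using fun x : G => hsurj (fun i => gi i x)
  refine ⟨g, ?_⟩
  funext x
  rw [← sub_eq_zero]
  refine hinj _ fun i => ?_
  have h1 := congrFun (hgi i) x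
  have h2 := congrFun (d₁₂_comp (p i) (hp i) g) x
  have h3 : (fun y => p i (g y)) = gi i := funext fun y => hg y i
  rw [h3] at h2
  rw [map_sub, ← h2, h1, sub_self]

end Family

/-! ## The finite-level statement for the `S`-ideles -/

section SIdele

open Fermat.Agent.S55.helper31

variable (S : Finset Nat.Primes) (K L : Type) [Field K] [Field L] [CharZero L] [Algebra K L]

lemma sIdeleProj_ρ (i : SIdx S) (g : L ≃ₐ[K] L) (a : repSIdele S K L) :
    sIdeleProj S K L i ((repSIdele S K L).ρ g a) =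
      (sIdeleComp S K L i).ρ g (sIdeleProj S K L i a) := by
  rcases i with q | q
  · rfl
  · rfl

lemma sIdeleProj_inj (a : repSIdele S K L) (ha : ∀ i, sIdeleProj S K L i a = 0) : a = 0 := by
  classical
  have h1 : ∀ q : Nat.Primes, (((Additive.toMul a : sIdele S L) : Idele L) : IdelePi L) q = 1 := by
    intro q
    by_cases hq : q ∈ S
    · exact ha (Sum.inl ⟨q, hq⟩)
    · have := ha (Sum.inr ⟨q, hq⟩)
      exact congrArg Subtype.val this
  have h2 : (Additive.toMul a : sIdele S L) = 1 := by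
    apply Subtype.ext
    apply Subtype.ext
    funext q
    exact h1 q
  exact h2

lemma sIdeleProj_surj (b : ∀ i, sIdeleComp S K L i) :
    ∃ a : repSIdele S K L, ∀ i, sIdeleProj S K L i a = b i := by
  classical
  let x : IdelePi L := fun q =>
    if hq : q ∈ S then (Additive.toMul (b (Sum.inl ⟨q, hq⟩)) : (SemiLoc (q : ℕ) L)ˣ)
    else ((Additive.toMul (b (Sum.inr ⟨q, hq⟩)) : intUnits (q : ℕ) L) : (SemiLoc (q : ℕ) L)ˣ)
  have hx : ∀ q : Nat.Primes, q ∉ S → x q ∈ intUnits (q : ℕ) L := by
    intro q hq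
    simp only [x, dif_neg hq]
    exact (Additive.toMul (b (Sum.inr ⟨q, hq⟩)) : intUnits (q : ℕ) L).2
  refine ⟨Additive.ofMul (⟨⟨x, mem_idele_of_forall_notMem hx⟩, hx⟩ : sIdele S L), ?_⟩
  rintro (q | q)
  · change Additive.ofMul (x q.1) = b (Sum.inl q)
    simp only [x, dif_pos q.2]
    rfl
  · change Additive.ofMul (⟨x q.1, hx q.1 q.2⟩ : intUnits (q.1 : ℕ) L) = b (Sum.inr q)
    have : (⟨x q.1, hx q.1 q.2⟩ : intUnits (q.1 : ℕ) L) =
        Additive.toMul (b (Sum.inr q)) := by
      apply Subtype.ext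
      simp only [x, dif_neg q.2]
      rfl
    rw [this]
    rfl

/-- the `q`-component of a cochain with values in the `S`-ideles -/
def compAt (q : Nat.Primes) (c : (L ≃ₐ[K] L) × (L ≃ₐ[K] L) → repSIdele S K L) :
    (L ≃ₐ[K] L) × (L ≃ₐ[K] L) → (SemiLoc (q : ℕ) L)ˣ :=
  fun x => (((Additive.toMul (c x) : sIdele S L) : Idele L) : IdelePi L) q

lemma isMulCocycle₂_compAt (q : Nat.Primes)
    (c : (L ≃ₐ[K] L) × (L ≃ₐ[K] L) → repSIdele S K L)
    (hc : (d₂₃ (repSIdele S K L)).hom c = 0) : IsMulCocycle₂ (compAt S K L q c) := by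
  intro g h j
  have h1 := congrFun hc (g, h, j)
  rw [d₂₃_hom_apply] at h1
  have h2 : (repSIdele S K L).ρ g (c (h, j)) + c (g, h * j) = c (g * h, j) + c (g, h) := by
    have : (repSIdele S K L).ρ g (c (h, j)) - c (g * h, j) + c (g, h * j) - c (g, h) = 0 := h1
    rw [sub_eq_zero] at this
    rw [← this]
    abel
  have h3 := congrArg (fun a : repSIdele S K L =>
    (((Additive.toMul a : sIdele S L) : Idele L) : IdelePi L) q) h2
  exact h3.symm

/-- **[INJ-FIN], core**: a 2-cocycle with values in the `S`-ideles of `L` is a coboundary as soon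
as its components at `q ∈ S` are coboundaries in `(ℚ_q ⊗ L)ˣ` and `H²(Gal(L/K), U_q) = 0` for
`q ∉ S`. -/
theorem exists_d₁₂_eq_of_comp
    (hU : ∀ q : Nat.Primes, q ∉ S → IsZero (groupCohomology (repIntUnits (q : ℕ) K L) 2))
    (c : (L ≃ₐ[K] L) × (L ≃ₐ[K] L) → repSIdele S K L)
    (hc : (d₂₃ (repSIdele S K L)).hom c = 0)
    (hS : ∀ q : Nat.Primes, q ∈ S → IsMulCoboundary₂ (compAt S K L q c)) :
    ∃ b : (L ≃ₐ[K] L) → repSIdele S K L, (d₁₂ (repSIdele S K L)).hom b = c := by
  refine exists_d₁₂_eq_of_family (sIdeleComp S K L) (sIdeleProj S K L) (sIdeleProj_ρ S K L)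
    (sIdeleProj_inj S K L) (sIdeleProj_surj S K L) c ?_
  rintro (q | q)
  · obtain ⟨y, hy⟩ := hS q.1 q.2
    refine ⟨(fun g => Additive.ofMul (y g) : (L ≃ₐ[K] L) → repSemiLocUnits (q.1 : ℕ) K L), ?_⟩
    funext ⟨g, h⟩
    have h1 := d₁₂_hom_apply (A := repSemiLocUnits (q.1 : ℕ) K L)
      (fun g => Additive.ofMul (y g)) (g, h)
    exact h1.trans (congrArg Additive.ofMul (hy g h))
  · refine (helper46.fg7_isZero_H2_iff (A := repIntUnits (q.1 : ℕ) K L)).1 (hU q.1 q.2) _ ?_
    have h1 := d₂₃_comp (A := repSIdele S K L) (B := repIntUnits (q.1 : ℕ) K L)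
      (sIdeleProj S K L (Sum.inr q)) (sIdeleProj_ρ S K L (Sum.inr q)) c
    refine h1.trans ?_
    rw [hc]
    funext x
    exact map_zero _

end SIdele


/-! ## [INJ-FIN] -/

section Fin

open Fermat.Agent.S55.helper31
open scoped NumberField

/-- **[US2]** as a `Prop` (the degree-2 analogue of `helper31.HypUSSL`): `H²(Gal(E/F), U_q) = 0`
if all primes of `E` above `q` have trivial inertia in `Gal(E/F)`. -/
def HypUS2 : Prop :=
  ∀ (q : ℕ) [Fact q.Prime] (F E : Type) [Field F] [NumberField F] [Field E] [NumberField E]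
    [Algebra F E] [IsGalois F E],
    (∀ P : Ideal (𝓞 E), P.IsPrime → ((q : ℕ) : 𝓞 E) ∈ P →
      ∀ σ : Gal(E/F), (∀ x : 𝓞 E, σ • x - x ∈ P) → σ = 1) →
    IsZero (groupCohomology (repIntUnits q F E) 2)

variable (S : Finset Nat.Primes) (F E : Type) [Field F] [NumberField F] [Field E]
  [NumberField E] [Algebra F E] [IsGalois F E]

local instance factOfPrimesInj (q : Nat.Primes) : Fact (q : ℕ).Prime := ⟨q.2⟩

/-- **[INJ-FIN]**: a 2-cocycle of `Gal(E/F)` with values in the `S`-ideles of `E` is a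
coboundary (in the `S`-ideles) as soon as
* `H²(Gal(E/F), U_q) = 0` for all `q ∉ S`, and
* for every `q ∈ S` and every `Gal(E/F)`-orbit of maximal ideals of `ℚ_q ⊗ E` there is a maximal
  ideal `n'` in the orbit such that the `q`-component of the cocycle is, modulo `n'`, a coboundary
  on the decomposition group of `n'`. -/
theorem exists_d₁₂_eq_repSIdele
    (hU : ∀ q : Nat.Primes, q ∉ S → IsZero (groupCohomology (repIntUnits (q : ℕ) F E) 2))
    (c : (E ≃ₐ[F] E) × (E ≃ₐ[F] E) → repSIdele S F E)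
    (hc : (d₂₃ (repSIdele S F E)).hom c = 0)
    (hloc : ∀ q : Nat.Primes, q ∈ S → ∀ n : MaximalSpectrum (SemiLoc (q : ℕ) E),
      ∃ (n' : MaximalSpectrum (SemiLoc (q : ℕ) E)) (g : E ≃ₐ[F] E)
        (z : (E ≃ₐ[F] E) → (SemiLoc (q : ℕ) E)ˣ), g • n' = n ∧
        ∀ h h' : E ≃ₐ[F] E, h • n' = n' → h' • n' = n' →
          ((compAt S F E q c (h, h') : (SemiLoc (q : ℕ) E)ˣ) : SemiLoc (q : ℕ) E) -
            ((h • z h' / z (h * h') * z h : (SemiLoc (q : ℕ) E)ˣ) : SemiLoc (q : ℕ) E)
              ∈ n'.asIdeal) :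
    ∃ b : (E ≃ₐ[F] E) → repSIdele S F E, (d₁₂ (repSIdele S F E)).hom b = c := by
  refine exists_d₁₂_eq_of_comp S F E hU c hc fun q hq => ?_
  have hA : IsArtinianRing (SemiLoc (q : ℕ) E) := inferInstance
  have hR : IsReduced (SemiLoc (q : ℕ) E) := inferInstance
  exact isMulCoboundary₂_of_forall_maximal_orbit (G := E ≃ₐ[F] E) (B := SemiLoc (q : ℕ) E)
    (fun _ _ => rfl) _ (isMulCocycle₂_compAt S F E q c hc) (hloc q hq)

end Fin

end Fermat.Agent.S55.helper69.Inj
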