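import Fermat.Agent.S55.helper69_Rec3US2
import Fermat.Agent.S55.helper69_Rec3InjFin
import Fermat.Agent.S55.helper31_IntUnitsLocal

/-
# S55 / REC3 / LOC-INJ: `HypUS2` unconditional, and [INJ-FIN] without the `U_q` hypothesis (helper69)

* `leafInt`, `leafUnr` : the two leaves of `helper69_Rec3US2`, from `helper31_IntUnitsLocal`.
* `isZero_H2_repIntUnits` : `H²(Gal(E/F), U_q) = 0` if all primes of `E` above `q` have trivial
  inertia in `Gal(E/F)`.
* `hypUS2 : Inj.HypUS2`.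
* `exists_d₁₂_eq_repSIdele_of_unram`, `exists_d₁₂_eq_of_comp_of_unram` : [INJ-FIN] with the
  hypothesis on the integral units replaced by trivial inertia outside `S`.
-/

set_option autoImplicit false
set_option linter.unusedSectionVars false
set_option linter.unusedVariables false

open scoped TensorProduct NumberField
open groupCohomology CategoryTheory CategoryTheory.Limits

noncomputable section

namespace Fermat.Agent.S55.helper69.US2

open Fermat.Agent.S55 Fermat.Agent.S55.helper73 Fermat.Agent.S55.helper8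
  Fermat.Agent.S55.helper71 Fermat.Agent.S55.helper11

section Leaves

variable (q : ℕ) [Fact q.Prime] (F E : Type) [Field F] [NumberField F] [Field E] [NumberField E]
  [Algebra F E] [IsGalois F E]

/-- leaf (b2), by `helper31.mem_intUnits_iff_forall_slPhi`. -/
theorem leafInt : LeafInt q F E :=
  fun u => helper31.mem_intUnits_iff_forall_slPhi q F E u

/-- leaf (c), by `helper31.isUnram_slDatum_of_inertia`. -/
theorem leafUnr
    (hunr : ∀ P : Ideal (𝓞 E), P.IsPrime → ((q : ℕ) : 𝓞 E) ∈ P →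
      ∀ σ : Gal(E/F), (∀ x : 𝓞 E, σ • x - x ∈ P) → σ = 1) :
    LeafUnr q F E :=
  fun n => helper31.isUnram_slDatum_of_inertia q F E hunr n

/-- **[US2-SL]**: `H²(Gal(E/F), U_q) = 0` if all primes of `E` above `q` have trivial inertia in
`Gal(E/F)`. -/
theorem isZero_H2_repIntUnits
    (hunr : ∀ P : Ideal (𝓞 E), P.IsPrime → ((q : ℕ) : 𝓞 E) ∈ P →
      ∀ σ : Gal(E/F), (∀ x : 𝓞 E, σ • x - x ∈ P) → σ = 1) :
    IsZero (groupCohomology (helper31.repIntUnits q F E) 2) :=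
  isZero_H2_repIntUnits_of_leaves q F E (leafInt q F E) (leafUnr q F E hunr)

/-- **[US2-SL], cochain form**. -/
theorem exists_primitive_intUnits_of_unram
    (hunr : ∀ P : Ideal (𝓞 E), P.IsPrime → ((q : ℕ) : 𝓞 E) ∈ P →
      ∀ σ : Gal(E/F), (∀ x : 𝓞 E, σ • x - x ∈ P) → σ = 1)
    (c : (E ≃ₐ[F] E) × (E ≃ₐ[F] E) → (SemiLoc q E)ˣ) (hcU : ∀ g, c g ∈ intUnits q E)
    (hcoc : IsMulCocycle₂ c) :
    ∃ x : (E ≃ₐ[F] E) → (SemiLoc q E)ˣ, (∀ g, x g ∈ intUnits q E) ∧
      ∀ g h : E ≃ₐ[F] E, g • x h / x (g * h) * x g = c (g, h) :=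
  exists_primitive_intUnits q F E (leafInt q F E) (leafUnr q F E hunr) c hcU hcoc

end Leaves

/-- **[US2]**, unconditional. -/
theorem hypUS2 : Inj.HypUS2 :=
  fun q _ F E _ _ _ _ _ _ hunr => isZero_H2_repIntUnits q F E hunr

section Fin

open Fermat.Agent.S55.helper31 Fermat.Agent.S55.helper69.Inj

variable (S : Finset Nat.Primes) (F E : Type) [Field F] [NumberField F] [Field E]
  [NumberField E] [Algebra F E] [IsGalois F E]

local instance factOfPrimesUS2 (q : Nat.Primes) : Fact (q : ℕ).Prime := ⟨q.2⟩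

/-- **[INJ-FIN], core, unconditional on the units**: a 2-cocycle of `Gal(E/F)` with values in
the `S`-ideles of `E` is a coboundary as soon as `E/F` has trivial inertia at all primes above
the `q ∉ S` and the components at `q ∈ S` are coboundaries in `(ℚ_q ⊗ E)ˣ`. -/
theorem exists_d₁₂_eq_of_comp_of_unram
    (hunr : ∀ q : Nat.Primes, q ∉ S → ∀ P : Ideal (𝓞 E), P.IsPrime → ((q : ℕ) : 𝓞 E) ∈ P →
      ∀ σ : Gal(E/F), (∀ x : 𝓞 E, σ • x - x ∈ P) → σ = 1)
    (c : (E ≃ₐ[F] E) × (E ≃ₐ[F] E) → repSIdele S F E)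
    (hc : (d₂₃ (repSIdele S F E)).hom c = 0)
    (hS : ∀ q : Nat.Primes, q ∈ S → IsMulCoboundary₂ (compAt S F E q c)) :
    ∃ b : (E ≃ₐ[F] E) → repSIdele S F E, (d₁₂ (repSIdele S F E)).hom b = c :=
  exists_d₁₂_eq_of_comp S F E (fun q hq => isZero_H2_repIntUnits (q : ℕ) F E (hunr q hq)) c hc hS

/-- **[INJ-FIN], unconditional on the units**: as `Inj.exists_d₁₂_eq_repSIdele`, with the
hypothesis on the integral units replaced by trivial inertia outside `S`. -/
theorem exists_d₁₂_eq_repSIdele_of_unram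
    (hunr : ∀ q : Nat.Primes, q ∉ S → ∀ P : Ideal (𝓞 E), P.IsPrime → ((q : ℕ) : 𝓞 E) ∈ P →
      ∀ σ : Gal(E/F), (∀ x : 𝓞 E, σ • x - x ∈ P) → σ = 1)
    (c : (E ≃ₐ[F] E) × (E ≃ₐ[F] E) → repSIdele S F E)
    (hc : (d₂₃ (repSIdele S F E)).hom c = 0)
    (hloc : ∀ q : Nat.Primes, q ∈ S → ∀ n : MaximalSpectrum (SemiLoc (q : ℕ) E),
      ∃ (n' : MaximalSpectrum (SemiLoc (q : ℕ) E)) (g : E ≃ₐ[F] E)
        (z : (E ≃ₐ[F] E) → (SemiLoc (q : ℕ) E)ˣ), g • n' = n ∧
        ∀ h h' : E ≃ₐ[F] E, h • n' = n' → h' • n' = n' →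
          ((compAt S F E q c (h, h') : (SemiLoc (q : ℕ) E)ˣ) : SemiLoc (q : ℕ) E) -
            ((h • z h' / z (h * h') * z h : (SemiLoc (q : ℕ) E)ˣ) : SemiLoc (q : ℕ) E)
              ∈ n'.asIdeal) :
    ∃ b : (E ≃ₐ[F] E) → repSIdele S F E, (d₁₂ (repSIdele S F E)).hom b = c :=
  exists_d₁₂_eq_repSIdele S F E
    (fun q hq => isZero_H2_repIntUnits (q : ℕ) F E (hunr q hq)) c hc hloc

end Fin

end Fermat.Agent.S55.helper69.US2
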