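import Fermat.Agent.S55.helper84_Rec3InjLocal

/-!
# S55 / REC3 LOC-INJ, package INJ-LOC (helper84): `injLoc_isMulCoboundary₂`

If the inflation of a finite-level 2-cocycle `c` with values in the `S`-ideles of a level `E` is
locally trivial at every `w` (for `helper90.arithLocSys`), then for every `q ∈ S` the component
`c_q` is a coboundary in the units of `ℚ_q ⊗ E`.
-/

set_option autoImplicit false
set_option linter.style.haveILetI false
set_option linter.unusedSectionVars false

open groupCohomology ExtCitation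
open scoped TensorProduct Pointwise

noncomputable section

namespace Fermat.Agent.S55.helper84

open Fermat.Agent.S55 Fermat.Agent.S55.helper59 Fermat.Agent.S55.helper73
  Fermat.Agent.S55.helper69 Fermat.Agent.S55.helper90 Fermat.Agent.S55.helper46
  Fermat.Agent.S55.helper11 Fermat.Agent.S55.helper72 Fermat.Agent.S55.helper97

local notation "Qbar" => AlgebraicClosure ℚ

attribute [local instance] injNumberField

lemma injNumberFieldE {F : IntermediateField ℚ Qbar} [FiniteDimensional ℚ F]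
    (E : IntermediateField ↥F Qbar) [FiniteDimensional ↥F ↥E] : NumberField ↥E :=
  { to_charZero := inferInstance
    to_finiteDimensional := FiniteDimensional.trans ℚ ↥F ↥E }

attribute [local instance] injNumberFieldE

section Assembly

variable {S : Finset Nat.Primes} {F : IntermediateField ℚ Qbar} [FiniteDimensional ℚ F]
  (hF : F.IsUnramifiedOutside S)
  {ι : Type} [Fintype ι] {L : LocalData (UF F) (sLevelsStr S F hF) ι} (hL : IsArith S F L)
  (E : IntermediateField ↥F Qbar) [FiniteDimensional ↥F ↥E] [IsGalois ↥F ↥E]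
  (hE : (E.restrictScalars ℚ).IsUnramifiedOutside S) (w : ι)

theorem injEvL_surjective : Function.Surjective (injEvL hF hL E w) := by
  intro x
  have hx : x ∈ Algebra.adjoin ℚ_[(hL.q w : ℕ)] (Set.range (injEmb hF hL E w)) := by
    have := (mixDatum hL E w).denseL
    have h2 : Algebra.adjoin ℚ_[(hL.q w : ℕ)] (Set.range (injEmb hF hL E w)) = ⊤ := this
    rw [h2]
    trivial
  induction hx using Algebra.adjoin_induction with
  | mem y hy =>
    obtain ⟨a, rfl⟩ := hy
    exact ⟨(1 : ℚ_[(hL.q w : ℕ)]) ⊗ₜ[ℚ] a, by rw [injEvL_tmul, map_one, one_mul]⟩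
  | algebraMap r =>
    exact ⟨r ⊗ₜ[ℚ] (1 : ↥E), by rw [injEvL_tmul, map_one, mul_one]⟩
  | add x y _ _ hx hy =>
    obtain ⟨a, rfl⟩ := hx
    obtain ⟨b, rfl⟩ := hy
    exact ⟨a + b, map_add _ _ _⟩
  | mul x y _ _ hx hy =>
    obtain ⟨a, rfl⟩ := hx
    obtain ⟨b, rfl⟩ := hy
    exact ⟨a * b, map_mul _ _ _⟩

theorem injEvU_surjective : Function.Surjective (injEvU hF hL E w) :=
  injUnits_map_surjective (injEvL hF hL E w) (injEvL_surjective hF hL E w)

/-- the maximal ideal of `ℚ_q ⊗ E` at `w` -/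
def injMax : MaximalSpectrum (SemiLoc (hL.q w : ℕ) ↥E) :=
  ⟨RingHom.ker (injEvL hF hL E w),
    RingHom.ker_isMaximal_of_surjective _ (injEvL_surjective hF hL E w)⟩

lemma mem_injMax_iff (z : SemiLoc (hL.q w : ℕ) ↥E) :
    z ∈ (injMax hF hL E w).asIdeal ↔ injEv (hL.q w : ℕ) E (hL.g w) z = 0 := by
  change z ∈ RingHom.ker (injEvL hF hL E w) ↔ _
  rw [RingHom.mem_ker]
  constructor
  · intro h
    rw [← coe_injEvL hF hL E w, h]
    rfl
  · intro h
    apply Subtype.ext
    rw [coe_injEvL, h]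
    rfl

lemma injMax_asIdeal :
    (injMax hF hL E w).asIdeal = RingHom.ker (injEv (hL.q w : ℕ) E (hL.g w)) := by
  ext z
  rw [mem_injMax_iff, RingHom.mem_ker]

/-- the stabiliser of `injMax` is contained in the image of the decomposition map -/
theorem exists_injTheta_eq (h : ↥E ≃ₐ[↥F] ↥E) (hh : h • injMax hF hL E w = injMax hF hL E w) :
    ∃ σ : ↥(mixField hL E w) ≃ₐ[↥(hL.Kw w)] ↥(mixField hL E w), injTheta hF hL E w σ = h := by
  haveI : FiniteDimensional ℚ ↥E := FiniteDimensional.trans ℚ ↥F ↥E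
  have hI : h • (injMax hF hL E w).asIdeal = (injMax hF hL E w).asIdeal :=
    congrArg MaximalSpectrum.asIdeal hh
  obtain ⟨s, hs⟩ := exists_r_of_stab hL E w h (fun z => by
    rw [← mem_injMax_iff hF hL E w, ← mem_injMax_iff hF hL E w]
    constructor
    · intro hz
      rw [← hI] at hz
      exact Ideal.smul_mem_pointwise_smul_iff.1 hz
    · intro hz
      rw [← hI]
      exact Ideal.smul_mem_pointwise_smul_iff.2 hz)
  exact ⟨hL.locRes w (mixField hL E w) s, (injTheta_locRes hF hL E w s).trans hs⟩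

/-- **the local hypothesis of semilocal Shapiro at `injMax`** -/
theorem injHLoc_injMax
    (c : (↥E ≃ₐ[↥F] ↥E) × (↥E ≃ₐ[↥F] ↥E) → Dic.repSIdele S ↥F ↥E)
    (hc : (d₂₃ (Dic.repSIdele S ↥F ↥E)).hom c = 0)
    (h : (arithLocSys hF hL).loc₂ w ((Dic.finRealJS S F hF E hE).infl₂ c) ∈
      B2 (L.lev w) ((arithLocSys hF hL).Ω w)) :
    InjHLoc (injComp E (hL.q w) c) (injMax hF hL E w) := by
  classical
  obtain ⟨Y, hY⟩ := injLocMul_isMulCoboundary₂ hF hL E hE w c hc h
  choose lift hlift using injEvU_surjective hF hL E w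
  -- a section of the decomposition map
  let sec : (↥E ≃ₐ[↥F] ↥E) → (↥(mixField hL E w) ≃ₐ[↥(hL.Kw w)] ↥(mixField hL E w)) :=
    fun g => if hg : ∃ σ, injTheta hF hL E w σ = g then hg.choose else 1
  have hsec : ∀ g, g • injMax hF hL E w = injMax hF hL E w →
      injTheta hF hL E w (sec g) = g := by
    intro g hg
    have hex := exists_injTheta_eq hF hL E w g hg
    simp only [sec, dif_pos hex]
    exact hex.choose_spec
  refine ⟨fun g => lift (Y (sec g)), ?_⟩
  intro g g' hg hg'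
  have hgg' : (g * g') • injMax hF hL E w = injMax hF hL E w := by
    rw [mul_smul, hg', hg]
  have hmul : sec (g * g') = sec g * sec g' := by
    apply injTheta_injective hF hL E w
    rw [map_mul, hsec g hg, hsec g' hg', hsec (g * g') hgg']
  have key : injEvU hF hL E w (injComp E (hL.q w) c (g, g')) =
      injEvU hF hL E w (g • lift (Y (sec g')) / lift (Y (sec (g * g'))) * lift (Y (sec g))) := by
    have hsm : ∀ x, injEvU hF hL E w (g • x) = sec g • injEvU hF hL E w x := fun x => by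
      have h1 := injEvU_smul hF hL E w (sec g) x
      rwa [hsec g hg] at h1
    rw [map_mul, map_div, hsm, hlift, hlift, hlift, hmul, hY]
    simp only [injLocMul]
    rw [hsec g hg, hsec g' hg']
  have key2 := congrArg (fun x : (↥(mixField hL E w))ˣ => ((x : ↥(mixField hL E w)) :
    PadicAlgCl (hL.q w : ℕ))) key
  rw [mem_injMax_iff, map_sub, sub_eq_zero]
  exact key2

end Assembly

section Final

variable {S : Finset Nat.Primes} {F : IntermediateField ℚ Qbar} [FiniteDimensional ℚ F]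
  (hF : F.IsUnramifiedOutside S)
  {ι : Type} [Fintype ι] {L : LocalData (UF F) (sLevelsStr S F hF) ι} (hL : IsArith S F L)
  (E : IntermediateField ↥F Qbar) [FiniteDimensional ↥F ↥E] [IsGalois ↥F ↥E]
  (hE : (E.restrictScalars ℚ).IsUnramifiedOutside S)

/-- the local hypothesis of semilocal Shapiro holds at every maximal ideal over a prime of `S` -/
theorem injHLoc_of_loc
    (c : (↥E ≃ₐ[↥F] ↥E) × (↥E ≃ₐ[↥F] ↥E) → Dic.repSIdele S ↥F ↥E)
    (hc : (d₂₃ (Dic.repSIdele S ↥F ↥E)).hom c = 0)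
    (h : ∀ w, (arithLocSys hF hL).loc₂ w ((Dic.finRealJS S F hF E hE).infl₂ c) ∈
      B2 (L.lev w) ((arithLocSys hF hL).Ω w))
    (q : Nat.Primes) (hq : q ∈ S) (n : MaximalSpectrum (SemiLoc (q : ℕ) ↥E)) :
    InjHLoc (injComp E q c) n := by
  haveI : FiniteDimensional ℚ ↥E := FiniteDimensional.trans ℚ ↥F ↥E
  obtain ⟨γ, hγ⟩ := exists_injEv_ker_eq (q : ℕ) E n.asIdeal n.isMaximal
  obtain ⟨w, ⟨hqw, u, hu, t, hγu⟩, -⟩ := hL.cover q hq γ
  subst hqw
  have hn : n = (resFix F E ⟨u, hu⟩) • injMax hF hL E w := by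
    apply MaximalSpectrum.ext
    rw [← hγ, hγu, helper97.asIdeal_smul, injMax_asIdeal]
    exact injEv_ker_eq_smul hL E w ⟨u, hu⟩ t
  rw [hn]
  exact injHLoc_smul (fun _ _ => rfl) (injComp_isMulCocycle₂ E (hL.q w) c hc) _
    (injHLoc_injMax hF hL E hE w c hc (h w))

/-- **INJ-LOC**: if the inflation of a finite-level 2-cocycle `c` with values in the `S`-ideles
of `E` is locally trivial at every `w`, then every component `c_q`, `q ∈ S`, is a coboundary in
`(ℚ_q ⊗ E)ˣ`. -/
theorem injLoc_isMulCoboundary₂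
    (c : (↥E ≃ₐ[↥F] ↥E) × (↥E ≃ₐ[↥F] ↥E) → Dic.repSIdele S ↥F ↥E)
    (hc : (d₂₃ (Dic.repSIdele S ↥F ↥E)).hom c = 0)
    (h : ∀ w, (arithLocSys hF hL).loc₂ w ((Dic.finRealJS S F hF E hE).infl₂ c) ∈
      B2 (L.lev w) ((arithLocSys hF hL).Ω w))
    (q : Nat.Primes) (hq : q ∈ S) :
    IsMulCoboundary₂ (fun g : (↥E ≃ₐ[↥F] ↥E) × (↥E ≃ₐ[↥F] ↥E) =>
      (((Additive.toMul (c g) : Dic.sIdele S ↥E) : Idele ↥E) : IdelePi ↥E) q) := by
  have hA : IsArtinianRing (SemiLoc (q : ℕ) ↥E) := inferInstance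
  have hR : IsReduced (SemiLoc (q : ℕ) ↥E) := inferInstance
  exact helper17.isMulCoboundary₂_of_forall_maximal (G := ↥E ≃ₐ[↥F] ↥E)
    (B := SemiLoc (q : ℕ) ↥E) (fun _ _ => rfl) (injComp E q c)
    (injComp_isMulCocycle₂ E q c hc) (fun n => injHLoc_of_loc hF hL E hE c hc h q hq n)

end Final

end Fermat.Agent.S55.helper84
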