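import Fermat.Agent.S55.helper90_Rec3Final2
import Fermat.Agent.S55.helper4_Rec3Surj
import Fermat.Agent.S55.helper33_Rec3SurjFin
import Fermat.Agent.S55.helper46_Rec3Inj
import Fermat.Agent.S55.helper69_Rec3US2Final
import Fermat.Agent.S55.helper84_Rec3InjLoc
import Fermat.Agent.S55.helper59_BArMain

/-!
# S55 / REC3: UNCONDITIONAL (helper90)

All arithmetic packages of REC3 are on main.  This file wires the last two (R3-LOC-INJ: helper46 +
helper69 + helper84 + helper87; R3-LOC-SURJ: helper4 + helper13 + helper6 + helper33) and states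
the deliverables of REC3 for module B without hypotheses:

* `hypRec3Arith : HypRec3Arith p S`;
* `hypI4' Inv : helper59.HypI4' p S Inv`, `hypH3' Inv : helper59.HypH3' p S Inv`,
  `hypSha2 : helper59.HypSha2 p S`, `hypSha2' Inv : helper59.HypSha2' p S Inv`;
* `baseInputStatement : BaseInputStatement p S` (module B of S55).
-/

set_option autoImplicit false

open groupCohomology ExtCitation
open scoped NumberField

noncomputable section

namespace Fermat.Agent.S55.helper90

open Fermat.Agent.S55 Fermat.Agent.S55.helper59 Fermat.Agent.S55.helper69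
  Fermat.Agent.S55.helper73

local instance factOfPrimesR3Done (q : Nat.Primes) : Fact (q : ℕ).Prime := ⟨q.2⟩

local notation "Qbar" => AlgebraicClosure ℚ

variable {p : ℕ} [Fact p.Prime] {S : Finset Nat.Primes}

/-- **R3-LOC-SURJ** (helper4, helper13, helper6, helper33) -/
theorem hypLocSurj_holds : HypLocSurj p S :=
  fun _ _ hF _ _ _ hL hp2 hpS ζ hζ w c hc n hn =>
    helper4.loc_surj_of hF hL (helper33.finChi p) hp2 hpS ζ hζ w c hc n hn

/-- **R3-LOC-INJ** (helper46, helper69, helper84, helper87) -/
theorem hypLocInj_holds : HypLocInj p S :=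
  fun _ _ hF _ _ _ hL _ _ j hj h =>
    helper46.loc_inj_of_cob hF hL helper69.US2.hypUS2
      (fun E _ _ hE c hc h q hq => helper84.injLoc_isMulCoboundary₂ hF hL E hE c hc h q hq)
      j hj h

/-- **REC3, arithmetic part, unconditional**: the bundle `Rec3Arith` for all arithmetic local
data. -/
theorem hypRec3Arith : HypRec3Arith p S :=
  hypRec3Arith_of_loc hypLocInj_holds hypLocSurj_holds

/-- **(I4)**: existence of global classes with prescribed local components. -/
theorem hypI4' (Inv : helper11.LocInv) : helper59.HypI4' p S Inv :=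
  hypI4'_of_loc Inv hypLocInj_holds hypLocSurj_holds

/-- **(I5)**: `H³(G_{F,S}, ℤ/p) = 0`. -/
theorem hypH3' (Inv : helper11.LocInv) : helper59.HypH3' p S Inv :=
  hypH3'_of_loc Inv hypLocInj_holds hypLocSurj_holds

/-- **`#Sha² ≤ #Cl_S/p`**. -/
theorem hypSha2 : helper59.HypSha2 p S :=
  hypSha2_of_loc hypLocInj_holds hypLocSurj_holds

/-- **`#Sha² ≤ #Cl_S/p`**, second shape. -/
theorem hypSha2' (Inv : helper11.LocInv) : helper59.HypSha2' p S Inv :=
  hypSha2'_of_loc Inv hypLocInj_holds hypLocSurj_holds

/-- **MODULE B of S55, unconditional**: the arithmetic base input. -/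
theorem baseInputStatement : BaseInputStatement p S :=
  helper59.baseInputStatement_of_rec3Arith hypRec3Arith

end Fermat.Agent.S55.helper90
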