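/-
S55-LOC-1 (task 233, helper27), part B: the index lemma (pure group theory, Mathlib only).
-/
import Mathlib

set_option autoImplicit false

namespace Fermat.Agent.S55.helper27

open Subgroup

/-- **Index lemma.** Let `f : G →* G` be an endomorphism of a commutative group and `H` a
subgroup of finite index with `f H ≤ H` and `H ∩ ker f = 1`. Then
`[G : f G] = [H : f H] * |ker f|`. -/
theorem index_range_eq_relIndex_mul_card_ker {G : Type*} [CommGroup G] (f : G →* G)
    (H : Subgroup G) (hfin : H.index ≠ 0) (hH : H.map f ≤ H) (hker : H ⊓ f.ker = ⊥) :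
    f.range.index = (H.map f).relIndex H * Nat.card f.ker := by
  have h1 : (H.map f).index = (H ⊔ f.ker).index * f.range.index := Subgroup.index_map H f
  have h2 : (H.map f).relIndex H * H.index = (H.map f).index := relIndex_mul_index hH
  have h3 : H.relIndex (H ⊔ f.ker) * (H ⊔ f.ker).index = H.index :=
    relIndex_mul_index le_sup_left
  have h4 : H.relIndex (H ⊔ f.ker) = Nat.card f.ker := by
    rw [relIndex_sup_left, ← inf_relIndex_right, hker, relIndex_bot_left]
  have h5 : (H ⊔ f.ker).index ≠ 0 := by
    intro h0
    rw [h0, mul_zero] at h3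
    exact hfin h3.symm
  rw [h4] at h3
  have h6 : (H ⊔ f.ker).index * f.range.index
      = (H ⊔ f.ker).index * ((H.map f).relIndex H * Nat.card f.ker) := by
    rw [← h1, ← h2, ← h3]; ring
  exact Nat.eq_of_mul_eq_mul_left (Nat.pos_of_ne_zero h5) h6

end Fermat.Agent.S55.helper27
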