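/-
S55-LOC-1 (task 233, helper27): `p`-th powers in a `q`-adic field.

* `LocFacts.exists_pow_eq_of_mem_principalUnits_of` (in part D): units near `1` are `p`-th powers;
* `LocFacts.card_units_mod_pow_of`: `[Kˣ : Kˣᵖ] = p ^ (2 + [p = q] [K : ℚ_q])` when `ζ_p ∈ K`.

Both are conditional on the LOC-0 facts bundled in `LocFacts q K` (statements verbatim from the
LOC interface of helper8); they become unconditional as soon as LOC-0a/0b land.
-/
import Fermat.Agent.S55.helper27_LocPowB
import Fermat.Agent.S55.helper27_LocPowD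

set_option autoImplicit false
set_option linter.unusedSectionVars false

namespace Fermat.Agent.S55.helper27

open Fermat.Agent.S55.helper8

variable {q : ℕ} [Fact q.Prime] {K : Type} [Field K] [Algebra ℚ_[q] K]
  [FiniteDimensional ℚ_[q] K]

namespace LocFacts

variable (h : LocFacts q K)
include h

/-- The projection `a ↦ a * π ^ (- ord a)` of `Kˣ` onto the units. -/
noncomputable def theta (π : Kˣ) : Kˣ →* Kˣ where
  toFun a := a * π ^ (-(ord q K a))
  map_one' := by rw [h.ord_one]; simp
  map_mul' a b := by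
    rw [h.ord_mul, neg_add, zpow_add]
    exact mul_mul_mul_comm a b _ _

lemma theta_apply (π a : Kˣ) : h.theta π a = a * π ^ (-(ord q K a)) := rfl

lemma ord_theta (π : Kˣ) (hπ : ord q K π = 1) (a : Kˣ) : ord q K (h.theta π a) = 0 := by
  rw [theta_apply, h.ord_mul, h.ord_zpow, hπ]; ring

lemma theta_of_ord_eq_zero (π : Kˣ) {a : Kˣ} (ha : ord q K a = 0) : h.theta π a = a := by
  rw [theta_apply, ha]; simp

lemma range_theta (π : Kˣ) (hπ : ord q K π = 1) : (h.theta π).range = h.pu 0 := by
  ext a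
  rw [h.pu_zero_eq, h.mem_unitGroup_iff, MonoidHom.mem_range]
  constructor
  · rintro ⟨b, rfl⟩
    exact h.ord_theta π hπ b
  · intro ha
    exact ⟨a, h.theta_of_ord_eq_zero π ha⟩

/-- `ord` modulo `p`, as a homomorphism to a finite cyclic group. -/
noncomputable def ordMod (p : ℕ) : Kˣ →* Multiplicative (ZMod p) where
  toFun a := Multiplicative.ofAdd ((ord q K a : ℤ) : ZMod p)
  map_one' := by rw [h.ord_one]; simp
  map_mul' a b := by rw [h.ord_mul]; push_cast; rfl

lemma mem_ker_ordMod {p : ℕ} {a : Kˣ} : a ∈ (h.ordMod p).ker ↔ (p : ℤ) ∣ ord q K a := by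
  rw [MonoidHom.mem_ker]
  change Multiplicative.ofAdd ((ord q K a : ℤ) : ZMod p) = 1 ↔ _
  rw [← ofAdd_zero, Multiplicative.ofAdd.injective.eq_iff, ZMod.intCast_zmod_eq_zero_iff_dvd]

/-- **LOC-1**: `[Kˣ : Kˣᵖ] = p ^ (2 + [p = q] [K : ℚ_q])` when `ζ_p ∈ K`. -/
theorem card_units_mod_pow_of (p : ℕ) [Fact p.Prime] (ζ : K) (hζ : IsPrimitiveRoot ζ p) :
    Nat.card (Kˣ ⧸ (powMonoidHom p : Kˣ →* Kˣ).range) =
      p ^ (2 + if p = q then Module.finrank ℚ_[q] K else 0) := by
  classical
  have hp : p.Prime := Fact.out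
  have hq : q.Prime := Fact.out
  have hp0 : 0 < p := hp.pos
  have : NeZero p := ⟨hp.ne_zero⟩
  obtain ⟨π, hπ⟩ := h.exists_ord_eq_one
  set f : Kˣ →* Kˣ := powMonoidHom p with hf
  set N : ℕ := h.ordNat p with hN
  set m : ℕ := N + 1 with hm
  have hNm : h.ordNat p < m := by rw [hm, hN]; exact Nat.lt_succ_self _
  set θ := h.theta π with hθ
  set B : Subgroup Kˣ := (h.pu m).comap θ with hB
  -- (4) finite index
  have hBfin : B.index ≠ 0 := by
    rw [hB, Subgroup.index_comap, hθ, h.range_theta π hπ]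
    exact h.relIndex_pu_ne_zero m
  -- `θ` commutes with `p`-th powers
  have hθpow : ∀ a : Kˣ, θ (a ^ p) = θ a ^ p := fun a => map_pow θ a p
  -- (5) stability
  have hBmap : B.map f ≤ B := by
    rintro _ ⟨a, ha, rfl⟩
    change θ (a ^ p) ∈ h.pu m
    rw [hθpow]
    exact (h.pu m).pow_mem (show θ a ∈ h.pu m from ha) p
  -- (6) no torsion
  have hBker : B ⊓ f.ker = ⊥ := by
    rw [eq_bot_iff]
    intro a haa
    rw [Subgroup.mem_inf] at haa
    obtain ⟨ha, hak⟩ := haa
    rw [MonoidHom.mem_ker] at hak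
    change a ^ p = 1 at hak
    have hord : ord q K a = 0 := by
      have := congrArg (ord q K) hak
      rw [h.ord_pow, h.ord_one] at this
      rcases mul_eq_zero.1 this with h0 | h0
      · exact absurd (by exact_mod_cast h0) hp.ne_zero
      · exact h0
    have ha' : a ∈ h.pu m := by
      have : θ a ∈ h.pu m := ha
      rwa [hθ, h.theta_of_ord_eq_zero π hord] at this
    rw [Subgroup.mem_bot]
    exact h.eq_one_of_pow_eq_one hp0 hNm ha' hak
  -- (7) index lemma
  have hindex := index_range_eq_relIndex_mul_card_ker f B hBfin hBmap hBker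
  -- (8) the kernel has `p` elements
  have hker : Nat.card f.ker = p := by
    have : f.ker = rootsOfUnity p K := by
      ext a
      rw [MonoidHom.mem_ker, mem_rootsOfUnity]
      rfl
    rw [this]
    exact hζ.card_rootsOfUnity
  -- (9) `[B : B^p] = p * q ^ (f N)`
  set B₁ : Subgroup Kˣ := (h.pu (m + N)).comap θ with hB₁
  set V : Subgroup Kˣ := (h.ordMod p).ker with hV
  have hB₁B : B₁ ≤ B := Subgroup.comap_mono (h.pu_anti (Nat.le_add_right m N))
  have hmapeq : B.map f = B₁ ⊓ V := by
    ext b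
    rw [Subgroup.mem_inf]
    constructor
    · rintro ⟨a, ha, rfl⟩
      refine ⟨?_, ?_⟩
      · change θ (a ^ p) ∈ h.pu (m + N)
        rw [hθpow]
        exact h.pow_mem_pu hp0 hNm ha
      · rw [hV, h.mem_ker_ordMod]
        change (p : ℤ) ∣ ord q K (a ^ p)
        rw [h.ord_pow]
        exact dvd_mul_right _ _
    · rintro ⟨hb1, hb2⟩
      rw [hV, h.mem_ker_ordMod] at hb2
      obtain ⟨k, hk⟩ := hb2
      obtain ⟨u, hu, hup⟩ := h.exists_pow_eq_of_mem_pu hp0 hNm (show θ b ∈ h.pu (m + N) from hb1)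
      have hu0 : ord q K u = 0 := (h.mem_pu_iff.1 hu).1
      refine ⟨u * π ^ k, ?_, ?_⟩
      · change θ (u * π ^ k) ∈ h.pu m
        have : θ (u * π ^ k) = u := by
          rw [hθ, theta_apply, h.ord_mul, hu0, h.ord_zpow, hπ, zero_add, mul_one, mul_assoc,
            ← zpow_add, add_neg_cancel, zpow_zero, mul_one]
        rw [this]; exact hu
      · change (u * π ^ k) ^ p = b
        rw [mul_pow, hup, hθ, theta_apply, hk, mul_assoc, ← zpow_natCast (π ^ k) p, ← zpow_mul,
          ← zpow_add]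
        have : -(↑p * k) + k * ↑p = (0 : ℤ) := by ring
        rw [this, zpow_zero, mul_one]
  have hrel1 : B₁.relIndex B = q ^ (fdeg q K * N) := by
    rw [hB₁, Subgroup.relIndex_comap]
    have : B.map θ = h.pu m := by
      ext u
      constructor
      · rintro ⟨a, ha, rfl⟩; exact ha
      · intro hu
        have hu0 : ord q K u = 0 := (h.mem_pu_iff.1 hu).1
        have hθu : θ u = u := h.theta_of_ord_eq_zero π hu0
        exact ⟨u, by change θ u ∈ h.pu m; rw [hθu]; exact hu, hθu⟩
    rw [this]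
    exact h.relIndex_pu_add m N (by omega)
  have hrel2 : (B₁ ⊓ V).relIndex B₁ = p := by
    rw [Subgroup.inf_relIndex_left, hV, Subgroup.relIndex_ker]
    have : B₁.map (h.ordMod p) = ⊤ := by
      rw [eq_top_iff]
      intro c _
      have hπk : ∀ k : ℕ, π ^ k ∈ B₁ := by
        intro k
        change θ (π ^ k) ∈ h.pu (m + N)
        have : θ (π ^ k) = 1 := by
          rw [hθ, theta_apply, h.ord_pow, hπ, mul_one, ← zpow_natCast, ← zpow_add,
            add_neg_cancel, zpow_zero]
        rw [this]; exact Subgroup.one_mem _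
      refine ⟨π ^ (Multiplicative.toAdd c).val, hπk _, ?_⟩
      change Multiplicative.ofAdd ((ord q K (π ^ (Multiplicative.toAdd c).val) : ℤ) : ZMod p) = c
      rw [h.ord_pow, hπ, mul_one]
      simp
    rw [this]
    simp [Nat.card_eq_fintype_card, ZMod.card]
  have hrel : (B.map f).relIndex B = p * q ^ (fdeg q K * N) := by
    rw [hmapeq, ← Subgroup.relIndex_mul_relIndex (B₁ ⊓ V) B₁ B inf_le_left hB₁B, hrel1, hrel2]
  -- (10) conclusion
  change f.range.index = _
  rw [hindex, hrel, hker]
  by_cases hpq : p = q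
  · subst hpq
    rw [if_pos rfl]
    have hNe : N = edeg p K := by
      rw [hN, ordNat, padicValNat_self, mul_one]
    rw [hNe, mul_comm (fdeg p K), h.edeg_mul_fdeg]
    ring
  · rw [if_neg hpq]
    have hN0 : N = 0 := by
      rw [hN, ordNat, padicValNat.eq_zero_of_not_dvd, mul_zero]
      intro hd
      exact hpq ((Nat.prime_dvd_prime_iff_eq hq hp).1 hd).symm
    rw [hN0]
    ring

end LocFacts

end Fermat.Agent.S55.helper27
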