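/-
S55-LOC-1 (task 233, helper27): UNCONDITIONAL statements, verbatim from the LOC interface
(helper8), obtained from `helper27_LocPow` by discharging `LocFacts` with the landed LOC-0a
(helper97) and LOC-0b (helper71) packages.
-/
import Fermat.Agent.S55.helper27_LocPow
import Fermat.Agent.S55.helper97_LocVal
import Fermat.Agent.S55.helper71_LocResidue

set_option autoImplicit false

namespace Fermat.Agent.S55.helper27

open Fermat.Agent.S55.helper8

variable (q : ℕ) [Fact q.Prime]
variable (K : Type) [Field K] [Algebra ℚ_[q] K] [FiniteDimensional ℚ_[q] K]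

/-- The LOC-0 facts hold (LOC-0a by helper97, LOC-0b by helper71). -/
theorem locFacts : LocFacts q K where
  fdeg_pos := Fermat.Agent.S55.helper97.fdeg_pos q K
  edeg_pos := Fermat.Agent.S55.helper97.edeg_pos q K
  edeg_mul_fdeg := Fermat.Agent.S55.helper97.edeg_mul_fdeg q K
  ord_mul := Fermat.Agent.S55.helper97.ord_mul q K
  exists_ord_eq_one := Fermat.Agent.S55.helper97.exists_ord_eq_one q K
  ord_algebraMap_padic := Fermat.Agent.S55.helper97.ord_algebraMap_padic q K
  ordT_add_ge := Fermat.Agent.S55.helper97.ordT_add_ge q K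
  exists_representatives := Fermat.Agent.S55.helper71.exists_representatives q K
  hensel := Fermat.Agent.S55.helper71.hensel q K

/-- units close to `1` are `p`-th powers -/
theorem exists_pow_eq_of_mem_principalUnits (p : ℕ) (hp : 0 < p) :
    ∃ m : ℕ, ∀ u : Kˣ, u ∈ principalUnits q K m → ∃ w : Kˣ, w ^ p = u :=
  (locFacts q K).exists_pow_eq_of_mem_principalUnits_of p hp

/-- `[Kˣ : Kˣᵖ] = p² · |p|⁻¹` when `ζ_p ∈ K` -/
theorem card_units_mod_pow (p : ℕ) [Fact p.Prime] (ζ : K) (hζ : IsPrimitiveRoot ζ p) :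
    Nat.card (Kˣ ⧸ (powMonoidHom p : Kˣ →* Kˣ).range) =
      p ^ (2 + if p = q then Module.finrank ℚ_[q] K else 0) :=
  (locFacts q K).card_units_mod_pow_of p ζ hζ

/-- The principal units form a subgroup (as a `Subgroup`, carrier `principalUnits q K m`). -/
noncomputable def principalUnitsSubgroup (m : ℕ) : Subgroup Kˣ := (locFacts q K).pu m

theorem mem_principalUnitsSubgroup (m : ℕ) (a : Kˣ) :
    a ∈ principalUnitsSubgroup q K m ↔ a ∈ principalUnits q K m := Iff.rfl

/-- `[U^(m) : U^(m+k)] = q ^ (f k)` for `m ≥ 1`. -/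
theorem relIndex_principalUnitsSubgroup (m k : ℕ) (hm : 1 ≤ m) :
    (principalUnitsSubgroup q K (m + k)).relIndex (principalUnitsSubgroup q K m)
      = q ^ (fdeg q K * k) :=
  (locFacts q K).relIndex_pu_add m k hm

/-- `[U : U^(m)]` is finite. -/
theorem relIndex_principalUnitsSubgroup_ne_zero (m : ℕ) :
    (principalUnitsSubgroup q K m).relIndex (principalUnitsSubgroup q K 0) ≠ 0 :=
  (locFacts q K).relIndex_pu_ne_zero m

/-- The `p`-power map is a bijection `U^(m) → U^(m + ord p)` for `m > ord p`
(`ord p = edeg q K * padicValNat q p`): image. -/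
theorem map_pow_principalUnitsSubgroup {p : ℕ} (hp : 0 < p) {m : ℕ}
    (hm : edeg q K * padicValNat q p < m) :
    (principalUnitsSubgroup q K m).map (powMonoidHom p : Kˣ →* Kˣ)
      = principalUnitsSubgroup q K (m + edeg q K * padicValNat q p) :=
  (locFacts q K).map_pow_pu hp hm

/-- ... and injectivity (no `p`-torsion in `U^(m)`, `m > ord p`). -/
theorem eq_one_of_pow_eq_one_of_mem_principalUnits {p : ℕ} (hp : 0 < p) {m : ℕ}
    (hm : edeg q K * padicValNat q p < m) {u : Kˣ} (hu : u ∈ principalUnits q K m)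
    (hup : u ^ p = 1) : u = 1 :=
  (locFacts q K).eq_one_of_pow_eq_one hp hm hu hup

end Fermat.Agent.S55.helper27
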