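import Fermat.Agent.S55.helper8_LocDefs2

/-!
# S55 / LOC-9 (helper13): generic calculus of `mulClass`

* `mulClass_of_isMulCocycle₂`, `mulClass_mul`, `mulClass_one`, `mulClass_pow`,
  `mulClass_eq_zero_of_isMulCoboundary₂`, `mulClass_eq_zero_iff`;
* `locH_mulClass`: functoriality of `mulClass` under localisation / inflation / restriction.
-/

set_option autoImplicit false

namespace Fermat.Agent.S55.helper13

open CategoryTheory groupCohomology Fermat.Agent.S55 Fermat.Agent.S55.helper8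
  Fermat.Agent.S55.helper11

section generic

variable {G M : Type} [Group G] [CommGroup M] [MulDistribMulAction G M]

lemma isMulCocycle₂_mul {f g : G × G → M} (hf : IsMulCocycle₂ f) (hg : IsMulCocycle₂ g) :
    IsMulCocycle₂ (f * g) := by
  intro a b c
  simp only [Pi.mul_apply, smul_mul']
  rw [mul_mul_mul_comm, hf a b c, hg a b c, mul_mul_mul_comm]

lemma isMulCocycle₂_one : IsMulCocycle₂ (1 : G × G → M) := by
  intro a b c
  simp

lemma isMulCocycle₂_of_isMulCoboundary₂ {f : G × G → M} (hf : IsMulCoboundary₂ f) :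
    IsMulCocycle₂ f := by
  have h := coboundaries₂_le_cocycles₂ _ (coboundariesOfIsMulCoboundary₂ hf).2
  exact isMulCocycle₂_of_mem_cocycles₂ _ h

lemma isMulCoboundary₂_one : IsMulCoboundary₂ (1 : G × G → M) :=
  ⟨1, fun g h => by simp⟩

end generic

section mulClass

variable (K L : Type) [Field K] [Field L] [Algebra K L]

/-- the 2-cocycle of `Rep.ofAlgebraAutOnUnits K L` attached to a multiplicative 2-cocycle -/
noncomputable def cocOf {f : (L ≃ₐ[K] L) × (L ≃ₐ[K] L) → Lˣ} (hf : IsMulCocycle₂ f) :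
    cocycles₂ (Rep.ofAlgebraAutOnUnits K L) :=
  cocyclesOfIsMulCocycle₂ hf

lemma mulClass_of_isMulCocycle₂ {f : (L ≃ₐ[K] L) × (L ≃ₐ[K] L) → Lˣ} (hf : IsMulCocycle₂ f) :
    mulClass K L f = H2π (Rep.ofAlgebraAutOnUnits K L) (cocOf K L hf) := by
  unfold mulClass
  rw [dif_pos hf]
  rfl

lemma mulClass_eq_zero_iff {f : (L ≃ₐ[K] L) × (L ≃ₐ[K] L) → Lˣ} (hf : IsMulCocycle₂ f) :
    mulClass K L f = 0 ↔ IsMulCoboundary₂ f := by
  rw [mulClass_of_isMulCocycle₂ K L hf]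
  constructor
  · intro h
    have h' := (H2π_eq_zero_iff (cocOf K L hf)).1 h
    exact isMulCoboundary₂_of_mem_coboundaries₂ _ h'
  · intro h
    exact (H2π_eq_zero_iff (cocOf K L hf)).2 (coboundariesOfIsMulCoboundary₂ h).2

lemma mulClass_eq_zero_of_isMulCoboundary₂ {f : (L ≃ₐ[K] L) × (L ≃ₐ[K] L) → Lˣ}
    (hf : IsMulCoboundary₂ f) : mulClass K L f = 0 :=
  (mulClass_eq_zero_iff K L (isMulCocycle₂_of_isMulCoboundary₂ hf)).2 hf

lemma cocOf_mul {f g : (L ≃ₐ[K] L) × (L ≃ₐ[K] L) → Lˣ} (hf : IsMulCocycle₂ f)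
    (hg : IsMulCocycle₂ g) :
    cocOf K L (isMulCocycle₂_mul hf hg) = cocOf K L hf + cocOf K L hg := rfl

lemma mulClass_mul {f g : (L ≃ₐ[K] L) × (L ≃ₐ[K] L) → Lˣ} (hf : IsMulCocycle₂ f)
    (hg : IsMulCocycle₂ g) :
    mulClass K L (f * g) = mulClass K L f + mulClass K L g := by
  rw [mulClass_of_isMulCocycle₂ K L hf, mulClass_of_isMulCocycle₂ K L hg,
    mulClass_of_isMulCocycle₂ K L (isMulCocycle₂_mul hf hg), cocOf_mul, map_add]

lemma mulClass_one : mulClass K L (1 : (L ≃ₐ[K] L) × (L ≃ₐ[K] L) → Lˣ) = 0 :=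
  mulClass_eq_zero_of_isMulCoboundary₂ K L isMulCoboundary₂_one

lemma isMulCocycle₂_pow {f : (L ≃ₐ[K] L) × (L ≃ₐ[K] L) → Lˣ} (hf : IsMulCocycle₂ f) (n : ℕ) :
    IsMulCocycle₂ (f ^ n) := by
  induction n with
  | zero => simpa using isMulCocycle₂_one
  | succ n ih => rw [pow_succ]; exact isMulCocycle₂_mul ih hf

lemma mulClass_pow {f : (L ≃ₐ[K] L) × (L ≃ₐ[K] L) → Lˣ} (hf : IsMulCocycle₂ f) (n : ℕ) :
    mulClass K L (f ^ n) = n • mulClass K L f := by
  induction n with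
  | zero => rw [pow_zero, zero_smul]; exact mulClass_one K L
  | succ n ih =>
    rw [pow_succ, mulClass_mul K L (isMulCocycle₂_pow K L hf n) hf, ih, succ_nsmul]

end mulClass

section functoriality

variable (F L Kv Lw : Type) [Field F] [Field L] [Field Kv] [Field Lw]
  [Algebra F L] [Algebra Kv Lw] [Algebra F Kv] [Algebra L Lw] [Algebra F Lw]
  [IsScalarTower F L Lw] [IsScalarTower F Kv Lw] [Normal F L]

/-- pull-back of a cochain along `locHom`, pushed forward along `L → Lw` -/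
noncomputable def locCochain (f : (L ≃ₐ[F] L) × (L ≃ₐ[F] L) → Lˣ) :
    (Lw ≃ₐ[Kv] Lw) × (Lw ≃ₐ[Kv] Lw) → Lwˣ :=
  fun g => Units.map (algebraMap L Lw : L →* Lw) (f (locHom F L Kv Lw g.1, locHom F L Kv Lw g.2))

lemma locCochain_apply (f : (L ≃ₐ[F] L) × (L ≃ₐ[F] L) → Lˣ) (g : (Lw ≃ₐ[Kv] Lw) × (Lw ≃ₐ[Kv] Lw)) :
    locCochain F L Kv Lw f g =
      Units.map (algebraMap L Lw : L →* Lw) (f (locHom F L Kv Lw g.1, locHom F L Kv Lw g.2)) :=
  rfl

lemma units_map_smul (σ : Lw ≃ₐ[Kv] Lw) (x : Lˣ) :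
    Units.map (algebraMap L Lw : L →* Lw) (locHom F L Kv Lw σ • x) =
      σ • Units.map (algebraMap L Lw : L →* Lw) x := by
  apply Units.ext
  exact algebraMap_locHom F L Kv Lw σ (x : L)

lemma isMulCocycle₂_locCochain {f : (L ≃ₐ[F] L) × (L ≃ₐ[F] L) → Lˣ} (hf : IsMulCocycle₂ f) :
    IsMulCocycle₂ (locCochain F L Kv Lw f) := by
  intro a b c
  simp only [locCochain_apply, map_mul]
  rw [← map_mul, hf, map_mul, units_map_smul]

theorem locH_mulClass {f : (L ≃ₐ[F] L) × (L ≃ₐ[F] L) → Lˣ} (hf : IsMulCocycle₂ f) :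
    (locH F L Kv Lw 2).hom (mulClass F L f) = mulClass Kv Lw (locCochain F L Kv Lw f) := by
  rw [mulClass_of_isMulCocycle₂ F L hf,
    mulClass_of_isMulCocycle₂ Kv Lw (isMulCocycle₂_locCochain F L Kv Lw hf)]
  unfold locH
  have := H2π_comp_map_apply (locHom F L Kv Lw) (locUnits F L Kv Lw) (cocOf F L hf)
  rw [this]
  congr 1

end functoriality

end Fermat.Agent.S55.helper13
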