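import Fermat.Agent.S55.helper84_Loc5a
import Fermat.Agent.S55.helper61_FG2

/-!
# S55 (helper84): R-INF (task 292) and LOC-5a (task 320), unconditional

Final statements, verbatim from `helper11_Rec1Interface` (R-INF) and `helper8_LocInterface2`
(section LOC5a), obtained from the conditional versions and FG2 (`helper61_FG2`).
-/

set_option autoImplicit false
set_option linter.unusedSectionVars false

open CategoryTheory CategoryTheory.Limits groupCohomology Rep

namespace Fermat.Agent.S55.helper84

open Fermat.Agent.S55.helper11

/-- FG2.b is available. -/
theorem infResTwoExact : InfResTwoExact :=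
  fun _ _ _ _ S _ A h1 => helper61.infH_resH_two_exact S A h1

/-- FG2.a is available. -/
theorem infTwoInjective : InfTwoInjective :=
  fun _ _ _ _ S _ A h1 => helper61.infH_two_injective S A h1

/-- R-INF: inflation–restriction for `Lˣ`-coefficients in the `locH` vocabulary. -/
theorem exists_inf_of_res_eq_zero (F M L' : Type) [Field F] [Field M] [Field L'] [Algebra F M]
    [Algebra M L'] [Algebra F L'] [IsScalarTower F M L'] [FiniteDimensional F L']
    [IsGalois F M] [IsGalois F L'] (y : groupCohomology.H2 (Rep.ofAlgebraAutOnUnits F L'))
    (hy : (locH F L' M L' 2).hom y = 0) :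
    ∃ z : groupCohomology.H2 (Rep.ofAlgebraAutOnUnits F M), (locH F M F L' 2).hom z = y :=
  exists_inf_of_res_eq_zero_of F M L' infResTwoExact y hy

section LOC5a

variable (K L M : Type) [Field K] [Field L] [Field M] [Algebra K L] [Algebra K M] [Algebra L M]
  [IsScalarTower K L M] [FiniteDimensional K M] [IsGalois K L] [IsGalois K M]

/-- LOC-5a: inflation is injective on `H²`. -/
theorem infH_two_injective : Function.Injective (helper8.infH K L M 2) :=
  infH_two_injective_of K L M infTwoInjective

/-- LOC-5a: inflation–restriction is exact on `H²`. -/
theorem resH_two_eq_zero_iff (x : groupCohomology.H2 (Rep.ofAlgebraAutOnUnits K M)) :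
    helper8.resH K L M 2 x = 0 ↔
      ∃ y : groupCohomology.H2 (Rep.ofAlgebraAutOnUnits K L), helper8.infH K L M 2 y = x :=
  resH_two_eq_zero_iff_of K L M infResTwoExact x

/-- `locH` for an inflation square is injective in degree 2. -/
theorem locH_inf_two_injective : Function.Injective (locH K L K M 2).hom :=
  locH_inf_two_injective_of K L M infTwoInjective

end LOC5a

end Fermat.Agent.S55.helper84
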