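import Fermat.Agent.S55.helper33_Rec3LocFinReal
import Fermat.Agent.S55.helper30_Rec3LocFinDisc
import Fermat.Agent.S55.helper84_InfResFinal
import Fermat.Agent.S55.helper13_MulClass
import Fermat.Agent.S55.helper46_Dic

/-!
# S55 / REC3 / LOC-INJ, step [4b] (helper46): local inflation is injective at infinite level

For an arithmetic local datum `hL`, an index `w` and a finite Galois extension `M₀ / K_w` inside
`PadicAlgCl (q w)`: a 2-cocycle `f` of `Gal(M₀/K_w)` with values in `M₀ˣ` whose inflation to the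
local group `L.Gv w` (with values in `Ω_w = PadicAlgClˣ`) is the coboundary of a level-constant
cochain, is a coboundary at the level `M₀`.

Proof: DET (`helper46.exists_of_mem_B2`) at a big finite Galois `M ⊇ M₀`, then
`helper84.locH_inf_two_injective` (inflation `H²(M₀/K_w) → H²(M/K_w)` is injective).
-/

set_option autoImplicit false
set_option linter.style.haveILetI false
set_option linter.unusedSectionVars false

open groupCohomology ExtCitation

noncomputable section

namespace Fermat.Agent.S55.helper46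

open Fermat.Agent.S55 Fermat.Agent.S55.helper59 Fermat.Agent.S55.helper73
  Fermat.Agent.S55.helper69 Fermat.Agent.S55.helper90 Fermat.Agent.S55.helper33
  Fermat.Agent.S55.helper11

local instance factOfPrimesInjInf (q : Nat.Primes) : Fact (q : ℕ).Prime := ⟨q.2⟩

local notation "Qbar" => AlgebraicClosure ℚ

section Generic

variable {K Ω : Type} [Field K] [Field Ω] [Algebra K Ω] {M₀ M : IntermediateField K Ω}
  (hle : M₀ ≤ M)

/-- the algebra structure of `M` over `M₀` for intermediate fields `M₀ ≤ M` -/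
@[reducible] def inclAlg : Algebra ↥M₀ ↥M := (IntermediateField.inclusion hle).toRingHom.toAlgebra

lemma inclAlg_isScalarTower : @IsScalarTower K ↥M₀ ↥M _ (inclAlg hle).toSMul _ :=
  letI := inclAlg hle
  IsScalarTower.of_algebraMap_eq (fun _ => rfl)

lemma coe_inclAlg_algebraMap (x : ↥M₀) :
    letI := inclAlg hle
    ((algebraMap ↥M₀ ↥M x : ↥M) : Ω) = (x : Ω) := rfl

/-- restriction to `M₀` factors through restriction to `M` -/
lemma locHom_restrictNormalHom [Normal K ↥M₀] [Normal K ↥M] (σ : Ω ≃ₐ[K] Ω) :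
    letI := inclAlg hle
    haveI := inclAlg_isScalarTower hle
    locHom K ↥M₀ K ↥M (AlgEquiv.restrictNormalHom ↥M σ) = AlgEquiv.restrictNormalHom ↥M₀ σ := by
  letI := inclAlg hle
  haveI := inclAlg_isScalarTower hle
  apply AlgEquiv.ext
  intro x
  apply Subtype.ext
  have h1 := algebraMap_locHom K ↥M₀ K ↥M (AlgEquiv.restrictNormalHom ↥M σ) x
  have h2 := congrArg (fun y : ↥M => (y : Ω)) h1
  have h3 : ((AlgEquiv.restrictNormalHom ↥M σ (algebraMap ↥M₀ ↥M x) : ↥M) : Ω) = σ (x : Ω) :=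
    AlgEquiv.restrictNormal_commutes σ ↥M (algebraMap ↥M₀ ↥M x)
  have h4 : ((AlgEquiv.restrictNormalHom ↥M₀ σ x : ↥M₀) : Ω) = σ (x : Ω) :=
    AlgEquiv.restrictNormal_commutes σ ↥M₀ x
  rw [h4, ← h3]
  exact h2

end Generic

section Main

variable {S : Finset Nat.Primes} {F : IntermediateField ℚ Qbar} [FiniteDimensional ℚ F]
  (hF : F.IsUnramifiedOutside S)
  {ι : Type} [Fintype ι] {L : LocalData (UF F) (sLevelsStr S F hF) ι} (hL : IsArith S F L)
  (w : ι) (M₀ : IntermediateField (hL.Kw w) (PadicAlgCl (hL.q w : ℕ)))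
  [IsGalois (hL.Kw w) M₀] [FiniteDimensional (hL.Kw w) M₀]

/-- the additive form of a multiplicative finite-level cochain -/
def addCochain₂ (f : (↥M₀ ≃ₐ[hL.Kw w] ↥M₀) × (↥M₀ ≃ₐ[hL.Kw w] ↥M₀) → (↥M₀)ˣ) :
    (locFinReal hF hL w M₀).Q × (locFinReal hF hL w M₀).Q → (locFinReal hF hL w M₀).M' :=
  fun σ => Additive.ofMul (f σ)

set_option synthInstance.maxHeartbeats 400000 in
set_option maxHeartbeats 1000000 in
/-- **[4b]** local inflation is injective at infinite level. -/
theorem isMulCoboundary₂_of_infl₂_mem_B2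
    (f : (↥M₀ ≃ₐ[hL.Kw w] ↥M₀) × (↥M₀ ≃ₐ[hL.Kw w] ↥M₀) → (↥M₀)ˣ) (hf : IsMulCocycle₂ f)
    (h : (locFinReal hF hL w M₀).infl₂ (addCochain₂ hF hL w M₀ f) ∈
      B2 (L.lev w) ((arithLocSys hF hL).Ω w)) :
    IsMulCoboundary₂ f := by
  classical
  haveI := hL.finiteDimensional_Kw w
  haveI : IsAlgClosure (hL.Kw w) (PadicAlgCl (hL.q w : ℕ)) := ⟨inferInstance, inferInstance⟩
  obtain ⟨N, hN, hdet⟩ :=
    exists_of_mem_B2 (helper30.loc_fin hF hL w) (helper30.loc_disc hF hL w) h
  obtain ⟨M₁, hM₁gal, hM₁fd, hle₁, -⟩ := exists_locFinReal_le hF hL w N hN 1 one_pos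
  haveI : FiniteDimensional (hL.Kw w) ↥(M₀ ⊔ M₁) := IntermediateField.finiteDimensional_sup M₀ M₁
  obtain ⟨M, hMfd, hMgal, hle⟩ :=
    helper77.exists_finite_galois_ge (hL.Kw w) (PadicAlgCl (hL.q w : ℕ)) (M₀ ⊔ M₁)
  have h0 : M₀ ≤ M := le_sup_left.trans hle
  have h1 : M₁ ≤ M := le_sup_right.trans hle
  have hker : (locFinReal hF hL w M).π.ker ≤ N := by
    intro s hs
    apply hle₁
    have : hL.locEquiv w s ∈ M.fixingSubgroup := (mem_ker_locRes_iff hF hL w M s).1 hs
    exact (mem_ker_locRes_iff hF hL w M₁ s).2 (IntermediateField.fixingSubgroup_le h1 this)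
  obtain ⟨g', hg'⟩ := hdet (locFinReal hF hL w M) hker
  letI : Algebra ↥M₀ ↥M := inclAlg h0
  haveI : IsScalarTower (hL.Kw w) ↥M₀ ↥M := inclAlg_isScalarTower h0
  -- the inflated cocycle is a coboundary at the level `M`
  have hcob : IsMulCoboundary₂ (helper13.locCochain (hL.Kw w) ↥M₀ (hL.Kw w) ↥M f) := by
    refine ⟨fun σ => Additive.toMul (g' σ), fun σ τ => ?_⟩
    obtain ⟨s, rfl⟩ := locRes_surjective hF hL w M σ
    obtain ⟨t, rfl⟩ := locRes_surjective hF hL w M τ
    have e := congrFun hg' (s, t)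
    rw [FinReal.infl₂_apply, FinReal.infl₂_apply, d₁₂_hom_apply] at e
    have hs : locHom (hL.Kw w) ↥M₀ (hL.Kw w) ↥M (hL.locRes w M s) = hL.locRes w M₀ s := by
      rw [hL.locRes_eq, hL.locRes_eq]
      exact locHom_restrictNormalHom h0 _
    have ht : locHom (hL.Kw w) ↥M₀ (hL.Kw w) ↥M (hL.locRes w M t) = hL.locRes w M₀ t := by
      rw [hL.locRes_eq, hL.locRes_eq]
      exact locHom_restrictNormalHom h0 _
    apply Additive.ofMul.injective
    apply locIncl_injective hF hL w M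
    refine Eq.trans ?_ (e.trans ?_)
    · rfl
    · rw [helper13.locCochain_apply, hs, ht]
      apply Additive.toMul.injective
      apply Units.ext
      rfl
  have hz : helper8.mulClass (hL.Kw w) ↥M (helper13.locCochain (hL.Kw w) ↥M₀ (hL.Kw w) ↥M f) = 0 :=
    (helper13.mulClass_eq_zero_iff (hL.Kw w) ↥M
      (helper13.isMulCocycle₂_locCochain (hL.Kw w) ↥M₀ (hL.Kw w) ↥M hf)).2 hcob
  rw [← helper13.locH_mulClass (hL.Kw w) ↥M₀ (hL.Kw w) ↥M hf] at hz
  have hinj := helper84.locH_inf_two_injective (hL.Kw w) ↥M₀ ↥M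
  have hz' : helper8.mulClass (hL.Kw w) ↥M₀ f = 0 := by
    apply hinj
    rw [hz, map_zero]
  exact (helper13.mulClass_eq_zero_iff (hL.Kw w) ↥M₀ hf).1 hz'

end Main

end Fermat.Agent.S55.helper46
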