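import Fermat.Agent.S55.helper90_Rec3LocDef
import Fermat.Agent.S55.helper46_Dic
import Fermat.Agent.S55.helper60_BArDicL
import Fermat.Agent.S55.helper77_LevelDict
import Fermat.Agent.S55.helper7_LocUnram

/-!
# S55 / REC3 R3-LOC: the finite-level realisations of the local module `Ω_w` (helper33)

For an arithmetic local datum `hL : IsArith S F L`, an index `w` and a finite Galois extension
`M / K_w` inside `PadicAlgCl (q w)`:

* `locFinReal hF hL w M : helper46.FinReal (L.lev w) ((arithLocSys hF hL).Ω w)` with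
  `Q = Gal(M/K_w)`, `π = hL.locRes w M`, `M' = Rep.ofAlgebraAutOnUnits K_w M`;
* `exists_locFinReal_le` : these realisations are cofinal, with degree divisible by any given
  number.
-/

set_option autoImplicit false
set_option linter.style.haveILetI false
set_option linter.unusedSectionVars false

open groupCohomology ExtCitation

noncomputable section

namespace Fermat.Agent.S55.helper33

open Fermat.Agent.S55 Fermat.Agent.S55.helper59 Fermat.Agent.S55.helper73
  Fermat.Agent.S55.helper69 Fermat.Agent.S55.helper90 Fermat.Agent.S55.helper46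

local instance factOfPrimesLFR (q : Nat.Primes) : Fact (q : ℕ).Prime := ⟨q.2⟩

local notation "Qbar" => AlgebraicClosure ℚ

variable {S : Finset Nat.Primes} {F : IntermediateField ℚ Qbar} [FiniteDimensional ℚ F]
  (hF : F.IsUnramifiedOutside S)
  {ι : Type} [Fintype ι] {L : LocalData (UF F) (sLevelsStr S F hF) ι} (hL : IsArith S F L)

section Real

variable (w : ι) (M : IntermediateField (hL.Kw w) (PadicAlgCl (hL.q w : ℕ)))

/-- the inclusion `Mˣ → Ωˣ`, additively -/
def locIncl : Additive (↥M)ˣ →+ Additive (PadicAlgCl (hL.q w : ℕ))ˣ :=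
  MonoidHom.toAdditive
    (Units.map (algebraMap ↥M (PadicAlgCl (hL.q w : ℕ)) : ↥M →* PadicAlgCl (hL.q w : ℕ)))

lemma locIncl_apply (x : (↥M)ˣ) :
    ((Additive.toMul (locIncl hF hL w M (Additive.ofMul x)) :
      (PadicAlgCl (hL.q w : ℕ))ˣ) : PadicAlgCl (hL.q w : ℕ)) = ((x : ↥M) : PadicAlgCl (hL.q w : ℕ)) :=
  rfl

lemma locIncl_injective : Function.Injective (locIncl hF hL w M) := by
  intro x y h
  have h1 : ((Additive.toMul x : (↥M)ˣ) : PadicAlgCl (hL.q w : ℕ)) =
      ((Additive.toMul y : (↥M)ˣ) : PadicAlgCl (hL.q w : ℕ)) :=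
    congrArg (fun z : Additive (PadicAlgCl (hL.q w : ℕ))ˣ =>
      ((Additive.toMul z : (PadicAlgCl (hL.q w : ℕ))ˣ) : PadicAlgCl (hL.q w : ℕ))) h
  apply Additive.toMul.injective
  apply Units.ext
  exact Subtype.ext h1

variable [IsGalois (hL.Kw w) M]

lemma locRes_surjective : Function.Surjective (hL.locRes w M) := by
  haveI : IsAlgClosure (hL.Kw w) (PadicAlgCl (hL.q w : ℕ)) := ⟨inferInstance, inferInstance⟩
  haveI : Normal (hL.Kw w) (PadicAlgCl (hL.q w : ℕ)) :=
    IsAlgClosure.normal (hL.Kw w) (PadicAlgCl (hL.q w : ℕ))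
  intro τ
  obtain ⟨σ, hσ⟩ := resFix_surjective (hL.Kw w) M τ
  obtain ⟨s, hs⟩ := hL.toLoc_surjective w σ
  exact ⟨s, by rw [IsArith.locRes, MonoidHom.comp_apply, hs, hσ]⟩

lemma mem_ker_locRes_iff (s : L.Gv w) :
    s ∈ (hL.locRes w M).ker ↔ hL.locEquiv w s ∈ M.fixingSubgroup := by
  rw [MonoidHom.mem_ker, hL.locRes_eq, ← MonoidHom.mem_ker,
    IntermediateField.restrictNormalHom_ker]

lemma locRes_apply_coe (s : L.Gv w) (x : ↥M) :
    ((hL.locRes w M s x : ↥M) : PadicAlgCl (hL.q w : ℕ)) =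
      hL.jq w s (x : PadicAlgCl (hL.q w : ℕ)) := by
  rw [hL.locRes_eq]
  exact AlgEquiv.restrictNormal_commutes (hL.locEquiv w s) M x

variable [FiniteDimensional (hL.Kw w) M]

/-- **The finite-level realisation of `Ω_w` at a finite Galois extension `M / K_w`.** -/
def locFinReal : FinReal (L.lev w) ((arithLocSys hF hL).Ω w) where
  Q := ↥M ≃ₐ[hL.Kw w] ↥M
  π := hL.locRes w M
  π_surj := locRes_surjective hF hL w M
  ker_level := by
    haveI : Normal (hL.Kw w) M := IsGalois.to_normal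
    obtain ⟨N, hN, h⟩ := helper60.exists_lev_sub hL w M.fixingSubgroup
      (helper77.fixingSubgroup_mem_galLevels (hL.Kw w) (PadicAlgCl (hL.q w : ℕ)) M)
    exact ⟨N, hN, fun s hs => (mem_ker_locRes_iff hF hL w M s).2 (h s hs)⟩
  M' := Rep.ofAlgebraAutOnUnits (hL.Kw w) ↥M
  j := (locIncl hF hL w M).toIntLinearMap
  j_inj := locIncl_injective hF hL w M
  j_ρ := fun s m => by
    apply Additive.toMul.injective
    apply Units.ext
    exact locRes_apply_coe hF hL w M s _
  j_surj := fun m hm => by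
    haveI : IsAlgClosure (hL.Kw w) (PadicAlgCl (hL.q w : ℕ)) := ⟨inferInstance, inferInstance⟩
    haveI : IsGalois (hL.Kw w) (PadicAlgCl (hL.q w : ℕ)) := IsAlgClosure.isGalois _ _
    have key : ∀ y : (PadicAlgCl (hL.q w : ℕ))ˣ,
        (∀ s ∈ (hL.locRes w M).ker, Units.map (hL.jq w s : PadicAlgCl (hL.q w : ℕ) →*
          PadicAlgCl (hL.q w : ℕ)) y = y) → (y : PadicAlgCl (hL.q w : ℕ)) ∈ M := by
      intro y hy
      rw [← InfiniteGalois.fixedField_fixingSubgroup M, IntermediateField.mem_fixedField_iff]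
      intro σ hσ
      obtain ⟨s, rfl⟩ := (hL.locEquiv w).surjective σ
      have h1 := hy s ((mem_ker_locRes_iff hF hL w M s).2 hσ)
      exact congrArg (fun z : (PadicAlgCl (hL.q w : ℕ))ˣ => (z : PadicAlgCl (hL.q w : ℕ))) h1
    set y : (PadicAlgCl (hL.q w : ℕ))ˣ :=
      Additive.toMul (show Additive (PadicAlgCl (hL.q w : ℕ))ˣ from m) with hy
    have hm' : ∀ s ∈ (hL.locRes w M).ker, Units.map (hL.jq w s : PadicAlgCl (hL.q w : ℕ) →*
        PadicAlgCl (hL.q w : ℕ)) y = y := by
      intro s hs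
      exact congrArg (fun z : Additive (PadicAlgCl (hL.q w : ℕ))ˣ => Additive.toMul z) (hm s hs)
    have h1 := key y hm'
    have h2 := key y⁻¹ (fun s hs => by
      have := hm' s hs
      rw [map_inv, this])
    refine ⟨Additive.ofMul ⟨⟨_, h1⟩, ⟨_, h2⟩, ?_, ?_⟩, ?_⟩
    · apply Subtype.ext
      exact Units.mul_inv y
    · apply Subtype.ext
      exact Units.inv_mul y
    · change Additive.ofMul _ = Additive.ofMul y
      apply congrArg Additive.ofMul
      apply Units.ext
      rfl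

@[simp] lemma locFinReal_Q : (locFinReal hF hL w M).Q = (↥M ≃ₐ[hL.Kw w] ↥M) := rfl

@[simp] lemma locFinReal_π : (locFinReal hF hL w M).π = hL.locRes w M := rfl

@[simp] lemma locFinReal_M' :
    (locFinReal hF hL w M).M' = Rep.ofAlgebraAutOnUnits (hL.Kw w) ↥M := rfl

end Real

section Cofinal

/-- **Cofinality of the finite-level realisations**: below every level of `L` at `w` there is a
finite Galois `M / K_w` whose degree is divisible by a prescribed `d > 0` (it contains the
unramified extension of degree `d`). -/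
theorem exists_locFinReal_le (w : ι) (N : Subgroup (L.Gv w)) (hN : N ∈ (L.lev w).mem)
    (d : ℕ) (hd : 0 < d) :
    ∃ (M : IntermediateField (hL.Kw w) (PadicAlgCl (hL.q w : ℕ)))
      (_ : IsGalois (hL.Kw w) M) (_ : FiniteDimensional (hL.Kw w) M),
      (locFinReal hF hL w M).π.ker ≤ N ∧ d ∣ Module.finrank (hL.Kw w) M := by
  haveI : IsAlgClosure (hL.Kw w) (PadicAlgCl (hL.q w : ℕ)) := ⟨inferInstance, inferInstance⟩
  haveI := hL.finiteDimensional_Kw w
  obtain ⟨N', ⟨-, M₀, hM₀, rfl⟩, hN'⟩ := helper60.exists_galLevel_sub hL w N hN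
  haveI := hM₀
  obtain ⟨E, hEfd, -, hEdeg, -⟩ :=
    helper7.exists_unram (hL.q w : ℕ) (hL.Kw w) (PadicAlgCl (hL.q w : ℕ)) d hd
  haveI := hEfd
  haveI : FiniteDimensional (hL.Kw w) ↥(M₀ ⊔ E) := IntermediateField.finiteDimensional_sup M₀ E
  obtain ⟨M, hMfd, hMgal, hle⟩ :=
    helper77.exists_finite_galois_ge (hL.Kw w) (PadicAlgCl (hL.q w : ℕ)) (M₀ ⊔ E)
  refine ⟨M, hMgal, hMfd, ?_, ?_⟩
  · intro s hs
    apply hN'
    have h1 : hL.locEquiv w s ∈ M.fixingSubgroup := (mem_ker_locRes_iff hF hL w M s).1 hs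
    exact IntermediateField.fixingSubgroup_le (le_sup_left.trans hle) h1
  · rw [← hEdeg]
    exact IntermediateField.finrank_dvd_of_le_right (le_sup_right.trans hle)

end Cofinal

end Fermat.Agent.S55.helper33
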