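import Fermat.Agent.S55.helper87_Rec3InjSL
import Fermat.Agent.S55.helper69_Rec3Dic
import Fermat.Agent.S55.helper33_Rec3LocFinReal
import Fermat.Agent.S55.helper30_Rec3LocFinDisc
import Fermat.Agent.S55.helper84_InfResFinal
import Fermat.Agent.S55.helper13_MulClass

/-!
# S55 / REC3 R3-LOC-INJ, local half (helper87)

From the local triviality `h : ∀ w, loc₂ w j ∈ B2 (L.lev w) Ω_w` of a global class `j` represented
at the finite level `E` to primitives of the local cochains at the finite levels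
`mixField hL E w`, and the resulting statement `injLoc` (the `q`-components, `q ∈ S`, of the
finite-level representative are coboundaries).
-/

set_option autoImplicit false
set_option linter.unusedSectionVars false
set_option linter.style.haveILetI false
set_option linter.unusedVariables false

open scoped Pointwise TensorProduct NumberField
open groupCohomology

noncomputable section

namespace Fermat.Agent.S55.helper87

open Fermat.Agent.S55 Fermat.Agent.S55.helper8 Fermat.Agent.S55.helper11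
  Fermat.Agent.S55.helper73 Fermat.Agent.S55.helper97 Fermat.Agent.S55.helper59
  Fermat.Agent.S55.helper69 Fermat.Agent.S55.helper90 Fermat.Agent.S55.helper46
  ExtCitation

/-! ## Inflation is injective (cochain form) -/

section Inf

variable (K L M : Type) [Field K] [Field L] [Field M] [Algebra K L] [Algebra K M] [Algebra L M]
  [IsScalarTower K L M] [FiniteDimensional K M] [IsGalois K L] [IsGalois K M]

/-- a 2-cocycle of `Gal(L/K)` whose inflation to `Gal(M/K)` is a coboundary is a coboundary -/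
theorem isMulCoboundary₂_of_locCochain_inf {f : (L ≃ₐ[K] L) × (L ≃ₐ[K] L) → Lˣ}
    (hf : IsMulCocycle₂ f) (h : IsMulCoboundary₂ (helper13.locCochain K L K M f)) :
    IsMulCoboundary₂ f := by
  have h1 := helper13.locH_mulClass K L K M hf
  rw [(helper13.mulClass_eq_zero_iff K M (helper13.isMulCocycle₂_locCochain K L K M hf)).2 h]
    at h1
  have h2 : mulClass K L f = 0 :=
    helper84.locH_inf_two_injective K L M (h1.trans (map_zero _).symm)
  exact (helper13.mulClass_eq_zero_iff K L hf).1 h2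

end Inf

/-! ## The local cochain of a cocycle is a cocycle -/

section Generic

variable {q : ℕ} [Fact q.Prime] {F L : Type} [Field F] [Field L] [CharZero L] [Algebra F L]
  [Normal F L] (D : LocDatum q F L)

lemma units_map_evD_smul (τ : D.Lw ≃ₐ[D.Kv] D.Lw) (x : (SemiLoc q L)ˣ) :
    Units.map (evD D : SemiLoc q L →* D.Lw) (locHom F L D.Kv D.Lw τ • x) =
      τ • Units.map (evD D : SemiLoc q L →* D.Lw) x := by
  apply Units.ext
  exact evD_smul D τ (x : SemiLoc q L)

theorem isMulCocycle₂_locCochainSL {c : (L ≃ₐ[F] L) × (L ≃ₐ[F] L) → (SemiLoc q L)ˣ}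
    (hc : IsMulCocycle₂ c) : IsMulCocycle₂ (locCochainSL D c) := by
  intro a b d
  simp only [locCochainSL, map_mul]
  rw [← map_mul, hc, map_mul, units_map_evD_smul]

end Generic

/-! ## The identity `loc₂ ∘ infl₂ = infl₂ ∘ locCochainSL` -/

section Arith

local instance factOfPrimesInjLoc (q : Nat.Primes) : Fact (q : ℕ).Prime := ⟨q.2⟩

local notation "Qbar" => AlgebraicClosure ℚ

variable {S : Finset Nat.Primes} {F : IntermediateField ℚ Qbar} [FiniteDimensional ℚ F]
  (hF : F.IsUnramifiedOutside S)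
  {ι : Type} [Fintype ι] {L : LocalData (UF F) (sLevelsStr S F hF) ι} (hL : IsArith S F L)
  (E : IntermediateField ↥F Qbar) [NumberField ↥F] [FiniteDimensional ↥F ↥E] [IsGalois ↥F ↥E]
  (hE : (E.restrictScalars ℚ).IsUnramifiedOutside S)

/-- the `q`-component of a cochain with values in the `S`-ideles -/
def compS (q : Nat.Primes)
    (c : (↥E ≃ₐ[↥F] ↥E) × (↥E ≃ₐ[↥F] ↥E) → Dic.repSIdele S ↥F ↥E) :
    (↥E ≃ₐ[↥F] ↥E) × (↥E ≃ₐ[↥F] ↥E) → (SemiLoc (q : ℕ) ↥E)ˣ :=
  fun g => (((Additive.toMul (c g) : Dic.sIdele S ↥E) : Idele ↥E) : IdelePi ↥E) q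

lemma compS_apply (q : Nat.Primes)
    (c : (↥E ≃ₐ[↥F] ↥E) × (↥E ≃ₐ[↥F] ↥E) → Dic.repSIdele S ↥F ↥E)
    (g : (↥E ≃ₐ[↥F] ↥E) × (↥E ≃ₐ[↥F] ↥E)) :
    compS E q c g = (((Additive.toMul (c g) : Dic.sIdele S ↥E) : Idele ↥E) : IdelePi ↥E) q := rfl

/-- `evAt ∘ bc = evD` -/
lemma evAt_bc (w : ι) (z : SemiLoc (hL.q w : ℕ) ↥E) :
    evAt (hL.q w : ℕ) (hL.g w) (bc ↥E Qbar (hL.q w : ℕ) z) =
      mixVal hL E w (evD (helper72.mixDatum hL E w) z) := by
  induction z using TensorProduct.induction_on with
  | zero => rw [map_zero, map_zero, map_zero, map_zero]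
  | tmul a y => rw [helper73.bc_tmul, evAt_tmul, coe_evD_mix_tmul]; rfl
  | add a b ha hb => rw [map_add, map_add, ha, hb, map_add, map_add]

/-- the local cochain at `w` of a finite-level cochain, additively -/
def locCochainAdd (w : ι) (c : (↥E ≃ₐ[↥F] ↥E) × (↥E ≃ₐ[↥F] ↥E) → Dic.repSIdele S ↥F ↥E) :
    (helper33.locFinReal hF hL w (helper72.mixField hL E w)).Q ×
        (helper33.locFinReal hF hL w (helper72.mixField hL E w)).Q →
      (helper33.locFinReal hF hL w (helper72.mixField hL E w)).M' :=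
  fun σ => Additive.ofMul
    (locCochainSL (helper72.mixDatum hL E w) (compS E (hL.q w) c) σ)

/-- **[4a]** the localisation of the inflation of a finite-level cochain is the inflation of its
local cochain at the level `mixField hL E w`. -/
theorem loc₂_infl₂_eq (w : ι)
    (c : (↥E ≃ₐ[↥F] ↥E) × (↥E ≃ₐ[↥F] ↥E) → Dic.repSIdele S ↥F ↥E) :
    (arithLocSys hF hL).loc₂ w ((Dic.finRealJS S F hF E hE).infl₂ c) =
      (helper33.locFinReal hF hL w (helper72.mixField hL E w)).infl₂
        (locCochainAdd hF hL E w c) := by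
  funext ⟨s, t⟩
  apply Additive.toMul.injective
  apply Units.ext
  have h1 : ((Additive.toMul ((arithLocSys hF hL).loc₂ w ((Dic.finRealJS S F hF E hE).infl₂ c)
      (s, t)) : (PadicAlgCl (hL.q w : ℕ))ˣ) : PadicAlgCl (hL.q w : ℕ)) =
      evAt (hL.q w : ℕ) (hL.g w) (bc ↥E Qbar (hL.q w : ℕ)
        ((compS E (hL.q w) c (resFix F E (L.r w s), resFix F E (L.r w t)) :
          (SemiLoc (hL.q w : ℕ) ↥E)ˣ) : SemiLoc (hL.q w : ℕ) ↥E)) := rfl
  have h2 : ((Additive.toMul ((helper33.locFinReal hF hL w (helper72.mixField hL E w)).infl₂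
      (locCochainAdd hF hL E w c) (s, t)) : (PadicAlgCl (hL.q w : ℕ))ˣ) :
        PadicAlgCl (hL.q w : ℕ)) =
      mixVal hL E w (evD (helper72.mixDatum hL E w)
        ((compS E (hL.q w) c
          (locHom ↥F ↥E (helper72.mixDatum hL E w).Kv (helper72.mixDatum hL E w).Lw
            (helper72.mixLocRes hL E w s),
           locHom ↥F ↥E (helper72.mixDatum hL E w).Kv (helper72.mixDatum hL E w).Lw
            (helper72.mixLocRes hL E w t)) :
          (SemiLoc (hL.q w : ℕ) ↥E)ˣ) : SemiLoc (hL.q w : ℕ) ↥E)) := rfl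
  refine h1.trans (Eq.trans ?_ h2.symm)
  rw [helper72.mix_locHom_locRes, helper72.mix_locHom_locRes, evAt_bc]

end Arith

end Fermat.Agent.S55.helper87
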