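import Fermat.Agent.S55.helper46_Rec3Inj
import Fermat.Agent.S55.helper46_Rec3InjInf
import Fermat.Agent.S55.helper87_Rec3InjLoc
import Fermat.Agent.S55.helper69_Rec3US2Final

/-!
# S55 / REC3 / R3-LOC-INJ: `loc_inj`, final wiring (helper46, task 529)

`loc_inj` : VERBATIM the statement of helper90's blueprint `helper90_Rec3LocInterface` (field
`inj` of `LocSys.Good` for `arithLocSys hF hL`), unconditional.

Inputs (all on main):
* REP/DET + [INJ-ASM] : `helper46.loc_inj_of_cob` (`helper46_Rec3Inj`);
* [INJ-FIN] + [US2]   : `helper69.Inj.exists_d₁₂_eq_of_comp`, `helper69.US2.hypUS2`;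
* [INJ-SL]            : `helper87.isMulCoboundary₂_of_mixDatum`;
* [4a]                : `helper87.loc₂_infl₂_eq`;
* [4b]                : `helper46.isMulCoboundary₂_of_infl₂_mem_B2` (`helper46_Rec3InjInf`).
-/

set_option autoImplicit false
set_option linter.style.haveILetI false
set_option linter.unusedSectionVars false
set_option linter.unusedVariables false

open scoped TensorProduct NumberField

open groupCohomology ExtCitation

noncomputable section

namespace Fermat.Agent.S55.helper46

open Fermat.Agent.S55 Fermat.Agent.S55.helper59 Fermat.Agent.S55.helper69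
  Fermat.Agent.S55.helper73 Fermat.Agent.S55.helper90

local instance factOfPrimesInjFinal (q : Nat.Primes) : Fact (q : ℕ).Prime := ⟨q.2⟩

local notation "Qbar" => AlgebraicClosure ℚ

variable {p : ℕ} [Fact p.Prime] {S : Finset Nat.Primes} {F : IntermediateField ℚ Qbar}
  [FiniteDimensional ℚ F] (hF : F.IsUnramifiedOutside S)
  {ι : Type} [Fintype ι] {L : LocalData (UF F) (sLevelsStr S F hF) ι} (hL : IsArith S F L)

set_option synthInstance.maxHeartbeats 400000 in
set_option maxHeartbeats 1000000 in
/-- **[INJ-LOC]**, coboundary form: the `q`-components (`q ∈ S`) of a finite-level cocycle whose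
inflation is locally trivial at all `w` are coboundaries. -/
theorem hypInjLocCob : HypInjLocCob hF hL := by
  intro E _ _ hE c hc h q hq
  haveI : NumberField ↥F := ⟨⟩
  haveI : FiniteDimensional ℚ ↥E := Module.Finite.trans ↥F ↥E
  haveI : NumberField ↥E := ⟨⟩
  have hcoc : ∀ q : Nat.Primes, IsMulCocycle₂ (helper87.compS E q c) := fun q =>
    Inj.isMulCocycle₂_compAt S ↥F ↥E q c hc
  have hloc : ∀ w : ι, IsMulCoboundary₂
      (helper87.locCochainSL (helper72.mixDatum hL E w)
        (fun g => (fun g (q : Nat.Primes) => helper87.compS E q c g) g (hL.q w))) := by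
    intro w
    have h1 := h w
    rw [helper87.loc₂_infl₂_eq hF hL E hE w c] at h1
    exact isMulCoboundary₂_of_infl₂_mem_B2 hF hL w (helper72.mixField hL E w)
      (helper87.locCochainSL (helper72.mixDatum hL E w) (helper87.compS E (hL.q w) c))
      (helper87.isMulCocycle₂_locCochainSL (helper72.mixDatum hL E w) (hcoc (hL.q w))) h1
  exact helper87.isMulCoboundary₂_of_mixDatum hL E
    (fun g (q : Nat.Primes) => helper87.compS E q c g) (fun q _ => hcoc q) hloc q hq

/-- **R3-LOC-INJ**: a class of `H²(G_S, J_S)` which is locally trivial at all `w` is trivial up to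
a multiplier prime to `p` (in fact trivial). -/
theorem loc_inj (hp2 : p ≠ 2) (hpS : (⟨p, Fact.out⟩ : Nat.Primes) ∈ S)
    (j : UF F × UF F → repJS S F hF) (hj : j ∈ Z2 (sLevelsStr S F hF) (repJS S F hF))
    (h : ∀ w, (arithLocSys hF hL).loc₂ w j ∈ B2 (L.lev w) ((arithLocSys hF hL).Ω w)) :
    ∃ m : ℕ, ¬ p ∣ m ∧ m • j ∈ B2 (sLevelsStr S F hF) (repJS S F hF) :=
  loc_inj_of_cob hF hL US2.hypUS2 (hypInjLocCob hF hL) j hj h

end Fermat.Agent.S55.helper46
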