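import Fermat.Agent.S55.helper59_BArSurj
import Fermat.Agent.S55.helper46_Rec3InjFinal

/-!
# S55 module B: `BaseInputStatement p S`, UNCONDITIONAL (helper59)

`baseInputStatement p S : Fermat.Agent.S55.BaseInputStatement p S` — the arithmetic base case of
Poitou–Tate duality (for every finite extension `F` of `ℚ` unramified outside `S` containing
`μ_p`, `p` odd in `S`, the structure `BaseInput` of the abstract module B exists for the trivial
module `ℤ/p` over `G_{F,S}`), with all inputs discharged:

* local fields (I1), (I2): `helper49.exists_local_inv` (local duality, `helper8`);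
* reciprocity (I3): `hypI3` (REC1 `helper11`, `helper72`, `helper98`);
* (I4), (I5), `#Sha² ≤ #Cl_S/p`: REC3 (`helper90`; R3-LOC-INJ `helper46`, R3-LOC-SURJ `helper4`);
* (I6): `helper83`; (I7a): `hypI7a` (`helper75`); (I7b): `helper38`;
* `#Sha¹ ≤ #Cl_S/p`: `hypSha1` (REC4, `helper75`).
-/

set_option autoImplicit false

open groupCohomology ExtCitation
open scoped NumberField

noncomputable section

namespace Fermat.Agent.S55.helper59

open Fermat.Agent.S55

/-- **R3-LOC-INJ, unconditionally.** -/
theorem hypLocInj {p : ℕ} [Fact p.Prime] {S : Finset Nat.Primes} : helper90.HypLocInj p S :=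
  fun _ _ hF _ _ _ hL hp2 hpS j hj h => helper46.loc_inj hF hL hp2 hpS j hj h

/-- **THE DELIVERABLE OF MODULE B, UNCONDITIONAL**: the arithmetic base case. -/
theorem baseInputStatement (p : ℕ) [Fact p.Prime] (S : Finset Nat.Primes) :
    BaseInputStatement p S :=
  baseInputStatement_of_locInj hypLocInj

end Fermat.Agent.S55.helper59
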