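import Fermat.Agent.S55.AExport2
import Fermat.Agent.S55.helper59_BArDone

/-!
# S55: the UNCONDITIONAL export for later statements (S56)

`exists_tr_claim` : for `p ≠ 2`, `p ∈ S` there is a trace functional
`tr : C_c³(G_{ℚ,S}; μ_p) → 𝔽_p`, killing cone coboundaries and nonzero on cone cocycles, such that
the duality CLAIM (`H⁰(M) ↠ H_c³(M*(1))ᵛ`, `H¹(M) ≅ H_c²(M*(1))ᵛ`, `H²(M) ↪ H_c¹(M*(1))ᵛ`) holds
for ALL finite smooth modules `M`, for the evaluation pairing `M × M^*(χ) → k(χ)` and for the
flipped pairing `M^*(χ) × M → k(χ)`.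

`baseTargetP p S` and `baseHypP_of_tr` are the unconditional base statements.
-/

set_option autoImplicit false

open CategoryTheory Module groupCohomology ExtCitation

noncomputable section

namespace Fermat.Agent.S55

variable (p : ℕ) [Fact p.Prime] (S : Finset Nat.Primes)

/-- the weak base target, unconditionally -/
theorem baseTargetP (hp2 : p ≠ 2) (hpS : pPrime p ∈ S) : BaseTargetP p S :=
  baseTargetP_of_baseInput S (helper59.baseInputStatement p S) hp2 hpS

/-- the weak base hypothesis for every trace which kills cone coboundaries and is nonzero on cone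
cocycles, unconditionally -/
theorem baseHypP_of_tr (hp2 : p ≠ 2) (hpS : pPrime p ∈ S)
    (tr : CcAmb3 (galLocal S) (groupCohomology.ofChar (k := ZMod p) (cycloChar p)) →ₗ[ZMod p]
      ZMod p)
    (htr : ∀ c ∈ Bc3 (galLocal S) (groupCohomology.ofChar (k := ZMod p) (cycloChar p)), tr c = 0)
    (hne : ∃ z ∈ Zc3 (galLocal S) (groupCohomology.ofChar (k := ZMod p) (cycloChar p)),
      tr z ≠ 0) :
    BaseHypP (galLocal S) p (cycloChar p) tr :=
  baseHypP_of_statements p S (helper35.shStatement p S) (helper59.baseInputStatement p S) hp2 hpS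
    tr htr hne

/-- the CLAIM for all finite smooth modules, for EVERY trace which kills cone coboundaries and is
nonzero on cone cocycles -/
theorem claim_of_tr (hp2 : p ≠ 2) (hpS : pPrime p ∈ S)
    (tr : CcAmb3 (galLocal S) (groupCohomology.ofChar (k := ZMod p) (cycloChar p)) →ₗ[ZMod p]
      ZMod p)
    (htr : ∀ c ∈ Bc3 (galLocal S) (groupCohomology.ofChar (k := ZMod p) (cycloChar p)), tr c = 0)
    (hne : ∃ z ∈ Zc3 (galLocal S) (groupCohomology.ofChar (k := ZMod p) (cycloChar p)),
      tr z ≠ 0) :
    (∀ M : Rep.{0} (ZMod p) GQ, Module.Finite (ZMod p) M → IsSmooth (galLevels S) M →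
      Claim (galLocal S) (evPairing M (cycloChar p)) tr) ∧
    ∀ M : Rep.{0} (ZMod p) GQ, Module.Finite (ZMod p) M → IsSmooth (galLevels S) M →
      Claim (galLocal S) (evPairing' M (cycloChar p)) tr := by
  obtain ⟨hfin, hχ⟩ := helper92.levelStatement p S hpS
  have : CharP (ZMod p) p := ZMod.charP p
  have hbase := baseHypP_of_tr p S hp2 hpS tr htr hne
  exact ⟨claim_all (galLocal S) p (cycloChar p) hfin hχ tr htr hbase,
    claim_all' (galLocal S) p (cycloChar p) hfin hχ tr htr hbase⟩

/-- **EXPORT (for S56), UNCONDITIONAL**: a trace functional for `(G_ℚ, S, μ_p)`, killing cone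
coboundaries and nonzero on cone cocycles, for which the duality CLAIM holds for ALL finite smooth
modules, for both evaluation pairings. -/
theorem exists_tr_claim (hp2 : p ≠ 2) (hpS : pPrime p ∈ S) :
    ∃ tr : CcAmb3 (galLocal S) (groupCohomology.ofChar (k := ZMod p) (cycloChar p)) →ₗ[ZMod p]
        ZMod p,
      (∀ c ∈ Bc3 (galLocal S) (groupCohomology.ofChar (k := ZMod p) (cycloChar p)), tr c = 0) ∧
      (∃ z ∈ Zc3 (galLocal S) (groupCohomology.ofChar (k := ZMod p) (cycloChar p)), tr z ≠ 0) ∧
      (∀ M : Rep.{0} (ZMod p) GQ, Module.Finite (ZMod p) M → IsSmooth (galLevels S) M →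
        Claim (galLocal S) (evPairing M (cycloChar p)) tr) ∧
      ∀ M : Rep.{0} (ZMod p) GQ, Module.Finite (ZMod p) M → IsSmooth (galLevels S) M →
        Claim (galLocal S) (evPairing' M (cycloChar p)) tr :=
  exists_tr_claim_all_of_baseInput p S (helper59.baseInputStatement p S) hp2 hpS

end Fermat.Agent.S55
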