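import Fermat.Agent.S55.helper11_RecP
import Fermat.Agent.S55.helper89_Ineq2Wire

/-!
# S55 / REC1: the reciprocity law for `p`-torsion classes, UNCONDITIONAL (helper11)

* `globHasse p hp2 : helper60.GlobHasse p` (GLOB: Hasse principle for `H²`, from `helper89.ineq2`);
* `reciprocity_pTorsion_uncond` : the sum of the local invariants of a `p`-torsion global class
  vanishes (`p` odd);
* `hypRecP Inv p hp2 : helper59.HypRecP Inv p` : the same statement in the shape consumed by
  module B.
-/

set_option autoImplicit false

open groupCohomology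
open scoped NumberField
open IsDedekindDomain

noncomputable section

namespace Fermat.Agent.S55.helper11

/-- GLOB's Hasse principle for `H²` in the shape consumed by REC1. -/
theorem globHasse (p : ℕ) [Fact p.Prime] (hp2 : p ≠ 2) : helper60.GlobHasse p :=
  helper73.globHasse_of_ineq2 p Fact.out hp2 (helper89.ineq2Zeta.{0} p Fact.out hp2)

/-- **RECIPROCITY LAW for `p`-torsion classes**, `p` odd, unconditional: for a `p`-torsion class
`x` of `H²(Gal(L/F), Lˣ)` and local data `D i` at pairwise distinct places `v i` of `F` outside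
of which `x` is locally trivial, the sum of the local invariants of `x` vanishes. -/
theorem reciprocity_pTorsion_uncond (I : LocInv) (p : ℕ) [Fact p.Prime] (hp2 : p ≠ 2)
    (F L : Type) [Field F] [NumberField F] [Field L] [NumberField L] [Algebra F L] [IsGalois F L]
    (x : groupCohomology.H2 (Rep.ofAlgebraAutOnUnits F L)) (hx : p • x = 0)
    (ι : Type) [Fintype ι] (q : ι → ℕ) [∀ i, Fact (q i).Prime]
    (D : ∀ i, LocDatum (q i) F L) (v : ι → HeightOneSpectrum (𝓞 F))
    (hv : ∀ i, (D i).AtPlace (v i)) (hinj : Function.Injective v)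
    (hsupp : ∀ (r : ℕ) [Fact r.Prime] (E : LocDatum r F L) (w : HeightOneSpectrum (𝓞 F)),
      E.AtPlace w → (∀ i, w ≠ v i) → E.loc x = 0) :
    ∑ i, I.inv (q i) (D i).Kv (D i).Lw ((D i).loc x) = 0 :=
  reciprocity_pTorsion I p hp2 (globHasse p hp2) F L x hx ι q D v hv hinj hsupp

/-- The reciprocity law for `p`-torsion classes in the shape `helper59.HypRecP`,
unconditional. -/
theorem hypRecP (Inv : LocInv) (p : ℕ) [Fact p.Prime] (hp2 : p ≠ 2) : helper59.HypRecP Inv p :=
  hypRecP_of_globHasse Inv p hp2 (globHasse p hp2)

end Fermat.Agent.S55.helper11
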