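import Mathlib

/-!
# Dirichlet's `S`-unit theorem (helper79, S55-GLOB-SUNIT)

`R` a Dedekind domain with fraction field `K`, `S` a set of finite places.
* `sunitVal K S : S.unit K →* (S → Multiplicative ℤ)`: the `S`-valuation map.
* `sunitVal_ker`: its kernel is the image of `Rˣ`.
* finite index of the range when the class group is finite and `S` is finite.
* number fields: finite generation and rank of `S.unit K`.
-/

namespace Fermat.Agent.S55.helper79

open IsDedekindDomain WithZero
open scoped nonZeroDivisors

section Generic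

variable {R : Type*} [CommRing R] [IsDedekindDomain R] (K : Type*) [Field K] [Algebra R K]
  [IsFractionRing R K] (S : Set (HeightOneSpectrum R))

/-- The `S`-valuation map on `S`-units. -/
noncomputable def sunitVal : S.unit K →* (S → Multiplicative ℤ) where
  toFun x v := (v : HeightOneSpectrum R).valuationOfNeZero (x : Kˣ)
  map_one' := by
    funext v
    simp
  map_mul' x y := by
    funext v
    simp

@[simp]
theorem sunitVal_apply (x : S.unit K) (v : S) :
    sunitVal K S x v = (v : HeightOneSpectrum R).valuationOfNeZero (x : Kˣ) := rfl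

/-- The natural map from the units of `R` to the `S`-units. -/
noncomputable def unitsToSUnit : Rˣ →* S.unit K where
  toFun u := ⟨Units.map (algebraMap R K : R →* K) u, fun v _ => by
    have := HeightOneSpectrum.valuation_of_unit_eq (K := K) v u
    rw [← HeightOneSpectrum.valuationOfNeZero_eq, this]
    rfl⟩
  map_one' := by
    ext
    simp
  map_mul' x y := by
    ext
    simp

@[simp]
theorem coe_unitsToSUnit (u : Rˣ) :
    (((unitsToSUnit K S u : S.unit K) : Kˣ) : K) = algebraMap R K u := rfl

theorem unitsToSUnit_injective : Function.Injective (unitsToSUnit K S) := by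
  intro u u' h
  have h1 : algebraMap R K u = algebraMap R K u' := by
    rw [← coe_unitsToSUnit K S u, ← coe_unitsToSUnit K S u', h]
  exact Units.ext (IsFractionRing.injective R K h1)

theorem sunitVal_unitsToSUnit (u : Rˣ) : sunitVal K S (unitsToSUnit K S u) = 1 := by
  funext v
  exact HeightOneSpectrum.valuation_of_unit_eq (K := K) (v : HeightOneSpectrum R) u

/-- An element of `Kˣ` all of whose valuations are trivial comes from a unit of `R`. -/
theorem exists_unit_of_valuation_eq_one (x : Kˣ)
    (hx : ∀ v : HeightOneSpectrum R, v.valuation K (x : K) = 1) :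
    ∃ u : Rˣ, algebraMap R K u = x := by
  obtain ⟨a, ha⟩ := HeightOneSpectrum.mem_integers_of_valuation_le_one K (x : K)
    (fun v => (hx v).le)
  obtain ⟨b, hb⟩ := HeightOneSpectrum.mem_integers_of_valuation_le_one K ((x⁻¹ : Kˣ) : K)
    (fun v => by
      rw [Units.val_inv_eq_inv_val, map_inv₀, hx v, inv_one])
  have hab : a * b = 1 := by
    apply IsFractionRing.injective R K
    rw [map_mul, ha, hb, map_one, Units.mul_inv]
  have hba : b * a = 1 := by rw [mul_comm, hab]
  exact ⟨⟨a, b, hab, hba⟩, ha⟩

theorem sunitVal_ker : (sunitVal K S).ker = (unitsToSUnit K S).range := by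
  ext x
  constructor
  · intro hx
    rw [MonoidHom.mem_ker] at hx
    have hall : ∀ v : HeightOneSpectrum R, v.valuation K ((x : Kˣ) : K) = 1 := by
      intro v
      by_cases hv : v ∈ S
      · have := congrFun hx ⟨v, hv⟩
        simp only [sunitVal_apply, Pi.one_apply] at this
        rw [← HeightOneSpectrum.valuationOfNeZero_eq, this]
        rfl
      · exact x.2 v hv
    obtain ⟨u, hu⟩ := exists_unit_of_valuation_eq_one K (x : Kˣ) hall
    refine ⟨u, ?_⟩
    apply Subtype.ext
    apply Units.ext
    exact hu
  · rintro ⟨u, rfl⟩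
    exact sunitVal_unitsToSUnit K S u

end Generic

section Generic2


variable {R : Type*} [CommRing R] [IsDedekindDomain R] (K : Type*) [Field K] [Algebra R K]
  [IsFractionRing R K]

/-- The class number as a natural number (exponent killing the class group). -/
noncomputable def classExp (R : Type*) [CommRing R] [IsDomain R] : ℕ := Nat.card (ClassGroup R)

theorem classExp_pos (R : Type*) [CommRing R] [IsDomain R] [Finite (ClassGroup R)] :
    0 < classExp R := Nat.card_pos

theorem exists_span_eq_pow_classExp [Finite (ClassGroup R)] (v : HeightOneSpectrum R) :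
    ∃ a : R, a ≠ 0 ∧ Ideal.span {a} = v.asIdeal ^ classExp R := by
  have hI0 : v.asIdeal ≠ 0 := v.ne_bot
  have hmem : v.asIdeal ^ classExp R ∈ (Ideal R)⁰ :=
    pow_mem (mem_nonZeroDivisors_of_ne_zero hI0) _
  have h1 : ClassGroup.mk0 ⟨v.asIdeal ^ classExp R, hmem⟩ = 1 := by
    have : (⟨v.asIdeal ^ classExp R, hmem⟩ : (Ideal R)⁰) =
        ⟨v.asIdeal, mem_nonZeroDivisors_of_ne_zero hI0⟩ ^ classExp R := by
      ext
      simp
    rw [this, map_pow, classExp, pow_card_eq_one']
  rw [ClassGroup.mk0_eq_one_iff hmem] at h1
  obtain ⟨a, ha⟩ := h1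
  refine ⟨a, ?_, ?_⟩
  · rintro rfl
    have h2 : v.asIdeal ^ classExp R = ⊥ := by
      rw [ha]
      simp
    exact hI0 (pow_eq_zero_iff (classExp_pos R).ne' |>.mp h2)
  · rw [ha]

theorem intValuation_eq_of_span_eq_pow (v : HeightOneSpectrum R) {a : R} {n : ℕ}
    (ha : Ideal.span {a} = v.asIdeal ^ n) : v.intValuation a = exp (-(n : ℤ)) := by
  have h1 : v.intValuation a ≤ exp (-(n : ℤ)) := by
    rw [HeightOneSpectrum.intValuation_le_pow_iff_mem, ← ha]
    exact Ideal.subset_span rfl
  have h2 : ¬ v.intValuation a ≤ exp (-((n + 1 : ℕ) : ℤ)) := by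
    rw [HeightOneSpectrum.intValuation_le_pow_iff_mem]
    intro hmem
    have hle : v.asIdeal ^ n ≤ v.asIdeal ^ (n + 1) := by
      rw [← ha, Ideal.span_singleton_le_iff_mem]
      exact hmem
    have hlt := Ideal.pow_right_strictAnti v.asIdeal v.ne_bot v.isPrime.ne_top (Nat.lt_succ_self n)
    exact absurd hle (not_le_of_gt hlt)
  have ha0 : a ≠ 0 := by
    rintro rfl
    apply h2
    simp
  rw [v.intValuation_if_neg ha0] at h1 h2 ⊢
  rw [exp_le_exp] at h1 h2
  congr 1
  push_cast at h2
  omega

theorem intValuation_eq_one_of_span_eq_pow (v w : HeightOneSpectrum R) (hwv : w ≠ v) {a : R}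
    {n : ℕ} (ha : Ideal.span {a} = v.asIdeal ^ n) : w.intValuation a = 1 := by
  have h1 := w.intValuation_le_one a
  refine le_antisymm h1 (not_lt.mp ?_)
  rw [HeightOneSpectrum.intValuation_lt_one_iff_mem]
  intro hmem
  have hle : v.asIdeal ^ n ≤ w.asIdeal := by
    rw [← ha, Ideal.span_singleton_le_iff_mem]
    exact hmem
  have hvw : v.asIdeal ≤ w.asIdeal := w.isPrime.le_of_pow_le hle
  have : v.asIdeal = w.asIdeal := v.isMaximal.eq_of_le w.isPrime.ne_top hvw
  exact hwv (HeightOneSpectrum.ext this.symm)

end Generic2


section Generic3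

variable {R : Type*} [CommRing R] [IsDedekindDomain R] (K : Type*) [Field K] [Algebra R K]
  [IsFractionRing R K] (S : Set (HeightOneSpectrum R))

theorem valuationOfNeZero_mk0_algebraMap (w : HeightOneSpectrum R) {a : R} (ha : a ≠ 0)
    (n : ℤ) (h : w.intValuation a = exp n) :
    w.valuationOfNeZero (Units.mk0 (algebraMap R K a)
      (by simpa using ha)) = Multiplicative.ofAdd n := by
  rw [← WithZero.coe_inj, HeightOneSpectrum.valuationOfNeZero_eq, Units.val_mk0,
    HeightOneSpectrum.valuation_of_algebraMap, h]
  rfl

/-- For `v ∈ S` there is an `S`-unit whose `S`-valuation vector is `-h` at `v` and `0` elsewhere,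
`h` the class number. -/
theorem exists_sunit_single [Finite (ClassGroup R)] [DecidableEq S] (v : S) :
    ∃ x : S.unit K, sunitVal K S x =
      Pi.mulSingle v (Multiplicative.ofAdd (-(classExp R : ℤ))) := by
  obtain ⟨a, ha0, ha⟩ := exists_span_eq_pow_classExp (v : HeightOneSpectrum R)
  have hK : algebraMap R K a ≠ 0 := by simpa using ha0
  have hmem : Units.mk0 (algebraMap R K a) hK ∈ S.unit K := by
    intro w hw
    have hwv : w ≠ (v : HeightOneSpectrum R) := by
      rintro rfl
      exact hw v.2
    rw [Units.val_mk0, HeightOneSpectrum.valuation_of_algebraMap,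
      intValuation_eq_one_of_span_eq_pow _ w hwv ha]
  refine ⟨⟨Units.mk0 (algebraMap R K a) hK, hmem⟩, ?_⟩
  funext w
  rw [sunitVal_apply]
  by_cases hwv : w = v
  · subst hwv
    rw [Pi.mulSingle_eq_same]
    exact valuationOfNeZero_mk0_algebraMap K _ ha0 _ (intValuation_eq_of_span_eq_pow _ ha)
  · rw [Pi.mulSingle_eq_of_ne hwv]
    have hwv' : (w : HeightOneSpectrum R) ≠ (v : HeightOneSpectrum R) :=
      fun h => hwv (Subtype.ext h)
    have := valuationOfNeZero_mk0_algebraMap K (w : HeightOneSpectrum R) ha0 0
      (by rw [intValuation_eq_one_of_span_eq_pow _ _ hwv' ha]; rfl)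
    rw [this]
    rfl

/-- Every `h`-th power (`h` the class number) of a valuation vector is the valuation vector of an
`S`-unit. -/
theorem pow_classExp_mem_range_sunitVal [Finite (ClassGroup R)] [Finite S]
    (f : S → Multiplicative ℤ) : f ^ classExp R ∈ (sunitVal K S).range := by
  classical
  cases nonempty_fintype S
  have hsingle : ∀ v : S, Pi.mulSingle v ((f v) ^ classExp R) ∈ (sunitVal K S).range := by
    intro v
    obtain ⟨x, hx⟩ := exists_sunit_single K S v
    have h1 : (Pi.mulSingle v ((f v) ^ classExp R) : S → Multiplicative ℤ) =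
        (Pi.mulSingle v (Multiplicative.ofAdd (-(classExp R : ℤ))) : S → Multiplicative ℤ) ^
          (-(Multiplicative.toAdd (f v))) := by
      rw [← Pi.mulSingle_zpow]
      congr 1
      apply Multiplicative.toAdd.injective
      simp only [toAdd_pow, toAdd_zpow, toAdd_ofAdd]
      simp [mul_comm]
    rw [h1, ← hx, ← map_zpow]
    exact ⟨_, rfl⟩
  have h2 : f ^ classExp R = ∏ v : S, Pi.mulSingle v ((f v) ^ classExp R) := by
    rw [Finset.univ_prod_mulSingle]
    rfl
  rw [h2]
  exact Subgroup.prod_mem _ (fun v _ => hsingle v)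

end Generic3


section AdditiveForm

variable {R : Type*} [CommRing R] [IsDedekindDomain R] (K : Type*) [Field K] [Algebra R K]
  [IsFractionRing R K] (S : Set (HeightOneSpectrum R))

/-- The additive `S`-valuation (order) map, as a `ℤ`-linear map. -/
noncomputable def sunitOrd : Additive (S.unit K) →ₗ[ℤ] (S → ℤ) :=
  AddMonoidHom.toIntLinearMap
    { toFun := fun x v => Multiplicative.toAdd (sunitVal K S (Additive.toMul x) v)
      map_zero' := by
        funext v
        simp
      map_add' := fun x y => by
        funext v
        simp }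

@[simp]
theorem sunitOrd_apply (x : Additive (S.unit K)) (v : S) :
    sunitOrd K S x v = Multiplicative.toAdd
      ((v : HeightOneSpectrum R).valuationOfNeZero ((Additive.toMul x : S.unit K) : Kˣ)) := rfl

theorem sunitOrd_eq_toAdd_sunitVal (x : Additive (S.unit K)) :
    sunitOrd K S x = fun v => Multiplicative.toAdd (sunitVal K S (Additive.toMul x) v) := rfl

/-- The inclusion of the units of `R` into the `S`-units, as a `ℤ`-linear map. -/
noncomputable def unitsToSUnitLin : Additive Rˣ →ₗ[ℤ] Additive (S.unit K) :=
  (MonoidHom.toAdditive (unitsToSUnit K S)).toIntLinearMap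

@[simp]
theorem unitsToSUnitLin_apply (u : Additive Rˣ) :
    unitsToSUnitLin K S u = Additive.ofMul (unitsToSUnit K S (Additive.toMul u)) := rfl

theorem unitsToSUnitLin_injective : Function.Injective (unitsToSUnitLin K S) := by
  intro u u' h
  have := unitsToSUnit_injective K S (Additive.ofMul.injective h)
  exact Additive.toMul.injective this

theorem ker_sunitOrd : LinearMap.ker (sunitOrd K S) = LinearMap.range (unitsToSUnitLin K S) := by
  ext x
  rw [LinearMap.mem_ker, LinearMap.mem_range]
  have hker := sunitVal_ker K S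
  constructor
  · intro hx
    have h1 : Additive.toMul x ∈ (sunitVal K S).ker := by
      rw [MonoidHom.mem_ker]
      funext v
      have := congrFun hx v
      simp only [sunitOrd_apply, Pi.zero_apply] at this
      simpa using this
    rw [hker] at h1
    obtain ⟨u, hu⟩ := h1
    exact ⟨Additive.ofMul u, by simp [hu]⟩
  · rintro ⟨u, rfl⟩
    funext v
    have := sunitVal_unitsToSUnit K S (Additive.toMul u)
    simp only [sunitOrd_apply, unitsToSUnitLin_apply, toMul_ofMul, Pi.zero_apply]
    have h2 := congrFun this v
    simp only [sunitVal_apply, Pi.one_apply] at h2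
    rw [h2]
    rfl

theorem classExp_smul_mem_range_sunitOrd [Finite (ClassGroup R)] [Finite S] (f : S → ℤ) :
    (classExp R) • f ∈ LinearMap.range (sunitOrd K S) := by
  obtain ⟨x, hx⟩ := pow_classExp_mem_range_sunitVal K S (fun v => Multiplicative.ofAdd (f v))
  refine ⟨Additive.ofMul x, ?_⟩
  funext v
  have := congrFun hx v
  simp only [sunitOrd_apply, toMul_ofMul]
  rw [sunitVal_apply] at this
  rw [this]
  simp

theorem isTorsion_quotient_range_sunitOrd [Finite (ClassGroup R)] [Finite S] :
    Module.IsTorsion ℤ ((S → ℤ) ⧸ LinearMap.range (sunitOrd K S)) := by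
  intro x
  induction x using Submodule.Quotient.induction_on with
  | H f =>
    refine ⟨⟨(classExp R : ℤ), ?_⟩, ?_⟩
    · rw [mem_nonZeroDivisors_iff_ne_zero]
      exact_mod_cast (classExp_pos R).ne'
    · change (classExp R : ℤ) •
        (Submodule.Quotient.mk f : (S → ℤ) ⧸ LinearMap.range (sunitOrd K S)) = 0
      rw [← Submodule.Quotient.mk_smul (LinearMap.range (sunitOrd K S)),
        Submodule.Quotient.mk_eq_zero]
      have := classExp_smul_mem_range_sunitOrd K S f
      simpa using this

theorem finite_quotient_range_sunitOrd [Finite (ClassGroup R)] [Finite S] :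
    Finite ((S → ℤ) ⧸ LinearMap.range (sunitOrd K S)) :=
  Module.finite_of_fg_torsion _ (isTorsion_quotient_range_sunitOrd K S)

theorem finrank_range_sunitOrd [Finite (ClassGroup R)] [Finite S] :
    Module.finrank ℤ (LinearMap.range (sunitOrd K S)) = Nat.card S := by
  cases nonempty_fintype S
  have h1 := (LinearMap.range (sunitOrd K S)).finrank_quotient_add_finrank
  have h2 : Module.finrank ℤ ((S → ℤ) ⧸ LinearMap.range (sunitOrd K S)) = 0 := by
    rw [Module.finrank_eq_zero_iff_isTorsion]
    exact isTorsion_quotient_range_sunitOrd K S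
  rw [h2, zero_add] at h1
  rw [h1, Module.finrank_pi, Nat.card_eq_fintype_card]

end AdditiveForm


section Rank

variable {R : Type*} [CommRing R] [IsDedekindDomain R] (K : Type*) [Field K] [Algebra R K]
  [IsFractionRing R K] (S : Set (HeightOneSpectrum R))

theorem fg_ker_sunitOrd [Module.Finite ℤ (Additive Rˣ)] :
    (LinearMap.ker (sunitOrd K S)).FG := by
  rw [ker_sunitOrd, LinearMap.range_eq_map]
  exact Module.Finite.fg_top.map _

theorem fg_range_sunitOrd [Finite S] : (LinearMap.range (sunitOrd K S)).FG := by
  cases nonempty_fintype S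
  exact IsNoetherian.noetherian _

/-- The `S`-units form a finitely generated abelian group (if the units of `R` do). -/
theorem module_finite_sunit [Module.Finite ℤ (Additive Rˣ)] [Finite S] :
    Module.Finite ℤ (Additive (S.unit K)) := by
  have : Module.Finite ℤ (LinearMap.ker (sunitOrd K S)) :=
    Module.Finite.iff_fg.mpr (fg_ker_sunitOrd K S)
  have : Module.Finite ℤ (LinearMap.range (sunitOrd K S)) :=
    Module.Finite.iff_fg.mpr (fg_range_sunitOrd K S)
  have : Module.Finite ℤ (Additive (S.unit K) ⧸ LinearMap.ker (sunitOrd K S)) :=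
    Module.Finite.equiv (LinearMap.quotKerEquivRange (sunitOrd K S)).symm
  exact Module.Finite.of_submodule_quotient (LinearMap.ker (sunitOrd K S))

/-- **Dirichlet's `S`-unit theorem**, rank form: `rank (S-units) = rank (units) + |S|`. -/
theorem finrank_sunit [Module.Finite ℤ (Additive Rˣ)] [Finite (ClassGroup R)] [Finite S] :
    Module.finrank ℤ (Additive (S.unit K)) = Module.finrank ℤ (Additive Rˣ) + Nat.card S := by
  have := module_finite_sunit K S
  have h1 := (LinearMap.ker (sunitOrd K S)).finrank_quotient_add_finrank
  have h2 : Module.finrank ℤ (Additive (S.unit K) ⧸ LinearMap.ker (sunitOrd K S)) =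
      Nat.card S := by
    rw [(LinearMap.quotKerEquivRange (sunitOrd K S)).finrank_eq, finrank_range_sunitOrd]
  have h3 : Module.finrank ℤ (LinearMap.ker (sunitOrd K S)) =
      Module.finrank ℤ (Additive Rˣ) := by
    rw [ker_sunitOrd]
    exact LinearMap.finrank_range_of_inj (unitsToSUnitLin_injective K S)
  rw [← h1, h2, h3, add_comm]

theorem group_fg_sunit [Module.Finite ℤ (Additive Rˣ)] [Finite S] : Group.FG (S.unit K) := by
  have := module_finite_sunit K S
  have : AddGroup.FG (Additive (S.unit K)) := Module.Finite.iff_addGroup_fg.mp inferInstance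
  exact GroupFG.iff_add_fg.mpr this

end Rank

section NumberField

open NumberField

variable (K : Type*) [Field K] [NumberField K] (S : Set (HeightOneSpectrum (𝓞 K))) [Finite S]

/-- **Dirichlet's `S`-unit theorem** for number fields: the `S`-units are finitely generated. -/
theorem numberField_module_finite_sunit : Module.Finite ℤ (Additive (S.unit K)) :=
  module_finite_sunit K S

theorem numberField_group_fg_sunit : Group.FG (S.unit K) :=
  group_fg_sunit K S

/-- **Dirichlet's `S`-unit theorem** for number fields: the rank of the `S`-units is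
`r₁ + r₂ - 1 + |S|`. -/
theorem numberField_finrank_sunit :
    Module.finrank ℤ (Additive (S.unit K)) = NumberField.Units.rank K + Nat.card S := by
  rw [finrank_sunit K S, NumberField.Units.finrank_eq]

end NumberField

end Fermat.Agent.S55.helper79
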