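import Mathlib

/-!
# S55 module FG, package FG4 (helper42): finite cyclic groups

Periodicity, explicit `H¹`/`H²`, and the Herbrand quotient for the cohomology of a finite cyclic
group, over Mathlib's `groupCohomology`.

Main results (statements verbatim from the FG interface of helper46):
`nonempty_iso_add_two`, `isZero_H2_iff`, `isZero_H1_iff`, `card_H2_eq`, `card_H1_eq`,
`herbrand_mul`, `herbrand_mul_left`, `herbrand_mul_right`, `herbrand_finite`.

The Herbrand multiplicativity is proved by index computations in the lattice of subgroups of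
the middle term: the six numbers `hexA`, `hexB`, `hexC` (for `(D, N)` and `(N, D)`) are the
orders of the images of the six maps of the exact hexagon.
-/

set_option autoImplicit false

universe u

open CategoryTheory CategoryTheory.Limits groupCohomology Rep

namespace Fermat.Agent.S55.helper42

/-! ## Abstract index computations -/

section Abstract

variable {B : Type*} [AddCommGroup B]

/-- First hexagon number of the pair `(D, N)` relative to the subgroup `A`. -/
noncomputable def hexA (D N : B →+ B) (A : AddSubgroup B) : ℕ :=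
  (N.range ⊔ (A ⊓ D.ker)).relIndex D.ker

/-- Second hexagon number of the pair `(D, N)` relative to the subgroup `A`. -/
noncomputable def hexB (D N : B →+ B) (A : AddSubgroup B) : ℕ :=
  (A ⊓ N.range).relIndex (A ⊓ D.ker)

/-- Third hexagon number (depends on one endomorphism only). -/
noncomputable def hexC (N : B →+ B) (A : AddSubgroup B) : ℕ :=
  (A.map N).relIndex (A ⊓ N.range)

theorem relIndex_range_ker_eq (D N : B →+ B) (hDN : ∀ x, D (N x) = 0) (A : AddSubgroup B) :
    N.range.relIndex D.ker = hexA D N A * hexB D N A := by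
  unfold hexA hexB
  have hle : N.range ≤ D.ker := by
    rintro _ ⟨x, rfl⟩
    exact hDN x
  have h1 := AddSubgroup.relIndex_mul_relIndex N.range (N.range ⊔ (A ⊓ D.ker)) D.ker
    le_sup_left (sup_le hle inf_le_right)
  have h2 : N.range.relIndex (N.range ⊔ (A ⊓ D.ker)) = (A ⊓ N.range).relIndex (A ⊓ D.ker) := by
    rw [AddSubgroup.relIndex_sup_left, ← AddSubgroup.inf_relIndex_right]
    congr 1
    apply le_antisymm
    · exact le_inf (inf_le_right.trans inf_le_left) inf_le_left
    · exact le_inf inf_le_right (le_inf inf_le_left (inf_le_right.trans hle))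
  rw [← h1, h2, mul_comm]

theorem relIndex_sub_eq (D N : B →+ B) (hDN : ∀ x, D (N x) = 0) (A : AddSubgroup B)
    (hA : A.map N ≤ A) :
    (A.map N).relIndex (A ⊓ D.ker) = hexB D N A * hexC N A := by
  unfold hexB hexC
  have hle : N.range ≤ D.ker := by
    rintro _ ⟨x, rfl⟩
    exact hDN x
  have h1 : A.map N ≤ A ⊓ N.range := by
    refine le_inf hA ?_
    rintro _ ⟨x, -, rfl⟩
    exact ⟨x, rfl⟩
  rw [mul_comm]
  exact (AddSubgroup.relIndex_mul_relIndex _ _ _ h1 (inf_le_inf_left A hle)).symm

theorem relIndex_quot_eq (D N : B →+ B) (hDN : ∀ x, D (N x) = 0) (A : AddSubgroup B)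
    (hA : A.map D ≤ A) :
    (N.range ⊔ A).relIndex (A.comap D) = hexC D A * hexA D N A := by
  unfold hexC hexA
  have hle : N.range ≤ D.ker := by
    rintro _ ⟨x, rfl⟩
    exact hDN x
  have hker : D.ker ≤ A.comap D := by
    intro x hx
    rw [AddSubgroup.mem_comap, AddMonoidHom.mem_ker.1 hx]
    exact A.zero_mem
  have hA' : A ≤ A.comap D := fun x hx => hA ⟨x, hx, rfl⟩
  have e1 : (A.map D).relIndex (A ⊓ D.range) = (A ⊔ D.ker).relIndex (A.comap D) := by
    have := AddSubgroup.relIndex_map_map D A (A.comap D)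
    rw [AddSubgroup.map_comap_eq, sup_eq_left.2 hker, inf_comm] at this
    exact this
  have e2 : (N.range ⊔ (A ⊓ D.ker)).relIndex D.ker = (N.range ⊔ A).relIndex (A ⊔ D.ker) := by
    have h3 : A ⊔ D.ker = D.ker ⊔ (N.range ⊔ A) := by
      rw [← sup_assoc, sup_eq_left.2 hle, sup_comm]
    rw [h3, AddSubgroup.relIndex_sup_right, ← AddSubgroup.inf_relIndex_right (N.range ⊔ A),
      sup_inf_assoc_of_le _ hle]
  rw [e1, e2, mul_comm]
  exact (AddSubgroup.relIndex_mul_relIndex _ _ _ (sup_le (hle.trans le_sup_right) le_sup_left)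
    (sup_le hA' hker)).symm

/-- Transport of the index `[ker D₁ : im N₁]` along an injective map. -/
theorem relIndex_eq_of_injective {A' : Type*} [AddCommGroup A'] (f : A' →+ B)
    (hf : Function.Injective f) (D₁ N₁ : A' →+ A') (D N : B →+ B)
    (hD : ∀ x, f (D₁ x) = D (f x)) (hN : ∀ x, f (N₁ x) = N (f x)) :
    N₁.range.relIndex D₁.ker = (f.range.map N).relIndex (f.range ⊓ D.ker) := by
  rw [← AddSubgroup.relIndex_map_map_of_injective (f := f) _ _ hf]
  congr 1
  · ext y
    constructor
    · rintro ⟨_, ⟨x, rfl⟩, rfl⟩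
      exact ⟨f x, ⟨x, rfl⟩, (hN x).symm⟩
    · rintro ⟨_, ⟨x, rfl⟩, rfl⟩
      exact ⟨N₁ x, ⟨x, rfl⟩, hN x⟩
  · ext y
    constructor
    · rintro ⟨x, hx, rfl⟩
      refine ⟨⟨x, rfl⟩, ?_⟩
      show D (f x) = 0
      rw [← hD]
      have : D₁ x = 0 := hx
      rw [this, map_zero]
    · rintro ⟨⟨x, rfl⟩, hx⟩
      refine ⟨x, ?_, rfl⟩
      have hx' : D (f x) = 0 := hx
      rw [← hD] at hx'
      have : f (D₁ x) = f 0 := by rw [hx', map_zero]
      exact hf this

/-- Transport of the index `[ker D₃ : im N₃]` along a surjective map. -/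
theorem relIndex_eq_of_surjective {C' : Type*} [AddCommGroup C'] (g : B →+ C')
    (hg : Function.Surjective g) (D₃ N₃ : C' →+ C') (D N : B →+ B)
    (hD : ∀ x, g (D x) = D₃ (g x)) (hN : ∀ x, g (N x) = N₃ (g x)) :
    N₃.range.relIndex D₃.ker = (N.range ⊔ g.ker).relIndex (g.ker.comap D) := by
  have h1 : N₃.range.comap g = N.range ⊔ g.ker := by
    have : N₃.range = N.range.map g := by
      ext y
      constructor
      · rintro ⟨x, rfl⟩
        obtain ⟨b, rfl⟩ := hg x
        exact ⟨N b, ⟨b, rfl⟩, hN b⟩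
      · rintro ⟨_, ⟨b, rfl⟩, rfl⟩
        exact ⟨g b, (hN b).symm⟩
    rw [this, AddSubgroup.comap_map_eq]
  have h2 : D₃.ker.comap g = g.ker.comap D := by
    ext x
    simp only [AddSubgroup.mem_comap, AddMonoidHom.mem_ker, hD]
  rw [← h1, ← h2, AddSubgroup.relIndex_comap, AddSubgroup.map_comap_eq_self_of_surjective hg]

/-- The Herbrand hexagon in index form: for a short exact sequence `0 → A' → B → C' → 0` of
abelian groups with compatible endomorphisms `D`, `N` such that `D N = N D = 0`, the six indices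
`[ker D : im N]`, `[ker N : im D]` factor through six numbers (the orders of the images of the
maps of the exact hexagon). -/
theorem herbrand_hexagon_index {A' C' : Type*} [AddCommGroup A'] [AddCommGroup C']
    (f : A' →+ B) (g : B →+ C') (hf : Function.Injective f) (hg : Function.Surjective g)
    (hfg : f.range = g.ker)
    (D₁ N₁ : A' →+ A') (D N : B →+ B) (D₃ N₃ : C' →+ C')
    (hDN : ∀ x, D (N x) = 0) (hND : ∀ x, N (D x) = 0)
    (hfD : ∀ x, f (D₁ x) = D (f x)) (hfN : ∀ x, f (N₁ x) = N (f x))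
    (hgD : ∀ x, g (D x) = D₃ (g x)) (hgN : ∀ x, g (N x) = N₃ (g x)) :
    ∃ a0 b0 c0 a1 b1 c1 : ℕ,
      N.range.relIndex D.ker = a0 * b0 ∧ N₁.range.relIndex D₁.ker = b0 * c0 ∧
      N₃.range.relIndex D₃.ker = c1 * a0 ∧
      D.range.relIndex N.ker = a1 * b1 ∧ D₁.range.relIndex N₁.ker = b1 * c1 ∧
      D₃.range.relIndex N₃.ker = c0 * a1 := by
  have hAD : f.range.map D ≤ f.range := by
    rintro _ ⟨_, ⟨x, rfl⟩, rfl⟩
    exact ⟨D₁ x, hfD x⟩
  have hAN : f.range.map N ≤ f.range := by
    rintro _ ⟨_, ⟨x, rfl⟩, rfl⟩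
    exact ⟨N₁ x, hfN x⟩
  refine ⟨hexA D N f.range, hexB D N f.range, hexC N f.range,
    hexA N D f.range, hexB N D f.range, hexC D f.range, ?_, ?_, ?_, ?_, ?_, ?_⟩
  · exact relIndex_range_ker_eq D N hDN _
  · rw [relIndex_eq_of_injective f hf D₁ N₁ D N hfD hfN]
    exact relIndex_sub_eq D N hDN _ hAN
  · rw [relIndex_eq_of_surjective g hg D₃ N₃ D N hgD hgN, ← hfg]
    exact relIndex_quot_eq D N hDN _ hAD
  · exact relIndex_range_ker_eq N D hND _
  · rw [relIndex_eq_of_injective f hf N₁ D₁ N D hfN hfD]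
    exact relIndex_sub_eq N D hND _ hAD
  · rw [relIndex_eq_of_surjective g hg N₃ D₃ N D hgN hgD, ← hfg]
    exact relIndex_quot_eq N D hND _ hAN

/-- For a finite abelian group with endomorphisms `D`, `N` such that `D N = N D = 0`,
`[ker D : im N] = [ker N : im D]`. -/
theorem relIndex_range_ker_comm [Finite B] (D N : B →+ B) (hDN : ∀ x, D (N x) = 0)
    (hND : ∀ x, N (D x) = 0) :
    N.range.relIndex D.ker = D.range.relIndex N.ker := by
  have hle : N.range ≤ D.ker := by
    rintro _ ⟨x, rfl⟩
    exact hDN x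
  have hle' : D.range ≤ N.ker := by
    rintro _ ⟨x, rfl⟩
    exact hND x
  have h1 : Nat.card N.range * N.range.relIndex D.ker = Nat.card D.ker := by
    have := AddSubgroup.relIndex_mul_relIndex ⊥ N.range D.ker bot_le hle
    rwa [AddSubgroup.relIndex_bot_left, AddSubgroup.relIndex_bot_left] at this
  have h2 : Nat.card D.range * D.range.relIndex N.ker = Nat.card N.ker := by
    have := AddSubgroup.relIndex_mul_relIndex ⊥ D.range N.ker bot_le hle'
    rwa [AddSubgroup.relIndex_bot_left, AddSubgroup.relIndex_bot_left] at this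
  have h3 : Nat.card D.ker * Nat.card D.range = Nat.card B := by
    rw [← AddSubgroup.index_ker]
    exact AddSubgroup.card_mul_index _
  have h4 : Nat.card N.ker * Nat.card N.range = Nat.card B := by
    rw [← AddSubgroup.index_ker]
    exact AddSubgroup.card_mul_index _
  have hpos : 0 < Nat.card N.range * Nat.card D.range :=
    Nat.mul_pos Nat.card_pos Nat.card_pos
  apply Nat.eq_of_mul_eq_mul_left hpos
  calc Nat.card N.range * Nat.card D.range * N.range.relIndex D.ker
      = (Nat.card N.range * N.range.relIndex D.ker) * Nat.card D.range := by ring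
    _ = Nat.card B := by rw [h1, h3]
    _ = (Nat.card D.range * D.range.relIndex N.ker) * Nat.card N.range := by rw [h2, h4]
    _ = Nat.card N.range * Nat.card D.range * D.range.relIndex N.ker := by ring

theorem card_eq_index_ker_of_surjective {M N : Type*} [AddCommGroup M] [AddCommGroup N]
    (f : M →+ N) (hf : Function.Surjective f) : Nat.card N = f.ker.index := by
  rw [AddSubgroup.index_ker, AddMonoidHom.range_eq_top.2 hf]
  exact (Nat.card_congr AddSubgroup.topEquiv.toEquiv).symm

end Abstract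

/-! ## Finite cyclic groups -/

section Cyclic

variable {k G : Type u} [CommRing k] [CommGroup G] [Fintype G]

/-- FG4.a: periodicity `H^{n+2}(G, A) ≅ Hⁿ(G, A)` for `n ≥ 1`, `G` finite cyclic. -/
theorem nonempty_iso_add_two (A : Rep k G) (g : G) (hg : ∀ x, x ∈ Subgroup.zpowers g)
    (n : ℕ) (hn : 0 < n) :
    Nonempty (groupCohomology A (n + 2) ≅ groupCohomology A n) := by
  rcases Nat.even_or_odd n with he | ho
  · have : NeZero n := ⟨hn.ne'⟩
    have : NeZero (n + 2) := ⟨by omega⟩
    exact ⟨Rep.FiniteCyclicGroup.groupCohomologyIsoEven A g hg (n + 2) (by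
        rcases he with ⟨m, rfl⟩; exact ⟨m + 1, by ring⟩) ≪≫
      (Rep.FiniteCyclicGroup.groupCohomologyIsoEven A g hg n he).symm⟩
  · exact ⟨Rep.FiniteCyclicGroup.groupCohomologyIsoOdd A g hg (n + 2) (by
        rcases ho with ⟨m, rfl⟩; exact ⟨m + 1, by ring⟩) ≪≫
      (Rep.FiniteCyclicGroup.groupCohomologyIsoOdd A g hg n ho).symm⟩

omit [Fintype G] in
theorem surjective_of_iso_inv {X Y : ModuleCat.{u} k} (e : X ≅ Y) :
    Function.Surjective e.inv := by
  intro x
  exact ⟨e.hom x, by simp⟩

open Rep.FiniteCyclicGroup in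
theorem piEven_surjective (A : Rep k G) (g : G) (hg : ∀ x, x ∈ Subgroup.zpowers g)
    (i : ℕ) [NeZero i] (hi : Even i) :
    Function.Surjective (groupCohomologyπEven A g hg i hi) := by
  have h1 : Function.Surjective (normHomCompSub A g).homologyπ :=
    (ModuleCat.epi_iff_surjective _).1 inferInstance
  have h2 := surjective_of_iso_inv (groupCohomologyIsoEven A g hg i hi)
  have h0 := surjective_of_iso_inv (ShortComplex.moduleCatCyclesIso <| normHomCompSub A g)
  intro x
  obtain ⟨y, rfl⟩ := h2 x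
  obtain ⟨z, rfl⟩ := h1 y
  obtain ⟨w, rfl⟩ := h0 z
  exact ⟨w, rfl⟩

open Rep.FiniteCyclicGroup in
theorem piOdd_surjective (A : Rep k G) (g : G) (hg : ∀ x, x ∈ Subgroup.zpowers g)
    (i : ℕ) (hi : Odd i) :
    Function.Surjective (groupCohomologyπOdd A g hg i hi) := by
  have h1 : Function.Surjective (subCompNormHom A g).homologyπ :=
    (ModuleCat.epi_iff_surjective _).1 inferInstance
  have h2 := surjective_of_iso_inv (groupCohomologyIsoOdd A g hg i hi)
  have h0 := surjective_of_iso_inv (ShortComplex.moduleCatCyclesIso <| subCompNormHom A g)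
  intro x
  obtain ⟨y, rfl⟩ := h2 x
  obtain ⟨z, rfl⟩ := h1 y
  obtain ⟨w, rfl⟩ := h0 z
  exact ⟨w, rfl⟩

open Rep.FiniteCyclicGroup in
/-- FG4.b: `H²(G, A) = 0` iff every invariant is a norm. -/
theorem isZero_H2_iff (A : Rep k G) (g : G) (hg : ∀ x, x ∈ Subgroup.zpowers g) :
    IsZero (groupCohomology A 2) ↔
      ∀ a : A, A.ρ g a = a → ∃ b : A, A.norm.hom b = a := by
  have hs := piEven_surjective A g hg 2 (by decide)
  have hz := groupCohomologyπEven_eq_zero_iff A g hg 2 (by decide)
  rw [ModuleCat.isZero_iff_subsingleton]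
  constructor
  · intro h a ha
    have hmem : a ∈ LinearMap.ker (applyAsHom A g - 𝟙 A).hom.toLinearMap := by
      show A.ρ g a - a = 0
      rw [ha, sub_self]
    have := (hz ⟨a, hmem⟩).1 (Subsingleton.elim _ _)
    obtain ⟨b, hb⟩ := this
    exact ⟨b, hb⟩
  · intro h
    have key : ∀ x' : LinearMap.ker (applyAsHom A g - 𝟙 A).hom.toLinearMap,
        groupCohomologyπEven A g hg 2 (by decide) x' = 0 := by
      intro x'
      rw [hz]
      have h1 : A.ρ g x'.1 = x'.1 := by
        have h2 : A.ρ g x'.1 - x'.1 = 0 := x'.2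
        exact sub_eq_zero.1 h2
      obtain ⟨b, hb⟩ := h x'.1 h1
      exact ⟨b, hb⟩
    refine ⟨fun x y => ?_⟩
    obtain ⟨x', rfl⟩ := hs x
    obtain ⟨y', rfl⟩ := hs y
    rw [key x', key y']

open Rep.FiniteCyclicGroup in
/-- FG4.c: `H¹(G, A) = 0` iff every element of norm `0` is of the form `g b - b`. -/
theorem isZero_H1_iff (A : Rep k G) (g : G) (hg : ∀ x, x ∈ Subgroup.zpowers g) :
    IsZero (groupCohomology A 1) ↔
      ∀ a : A, A.norm.hom a = 0 → ∃ b : A, A.ρ g b - b = a := by
  have hs := piOdd_surjective A g hg 1 (by decide)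
  have hz := groupCohomologyπOdd_eq_zero_iff A g hg 1 (by decide)
  rw [ModuleCat.isZero_iff_subsingleton]
  constructor
  · intro h a ha
    have hmem : a ∈ LinearMap.ker A.norm.hom.toLinearMap := ha
    have := (hz ⟨a, hmem⟩).1 (Subsingleton.elim _ _)
    obtain ⟨b, hb⟩ := this
    exact ⟨b, hb⟩
  · intro h
    have key : ∀ x' : LinearMap.ker A.norm.hom.toLinearMap,
        groupCohomologyπOdd A g hg 1 (by decide) x' = 0 := by
      intro x'
      rw [hz]
      obtain ⟨b, hb⟩ := h x'.1 x'.2
      exact ⟨b, hb⟩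
    refine ⟨fun x y => ?_⟩
    obtain ⟨x', rfl⟩ := hs x
    obtain ⟨y', rfl⟩ := hs y
    rw [key x', key y']

open Rep.FiniteCyclicGroup in
/-- FG4.d: cardinalities in terms of indices (junk value `0` if infinite). -/
theorem card_H2_eq (A : Rep k G) (g : G) (hg : ∀ x, x ∈ Subgroup.zpowers g) :
    Nat.card (groupCohomology A 2) =
      ((LinearMap.range A.norm.hom.toLinearMap).toAddSubgroup.addSubgroupOf
        (LinearMap.ker (A.ρ g - LinearMap.id)).toAddSubgroup).index := by
  have hs := piEven_surjective A g hg 2 (by decide)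
  have hz := groupCohomologyπEven_eq_zero_iff A g hg 2 (by decide)
  let f : (LinearMap.ker (A.ρ g - LinearMap.id)).toAddSubgroup →+ groupCohomology A 2 :=
    (groupCohomologyπEven A g hg 2 (by decide)).hom.toAddMonoidHom
  have hf : Function.Surjective f := hs
  rw [card_eq_index_ker_of_surjective f hf]
  congr 1
  ext x
  rw [AddMonoidHom.mem_ker, AddSubgroup.mem_addSubgroupOf]
  exact hz x

open Rep.FiniteCyclicGroup in
theorem card_H1_eq (A : Rep k G) (g : G) (hg : ∀ x, x ∈ Subgroup.zpowers g) :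
    Nat.card (groupCohomology A 1) =
      ((LinearMap.range (A.ρ g - LinearMap.id)).toAddSubgroup.addSubgroupOf
        (LinearMap.ker A.norm.hom.toLinearMap).toAddSubgroup).index := by
  have hs := piOdd_surjective A g hg 1 (by decide)
  have hz := groupCohomologyπOdd_eq_zero_iff A g hg 1 (by decide)
  let f : (LinearMap.ker A.norm.hom.toLinearMap).toAddSubgroup →+ groupCohomology A 1 :=
    (groupCohomologyπOdd A g hg 1 (by decide)).hom.toAddMonoidHom
  have hf : Function.Surjective f := hs
  rw [card_eq_index_ker_of_surjective f hf]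
  congr 1
  ext x
  rw [AddMonoidHom.mem_ker, AddSubgroup.mem_addSubgroupOf]
  exact hz x

/-- `ρ(g) - 1` as an additive endomorphism. -/
noncomputable def dHom (A : Rep k G) (g : G) : A →+ A :=
  (A.ρ g - LinearMap.id).toAddMonoidHom

/-- The norm as an additive endomorphism. -/
noncomputable def nHom (A : Rep k G) : A →+ A :=
  A.norm.hom.toLinearMap.toAddMonoidHom

omit [Fintype G] in
theorem dHom_apply (A : Rep k G) (g : G) (x : A) : dHom A g x = A.ρ g x - x := rfl

theorem nHom_apply (A : Rep k G) (x : A) : nHom A x = A.norm.hom x := rfl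

theorem dHom_nHom (A : Rep k G) (g : G) (x : A) : dHom A g (nHom A x) = 0 := by
  simp [dHom_apply, nHom_apply, Rep.norm]

theorem nHom_dHom (A : Rep k G) (g : G) (x : A) : nHom A (dHom A g x) = 0 := by
  simp [dHom_apply, nHom_apply, Rep.norm]

omit [Fintype G] in
theorem hom_dHom {A B : Rep k G} (f : A ⟶ B) (g : G) (x : A) :
    f.hom (dHom A g x) = dHom B g (f.hom x) := by
  simp [dHom_apply, hom_comm_apply]

theorem hom_nHom {A B : Rep k G} (f : A ⟶ B) (x : A) :
    f.hom (nHom A x) = nHom B (f.hom x) := by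
  have := congrArg (fun φ : A ⟶ B => φ.hom x) (Rep.norm_comm f)
  simp only [nHom_apply]
  simpa using this.symm

theorem card_H2_eq_relIndex (A : Rep k G) (g : G) (hg : ∀ x, x ∈ Subgroup.zpowers g) :
    Nat.card (groupCohomology A 2) = (nHom A).range.relIndex (dHom A g).ker :=
  card_H2_eq A g hg

theorem card_H1_eq_relIndex (A : Rep k G) (g : G) (hg : ∀ x, x ∈ Subgroup.zpowers g) :
    Nat.card (groupCohomology A 1) = (dHom A g).range.relIndex (nHom A).ker :=
  card_H1_eq A g hg

/-- The six cardinalities of `H¹`, `H²` of a short exact sequence of representations of a finite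
cyclic group factor through six numbers. -/
theorem herbrand_core (g : G) (hg : ∀ x, x ∈ Subgroup.zpowers g)
    (X : ShortComplex (Rep k G)) (hX : X.ShortExact) :
    ∃ a0 b0 c0 a1 b1 c1 : ℕ,
      Nat.card (groupCohomology X.X₂ 2) = a0 * b0 ∧
      Nat.card (groupCohomology X.X₁ 2) = b0 * c0 ∧
      Nat.card (groupCohomology X.X₃ 2) = c1 * a0 ∧
      Nat.card (groupCohomology X.X₂ 1) = a1 * b1 ∧
      Nat.card (groupCohomology X.X₁ 1) = b1 * c1 ∧
      Nat.card (groupCohomology X.X₃ 1) = c0 * a1 := by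
  have hex : LinearMap.range X.f.hom.toLinearMap = LinearMap.ker X.g.hom.toLinearMap :=
    (hX.exact.map (forget₂ (Rep k G) (ModuleCat k))).moduleCat_range_eq_ker
  have hinj : Function.Injective X.f.hom := (Rep.mono_iff_injective X.f).1 hX.mono_f
  have hsurj : Function.Surjective X.g.hom := (Rep.epi_iff_surjective X.g).1 hX.epi_g
  have hfg : (X.f.hom.toLinearMap.toAddMonoidHom).range =
      (X.g.hom.toLinearMap.toAddMonoidHom).ker := by
    rw [← LinearMap.range_toAddSubgroup, ← LinearMap.ker_toAddSubgroup, hex]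
  rw [card_H2_eq_relIndex _ g hg, card_H2_eq_relIndex _ g hg, card_H2_eq_relIndex _ g hg,
    card_H1_eq_relIndex _ g hg, card_H1_eq_relIndex _ g hg, card_H1_eq_relIndex _ g hg]
  exact herbrand_hexagon_index (X.f.hom.toLinearMap.toAddMonoidHom)
    (X.g.hom.toLinearMap.toAddMonoidHom) hinj hsurj hfg
    (dHom X.X₁ g) (nHom X.X₁) (dHom X.X₂ g) (nHom X.X₂) (dHom X.X₃ g) (nHom X.X₃)
    (dHom_nHom X.X₂ g) (nHom_dHom X.X₂ g)
    (fun x => hom_dHom X.f g x) (fun x => hom_nHom X.f x)
    (fun x => hom_dHom X.g g x) (fun x => hom_nHom X.g x)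

omit [Fintype G] in
theorem card_groupCohomology_ne_zero (A : Rep k G) (n : ℕ) [Finite (groupCohomology A n)] :
    Nat.card (groupCohomology A n) ≠ 0 :=
  Nat.card_pos.ne'

/-- FG4.e (Herbrand quotient, multiplicativity): for a short exact sequence of
representations of a finite cyclic group, if `H¹, H²` of two of the three terms are finite, then
so are those of the third, and `h(X₂) = h(X₁) h(X₃)` where `h = |H²| / |H¹|`. -/
theorem herbrand_mul (g : G) (hg : ∀ x, x ∈ Subgroup.zpowers g)
    (X : ShortComplex (Rep k G)) (hX : X.ShortExact)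
    [Finite (groupCohomology X.X₁ 1)] [Finite (groupCohomology X.X₁ 2)]
    [Finite (groupCohomology X.X₃ 1)] [Finite (groupCohomology X.X₃ 2)] :
    Finite (groupCohomology X.X₂ 1) ∧ Finite (groupCohomology X.X₂ 2) ∧
    Nat.card (groupCohomology X.X₂ 2) * Nat.card (groupCohomology X.X₁ 1) *
        Nat.card (groupCohomology X.X₃ 1) =
      Nat.card (groupCohomology X.X₂ 1) * Nat.card (groupCohomology X.X₁ 2) *
        Nat.card (groupCohomology X.X₃ 2) := by
  obtain ⟨a0, b0, c0, a1, b1, c1, h22, h21, h23, h12, h11, h13⟩ := herbrand_core g hg X hX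
  have n11 := card_groupCohomology_ne_zero X.X₁ 1
  have n21 := card_groupCohomology_ne_zero X.X₁ 2
  have n13 := card_groupCohomology_ne_zero X.X₃ 1
  have n23 := card_groupCohomology_ne_zero X.X₃ 2
  rw [h11] at n11
  rw [h21] at n21
  rw [h13] at n13
  rw [h23] at n23
  refine ⟨Nat.finite_of_card_ne_zero ?_, Nat.finite_of_card_ne_zero ?_, ?_⟩
  · rw [h12]
    exact mul_ne_zero (right_ne_zero_of_mul n13) (left_ne_zero_of_mul n11)
  · rw [h22]
    exact mul_ne_zero (right_ne_zero_of_mul n23) (left_ne_zero_of_mul n21)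
  · rw [h22, h21, h23, h12, h11, h13]
    ring

/-- FG4.e' : same with the middle and right terms finite. -/
theorem herbrand_mul_left (g : G) (hg : ∀ x, x ∈ Subgroup.zpowers g)
    (X : ShortComplex (Rep k G)) (hX : X.ShortExact)
    [Finite (groupCohomology X.X₂ 1)] [Finite (groupCohomology X.X₂ 2)]
    [Finite (groupCohomology X.X₃ 1)] [Finite (groupCohomology X.X₃ 2)] :
    Finite (groupCohomology X.X₁ 1) ∧ Finite (groupCohomology X.X₁ 2) ∧
    Nat.card (groupCohomology X.X₂ 2) * Nat.card (groupCohomology X.X₁ 1) *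
        Nat.card (groupCohomology X.X₃ 1) =
      Nat.card (groupCohomology X.X₂ 1) * Nat.card (groupCohomology X.X₁ 2) *
        Nat.card (groupCohomology X.X₃ 2) := by
  obtain ⟨a0, b0, c0, a1, b1, c1, h22, h21, h23, h12, h11, h13⟩ := herbrand_core g hg X hX
  have n12 := card_groupCohomology_ne_zero X.X₂ 1
  have n22 := card_groupCohomology_ne_zero X.X₂ 2
  have n13 := card_groupCohomology_ne_zero X.X₃ 1
  have n23 := card_groupCohomology_ne_zero X.X₃ 2
  rw [h12] at n12
  rw [h22] at n22
  rw [h13] at n13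
  rw [h23] at n23
  refine ⟨Nat.finite_of_card_ne_zero ?_, Nat.finite_of_card_ne_zero ?_, ?_⟩
  · rw [h11]
    exact mul_ne_zero (right_ne_zero_of_mul n12) (left_ne_zero_of_mul n23)
  · rw [h21]
    exact mul_ne_zero (right_ne_zero_of_mul n22) (left_ne_zero_of_mul n13)
  · rw [h22, h21, h23, h12, h11, h13]
    ring

/-- FG4.e'' : same with the left and middle terms finite. -/
theorem herbrand_mul_right (g : G) (hg : ∀ x, x ∈ Subgroup.zpowers g)
    (X : ShortComplex (Rep k G)) (hX : X.ShortExact)
    [Finite (groupCohomology X.X₁ 1)] [Finite (groupCohomology X.X₁ 2)]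
    [Finite (groupCohomology X.X₂ 1)] [Finite (groupCohomology X.X₂ 2)] :
    Finite (groupCohomology X.X₃ 1) ∧ Finite (groupCohomology X.X₃ 2) ∧
    Nat.card (groupCohomology X.X₂ 2) * Nat.card (groupCohomology X.X₁ 1) *
        Nat.card (groupCohomology X.X₃ 1) =
      Nat.card (groupCohomology X.X₂ 1) * Nat.card (groupCohomology X.X₁ 2) *
        Nat.card (groupCohomology X.X₃ 2) := by
  obtain ⟨a0, b0, c0, a1, b1, c1, h22, h21, h23, h12, h11, h13⟩ := herbrand_core g hg X hX
  have n11 := card_groupCohomology_ne_zero X.X₁ 1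
  have n21 := card_groupCohomology_ne_zero X.X₁ 2
  have n12 := card_groupCohomology_ne_zero X.X₂ 1
  have n22 := card_groupCohomology_ne_zero X.X₂ 2
  rw [h11] at n11
  rw [h21] at n21
  rw [h12] at n12
  rw [h22] at n22
  refine ⟨Nat.finite_of_card_ne_zero ?_, Nat.finite_of_card_ne_zero ?_, ?_⟩
  · rw [h13]
    exact mul_ne_zero (right_ne_zero_of_mul n21) (left_ne_zero_of_mul n12)
  · rw [h23]
    exact mul_ne_zero (right_ne_zero_of_mul n11) (left_ne_zero_of_mul n22)
  · rw [h22, h21, h23, h12, h11, h13]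
    ring

/-- FG4.f (Herbrand quotient of a finite module is 1). -/
theorem herbrand_finite (g : G) (hg : ∀ x, x ∈ Subgroup.zpowers g) (A : Rep k G) [Finite A] :
    Nat.card (groupCohomology A 2) = Nat.card (groupCohomology A 1) := by
  rw [card_H2_eq_relIndex A g hg, card_H1_eq_relIndex A g hg]
  exact relIndex_range_ker_comm (dHom A g) (nHom A) (dHom_nHom A g) (nHom_dHom A g)

end Cyclic

end Fermat.Agent.S55.helper42
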