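import Mathlib
import Fermat.Agent.S55.helper42_FG4

/-!
# Index of `n M` in a finitely generated abelian group (helper79)

For a finitely generated abelian group `M` and `n ≠ 0`:
`[M : n M] = n ^ rank M * #M[n]`.
-/

namespace Fermat.Agent.S55.helper79

open Module

section IndexNSmul

variable (M : Type*) [AddCommGroup M]

/-- In a finite abelian group, `[M : n M] = #M[n]`. -/
theorem index_range_nsmul_of_finite [Finite M] (n : ℕ) :
    (nsmulAddMonoidHom (α := M) n).range.index =
      Nat.card (nsmulAddMonoidHom (α := M) n).ker := by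
  have h1 := AddSubgroup.card_mul_index (nsmulAddMonoidHom (α := M) n).range
  have h2 := AddSubgroup.card_mul_index (nsmulAddMonoidHom (α := M) n).ker
  rw [AddSubgroup.index_ker] at h2
  have hpos : 0 < Nat.card (nsmulAddMonoidHom (α := M) n).range := Nat.card_pos
  apply Nat.eq_of_mul_eq_mul_left hpos
  rw [h1, ← h2, mul_comm]

/-- In a torsion-free abelian group, multiplication by `n ≠ 0` has trivial kernel. -/
theorem card_ker_nsmul_of_isTorsionFree [IsTorsionFree ℤ M] {n : ℕ} (hn : n ≠ 0) :
    Nat.card (nsmulAddMonoidHom (α := M) n).ker = 1 := by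
  have h := (AddMonoidHom.ker_eq_bot_iff _).mpr
    (AddSubgroup.nsmulAddMonoidHom_injective_of_isTorsionFree (M := M) hn)
  rw [h]
  simp

/-- **Index of `n M`** in a finitely generated abelian group:
`[M : n M] = n ^ rank M * #M[n]`. -/
theorem index_range_nsmul_fg [Module.Finite ℤ M] {n : ℕ} (hn : n ≠ 0) :
    (nsmulAddMonoidHom (α := M) n).range.index =
      n ^ finrank ℤ M * Nat.card (nsmulAddMonoidHom (α := M) n).ker := by
  set T : Submodule ℤ M := Submodule.torsion ℤ M with hT
  have hTfin : Module.Finite ℤ T := Module.Finite.iff_fg.mpr (IsNoetherian.noetherian T)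
  have hTfinite : Finite T := Module.finite_of_fg_torsion T Submodule.torsion_isTorsion
  have hQrank : finrank ℤ (M ⧸ T) = finrank ℤ M := by
    have h := T.finrank_quotient_add_finrank
    have h0 : finrank ℤ T = 0 := by
      rw [Module.finrank_eq_zero_iff_isTorsion]
      exact Submodule.torsion_isTorsion
    rw [h0, add_zero] at h
    exact h
  have hQidx := AddSubgroup.index_range_nsmul (M ⧸ T) n
  have hQker := card_ker_nsmul_of_isTorsionFree (M ⧸ T) hn
  have hTidx := index_range_nsmul_of_finite T n
  obtain ⟨a0, b0, c0, a1, b1, c1, h1, h2, h3, h4, h5, h6⟩ :=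
    helper42.herbrand_hexagon_index (B := M) T.subtype.toAddMonoidHom T.mkQ.toAddMonoidHom
      T.subtype_injective T.mkQ_surjective
      (by
        ext x
        simp [T])
      (nsmulAddMonoidHom (α := T) n) 0 (nsmulAddMonoidHom (α := M) n) 0
      (nsmulAddMonoidHom (α := M ⧸ T) n) 0
      (fun x => by simp) (fun x => by simp) (fun x => by simp) (fun x => by simp)
      (fun x => by simp) (fun x => by simp)
  have hr0 : ∀ (X : Type _) [AddCommGroup X], (0 : X →+ X).range = ⊥ := fun X _ => by
    ext x
    simp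
  have hk0 : ∀ (X : Type _) [AddCommGroup X], (0 : X →+ X).ker = ⊤ := fun X _ => by
    ext x
    simp
  rw [hr0, AddSubgroup.relIndex_bot_left] at h1 h2 h3
  rw [hk0, AddSubgroup.relIndex_top_right] at h4 h5 h6
  rw [hQker] at h3
  rw [hQidx, hQrank] at h6
  rw [hTidx, h2] at h5
  have ha0 : a0 = 1 := by
    have := Nat.eq_one_of_mul_eq_one_left h3.symm
    exact this
  have hc1 : c1 = 1 := Nat.eq_one_of_mul_eq_one_right h3.symm
  rw [h4, h6, h1, ha0, one_mul]
  rw [hc1, mul_one] at h5
  rw [← h5]
  ring

end IndexNSmul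


section IndexPow

variable (G : Type*) [CommGroup G]

theorem toAddSubgroup_range_powMonoidHom (n : ℕ) :
    Subgroup.toAddSubgroup (powMonoidHom n : G →* G).range =
      (nsmulAddMonoidHom (α := Additive G) n).range := by
  ext x
  constructor
  · rintro ⟨y, hy⟩
    refine ⟨Additive.ofMul y, ?_⟩
    rw [nsmulAddMonoidHom_apply, ← ofMul_pow]
    exact congrArg Additive.ofMul hy
  · rintro ⟨y, hy⟩
    refine ⟨Additive.toMul y, ?_⟩
    rw [nsmulAddMonoidHom_apply] at hy
    rw [powMonoidHom_apply, ← toMul_nsmul]
    exact congrArg Additive.toMul hy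

theorem card_ker_powMonoidHom (n : ℕ) :
    Nat.card (nsmulAddMonoidHom (α := Additive G) n).ker =
      Nat.card (powMonoidHom n : G →* G).ker := by
  refine Nat.card_congr ⟨fun x => ⟨Additive.toMul x.1, ?_⟩, fun x => ⟨Additive.ofMul x.1, ?_⟩,
    fun x => rfl, fun x => rfl⟩
  · have := x.2
    rw [AddMonoidHom.mem_ker, nsmulAddMonoidHom_apply] at this
    rw [MonoidHom.mem_ker, powMonoidHom_apply, ← toMul_nsmul]
    exact congrArg Additive.toMul this
  · have := x.2
    rw [MonoidHom.mem_ker, powMonoidHom_apply] at this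
    rw [AddMonoidHom.mem_ker, nsmulAddMonoidHom_apply, ← ofMul_pow]
    exact congrArg Additive.ofMul this

/-- **Index of the `n`-th powers** in a finitely generated commutative group:
`[G : Gⁿ] = n ^ rank G * #G[n]`. -/
theorem index_range_pow_fg [Module.Finite ℤ (Additive G)] {n : ℕ} (hn : n ≠ 0) :
    (powMonoidHom n : G →* G).range.index =
      n ^ finrank ℤ (Additive G) * Nat.card (powMonoidHom n : G →* G).ker := by
  rw [← Subgroup.index_toAddSubgroup, toAddSubgroup_range_powMonoidHom,
    index_range_nsmul_fg (Additive G) hn, card_ker_powMonoidHom]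

end IndexPow

end Fermat.Agent.S55.helper79
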