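import Mathlib
import Fermat.Agent.S55.helper79_SUnit
import Fermat.Agent.S55.helper79_IndexNSmul

/-!
# Index of the `n`-th powers in the `S`-units (helper79)

`[U_S : U_S ^ n] = n ^ (rank + |S|) * #μ_n(K)` for a number field `K` and a finite set `S` of
finite places.
-/

namespace Fermat.Agent.S55.helper79

open IsDedekindDomain Module

section Generic

variable {R : Type*} [CommRing R] [IsDedekindDomain R] (K : Type*) [Field K] [Algebra R K]
  [IsFractionRing R K] (S : Set (HeightOneSpectrum R))

/-- Roots of unity are `S`-units. -/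
theorem rootsOfUnity_le_sunit {n : ℕ} (hn : n ≠ 0) : rootsOfUnity n K ≤ S.unit K := by
  intro ζ hζ v _
  have h1 : (ζ : K) ^ n = 1 := by
    have := (mem_rootsOfUnity n ζ).mp hζ
    rw [← Units.val_pow_eq_pow_val, this, Units.val_one]
  have h : (v.valuation K (ζ : K)) ^ n = 1 := by
    rw [← map_pow, h1, map_one]
  exact (pow_eq_one_iff_left hn).mp h

/-- The `n`-torsion of the `S`-units is the group of `n`-th roots of unity of `K`. -/
theorem card_ker_pow_sunit {n : ℕ} (hn : n ≠ 0) :
    Nat.card (powMonoidHom n : S.unit K →* S.unit K).ker = Nat.card (rootsOfUnity n K) := by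
  refine Nat.card_congr ⟨fun x => ⟨(x.1 : Kˣ), ?_⟩,
    fun ζ => ⟨⟨ζ.1, rootsOfUnity_le_sunit K S hn ζ.2⟩, ?_⟩, fun x => rfl, fun ζ => rfl⟩
  · have := x.2
    rw [MonoidHom.mem_ker, powMonoidHom_apply] at this
    rw [mem_rootsOfUnity]
    have h2 := congrArg (Subtype.val) this
    simpa using h2
  · rw [MonoidHom.mem_ker, powMonoidHom_apply]
    apply Subtype.ext
    have := (mem_rootsOfUnity n ζ.1).mp ζ.2
    simpa using this

/-- Index of the `n`-th powers in the `S`-units (generic form). -/
theorem index_range_pow_sunit [Module.Finite ℤ (Additive Rˣ)] [Finite (ClassGroup R)] [Finite S]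
    {n : ℕ} (hn : n ≠ 0) :
    (powMonoidHom n : S.unit K →* S.unit K).range.index =
      n ^ (finrank ℤ (Additive Rˣ) + Nat.card S) * Nat.card (rootsOfUnity n K) := by
  have := module_finite_sunit K S
  rw [index_range_pow_fg (S.unit K) hn, finrank_sunit K S, card_ker_pow_sunit K S hn]

end Generic

section NumberField

open NumberField

variable (K : Type*) [Field K] [NumberField K] (S : Set (HeightOneSpectrum (𝓞 K))) [Finite S]

/-- **Index of the `n`-th powers in the `S`-units of a number field**:
`[U_S : U_S ^ n] = n ^ (r₁ + r₂ - 1 + |S|) * #μ_n(K)`. -/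
theorem numberField_index_range_pow_sunit {n : ℕ} (hn : n ≠ 0) :
    (powMonoidHom n : S.unit K →* S.unit K).range.index =
      n ^ (NumberField.Units.rank K + Nat.card S) * Nat.card (rootsOfUnity n K) := by
  rw [index_range_pow_sunit K S hn, NumberField.Units.finrank_eq]

/-- If `K` contains a primitive `p`-th root of unity, `p` an odd prime, then
`[U_S : U_S ^ p] = p ^ (r₂ + |S|)`, `r₂` the number of complex places. -/
theorem numberField_index_range_pow_sunit_of_isPrimitiveRoot {p : ℕ} (hp : p.Prime)
    (hp2 : p ≠ 2) {ζ : K} (hζ : IsPrimitiveRoot ζ p) :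
    (powMonoidHom p : S.unit K →* S.unit K).range.index =
      p ^ (NumberField.InfinitePlace.nrComplexPlaces K + Nat.card S) := by
  have hp0 : p ≠ 0 := hp.ne_zero
  have hp3 : 2 < p := lt_of_le_of_ne hp.two_le (Ne.symm hp2)
  have : NeZero p := ⟨hp0⟩
  rw [numberField_index_range_pow_sunit K S hp0, hζ.card_rootsOfUnity, ← pow_succ]
  congr 1
  have h1 := NumberField.InfinitePlace.IsPrimitiveRoot.nrRealPlaces_eq_zero_of_two_lt hp3 hζ
  have h2 := NumberField.InfinitePlace.card_eq_nrRealPlaces_add_nrComplexPlaces K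
  have h3 : 0 < Fintype.card (NumberField.InfinitePlace K) := Fintype.card_pos
  unfold NumberField.Units.rank
  omega

end NumberField

end Fermat.Agent.S55.helper79
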