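import Mathlib
import Fermat.Agent.S55.helper79_SUnitIndex

/-!
# `relIndex_pow_unit` (helper79): index of the `p`-th powers in the `S`-units, ambient form

Statement verbatim from the G7 plan (section Gen).
-/

namespace Fermat.Agent.S55.helper79

open IsDedekindDomain NumberField

section Saturation

variable {R : Type*} [CommRing R] [IsDedekindDomain R] (K : Type*) [Field K] [Algebra R K]
  [IsFractionRing R K] (S : Set (HeightOneSpectrum R))

/-- Saturation: an element of `Kˣ` whose `n`-th power is an `S`-unit is an `S`-unit. -/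
theorem mem_sunit_of_pow_mem {n : ℕ} (hn : n ≠ 0) {y : Kˣ} (hy : y ^ n ∈ S.unit K) :
    y ∈ S.unit K := by
  intro v hv
  have h := hy v hv
  rw [Units.val_pow_eq_pow_val, map_pow] at h
  exact (pow_eq_one_iff_left hn).mp h

/-- The `n`-th powers of `Kˣ` lying in the `S`-units are the `n`-th powers of `S`-units. -/
theorem subgroupOf_range_pow_inf_sunit {n : ℕ} (hn : n ≠ 0) :
    ((powMonoidHom n : Kˣ →* Kˣ).range ⊓ S.unit K).subgroupOf (S.unit K) =
      (powMonoidHom n : S.unit K →* S.unit K).range := by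
  ext x
  rw [Subgroup.mem_subgroupOf]
  constructor
  · rintro ⟨⟨y, hy⟩, _⟩
    rw [powMonoidHom_apply] at hy
    have hyS : y ∈ S.unit K := mem_sunit_of_pow_mem K S hn (by rw [hy]; exact x.2)
    refine ⟨⟨y, hyS⟩, ?_⟩
    apply Subtype.ext
    rw [powMonoidHom_apply]
    exact hy
  · rintro ⟨y, rfl⟩
    refine ⟨⟨(y : Kˣ), ?_⟩, SetLike.coe_mem _⟩
    rw [powMonoidHom_apply, powMonoidHom_apply]
    rfl

theorem relIndex_range_pow_inf_sunit {n : ℕ} (hn : n ≠ 0) :
    ((powMonoidHom n : Kˣ →* Kˣ).range ⊓ S.unit K).relIndex (S.unit K) =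
      (powMonoidHom n : S.unit K →* S.unit K).range.index := by
  rw [Subgroup.relIndex, subgroupOf_range_pow_inf_sunit K S hn]

end Saturation

section Gen

variable (K : Type*) [Field K] [NumberField K]

theorem nrComplexPlaces_eq_finrank_div_two {p : ℕ} (hp : 2 < p) {ζ : K}
    (hζ : IsPrimitiveRoot ζ p) :
    NumberField.InfinitePlace.nrComplexPlaces K = Module.finrank ℚ K / 2 := by
  have h1 := NumberField.InfinitePlace.IsPrimitiveRoot.nrRealPlaces_eq_zero_of_two_lt hp hζ
  have h2 := NumberField.InfinitePlace.card_add_two_mul_card_eq_rank K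
  omega

/-- G7-GEN `relIndex_pow_unit` (statement verbatim from the G7 plan). -/
theorem relIndex_pow_unit (p : ℕ) (hp : p.Prime) (hp2 : p ≠ 2) (ζ : K) (hζ : IsPrimitiveRoot ζ p)
    (Sg : Finset (HeightOneSpectrum (𝓞 K))) :
    ((powMonoidHom p : Kˣ →* Kˣ).range ⊓ (Sg : Set (HeightOneSpectrum (𝓞 K))).unit K).relIndex
      ((Sg : Set (HeightOneSpectrum (𝓞 K))).unit K) =
      p ^ (Module.finrank ℚ K / 2 + Sg.card) := by
  have hp3 : 2 < p := lt_of_le_of_ne hp.two_le (Ne.symm hp2)
  rw [relIndex_range_pow_inf_sunit K _ hp.ne_zero,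
    numberField_index_range_pow_sunit_of_isPrimitiveRoot K _ hp hp2 hζ,
    nrComplexPlaces_eq_finrank_div_two K hp3 hζ]
  congr 2
  rw [Nat.card_eq_fintype_card]
  simp

end Gen

end Fermat.Agent.S55.helper79
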