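import Fermat.Agent.S55.helper97_KumG1
import Fermat.Agent.S55.helper79_SUnitModPow

/-!
# S55 module B, package B-AR-KUM-G (helper97, task 365): ASSEMBLY of `card_Z1_glob`

* `finite_placesOver`, `card_placesOver`, `primeClasses_placesOver` (KG5);
* the statements of the sub-packages as `Prop`s: `KG2aStatement`, `KG2bStatement`,
  `KG3Statement`;
* `card_Z1_glob_of_inputs` : the count
  `#Z¹(U, ℤ/p) = p ^ (#ι + [F:ℚ]/2) * #(Cl_S(F)/p)` from KG2a, KG2b, KG3 and `#ι = #S_F`
  (KG1 `card_Z1_eq_card_selmerGroup` and KG4 `helper79.card_sunit_mod_pow` are on main).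
-/

set_option autoImplicit false
set_option linter.unusedSectionVars false
set_option linter.style.haveILetI false

open IsDedekindDomain
open scoped NumberField nonZeroDivisors

noncomputable section

namespace Fermat.Agent.S55.helper97

open Fermat.Agent.S55 Fermat.Agent.S55.helper59 groupCohomology

local notation "Qbar" => AlgebraicClosure ℚ

/-! ## KG5 : the places above `S` -/

section KG5

variable (K : Type*) [Field K] [NumberField K] (S : Finset Nat.Primes)

/-- there are finitely many places above a finite set of rational primes -/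
theorem finite_placesOver : (placesOver K S).Finite := by
  have h : placesOver K S ⊆
      ⋃ q ∈ S, {v : HeightOneSpectrum (𝓞 K) | v.asIdeal ∣ Ideal.span {((q : ℕ) : 𝓞 K)}} := by
    intro v hv
    obtain ⟨q, hq, hqv⟩ := (mem_placesOver_iff v).mp hv
    simp only [Set.mem_iUnion, Set.mem_ofPred_eq]
    exact ⟨q, hq, by rw [Ideal.dvd_span_singleton]; exact hqv⟩
  refine Set.Finite.subset (Set.Finite.biUnion S.finite_toSet fun q _ => ?_) h
  apply Ideal.finite_factors
  rw [Ne, Ideal.zero_eq_bot, Ideal.span_singleton_eq_bot]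
  exact_mod_cast q.2.ne_zero

instance finite_placesOver' : Finite ↥(placesOver K S) := (finite_placesOver K S).to_subtype

/-- the places above `S` are the primes above `S` -/
theorem card_placesOver :
    Nat.card ↥(placesOver K S) = Nat.card ↥(helper75.primesOverS K S) := by
  refine Nat.card_congr (Equiv.ofBijective
    (fun v : ↥(placesOver K S) => (⟨v.1.asIdeal, v.2⟩ : ↥(helper75.primesOverS K S))) ⟨?_, ?_⟩)
  · intro v w h
    have h1 : v.1.asIdeal = w.1.asIdeal := congrArg Subtype.val h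
    exact Subtype.ext (HeightOneSpectrum.ext h1)
  · rintro ⟨P, hP⟩
    exact ⟨⟨⟨P, hP.1, hP.2.1⟩, hP⟩, rfl⟩

/-- the classes of the places above `S` are the classes of the primes above `S` -/
theorem primeClasses_placesOver :
    primeClasses (placesOver K S) = helper75.classesOverS K S := by
  ext c
  constructor
  · rintro ⟨v, hv, rfl⟩
    exact ⟨⟨v.asIdeal, mem_nonZeroDivisors_of_ne_zero v.ne_bot⟩, hv, rfl⟩
  · rintro ⟨𝔞, h𝔞, rfl⟩
    refine ⟨⟨(𝔞 : Ideal (𝓞 K)), h𝔞.1, h𝔞.2.1⟩, h𝔞, ?_⟩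
    rfl

end KG5

/-! ## The statements of the sub-packages -/

section Statements

/-- KG2a (task 394), statement of `Interface.inSLevel_of_isSelmer` -/
def KG2aStatement : Prop :=
  ∀ {p : ℕ} [Fact p.Prime] {S : Finset Nat.Primes} {F : IntermediateField ℚ Qbar}
    [NumberField ↥F], (⟨p, Fact.out⟩ : Nat.Primes) ∈ S → F.IsUnramifiedOutside S →
    ∀ (ζ : (↥F)ˣ), IsPrimitiveRoot ζ p → ∀ (a : (↥F)ˣ) (α : Qbar),
      α ^ p = ((a : ↥F) : Qbar) → IsSelmer (↥F) S p a → InSLevel S F α

/-- KG2b (task 395), statement of `Interface.isSelmer_of_inSLevel` -/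
def KG2bStatement : Prop :=
  ∀ {p : ℕ} [Fact p.Prime] {S : Finset Nat.Primes} {F : IntermediateField ℚ Qbar}
    [NumberField ↥F] (a : (↥F)ˣ) (α : Qbar),
      α ^ p = ((a : ↥F) : Qbar) → InSLevel S F α → IsSelmer (↥F) S p a

/-- KG3 (task 396), statement of `Interface.card_selmerGroup` for rings of integers of number
fields inside `ℚbar` (universe `0`) -/
def KG3Statement : Prop :=
  ∀ (F : IntermediateField ℚ Qbar) [NumberField ↥F] (T : Set (HeightOneSpectrum (𝓞 ↥F)))
    (n : ℕ), 0 < n →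
    Finite ((T.unit ↥F) ⧸ (powMonoidHom n : T.unit ↥F →* T.unit ↥F).range) →
    Nat.card ↥(selmerGroup (R := 𝓞 ↥F) (K := ↥F) (S := T) (n := n)) =
      Nat.card ((T.unit ↥F) ⧸ (powMonoidHom n : T.unit ↥F →* T.unit ↥F).range) *
        Nat.card (ClassGroup (𝓞 ↥F) ⧸
          Subgroup.closure (primeClasses T ∪ Set.range fun c : ClassGroup (𝓞 ↥F) => c ^ n))

end Statements

/-! ## The assembly -/

section Assembly

variable {p : ℕ} [Fact p.Prime] {S : Finset Nat.Primes} {F : IntermediateField ℚ Qbar}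
  {𝒩 : Levels (UF F)} {ι : Type}

/-- `#Z¹(U, ℤ/p) = p ^ (#S_F + [F:ℚ]/2) * #(Cl_S(F)/p)` from KG2a, KG2b, KG3. -/
theorem card_Z1_glob_placesOver (h2a : KG2aStatement) (h2b : KG2bStatement) (h3 : KG3Statement)
    [NumberField ↥F] (hp2 : p ≠ 2) (hpS : (⟨p, Fact.out⟩ : Nat.Primes) ∈ S)
    (hF : F.IsUnramifiedOutside S) (h𝒩 : 𝒩.mem = sLevels S F)
    (ζ : (↥F)ˣ) (hζ : IsPrimitiveRoot ζ p) :
    Nat.card ↥(Z1 𝒩 (T (ZMod p) (UF F))) =
      p ^ (Nat.card ↥(helper75.primesOverS (↥F) S) + Module.finrank ℚ F / 2) *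
        Nat.card (helper75.ClSModP (↥F) p S) := by
  have hp : p.Prime := Fact.out
  have hζK : IsPrimitiveRoot (ζ : ↥F) p :=
    hζ.map_of_injective (f := Units.coeHom ↥F) Units.val_injective
  have h4 := helper79.card_sunit_mod_pow (↥F) (placesOver (↥F) S) p hp2 (ζ : ↥F) hζK
  have hfin : Finite (((placesOver (↥F) S).unit ↥F) ⧸
      (powMonoidHom p : (placesOver (↥F) S).unit ↥F →* (placesOver (↥F) S).unit ↥F).range) := by
    apply Nat.finite_of_card_ne_zero
    rw [h4]
    exact pow_ne_zero _ hp.ne_zero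
  rw [card_Z1_eq_card_selmerGroup h𝒩 ζ hζ (fun a α hα ha => h2a hpS hF ζ hζ a α hα ha)
    (fun a α hα h => h2b a α hα h), h3 F (placesOver (↥F) S) p hp.pos hfin, h4,
    card_placesOver]
  congr 1
  have hsub : Subgroup.closure (primeClasses (placesOver (↥F) S) ∪
      Set.range fun c : ClassGroup (𝓞 ↥F) => c ^ p) = helper75.clSubgroup (↥F) p S := by
    rw [primeClasses_placesOver]
    rfl
  exact Nat.card_congr (QuotientGroup.quotientMulEquivOfEq hsub).toEquiv

/-- B-AR-KUM-G `card_Z1_glob` (statement of `helper59` Interface2) from KG2a, KG2b, KG3 and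
B-AR-DEG `card_index_eq`. -/
theorem card_Z1_glob_of_inputs (h2a : KG2aStatement) (h2b : KG2bStatement) (h3 : KG3Statement)
    [NumberField ↥F] (hp2 : p ≠ 2) (hpS : (⟨p, Fact.out⟩ : Nat.Primes) ∈ S)
    (hF : F.IsUnramifiedOutside S) (h𝒩 : 𝒩.mem = sLevels S F)
    (hcard : Nat.card ι = Nat.card ↥(helper75.primesOverS (↥F) S))
    (ζ : (↥F)ˣ) (hζ : IsPrimitiveRoot ζ p) :
    Nat.card ↥(Z1 𝒩 (T (ZMod p) (UF F))) =
      p ^ (Nat.card ι + Module.finrank ℚ F / 2) * Nat.card (helper75.ClSModP (↥F) p S) := by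
  rw [hcard]
  exact card_Z1_glob_placesOver h2a h2b h3 hp2 hpS hF h𝒩 ζ hζ

end Assembly

end Fermat.Agent.S55.helper97
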