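import Mathlib
import Fermat.Agent.S55.Arith
import Fermat.Agent.S55.helper4_BridgeLevels
import Fermat.Agent.S55.helper51_LocalLevels
import Fermat.Agent.S55.helper7_LocUnram

/-!
# S55 / TOP-LOC-B (helper15): the twisted local 2-cocycle `b(g,h) = χ(g) x₀(g) y₀(h)` at `p`

`Ω = PadicAlgCl p`, `G_p = Gal(Ω/ℚ_p)` (`= primeLocalGaloisGroup (pPrime p)` definitionally).

* `L0 p`   : the unramified extension of degree `p` of `ℚ_p` inside `Ω`, `phi0 p` its Frobenius;
* `x0 p`   : `G_p → ZMod p`, the additive character with `g|L0 = phi0 ^ (x0 g).val`;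
* `pi0 p`  : a `p`-th root of `p` in `Ω`;
* `chiLoc p` : the local cyclotomic character `χ ∘ r_p`, with `g z = z ^ (χ g).val` for every
  `p`-th root of unity `z ∈ Ω`;
* `y0 p z` : `G_p → ZMod p`, the Kummer cocycle of `p` w.r.t. the primitive root `z`:
  `g pi0 = z ^ (y0 g).val * pi0`; twisted cocycle relation `y0 (g h) = y0 g + χ(g) y0 h`;
* `bLoc p z (g, h) = χ(g) * x0 g * y0 z h`, and `bLoc_mem_Z2` : it is a level-constant twisted
  2-cocycle, in the exact form needed by `TopLocStatement`.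
-/

set_option autoImplicit false
set_option linter.style.haveILetI false
set_option linter.unusedSectionVars false
set_option linter.unusedVariables false

open groupCohomology ExtCitation

noncomputable section

namespace Fermat.Agent.S55.helper15

variable (p : ℕ) [Fact p.Prime]

/-- the local Galois group `G_p = Gal(Ω/ℚ_p)`, `Ω = PadicAlgCl p` -/
abbrev GpLoc : Type := PadicAlgCl p ≃ₐ[ℚ_[p]] PadicAlgCl p

/-! ### exponents in `ZMod p` -/

section Exponents

variable {p}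
variable {M : Type*} [Monoid M]

lemma pow_val_natCast {a : M} (ha : a ^ p = 1) (n : ℕ) : a ^ ((n : ZMod p)).val = a ^ n := by
  rw [ZMod.val_natCast, ← pow_eq_pow_mod n ha]

lemma pow_val_add {a : M} (ha : a ^ p = 1) (i j : ZMod p) :
    a ^ (i + j).val = a ^ i.val * a ^ j.val := by
  haveI : NeZero p := ⟨(Fact.out : p.Prime).ne_zero⟩
  rw [ZMod.val_add, ← pow_eq_pow_mod _ ha, pow_add]

lemma pow_val_mul {a : M} (ha : a ^ p = 1) (i j : ZMod p) :
    a ^ (i * j).val = (a ^ i.val) ^ j.val := by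
  haveI : NeZero p := ⟨(Fact.out : p.Prime).ne_zero⟩
  rw [ZMod.val_mul, ← pow_eq_pow_mod _ ha, pow_mul]

lemma pow_val_zero (a : M) : a ^ (0 : ZMod p).val = 1 := by
  haveI : NeZero p := ⟨(Fact.out : p.Prime).ne_zero⟩
  rw [ZMod.val_zero, pow_zero]

end Exponents

/-! ### the unramified extension of degree `p` and its Frobenius character -/

theorem exists_L0 : ∃ E : IntermediateField ℚ_[p] (PadicAlgCl p),
    FiniteDimensional ℚ_[p] E ∧ IsGalois ℚ_[p] E ∧ Module.finrank ℚ_[p] E = p ∧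
      helper8.IsUnram p ℚ_[p] E :=
  helper7.exists_unram p ℚ_[p] (PadicAlgCl p) p (Fact.out : p.Prime).pos

/-- the unramified extension of degree `p` of `ℚ_p` inside `Ω` -/
def L0 : IntermediateField ℚ_[p] (PadicAlgCl p) := (exists_L0 p).choose

instance finiteDimensional_L0 : FiniteDimensional ℚ_[p] (L0 p) := (exists_L0 p).choose_spec.1

instance isGalois_L0 : IsGalois ℚ_[p] (L0 p) := (exists_L0 p).choose_spec.2.1

theorem finrank_L0 : Module.finrank ℚ_[p] (L0 p) = p := (exists_L0 p).choose_spec.2.2.1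

theorem isUnram_L0 : helper8.IsUnram p ℚ_[p] (L0 p) := (exists_L0 p).choose_spec.2.2.2

theorem exists_phi0 : ∃ φ : L0 p ≃ₐ[ℚ_[p]] L0 p, helper8.IsFrob p ℚ_[p] (L0 p) φ ∧
    (∀ σ : L0 p ≃ₐ[ℚ_[p]] L0 p, σ ∈ Subgroup.zpowers φ) ∧
      orderOf φ = Module.finrank ℚ_[p] (L0 p) ∧
        ∀ ψ : L0 p ≃ₐ[ℚ_[p]] L0 p, helper8.IsFrob p ℚ_[p] (L0 p) ψ → ψ = φ :=
  helper7.exists_frob_of_isUnram p ℚ_[p] (L0 p) (isUnram_L0 p)

/-- the Frobenius of `L0 / ℚ_p` -/
def phi0 : L0 p ≃ₐ[ℚ_[p]] L0 p := (exists_phi0 p).choose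

theorem isFrob_phi0 : helper8.IsFrob p ℚ_[p] (L0 p) (phi0 p) := (exists_phi0 p).choose_spec.1

theorem mem_zpowers_phi0 (σ : L0 p ≃ₐ[ℚ_[p]] L0 p) : σ ∈ Subgroup.zpowers (phi0 p) :=
  (exists_phi0 p).choose_spec.2.1 σ

theorem orderOf_phi0 : orderOf (phi0 p) = p :=
  (exists_phi0 p).choose_spec.2.2.1.trans (finrank_L0 p)

theorem eq_phi0_of_isFrob (ψ : L0 p ≃ₐ[ℚ_[p]] L0 p) (h : helper8.IsFrob p ℚ_[p] (L0 p) ψ) :
    ψ = phi0 p :=
  (exists_phi0 p).choose_spec.2.2.2 ψ h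

theorem phi0_pow_p : phi0 p ^ p = 1 := by
  have := pow_orderOf_eq_one (phi0 p)
  rwa [orderOf_phi0] at this

theorem phi0_ne_one : phi0 p ≠ 1 := by
  intro h
  have h1 := orderOf_phi0 p
  rw [h, orderOf_one] at h1
  exact (Fact.out : p.Prime).one_lt.ne h1

theorem exists_pow_phi0 (σ : L0 p ≃ₐ[ℚ_[p]] L0 p) : ∃ i : ZMod p, σ = phi0 p ^ i.val := by
  haveI : NeZero p := ⟨(Fact.out : p.Prime).ne_zero⟩
  obtain ⟨k, hk⟩ := Subgroup.mem_zpowers_iff.mp (mem_zpowers_phi0 p σ)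
  refine ⟨(k : ZMod p), ?_⟩
  rw [← hk, ← zpow_natCast, zpow_eq_zpow_iff_modEq, orderOf_phi0]
  rw [← ZMod.intCast_eq_intCast_iff, Int.cast_natCast, ZMod.natCast_val, ZMod.cast_id', id]

theorem pow_phi0_injective (i j : ZMod p) (h : phi0 p ^ i.val = phi0 p ^ j.val) : i = j := by
  haveI : NeZero p := ⟨(Fact.out : p.Prime).ne_zero⟩
  rw [pow_eq_pow_iff_modEq, orderOf_phi0] at h
  apply ZMod.val_injective p
  have h1 := Nat.mod_eq_of_lt (ZMod.val_lt i)
  have h2 := Nat.mod_eq_of_lt (ZMod.val_lt j)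
  unfold Nat.ModEq at h
  rw [h1, h2] at h
  exact h

/-- the unramified character `x₀ : G_p → ZMod p`, `g|L0 = phi0 ^ x₀(g)` -/
def x0 (g : GpLoc p) : ZMod p :=
  (exists_pow_phi0 p (AlgEquiv.restrictNormalHom (L0 p) g)).choose

theorem x0_spec (g : GpLoc p) :
    AlgEquiv.restrictNormalHom (L0 p) g = phi0 p ^ (x0 p g).val :=
  (exists_pow_phi0 p (AlgEquiv.restrictNormalHom (L0 p) g)).choose_spec

theorem x0_eq_of_eq (g : GpLoc p) (i : ZMod p)
    (h : AlgEquiv.restrictNormalHom (L0 p) g = phi0 p ^ i.val) : x0 p g = i :=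
  pow_phi0_injective p _ _ ((x0_spec p g).symm.trans h)

theorem x0_mul (g h : GpLoc p) : x0 p (g * h) = x0 p g + x0 p h := by
  apply x0_eq_of_eq
  rw [map_mul, x0_spec p g, x0_spec p h, pow_val_add (phi0_pow_p p)]

theorem x0_one : x0 p 1 = 0 := by
  apply x0_eq_of_eq
  rw [map_one, pow_val_zero]

theorem x0_eq_zero_iff (g : GpLoc p) : x0 p g = 0 ↔ g ∈ (L0 p).fixingSubgroup := by
  rw [← IntermediateField.restrictNormalHom_ker, MonoidHom.mem_ker]
  constructor
  · intro h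
    rw [x0_spec p g, h, pow_val_zero]
  · intro h
    apply x0_eq_of_eq
    rw [h, pow_val_zero]

/-- `x₀` as a homomorphism to `Multiplicative (ZMod p)` -/
def x0Hom : GpLoc p →* Multiplicative (ZMod p) where
  toFun g := Multiplicative.ofAdd (x0 p g)
  map_one' := by rw [x0_one]; rfl
  map_mul' g h := by rw [x0_mul]; rfl

theorem x0_surjective : Function.Surjective (x0 p) := by
  intro i
  have : Normal ℚ_[p] (PadicAlgCl p) := IsAlgClosure.normal ℚ_[p] (PadicAlgCl p)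
  obtain ⟨g, hg⟩ := AlgEquiv.restrictNormalHom_surjective (F := ℚ_[p]) (K₁ := L0 p)
    (PadicAlgCl p) (phi0 p ^ i.val)
  exact ⟨g, x0_eq_of_eq p g i hg⟩

/-! ### the `p`-th root of `p` -/

theorem exists_pi0 : ∃ π : PadicAlgCl p, π ^ p = (p : PadicAlgCl p) :=
  IsAlgClosed.exists_pow_nat_eq _ (Fact.out : p.Prime).pos

/-- a `p`-th root of `p` in `Ω` -/
def pi0 : PadicAlgCl p := (exists_pi0 p).choose

theorem pi0_pow : pi0 p ^ p = (p : PadicAlgCl p) := (exists_pi0 p).choose_spec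

theorem pi0_ne_zero : pi0 p ≠ 0 := by
  intro h
  have h1 := pi0_pow p
  rw [h, zero_pow (Fact.out : p.Prime).ne_zero] at h1
  have h2 : ((p : ℕ) : PadicAlgCl p) ≠ 0 := Nat.cast_ne_zero.mpr (Fact.out : p.Prime).ne_zero
  exact h2 h1.symm

/-! ### the local cyclotomic character -/

/-- the local cyclotomic character `χ ∘ r_p : G_p → (ZMod p)ˣ` -/
def chiLoc : GpLoc p →* (ZMod p)ˣ := (cycloChar p).comp (localGaloisToGlobal p)

theorem chiLoc_apply (g : GpLoc p) : chiLoc p g = cycloChar p (localGaloisToGlobal p g) := rfl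

theorem chiLoc_eq_primeLocalToGlobal (g : GpLoc p) :
    chiLoc p g = cycloChar p (primeLocalToGlobal (pPrime p) g) := rfl

theorem globApply_of_pow_eq_one (σ : AlgebraicClosure ℚ ≃ₐ[ℚ] AlgebraicClosure ℚ)
    {ζ : AlgebraicClosure ℚ} (hζ : ζ ^ p = 1) :
    σ ζ = ζ ^ ((cycloChar p σ : (ZMod p)ˣ) : ZMod p).val := by
  haveI : NeZero p := ⟨(Fact.out : p.Prime).ne_zero⟩
  have hζ0 : ζ ≠ 0 := by
    rintro rfl
    simp [(Fact.out : p.Prime).ne_zero] at hζ
  let t : (AlgebraicClosure ℚ)ˣ := Units.mk0 ζ hζ0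
  have ht : t ∈ rootsOfUnity p (AlgebraicClosure ℚ) := by
    rw [mem_rootsOfUnity]
    exact Units.ext (by simpa [t] using hζ)
  have := modularCyclotomicCharacter.spec (AlgebraicClosure ℚ) (card_rootsOfUnity_eq_self p)
    (σ : AlgebraicClosure ℚ ≃+* AlgebraicClosure ℚ) ht
  simpa [t, cycloChar] using this

/-- the local Galois group acts on the `p`-th roots of unity of `Ω` through `χ ∘ r_p` -/
theorem apply_of_pow_eq_one_loc (g : GpLoc p) {z : PadicAlgCl p} (hz : z ^ p = 1) :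
    g z = z ^ ((chiLoc p g : (ZMod p)ˣ) : ZMod p).val := by
  have halg : IsAlgebraic ℚ z := by
    refine IsIntegral.isAlgebraic (IsIntegral.of_pow (Fact.out : p.Prime).pos ?_)
    rw [hz]
    exact isIntegral_one
  obtain ⟨ζ, rfl⟩ := helper51.mem_range_padicEmbedding_of_isAlgebraic p halg
  have hζ : ζ ^ p = 1 := by
    apply (padicEmbedding p).toRingHom.injective
    change padicEmbedding p (ζ ^ p) = padicEmbedding p 1
    rw [map_pow, hz, map_one]
  rw [← padicEmbedding_localGaloisToGlobal, globApply_of_pow_eq_one p _ hζ, map_pow]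
  rfl

theorem chiLoc_eq_one_of_apply_eq {z : PadicAlgCl p} (hz : IsPrimitiveRoot z p) (g : GpLoc p)
    (hg : g z = z) : chiLoc p g = 1 := by
  haveI : NeZero p := ⟨(Fact.out : p.Prime).ne_zero⟩
  have h1 := apply_of_pow_eq_one_loc p g hz.pow_eq_one
  rw [hg] at h1
  have h2 : z ^ 1 = z ^ ((chiLoc p g : (ZMod p)ˣ) : ZMod p).val := by rw [pow_one]; exact h1
  have h3 := hz.pow_inj (Fact.out : p.Prime).one_lt (ZMod.val_lt _) h2
  apply Units.ext
  apply ZMod.val_injective p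
  rw [← h3, Units.val_one, ZMod.val_one]

/-- the image in `Ω` of a global primitive `p`-th root of unity is primitive -/
theorem isPrimitiveRoot_padicEmbedding {ζ : AlgebraicClosure ℚ} (hζ : IsPrimitiveRoot ζ p) :
    IsPrimitiveRoot (padicEmbedding p ζ) p :=
  hζ.map_of_injective (padicEmbedding p).toRingHom.injective

/-- on the image of a global root of unity the local group acts through `r_p` -/
theorem apply_padicEmbedding (g : GpLoc p) (ζ : AlgebraicClosure ℚ) :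
    g (padicEmbedding p ζ) = padicEmbedding p (localGaloisToGlobal p g ζ) :=
  (padicEmbedding_localGaloisToGlobal p g ζ).symm

/-! ### the Kummer cocycle of `p` -/

theorem exists_y0 {z : PadicAlgCl p} (hz : IsPrimitiveRoot z p) (g : GpLoc p) :
    ∃ i : ZMod p, g (pi0 p) = z ^ i.val * pi0 p := by
  haveI : NeZero p := ⟨(Fact.out : p.Prime).ne_zero⟩
  have hu : (g (pi0 p) / pi0 p) ^ p = 1 := by
    rw [div_pow, ← map_pow, pi0_pow, map_natCast]
    exact div_self (Nat.cast_ne_zero.mpr (Fact.out : p.Prime).ne_zero)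
  obtain ⟨i, hi, hzi⟩ := hz.eq_pow_of_pow_eq_one hu
  refine ⟨(i : ZMod p), ?_⟩
  rw [ZMod.val_natCast, Nat.mod_eq_of_lt hi, hzi, div_mul_cancel₀ _ (pi0_ne_zero p)]

theorem y0_unique {z : PadicAlgCl p} (hz : IsPrimitiveRoot z p) (i j : ZMod p)
    (h : z ^ i.val * pi0 p = z ^ j.val * pi0 p) : i = j := by
  haveI : NeZero p := ⟨(Fact.out : p.Prime).ne_zero⟩
  have h1 := mul_right_cancel₀ (pi0_ne_zero p) h
  exact ZMod.val_injective p (hz.pow_inj (ZMod.val_lt _) (ZMod.val_lt _) h1)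

open Classical in
/-- the Kummer cocycle `y₀ : G_p → ZMod p` of `p` with respect to the root of unity `z`:
`g pi0 = z ^ y₀(g) * pi0` (junk value `0` if `z` is not a primitive `p`-th root of unity) -/
def y0 (z : PadicAlgCl p) (g : GpLoc p) : ZMod p :=
  if h : ∃ i : ZMod p, g (pi0 p) = z ^ i.val * pi0 p then h.choose else 0

theorem y0_spec {z : PadicAlgCl p} (hz : IsPrimitiveRoot z p) (g : GpLoc p) :
    g (pi0 p) = z ^ (y0 p z g).val * pi0 p := by
  unfold y0
  rw [dif_pos (exists_y0 p hz g)]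
  exact (exists_y0 p hz g).choose_spec

theorem y0_eq_of_eq {z : PadicAlgCl p} (hz : IsPrimitiveRoot z p) (g : GpLoc p) (i : ZMod p)
    (h : g (pi0 p) = z ^ i.val * pi0 p) : y0 p z g = i :=
  y0_unique p hz _ _ ((y0_spec p hz g).symm.trans h)

/-- the twisted cocycle relation `y₀(gh) = y₀(g) + χ(g) y₀(h)` -/
theorem y0_mul {z : PadicAlgCl p} (hz : IsPrimitiveRoot z p) (g h : GpLoc p) :
    y0 p z (g * h) = y0 p z g + ((chiLoc p g : (ZMod p)ˣ) : ZMod p) * y0 p z h := by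
  apply y0_eq_of_eq p hz
  rw [AlgEquiv.mul_apply, y0_spec p hz h, map_mul, map_pow,
    apply_of_pow_eq_one_loc p g hz.pow_eq_one, y0_spec p hz g,
    pow_val_add hz.pow_eq_one, pow_val_mul hz.pow_eq_one]
  ring

theorem y0_one {z : PadicAlgCl p} (hz : IsPrimitiveRoot z p) : y0 p z 1 = 0 := by
  apply y0_eq_of_eq p hz
  rw [pow_val_zero, one_mul]
  rfl

theorem y0_eq_zero_iff {z : PadicAlgCl p} (hz : IsPrimitiveRoot z p) (g : GpLoc p) :
    y0 p z g = 0 ↔ g (pi0 p) = pi0 p := by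
  constructor
  · intro h
    rw [y0_spec p hz g, h, pow_val_zero, one_mul]
  · intro h
    apply y0_eq_of_eq p hz
    rw [h, pow_val_zero, one_mul]

/-- on the kernel of `χ` the Kummer cocycle is additive -/
theorem y0_mul_of_chiLoc_eq_one {z : PadicAlgCl p} (hz : IsPrimitiveRoot z p) (g h : GpLoc p)
    (hg : chiLoc p g = 1) : y0 p z (g * h) = y0 p z g + y0 p z h := by
  rw [y0_mul p hz, hg, Units.val_one, one_mul]

/-- change of the root of unity: `y₀` w.r.t. `z ^ a` is `a⁻¹ y₀` -/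
theorem y0_pow {z : PadicAlgCl p} (hz : IsPrimitiveRoot z p) (a : (ZMod p)ˣ) (g : GpLoc p) :
    y0 p (z ^ (a : ZMod p).val) g = ((a⁻¹ : (ZMod p)ˣ) : ZMod p) * y0 p z g := by
  haveI : NeZero p := ⟨(Fact.out : p.Prime).ne_zero⟩
  have hcop : (a : ZMod p).val.Coprime p := ZMod.val_coe_unit_coprime a
  have hz' : IsPrimitiveRoot (z ^ (a : ZMod p).val) p := hz.pow_of_coprime _ hcop
  apply y0_eq_of_eq p hz'
  rw [← pow_val_mul hz.pow_eq_one, ← mul_assoc, Units.mul_inv, one_mul]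
  exact y0_spec p hz g

/-! ### the twisted 2-cocycle -/

/-- the twisted local 2-cocycle `b(g,h) = χ(g) x₀(g) y₀(h)` -/
def bLoc (z : PadicAlgCl p) : GpLoc p × GpLoc p → ZMod p :=
  fun s => ((chiLoc p s.1 : (ZMod p)ˣ) : ZMod p) * x0 p s.1 * y0 p z s.2

theorem bLoc_apply (z : PadicAlgCl p) (g h : GpLoc p) :
    bLoc p z (g, h) = ((chiLoc p g : (ZMod p)ˣ) : ZMod p) * x0 p g * y0 p z h := rfl

/-- on the kernel of `χ` the cocycle `b` is the cup product `x₀ ∪ y₀` -/
theorem bLoc_apply_of_chiLoc_eq_one (z : PadicAlgCl p) (g h : GpLoc p) (hg : chiLoc p g = 1) :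
    bLoc p z (g, h) = x0 p g * y0 p z h := by
  rw [bLoc_apply, hg, Units.val_one, one_mul]

/-- the finite extension `L0(z, pi0)` through which `b` factors -/
def K0 (z : PadicAlgCl p) : IntermediateField ℚ_[p] (PadicAlgCl p) :=
  L0 p ⊔ IntermediateField.adjoin ℚ_[p] {z, pi0 p}

theorem finiteDimensional_K0 (z : PadicAlgCl p) : FiniteDimensional ℚ_[p] (K0 p z) := by
  have h1 : FiniteDimensional ℚ_[p] (IntermediateField.adjoin ℚ_[p] ({z, pi0 p} :
      Set (PadicAlgCl p))) :=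
    IntermediateField.finiteDimensional_adjoin fun x _ =>
      (PadicAlgCl.isAlgebraic p).isIntegral.isIntegral x
  exact IntermediateField.finiteDimensional_sup _ _

theorem x0_eq_zero_of_mem_K0 (z : PadicAlgCl p) (s : GpLoc p)
    (hs : s ∈ (K0 p z).fixingSubgroup) : x0 p s = 0 := by
  rw [x0_eq_zero_iff]
  exact IntermediateField.fixingSubgroup_antitone (le_sup_left : L0 p ≤ K0 p z) hs

theorem apply_z_of_mem_K0 (z : PadicAlgCl p) (s : GpLoc p)
    (hs : s ∈ (K0 p z).fixingSubgroup) : s z = z := by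
  rw [IntermediateField.mem_fixingSubgroup_iff] at hs
  exact hs z ((le_sup_right : _ ≤ K0 p z)
    (IntermediateField.subset_adjoin _ _ (Set.mem_insert _ _)))

theorem apply_pi0_of_mem_K0 (z : PadicAlgCl p) (s : GpLoc p)
    (hs : s ∈ (K0 p z).fixingSubgroup) : s (pi0 p) = pi0 p := by
  rw [IntermediateField.mem_fixingSubgroup_iff] at hs
  exact hs (pi0 p) ((le_sup_right : _ ≤ K0 p z)
    (IntermediateField.subset_adjoin _ _ (Set.mem_insert_of_mem _ rfl)))

/-- `b` is right-invariant under `Gal(Ω / L0(z, pi0))` in both variables -/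
theorem bLoc_mul_of_mem_K0 {z : PadicAlgCl p} (hz : IsPrimitiveRoot z p) (g g' s s' : GpLoc p)
    (hs : s ∈ (K0 p z).fixingSubgroup) (hs' : s' ∈ (K0 p z).fixingSubgroup) :
    bLoc p z (g * s, g' * s') = bLoc p z (g, g') := by
  rw [bLoc_apply, bLoc_apply, map_mul, x0_mul, y0_mul p hz,
    chiLoc_eq_one_of_apply_eq p hz s (apply_z_of_mem_K0 p z s hs),
    x0_eq_zero_of_mem_K0 p z s hs,
    (y0_eq_zero_iff p hz s').2 (apply_pi0_of_mem_K0 p z s' hs')]
  simp

/-- the cocycle identity for `b` -/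
theorem bLoc_cocycle {z : PadicAlgCl p} (hz : IsPrimitiveRoot z p) (g h j : GpLoc p) :
    ((chiLoc p g : (ZMod p)ˣ) : ZMod p) * bLoc p z (h, j) - bLoc p z (g * h, j)
      + bLoc p z (g, h * j) - bLoc p z (g, h) = 0 := by
  rw [bLoc_apply, bLoc_apply, bLoc_apply, bLoc_apply, map_mul, x0_mul, y0_mul p hz,
    Units.val_mul]
  ring

variable (S : Finset Nat.Primes) (hpS : pPrime p ∈ S)

/-- `b` as a cochain of `galLocal S` at `p` with coefficients in the twisted module -/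
def bLocS (z : PadicAlgCl p) :
    (galLocal S).Gv ⟨pPrime p, hpS⟩ × (galLocal S).Gv ⟨pPrime p, hpS⟩ →
      (galLocal S).loc (groupCohomology.ofChar (k := ZMod p) (cycloChar p)) ⟨pPrime p, hpS⟩ :=
  bLoc p z

theorem bLocS_apply (z : PadicAlgCl p) (g h : GpLoc p) :
    (bLocS p S hpS z (g, h) : ZMod p) =
      ((cycloChar p (primeLocalToGlobal (pPrime p) g) : (ZMod p)ˣ) : ZMod p) * x0 p g *
        y0 p z h := rfl

/-- **TOP-LOC-B**: `b` is a level-constant 2-cocycle at `p` with twisted coefficients. -/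
theorem bLocS_mem_Z2 {z : PadicAlgCl p} (hz : IsPrimitiveRoot z p) :
    bLocS p S hpS z ∈ Z2 ((galLocal S).lev ⟨pPrime p, hpS⟩)
      ((galLocal S).loc (groupCohomology.ofChar (k := ZMod p) (cycloChar p))
        ⟨pPrime p, hpS⟩) := by
  refine ⟨?_, LinearMap.mem_ker.mpr ?_⟩
  · refine (helper4.isLev₂_locLevels_iff (pPrime p) _).2
      ((helper51.isLevelConstant₂_primeLocalToGlobal_iff (pPrime p) _).2
        ⟨K0 p z, finiteDimensional_K0 p z, fun g g' s s' hs hs' =>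
          bLoc_mul_of_mem_K0 p hz g g' s s' hs hs'⟩)
  · funext g
    rw [d₂₃_hom_apply]
    exact bLoc_cocycle p hz g.1 g.2.1 g.2.2

end Fermat.Agent.S55.helper15
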