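import Mathlib
import Fermat.Agent.S55.helper8_LocDefs

/-!
# S55 / LOC-3 (helper31), part 1: the cyclic class `(χ_φ, b)` is trivial iff `b` is a norm

Pure algebra: `L/K` is any finite Galois extension of fields whose Galois group is generated
by `φ`.  The cyclic cochain `(σ, τ) ↦ b ^ ⌊(dlog σ + dlog τ) / n⌋` is a 2-cocycle, and it is a
2-coboundary iff `b` is a norm from `L`.
-/

set_option autoImplicit false

namespace Fermat.Agent.S55.helper31

open Fermat.Agent.S55.helper8 groupCohomology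

section dlog

variable {K L : Type} [Field K] [Field L] [Algebra K L]

theorem exists_pow_eq_of_mem_zpowers [Finite (L ≃ₐ[K] L)] {φ σ : L ≃ₐ[K] L}
    (h : σ ∈ Subgroup.zpowers φ) : ∃ i : ℕ, φ ^ i = σ := by
  have h' : σ ∈ Submonoid.powers φ := (mem_powers_iff_mem_zpowers).2 h
  obtain ⟨i, hi⟩ := h'
  exact ⟨i, hi⟩

theorem pow_dlogAut [Finite (L ≃ₐ[K] L)] {φ σ : L ≃ₐ[K] L}
    (h : σ ∈ Subgroup.zpowers φ) : φ ^ dlogAut K L φ σ = σ := by
  classical
  have h' := exists_pow_eq_of_mem_zpowers h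
  rw [dlogAut, dif_pos h']
  exact Nat.find_spec h'

theorem dlogAut_pow [Finite (L ≃ₐ[K] L)] (φ : L ≃ₐ[K] L) (i : ℕ) :
    dlogAut K L φ (φ ^ i) = i % orderOf φ := by
  classical
  have h' : ∃ j : ℕ, φ ^ j = φ ^ i := ⟨i, rfl⟩
  have hle : dlogAut K L φ (φ ^ i) ≤ i % orderOf φ := by
    rw [dlogAut, dif_pos h']
    exact Nat.find_min' h' (pow_mod_orderOf φ i)
  have hpos : 0 < orderOf φ := orderOf_pos φ
  have hlt : dlogAut K L φ (φ ^ i) < orderOf φ := lt_of_le_of_lt hle (Nat.mod_lt _ hpos)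
  have hspec : φ ^ dlogAut K L φ (φ ^ i) = φ ^ i := by
    rw [dlogAut, dif_pos h']
    exact Nat.find_spec h'
  have hmod : dlogAut K L φ (φ ^ i) ≡ i [MOD orderOf φ] := pow_eq_pow_iff_modEq.1 hspec
  have := Nat.ModEq.eq_of_lt_of_lt (hmod.trans (Nat.mod_modEq i _).symm) hlt
    (Nat.mod_lt _ hpos)
  exact this

theorem dlogAut_lt [Finite (L ≃ₐ[K] L)] (φ σ : L ≃ₐ[K] L)
    (h : σ ∈ Subgroup.zpowers φ) : dlogAut K L φ σ < orderOf φ := by
  obtain ⟨i, rfl⟩ := exists_pow_eq_of_mem_zpowers h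
  rw [dlogAut_pow]
  exact Nat.mod_lt _ (orderOf_pos φ)

theorem dlogAut_mul [Finite (L ≃ₐ[K] L)] (φ σ τ : L ≃ₐ[K] L)
    (hσ : σ ∈ Subgroup.zpowers φ) (hτ : τ ∈ Subgroup.zpowers φ) :
    dlogAut K L φ (σ * τ) = (dlogAut K L φ σ + dlogAut K L φ τ) % orderOf φ := by
  have : σ * τ = φ ^ (dlogAut K L φ σ + dlogAut K L φ τ) := by
    rw [pow_add, pow_dlogAut hσ, pow_dlogAut hτ]
  rw [this, dlogAut_pow]

theorem floor_assoc (n a b c : ℕ) :
    ((a + b) % n + c) / n + (a + b) / n = (b + c) / n + (a + (b + c) % n) / n := by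
  rcases Nat.eq_zero_or_pos n with rfl | hn
  · simp
  have h1 : ((a + b) % n + c) / n + (a + b) / n = (a + b + c) / n := by
    conv_rhs => rw [← Nat.mod_add_div (a + b) n]
    rw [show (a + b) % n + n * ((a + b) / n) + c = (a + b) % n + c + n * ((a + b) / n) by ring,
      Nat.add_mul_div_left _ _ hn]
  have h2 : (b + c) / n + (a + (b + c) % n) / n = (a + b + c) / n := by
    conv_rhs => rw [add_assoc, ← Nat.mod_add_div (b + c) n]
    rw [show a + ((b + c) % n + n * ((b + c) / n)) = a + (b + c) % n + n * ((b + c) / n) by ring,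
      Nat.add_mul_div_left _ _ hn, add_comm]
  rw [h1, h2]

end dlog

section cocycle

variable {K L : Type} [Field K] [Field L] [Algebra K L]

theorem smul_algebraMap_unit (σ : L ≃ₐ[K] L) (b : Kˣ) :
    σ • Units.map (algebraMap K L : K →* L) b = Units.map (algebraMap K L : K →* L) b := by
  ext
  simp [AlgEquiv.smul_units_def]

variable [FiniteDimensional K L]

/-- The cyclic cochain is a multiplicative 2-cocycle when `φ` generates the Galois group. -/
theorem isMulCocycle₂_cyclicCochain (φ : L ≃ₐ[K] L)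
    (hφ : ∀ σ : L ≃ₐ[K] L, σ ∈ Subgroup.zpowers φ) (b : Kˣ) :
    IsMulCocycle₂ (cyclicCochain K L φ b) := by
  intro g h j
  simp only [cyclicCochain]
  rw [smul_pow', smul_algebraMap_unit, ← pow_add, ← pow_add,
    dlogAut_mul φ g h (hφ g) (hφ h), dlogAut_mul φ h j (hφ h) (hφ j)]
  congr 1
  have := floor_assoc (orderOf φ) (dlogAut K L φ g) (dlogAut K L φ h) (dlogAut K L φ j)
  omega

theorem cyclicClass_eq (φ : L ≃ₐ[K] L)
    (hφ : ∀ σ : L ≃ₐ[K] L, σ ∈ Subgroup.zpowers φ) (b : Kˣ) :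
    cyclicClass K L φ b = H2π (Rep.ofAlgebraAutOnUnits K L)
      (cocyclesOfIsMulCocycle₂ (isMulCocycle₂_cyclicCochain φ hφ b)) := by
  rw [cyclicClass, dif_pos (isMulCocycle₂_cyclicCochain φ hφ b)]

theorem cyclicClass_eq_zero_iff_isMulCoboundary₂ (φ : L ≃ₐ[K] L)
    (hφ : ∀ σ : L ≃ₐ[K] L, σ ∈ Subgroup.zpowers φ) (b : Kˣ) :
    cyclicClass K L φ b = 0 ↔ IsMulCoboundary₂ (cyclicCochain K L φ b) := by
  rw [cyclicClass_eq φ hφ b]
  constructor
  · intro h
    have h' := (H2π_eq_zero_iff _).1 h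
    exact isMulCoboundary₂_of_mem_coboundaries₂ _ h'
  · intro h
    exact (H2π_eq_zero_iff _).2 (coboundariesOfIsMulCoboundary₂ h).2

end cocycle

section partialNorm

variable {K L : Type} [Field K] [Field L] [Algebra K L]

/-- The partial norm `∏_{k < i} φ^k(y)`. -/
noncomputable def partialNorm (φ : L ≃ₐ[K] L) (y : Lˣ) (i : ℕ) : Lˣ :=
  ∏ k ∈ Finset.range i, (φ ^ k) • y

theorem partialNorm_zero (φ : L ≃ₐ[K] L) (y : Lˣ) : partialNorm φ y 0 = 1 := by
  simp [partialNorm]

theorem partialNorm_succ (φ : L ≃ₐ[K] L) (y : Lˣ) (i : ℕ) :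
    partialNorm φ y (i + 1) = partialNorm φ y i * (φ ^ i) • y := by
  simp [partialNorm, Finset.prod_range_succ]

theorem partialNorm_add (φ : L ≃ₐ[K] L) (y : Lˣ) (i j : ℕ) :
    partialNorm φ y (i + j) = partialNorm φ y i * (φ ^ i) • partialNorm φ y j := by
  induction j with
  | zero => simp [partialNorm_zero]
  | succ j ih =>
    rw [← add_assoc, partialNorm_succ, ih, partialNorm_succ, smul_mul', mul_assoc, ← mul_smul,
      ← pow_add]

theorem partialNorm_orderOf [FiniteDimensional K L] [IsGalois K L] (φ : L ≃ₐ[K] L)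
    (hφ : ∀ σ : L ≃ₐ[K] L, σ ∈ Subgroup.zpowers φ) (y : Lˣ) :
    partialNorm φ y (orderOf φ) = Units.map (algebraMap K L : K →* L) (normUnits K L y) := by
  ext
  simp only [partialNorm, normUnits, Units.coe_map, MonoidHom.coe_coe, Units.coe_prod,
    AlgEquiv.smul_units_def]
  rw [Algebra.norm_eq_prod_automorphisms]
  refine Finset.prod_nbij (fun k => φ ^ k) (fun _ _ => Finset.mem_univ _) ?_ ?_ (fun _ _ => rfl)
  · intro a ha b hb hab
    simp only [Finset.coe_range, Set.mem_Iio] at ha hb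
    exact pow_injOn_Iio_orderOf ha hb hab
  · intro σ _
    refine ⟨dlogAut K L φ σ, ?_, pow_dlogAut (hφ σ)⟩
    simp only [Finset.coe_range, Set.mem_Iio]
    exact dlogAut_lt φ σ (hφ σ)

theorem smul_partialNorm_orderOf [FiniteDimensional K L] [IsGalois K L] (φ : L ≃ₐ[K] L)
    (hφ : ∀ σ : L ≃ₐ[K] L, σ ∈ Subgroup.zpowers φ) (y : Lˣ) (σ : L ≃ₐ[K] L) :
    σ • partialNorm φ y (orderOf φ) = partialNorm φ y (orderOf φ) := by
  rw [partialNorm_orderOf φ hφ, smul_algebraMap_unit]

theorem partialNorm_mul_add (φ : L ≃ₐ[K] L) (y : Lˣ) (q r : ℕ) :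
    partialNorm φ y (orderOf φ * q + r) = partialNorm φ y (orderOf φ) ^ q * partialNorm φ y r := by
  induction q with
  | zero => simp
  | succ q ih =>
    rw [show orderOf φ * (q + 1) + r = orderOf φ + (orderOf φ * q + r) by ring, partialNorm_add,
      pow_orderOf_eq_one, one_smul, ih, pow_succ']
    rw [mul_assoc]

end partialNorm

section main

variable (K L : Type) [Field K] [Field L] [Algebra K L] [FiniteDimensional K L] [IsGalois K L]

theorem isMulCoboundary₂_cyclicCochain_of_norm (φ : L ≃ₐ[K] L)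
    (hφ : ∀ σ : L ≃ₐ[K] L, σ ∈ Subgroup.zpowers φ) (y : Lˣ) :
    IsMulCoboundary₂ (cyclicCochain K L φ (normUnits K L y)) := by
  refine ⟨fun σ => partialNorm φ y (dlogAut K L φ σ), fun g h => ?_⟩
  have hg := pow_dlogAut (hφ g)
  have key : partialNorm φ y (dlogAut K L φ g) * g • partialNorm φ y (dlogAut K L φ h)
      = partialNorm φ y (orderOf φ) ^ ((dlogAut K L φ g + dlogAut K L φ h) / orderOf φ)
        * partialNorm φ y (dlogAut K L φ (g * h)) := by
    have h1 : partialNorm φ y (dlogAut K L φ g) * g • partialNorm φ y (dlogAut K L φ h)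
        = partialNorm φ y (dlogAut K L φ g + dlogAut K L φ h) := by
      rw [partialNorm_add, hg]
    rw [h1, dlogAut_mul φ g h (hφ g) (hφ h), ← partialNorm_mul_add φ, Nat.div_add_mod]
  simp only [cyclicCochain]
  rw [← partialNorm_orderOf φ hφ, div_mul_eq_mul_div, div_eq_iff_eq_mul, mul_comm, key]

theorem norm_of_isMulCoboundary₂_cyclicCochain (φ : L ≃ₐ[K] L)
    (hφ : ∀ σ : L ≃ₐ[K] L, σ ∈ Subgroup.zpowers φ) (b : Kˣ)
    (h : IsMulCoboundary₂ (cyclicCochain K L φ b)) : b ∈ (normUnits K L).range := by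
  obtain ⟨x, hx⟩ := h
  have hn : orderOf φ = Module.finrank K L := by
    rw [orderOf_eq_card_of_forall_mem_zpowers hφ, IsGalois.card_aut_eq_finrank]
  have hpos : 0 < orderOf φ := orderOf_pos φ
  rcases Nat.lt_or_ge 1 (orderOf φ) with h2 | h1
  · -- `n ≥ 2`
    set bL : Lˣ := Units.map (algebraMap K L : K →* L) b with hbL
    have hd1 : dlogAut K L φ φ = 1 := by
      have := dlogAut_pow φ 1
      rw [pow_one, Nat.mod_eq_of_lt h2] at this
      exact this
    have hrel : ∀ i : ℕ, i < orderOf φ →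
        x (φ ^ (i + 1)) * bL ^ ((i + 1) / orderOf φ) = (φ ^ i) • x φ * x (φ ^ i) := by
      intro i hi
      have := hx (φ ^ i) φ
      simp only [cyclicCochain] at this
      rw [dlogAut_pow, Nat.mod_eq_of_lt hi, hd1, ← pow_succ, ← hbL] at this
      rw [← this]
      rw [div_mul_eq_mul_div, mul_comm (x (φ ^ (i + 1))), div_mul_cancel]
    have claim : ∀ i : ℕ, i ≤ orderOf φ →
        x (φ ^ i) * bL ^ (i / orderOf φ) = x 1 * partialNorm φ (x φ) i := by
      intro i
      induction i with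
      | zero => intro _; simp [partialNorm_zero]
      | succ i ih =>
        intro hi
        have hi' : i < orderOf φ := hi
        have h0 := ih hi'.le
        rw [Nat.div_eq_of_lt hi', pow_zero, mul_one] at h0
        rw [hrel i hi', h0, partialNorm_succ]
        rw [mul_comm, mul_assoc]
    have hfin := claim (orderOf φ) le_rfl
    rw [pow_orderOf_eq_one, Nat.div_self hpos, pow_one, mul_right_inj,
      partialNorm_orderOf φ hφ] at hfin
    refine ⟨x φ, ?_⟩
    have hinj : Function.Injective (Units.map (algebraMap K L : K →* L)) :=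
      Units.map_injective (algebraMap K L).injective
    exact hinj hfin.symm
  · -- `n = 1`
    have hn1 : Module.finrank K L = 1 := by omega
    refine ⟨Units.map (algebraMap K L : K →* L) b, ?_⟩
    ext
    simp [normUnits, Algebra.norm_algebraMap, hn1]

/-- **LOC-3 (b)**: the cyclic class `(χ_φ, b)` is trivial iff `b` is a norm.  Pure algebra: valid
for every finite Galois extension of fields with Galois group generated by `φ`. -/
theorem cyclicClass_eq_zero_iff_norm (φ : L ≃ₐ[K] L)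
    (hφ : ∀ σ : L ≃ₐ[K] L, σ ∈ Subgroup.zpowers φ) (b : Kˣ) :
    cyclicClass K L φ b = 0 ↔ b ∈ (normUnits K L).range := by
  rw [cyclicClass_eq_zero_iff_isMulCoboundary₂ φ hφ b]
  constructor
  · exact norm_of_isMulCoboundary₂_cyclicCochain K L φ hφ b
  · rintro ⟨y, rfl⟩
    exact isMulCoboundary₂_cyclicCochain_of_norm K L φ hφ y

end main

section interface

variable (q : ℕ) [Fact q.Prime]
variable (K : Type) [Field K] [Algebra ℚ_[q] K] [FiniteDimensional ℚ_[q] K]
variable (L : Type) [Field L] [Algebra K L] [FiniteDimensional K L] [IsGalois K L]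

set_option linter.unusedSectionVars false in
include q in
/-- the cyclic class `(χ_φ, b)` is trivial iff `b` is a norm
(VERBATIM statement of `helper8.Interface.cyclicClass_eq_zero_iff`). -/
theorem cyclicClass_eq_zero_iff (φ : L ≃ₐ[K] L) (hφ : ∀ σ : L ≃ₐ[K] L, σ ∈ Subgroup.zpowers φ)
    (b : Kˣ) : cyclicClass K L φ b = 0 ↔ b ∈ (normUnits K L).range :=
  cyclicClass_eq_zero_iff_norm K L φ hφ b

end interface

end Fermat.Agent.S55.helper31
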