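import Fermat.Agent.S55.helper13_LocDualTools
import Fermat.Agent.S55.helper31_CyclicClass

/-!
# S55 / LOC-9 (helper13): assembly of `LocalDuality` (conditional form)

`nonempty_localDuality_of_input : ζ ^ p = 1 → LocDualInput I q p K Ω ζ →
  Nonempty (LocalDuality I q p K Ω ζ)`

where `LocDualInput` bundles the statements of LOC-7a/b/c/d and LOC-3 (verbatim from the LOC
interface of helper8, specialised to the given `q p K Ω ζ`).  Everything else (construction of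
`inv` on level 2-cocycles via finite levels, independence of the level, linearity, extension to
all cochains, (I1), non-degeneracy (I2) via the symbol `(χ, b)` and the norm index of the cyclic
degree-`p` extension cut out by `χ`) is proved here.
-/

set_option autoImplicit false
set_option linter.unusedSectionVars false
set_option linter.style.haveILetI false

namespace Fermat.Agent.S55.helper13

open CategoryTheory groupCohomology Fermat.Agent.S55 Fermat.Agent.S55.helper8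
  Fermat.Agent.S55.helper11

section levels

variable (I : LocInv) (q : ℕ) [Fact q.Prime] (p : ℕ) [Fact p.Prime]
  (K Ω : Type) [Field K] [Field Ω] [Algebra ℚ_[q] K] [FiniteDimensional ℚ_[q] K]
  [Algebra K Ω] [IsAlgClosure K Ω] (ζ : Kˣ)

include q in
lemma charZero_of_padic : CharZero K :=
  charZero_of_injective_algebraMap (algebraMap ℚ_[q] K).injective

lemma normal_top : Normal K Ω := IsAlgClosure.normal K Ω

/-- inflation of 2-cochains from a finite level -/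
noncomputable def infl (L : IntermediateField K Ω) [Normal K L] {X : Type*}
    (c : (L ≃ₐ[K] L) × (L ≃ₐ[K] L) → X) : (Ω ≃ₐ[K] Ω) × (Ω ≃ₐ[K] Ω) → X :=
  fun g => c (AlgEquiv.restrictNormalHom L g.1, AlgEquiv.restrictNormalHom L g.2)

lemma res_surjective (L : IntermediateField K Ω) [Normal K L] :
    Function.Surjective (AlgEquiv.restrictNormalHom (F := K) (K₁ := Ω) L) :=
  haveI := normal_top K Ω
  AlgEquiv.restrictNormalHom_surjective Ω

lemma infl_injective (L : IntermediateField K Ω) [Normal K L] {X : Type*}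
    (c c' : (L ≃ₐ[K] L) × (L ≃ₐ[K] L) → X) (h : infl K Ω L c = infl K Ω L c') : c = c' := by
  funext ⟨g₁, g₂⟩
  obtain ⟨σ₁, rfl⟩ := res_surjective K Ω L g₁
  obtain ⟨σ₂, rfl⟩ := res_surjective K Ω L g₂
  exact congrFun h (σ₁, σ₂)

include q in
/-- every finite subextension is contained in a finite Galois one -/
lemma exists_finGal (E : IntermediateField K Ω) [FiniteDimensional K E] :
    ∃ (L : IntermediateField K Ω) (_ : FiniteDimensional K L) (_ : IsGalois K L), E ≤ L := by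
  haveI := normal_top K Ω
  haveI := charZero_of_padic q K
  refine ⟨IntermediateField.normalClosure K E Ω, inferInstance, ?_, E.le_normalClosure⟩
  haveI : Normal K (IntermediateField.normalClosure K E Ω) := inferInstance
  exact ⟨⟩

include q in
lemma exists_finGal₂ (E₁ E₂ : IntermediateField K Ω) [FiniteDimensional K E₁]
    [FiniteDimensional K E₂] :
    ∃ (L : IntermediateField K Ω) (_ : FiniteDimensional K L) (_ : IsGalois K L),
      E₁ ≤ L ∧ E₂ ≤ L := by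
  obtain ⟨L, h1, h2, h3⟩ := exists_finGal q K Ω (E₁ ⊔ E₂)
  exact ⟨L, h1, h2, le_sup_left.trans h3, le_sup_right.trans h3⟩

/-- restriction `Gal(L/K) → Gal(L₁/K)` for `L₁ ≤ L` -/
noncomputable def resLL (L₁ L : IntermediateField K Ω) [Normal K L₁] (h : L₁ ≤ L) :
    (L ≃ₐ[K] L) →* (L₁ ≃ₐ[K] L₁) :=
  letI : Algebra L₁ L := (IntermediateField.inclusion h).toRingHom.toAlgebra
  haveI : IsScalarTower K L₁ L := IsScalarTower.of_algebraMap_eq (fun _ => rfl)
  locHom K L₁ K L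

lemma resLL_res (L₁ L : IntermediateField K Ω) [Normal K L₁] [Normal K L] (h : L₁ ≤ L)
    (σ : Ω ≃ₐ[K] Ω) :
    resLL K Ω L₁ L h (AlgEquiv.restrictNormalHom L σ) = AlgEquiv.restrictNormalHom L₁ σ := by
  letI : Algebra L₁ L := (IntermediateField.inclusion h).toRingHom.toAlgebra
  haveI : IsScalarTower K L₁ L := IsScalarTower.of_algebraMap_eq (fun _ => rfl)
  haveI : IsScalarTower L₁ L Ω := IsScalarTower.of_algebraMap_eq (fun _ => rfl)
  exact locHom_restrictNormalHom K L₁ L Ω σ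

lemma infl_resLL (L₁ L : IntermediateField K Ω) [Normal K L₁] [Normal K L] (h : L₁ ≤ L)
    {X : Type*} (c : (L₁ ≃ₐ[K] L₁) × (L₁ ≃ₐ[K] L₁) → X) :
    infl K Ω L (fun g => c (resLL K Ω L₁ L h g.1, resLL K Ω L₁ L h g.2)) = infl K Ω L₁ c := by
  funext g
  simp only [infl, resLL_res]

include q in
lemma Jinv_resLL (L₁ L : IntermediateField K Ω) [FiniteDimensional K L₁] [IsGalois K L₁]
    [FiniteDimensional K L] [IsGalois K L] (h : L₁ ≤ L) (hζ : ζ ^ p = 1)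
    (c : (L₁ ≃ₐ[K] L₁) × (L₁ ≃ₐ[K] L₁) → ZMod p)
    (hc : c ∈ LinearMap.ker (d₂₃ (Rep.trivial (ZMod p) (L₁ ≃ₐ[K] L₁) (ZMod p))).hom) :
    Jinv I q p K L ζ (fun g => c (resLL K Ω L₁ L h g.1, resLL K Ω L₁ L h g.2)) =
      Jinv I q p K L₁ ζ c := by
  letI : Algebra L₁ L := (IntermediateField.inclusion h).toRingHom.toAlgebra
  haveI : IsScalarTower K L₁ L := IsScalarTower.of_algebraMap_eq (fun _ => rfl)
  exact Jinv_inflation I q p K L₁ L ζ hζ c ((mem_ker_d₂₃_trivial_iff c).1 hc)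

lemma mem_ker_comp {G H : Type} [Group G] [Group H] (f : G →* H) (c : H × H → ZMod p)
    (hc : c ∈ LinearMap.ker (d₂₃ (Rep.trivial (ZMod p) H (ZMod p))).hom) :
    (fun g : G × G => c (f g.1, f g.2)) ∈
      LinearMap.ker (d₂₃ (Rep.trivial (ZMod p) G (ZMod p))).hom := by
  rw [mem_ker_d₂₃_trivial_iff] at hc ⊢
  intro g h j
  simp only [map_mul]
  exact hc _ _ _

end levels

section Jinv

variable (I : LocInv) (q : ℕ) [Fact q.Prime] (p : ℕ) [Fact p.Prime]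
  (K L : Type) [Field K] [Field L] [Algebra ℚ_[q] K] [FiniteDimensional ℚ_[q] K]
  [Algebra K L] [FiniteDimensional K L] [IsGalois K L] (ζ : Kˣ) (hζ : ζ ^ p = 1)

include hζ in
lemma units_map_pow_eq_one : (Units.map (algebraMap K L : K →* L) ζ) ^ p = 1 := by
  rw [← map_pow, hζ, map_one]

include hζ in
lemma isMulCocycle₂_zeta (c : (L ≃ₐ[K] L) × (L ≃ₐ[K] L) → ZMod p)
    (hc : c ∈ LinearMap.ker (d₂₃ (Rep.trivial (ZMod p) (L ≃ₐ[K] L) (ZMod p))).hom) :
    IsMulCocycle₂ (zetaCochain p (Units.map (algebraMap K L : K →* L) ζ) c) :=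
  isMulCocycle₂_zetaCochain p _ (units_map_pow_eq_one p K L ζ hζ) (units_map_fix K L ζ) c
    ((mem_ker_d₂₃_trivial_iff c).1 hc)

include hζ in
lemma Jinv_add (c₁ c₂ : (L ≃ₐ[K] L) × (L ≃ₐ[K] L) → ZMod p)
    (hc₁ : c₁ ∈ LinearMap.ker (d₂₃ (Rep.trivial (ZMod p) (L ≃ₐ[K] L) (ZMod p))).hom)
    (hc₂ : c₂ ∈ LinearMap.ker (d₂₃ (Rep.trivial (ZMod p) (L ≃ₐ[K] L) (ZMod p))).hom) :
    Jinv I q p K L ζ (c₁ + c₂) = Jinv I q p K L ζ c₁ + Jinv I q p K L ζ c₂ := by
  unfold Jinv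
  rw [zetaCochain_add p _ (units_map_pow_eq_one p K L ζ hζ),
    mulClass_mul K L (isMulCocycle₂_zeta p K L ζ hζ c₁ hc₁)
      (isMulCocycle₂_zeta p K L ζ hζ c₂ hc₂), map_add]

include hζ in
lemma Jinv_torsion (c : (L ≃ₐ[K] L) × (L ≃ₐ[K] L) → ZMod p)
    (hc : c ∈ LinearMap.ker (d₂₃ (Rep.trivial (ZMod p) (L ≃ₐ[K] L) (ZMod p))).hom) :
    p • Jinv I q p K L ζ c = 0 := by
  unfold Jinv
  rw [← map_nsmul, ← mulClass_pow K L (isMulCocycle₂_zeta p K L ζ hζ c hc),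
    zetaCochain_pow p _ (units_map_pow_eq_one p K L ζ hζ), mulClass_one, map_zero]

include hζ in
lemma Jinv_d₁₂ (b : (L ≃ₐ[K] L) → ZMod p) :
    Jinv I q p K L ζ ((d₁₂ (Rep.trivial (ZMod p) (L ≃ₐ[K] L) (ZMod p))).hom b) = 0 := by
  unfold Jinv
  rw [mulClass_eq_zero_of_isMulCoboundary₂, map_zero]
  exact isMulCoboundary₂_zetaCochain p _ (units_map_pow_eq_one p K L ζ hζ)
    (units_map_fix K L ζ) _ b (fun g h => d₁₂_trivial_apply b g h)

include hζ in
lemma exists_qz_eq_Jinv (c : (L ≃ₐ[K] L) × (L ≃ₐ[K] L) → ZMod p)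
    (hc : c ∈ LinearMap.ker (d₂₃ (Rep.trivial (ZMod p) (L ≃ₐ[K] L) (ZMod p))).hom) :
    ∃ r : ZMod p, qz p r = Jinv I q p K L ζ c :=
  exists_qz_eq p _ (Jinv_torsion I q p K L ζ hζ c hc)

end Jinv

section Rel

variable (I : LocInv) (q : ℕ) [Fact q.Prime] (p : ℕ) [Fact p.Prime]
  (K Ω : Type) [Field K] [Field Ω] [Algebra ℚ_[q] K] [FiniteDimensional ℚ_[q] K]
  [Algebra K Ω] [IsAlgClosure K Ω] (ζ : Kˣ) (hζ : ζ ^ p = 1)

/-- `Rel c r`: the cochain `c` is inflated from a finite-level cocycle `c'` such that the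
class `[ζ ^ c']` has invariant `r / p`. -/
def Rel (c : (Ω ≃ₐ[K] Ω) × (Ω ≃ₐ[K] Ω) → ZMod p) (r : ZMod p) : Prop :=
  ∃ (L : IntermediateField K Ω) (_ : FiniteDimensional K L) (_ : IsGalois K L)
    (c' : (L ≃ₐ[K] L) × (L ≃ₐ[K] L) → ZMod p),
    c' ∈ LinearMap.ker (d₂₃ (Rep.trivial (ZMod p) (L ≃ₐ[K] L) (ZMod p))).hom ∧
    c = infl K Ω L c' ∧ qz p r = Jinv I q p K L ζ c'

include hζ in
/-- two factorisations of the same cochain can be compared at a common level -/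
lemma exists_common (L₁ L₂ : IntermediateField K Ω) [FiniteDimensional K L₁] [IsGalois K L₁]
    [FiniteDimensional K L₂] [IsGalois K L₂]
    (c₁ : (L₁ ≃ₐ[K] L₁) × (L₁ ≃ₐ[K] L₁) → ZMod p)
    (hc₁ : c₁ ∈ LinearMap.ker (d₂₃ (Rep.trivial (ZMod p) (L₁ ≃ₐ[K] L₁) (ZMod p))).hom)
    (c₂ : (L₂ ≃ₐ[K] L₂) × (L₂ ≃ₐ[K] L₂) → ZMod p)
    (hc₂ : c₂ ∈ LinearMap.ker (d₂₃ (Rep.trivial (ZMod p) (L₂ ≃ₐ[K] L₂) (ZMod p))).hom) :
    ∃ (L : IntermediateField K Ω) (_ : FiniteDimensional K L) (_ : IsGalois K L)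
      (d₁ d₂ : (L ≃ₐ[K] L) × (L ≃ₐ[K] L) → ZMod p),
      d₁ ∈ LinearMap.ker (d₂₃ (Rep.trivial (ZMod p) (L ≃ₐ[K] L) (ZMod p))).hom ∧
      d₂ ∈ LinearMap.ker (d₂₃ (Rep.trivial (ZMod p) (L ≃ₐ[K] L) (ZMod p))).hom ∧
      infl K Ω L d₁ = infl K Ω L₁ c₁ ∧ infl K Ω L d₂ = infl K Ω L₂ c₂ ∧
      Jinv I q p K L ζ d₁ = Jinv I q p K L₁ ζ c₁ ∧
      Jinv I q p K L ζ d₂ = Jinv I q p K L₂ ζ c₂ := by
  obtain ⟨L, hfd, hgal, h1, h2⟩ := exists_finGal₂ q K Ω L₁ L₂
  refine ⟨L, hfd, hgal, fun g => c₁ (resLL K Ω L₁ L h1 g.1, resLL K Ω L₁ L h1 g.2),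
    fun g => c₂ (resLL K Ω L₂ L h2 g.1, resLL K Ω L₂ L h2 g.2),
    mem_ker_comp p _ c₁ hc₁, mem_ker_comp p _ c₂ hc₂, infl_resLL K Ω L₁ L h1 c₁,
    infl_resLL K Ω L₂ L h2 c₂, Jinv_resLL I q p K Ω ζ L₁ L h1 hζ c₁ hc₁,
    Jinv_resLL I q p K Ω ζ L₂ L h2 hζ c₂ hc₂⟩

include hζ in
lemma Rel.unique {c : (Ω ≃ₐ[K] Ω) × (Ω ≃ₐ[K] Ω) → ZMod p} {r r' : ZMod p}
    (h : Rel I q p K Ω ζ c r) (h' : Rel I q p K Ω ζ c r') : r = r' := by
  obtain ⟨L₁, hfd₁, hgal₁, c₁, hc₁, rfl, hr₁⟩ := h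
  obtain ⟨L₂, hfd₂, hgal₂, c₂, hc₂, h₂, hr₂⟩ := h'
  obtain ⟨L, hfd, hgal, d₁, d₂, -, -, hi₁, hi₂, hJ₁, hJ₂⟩ :=
    exists_common I q p K Ω ζ hζ L₁ L₂ c₁ hc₁ c₂ hc₂
  have : d₁ = d₂ := infl_injective K Ω L d₁ d₂ (by rw [hi₁, hi₂, h₂])
  apply qz_injective p
  rw [hr₁, hr₂, ← hJ₁, ← hJ₂, this]

include hζ in
lemma Rel.add {c c' : (Ω ≃ₐ[K] Ω) × (Ω ≃ₐ[K] Ω) → ZMod p} {r r' : ZMod p}
    (h : Rel I q p K Ω ζ c r) (h' : Rel I q p K Ω ζ c' r') :
    Rel I q p K Ω ζ (c + c') (r + r') := by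
  obtain ⟨L₁, hfd₁, hgal₁, c₁, hc₁, rfl, hr₁⟩ := h
  obtain ⟨L₂, hfd₂, hgal₂, c₂, hc₂, rfl, hr₂⟩ := h'
  obtain ⟨L, hfd, hgal, d₁, d₂, hd₁, hd₂, hi₁, hi₂, hJ₁, hJ₂⟩ :=
    exists_common I q p K Ω ζ hζ L₁ L₂ c₁ hc₁ c₂ hc₂
  refine ⟨L, hfd, hgal, d₁ + d₂, Submodule.add_mem _ hd₁ hd₂, ?_, ?_⟩
  · rw [← hi₁, ← hi₂]
    rfl
  · rw [map_add, hr₁, hr₂, Jinv_add I q p K L ζ hζ d₁ d₂ hd₁ hd₂, hJ₁, hJ₂]

include hζ in
lemma Rel.of_factor (L : IntermediateField K Ω) [FiniteDimensional K L] [IsGalois K L]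
    (c' : (L ≃ₐ[K] L) × (L ≃ₐ[K] L) → ZMod p)
    (hc' : c' ∈ LinearMap.ker (d₂₃ (Rep.trivial (ZMod p) (L ≃ₐ[K] L) (ZMod p))).hom) :
    ∃ r : ZMod p, qz p r = Jinv I q p K L ζ c' ∧ Rel I q p K Ω ζ (infl K Ω L c') r := by
  obtain ⟨r, hr⟩ := exists_qz_eq_Jinv I q p K L ζ hζ c' hc'
  exact ⟨r, hr, L, inferInstance, inferInstance, c', hc', rfl, hr⟩

end Rel

section chi

variable {G : Type*} [Group G] {M : Type*} [CommGroup M] [MulDistribMulAction G M]

lemma val_toAdd_mul (N : ℕ) [NeZero N] (χ : G →* Multiplicative (ZMod N)) (g h : G) :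
    (Multiplicative.toAdd (χ (g * h))).val =
      ((Multiplicative.toAdd (χ g)).val + (Multiplicative.toAdd (χ h)).val) % N := by
  rw [map_mul, toAdd_mul, ZMod.val_add]

lemma isMulCocycle₂_chiCochain' (N : ℕ) [NeZero N] (χ : G →* Multiplicative (ZMod N)) (b : M)
    (hb : ∀ g : G, g • b = b) : IsMulCocycle₂ (chiCochain N χ b) := by
  intro g h j
  simp only [chiCochain]
  rw [smul_pow', hb, ← pow_add, ← pow_add, val_toAdd_mul, val_toAdd_mul,
    helper31.floor_assoc]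

end chi

section chiInfl

variable (I : LocInv) (q : ℕ) [Fact q.Prime] (p : ℕ) [NeZero p]
  (K L L' : Type) [Field K] [Field L] [Field L']
  [Algebra ℚ_[q] K] [FiniteDimensional ℚ_[q] K]
  [Algebra K L] [Algebra K L'] [Algebra L L'] [IsScalarTower K L L']
  [FiniteDimensional K L] [FiniteDimensional K L'] [IsGalois K L] [IsGalois K L']

lemma locHom_self_eq : locHom K L K L' = AlgEquiv.restrictNormalHom L := by
  ext σ x
  rfl

lemma locCochain_chiCochain (χ : (L ≃ₐ[K] L) →* Multiplicative (ZMod p)) (b : Kˣ) :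
    locCochain K L K L' (chiCochain p χ (Units.map (algebraMap K L : K →* L) b)) =
      chiCochain p (χ.comp (locHom K L K L')) (Units.map (algebraMap K L' : K →* L') b) := by
  funext g
  simp only [locCochain_apply, chiCochain, map_pow, MonoidHom.comp_apply]
  congr 1
  apply Units.ext
  exact (IsScalarTower.algebraMap_apply K L L' _).symm

include q in
lemma inv_chiClass_inflation (χ : (L ≃ₐ[K] L) →* Multiplicative (ZMod p)) (b : Kˣ) :
    I.inv q K L' (chiClass K L' p (χ.comp (locHom K L K L')) b) =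
      I.inv q K L (chiClass K L p χ b) := by
  unfold chiClass
  have hcoc : IsMulCocycle₂ (chiCochain p χ (Units.map (algebraMap K L : K →* L) b)) :=
    isMulCocycle₂_chiCochain' p χ _ (fun σ => units_map_fix K L b σ)
  rw [← locCochain_chiCochain, ← locH_mulClass K L K L' hcoc]
  have := I.baseChange q K L K L'
    (mulClass K L (chiCochain p χ (Units.map (algebraMap K L : K →* L) b)))
  rw [this, Module.finrank_self, one_smul]

end chiInfl

section cyclicDegP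

variable (p : ℕ) [Fact p.Prime]
  (K E : Type) [Field K] [Field E] [Algebra K E] [FiniteDimensional K E] [IsGalois K E]

/-- for an injective nontrivial character `χ : Gal(E/K) → ℤ/p`, some symbol `(χ, b)` is
nonzero as soon as the norm index of cyclic extensions is the degree -/
lemma exists_chiClass_ne_zero_of_injective
    (hnorm : ∀ [IsCyclic (E ≃ₐ[K] E)],
      Nat.card (Kˣ ⧸ (normUnits K E).range) = Module.finrank K E)
    (χ : (E ≃ₐ[K] E) →* Multiplicative (ZMod p)) (hinj : Function.Injective χ)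
    (hne : χ ≠ 1) : ∃ b : Kˣ, chiClass K E p χ b ≠ 0 := by
  have hp : p.Prime := Fact.out
  -- a generator
  obtain ⟨σ₀, hσ₀⟩ : ∃ σ₀, χ σ₀ ≠ 1 := by
    by_contra h
    exact hne (MonoidHom.ext fun σ => not_not.1 (not_exists.1 h σ))
  set a : ZMod p := Multiplicative.toAdd (χ σ₀) with ha
  have ha0 : a ≠ 0 := fun h => hσ₀ (by
    have : χ σ₀ = Multiplicative.ofAdd a := rfl
    rw [this, h]; rfl)
  set φ : E ≃ₐ[K] E := σ₀ ^ (a⁻¹).val with hφdef
  have hχφ : χ φ = Multiplicative.ofAdd 1 := by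
    rw [hφdef, map_pow]
    have : χ σ₀ = Multiplicative.ofAdd a := rfl
    rw [this, ← ofAdd_nsmul, nsmul_eq_mul, ZMod.natCast_zmod_val, inv_mul_cancel₀ ha0]
  have hpow : ∀ σ : E ≃ₐ[K] E, φ ^ (Multiplicative.toAdd (χ σ)).val = σ := by
    intro σ
    apply hinj
    rw [map_pow, hχφ, ← ofAdd_nsmul, nsmul_eq_mul, mul_one, ZMod.natCast_zmod_val]
    rfl
  have hgen : ∀ σ : E ≃ₐ[K] E, σ ∈ Subgroup.zpowers φ := fun σ =>
    ⟨((Multiplicative.toAdd (χ σ)).val : ℤ), by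
      simp only [zpow_natCast]
      exact hpow σ⟩
  have hφ1 : φ ≠ 1 := by
    intro h
    rw [h, map_one] at hχφ
    have : (1 : ZMod p) = 0 := (Multiplicative.ofAdd.injective hχφ).symm
    exact one_ne_zero this
  have hφp : φ ^ p = 1 := by
    apply hinj
    rw [map_pow, hχφ, ← ofAdd_nsmul, nsmul_eq_mul, mul_one, ZMod.natCast_self, map_one]
    rfl
  have hord : orderOf φ = p := by
    have hdvd : orderOf φ ∣ p := orderOf_dvd_of_pow_eq_one hφp
    rcases (Nat.dvd_prime hp).1 hdvd with h | h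
    · exact absurd (orderOf_eq_one_iff.1 h) hφ1
    · exact h
  have hdlog : ∀ σ : E ≃ₐ[K] E, dlogAut K E φ σ = (Multiplicative.toAdd (χ σ)).val := by
    intro σ
    conv_lhs => rw [← hpow σ]
    rw [helper31.dlogAut_pow, hord]
    exact Nat.mod_eq_of_lt (ZMod.val_lt _)
  have hcoch : ∀ b : Kˣ, chiCochain p χ (Units.map (algebraMap K E : K →* E) b) =
      cyclicCochain K E φ b := by
    intro b
    funext g
    simp only [chiCochain, cyclicCochain, hdlog, hord]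
  have hclass : ∀ b : Kˣ, chiClass K E p χ b = cyclicClass K E φ b := by
    intro b
    rw [cyclicClass_eq_mulClass, ← hcoch b]
    rfl
  haveI : IsCyclic (E ≃ₐ[K] E) := ⟨φ, hgen⟩
  by_contra hall
  have hall : ∀ b : Kˣ, chiClass K E p χ b = 0 := fun b => not_not.1 (not_exists.1 hall b)
  have hsurj : (normUnits K E).range = ⊤ := by
    rw [eq_top_iff]
    intro b _
    have := hall b
    rw [hclass b] at this
    exact (helper31.cyclicClass_eq_zero_iff_norm K E φ hgen b).1 this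
  have hcard := hnorm
  rw [hsurj] at hcard
  have h1 : Nat.card (Kˣ ⧸ (⊤ : Subgroup Kˣ)) = 1 := by
    rw [Nat.card_eq_one_iff_unique]
    exact ⟨QuotientGroup.subsingleton_quotient_top, inferInstance⟩
  rw [h1] at hcard
  have h2 : Nat.card (E ≃ₐ[K] E) = 1 := by
    rw [IsGalois.card_aut_eq_finrank, ← hcard]
  have h3 : orderOf φ = 1 := by
    rw [orderOf_eq_card_of_forall_mem_zpowers hgen, h2]
  rw [hord] at h3
  exact hp.one_lt.ne' h3

end cyclicDegP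

section descent

variable (I : LocInv) (q : ℕ) [Fact q.Prime] (p : ℕ) [Fact p.Prime]
  (K L : Type) [Field K] [Field L] [Algebra ℚ_[q] K] [FiniteDimensional ℚ_[q] K]
  [Algebra K L] [FiniteDimensional K L] [IsGalois K L]

include q in
/-- for a nontrivial character `χ : Gal(L/K) → ℤ/p`, some symbol `(χ, b)` has nonzero
invariant -/
lemma exists_inv_chiClass_ne_zero
    (hnorm : ∀ (E : Type) [Field E] [Algebra K E] [FiniteDimensional K E] [IsGalois K E]
      [IsCyclic (E ≃ₐ[K] E)], Nat.card (Kˣ ⧸ (normUnits K E).range) = Module.finrank K E)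
    (χ : (L ≃ₐ[K] L) →* Multiplicative (ZMod p)) (hne : χ ≠ 1) :
    ∃ b : Kˣ, I.inv q K L (chiClass K L p χ b) ≠ 0 := by
  set H : Subgroup (L ≃ₐ[K] L) := χ.ker with hH
  set E : IntermediateField K L := IntermediateField.fixedField H with hE
  set e := IsGalois.normalAutEquivQuotient H with he
  set χ' : (E ≃ₐ[K] E) →* Multiplicative (ZMod p) :=
    (QuotientGroup.kerLift χ).comp e.symm.toMonoidHom with hχ'
  have hcomp : χ'.comp (locHom K E K L) = χ := by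
    ext σ
    rw [locHom_self_eq]
    simp only [hχ', MonoidHom.comp_apply]
    have : AlgEquiv.restrictNormalHom E σ = e (QuotientGroup.mk σ) :=
      (IsGalois.normalAutEquivQuotient_apply H σ).symm
    rw [this]
    simp only [MulEquiv.toMonoidHom_eq_coe, MonoidHom.coe_coe, MulEquiv.symm_apply_apply]
    exact QuotientGroup.kerLift_mk χ σ
  have hinj : Function.Injective χ' := by
    rw [hχ']
    exact (QuotientGroup.kerLift_injective χ).comp e.symm.injective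
  have hne' : χ' ≠ 1 := by
    intro h
    apply hne
    rw [← hcomp, h]
    rfl
  obtain ⟨b, hb⟩ := exists_chiClass_ne_zero_of_injective p K E (hnorm E) χ' hinj hne'
  refine ⟨b, ?_⟩
  have := inv_chiClass_inflation I q p K E L χ' b
  rw [hcomp] at this
  rw [this]
  intro h0
  apply hb
  apply I.injective q K E
  rw [h0, map_zero]

end descent


section input

variable (I : LocInv) (q : ℕ) [Fact q.Prime] (p : ℕ) [Fact p.Prime]
  (K Ω : Type) [Field K] [Field Ω] [Algebra ℚ_[q] K] [FiniteDimensional ℚ_[q] K]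
  [Algebra K Ω] [IsAlgClosure K Ω] (ζ : Kˣ)

/-- THE INPUT OF LOC-9: the statements of LOC-7a/b/c/d and LOC-3 (verbatim from
`helper8_LocInterface2` / `helper8_LocInterface`, specialised to `q p K Ω ζ`) that the assembly
of `LocalDuality` consumes. -/
structure LocDualInput : Prop where
  /-- LOC-7d `exists_factor_Z1` -/
  factor_Z1 : ∀ x : (Ω ≃ₐ[K] Ω) → ZMod p,
    x ∈ Z1 (galLevels K Ω) (Rep.trivial (ZMod p) (Ω ≃ₐ[K] Ω) (ZMod p)) →
    ∃ (L : IntermediateField K Ω) (_ : FiniteDimensional K L) (_ : IsGalois K L)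
      (χ : (L ≃ₐ[K] L) →* Multiplicative (ZMod p)),
      ∀ σ : Ω ≃ₐ[K] Ω, x σ = Multiplicative.toAdd (χ (AlgEquiv.restrictNormalHom L σ))
  /-- LOC-7d `exists_factor_Z2` -/
  factor_Z2 : ∀ c : (Ω ≃ₐ[K] Ω) × (Ω ≃ₐ[K] Ω) → ZMod p,
    c ∈ Z2 (galLevels K Ω) (Rep.trivial (ZMod p) (Ω ≃ₐ[K] Ω) (ZMod p)) →
    ∀ L₀ : IntermediateField K Ω, FiniteDimensional K L₀ →
    ∃ (L : IntermediateField K Ω) (_ : FiniteDimensional K L) (_ : IsGalois K L)
      (c' : (L ≃ₐ[K] L) × (L ≃ₐ[K] L) → ZMod p), L₀ ≤ L ∧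
      c' ∈ LinearMap.ker (d₂₃ (Rep.trivial (ZMod p) (L ≃ₐ[K] L) (ZMod p))).hom ∧
      ∀ g, c g = c' (AlgEquiv.restrictNormalHom L g.1, AlgEquiv.restrictNormalHom L g.2)
  /-- LOC-7d `mem_Z2_of_factor` -/
  mem_Z2 : ∀ (L : IntermediateField K Ω) [FiniteDimensional K L] [IsGalois K L]
    (c' : (L ≃ₐ[K] L) × (L ≃ₐ[K] L) → ZMod p),
    c' ∈ LinearMap.ker (d₂₃ (Rep.trivial (ZMod p) (L ≃ₐ[K] L) (ZMod p))).hom →
    (fun g : (Ω ≃ₐ[K] Ω) × (Ω ≃ₐ[K] Ω) =>
      c' (AlgEquiv.restrictNormalHom L g.1, AlgEquiv.restrictNormalHom L g.2)) ∈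
      Z2 (galLevels K Ω) (Rep.trivial (ZMod p) (Ω ≃ₐ[K] Ω) (ZMod p))
  /-- LOC-7a `exists_kummerChar` -/
  kummerChar : ∀ a : Kˣ,
    ∃ x ∈ Z1 (galLevels K Ω) (Rep.trivial (ZMod p) (Ω ≃ₐ[K] Ω) (ZMod p)),
      ∃ α : Ω, α ^ p = algebraMap K Ω a ∧
        ∀ σ : Ω ≃ₐ[K] Ω, σ α = algebraMap K Ω ((ζ : K) ^ (x σ).val) * α
  /-- LOC-7a `finite_Z1` -/
  finite_Z1 :
    Module.Finite (ZMod p) ↥(Z1 (galLevels K Ω) (Rep.trivial (ZMod p) (Ω ≃ₐ[K] Ω) (ZMod p)))
  /-- LOC-7b `mulClass_cup_eq_chiClass` -/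
  cup_eq_chiClass : ∀ (L : Type) [Field L] [Algebra K L] [FiniteDimensional K L]
    [IsGalois K L] (χ ψ : (L ≃ₐ[K] L) →* Multiplicative (ZMod p)) (b : Kˣ) (β : L),
    β ^ p = algebraMap K L b →
    (∀ σ : L ≃ₐ[K] L,
      σ β = algebraMap K L ((ζ : K) ^ (Multiplicative.toAdd (ψ σ)).val) * β) →
    mulClass K L (zetaCochain p (Units.map (algebraMap K L : K →* L) ζ)
        (fun g => Multiplicative.toAdd (χ g.1) * Multiplicative.toAdd (ψ g.2))) =
      chiClass K L p χ b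
  /-- LOC-7c `mem_B2_of_mulClass_eq_zero` -/
  mem_B2 : ∀ (L : IntermediateField K Ω) [FiniteDimensional K L] [IsGalois K L]
    (c : (L ≃ₐ[K] L) × (L ≃ₐ[K] L) → ZMod p),
    c ∈ LinearMap.ker (d₂₃ (Rep.trivial (ZMod p) (L ≃ₐ[K] L) (ZMod p))).hom →
    mulClass K L (zetaCochain p (Units.map (algebraMap K L : K →* L) ζ) c) = 0 →
    (fun g : (Ω ≃ₐ[K] Ω) × (Ω ≃ₐ[K] Ω) =>
      c (AlgEquiv.restrictNormalHom L g.1, AlgEquiv.restrictNormalHom L g.2)) ∈
      B2 (galLevels K Ω) (Rep.trivial (ZMod p) (Ω ≃ₐ[K] Ω) (ZMod p))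
  /-- LOC-7c `exists_cocycle_inv_ne_zero` -/
  inv_ne_zero : ∃ (L : IntermediateField K Ω) (_ : FiniteDimensional K L) (_ : IsGalois K L)
    (c : (L ≃ₐ[K] L) × (L ≃ₐ[K] L) → ZMod p),
    c ∈ LinearMap.ker (d₂₃ (Rep.trivial (ZMod p) (L ≃ₐ[K] L) (ZMod p))).hom ∧
    I.inv q K L (mulClass K L (zetaCochain p (Units.map (algebraMap K L : K →* L) ζ) c)) ≠ 0
  /-- LOC-3 `card_quotient_norm_of_isCyclic` -/
  norm_index : ∀ (L : Type) [Field L] [Algebra K L] [FiniteDimensional K L] [IsGalois K L]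
    [IsCyclic (L ≃ₐ[K] L)],
    Nat.card (Kˣ ⧸ (normUnits K L).range) = Module.finrank K L

end input

section construction

variable (I : LocInv) (q : ℕ) [Fact q.Prime] (p : ℕ) [Fact p.Prime]
  (K Ω : Type) [Field K] [Field Ω] [Algebra ℚ_[q] K] [FiniteDimensional ℚ_[q] K]
  [Algebra K Ω] [IsAlgClosure K Ω] (ζ : Kˣ)

include q in
/-- a level-constant 1-cochain factors through a finite Galois quotient -/
lemma exists_factor_C1 {X : Type*} (b : (Ω ≃ₐ[K] Ω) → X) (hb : IsLev₁ (galLevels K Ω) b) :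
    ∃ (L : IntermediateField K Ω) (_ : FiniteDimensional K L) (_ : IsGalois K L)
      (b' : (L ≃ₐ[K] L) → X), ∀ σ : Ω ≃ₐ[K] Ω, b σ = b' (AlgEquiv.restrictNormalHom L σ) := by
  obtain ⟨N, ⟨-, L₀, hfd, rfl⟩, hconst⟩ := hb
  obtain ⟨L, hfdL, hgal, hle⟩ := exists_finGal q K Ω L₀
  refine ⟨L, hfdL, hgal, fun τ => b (Function.surjInv (res_surjective K Ω L) τ), fun σ => ?_⟩
  set σ' := Function.surjInv (res_surjective K Ω L) (AlgEquiv.restrictNormalHom L σ) with hσ'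
  have hres : AlgEquiv.restrictNormalHom L σ' = AlgEquiv.restrictNormalHom L σ :=
    Function.surjInv_eq (res_surjective K Ω L) _
  have hmem : σ⁻¹ * σ' ∈ L₀.fixingSubgroup := by
    rw [IntermediateField.mem_fixingSubgroup_iff]
    intro x hx
    have h1 : σ' x = σ x := by
      have e1 := AlgEquiv.restrictNormal_commutes σ' L ⟨x, hle hx⟩
      have e2 := AlgEquiv.restrictNormal_commutes σ L ⟨x, hle hx⟩
      have e3 : σ'.restrictNormal L = σ.restrictNormal L := hres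
      rw [e3] at e1
      exact e1.symm.trans e2
    change σ⁻¹ (σ' x) = x
    rw [h1]
    exact σ.symm_apply_apply x
  have := hconst σ (σ⁻¹ * σ') hmem
  rw [mul_inv_cancel_left] at this
  exact this.symm

include q in
/-- inflation commutes with `d₁₂` (trivial coefficients) -/
lemma infl_d₁₂ (L : IntermediateField K Ω) [Normal K L] (b' : (L ≃ₐ[K] L) → ZMod p) :
    infl K Ω L ((d₁₂ (Rep.trivial (ZMod p) (L ≃ₐ[K] L) (ZMod p))).hom b') =
      (d₁₂ (Rep.trivial (ZMod p) (Ω ≃ₐ[K] Ω) (ZMod p))).hom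
        (fun σ => b' (AlgEquiv.restrictNormalHom L σ)) := by
  funext g
  obtain ⟨g₁, g₂⟩ := g
  simp only [infl]
  rw [d₁₂_trivial_apply, d₁₂_trivial_apply, map_mul]

/-- the invariant map with its characterising property -/
theorem exists_inv (hζ : ζ ^ p = 1) (H : LocDualInput I q p K Ω ζ) :
    ∃ inv : ((Ω ≃ₐ[K] Ω) × (Ω ≃ₐ[K] Ω) → ZMod p) →ₗ[ZMod p] ZMod p,
      ∀ c ∈ Z2 (galLevels K Ω) (Rep.trivial (ZMod p) (Ω ≃ₐ[K] Ω) (ZMod p)),
        Rel I q p K Ω ζ c (inv c) := by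
  have hex : ∀ c ∈ Z2 (galLevels K Ω) (Rep.trivial (ZMod p) (Ω ≃ₐ[K] Ω) (ZMod p)),
      ∃ r, Rel I q p K Ω ζ c r := by
    intro c hc
    obtain ⟨L, hfd, hgal, c', -, hc', hcc'⟩ := H.factor_Z2 c hc ⊥ inferInstance
    obtain ⟨r, -, hr⟩ := Rel.of_factor I q p K Ω ζ hζ L c' hc'
    refine ⟨r, ?_⟩
    have : c = infl K Ω L c' := funext hcc'
    rw [this]
    exact hr
  choose! f hf using hex
  let f₀ : ↥(Z2 (galLevels K Ω) (Rep.trivial (ZMod p) (Ω ≃ₐ[K] Ω) (ZMod p))) →+ ZMod p :=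
    AddMonoidHom.mk' (fun c => f c.1) (fun c c' =>
      Rel.unique I q p K Ω ζ hζ (hf _ (c + c').2) (Rel.add I q p K Ω ζ hζ (hf c.1 c.2)
        (hf c'.1 c'.2)))
  obtain ⟨g, hg⟩ := LinearMap.exists_extend (f₀.toZModLinearMap p)
  refine ⟨g, fun c hc => ?_⟩
  have : g c = f c := LinearMap.congr_fun hg ⟨c, hc⟩
  rw [this]
  exact hf c hc

variable (inv : ((Ω ≃ₐ[K] Ω) × (Ω ≃ₐ[K] Ω) → ZMod p) →ₗ[ZMod p] ZMod p)
  (hinv : ∀ c ∈ Z2 (galLevels K Ω) (Rep.trivial (ZMod p) (Ω ≃ₐ[K] Ω) (ZMod p)),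
        Rel I q p K Ω ζ c (inv c))

include hinv in
lemma inv_spec_of_rel (hζ : ζ ^ p = 1) (H : LocDualInput I q p K Ω ζ)
    (L : IntermediateField K Ω) [FiniteDimensional K L] [IsGalois K L]
    (c : (L ≃ₐ[K] L) × (L ≃ₐ[K] L) → ZMod p)
    (hc : c ∈ LinearMap.ker (d₂₃ (Rep.trivial (ZMod p) (L ≃ₐ[K] L) (ZMod p))).hom) :
    qz p (inv (infl K Ω L c)) = Jinv I q p K L ζ c := by
  obtain ⟨r, hr, hrel⟩ := Rel.of_factor I q p K Ω ζ hζ L c hc
  have := Rel.unique I q p K Ω ζ hζ (hinv _ (H.mem_Z2 L c hc)) hrel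
  rw [← hr, ← this]
  rfl

lemma cup_mem_ker {G : Type} [Group G] (χ ψ : G →* Multiplicative (ZMod p)) :
    (fun g : G × G => Multiplicative.toAdd (χ g.1) * Multiplicative.toAdd (ψ g.2)) ∈
      LinearMap.ker (d₂₃ (Rep.trivial (ZMod p) G (ZMod p))).hom := by
  rw [mem_ker_d₂₃_trivial_iff]
  intro g h j
  simp only [map_mul, toAdd_mul]
  ring

include q in
lemma inv_chiClass_resLL (L₁ L : IntermediateField K Ω) [FiniteDimensional K L₁]
    [IsGalois K L₁] [FiniteDimensional K L] [IsGalois K L] (h : L₁ ≤ L)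
    (χ : (L₁ ≃ₐ[K] L₁) →* Multiplicative (ZMod p)) (b : Kˣ) :
    I.inv q K L (chiClass K L p (χ.comp (resLL K Ω L₁ L h)) b) =
      I.inv q K L₁ (chiClass K L₁ p χ b) := by
  letI : Algebra L₁ L := (IntermediateField.inclusion h).toRingHom.toAlgebra
  haveI : IsScalarTower K L₁ L := IsScalarTower.of_algebraMap_eq (fun _ => rfl)
  exact inv_chiClass_inflation I q p K L₁ L χ b

include hinv in
/-- (I2) local duality: the cup product pairing on `H¹` is non-degenerate -/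
theorem nondeg_of_input (hζ : ζ ^ p = 1) (H : LocDualInput I q p K Ω ζ) :
    ∀ x ∈ Z1 (galLevels K Ω) (Rep.trivial (ZMod p) (Ω ≃ₐ[K] Ω) (ZMod p)),
    (∀ y ∈ Z1 (galLevels K Ω) (Rep.trivial (ZMod p) (Ω ≃ₐ[K] Ω) (ZMod p)),
      inv (fun g => x g.1 * y g.2) = 0) → x = 0 := by
  intro x hx hxy
  by_contra hx0
  obtain ⟨L₁, hfd₁, hgal₁, χ₁, hχ₁⟩ := H.factor_Z1 x hx
  have hχ₁ne : χ₁ ≠ 1 := by
    intro h
    apply hx0
    funext σ
    rw [hχ₁ σ, h]
    rfl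
  obtain ⟨b, hb⟩ := exists_inv_chiClass_ne_zero I q p K L₁ H.norm_index χ₁ hχ₁ne
  apply hb
  obtain ⟨y, hy, α, hα, hσα⟩ := H.kummerChar b
  obtain ⟨L₂, hfd₂, hgal₂, ψ₂, hψ₂⟩ := H.factor_Z1 y hy
  haveI : Algebra.IsAlgebraic K Ω := IsAlgClosure.isAlgebraic
  have hαint : IsIntegral K α := Algebra.IsIntegral.isIntegral α
  haveI : FiniteDimensional K (IntermediateField.adjoin K {α}) :=
    IntermediateField.adjoin.finiteDimensional hαint
  obtain ⟨L, hfd, hgal, hle⟩ :=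
    exists_finGal q K Ω (L₁ ⊔ L₂ ⊔ IntermediateField.adjoin K {α})
  have h1 : L₁ ≤ L := (le_sup_left.trans le_sup_left).trans hle
  have h2 : L₂ ≤ L := (le_sup_right.trans le_sup_left).trans hle
  have hαL : α ∈ L := hle (le_sup_right (a := L₁ ⊔ L₂)
    (IntermediateField.mem_adjoin_simple_self K α))
  set χ : (L ≃ₐ[K] L) →* Multiplicative (ZMod p) := χ₁.comp (resLL K Ω L₁ L h1) with hχdef
  set ψ : (L ≃ₐ[K] L) →* Multiplicative (ZMod p) := ψ₂.comp (resLL K Ω L₂ L h2) with hψdef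
  have hχ : ∀ σ : Ω ≃ₐ[K] Ω,
      Multiplicative.toAdd (χ (AlgEquiv.restrictNormalHom L σ)) = x σ := by
    intro σ
    rw [hχdef, MonoidHom.comp_apply, resLL_res, hχ₁ σ]
  have hψ : ∀ σ : Ω ≃ₐ[K] Ω,
      Multiplicative.toAdd (ψ (AlgEquiv.restrictNormalHom L σ)) = y σ := by
    intro σ
    rw [hψdef, MonoidHom.comp_apply, resLL_res, hψ₂ σ]
  set β : L := ⟨α, hαL⟩ with hβdef
  have hβ : β ^ p = algebraMap K L b := Subtype.ext hα
  have hψβ : ∀ τ : L ≃ₐ[K] L,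
      τ β = algebraMap K L ((ζ : K) ^ (Multiplicative.toAdd (ψ τ)).val) * β := by
    intro τ
    obtain ⟨σ, rfl⟩ := res_surjective K Ω L τ
    apply Subtype.ext
    have e1 := AlgEquiv.restrictNormal_commutes σ L β
    rw [hψ σ]
    exact e1.trans (hσα σ)
  have hcup := H.cup_eq_chiClass L χ ψ b β hβ hψβ
  have hc' := cup_mem_ker p χ ψ
  have hinfl : infl K Ω L
      (fun g : (L ≃ₐ[K] L) × (L ≃ₐ[K] L) =>
        Multiplicative.toAdd (χ g.1) * Multiplicative.toAdd (ψ g.2)) =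
      fun g => x g.1 * y g.2 := by
    funext g
    simp only [infl, hχ, hψ]
  have hspec := inv_spec_of_rel I q p K Ω ζ inv hinv hζ H L _ hc'
  rw [hinfl, hxy y hy, map_zero] at hspec
  have h0 : I.inv q K L (chiClass K L p χ b) = 0 := by
    rw [← hcup]
    exact hspec.symm
  rw [← inv_chiClass_resLL I q p K Ω L₁ L h1 χ₁ b]
  exact h0

omit inv in
/-- **LOC-9** (conditional form): the level-constant local duality package, from the statements
of LOC-7a/b/c/d and LOC-3 (`LocDualInput`). -/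
theorem nonempty_localDuality_of_input (hζ : ζ ^ p = 1) (H : LocDualInput I q p K Ω ζ) :
    Nonempty (LocalDuality I q p K Ω ζ) := by
  obtain ⟨inv, hinv⟩ := exists_inv I q p K Ω ζ hζ H
  have hspec := fun (L : IntermediateField K Ω) [FiniteDimensional K L] [IsGalois K L] =>
    inv_spec_of_rel I q p K Ω ζ inv hinv hζ H L
  refine ⟨{
    inv := inv
    inv_spec := ?_
    inv_eq_zero_iff := ?_
    inv_ne_zero := ?_
    nondeg := nondeg_of_input I q p K Ω ζ inv hinv hζ H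
    fin := H.finite_Z1 }⟩
  · intro L _ _ c hc
    have := hspec L c hc
    rw [qz_apply] at this
    exact this
  · intro c hc
    constructor
    · intro h0
      obtain ⟨L, hfd, hgal, c', -, hc', hcc'⟩ := H.factor_Z2 c hc ⊥ inferInstance
      have hc_eq : c = infl K Ω L c' := funext hcc'
      have h1 := hspec L c' hc'
      rw [← hc_eq, h0, map_zero] at h1
      have h2 : mulClass K L (zetaCochain p (Units.map (algebraMap K L : K →* L) ζ) c') = 0 := by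
        apply I.injective q K L
        rw [map_zero]
        exact h1.symm
      rw [hc_eq]
      exact H.mem_B2 L c' hc' h2
    · rintro ⟨b, hb, rfl⟩
      obtain ⟨L, hfd, hgal, b', hb'⟩ := exists_factor_C1 q K Ω b hb
      have hb_eq : b = fun σ => b' (AlgEquiv.restrictNormalHom L σ) := funext hb'
      have hcoc : (d₁₂ (Rep.trivial (ZMod p) (L ≃ₐ[K] L) (ZMod p))).hom b' ∈
          LinearMap.ker (d₂₃ (Rep.trivial (ZMod p) (L ≃ₐ[K] L) (ZMod p))).hom :=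
        d₁₂_apply_mem_cocycles₂ (A := Rep.trivial (ZMod p) (L ≃ₐ[K] L) (ZMod p)) b'
      have h1 := hspec L _ hcoc
      rw [Jinv_d₁₂ I q p K L ζ hζ, infl_d₁₂ q p K Ω L b', ← hb_eq] at h1
      apply qz_injective p
      rw [map_zero]
      exact h1
  · obtain ⟨L, hfd, hgal, c, hc, hne⟩ := H.inv_ne_zero
    refine ⟨infl K Ω L c, H.mem_Z2 L c hc, fun h0 => hne ?_⟩
    have h1 := hspec L c hc
    rw [h0, map_zero] at h1
    exact h1.symm

end construction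

end Fermat.Agent.S55.helper13
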