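import Fermat.Agent.S55.helper8_LocDefs2

/-!
# S55 / LOC-7b (helper62): cup product = symbol

For characters `χ, ψ : Gal(L/K) → ℤ/p` with `ψ` the Kummer character of `b`
(`β ^ p = b`, `σ β = ζ ^ ψ(σ) β`), the class of the cocycle `ζ ^ (χ(σ) ψ(τ))` in
`H²(Gal(L/K), Lˣ)` is the symbol `(χ, b)` (`chiClass K L p χ b`).

Explicitly `ζ^(χ σ ψ τ) = chiCochain (σ, τ) * (δ y)(σ, τ)` with
`y σ = (ζ ^ (χ σ ψ σ) * β ^ (χ̃ σ))⁻¹`.

* `h62_mulClass_eq_of_coboundary` : cohomologous multiplicative 2-cocycles have the same `mulClass`;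
* `h62_isMulCocycle₂_chiCochain` : the symbol cochain is a cocycle;
* `mulClass_cup_eq_chiClass` : statement of task 327 (LOC-7b), verbatim.
-/

set_option autoImplicit false

namespace Fermat.Agent.S55.helper62

open Fermat.Agent.S55 Fermat.Agent.S55.helper8 Fermat.Agent.S55.helper11 groupCohomology

section general

variable {G M : Type} [Group G] [CommGroup M] [MulDistribMulAction G M]

/-- multiplicative 2-coboundaries are 2-cocycles -/
theorem h62_isMulCocycle₂_of_isMulCoboundary₂ {c : G × G → M} (hc : IsMulCoboundary₂ c) :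
    IsMulCocycle₂ c := by
  have := isMulCocycle₂_of_mem_cocycles₂ (G := G) (M := M) (Additive.ofMul ∘ c)
    (coboundaries₂_le_cocycles₂ _ (coboundariesOfIsMulCoboundary₂ hc).2)
  exact this

/-- the product of two multiplicative 2-cocycles is a 2-cocycle -/
theorem h62_isMulCocycle₂_mul {f c : G × G → M} (hf : IsMulCocycle₂ f) (hc : IsMulCocycle₂ c) :
    IsMulCocycle₂ (fun g => f g * c g) := by
  intro g h j
  have h1 := hf g h j
  have h2 := hc g h j
  simp only [smul_mul']
  rw [mul_mul_mul_comm, h1, h2, mul_mul_mul_comm]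

end general

section mulClass

variable {K L : Type} [Field K] [Field L] [Algebra K L]

/-- cohomologous multiplicative cocycles have the same class -/
theorem h62_mulClass_eq_of_coboundary
    (f f' : (L ≃ₐ[K] L) × (L ≃ₐ[K] L) → Lˣ) (hf' : IsMulCocycle₂ f')
    (y : (L ≃ₐ[K] L) → Lˣ)
    (h : ∀ g h, f (g, h) = f' (g, h) * (g • y h / y (g * h) * y g)) :
    mulClass K L f = mulClass K L f' := by
  have hc : IsMulCoboundary₂
      (fun g : (L ≃ₐ[K] L) × (L ≃ₐ[K] L) => g.1 • y g.2 / y (g.1 * g.2) * y g.1) :=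
    ⟨y, fun g h => rfl⟩
  have hf : IsMulCocycle₂ f := by
    have := h62_isMulCocycle₂_mul hf' (h62_isMulCocycle₂_of_isMulCoboundary₂ hc)
    convert this using 1
    funext ⟨g, h'⟩
    exact h g h'
  rw [mulClass, dif_pos hf, mulClass, dif_pos hf']
  refine (H2π_eq_iff (A := Rep.ofMulDistribMulAction (L ≃ₐ[K] L) Lˣ) _ _).2 ?_
  have := (coboundariesOfIsMulCoboundary₂ hc).2
  convert this using 1
  funext ⟨g, h'⟩
  show (Additive.ofMul (f (g, h')) : Additive Lˣ) - Additive.ofMul (f' (g, h')) =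
    Additive.ofMul (g • y h' / y (g * h') * y g)
  rw [h g h', ← ofMul_div, mul_div_cancel_left]

end mulClass


section key

lemma h62_key_add {A : Type*} [AddCommGroup A] (e1 e2 e3 e4 X Y V W : A) (h : X + Y = V + W) :
    e2 = W + (-(e4 + (e3 + Y)) - -(e1 + e2 + e3 + e4 + V) + -(e1 + X)) := by
  have hW : W = X + Y - V := by rw [h]; abel
  rw [hW]
  abel

lemma h62_key {A : Type*} [CommGroup A] (e1 e2 e3 e4 X Y V W : A) (h : X * Y = V * W) :
    e2 = W * ((e4 * (e3 * Y))⁻¹ / (e1 * e2 * e3 * e4 * V)⁻¹ * (e1 * X)⁻¹) :=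
  h62_key_add (A := Additive A) (Additive.ofMul e1) (Additive.ofMul e2) (Additive.ofMul e3)
    (Additive.ofMul e4) (Additive.ofMul X) (Additive.ofMul Y) (Additive.ofMul V)
    (Additive.ofMul W) h

lemma h62_pow_val_add {p : ℕ} [NeZero p] {M : Type*} [Monoid M] {z : M} (hz : z ^ p = 1)
    (a b : ZMod p) : z ^ (a + b).val = z ^ a.val * z ^ b.val := by
  rw [ZMod.val_add, ← pow_add, ← pow_eq_pow_mod _ hz]

lemma h62_pow_val_mul {p : ℕ} [NeZero p] {M : Type*} [Monoid M] {z : M} (hz : z ^ p = 1)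
    (a b : ZMod p) : z ^ (a * b).val = (z ^ a.val) ^ b.val := by
  rw [ZMod.val_mul, ← pow_mul, ← pow_eq_pow_mod _ hz]

end key


section chi

variable {G M : Type} [Group G] [CommGroup M] [MulDistribMulAction G M]

/-- the symbol cochain is a 2-cocycle (own copy, for `N ≠ 0`) -/
theorem h62_isMulCocycle₂_chiCochain (N : ℕ) [NeZero N] (χ : G →* Multiplicative (ZMod N))
    (b : M) (hb : ∀ g : G, g • b = b) : IsMulCocycle₂ (chiCochain N χ b) := by
  intro g h j
  simp only [chiCochain]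
  rw [smul_pow', hb, ← pow_add, ← pow_add]
  congr 1
  have e1 : (Multiplicative.toAdd (χ (g * h))).val =
      ((Multiplicative.toAdd (χ g)).val + (Multiplicative.toAdd (χ h)).val) % N := by
    rw [map_mul, toAdd_mul, ZMod.val_add]
  have e2 : (Multiplicative.toAdd (χ (h * j))).val =
      ((Multiplicative.toAdd (χ h)).val + (Multiplicative.toAdd (χ j)).val) % N := by
    rw [map_mul, toAdd_mul, ZMod.val_add]
  rw [e1, e2]
  generalize (Multiplicative.toAdd (χ g)).val = a
  generalize (Multiplicative.toAdd (χ h)).val = c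
  generalize (Multiplicative.toAdd (χ j)).val = d
  have hN : 0 < N := Nat.pos_of_ne_zero (NeZero.ne N)
  have h1 : ((a + c) % N + d) / N + (a + c) / N = (a + c + d) / N := by
    conv_rhs => rw [← Nat.mod_add_div (a + c) N, add_right_comm, Nat.add_mul_div_left _ _ hN]
  have h2 : (a + (c + d) % N) / N + (c + d) / N = (a + c + d) / N := by
    conv_rhs => rw [add_assoc, ← Nat.mod_add_div (c + d) N, ← add_assoc,
      Nat.add_mul_div_left _ _ hN]
  omega

end chi

section main

variable (p : ℕ) [hp : Fact p.Prime] (K : Type) [Field K] (ζ : Kˣ) (hζ : IsPrimitiveRoot ζ p)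

include hζ in
/-- LOC-7b (cup product = symbol): for characters `χ, ψ` of `Gal(L/K)` with `ψ` the Kummer
character of `b` (`β ^ p = b`, `σ β = ζ ^ ψ(σ) β`), the class of `ζ ^ (χ ∪ ψ)` is the symbol
`(χ, b)`. -/
theorem mulClass_cup_eq_chiClass (L : Type) [Field L] [Algebra K L] [FiniteDimensional K L]
    [IsGalois K L] (χ ψ : (L ≃ₐ[K] L) →* Multiplicative (ZMod p)) (b : Kˣ) (β : L)
    (hβ : β ^ p = algebraMap K L b)
    (hψ : ∀ σ : L ≃ₐ[K] L,
      σ β = algebraMap K L ((ζ : K) ^ (Multiplicative.toAdd (ψ σ)).val) * β) :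
    mulClass K L (zetaCochain p (Units.map (algebraMap K L : K →* L) ζ)
        (fun g => Multiplicative.toAdd (χ g.1) * Multiplicative.toAdd (ψ g.2))) =
      chiClass K L p χ b := by
  have : NeZero p := ⟨hp.out.ne_zero⟩
  set ζL : Lˣ := Units.map (algebraMap K L : K →* L) ζ with hζL
  set bL : Lˣ := Units.map (algebraMap K L : K →* L) b with hbL
  have hζLp : ζL ^ p = 1 := by rw [hζL, ← map_pow, hζ.pow_eq_one, map_one]
  have hβ0 : β ≠ 0 := by
    rintro rfl
    rw [zero_pow hp.out.ne_zero] at hβ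
    exact bL.ne_zero hβ.symm
  set βu : Lˣ := Units.mk0 β hβ0 with hβu_def
  have hβu : βu ^ p = bL := Units.ext (by
    rw [Units.val_pow_eq_pow_val]
    exact hβ)
  have hσζ : ∀ σ : L ≃ₐ[K] L, σ • ζL = ζL := fun σ => by
    ext
    simp [hζL, AlgEquiv.smul_units_def]
  have hσb : ∀ σ : L ≃ₐ[K] L, σ • bL = bL := fun σ => by
    ext
    simp [hbL, AlgEquiv.smul_units_def]
  have hσβ : ∀ σ : L ≃ₐ[K] L, σ • βu = ζL ^ (Multiplicative.toAdd (ψ σ)).val * βu := by
    intro σ
    ext
    have := hψ σ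
    simp only [AlgEquiv.smul_units_def, Units.coe_map, MonoidHom.coe_coe, Units.val_mul,
      Units.val_pow_eq_pow_val, hζL, hβu_def, Units.val_mk0]
    rw [this, map_pow]
  unfold chiClass
  refine h62_mulClass_eq_of_coboundary _ _ (h62_isMulCocycle₂_chiCochain p χ bL hσb)
    (fun σ => (ζL ^ (Multiplicative.toAdd (χ σ) * Multiplicative.toAdd (ψ σ)).val *
      βu ^ (Multiplicative.toAdd (χ σ)).val)⁻¹) ?_
  intro σ τ
  simp only [zetaCochain, chiCochain]
  have hX : Multiplicative.toAdd (χ (σ * τ)) =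
      Multiplicative.toAdd (χ σ) + Multiplicative.toAdd (χ τ) := by
    rw [map_mul, toAdd_mul]
  have hY : Multiplicative.toAdd (ψ (σ * τ)) =
      Multiplicative.toAdd (ψ σ) + Multiplicative.toAdd (ψ τ) := by
    rw [map_mul, toAdd_mul]
  rw [smul_inv', smul_mul', smul_pow', smul_pow', hσζ, hσβ, hX, hY, mul_pow]
  generalize Multiplicative.toAdd (χ σ) = xs
  generalize Multiplicative.toAdd (χ τ) = xt
  generalize Multiplicative.toAdd (ψ σ) = ys
  generalize Multiplicative.toAdd (ψ τ) = yt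
  have h1 : ζL ^ ((xs + xt) * (ys + yt)).val =
      ζL ^ (xs * ys).val * ζL ^ (xs * yt).val * ζL ^ (xt * ys).val * ζL ^ (xt * yt).val := by
    have : (xs + xt) * (ys + yt) = xs * ys + xs * yt + xt * ys + xt * yt := by ring
    rw [this, h62_pow_val_add hζLp, h62_pow_val_add hζLp, h62_pow_val_add hζLp]
  have h2 : (ζL ^ ys.val) ^ xt.val = ζL ^ (xt * ys).val := by
    rw [mul_comm xt ys, h62_pow_val_mul hζLp]
  have h3 : βu ^ xs.val * βu ^ xt.val = βu ^ (xs + xt).val * bL ^ ((xs.val + xt.val) / p) := by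
    rw [← hβu, ← pow_mul, ← pow_add, ← pow_add, ZMod.val_add, Nat.mod_add_div]
  rw [h1, h2]
  exact h62_key _ _ _ _ _ _ _ _ h3

end main

end Fermat.Agent.S55.helper62
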