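import Fermat.Agent.S55.helper27_KummerSeqA
import Fermat.Agent.S55.helper62_CupSymbol
import Fermat.Agent.S55.helper7_LocUnram
import Fermat.Agent.S55.helper97_LocVal

/-!
# S55 / LOC-7c (helper27, task 328), part B: the Kummer sequence at finite level, surjectivity

`exists_cocycle_inv_ne_zero` (verbatim from `helper8_LocInterface2`, section LOC7): for every
invariant system `I : LocInv` there is a `ZMod p`-valued 2-cocycle `c` of a finite Galois
quotient `Gal(L/K)` such that the class of `ζ ^ c` has nonzero invariant.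

Proof: `E/K` unramified of degree `p` with Frobenius `φ`, `π` a uniformiser, `β ^ p = π`,
`L ⊇ E(β)` finite Galois, `χ` the inflation of the character `χ_φ` of `Gal(E/K)`, `ψ` the Kummer
character of `π`, `c = χ ∪ ψ`.  Then `[ζ ^ c] = (χ, π)` (LOC-7b) `= inf (χ_φ, π)` (LOC-5b)
`= inf (cyclicClass φ π)`, whose invariant is `1 / p` by `LocInv.baseChange` and `LocInv.unram`.
-/

set_option autoImplicit false

namespace Fermat.Agent.S55.helper27

open Fermat.Agent.S55 Fermat.Agent.S55.helper8 Fermat.Agent.S55.helper11 groupCohomology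

section abstract

variable (p : ℕ) [Fact p.Prime]

/-- the Kummer character of `β` (with `β ^ p = b ∈ Kˣ`) on `Gal(L/K)` -/
lemma exists_kummerHom (K L : Type) [Field K] [Field L] [Algebra K L] (ζ : Kˣ)
    (hζ : IsPrimitiveRoot ζ p) (b : Kˣ) (β : L) (hβ : β ^ p = algebraMap K L b) :
    ∃ ψ : (L ≃ₐ[K] L) →* Multiplicative (ZMod p), ∀ σ : L ≃ₐ[K] L,
      σ β = algebraMap K L ((ζ : K) ^ (Multiplicative.toAdd (ψ σ)).val) * β := by
  classical
  have hp : p.Prime := Fact.out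
  have : NeZero p := ⟨hp.ne_zero⟩
  set z : L := algebraMap K L (ζ : K) with hz
  have hzprim : IsPrimitiveRoot z p := by
    have := hζ.map_of_injective (f := Units.coeHom K) Units.val_injective
    exact this.map_of_injective (algebraMap K L).injective
  have hβ0 : β ≠ 0 := by
    rintro rfl
    rw [zero_pow hp.ne_zero] at hβ
    exact b.ne_zero ((map_eq_zero (algebraMap K L)).1 hβ.symm)
  have hex : ∀ σ : L ≃ₐ[K] L, ∃ i : ZMod p, σ β = z ^ i.val * β := by
    intro σ
    have h1 : (σ β / β) ^ p = 1 := by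
      rw [div_pow, ← map_pow, hβ, σ.commutes]
      exact div_self (by rw [← hβ]; exact pow_ne_zero _ hβ0)
    obtain ⟨i, hi, hi'⟩ := hzprim.eq_pow_of_pow_eq_one h1
    refine ⟨(i : ZMod p), ?_⟩
    rw [ZMod.val_natCast, Nat.mod_eq_of_lt hi, hi', div_mul_cancel₀ _ hβ0]
  choose f hf using hex
  have hzfix : ∀ σ : L ≃ₐ[K] L, σ z = z := fun σ => σ.commutes _
  have hzp : z ^ p = 1 := hzprim.pow_eq_one
  have hmul : ∀ σ τ, f (σ * τ) = f σ + f τ := by
    intro σ τ
    apply helper30.zmod_eq_of_pow_eq hzprim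
    rw [pow_zmod_val_add hzp]
    have h1 : (σ * τ) β = z ^ (f (σ * τ)).val * β := hf (σ * τ)
    rw [AlgEquiv.mul_apply, hf τ, map_mul, map_pow, hzfix, hf σ] at h1
    have h2 : z ^ (f (σ * τ)).val * β = z ^ (f σ).val * z ^ (f τ).val * β := by
      rw [← h1]; ring
    exact mul_right_cancel₀ hβ0 h2
  have hone : f 1 = 0 := by
    have := hmul 1 1
    rw [mul_one] at this
    linear_combination -this
  refine ⟨⟨⟨fun σ => Multiplicative.ofAdd (f σ), ?_⟩, ?_⟩, ?_⟩
  · show Multiplicative.ofAdd (f 1) = 1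
    rw [hone]; rfl
  · intro σ τ
    show Multiplicative.ofAdd (f (σ * τ)) = Multiplicative.ofAdd (f σ) * Multiplicative.ofAdd (f τ)
    rw [hmul]; rfl
  · intro σ
    show σ β = algebraMap K L ((ζ : K) ^ (f σ).val) * β
    rw [map_pow]; exact hf σ

/-- the character `χ_φ` with modulus `N = orderOf φ` and its symbol -/
lemma exists_dlogChar_of_orderOf (K E : Type) [Field K] [Field E] [Algebra K E]
    [FiniteDimensional K E] (φ : E ≃ₐ[K] E) (hφ : ∀ σ : E ≃ₐ[K] E, σ ∈ Subgroup.zpowers φ)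
    (N : ℕ) (hN : orderOf φ = N) :
    ∃ χ : (E ≃ₐ[K] E) →* Multiplicative (ZMod N), χ φ = Multiplicative.ofAdd 1 ∧
      ∀ b : Kˣ, cyclicClass K E φ b = chiClass K E N χ b := by
  subst hN
  obtain ⟨χ, hχ⟩ := helper1.exists_dlogChar K E φ hφ
  exact ⟨χ, hχ, fun b => helper1.cyclicClass_eq_chiClass K E φ hφ χ hχ b⟩

/-- `1 / p ≠ 0` in `ℚ/ℤ` -/
lemma qz_one_div_prime_ne_zero : ((((1 : ℤ) : ℚ) / (p : ℚ) : ℚ) : QZ) ≠ 0 := by
  have hp : p.Prime := Fact.out
  intro h
  rw [AddCircle.coe_eq_zero_iff] at h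
  obtain ⟨n, hn⟩ := h
  have hp0 : (p : ℚ) ≠ 0 := by exact_mod_cast hp.ne_zero
  have h1 : (n : ℚ) * (p : ℚ) = 1 := by
    rw [zsmul_eq_mul, mul_one] at hn
    rw [hn]
    push_cast
    field_simp
  have h2 : n * (p : ℤ) = 1 := by exact_mod_cast h1
  have h3 : (p : ℤ) ∣ 1 := Dvd.intro_left n h2
  have h4 : p ∣ 1 := by exact_mod_cast h3
  exact hp.one_lt.ne' (Nat.dvd_one.1 h4)

variable (q : ℕ) [Fact q.Prime]

/-- abstract form of `exists_cocycle_inv_ne_zero` -/
theorem exists_cocycle_inv_ne_zero_of (I : LocInv) (K E L : Type) [Field K] [Field E] [Field L]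
    [Algebra ℚ_[q] K] [FiniteDimensional ℚ_[q] K] [Algebra ℚ_[q] E] [Algebra K E]
    [IsScalarTower ℚ_[q] K E] [FiniteDimensional K E] [IsGalois K E] [Algebra K L]
    [FiniteDimensional K L] [IsGalois K L] [Algebra E L] [IsScalarTower K E L]
    (ζ : Kˣ) (hζ : IsPrimitiveRoot ζ p) (hdeg : Module.finrank K E = p) (hunr : IsUnram q K E)
    (π : Kˣ) (hπ : ord q K π = 1) (β : L) (hβ : β ^ p = algebraMap K L π) :
    ∃ c : (L ≃ₐ[K] L) × (L ≃ₐ[K] L) → ZMod p,
      c ∈ LinearMap.ker (d₂₃ (Rep.trivial (ZMod p) (L ≃ₐ[K] L) (ZMod p))).hom ∧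
      I.inv q K L (mulClass K L (zetaCochain p (Units.map (algebraMap K L : K →* L) ζ) c)) ≠ 0 := by
  classical
  have hp : p.Prime := Fact.out
  have : NeZero p := ⟨hp.ne_zero⟩
  obtain ⟨φ, hφfrob, hφgen, hφord, -⟩ := helper7.exists_frob_of_isUnram q K E hunr
  obtain ⟨χ₁, -, hcyc⟩ := exists_dlogChar_of_orderOf K E φ hφgen p (hφord.trans hdeg)
  obtain ⟨ψ, hψ⟩ := exists_kummerHom p K L ζ hζ π β hβ
  set χ : (L ≃ₐ[K] L) →* Multiplicative (ZMod p) := χ₁.comp (locHom K E K L) with hχ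
  refine ⟨fun g => Multiplicative.toAdd (χ g.1) * Multiplicative.toAdd (ψ g.2), ?_, ?_⟩
  · rw [mem_ker_d₂₃_trivial_iff]
    intro g h j
    simp only [map_mul, toAdd_mul]
    ring
  · rw [helper62.mulClass_cup_eq_chiClass p K ζ hζ L χ ψ π β hβ hψ]
    have h1 := helper1.locH_chiClass K E K L p χ₁ π
    have h2 : Units.map (algebraMap K K : K →* K) π = π := by ext; rfl
    rw [h2] at h1
    rw [hχ, ← h1, I.baseChange q K E K L, Module.finrank_self, one_smul, ← hcyc π,
      I.unram q K E hunr φ hφfrob π, hπ, hdeg]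
    exact qz_one_div_prime_ne_zero p

end abstract

section LOC7c

variable (q : ℕ) [Fact q.Prime]

variable (p : ℕ) [Fact p.Prime]
  (K Ω : Type) [Field K] [Field Ω] [Algebra ℚ_[q] K] [FiniteDimensional ℚ_[q] K]
  [Algebra K Ω] [IsAlgClosure K Ω] (ζ : Kˣ) (hζ : IsPrimitiveRoot ζ p)

include hζ in
/-- LOC-7c (Kummer sequence, surjectivity): there is a `ZMod p`-valued 2-cocycle of a finite
Galois quotient whose class `[ζ ^ c]` has nonzero invariant. -/
theorem exists_cocycle_inv_ne_zero (I : LocInv) :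
    ∃ (L : IntermediateField K Ω) (_ : FiniteDimensional K L) (_ : IsGalois K L)
      (c : (L ≃ₐ[K] L) × (L ≃ₐ[K] L) → ZMod p),
      c ∈ LinearMap.ker (d₂₃ (Rep.trivial (ZMod p) (L ≃ₐ[K] L) (ZMod p))).hom ∧
      I.inv q K L (mulClass K L (zetaCochain p (Units.map (algebraMap K L : K →* L) ζ) c)) ≠ 0 := by
  classical
  have hp : p.Prime := Fact.out
  let _ : Algebra ℚ_[q] Ω := ((algebraMap K Ω).comp (algebraMap ℚ_[q] K)).toAlgebra
  have : IsScalarTower ℚ_[q] K Ω := IsScalarTower.of_algebraMap_eq (fun _ => rfl)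
  have : IsAlgClosed Ω := IsAlgClosure.isAlgClosed K
  have : Algebra.IsAlgebraic K Ω := IsAlgClosure.isAlgebraic
  have : CharZero K := charZero_of_injective_algebraMap (algebraMap ℚ_[q] K).injective
  obtain ⟨E, hEfin, hEgal, hEdeg, hEunr⟩ := helper7.exists_unram q K Ω p hp.pos
  obtain ⟨π, hπ⟩ := helper97.exists_ord_eq_one q K
  obtain ⟨α, hα⟩ := IsAlgClosed.exists_pow_nat_eq (algebraMap K Ω (π : K)) hp.pos
  have : FiniteDimensional K (IntermediateField.adjoin K ({α} : Set Ω)) :=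
    IntermediateField.adjoin.finiteDimensional (Algebra.IsIntegral.isIntegral α)
  obtain ⟨L, hLfin, hLgal, hle⟩ :=
    helper77.exists_finite_galois_ge K Ω (E ⊔ IntermediateField.adjoin K ({α} : Set Ω))
  have hEL : E ≤ L := le_sup_left.trans hle
  have hαL : α ∈ L :=
    hle ((le_sup_right : IntermediateField.adjoin K ({α} : Set Ω) ≤ _)
      (IntermediateField.mem_adjoin_simple_self K α))
  let _ : Algebra E L := (IntermediateField.inclusion hEL).toRingHom.toAlgebra
  have : IsScalarTower K E L := IsScalarTower.of_algebraMap_eq (fun _ => rfl)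
  obtain ⟨c, hc, hne⟩ := exists_cocycle_inv_ne_zero_of p q I K E L ζ hζ hEdeg hEunr π hπ
    ⟨α, hαL⟩ (Subtype.ext hα)
  exact ⟨L, hLfin, hLgal, c, hc, hne⟩

end LOC7c

end Fermat.Agent.S55.helper27
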