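import Fermat.Agent.S55.helper30_LocKummer
import Fermat.Agent.S55.helper27_LocPowFinal

/-!
# S55 / LOC-7a (helper30, task 326): finiteness of the local `H¹`

`finite_Z1` : for a `q`-adic field `K ∋ ζ_p` the module of level 1-cocycles of `Gal(Ω/K)` with
trivial `ZMod p` coefficients is finite (exact statement of `helper8_LocInterface2`, LOC7), from
`helper30.finite_Z1_of_finite` and LOC-1 `helper27.card_units_mod_pow`.
-/

set_option autoImplicit false

namespace Fermat.Agent.S55.helper30

open Fermat.Agent.S55 Fermat.Agent.S55.helper8 groupCohomology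

variable (q : ℕ) [Fact q.Prime] (p : ℕ) [Fact p.Prime]
  (K Ω : Type) [Field K] [Field Ω] [Algebra ℚ_[q] K] [FiniteDimensional ℚ_[q] K]
  [Algebra K Ω] [IsAlgClosure K Ω] (ζ : Kˣ) (hζ : IsPrimitiveRoot ζ p)

include q hζ in
/-- LOC-7a (finiteness of `H¹`), from LOC-1. -/
theorem finite_Z1 :
    Module.Finite (ZMod p) ↥(Z1 (galLevels K Ω) (Rep.trivial (ZMod p) (Ω ≃ₐ[K] Ω) (ZMod p))) := by
  have hp : p.Prime := Fact.out
  have hζK : IsPrimitiveRoot (ζ : K) p :=
    hζ.map_of_injective (f := Units.coeHom K) Units.val_injective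
  have hcard := Fermat.Agent.S55.helper27.card_units_mod_pow q K p (ζ : K) hζK
  have hfin : Finite (Kˣ ⧸ (powMonoidHom p : Kˣ →* Kˣ).range) := by
    apply Nat.finite_of_card_ne_zero
    rw [hcard]
    exact pow_ne_zero _ hp.ne_zero
  exact finite_Z1_of_finite p K Ω ζ hζ hfin

end Fermat.Agent.S55.helper30
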