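import Mathlib

/-!
# S55 / LOC-3 (helper31): Herbrand quotients by index computations, multiplicative form

For a commutative group `A` with two endomorphisms `f g` such that `f ∘ g = 1 = g ∘ f` and a
subgroup `B` we put `hqm f g B = [ker f ⊓ B : g(B)]`.  Main result: invariance of the Herbrand
quotient under passing to a stable subgroup of finite index
(multiplicative port of the additive statement `Fermat.Agent.S14.helper86.hq_mul_hq_of_relIndex_ne_zero`).
-/

set_option autoImplicit false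

namespace Fermat.Agent.S55.helper31

open Subgroup

variable {A : Type*} [CommGroup A]

/-- `hqm f g B` is the index of `g(B)` in `ker f ⊓ B` (`0` if infinite). -/
noncomputable def hqm (f g : A →* A) (B : Subgroup A) : ℕ :=
  (B.map g).relIndex (f.ker ⊓ B)

/-- Index formula: `[C : B] = [f C : f B] * [ker f ∩ C : ker f ∩ B]`. -/
theorem relIndex_map_mul_relIndex_ker {A' : Type*} [CommGroup A'] (f : A →* A')
    {B C : Subgroup A} (hBC : B ≤ C) :
    (B.map f).relIndex (C.map f) * (f.ker ⊓ B).relIndex (f.ker ⊓ C) = B.relIndex C := by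
  have h1 : (B.map f).relIndex (C.map f) = ((B ⊔ f.ker) ⊓ C).relIndex C := by
    rw [Subgroup.relIndex_map_map, Subgroup.inf_relIndex_right]
    have : C ⊔ f.ker = C ⊔ (B ⊔ f.ker) := by
      rw [← sup_assoc, sup_eq_left.mpr hBC]
    rw [this, Subgroup.relIndex_sup_right]
  have hmod : (B ⊔ f.ker) ⊓ C = B ⊔ (f.ker ⊓ C) := sup_inf_assoc_of_le _ hBC
  have h2 : (f.ker ⊓ B).relIndex (f.ker ⊓ C) = B.relIndex ((B ⊔ f.ker) ⊓ C) := by
    rw [hmod, Subgroup.relIndex_sup_left, ← Subgroup.inf_relIndex_right B]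
    congr 1
    rw [inf_comm B, inf_assoc, inf_eq_right.mpr hBC]
  rw [h1, h2, mul_comm]
  exact Subgroup.relIndex_mul_relIndex _ _ _ (by rw [hmod]; exact le_sup_left) inf_le_right

/-- Finite index invariance of Herbrand quotients, product form. -/
theorem hqm_mul_hqm_of_relIndex_ne_zero (f g : A →* A) (hfg : ∀ x, f (g x) = 1)
    (hgf : ∀ x, g (f x) = 1) {B C : Subgroup A} (hBC : B ≤ C)
    (hfB : B.map f ≤ B) (hgB : B.map g ≤ B) (hfC : C.map f ≤ C) (hgC : C.map g ≤ C)
    (hfin : B.relIndex C ≠ 0) :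
    hqm f g C * hqm g f B = hqm g f C * hqm f g B := by
  unfold hqm
  have hgBC : B.map g ≤ C.map g := Subgroup.map_mono hBC
  have hfBC : B.map f ≤ C.map f := Subgroup.map_mono hBC
  have hgC' : C.map g ≤ f.ker ⊓ C := by
    refine le_inf ?_ hgC
    rintro _ ⟨x, -, rfl⟩
    exact hfg x
  have hfC' : C.map f ≤ g.ker ⊓ C := by
    refine le_inf ?_ hfC
    rintro _ ⟨x, -, rfl⟩
    exact hgf x
  have hgB' : B.map g ≤ f.ker ⊓ B := by
    refine le_inf ?_ hgB
    rintro _ ⟨x, -, rfl⟩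
    exact hfg x
  have hfB' : B.map f ≤ g.ker ⊓ B := by
    refine le_inf ?_ hfB
    rintro _ ⟨x, -, rfl⟩
    exact hgf x
  have hkf : f.ker ⊓ B ≤ f.ker ⊓ C := inf_le_inf_left _ hBC
  have hkg : g.ker ⊓ B ≤ g.ker ⊓ C := inf_le_inf_left _ hBC
  have e1 : (B.map g).relIndex (C.map g) * (C.map g).relIndex (f.ker ⊓ C)
      = (B.map g).relIndex (f.ker ⊓ B) * (f.ker ⊓ B).relIndex (f.ker ⊓ C) := by
    rw [Subgroup.relIndex_mul_relIndex _ _ _ hgBC hgC',
      Subgroup.relIndex_mul_relIndex _ _ _ hgB' hkf]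
  have e2 : (B.map f).relIndex (C.map f) * (C.map f).relIndex (g.ker ⊓ C)
      = (B.map f).relIndex (g.ker ⊓ B) * (g.ker ⊓ B).relIndex (g.ker ⊓ C) := by
    rw [Subgroup.relIndex_mul_relIndex _ _ _ hfBC hfC',
      Subgroup.relIndex_mul_relIndex _ _ _ hfB' hkg]
  have e3 := relIndex_map_mul_relIndex_ker f hBC
  have e4 := relIndex_map_mul_relIndex_ker g hBC
  apply Nat.eq_of_mul_eq_mul_right (Nat.pos_of_ne_zero hfin)
  set a := (B.map g).relIndex (C.map g)
  set b := (C.map g).relIndex (f.ker ⊓ C)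
  set c := (B.map g).relIndex (f.ker ⊓ B)
  set d := (f.ker ⊓ B).relIndex (f.ker ⊓ C)
  set a' := (B.map f).relIndex (C.map f)
  set b' := (C.map f).relIndex (g.ker ⊓ C)
  set c' := (B.map f).relIndex (g.ker ⊓ B)
  set d' := (g.ker ⊓ B).relIndex (g.ker ⊓ C)
  set n := B.relIndex C
  calc b * c' * n = b * c' * (a * d') := by rw [e4]
    _ = (a * b) * (c' * d') := by ring
    _ = (c * d) * (a' * b') := by rw [e1, e2]
    _ = b' * c * (a' * d) := by ring
    _ = b' * c * n := by rw [e3]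

/-- If the Herbrand indices of a finite-index stable subgroup `B ≤ C` are both `1`, the two
Herbrand indices of `C` agree. -/
theorem hqm_eq_of_trivial (f g : A →* A) (hfg : ∀ x, f (g x) = 1)
    (hgf : ∀ x, g (f x) = 1) {B C : Subgroup A} (hBC : B ≤ C)
    (hfB : B.map f ≤ B) (hgB : B.map g ≤ B) (hfC : C.map f ≤ C) (hgC : C.map g ≤ C)
    (hfin : B.relIndex C ≠ 0) (h0 : hqm f g B = 1) (h1 : hqm g f B = 1) :
    hqm f g C = hqm g f C := by
  have := hqm_mul_hqm_of_relIndex_ne_zero f g hfg hgf hBC hfB hgB hfC hgC hfin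
  rw [h0, h1, mul_one, mul_one] at this
  exact this

end Fermat.Agent.S55.helper31
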