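import Mathlib
import Fermat.Agent.S55.helper31_ValLemmas

/-!
# S55 / LOC-3 (helper31): successive approximation in a complete valued field

Abstract lifting lemma: if `F : Lˣ →* Lˣ` is continuous and every element `u` of the `k`-th step
`Vk k` of a filtration with property `P` can be corrected by some `F w`, `w ∈ Vk k`, into an
element of `Vk (k+1)` with property `P`, then every `u ∈ Vk 0` with `P u` is of the form `F w`.
-/

set_option autoImplicit false

namespace Fermat.Agent.S55.helper31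

variable {L : Type*} [Field L] (v : AddValuation L (WithTop ℤ))

/-- Sequential completeness (shape of `helper8.Interface.exists_limit`). -/
def IsCompleteVal : Prop :=
  ∀ x : ℕ → L, (∀ k : ℕ, x (k + 1) - x k ∈ ball v k) → ∃ y : L, ∀ k : ℕ, y - x k ∈ ball v k

section lift

variable (F : Lˣ →* Lˣ) (P : Lˣ → Prop) (Vk : ℕ → Subgroup Lˣ)
  (hstep : ∀ k (u : Lˣ), u ∈ Vk k → P u → ∃ w ∈ Vk k, u / F w ∈ Vk (k + 1) ∧ P (u / F w))

open Classical in
/-- The correction chosen at step `k`. -/
noncomputable def liftNext (k : ℕ) (u : Lˣ) : Lˣ :=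
  if h : u ∈ Vk k ∧ P u then (hstep k u h.1 h.2).choose else 1

/-- The sequence of remainders. -/
noncomputable def liftU (u : Lˣ) : ℕ → Lˣ
  | 0 => u
  | k + 1 => liftU u k / F (liftNext F P Vk hstep k (liftU u k))

/-- The sequence of corrections. -/
noncomputable def liftW (u : Lˣ) (k : ℕ) : Lˣ := liftNext F P Vk hstep k (liftU F P Vk hstep u k)

theorem liftU_succ (u : Lˣ) (k : ℕ) :
    liftU F P Vk hstep u (k + 1) = liftU F P Vk hstep u k / F (liftW F P Vk hstep u k) := rfl

theorem liftU_mem (u : Lˣ) (hu : u ∈ Vk 0) (hP : P u) (k : ℕ) :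
    liftU F P Vk hstep u k ∈ Vk k ∧ P (liftU F P Vk hstep u k) := by
  induction k with
  | zero => exact ⟨hu, hP⟩
  | succ k ih =>
    rw [liftU_succ, liftW, liftNext, dif_pos ih]
    exact (hstep k _ ih.1 ih.2).choose_spec.2

theorem liftW_mem (u : Lˣ) (hu : u ∈ Vk 0) (hP : P u) (k : ℕ) :
    liftW F P Vk hstep u k ∈ Vk k := by
  have ih := liftU_mem F P Vk hstep u hu hP k
  rw [liftW, liftNext, dif_pos ih]
  exact (hstep k _ ih.1 ih.2).choose_spec.1

/-- Partial products of the corrections. -/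
noncomputable def liftProd (u : Lˣ) (k : ℕ) : Lˣ := ∏ i ∈ Finset.range k, liftW F P Vk hstep u i

theorem liftProd_succ (u : Lˣ) (k : ℕ) :
    liftProd F P Vk hstep u (k + 1) = liftProd F P Vk hstep u k * liftW F P Vk hstep u k := by
  simp [liftProd, Finset.prod_range_succ]

theorem map_liftProd_mul (u : Lˣ) (k : ℕ) :
    F (liftProd F P Vk hstep u k) * liftU F P Vk hstep u k = u := by
  induction k with
  | zero => simp [liftProd, liftU]
  | succ k ih =>
    rw [liftProd_succ, liftU_succ, map_mul]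
    rw [show F (liftProd F P Vk hstep u k) * F (liftW F P Vk hstep u k) *
        (liftU F P Vk hstep u k / F (liftW F P Vk hstep u k))
        = F (liftProd F P Vk hstep u k) * liftU F P Vk hstep u k by
      rw [mul_assoc, mul_div_cancel]]
    exact ih

theorem liftProd_mem (hmono : ∀ k, Vk (k + 1) ≤ Vk k) (u : Lˣ) (hu : u ∈ Vk 0) (hP : P u)
    (k : ℕ) : liftProd F P Vk hstep u k ∈ Vk 0 := by
  have hanti : ∀ i, Vk i ≤ Vk 0 := by
    intro i
    induction i with
    | zero => exact le_rfl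
    | succ i ih => exact (hmono i).trans ih
  exact Subgroup.prod_mem _ fun i _ => hanti i (liftW_mem F P Vk hstep u hu hP i)

include hstep in
/-- **Lifting lemma** (successive approximation). -/
theorem lift_exists (hc : IsCompleteVal v)
    (hmono : ∀ k, Vk (k + 1) ≤ Vk k)
    (hV_ball : ∀ k (u : Lˣ), u ∈ Vk k → (u : L) - 1 ∈ ball v (k + 1))
    (hV_closed : ∀ y : Lˣ, (∀ k : ℕ, ∃ W ∈ Vk 0, (y : L) - W ∈ ball v k) → y ∈ Vk 0)
    (hF_cont : ∀ y W : Lˣ, v (y : L) = 0 → v (W : L) = 0 → ∀ k : ℕ,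
      (y : L) - W ∈ ball v k → ((F y : Lˣ) : L) - (F W : Lˣ) ∈ ball v k)
    (u : Lˣ) (hu : u ∈ Vk 0) (hP : P u) : ∃ w ∈ Vk 0, F w = u := by
  have hv0 : ∀ k (x : Lˣ), x ∈ Vk k → v (x : L) = 0 := fun k x hx =>
    v_eq_zero_of_sub_one_mem_ball v (by omega) (hV_ball k x hx)
  set W := liftProd F P Vk hstep u with hW
  have hWmem := liftProd_mem F P Vk hstep hmono u hu hP
  have hcauchy : ∀ k : ℕ, ((W (k + 1) : Lˣ) : L) - W k ∈ ball v k := by
    intro k
    rw [hW, liftProd_succ, Units.val_mul]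
    have e : (liftProd F P Vk hstep u k : L) * (liftW F P Vk hstep u k : L)
        - (liftProd F P Vk hstep u k : L)
        = (liftProd F P Vk hstep u k : L) * ((liftW F P Vk hstep u k : L) - 1) := by ring
    rw [e]
    have h1 : (liftProd F P Vk hstep u k : L) ∈ ball v 0 := by
      rw [mem_ball, hv0 0 _ (hWmem k)]; rfl
    have h2 := hV_ball k _ (liftW_mem F P Vk hstep u hu hP k)
    have := mul_mem_ball v h1 h2
    exact ball_mono v (by omega) this
  obtain ⟨y, hy⟩ := hc (fun k => ((W k : Lˣ) : L)) hcauchy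
  have hvy : v y = 0 := by
    have h1 : v ((W 1 : Lˣ) : L) < v (y - (W 1 : Lˣ)) := by
      rw [hv0 0 _ (hWmem 1)]
      exact lt_of_lt_of_le (by exact_mod_cast one_pos) (hy 1)
    have := v.map_add_eq_of_lt_left h1
    rw [add_sub_cancel, hv0 0 _ (hWmem 1)] at this
    exact this
  have hy0 : y ≠ 0 := by
    intro h
    rw [h, v.map_zero] at hvy
    exact WithTop.top_ne_zero hvy
  set yu : Lˣ := Units.mk0 y hy0 with hyu
  have hyV : yu ∈ Vk 0 := hV_closed yu fun k => ⟨W k, hWmem k, hy k⟩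
  refine ⟨yu, hyV, ?_⟩
  have hall : ∀ k : ℕ, ((F yu : Lˣ) : L) - (u : L) ∈ ball v k := by
    intro k
    have h1 := hF_cont yu (W k) hvy (hv0 0 _ (hWmem k)) k (hy k)
    have hk := map_liftProd_mul F P Vk hstep u k
    have hUk := liftU_mem F P Vk hstep u hu hP k
    have hFW : v ((F (W k) : Lˣ) : L) = 0 := by
      have e : (F (W k) : Lˣ) = u / liftU F P Vk hstep u k := by
        rw [eq_div_iff_mul_eq']
        exact hk
      rw [e, Units.val_div_eq_div_val, v.map_div, hv0 0 u hu, hv0 k _ hUk.1]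
      rfl
    have h2 : ((F (W k) : Lˣ) : L) - (u : L) ∈ ball v k := by
      have e : ((F (W k) : Lˣ) : L) - (u : L)
          = -(((F (W k) : Lˣ) : L) * ((liftU F P Vk hstep u k : L) - 1)) := by
        conv_lhs => rw [← hk]
        rw [Units.val_mul]; ring
      rw [e]
      refine (ball v k).neg_mem ?_
      have h3 : ((F (W k) : Lˣ) : L) ∈ ball v 0 := by rw [mem_ball, hFW]; rfl
      have := mul_mem_ball v h3 (hV_ball k _ hUk.1)
      exact ball_mono v (by omega) this
    have e : ((F yu : Lˣ) : L) - (u : L)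
        = (((F yu : Lˣ) : L) - (F (W k) : Lˣ)) + (((F (W k) : Lˣ) : L) - (u : L)) := by ring
    rw [e]
    exact (ball v k).add_mem h1 h2
  have := eq_zero_of_forall_mem_ball v hall
  exact Units.ext (sub_eq_zero.1 this)

end lift

end Fermat.Agent.S55.helper31
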