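import Mathlib
import Fermat.Agent.S55.helper31_Lattice
import Fermat.Agent.S55.helper31_Lifting
import Fermat.Agent.S55.helper31_HerbrandMul

/-!
# S55 / LOC-3 (helper31): the cohomologically trivial unit groups `1 + latt j`

Setting (`LattData`): `L/K` finite cyclic Galois with generator `φ`, `v` a Galois-invariant
`ℤ`-valued valuation on `L`, `b σ = σ θ` an integral normal basis, `c ≥ 0` with
`ball (j + c) ≤ latt j`.  For `j ≥ c + 1` the set `Vgrp j = {u | u - 1 ∈ latt j}` is a Galois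
stable subgroup of `Lˣ`, and (if `L` is complete) every fixed element of `Vgrp (c+1)` is a norm
from it and every element of norm one is of the form `φ w / w`.
-/

set_option autoImplicit false
set_option linter.unusedSectionVars false

namespace Fermat.Agent.S55.helper31

open Finset

/-- The data for the local norm index computation. -/
structure LattData (K L : Type) [Field K] [Field L] [Algebra K L] where
  /-- the valuation -/
  v : AddValuation L (WithTop ℤ)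
  /-- Galois invariance -/
  hinv : ∀ (σ : L ≃ₐ[K] L) (x : L), v (σ x) = v x
  /-- the normal basis -/
  b : Module.Basis (L ≃ₐ[K] L) K L
  /-- the normal basis generator -/
  θ : L
  hb : ∀ σ, b σ = σ θ
  hb0 : ∀ σ, b σ ∈ ball v 0
  /-- the conductor of the lattice -/
  c : ℤ
  hc0 : 0 ≤ c
  hc : ∀ j : ℤ, ball v (j + c) ≤ latt v b j
  /-- the generator of the Galois group -/
  φ : L ≃ₐ[K] L
  hφ : ∀ σ : L ≃ₐ[K] L, σ ∈ Subgroup.zpowers φ

section ops

variable {K L : Type} [Field K] [Field L] [Algebra K L] [FiniteDimensional K L]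

/-- The norm operator `u ↦ ∏ σ, σ u` on `Lˣ`. -/
noncomputable def NmOp (K L : Type) [Field K] [Field L] [Algebra K L] [FiniteDimensional K L] :
    Lˣ →* Lˣ where
  toFun u := ∏ σ : L ≃ₐ[K] L, σ • u
  map_one' := by simp
  map_mul' a b := by simp [Finset.prod_mul_distrib]

/-- The operator `u ↦ φ u / u` on `Lˣ`. -/
noncomputable def DOp (φ : L ≃ₐ[K] L) : Lˣ →* Lˣ where
  toFun u := φ • u / u
  map_one' := by simp
  map_mul' a b := by rw [smul_mul', mul_div_mul_comm]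

theorem NmOp_apply (u : Lˣ) : NmOp K L u = ∏ σ : L ≃ₐ[K] L, σ • u := rfl

theorem coe_NmOp (u : Lˣ) : ((NmOp K L u : Lˣ) : L) = ∏ σ : L ≃ₐ[K] L, σ (u : L) := by
  simp [NmOp_apply, Units.coe_prod, AlgEquiv.smul_units_def]

theorem DOp_apply (φ : L ≃ₐ[K] L) (u : Lˣ) : DOp φ u = φ • u / u := rfl

theorem coe_DOp (φ : L ≃ₐ[K] L) (u : Lˣ) : ((DOp φ u : Lˣ) : L) = φ (u : L) / u := by
  simp [DOp_apply, Units.val_div_eq_div_val, AlgEquiv.smul_units_def]

theorem smul_NmOp (τ : L ≃ₐ[K] L) (u : Lˣ) : τ • NmOp K L u = NmOp K L u := by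
  rw [NmOp_apply, Finset.smul_prod']
  simp_rw [← mul_smul]
  exact Fintype.prod_equiv (Equiv.mulLeft τ) _ _ (fun σ => rfl)

theorem NmOp_smul (τ : L ≃ₐ[K] L) (u : Lˣ) : NmOp K L (τ • u) = NmOp K L u := by
  rw [NmOp_apply, NmOp_apply]
  simp_rw [← mul_smul]
  exact Fintype.prod_equiv (Equiv.mulRight τ) _ _ (fun σ => rfl)

theorem DOp_NmOp (φ : L ≃ₐ[K] L) (u : Lˣ) : DOp φ (NmOp K L u) = 1 := by
  rw [DOp_apply, smul_NmOp, div_self']

theorem NmOp_DOp (φ : L ≃ₐ[K] L) (u : Lˣ) : NmOp K L (DOp φ u) = 1 := by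
  rw [DOp_apply, map_div, NmOp_smul, div_self']

end ops

namespace LattData

variable {K L : Type} [Field K] [Field L] [Algebra K L] [FiniteDimensional K L] [IsGalois K L]
variable (D : LattData K L)

theorem latt_le_ball' (j : ℤ) : latt D.v D.b j ≤ ball D.v j :=
  latt_le_ball D.v D.hb0 j

theorem ball_add_le_latt_succ {j : ℤ} (hj : D.c + 1 ≤ j) :
    ball D.v (j + j) ≤ latt D.v D.b (j + 1) :=
  (ball_mono D.v (by omega)).trans (D.hc (j + 1))

theorem ball_add_le_latt {j : ℤ} (hj : D.c + 1 ≤ j) :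
    ball D.v (j + j) ≤ latt D.v D.b j :=
  (D.ball_add_le_latt_succ hj).trans (latt_mono D.v D.b (by omega))

theorem v_eq_zero_of_sub_one_mem_latt {j : ℤ} (hj : D.c + 1 ≤ j) {x : L}
    (hx : x - 1 ∈ latt D.v D.b j) : D.v x = 0 :=
  v_eq_zero_of_sub_one_mem_ball D.v (r := j) (by have := D.hc0; omega) (D.latt_le_ball' j hx)

theorem mem_ball_zero_of_v_eq_zero {x : L} (hx : D.v x = 0) : x ∈ ball D.v 0 := by
  rw [mem_ball, hx]; rfl

theorem inv_mem_ball_zero {x : L} (hx : D.v x = 0) : x⁻¹ ∈ ball D.v 0 := by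
  rw [mem_ball, D.v.map_inv, hx]; rfl

/-- The group `{u | u - 1 ∈ latt j}` for `j ≥ c + 1`. -/
def Vgrp (j : ℤ) (hj : D.c + 1 ≤ j) : Subgroup Lˣ where
  carrier := {u | (u : L) - 1 ∈ latt D.v D.b j}
  one_mem' := by simp
  mul_mem' := by
    intro a b ha hb
    simp only [Set.mem_ofPred_eq] at ha hb ⊢
    have e : ((a * b : Lˣ) : L) - 1
        = ((a : L) - 1) + ((b : L) - 1) + ((a : L) - 1) * ((b : L) - 1) := by
      rw [Units.val_mul]; ring
    rw [e]
    refine AddSubgroup.add_mem _ (AddSubgroup.add_mem _ ha hb) ?_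
    exact D.ball_add_le_latt hj
      (mul_mem_ball D.v (D.latt_le_ball' j ha) (D.latt_le_ball' j hb))
  inv_mem' := by
    intro a ha
    simp only [Set.mem_ofPred_eq] at ha ⊢
    have hva := D.v_eq_zero_of_sub_one_mem_latt hj ha
    have e : ((a⁻¹ : Lˣ) : L) - 1
        = -((a : L) - 1) + ((a : L) - 1) * ((a : L) - 1) * (a : L)⁻¹ := by
      rw [Units.val_inv_eq_inv_val]
      field_simp
      ring
    rw [e]
    refine AddSubgroup.add_mem _ (AddSubgroup.neg_mem _ ha) ?_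
    have h1 := mul_mem_ball D.v (mul_mem_ball D.v (D.latt_le_ball' j ha) (D.latt_le_ball' j ha))
      (D.inv_mem_ball_zero hva)
    rw [add_zero] at h1
    exact D.ball_add_le_latt hj h1

theorem mem_Vgrp {j : ℤ} {hj : D.c + 1 ≤ j} {u : Lˣ} :
    u ∈ D.Vgrp j hj ↔ (u : L) - 1 ∈ latt D.v D.b j := Iff.rfl

/-- The filtration used for the successive approximation. -/
def Vk (k : ℕ) : Subgroup Lˣ := D.Vgrp (D.c + 1 + k) (by omega)

theorem mem_Vk {k : ℕ} {u : Lˣ} :
    u ∈ D.Vk k ↔ (u : L) - 1 ∈ latt D.v D.b (D.c + 1 + k) := Iff.rfl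

theorem mem_Vk_succ {k : ℕ} {u : Lˣ} :
    u ∈ D.Vk (k + 1) ↔ (u : L) - 1 ∈ latt D.v D.b (D.c + 1 + k + 1) := by
  rw [mem_Vk]
  have : D.c + 1 + ((k + 1 : ℕ) : ℤ) = D.c + 1 + k + 1 := by push_cast; ring
  rw [this]

theorem Vk_mono (k : ℕ) : D.Vk (k + 1) ≤ D.Vk k := by
  intro u hu
  rw [mem_Vk] at hu ⊢
  exact latt_mono D.v D.b (by push_cast; omega) hu

theorem Vk_ball (k : ℕ) (u : Lˣ) (hu : u ∈ D.Vk k) : (u : L) - 1 ∈ ball D.v (k + 1) := by
  rw [mem_Vk] at hu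
  have := D.hc0
  exact ball_mono D.v (by omega) (D.latt_le_ball' _ hu)

theorem Vk_v_eq_zero (k : ℕ) (u : Lˣ) (hu : u ∈ D.Vk k) : D.v (u : L) = 0 :=
  v_eq_zero_of_sub_one_mem_ball D.v (by omega) (D.Vk_ball k u hu)

theorem Vk_closed (y : Lˣ) (h : ∀ k : ℕ, ∃ W ∈ D.Vk 0, (y : L) - W ∈ ball D.v k) :
    y ∈ D.Vk 0 := by
  obtain ⟨W, hW, hyW⟩ := h (D.c + 1 + D.c).toNat
  rw [mem_Vk] at hW ⊢
  have e : (y : L) - 1 = ((y : L) - W) + ((W : L) - 1) := by ring
  rw [e]
  refine AddSubgroup.add_mem _ ?_ hW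
  have h1 : ((D.c + 1 + D.c).toNat : ℤ) = D.c + 1 + D.c := Int.toNat_of_nonneg (by
    have := D.hc0; omega)
  rw [h1] at hyW
  simpa using D.hc _ hyW

/-- Galois stability of `Vk`. -/
theorem smul_mem_Vk (k : ℕ) (τ : L ≃ₐ[K] L) {u : Lˣ} (hu : u ∈ D.Vk k) : τ • u ∈ D.Vk k := by
  rw [mem_Vk] at hu ⊢
  have e : ((τ • u : Lˣ) : L) - 1 = τ ((u : L) - 1) := by
    simp [AlgEquiv.smul_units_def]
  rw [e]
  exact algEquiv_mem_latt D.v D.b D.θ D.hb hu τ

theorem NmOp_mem_Vk (k : ℕ) {u : Lˣ} (hu : u ∈ D.Vk k) : NmOp K L u ∈ D.Vk k := by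
  rw [NmOp_apply]
  exact Subgroup.prod_mem _ fun σ _ => D.smul_mem_Vk k σ hu

theorem DOp_mem_Vk (k : ℕ) {u : Lˣ} (hu : u ∈ D.Vk k) : DOp D.φ u ∈ D.Vk k := by
  rw [DOp_apply]
  exact Subgroup.div_mem _ (D.smul_mem_Vk k D.φ hu) hu

/-- A unit `1 + y` with `y` in the lattice. -/
theorem exists_unit_one_add {k : ℕ} {y : L} (hy : y ∈ latt D.v D.b (D.c + 1 + k)) :
    ∃ w : Lˣ, (w : L) = 1 + y ∧ w ∈ D.Vk k := by
  have hv : D.v (1 + y) = 0 := by
    apply D.v_eq_zero_of_sub_one_mem_latt (j := D.c + 1 + k) (by omega)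
    simpa using hy
  have hne : (1 + y : L) ≠ 0 := by
    intro h
    rw [h, D.v.map_zero] at hv
    exact WithTop.top_ne_zero hv
  refine ⟨Units.mk0 (1 + y) hne, rfl, ?_⟩
  rw [mem_Vk]
  simpa using hy

/-- **Norm step**: a fixed element of `Vk k` is a norm from `Vk k` up to `Vk (k+1)`. -/
theorem norm_step (k : ℕ) (u : Lˣ) (hu : u ∈ D.Vk k) (hfix : ∀ σ : L ≃ₐ[K] L, σ • u = u) :
    ∃ w ∈ D.Vk k, u / NmOp K L w ∈ D.Vk (k + 1) ∧
      ∀ σ : L ≃ₐ[K] L, σ • (u / NmOp K L w) = u / NmOp K L w := by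
  have hj : D.c + 1 ≤ D.c + 1 + k := by omega
  rw [mem_Vk] at hu
  have hfix' : ∀ σ : L ≃ₐ[K] L, σ ((u : L) - 1) = (u : L) - 1 := by
    intro σ
    have := congrArg (fun w : Lˣ => (w : L)) (hfix σ)
    simp only [AlgEquiv.smul_units_def, Units.coe_map, MonoidHom.coe_coe] at this
    rw [map_sub, map_one, this]
  obtain ⟨y, hy, hyx⟩ := exists_trace_eq_of_fixed D.v D.b D.θ D.hb hu hfix'
  obtain ⟨w, hw, hwV⟩ := D.exists_unit_one_add hy
  refine ⟨w, hwV, ?_, ?_⟩
  · -- the remainder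
    have hz : ∀ σ ∈ (Finset.univ : Finset (L ≃ₐ[K] L)), σ y ∈ ball D.v (D.c + 1 + k) :=
      fun σ _ => algEquiv_mem_ball D.v D.hinv (D.latt_le_ball' _ hy) σ
    have hr := (prod_one_add_sub D.v Finset.univ (fun σ : L ≃ₐ[K] L => σ y)
      (by have := D.hc0; omega) hz).1
    have hN : ((NmOp K L w : Lˣ) : L) = ∏ σ : L ≃ₐ[K] L, (1 + σ y) := by
      rw [coe_NmOp, hw]
      simp
    have hNV := D.NmOp_mem_Vk k hwV
    have hvN := D.Vk_v_eq_zero k _ hNV
    rw [mem_Vk_succ]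
    have e : ((u / NmOp K L w : Lˣ) : L) - 1
        = -((∏ σ : L ≃ₐ[K] L, (1 + σ y) - 1 - ∑ σ : L ≃ₐ[K] L, σ y)
            * ((NmOp K L w : Lˣ) : L)⁻¹) := by
      rw [Units.val_div_eq_div_val, hyx, ← hN]
      have hne : ((NmOp K L w : Lˣ) : L) ≠ 0 := (NmOp K L w).ne_zero
      field_simp
      ring
    rw [e]
    refine AddSubgroup.neg_mem _ ?_
    have h1 := mul_mem_ball D.v hr (D.inv_mem_ball_zero hvN)
    rw [add_zero] at h1
    have := D.ball_add_le_latt_succ hj h1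
    simpa [add_assoc] using this
  · intro σ
    rw [smul_div', hfix σ, smul_NmOp]

/-- **`D` step**: an element of norm one of `Vk k` is of the form `φ w / w`, `w ∈ Vk k`, up to
`Vk (k+1)`. -/
theorem d_step (k : ℕ) (u : Lˣ) (hu : u ∈ D.Vk k) (hN : NmOp K L u = 1) :
    ∃ w ∈ D.Vk k, u / DOp D.φ w ∈ D.Vk (k + 1) ∧ NmOp K L (u / DOp D.φ w) = 1 := by
  have hj : D.c + 1 ≤ D.c + 1 + k := by omega
  have huV := hu
  rw [mem_Vk] at hu
  set x : L := (u : L) - 1 with hx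
  -- the trace of `x` is small
  have hz : ∀ σ ∈ (Finset.univ : Finset (L ≃ₐ[K] L)), σ x ∈ ball D.v (D.c + 1 + k) :=
    fun σ _ => algEquiv_mem_ball D.v D.hinv (D.latt_le_ball' _ hu) σ
  have hr := (prod_one_add_sub D.v Finset.univ (fun σ : L ≃ₐ[K] L => σ x)
    (by have := D.hc0; omega) hz).1
  have hNu : ∏ σ : L ≃ₐ[K] L, (1 + σ x) = 1 := by
    have h1 := congrArg (fun w : Lˣ => (w : L)) hN
    simp only [coe_NmOp, Units.val_one] at h1
    refine Eq.trans (Finset.prod_congr rfl fun σ _ => ?_) h1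
    rw [hx, map_sub, map_one]; ring
  rw [hNu, sub_self, zero_sub] at hr
  have htr : ∑ σ : L ≃ₐ[K] L, σ x ∈ latt D.v D.b (D.c + 1 + k + 1) := by
    have := D.ball_add_le_latt_succ hj ((ball D.v _).neg_mem hr)
    simpa using this
  have hs := sum_repr_mem_ball_of_trace_mem D.v D.b D.θ D.hb htr
  obtain ⟨y, hy, hdec⟩ := exists_decomp D.v D.b D.θ D.hb D.φ D.hφ hu
  obtain ⟨w, hw, hwV⟩ := D.exists_unit_one_add hy
  have hDV := D.DOp_mem_Vk k hwV
  refine ⟨w, hwV, ?_, ?_⟩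
  · rw [mem_Vk_succ]
    -- `E = u * w - φ w = s • θ + x * y`
    have hφw : D.φ (w : L) = 1 + D.φ y := by rw [hw, map_add, map_one]
    have hvφw : D.v (D.φ (w : L)) = 0 := by
      rw [D.hinv]; exact D.Vk_v_eq_zero k w hwV
    have hE : (u : L) * (w : L) - D.φ (w : L)
        = (∑ σ, D.b.repr x σ) • D.θ + x * y := by
      rw [hφw, hw]
      have hu1 : (u : L) = 1 + x := by rw [hx]; ring
      rw [hu1]
      generalize (∑ σ, D.b.repr x σ) • D.θ = S at hdec ⊢
      linear_combination hdec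
    have hEmem : (u : L) * (w : L) - D.φ (w : L) ∈ latt D.v D.b (D.c + 1 + k + 1) := by
      rw [hE]
      refine AddSubgroup.add_mem _ ?_ ?_
      · have hθ : D.θ ∈ latt D.v D.b 0 := by
          have := smul_basis_mem_latt D.v D.b (c := 1) (j := 0) (by simpa using one_mem_ball D.v) 1
          rwa [one_smul, D.hb 1, AlgEquiv.one_apply] at this
        have := smul_mem_latt D.v D.b hs hθ
        simpa using this
      · have := D.ball_add_le_latt_succ hj
          (mul_mem_ball D.v (D.latt_le_ball' _ hu) (D.latt_le_ball' _ hy))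
        simpa using this
    have e : ((u / DOp D.φ w : Lˣ) : L) - 1
        = ((u : L) * (w : L) - D.φ (w : L))
          + ((u : L) * (w : L) - D.φ (w : L)) * ((D.φ (w : L))⁻¹ - 1) := by
      rw [Units.val_div_eq_div_val, coe_DOp]
      have h1 : (w : L) ≠ 0 := w.ne_zero
      have h2 : D.φ (w : L) ≠ 0 := by
        intro h
        rw [h, D.v.map_zero] at hvφw
        exact WithTop.top_ne_zero hvφw
      field_simp
      ring
    rw [e]
    refine AddSubgroup.add_mem _ hEmem ?_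
    -- the second term is in `ball (2j+1) ⊆ latt (j+1)`
    have h3 : (D.φ (w : L))⁻¹ - 1 ∈ ball D.v (D.c + 1 + k) := by
      have h2 : D.φ (w : L) ≠ 0 := by
        intro h
        rw [h, D.v.map_zero] at hvφw
        exact WithTop.top_ne_zero hvφw
      have e3 : (D.φ (w : L))⁻¹ - 1 = -(D.φ y * (D.φ (w : L))⁻¹) := by
        rw [hφw] at h2 ⊢
        field_simp
        ring
      rw [e3]
      refine AddSubgroup.neg_mem _ ?_
      have := mul_mem_ball D.v (algEquiv_mem_ball D.v D.hinv (D.latt_le_ball' _ hy) D.φ)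
        (D.inv_mem_ball_zero hvφw)
      simpa using this
    have h4 := mul_mem_ball D.v (D.latt_le_ball' _ hEmem) h3
    have h5 : ball D.v (D.c + 1 + k + 1 + (D.c + 1 + k)) ≤ latt D.v D.b (D.c + 1 + k + 1) :=
      (ball_mono D.v (by have := D.hc0; omega)).trans (D.hc _)
    have := h5 h4
    simpa [add_assoc] using this
  · rw [map_div, hN, NmOp_DOp, div_one]

end LattData

end Fermat.Agent.S55.helper31
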