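import Mathlib
import Fermat.Agent.S55.helper31_UnitGroups

/-!
# S55 / LOC-3 (helper31): the local norm index theorem, abstract form

`L/K` finite cyclic Galois, `v` a Galois-invariant nontrivial `ℤ`-valued valuation on `L` for
which `L` is complete and the valuation ring is totally bounded.  Then `[Kˣ : N Lˣ] = [L : K]`.
-/

set_option autoImplicit false
set_option linter.unusedSectionVars false

namespace Fermat.Agent.S55.helper31

open Finset

section int

/-- index of the `n`-th powers in `Multiplicative ℤ` -/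
theorem index_range_pow_int (n : ℕ) :
    (powMonoidHom n : Multiplicative ℤ →* Multiplicative ℤ).range.index = n := by
  have h1 : (powMonoidHom n : Multiplicative ℤ →* Multiplicative ℤ).range
      = AddSubgroup.toSubgroup (AddSubgroup.zmultiples (n : ℤ)) := by
    ext x
    constructor
    · rintro ⟨y, rfl⟩
      change Multiplicative.toAdd (y ^ n) ∈ AddSubgroup.zmultiples (n : ℤ)
      rw [AddSubgroup.mem_zmultiples_iff]
      refine ⟨Multiplicative.toAdd y, ?_⟩
      simp [mul_comm]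
    · intro hx
      change Multiplicative.toAdd x ∈ AddSubgroup.zmultiples (n : ℤ) at hx
      rw [AddSubgroup.mem_zmultiples_iff] at hx
      obtain ⟨k, hk⟩ := hx
      refine ⟨Multiplicative.ofAdd k, ?_⟩
      apply Multiplicative.toAdd.injective
      simp only [powMonoidHom_apply, toAdd_pow, toAdd_ofAdd]
      rw [← hk]; simp [mul_comm]
  rw [h1, AddSubgroup.index_toSubgroup, Int.index_zmultiples]
  simp

/-- `[X : Xⁿ] = n` for a nontrivial subgroup of `Multiplicative ℤ`. -/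
theorem relIndex_pow_int (X : Subgroup (Multiplicative ℤ)) (hX : X ≠ ⊥) (n : ℕ) :
    (X.map (powMonoidHom n)).relIndex X = n := by
  obtain ⟨g, hg⟩ := IsCyclic.exists_generator (α := X)
  have hg₀ : (g : Multiplicative ℤ) ≠ 1 := by
    intro h
    apply hX
    rw [Subgroup.eq_bot_iff_forall]
    intro x hx
    obtain ⟨k, hk⟩ := Subgroup.mem_zpowers_iff.1 (hg ⟨x, hx⟩)
    have := congrArg (fun y : X => (y : Multiplicative ℤ)) hk
    simp only [Subgroup.coe_zpow] at this
    rw [← this, h, one_zpow]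
  set e : Multiplicative ℤ →* Multiplicative ℤ :=
    zpowersHom (Multiplicative ℤ) (g : Multiplicative ℤ) with he
  have he_apply : ∀ k : Multiplicative ℤ,
      e k = (g : Multiplicative ℤ) ^ (Multiplicative.toAdd k) := by
    intro k; rfl
  have he_range : (⊤ : Subgroup (Multiplicative ℤ)).map e = X := by
    ext x
    constructor
    · rintro ⟨k, -, rfl⟩
      rw [he_apply]
      exact X.zpow_mem g.2 _
    · intro hx
      obtain ⟨k, hk⟩ := Subgroup.mem_zpowers_iff.1 (hg ⟨x, hx⟩)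
      have := congrArg (fun y : X => (y : Multiplicative ℤ)) hk
      simp only [Subgroup.coe_zpow] at this
      exact ⟨Multiplicative.ofAdd k, Subgroup.mem_top _, by rw [he_apply]; simpa using this⟩
  have he_inj : Function.Injective e := by
    rw [injective_iff_map_eq_one]
    intro k hk
    rw [he_apply] at hk
    have h1 := congrArg Multiplicative.toAdd hk
    simp only [toAdd_zpow, toAdd_one, smul_eq_mul, mul_eq_zero] at h1
    rcases h1 with h1 | h1
    · exact Multiplicative.toAdd.injective h1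
    · exact absurd (Multiplicative.toAdd.injective h1) hg₀
  have hP : (powMonoidHom n : Multiplicative ℤ →* Multiplicative ℤ).range.map e
      = X.map (powMonoidHom n) := by
    rw [← he_range, MonoidHom.range_eq_map, Subgroup.map_map, Subgroup.map_map]
    congr 1
    ext
    simp [he_apply, map_pow]
  rw [← hP]
  conv_lhs => rw [← he_range]
  rw [Subgroup.relIndex_map_map_of_injective _ _ he_inj, Subgroup.relIndex_top_right,
    index_range_pow_int]

end int

namespace LattData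

variable {K L : Type} [Field K] [Field L] [Algebra K L] [FiniteDimensional K L] [IsGalois K L]
variable (D : LattData K L)

/-- The unit group `ker v`. -/
noncomputable def Ugrp : Subgroup Lˣ := (valU D.v).ker

theorem mem_Ugrp {u : Lˣ} : u ∈ D.Ugrp ↔ D.v (u : L) = 0 := mem_ker_valU D.v

theorem Vk_le_Ugrp (k : ℕ) : D.Vk k ≤ D.Ugrp := fun u hu =>
  D.mem_Ugrp.2 (D.Vk_v_eq_zero k u hu)

theorem smul_mem_Ugrp (τ : L ≃ₐ[K] L) {u : Lˣ} (hu : u ∈ D.Ugrp) : τ • u ∈ D.Ugrp := by
  rw [mem_Ugrp] at hu ⊢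
  rw [AlgEquiv.smul_units_def, Units.coe_map, MonoidHom.coe_coe, D.hinv]
  exact hu

theorem valU_smul (τ : L ≃ₐ[K] L) (u : Lˣ) : valU D.v (τ • u) = valU D.v u := by
  rw [valU_apply, valU_apply, AlgEquiv.smul_units_def, Units.coe_map, MonoidHom.coe_coe]
  congr 1
  rw [valInt, valInt, D.hinv]

theorem valU_NmOp (u : Lˣ) :
    valU D.v (NmOp K L u) = valU D.v u ^ Fintype.card (L ≃ₐ[K] L) := by
  rw [NmOp_apply, map_prod]
  simp_rw [valU_smul]
  rw [Finset.prod_const, Finset.card_univ]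

theorem valU_DOp (u : Lˣ) : valU D.v (DOp D.φ u) = 1 := by
  rw [DOp_apply, map_div, valU_smul, div_self']

/-- **Degree `0`**: fixed elements of `Vk 0` are norms from `Vk 0`. -/
theorem fixed_is_norm (hc : IsCompleteVal D.v) (u : Lˣ) (hu : u ∈ D.Vk 0)
    (hfix : ∀ σ : L ≃ₐ[K] L, σ • u = u) : ∃ w ∈ D.Vk 0, NmOp K L w = u := by
  refine lift_exists D.v (NmOp K L) (fun u => ∀ σ : L ≃ₐ[K] L, σ • u = u) D.Vk
    (fun k u hu hP => D.norm_step k u hu hP) hc D.Vk_mono D.Vk_ball D.Vk_closed ?_ u hu hfix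
  intro y W hy hW k hyW
  rw [coe_NmOp, coe_NmOp]
  refine prod_sub_prod_mem_ball D.v _ _ _ (fun σ _ => ?_) (fun σ _ => ?_) (fun σ _ => ?_)
  · exact algEquiv_mem_ball D.v D.hinv (D.mem_ball_zero_of_v_eq_zero hy) σ
  · exact algEquiv_mem_ball D.v D.hinv (D.mem_ball_zero_of_v_eq_zero hW) σ
  · rw [← map_sub]
    exact algEquiv_mem_ball D.v D.hinv hyW σ

/-- **Degree `-1`**: elements of norm one of `Vk 0` are of the form `φ w / w`, `w ∈ Vk 0`. -/
theorem norm_one_is_DOp (hc : IsCompleteVal D.v) (u : Lˣ) (hu : u ∈ D.Vk 0)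
    (hN : NmOp K L u = 1) : ∃ w ∈ D.Vk 0, DOp D.φ w = u := by
  refine lift_exists D.v (DOp D.φ) (fun u => NmOp K L u = 1) D.Vk
    (fun k u hu hP => D.d_step k u hu hP) hc D.Vk_mono D.Vk_ball D.Vk_closed ?_ u hu hN
  intro y W hy hW k hyW
  rw [coe_DOp, coe_DOp]
  have hy0 : (y : L) ≠ 0 := y.ne_zero
  have hW0 : (W : L) ≠ 0 := W.ne_zero
  have e : D.φ (y : L) / y - D.φ (W : L) / W
      = (D.φ ((y : L) - W) * W - D.φ (W : L) * ((y : L) - W)) * ((y : L)⁻¹ * (W : L)⁻¹) := by
    rw [map_sub]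
    field_simp
    ring
  rw [e]
  have h1 : D.φ ((y : L) - W) * W ∈ ball D.v k := by
    have := mul_mem_ball D.v (algEquiv_mem_ball D.v D.hinv hyW D.φ)
      (D.mem_ball_zero_of_v_eq_zero hW)
    simpa using this
  have h2 : D.φ (W : L) * ((y : L) - W) ∈ ball D.v k := by
    have := mul_mem_ball D.v
      (algEquiv_mem_ball D.v D.hinv (D.mem_ball_zero_of_v_eq_zero hW) D.φ) hyW
    simpa using this
  have h3 : (y : L)⁻¹ * (W : L)⁻¹ ∈ ball D.v 0 := by
    have := mul_mem_ball D.v (D.inv_mem_ball_zero hy) (D.inv_mem_ball_zero hW)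
    simpa using this
  have := mul_mem_ball D.v ((ball D.v k).sub_mem h1 h2) h3
  simpa using this

theorem eq_of_DOp_eq_one {u : Lˣ} (h : DOp D.φ u = 1) (σ : L ≃ₐ[K] L) : σ • u = u := by
  have hφu : D.φ • u = u := by
    rw [DOp_apply, div_eq_one] at h
    exact h
  obtain ⟨k, rfl⟩ := Subgroup.mem_zpowers_iff.1 (D.hφ σ)
  have hmem : D.φ ∈ MulAction.stabilizer (L ≃ₐ[K] L) u := hφu
  exact (MulAction.stabilizer (L ≃ₐ[K] L) u).zpow_mem hmem k

theorem hqm_DOp_NmOp_Vk (hc : IsCompleteVal D.v) : hqm (DOp D.φ) (NmOp K L) (D.Vk 0) = 1 := by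
  rw [hqm, Subgroup.relIndex_eq_one]
  rintro u ⟨hu1, hu2⟩
  obtain ⟨w, hw, hwu⟩ := D.fixed_is_norm hc u hu2 (D.eq_of_DOp_eq_one hu1)
  exact ⟨w, hw, hwu⟩

theorem hqm_NmOp_DOp_Vk (hc : IsCompleteVal D.v) : hqm (NmOp K L) (DOp D.φ) (D.Vk 0) = 1 := by
  rw [hqm, Subgroup.relIndex_eq_one]
  rintro u ⟨hu1, hu2⟩
  obtain ⟨w, hw, hwu⟩ := D.norm_one_is_DOp hc u hu2 hu1
  exact ⟨w, hw, hwu⟩

/-- Total boundedness of the valuation ring. -/
def IsTotallyBoundedVal (v : AddValuation L (WithTop ℤ)) : Prop :=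
  ∀ r : ℕ, ∃ S : Finset L, ∀ x ∈ ball v 0, ∃ s ∈ S, x - s ∈ ball v r

/-- `Vk 0` has finite index in the unit group. -/
theorem relIndex_Vk_ne_zero (hfin : IsTotallyBoundedVal D.v) :
    (D.Vk 0).relIndex D.Ugrp ≠ 0 := by
  classical
  obtain ⟨S, hS⟩ := hfin (D.c + 1 + D.c).toNat
  have hr : ((D.c + 1 + D.c).toNat : ℤ) = D.c + 1 + D.c :=
    Int.toNat_of_nonneg (by have := D.hc0; omega)
  rw [hr] at hS
  rw [Subgroup.relIndex]
  have hU : ∀ a : D.Ugrp, ((a : Lˣ) : L) ∈ ball D.v 0 := fun a =>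
    D.mem_ball_zero_of_v_eq_zero (D.mem_Ugrp.1 a.2)
  let f : D.Ugrp ⧸ (D.Vk 0).subgroupOf D.Ugrp → S := fun q =>
    ⟨(hS _ (hU q.out)).choose, (hS _ (hU q.out)).choose_spec.1⟩
  have hf : Function.Injective f := by
    intro q q' hqq
    have h1 := (hS _ (hU q.out)).choose_spec.2
    have h2 := (hS _ (hU q'.out)).choose_spec.2
    have hs : (hS _ (hU q.out)).choose = (hS _ (hU q'.out)).choose :=
      congrArg Subtype.val hqq
    rw [hs] at h1
    have h3 : (((q'.out : D.Ugrp) : Lˣ) : L) - (((q.out : D.Ugrp) : Lˣ) : L)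
        ∈ ball D.v (D.c + 1 + D.c) := by
      have := (ball D.v _).sub_mem h2 h1
      simpa using this
    have hva := D.mem_Ugrp.1 (q.out : D.Ugrp).2
    have h4 : (((q.out : D.Ugrp)⁻¹ * (q'.out : D.Ugrp) : D.Ugrp) : Lˣ) ∈ D.Vk 0 := by
      rw [mem_Vk]
      have e : ((((q.out : D.Ugrp)⁻¹ * (q'.out : D.Ugrp) : D.Ugrp) : Lˣ) : L) - 1
          = ((((q'.out : D.Ugrp) : Lˣ) : L) - (((q.out : D.Ugrp) : Lˣ) : L))
            * ((((q.out : D.Ugrp) : Lˣ) : L))⁻¹ := by
        have hne : ((((q.out : D.Ugrp) : Lˣ) : L)) ≠ 0 := Units.ne_zero _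
        simp only [Subgroup.coe_mul, Subgroup.coe_inv, Units.val_mul,
          Units.val_inv_eq_inv_val]
        field_simp
      rw [e]
      have := mul_mem_ball D.v h3 (D.inv_mem_ball_zero hva)
      rw [add_zero] at this
      have h5 := D.hc _ this
      simpa using h5
    have h6 : (QuotientGroup.mk (q.out : D.Ugrp) : D.Ugrp ⧸ (D.Vk 0).subgroupOf D.Ugrp)
        = QuotientGroup.mk (q'.out : D.Ugrp) := by
      rw [QuotientGroup.eq]
      exact Subgroup.mem_subgroupOf.2 h4
    rw [QuotientGroup.out_eq', QuotientGroup.out_eq'] at h6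
    exact h6
  haveI : Finite (D.Ugrp ⧸ (D.Vk 0).subgroupOf D.Ugrp) := Finite.of_injective f hf
  exact Subgroup.index_ne_zero_of_finite

/-- The Herbrand quotient of the unit group is `1`. -/
theorem hqm_Ugrp (hc : IsCompleteVal D.v) (hfin : IsTotallyBoundedVal D.v) :
    hqm (DOp D.φ) (NmOp K L) D.Ugrp = hqm (NmOp K L) (DOp D.φ) D.Ugrp := by
  refine hqm_eq_of_trivial (DOp D.φ) (NmOp K L) (DOp_NmOp D.φ) (NmOp_DOp D.φ)
    (D.Vk_le_Ugrp 0) ?_ ?_ ?_ ?_ (D.relIndex_Vk_ne_zero hfin)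
    (D.hqm_DOp_NmOp_Vk hc) (D.hqm_NmOp_DOp_Vk hc)
  · rintro _ ⟨u, hu, rfl⟩
    exact D.DOp_mem_Vk 0 hu
  · rintro _ ⟨u, hu, rfl⟩
    exact D.NmOp_mem_Vk 0 hu
  · rintro _ ⟨u, hu, rfl⟩
    rw [DOp_apply]
    exact Subgroup.div_mem _ (D.smul_mem_Ugrp D.φ hu) hu
  · rintro _ ⟨u, hu, rfl⟩
    rw [NmOp_apply]
    exact Subgroup.prod_mem _ fun σ _ => D.smul_mem_Ugrp σ hu

/-- The inclusion `Kˣ → Lˣ`. -/
noncomputable def iotaU (K L : Type) [Field K] [Field L] [Algebra K L] : Kˣ →* Lˣ :=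
  Units.map (algebraMap K L : K →* L)

theorem iotaU_injective : Function.Injective (iotaU K L) :=
  Units.map_injective (algebraMap K L).injective

theorem NmOp_eq_iotaU (u : Lˣ) :
    NmOp K L u = iotaU K L (Units.map (Algebra.norm K (S := L) : L →* K) u) := by
  ext
  rw [coe_NmOp, iotaU, Units.coe_map, Units.coe_map, MonoidHom.coe_coe,
    Algebra.norm_eq_prod_automorphisms]

theorem ker_DOp : (DOp D.φ).ker = (iotaU K L).range := by
  ext u
  constructor
  · intro hu
    have hfix := D.eq_of_DOp_eq_one (MonoidHom.mem_ker.1 hu)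
    have h1 : (u : L) ∈ Set.range (algebraMap K L) := by
      rw [IsGalois.mem_range_algebraMap_iff_fixed]
      intro σ
      have := congrArg (fun w : Lˣ => (w : L)) (hfix σ)
      simpa [AlgEquiv.smul_units_def] using this
    obtain ⟨a, ha⟩ := h1
    have ha0 : a ≠ 0 := by
      rintro rfl
      rw [map_zero] at ha
      exact u.ne_zero ha.symm
    exact ⟨Units.mk0 a ha0, Units.ext ha⟩
  · rintro ⟨a, rfl⟩
    rw [MonoidHom.mem_ker, DOp_apply, div_eq_one]
    ext
    simp [iotaU, AlgEquiv.smul_units_def]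

/-- **Local norm index theorem**, from the lattice data. -/
theorem card_quotient_norm (hc : IsCompleteVal D.v) (hfin : IsTotallyBoundedVal D.v)
    (hnontriv : ∃ u : Lˣ, D.v (u : L) ≠ 0) :
    Nat.card (Kˣ ⧸ (Units.map (Algebra.norm K (S := L) : L →* K)).range)
      = Module.finrank K L := by
  classical
  set nrm : Lˣ →* Kˣ := Units.map (Algebra.norm K (S := L) : L →* K) with hnrm
  set n := Fintype.card (L ≃ₐ[K] L) with hn
  have hn' : n = Module.finrank K L := by
    rw [hn, Fintype.card_eq_nat_card, IsGalois.card_aut_eq_finrank]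
  have hnpos : 0 < n := Fintype.card_pos
  -- the subgroups
  set B : Subgroup Lˣ := (⊤ : Subgroup Lˣ).map (NmOp K L) with hB
  set C : Subgroup Lˣ := (DOp D.φ).ker with hC
  have hBC : B ≤ C := by
    rintro _ ⟨u, -, rfl⟩
    exact MonoidHom.mem_ker.2 (DOp_NmOp D.φ u)
  -- Step 1
  have step1 : Nat.card (Kˣ ⧸ nrm.range) = B.relIndex C := by
    rw [← Subgroup.index_eq_card, ← Subgroup.relIndex_top_right,
      ← Subgroup.relIndex_map_map_of_injective _ _ (iotaU_injective (K := K) (L := L))]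
    congr 1
    · rw [hB, MonoidHom.range_eq_map, Subgroup.map_map]
      congr 1
      ext u
      rw [MonoidHom.comp_apply, NmOp_eq_iotaU]
    · rw [hC, D.ker_DOp, MonoidHom.range_eq_map]
  -- Step 2
  have step2 := relIndex_map_mul_relIndex_ker (valU D.v) hBC
  -- Step 3
  have hpow : ∀ u : Lˣ, valU D.v u ^ n = 1 → valU D.v u = 1 := by
    intro u hu
    have h1 := congrArg Multiplicative.toAdd hu
    rw [toAdd_pow, toAdd_one, nsmul_eq_mul] at h1
    rcases mul_eq_zero.1 h1 with h1 | h1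
    · have : (n : ℤ) ≠ 0 := by exact_mod_cast hnpos.ne'
      exact absurd h1 this
    · exact Multiplicative.toAdd.injective h1
  have h3a : (valU D.v).ker ⊓ B = D.Ugrp.map (NmOp K L) := by
    ext x
    constructor
    · rintro ⟨hx1, ⟨u, -, rfl⟩⟩
      refine ⟨u, ?_, rfl⟩
      have : valU D.v (NmOp K L u) = 1 := MonoidHom.mem_ker.1 hx1
      rw [D.valU_NmOp] at this
      exact MonoidHom.mem_ker.2 (hpow u this)
    · rintro ⟨u, hu, rfl⟩
      refine Subgroup.mem_inf.2 ⟨MonoidHom.mem_ker.2 ?_, ⟨u, Subgroup.mem_top _, rfl⟩⟩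
      rw [D.valU_NmOp]
      have : valU D.v u = 1 := MonoidHom.mem_ker.1 hu
      rw [this, one_pow]
  have h3b : (valU D.v).ker ⊓ C = (DOp D.φ).ker ⊓ D.Ugrp := by
    rw [inf_comm]; rfl
  have step3 : ((valU D.v).ker ⊓ B).relIndex ((valU D.v).ker ⊓ C)
      = hqm (DOp D.φ) (NmOp K L) D.Ugrp := by
    rw [h3a, h3b]; rfl
  -- Step 5
  haveI : IsCyclic (L ≃ₐ[K] L) := ⟨⟨D.φ, fun σ => Subgroup.mem_zpowers_iff.1 (D.hφ σ)⟩⟩
  have h5a : (NmOp K L).ker ⊓ D.Ugrp = (⊤ : Subgroup Lˣ).map (DOp D.φ) := by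
    ext x
    constructor
    · rintro ⟨hx1, -⟩
      have hN : NmOp K L x = 1 := MonoidHom.mem_ker.1 hx1
      have hN' : Algebra.norm K (x : L) = 1 := by
        have h1 := congrArg (fun w : Lˣ => (w : L)) hN
        simp only [coe_NmOp, Units.val_one] at h1
        rw [← Algebra.norm_eq_prod_automorphisms] at h1
        exact (algebraMap K L).injective (by rw [h1, map_one])
      obtain ⟨y, hy⟩ := groupCohomology.exists_div_of_norm_eq_one D.hφ hN'
      refine ⟨y⁻¹, Subgroup.mem_top _, ?_⟩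
      ext
      rw [coe_DOp, ← hy]
      simp only [Units.val_inv_eq_inv_val, map_inv₀]
      have h1 : (y : L) ≠ 0 := y.ne_zero
      have h2 : D.φ (y : L) ≠ 0 := by simp
      field_simp
    · rintro ⟨u, -, rfl⟩
      refine ⟨MonoidHom.mem_ker.2 (NmOp_DOp D.φ u), ?_⟩
      exact MonoidHom.mem_ker.2 (D.valU_DOp u)
  have step5 : hqm (NmOp K L) (DOp D.φ) D.Ugrp
      = (C.map (valU D.v)).relIndex ((⊤ : Subgroup Lˣ).map (valU D.v)) := by
    rw [hqm, h5a, Subgroup.relIndex_map_map, Subgroup.relIndex_map_map, top_sup_eq, top_sup_eq]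
    congr 1
    exact sup_comm _ _
  -- Step 6
  have hZ : B.map (valU D.v) = ((⊤ : Subgroup Lˣ).map (valU D.v)).map (powMonoidHom n) := by
    rw [hB, Subgroup.map_map, Subgroup.map_map]
    congr 1
    ext u
    rw [MonoidHom.comp_apply, MonoidHom.comp_apply, D.valU_NmOp]
    rfl
  have hX : (⊤ : Subgroup Lˣ).map (valU D.v) ≠ ⊥ := by
    obtain ⟨u, hu⟩ := hnontriv
    intro h
    have h1 : valU D.v u ∈ (⊤ : Subgroup Lˣ).map (valU D.v) := ⟨u, Subgroup.mem_top _, rfl⟩
    rw [h, Subgroup.mem_bot] at h1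
    exact hu ((mem_ker_valU D.v).1 (MonoidHom.mem_ker.2 h1))
  have step6 := relIndex_pow_int _ hX n
  rw [← hZ] at step6
  have hZY : B.map (valU D.v) ≤ C.map (valU D.v) := Subgroup.map_mono hBC
  have hYX : C.map (valU D.v) ≤ (⊤ : Subgroup Lˣ).map (valU D.v) := Subgroup.map_mono le_top
  have step7 := Subgroup.relIndex_mul_relIndex _ _ _ hZY hYX
  rw [step1, ← step2, step3, D.hqm_Ugrp hc hfin, step5, step7, step6, hn']

end LattData

section final

variable (K L : Type) [Field K] [Field L] [Algebra K L] [FiniteDimensional K L] [IsGalois K L]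

/-- Existence of the lattice data. -/
theorem exists_lattData [IsCyclic (L ≃ₐ[K] L)] (v : AddValuation L (WithTop ℤ))
    (hinv : ∀ (σ : L ≃ₐ[K] L) (x : L), v (σ x) = v x)
    (hnontriv : ∃ u : Lˣ, v (u : L) ≠ 0) :
    ∃ D : LattData K L, D.v = v := by
  classical
  obtain ⟨φ, hφ⟩ := IsCyclic.exists_generator (α := L ≃ₐ[K] L)
  obtain ⟨θ₀, hli⟩ := exists_linearIndependent_algEquiv_apply K L
  have hθ₀ : θ₀ ≠ 0 := by
    have := hli.ne_zero (1 : L ≃ₐ[K] L)
    simpa using this
  -- an element of `K` of positive valuation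
  have hvalsmul : ∀ (σ : L ≃ₐ[K] L) (u : Lˣ), valU v (σ • u) = valU v u := by
    intro σ u
    rw [valU_apply, valU_apply, AlgEquiv.smul_units_def, Units.coe_map, MonoidHom.coe_coe]
    congr 1
    rw [valInt, valInt, hinv]
  obtain ⟨a, ha⟩ : ∃ a : Kˣ, 0 < valInt v (algebraMap K L (a : K)) := by
    obtain ⟨u, hu⟩ := hnontriv
    have hu' : valInt v (u : L) ≠ 0 := by
      intro h
      apply hu
      rw [← coe_valInt v u.ne_zero, h]; rfl
    set a₀ : Kˣ := Units.map (Algebra.norm K (S := L) : L →* K) u with ha₀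
    have h1 : valU v (LattData.iotaU K L a₀) = valU v u ^ Fintype.card (L ≃ₐ[K] L) := by
      rw [ha₀, ← LattData.NmOp_eq_iotaU, NmOp_apply, map_prod]
      simp_rw [hvalsmul]
      rw [Finset.prod_const, Finset.card_univ]
    have h2 : valInt v (algebraMap K L (a₀ : K))
        = Fintype.card (L ≃ₐ[K] L) * valInt v (u : L) := by
      have := congrArg Multiplicative.toAdd h1
      rw [toAdd_pow, nsmul_eq_mul] at this
      exact this
    have hcard : (0 : ℤ) < Fintype.card (L ≃ₐ[K] L) := by exact_mod_cast Fintype.card_pos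
    rcases lt_or_gt_of_ne hu' with h | h
    · refine ⟨a₀⁻¹, ?_⟩
      have h3 : valInt v (algebraMap K L ((a₀⁻¹ : Kˣ) : K)) = -valInt v (algebraMap K L (a₀ : K)) := by
        have h4 := valInt_mul v (x := algebraMap K L ((a₀⁻¹ : Kˣ) : K))
          (y := algebraMap K L (a₀ : K)) (by simp) (by simp)
        rw [← map_mul, ← Units.val_mul, inv_mul_cancel, Units.val_one, map_one, valInt_one] at h4
        omega
      rw [h3, h2]
      have := mul_neg_of_pos_of_neg hcard h
      omega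
    · refine ⟨a₀, ?_⟩
      rw [h2]
      exact mul_pos hcard h
  -- scale `θ₀`
  set m : ℕ := (-valInt v θ₀).toNat with hm
  set s : Kˣ := a ^ m with hs
  set θ : L := (s : K) • θ₀ with hθ
  have hvs : (m : ℤ) ≤ valInt v (algebraMap K L (s : K)) := by
    have h1 : valU v (LattData.iotaU K L s) = valU v (LattData.iotaU K L a) ^ m := by
      rw [hs, map_pow, map_pow]
    have h2 := congrArg Multiplicative.toAdd h1
    rw [toAdd_pow, nsmul_eq_mul] at h2
    have h3 : valInt v (algebraMap K L (s : K)) = m * valInt v (algebraMap K L (a : K)) := h2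
    rw [h3]
    nlinarith
  have hθ0 : θ ∈ ball v 0 := by
    rw [hθ, Algebra.smul_def, mem_ball,
      ← coe_valInt v (mul_ne_zero (by simp : algebraMap K L (s : K) ≠ 0) hθ₀),
      valInt_mul v (by simp) hθ₀, WithTop.coe_le_coe]
    have := Int.self_le_toNat (-valInt v θ₀)
    omega
  have hli' : LinearIndependent K (fun σ : L ≃ₐ[K] L => σ θ) := by
    have := hli.units_smul (fun _ => s)
    convert this using 1
    funext σ
    simp only [Pi.smul_apply', hθ, map_smul]
    rfl
  have hcard : Fintype.card (L ≃ₐ[K] L) = Module.finrank K L := by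
    rw [Fintype.card_eq_nat_card, IsGalois.card_aut_eq_finrank]
  set b : Module.Basis (L ≃ₐ[K] L) K L := basisOfLinearIndependentOfCardEqFinrank hli' hcard
    with hb
  have hbσ : ∀ σ, b σ = σ θ := by
    intro σ
    rw [hb, coe_basisOfLinearIndependentOfCardEqFinrank]
  have hb0 : ∀ σ, b σ ∈ ball v 0 := by
    intro σ
    rw [hbσ]
    exact algEquiv_mem_ball v hinv hθ0 σ
  obtain ⟨c, hc0, hc⟩ := exists_ball_le_latt v hinv b
  exact ⟨{ v := v, hinv := hinv, b := b, θ := θ, hb := hbσ, hb0 := hb0, c := c, hc0 := hc0,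
           hc := hc, φ := φ, hφ := hφ }, rfl⟩

/-- **Local norm index theorem, abstract form**: for a finite cyclic Galois extension `L/K`
with a Galois-invariant nontrivial `ℤ`-valued valuation on `L` for which `L` is complete and
the valuation ring is totally bounded, `[Kˣ : N Lˣ] = [L : K]`. -/
theorem card_quotient_norm_of_valuation [IsCyclic (L ≃ₐ[K] L)] (v : AddValuation L (WithTop ℤ))
    (hinv : ∀ (σ : L ≃ₐ[K] L) (x : L), v (σ x) = v x)
    (hnontriv : ∃ u : Lˣ, v (u : L) ≠ 0)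
    (hc : IsCompleteVal v) (hfin : LattData.IsTotallyBoundedVal v) :
    Nat.card (Kˣ ⧸ (Units.map (Algebra.norm K (S := L) : L →* K)).range)
      = Module.finrank K L := by
  obtain ⟨D, rfl⟩ := exists_lattData K L v hinv hnontriv
  exact D.card_quotient_norm hc hfin hnontriv

end final

end Fermat.Agent.S55.helper31
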