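import Mathlib
import Fermat.Agent.S55.helper31_NormIndex
import Fermat.Agent.S55.helper97_LocVal
import Fermat.Agent.S55.helper33_LocRel
import Fermat.Agent.S55.helper71_LocComplete
import Fermat.Agent.S55.helper71_LocResidue

/-!
# S55 / LOC-3 (helper31): the local norm index theorem for cyclic extensions of `q`-adic fields

`card_quotient_norm_of_isCyclic` : for a finite extension `K` of `ℚ_[q]` and a finite cyclic
Galois extension `L/K`, `[Kˣ : N_{L/K} Lˣ] = [L : K]`
(VERBATIM statement of `helper8.Interface.card_quotient_norm_of_isCyclic`).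

Proof: instantiate the abstract theorem `card_quotient_norm_of_valuation` with the valuation
`ordT q L` (LOC-0: helper97 `ord_mul`, `ordT_add_ge`; helper33 `ord_algEquiv`;
helper71 `exists_limit`, `exists_representatives`).
-/

set_option autoImplicit false
set_option linter.unusedSectionVars false

namespace Fermat.Agent.S55.helper31

open Fermat.Agent.S55.helper8

variable (q : ℕ) [Fact q.Prime]

section valuation

variable (K : Type) [Field K] [Algebra ℚ_[q] K] [FiniteDimensional ℚ_[q] K]

theorem ordT_one : ordT q K (1 : K) = 0 := by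
  have := helper97.ordT_unit q K (1 : Kˣ)
  rw [Units.val_one] at this
  rw [this, helper97.ord_one]
  rfl

theorem ordT_mul (x y : K) : ordT q K (x * y) = ordT q K x + ordT q K y := by
  by_cases hx : x = 0
  · rw [hx, zero_mul, helper97.ordT_zero, top_add]
  by_cases hy : y = 0
  · rw [hy, mul_zero, helper97.ordT_zero, add_top]
  have h := helper97.ord_mul q K (Units.mk0 x hx) (Units.mk0 y hy)
  have e : Units.mk0 x hx * Units.mk0 y hy = Units.mk0 (x * y) (mul_ne_zero hx hy) := by
    ext; rfl
  rw [e] at h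
  rw [helper97.ordT_of_ne q K hx, helper97.ordT_of_ne q K hy,
    helper97.ordT_of_ne q K (mul_ne_zero hx hy), h, WithTop.coe_add]

/-- `ordT` as an additive valuation. -/
noncomputable def ordVal : AddValuation K (WithTop ℤ) :=
  AddValuation.of (ordT q K) (helper97.ordT_zero q K) (ordT_one q K)
    (helper97.ordT_add_ge q K) (ordT_mul q K)

theorem ordVal_apply (x : K) : ordVal q K x = ordT q K x := rfl

theorem isCompleteVal_ordVal : IsCompleteVal (ordVal q K) := by
  intro x hx
  exact helper71.exists_limit q K x hx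

theorem isTotallyBoundedVal_ordVal : LattData.IsTotallyBoundedVal (ordVal q K) := by
  classical
  obtain ⟨S₁, -, -, hS₁⟩ := helper71.exists_representatives q K
  obtain ⟨π, hπ⟩ := helper97.exists_ord_eq_one q K
  have hπT : ordT q K (π : K) = 1 := by
    rw [helper97.ordT_unit, hπ]; rfl
  intro r
  induction r with
  | zero =>
    refine ⟨{0}, fun x hx => ⟨0, by simp, ?_⟩⟩
    simpa using hx
  | succ r ih =>
    obtain ⟨S, hS⟩ := ih
    refine ⟨(S₁ ×ˢ S).image (fun p => p.1 + (π : K) * p.2), fun x hx => ?_⟩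
    have hx0 : 0 ≤ ordT q K x := hx
    obtain ⟨s₀, ⟨hs₀, hs₀x⟩, -⟩ := hS₁ x hx0
    have h1 : (1 : WithTop ℤ) ≤ ordT q K (x - s₀) :=
      (helper71.withTop_pos_iff_one_le _).1 hs₀x
    -- `(x - s₀) / π` is integral
    have h2 : (x - s₀) * (π : K)⁻¹ ∈ ball (ordVal q K) 0 := by
      rw [mem_ball, ordVal_apply, ordT_mul]
      have hinv : ordT q K ((π : K)⁻¹) = ((-1 : ℤ) : WithTop ℤ) := by
        have := helper97.ordT_unit q K π⁻¹
        rw [Units.val_inv_eq_inv_val] at this
        rw [this, helper97.ord_inv, hπ]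
      rw [hinv]
      have : ((0 : ℤ) : WithTop ℤ) = (1 : WithTop ℤ) + ((-1 : ℤ) : WithTop ℤ) := by
        rw [show (1 : WithTop ℤ) = ((1 : ℤ) : WithTop ℤ) from rfl, ← WithTop.coe_add]
        rfl
      rw [this]
      exact add_le_add_left h1 _
    obtain ⟨t, ht, htx⟩ := hS _ h2
    refine ⟨s₀ + (π : K) * t, ?_, ?_⟩
    · exact Finset.mem_image.2 ⟨(s₀, t), Finset.mem_product.2 ⟨hs₀, ht⟩, rfl⟩
    · have e : x - (s₀ + (π : K) * t) = (π : K) * ((x - s₀) * (π : K)⁻¹ - t) := by
        have hne : (π : K) ≠ 0 := π.ne_zero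
        field_simp
        ring
      rw [e]
      have hπb : (π : K) ∈ ball (ordVal q K) 1 := by
        rw [mem_ball, ordVal_apply, hπT]; rfl
      have := mul_mem_ball (ordVal q K) hπb htx
      have e2 : (1 : ℤ) + (r : ℤ) = ((r + 1 : ℕ) : ℤ) := by push_cast; ring
      rw [e2] at this
      exact this

theorem exists_ordVal_ne_zero : ∃ u : Kˣ, ordVal q K (u : K) ≠ 0 := by
  obtain ⟨π, hπ⟩ := helper97.exists_ord_eq_one q K
  refine ⟨π, ?_⟩
  rw [ordVal_apply, helper97.ordT_unit, hπ]
  exact ne_of_gt (by exact_mod_cast one_pos)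

end valuation

section main

variable (K : Type) [Field K] [Algebra ℚ_[q] K] [FiniteDimensional ℚ_[q] K]
variable (L : Type) [Field L] [Algebra K L] [FiniteDimensional K L] [IsGalois K L]

include q in
/-- **LOC-3 (a)**: local norm index theorem for cyclic extensions
(VERBATIM statement of `helper8.Interface.card_quotient_norm_of_isCyclic`). -/
theorem card_quotient_norm_of_isCyclic [IsCyclic (L ≃ₐ[K] L)] :
    Nat.card (Kˣ ⧸ (normUnits K L).range) = Module.finrank K L := by
  letI : Algebra ℚ_[q] L := ((algebraMap K L).comp (algebraMap ℚ_[q] K)).toAlgebra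
  haveI : IsScalarTower ℚ_[q] K L := IsScalarTower.of_algebraMap_eq (fun _ => rfl)
  haveI : FiniteDimensional ℚ_[q] L := Module.Finite.trans K L
  refine card_quotient_norm_of_valuation K L (ordVal q L) ?_ (exists_ordVal_ne_zero q L)
    (isCompleteVal_ordVal q L) (isTotallyBoundedVal_ordVal q L)
  intro σ x
  rw [ordVal_apply, ordVal_apply]
  by_cases hx : x = 0
  · rw [hx, map_zero]
  have h := helper33.ord_algEquiv q K L σ (Units.mk0 x hx)
  have hσx : σ x ≠ 0 := by simpa using hx
  rw [helper97.ordT_of_ne q L hx, helper97.ordT_of_ne q L hσx, ← h]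
  congr 2
  ext
  rfl

end main

end Fermat.Agent.S55.helper31
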