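import Fermat.Agent.S55.helper8_LocFinal
import Fermat.Agent.S55.helper13_LocalDuality
import Fermat.Agent.S55.helper27_KummerSeqB
import Fermat.Agent.S55.helper30_LocKummerFin
import Fermat.Agent.S55.helper62_CupSymbol
import Fermat.Agent.S55.helper77_LevelDict
import Fermat.Agent.S55.helper31_LocCyclic

/-!
# S55 / LOC-9 (helper8): local duality, unconditional

`nonempty_localDuality` : for every invariant system `I : LocInv`, every `q`-adic field `K`
containing a primitive `p`-th root of unity `ζ` and every algebraic closure `Ω` of `K`, the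
level-constant local duality package `LocalDuality I q p K Ω ζ` exists.  Wiring of
`helper13.nonempty_localDuality_of_input` with LOC-7a (helper30), LOC-7b (helper62),
LOC-7c (helper27), LOC-7d (helper77) and LOC-3 (helper31).

`exists_locInv_localDuality` : a single invariant system together with all its local duality
packages (LOC-5 + LOC-9), the complete deliverable of the LOC module.
-/

set_option autoImplicit false
set_option linter.unusedSectionVars false

namespace Fermat.Agent.S55.helper8

open Fermat.Agent.S55.helper11 groupCohomology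

/-- the inputs of LOC-9 are available -/
theorem locDualInput (I : LocInv) (q : ℕ) [Fact q.Prime] (p : ℕ) [Fact p.Prime]
    (K Ω : Type) [Field K] [Field Ω] [Algebra ℚ_[q] K] [FiniteDimensional ℚ_[q] K]
    [Algebra K Ω] [IsAlgClosure K Ω] (ζ : Kˣ) (hζ : IsPrimitiveRoot ζ p) :
    helper13.LocDualInput I q p K Ω ζ := by
  have hcz : CharZero K := charZero_of_injective_algebraMap (algebraMap ℚ_[q] K).injective
  exact
    { factor_Z1 := fun x hx => helper77.exists_factor_Z1 p K Ω x hx
      factor_Z2 := fun c hc L₀ hL₀ => helper77.exists_factor_Z2 p K Ω c hc L₀ hL₀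
      mem_Z2 := fun L _ _ c' hc' => helper77.mem_Z2_of_factor p K Ω L c' hc'
      kummerChar := fun a => helper30.exists_kummerChar p K Ω ζ hζ a
      finite_Z1 := helper30.finite_Z1 q p K Ω ζ hζ
      cup_eq_chiClass := fun L _ _ _ _ χ ψ b β hβ hψ =>
        helper62.mulClass_cup_eq_chiClass p K ζ hζ L χ ψ b β hβ hψ
      mem_B2 := fun L _ _ c hc h => helper27.mem_B2_of_mulClass_eq_zero p K Ω ζ hζ L c hc h
      inv_ne_zero := helper27.exists_cocycle_inv_ne_zero q p K Ω ζ hζ I
      norm_index := fun L _ _ _ _ _ => helper31.card_quotient_norm_of_isCyclic q K L }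

/-- **LOC-9**: local duality in level-constant form, tied to the invariant family `I`
(VERBATIM `helper8_LocInterface2.nonempty_localDuality`). -/
theorem nonempty_localDuality (q : ℕ) [Fact q.Prime] (I : LocInv) (p : ℕ) [Fact p.Prime]
    (K Ω : Type) [Field K] [Field Ω] [Algebra ℚ_[q] K] [FiniteDimensional ℚ_[q] K]
    [Algebra K Ω] [IsAlgClosure K Ω] (ζ : Kˣ) (hζ : IsPrimitiveRoot ζ p) :
    Nonempty (LocalDuality I q p K Ω ζ) :=
  helper13.nonempty_localDuality_of_input I q p K Ω ζ hζ.pow_eq_one
    (locDualInput I q p K Ω ζ hζ)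

/-- **The deliverable of the LOC module**: an invariant system together with all its local
duality packages. -/
theorem exists_locInv_localDuality :
    ∃ I : LocInv, ∀ (q : ℕ) [Fact q.Prime] (p : ℕ) [Fact p.Prime]
      (K Ω : Type) [Field K] [Field Ω] [Algebra ℚ_[q] K] [FiniteDimensional ℚ_[q] K]
      [Algebra K Ω] [IsAlgClosure K Ω] (ζ : Kˣ), IsPrimitiveRoot ζ p →
      Nonempty (LocalDuality I q p K Ω ζ) := by
  obtain ⟨I⟩ := nonempty_locInv
  exact ⟨I, fun q _ p _ K Ω _ _ _ _ _ _ ζ hζ => nonempty_localDuality q I p K Ω ζ hζ⟩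

end Fermat.Agent.S55.helper8
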