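import Fermat.Agent.S55.AMain
import Fermat.Agent.S55.BaseTargetFinal

/-!
# S55: exports for later statements (S56)

The dévissage of module A proves more than the `Sha¹ × Sha²` duality: for EVERY finite smooth
module `M` the four duality statements `Claim L (evPairing M χ) tr`
(`H⁰(M) ↠ H_c³(M*(1))ᵛ`, `H¹(M) ≅ H_c²(M*(1))ᵛ`, `H²(M) ↪ H_c¹(M*(1))ᵛ`) hold.

* `claim_all` : abstract form (any `L`, weak base hypothesis);
* `baseHypP_of_statements` : the weak base hypothesis for a GIVEN trace `tr` of `G_ℚ`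
  (nonzero on cone cocycles) from the deliverables of SH and B;
* `exists_tr_claim_all` : the arithmetic form: a trace functional `tr` for `(G_ℚ, S, μ_p)`,
  nonzero on cone cocycles, with `Claim (galLocal S) (evPairing M χ_cyc) tr` for all finite
  smooth `M`.
-/

set_option autoImplicit false

universe u

open CategoryTheory Module groupCohomology ExtCitation

noncomputable section

namespace Fermat.Agent.S55

section Abstract

variable {k G : Type u} [Field k] [Group G] {𝒩 : Levels G} {ι : Type} (L : LocalData G 𝒩 ι)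

/-- The induction statement of module A: the CLAIM for all finite smooth modules, from the weak
base hypothesis. -/
theorem claim_all (p : ℕ) [Fact p.Prime] [CharP k p] (χ : G →* kˣ)
    (hfin : ∀ N ∈ 𝒩.mem, Finite (G ⧸ N)) (hχ : ∃ N ∈ 𝒩.mem, ∀ g ∈ N, χ g = 1)
    (tr : CcAmb3 L (groupCohomology.ofChar χ) →ₗ[k] k)
    (htr : ∀ c ∈ Bc3 L (groupCohomology.ofChar χ), tr c = 0) (hbase : BaseHypP L p χ tr) :
    ∀ M : Rep.{u} k G, Module.Finite k M → IsSmooth 𝒩 M → Claim L (evPairing M χ) tr := by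
  refine devissageP (P := fun A : Rep.{u} k G => Claim L (evPairing A χ) tr) p hfin χ hχ
    ?_ ?_ hbase
  · intro A B i r hi hr hri _ _ _ _ hB
    exact helper45.retStatement L B A _ _ _ (dualRetData χ ⟨i, hi⟩ ⟨r, hr⟩ hri) tr hB
  · intro A₁ A A₂ i q hi hq hinj hsurj hex _ _ _ _ hA _ hc₁ hc₂
    let E := dualExtData (𝒩 := 𝒩) χ hχ ⟨i, hi⟩ ⟨q, hq⟩ hinj hsurj hex hA
    have e1 : Claim L E.φ₁ tr := hc₁
    have e2 : Claim L E.φ₂ tr := hc₂
    exact ⟨helper3.devSurj0 L _ _ _ _ _ _ _ E tr htr e1.surj0 e2.surj0 e1.inj1,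
      helper95.devInj1 L _ _ _ _ _ _ _ E tr htr e2.surj0 e1.inj1 e2.inj1,
      helper67.devSurj1 L _ _ _ _ _ _ _ E tr htr e1.surj1 e2.surj1 e1.inj2,
      helper49.devInj2 L _ _ _ _ _ _ _ E tr htr e2.surj1 e1.inj2 e2.inj2⟩

end Abstract

open helper35

variable (p : ℕ) [Fact p.Prime] (S : Finset Nat.Primes)

/-- The weak base hypothesis for a given trace which is nonzero on cone cocycles. -/
theorem baseHypP_of_statements (hSH : ShStatement p S) (hB : BaseInputStatement p S)
    (hp2 : p ≠ 2) (hpS : pPrime p ∈ S)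
    (tr : CcAmb3 (galLocal S) (groupCohomology.ofChar (k := ZMod p) (cycloChar p)) →ₗ[ZMod p]
      ZMod p)
    (htr : ∀ c ∈ Bc3 (galLocal S) (groupCohomology.ofChar (k := ZMod p) (cycloChar p)), tr c = 0)
    (hne : ∃ z ∈ Zc3 (galLocal S) (groupCohomology.ofChar (k := ZMod p) (cycloChar p)),
      tr z ≠ 0) :
    BaseHypP (galLocal S) p (cycloChar p) tr := by
  intro U hU hχ hidx
  obtain ⟨hfin, -⟩ := helper92.levelStatement p S hpS
  obtain ⟨F, hF, rfl⟩ := exists_field_of_open S U hU
  have : FiniteDimensional ℚ F := hF.1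
  have : Finite (GQ ⧸ F.fixingSubgroup) := by
    obtain ⟨N', hN', hle⟩ := hU
    have := hfin N' hN'
    have : N'.FiniteIndex := Subgroup.finiteIndex_of_finite_quotient
    have : F.fixingSubgroup.FiniteIndex := Subgroup.finiteIndex_of_le hle
    infer_instance
  obtain ⟨D⟩ := helper57.nonempty_shData (L := galLocal S) (U := F.fixingSubgroup)
  obtain ⟨h1, h2, h3⟩ := hSH tr F.fixingSubgroup hU D htr hχ
  obtain ⟨I, -⟩ := hB hp2 hpS F hF (hasZeta_of_cycloChar_eq_one F p hχ) hU D
  have hcard : (Nat.card (GQ ⧸ F.fixingSubgroup) : ZMod p) ≠ 0 := by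
    rw [Ne, ZMod.natCast_eq_zero_iff]
    exact hidx
  exact h3 (helper59.claim_of_baseInput (D.localData hU) I _ h1 (h2 hcard hne))

/-- EXPORT (for S56): a trace functional for `(G_ℚ, S, μ_p)`, killing cone coboundaries and
nonzero on cone cocycles, for which the duality CLAIM holds for ALL finite smooth modules. -/
theorem exists_tr_claim_all (hSH : ShStatement p S) (hB : BaseInputStatement p S)
    (hLoc : TopLocStatement p S) (hp2 : p ≠ 2) (hpS : pPrime p ∈ S) :
    ∃ tr : CcAmb3 (galLocal S) (groupCohomology.ofChar (k := ZMod p) (cycloChar p)) →ₗ[ZMod p]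
        ZMod p,
      (∀ c ∈ Bc3 (galLocal S) (groupCohomology.ofChar (k := ZMod p) (cycloChar p)), tr c = 0) ∧
      (∃ z ∈ Zc3 (galLocal S) (groupCohomology.ofChar (k := ZMod p) (cycloChar p)), tr z ≠ 0) ∧
      ∀ M : Rep.{0} (ZMod p) GQ, Module.Finite (ZMod p) M → IsSmooth (galLevels S) M →
        Claim (galLocal S) (evPairing M (cycloChar p)) tr := by
  obtain ⟨tr, htr, hne⟩ := exists_top_tr p S hB hLoc hp2 hpS
  obtain ⟨hfin, hχ⟩ := helper92.levelStatement p S hpS
  have : CharP (ZMod p) p := ZMod.charP p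
  exact ⟨tr, htr, hne, claim_all (galLocal S) p (cycloChar p) hfin hχ tr htr
    (baseHypP_of_statements p S hSH hB hp2 hpS tr htr hne)⟩

end Fermat.Agent.S55
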