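import Fermat.Agent.S55.ABasic
import Fermat.Agent.S55.helper57_Devissage

/-!
# S55, module A: `IndStatement` from the four windows + `RetStatement` (assembly)

* `dualExtData` : a short exact sequence of smooth modules gives `ExtData` for the evaluation
  pairings (dual sequence of the `dualTwist`s, transposed maps);
* `dualRetData` : a retract gives `RetData` for the evaluation pairings;
* `indStatement_of_windows` : `DevSurj0 → DevInj1 → DevSurj1 → DevInj2 → RetStatement →
  IndStatement` (through `helper57.claim_of_baseHyp`);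
* `mainA_of_windows` : `MainA` from all package statements of module A.
-/

set_option autoImplicit false

universe u

open groupCohomology

noncomputable section

namespace Fermat.Agent.S55

variable {k G : Type u} [Field k] [Group G] {𝒩 : Levels G} {ι : Type} (L : LocalData G 𝒩 ι)

lemma EqHom.dualTwist_apply {A A' : Rep.{u} k G} (f : EqHom A A') (χ : G →* kˣ)
    (ξ : A'.dualTwist χ) (a : A) : (f.dualTwist χ).f ξ a = ξ (f.f a) := rfl

lemma evPairing_apply (A : Rep.{u} k G) (χ : G →* kˣ) (a : A) (ξ : A.dualTwist χ) :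
    (evPairing A χ).φ a ξ = ξ a := rfl

/-- The `ExtData` of a short exact sequence and its dual, for the evaluation pairings. -/
def dualExtData (χ : G →* kˣ) (hχ : ∃ N ∈ 𝒩.mem, ∀ g ∈ N, χ g = 1)
    {A₁ A A₂ : Rep.{u} k G} (i : EqHom A₁ A) (π : EqHom A A₂)
    (hi : Function.Injective i.f) (hπ : Function.Surjective π.f)
    (hex : LinearMap.range i.f = LinearMap.ker π.f) (hA : IsSmooth 𝒩 A) :
    ExtData 𝒩 A₁ A A₂ (A₁.dualTwist χ) (A.dualTwist χ) (A₂.dualTwist χ)
      (groupCohomology.ofChar χ) where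
  i := i
  π := π
  j := π.dualTwist χ
  q := i.dualTwist χ
  i_inj := hi
  π_surj := hπ
  exactA a := by
    rw [← LinearMap.mem_ker, ← hex, LinearMap.mem_range]
  j_inj := LinearMap.dualMap_injective_of_surjective hπ
  q_surj := LinearMap.dualMap_surjective_of_injective hi
  exactB b := by
    constructor
    · intro hb
      have hb' : b ∈ (LinearMap.ker π.f).dualAnnihilator := by
        rw [Submodule.mem_dualAnnihilator]
        intro a ha
        rw [← hex] at ha
        obtain ⟨a₁, rfl⟩ := ha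
        exact congrArg (fun ξ : Module.Dual k A₁ => ξ a₁) hb
      rw [← LinearMap.range_dualMap_eq_dualAnnihilator_ker] at hb'
      exact hb'
    · rintro ⟨b₂, rfl⟩
      apply LinearMap.ext
      intro a₁
      change b₂ (π.f (i.f a₁)) = 0
      have : π.f (i.f a₁) = 0 := by
        rw [← LinearMap.mem_ker, ← hex]
        exact ⟨a₁, rfl⟩
      rw [this, map_zero]
  φ₁ := evPairing A₁ χ
  φ := evPairing A χ
  φ₂ := evPairing A₂ χ
  compat₁ _ _ := rfl
  compat₂ _ _ := rfl
  smoothA := hA
  smoothB := isSmooth_dualTwist hχ hA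
  smoothC := isSmooth_ofChar hχ

/-- The `RetData` of a retract, for the evaluation pairings. -/
def dualRetData (χ : G →* kˣ) {A B : Rep.{u} k G} (i : EqHom A B) (r : EqHom B A)
    (hri : ∀ a, r.f (i.f a) = a) :
    RetData B A (B.dualTwist χ) (A.dualTwist χ) (groupCohomology.ofChar χ) where
  s := i
  r := r
  sB := r.dualTwist χ
  rB := i.dualTwist χ
  rs := hri
  rsB ξ := by
    apply LinearMap.ext
    intro a
    change ξ (r.f (i.f a)) = ξ a
    rw [hri]
  φ := evPairing B χ
  φ' := evPairing A χ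
  compat₁ _ _ := rfl
  compat₂ _ _ := rfl

theorem indStatement_of_windows (p : ℕ) (χ : G →* kˣ)
    (h0 : DevSurj0 (k := k) L) (h1i : DevInj1 (k := k) L) (h1s : DevSurj1 (k := k) L)
    (h2 : DevInj2 (k := k) L)
    (hret : RetStatement (k := k) L) : IndStatement L p χ := by
  intro hp hchar hfin hχ tr htr hbase M hM hsm
  have : Fact p.Prime := ⟨hp⟩
  have := hchar
  refine helper57.claim_of_baseHyp L p hfin χ hχ tr ?_ ?_ hbase M hM hsm
  · intro A B i r hi hr hri _ _ _ _ hB
    exact hret B A _ _ _ (dualRetData χ ⟨i, hi⟩ ⟨r, hr⟩ hri) tr hB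
  · intro A₁ A A₂ i q hi hq hinj hsurj hex _ _ _ _ hA _ hc₁ hc₂
    let E := dualExtData (𝒩 := 𝒩) χ hχ ⟨i, hi⟩ ⟨q, hq⟩ hinj hsurj hex hA
    have e1 : Claim L E.φ₁ tr := hc₁
    have e2 : Claim L E.φ₂ tr := hc₂
    exact ⟨h0 _ _ _ _ _ _ _ E tr htr e1.surj0 e2.surj0 e1.inj1,
      h1i _ _ _ _ _ _ _ E tr htr e2.surj0 e1.inj1 e2.inj1,
      h1s _ _ _ _ _ _ _ E tr htr e1.surj1 e2.surj1 e1.inj2,
      h2 _ _ _ _ _ _ _ E tr htr e2.surj1 e1.inj2 e2.inj2⟩

/-- `MainA` from all package statements of module A. -/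
theorem mainA_of_windows (p : ℕ) (χ : G →* kˣ) (ε : k)
    (h0 : DevSurj0 (k := k) L) (h1i : DevInj1 (k := k) L) (h1s : DevSurj1 (k := k) L)
    (h2 : DevInj2 (k := k) L)
    (hret : RetStatement (k := k) L) (hDD : DDStatement L χ) (hAdj : AdjStatement L ε)
    (hFinal : FinalStatement L χ) : MainA L p χ :=
  mainA_of_packages L p χ ε (indStatement_of_windows L p χ h0 h1i h1s h2 hret) hDD hAdj hFinal

end Fermat.Agent.S55
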