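import Fermat.Agent.S55.AInterface

/-!
# S55, module A, window `β⁰`-epi: `DevSurj0` (task 299, helper3)

Four lemma on `H^0(A₁) → H^0(A) → H^0(A₂) → H^1(A₁)` against the duals of
`H_c^3(B₁) ← H_c^3(B) ← H_c^3(B₂) ← H_c^2(B₁)`, at cochain level.
-/

set_option autoImplicit false

universe u

open groupCohomology

noncomputable section

namespace Fermat.Agent.S55.helper3

/-! ## Linear algebra over a field -/

section LinAlg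

variable {k : Type*} [Field k] {V V₁ : Type*} [AddCommGroup V] [Module k V]
  [AddCommGroup V₁] [Module k V₁]

/-- Factorisation of a functional through a linear map, modulo a subspace of the target. -/
lemma exists_functional_of_ker (Z : Submodule k V) (Bd : Submodule k V₁) (Q : V →ₗ[k] V₁)
    (ψ : V →ₗ[k] k) (h : ∀ y ∈ Z, Q y ∈ Bd → ψ y = 0) :
    ∃ ψ₁ : V₁ →ₗ[k] k, (∀ b ∈ Bd, ψ₁ b = 0) ∧ ∀ y ∈ Z, ψ₁ (Q y) = ψ y := by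
  classical
  let f : Z →ₗ[k] (V₁ ⧸ Bd) := Bd.mkQ ∘ₗ Q ∘ₗ Z.subtype
  obtain ⟨t, ht⟩ := LinearMap.exists_rightInverse_of_surjective f.rangeRestrict
    (LinearMap.range_rangeRestrict f)
  obtain ⟨r, hr⟩ := LinearMap.exists_leftInverse_of_injective (LinearMap.range f).subtype
    (Submodule.ker_subtype _)
  refine ⟨ψ ∘ₗ Z.subtype ∘ₗ t ∘ₗ r ∘ₗ Bd.mkQ, fun b hb => ?_, fun y hy => ?_⟩
  · have : Bd.mkQ b = 0 := (Submodule.Quotient.mk_eq_zero Bd).2 hb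
    simp [this]
  · have h1 : r (Bd.mkQ (Q y)) = f.rangeRestrict ⟨y, hy⟩ := by
      have := LinearMap.congr_fun hr (f.rangeRestrict ⟨y, hy⟩)
      simpa [f] using this
    have h2 : f.rangeRestrict (t (f.rangeRestrict ⟨y, hy⟩)) = f.rangeRestrict ⟨y, hy⟩ :=
      LinearMap.congr_fun ht _
    have h3 : f (t (f.rangeRestrict ⟨y, hy⟩) - ⟨y, hy⟩) = 0 := by
      have := congrArg Subtype.val h2
      simp only [LinearMap.codRestrict_apply] at this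
      rw [map_sub, this, sub_self]
    set z : Z := t (f.rangeRestrict ⟨y, hy⟩) - ⟨y, hy⟩ with hz
    have h4 : ψ (z : V) = 0 := by
      apply h _ z.2
      have : Bd.mkQ (Q z) = 0 := h3
      exact (Submodule.Quotient.mk_eq_zero Bd).1 this
    have h5 : ψ ((t (f.rangeRestrict ⟨y, hy⟩) : Z) : V) = ψ y := by
      have : ((t (f.rangeRestrict ⟨y, hy⟩) : Z) : V) = (z : V) + y := by
        simp [hz]
      rw [this, map_add, h4, zero_add]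
    simp only [LinearMap.coe_comp, Function.comp_apply, Submodule.coe_subtype]
    rw [h1]
    exact h5

end LinAlg

/-! ## Level preservation -/

section Level

variable {k H : Type u} [Field k] [Group H] (𝒩 : Levels H)

lemma mul_mul_mem_level {N : Subgroup H} (hN : N.Normal) (g₁ g₂ : H) {s₁ s₂ : H}
    (h₁ : s₁ ∈ N) (h₂ : s₂ ∈ N) : ∃ s ∈ N, g₁ * s₁ * (g₂ * s₂) = g₁ * g₂ * s := by
  refine ⟨g₂⁻¹ * s₁ * g₂ * s₂, N.mul_mem ?_ h₂, by group⟩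
  have := hN.conj_mem s₁ h₁ g₂⁻¹
  simpa using this

lemma comp_mem_C1 {A A' : Rep.{u} k H} (f : A →ₗ[k] A') {x : H → A} (hx : x ∈ C1 𝒩 A) :
    (fun g => f (x g)) ∈ C1 𝒩 A' := by
  obtain ⟨N, hN, h⟩ := hx
  exact ⟨N, hN, fun g s hs => by simp only [h g s hs]⟩

lemma comp_mem_C2 {A A' : Rep.{u} k H} (f : A →ₗ[k] A') {x : H × H → A} (hx : x ∈ C2 𝒩 A) :
    (fun g => f (x g)) ∈ C2 𝒩 A' := by
  obtain ⟨N, hN, h⟩ := hx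
  exact ⟨N, hN, fun g₁ g₂ s₁ hs₁ s₂ hs₂ => by simp only [h g₁ g₂ s₁ hs₁ s₂ hs₂]⟩

lemma comp_mem_C3 {A A' : Rep.{u} k H} (f : A →ₗ[k] A') {x : H × H × H → A}
    (hx : x ∈ C3 𝒩 A) : (fun g => f (x g)) ∈ C3 𝒩 A' := by
  obtain ⟨N, hN, h⟩ := hx
  exact ⟨N, hN, fun g₁ g₂ g₃ s₁ hs₁ s₂ hs₂ s₃ hs₃ => by
    simp only [h g₁ g₂ g₃ s₁ hs₁ s₂ hs₂ s₃ hs₃]⟩

lemma d₀₁_mem_C1 {A : Rep.{u} k H} (hA : IsSmooth 𝒩 A) (a : A) : (d₀₁ A).hom a ∈ C1 𝒩 A := by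
  obtain ⟨N, hN, h⟩ := hA
  refine ⟨N, hN, fun g s hs => ?_⟩
  simp only [d₀₁_hom_apply, map_mul, Module.End.mul_apply, h s hs]

lemma d₁₂_mem_C2 {A : Rep.{u} k H} (hA : IsSmooth 𝒩 A) {x : H → A} (hx : x ∈ C1 𝒩 A) :
    (d₁₂ A).hom x ∈ C2 𝒩 A := by
  obtain ⟨N₁, hN₁, h₁⟩ := hA
  obtain ⟨N₂, hN₂, h₂⟩ := hx
  obtain ⟨N, hN, hle⟩ := 𝒩.directed N₁ hN₁ N₂ hN₂
  have hnorm := 𝒩.normal N hN
  refine ⟨N, hN, fun g₁ g₂ s₁ hs₁ s₂ hs₂ => ?_⟩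
  obtain ⟨s, hs, hmul⟩ := mul_mul_mem_level hnorm g₁ g₂ hs₁ hs₂
  simp only [d₁₂_hom_apply, hmul, h₂ _ _ (hle hs).2, h₂ _ _ (hle hs₁).2, h₂ _ _ (hle hs₂).2,
    map_mul, Module.End.mul_apply, h₁ _ (hle hs₁).1]

lemma d₂₃_mem_C3 {A : Rep.{u} k H} (hA : IsSmooth 𝒩 A) {x : H × H → A} (hx : x ∈ C2 𝒩 A) :
    (d₂₃ A).hom x ∈ C3 𝒩 A := by
  obtain ⟨N₁, hN₁, h₁⟩ := hA
  obtain ⟨N₂, hN₂, h₂⟩ := hx
  obtain ⟨N, hN, hle⟩ := 𝒩.directed N₁ hN₁ N₂ hN₂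
  have hnorm := 𝒩.normal N hN
  refine ⟨N, hN, fun g₁ g₂ g₃ s₁ hs₁ s₂ hs₂ s₃ hs₃ => ?_⟩
  obtain ⟨s, hs, hmul⟩ := mul_mul_mem_level hnorm g₁ g₂ hs₁ hs₂
  obtain ⟨s', hs', hmul'⟩ := mul_mul_mem_level hnorm g₂ g₃ hs₂ hs₃
  simp only [d₂₃_hom_apply, hmul, hmul', h₂ _ _ _ (hle hs).2 _ (hle hs₃).2,
    h₂ _ _ _ (hle hs₁).2 _ (hle hs').2, h₂ _ _ _ (hle hs₁).2 _ (hle hs₂).2,
    h₂ _ _ _ (hle hs₂).2 _ (hle hs₃).2, map_mul, Module.End.mul_apply, h₁ _ (hle hs₁).1]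

end Level

/-! ## Cone cochains: levels, functoriality, `d ∘ d = 0`, Leibniz -/

section Cone

variable {k G : Type u} [Field k] [Group G] {𝒩 : Levels G} {ι : Type} (L : LocalData G 𝒩 ι)

lemma isSmooth_loc {A : Rep.{u} k G} (hA : IsSmooth 𝒩 A) (v : ι) :
    IsSmooth (L.lev v) (L.loc A v) := by
  obtain ⟨N, hN, h⟩ := hA
  obtain ⟨N', hN', hle⟩ := L.compat v N hN
  exact ⟨N', hN', fun s hs a => h (L.r v s) (hle hs) a⟩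

lemma res₁_mem_C1 {A : Rep.{u} k G} {x : G → A} (hx : x ∈ C1 𝒩 A) (v : ι) :
    res₁ L A v x ∈ C1 (L.lev v) (L.loc A v) := by
  obtain ⟨N, hN, h⟩ := hx
  obtain ⟨N', hN', hle⟩ := L.compat v N hN
  refine ⟨N', hN', fun g s hs => ?_⟩
  simp only [res₁_apply, map_mul]
  exact h _ _ (hle hs)

lemma res₂_mem_C2 {A : Rep.{u} k G} {x : G × G → A} (hx : x ∈ C2 𝒩 A) (v : ι) :
    res₂ L A v x ∈ C2 (L.lev v) (L.loc A v) := by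
  obtain ⟨N, hN, h⟩ := hx
  obtain ⟨N', hN', hle⟩ := L.compat v N hN
  refine ⟨N', hN', fun g₁ g₂ s₁ hs₁ s₂ hs₂ => ?_⟩
  simp only [res₂_apply, map_mul]
  exact h _ _ _ (hle hs₁) _ (hle hs₂)

lemma mem_Cc2 {A : Rep.{u} k G} (y : CcAmb2 L A) :
    y ∈ Cc2 L A ↔ y.1 ∈ C2 𝒩 A ∧ ∀ v, y.2 v ∈ C1 (L.lev v) (L.loc A v) := by
  simp [Cc2, Submodule.mem_prod, Submodule.mem_pi]

lemma mem_Cc3 {A : Rep.{u} k G} (y : CcAmb3 L A) :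
    y ∈ Cc3 L A ↔ y.1 ∈ C3 𝒩 A ∧ ∀ v, y.2 v ∈ C2 (L.lev v) (L.loc A v) := by
  simp [Cc3, Submodule.mem_prod, Submodule.mem_pi]

lemma dc₂₃_mem_Cc3 {A : Rep.{u} k G} (hA : IsSmooth 𝒩 A) {y : CcAmb2 L A} (hy : y ∈ Cc2 L A) :
    dc₂₃ L A y ∈ Cc3 L A := by
  rw [mem_Cc2] at hy
  rw [mem_Cc3]
  refine ⟨d₂₃_mem_C3 𝒩 hA hy.1, fun v => ?_⟩
  exact (C2 (L.lev v) (L.loc A v)).sub_mem (res₂_mem_C2 L hy.1 v)
    (d₁₂_mem_C2 (L.lev v) (isSmooth_loc L hA v) (hy.2 v))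

lemma ccmap₂_mem_Cc2 {A A' : Rep.{u} k G} (f : A →ₗ[k] A') {y : CcAmb2 L A}
    (hy : y ∈ Cc2 L A) : ccmap₂ L f y ∈ Cc2 L A' := by
  rw [mem_Cc2] at hy ⊢
  exact ⟨comp_mem_C2 𝒩 f hy.1, fun v =>
    comp_mem_C1 (L.lev v) (A := L.loc A v) (A' := L.loc A' v) f (hy.2 v)⟩

lemma ccmap₃_mem_Cc3 {A A' : Rep.{u} k G} (f : A →ₗ[k] A') {y : CcAmb3 L A}
    (hy : y ∈ Cc3 L A) : ccmap₃ L f y ∈ Cc3 L A' := by
  rw [mem_Cc3] at hy ⊢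
  exact ⟨comp_mem_C3 𝒩 f hy.1, fun v =>
    comp_mem_C2 (L.lev v) (A := L.loc A v) (A' := L.loc A' v) f (hy.2 v)⟩

/-- induced map on cone 4-cochains -/
def ccmap₄ {A A' : Rep.{u} k G} (f : A →ₗ[k] A') (x : CcAmb4 L A) : CcAmb4 L A' :=
  (fun g => f (x.1 g), fun v s => f (x.2 v s))

lemma ccmap₄_injective {A A' : Rep.{u} k G} (f : A →ₗ[k] A') (hf : Function.Injective f) :
    Function.Injective (ccmap₄ L f) := by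
  intro x y h
  have h1 := congrArg Prod.fst h
  have h2 := congrArg Prod.snd h
  refine Prod.ext (funext fun g => hf (congrFun h1 g)) ?_
  funext v s
  exact hf (congrFun (congrFun h2 v) s)

lemma ccmap₄_zero {A A' : Rep.{u} k G} (f : A →ₗ[k] A') : ccmap₄ L f 0 = 0 := by
  refine Prod.ext ?_ ?_
  · funext g; exact map_zero f
  · funext v s; exact map_zero f

lemma ccmap₂_comp {A A' A'' : Rep.{u} k G} (f : A →ₗ[k] A') (g : A' →ₗ[k] A'')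
    (y : CcAmb2 L A) : ccmap₂ L g (ccmap₂ L f y) = ccmap₂ L (g ∘ₗ f) y := rfl

lemma ccmap₃_comp {A A' A'' : Rep.{u} k G} (f : A →ₗ[k] A') (g : A' →ₗ[k] A'')
    (y : CcAmb3 L A) : ccmap₃ L g (ccmap₃ L f y) = ccmap₃ L (g ∘ₗ f) y := rfl

lemma ccmap₂_id {A : Rep.{u} k G} (y : CcAmb2 L A) : ccmap₂ L LinearMap.id y = y := rfl

lemma ccmap₃_id {A : Rep.{u} k G} (y : CcAmb3 L A) : ccmap₃ L LinearMap.id y = y := rfl

lemma dc₂₃_ccmap₂ {A A' : Rep.{u} k G} (f : EqHom A A') (y : CcAmb2 L A) :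
    dc₂₃ L A' (ccmap₂ L f.f y) = ccmap₃ L f.f (dc₂₃ L A y) := by
  refine Prod.ext ?_ ?_
  · funext g
    simp only [dc₂₃, ccmap₂, ccmap₃, LinearMap.coe_mk, AddHom.coe_mk, d₂₃_hom_apply, map_sub,
      map_add, f.comm]
  · funext v s
    simp only [dc₂₃, ccmap₂, ccmap₃, LinearMap.coe_mk, AddHom.coe_mk, Pi.sub_apply,
      d₁₂_hom_apply, res₂, map_sub, map_add]
    rw [show ((L.loc A' v).ρ s.1) (f.f (y.2 v s.2)) = f.f ((L.loc A v).ρ s.1 (y.2 v s.2)) from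
      (f.comm (L.r v s.1) (y.2 v s.2)).symm]

lemma dc₃₄_ccmap₃ {A A' : Rep.{u} k G} (f : EqHom A A') (y : CcAmb3 L A) :
    dc₃₄ L A' (ccmap₃ L f.f y) = ccmap₄ L f.f (dc₃₄ L A y) := by
  refine Prod.ext ?_ ?_
  · funext g
    simp only [dc₃₄, ccmap₃, ccmap₄, LinearMap.coe_mk, AddHom.coe_mk, d₃₄, map_sub,
      map_add, f.comm]
  · funext v s
    simp only [dc₃₄, ccmap₃, ccmap₄, LinearMap.coe_mk, AddHom.coe_mk, Pi.sub_apply,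
      d₂₃_hom_apply, res₃, map_sub, map_add]
    rw [show ((L.loc A' v).ρ s.1) (f.f (y.2 v (s.2.1, s.2.2)))
        = f.f ((L.loc A v).ρ s.1 (y.2 v (s.2.1, s.2.2))) from
      (f.comm (L.r v s.1) (y.2 v (s.2.1, s.2.2))).symm]

lemma d₃₄_d₂₃ {H : Type u} [Group H] (A : Rep.{u} k H) (x : H × H → A) :
    d₃₄ A ((d₂₃ A).hom x) = 0 := by
  funext g
  obtain ⟨g₁, g₂, g₃, g₄⟩ := g
  simp only [d₃₄_apply, d₂₃_hom_apply, map_sub, map_add, map_mul, Module.End.mul_apply,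
    mul_assoc, Pi.zero_apply]
  abel

lemma dc₃₄_dc₂₃ {A : Rep.{u} k G} (y : CcAmb2 L A) : dc₃₄ L A (dc₂₃ L A y) = 0 := by
  refine Prod.ext ?_ ?_
  · exact d₃₄_d₂₃ A y.1
  · funext v
    have h1 : res₃ L A v ((d₂₃ A).hom y.1) = (d₂₃ (L.loc A v)).hom (res₂ L A v y.1) := by
      funext s
      simp only [res₃, res₂, LinearMap.coe_mk, AddHom.coe_mk, d₂₃_hom_apply, map_mul]
      rfl
    have h2 : (d₂₃ (L.loc A v)).hom ((d₁₂ (L.loc A v)).hom (y.2 v)) = 0 := by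
      have := d₁₂_comp_d₂₃ (L.loc A v)
      exact congrArg (fun F => F.hom (y.2 v)) this
    change res₃ L A v ((d₂₃ A).hom y.1)
      - (d₂₃ (L.loc A v)).hom (res₂ L A v y.1 - (d₁₂ (L.loc A v)).hom (y.2 v)) = 0
    rw [h1, map_sub, h2, sub_zero, sub_self]

lemma leibniz₀₂ {A B C : Rep.{u} k G} (φ : EqPairing A B C) (a : A) (y : CcAmb2 L B) :
    dc₂₃ L C (cupc₀₂ L φ a y)
      = cupc₁₂ L φ ((d₀₁ A).hom a) y + cupc₀₃ L φ a (dc₂₃ L B y) := by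
  refine Prod.ext ?_ ?_
  · funext g
    simp only [dc₂₃, cupc₀₂, cupc₁₂, cupc₀₃, LinearMap.coe_mk, AddHom.coe_mk, d₂₃_hom_apply,
      d₀₁_hom_apply, Prod.fst_add, Pi.add_apply, map_sub, map_add, LinearMap.sub_apply,
      ← φ.equivariant]
    abel
  · funext v s
    simp only [dc₂₃, cupc₀₂, cupc₁₂, cupc₀₃, LinearMap.coe_mk, AddHom.coe_mk, Pi.sub_apply,
      d₁₂_hom_apply, d₀₁_hom_apply, res₂, Prod.snd_add, Pi.add_apply, map_sub, map_add,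
      LinearMap.sub_apply]
    rw [show ((L.loc C v).ρ s.1) (φ.φ a (y.2 v s.2))
        = φ.φ (A.ρ (L.r v s.1) a) (B.ρ (L.r v s.1) (y.2 v s.2)) from
      (φ.equivariant (L.r v s.1) a (y.2 v s.2)).symm]
    rw [show ((L.loc B v).ρ s.1) (y.2 v s.2) = B.ρ (L.r v s.1) (y.2 v s.2) from rfl]
    abel

lemma cupc₀₃_add {A B C : Rep.{u} k G} (φ : EqPairing A B C) (a a' : A) (y : CcAmb3 L B) :
    cupc₀₃ L φ (a + a') y = cupc₀₃ L φ a y + cupc₀₃ L φ a' y := by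
  refine Prod.ext ?_ ?_
  · funext g
    simp only [cupc₀₃, map_add, LinearMap.add_apply, Prod.fst_add, Pi.add_apply]
  · funext v s
    simp only [cupc₀₃, map_add, LinearMap.add_apply, Prod.snd_add, Pi.add_apply]

lemma cupc₀₂_mem_Cc2 {A B C : Rep.{u} k G} (φ : EqPairing A B C) (a : A) {y : CcAmb2 L B}
    (hy : y ∈ Cc2 L B) : cupc₀₂ L φ a y ∈ Cc2 L C :=
  ccmap₂_mem_Cc2 L (φ.φ a) hy

end Cone

/-! ## Extension data -/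

section Ext

variable {k G : Type u} [Field k] [Group G] {𝒩 : Levels G} {ι : Type} (L : LocalData G 𝒩 ι)
  {A₁ A A₂ B₁ B B₂ C : Rep.{u} k G} (E : ExtData 𝒩 A₁ A A₂ B₁ B B₂ C)

lemma cupc₀₃_compat₁ (a₁ : A₁) (y : CcAmb3 L B) :
    cupc₀₃ L E.φ (E.i.f a₁) y = cupc₀₃ L E.φ₁ a₁ (ccmap₃ L E.q.f y) := by
  refine Prod.ext ?_ ?_
  · funext g
    simp only [cupc₀₃, ccmap₃, LinearMap.coe_mk, AddHom.coe_mk, E.compat₁]
  · funext v s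
    simp only [cupc₀₃, ccmap₃, LinearMap.coe_mk, AddHom.coe_mk, E.compat₁]

lemma cupc₀₃_compat₂ (a : A) (y₂ : CcAmb3 L B₂) :
    cupc₀₃ L E.φ a (ccmap₃ L E.j.f y₂) = cupc₀₃ L E.φ₂ (E.π.f a) y₂ := by
  refine Prod.ext ?_ ?_
  · funext g
    simp only [cupc₀₃, ccmap₃, LinearMap.coe_mk, AddHom.coe_mk, E.compat₂]
  · funext v s
    simp only [cupc₀₃, ccmap₃, LinearMap.coe_mk, AddHom.coe_mk, E.compat₂]

lemma cupc₁₂_compat₁ (x₁ : G → A₁) (y : CcAmb2 L B) :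
    cupc₁₂ L E.φ (fun g => E.i.f (x₁ g)) y = cupc₁₂ L E.φ₁ x₁ (ccmap₂ L E.q.f y) := by
  refine Prod.ext ?_ ?_
  · funext g
    simp only [cupc₁₂, ccmap₂, LinearMap.coe_mk, AddHom.coe_mk, E.compat₁, E.q.comm]
  · funext v s
    simp only [cupc₁₂, ccmap₂, LinearMap.coe_mk, AddHom.coe_mk, E.compat₁, E.q.comm]

include E in
lemma smoothB₁ : IsSmooth 𝒩 B₁ := by
  obtain ⟨N, hN, h⟩ := E.smoothB
  refine ⟨N, hN, fun s hs b₁ => ?_⟩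
  obtain ⟨b, rfl⟩ := E.q_surj b₁
  rw [← E.q.comm, h s hs]

include E in
lemma smoothB₂ : IsSmooth 𝒩 B₂ := by
  obtain ⟨N, hN, h⟩ := E.smoothB
  refine ⟨N, hN, fun s hs b₂ => ?_⟩
  apply E.j_inj
  rw [E.j.comm, h s hs]

include E in
lemma smoothA₁ : IsSmooth 𝒩 A₁ := by
  obtain ⟨N, hN, h⟩ := E.smoothA
  refine ⟨N, hN, fun s hs a₁ => ?_⟩
  apply E.i_inj
  rw [E.i.comm, h s hs]

include E in
lemma smoothA₂ : IsSmooth 𝒩 A₂ := by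
  obtain ⟨N, hN, h⟩ := E.smoothA
  refine ⟨N, hN, fun s hs a₂ => ?_⟩
  obtain ⟨a, rfl⟩ := E.π_surj a₂
  rw [← E.π.comm, h s hs]

lemma mem_Zc3 {A : Rep.{u} k G} (y : CcAmb3 L A) :
    y ∈ Zc3 L A ↔ y ∈ Cc3 L A ∧ dc₃₄ L A y = 0 := by
  simp [Zc3, Submodule.mem_inf, LinearMap.mem_ker]

lemma mem_Zc2 {A : Rep.{u} k G} (y : CcAmb2 L A) :
    y ∈ Zc2 L A ↔ y ∈ Cc2 L A ∧ dc₂₃ L A y = 0 := by
  simp [Zc2, Submodule.mem_inf, LinearMap.mem_ker]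

lemma mem_Bc3 {A : Rep.{u} k G} (y : CcAmb3 L A) :
    y ∈ Bc3 L A ↔ ∃ w ∈ Cc2 L A, dc₂₃ L A w = y := by
  simp [Bc3, Submodule.mem_map]

lemma dc₂₃_mem_Bc3 {A : Rep.{u} k G} {w : CcAmb2 L A} (hw : w ∈ Cc2 L A) :
    dc₂₃ L A w ∈ Bc3 L A := (mem_Bc3 L _).2 ⟨w, hw, rfl⟩

lemma dc₂₃_mem_Zc3 {A : Rep.{u} k G} (hA : IsSmooth 𝒩 A) {w : CcAmb2 L A}
    (hw : w ∈ Cc2 L A) : dc₂₃ L A w ∈ Zc3 L A :=
  (mem_Zc3 L _).2 ⟨dc₂₃_mem_Cc3 L hA hw, dc₃₄_dc₂₃ L w⟩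

lemma ccmap₃_mem_Bc3 {A A' : Rep.{u} k G} (f : EqHom A A') {y : CcAmb3 L A}
    (hy : y ∈ Bc3 L A) : ccmap₃ L f.f y ∈ Bc3 L A' := by
  obtain ⟨w, hw, rfl⟩ := (mem_Bc3 L y).1 hy
  rw [← dc₂₃_ccmap₂]
  exact dc₂₃_mem_Bc3 L (ccmap₂_mem_Cc2 L f.f hw)

lemma ccmap₃_mem_Zc3 {A A' : Rep.{u} k G} (f : EqHom A A') {y : CcAmb3 L A}
    (hy : y ∈ Zc3 L A) : ccmap₃ L f.f y ∈ Zc3 L A' := by
  rw [mem_Zc3] at hy ⊢
  refine ⟨ccmap₃_mem_Cc3 L f.f hy.1, ?_⟩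
  rw [dc₃₄_ccmap₃, hy.2, ccmap₄_zero]

lemma cupc₁₂_zero {A B C : Rep.{u} k G} (φ : EqPairing A B C) (y : CcAmb2 L B) :
    cupc₁₂ L φ (0 : G → A) y = 0 := by
  refine Prod.ext ?_ ?_
  · funext g
    simp only [cupc₁₂, Pi.zero_apply, map_zero, LinearMap.zero_apply, Prod.fst_zero]
  · funext v s
    simp only [cupc₁₂, Pi.zero_apply, map_zero, LinearMap.zero_apply, neg_zero, Prod.snd_zero]

/-- lifting level cone 2-cochains along `q` -/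
lemma exists_lift_Cc2 {y₁ : CcAmb2 L B₁} (hy : y₁ ∈ Cc2 L B₁) :
    ∃ y ∈ Cc2 L B, ccmap₂ L E.q.f y = y₁ := by
  obtain ⟨σ, hσ⟩ := LinearMap.exists_rightInverse_of_surjective E.q.f
    (LinearMap.range_eq_top.2 E.q_surj)
  refine ⟨ccmap₂ L σ y₁, ccmap₂_mem_Cc2 L σ hy, ?_⟩
  rw [ccmap₂_comp, hσ, ccmap₂_id]

/-- exactness of `0 → Z_c^3(B₂) → Z_c^3(B) → Z_c^3(B₁)` -/
lemma exists_Zc3_of_q_eq_zero {y : CcAmb3 L B} (hy : y ∈ Zc3 L B)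
    (hq : ccmap₃ L E.q.f y = 0) : ∃ y₂ ∈ Zc3 L B₂, ccmap₃ L E.j.f y₂ = y := by
  obtain ⟨ρ, hρ⟩ := LinearMap.exists_leftInverse_of_injective E.j.f
    (LinearMap.ker_eq_bot.2 E.j_inj)
  have key : ∀ b : B, E.q.f b = 0 → E.j.f (ρ b) = b := by
    intro b hb
    obtain ⟨b₂, rfl⟩ := (E.exactB b).1 hb
    have := LinearMap.congr_fun hρ b₂
    simp only [LinearMap.coe_comp, Function.comp_apply, LinearMap.id_coe, id_eq] at this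
    rw [this]
  have hjy : ccmap₃ L E.j.f (ccmap₃ L ρ y) = y := by
    refine Prod.ext ?_ ?_
    · funext g
      exact key _ (congrFun (congrArg Prod.fst hq) g)
    · funext v s
      exact key _ (congrFun (congrFun (congrArg Prod.snd hq) v) s)
  rw [mem_Zc3] at hy
  refine ⟨ccmap₃ L ρ y, (mem_Zc3 L _).2 ⟨ccmap₃_mem_Cc3 L ρ hy.1, ?_⟩, hjy⟩
  apply ccmap₄_injective L E.j.f E.j_inj
  rw [← dc₃₄_ccmap₃, hjy, hy.2, ccmap₄_zero]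

end Ext

/-! ## The window -/

section Window

variable {k G : Type u} [Field k] [Group G] {𝒩 : Levels G} {ι : Type} (L : LocalData G 𝒩 ι)

theorem devSurj0 : DevSurj0 (k := k) L := by
  intro A₁ A A₂ B₁ B B₂ C E tr htr hS1 hS2 hI1 ψ hψ
  -- Step 1: the class on `A₂`
  obtain ⟨a₂, ha₂, h₂⟩ := hS2 (ψ ∘ₗ ccmap₃ L E.j.f)
    (fun y hy => hψ _ (ccmap₃_mem_Bc3 L E.j hy))
  -- Step 2: lift to an invariant of `A`
  obtain ⟨a', ha'⟩ := E.π_surj a₂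
  obtain ⟨ρi, hρi⟩ := LinearMap.exists_leftInverse_of_injective E.i.f
    (LinearMap.ker_eq_bot.2 E.i_inj)
  have hρi' : ∀ a₁ : A₁, ρi (E.i.f a₁) = a₁ := fun a₁ => LinearMap.congr_fun hρi a₁
  have hinv₂ : ∀ g, A₂.ρ g a₂ = a₂ := fun g => ha₂ g
  set x₁ : G → A₁ := fun g => ρi ((d₀₁ A).hom a' g) with hx₁
  have hix₁ : (fun g => E.i.f (x₁ g)) = (d₀₁ A).hom a' := by
    funext g
    have hπ : E.π.f ((d₀₁ A).hom a' g) = 0 := by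
      rw [d₀₁_hom_apply, map_sub, E.π.comm, ha', hinv₂ g, sub_self]
    obtain ⟨a₁, ha₁⟩ := (E.exactA _).1 hπ
    rw [hx₁]
    simp only
    rw [← ha₁, hρi']
  have hx₁Z : x₁ ∈ Z1 𝒩 A₁ := by
    refine ⟨comp_mem_C1 𝒩 ρi (d₀₁_mem_C1 𝒩 E.smoothA a'), ?_⟩
    change (d₁₂ A₁).hom x₁ = 0
    have h0 : (d₁₂ A).hom ((d₀₁ A).hom a') = 0 := by
      have := d₀₁_comp_d₁₂ A
      exact congrArg (fun F => F.hom a') this
    funext g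
    apply E.i_inj
    have h1 : (d₁₂ A).hom (fun g => E.i.f (x₁ g)) g = 0 := by
      rw [hix₁, h0]; rfl
    rw [d₁₂_hom_apply] at h1
    change E.i.f (A₁.ρ g.1 (x₁ g.2) - x₁ (g.1 * g.2) + x₁ g.1) = E.i.f 0
    rw [map_zero, map_add, map_sub, E.i.comm]
    exact h1
  have hx₁pair : ∀ y₁ ∈ Zc2 L B₁, tr (cupc₁₂ L E.φ₁ x₁ y₁) = 0 := by
    intro y₁ hy₁
    rw [mem_Zc2] at hy₁
    obtain ⟨y, hy, hqy⟩ := exists_lift_Cc2 L E hy₁.1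
    have hwZ : dc₂₃ L B y ∈ Zc3 L B := dc₂₃_mem_Zc3 L E.smoothB hy
    have hqw : ccmap₃ L E.q.f (dc₂₃ L B y) = 0 := by
      rw [← dc₂₃_ccmap₂, hqy, hy₁.2]
    obtain ⟨z₂, hz₂, hjz₂⟩ := exists_Zc3_of_q_eq_zero L E hwZ hqw
    have e1 : cupc₁₂ L E.φ₁ x₁ y₁ = cupc₁₂ L E.φ ((d₀₁ A).hom a') y := by
      rw [← hqy, ← cupc₁₂_compat₁, hix₁]
    have e2 := leibniz₀₂ L E.φ a' y
    have e3 : tr (dc₂₃ L C (cupc₀₂ L E.φ a' y)) = 0 :=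
      htr _ (dc₂₃_mem_Bc3 L (cupc₀₂_mem_Cc2 L E.φ a' hy))
    have e4 : tr (cupc₀₃ L E.φ a' (dc₂₃ L B y)) = 0 := by
      rw [← hjz₂, cupc₀₃_compat₂, ha']
      have := h₂ z₂ hz₂
      rw [← this]
      simp only [LinearMap.coe_comp, Function.comp_apply]
      rw [hjz₂]
      exact hψ _ (dc₂₃_mem_Bc3 L hy)
    rw [e1]
    rw [e2, map_add, e4, add_zero] at e3
    exact e3
  obtain ⟨a₁, ha₁⟩ := hI1 x₁ hx₁Z hx₁pair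
  set a : A := a' - E.i.f a₁ with ha
  have hd₀a : (d₀₁ A).hom a = 0 := by
    rw [ha, map_sub, ← hix₁, ← ha₁]
    funext g
    simp only [Pi.sub_apply, d₀₁_hom_apply, map_sub, E.i.comm, sub_self]
    rfl
  have haH0 : a ∈ H0 A := by
    intro g
    have : (d₀₁ A).hom a g = 0 := by
      rw [hd₀a]; rfl
    rw [d₀₁_hom_apply] at this
    exact sub_eq_zero.1 this
  have hπa : E.π.f a = a₂ := by
    have hπi : E.π.f (E.i.f a₁) = 0 := (E.exactA _).2 ⟨a₁, rfl⟩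
    rw [ha, map_sub, ha', hπi, sub_zero]
  -- Step 3: the correction in `A₁`
  set ψ' : CcAmb3 L B →ₗ[k] k := ψ - tr ∘ₗ ccmap₃ L (E.φ.φ a) with hψ'
  have hψ'apply : ∀ y, ψ' y = ψ y - tr (cupc₀₃ L E.φ a y) := fun y => rfl
  have hψ'B : ∀ w ∈ Cc2 L B, ψ' (dc₂₃ L B w) = 0 := by
    intro w hw
    rw [hψ'apply, hψ _ (dc₂₃_mem_Bc3 L hw), zero_sub, neg_eq_zero]
    have e2 := leibniz₀₂ L E.φ a w
    rw [hd₀a, cupc₁₂_zero, zero_add] at e2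
    rw [← e2]
    exact htr _ (dc₂₃_mem_Bc3 L (cupc₀₂_mem_Cc2 L E.φ a hw))
  have hψ'j : ∀ z₂ ∈ Zc3 L B₂, ψ' (ccmap₃ L E.j.f z₂) = 0 := by
    intro z₂ hz₂
    rw [hψ'apply, cupc₀₃_compat₂, hπa, ← h₂ z₂ hz₂]
    simp
  have hker : ∀ y ∈ Zc3 L B, ccmap₃ L E.q.f y ∈ Bc3 L B₁ → ψ' y = 0 := by
    intro y hy hqy
    obtain ⟨w₁, hw₁, hdw₁⟩ := (mem_Bc3 L _).1 hqy
    obtain ⟨w, hw, hqw⟩ := exists_lift_Cc2 L E hw₁
    have hy' : y - dc₂₃ L B w ∈ Zc3 L B :=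
      (Zc3 L B).sub_mem hy (dc₂₃_mem_Zc3 L E.smoothB hw)
    have hq' : ccmap₃ L E.q.f (y - dc₂₃ L B w) = 0 := by
      rw [map_sub, ← dc₂₃_ccmap₂, hqw, hdw₁, sub_self]
    obtain ⟨y₂, hy₂, hjy₂⟩ := exists_Zc3_of_q_eq_zero L E hy' hq'
    have h1 := hψ'j y₂ hy₂
    rw [hjy₂, map_sub, hψ'B w hw, sub_zero] at h1
    exact h1
  obtain ⟨ψ₁, hψ₁B, hψ₁⟩ :=
    exists_functional_of_ker (Zc3 L B) (Bc3 L B₁) (ccmap₃ L E.q.f) ψ' hker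
  obtain ⟨a₁', ha₁', h₁⟩ := hS1 ψ₁ hψ₁B
  refine ⟨a + E.i.f a₁', ?_, fun y hy => ?_⟩
  · refine (H0 A).add_mem haH0 ?_
    intro g
    rw [← E.i.comm]
    exact congrArg E.i.f (ha₁' g)
  · have h3 := hψ₁ y hy
    rw [h₁ _ (ccmap₃_mem_Zc3 L E.q hy), ← cupc₀₃_compat₁, hψ'apply] at h3
    rw [cupc₀₃_add, map_add, h3]
    ring

end Window

end Fermat.Agent.S55.helper3
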