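import Fermat.Agent.S55.AInterface

/-!
# S55, module A, window `β²`-mono: `DevInj2` (helper49, task 302)

For two dual short exact sequences `0 → A₁ → A → A₂ → 0`, `0 → B₂ → B → B₁ → 0` with compatible
pairings into `C` and a trace `tr` killing `B_c^3(C)`:
`Surj1 φ₂ → Inj2 φ₁ → Inj2 φ₂ → Inj2 φ`.

Everything is done at cochain level with `k`-linear sections.  The file is self-contained
(imports only `AInterface`); the basic lemmas (level preservation, Leibniz rule for the `(1,1)`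
cone cup product, functoriality of the cups) are proved privately under the prefix `w2_`.
-/

set_option autoImplicit false

universe u

open groupCohomology

noncomputable section

namespace Fermat.Agent.S55.helper49

variable {k G : Type u} [Field k] [Group G] {𝒩 : Levels G} {ι : Type} (L : LocalData G 𝒩 ι)

/-! ## Linear algebra over a field -/

/-- A functional vanishing on the kernel of `f` factors through `f`. -/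
lemma w2_exists_factor {V W : Type*} [AddCommGroup V] [Module k V] [AddCommGroup W] [Module k W]
    (f : V →ₗ[k] W) (g : V →ₗ[k] k) (h : ∀ v, f v = 0 → g v = 0) :
    ∃ ψ : W →ₗ[k] k, ∀ v, ψ (f v) = g v := by
  obtain ⟨σ, hσ⟩ := LinearMap.exists_rightInverse_of_surjective f.rangeRestrict
    (LinearMap.range_rangeRestrict f)
  obtain ⟨ψ, hψ⟩ := LinearMap.exists_extend (g ∘ₗ σ)
  refine ⟨ψ, fun v => ?_⟩
  have h1 : ψ (f v) = (g ∘ₗ σ) (f.rangeRestrict v) := by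
    rw [← hψ]; rfl
  rw [h1, LinearMap.comp_apply]
  have h2 : f (σ (f.rangeRestrict v) - v) = 0 := by
    have h3 : f.rangeRestrict (σ (f.rangeRestrict v)) = f.rangeRestrict v :=
      LinearMap.congr_fun hσ (f.rangeRestrict v)
    have h4 : f (σ (f.rangeRestrict v)) = f v := congrArg Subtype.val h3
    rw [map_sub, h4, sub_self]
  have h5 := h _ h2
  rw [map_sub, sub_eq_zero] at h5
  exact h5

/-- linear section of a surjection -/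
lemma w2_exists_section {V W : Type*} [AddCommGroup V] [Module k V] [AddCommGroup W] [Module k W]
    (f : V →ₗ[k] W) (hf : Function.Surjective f) : ∃ σ : W →ₗ[k] V, ∀ w, f (σ w) = w := by
  obtain ⟨σ, hσ⟩ := LinearMap.exists_rightInverse_of_surjective f (LinearMap.range_eq_top.mpr hf)
  exact ⟨σ, fun w => LinearMap.congr_fun hσ w⟩

/-- linear retraction of an injection -/
lemma w2_exists_retraction {V W : Type*} [AddCommGroup V] [Module k V] [AddCommGroup W]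
    [Module k W] (f : V →ₗ[k] W) (hf : Function.Injective f) :
    ∃ ρ : W →ₗ[k] V, ∀ v, ρ (f v) = v := by
  obtain ⟨ρ, hρ⟩ := LinearMap.exists_leftInverse_of_injective f (LinearMap.ker_eq_bot.mpr hf)
  exact ⟨ρ, fun v => LinearMap.congr_fun hρ v⟩

/-! ## Cochains: level preservation, functoriality, `d ∘ d = 0` -/

section Basic

variable {A A' B B' C : Rep.{u} k G}

lemma w2_d₂₃_d₁₂ (x : G → A) : (d₂₃ A).hom ((d₁₂ A).hom x) = 0 := by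
  have h := congrArg (fun F => F.hom x) (d₁₂_comp_d₂₃ A)
  exact h

lemma w2_d₁₂_d₀₁ (a : A) : (d₁₂ A).hom ((d₀₁ A).hom a) = 0 := by
  have h := congrArg (fun F => F.hom a) (d₀₁_comp_d₁₂ A)
  exact h

lemma w2_comp_mem_C1 (f : A →ₗ[k] A') {x : G → A} (hx : x ∈ C1 𝒩 A) :
    (fun g => f (x g)) ∈ C1 𝒩 A' := by
  obtain ⟨N, hN, h⟩ := hx
  exact ⟨N, hN, fun g s hs => congrArg f (h g s hs)⟩

lemma w2_comp_mem_C2 (f : A →ₗ[k] A') {x : G × G → A} (hx : x ∈ C2 𝒩 A) :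
    (fun g => f (x g)) ∈ C2 𝒩 A' := by
  obtain ⟨N, hN, h⟩ := hx
  exact ⟨N, hN, fun g₁ g₂ s₁ hs₁ s₂ hs₂ => congrArg f (h g₁ g₂ s₁ hs₁ s₂ hs₂)⟩

lemma w2_d₁₂_mem_C2 (hA : IsSmooth 𝒩 A) {x : G → A} (hx : x ∈ C1 𝒩 A) :
    (d₁₂ A).hom x ∈ C2 𝒩 A := by
  obtain ⟨N₁, hN₁, h₁⟩ := hx
  obtain ⟨N₂, hN₂, h₂⟩ := hA
  obtain ⟨N, hN, hle⟩ := 𝒩.directed N₁ hN₁ N₂ hN₂
  refine ⟨N, hN, fun g₁ g₂ s₁ hs₁ s₂ hs₂ => ?_⟩
  have hnorm := 𝒩.normal N hN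
  change A.ρ (g₁ * s₁) (x (g₂ * s₂)) - x (g₁ * s₁ * (g₂ * s₂)) + x (g₁ * s₁)
    = A.ρ g₁ (x g₂) - x (g₁ * g₂) + x g₁
  have e1 : x (g₂ * s₂) = x g₂ := h₁ _ _ (hle hs₂).1
  have e2 : x (g₁ * s₁) = x g₁ := h₁ _ _ (hle hs₁).1
  have e3 : g₁ * s₁ * (g₂ * s₂) = g₁ * g₂ * (g₂⁻¹ * s₁ * g₂ * s₂) := by group
  have e4 : g₂⁻¹ * s₁ * g₂ * s₂ ∈ N :=
    N.mul_mem (by simpa using hnorm.conj_mem s₁ hs₁ g₂⁻¹) hs₂
  have e5 : x (g₁ * s₁ * (g₂ * s₂)) = x (g₁ * g₂) := by rw [e3]; exact h₁ _ _ (hle e4).1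
  rw [e1, e2, e5, map_mul, Module.End.mul_apply, h₂ s₁ (hle hs₁).2]

lemma w2_d₁₂_comp (f : EqHom A A') (x : G → A) :
    (d₁₂ A').hom (fun g => f.f (x g)) = fun g => f.f ((d₁₂ A).hom x g) := by
  funext g
  change A'.ρ g.1 (f.f (x g.2)) - f.f (x (g.1 * g.2)) + f.f (x g.1)
    = f.f (A.ρ g.1 (x g.2) - x (g.1 * g.2) + x g.1)
  rw [map_add, map_sub, f.comm]

lemma w2_d₂₃_comp (f : EqHom A A') (x : G × G → A) :
    (d₂₃ A').hom (fun g => f.f (x g)) = fun g => f.f ((d₂₃ A).hom x g) := by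
  funext g
  change A'.ρ g.1 (f.f (x (g.2.1, g.2.2))) - f.f (x (g.1 * g.2.1, g.2.2))
      + f.f (x (g.1, g.2.1 * g.2.2)) - f.f (x (g.1, g.2.1))
    = f.f (A.ρ g.1 (x (g.2.1, g.2.2)) - x (g.1 * g.2.1, g.2.2)
      + x (g.1, g.2.1 * g.2.2) - x (g.1, g.2.1))
  rw [map_sub, map_add, map_sub, f.comm]

/-- the cone differential preserves level-constancy (smooth coefficients) -/
lemma w2_dc₁₂_mem_Cc2 (hB : IsSmooth 𝒩 B) {w : CcAmb1 L B} (hw : w ∈ Cc1 L B) :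
    dc₁₂ L B w ∈ Cc2 L B := by
  obtain ⟨hw1, -⟩ := hw
  refine ⟨w2_d₁₂_mem_C2 hB hw1, fun v _ => ?_⟩
  obtain ⟨N₁, hN₁, h₁⟩ := hw1
  obtain ⟨N₂, hN₂, h₂⟩ := hB
  obtain ⟨N, hN, hle⟩ := 𝒩.directed N₁ hN₁ N₂ hN₂
  obtain ⟨N', hN', hle'⟩ := L.compat v N hN
  refine ⟨N', hN', fun s t ht => ?_⟩
  have ht' : L.r v t ∈ N := hle' ht
  change w.1 (L.r v (s * t)) - (B.ρ (L.r v (s * t)) (w.2 v) - w.2 v)
    = w.1 (L.r v s) - (B.ρ (L.r v s) (w.2 v) - w.2 v)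
  rw [map_mul, h₁ _ _ (hle ht').1, map_mul, Module.End.mul_apply, h₂ _ (hle ht').2]

lemma w2_dc₂₃_dc₁₂ (w : CcAmb1 L B) : dc₂₃ L B (dc₁₂ L B w) = 0 := by
  refine Prod.ext (w2_d₂₃_d₁₂ w.1) ?_
  funext v
  change res₂ L B v ((d₁₂ B).hom w.1) - (d₁₂ (L.loc B v)).hom
    (res₁ L B v w.1 - (d₀₁ (L.loc B v)).hom (w.2 v)) = 0
  rw [map_sub, w2_d₁₂_d₀₁, sub_zero, sub_eq_zero]
  funext s
  change B.ρ (L.r v s.1) (w.1 (L.r v s.2)) - w.1 (L.r v s.1 * L.r v s.2) + w.1 (L.r v s.1)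
    = B.ρ (L.r v s.1) (w.1 (L.r v s.2)) - w.1 (L.r v (s.1 * s.2)) + w.1 (L.r v s.1)
  rw [map_mul]

lemma w2_dc₁₂_ccmap (f : EqHom B B') (w : CcAmb1 L B) :
    dc₁₂ L B' (ccmap₁ L f.f w) = ccmap₂ L f.f (dc₁₂ L B w) := by
  refine Prod.ext ?_ ?_
  · exact w2_d₁₂_comp f w.1
  · funext v s
    change f.f (w.1 (L.r v s)) - (B'.ρ (L.r v s) (f.f (w.2 v)) - f.f (w.2 v))
      = f.f (w.1 (L.r v s) - (B.ρ (L.r v s) (w.2 v) - w.2 v))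
    rw [map_sub, map_sub, f.comm]

lemma w2_ccmap₁_mem_Cc1 (f : B →ₗ[k] B') {w : CcAmb1 L B} (hw : w ∈ Cc1 L B) :
    ccmap₁ L f w ∈ Cc1 L B' :=
  ⟨w2_comp_mem_C1 f hw.1, Submodule.mem_top⟩

lemma w2_ccmap₂_mem_Cc2 (f : B →ₗ[k] B') {w : CcAmb2 L B} (hw : w ∈ Cc2 L B) :
    ccmap₂ L f w ∈ Cc2 L B' := by
  refine ⟨w2_comp_mem_C2 f hw.1, fun v hv => ?_⟩
  obtain ⟨N, hN, h⟩ := hw.2 v hv
  exact ⟨N, hN, fun g s hs => congrArg f (h g s hs)⟩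

lemma w2_ccmap₁_mem_Zc1 (f : EqHom B B') {w : CcAmb1 L B} (hw : w ∈ Zc1 L B) :
    ccmap₁ L f.f w ∈ Zc1 L B' := by
  refine ⟨w2_ccmap₁_mem_Cc1 L f.f hw.1, ?_⟩
  have h0 : dc₁₂ L B w = 0 := hw.2
  change dc₁₂ L B' (ccmap₁ L f.f w) = 0
  rw [w2_dc₁₂_ccmap, h0, map_zero]

end Basic

/-! ## Cup products -/

section Cups

variable {A A' B B' C : Rep.{u} k G}

/-- level-constancy of the `(1,1)` cone cup product -/
lemma w2_cupc₁₁_mem_Cc2 (φ : EqPairing A B C) (hB : IsSmooth 𝒩 B) {a : G → A}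
    (ha : a ∈ C1 𝒩 A) {w : CcAmb1 L B} (hw : w ∈ Cc1 L B) :
    cupc₁₁ L φ a w ∈ Cc2 L C := by
  obtain ⟨hw1, -⟩ := hw
  obtain ⟨N₁, hN₁, h₁⟩ := ha
  obtain ⟨N₂, hN₂, h₂⟩ := hw1
  obtain ⟨N₃, hN₃, h₃⟩ := hB
  obtain ⟨N₄, hN₄, hle₄⟩ := 𝒩.directed N₁ hN₁ N₂ hN₂
  obtain ⟨N, hN, hle⟩ := 𝒩.directed N₄ hN₄ N₃ hN₃
  refine ⟨⟨N, hN, fun g₁ g₂ s₁ hs₁ s₂ hs₂ => ?_⟩, fun v _ => ?_⟩
  · change φ.φ (a (g₁ * s₁)) (B.ρ (g₁ * s₁) (w.1 (g₂ * s₂))) = φ.φ (a g₁) (B.ρ g₁ (w.1 g₂))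
    rw [h₁ _ _ (hle₄ (hle hs₁).1).1, h₂ _ _ (hle₄ (hle hs₂).1).2, map_mul,
      Module.End.mul_apply, h₃ _ (hle hs₁).2]
  · obtain ⟨N', hN', hle'⟩ := L.compat v N hN
    refine ⟨N', hN', fun s t ht => ?_⟩
    have ht' : L.r v t ∈ N := hle' ht
    change - φ.φ (a (L.r v (s * t))) (B.ρ (L.r v (s * t)) (w.2 v))
      = - φ.φ (a (L.r v s)) (B.ρ (L.r v s) (w.2 v))
    rw [map_mul (L.r v), h₁ _ _ (hle₄ (hle ht').1).1, map_mul, Module.End.mul_apply,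
      h₃ _ (hle ht').2]

/-- **Leibniz rule** for the `(1,1)` cone cup product. -/
lemma w2_leibniz₁₁ (φ : EqPairing A B C) (a : G → A) (w : CcAmb1 L B) :
    dc₂₃ L C (cupc₁₁ L φ a w)
      = cupc₂₁ L φ ((d₁₂ A).hom a) w - cupc₁₂ L φ a (dc₁₂ L B w) := by
  refine Prod.ext ?_ ?_
  · funext g
    obtain ⟨g₁, g₂, g₃⟩ := g
    change C.ρ g₁ (φ.φ (a g₂) (B.ρ g₂ (w.1 g₃))) - φ.φ (a (g₁ * g₂)) (B.ρ (g₁ * g₂) (w.1 g₃))
        + φ.φ (a g₁) (B.ρ g₁ (w.1 (g₂ * g₃))) - φ.φ (a g₁) (B.ρ g₁ (w.1 g₂))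
      = φ.φ (A.ρ g₁ (a g₂) - a (g₁ * g₂) + a g₁) (B.ρ (g₁ * g₂) (w.1 g₃))
        - φ.φ (a g₁) (B.ρ g₁ (B.ρ g₂ (w.1 g₃) - w.1 (g₂ * g₃) + w.1 g₂))
    rw [← φ.equivariant]
    simp only [map_add, map_sub, map_mul, Module.End.mul_apply, LinearMap.add_apply,
      LinearMap.sub_apply]
    abel
  · funext v s
    obtain ⟨s₁, s₂⟩ := s
    change φ.φ (a (L.r v s₁)) (B.ρ (L.r v s₁) (w.1 (L.r v s₂)))
        - (C.ρ (L.r v s₁) (- φ.φ (a (L.r v s₂)) (B.ρ (L.r v s₂) (w.2 v)))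
          - (- φ.φ (a (L.r v (s₁ * s₂))) (B.ρ (L.r v (s₁ * s₂)) (w.2 v)))
          + (- φ.φ (a (L.r v s₁)) (B.ρ (L.r v s₁) (w.2 v))))
      = φ.φ (A.ρ (L.r v s₁) (a (L.r v s₂)) - a (L.r v s₁ * L.r v s₂) + a (L.r v s₁))
          (B.ρ (L.r v s₁ * L.r v s₂) (w.2 v))
        - (- φ.φ (a (L.r v s₁)) (B.ρ (L.r v s₁)
            (w.1 (L.r v s₂) - (B.ρ (L.r v s₂) (w.2 v) - w.2 v))))
    rw [map_neg, ← φ.equivariant]
    simp only [map_add, map_sub, map_mul, Module.End.mul_apply, LinearMap.add_apply,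
      LinearMap.sub_apply]
    abel

/-- `x ∪ -` on cone 1-cochains as a linear map. -/
def w2_cup₂₁L (φ : EqPairing A B C) (x : G × G → A) : CcAmb1 L B →ₗ[k] CcAmb3 L C where
  toFun w := cupc₂₁ L φ x w
  map_add' w w' := by
    refine Prod.ext ?_ ?_
    · funext g
      change φ.φ (x (g.1, g.2.1)) (B.ρ (g.1 * g.2.1) (w.1 g.2.2 + w'.1 g.2.2))
        = φ.φ (x (g.1, g.2.1)) (B.ρ (g.1 * g.2.1) (w.1 g.2.2))
          + φ.φ (x (g.1, g.2.1)) (B.ρ (g.1 * g.2.1) (w'.1 g.2.2))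
      rw [map_add, map_add]
    · funext v s
      change φ.φ (x (L.r v s.1, L.r v s.2)) (B.ρ (L.r v s.1 * L.r v s.2) (w.2 v + w'.2 v))
        = φ.φ (x (L.r v s.1, L.r v s.2)) (B.ρ (L.r v s.1 * L.r v s.2) (w.2 v))
          + φ.φ (x (L.r v s.1, L.r v s.2)) (B.ρ (L.r v s.1 * L.r v s.2) (w'.2 v))
      rw [map_add, map_add]
  map_smul' c w := by
    refine Prod.ext ?_ ?_
    · funext g
      change φ.φ (x (g.1, g.2.1)) (B.ρ (g.1 * g.2.1) (c • w.1 g.2.2))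
        = c • φ.φ (x (g.1, g.2.1)) (B.ρ (g.1 * g.2.1) (w.1 g.2.2))
      rw [map_smul, map_smul]
    · funext v s
      change φ.φ (x (L.r v s.1, L.r v s.2)) (B.ρ (L.r v s.1 * L.r v s.2) (c • w.2 v))
        = c • φ.φ (x (L.r v s.1, L.r v s.2)) (B.ρ (L.r v s.1 * L.r v s.2) (w.2 v))
      rw [map_smul, map_smul]

@[simp] lemma w2_cup₂₁L_apply (φ : EqPairing A B C) (x : G × G → A) (w : CcAmb1 L B) :
    w2_cup₂₁L L φ x w = cupc₂₁ L φ x w := rfl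

lemma w2_cupc₂₁_sub_left (φ : EqPairing A B C) (x x' : G × G → A) (w : CcAmb1 L B) :
    cupc₂₁ L φ (x - x') w = cupc₂₁ L φ x w - cupc₂₁ L φ x' w := by
  refine Prod.ext ?_ ?_
  · funext g
    change φ.φ (x (g.1, g.2.1) - x' (g.1, g.2.1)) (B.ρ (g.1 * g.2.1) (w.1 g.2.2))
      = φ.φ (x (g.1, g.2.1)) (B.ρ (g.1 * g.2.1) (w.1 g.2.2))
        - φ.φ (x' (g.1, g.2.1)) (B.ρ (g.1 * g.2.1) (w.1 g.2.2))
    rw [map_sub, LinearMap.sub_apply]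
  · funext v s
    change φ.φ (x (L.r v s.1, L.r v s.2) - x' (L.r v s.1, L.r v s.2))
        (B.ρ (L.r v s.1 * L.r v s.2) (w.2 v))
      = φ.φ (x (L.r v s.1, L.r v s.2)) (B.ρ (L.r v s.1 * L.r v s.2) (w.2 v))
        - φ.φ (x' (L.r v s.1, L.r v s.2)) (B.ρ (L.r v s.1 * L.r v s.2) (w.2 v))
    rw [map_sub, LinearMap.sub_apply]

lemma w2_cupc₁₂_zero (φ : EqPairing A B C) (a : G → A) :
    cupc₁₂ L φ a (0 : CcAmb2 L B) = 0 := by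
  refine Prod.ext ?_ ?_
  · funext g
    change φ.φ (a g.1) (B.ρ g.1 0) = 0
    rw [map_zero, map_zero]
  · funext v s
    change - φ.φ (a (L.r v s.1)) (B.ρ (L.r v s.1) 0) = 0
    rw [map_zero, map_zero, neg_zero]

/-- functoriality of the `(2,1)` cup product for adjoint maps -/
lemma w2_cupc₂₁_compat (f : EqHom A' A) (g : EqHom B B') (φ : EqPairing A B C)
    (φ' : EqPairing A' B' C) (h : ∀ a b, φ.φ (f.f a) b = φ'.φ a (g.f b))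
    (x : G × G → A') (w : CcAmb1 L B) :
    cupc₂₁ L φ (fun t => f.f (x t)) w = cupc₂₁ L φ' x (ccmap₁ L g.f w) := by
  refine Prod.ext ?_ ?_
  · funext t
    change φ.φ (f.f (x (t.1, t.2.1))) (B.ρ (t.1 * t.2.1) (w.1 t.2.2))
      = φ'.φ (x (t.1, t.2.1)) (B'.ρ (t.1 * t.2.1) (g.f (w.1 t.2.2)))
    rw [h, g.comm]
  · funext v s
    change φ.φ (f.f (x (L.r v s.1, L.r v s.2))) (B.ρ (L.r v s.1 * L.r v s.2) (w.2 v))
      = φ'.φ (x (L.r v s.1, L.r v s.2)) (B'.ρ (L.r v s.1 * L.r v s.2) (g.f (w.2 v)))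
    rw [h, g.comm]

/-- functoriality of the `(1,2)` cup product for adjoint maps -/
lemma w2_cupc₁₂_compat (f : EqHom A' A) (g : EqHom B B') (φ : EqPairing A B C)
    (φ' : EqPairing A' B' C) (h : ∀ a b, φ.φ (f.f a) b = φ'.φ a (g.f b))
    (a : G → A') (y : CcAmb2 L B) :
    cupc₁₂ L φ (fun t => f.f (a t)) y = cupc₁₂ L φ' a (ccmap₂ L g.f y) := by
  refine Prod.ext ?_ ?_
  · funext t
    change φ.φ (f.f (a t.1)) (B.ρ t.1 (y.1 (t.2.1, t.2.2)))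
      = φ'.φ (a t.1) (B'.ρ t.1 (g.f (y.1 (t.2.1, t.2.2))))
    rw [h, g.comm]
  · funext v s
    change - φ.φ (f.f (a (L.r v s.1))) (B.ρ (L.r v s.1) (y.2 v s.2))
      = - φ'.φ (a (L.r v s.1)) (B'.ρ (L.r v s.1) (g.f (y.2 v s.2)))
    rw [h, g.comm]

end Cups

/-! ## The window -/

section Window

variable {A₁ A A₂ B₁ B B₂ C : Rep.{u} k G}

/-- a cochain with values in the kernel of `π` comes from `A₁` -/
lemma w2_factor_i (E : ExtData 𝒩 A₁ A A₂ B₁ B B₂ C) {ρi : A →ₗ[k] A₁}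
    (hρi : ∀ a, ρi (E.i.f a) = a) (a : A) (ha : E.π.f a = 0) : E.i.f (ρi a) = a := by
  obtain ⟨a₁, rfl⟩ := (E.exactA a).mp ha
  rw [hρi]

lemma w2_factor_j (E : ExtData 𝒩 A₁ A A₂ B₁ B B₂ C) {ρj : B →ₗ[k] B₂}
    (hρj : ∀ b, ρj (E.j.f b) = b) (b : B) (hb : E.q.f b = 0) : E.j.f (ρj b) = b := by
  obtain ⟨b₂, rfl⟩ := (E.exactB b).mp hb
  rw [hρj]

lemma w2_q_j (E : ExtData 𝒩 A₁ A A₂ B₁ B B₂ C) (b₂ : B₂) : E.q.f (E.j.f b₂) = 0 :=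
  (E.exactB _).mpr ⟨b₂, rfl⟩

lemma w2_π_i (E : ExtData 𝒩 A₁ A A₂ B₁ B B₂ C) (a₁ : A₁) : E.π.f (E.i.f a₁) = 0 :=
  (E.exactA _).mpr ⟨a₁, rfl⟩

/-- The cochain-level connecting map `Z_c^1(B₁) → Z_c^2(B₂)` attached to a linear section `τ`
of `q` and a linear retraction `κ` of `j`. -/
def w2_delta (τ : B₁ →ₗ[k] B) (κ : B →ₗ[k] B₂) : CcAmb1 L B₁ →ₗ[k] CcAmb2 L B₂ :=
  ccmap₂ L κ ∘ₗ dc₁₂ L B ∘ₗ ccmap₁ L τ

lemma w2_ccmap₁_ccmap₁ {X Y Z : Rep.{u} k G} (f : X →ₗ[k] Y) (g : Y →ₗ[k] Z)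
    (w : CcAmb1 L X) : ccmap₁ L g (ccmap₁ L f w) = ccmap₁ L (g ∘ₗ f) w := rfl

lemma w2_ccmap₁_eq_self {X : Rep.{u} k G} (f : X →ₗ[k] X) (hf : ∀ a, f a = a)
    (w : CcAmb1 L X) : ccmap₁ L f w = w := by
  refine Prod.ext ?_ ?_
  · funext g; exact hf _
  · funext v; exact hf _

/-- `j (δ w₁) = d (τ w₁)` for cocycles `w₁`. -/
lemma w2_j_delta (E : ExtData 𝒩 A₁ A A₂ B₁ B B₂ C) {τ : B₁ →ₗ[k] B} {κ : B →ₗ[k] B₂}
    (hτ : ∀ b, E.q.f (τ b) = b) (hκ : ∀ b, κ (E.j.f b) = b)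
    {w₁ : CcAmb1 L B₁} (hw₁ : w₁ ∈ Zc1 L B₁) :
    ccmap₂ L E.j.f (w2_delta L τ κ w₁) = dc₁₂ L B (ccmap₁ L τ w₁) := by
  have h0 : ccmap₂ L E.q.f (dc₁₂ L B (ccmap₁ L τ w₁)) = 0 := by
    rw [← w2_dc₁₂_ccmap L E.q, w2_ccmap₁_ccmap₁,
      w2_ccmap₁_eq_self L (E.q.f ∘ₗ τ) (fun a => hτ a)]
    exact hw₁.2
  refine Prod.ext ?_ ?_
  · funext g
    have h1 : E.q.f ((dc₁₂ L B (ccmap₁ L τ w₁)).1 g) = 0 := congrFun (congrArg Prod.fst h0) g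
    exact w2_factor_j E hκ _ h1
  · funext v s
    have h1 : E.q.f ((dc₁₂ L B (ccmap₁ L τ w₁)).2 v s) = 0 :=
      congrFun (congrFun (congrArg Prod.snd h0) v) s
    exact w2_factor_j E hκ _ h1

/-- **Window `β²`-mono.** -/
theorem devInj2 : DevInj2 (k := k) L := by
  intro A₁ A A₂ B₁ B B₂ C E tr htr hS1 hI2₁ hI2₂ x hx hpair
  obtain ⟨hxC, hxZ⟩ := hx
  have hxZ' : (d₂₃ A).hom x = 0 := hxZ
  obtain ⟨σ, hσ⟩ := w2_exists_section E.π.f E.π_surj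
  obtain ⟨ρi, hρi⟩ := w2_exists_retraction E.i.f E.i_inj
  obtain ⟨τ, hτ⟩ := w2_exists_section E.q.f E.q_surj
  obtain ⟨κ, hκ⟩ := w2_exists_retraction E.j.f E.j_inj
  -- Step 1: `π x` is a coboundary
  have h1 : (fun g => E.π.f (x g)) ∈ Z2 𝒩 A₂ := by
    refine ⟨w2_comp_mem_C2 E.π.f hxC, ?_⟩
    change (d₂₃ A₂).hom (fun g => E.π.f (x g)) = 0
    rw [w2_d₂₃_comp E.π x, hxZ']
    funext g
    exact map_zero _
  have h1' : ∀ y ∈ Zc1 L B₂, tr (cupc₂₁ L E.φ₂ (fun g => E.π.f (x g)) y) = 0 := by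
    intro y hy
    rw [w2_cupc₂₁_compat L E.π E.j E.φ₂ E.φ (fun a b => (E.compat₂ a b).symm)]
    exact hpair _ (w2_ccmap₁_mem_Zc1 L E.j hy)
  obtain ⟨u₂, hu₂, hu₂x⟩ := hI2₂ _ h1 h1'
  have hu₂x' : (d₁₂ A₂).hom u₂ = fun g => E.π.f (x g) := hu₂x
  -- the lift `ũ` of `u₂` and `x' = x - d ũ`
  set ut : G → A := fun g => σ (u₂ g) with hut
  have hutC : ut ∈ C1 𝒩 A := w2_comp_mem_C1 σ hu₂
  have hπut : (fun g => E.π.f (ut g)) = u₂ := by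
    funext g; exact hσ _
  set x' : G × G → A := x - (d₁₂ A).hom ut with hx'def
  have hx'C : x' ∈ C2 𝒩 A := (C2 𝒩 A).sub_mem hxC (w2_d₁₂_mem_C2 E.smoothA hutC)
  have hx'Z : (d₂₃ A).hom x' = 0 := by
    rw [hx'def, map_sub, hxZ', w2_d₂₃_d₁₂, sub_zero]
  have hπx' : ∀ g, E.π.f (x' g) = 0 := by
    intro g
    have e1 : E.π.f ((d₁₂ A).hom ut g) = (d₁₂ A₂).hom (fun t => E.π.f (ut t)) g :=
      (congrFun (w2_d₁₂_comp E.π ut) g).symm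
    rw [hx'def, Pi.sub_apply, map_sub, e1, hπut, hu₂x', sub_self]
  set x₁ : G × G → A₁ := fun g => ρi (x' g) with hx₁def
  have hix₁ : (fun g => E.i.f (x₁ g)) = x' := by
    funext g
    exact w2_factor_i E hρi _ (hπx' g)
  have hx₁ : x₁ ∈ Z2 𝒩 A₁ := by
    refine ⟨w2_comp_mem_C2 ρi hx'C, ?_⟩
    change (d₂₃ A₁).hom x₁ = 0
    funext g
    apply E.i_inj
    have e := congrFun (w2_d₂₃_comp E.i x₁) g
    rw [hix₁, hx'Z] at e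
    change E.i.f ((d₂₃ A₁).hom x₁ g) = E.i.f 0
    rw [map_zero]
    exact e.symm
  -- Step 2: the functional `T = tr (x₁ ∪ -)` vanishes on `q (Z_c^1 B)`
  have hTq : ∀ w ∈ Zc1 L B, tr (cupc₂₁ L E.φ₁ x₁ (ccmap₁ L E.q.f w)) = 0 := by
    intro w hw
    rw [← w2_cupc₂₁_compat L E.i E.q E.φ E.φ₁ E.compat₁, hix₁, hx'def, w2_cupc₂₁_sub_left,
      map_sub, hpair w hw, zero_sub, neg_eq_zero]
    have hL := w2_leibniz₁₁ L E.φ ut w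
    have hw0 : dc₁₂ L B w = 0 := hw.2
    rw [hw0, w2_cupc₁₂_zero, sub_zero] at hL
    rw [← hL]
    exact htr _ ⟨_, w2_cupc₁₁_mem_Cc2 L E.φ E.smoothB hutC hw.1, rfl⟩
  -- the functional `ψ₂` on cone 2-cochains of `B₂`
  let δ := w2_delta L τ κ
  let T : CcAmb1 L B₁ →ₗ[k] k := tr ∘ₗ w2_cup₂₁L L E.φ₁ x₁
  let f : (↥(Zc1 L B₁) × ↥(Cc1 L B₂)) →ₗ[k] CcAmb2 L B₂ :=
    (δ ∘ₗ (Zc1 L B₁).subtype).coprod (dc₁₂ L B₂ ∘ₗ (Cc1 L B₂).subtype)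
  let g : (↥(Zc1 L B₁) × ↥(Cc1 L B₂)) →ₗ[k] k :=
    (T ∘ₗ (Zc1 L B₁).subtype) ∘ₗ LinearMap.fst k _ _
  have hfg : ∀ v, f v = 0 → g v = 0 := by
    rintro ⟨⟨w₁, hw₁⟩, ⟨c₂, hc₂⟩⟩ hv
    have hv' : δ w₁ + dc₁₂ L B₂ c₂ = 0 := hv
    change tr (cupc₂₁ L E.φ₁ x₁ w₁) = 0
    have hw : ccmap₁ L τ w₁ + ccmap₁ L E.j.f c₂ ∈ Zc1 L B := by
      refine ⟨(Cc1 L B).add_mem (w2_ccmap₁_mem_Cc1 L τ hw₁.1)
        (w2_ccmap₁_mem_Cc1 L E.j.f hc₂), ?_⟩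
      change dc₁₂ L B (ccmap₁ L τ w₁ + ccmap₁ L E.j.f c₂) = 0
      rw [map_add, ← w2_j_delta L E hτ hκ hw₁, w2_dc₁₂_ccmap L E.j, ← map_add]
      change ccmap₂ L E.j.f (δ w₁ + dc₁₂ L B₂ c₂) = 0
      rw [hv', map_zero]
    have hq : ccmap₁ L E.q.f (ccmap₁ L τ w₁ + ccmap₁ L E.j.f c₂) = w₁ := by
      rw [map_add, w2_ccmap₁_ccmap₁, w2_ccmap₁_ccmap₁,
        w2_ccmap₁_eq_self L (E.q.f ∘ₗ τ) (fun a => hτ a)]
      have : ccmap₁ L (E.q.f ∘ₗ E.j.f) c₂ = 0 := by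
        refine Prod.ext ?_ ?_
        · funext t; exact w2_q_j E _
        · funext v; exact w2_q_j E _
      rw [this, add_zero]
    have := hTq _ hw
    rwa [hq] at this
  obtain ⟨ψ₂, hψ₂⟩ := w2_exists_factor f g hfg
  have hψ₂B : ∀ y ∈ Bc2 L B₂, ψ₂ y = 0 := by
    rintro y ⟨c₂, hc₂, rfl⟩
    have h := hψ₂ (0, ⟨c₂, hc₂⟩)
    have e1 : f (0, ⟨c₂, hc₂⟩) = dc₁₂ L B₂ c₂ := by
      simp [f]
    have e2 : g (0, ⟨c₂, hc₂⟩) = 0 := by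
      simp [g]
    rw [e1, e2] at h
    exact h
  have hψ₂δ : ∀ w₁ ∈ Zc1 L B₁, ψ₂ (δ w₁) = tr (cupc₂₁ L E.φ₁ x₁ w₁) := by
    intro w₁ hw₁
    have h := hψ₂ (⟨w₁, hw₁⟩, 0)
    have e1 : f (⟨w₁, hw₁⟩, 0) = δ w₁ := by
      simp [f]
    have e2 : g (⟨w₁, hw₁⟩, 0) = tr (cupc₂₁ L E.φ₁ x₁ w₁) := by
      simp [g, T]
    rw [e1, e2] at h
    exact h
  obtain ⟨x₂, hx₂, hx₂ψ⟩ := hS1 ψ₂ hψ₂B
  have hx₂Z : (d₁₂ A₂).hom x₂ = 0 := hx₂.2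
  -- Step 3: the connecting map on the `A`-side and the adjunction
  set xt : G → A := fun g => σ (x₂ g) with hxt
  have hxtC : xt ∈ C1 𝒩 A := w2_comp_mem_C1 σ hx₂.1
  have hπxt : (fun g => E.π.f (xt g)) = x₂ := by
    funext g; exact hσ _
  set dx : G × G → A := (d₁₂ A).hom xt with hdx
  have hdxC : dx ∈ C2 𝒩 A := w2_d₁₂_mem_C2 E.smoothA hxtC
  have hπdx : ∀ g, E.π.f (dx g) = 0 := by
    intro g
    have e1 : E.π.f ((d₁₂ A).hom xt g) = (d₁₂ A₂).hom (fun t => E.π.f (xt t)) g :=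
      (congrFun (w2_d₁₂_comp E.π xt) g).symm
    rw [hdx, e1, hπxt, hx₂Z]
    rfl
  set z : G × G → A₁ := fun g => ρi (dx g) with hz
  have hiz : (fun g => E.i.f (z g)) = dx := by
    funext g
    exact w2_factor_i E hρi _ (hπdx g)
  have hzZ : z ∈ Z2 𝒩 A₁ := by
    refine ⟨w2_comp_mem_C2 ρi hdxC, ?_⟩
    change (d₂₃ A₁).hom z = 0
    funext g
    apply E.i_inj
    have e := congrFun (w2_d₂₃_comp E.i z) g
    rw [hiz, hdx, w2_d₂₃_d₁₂] at e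
    change E.i.f ((d₂₃ A₁).hom z g) = E.i.f 0
    rw [map_zero]
    exact e.symm
  have hadj : ∀ w₁ ∈ Zc1 L B₁,
      tr (cupc₂₁ L E.φ₁ z w₁) = tr (cupc₁₂ L E.φ₂ x₂ (δ w₁)) := by
    intro w₁ hw₁
    have hL := w2_leibniz₁₁ L E.φ xt (ccmap₁ L τ w₁)
    have e1 : cupc₂₁ L E.φ ((d₁₂ A).hom xt) (ccmap₁ L τ w₁) = cupc₂₁ L E.φ₁ z w₁ := by
      rw [← hdx, ← hiz, w2_cupc₂₁_compat L E.i E.q E.φ E.φ₁ E.compat₁, w2_ccmap₁_ccmap₁,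
        w2_ccmap₁_eq_self L (E.q.f ∘ₗ τ) (fun a => hτ a)]
    have e2 : cupc₁₂ L E.φ xt (dc₁₂ L B (ccmap₁ L τ w₁)) = cupc₁₂ L E.φ₂ x₂ (δ w₁) := by
      rw [← w2_j_delta L E hτ hκ hw₁,
        ← w2_cupc₁₂_compat L E.π E.j E.φ₂ E.φ (fun a b => (E.compat₂ a b).symm), hπxt]
    rw [e1, e2] at hL
    have h0 := htr _ ⟨_, w2_cupc₁₁_mem_Cc2 L E.φ E.smoothB hxtC
      (w2_ccmap₁_mem_Cc1 L τ hw₁.1), rfl⟩
    rw [hL, map_sub, sub_eq_zero] at h0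
    exact h0
  have hdiff : x₁ - z ∈ B2 𝒩 A₁ := by
    apply hI2₁ _ ((Z2 𝒩 A₁).sub_mem hx₁ hzZ)
    intro w₁ hw₁
    rw [w2_cupc₂₁_sub_left, map_sub, hadj w₁ hw₁,
      ← hx₂ψ _ ?_, hψ₂δ w₁ hw₁, sub_self]
    -- `δ w₁ ∈ Z_c^2(B₂)`
    refine ⟨w2_ccmap₂_mem_Cc2 L κ (w2_dc₁₂_mem_Cc2 L E.smoothB
      (w2_ccmap₁_mem_Cc1 L τ hw₁.1)), ?_⟩
    change dc₂₃ L B₂ (δ w₁) = 0
    have hj := w2_j_delta L E hτ hκ hw₁
    have h3 : ccmap₃ L E.j.f (dc₂₃ L B₂ (δ w₁)) = 0 := by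
      have : ccmap₃ L E.j.f (dc₂₃ L B₂ (δ w₁)) = dc₂₃ L B (ccmap₂ L E.j.f (δ w₁)) := by
        refine Prod.ext ?_ ?_
        · exact (w2_d₂₃_comp E.j (δ w₁).1).symm
        · funext v s
          change E.j.f ((δ w₁).1 (L.r v s.1, L.r v s.2)
              - (B₂.ρ (L.r v s.1) ((δ w₁).2 v s.2) - (δ w₁).2 v (s.1 * s.2) + (δ w₁).2 v s.1))
            = E.j.f ((δ w₁).1 (L.r v s.1, L.r v s.2))
              - (B.ρ (L.r v s.1) (E.j.f ((δ w₁).2 v s.2)) - E.j.f ((δ w₁).2 v (s.1 * s.2))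
                + E.j.f ((δ w₁).2 v s.1))
          rw [map_sub, map_add, map_sub, E.j.comm]
      rw [this, hj, w2_dc₂₃_dc₁₂]
    refine Prod.ext ?_ ?_
    · funext t
      apply E.j_inj
      have := congrFun (congrArg Prod.fst h3) t
      change E.j.f ((dc₂₃ L B₂ (δ w₁)).1 t) = E.j.f 0
      rw [map_zero]
      exact this
    · funext v s
      apply E.j_inj
      have := congrFun (congrFun (congrArg Prod.snd h3) v) s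
      change E.j.f ((dc₂₃ L B₂ (δ w₁)).2 v s) = E.j.f 0
      rw [map_zero]
      exact this
  -- Step 4: conclusion
  obtain ⟨u₁, hu₁, hu₁x⟩ := hdiff
  have hu₁x' : (d₁₂ A₁).hom u₁ = x₁ - z := hu₁x
  refine ⟨ut + (fun g => E.i.f (u₁ g)) + xt,
    (C1 𝒩 A).add_mem ((C1 𝒩 A).add_mem hutC (w2_comp_mem_C1 E.i.f hu₁)) hxtC, ?_⟩
  change (d₁₂ A).hom (ut + (fun g => E.i.f (u₁ g)) + xt) = x
  rw [map_add, map_add, w2_d₁₂_comp E.i u₁, hu₁x', ← hdx]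
  have e : (fun g => E.i.f ((x₁ - z) g)) = x' - dx := by
    rw [← hix₁, ← hiz]
    funext g
    simp
  rw [e, hx'def]
  abel

end Window

end Fermat.Agent.S55.helper49
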