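import Fermat.Agent.S55.helper67_DevBasics

/-!
# S55, module A (helper67): the dévissage window `DevSurj1` (task S55-A-W1S)

For a pair of dual short exact sequences `0 → A₁ → A → A₂ → 0`, `0 → B₂ → B → B₁ → 0` with
compatible pairings into `C`:
`β¹` surjective for `(A₁,B₁)` and `(A₂,B₂)` and `β²` injective for `(A₁,B₁)` imply
`β¹` surjective for `(A,B)` (four lemma on
`H^1(A₁) → H^1(A) → H^1(A₂) → H^2(A₁)` against the duals of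
`H_c^2(B₁) ← H_c^2(B) ← H_c^2(B₂) ← H_c^1(B₁)`).
-/

set_option autoImplicit false

universe u

open groupCohomology

noncomputable section

namespace Fermat.Agent.S55.helper67

variable {k G : Type u} [Field k] [Group G] {𝒩 : Levels G} {ι : Type} (L : LocalData G 𝒩 ι)

/-- `ccmap₃` of an injective map is injective (at `0`) -/
lemma ccmap₃_eq_zero {A A' : Rep.{u} k G} (f : A →ₗ[k] A') (hf : Function.Injective f)
    {y : CcAmb3 L A} (hy : ccmap₃ L f y = 0) : y = 0 := by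
  refine Prod.ext ?_ ?_
  · funext g
    apply hf
    exact (congrFun (congrArg Prod.fst hy) g).trans (map_zero f).symm
  · funext v s
    apply hf
    exact (congrFun (congrFun (congrArg Prod.snd hy) v) s).trans (map_zero f).symm

/-- exactness in the middle for cone 2-cocycles of `0 → B₂ → B → B₁ → 0` -/
lemma exists_Zc2_of_q_eq_zero {A₁ A A₂ B₁ B B₂ C : Rep.{u} k G}
    (E : ExtData 𝒩 A₁ A A₂ B₁ B B₂ C) {y : CcAmb2 L B} (hy : y ∈ Zc2 L B)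
    (hq : ccmap₂ L E.q.f y = 0) : ∃ y₂ ∈ Zc2 L B₂, ccmap₂ L E.j.f y₂ = y := by
  obtain ⟨ρB, hρB⟩ := E.j.f.exists_leftInverse_of_injective (LinearMap.ker_eq_bot.2 E.j_inj)
  have hρB' : ∀ b₂, ρB (E.j.f b₂) = b₂ := fun b₂ => LinearMap.congr_fun hρB b₂
  have key : ∀ b : B, E.q.f b = 0 → E.j.f (ρB b) = b := by
    intro b hb
    obtain ⟨b₂, rfl⟩ := (E.exactB b).1 hb
    rw [hρB']
  have hj : ccmap₂ L E.j.f (ccmap₂ L ρB y) = y := by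
    refine Prod.ext ?_ ?_
    · funext g
      exact key _ (congrFun (congrArg Prod.fst hq) g)
    · funext v s
      exact key _ (congrFun (congrFun (congrArg Prod.snd hq) v) s)
  refine ⟨ccmap₂ L ρB y, ⟨ccmap₂_mem_Cc2 L ρB hy.1, ?_⟩, hj⟩
  change dc₂₃ L B₂ (ccmap₂ L ρB y) = 0
  refine ccmap₃_eq_zero L E.j.f E.j_inj ?_
  rw [← dc₂₃_ccmap₂ L E.j, hj]
  exact hy.2

/-- **Window `β¹`-epi of the dévissage** (package S55-A-W1S). -/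
theorem devSurj1 : DevSurj1 (k := k) L := by
  intro A₁ A A₂ B₁ B B₂ C E tr htr hS1 hS2 hI2 ψ hψ
  obtain ⟨σA, hσA⟩ :=
    E.π.f.exists_rightInverse_of_surjective (LinearMap.range_eq_top.2 E.π_surj)
  obtain ⟨ρA, hρA⟩ := E.i.f.exists_leftInverse_of_injective (LinearMap.ker_eq_bot.2 E.i_inj)
  obtain ⟨σB, hσB⟩ :=
    E.q.f.exists_rightInverse_of_surjective (LinearMap.range_eq_top.2 E.q_surj)
  have hσA' : ∀ a, E.π.f (σA a) = a := fun a => LinearMap.congr_fun hσA a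
  have hρA' : ∀ a, ρA (E.i.f a) = a := fun a => LinearMap.congr_fun hρA a
  have hσB' : ∀ b, E.q.f (σB b) = b := fun b => LinearMap.congr_fun hσB b
  have hlift : ∀ w : CcAmb1 L B₁, ccmap₁ L E.q.f (ccmap₁ L σB w) = w := by
    intro w
    refine Prod.ext ?_ ?_
    · funext g; exact hσB' _
    · funext v; exact hσB' _
  -- Step 1: the restriction of `ψ` to `B₂` is represented by `x₂`
  obtain ⟨x₂, hx₂, hψ₂⟩ :=
    hS2 (ψ ∘ₗ ccmap₂ L E.j.f) (fun y hy => hψ _ (ccmap₂_mem_Bc2 L E.j hy))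
  have hx₂C : x₂ ∈ C1 𝒩 A₂ := hx₂.1
  have hx₂Z : (d₁₂ A₂).hom x₂ = 0 := hx₂.2
  -- Step 2: lift `x₂` to a cocycle `x` of `A`
  let xt : G → A := fun g => σA (x₂ g)
  have hxtC : xt ∈ C1 𝒩 A := isLev₁_comp hx₂C σA
  have hπxt : (fun g => E.π.f (xt g)) = x₂ := funext fun g => hσA' _
  have hdxt : ∀ g, E.π.f ((d₁₂ A).hom xt g) = 0 := by
    intro g
    have h := congrFun (d₁₂_comp E.π xt) g
    rw [hπxt, hx₂Z] at h
    exact h.symm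
  let z₁ : G × G → A₁ := fun g => ρA ((d₁₂ A).hom xt g)
  have hiz : (fun g => E.i.f (z₁ g)) = (d₁₂ A).hom xt := by
    funext g
    obtain ⟨a₁, ha₁⟩ := (E.exactA _).1 (hdxt g)
    change E.i.f (ρA ((d₁₂ A).hom xt g)) = _
    rw [← ha₁, hρA']
  have hz₁C : z₁ ∈ C2 𝒩 A₁ := isLev₂_comp (d₁₂_mem_C2 E.smoothA hxtC) ρA
  have hz₁Z : (d₂₃ A₁).hom z₁ = 0 := by
    have h1 := d₂₃_comp E.i z₁
    rw [hiz] at h1
    have h2 : (d₂₃ A).hom ((d₁₂ A).hom xt) = 0 := d₁₂_comp_d₂₃_apply A xt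
    rw [h2] at h1
    funext g
    apply E.i_inj
    exact (congrFun h1 g).symm.trans (map_zero E.i.f).symm
  have hz₁ : z₁ ∈ Z2 𝒩 A₁ := ⟨hz₁C, hz₁Z⟩
  have hzero : ∀ y ∈ Zc1 L B₁, tr (cupc₂₁ L E.φ₁ z₁ y) = 0 := by
    intro y hy
    have hytC : ccmap₁ L σB y ∈ Cc1 L B := ccmap₁_mem_Cc1 L σB hy.1
    have hdyt : dc₁₂ L B (ccmap₁ L σB y) ∈ Zc2 L B :=
      ⟨dc₁₂_mem_Cc2 L E.smoothB hytC, dc₂₃_dc₁₂ L B _⟩
    have hq0 : ccmap₂ L E.q.f (dc₁₂ L B (ccmap₁ L σB y)) = 0 := by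
      rw [← dc₁₂_ccmap₁ L E.q, hlift]
      exact hy.2
    obtain ⟨w₂, hw₂, hjw₂⟩ := exists_Zc2_of_q_eq_zero L E hdyt hq0
    have e1 : cupc₂₁ L E.φ₁ z₁ y =
        cupc₂₁ L E.φ (fun g => E.i.f (z₁ g)) (ccmap₁ L σB y) := by
      rw [cupc₂₁_map_left L E.φ E.φ₁ E.i.f E.q E.compat₁, hlift]
    have e3 : cupc₂₁ L E.φ ((d₁₂ A).hom xt) (ccmap₁ L σB y) =
        dc₂₃ L C (cupc₁₁ L E.φ xt (ccmap₁ L σB y)) +
          cupc₁₂ L E.φ xt (dc₁₂ L B (ccmap₁ L σB y)) := by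
      rw [dc₂₃_cupc₁₁]
      abel
    rw [e1, hiz, e3, map_add,
      htr _ ⟨_, cupc₁₁_mem_Cc2 L E.φ E.smoothB hxtC hytC, rfl⟩, zero_add, ← hjw₂,
      cupc₁₂_map_right L E.φ E.φ₂ E.π.f E.j E.compat₂, hπxt, ← hψ₂ w₂ hw₂,
      LinearMap.comp_apply, hjw₂]
    exact hψ _ ⟨_, hytC, rfl⟩
  obtain ⟨u₁, hu₁, hu₁z⟩ := hI2 z₁ hz₁ hzero
  let x : G → A := fun g => xt g - E.i.f (u₁ g)
  have hxC : x ∈ C1 𝒩 A := Submodule.sub_mem _ hxtC (isLev₁_comp hu₁ E.i.f)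
  have hxZ : (d₁₂ A).hom x = 0 := by
    have hx : x = xt - (fun g => E.i.f (u₁ g)) := rfl
    rw [hx, map_sub, d₁₂_comp E.i u₁, hu₁z, hiz, sub_self]
  have hπx : (fun g => E.π.f (x g)) = x₂ := by
    funext g
    change E.π.f (xt g - E.i.f (u₁ g)) = x₂ g
    rw [map_sub, (E.exactA _).2 ⟨_, rfl⟩, sub_zero]
    exact hσA' _
  -- Step 3: the difference descends to `B₁`
  let ψ' : CcAmb2 L B →ₗ[k] k := ψ - tr ∘ₗ cupc₁₂Lin L E.φ x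
  have hψ'val : ∀ y, ψ' y = ψ y - tr (cupc₁₂ L E.φ x y) := fun y => rfl
  have hψ'B : ∀ w ∈ Cc1 L B, ψ' (dc₁₂ L B w) = 0 := by
    intro w hw
    rw [hψ'val, hψ _ ⟨w, hw, rfl⟩, zero_sub, neg_eq_zero]
    have e2 := dc₂₃_cupc₁₁ L E.φ x w
    rw [hxZ] at e2
    have e3 : cupc₁₂ L E.φ x (dc₁₂ L B w) = - dc₂₃ L C (cupc₁₁ L E.φ x w) := by
      rw [e2, show (0 : G × G → A) = fun _ => 0 from rfl, cupc₂₁_zero_left]
      abel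
    rw [e3, map_neg, htr _ ⟨_, cupc₁₁_mem_Cc2 L E.φ E.smoothB hxC hw, rfl⟩, neg_zero]
  have hψ'j : ∀ y₂ ∈ Zc2 L B₂, ψ' (ccmap₂ L E.j.f y₂) = 0 := by
    intro y₂ hy₂
    rw [hψ'val, cupc₁₂_map_right L E.φ E.φ₂ E.π.f E.j E.compat₂, hπx, ← hψ₂ y₂ hy₂,
      LinearMap.comp_apply, sub_self]
  let Q : Zc2 L B →ₗ[k] (CcAmb2 L B₁ ⧸ Bc2 L B₁) :=
    (Bc2 L B₁).mkQ ∘ₗ ccmap₂ L E.q.f ∘ₗ (Zc2 L B).subtype
  let f : Zc2 L B →ₗ[k] k := ψ' ∘ₗ (Zc2 L B).subtype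
  have hker : f ∈ (LinearMap.ker Q).dualAnnihilator := by
    rw [Submodule.mem_dualAnnihilator]
    rintro ⟨y, hy⟩ hyQ
    have hyq : ccmap₂ L E.q.f y ∈ Bc2 L B₁ := by
      have h := LinearMap.mem_ker.1 hyQ
      exact (Submodule.Quotient.mk_eq_zero _).1 h
    obtain ⟨w₁, hw₁, hw₁y⟩ := hyq
    have hwtC : ccmap₁ L σB w₁ ∈ Cc1 L B := ccmap₁_mem_Cc1 L σB hw₁
    have hy' : y - dc₁₂ L B (ccmap₁ L σB w₁) ∈ Zc2 L B :=
      Submodule.sub_mem _ hy ⟨dc₁₂_mem_Cc2 L E.smoothB hwtC, dc₂₃_dc₁₂ L B _⟩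
    have hq0 : ccmap₂ L E.q.f (y - dc₁₂ L B (ccmap₁ L σB w₁)) = 0 := by
      rw [map_sub, ← dc₁₂_ccmap₁ L E.q, hlift, hw₁y, sub_self]
    obtain ⟨y₂, hy₂, hjy₂⟩ := exists_Zc2_of_q_eq_zero L E hy' hq0
    change ψ' y = 0
    have hdec : y = ccmap₂ L E.j.f y₂ + dc₁₂ L B (ccmap₁ L σB w₁) := by
      rw [hjy₂]
      abel
    rw [hdec, map_add, hψ'j y₂ hy₂, hψ'B _ hwtC, add_zero]
  rw [← LinearMap.range_dualMap_eq_dualAnnihilator_ker] at hker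
  obtain ⟨g, hg⟩ := hker
  have hψ₁B : ∀ y ∈ Bc2 L B₁, (g ∘ₗ (Bc2 L B₁).mkQ) y = 0 := by
    intro y hy
    rw [LinearMap.comp_apply, Submodule.mkQ_apply, (Submodule.Quotient.mk_eq_zero _).2 hy,
      map_zero]
  obtain ⟨x₁, hx₁, hψ₁x₁⟩ := hS1 (g ∘ₗ (Bc2 L B₁).mkQ) hψ₁B
  refine ⟨fun g => x g + E.i.f (x₁ g), ⟨?_, ?_⟩, ?_⟩
  · exact Submodule.add_mem _ hxC (isLev₁_comp hx₁.1 E.i.f)
  · have hx : (fun g => x g + E.i.f (x₁ g)) = x + (fun g => E.i.f (x₁ g)) := rfl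
    have hx₁Z : (d₁₂ A₁).hom x₁ = 0 := hx₁.2
    change (d₁₂ A).hom (fun g => x g + E.i.f (x₁ g)) = 0
    rw [hx, map_add, hxZ, d₁₂_comp E.i x₁, hx₁Z, zero_add]
    funext g
    exact map_zero _
  · intro y hy
    have hqy : ccmap₂ L E.q.f y ∈ Zc2 L B₁ := ccmap₂_mem_Zc2 L E.q hy
    have h1 : (g ∘ₗ (Bc2 L B₁).mkQ) (ccmap₂ L E.q.f y) = ψ' y :=
      LinearMap.congr_fun hg ⟨y, hy⟩
    rw [cupc₁₂_add_left, map_add, cupc₁₂_map_left L E.φ E.φ₁ E.i.f E.q E.compat₁,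
      ← hψ₁x₁ _ hqy, h1, hψ'val]
    ring

end Fermat.Agent.S55.helper67
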