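import Fermat.Agent.S55.AInterface

/-!
# S55, module A, window `β¹`-mono: `DevInj1`

`Inj1` passes to extensions: for an `ExtData` (two dual short exact sequences with compatible
pairings), `Surj0 φ₂`, `Inj1 φ₁`, `Inj1 φ₂` imply `Inj1 φ`.

All auxiliary lemmas live in the namespace `Fermat.Agent.S55.helper95`.
-/

set_option autoImplicit false

universe u

open groupCohomology

noncomputable section

namespace Fermat.Agent.S55.helper95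

open Fermat.Agent.S55

variable {k G : Type u} [Field k] [Group G] {𝒩 : Levels G} {ι : Type}

/-! ## Level-constancy -/

section Level

variable {X Y : Type*}

lemma isLev₁_comp (f : X → Y) {x : G → X} (hx : IsLev₁ 𝒩 x) :
    IsLev₁ 𝒩 (fun g => f (x g)) := by
  obtain ⟨N, hN, h⟩ := hx
  exact ⟨N, hN, fun g s hs => congrArg f (h g s hs)⟩

lemma isLev₂_comp (f : X → Y) {x : G × G → X} (hx : IsLev₂ 𝒩 x) :
    IsLev₂ 𝒩 (fun g => f (x g)) := by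
  obtain ⟨N, hN, h⟩ := hx
  exact ⟨N, hN, fun g₁ g₂ s₁ hs₁ s₂ hs₂ => congrArg f (h g₁ g₂ s₁ hs₁ s₂ hs₂)⟩

lemma isLev₃_comp (f : X → Y) {x : G × G × G → X} (hx : IsLev₃ 𝒩 x) :
    IsLev₃ 𝒩 (fun g => f (x g)) := by
  obtain ⟨N, hN, h⟩ := hx
  exact ⟨N, hN, fun g₁ g₂ g₃ s₁ hs₁ s₂ hs₂ s₃ hs₃ =>
    congrArg f (h g₁ g₂ g₃ s₁ hs₁ s₂ hs₂ s₃ hs₃)⟩

lemma isLev₁_of_comp_injective {f : X → Y} (hf : Function.Injective f) {x : G → X}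
    (hx : IsLev₁ 𝒩 (fun g => f (x g))) : IsLev₁ 𝒩 x := by
  obtain ⟨N, hN, h⟩ := hx
  exact ⟨N, hN, fun g s hs => hf (h g s hs)⟩

end Level

section Smooth

variable (A : Rep.{u} k G)

/-- For a smooth module, `d₀₁ a` is level-constant. -/
lemma isLev₁_d₀₁ (hA : IsSmooth 𝒩 A) (a : A) : IsLev₁ 𝒩 ((d₀₁ A).hom a) := by
  obtain ⟨N, hN, h⟩ := hA
  refine ⟨N, hN, fun g s hs => ?_⟩
  simp only [d₀₁_hom_apply, map_mul, Module.End.mul_apply, h s hs]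

/-- For a smooth module, `d₂₃` preserves level-constancy. -/
lemma isLev₃_d₂₃ (hA : IsSmooth 𝒩 A) {f : G × G → A} (hf : IsLev₂ 𝒩 f) :
    IsLev₃ 𝒩 ((d₂₃ A).hom f) := by
  obtain ⟨N, hN, h⟩ := hA
  obtain ⟨N', hN', h'⟩ := hf
  obtain ⟨M, hM, hle⟩ := 𝒩.directed N hN N' hN'
  have hnorm : N'.Normal := 𝒩.normal N' hN'
  refine ⟨M, hM, fun g₁ g₂ g₃ s₁ hs₁ s₂ hs₂ s₃ hs₃ => ?_⟩
  have e1 : f (g₂ * s₂, g₃ * s₃) = f (g₂, g₃) := h' g₂ g₃ s₂ (hle hs₂).2 s₃ (hle hs₃).2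
  have e2 : f (g₁ * s₁ * (g₂ * s₂), g₃ * s₃) = f (g₁ * g₂, g₃) := by
    have : g₁ * s₁ * (g₂ * s₂) = g₁ * g₂ * (g₂⁻¹ * s₁ * g₂ * s₂) := by group
    rw [this]
    refine h' (g₁ * g₂) g₃ _ ?_ s₃ (hle hs₃).2
    refine N'.mul_mem ?_ (hle hs₂).2
    have := hnorm.conj_mem s₁ (hle hs₁).2 g₂⁻¹
    simpa using this
  have e3 : f (g₁ * s₁, g₂ * s₂ * (g₃ * s₃)) = f (g₁, g₂ * g₃) := by
    have : g₂ * s₂ * (g₃ * s₃) = g₂ * g₃ * (g₃⁻¹ * s₂ * g₃ * s₃) := by group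
    rw [this]
    refine h' g₁ (g₂ * g₃) s₁ (hle hs₁).2 _ ?_
    refine N'.mul_mem ?_ (hle hs₃).2
    have := hnorm.conj_mem s₂ (hle hs₂).2 g₃⁻¹
    simpa using this
  have e4 : f (g₁ * s₁, g₂ * s₂) = f (g₁, g₂) := h' g₁ g₂ s₁ (hle hs₁).2 s₂ (hle hs₂).2
  simp only [d₂₃_hom_apply, e1, e2, e3, e4, map_mul, Module.End.mul_apply, h s₁ (hle hs₁).1]

/-- For a smooth module, `d₁₂` preserves level-constancy. -/
lemma isLev₂_d₁₂ (hA : IsSmooth 𝒩 A) {f : G → A} (hf : IsLev₁ 𝒩 f) :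
    IsLev₂ 𝒩 ((d₁₂ A).hom f) := by
  obtain ⟨N, hN, h⟩ := hA
  obtain ⟨N', hN', h'⟩ := hf
  obtain ⟨M, hM, hle⟩ := 𝒩.directed N hN N' hN'
  have hnorm : N'.Normal := 𝒩.normal N' hN'
  refine ⟨M, hM, fun g₁ g₂ s₁ hs₁ s₂ hs₂ => ?_⟩
  have e1 : f (g₂ * s₂) = f g₂ := h' g₂ s₂ (hle hs₂).2
  have e2 : f (g₁ * s₁ * (g₂ * s₂)) = f (g₁ * g₂) := by
    have : g₁ * s₁ * (g₂ * s₂) = g₁ * g₂ * (g₂⁻¹ * s₁ * g₂ * s₂) := by group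
    rw [this]
    refine h' (g₁ * g₂) _ ?_
    refine N'.mul_mem ?_ (hle hs₂).2
    have := hnorm.conj_mem s₁ (hle hs₁).2 g₂⁻¹
    simpa using this
  have e3 : f (g₁ * s₁) = f g₁ := h' g₁ s₁ (hle hs₁).2
  simp only [d₁₂_hom_apply, e1, e2, e3, map_mul, Module.End.mul_apply, h s₁ (hle hs₁).1]

end Smooth


section Membership

variable (A : Rep.{u} k G)

lemma mem_Z1_iff {x : G → A} : x ∈ Z1 𝒩 A ↔ IsLev₁ 𝒩 x ∧ (d₁₂ A).hom x = 0 := Iff.rfl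

lemma d₁₂_d₀₁_apply (a : A) : (d₁₂ A).hom ((d₀₁ A).hom a) = 0 := by
  have h := d₀₁_comp_d₁₂ A
  have h2 := congrArg (fun f => f.hom a) h
  exact h2

lemma d₂₃_d₁₂_apply (f : G → A) : (d₂₃ A).hom ((d₁₂ A).hom f) = 0 := by
  have h := d₁₂_comp_d₂₃ A
  have h2 := congrArg (fun φ => φ.hom f) h
  exact h2

lemma d₀₁_mem_Z1 (hA : IsSmooth 𝒩 A) (a : A) : (d₀₁ A).hom a ∈ Z1 𝒩 A :=
  ⟨isLev₁_d₀₁ A hA a, d₁₂_d₀₁_apply A a⟩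

lemma d₃₄_d₂₃_apply (f : G × G → A) : d₃₄ A ((d₂₃ A).hom f) = 0 := by
  funext ⟨g₁, g₂, g₃, g₄⟩
  simp only [d₃₄_apply, d₂₃_hom_apply, map_sub, map_add, mul_assoc, map_mul,
    Module.End.mul_apply, Pi.zero_apply]
  abel

end Membership


/-! ## Cone basics -/

section ConeBasics

variable (L : LocalData G 𝒩 ι)

lemma isSmooth_loc {A : Rep.{u} k G} (hA : IsSmooth 𝒩 A) (v : ι) :
    IsSmooth (L.lev v) (L.loc A v) := by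
  obtain ⟨N, hN, h⟩ := hA
  obtain ⟨N', hN', hle⟩ := L.compat v N hN
  exact ⟨N', hN', fun s hs a => h (L.r v s) (hle hs) a⟩

lemma isLev₂_res₂ {A : Rep.{u} k G} {f : G × G → A} (hf : IsLev₂ 𝒩 f) (v : ι) :
    IsLev₂ (L.lev v) (res₂ L A v f) := by
  obtain ⟨N, hN, h⟩ := hf
  obtain ⟨N', hN', hle⟩ := L.compat v N hN
  refine ⟨N', hN', fun g₁ g₂ s₁ hs₁ s₂ hs₂ => ?_⟩
  simp only [res₂_apply, map_mul]
  exact h _ _ _ (hle hs₁) _ (hle hs₂)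

lemma mem_Cc2_iff {A : Rep.{u} k G} {y : CcAmb2 L A} :
    y ∈ Cc2 L A ↔ IsLev₂ 𝒩 y.1 ∧ ∀ v, IsLev₁ (L.lev v) (y.2 v) := by
  simp [Cc2, Submodule.mem_prod, Submodule.mem_pi]

lemma mem_Cc3_iff {A : Rep.{u} k G} {y : CcAmb3 L A} :
    y ∈ Cc3 L A ↔ IsLev₃ 𝒩 y.1 ∧ ∀ v, IsLev₂ (L.lev v) (y.2 v) := by
  simp [Cc3, Submodule.mem_prod, Submodule.mem_pi]

lemma mem_Zc2_iff {A : Rep.{u} k G} {y : CcAmb2 L A} :
    y ∈ Zc2 L A ↔ y ∈ Cc2 L A ∧ dc₂₃ L A y = 0 := Iff.rfl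

lemma mem_Zc3_iff {A : Rep.{u} k G} {y : CcAmb3 L A} :
    y ∈ Zc3 L A ↔ y ∈ Cc3 L A ∧ dc₃₄ L A y = 0 := Iff.rfl

lemma dc₂₃_mem_Cc3 {B : Rep.{u} k G} (hB : IsSmooth 𝒩 B) {y : CcAmb2 L B} (hy : y ∈ Cc2 L B) :
    dc₂₃ L B y ∈ Cc3 L B := by
  rw [mem_Cc2_iff] at hy
  rw [mem_Cc3_iff]
  refine ⟨isLev₃_d₂₃ B hB hy.1, fun v => ?_⟩
  have h1 : res₂ L B v y.1 ∈ C2 (L.lev v) (L.loc B v) := isLev₂_res₂ L hy.1 v
  have h2 : (d₁₂ (L.loc B v)).hom (y.2 v) ∈ C2 (L.lev v) (L.loc B v) :=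
    isLev₂_d₁₂ (L.loc B v) (isSmooth_loc L hB v) (hy.2 v)
  exact (C2 (L.lev v) (L.loc B v)).sub_mem h1 h2

lemma ccmap₂_mem_Cc2 {A A' : Rep.{u} k G} (f : A →ₗ[k] A') {y : CcAmb2 L A}
    (hy : y ∈ Cc2 L A) : ccmap₂ L f y ∈ Cc2 L A' := by
  rw [mem_Cc2_iff] at hy ⊢
  exact ⟨isLev₂_comp f hy.1, fun v => isLev₁_comp f (hy.2 v)⟩

lemma ccmap₃_mem_Cc3 {A A' : Rep.{u} k G} (f : A →ₗ[k] A') {y : CcAmb3 L A}
    (hy : y ∈ Cc3 L A) : ccmap₃ L f y ∈ Cc3 L A' := by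
  rw [mem_Cc3_iff] at hy ⊢
  exact ⟨isLev₃_comp f hy.1, fun v => isLev₂_comp f (hy.2 v)⟩

lemma cupc₀₂_mem_Cc2 {A B C : Rep.{u} k G} (φ : EqPairing A B C) (a : A) {y : CcAmb2 L B}
    (hy : y ∈ Cc2 L B) : cupc₀₂ L φ a y ∈ Cc2 L C := by
  rw [mem_Cc2_iff] at hy ⊢
  exact ⟨isLev₂_comp (φ.φ a) hy.1, fun v => isLev₁_comp (φ.φ a) (hy.2 v)⟩

lemma dc₂₃_ccmap₂ {B B' : Rep.{u} k G} (f : EqHom B B') (y : CcAmb2 L B) :
    dc₂₃ L B' (ccmap₂ L f.f y) = ccmap₃ L f.f (dc₂₃ L B y) := by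
  refine Prod.ext ?_ ?_
  · funext ⟨g₁, g₂, g₃⟩
    simp [dc₂₃, ccmap₂, ccmap₃, d₂₃_hom_apply, f.comm]
  · funext v ⟨s₁, s₂⟩
    simp [dc₂₃, ccmap₂, ccmap₃, d₁₂_hom_apply, f.comm]

lemma dc₃₄_dc₂₃ {B : Rep.{u} k G} (y : CcAmb2 L B) : dc₃₄ L B (dc₂₃ L B y) = 0 := by
  refine Prod.ext ?_ ?_
  · exact d₃₄_d₂₃_apply B y.1
  · funext v
    have h1 : res₃ L B v ((d₂₃ B).hom y.1) = (d₂₃ (L.loc B v)).hom (res₂ L B v y.1) := by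
      funext ⟨s₁, s₂, s₃⟩
      simp [d₂₃_hom_apply]
    show res₃ L B v ((d₂₃ B).hom y.1)
      - (d₂₃ (L.loc B v)).hom (res₂ L B v y.1 - (d₁₂ (L.loc B v)).hom (y.2 v)) = 0
    rw [map_sub, d₂₃_d₁₂_apply, sub_zero, h1, sub_self]

lemma dc₃₄_eq_zero_of_ccmap₃ {B₂ B : Rep.{u} k G} (f : EqHom B₂ B)
    (hf : Function.Injective f.f) {z : CcAmb3 L B₂} (h : dc₃₄ L B (ccmap₃ L f.f z) = 0) :
    dc₃₄ L B₂ z = 0 := by
  refine Prod.ext ?_ ?_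
  · funext ⟨g₁, g₂, g₃, g₄⟩
    apply hf
    have h1 := congrArg (fun w => w.1 (g₁, g₂, g₃, g₄)) h
    simp only [dc₃₄, ccmap₃, LinearMap.coe_mk, AddHom.coe_mk, d₃₄_apply, ← f.comm,
      ← map_sub, ← map_add] at h1
    simpa [dc₃₄] using h1
  · funext v ⟨s₁, s₂, s₃⟩
    apply hf
    have h1 := congrArg (fun w => w.2 v (s₁, s₂, s₃)) h
    simp only [dc₃₄, ccmap₃, LinearMap.coe_mk, AddHom.coe_mk] at h1
    simpa [dc₃₄, d₂₃_hom_apply, f.comm] using h1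

end ConeBasics


/-! ## Cup products: Leibniz rule, linearity, functoriality -/

section Cups

variable (L : LocalData G 𝒩 ι) {A B C : Rep.{u} k G} (φ : EqPairing A B C)

/-- Leibniz rule in bidegree `(0,2)`. -/
lemma leibniz₀₂ (a : A) (y : CcAmb2 L B) :
    dc₂₃ L C (cupc₀₂ L φ a y)
      = cupc₁₂ L φ ((d₀₁ A).hom a) y + cupc₀₃ L φ a (dc₂₃ L B y) := by
  refine Prod.ext ?_ ?_
  · funext ⟨g₁, g₂, g₃⟩
    simp only [dc₂₃, cupc₀₂, cupc₁₂, cupc₀₃, LinearMap.coe_mk, AddHom.coe_mk, d₂₃_hom_apply,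
      d₀₁_hom_apply, Prod.fst_add, Pi.add_apply, ← φ.equivariant, map_sub, map_add,
      LinearMap.sub_apply]
    abel
  · funext v ⟨s₁, s₂⟩
    simp only [dc₂₃, cupc₀₂, cupc₁₂, cupc₀₃, LinearMap.coe_mk, AddHom.coe_mk, d₁₂_hom_apply,
      d₀₁_hom_apply, Prod.snd_add, Pi.add_apply, Pi.sub_apply, res₂_apply, map_sub, map_add,
      LinearMap.sub_apply]
    have h := φ.equivariant (L.r v s₁) a (y.2 v s₂)
    have h' : (L.loc C v).ρ s₁ (φ.φ a (y.2 v s₂))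
        = φ.φ (A.ρ (L.r v s₁) a) (B.ρ (L.r v s₁) (y.2 v s₂)) := h.symm
    have h'' : (L.loc B v).ρ s₁ (y.2 v s₂) = B.ρ (L.r v s₁) (y.2 v s₂) := rfl
    rw [h', h'']
    abel

lemma cupc₁₂_add_left (x x' : G → A) (y : CcAmb2 L B) :
    cupc₁₂ L φ (x + x') y = cupc₁₂ L φ x y + cupc₁₂ L φ x' y := by
  refine Prod.ext ?_ ?_
  · funext ⟨g₁, g₂, g₃⟩
    simp [cupc₁₂]
  · funext v ⟨s₁, s₂⟩
    simp only [cupc₁₂, Pi.add_apply, map_add, LinearMap.add_apply, Prod.snd_add, neg_add_rev]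
    abel

lemma cupc₁₂_sub_left (x x' : G → A) (y : CcAmb2 L B) :
    cupc₁₂ L φ (x - x') y = cupc₁₂ L φ x y - cupc₁₂ L φ x' y := by
  refine Prod.ext ?_ ?_
  · funext ⟨g₁, g₂, g₃⟩
    simp [cupc₁₂]
  · funext v ⟨s₁, s₂⟩
    simp only [cupc₁₂, Pi.sub_apply, map_sub, LinearMap.sub_apply, Prod.snd_sub]
    abel

/-- `y ↦ x ∪ y` as a linear map. -/
def cup12L (x : G → A) : CcAmb2 L B →ₗ[k] CcAmb3 L C where
  toFun y := cupc₁₂ L φ x y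
  map_add' y y' := by
    refine Prod.ext ?_ ?_
    · funext ⟨g₁, g₂, g₃⟩
      simp [cupc₁₂]
    · funext v ⟨s₁, s₂⟩
      simp only [cupc₁₂, Prod.snd_add, Pi.add_apply, map_add, neg_add_rev]
      abel
  map_smul' c y := by
    refine Prod.ext ?_ ?_
    · funext ⟨g₁, g₂, g₃⟩
      simp [cupc₁₂]
    · funext v ⟨s₁, s₂⟩
      simp [cupc₁₂]

@[simp] lemma cup12L_apply (x : G → A) (y : CcAmb2 L B) :
    cup12L L φ x y = cupc₁₂ L φ x y := rfl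

/-- `z ↦ a ∪ z` as a linear map. -/
def cup03L (a : A) : CcAmb3 L B →ₗ[k] CcAmb3 L C where
  toFun z := cupc₀₃ L φ a z
  map_add' z z' := by
    refine Prod.ext ?_ ?_
    · funext ⟨g₁, g₂, g₃⟩
      simp [cupc₀₃]
    · funext v ⟨s₁, s₂⟩
      simp [cupc₀₃]
  map_smul' c z := by
    refine Prod.ext ?_ ?_
    · funext ⟨g₁, g₂, g₃⟩
      simp [cupc₀₃]
    · funext v ⟨s₁, s₂⟩
      simp [cupc₀₃]

@[simp] lemma cup03L_apply (a : A) (z : CcAmb3 L B) :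
    cup03L L φ a z = cupc₀₃ L φ a z := rfl

end Cups

section Functoriality

variable (L : LocalData G 𝒩 ι) {A₁ A A₂ B₁ B B₂ C : Rep.{u} k G}
  (E : ExtData 𝒩 A₁ A A₂ B₁ B B₂ C)

lemma π_i (a₁ : A₁) : E.π.f (E.i.f a₁) = 0 := (E.exactA _).2 ⟨a₁, rfl⟩

lemma q_j (b₂ : B₂) : E.q.f (E.j.f b₂) = 0 := (E.exactB _).2 ⟨b₂, rfl⟩

lemma cupc₁₂_j (x : G → A) (y₂ : CcAmb2 L B₂) :
    cupc₁₂ L E.φ x (ccmap₂ L E.j.f y₂) = cupc₁₂ L E.φ₂ (fun g => E.π.f (x g)) y₂ := by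
  refine Prod.ext ?_ ?_
  · funext ⟨g₁, g₂, g₃⟩
    simp only [cupc₁₂, ccmap₂, LinearMap.coe_mk, AddHom.coe_mk, ← E.j.comm, E.compat₂]
  · funext v ⟨s₁, s₂⟩
    simp only [cupc₁₂, ccmap₂, LinearMap.coe_mk, AddHom.coe_mk, ← E.j.comm, E.compat₂]

lemma cupc₁₂_i (x₁ : G → A₁) (y : CcAmb2 L B) :
    cupc₁₂ L E.φ (fun g => E.i.f (x₁ g)) y = cupc₁₂ L E.φ₁ x₁ (ccmap₂ L E.q.f y) := by
  refine Prod.ext ?_ ?_
  · funext ⟨g₁, g₂, g₃⟩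
    simp only [cupc₁₂, ccmap₂, LinearMap.coe_mk, AddHom.coe_mk, E.q.comm, E.compat₁]
  · funext v ⟨s₁, s₂⟩
    simp only [cupc₁₂, ccmap₂, LinearMap.coe_mk, AddHom.coe_mk, E.q.comm, E.compat₁]

lemma cupc₀₃_j (a : A) (z₂ : CcAmb3 L B₂) :
    cupc₀₃ L E.φ a (ccmap₃ L E.j.f z₂) = cupc₀₃ L E.φ₂ (E.π.f a) z₂ := by
  refine Prod.ext ?_ ?_
  · funext ⟨g₁, g₂, g₃⟩
    simp only [cupc₀₃, ccmap₃, LinearMap.coe_mk, AddHom.coe_mk, E.compat₂]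
  · funext v ⟨s₁, s₂⟩
    simp only [cupc₀₃, ccmap₃, LinearMap.coe_mk, AddHom.coe_mk, E.compat₂]

lemma ccmap₂_q_j (y₂ : CcAmb2 L B₂) : ccmap₂ L E.q.f (ccmap₂ L E.j.f y₂) = 0 := by
  refine Prod.ext ?_ ?_
  · funext ⟨g₁, g₂⟩
    simp [ccmap₂, q_j]
  · funext v s
    simp [ccmap₂, q_j]

/-- A 1-cocycle with values in `ker π` comes from a 1-cocycle of `A₁`. -/
lemma exists_lift_i {x : G → A} (hx : x ∈ Z1 𝒩 A) (hπ : ∀ g, E.π.f (x g) = 0) :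
    ∃ x₁ ∈ Z1 𝒩 A₁, (fun g => E.i.f (x₁ g)) = x := by
  choose x₁ hx₁ using fun g => (E.exactA (x g)).1 (hπ g)
  have hfun : (fun g => E.i.f (x₁ g)) = x := funext hx₁
  refine ⟨x₁, ⟨?_, ?_⟩, hfun⟩
  · exact isLev₁_of_comp_injective E.i_inj (hfun ▸ hx.1)
  · have h2 : (d₁₂ A).hom x = 0 := hx.2
    funext ⟨g₁, g₂⟩
    apply E.i_inj
    have h3 := congrFun h2 (g₁, g₂)
    simp only [d₁₂_hom_apply, ← hx₁, ← E.i.comm, ← map_sub, ← map_add] at h3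
    rw [d₁₂_hom_apply]
    exact h3.trans (map_zero _).symm

/-- A cone 3-cochain with values in `ker q` is the image of its retraction. -/
lemma ccmap₃_j_ret {ret : B →ₗ[k] B₂} (hret : ∀ b₂, ret (E.j.f b₂) = b₂) {z : CcAmb3 L B}
    (hz : ccmap₃ L E.q.f z = 0) : ccmap₃ L E.j.f (ccmap₃ L ret z) = z := by
  have key : ∀ b : B, E.q.f b = 0 → E.j.f (ret b) = b := by
    intro b hb
    obtain ⟨b₂, rfl⟩ := (E.exactB b).1 hb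
    rw [hret]
  refine Prod.ext ?_ ?_
  · funext x
    exact key _ (congrFun (congrArg Prod.fst hz) x)
  · funext v x
    exact key _ (congrFun (congrFun (congrArg Prod.snd hz) v) x)

end Functoriality


/-! ## Linear algebra: factoring a functional -/

section LinAlg

variable {V W : Type*} [AddCommGroup V] [Module k V] [AddCommGroup W] [Module k W]

/-- If `Φ` vanishes on `P ∩ ker D`, then on `P` it factors through `D`. -/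
lemma exists_functional (P : Submodule k V) (D : V →ₗ[k] W) (Φ : V →ₗ[k] k)
    (h : ∀ v ∈ P, D v = 0 → Φ v = 0) :
    ∃ ψ : W →ₗ[k] k, ∀ v ∈ P, ψ (D v) = Φ v := by
  classical
  let D' : P →ₗ[k] W := D.domRestrict P
  let Φ' : P →ₗ[k] k := Φ.domRestrict P
  let K : Submodule k P := LinearMap.ker D'
  let Dbar : (P ⧸ K) →ₗ[k] W := K.liftQ D' le_rfl
  have hinj : LinearMap.ker Dbar = ⊥ := Submodule.ker_liftQ_eq_bot _ _ _ le_rfl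
  obtain ⟨g, hg⟩ := Dbar.exists_leftInverse_of_injective hinj
  have hK : K ≤ LinearMap.ker Φ' := by
    intro v hv
    rw [LinearMap.mem_ker] at hv ⊢
    exact h v.1 v.2 hv
  let Φbar : (P ⧸ K) →ₗ[k] k := K.liftQ Φ' hK
  refine ⟨Φbar ∘ₗ g, fun v hv => ?_⟩
  have h1 : g (D v) = K.mkQ ⟨v, hv⟩ := by
    have h2 := LinearMap.congr_fun hg (K.mkQ ⟨v, hv⟩)
    simpa [Dbar, D'] using h2
  rw [LinearMap.comp_apply, h1]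
  simp [Φbar, Φ']

end LinAlg

/-! ## Maps of cocycles -/

section MapCocycle

lemma map_mem_Z1 {A A' : Rep.{u} k G} (f : EqHom A A') {x : G → A} (hx : x ∈ Z1 𝒩 A) :
    (fun g => f.f (x g)) ∈ Z1 𝒩 A' := by
  refine ⟨isLev₁_comp f.f hx.1, ?_⟩
  have h2 : (d₁₂ A).hom x = 0 := hx.2
  funext ⟨g₁, g₂⟩
  have h3 := congrArg f.f (congrFun h2 (g₁, g₂))
  rw [d₁₂_hom_apply] at h3 ⊢
  simp only [map_sub, map_add, f.comm] at h3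
  exact h3.trans (map_zero _)

lemma ccmap₂_mem_Zc2 (L : LocalData G 𝒩 ι) {B B' : Rep.{u} k G} (f : EqHom B B')
    {y : CcAmb2 L B} (hy : y ∈ Zc2 L B) : ccmap₂ L f.f y ∈ Zc2 L B' :=
  ⟨ccmap₂_mem_Cc2 L f.f hy.1, by
    show dc₂₃ L B' (ccmap₂ L f.f y) = 0
    rw [dc₂₃_ccmap₂]
    have h : dc₂₃ L B y = 0 := hy.2
    rw [h, map_zero]⟩

end MapCocycle

/-! ## The window -/

theorem devInj1 (L : LocalData G 𝒩 ι) : DevInj1 (k := k) L := by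
  intro A₁ A A₂ B₁ B B₂ C E tr htr hS0 hI1 hI2 x hx hpair
  -- Step 1: `π ∘ x` is a coboundary
  have hπx : (fun g => E.π.f (x g)) ∈ Z1 𝒩 A₂ := map_mem_Z1 E.π hx
  have h1 : ∀ y₂ ∈ Zc2 L B₂, tr (cupc₁₂ L E.φ₂ (fun g => E.π.f (x g)) y₂) = 0 := by
    intro y₂ hy₂
    rw [← cupc₁₂_j]
    exact hpair _ (ccmap₂_mem_Zc2 L E.j hy₂)
  obtain ⟨a₂, ha₂⟩ := hI2 _ hπx h1
  obtain ⟨at', hat⟩ := E.π_surj a₂
  have hx'Z : x - (d₀₁ A).hom at' ∈ Z1 𝒩 A :=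
    (Z1 𝒩 A).sub_mem hx (d₀₁_mem_Z1 A E.smoothA at')
  have hx'π : ∀ g, E.π.f ((x - (d₀₁ A).hom at') g) = 0 := by
    intro g
    have h2 := congrFun ha₂ g
    rw [d₀₁_hom_apply] at h2
    rw [Pi.sub_apply, d₀₁_hom_apply, map_sub, map_sub, E.π.comm, hat, h2, sub_self]
  obtain ⟨x₁, hx₁Z, hx₁⟩ := exists_lift_i E hx'Z hx'π
  -- the pairing of `x'` with `Zc2 B` vanishes
  have hx'pair : ∀ y ∈ Zc2 L B, tr (cupc₁₂ L E.φ (x - (d₀₁ A).hom at') y) = 0 := by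
    intro y hy
    rw [cupc₁₂_sub_left, map_sub, hpair y hy, zero_sub, neg_eq_zero]
    have hL := leibniz₀₂ L E.φ at' y
    have hy2 : dc₂₃ L B y = 0 := hy.2
    rw [hy2, ← cup03L_apply, map_zero, add_zero] at hL
    rw [← hL]
    exact htr _ ⟨_, cupc₀₂_mem_Cc2 L E.φ at' hy.1, rfl⟩
  -- Step 2: the functional on `W`
  obtain ⟨ret, hret⟩ := E.j.f.exists_leftInverse_of_injective (LinearMap.ker_eq_bot.2 E.j_inj)
  obtain ⟨sec, hsec⟩ := E.q.f.exists_rightInverse_of_surjective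
    (LinearMap.range_eq_top.2 E.q_surj)
  have hret' : ∀ b₂, ret (E.j.f b₂) = b₂ := fun b₂ => LinearMap.congr_fun hret b₂
  have hsec' : ∀ b₁, E.q.f (sec b₁) = b₁ := fun b₁ => LinearMap.congr_fun hsec b₁
  let P : Submodule k (CcAmb2 L B) := Cc2 L B ⊓ (Zc2 L B₁).comap (ccmap₂ L E.q.f)
  let D : CcAmb2 L B →ₗ[k] CcAmb3 L B₂ := (ccmap₃ L ret) ∘ₗ (dc₂₃ L B)
  let Φ : CcAmb2 L B →ₗ[k] k := tr ∘ₗ (cup12L L E.φ₁ x₁) ∘ₗ (ccmap₂ L E.q.f)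
  have hjD : ∀ yt ∈ P, ccmap₃ L E.j.f (D yt) = dc₂₃ L B yt := by
    intro yt hyt
    apply ccmap₃_j_ret L E hret'
    rw [← dc₂₃_ccmap₂]
    exact hyt.2.2
  have hker : ∀ yt ∈ P, D yt = 0 → Φ yt = 0 := by
    intro yt hyt hD
    have hZ : yt ∈ Zc2 L B := ⟨hyt.1, by
      show dc₂₃ L B yt = 0
      rw [← hjD yt hyt, hD, map_zero]⟩
    show tr (cupc₁₂ L E.φ₁ x₁ (ccmap₂ L E.q.f yt)) = 0
    rw [← cupc₁₂_i, hx₁]
    exact hx'pair yt hZ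
  obtain ⟨ψ, hψ⟩ := exists_functional P D Φ hker
  have hψB : ∀ z ∈ Bc3 L B₂, ψ z = 0 := by
    rintro _ ⟨w₂, hw₂, rfl⟩
    have hP : ccmap₂ L E.j.f w₂ ∈ P := ⟨ccmap₂_mem_Cc2 L _ hw₂, by
      show ccmap₂ L E.q.f (ccmap₂ L E.j.f w₂) ∈ Zc2 L B₁
      rw [ccmap₂_q_j]
      exact zero_mem _⟩
    have hD : D (ccmap₂ L E.j.f w₂) = dc₂₃ L B₂ w₂ := by
      show ccmap₃ L ret (dc₂₃ L B (ccmap₂ L E.j.f w₂)) = _
      rw [dc₂₃_ccmap₂]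
      refine Prod.ext ?_ ?_
      · funext x
        exact hret' _
      · funext v x
        exact hret' _
    rw [← hD, hψ _ hP]
    show tr (cup12L L E.φ₁ x₁ (ccmap₂ L E.q.f (ccmap₂ L E.j.f w₂))) = 0
    rw [ccmap₂_q_j, map_zero, map_zero]
  obtain ⟨a₂', ha₂'inv, ha₂'⟩ := hS0 ψ hψB
  obtain ⟨at'', hat''⟩ := E.π_surj a₂'
  have hd'Z : (d₀₁ A).hom at'' ∈ Z1 𝒩 A := d₀₁_mem_Z1 A E.smoothA at''
  have hd'π : ∀ g, E.π.f ((d₀₁ A).hom at'' g) = 0 := by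
    intro g
    rw [d₀₁_hom_apply, map_sub, E.π.comm, hat'']
    exact sub_eq_zero.2 (ha₂'inv g)
  obtain ⟨x₁', hx₁'Z, hx₁'⟩ := exists_lift_i E hd'Z hd'π
  -- the pairing of `x₁ + x₁'` with `Zc2 B₁` vanishes
  have hsum : ∀ y₁ ∈ Zc2 L B₁, tr (cupc₁₂ L E.φ₁ (x₁ + x₁') y₁) = 0 := by
    intro y₁ hy₁
    have hqy : ccmap₂ L E.q.f (ccmap₂ L sec y₁) = y₁ := by
      refine Prod.ext ?_ ?_
      · funext x
        exact hsec' _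
      · funext v x
        exact hsec' _
    have hyP : ccmap₂ L sec y₁ ∈ P := ⟨ccmap₂_mem_Cc2 L sec hy₁.1, by
      show ccmap₂ L E.q.f (ccmap₂ L sec y₁) ∈ Zc2 L B₁
      rw [hqy]
      exact hy₁⟩
    have hzZ : D (ccmap₂ L sec y₁) ∈ Zc3 L B₂ :=
      ⟨ccmap₃_mem_Cc3 L ret (dc₂₃_mem_Cc3 L E.smoothB hyP.1),
        dc₃₄_eq_zero_of_ccmap₃ L E.j E.j_inj (by rw [hjD _ hyP, dc₃₄_dc₂₃])⟩
    have e1 : ψ (D (ccmap₂ L sec y₁)) = tr (cupc₁₂ L E.φ₁ x₁ y₁) := by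
      rw [hψ _ hyP]
      show tr (cupc₁₂ L E.φ₁ x₁ (ccmap₂ L E.q.f (ccmap₂ L sec y₁))) = _
      rw [hqy]
    have e2 : ψ (D (ccmap₂ L sec y₁)) = tr (cupc₀₃ L E.φ₂ a₂' (D (ccmap₂ L sec y₁))) :=
      ha₂' _ hzZ
    have e3 : cupc₀₃ L E.φ₂ a₂' (D (ccmap₂ L sec y₁))
        = cupc₀₃ L E.φ at'' (dc₂₃ L B (ccmap₂ L sec y₁)) := by
      rw [← hat'', ← cupc₀₃_j, hjD _ hyP]
    have e4 := leibniz₀₂ L E.φ at'' (ccmap₂ L sec y₁)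
    have e5 : tr (dc₂₃ L C (cupc₀₂ L E.φ at'' (ccmap₂ L sec y₁))) = 0 :=
      htr _ ⟨_, cupc₀₂_mem_Cc2 L E.φ at'' hyP.1, rfl⟩
    have e6 : cupc₁₂ L E.φ ((d₀₁ A).hom at'') (ccmap₂ L sec y₁) = cupc₁₂ L E.φ₁ x₁' y₁ := by
      rw [← hx₁', cupc₁₂_i, hqy]
    rw [e4, map_add, e6, ← e3, ← e2, e1] at e5
    rw [cupc₁₂_add_left, map_add]
    linear_combination e5
  obtain ⟨a₁, ha₁⟩ := hI1 _ ((Z1 𝒩 A₁).add_mem hx₁Z hx₁'Z) hsum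
  -- conclusion
  refine ⟨E.i.f a₁ + at' - at'', ?_⟩
  funext g
  have k1 := congrFun ha₁ g
  have k2 := congrFun hx₁ g
  have k3 := congrFun hx₁' g
  simp only [d₀₁_hom_apply, Pi.add_apply, Pi.sub_apply] at k1 k2 k3
  have k4 := congrArg E.i.f k1
  rw [map_sub, map_add, E.i.comm, k2, k3] at k4
  rw [d₀₁_hom_apply]
  simp only [map_add, map_sub]
  linear_combination (norm := module) k4

end Fermat.Agent.S55.helper95
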