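import Fermat.Agent.S55.AssemblyP
import Fermat.Agent.S55.helper3_W0
import Fermat.Agent.S55.helper95_DevInj1
import Fermat.Agent.S55.helper67_DevSurj1
import Fermat.Agent.S55.helper49_DevInj2
import Fermat.Agent.S55.helper45_DD
import Fermat.Agent.S55.helper53_Packages
import Fermat.Agent.S55.helper92_SmoothLevel

/-!
# S55: module A is closed

* `mainAP` : the abstract duality theorem `MainAP L p χ` (weak base hypothesis), unconditional;
* `mainA`  : `MainA L p χ`;
* `s55_of_baseTargetP_of_bridge` : the frozen statement S55 from `BaseTargetP p S` (modules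
  SH + B + class field theory) and `BridgeStatement p S` (bridge to the Prelude).
-/

set_option autoImplicit false

universe u

open CategoryTheory Module groupCohomology ExtCitation

noncomputable section

namespace Fermat.Agent.S55

section Abstract

variable {k G : Type u} [Field k] [Group G] {𝒩 : Levels G} {ι : Type} (L : LocalData G 𝒩 ι)

/-- The main theorem of module A (weak base hypothesis). -/
theorem mainAP (p : ℕ) (χ : G →* kˣ) : MainAP L p χ :=
  mainAP_of_windows L p χ 1 (helper3.devSurj0 L) (helper95.devInj1 L) (helper67.devSurj1 L)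
    (helper49.devInj2 L) (helper45.retStatement L) (helper45.ddStatement L χ)
    (helper53.adjStatement L) (helper53.finalStatement L χ)

/-- The main theorem of module A. -/
theorem mainA (p : ℕ) (χ : G →* kˣ) : MainA L p χ :=
  mainA_of_windows L p χ 1 (helper3.devSurj0 L) (helper95.devInj1 L) (helper67.devSurj1 L)
    (helper49.devInj2 L) (helper45.retStatement L) (helper45.ddStatement L χ)
    (helper53.adjStatement L) (helper53.finalStatement L χ)

end Abstract

set_option maxHeartbeats 4000000 in
/-- S55 from the arithmetic base case and the bridge to the Prelude. -/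
theorem s55_of_baseTargetP_of_bridge {p : ℕ} [Fact p.Prime] (S : Finset Nat.Primes)
    (hB : BaseTargetP p S) (hBr : BridgeStatement p S)
    (hp2 : p ≠ 2) (hpS : pPrime p ∈ S)
    (M : Rep (ZMod p) (AlgebraicClosure ℚ ≃ₐ[ℚ] AlgebraicClosure ℚ))
    [FiniteDimensional (ZMod p) M]
    (hsm : ∀ m : M, ∃ F : IntermediateField ℚ (AlgebraicClosure ℚ), FiniteDimensional ℚ F ∧
      ∀ s ∈ F.fixingSubgroup, M.ρ s m = m)
    (hMur : ∀ q : Nat.Primes, q ∉ S → ∀ A : ValuationSubring (AlgebraicClosure ℚ),
      A.LiesOverPrime (q : ℕ) → ∀ g ∈ A.inertiaSubgroupIn ℚ, M.ρ g = 1) :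
    ∃ B : sha₁ S (M.dualTwist (cycloChar p)) →ₗ[ZMod p] sha₂ S M →ₗ[ZMod p] ZMod p,
      (∀ y, (∀ x, B y x = 0) → y = 0) ∧ (∀ x, (∀ y, B y x = 0) → x = 0) :=
  s55_of_inputsP S (mainAP (galLocal S) p (cycloChar p)) hB hBr
    (helper92.smoothStatement p S) (helper92.levelStatement p S) hp2 hpS M hsm hMur

end Fermat.Agent.S55
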