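import Mathlib
import Fermat.Prelude.Def_GroupCohomology_ContinuousUnramified

/-!
# S55, package A9: the archimedean index is invisible (helper51)

For a finite group `H` whose order is invertible in `k`, every 1-cocycle is a coboundary and
every 2-cocycle is the coboundary of a 1-cochain (explicit averaging).  The archimedean local
group of the Prelude (`ExtCitation.archimedeanDecomposition`, generated by complex conjugation)
has order dividing `2`, and every cochain on it is level-constant.  Hence, when `2` is invertible,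
the local `H¹` and the local continuous `H²` at the archimedean index vanish, and the Prelude's
`sha₁` / `sha₂` only see the finite places `q ∈ S`.
-/

set_option autoImplicit false

open CategoryTheory groupCohomology ExtCitation

namespace Fermat.Agent.S55.helper51

universe u

section Finite

variable {k H : Type u} [CommRing k] [Group H] (A : Rep.{u} k H)

/-- Averaging: for a finite group with invertible order every 1-cocycle is a coboundary. -/
theorem cocycles₁_le_coboundaries₁_of_isUnit_card [Finite H] (hcard : IsUnit (Nat.card H : k)) :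
    cocycles₁ A ≤ coboundaries₁ A := by
  classical
  have : Fintype H := Fintype.ofFinite H
  intro c hc
  obtain ⟨u, hu⟩ := hcard
  have hc' := (mem_cocycles₁_iff c).1 hc
  -- s = ∑ c h
  set s : A := ∑ h : H, c h with hs
  have key : ∀ g : H, A.ρ g s = s - (Nat.card H : k) • c g := by
    intro g
    have h1 : ∑ h : H, c (g * h) = s :=
      Fintype.sum_equiv (Equiv.mulLeft g) _ _ (fun _ => rfl)
    have h2 : ∑ h : H, c (g * h) = A.ρ g s + (Nat.card H : k) • c g := by
      simp only [hc', Finset.sum_add_distrib, hs, map_sum, Finset.sum_const, Finset.card_univ,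
        Nat.card_eq_fintype_card, Nat.cast_smul_eq_nsmul]
    rw [h1] at h2
    exact eq_sub_of_add_eq h2.symm
  refine ⟨-((↑u⁻¹ : k) • s), ?_⟩
  ext g
  simp only [d₀₁_hom_apply, map_neg, map_smul, key g, smul_sub, smul_smul, ← hu,
    Units.inv_mul, one_smul]
  abel

theorem subsingleton_H1_of_isUnit_card [Finite H] (hcard : IsUnit (Nat.card H : k)) :
    Subsingleton (H1 A) := by
  refine ⟨fun x y => ?_⟩
  have hz : ∀ z : H1 A, z = 0 := by
    intro z
    induction z using H1_induction_on with
    | h c => exact (H1π_eq_zero_iff c).2 (cocycles₁_le_coboundaries₁_of_isUnit_card A hcard c.2)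
  rw [hz x, hz y]

/-- Averaging: for a finite group with invertible order every 2-cocycle is the coboundary of a
1-cochain. -/
theorem exists_d₁₂_eq_of_mem_cocycles₂ [Finite H] (hcard : IsUnit (Nat.card H : k))
    (f : H × H → A) (hf : f ∈ cocycles₂ A) : ∃ x : H → A, (d₁₂ A).hom x = f := by
  classical
  have : Fintype H := Fintype.ofFinite H
  obtain ⟨u, hu⟩ := hcard
  have hf' := (mem_cocycles₂_iff f).1 hf
  set x : H → A := fun g => ∑ j : H, f (g, j) with hx
  have key : ∀ g h : H, A.ρ g (x h) - x (g * h) + x g = (Nat.card H : k) • f (g, h) := by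
    intro g h
    have h1 : ∑ j : H, f (g, h * j) = x g :=
      Fintype.sum_equiv (Equiv.mulLeft h) _ _ (fun _ => rfl)
    have h2 : ∑ j : H, (f (g * h, j) + f (g, h)) = ∑ j : H, (A.ρ g (f (h, j)) + f (g, h * j)) :=
      Finset.sum_congr rfl fun j _ => hf' g h j
    simp only [Finset.sum_add_distrib, Finset.sum_const, Finset.card_univ, h1, ← map_sum] at h2
    have h3 : x (g * h) + (Nat.card H : k) • f (g, h) = A.ρ g (x h) + x g := by
      simpa [hx, Nat.card_eq_fintype_card, Nat.cast_smul_eq_nsmul] using h2
    rw [eq_comm, ← sub_eq_zero] at h3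
    rw [← sub_eq_zero, ← h3]; abel
  refine ⟨fun g => (↑u⁻¹ : k) • x g, ?_⟩
  ext ⟨g, h⟩
  simp only [d₁₂_hom_apply, map_smul, ← smul_sub, ← smul_add, key g h, smul_smul, ← hu,
    Units.inv_mul, one_smul]

end Finite

section Archimedean

instance finite_archimedeanDecomposition : Finite ↥archimedeanDecomposition := by
  have h : IsOfFinOrder complexConjugation :=
    isOfFinOrder_iff_pow_eq_one.2 ⟨2, two_pos, complexConjugation_sq⟩
  exact (Set.finite_coe_iff.2 h.finite_zpowers)

theorem natCard_archimedeanDecomposition_dvd_two : Nat.card ↥archimedeanDecomposition ∣ 2 := by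
  rw [archimedeanDecomposition, Nat.card_zpowers]
  exact orderOf_dvd_of_pow_eq_one complexConjugation_sq

theorem isUnit_natCard_archimedeanDecomposition {k : Type*} [CommRing k] (h2 : IsUnit (2 : k)) :
    IsUnit (Nat.card ↥archimedeanDecomposition : k) := by
  rcases (Nat.dvd_prime Nat.prime_two).1 natCard_archimedeanDecomposition_dvd_two with h | h
  · rw [h]; simp
  · rw [h]; simpa using h2

theorem mem_archimedeanDecomposition_iff
    (s : AlgebraicClosure ℚ ≃ₐ[ℚ] AlgebraicClosure ℚ) :
    s ∈ archimedeanDecomposition ↔ s = 1 ∨ s = complexConjugation := by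
  constructor
  · intro hs
    obtain ⟨n, hn⟩ := Subgroup.mem_zpowers_iff.1 hs
    rcases Int.even_or_odd n with ⟨m, rfl⟩ | ⟨m, rfl⟩
    · left
      rw [← hn, ← two_mul, zpow_mul, zpow_ofNat, complexConjugation_sq, one_zpow]
    · right
      rw [← hn, zpow_add, zpow_mul, zpow_ofNat, complexConjugation_sq, one_zpow, one_mul,
        zpow_one]
  · rintro (rfl | rfl)
    · exact one_mem _
    · exact Subgroup.mem_zpowers _

/-- There is a finite level whose pull-back to the archimedean group is trivial. -/
theorem exists_level_archimedean :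
    ∃ F : IntermediateField ℚ (AlgebraicClosure ℚ), FiniteDimensional ℚ F ∧
      ∀ s : ↥archimedeanDecomposition, archimedeanLoc s ∈ F.fixingSubgroup → s = 1 := by
  by_cases hc : complexConjugation = 1
  · refine ⟨⊥, inferInstance, fun s _ => ?_⟩
    rcases (mem_archimedeanDecomposition_iff s.1).1 s.2 with h | h
    · exact Subtype.ext h
    · exact Subtype.ext (h.trans hc)
  · obtain ⟨y, hy⟩ : ∃ y : AlgebraicClosure ℚ, complexConjugation y ≠ y := by
      by_contra hcon
      push Not at hcon
      exact hc (AlgEquiv.ext hcon)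
    have hyint : IsIntegral ℚ y := ((AlgebraicClosure.isAlgebraic ℚ).isAlgebraic y).isIntegral
    refine ⟨IntermediateField.adjoin ℚ {y}, IntermediateField.adjoin.finiteDimensional hyint,
      fun s hs => ?_⟩
    rcases (mem_archimedeanDecomposition_iff s.1).1 s.2 with h | h
    · exact Subtype.ext h
    · exfalso
      rw [IntermediateField.mem_fixingSubgroup_iff] at hs
      have := hs y (IntermediateField.mem_adjoin_simple_self ℚ y)
      apply hy
      have h' : archimedeanLoc s = complexConjugation := h
      rw [h'] at this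
      exact this

variable {k : Type} [CommRing k]

theorem isLevelConstant₁_archimedean {X : Type*} (f : ↥archimedeanDecomposition → X) :
    IsLevelConstant₁ archimedeanLoc f := by
  obtain ⟨F, hF, h⟩ := exists_level_archimedean
  exact ⟨F, hF, fun g s hs => by rw [h s hs, mul_one]⟩

theorem isLevelConstant₂_archimedean {X : Type*}
    (f : ↥archimedeanDecomposition × ↥archimedeanDecomposition → X) :
    IsLevelConstant₂ archimedeanLoc f := by
  obtain ⟨F, hF, h⟩ := exists_level_archimedean
  exact ⟨F, hF, fun g g' s s' hs hs' => by rw [h s hs, h s' hs', mul_one, mul_one]⟩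

/-- The archimedean local `H¹` vanishes when `2` is invertible. -/
theorem subsingleton_H1_archimedean (h2 : IsUnit (2 : k)) (B : Rep.{0} k ↥archimedeanDecomposition) :
    Subsingleton (H1 B) :=
  subsingleton_H1_of_isUnit_card B (isUnit_natCard_archimedeanDecomposition h2)

/-- The archimedean local continuous `H²` vanishes when `2` is invertible. -/
theorem subsingleton_continuousH2_archimedean (h2 : IsUnit (2 : k))
    (B : Rep.{0} k ↥archimedeanDecomposition) :
    Subsingleton (continuousH2 archimedeanLoc B) := by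
  refine ⟨fun x y => ?_⟩
  have hz : ∀ z : continuousH2 archimedeanLoc B, z = 0 := by
    intro z
    obtain ⟨f, rfl⟩ := Submodule.mkQ_surjective _ z
    have := (continuousH2π_eq_zero_iff archimedeanLoc B f).2 (by
      obtain ⟨x, hx⟩ := exists_d₁₂_eq_of_mem_cocycles₂ B
        (isUnit_natCard_archimedeanDecomposition h2) (f : _ → B) f.2.1
      exact (mem_levelCoboundaries₂_iff archimedeanLoc B _).2
        ⟨x, isLevelConstant₁_archimedean x, hx⟩)
    exact this
  rw [hz x, hz y]

end Archimedean

section Sha

variable (S : Finset Nat.Primes)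

/-- `sha₂` only sees the finite places: the archimedean index is automatic. -/
theorem mem_sha₂_iff {k : Type} [CommRing k] (h2 : IsUnit (2 : k))
    (M : Rep k (AlgebraicClosure ℚ ≃ₐ[ℚ] AlgebraicClosure ℚ)) (x : continuousH2S S M) :
    x ∈ sha₂ S M ↔ ∀ q : ↥S, locRes₂S S M (primeLocalToGlobal q.1) x = 0 := by
  rw [sha₂, LinearMap.mem_ker]
  constructor
  · intro h q
    exact congrFun h (Sum.inr q)
  · intro h
    funext v
    rcases v with v | q
    · have := subsingleton_continuousH2_archimedean h2 (Rep.res archimedeanLoc M)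
      exact Subsingleton.elim (α := continuousH2 archimedeanLoc (Rep.res archimedeanLoc M)) _ _
    · exact h q

/-- `sha₁` only sees the finite places: the archimedean index is automatic. -/
theorem mem_sha₁_iff {K : Type} [Field K] (h2 : (2 : K) ≠ 0)
    (A : Rep K (AlgebraicClosure ℚ ≃ₐ[ℚ] AlgebraicClosure ℚ)) (x : H1 A) :
    x ∈ sha₁ S A ↔ x ∈ continuousH1S S A ∧
      ∀ q : ↥S, (groupCohomology.map (primeLocalToGlobal q.1)
        (𝟙 (Rep.res (primeLocalToGlobal q.1) A)) 1).hom x = 0 := by
  rw [sha₁, Submodule.mem_inf, LinearMap.mem_ker]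
  refine and_congr_right fun _ => ?_
  constructor
  · intro h q
    exact congrFun h (Sum.inr q)
  · intro h
    funext v
    rcases v with v | q
    · have := subsingleton_H1_archimedean (IsUnit.mk0 _ h2) (Rep.res archimedeanLoc A)
      exact Subsingleton.elim (α := H1 (Rep.res archimedeanLoc A)) _ _
    · exact h q

/-- `2` is a unit of `ZMod p` for an odd prime `p`. -/
theorem isUnit_two_zmod {p : ℕ} [Fact p.Prime] (hp2 : p ≠ 2) : IsUnit (2 : ZMod p) := by
  refine IsUnit.mk0 _ fun h => hp2 ?_
  have h' : ((2 : ℕ) : ZMod p) = 0 := by exact_mod_cast h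
  rw [ZMod.natCast_eq_zero_iff] at h'
  exact ((Nat.prime_dvd_prime_iff_eq Fact.out Nat.prime_two).1 h')

/-- `sha₂` over `ZMod p`, `p` odd: conditions only at the finite places `q ∈ S`. -/
theorem mem_sha₂_zmod_iff {p : ℕ} [Fact p.Prime] (hp2 : p ≠ 2)
    (M : Rep (ZMod p) (AlgebraicClosure ℚ ≃ₐ[ℚ] AlgebraicClosure ℚ)) (x : continuousH2S S M) :
    x ∈ sha₂ S M ↔ ∀ q : ↥S, locRes₂S S M (primeLocalToGlobal q.1) x = 0 :=
  mem_sha₂_iff S (isUnit_two_zmod hp2) M x

/-- `sha₁` over `ZMod p`, `p` odd: conditions only at the finite places `q ∈ S`. -/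
theorem mem_sha₁_zmod_iff {p : ℕ} [Fact p.Prime] (hp2 : p ≠ 2)
    (A : Rep (ZMod p) (AlgebraicClosure ℚ ≃ₐ[ℚ] AlgebraicClosure ℚ)) (x : H1 A) :
    x ∈ sha₁ S A ↔ x ∈ continuousH1S S A ∧
      ∀ q : ↥S, (groupCohomology.map (primeLocalToGlobal q.1)
        (𝟙 (Rep.res (primeLocalToGlobal q.1) A)) 1).hom x = 0 :=
  mem_sha₁_iff S (isUnit_two_zmod hp2).ne_zero A x

/-- Explicit cocycle form of the local condition in `sha₁`: a class `[c]` restricts to `0` at `q`
iff the restricted cocycle is a coboundary, i.e. `c (loc σ) = (loc σ) • m - m` for some `m`. -/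
theorem map_H1π_eq_zero_iff {K : Type} [Field K]
    (A : Rep K (AlgebraicClosure ℚ ≃ₐ[ℚ] AlgebraicClosure ℚ)) (q : Nat.Primes)
    (c : cocycles₁ A) :
    (groupCohomology.map (primeLocalToGlobal q)
        (𝟙 (Rep.res (primeLocalToGlobal q) A)) 1).hom ((H1π A).hom c) = 0 ↔
      ∃ m : A, ∀ σ : primeLocalGaloisGroup q,
        c (primeLocalToGlobal q σ) = A.ρ (primeLocalToGlobal q σ) m - m := by
  have h := congrArg (fun f => f.hom c)
    (groupCohomology.H1π_comp_map (A := A) (B := Rep.res (primeLocalToGlobal q) A)
      (primeLocalToGlobal q) (𝟙 _))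
  simp only [ModuleCat.hom_comp, LinearMap.comp_apply] at h
  rw [h, H1π_eq_zero_iff]
  constructor
  · rintro ⟨m, hm⟩
    refine ⟨m, fun σ => ?_⟩
    have := congrFun hm σ
    rw [d₀₁_hom_apply] at this
    exact this.symm
  · rintro ⟨m, hm⟩
    refine ⟨m, ?_⟩
    funext σ
    rw [d₀₁_hom_apply]
    exact (hm σ).symm

end Sha

end Fermat.Agent.S55.helper51
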