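import Fermat.Agent.S55.helper4_BridgeLevels
import Fermat.Agent.S55.helper51_Arch

/-!
# S55 / A-BRIDGE (helper4): `BridgeStatement p S`

The Prelude's `sha₁`, `sha₂` are linearly equivalent to the abstract `Sha1`, `Sha2` of
`galLocal S`.
-/

set_option autoImplicit false

open CategoryTheory groupCohomology ExtCitation

noncomputable section

namespace Fermat.Agent.S55.helper4

variable (S : Finset Nat.Primes)

/-! ## `Sha1` -/

section Sha1

variable {K : Type} [Field K] (A : Rep K GQ)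

theorem Z1_le_cocycles₁ : Z1 (galLevels S) A ≤ cocycles₁ A := fun _ h => h.2

/-- the comparison map from the level `H^1` to Mathlib's `H1` -/
def toH1 : Fermat.Agent.S55.H1 (galLevels S) A →ₗ[K] groupCohomology.H1 A :=
  Submodule.liftQ _ ((H1π A).hom ∘ₗ Submodule.inclusion (Z1_le_cocycles₁ S A)) (by
    intro c hc
    rw [LinearMap.mem_ker, LinearMap.comp_apply]
    exact (H1π_eq_zero_iff _).2 hc)

theorem toH1_mk (c : Z1 (galLevels S) A) :
    toH1 S A (Submodule.Quotient.mk c) = (H1π A).hom ⟨c.1, Z1_le_cocycles₁ S A c.2⟩ := rfl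

theorem toH1_injective : Function.Injective (toH1 S A) := by
  rw [← LinearMap.ker_eq_bot, LinearMap.ker_eq_bot']
  intro y hy
  obtain ⟨c, rfl⟩ := Submodule.Quotient.mk_surjective _ y
  rw [toH1_mk] at hy
  have h1 := (H1π_eq_zero_iff _).1 hy
  exact (Submodule.Quotient.mk_eq_zero _).2 h1

/-- local triviality of a cochain at the finite places, in elementary terms -/
theorem mem_LocTriv1_iff (c : GQ → A) :
    c ∈ LocTriv1 (galLocal S) A ↔ ∀ q : ↥S, ∃ m : A, ∀ σ : primeLocalGaloisGroup q.1,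
      c (primeLocalToGlobal q.1 σ) = A.ρ (primeLocalToGlobal q.1 σ) m - m := by
  unfold LocTriv1
  rw [Submodule.mem_iInf]
  refine forall_congr' fun q => ?_
  rw [Submodule.mem_comap]
  unfold B1
  rw [LinearMap.mem_range]
  constructor
  · rintro ⟨m, hm⟩
    refine ⟨m, fun σ => ?_⟩
    have := congrFun hm σ
    exact this.symm
  · rintro ⟨m, hm⟩
    refine ⟨m, ?_⟩
    funext σ
    exact (hm σ).symm

theorem map_toH1_Sha1 (h2 : (2 : K) ≠ 0) :
    (Sha1 (galLocal S) A).map (toH1 S A) = sha₁ S A := by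
  ext x
  rw [Submodule.mem_map, Fermat.Agent.S55.helper51.mem_sha₁_iff S h2 A x]
  constructor
  · rintro ⟨y, hy, rfl⟩
    unfold Sha1 at hy
    rw [Submodule.mem_map] at hy
    obtain ⟨c, hc, rfl⟩ := hy
    rw [Submodule.mem_comap] at hc
    have hcZ := (mem_Z1_galLevels_iff S A c.1).1 c.2
    rw [Submodule.mkQ_apply, toH1_mk]
    refine ⟨(mem_continuousH1S_iff S A _).2 ⟨⟨c.1, hcZ.2⟩, hcZ.1, rfl⟩, fun q => ?_⟩
    rw [Fermat.Agent.S55.helper51.map_H1π_eq_zero_iff]
    exact (mem_LocTriv1_iff S A c.1).1 hc q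
  · rintro ⟨hx, hloc⟩
    obtain ⟨c, hc, rfl⟩ := (mem_continuousH1S_iff S A x).1 hx
    have hcZ : c.1 ∈ Z1 (galLevels S) A := (mem_Z1_galLevels_iff S A c.1).2 ⟨hc, c.2⟩
    refine ⟨Submodule.Quotient.mk ⟨c.1, hcZ⟩, ?_, ?_⟩
    · unfold Sha1
      rw [Submodule.mem_map]
      refine ⟨⟨c.1, hcZ⟩, ?_, rfl⟩
      rw [Submodule.mem_comap]
      refine (mem_LocTriv1_iff S A c.1).2 fun q => ?_
      have := hloc q
      rw [Fermat.Agent.S55.helper51.map_H1π_eq_zero_iff] at this
      exact this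
    · rw [toH1_mk]

/-- **Bridge for `Sha^1`**. -/
theorem nonempty_sha₁_equiv (h2 : (2 : K) ≠ 0) :
    Nonempty (sha₁ S A ≃ₗ[K] Sha1 (galLocal S) A) :=
  ⟨((Submodule.equivMapOfInjective (toH1 S A) (toH1_injective S A) (Sha1 (galLocal S) A)).trans
    (LinearEquiv.ofEq _ _ (map_toH1_Sha1 S A h2))).symm⟩

end Sha1

/-! ## `Sha2` -/

section Sha2

variable {k : Type} [CommRing k] (M : Rep k GQ)

/-- the identification of the Prelude's level 2-cocycles with the abstract ones -/
def cocyclesEquiv : ↥(levelCocyclesS₂ S M) ≃ₗ[k] ↥(Z2 (galLevels S) M) :=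
  LinearEquiv.ofEq _ _ (Z2_galLevels_eq S M).symm

@[simp] theorem coe_cocyclesEquiv (f : ↥(levelCocyclesS₂ S M)) :
    ((cocyclesEquiv S M f : ↥(Z2 (galLevels S) M)) : GQ × GQ → M) = f := rfl

/-- the identification of the Prelude's `continuousH2S` with the abstract level `H^2` -/
def h2Equiv : continuousH2S S M ≃ₗ[k] Fermat.Agent.S55.H2 (galLevels S) M :=
  Submodule.Quotient.equiv _ _ (cocyclesEquiv S M) (by
    ext f
    rw [Submodule.mem_map, Submodule.mem_comap]
    constructor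
    · rintro ⟨g, hg, rfl⟩
      rw [Submodule.mem_comap] at hg
      rw [B2_galLevels_eq]
      exact hg
    · intro hf
      refine ⟨(cocyclesEquiv S M).symm f, ?_, (cocyclesEquiv S M).apply_symm_apply f⟩
      rw [Submodule.mem_comap]
      rw [B2_galLevels_eq] at hf
      exact hf)

theorem h2Equiv_mk (f : ↥(levelCocyclesS₂ S M)) :
    h2Equiv S M (Submodule.Quotient.mk f) = Submodule.Quotient.mk (cocyclesEquiv S M f) := rfl

/-- local triviality of a 2-cochain at the finite places, in the Prelude's terms -/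
theorem mem_LocTriv2_iff (f : GQ × GQ → M) :
    f ∈ LocTriv2 (galLocal S) M ↔ ∀ q : ↥S,
      cochainsPullPush₂ (primeLocalToGlobal q.1)
        (LinearMap.id : M →ₗ[k] Rep.res (primeLocalToGlobal q.1) M) f ∈
        levelCoboundaries₂ (primeLocalToGlobal q.1) (Rep.res (primeLocalToGlobal q.1) M) := by
  unfold LocTriv2
  rw [Submodule.mem_iInf]
  refine forall_congr' fun q => ?_
  rw [Submodule.mem_comap]
  have h := B2_locLevels_eq q.1 (Rep.res (primeLocalToGlobal q.1) M)
  change res₂ (galLocal S) M q f ∈ B2 (locLevels q.1) (Rep.res (primeLocalToGlobal q.1) M) ↔ _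
  rw [h]
  rfl

theorem locRes₂S_mk (q : Nat.Primes) (f : ↥(levelCocyclesS₂ S M)) :
    locRes₂S S M (primeLocalToGlobal q) (continuousH2Sπ S M f) = 0 ↔
      cochainsPullPush₂ (primeLocalToGlobal q)
        (LinearMap.id : M →ₗ[k] Rep.res (primeLocalToGlobal q) M) f.1 ∈
        levelCoboundaries₂ (primeLocalToGlobal q) (Rep.res (primeLocalToGlobal q) M) := by
  have h1 : locRes₂S S M (primeLocalToGlobal q) (continuousH2Sπ S M f) =
      continuousH2π (primeLocalToGlobal q) (Rep.res (primeLocalToGlobal q) M)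
        (levelCocycles₂Map (rH := MonoidHom.id _) (rG := primeLocalToGlobal q)
          (primeLocalToGlobal q) (fun _ => rfl)
          (LinearMap.id : M →ₗ[k] Rep.res (primeLocalToGlobal q) M) (fun _ _ => rfl)
          (levelCocyclesS₂ToLevelCocycles₂ S M f)) := rfl
  rw [h1, continuousH2π_eq_zero_iff]
  rfl

theorem map_h2Equiv_sha₂ (h2 : IsUnit (2 : k)) :
    (sha₂ S M).map (h2Equiv S M).toLinearMap = Sha2 (galLocal S) M := by
  ext y
  rw [Submodule.mem_map]
  constructor
  · rintro ⟨x, hx, rfl⟩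
    rw [Fermat.Agent.S55.helper51.mem_sha₂_iff S h2 M x] at hx
    obtain ⟨f, rfl⟩ := Submodule.Quotient.mk_surjective _ x
    unfold Sha2
    rw [Submodule.mem_map]
    refine ⟨cocyclesEquiv S M f, ?_, rfl⟩
    rw [Submodule.mem_comap]
    refine (mem_LocTriv2_iff S M _).2 fun q => ?_
    exact (locRes₂S_mk S M q.1 f).1 (hx q)
  · intro hy
    unfold Sha2 at hy
    rw [Submodule.mem_map] at hy
    obtain ⟨g, hg, rfl⟩ := hy
    rw [Submodule.mem_comap] at hg
    refine ⟨Submodule.Quotient.mk ((cocyclesEquiv S M).symm g), ?_, ?_⟩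
    · rw [Fermat.Agent.S55.helper51.mem_sha₂_iff S h2 M]
      intro q
      refine (locRes₂S_mk S M q.1 _).2 ?_
      exact (mem_LocTriv2_iff S M _).1 hg q
    · change h2Equiv S M (Submodule.Quotient.mk ((cocyclesEquiv S M).symm g)) = _
      rw [h2Equiv_mk, LinearEquiv.apply_symm_apply]
      rfl

/-- **Bridge for `Sha^2`**. -/
theorem nonempty_sha₂_equiv (h2 : IsUnit (2 : k)) :
    Nonempty (sha₂ S M ≃ₗ[k] Sha2 (galLocal S) M) :=
  ⟨((h2Equiv S M).submoduleMap (sha₂ S M)).trans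
    (LinearEquiv.ofEq _ _ (map_h2Equiv_sha₂ S M h2))⟩

end Sha2

/-- **`BridgeStatement p S`** (task S55-A-BRIDGE): the Prelude's `sha₁`, `sha₂` are linearly
equivalent to the abstract `Sha1`, `Sha2` of `galLocal S`. -/
theorem bridgeStatement (p : ℕ) [Fact p.Prime] : BridgeStatement p S := by
  intro hp2 _ M _ _
  exact ⟨nonempty_sha₁_equiv S _ (Fermat.Agent.S55.helper51.isUnit_two_zmod hp2).ne_zero,
    nonempty_sha₂_equiv S M (Fermat.Agent.S55.helper51.isUnit_two_zmod hp2)⟩

end Fermat.Agent.S55.helper4
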