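import Fermat.Agent.S55.AMain
import Fermat.Agent.S55.helper4_Bridge

/-!
# S55: the statement from the arithmetic base case alone

`s55_of_baseTargetP` : the frozen statement S55 from `BaseTargetP p S`, the single remaining
input (modules SH + B + class field theory).
-/

set_option autoImplicit false

open CategoryTheory Module groupCohomology ExtCitation

noncomputable section

namespace Fermat.Agent.S55

set_option maxHeartbeats 4000000 in
/-- S55 from the arithmetic base case. -/
theorem s55_of_baseTargetP {p : ℕ} [Fact p.Prime] (S : Finset Nat.Primes)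
    (hB : BaseTargetP p S) (hp2 : p ≠ 2) (hpS : pPrime p ∈ S)
    (M : Rep (ZMod p) (AlgebraicClosure ℚ ≃ₐ[ℚ] AlgebraicClosure ℚ))
    [FiniteDimensional (ZMod p) M]
    (hsm : ∀ m : M, ∃ F : IntermediateField ℚ (AlgebraicClosure ℚ), FiniteDimensional ℚ F ∧
      ∀ s ∈ F.fixingSubgroup, M.ρ s m = m)
    (hMur : ∀ q : Nat.Primes, q ∉ S → ∀ A : ValuationSubring (AlgebraicClosure ℚ),
      A.LiesOverPrime (q : ℕ) → ∀ g ∈ A.inertiaSubgroupIn ℚ, M.ρ g = 1) :
    ∃ B : sha₁ S (M.dualTwist (cycloChar p)) →ₗ[ZMod p] sha₂ S M →ₗ[ZMod p] ZMod p,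
      (∀ y, (∀ x, B y x = 0) → y = 0) ∧ (∀ x, (∀ y, B y x = 0) → x = 0) :=
  s55_of_baseTargetP_of_bridge S hB (helper4.bridgeStatement (S := S) p) hp2 hpS M hsm hMur

end Fermat.Agent.S55
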