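import Fermat.Agent.S55.ABasic

/-!
# S55 module SH: abstract transport of `Claim`, coinduction direction (helper53)

Same purpose as `helper53_ShTransport.lean`, but with the cone maps going from the primed side
(the open subgroup `U`, trivial coefficients) to the unprimed side (`G`, coefficients `k[G/U]`
and its twisted dual), as in helper35's design of module SH:

* `s_i : C^i(G, A) → C^i(G', A')` (`i = 0, 1, 2`)     (evaluation / restriction, "Shapiro"),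
* `P_j : C_c^j(L', B') → C_c^j(L, B)` (`j = 1, 2, 3`) (coinduction `Ψ`).

`ShTransportP` lists exactly the properties used in

  `ShTransportP.claim : Claim L' φ' tr' → Claim L φ tr`,
  `ShTransportP.exists_ne_zero` (non-vanishing of `tr'` on cone cocycles).

Neither injectivity of `P_j` nor any homotopy on non-cocycles is needed.
-/

set_option autoImplicit false

universe u

open groupCohomology

noncomputable section

namespace Fermat.Agent.S55.helper53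

open Fermat.Agent.S55

variable {k G G' : Type u} [Field k] [Group G] [Group G']
  {𝒩 : Levels G} {𝒩' : Levels G'} {ι ι' : Type}

/-- SHAPIRO-TYPE TRANSPORT DATA, coinduction direction. -/
structure ShTransportP (L : LocalData G 𝒩 ι) {A B C : Rep.{u} k G} (φ : EqPairing A B C)
    (tr : CcAmb3 L C →ₗ[k] k)
    (L' : LocalData G' 𝒩' ι') {A' B' C' : Rep.{u} k G'} (φ' : EqPairing A' B' C')
    (tr' : CcAmb3 L' C' →ₗ[k] k) where
  /-- the map on `0`-cochains -/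
  s0 : A → A'
  /-- the map on `1`-cochains -/
  s1 : (G → A) → (G' → A')
  /-- the map on `2`-cochains -/
  s2 : (G × G → A) → (G' × G' → A')
  /-- coinduction of cone `1`-cochains -/
  P1 : CcAmb1 L' B' → CcAmb1 L B
  /-- coinduction of cone `2`-cochains -/
  P2 : CcAmb2 L' B' →ₗ[k] CcAmb2 L B
  /-- coinduction of cone `3`-cochains -/
  P3 : CcAmb3 L' B' →ₗ[k] CcAmb3 L B
  s0_mem : ∀ a ∈ H0 A, s0 a ∈ H0 A'
  s1_mem : ∀ x ∈ Z1 𝒩 A, s1 x ∈ Z1 𝒩' A'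
  s2_mem : ∀ x ∈ Z2 𝒩 A, s2 x ∈ Z2 𝒩' A'
  /-- `H^0(A) → H^0(A')` is surjective -/
  s0_surj : ∀ a' ∈ H0 A', ∃ a ∈ H0 A, s0 a = a'
  /-- `H^1(A) → H^1(A')` is injective -/
  s1_inj : ∀ x ∈ Z1 𝒩 A, s1 x ∈ B1 A' → x ∈ B1 A
  /-- `H^1(A) → H^1(A')` is surjective -/
  s1_surj : ∀ x' ∈ Z1 𝒩' A', ∃ x ∈ Z1 𝒩 A, s1 x - x' ∈ B1 A'
  /-- `H^2(A) → H^2(A')` is injective -/
  s2_inj : ∀ x ∈ Z2 𝒩 A, s2 x ∈ B2 𝒩' A' → x ∈ B2 𝒩 A
  P1_mem : ∀ y' ∈ Zc1 L' B', P1 y' ∈ Zc1 L B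
  P2_mem : ∀ y' ∈ Zc2 L' B', P2 y' ∈ Zc2 L B
  P3_mem : ∀ y' ∈ Zc3 L' B', P3 y' ∈ Zc3 L B
  /-- coboundaries to coboundaries, degree 2 -/
  P2_bdry : ∀ y' ∈ Bc2 L' B', P2 y' ∈ Bc2 L B
  /-- coboundaries to coboundaries, degree 3 -/
  P3_bdry : ∀ y' ∈ Bc3 L' B', P3 y' ∈ Bc3 L B
  /-- `H_c^2(B') → H_c^2(B)` is surjective -/
  P2_surj : ∀ y ∈ Zc2 L B, ∃ y' ∈ Zc2 L' B', y - P2 y' ∈ Bc2 L B
  /-- `H_c^3(B') → H_c^3(B)` is surjective -/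
  P3_surj : ∀ y ∈ Zc3 L B, ∃ y' ∈ Zc3 L' B', y - P3 y' ∈ Bc3 L B
  /-- projection formula in bidegree `(0, 3)` -/
  pf03 : ∀ a ∈ H0 A, ∀ y' ∈ Zc3 L' B',
    tr (cupc₀₃ L φ a (P3 y')) = tr' (cupc₀₃ L' φ' (s0 a) y')
  /-- projection formula in bidegree `(1, 2)` -/
  pf12 : ∀ x ∈ Z1 𝒩 A, ∀ y' ∈ Zc2 L' B',
    tr (cupc₁₂ L φ x (P2 y')) = tr' (cupc₁₂ L' φ' (s1 x) y')
  /-- projection formula in bidegree `(2, 1)` -/
  pf21 : ∀ x ∈ Z2 𝒩 A, ∀ y' ∈ Zc1 L' B',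
    tr (cupc₂₁ L φ x (P1 y')) = tr' (cupc₂₁ L' φ' (s2 x) y')

namespace ShTransportP

variable {L : LocalData G 𝒩 ι} {A B C : Rep.{u} k G} {φ : EqPairing A B C}
  {tr : CcAmb3 L C →ₗ[k] k}
  {L' : LocalData G' 𝒩' ι'} {A' B' C' : Rep.{u} k G'} {φ' : EqPairing A' B' C'}
  {tr' : CcAmb3 L' C' →ₗ[k] k}

theorem surj0 (D : ShTransportP L φ tr L' φ' tr') (htr : ∀ c ∈ Bc3 L C, tr c = 0)
    (h : Surj0 L' φ' tr') : Surj0 L φ tr := by
  intro ψ hψ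
  obtain ⟨a', ha', h1⟩ := h (ψ.comp D.P3) fun y' hy' => hψ _ (D.P3_bdry y' hy')
  obtain ⟨a, ha, rfl⟩ := D.s0_surj a' ha'
  refine ⟨a, ha, fun y hy => ?_⟩
  obtain ⟨y', hy', w, hw, hwy⟩ := D.P3_surj y hy
  have e : y = D.P3 y' + dc₂₃ L B w := by rw [hwy]; abel
  have h2 : ψ (D.P3 y') = tr' (cupc₀₃ L' φ' (D.s0 a) y') := h1 y' hy'
  rw [e, map_add, hψ _ ⟨w, hw, rfl⟩, add_zero, h2, ← D.pf03 a ha y' hy', ← cupL₀₃_apply,
    ← cupL₀₃_apply, map_add, map_add, cupL₀₃_apply, cupL₀₃_apply,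
    htr _ (cupc₀₃_dc₂₃_mem_Bc3 L φ ha hw), add_zero]

theorem inj1 (D : ShTransportP L φ tr L' φ' tr') (h : Inj1 L' φ' tr') : Inj1 L φ tr := by
  intro x hx hxy
  refine D.s1_inj x hx (h _ (D.s1_mem x hx) fun y' hy' => ?_)
  rw [← D.pf12 x hx y' hy']
  exact hxy _ (D.P2_mem y' hy')

theorem surj1 (D : ShTransportP L φ tr L' φ' tr') (hB : IsSmooth 𝒩 B)
    (htr : ∀ c ∈ Bc3 L C, tr c = 0) (htr' : ∀ c ∈ Bc3 L' C', tr' c = 0)
    (h : Surj1 L' φ' tr') : Surj1 L φ tr := by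
  intro ψ hψ
  obtain ⟨x', hx', h1⟩ := h (ψ.comp D.P2) fun y' hy' => hψ _ (D.P2_bdry y' hy')
  obtain ⟨x, hx, a, ha⟩ := D.s1_surj x' hx'
  refine ⟨x, hx, fun y hy => ?_⟩
  obtain ⟨y', hy', w, hw, hwy⟩ := D.P2_surj y hy
  have e : y = D.P2 y' + dc₁₂ L B w := by rw [hwy]; abel
  have e' : D.s1 x = x' + (d₀₁ A').hom a := by rw [ha]; abel
  have h2 : ψ (D.P2 y') = tr' (cupc₁₂ L' φ' x' y') := h1 y' hy'
  have h3 : tr' (cupc₁₂ L' φ' (D.s1 x) y') = tr' (cupc₁₂ L' φ' x' y') := by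
    rw [e', ← cupL₁₂_apply, map_add, LinearMap.add_apply, map_add, cupL₁₂_apply, cupL₁₂_apply,
      htr' _ (cupc₁₂_d₀₁_mem_Bc3 L' φ' a hy'), add_zero]
  rw [e, map_add, hψ _ ⟨w, hw, rfl⟩, add_zero, h2, ← h3, ← D.pf12 x hx y' hy', ← cupL₁₂_apply,
    ← cupL₁₂_apply, map_add, map_add, cupL₁₂_apply, cupL₁₂_apply,
    htr _ (cupc₁₂_dc₁₂_mem_Bc3 L φ hB hx hw), add_zero]

theorem inj2 (D : ShTransportP L φ tr L' φ' tr') (h : Inj2 L' φ' tr') : Inj2 L φ tr := by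
  intro x hx hxy
  refine D.s2_inj x hx (h _ (D.s2_mem x hx) fun y' hy' => ?_)
  rw [← D.pf21 x hx y' hy']
  exact hxy _ (D.P1_mem y' hy')

/-- TRANSPORT OF THE CLAIM, coinduction direction. -/
theorem claim (D : ShTransportP L φ tr L' φ' tr') (hB : IsSmooth 𝒩 B)
    (htr : ∀ c ∈ Bc3 L C, tr c = 0) (htr' : ∀ c ∈ Bc3 L' C', tr' c = 0)
    (h : Claim L' φ' tr') : Claim L φ tr :=
  ⟨D.surj0 htr h.surj0, D.inj1 h.inj1, D.surj1 hB htr htr' h.surj1, D.inj2 h.inj2⟩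

/-- NON-VANISHING OF THE TRANSPORTED TRACE: if `C` is a retract of `B` up to the scalar `n ≠ 0`
through the invariant element `a` (in the application `a = ∑ e_i`, `f 1 =` the constant function,
`n = [G:U]`), and `tr` is nonzero on cone `3`-cocycles, then so is `tr'`. -/
theorem exists_ne_zero (D : ShTransportP L φ tr L' φ' tr') (htr : ∀ c ∈ Bc3 L C, tr c = 0)
    {a : A} (ha : a ∈ H0 A)
    (f : EqHom C B) (n : k) (hn : n ≠ 0) (hf : ∀ c : C, φ.φ a (f.f c) = n • c)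
    (hz : ∃ z ∈ Zc3 L C, tr z ≠ 0) : ∃ z' ∈ Zc3 L' C', tr' z' ≠ 0 := by
  obtain ⟨z, hz, hne⟩ := hz
  have hy : ccmap₃ L f.f z ∈ Zc3 L B := ccmap₃_mem_Zc3 L f hz
  have e : cupc₀₃ L φ a (ccmap₃ L f.f z) = n • z := by
    refine Prod.ext ?_ ?_
    · funext g
      exact hf _
    · funext v s
      exact hf _
  obtain ⟨y', hy', w, hw, hwy⟩ := D.P3_surj _ hy
  have e2 : ccmap₃ L f.f z = D.P3 y' + dc₂₃ L B w := by rw [hwy]; abel
  have hs0 : ∀ g : G', A'.ρ g (D.s0 a) = D.s0 a := (mem_H0).1 (D.s0_mem a ha)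
  let F : EqHom B' C' := ⟨φ'.φ (D.s0 a), fun g b => by
    have h := φ'.equivariant g (D.s0 a) b
    rw [hs0 g] at h
    exact h⟩
  refine ⟨cupc₀₃ L' φ' (D.s0 a) y', ccmap₃_mem_Zc3 L' F hy', ?_⟩
  have h1 : tr (cupc₀₃ L φ a (ccmap₃ L f.f z)) = tr (cupc₀₃ L φ a (D.P3 y')) := by
    rw [e2, ← cupL₀₃_apply, ← cupL₀₃_apply, map_add, map_add, cupL₀₃_apply, cupL₀₃_apply,
      htr _ (cupc₀₃_dc₂₃_mem_Bc3 L φ ha hw), add_zero]
  rw [← D.pf03 a ha y' hy', ← h1, e, map_smul, smul_eq_mul]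
  exact mul_ne_zero hn hne

end ShTransportP

end Fermat.Agent.S55.helper53
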