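import Fermat.Agent.S55.AssemblyP
import Fermat.Agent.S55.ShArith
import Fermat.Agent.S55.helper53_ShTransportP
import Fermat.Agent.S55.helper35_Cor
import Fermat.Agent.S55.helper38_ShTrB
import Fermat.Agent.S55.helper57_ShData
import Fermat.Agent.S55.helper59_BAbs
import Fermat.Agent.S55.helper62_ShapiroA

/-!
# S55 module SH / FIN: the arithmetic base target from TOP-TR, SH-MAIN and B (helper53)

* `claim_perm_of_transportP` (abstract FIN): for `U ≤ G` open of index invertible in `k`,
  `χ|U = 1`, a trace `tr` killing cone coboundaries and nonzero on cone cocycles, a transport datum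
  `T : ShTransportP L (evPairing k[G/U] χ) tr (D.localData hU) (mulPairing k U) (tr ∘ corCone)`
  and the claim for trivial coefficients over `U` (for every admissible trace) give the claim for
  `k[G/U]` over `G`.  (`tr ∘ corCone` kills coboundaries by helper38's SH-TR-B and is nonzero on
  cocycles by `ShTransportP.exists_ne_zero` applied to the norm element and the augmentation.)
* `TopTrStatement`, `ShMainStatement`, `BClaimStatement`, `BInputStatement` : the three inputs as
  `Prop`s;
* `baseTargetP_of_inputs : TopTrStatement p S → ShMainStatement p S → BClaimStatement p S →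
  BaseTargetP p S`   (then `s55_of_baseTargetP` of `Final.lean` gives S55).
-/

set_option autoImplicit false
set_option linter.unusedSectionVars false

open groupCohomology ExtCitation

noncomputable section

namespace Fermat.Agent.S55.helper53

open Fermat.Agent.S55 Fermat.Agent.S55.helper35

section Abstract

variable {k G : Type} [Field k] [Group G] (U : Subgroup G) [Finite (G ⧸ U)]

/-- the augmentation `k[G/U] → k` (sum of the coefficients) -/
def augU : (permRep k U) →ₗ[k] k :=
  letI : Fintype (G ⧸ U) := Fintype.ofFinite _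
  { toFun := fun a => ∑ c : G ⧸ U, MonoidAlgebra.coeff (a : MonoidAlgebra k (G ⧸ U)) c
    map_add' := fun a b => by
      rw [← Finset.sum_add_distrib]
      rfl
    map_smul' := fun c a => by
      rw [RingHom.id_apply, Finset.smul_sum]
      rfl }

lemma augU_rho (g : G) (a : permRep k U) : augU U ((permRep k U).ρ g a) = augU U a := by
  let _ : Fintype (G ⧸ U) := Fintype.ofFinite _
  show ∑ c : G ⧸ U, MonoidAlgebra.coeff ((permRep k U).ρ g a : MonoidAlgebra k (G ⧸ U)) c
    = ∑ c : G ⧸ U, MonoidAlgebra.coeff (a : MonoidAlgebra k (G ⧸ U)) c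
  exact Fintype.sum_equiv (MulAction.toPerm g⁻¹) _ _ (fun c => helper62.h62_coeff_rho g a c)

lemma augU_normElt : augU U (helper62.normElt k U) = (Nat.card (G ⧸ U) : k) := by
  let _ : Fintype (G ⧸ U) := Fintype.ofFinite _
  show ∑ c : G ⧸ U, MonoidAlgebra.coeff (helper62.normElt k U : MonoidAlgebra k (G ⧸ U)) c = _
  simp only [helper62.coeff_normElt]
  rw [Finset.sum_const, Finset.card_univ, Nat.card_eq_fintype_card, nsmul_eq_mul, mul_one]

variable {U}

/-- the `χ`-eigenfunctional `aug ∈ k[G/U]^*(χ)` as an equivariant map `k(χ) → k[G/U]^*(χ)` -/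
def augEqHom (χ : G →* kˣ) : EqHom (ofChar χ) ((permRep k U).dualTwist χ) where
  f := LinearMap.toSpanSingleton k (Module.Dual k (permRep k U)) (augU U)
  comm g c := by
    rw [Rep.dualTwist_ρ_apply]
    apply LinearMap.ext
    intro a
    show ((χ g : k) • c) • augU U a = (χ g : k) • (c • augU U ((permRep k U).ρ g⁻¹ a))
    rw [augU_rho, smul_assoc]

lemma evPairing_normElt_augEqHom (χ : G →* kˣ) (c : k) :
    (evPairing (permRep k U) χ).φ (helper62.normElt k U) ((augEqHom (U := U) χ).f c)
      = (Nat.card (G ⧸ U) : k) • c := by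
  show c • augU U (helper62.normElt k U) = (Nat.card (G ⧸ U) : k) • c
  rw [augU_normElt, smul_eq_mul, smul_eq_mul, mul_comm]

variable {𝒩 : Levels G} {ι : Type} (L : LocalData G 𝒩 ι) (χ : G →* kˣ)

lemma isSmooth_permRep (hU : ∃ N ∈ 𝒩.mem, N ≤ U) : IsSmooth 𝒩 (permRep k U) := by
  obtain ⟨N, hN, hle⟩ := hU
  have := 𝒩.normal N hN
  exact ⟨N, hN, fun s hs a => helper57.ofMulAction_trivial_of_mem hle hs a⟩

/-- ABSTRACT FIN: the claim for `k[G/U]` from the claim for the open subgroup `U` (module B),
a transport datum (module SH) and a trace which is nonzero on cone cocycles. -/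
theorem claim_perm_of_transportP (tr : CcAmb3 L (ofChar χ) →ₗ[k] k)
    (hU : ∃ N ∈ 𝒩.mem, N ≤ U) (D : ShData L U)
    (htr : ∀ c ∈ Bc3 L (ofChar χ), tr c = 0) (hz : ∃ z ∈ Zc3 L (ofChar χ), tr z ≠ 0)
    (hχ : ∀ g ∈ U, χ g = 1) (hn : (Nat.card (G ⧸ U) : k) ≠ 0)
    (T : ShTransportP L (evPairing (permRep k U) χ) tr (D.localData hU) (mulPairing k ↥U)
      (tr ∘ₗ D.corCone χ hU))
    (hB : ∀ tr' : CcAmb3 (D.localData hU) (trivRep k ↥U) →ₗ[k] k,
      (∀ y ∈ Bc3 (D.localData hU) (trivRep k ↥U), tr' y = 0) →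
      (∃ y ∈ Zc3 (D.localData hU) (trivRep k ↥U), tr' y ≠ 0) →
      Claim (D.localData hU) (mulPairing k ↥U) tr') :
    Claim L (evPairing (permRep k U) χ) tr := by
  have htr' := helper38.tr_corCone_eq_zero L χ tr U hU D htr hχ
  have hne := T.exists_ne_zero htr helper62.normElt_mem_H0 (augEqHom χ) _ hn
    (evPairing_normElt_augEqHom χ) hz
  have hχN : ∃ N ∈ 𝒩.mem, ∀ g ∈ N, χ g = 1 := by
    obtain ⟨N, hN, hle⟩ := hU
    exact ⟨N, hN, fun g hg => hχ g (hle hg)⟩
  exact T.claim (isSmooth_dualTwist hχN (isSmooth_permRep hU)) htr htr' (hB _ htr' hne)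

end Abstract

/-! ## The arithmetic assembly -/

section Arith

variable (p : ℕ) [Fact p.Prime] (S : Finset Nat.Primes)

/-- TOP-TR: `H_c^3(G_{ℚ,S}; μ_p) ≠ 0` (there is a cone `3`-cocycle which is not a cone
coboundary). -/
def TopTrStatement : Prop :=
  ∃ z ∈ Zc3 (galLocal S) (groupCohomology.ofChar (k := ZMod p) (cycloChar p)),
    z ∉ Bc3 (galLocal S) (groupCohomology.ofChar (k := ZMod p) (cycloChar p))

/-- SH-MAIN: Shapiro transport data (coinduction direction) for every open subgroup on which the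
cyclotomic character is trivial, every choice of double coset representatives and every trace
killing cone coboundaries. -/
def ShMainStatement : Prop :=
  ∀ (U : Subgroup GQ) (hU : ∃ N ∈ (galLevels S).mem, N ≤ U) [Finite (GQ ⧸ U)],
    (∀ g ∈ U, cycloChar p g = 1) → ∀ (D : ShData (galLocal S) U)
    (tr : CcAmb3 (galLocal S) (groupCohomology.ofChar (k := ZMod p) (cycloChar p)) →ₗ[ZMod p]
      ZMod p),
    (∀ c ∈ Bc3 (galLocal S) (groupCohomology.ofChar (k := ZMod p) (cycloChar p)), tr c = 0) →
    Nonempty (ShTransportP (galLocal S) (evPairing (permRep (ZMod p) U) (cycloChar p)) tr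
      (D.localData hU) (mulPairing (ZMod p) ↥U) (tr ∘ₗ D.corCone (cycloChar p) hU))

/-- B (claim form): the claim with trivial coefficients for every arithmetic local datum over a
field `F ∋ ζ_p` unramified outside `S`, and every admissible trace. -/
def BClaimStatement : Prop :=
  ∀ (F : IntermediateField ℚ (AlgebraicClosure ℚ)), F.IsUnramifiedOutside S →
    helper59.HasZeta p F → ∀ (𝒩 : Levels (helper59.UF F)) (ι : Type) [Fintype ι]
    (L : LocalData (helper59.UF F) 𝒩 ι), 𝒩.mem = helper59.sLevels S F →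
    helper59.IsArith S F L →
    ∀ tr : CcAmb3 L (helper59.T (ZMod p) (helper59.UF F)) →ₗ[ZMod p] ZMod p,
      (∀ y ∈ Bc3 L (helper59.T (ZMod p) (helper59.UF F)), tr y = 0) →
      (∃ y ∈ Zc3 L (helper59.T (ZMod p) (helper59.UF F)), tr y ≠ 0) →
      Claim L (helper59.mulPairing (ZMod p) (helper59.UF F)) tr

/-- B (input form): a `BaseInput` for every arithmetic local datum over a field `F ∋ ζ_p`
unramified outside `S`. -/
def BInputStatement : Prop :=
  ∀ (F : IntermediateField ℚ (AlgebraicClosure ℚ)), F.IsUnramifiedOutside S →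
    helper59.HasZeta p F → ∀ (𝒩 : Levels (helper59.UF F)) (ι : Type) [Fintype ι]
    (L : LocalData (helper59.UF F) 𝒩 ι), 𝒩.mem = helper59.sLevels S F →
    helper59.IsArith S F L → Nonempty (helper59.BaseInput (k := ZMod p) L)

variable {p S}

theorem bClaimStatement_of_input (h : BInputStatement p S) : BClaimStatement p S := by
  intro F hF hζ 𝒩 ι _ L h𝒩 hL tr htr hne
  obtain ⟨I⟩ := h F hF hζ 𝒩 ι L h𝒩 hL
  exact helper59.claim_of_baseInput L I tr htr hne

/-- TOP-FIN: a trace killing cone coboundaries and nonzero on cone cocycles. -/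
theorem exists_tr_of_topTr (h : TopTrStatement p S) :
    ∃ tr : CcAmb3 (galLocal S) (groupCohomology.ofChar (k := ZMod p) (cycloChar p)) →ₗ[ZMod p]
        ZMod p,
      (∀ c ∈ Bc3 (galLocal S) (groupCohomology.ofChar (k := ZMod p) (cycloChar p)), tr c = 0) ∧
      ∃ z ∈ Zc3 (galLocal S) (groupCohomology.ofChar (k := ZMod p) (cycloChar p)), tr z ≠ 0 := by
  obtain ⟨z, hz, hzB⟩ := h
  obtain ⟨f, hfz, hf⟩ := Submodule.exists_le_ker_of_notMem hzB
  exact ⟨f, fun c hc => hf hc, z, hz, hfz⟩

/-- the base hypothesis for a given admissible trace -/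
theorem baseHypP_of_inputs (hSH : ShMainStatement p S) (hB : BClaimStatement p S)
    (tr : CcAmb3 (galLocal S) (groupCohomology.ofChar (k := ZMod p) (cycloChar p)) →ₗ[ZMod p]
      ZMod p)
    (htr : ∀ c ∈ Bc3 (galLocal S) (groupCohomology.ofChar (k := ZMod p) (cycloChar p)),
      tr c = 0)
    (hz : ∃ z ∈ Zc3 (galLocal S) (groupCohomology.ofChar (k := ZMod p) (cycloChar p)),
      tr z ≠ 0) :
    BaseHypP (galLocal S) p (cycloChar p) tr := by
  intro U hU hχ hidx
  have hfinU : Finite (GQ ⧸ U) := by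
    obtain ⟨N, hN, hle⟩ := hU
    have := helper92.finite_quotient_of_mem_galLevels S N hN
    have hfi : N.FiniteIndex := Subgroup.finiteIndex_of_finite_quotient
    have hfiU : U.FiniteIndex := Subgroup.finiteIndex_of_le hle
    infer_instance
  obtain ⟨F, hF, rfl⟩ := exists_field_of_open S U hU
  obtain ⟨D⟩ := helper57.nonempty_shData (L := galLocal S) (U := F.fixingSubgroup)
  have hζ := hasZeta_of_cycloChar_eq_one F p hχ
  obtain ⟨T⟩ := hSH F.fixingSubgroup hU hχ D tr htr
  have hn : (Nat.card (GQ ⧸ F.fixingSubgroup) : ZMod p) ≠ 0 := by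
    rw [Ne, ZMod.natCast_eq_zero_iff]
    exact hidx
  refine claim_perm_of_transportP (galLocal S) (cycloChar p) tr hU D htr hz hχ hn T ?_
  intro tr' h1 h2
  exact hB F hF hζ _ _ (D.localData hU) (restrictLevels_mem_eq_sLevels S F hU)
    (shIsArith S F hU D) tr' h1 h2

/-- **FIN**: the weak base target from TOP-TR, SH-MAIN and B. -/
theorem baseTargetP_of_inputs (hTop : TopTrStatement p S) (hSH : ShMainStatement p S)
    (hB : BClaimStatement p S) : BaseTargetP p S := by
  obtain ⟨tr, htr, hz⟩ := exists_tr_of_topTr hTop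
  exact ⟨tr, htr, baseHypP_of_inputs hSH hB tr htr hz⟩

end Arith

end Fermat.Agent.S55.helper53
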