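import Fermat.Agent.S55.BaseTargetFinal
import Fermat.Agent.S55.helper53_ShFin

/-!
# S55: bridge between the two forms of the SH deliverable

`helper53.ShMainStatement p S` (existence of a Shapiro transport datum `ShTransportP`) implies
`ShStatement p S` (the form consumed by `baseTargetP_of_statements`).
-/

set_option autoImplicit false

open groupCohomology ExtCitation

noncomputable section

namespace Fermat.Agent.S55

open helper35

variable (p : ℕ) [Fact p.Prime] (S : Finset Nat.Primes)

/-- SH in transport form implies SH in statement form. -/
theorem shStatement_of_shMain (h : helper53.ShMainStatement p S) : ShStatement p S := by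
  intro tr U hU _ D htr hχ
  obtain ⟨T⟩ := h U hU hχ D tr htr
  have htr' := helper38.tr_corCone_eq_zero (galLocal S) (cycloChar p) tr U hU D htr hχ
  refine ⟨htr', ?_, ?_⟩
  · intro hn hz
    exact T.exists_ne_zero htr helper62.normElt_mem_H0 (helper53.augEqHom (cycloChar p)) _ hn
      (helper53.evPairing_normElt_augEqHom (cycloChar p)) hz
  · intro hcl
    have hχN : ∃ N ∈ (galLevels S).mem, ∀ g ∈ N, cycloChar p g = 1 := by
      obtain ⟨N, hN, hle⟩ := hU
      exact ⟨N, hN, fun g hg => hχ g (hle hg)⟩
    exact T.claim (isSmooth_dualTwist hχN (helper53.isSmooth_permRep hU)) htr htr' hcl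

/-- The final glue with SH in transport form. -/
theorem baseTargetP_of_shMain (hSH : helper53.ShMainStatement p S)
    (hB : BaseInputStatement p S) (hLoc : TopLocStatement p S) (hp2 : p ≠ 2)
    (hpS : pPrime p ∈ S) : BaseTargetP p S :=
  baseTargetP_of_statements p S (shStatement_of_shMain p S hSH) hB hLoc hp2 hpS

end Fermat.Agent.S55
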