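import Fermat.Agent.S55.ShBridge
import Fermat.Agent.S55.helper62_ShPf21
import Fermat.Agent.S55.helper49_ShPSurj
import Fermat.Agent.S55.helper69_ShCMem

/-!
# S55 / SH: the Shapiro transport datum from its fields (final glue of module SH)

`shTransportP_of_pFields` builds the term of `helper53.ShTransportP` with
`(s0, s1, s2) := (piU, shA₁, shA₂)` and `(P1, P2, P3) := (pB₁, pB₂, pB₃)` of helper62 from

* `PMem χ D hU`  : the fields `P1_mem P2_mem P3_mem P2_bdry P3_bdry` (package P-MEM);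
* `PBig χ D hU`  : the big-model formulas of `pB₂`, `pB₃` (inputs `hPG`, `hPL` of helper49's
  `ps_P2_surj`, `ps_P3_surj`, package P-SURJ).

All other fields are landed theorems of helper62 (s-fields, `pf03`, `pf12`, `pf21`),
helper49 (`ps_P2_surj`, `ps_P3_surj`) and helper69 (`cB₂_mem_Zc2`, `cB₃_mem_Zc3`).
-/

set_option autoImplicit false

open groupCohomology ExtCitation

noncomputable section

namespace Fermat.Agent.S55

open helper35 helper38 helper62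

section Abstract

variable {k G : Type} [Field k] [Group G] {𝒩 : Levels G} {ι : Type} {L : LocalData G 𝒩 ι}
  {U : Subgroup G} (χ : G →* kˣ) (D : ShData L U) [Finite (G ⧸ U)]
  (hU : ∃ N ∈ 𝒩.mem, N ≤ U)

/-- package P-MEM: the coinduction maps `pB_n` preserve cone cocycles and cone coboundaries. -/
structure PMem : Prop where
  P1_mem : ∀ y' ∈ Zc1 (D.localData hU) (trivRep k ↥U), pB₁ χ D hU y' ∈ Zc1 L (Bp k U χ)
  P2_mem : ∀ y' ∈ Zc2 (D.localData hU) (trivRep k ↥U), pB₂ χ D hU y' ∈ Zc2 L (Bp k U χ)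
  P3_mem : ∀ y' ∈ Zc3 (D.localData hU) (trivRep k ↥U), pB₃ χ D hU y' ∈ Zc3 L (Bp k U χ)
  P2_bdry : ∀ y' ∈ Bc2 (D.localData hU) (trivRep k ↥U), pB₂ χ D hU y' ∈ Bc2 L (Bp k U χ)
  P3_bdry : ∀ y' ∈ Bc3 (D.localData hU) (trivRep k ↥U), pB₃ χ D hU y' ∈ Bc3 L (Bp k U χ)

/-- the big-model formulas of `pB₂`, `pB₃` (inputs of helper49's P-SURJ). -/
structure PBig : Prop where
  hPG₂ : ∀ y' : CcAmb2 (D.localData hU) (trivRep k ↥U),
    bigG₂ χ (pB₂ χ D hU y').1 = pull2 (retr U) (homog2 (trivRep k ↥U) y'.1)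
  hPL₂ : ∀ (y' : CcAmb2 (D.localData hU) (trivRep k ↥U)) (v : ι) (j : D.J v),
    bigL₁ χ D v j ((pB₂ χ D hU y').2 v) =
      pull1 (retr (D.Uw v j)) (homog1 (trivRep k ↥(D.Uw v j)) (y'.2 ⟨v, j⟩))
        + prism2 (D.beta0 v j) (D.beta1 v j) (homog2 (trivRep k ↥U) y'.1)
  hPG₃ : ∀ y' : CcAmb3 (D.localData hU) (trivRep k ↥U),
    bigG₃ χ (pB₃ χ D hU y').1 = pull3 (retr U) (homog3 (trivRep k ↥U) y'.1)
  hPL₃ : ∀ (y' : CcAmb3 (D.localData hU) (trivRep k ↥U)) (v : ι) (j : D.J v),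
    bigL₂ χ D v j ((pB₃ χ D hU y').2 v) =
      pull2 (retr (D.Uw v j)) (homog2 (trivRep k ↥(D.Uw v j)) (y'.2 ⟨v, j⟩))
        + prism3 (D.beta0 v j) (D.beta1 v j) (homog3 (trivRep k ↥U) y'.1)

variable {χ D hU}

/-- **SH-MAIN (term)**: the Shapiro transport datum from the packages P-MEM and P-SURJ. -/
def shTransportP_of_pFields (tr : CcAmb3 L (ofChar χ) →ₗ[k] k)
    (htr : ∀ c ∈ Bc3 L (ofChar χ), tr c = 0) (hχ : ∀ g ∈ U, χ g = 1)
    (hM : PMem χ D hU) (hB : PBig χ D hU) :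
    helper53.ShTransportP L (evPairing (permRep k U) χ) tr (D.localData hU) (mulPairing k ↥U)
      (tr ∘ₗ D.corCone χ hU) where
  s0 := piU k U
  s1 := shA₁ k U
  s2 := shA₂ k U
  P1 := pB₁ χ D hU
  P2 := pB₂ χ D hU
  P3 := pB₃ χ D hU
  s0_mem := fun _ _ _ => rfl
  s1_mem := fun _ hx => shA₁_mem_Z1 hU hx
  s2_mem := fun _ hx => shA₂_mem_Z2 hU hx
  s0_surj := fun a' _ => ⟨a' • normElt k U, Submodule.smul_mem _ _ normElt_mem_H0, by
    rw [map_smul]
    have h1 : piU k U (normElt k U) = 1 := by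
      have := piU_rho_normElt (k := k) (U := U) (1 : G)
      rwa [map_one] at this
    rw [h1]
    exact mul_one a'⟩
  s1_inj := fun _ hx h => shA_inj₁ hx h
  s1_surj := fun x' hx' => by
    obtain ⟨x, hx, hxx⟩ := shA_surj₁ hU hx'
    exact ⟨x, hx, by rw [hxx, sub_self]; exact Submodule.zero_mem _⟩
  s2_inj := fun _ hx h => shA_inj₂ hU hx h
  P1_mem := hM.P1_mem
  P2_mem := hM.P2_mem
  P3_mem := hM.P3_mem
  P2_bdry := hM.P2_bdry
  P3_bdry := hM.P3_bdry
  P2_surj := helper49.ps_P2_surj χ D hU hχ (pB₂ χ D hU) hB.hPG₂ hB.hPL₂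
    (fun _ hy => helper69.cB₂_mem_Zc2 χ D hU hχ hy)
  P3_surj := helper49.ps_P3_surj χ D hU hχ (pB₃ χ D hU) hB.hPG₃ hB.hPL₃
    (fun _ hy => helper69.cB₃_mem_Zc3 χ D hU hχ hy)
  pf03 := fun _ ha z _ => pf03 χ D hU tr ha z
  pf12 := fun _ hx _ hy => pf12 χ D hU tr htr hχ hx hy
  pf21 := fun _ hx _ hy => pf21 χ D hU tr htr hχ hx hy

end Abstract

section Arith

variable (p : ℕ) [Fact p.Prime] (S : Finset Nat.Primes)

/-- P-MEM and P-SURJ (big-model formulas) for `G_ℚ`, as a statement. -/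
def ShPFieldsStatement : Prop :=
  ∀ (U : Subgroup GQ) (hU : ∃ N ∈ (galLevels S).mem, N ≤ U) [Finite (GQ ⧸ U)],
    (∀ g ∈ U, cycloChar p g = 1) → ∀ (D : ShData (galLocal S) U),
    PMem (cycloChar p) D hU ∧ PBig (cycloChar p) D hU

variable {p S}

theorem shMainStatement_of_pFields (h : ShPFieldsStatement p S) :
    helper53.ShMainStatement p S := by
  intro U hU _ hχ D tr htr
  obtain ⟨hM, hB⟩ := h U hU hχ D
  exact ⟨shTransportP_of_pFields tr htr hχ hM hB⟩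

theorem shStatement_of_pFields (h : ShPFieldsStatement p S) : ShStatement p S :=
  shStatement_of_shMain p S (shMainStatement_of_pFields h)

end Arith

end Fermat.Agent.S55
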