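import Fermat.Agent.S55.helper26_ClassFin
import Fermat.Agent.S55.helper24_Dict

/-!
# S55 / GLOB, package CL (helper26): unconditional statements

All statements of section CL of `helper73_GlobInterface2`, VERBATIM and unconditional:

* CL-1  `principalPi_mem_intUnits_iff`
* CL-1' `isIntegral_one_tmul_iff`
* CL-2  `forall_principalPi_mem_intUnits_iff`
* CL-3  `exists_principal_div_mem_princUnits`
* CL-3' `princUnits_le_intUnits`
* CL-4  `unitIdele_index_ne_zero`
* CL-5  `mem_ker_unitIdeleClassHom_iff`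

CL-1, CL-1', CL-3 are the dictionary statements of `helper24_Dict` transported to the shapes of
the interface; CL-4, CL-5 come from `helper26_ClassFin`.
-/

set_option autoImplicit false

open scoped TensorProduct NumberField nonZeroDivisors
open IsDedekindDomain HeightOneSpectrum

namespace Fermat.Agent.S55.helper26

open Fermat.Agent.S55.helper73 Fermat.Agent.S55.helper89

variable (L : Type*) [Field L] [NumberField L]

/-- CL-1 (bridging): `1 ⊗ x` is an integral unit of `ℚ_q ⊗ L` iff `x` is a unit at all primes of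
`𝓞 L` above `q`. -/
theorem principalPi_mem_intUnits_iff (q : Nat.Primes) (x : Lˣ) :
    principalPi L x q ∈ intUnits (q : ℕ) L ↔
      ∀ v : IsDedekindDomain.HeightOneSpectrum (𝓞 L),
        (((q : ℕ) : ℤ) : 𝓞 L) ∈ v.asIdeal → v.valuation L (x : L) = 1 := by
  have h := helper24.locUnit_mem_intUnits_iff (q : ℕ) L x
  rw [principalPi_apply]
  simpa only [Int.cast_natCast] using h

/-- CL-1': integrality version of the bridging lemma. -/
theorem isIntegral_one_tmul_iff (q : ℕ) [Fact q.Prime] (x : L) :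
    IsIntegral ℤ_[q] ((1 : ℚ_[q]) ⊗ₜ[ℚ] x : SemiLoc q L) ↔
      ∀ v : IsDedekindDomain.HeightOneSpectrum (𝓞 L),
        ((q : ℤ) : 𝓞 L) ∈ v.asIdeal → v.valuation L x ≤ 1 := by
  have h := helper24.isIntegral_one_tmul_iff q L x
  simpa only [Int.cast_natCast] using h

/-- CL-2: `Lˣ ∩ ∏_q U_q = (𝓞 L)ˣ`. -/
theorem forall_principalPi_mem_intUnits_iff (x : Lˣ) :
    (∀ q : Nat.Primes, principalPi L x q ∈ intUnits (q : ℕ) L) ↔ x ∈ globalUnits L := by
  have hint : ∀ y : L, (∀ v : HeightOneSpectrum (𝓞 L), v.valuation L y ≤ 1) →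
      IsIntegral ℤ y := by
    intro y hy
    obtain ⟨b, hb⟩ := HeightOneSpectrum.mem_integers_of_valuation_le_one L y hy
    rw [← hb]
    exact NumberField.RingOfIntegers.isIntegral_coe b
  have hval : ∀ y : L, IsIntegral ℤ y → ∀ v : HeightOneSpectrum (𝓞 L),
      v.valuation L y ≤ 1 := by
    intro y hy v
    have h := v.valuation_le_one (K := L) (⟨y, hy⟩ : 𝓞 L)
    exact h
  constructor
  · intro h
    have h1 : ∀ v : HeightOneSpectrum (𝓞 L), v.valuation L (x : L) = 1 := fun v =>
      (principalPi_mem_intUnits_iff L (ratPrime L v) x).1 (h _) v (ratPrime_mem L v)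
    refine ⟨hint _ fun v => (h1 v).le, hint _ fun v => ?_⟩
    rw [Units.val_inv_eq_inv_val, map_inv₀, h1 v, inv_one]
  · rintro ⟨h1, h2⟩ q
    rw [principalPi_mem_intUnits_iff]
    intro v _
    refine le_antisymm (hval _ h1 v) ?_
    have h3 := hval _ h2 v
    rw [Units.val_inv_eq_inv_val, map_inv₀] at h3
    have hne : v.valuation L (x : L) ≠ 0 := (Valuation.ne_zero_iff _).mpr x.ne_zero
    exact (inv_le_one₀ (zero_lt_iff.mpr hne)).mp h3

/-- The subgroup `U⁽¹⁾` of `helper89_ChevDefs` is contained in the principal units. -/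
theorem oneUnits_le_princUnits (q : ℕ) [Fact q.Prime] : oneUnits q L ≤ princUnits q L := by
  intro w hw
  have hw' := inv_mem hw
  obtain ⟨-, t, ht, hwt⟩ := hw
  obtain ⟨-, t', ht', hwt'⟩ := hw'
  refine ⟨⟨t, ht, ?_⟩, ⟨t', ht', ?_⟩⟩
  · rw [hwt, Algebra.smul_def]
    rfl
  · rw [hwt', Algebra.smul_def]
    rfl

/-- CL-3 (local approximation): `(ℚ_q ⊗ L)ˣ = Lˣ · (1 + q 𝓞)`. -/
theorem exists_principal_div_mem_princUnits (q : Nat.Primes) (x : (SemiLoc (q : ℕ) L)ˣ) :
    ∃ y : Lˣ, x / principalPi L y q ∈ princUnits (q : ℕ) L := by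
  obtain ⟨M, hM⟩ := helper24.exists_pow_mul_integral (q : ℕ) L
    ((x⁻¹ : (SemiLoc (q : ℕ) L)ˣ) : SemiLoc (q : ℕ) L)
  obtain ⟨a, ha⟩ := helper24.exists_locUnit_mul_mem_oneUnits_aux (q : ℕ) L x M hM
  refine ⟨a, ?_⟩
  rw [div_eq_mul_inv, principalPi_apply]
  exact oneUnits_le_princUnits L (q : ℕ) ha

/-- CL-3': principal units are integral units. -/
theorem princUnits_le_intUnits (q : ℕ) [Fact q.Prime] : princUnits q L ≤ intUnits q L := by
  have hq : IsIntegral ℤ_[q] (algebraMap ℚ_[q] (SemiLoc q L) (q : ℚ_[q])) := by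
    have : algebraMap ℚ_[q] (SemiLoc q L) (q : ℚ_[q]) =
        algebraMap ℤ_[q] (SemiLoc q L) (q : ℤ_[q]) := by
      rw [IsScalarTower.algebraMap_apply ℤ_[q] ℚ_[q] (SemiLoc q L)]
      simp
    rw [this]
    exact isIntegral_algebraMap
  rintro x ⟨⟨z, hz, hx⟩, ⟨z', hz', hx'⟩⟩
  refine ⟨?_, ?_⟩
  · rw [hx, Algebra.smul_def]
    exact isIntegral_one.add (hq.mul hz)
  · rw [hx', Algebra.smul_def]
    exact isIntegral_one.add (hq.mul hz')

/-- CL-4: the image of the unit ideles in the idele class group has finite index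
(the quotient is the class group of `L`). -/
theorem unitIdele_index_ne_zero : (unitIdeleClassHom L).range.index ≠ 0 :=
  unitIdele_index_ne_zero_of' L (principalPi_mem_intUnits_iff L)
    (exists_principal_div_mem_princUnits L) (fun q _ => princUnits_le_intUnits L q)

/-- CL-5: the kernel of `∏ U_q → C_L` is the image of the global units. -/
theorem mem_ker_unitIdeleClassHom_iff (u : UnitIdele L) :
    u ∈ (unitIdeleClassHom L).ker ↔
      ∃ x ∈ globalUnits L, ∀ q : Nat.Primes,
        (u.comp q : (SemiLoc (q : ℕ) L)ˣ) = principalPi L x q :=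
  mem_ker_unitIdeleClassHom_iff_of L (forall_principalPi_mem_intUnits_iff L) u

end Fermat.Agent.S55.helper26
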