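import Fermat.Agent.S55.helper26_ClassFinal

/-!
# S55 / GLOB, package G1 (IDL-basic), part 1 (helper26)

* `principalPi_injective` : `Lˣ → ∏_q (ℚ_q ⊗ L)ˣ` is injective.
* `principalPi_mem_idele` : principal ideles are ideles.
* `principalIdele L : Lˣ →* Idele L` : the diagonal map into the ideles, with
  `range_principalIdele : (principalIdele L).range = principalSub L`.
-/

set_option autoImplicit false

open scoped TensorProduct NumberField nonZeroDivisors
open IsDedekindDomain HeightOneSpectrum

namespace Fermat.Agent.S55.helper26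

open Fermat.Agent.S55.helper73 Fermat.Agent.S55.helper89

variable (L : Type*) [Field L] [NumberField L]

/-- IDL-1: `Lˣ → J_L` is injective. -/
theorem principalPi_injective : Function.Injective (principalPi L) := by
  intro x y h
  have h2 := congrArg (fun z : IdelePi L => ((z ⟨2, Nat.prime_two⟩ :
    (SemiLoc ((⟨2, Nat.prime_two⟩ : Nat.Primes) : ℕ) L)ˣ) :
      SemiLoc ((⟨2, Nat.prime_two⟩ : Nat.Primes) : ℕ) L)) h
  exact Units.ext (helper24.includeRight_injective ((⟨2, Nat.prime_two⟩ : Nat.Primes) : ℕ) L h2)

/-- IDL-1: principal ideles are ideles. -/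
theorem principalPi_mem_idele (x : Lˣ) : principalPi L x ∈ idele L := by
  rw [mem_idele]
  have hfin : {v : HeightOneSpectrum (𝓞 L) |
      ¬ FractionalIdeal.count L v (FractionalIdeal.spanSingleton (𝓞 L)⁰ (x : L)) = 0}.Finite :=
    FractionalIdeal.finite_factors (FractionalIdeal.spanSingleton (𝓞 L)⁰ (x : L))
  refine (hfin.image (ratPrime L)).subset ?_
  intro q hq
  by_contra hq'
  apply hq
  change principalPi L x q ∈ intUnits (q : ℕ) L
  rw [principalPi_mem_intUnits_iff]
  intro v hv
  rw [valuation_eq_one_iff_count L v (Units.ne_zero _)]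
  by_contra hc
  exact hq' ⟨v, hc, ratPrime_eq hv⟩

/-- The diagonal map `Lˣ → J_L`. -/
noncomputable def principalIdele : Lˣ →* Idele L :=
  (principalPi L).codRestrict (idele L) (principalPi_mem_idele L)

@[simp]
theorem coe_principalIdele (x : Lˣ) :
    ((principalIdele L x : Idele L) : IdelePi L) = principalPi L x := rfl

theorem principalIdele_injective : Function.Injective (principalIdele L) := by
  intro x y h
  exact principalPi_injective L (congrArg Subtype.val h)

theorem range_principalIdele : (principalIdele L).range = principalSub L := by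
  ext z
  constructor
  · rintro ⟨x, rfl⟩
    exact ⟨x, rfl⟩
  · rintro ⟨x, hx⟩
    exact ⟨x, Subtype.ext hx⟩

theorem mem_principalSub_iff (z : Idele L) :
    z ∈ principalSub L ↔ ∃ x : Lˣ, principalPi L x = (z : IdelePi L) := Iff.rfl

end Fermat.Agent.S55.helper26
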