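import Fermat.Agent.S55.helper90_Rec3Int
import Fermat.Agent.S55.helper26_ClassFinal
import Fermat.Agent.S55.helper26_IdlBasic
import Fermat.Agent.S55.helper42_KumRoots

/-!
# S55 / REC3, package R3-CAP (helper10, task 508): `p`-capitulation in `F_S`

The cokernel of `J_S → C(F_S)` is torsion prime to `p`.

Let `x` be a smooth idele, fixed by `Gal(ℚbar/E)` for an `S`-level `E`; by descent (R3-DIC (a),
taken as the hypothesis `DescentS`) `x = bc x₀` with `x₀` an idele of `E`.  The class group of `E`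
is finite (GLOB CL-4): `x₀ ^ h = α u` with `α ∈ Eˣ`, `u` a unit idele, `h = p ^ k m`, `p ∤ m`.
All valuations of `α` are divisible by `p ^ k` (CL-1 + CL-3), so `γ = α ^ (1 / p ^ k)` lies in an
`S`-level `E'` (helper42 `inSLevel_of_forall_dvd`, `p ∈ S`).  Then `z = x ^ m / γ` is fixed by
`Gal(ℚbar/E')` and `z ^ (p ^ k) = bc u` is a unit idele, hence so is `z` (integral closure), and
`m • [x] = [z]` lies in the image of `J_S`.
-/

set_option autoImplicit false
set_option linter.style.haveILetI false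
set_option linter.unusedSectionVars false

open scoped TensorProduct NumberField
open IsDedekindDomain

noncomputable section

namespace Fermat.Agent.S55.helper10

open Fermat.Agent.S55 Fermat.Agent.S55.helper59 Fermat.Agent.S55.helper69
  Fermat.Agent.S55.helper73 Fermat.Agent.S55.helper90

local notation "Qbar" => AlgebraicClosure ℚ

/-! ## Saturation of the integral units -/

section Sat

variable (q : ℕ) [Fact q.Prime] (L : Type*) [Field L] [CharZero L]

/-- the integral units are saturated: `t ^ n ∈ U` (`n ≠ 0`) implies `t ∈ U` -/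
theorem mem_intUnits_of_pow_mem {t : (SemiLoc q L)ˣ} {n : ℕ} (hn : n ≠ 0)
    (h : t ^ n ∈ intUnits q L) : t ∈ intUnits q L := by
  obtain ⟨h1, h2⟩ := h
  refine ⟨IsIntegral.of_pow (Nat.pos_of_ne_zero hn) ?_,
    IsIntegral.of_pow (Nat.pos_of_ne_zero hn) ?_⟩
  · simpa using h1
  · simpa using h2

end Sat

/-! ## Valuations of `α` with `x₀ ^ (p ^ k m) = α u` -/

section Val

variable (E : Type*) [Field E] [NumberField E]

/-- if `y ^ n = α u` locally at the prime below `v` with `u` an integral unit, then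
`n ∣ ord_v α` -/
theorem dvd_valuationOfNeZero_of_pow_eq (v : HeightOneSpectrum (𝓞 E)) (n : ℕ) (α : Eˣ)
    (y u : (SemiLoc (helper26.ratPrime E v : ℕ) E)ˣ)
    (hu : u ∈ intUnits (helper26.ratPrime E v : ℕ) E)
    (h : y ^ n = principalPi E α (helper26.ratPrime E v) * u) :
    (n : ℤ) ∣ Multiplicative.toAdd (v.valuationOfNeZero α) := by
  obtain ⟨β, hβ⟩ := helper26.exists_principal_div_mem_princUnits E (helper26.ratPrime E v) y
  have hβ' := helper26.princUnits_le_intUnits E (helper26.ratPrime E v : ℕ) hβ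
  have h1 : principalPi E (α / β ^ n) (helper26.ratPrime E v) ∈
      intUnits (helper26.ratPrime E v : ℕ) E := by
    have h2 : principalPi E (α / β ^ n) (helper26.ratPrime E v) =
        (y / principalPi E β (helper26.ratPrime E v)) ^ n * u⁻¹ := by
      rw [map_div, map_pow, Pi.div_apply, Pi.pow_apply, div_pow, h]
      rw [div_mul_eq_mul_div, mul_inv_cancel_right]
    rw [h2]
    exact mul_mem (pow_mem hβ' n) (inv_mem hu)
  have h3 := (helper26.principalPi_mem_intUnits_iff E (helper26.ratPrime E v) (α / β ^ n)).1 h1 v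
    (helper26.ratPrime_mem E v)
  have h4 : v.valuationOfNeZero (α / β ^ n) = 1 := by
    apply WithZero.coe_injective
    rw [HeightOneSpectrum.valuationOfNeZero_eq]
    exact h3
  rw [map_div, map_pow, div_eq_one] at h4
  rw [h4, toAdd_pow]
  exact ⟨_, by rw [nsmul_eq_mul]⟩

end Val

/-! ## Principal ideles of `ℚbar` coming from a finite level -/

section Princ

variable (E : IntermediateField ℚ Qbar) [NumberField ↥E]

/-- base change of a principal idele is the principal element of the image -/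
theorem coe_bcIdele_principalIdele (γ : (↥E)ˣ) :
    ((bcIdele ↥E Qbar (helper26.principalIdele ↥E γ) : Idele Qbar) : IdelePi Qbar) =
      principalPi Qbar (Units.map (algebraMap ↥E Qbar : ↥E →* Qbar) γ) := by
  funext q
  apply Units.ext
  rw [bcIdele_apply, coe_bcUnits, helper26.coe_principalIdele, principalPi_apply_coe,
    principalPi_apply_coe, bc_tmul]
  rfl

theorem bcIdele_principalIdele_mem (γ : (↥E)ˣ) :
    bcIdele ↥E Qbar (helper26.principalIdele ↥E γ) ∈ principalSub Qbar :=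
  ⟨_, (coe_bcIdele_principalIdele E γ).symm⟩

/-- ideles coming from `E` are fixed by `Gal(ℚbar/E)` -/
theorem smul_bcIdele_of_mem_fixingSubgroup (x₀ : Idele ↥E) {σ : Qbar ≃ₐ[ℚ] Qbar}
    (hσ : σ ∈ E.fixingSubgroup) : σ • bcIdele ↥E Qbar x₀ = bcIdele ↥E Qbar x₀ := by
  apply Subtype.ext
  funext q
  apply Units.ext
  change galSemiLocAut (q : ℕ) Qbar ℚ σ (bc ↥E Qbar (q : ℕ) ((x₀ : IdelePi ↥E) q : SemiLoc (q : ℕ) ↥E))
    = bc ↥E Qbar (q : ℕ) ((x₀ : IdelePi ↥E) q : SemiLoc (q : ℕ) ↥E)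
  generalize (((x₀ : IdelePi ↥E) q : (SemiLoc (q : ℕ) ↥E)ˣ) : SemiLoc (q : ℕ) ↥E) = t
  induction t using TensorProduct.induction_on with
  | zero => simp
  | tmul a b =>
    rw [bc_tmul, galSemiLocAut_tmul]
    congr 1
    exact (IntermediateField.mem_fixingSubgroup_iff _ _).1 hσ _ b.2
  | add s t hs ht => rw [map_add, map_add, hs, ht]

end Princ

/-! ## Capitulation -/

section Main

/-- **R3-DIC (a)**, the direction used here: an idele of `ℚbar` fixed by `Gal(ℚbar/E)`, `E` an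
`S`-level, comes from an idele of `E`. -/
def DescentS (S : Finset Nat.Primes) (F : IntermediateField ℚ Qbar) : Prop :=
  ∀ E : IntermediateField ℚ Qbar, IsSLevel S F E → ∀ x : Idele Qbar,
    (∀ σ : Qbar ≃ₐ[ℚ] Qbar, σ ∈ E.fixingSubgroup → σ • x = x) →
      ∃ x₀ : Idele ↥E, bcIdele ↥E Qbar x₀ = x

variable {p : ℕ} [Fact p.Prime] {S : Finset Nat.Primes} {F : IntermediateField ℚ Qbar}
  (hF : F.IsUnramifiedOutside S)

/-- key step: for a smooth idele `x`, some power `x ^ m` (`p ∤ m`) is a smooth unit idele times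
a smooth principal idele. -/
theorem exists_pow_eq_mul (hpS : (⟨p, Fact.out⟩ : Nat.Primes) ∈ S) (hD : DescentS S F)
    (x : Idele Qbar) (hx : x ∈ smoothS S F hF) :
    ∃ m : ℕ, ¬ p ∣ m ∧ ∃ z ∈ bigJS S F hF, ∃ g ∈ smoothS S F hF ⊓ principalSub Qbar,
      x ^ m = z * g := by
  obtain ⟨E, hE, hfix⟩ := hx
  haveI : FiniteDimensional ℚ ↥E := hE.1.1
  haveI : NumberField ↥E := NumberField.mk
  obtain ⟨x₀, rfl⟩ := hD E hE x hfix
  -- finiteness of the class group
  have hh0 := helper26.unitIdele_index_ne_zero ↥E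
  haveI : IsMulCommutative (IdeleClass ↥E) := ⟨⟨fun a b => mul_comm a b⟩⟩
  obtain ⟨u, hu⟩ : (QuotientGroup.mk x₀ : IdeleClass ↥E) ^ (unitIdeleClassHom ↥E).range.index ∈
      (unitIdeleClassHom ↥E).range := Subgroup.pow_index_mem _ _
  obtain ⟨k, m, hm, hkm⟩ := Nat.exists_eq_pow_mul_and_not_dvd hh0 p
    (Nat.Prime.ne_one Fact.out)
  rw [hkm] at hu
  have hu' : (unitIdeleHom ↥E u)⁻¹ * x₀ ^ (p ^ k * m) ∈ principalSub ↥E := by
    rw [← QuotientGroup.eq]
    exact hu
  obtain ⟨α, hα⟩ := (helper26.mem_principalSub_iff ↥E _).1 hu'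
  have hα' : x₀ ^ (p ^ k * m) = helper26.principalIdele ↥E α * unitIdeleHom ↥E u := by
    have : helper26.principalIdele ↥E α = (unitIdeleHom ↥E u)⁻¹ * x₀ ^ (p ^ k * m) :=
      Subtype.ext hα
    rw [this, mul_right_comm, inv_mul_cancel, one_mul]
  -- valuations of `α`
  have hval : ∀ v : HeightOneSpectrum (𝓞 ↥E),
      ((p ^ k : ℕ) : ℤ) ∣ Multiplicative.toAdd (v.valuationOfNeZero α) := by
    intro v
    refine dvd_valuationOfNeZero_of_pow_eq ↥E v (p ^ k) α
      (((x₀ : IdelePi ↥E) (helper26.ratPrime ↥E v)) ^ m)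
      ((u.comp (helper26.ratPrime ↥E v) : (SemiLoc ((helper26.ratPrime ↥E v : ℕ)) ↥E)ˣ))
      (u.comp (helper26.ratPrime ↥E v)).2 ?_
    have := congrArg (fun y : Idele ↥E => (y : IdelePi ↥E) (helper26.ratPrime ↥E v)) hα'
    rw [← pow_mul, mul_comm m]
    exact this
  -- the root
  have hpk : 0 < p ^ k := pow_pos (Nat.Prime.pos Fact.out) k
  obtain ⟨γ, hγ⟩ := IsAlgClosed.exists_pow_nat_eq (((α : ↥E) : Qbar)) hpk
  have hn : ∀ q : Nat.Primes, (q : ℕ) ∣ p ^ k → q ∈ S := by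
    intro q hq
    have h1 : (q : ℕ) ∣ p := q.2.dvd_of_dvd_pow hq
    have h2 : (q : ℕ) = p := (Nat.prime_dvd_prime_iff_eq q.2 Fact.out).1 h1
    have h3 : q = ⟨p, Fact.out⟩ := Subtype.ext h2
    rw [h3]
    exact hpS
  obtain ⟨E', hE'u, hE'n, hEE', hγE'⟩ :=
    helper42.inSLevel_of_forall_dvd hn hE.1 α γ hγ (fun v _ => hval v)
  have hE' : IsSLevel S F E' := ⟨hE'u, hE'n, hE.2.2.trans hEE'⟩
  haveI : FiniteDimensional ℚ ↥E' := hE'u.1
  haveI : NumberField ↥E' := NumberField.mk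
  have hγ0 : γ ≠ 0 := by
    rintro rfl
    rw [zero_pow hpk.ne'] at hγ
    have : (α : ↥E) = 0 := Subtype.ext hγ.symm
    exact α.ne_zero this
  have hγ0' : (⟨γ, hγE'⟩ : ↥E') ≠ 0 := fun h => hγ0 (congrArg Subtype.val h)
  set g : Idele Qbar := bcIdele ↥E' Qbar (helper26.principalIdele ↥E' (Units.mk0 _ hγ0')) with hg
  have hfixE' : ∀ σ : Qbar ≃ₐ[ℚ] Qbar, σ ∈ E'.fixingSubgroup → σ ∈ E.fixingSubgroup :=
    fun σ hσ => IntermediateField.fixingSubgroup_antitone hEE' hσ
  have hgfix : ∀ σ : Qbar ≃ₐ[ℚ] Qbar, σ ∈ E'.fixingSubgroup → σ • g = g :=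
    fun σ hσ => smul_bcIdele_of_mem_fixingSubgroup E' _ hσ
  have hgpow : g ^ (p ^ k) = bcIdele ↥E Qbar (helper26.principalIdele ↥E α) := by
    rw [hg, ← map_pow, ← map_pow]
    apply Subtype.ext
    rw [coe_bcIdele_principalIdele, coe_bcIdele_principalIdele]
    congr 1
    apply Units.ext
    simp only [Units.coe_map, Units.val_pow_eq_pow_val, Units.val_mk0, MonoidHom.coe_coe,
      map_pow]
    exact hγ
  refine ⟨m, hm, bcIdele ↥E Qbar x₀ ^ m / g, ⟨⟨E', hE', fun σ hσ => ?_⟩, fun q _ => ?_⟩, g,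
    ⟨⟨E', hE', hgfix⟩, bcIdele_principalIdele_mem E' _⟩, by rw [div_mul_cancel]⟩
  · rw [smul_div', smul_pow', hfix σ (hfixE' σ hσ), hgfix σ hσ]
  · -- integrality of `z`
    have hz : (bcIdele ↥E Qbar x₀ ^ m / g) ^ (p ^ k) = bcIdele ↥E Qbar (unitIdeleHom ↥E u) := by
      rw [div_pow, ← pow_mul, mul_comm m, hgpow, ← map_pow, hα', map_mul,
        mul_div_cancel_left]
    refine mem_intUnits_of_pow_mem (q : ℕ) Qbar hpk.ne' ?_
    change ((bcIdele ↥E Qbar x₀ ^ m / g : Idele Qbar) : IdelePi Qbar) q ^ (p ^ k) ∈ _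
    have h2 : ((bcIdele ↥E Qbar x₀ ^ m / g : Idele Qbar) : IdelePi Qbar) q ^ (p ^ k) =
        (((bcIdele ↥E Qbar x₀ ^ m / g) ^ (p ^ k) : Idele Qbar) : IdelePi Qbar) q := rfl
    rw [h2, hz, bcIdele_apply]
    exact bcUnits_mem_intUnits ↥E Qbar (q : ℕ) (u.comp q).2

/-- **R3-CAP** from descent: the cokernel of `J_S → C(F_S)` is torsion prime to `p`. -/
theorem capS_of_descent (hpS : (⟨p, Fact.out⟩ : Nat.Primes) ∈ S) (hD : DescentS S F) :
    CapS p S F hF := by
  intro c
  obtain ⟨x, hx⟩ := QuotientGroup.mk_surjective (Additive.toMul c)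
  obtain ⟨m, hm, z, hz, g, hg, hxz⟩ := exists_pow_eq_mul hF hpS hD (x : Idele Qbar) x.2
  refine ⟨m, hm, Additive.ofMul (⟨z, hz⟩ : bigJS S F hF), ?_⟩
  have hc : c = Additive.ofMul (QuotientGroup.mk x : BigCS S F hF) := by rw [hx]; rfl
  rw [hc]
  change Additive.ofMul ((QuotientGroup.mk' (bigPS' S F hF))
      (Subgroup.inclusion (inf_le_left : bigJS S F hF ≤ smoothS S F hF) ⟨z, hz⟩)) =
    Additive.ofMul ((QuotientGroup.mk x : BigCS S F hF) ^ m)
  congr 1
  rw [← QuotientGroup.mk_pow]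
  apply (QuotientGroup.eq).2
  apply Subgroup.mem_subgroupOf.2
  have : ((((Subgroup.inclusion (inf_le_left : bigJS S F hF ≤ smoothS S F hF) ⟨z, hz⟩)⁻¹ * x ^ m :
      smoothS S F hF) : Idele Qbar)) = g := by
    change z⁻¹ * (x : Idele Qbar) ^ m = g
    rw [hxz, inv_mul_cancel_left]
  rw [this]
  exact hg.2

end Main

end Fermat.Agent.S55.helper10

end
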