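import Fermat.Agent.S55.helper13_MulClass

/-!
# S55 / LOC-9 (helper13): tools for the assembly of `LocalDuality`

* `qz p : ZMod p →+ ℚ/ℤ` (`r ↦ r / p`), injective, onto the `p`-torsion;
* `zetaHom`, calculus of `zetaCochain` (`ζ ^ c` is a cocycle / coboundary when `c` is);
* `locHom_restrictNormalHom`: restriction in towers;
* `Jinv I q p K L ζ c = I.inv q K L [ζ ^ c]` and its invariance under inflation.
-/

set_option autoImplicit false
set_option linter.unusedSectionVars false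

namespace Fermat.Agent.S55.helper13

open CategoryTheory groupCohomology Fermat.Agent.S55 Fermat.Agent.S55.helper8
  Fermat.Agent.S55.helper11

/-! ## `ZMod p → ℚ/ℤ` -/

section qz

variable (p : ℕ) [NeZero p]

/-- the embedding `ZMod p → ℚ/ℤ`, `r ↦ r / p` -/
noncomputable def qz : ZMod p →+ QZ :=
  ZMod.lift p ⟨(zmultiplesHom QZ) (((1 : ℚ) / (p : ℚ) : ℚ) : QZ), by
    have hp : (p : ℚ) ≠ 0 := Nat.cast_ne_zero.2 (NeZero.ne p)
    change ((p : ℤ) • ((((1 : ℚ) / (p : ℚ) : ℚ)) : QZ)) = 0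
    rw [← AddCircle.coe_zsmul, AddCircle.coe_eq_zero_iff]
    refine ⟨1, ?_⟩
    simp⟩

lemma qz_apply (r : ZMod p) : qz p r = ((((r.val : ℚ)) / (p : ℚ) : ℚ) : QZ) := by
  conv_lhs => rw [← ZMod.natCast_zmod_val r]
  have : ((r.val : ℕ) : ZMod p) = (((r.val : ℕ) : ℤ) : ZMod p) := by push_cast; rfl
  rw [this]
  unfold qz
  rw [ZMod.lift_coe]
  change ((r.val : ℤ) • ((((1 : ℚ) / (p : ℚ) : ℚ)) : QZ)) = _
  rw [← AddCircle.coe_zsmul]
  congr 1
  simp
  ring

lemma qz_injective : Function.Injective (qz p) := by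
  rw [injective_iff_map_eq_zero]
  intro r hr
  rw [qz_apply, AddCircle.coe_eq_zero_iff] at hr
  obtain ⟨n, hn⟩ := hr
  have hp : (p : ℚ) ≠ 0 := Nat.cast_ne_zero.2 (NeZero.ne p)
  have hlt : r.val < p := ZMod.val_lt r
  have h1 : (r.val : ℚ) = n * p := by
    field_simp at hn
    simpa using hn.symm
  have h2 : (r.val : ℤ) = n * p := by exact_mod_cast h1
  have h3 : n = 0 := by
    by_contra hne
    have hpos : 0 < n := by
      rcases lt_trichotomy n 0 with h | h | h
      · have : (n * p : ℤ) < 0 := mul_neg_of_neg_of_pos h (by exact_mod_cast Nat.pos_of_ne_zero (NeZero.ne p))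
        omega
      · exact absurd h hne
      · exact h
    have : (p : ℤ) ≤ n * p := by nlinarith
    omega
  rw [h3, zero_mul] at h2
  have : r.val = 0 := by exact_mod_cast h2
  exact (ZMod.val_eq_zero r).1 this

lemma exists_qz_eq (x : QZ) (hx : p • x = 0) : ∃ r : ZMod p, qz p r = x := by
  obtain ⟨y, rfl⟩ := QuotientAddGroup.mk_surjective x
  change p • ((y : ℚ) : QZ) = 0 at hx
  rw [← AddCircle.coe_nsmul, AddCircle.coe_eq_zero_iff] at hx
  obtain ⟨n, hn⟩ := hx
  have hp : (p : ℚ) ≠ 0 := Nat.cast_ne_zero.2 (NeZero.ne p)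
  refine ⟨(n : ZMod p), ?_⟩
  unfold qz
  rw [ZMod.lift_coe]
  change (n • ((((1 : ℚ) / (p : ℚ) : ℚ)) : QZ)) = _
  rw [← AddCircle.coe_zsmul]
  congr 1
  simp at hn ⊢
  field_simp
  linarith

end qz


section zeta

variable {M : Type*} [CommGroup M] (p : ℕ) [NeZero p] (ζ : M) (hζ : ζ ^ p = 1)

/-- `a ↦ ζ ^ a` as a homomorphism `ZMod p →+ Additive M` -/
noncomputable def zetaHom : ZMod p →+ Additive M :=
  ZMod.lift p ⟨(zmultiplesHom (Additive M)) (Additive.ofMul ζ), by
    change ((p : ℤ) • Additive.ofMul ζ) = 0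
    rw [Nat.cast_smul_eq_nsmul, ← ofMul_pow, hζ]
    rfl⟩

include hζ in
lemma zetaHom_apply (a : ZMod p) : (zetaHom p ζ hζ a).toMul = ζ ^ a.val := by
  conv_lhs => rw [← ZMod.natCast_zmod_val a]
  have : ((a.val : ℕ) : ZMod p) = (((a.val : ℕ) : ℤ) : ZMod p) := by push_cast; rfl
  rw [this]
  unfold zetaHom
  rw [ZMod.lift_coe]
  change ((a.val : ℤ) • Additive.ofMul ζ).toMul = _
  rw [Nat.cast_smul_eq_nsmul, ← ofMul_pow]
  rfl

include hζ in
lemma pow_val_add (a b : ZMod p) : ζ ^ (a + b).val = ζ ^ a.val * ζ ^ b.val := by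
  rw [← zetaHom_apply p ζ hζ, ← zetaHom_apply p ζ hζ, ← zetaHom_apply p ζ hζ, map_add]
  rfl

include hζ in
lemma pow_val_sub (a b : ZMod p) : ζ ^ (a - b).val = ζ ^ a.val / ζ ^ b.val := by
  rw [← zetaHom_apply p ζ hζ, ← zetaHom_apply p ζ hζ, ← zetaHom_apply p ζ hζ, map_sub]
  rfl

omit [NeZero p] in
lemma pow_val_zero : ζ ^ (0 : ZMod p).val = 1 := by
  simp

include hζ in
lemma zetaCochain_add {G : Type*} (c₁ c₂ : G × G → ZMod p) :
    zetaCochain p ζ (c₁ + c₂) = zetaCochain p ζ c₁ * zetaCochain p ζ c₂ := by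
  funext g
  simp only [zetaCochain, Pi.add_apply, Pi.mul_apply]
  exact pow_val_add p ζ hζ _ _

omit [NeZero p] in
include hζ in
lemma zetaCochain_pow {G : Type*} (c : G × G → ZMod p) :
    (zetaCochain p ζ c) ^ p = 1 := by
  funext g
  simp only [zetaCochain, Pi.pow_apply, Pi.one_apply]
  rw [← pow_mul, mul_comm, pow_mul, hζ, one_pow]

variable {G : Type*} [Group G] [MulDistribMulAction G M]

include hζ in
lemma isMulCocycle₂_zetaCochain (hfix : ∀ g : G, g • ζ = ζ) (c : G × G → ZMod p)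
    (hc : ∀ g h j : G, c (g * h, j) + c (g, h) = c (h, j) + c (g, h * j)) :
    IsMulCocycle₂ (zetaCochain p ζ c) := by
  intro g h j
  simp only [zetaCochain]
  rw [smul_pow', hfix, ← pow_val_add p ζ hζ, ← pow_val_add p ζ hζ, hc]

include hζ in
lemma isMulCoboundary₂_zetaCochain (hfix : ∀ g : G, g • ζ = ζ) (c : G × G → ZMod p)
    (b : G → ZMod p) (hc : ∀ g h : G, c (g, h) = b h - b (g * h) + b g) :
    IsMulCoboundary₂ (zetaCochain p ζ c) := by
  refine ⟨fun g => ζ ^ (b g).val, fun g h => ?_⟩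
  simp only [zetaCochain]
  rw [smul_pow', hfix, ← pow_val_sub p ζ hζ, ← pow_val_add p ζ hζ, hc]

end zeta

section trivialCoeff

variable {k : Type} [CommRing k] {G : Type} [Group G]

lemma mem_ker_d₂₃_trivial_iff (c : G × G → k) :
    c ∈ LinearMap.ker (d₂₃ (Rep.trivial k G k)).hom ↔
      ∀ g h j : G, c (g * h, j) + c (g, h) = c (h, j) + c (g, h * j) := by
  exact mem_cocycles₂_iff (A := Rep.trivial k G k) c

lemma d₁₂_trivial_apply (b : G → k) (g h : G) :
    (d₁₂ (Rep.trivial k G k)).hom b (g, h) = b h - b (g * h) + b g := by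
  simp

end trivialCoeff


section tower

variable (K L L' Ω : Type) [Field K] [Field L] [Field L'] [Field Ω]
  [Algebra K L] [Algebra K L'] [Algebra K Ω] [Algebra L L'] [Algebra L Ω] [Algebra L' Ω]
  [IsScalarTower K L L'] [IsScalarTower K L Ω] [IsScalarTower K L' Ω] [IsScalarTower L L' Ω]
  [Normal K L] [Normal K L']

lemma locHom_restrictNormalHom (σ : Ω ≃ₐ[K] Ω) :
    locHom K L K L' (AlgEquiv.restrictNormalHom L' σ) = AlgEquiv.restrictNormalHom L σ := by
  apply AlgEquiv.ext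
  intro x
  apply (algebraMap L Ω).injective
  rw [IsScalarTower.algebraMap_apply L L' Ω, algebraMap_locHom]
  change algebraMap L' Ω (σ.restrictNormal L' _) = algebraMap L Ω (σ.restrictNormal L x)
  rw [AlgEquiv.restrictNormal_commutes, AlgEquiv.restrictNormal_commutes,
    ← IsScalarTower.algebraMap_apply L L' Ω]

end tower

section inflation

variable (I : LocInv) (q : ℕ) [Fact q.Prime] (p : ℕ) [NeZero p]
  (K L L' : Type) [Field K] [Field L] [Field L']
  [Algebra ℚ_[q] K] [FiniteDimensional ℚ_[q] K]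
  [Algebra K L] [Algebra K L'] [Algebra L L'] [IsScalarTower K L L']
  [FiniteDimensional K L] [FiniteDimensional K L'] [IsGalois K L] [IsGalois K L']
  (ζ : Kˣ)

/-- the class `[ζ ^ c]` and its invariant -/
noncomputable def Jinv (c : (L ≃ₐ[K] L) × (L ≃ₐ[K] L) → ZMod p) : QZ :=
  I.inv q K L (mulClass K L (zetaCochain p (Units.map (algebraMap K L : K →* L) ζ) c))

lemma units_map_fix (σ : L ≃ₐ[K] L) :
    σ • Units.map (algebraMap K L : K →* L) ζ = Units.map (algebraMap K L : K →* L) ζ := by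
  apply Units.ext
  exact σ.commutes _

lemma locCochain_zetaCochain (c : (L ≃ₐ[K] L) × (L ≃ₐ[K] L) → ZMod p) :
    locCochain K L K L' (zetaCochain p (Units.map (algebraMap K L : K →* L) ζ) c) =
      zetaCochain p (Units.map (algebraMap K L' : K →* L') ζ)
        (fun g => c (locHom K L K L' g.1, locHom K L K L' g.2)) := by
  funext g
  simp only [locCochain_apply, zetaCochain, map_pow]
  congr 1
  apply Units.ext
  exact (IsScalarTower.algebraMap_apply K L L' _).symm

include q in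
lemma Jinv_inflation (hζ : ζ ^ p = 1) (c : (L ≃ₐ[K] L) × (L ≃ₐ[K] L) → ZMod p)
    (hc : ∀ g h j, c (g * h, j) + c (g, h) = c (h, j) + c (g, h * j)) :
    Jinv I q p K L' ζ (fun g => c (locHom K L K L' g.1, locHom K L K L' g.2)) =
      Jinv I q p K L ζ c := by
  unfold Jinv
  have hζL : (Units.map (algebraMap K L : K →* L) ζ) ^ p = 1 := by
    rw [← map_pow, hζ, map_one]
  have hcoc : IsMulCocycle₂ (zetaCochain p (Units.map (algebraMap K L : K →* L) ζ) c) :=
    isMulCocycle₂_zetaCochain p _ hζL (units_map_fix K L ζ) c hc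
  rw [← locCochain_zetaCochain, ← locH_mulClass K L K L' hcoc]
  have := I.baseChange q K L K L'
    (mulClass K L (zetaCochain p (Units.map (algebraMap K L : K →* L) ζ) c))
  rw [this, Module.finrank_self, one_smul]

end inflation


end Fermat.Agent.S55.helper13
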