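import Fermat.Agent.S55.helper11_RecDefs

/-!
# S55 / REC1 (helper11): functoriality of `locH` (package R-FUN) and first consequences
-/

set_option autoImplicit false

open CategoryTheory groupCohomology

namespace Fermat.Agent.S55.helper11

section Fun

variable (F L K₁ L₁ K₂ L₂ : Type) [Field F] [Field L] [Field K₁] [Field L₁] [Field K₂]
    [Field L₂] [Algebra F L] [Normal F L] [Algebra K₁ L₁] [Normal K₁ L₁] [Algebra K₂ L₂]
    [Algebra F K₁] [Algebra L L₁] [Algebra F L₁] [IsScalarTower F L L₁] [IsScalarTower F K₁ L₁]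
    [Algebra K₁ K₂] [Algebra L₁ L₂] [Algebra K₁ L₂] [IsScalarTower K₁ L₁ L₂]
    [IsScalarTower K₁ K₂ L₂]
    [Algebra F K₂] [Algebra L L₂] [Algebra F L₂] [IsScalarTower F L L₂] [IsScalarTower F K₂ L₂]
    [IsScalarTower F K₁ K₂] [IsScalarTower L L₁ L₂]

/-- An automorphism of `L/F` is determined by its image under an embedding. -/
lemma locHom_ext {F L Kv Lw : Type} [Field F] [Field L] [Field Kv] [Field Lw]
    [Algebra F L] [Algebra Kv Lw] [Algebra F Kv] [Algebra L Lw] [Algebra F Lw]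
    [IsScalarTower F L Lw] [IsScalarTower F Kv Lw] [Normal F L]
    (σ : Lw ≃ₐ[Kv] Lw) (τ : L ≃ₐ[F] L)
    (h : ∀ x : L, algebraMap L Lw (τ x) = σ (algebraMap L Lw x)) :
    locHom F L Kv Lw σ = τ := by
  apply AlgEquiv.ext
  intro x
  apply (algebraMap L Lw).injective
  rw [algebraMap_locHom, h]

omit [IsScalarTower F K₁ K₂] in
lemma locHom_comp :
    (locHom F L K₁ L₁).comp (locHom K₁ L₁ K₂ L₂) = locHom F L K₂ L₂ := by
  ext σ : 1
  symm
  apply locHom_ext
  intro x
  simp only [MonoidHom.comp_apply]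
  rw [IsScalarTower.algebraMap_apply L L₁ L₂, algebraMap_locHom, algebraMap_locHom,
    ← IsScalarTower.algebraMap_apply L L₁ L₂]

omit [IsScalarTower F K₁ K₂] in
/-- **R-FUN**: functoriality of `locH`. -/
theorem locH_comp (n : ℕ) :
    locH F L K₂ L₂ n = locH F L K₁ L₁ n ≫ locH K₁ L₁ K₂ L₂ n := by
  unfold locH
  rw [← groupCohomology.map_comp]
  apply groupCohomology.map_congr (locHom_comp F L K₁ L₁ K₂ L₂).symm
  ext x
  have hx : ∀ y : Additive Lˣ,
      (Rep.Hom.hom (locUnits F L K₂ L₂)).toLinearMap y =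
        (Rep.Hom.hom ((Rep.resFunctor (locHom K₁ L₁ K₂ L₂)).map (locUnits F L K₁ L₁) ≫
          locUnits K₁ L₁ K₂ L₂)).toLinearMap y := by
    intro y
    apply Additive.toMul.injective
    apply Units.ext
    change algebraMap L L₂ (y.toMul : L) = algebraMap L₁ L₂ (algebraMap L L₁ (y.toMul : L))
    rw [← IsScalarTower.algebraMap_apply L L₁ L₂]
  exact hx x

end Fun

end Fermat.Agent.S55.helper11
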