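import Fermat.Agent.S14.helper12_ArtinNorm
import Fermat.Agent.S14.helper12_ArtinFunct
import Fermat.Agent.S55.helper11_LocFun

/-!
# S55 / REC1 (helper11): the package statements of REC1 as `Prop`s

Each `def Hyp* : Prop` is VERBATIM the statement of one REC1 package
(`origin/helper11:blueprints/S55/helper11_Rec1Interface.lean`).  The conditional assembly
`helper11_Rec1Assembly.lean` proves the reciprocity law from them; the final wiring replaces each
hypothesis by the landed theorem.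
-/

set_option autoImplicit false

open CategoryTheory groupCohomology
open scoped NumberField nonZeroDivisors
open IsDedekindDomain

namespace Fermat.Agent.S55.helper11

open Fermat.Agent.S14 Fermat.Agent.S55.helper8

/-- "`M/F` is unramified at the place `w`" (all inertia groups over `w` are trivial). -/
def UnramAt (F M : Type) [Field F] [NumberField F] [Field M] [NumberField M] [Algebra F M]
    (w : HeightOneSpectrum (𝓞 F)) : Prop :=
  ∀ P : Ideal (𝓞 M), P.IsPrime → P.under (𝓞 F) = w.asIdeal →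
    ∀ σ : Gal(M/F), (∀ x : 𝓞 M, σ • x - x ∈ P) → σ = 1

/-- N2 (after feeding the zeta-pole lemma). -/
def HypAux (p : ℕ) : Prop :=
  ∀ (F : Type) [Field F] [NumberField F]
    (V : Finset (HeightOneSpectrum (𝓞 F))) (T : Finset ℕ) (n : ℕ),
    ∃ (l : ℕ) (M : Type) (_ : Field M) (_ : NumberField M) (_ : Algebra F M)
      (_ : IsAbelianGalois F M),
      l.Prime ∧ l ∉ T ∧ IsCyclic Gal(M/F) ∧ (∃ k : ℕ, Module.finrank F M = p ^ k) ∧
      (∀ v ∈ V, (l : 𝓞 F) ∉ v.asIdeal) ∧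
      (∀ P : Ideal (𝓞 M), P.IsPrime → P ≠ ⊥ → (l : 𝓞 M) ∉ P →
        ∀ σ : Gal(M/F), (∀ x : 𝓞 M, σ • x - x ∈ P) → σ = 1) ∧
      (∀ v ∈ V, p ^ n ∣ orderOf (frobAt F M v.asIdeal)) ∧
      (∀ (c : 𝓞 F) (hc : c ≠ 0), (∃ d : 𝓞 F, c - 1 = (l : 𝓞 F) * d) →
        artinMap F M ⟨Ideal.span {c}, mem_nonZeroDivisors_of_ne_zero
          (by simpa [Ideal.span_singleton_eq_bot] using hc)⟩ = 1)

/-- R-RES. -/
def HypRes : Prop :=
  ∀ (q : ℕ) [Fact q.Prime] (F L M L' : Type) [Field F] [Field L] [Field M]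
    [Field L'] [Algebra F L] [FiniteDimensional F L] [IsGalois F L] [Algebra M L']
    [FiniteDimensional M L'] [IsGalois M L']
    [Algebra F M] [Algebra L L'] [Algebra F L'] [IsScalarTower F L L'] [IsScalarTower F M L']
    (E : LocDatum q M L'),
    ∃ (D : LocDatum q F L) (_ : Algebra D.Kv E.Kv) (_ : Algebra D.Lw E.Lw)
      (_ : Algebra D.Kv E.Lw) (_ : IsScalarTower D.Kv D.Lw E.Lw)
      (_ : IsScalarTower D.Kv E.Kv E.Lw) (_ : IsScalarTower ℚ_[q] D.Kv E.Kv)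
      (_ : FiniteDimensional D.Kv E.Kv),
      (∀ a : F, algebraMap D.Kv E.Kv (algebraMap F D.Kv a) =
        algebraMap M E.Kv (algebraMap F M a)) ∧
      (∀ a : L, algebraMap D.Lw E.Lw (algebraMap L D.Lw a) =
        algebraMap L' E.Lw (algebraMap L L' a)) ∧
      (∀ a : F, 0 < ordT q D.Kv (algebraMap F D.Kv a) ↔
        0 < ordT q E.Kv (algebraMap M E.Kv (algebraMap F M a))) ∧
      ∀ x : H2 (Rep.ofAlgebraAutOnUnits F L),
        E.loc ((locH F L M L' 2).hom x) = (locH D.Kv D.Lw E.Kv E.Lw 2).hom (D.loc x)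

/-- R-EXT. -/
def HypExt : Prop :=
  ∀ (q : ℕ) [Fact q.Prime] (F L L' : Type) [Field F] [Field L] [Field L']
    [Algebra F L] [Algebra F L'] [Algebra L L'] [IsScalarTower F L L'] [FiniteDimensional F L']
    [IsGalois F L] [IsGalois F L'] (D : LocDatum q F L),
    ∃ (E : LocDatum q F L') (_ : Algebra D.Kv E.Kv) (_ : Algebra D.Lw E.Lw)
      (_ : Algebra D.Kv E.Lw) (_ : IsScalarTower D.Kv D.Lw E.Lw)
      (_ : IsScalarTower D.Kv E.Kv E.Lw) (_ : IsScalarTower ℚ_[q] D.Kv E.Kv)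
      (_ : FiniteDimensional D.Kv E.Kv),
      Module.finrank D.Kv E.Kv = 1 ∧
      (∀ a : F, algebraMap D.Kv E.Kv (algebraMap F D.Kv a) = algebraMap F E.Kv a) ∧
      (∀ a : L, algebraMap D.Lw E.Lw (algebraMap L D.Lw a) =
        algebraMap L' E.Lw (algebraMap L L' a)) ∧
      (∀ a : F, 0 < ordT q D.Kv (algebraMap F D.Kv a) ↔ 0 < ordT q E.Kv (algebraMap F E.Kv a)) ∧
      ∀ x : H2 (Rep.ofAlgebraAutOnUnits F L),
        E.loc ((locH F L F L' 2).hom x) = (locH D.Kv D.Lw E.Kv E.Lw 2).hom (D.loc x)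

/-- R-EXIST (first half). -/
def HypExist : Prop :=
  ∀ (F L : Type) [Field F] [NumberField F] [Field L] [NumberField L]
    [Algebra F L] [IsGalois F L] (v : HeightOneSpectrum (𝓞 F)),
    ∃ (q : ℕ) (_ : Fact q.Prime) (D : LocDatum q F L), D.AtPlace v

/-- R-EXIST (second half). -/
def HypPlace : Prop :=
  ∀ (q : ℕ) [Fact q.Prime] (F L : Type) [Field F] [NumberField F]
    [Field L] [NumberField L] [Algebra F L] [IsGalois F L] (D : LocDatum q F L),
    ∃! v : HeightOneSpectrum (𝓞 F), D.AtPlace v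

/-- R-DEG. -/
def HypDeg : Prop :=
  ∀ (q : ℕ) [Fact q.Prime] (F M : Type) [Field F] [NumberField F]
    [Field M] [NumberField M] [Algebra F M] [IsAbelianGalois F M]
    (L L' : Type) [Field L] [Field L'] [Algebra F L] [Algebra M L']
    (D : LocDatum q F L) (E : LocDatum q M L')
    [Algebra D.Kv E.Kv] [IsScalarTower ℚ_[q] D.Kv E.Kv] [FiniteDimensional D.Kv E.Kv],
    (∀ a : F, algebraMap D.Kv E.Kv (algebraMap F D.Kv a) =
      algebraMap M E.Kv (algebraMap F M a)) →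
    ∀ (w : HeightOneSpectrum (𝓞 F)), D.AtPlace w → UnramAt F M w →
    Module.finrank D.Kv E.Kv = orderOf (frobAt F M w.asIdeal)

/-- R-INF. -/
def HypInf : Prop :=
  ∀ (F M L' : Type) [Field F] [Field M] [Field L'] [Algebra F M]
    [Algebra M L'] [Algebra F L'] [IsScalarTower F M L'] [FiniteDimensional F L']
    [IsGalois F M] [IsGalois F L'] (y : H2 (Rep.ofAlgebraAutOnUnits F L')),
    (locH F L' M L' 2).hom y = 0 →
    ∃ z : H2 (Rep.ofAlgebraAutOnUnits F M), (locH F M F L' 2).hom z = y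

/-- R-COMP. -/
def HypComp : Prop :=
  ∀ (F L M : Type) [Field F] [NumberField F] [Field L] [NumberField L]
    [Field M] [NumberField M] [Algebra F L] [Algebra F M] [IsGalois F L] [IsGalois F M],
    ∃ (L' : Type) (_ : Field L') (_ : NumberField L') (_ : Algebra F L') (_ : Algebra L L')
      (_ : Algebra M L') (_ : IsScalarTower F L L') (_ : IsScalarTower F M L')
      (_ : IsGalois F L'), IsGalois M L' ∧ IsGalois L L'

/-- R-TAME. -/
def HypTame (I : LocInv) : Prop :=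
  ∀ (q : ℕ) [Fact q.Prime] (F M : Type) [Field F]
    [NumberField F] [Field M] [NumberField M] [Algebra F M] [IsAbelianGalois F M]
    (D : LocDatum q F M) (w : HeightOneSpectrum (𝓞 F)), D.AtPlace w → UnramAt F M w →
    ∀ (σ : Gal(M/F)), (∀ τ : Gal(M/F), τ ∈ Subgroup.zpowers σ) →
    ∀ (k : ℕ), frobAt F M w.asIdeal = σ ^ k → ∀ (c : Fˣ) (e : ℤ),
    w.valuation F (c : F) = WithZero.exp (-e) →
    I.inv q D.Kv D.Lw (D.loc (cyclicClass F M σ c)) =
      ((((k : ℚ) * (e : ℚ) / (Module.finrank F M : ℚ) : ℚ)) : QZ)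

/-- R-NORML. -/
def HypNormL : Prop :=
  ∀ (q : ℕ) [Fact q.Prime] (F M : Type) [Field F]
    [Field M] [Algebra F M] [FiniteDimensional F M] [IsGalois F M] (D : LocDatum q F M)
    (σ : M ≃ₐ[F] M), (∀ τ : M ≃ₐ[F] M, τ ∈ Subgroup.zpowers σ) → ∀ (c : Fˣ),
    D.loc (cyclicClass F M σ c) = 0 →
    Units.map (algebraMap F D.Kv : F →* D.Kv) c ∈ (normUnits D.Kv D.Lw).range

/-- R-ARTSUM. -/
def HypArtSum : Prop :=
  ∀ (F M : Type) [Field F] [NumberField F] [Field M] [NumberField M]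
    [Algebra F M] [IsAbelianGalois F M] (σ : Gal(M/F))
    (k e : HeightOneSpectrum (𝓞 F) → ℕ) (S : Finset (HeightOneSpectrum (𝓞 F)))
    (a : 𝓞 F) (ha : a ≠ 0), (∀ w : HeightOneSpectrum (𝓞 F), a ∈ w.asIdeal → w ∈ S) →
    (∀ w ∈ S, frobAt F M w.asIdeal = σ ^ k w) →
    (∀ w : HeightOneSpectrum (𝓞 F), w.valuation F (a : F) = WithZero.exp (-(e w : ℤ))) →
    artinMap F M ⟨Ideal.span {a}, mem_nonZeroDivisors_of_ne_zero
      (by simpa [Ideal.span_singleton_eq_bot] using ha)⟩ = 1 →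
    (orderOf σ : ℤ) ∣ ∑ w ∈ S, (k w : ℤ) * (e w : ℤ)

/-- R-APX. -/
def HypApx : Prop :=
  ∀ (l : ℕ) [Fact l.Prime] (F M : Type) [Field F] [NumberField F]
    [Field M] [NumberField M] [Algebra F M] [IsGalois F M] (c : Fˣ),
    (∀ D : LocDatum l F M,
      Units.map (algebraMap F D.Kv : F →* D.Kv) c ∈ (normUnits D.Kv D.Lw).range) →
    ∃ (m : Mˣ) (a b : 𝓞 F), a ≠ 0 ∧ b ≠ 0 ∧
      (c : F) * Algebra.norm F (m : M) * (b : F) = (a : F) ∧
      (∃ d : 𝓞 F, a - 1 = (l : 𝓞 F) * d) ∧ (∃ d : 𝓞 F, b - 1 = (l : 𝓞 F) * d)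

end Fermat.Agent.S55.helper11
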