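import Fermat.Agent.S55.helper15_UnramUnitCob
import Fermat.Agent.S55.helper2_RecUnram
import Fermat.Agent.S55.helper13_MulClass
import Fermat.Agent.S55.helper11_Rec1Hyps

/-!
# S55 / B-AR-REC-MIX (e) SUPPORT, `LocDatum` form (helper15)

At a place `v` where the extension `M/F` of number fields is unramified, the localisation of the
class of a torsion-valued (e.g. root-of-unity valued) 2-cocycle vanishes:
`D.loc (mulClass F M f) = 0` for every local datum `D` at `v`.
In particular `D.loc (mulClass F M (zetaCochain p ζ c)) = 0` if `ζ ^ p = 1`.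
This is exactly the support hypothesis of `helper59.HypRecP`.
-/

set_option autoImplicit false
set_option linter.style.haveILetI false
set_option linter.unusedSectionVars false
set_option linter.unusedVariables false

open groupCohomology
open scoped NumberField
open IsDedekindDomain

noncomputable section

namespace Fermat.Agent.S55.helper15

open Fermat.Agent.S55.helper8 Fermat.Agent.S55.helper11

section local_torsion

variable (q : ℕ) [Fact q.Prime]
variable (K : Type) [Field K] [Algebra ℚ_[q] K] [FiniteDimensional ℚ_[q] K]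

/-- torsion units of a `q`-adic field are units of its ring of integers -/
theorem mem_unitGroup_of_pow_eq_one {u : Kˣ} {n : ℕ} (hn : 0 < n) (hu : u ^ n = 1) :
    u ∈ unitGroup q K := by
  rw [helper33.mem_unitGroup_iff]
  have h1 : ord q K (u ^ n) = n * ord q K u := by
    clear hu hn
    induction n with
    | zero =>
      rw [pow_zero, Nat.cast_zero, zero_mul]
      have := helper33.ord_mul q K 1 1
      rw [mul_one] at this
      omega
    | succ k ih =>
      rw [pow_succ, helper33.ord_mul, ih]
      push_cast
      ring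
  have h2 : ord q K (1 : Kˣ) = 0 := by
    have := helper33.ord_mul q K 1 1
    rw [mul_one] at this
    omega
  rw [hu, h2] at h1
  have hn' : (n : ℤ) ≠ 0 := by exact_mod_cast hn.ne'
  rcases mul_eq_zero.1 h1.symm with h | h
  · exact absurd h hn'
  · exact h

end local_torsion

section locDatum

variable (q : ℕ) [Fact q.Prime] (F M : Type) [Field F] [NumberField F] [Field M]
  [NumberField M] [Algebra F M] [IsGalois F M]

/-- at an unramified place the completion `Lw/Kv` of a local datum is unramified -/
theorem isUnram_of_unramAt (D : LocDatum q F M) (v : HeightOneSpectrum (𝓞 F))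
    (hv : D.AtPlace v) (hunr : UnramAt F M v) : IsUnram q D.Kv D.Lw := by
  have hvF : v.asIdeal = helper2.inducedPrime q F D.Kv :=
    helper2.asIdeal_eq_inducedPrime_of_atPlace q D v hv
  have hPv : (helper2.inducedPrime q M D.Lw).under (𝓞 F) = v.asIdeal := by
    rw [helper2.under_inducedPrime, hvF]
  exact helper2.isUnram_of_inertia q F M D (hunr (helper2.inducedPrime q M D.Lw) inferInstance hPv)

/-- **(e) SUPPORT**: at an unramified place the localisation of the class of a torsion-valued
2-cochain vanishes. -/
theorem loc_mulClass_eq_zero_of_unramAt (D : LocDatum q F M) (v : HeightOneSpectrum (𝓞 F))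
    (hv : D.AtPlace v) (hunr : UnramAt F M v)
    (f : (M ≃ₐ[F] M) × (M ≃ₐ[F] M) → Mˣ)
    (htor : ∀ g, ∃ n : ℕ, 0 < n ∧ f g ^ n = 1) :
    D.loc (mulClass F M f) = 0 := by
  by_cases hf : IsMulCocycle₂ f
  · have h1 : D.loc (mulClass F M f) = (locH F M D.Kv D.Lw 2).hom (mulClass F M f) := rfl
    rw [h1, helper13.locH_mulClass F M D.Kv D.Lw hf]
    haveI : FiniteDimensional ℚ_[q] D.Lw := Module.Finite.trans D.Kv D.Lw
    refine mulClass_eq_zero_of_isUnram_of_unit q D.Kv D.Lw
      (isUnram_of_unramAt q F M D v hv hunr) _ fun g => ?_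
    obtain ⟨n, hn, hfn⟩ := htor (locHom F M D.Kv D.Lw g.1, locHom F M D.Kv D.Lw g.2)
    refine mem_unitGroup_of_pow_eq_one q D.Lw hn ?_
    rw [helper13.locCochain_apply, ← map_pow, hfn, map_one]
  · have h0 : mulClass F M f = 0 := by
      unfold mulClass
      rw [dif_neg hf]
    rw [h0, map_zero]

/-- **(e) SUPPORT**, Kummer form: the class of `ζ ^ c` localises to zero at unramified places. -/
theorem loc_mulClass_zetaCochain_eq_zero_of_unramAt (D : LocDatum q F M)
    (v : HeightOneSpectrum (𝓞 F)) (hv : D.AtPlace v) (hunr : UnramAt F M v)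
    (p : ℕ) (hp : 0 < p) (ζ : Mˣ) (hζ : ζ ^ p = 1)
    (c : (M ≃ₐ[F] M) × (M ≃ₐ[F] M) → ZMod p) :
    D.loc (mulClass F M (zetaCochain p ζ c)) = 0 := by
  refine loc_mulClass_eq_zero_of_unramAt q F M D v hv hunr _ fun g => ⟨p, hp, ?_⟩
  change (ζ ^ (c g).val) ^ p = 1
  rw [← pow_mul, mul_comm, pow_mul, hζ, one_pow]

end locDatum

end Fermat.Agent.S55.helper15
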