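import Fermat.Agent.S55.helper57_LocTameFinal
import Fermat.Agent.S55.helper13_MulClass
import Fermat.Agent.S55.helper96_LocUnramCoh

/-!
# S55 (helper75): TAME-G, the tame formula for ARBITRARY 2-cocycles of an unramified extension

`L/K` an unramified extension of `q`-adic fields, `φ` its Frobenius, `n = [L : K]`, `I : LocInv`.

* `exists_cob_partProd` : every 2-cocycle `c` of a finite cyclic group `⟨φ⟩` is cohomologous to
  the cyclic cocycle of `b = ∏_{j < n} c (φ ^ j, φ)` (explicit form of
  `helper96.exists_cycG_of_isMulCocycle₂`);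
* `inv_mulClass_of_isUnram` (**TAME-G**) : `I.inv [c] = (∑_{i < n} ord_L (c (φ ^ i, φ))) / n` for
  EVERY multiplicative 2-cocycle `c : Gal(L/K)² → Lˣ`;
* `mulClass_eq_zero_of_isUnram`, `isMulCoboundary₂_of_isUnram` : unit-valued cocycles of an
  unramified extension are coboundaries.
-/

set_option autoImplicit false
set_option linter.unusedSectionVars false
set_option linter.unusedVariables false
set_option linter.style.haveILetI false

open groupCohomology

namespace Fermat.Agent.S55.helper75

open Fermat.Agent.S55 Fermat.Agent.S55.helper8 Fermat.Agent.S55.helper11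

section Abs

variable {G : Type*} [Group G] {M : Type*} [CommGroup M] [MulDistribMulAction G M] {φ : G}

/-- Every 2-cocycle `c` of a finite cyclic group `⟨φ⟩` is cohomologous to the cyclic cocycle of
`b = ∏_{j < n} c (φ ^ j, φ)` (explicit form of `helper96.exists_cycG_of_isMulCocycle₂`). -/
theorem exists_cob_partProd (hfin : 0 < orderOf φ)
    (hgen : ∀ σ : G, σ ∈ Subgroup.zpowers φ) {c : G × G → M} (hc : IsMulCocycle₂ c) :
    ∃ y : G → M, ∀ g h : G,
      g • y h / y (g * h) * y g =
        c (g, h) / helper96.cycG φ (helper96.partProd φ c (orderOf φ)) (g, h) := by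
  refine ⟨fun σ => c (1, 1) / helper96.partProd φ c (helper96.dlogG φ σ), fun g h => ?_⟩
  have key := helper96.cocycle_partProd (φ := φ) hc (helper96.dlogG φ g) (helper96.dlogG φ h)
  rw [helper96.pow_dlogG hfin hgen, helper96.pow_dlogG hfin hgen, map_one_snd_of_isMulCocycle₂ hc,
    helper96.partProd_eq_mod c (helper96.dlogG φ g + helper96.dlogG φ h),
    ← helper96.dlogG_mul hfin hgen] at key
  simp only [helper96.cycG]
  rw [smul_div']
  exact helper96.mul_identity_aux _ _ _ _ _ _ _ key

end Abs

section Local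

variable (q : ℕ) [Fact q.Prime]

variable (I : LocInv) (K L : Type) [Field K] [Field L] [Algebra ℚ_[q] K] [Algebra ℚ_[q] L]
  [Algebra K L] [IsScalarTower ℚ_[q] K L] [FiniteDimensional ℚ_[q] K] [FiniteDimensional K L]
  [IsGalois K L]

/-- `ord` of a finite product. -/
theorem ord_prod [FiniteDimensional ℚ_[q] L] {α : Type*} (s : Finset α) (f : α → Lˣ) :
    ord q L (∏ i ∈ s, f i) = ∑ i ∈ s, ord q L (f i) := by
  classical
  induction s using Finset.induction_on with
  | empty => simp [helper97.ord_one]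
  | insert a s ha ih => rw [Finset.prod_insert ha, Finset.sum_insert ha, helper97.ord_mul, ih]

/-- **TAME-G**: the invariant of an ARBITRARY 2-cocycle of an unramified extension `L/K` with
Frobenius `φ`: `inv [c] = (∑_{i < n} ord_L (c (φ ^ i, φ))) / n`, `n = [L : K]`. -/
theorem inv_mulClass_of_isUnram (h : IsUnram q K L) (φ : L ≃ₐ[K] L) (hφ : IsFrob q K L φ)
    (c : (L ≃ₐ[K] L) × (L ≃ₐ[K] L) → Lˣ) (hc : IsMulCocycle₂ c) :
    I.inv q K L (mulClass K L c) =
      (((((∑ i ∈ Finset.range (Module.finrank K L), ord q L (c (φ ^ i, φ)) : ℤ) : ℚ) /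
        (Module.finrank K L : ℚ) : ℚ)) : QZ) := by
  haveI : FiniteDimensional ℚ_[q] L := FiniteDimensional.trans ℚ_[q] K L
  obtain ⟨φ₀, hφ₀, hgen₀, hord₀, huniq⟩ := helper7.exists_frob_of_isUnram q K L h
  obtain rfl : φ = φ₀ := huniq φ hφ
  have hfin : 0 < orderOf φ := orderOf_pos φ
  set b : Lˣ := helper96.partProd φ c (orderOf φ) with hb
  have hbφ : φ • b = b := helper96.smul_partProd_orderOf hc
  have hbG : ∀ g : L ≃ₐ[K] L, g • b = b := helper96.smul_eq_of_gen hgen₀ hbφ
  -- `b` comes from `K`
  obtain ⟨k, hk⟩ : (b : L) ∈ Set.range (algebraMap K L) :=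
    (IsGalois.mem_range_algebraMap_iff_fixed (F := K) (E := L) (b : L)).2
      (fun g => congrArg Units.val (hbG g))
  have hk0 : k ≠ 0 := by
    rintro rfl
    rw [map_zero] at hk
    exact b.ne_zero hk.symm
  set b₀ : Kˣ := Units.mk0 k hk0 with hb₀
  have hbb₀ : Units.map (algebraMap K L : K →* L) b₀ = b := Units.ext hk
  -- the class of `c` is the cyclic class of `b₀`
  obtain ⟨y, hy⟩ := exists_cob_partProd hfin hgen₀ hc
  have hcyc : IsMulCocycle₂ (helper96.cycG φ b) := helper96.isMulCocycle₂_cycG hfin hgen₀ hbφ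
  have hcob : IsMulCoboundary₂ (fun p => c p / helper96.cycG φ b p) :=
    ⟨y, fun g h => hy g h⟩
  have hsplit : c = (fun p => c p / helper96.cycG φ b p) * helper96.cycG φ b := by
    funext p
    simp only [Pi.mul_apply, div_mul_cancel]
  have hclass : mulClass K L c = cyclicClass K L φ b₀ := by
    rw [hsplit, helper13.mulClass_mul K L (helper13.isMulCocycle₂_of_isMulCoboundary₂ hcob) hcyc,
      helper13.mulClass_eq_zero_of_isMulCoboundary₂ K L hcob, zero_add,
      cyclicClass_eq_mulClass, helper96.cyclicCochain_eq, hbb₀]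
  rw [hclass, helper57.inv_cyclicClass_of_isUnram q I K L h φ hφ φ hgen₀ 1 (pow_one φ).symm b₀]
  -- the valuation of `b₀`
  have hord : ord q K b₀ = ∑ i ∈ Finset.range (Module.finrank K L), ord q L (c (φ ^ i, φ)) := by
    rw [← h b₀, hbb₀, hb, helper96.partProd, ord_prod, hord₀]
  rw [hord]
  congr 1
  push_cast
  ring

include I in
/-- A unit-valued 2-cocycle of an unramified extension is a coboundary (class `0`). -/
theorem mulClass_eq_zero_of_isUnram (h : IsUnram q K L)
    (c : (L ≃ₐ[K] L) × (L ≃ₐ[K] L) → Lˣ) (hc : IsMulCocycle₂ c)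
    (hunit : ∀ g, ord q L (c g) = 0) : mulClass K L c = 0 := by
  obtain ⟨φ, hφ, -⟩ := helper7.exists_frob_of_isUnram q K L h
  apply I.injective q K L
  rw [inv_mulClass_of_isUnram q I K L h φ hφ c hc, map_zero]
  simp [hunit]

include I in
/-- A unit-valued 2-cocycle of an unramified extension is a coboundary. -/
theorem isMulCoboundary₂_of_isUnram (h : IsUnram q K L)
    (c : (L ≃ₐ[K] L) × (L ≃ₐ[K] L) → Lˣ) (hc : IsMulCocycle₂ c)
    (hunit : ∀ g, ord q L (c g) = 0) : IsMulCoboundary₂ c :=
  (helper13.mulClass_eq_zero_iff K L hc).1 (mulClass_eq_zero_of_isUnram q I K L h c hc hunit)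

end Local

end Fermat.Agent.S55.helper75
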