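import Fermat.Agent.S55.helper21_ShaLocAlg
import Fermat.Agent.S55.helper75_TameG
import Fermat.Agent.S55.helper33_LocRel

/-!
# S55 / B-AR-SHA-LOC (helper21, task 553): the local computation for (I7a)

`hypShaLoc : HypShaLoc Inv p` VERBATIM (interface v3 of module B, `helper59_BDefs3`).

Route: the cochain identity `sha_key` writes `ζ ^ ξ` as a coboundary times the inflation of an
explicit cocycle `W₀` of the unramified extension `L₀/K`; the invariant of `W₀` is computed by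
TAME-G (`helper75.inv_mulClass_of_isUnram`): it is `- ord(A) · C / n` with `p · C = n · x̃₀(φ)`.
-/

set_option autoImplicit false
set_option linter.unusedSectionVars false
set_option linter.unusedVariables false

open groupCohomology

namespace Fermat.Agent.S55.helper21

open Fermat.Agent.S55 Fermat.Agent.S55.helper8 Fermat.Agent.S55.helper11
  Fermat.Agent.S55.helper13 Fermat.Agent.S55.helper59

section Ord

variable (q : ℕ) [Fact q.Prime] (K : Type) [Field K] [Algebra ℚ_[q] K] [FiniteDimensional ℚ_[q] K]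

/-- `ord` as a homomorphism -/
noncomputable def ordZ : Kˣ →* Multiplicative ℤ :=
  MonoidHom.mk' (fun a => Multiplicative.ofAdd (ord q K a)) (fun a b => by
    rw [helper97.ord_mul, ofAdd_add])

lemma ordZ_apply (a : Kˣ) : Multiplicative.toAdd (ordZ q K a) = ord q K a := rfl

lemma ord_pow' (a : Kˣ) (n : ℕ) : ord q K (a ^ n) = n * ord q K a := by
  rw [← ordZ_apply, map_pow, toAdd_pow, ordZ_apply, nsmul_eq_mul]

lemma ord_div' (a b : Kˣ) : ord q K (a / b) = ord q K a - ord q K b := by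
  rw [← ordZ_apply, map_div, toAdd_div, ordZ_apply, ordZ_apply]

lemma ord_eq_zero_of_pow_eq_one (a : Kˣ) (n : ℕ) (hn : n ≠ 0) (h : a ^ n = 1) :
    ord q K a = 0 := by
  have h1 := ord_pow' q K a n
  rw [h, helper97.ord_one] at h1
  rcases mul_eq_zero.mp h1.symm with h2 | h2
  · exact absurd (by exact_mod_cast h2) hn
  · exact h2

end Ord

section Main

variable {p : ℕ} [Fact p.Prime]

/-- the invariant of the explicit cocycle `W₀` -/
theorem inv_shaW₀_ne_zero (Inv : helper11.LocInv) (q : ℕ) [Fact q.Prime]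
    (K L₀ : Type) [Field K] [Field L₀] [Algebra ℚ_[q] K] [FiniteDimensional ℚ_[q] K]
    [Algebra ℚ_[q] L₀] [Algebra K L₀] [IsScalarTower ℚ_[q] K L₀] [FiniteDimensional K L₀]
    [IsGalois K L₀]
    (hunr : helper8.IsUnram q K L₀) (φ : L₀ ≃ₐ[K] L₀) (hφ : helper8.IsFrob q K L₀ φ)
    (ζ₀ : L₀ˣ) (hζ₀ : ζ₀ ^ p = 1)
    (x₀ : (L₀ ≃ₐ[K] L₀) →* Multiplicative (ZMod p)) (hx₀ : x₀ φ ≠ 1)
    (α₀ : (L₀ ≃ₐ[K] L₀) × (L₀ ≃ₐ[K] L₀) → ZMod p) (u₀ : (L₀ ≃ₐ[K] L₀) → L₀ˣ)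
    (hu₀ : ∀ σ, u₀ σ ∈ helper8.unitGroup q L₀)
    (A : L₀ˣ) (hA : ¬ (p : ℤ) ∣ helper8.ord q L₀ A)
    (hW : IsMulCocycle₂ (shaW₀ p ζ₀ x₀ α₀ u₀ A)) :
    Inv.inv q K L₀ (helper8.mulClass K L₀ (shaW₀ p ζ₀ x₀ α₀ u₀ A)) ≠ 0 := by
  have : FiniteDimensional ℚ_[q] L₀ := FiniteDimensional.trans ℚ_[q] K L₀
  have hp : p.Prime := Fact.out
  rw [helper75.inv_mulClass_of_isUnram q Inv K L₀ hunr φ hφ _ hW]
  set n := Module.finrank K L₀ with hn
  have hn0 : 0 < n := Module.finrank_pos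
  -- the valuations of the values of `W₀`
  have hordu : ∀ σ, ord q L₀ (u₀ σ) = 0 := fun σ =>
    (helper97.mem_unitGroup_iff q L₀ _).1 (hu₀ σ)
  have hordζ : ord q L₀ ζ₀ = 0 := ord_eq_zero_of_pow_eq_one q L₀ ζ₀ p hp.ne_zero hζ₀
  have hordsmul : ∀ (σ : L₀ ≃ₐ[K] L₀) (a : L₀ˣ), ord q L₀ (σ • a) = ord q L₀ a := fun σ a =>
    helper33.ord_algEquiv q K L₀ σ a
  have hordW : ∀ s t : L₀ ≃ₐ[K] L₀, ord q L₀ (shaW₀ p ζ₀ x₀ α₀ u₀ A (s, t)) =
      - (((xlift p x₀ s + xlift p x₀ t) / p : ℕ) : ℤ) * ord q L₀ A := by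
    intro s t
    unfold shaW₀
    simp only [ord_div', helper97.ord_mul, ord_pow', hordu, hordζ, hordsmul]
    ring
  have hsum : (∑ i ∈ Finset.range n, ord q L₀ (shaW₀ p ζ₀ x₀ α₀ u₀ A (φ ^ i, φ))) =
      - ((∑ i ∈ Finset.range n, (xlift p x₀ (φ ^ i) + xlift p x₀ φ) / p : ℕ) : ℤ) *
        ord q L₀ A := by
    simp only [hordW]
    rw [← Finset.sum_mul]
    push_cast
    rw [Finset.sum_neg_distrib]
  have hφn : φ ^ n = 1 := by
    have h1 : Nat.card (L₀ ≃ₐ[K] L₀) = n := IsGalois.card_aut_eq_finrank K L₀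
    rw [← h1]
    exact pow_card_eq_one'
  have hC := sum_carry p x₀ φ n hφn
  set C := ∑ i ∈ Finset.range n, (xlift p x₀ (φ ^ i) + xlift p x₀ φ) / p with hCdef
  rw [hsum]
  intro h0
  rw [AddCircle.coe_eq_zero_iff] at h0
  obtain ⟨m, hm⟩ := h0
  have hnQ : (n : ℚ) ≠ 0 := Nat.cast_ne_zero.2 hn0.ne'
  have h1 : (m : ℚ) * n = ((-(C : ℤ) * ord q L₀ A : ℤ) : ℚ) := by
    rw [zsmul_eq_mul, mul_one] at hm
    rw [hm]
    field_simp
  have h2 : m * (n : ℤ) = -(C : ℤ) * ord q L₀ A := by exact_mod_cast h1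
  have h3 : (p : ℤ) * m * n = - ((n : ℤ) * (xlift p x₀ φ : ℤ)) * ord q L₀ A := by
    have hC' : (p : ℤ) * (C : ℤ) = (n : ℤ) * (xlift p x₀ φ : ℤ) := by exact_mod_cast hC
    rw [← hC', mul_assoc, h2]
    ring
  have h4 : (p : ℤ) * m = - (xlift p x₀ φ : ℤ) * ord q L₀ A := by
    have hnZ : (n : ℤ) ≠ 0 := by exact_mod_cast hn0.ne'
    apply mul_right_cancel₀ hnZ
    rw [h3]
    ring
  have h5 : (p : ℤ) ∣ (xlift p x₀ φ : ℤ) * ord q L₀ A := by
    refine ⟨-m, ?_⟩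
    rw [mul_neg, h4]
    ring
  have hpZ : Prime (p : ℤ) := Nat.prime_iff_prime_int.mp hp
  rcases hpZ.dvd_or_dvd h5 with h6 | h6
  · have h7 : p ∣ xlift p x₀ φ := by exact_mod_cast h6
    have h8 : xlift p x₀ φ = 0 := Nat.eq_zero_of_dvd_of_lt h7 (xlift_lt p x₀ φ)
    apply hx₀
    have h9 : Multiplicative.toAdd (x₀ φ) = 0 := (ZMod.val_eq_zero _).1 h8
    exact h9
  · exact hA h6

/-- **B-AR-SHA-LOC**: the local computation for (I7a). -/
theorem hypShaLoc (Inv : helper11.LocInv) : HypShaLoc Inv p := by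
  intro q _ hqp K L₀ L _ _ _ _ _ _ _ _ _ _ _ _ _ _ _ hunr φ hφ ζ hζ x₀ hx₀ α₀ u₀ hu₀ A hA B hB
    γ hγ hξ
  have hp : p.Prime := Fact.out
  have : NeZero p := ⟨hp.ne_zero⟩
  -- the data of the abstract setting
  set res : (L ≃ₐ[K] L) →* (L₀ ≃ₐ[K] L₀) := helper11.locHom K L₀ K L with hres
  set ι : L₀ˣ →* Lˣ := Units.map (algebraMap L₀ L : L₀ →* L) with hιdef
  set ζ₀ : L₀ˣ := Units.map (algebraMap K L₀ : K →* L₀) ζ with hζ₀def
  have hιζ : ι ζ₀ = Units.map (algebraMap K L : K →* L) ζ := by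
    apply Units.ext
    exact (IsScalarTower.algebraMap_apply K L₀ L _).symm
  have hζp : ζ ^ p = 1 := hζ.pow_eq_one
  have hζ₀ : ζ₀ ^ p = 1 := by rw [hζ₀def, ← map_pow, hζp, map_one]
  have hι : ∀ (σ : L ≃ₐ[K] L) (m : L₀ˣ), ι (res σ • m) = σ • ι m := fun σ m =>
    units_map_smul K L₀ K L σ m
  have hιinj : Function.Injective ι :=
    Units.map_injective (algebraMap L₀ L).injective
  have hressurj : Function.Surjective res := by
    have h1 : helper11.locHom K L₀ K L = AlgEquiv.restrictNormalHom L₀ := by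
      ext σ x
      rfl
    rw [hres, h1]
    exact AlgEquiv.restrictNormalHom_surjective L
  have hfix : ∀ σ : L ≃ₐ[K] L, σ • ι ζ₀ = ι ζ₀ := fun σ => by
    rw [hιζ]; exact units_map_fix K L ζ σ
  have hB0 : B ≠ 0 := by
    rintro rfl
    rw [zero_pow hp.ne_zero] at hB
    exact (Units.map (algebraMap L₀ L : L₀ →* L) A).ne_zero hB.symm
  set B' : Lˣ := Units.mk0 B hB0 with hB'def
  have hB' : B' ^ p = ι A := by
    apply Units.ext
    exact hB
  have hγ' : ∀ σ : L ≃ₐ[K] L, σ • B' = (ι ζ₀) ^ (γ σ).val * ι (u₀ (res σ)) * B' := by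
    intro σ
    apply Units.ext
    rw [hιζ]
    have h1 := hγ σ
    rw [map_pow] at h1
    simp only [Units.val_mul, Units.val_pow_eq_pow_val, Units.coe_map, MonoidHom.coe_coe,
      hιdef, hB'def, Units.val_mk0]
    exact h1
  have hξ' := (mem_ker_d₂₃_trivial_iff _).1 hξ
  set ξ := bockCochain (⇑res) α₀ (fun s => Multiplicative.toAdd (x₀ s)) γ with hξdef
  set W₀ := shaW₀ p ζ₀ x₀ α₀ u₀ A with hW₀def
  set Y := shaY p (ι ζ₀) res x₀ B' γ with hYdef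
  -- `W₀` is a cocycle
  have hW₀ : IsMulCocycle₂ W₀ :=
    isMulCocycle₂_shaW₀ p res hressurj ι hιinj hι ζ₀ hζ₀ hfix x₀ α₀ u₀ A B' hB' γ hγ' hξ'
  -- the decomposition of `ζ ^ ξ`
  have hdY : IsMulCoboundary₂ (fun g : (L ≃ₐ[K] L) × (L ≃ₐ[K] L) =>
      g.1 • Y g.2 / Y (g.1 * g.2) * Y g.1) := ⟨Y, fun _ _ => rfl⟩
  have hloc : IsMulCocycle₂ (locCochain K L₀ K L W₀) :=
    isMulCocycle₂_locCochain K L₀ K L hW₀
  have hdecomp : helper8.zetaCochain p (Units.map (algebraMap K L : K →* L) ζ) ξ =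
      (fun g : (L ≃ₐ[K] L) × (L ≃ₐ[K] L) => g.1 • Y g.2 / Y (g.1 * g.2) * Y g.1) *
        locCochain K L₀ K L W₀ := by
    funext g
    obtain ⟨σ, τ⟩ := g
    rw [← hιζ]
    exact sha_key p res ι hι ζ₀ hζ₀ hfix x₀ α₀ u₀ A B' hB' γ hγ' σ τ
  rw [hdecomp, mulClass_mul K L (isMulCocycle₂_of_isMulCoboundary₂ hdY) hloc,
    mulClass_eq_zero_of_isMulCoboundary₂ K L hdY, zero_add, ← locH_mulClass K L₀ K L hW₀,
    Inv.baseChange q K L₀ K L, Module.finrank_self, one_smul]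
  exact inv_shaW₀_ne_zero Inv q K L₀ hunr φ hφ ζ₀ hζ₀ x₀ hx₀ α₀ u₀ hu₀ A hA hW₀

end Main

end Fermat.Agent.S55.helper21
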