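import Mathlib

/-!
# S55 (helper75): SHL-ALG, the global Brauer cocycle `Θ` of the Sha-pairing (pure algebra)

Abstract setting: a group `G` acting on a commutative group `M` (`MulDistribMulAction`),
`ζ ∈ M` fixed by `G` with `ζ ^ p = 1`, a character `x : G → ℤ/p`, `β ∈ M`, a 1-cochain `b` with
`b g ^ p = g • β / β`, its coboundary `d b = ζ ^ z`, and a 2-cochain `α` with
`d α = x ∪ z` (trivial coefficients `ℤ/p`).  Then

  `Θ (g, h) = ζ ^ α (g, h) * (g • b h) ^ x̂ g / ((g h) • β) ^ ⌊(x̂ g + x̂ h) / p⌋`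

(`x̂` = the standard lift of `x` to `{0, …, p-1}`) is a multiplicative 2-cocycle
(`isMulCocycle₂_thetaCochain`), `Θ ^ p` is a coboundary (`isMulCoboundary₂_thetaCochain_pow`),
`Θ = ζ ^ α` where `x` vanishes (`thetaCochain_of_eq_zero`), and
`p * ∑_{i < n} ⌊(x̂ (φ ^ i) + x̂ φ) / p⌋ = n * x̂ φ` if `φ ^ n = 1` (`sum_div_eq`).

Use (I7a of module B): `G = Gal(E/F)`, `M = Eˣ`, `E` an S-level; then `Θ` is a global Brauer
class which is `ζ ^ α` at the places above `S`, unit-valued outside `S ∪ {Q}` and has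
valuation `- m ⌊(x̂ g + x̂ h) / p⌋` at `Q` (`m = ord_Q β`).
-/

set_option autoImplicit false
set_option linter.unusedSectionVars false
set_option linter.unusedVariables false

open groupCohomology

namespace Fermat.Agent.S55.helper75

section Add

variable {A : Type*} [AddCommGroup A]

/-- the additive identity behind the cocycle property of `Θ` -/
theorem theta_cocycle_aux (p Xg Xh Xgh Ξgh Ξhj Ξghj Ξg_hj : ℤ)
    (eα_gh eα_hj eα_ghj eα_g_hj ez Bgh Bghj Bg_hj β_gh β_ghj : A)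
    (h1 : eα_hj + eα_g_hj = eα_ghj + eα_gh + Xg • ez)
    (h2 : ez = Bghj + Bgh - Bg_hj)
    (h3 : p • Bghj = β_ghj - β_gh)
    (h4 : Ξhj + Ξg_hj = Ξghj + Ξgh)
    (h5 : Xgh + p * Ξgh = Xg + Xh) :
    (eα_ghj + Xgh • Bghj - Ξghj • β_ghj) + (eα_gh + Xg • Bgh - Ξgh • β_gh) =
      (eα_hj + Xh • Bghj - Ξhj • β_ghj) + (eα_g_hj + Xg • Bg_hj - Ξg_hj • β_ghj) := by
  have h5' : Xgh = Xg + Xh - p * Ξgh := by linarith
  have h4' : Ξhj = Ξghj + Ξgh - Ξg_hj := by linarith
  have h1' : eα_hj = eα_ghj + eα_gh + Xg • ez - eα_g_hj := by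
    rw [← h1]; abel
  subst h5' h4' h2
  rw [h1']
  have h3' : (p * Ξgh) • Bghj = Ξgh • (β_ghj - β_gh) := by
    rw [mul_comm, mul_smul, h3]
  simp only [sub_smul, add_smul, smul_sub, smul_add] at h3' ⊢
  rw [h3']
  abel

/-- the additive identity behind `Θ ^ p = d (y⁻¹)` -/
theorem theta_pow_aux (p Xg Xh Xgh Ξgh : ℤ) (eα Bgh β_g β_gh : A)
    (h0 : p • eα = 0) (h3 : p • Bgh = β_gh - β_g) (h5 : Xgh + p * Ξgh = Xg + Xh) :
    -(Xh • β_gh) - -(Xgh • β_gh) + -(Xg • β_g) = p • (eα + Xg • Bgh - Ξgh • β_gh) := by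
  have h5' : Xgh = Xg + Xh - p * Ξgh := by linarith
  subst h5'
  have h3' : p • Xg • Bgh = Xg • (β_gh - β_g) := by
    rw [smul_comm, h3]
  simp only [sub_smul, add_smul, smul_sub, smul_add, mul_smul, h0, h3']
  abel

end Add

section Mul

variable {G : Type*} [Group G] {M : Type*} [CommGroup M] [MulDistribMulAction G M]
variable (p : ℕ) [NeZero p]

/-- the cochain `Θ (g, h) = ζ ^ α (g, h) * (g • b h) ^ x̂ g / ((g h) • β) ^ ⌊(x̂ g + x̂ h) / p⌋` -/
def thetaCochain (ζ β : M) (x : G → ZMod p) (b : G → M) (α : G × G → ZMod p) : G × G → M :=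
  fun g => ζ ^ (α g).val * (g.1 • b g.2) ^ (x g.1).val /
    ((g.1 * g.2) • β) ^ (((x g.1).val + (x g.2).val) / p)

variable {p}

lemma zeta_pow_val_add {ζ : M} (hζ : ζ ^ p = 1) (a c : ZMod p) :
    ζ ^ (a + c).val = ζ ^ a.val * ζ ^ c.val := by
  rw [ZMod.val_add, ← pow_add, ← pow_eq_pow_mod _ hζ]

lemma zeta_pow_val_mul {ζ : M} (hζ : ζ ^ p = 1) (a c : ZMod p) :
    ζ ^ (a * c).val = (ζ ^ c.val) ^ a.val := by
  rw [ZMod.val_mul, ← pow_mul, ← pow_eq_pow_mod _ hζ, mul_comm]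

lemma val_mul_add_div {x : G → ZMod p} (hx : ∀ g h, x (g * h) = x g + x h) (g h : G) :
    ((x (g * h)).val : ℤ) + (p : ℤ) * ((((x g).val + (x h).val) / p : ℕ) : ℤ) =
      ((x g).val : ℤ) + ((x h).val : ℤ) := by
  rw [hx, ZMod.val_add]
  have := Nat.mod_add_div ((x g).val + (x h).val) p
  exact_mod_cast this

/-- **SHL-ALG (1)**: `Θ` is a multiplicative 2-cocycle. -/
theorem isMulCocycle₂_thetaCochain (ζ β : M) (hζ : ζ ^ p = 1) (hζG : ∀ g : G, g • ζ = ζ)
    (x : G → ZMod p) (hx : ∀ g h, x (g * h) = x g + x h)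
    (b : G → M) (hb : ∀ g, b g ^ p = g • β / β)
    (z : G × G → ZMod p) (hz : ∀ g h, g • b h * b g / b (g * h) = ζ ^ (z (g, h)).val)
    (α : G × G → ZMod p)
    (hα : ∀ g h j, α (h, j) - α (g * h, j) + α (g, h * j) - α (g, h) = x g * z (h, j)) :
    IsMulCocycle₂ (thetaCochain p ζ β x b α) := by
  intro g h j
  have hp0 : (p : ℤ) ≠ 0 := by exact_mod_cast NeZero.ne p
  -- the relations
  have h1 : Additive.ofMul (ζ ^ (α (h, j)).val) + Additive.ofMul (ζ ^ (α (g, h * j)).val) =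
      Additive.ofMul (ζ ^ (α (g * h, j)).val) + Additive.ofMul (ζ ^ (α (g, h)).val) +
        ((x g).val : ℤ) • Additive.ofMul (ζ ^ (z (h, j)).val) := by
    have e : α (h, j) + α (g, h * j) = α (g * h, j) + α (g, h) + x g * z (h, j) := by
      rw [← hα g h j]; ring
    have e' := congrArg (fun a : ZMod p => ζ ^ a.val) e
    simp only [zeta_pow_val_add hζ, zeta_pow_val_mul hζ] at e'
    rw [natCast_zsmul, ← ofMul_pow, ← ofMul_mul, ← ofMul_mul, ← ofMul_mul, e']
  have h2 : Additive.ofMul (ζ ^ (z (h, j)).val) =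
      Additive.ofMul ((g * h) • b j) + Additive.ofMul (g • b h) - Additive.ofMul (g • b (h * j)) := by
    rw [← ofMul_mul, ← ofMul_div, ← hz h j]
    have : g • (h • b j * b h / b (h * j)) = g • ζ ^ (z (h, j)).val := by rw [hz h j]
    rw [smul_pow', hζG, ← hz h j] at this
    rw [← this, smul_div', smul_mul', mul_smul]
  have h3 : (p : ℤ) • Additive.ofMul ((g * h) • b j) =
      Additive.ofMul ((g * h * j) • β) - Additive.ofMul ((g * h) • β) := by
    rw [natCast_zsmul, ← ofMul_pow, ← ofMul_div, ← smul_pow', hb, smul_div']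
    simp only [mul_smul]
  have hX := val_mul_add_div hx
  have h4 : ((((x h).val + (x j).val) / p : ℕ) : ℤ) + ((((x g).val + (x (h * j)).val) / p : ℕ) : ℤ) =
      ((((x (g * h)).val + (x j).val) / p : ℕ) : ℤ) + ((((x g).val + (x h).val) / p : ℕ) : ℤ) := by
    apply mul_left_cancel₀ hp0
    have a1 := hX h j
    have a2 := hX g (h * j)
    have a3 := hX (g * h) j
    have a4 := hX g h
    rw [← mul_assoc] at a2
    linarith
  have key := theta_cocycle_aux (A := Additive M) (p : ℤ) _ _ _ _ _ _ _ _ _ _ _ _ _ _ _ _ _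
    h1 h2 h3 h4 (hX g h)
  have key' := congrArg Additive.toMul key
  simp only [toMul_add, toMul_sub, toMul_zsmul, toMul_ofMul, zpow_natCast] at key'
  simp only [thetaCochain, smul_mul', smul_div', smul_pow', hζG, mul_smul, mul_assoc]
  simp only [mul_smul, mul_assoc] at key'
  exact key'

/-- **SHL-ALG (2)**: `Θ ^ p` is a coboundary. -/
theorem isMulCoboundary₂_thetaCochain_pow (ζ β : M) (hζ : ζ ^ p = 1)
    (x : G → ZMod p) (hx : ∀ g h, x (g * h) = x g + x h)
    (b : G → M) (hb : ∀ g, b g ^ p = g • β / β) (α : G × G → ZMod p) :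
    IsMulCoboundary₂ (fun g => thetaCochain p ζ β x b α g ^ p) := by
  refine ⟨fun g => ((g • β) ^ (x g).val)⁻¹, fun g h => ?_⟩
  have h0 : (p : ℤ) • Additive.ofMul (ζ ^ (α (g, h)).val) = 0 := by
    rw [natCast_zsmul, ← ofMul_pow, ← pow_mul, mul_comm, pow_mul, hζ, one_pow, ofMul_one]
  have h3 : (p : ℤ) • Additive.ofMul (g • b h) =
      Additive.ofMul ((g * h) • β) - Additive.ofMul (g • β) := by
    rw [natCast_zsmul, ← ofMul_pow, ← ofMul_div, ← smul_pow', hb, smul_div', mul_smul]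
  have key := theta_pow_aux (A := Additive M) (p : ℤ) _ _ _ _ _ _ _ _ h0 h3
    (val_mul_add_div hx g h)
  have key' := congrArg Additive.toMul key
  simp only [toMul_add, toMul_sub, toMul_neg, toMul_zsmul, toMul_ofMul, zpow_natCast] at key'
  simp only [thetaCochain, smul_inv', smul_pow', mul_smul]
  simp only [mul_smul] at key'
  exact key'

/-- on pairs where the character vanishes, `Θ = ζ ^ α`. -/
theorem thetaCochain_of_eq_zero (ζ β : M) (x : G → ZMod p) (b : G → M) (α : G × G → ZMod p)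
    {g h : G} (hg : x g = 0) (hh : x h = 0) :
    thetaCochain p ζ β x b α (g, h) = ζ ^ (α (g, h)).val := by
  simp only [thetaCochain, hg, hh, ZMod.val_zero, pow_zero, mul_one, add_zero, Nat.zero_div,
    div_one]

/-- telescoping: `p * ∑_{i < n} ⌊(x̂ (φ ^ i) + x̂ φ) / p⌋ = n * x̂ φ` if `φ ^ n = 1`. -/
theorem sum_div_eq {x : G → ZMod p} (hx : ∀ g h, x (g * h) = x g + x h) (φ : G) (n : ℕ)
    (hn : φ ^ n = 1) :
    (p : ℤ) * ∑ i ∈ Finset.range n, ((((x (φ ^ i)).val + (x φ).val) / p : ℕ) : ℤ) =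
      (n : ℤ) * ((x φ).val : ℤ) := by
  have h1 : x 1 = 0 := by
    have := hx 1 1
    rw [mul_one] at this
    exact left_eq_add.mp this
  have key : ∀ m : ℕ, (p : ℤ) * ∑ i ∈ Finset.range m,
      ((((x (φ ^ i)).val + (x φ).val) / p : ℕ) : ℤ) =
        (m : ℤ) * ((x φ).val : ℤ) - ((x (φ ^ m)).val : ℤ) := by
    intro m
    induction m with
    | zero => simp [h1]
    | succ m ih =>
      rw [Finset.sum_range_succ, mul_add, ih]
      have := val_mul_add_div hx (φ ^ m) φ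
      rw [← pow_succ] at this
      rw [Nat.cast_succ]
      linarith
  rw [key n, hn, h1, ZMod.val_zero]
  simp

end Mul

end Fermat.Agent.S55.helper75
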