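import Fermat.Agent.S55.helper75_TameG
import Fermat.Agent.S55.helper75_ShaLAlg
import Fermat.Agent.S55.helper13_LocDualTools
import Fermat.Agent.S55.helper15_UnramSupport
import Fermat.Agent.S55.helper21_BArShaLoc

/-!
# S55 / B-AR-SHA-L (helper10, task 682): SHL-LOCVAL and SHL-SUPP

The local behaviour of the global Brauer cocycle `Θ = thetaCochain p ζ β x b α`
(`helper75_ShaLAlg`) at a local datum `D` whose completion `Lw/Kv` is unramified:

* `ord_locCochain_thetaCochain` : the valuation of the localised cochain,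
  `ord (Θ_w (s, t)) = - ⌊(x̂ s + x̂ t) / p⌋ * ord_w β`;
* `inv_loc_mulClass_thetaCochain` (**SHL-LOCVAL**) : the local invariant is
  `- (ord_w β * x (Frob_w)) / p`;
* `loc_mulClass_thetaCochain_eq_zero` (**SHL-SUPP**) : the localisation vanishes where `β` is a
  unit.
-/

set_option autoImplicit false
set_option linter.unusedSectionVars false
set_option linter.unusedVariables false
set_option linter.style.haveILetI false

open groupCohomology
open scoped NumberField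
open IsDedekindDomain

noncomputable section

namespace Fermat.Agent.S55.helper10

open Fermat.Agent.S55 Fermat.Agent.S55.helper8 Fermat.Agent.S55.helper11
  Fermat.Agent.S55.helper75

section ShaLLocal

variable (q : ℕ) [Fact q.Prime] (F E : Type) [Field F] [NumberField F] [Field E]
  [NumberField E] [Algebra F E] [IsGalois F E]

variable (p : ℕ) [Fact p.Prime]

/-- The valuation of the values of the localised theta cochain. -/
theorem ord_locCochain_thetaCochain (D : LocDatum q F E)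
    (ζ β : Eˣ) (x : (E ≃ₐ[F] E) → ZMod p)
    (b : (E ≃ₐ[F] E) → Eˣ) (α : (E ≃ₐ[F] E) × (E ≃ₐ[F] E) → ZMod p)
    (hζ : ζ ^ p = 1) (hbt : ∀ g, ∃ n : ℕ, 0 < n ∧ b g ^ n = 1)
    (s t : D.Lw ≃ₐ[D.Kv] D.Lw) :
    ord q D.Lw (helper13.locCochain F E D.Kv D.Lw (thetaCochain p ζ β x b α) (s, t)) =
      - ((((x (locHom F E D.Kv D.Lw s)).val + (x (locHom F E D.Kv D.Lw t)).val) / p : ℕ) : ℤ) *
        ord q D.Lw (Units.map (algebraMap E D.Lw : E →* D.Lw) β) := by
  haveI : FiniteDimensional ℚ_[q] D.Lw := Module.Finite.trans D.Kv D.Lw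
  have hp : p.Prime := Fact.out
  have hζ' : ord q D.Lw (Units.map (algebraMap E D.Lw : E →* D.Lw) ζ) = 0 :=
    helper21.ord_eq_zero_of_pow_eq_one q D.Lw _ p hp.ne_zero (by rw [← map_pow, hζ, map_one])
  have hb' : ∀ g h : E ≃ₐ[F] E,
      ord q D.Lw (Units.map (algebraMap E D.Lw : E →* D.Lw) (g • b h)) = 0 := by
    intro g h
    obtain ⟨n, hn, hbn⟩ := hbt h
    refine helper21.ord_eq_zero_of_pow_eq_one q D.Lw _ n hn.ne' ?_
    rw [← map_pow, ← smul_pow', hbn, smul_one, map_one]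
  have hβ' : ord q D.Lw (Units.map (algebraMap E D.Lw : E →* D.Lw)
        ((locHom F E D.Kv D.Lw s * locHom F E D.Kv D.Lw t) • β)) =
      ord q D.Lw (Units.map (algebraMap E D.Lw : E →* D.Lw) β) := by
    rw [← map_mul, helper13.units_map_smul]
    exact helper33.ord_algEquiv q D.Kv D.Lw (s * t) _
  rw [helper13.locCochain_apply]
  change ord q D.Lw (Units.map (algebraMap E D.Lw : E →* D.Lw)
    (ζ ^ (α (locHom F E D.Kv D.Lw s, locHom F E D.Kv D.Lw t)).val *
        (locHom F E D.Kv D.Lw s • b (locHom F E D.Kv D.Lw t)) ^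
          (x (locHom F E D.Kv D.Lw s)).val /
      ((locHom F E D.Kv D.Lw s * locHom F E D.Kv D.Lw t) • β) ^
        (((x (locHom F E D.Kv D.Lw s)).val + (x (locHom F E D.Kv D.Lw t)).val) / p))) = _
  rw [map_div, map_mul, map_pow, map_pow, map_pow, helper21.ord_div', helper97.ord_mul,
    helper21.ord_pow', helper21.ord_pow', helper21.ord_pow', hζ', hb', hβ']
  ring

/-- **[SHL-LOCVAL]** the local invariant of the theta cocycle at an unramified place. -/
theorem inv_loc_mulClass_thetaCochain (Inv : LocInv) (D : LocDatum q F E)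
    (hunr : IsUnram q D.Kv D.Lw) (φ : D.Lw ≃ₐ[D.Kv] D.Lw) (hφ : IsFrob q D.Kv D.Lw φ)
    (ζ β : Eˣ) (x : (E ≃ₐ[F] E) → ZMod p) (hx : ∀ g h, x (g * h) = x g + x h)
    (b : (E ≃ₐ[F] E) → Eˣ) (α : (E ≃ₐ[F] E) × (E ≃ₐ[F] E) → ZMod p)
    (hΘ : IsMulCocycle₂ (thetaCochain p ζ β x b α))
    (hζ : ζ ^ p = 1) (hbt : ∀ g, ∃ n : ℕ, 0 < n ∧ b g ^ n = 1) :
    Inv.inv q D.Kv D.Lw (D.loc (mulClass F E (thetaCochain p ζ β x b α))) =
      - helper13.qz p (((ord q D.Lw (Units.map (algebraMap E D.Lw : E →* D.Lw) β) : ℤ) : ZMod p) *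
          x (locHom F E D.Kv D.Lw φ)) := by
  haveI : FiniteDimensional ℚ_[q] D.Lw := Module.Finite.trans D.Kv D.Lw
  have hp : p.Prime := Fact.out
  have h1 : D.loc (mulClass F E (thetaCochain p ζ β x b α)) =
      (locH F E D.Kv D.Lw 2).hom (mulClass F E (thetaCochain p ζ β x b α)) := rfl
  rw [h1, helper13.locH_mulClass F E D.Kv D.Lw hΘ,
    inv_mulClass_of_isUnram q Inv D.Kv D.Lw hunr φ hφ _
      (helper13.isMulCocycle₂_locCochain F E D.Kv D.Lw hΘ)]
  have hn0 : 0 < Module.finrank D.Kv D.Lw := Module.finrank_pos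
  have hφn : φ ^ Module.finrank D.Kv D.Lw = 1 := by
    have h2 : Nat.card (D.Lw ≃ₐ[D.Kv] D.Lw) = Module.finrank D.Kv D.Lw :=
      IsGalois.card_aut_eq_finrank D.Kv D.Lw
    rw [← h2]
    exact pow_card_eq_one'
  have hgn : (locHom F E D.Kv D.Lw φ) ^ Module.finrank D.Kv D.Lw = 1 := by
    rw [← map_pow, hφn, map_one]
  have hC := sum_div_eq hx (locHom F E D.Kv D.Lw φ) (Module.finrank D.Kv D.Lw) hgn
  have hsum : (∑ i ∈ Finset.range (Module.finrank D.Kv D.Lw),
      ord q D.Lw (helper13.locCochain F E D.Kv D.Lw (thetaCochain p ζ β x b α) (φ ^ i, φ))) =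
      - (∑ i ∈ Finset.range (Module.finrank D.Kv D.Lw),
          ((((x ((locHom F E D.Kv D.Lw φ) ^ i)).val + (x (locHom F E D.Kv D.Lw φ)).val) / p : ℕ)
            : ℤ)) *
        ord q D.Lw (Units.map (algebraMap E D.Lw : E →* D.Lw) β) := by
    rw [Finset.sum_congr rfl (fun i _ =>
      ord_locCochain_thetaCochain q F E p D ζ β x b α hζ hbt (φ ^ i) φ)]
    simp only [map_pow]
    rw [← Finset.sum_mul, Finset.sum_neg_distrib]
  rw [hsum, helper13.qz_apply]
  set n := Module.finrank D.Kv D.Lw with hn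
  set g := locHom F E D.Kv D.Lw φ with hg
  set m := ord q D.Lw (Units.map (algebraMap E D.Lw : E →* D.Lw) β) with hm
  set Sg : ℤ := ∑ i ∈ Finset.range n, (((((x (g ^ i)).val + (x g).val) / p : ℕ)) : ℤ) with hSg
  -- the value of `(m * x g).val`
  have hr : ((m : ZMod p) * x g) = (((m * ((x g).val : ℤ) : ℤ)) : ZMod p) := by
    push_cast
    rw [ZMod.natCast_zmod_val]
  have hrv : ((((m : ZMod p) * x g).val : ℕ) : ℤ) = (m * ((x g).val : ℤ)) % (p : ℤ) := by
    rw [hr, ZMod.val_intCast]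
  have hdiv := Int.emod_def (m * ((x g).val : ℤ)) (p : ℤ)
  rw [← hrv] at hdiv
  have hpQ : (p : ℚ) ≠ 0 := Nat.cast_ne_zero.2 hp.ne_zero
  have hnQ : (n : ℚ) ≠ 0 := Nat.cast_ne_zero.2 hn0.ne'
  have hCq : (p : ℚ) * (Sg : ℚ) = (n : ℚ) * ((x g).val : ℚ) := by exact_mod_cast hC
  have hrq : ((((m : ZMod p) * x g).val : ℕ) : ℚ) =
      (m : ℚ) * ((x g).val : ℚ) - (p : ℚ) * (((m * ((x g).val : ℤ)) / (p : ℤ) : ℤ) : ℚ) := by
    exact_mod_cast hdiv
  rw [eq_neg_iff_add_eq_zero, ← AddCircle.coe_add, AddCircle.coe_eq_zero_iff]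
  refine ⟨-((m * ((x g).val : ℤ)) / (p : ℤ)), ?_⟩
  rw [zsmul_eq_mul, mul_one, hrq]
  push_cast
  field_simp
  linear_combination (m : ℚ) * hCq

/-- **[SHL-SUPP]** the localisation of the theta class vanishes where `β` is a unit. -/
theorem loc_mulClass_thetaCochain_eq_zero (D : LocDatum q F E)
    (hunr : IsUnram q D.Kv D.Lw)
    (ζ β : Eˣ) (x : (E ≃ₐ[F] E) → ZMod p)
    (b : (E ≃ₐ[F] E) → Eˣ) (α : (E ≃ₐ[F] E) × (E ≃ₐ[F] E) → ZMod p)
    (hΘ : IsMulCocycle₂ (thetaCochain p ζ β x b α))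
    (hζ : ζ ^ p = 1) (hbt : ∀ g, ∃ n : ℕ, 0 < n ∧ b g ^ n = 1)
    (hβ : ord q D.Lw (Units.map (algebraMap E D.Lw : E →* D.Lw) β) = 0) :
    D.loc (mulClass F E (thetaCochain p ζ β x b α)) = 0 := by
  haveI : FiniteDimensional ℚ_[q] D.Lw := Module.Finite.trans D.Kv D.Lw
  have h1 : D.loc (mulClass F E (thetaCochain p ζ β x b α)) =
      (locH F E D.Kv D.Lw 2).hom (mulClass F E (thetaCochain p ζ β x b α)) := rfl
  rw [h1, helper13.locH_mulClass F E D.Kv D.Lw hΘ]
  refine helper15.mulClass_eq_zero_of_isUnram_of_unit q D.Kv D.Lw hunr _ fun g => ?_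
  rw [helper33.mem_unitGroup_iff]
  obtain ⟨s, t⟩ := g
  rw [ord_locCochain_thetaCochain q F E p D ζ β x b α hζ hbt s t, hβ, mul_zero]

end ShaLLocal

end Fermat.Agent.S55.helper10
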