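import Fermat.Agent.S55.helper11_Rec1Hyps
import Fermat.Agent.S55.helper96_LocUnramCoh
import Fermat.Agent.S55.helper31_CyclicClass
import Fermat.Agent.S55.helper97_LocVal

/-!
# S55 / REC1 (helper11): conditional assembly of the reciprocity law
-/

set_option autoImplicit false

open CategoryTheory groupCohomology
open scoped NumberField nonZeroDivisors
open IsDedekindDomain

namespace Fermat.Agent.S55.helper11

open Fermat.Agent.S14 Fermat.Agent.S55.helper8

section Basic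

/-- `locH_comp` on elements. -/
lemma locH_comp_apply (F L K₁ L₁ K₂ L₂ : Type) [Field F] [Field L] [Field K₁] [Field L₁]
    [Field K₂] [Field L₂] [Algebra F L] [Normal F L] [Algebra K₁ L₁] [Normal K₁ L₁]
    [Algebra K₂ L₂] [Algebra F K₁] [Algebra L L₁] [Algebra F L₁] [IsScalarTower F L L₁]
    [IsScalarTower F K₁ L₁] [Algebra K₁ K₂] [Algebra L₁ L₂] [Algebra K₁ L₂]
    [IsScalarTower K₁ L₁ L₂] [IsScalarTower K₁ K₂ L₂]
    [Algebra F K₂] [Algebra L L₂] [Algebra F L₂] [IsScalarTower F L L₂] [IsScalarTower F K₂ L₂]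
    [IsScalarTower L L₁ L₂] (n : ℕ) (x : groupCohomology (Rep.ofAlgebraAutOnUnits F L) n) :
    (locH K₁ L₁ K₂ L₂ n).hom ((locH F L K₁ L₁ n).hom x) = (locH F L K₂ L₂ n).hom x := by
  have h := locH_comp F L K₁ L₁ K₂ L₂ n
  rw [h]
  rfl

lemma LocDatum.loc_apply {q : ℕ} [Fact q.Prime] {F L : Type} [Field F] [Field L] [Algebra F L]
    [Normal F L] (D : LocDatum q F L) (x : H2 (Rep.ofAlgebraAutOnUnits F L)) :
    D.loc x = (locH F L D.Kv D.Lw 2).hom x := rfl

end Basic

section Deg1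

/-- **R-DEG (first half)**: two completions of the same field along compatible embeddings have
relative degree one. -/
theorem finrank_eq_one_of_same_base (q : ℕ) [Fact q.Prime] (F L L' : Type) [Field F] [Field L]
    [Field L'] [Algebra F L] [Algebra F L'] (D : LocDatum q F L) (E : LocDatum q F L')
    [Algebra D.Kv E.Kv] [IsScalarTower ℚ_[q] D.Kv E.Kv]
    (hcompat : ∀ a : F, algebraMap D.Kv E.Kv (algebraMap F D.Kv a) = algebraMap F E.Kv a) :
    Module.finrank D.Kv E.Kv = 1 := by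
  have hsurj : Function.Surjective (algebraMap D.Kv E.Kv) := by
    have hle : Algebra.adjoin ℚ_[q] (Set.range (algebraMap F E.Kv)) ≤
        (IsScalarTower.toAlgHom ℚ_[q] D.Kv E.Kv).range := by
      apply Algebra.adjoin_le
      rintro _ ⟨a, rfl⟩
      exact ⟨algebraMap F D.Kv a, hcompat a⟩
    rw [E.denseK] at hle
    intro y
    obtain ⟨z, hz⟩ := hle (Algebra.mem_top (x := y))
    exact ⟨z, hz⟩
  rw [← Subalgebra.bot_eq_top_iff_finrank_eq_one]
  exact (Algebra.surjective_algebraMap_iff.mp hsurj).symm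

end Deg1

section LemmaA

/-- Lemma A: the restriction to `M` of (the inflation of) `x` is locally trivial at every local
datum of `L'/M`. -/
lemma loc_res_eq_zero (I : LocInv) (p : ℕ) (hRes : HypRes) (hPlace : HypPlace) (hDeg : HypDeg)
    (F L M L' : Type) [Field F] [NumberField F] [Field L] [NumberField L] [Field M]
    [NumberField M] [Field L'] [NumberField L'] [Algebra F L] [IsGalois F L] [Algebra F M]
    [IsAbelianGalois F M] [Algebra F L'] [Algebra L L'] [Algebra M L'] [IsScalarTower F L L']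
    [IsScalarTower F M L'] [IsGalois M L']
    (x : H2 (Rep.ofAlgebraAutOnUnits F L)) (n : ℕ) (hx : p ^ n • x = 0)
    (V : Set (HeightOneSpectrum (𝓞 F)))
    (hsupp : ∀ (r : ℕ) [Fact r.Prime] (E : LocDatum r F L) (w : HeightOneSpectrum (𝓞 F)),
      E.AtPlace w → w ∉ V → E.loc x = 0)
    (hunr : ∀ w ∈ V, UnramAt F M w)
    (hfrob : ∀ w ∈ V, p ^ n ∣ orderOf (frobAt F M w.asIdeal))
    (r : ℕ) [Fact r.Prime] (E : LocDatum r M L') :
    E.loc ((locH F L M L' 2).hom x) = 0 := by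
  obtain ⟨D0, _, _, _, _, _, _, _, hc1, -, -, hloc⟩ := hRes r F L M L' E
  rw [hloc]
  obtain ⟨w, hw, -⟩ := hPlace r F L D0
  by_cases hwV : w ∈ V
  · apply I.injective r E.Kv E.Lw
    rw [map_zero, I.baseChange r D0.Kv D0.Lw E.Kv E.Lw]
    have hdeg := hDeg r F M L L' D0 E hc1 w hw (hunr w hwV)
    obtain ⟨t, ht⟩ := hfrob w hwV
    have h0 : p ^ n • D0.loc x = 0 := by rw [← map_nsmul, hx, map_zero]
    rw [hdeg, ht, mul_comm, mul_smul, ← map_nsmul, ← map_nsmul, h0, smul_zero, map_zero]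
  · rw [hsupp r D0 w hw hwV, map_zero]

end LemmaA

section LemmaC

/-- Lemma C: if `x₁ ∈ H²(L₁/F)` and `x₂ ∈ H²(L₂/F)` have the same inflation to `L'`, then for
every local datum `D₁` of `L₁/F` there is a local datum `D₂` of `L₂/F` at the same place with
the same invariant. -/
lemma exists_datum_same_inv (I : LocInv) (hRes : HypRes) (hExt : HypExt)
    (F L₁ L₂ L' : Type) [Field F] [Field L₁] [Field L₂] [Field L']
    [Algebra F L₁] [FiniteDimensional F L₁] [IsGalois F L₁]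
    [Algebra F L₂] [FiniteDimensional F L₂] [IsGalois F L₂]
    [Algebra F L'] [FiniteDimensional F L'] [IsGalois F L']
    [Algebra L₁ L'] [Algebra L₂ L'] [IsScalarTower F L₁ L'] [IsScalarTower F L₂ L']
    (x₁ : H2 (Rep.ofAlgebraAutOnUnits F L₁)) (x₂ : H2 (Rep.ofAlgebraAutOnUnits F L₂))
    (h : (locH F L₁ F L' 2).hom x₁ = (locH F L₂ F L' 2).hom x₂)
    (r : ℕ) [Fact r.Prime] (D₁ : LocDatum r F L₁) :
    ∃ D₂ : LocDatum r F L₂,
      (∀ a : F, 0 < ordT r D₁.Kv (algebraMap F D₁.Kv a) ↔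
        0 < ordT r D₂.Kv (algebraMap F D₂.Kv a)) ∧
      I.inv r D₁.Kv D₁.Lw (D₁.loc x₁) = I.inv r D₂.Kv D₂.Lw (D₂.loc x₂) := by
  obtain ⟨E, _, _, _, _, _, _, _, hfin1, -, -, hord1, hloc1⟩ := hExt r F L₁ L' D₁
  obtain ⟨D₂, _, _, _, _, _, _, _, hc2, -, hord2, hloc2⟩ := hRes r F L₂ F L' E
  refine ⟨D₂, fun a => ?_, ?_⟩
  · rw [hord1 a, hord2 a]
    rfl
  · have hfin2 : Module.finrank D₂.Kv E.Kv = 1 :=
      finrank_eq_one_of_same_base r F L₂ L' D₂ E (fun a => by rw [hc2 a]; rfl)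
    have e1 := I.baseChange r D₁.Kv D₁.Lw E.Kv E.Lw (D₁.loc x₁)
    have e2 := I.baseChange r D₂.Kv D₂.Lw E.Kv E.Lw (D₂.loc x₂)
    rw [hfin1, one_smul, ← hloc1] at e1
    rw [hfin2, one_smul, ← hloc2] at e2
    rw [← e1, ← e2, h]

end LemmaC

end Fermat.Agent.S55.helper11
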