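import Fermat.Agent.S55.helper11_Rec1Hyps
import Fermat.Agent.S55.helper97_LocVal

/-!
# S55 / REC1 (helper11): small auxiliary lemmas for the assembly of the reciprocity law
-/

set_option autoImplicit false

open CategoryTheory groupCohomology
open scoped NumberField nonZeroDivisors
open IsDedekindDomain

namespace Fermat.Agent.S55.helper11

open Fermat.Agent.S14 Fermat.Agent.S55.helper8

section Unram

/-- If the rational prime `l` is not in `w` and `M/F` is unramified outside `l`, then `M/F` is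
unramified at `w`. -/
lemma unramAt_of_natCast_notMem (F M : Type) [Field F] [NumberField F] [Field M] [NumberField M]
    [Algebra F M] (l : ℕ)
    (hunr : ∀ P : Ideal (𝓞 M), P.IsPrime → P ≠ ⊥ → (l : 𝓞 M) ∉ P →
        ∀ σ : Gal(M/F), (∀ x : 𝓞 M, σ • x - x ∈ P) → σ = 1)
    (w : HeightOneSpectrum (𝓞 F)) (hw : (l : 𝓞 F) ∉ w.asIdeal) : UnramAt F M w := by
  intro P hP hPw σ hσ
  refine hunr P hP ?_ ?_ σ hσ
  · rintro rfl
    apply w.ne_bot
    rw [← hPw]
    ext a
    simp only [Ideal.under_def, Ideal.mem_comap, Ideal.mem_bot]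
    exact (map_eq_zero_iff _ (FaithfulSMul.algebraMap_injective (𝓞 F) (𝓞 M)))
  · intro hl
    apply hw
    rw [← hPw, Ideal.under_def, Ideal.mem_comap, map_natCast]
    exact hl

end Unram

section OrdNat

/-- The residue characteristic has positive valuation at every local datum over it. -/
lemma LocDatum.ordT_natCast_pos {l : ℕ} [Fact l.Prime] {F L : Type} [Field F] [Field L]
    [Algebra F L] (D : LocDatum l F L) :
    0 < ordT l D.Kv (algebraMap F D.Kv (l : F)) := by
  have h1 : algebraMap F D.Kv (l : F) =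
      ((Units.map (algebraMap ℚ_[l] D.Kv : ℚ_[l] →* D.Kv) (helper97.qUnit l) : D.Kvˣ) : D.Kv) := by
    rw [map_natCast]
    simp [helper97.qUnit]
  rw [h1, helper97.ordT_unit]
  exact_mod_cast helper97.ord_qUnit_pos l D.Kv

end OrdNat

end Fermat.Agent.S55.helper11

namespace Fermat.Agent.S55.helper11

open Fermat.Agent.S14 Fermat.Agent.S55.helper8

section Val

/-- The valuation of a nonzero integer is `exp (-e)` with `e : ℕ`, and `e = 0` outside the
support. -/
lemma exists_nat_valuation (F : Type) [Field F] [NumberField F] (w : HeightOneSpectrum (𝓞 F))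
    (a : 𝓞 F) (ha : a ≠ 0) :
    ∃ e : ℕ, w.valuation F (a : F) = WithZero.exp (-(e : ℤ)) ∧ (a ∉ w.asIdeal → e = 0) := by
  classical
  have h1 : w.valuation F (a : F) = w.intValuation a :=
    HeightOneSpectrum.valuation_of_algebraMap w a
  refine ⟨(Associates.mk w.asIdeal).count (Associates.mk (Ideal.span {a})).factors, ?_, ?_⟩
  · rw [h1, HeightOneSpectrum.intValuation_if_neg w ha]
  · intro haw
    have h2 := HeightOneSpectrum.intValuation_eq_one_iff.mpr haw
    rw [HeightOneSpectrum.intValuation_if_neg w ha] at h2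
    have h3 : WithZero.exp (-(((Associates.mk w.asIdeal).count
        (Associates.mk (Ideal.span {a})).factors : ℕ) : ℤ)) = WithZero.exp (0 : ℤ) := by
      rw [h2]; rfl
    have h4 := WithZero.exp_injective h3
    omega

/-- The support of a nonzero integer is finite. -/
lemma finite_setOf_mem_asIdeal (F : Type) [Field F] [NumberField F] (a : 𝓞 F) (ha : a ≠ 0) :
    {w : HeightOneSpectrum (𝓞 F) | a ∈ w.asIdeal}.Finite := by
  have hI : (Ideal.span {a} : Ideal (𝓞 F)) ≠ 0 := by
    simpa [Ideal.span_singleton_eq_bot] using ha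
  refine (Ideal.finite_factors hI).subset ?_
  intro w hw
  simp only [Set.mem_ofPred_eq] at hw ⊢
  rw [Ideal.dvd_iff_le, Ideal.span_singleton_le_iff_mem]
  exact hw

/-- A place containing `l` does not contain an integer `≡ 1 mod l`. -/
lemma notMem_of_sub_one_eq (F : Type) [Field F] [NumberField F] (w : HeightOneSpectrum (𝓞 F))
    (l : ℕ) (hl : (l : 𝓞 F) ∈ w.asIdeal) (a : 𝓞 F) (ha : ∃ d : 𝓞 F, a - 1 = (l : 𝓞 F) * d) :
    a ∉ w.asIdeal := by
  obtain ⟨d, hd⟩ := ha
  intro haw
  apply w.isPrime.ne_top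
  rw [Ideal.eq_top_iff_one]
  have h1 : (1 : 𝓞 F) = a - (l : 𝓞 F) * d := by rw [← hd]; ring
  rw [h1]
  exact Ideal.sub_mem _ haw (Ideal.mul_mem_right _ _ hl)

end Val

section QZsum

/-- The coercion `ℚ → ℚ/ℤ` commutes with finite sums. -/
lemma qz_coe_sum {α : Type*} (s : Finset α) (f : α → ℚ) :
    ∑ w ∈ s, ((f w : ℚ) : QZ) = ((∑ w ∈ s, f w : ℚ) : QZ) :=
  (map_sum (QuotientAddGroup.mk' (AddSubgroup.zmultiples (1 : ℚ))) f s).symm

/-- Integers vanish in `ℚ/ℤ`. -/
lemma qz_coe_int (m : ℤ) : (((m : ℚ)) : QZ) = 0 := by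
  rw [AddCircle.coe_eq_zero_iff]
  exact ⟨m, by simp⟩

/-- From the Artin sum to the vanishing of the sum of the tame invariants. -/
lemma sum_tame_eq_zero (hArt : HypArtSum) (F M : Type) [Field F] [NumberField F] [Field M]
    [NumberField M] [Algebra F M] [IsAbelianGalois F M] (σ : Gal(M/F))
    (hσ : ∀ τ : Gal(M/F), τ ∈ Subgroup.zpowers σ)
    (k e : HeightOneSpectrum (𝓞 F) → ℕ) (S : Finset (HeightOneSpectrum (𝓞 F)))
    (a : 𝓞 F) (ha : a ≠ 0) (hS : ∀ w : HeightOneSpectrum (𝓞 F), a ∈ w.asIdeal → w ∈ S)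
    (hk : ∀ w ∈ S, frobAt F M w.asIdeal = σ ^ k w)
    (he : ∀ w : HeightOneSpectrum (𝓞 F), w.valuation F (a : F) = WithZero.exp (-(e w : ℤ)))
    (hart : artinMap F M ⟨Ideal.span {a}, mem_nonZeroDivisors_of_ne_zero
      (by simpa [Ideal.span_singleton_eq_bot] using ha)⟩ = 1) :
    ∑ w ∈ S, ((((k w : ℚ) * (((e w : ℕ) : ℤ) : ℚ) / (Module.finrank F M : ℚ) : ℚ)) : QZ) = 0 := by
  obtain ⟨m, hm⟩ := hArt F M σ k e S a ha hS hk he hart
  have hN : orderOf σ = Module.finrank F M := by
    rw [orderOf_eq_card_of_forall_mem_zpowers hσ, IsGalois.card_aut_eq_finrank]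
  have hNpos : (0 : ℚ) < (Module.finrank F M : ℚ) := by
    exact_mod_cast (Module.finrank_pos : 0 < Module.finrank F M)
  rw [qz_coe_sum, ← Finset.sum_div]
  have h1 : (∑ w ∈ S, (k w : ℚ) * (((e w : ℕ) : ℤ) : ℚ)) =
      (Module.finrank F M : ℚ) * (m : ℚ) := by
    have h2 : ((∑ w ∈ S, (k w : ℤ) * (e w : ℤ) : ℤ) : ℚ) = (((orderOf σ : ℤ) * m : ℤ) : ℚ) := by
      rw [hm]
    rw [hN] at h2
    push_cast at h2
    rw [← h2]
    exact Finset.sum_congr rfl fun w _ => by push_cast; rfl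
  rw [h1, mul_div_assoc, mul_comm, div_mul_cancel₀ _ hNpos.ne']
  exact qz_coe_int m

end QZsum

end Fermat.Agent.S55.helper11
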