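import Fermat.Agent.S55.helper11_RecLattice

/-!
# S55 / REC1 (helper11): APX-SL, approximation of semilocal norms by global elements

If `1 ⊗ c ∈ (ℚ_l ⊗ M)ˣ` is the `Gal(M/F)`-norm of a unit `Y` of the semilocal algebra, then `c`
times a global norm is `≡ 1 mod l` (multiplicatively): there are `m ∈ Mˣ` and `a, b ∈ 𝓞 F`,
`a ≡ b ≡ 1 mod l`, with `c N(m) b = a`.  Elementary: density of `M` in `ℚ_l ⊗ M`.
-/

set_option autoImplicit false

open scoped TensorProduct NumberField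

namespace Fermat.Agent.S55.helper11

open Fermat.Agent.S55.helper73 Module

section Finish

/-- The number field part of APX-SL. -/
lemma exists_integers_of_isIntegral (l : ℕ) [Fact l.Prime] (F M : Type) [Field F] [NumberField F]
    [Field M] [NumberField M] [Algebra F M] (u : F) (n : ℕ) (hn : 0 < n) (hcop : Nat.Coprime n l)
    (hint : IsIntegral ℤ ((n : M) * ((algebraMap F M u - 1) / (l : M)))) :
    u ≠ 0 ∧ ∃ a b : 𝓞 F, a ≠ 0 ∧ b ≠ 0 ∧ u * (b : F) = (a : F) ∧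
      (∃ d : 𝓞 F, a - 1 = (l : 𝓞 F) * d) ∧ (∃ d : 𝓞 F, b - 1 = (l : 𝓞 F) * d) := by
  have hl : l.Prime := Fact.out
  have hlF : (l : F) ≠ 0 := by exact_mod_cast hl.ne_zero
  have hnF : (n : F) ≠ 0 := by exact_mod_cast hn.ne'
  -- the integral element `τ = n (u - 1) / l` of `F`
  have hτ : IsIntegral ℤ ((n : F) * ((u - 1) / (l : F))) := by
    have h1 : algebraMap F M ((n : F) * ((u - 1) / (l : F))) =
        (n : M) * ((algebraMap F M u - 1) / (l : M)) := by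
      simp [map_mul, map_div₀, map_sub]
    rw [← h1] at hint
    exact (isIntegral_algebraMap_iff (algebraMap F M).injective).mp hint
  set τ : 𝓞 F := ⟨(n : F) * ((u - 1) / (l : F)), hτ⟩ with hτdef
  have hτc : (τ : F) = (n : F) * ((u - 1) / (l : F)) := rfl
  have hu : u ≠ 0 := by
    rintro rfl
    -- `- n / l` would be an integer
    have h2 : IsIntegral ℤ (algebraMap ℚ F (-(n : ℚ) / (l : ℚ))) := by
      have h3 : algebraMap ℚ F (-(n : ℚ) / (l : ℚ)) = (n : F) * (((0 : F) - 1) / (l : F)) := by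
        simp [map_div₀, map_neg]
        ring
      rw [h3]
      exact hτ
    have h4 : IsIntegral ℤ (-(n : ℚ) / (l : ℚ)) :=
      (isIntegral_algebraMap_iff (algebraMap ℚ F).injective).mp h2
    obtain ⟨z, hz⟩ := IsIntegrallyClosed.isIntegral_iff.mp h4
    have hlQ : (l : ℚ) ≠ 0 := by exact_mod_cast hl.ne_zero
    have h5 : ((z * (l : ℤ) : ℤ) : ℚ) = ((-(n : ℤ) : ℤ) : ℚ) := by
      push_cast
      rw [show (algebraMap ℤ ℚ) z = (z : ℚ) from rfl] at hz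
      rw [hz]
      field_simp
    have h6 : z * (l : ℤ) = -(n : ℤ) := by exact_mod_cast h5
    have h7 : (l : ℤ) ∣ (n : ℤ) := ⟨-z, by linarith⟩
    have h8 : l ∣ n := by exact_mod_cast h7
    have h9 : l ∣ Nat.gcd n l := Nat.dvd_gcd h8 dvd_rfl
    rw [hcop] at h9
    exact hl.one_lt.ne' (Nat.dvd_one.mp h9)
  refine ⟨hu, ?_⟩
  obtain ⟨n', -, hn'⟩ := Nat.exists_mul_mod_eq_one_of_coprime hcop hl.one_lt
  have hk : n * n' = l * (n * n' / l) + 1 := by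
    have := Nat.div_add_mod (n * n') l
    rw [hn'] at this
    exact this.symm
  set k : ℕ := n * n' / l with hkdef
  have hb0 : ((n * n' : ℕ) : 𝓞 F) ≠ 0 := by
    have : n * n' ≠ 0 := by rw [hk]; omega
    exact_mod_cast this
  have hab : u * (((n * n' : ℕ) : 𝓞 F) : F) =
      ((((n * n' : ℕ) : 𝓞 F) + (l : 𝓞 F) * (n' : 𝓞 F) * τ : 𝓞 F) : F) := by
    have hτc' : algebraMap (𝓞 F) F τ = (n : F) * ((u - 1) / (l : F)) := rfl
    change u * algebraMap (𝓞 F) F ((n * n' : ℕ) : 𝓞 F) =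
      algebraMap (𝓞 F) F (((n * n' : ℕ) : 𝓞 F) + (l : 𝓞 F) * (n' : 𝓞 F) * τ)
    simp only [map_add, map_mul, map_natCast, hτc', Nat.cast_mul]
    field_simp
    ring
  refine ⟨((n * n' : ℕ) : 𝓞 F) + (l : 𝓞 F) * (n' : 𝓞 F) * τ, ((n * n' : ℕ) : 𝓞 F), ?_, hb0,
    hab, ⟨(k : 𝓞 F) + (n' : 𝓞 F) * τ, ?_⟩, ⟨(k : 𝓞 F), ?_⟩⟩
  · intro h0
    rw [h0] at hab
    have h1 : u * (((n * n' : ℕ) : 𝓞 F) : F) ≠ 0 :=
      mul_ne_zero hu (NumberField.RingOfIntegers.coe_ne_zero_iff.mpr hb0)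
    exact h1 (by rw [hab]; simp)
  · have h1 : ((n * n' : ℕ) : 𝓞 F) = (l : 𝓞 F) * (k : 𝓞 F) + 1 := by exact_mod_cast hk
    rw [h1]
    ring
  · have h1 : ((n * n' : ℕ) : 𝓞 F) = (l : 𝓞 F) * (k : 𝓞 F) + 1 := by exact_mod_cast hk
    rw [h1]
    ring

end Finish

section OneModL

variable (l : ℕ) [Fact l.Prime] (M : Type) [Field M] [NumberField M]

/-- `x ≡ 1 mod lΛ`. -/
def IsOneModL (x : SemiLoc l M) : Prop :=
  ∃ y ∈ semiLat l M, x = 1 + (l : ℚ_[l]) • y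

variable {l M}

lemma isOneModL_one : IsOneModL l M 1 := ⟨0, Subring.zero_mem _, by simp⟩

lemma isOneModL_mul {x y : SemiLoc l M} (hx : IsOneModL l M x) (hy : IsOneModL l M y) :
    IsOneModL l M (x * y) := by
  obtain ⟨a, ha, rfl⟩ := hx
  obtain ⟨b, hb, rfl⟩ := hy
  refine ⟨a + b + (l : ℚ_[l]) • (a * b), ?_, ?_⟩
  · refine Subring.add_mem _ (Subring.add_mem _ ha hb) ?_
    exact isLat_smul _ (by simpa using Padic.norm_int_le_one (p := l) (l : ℤ))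
      (Subring.mul_mem _ ha hb)
  · simp only [smul_add, smul_smul, mul_add, add_mul, one_mul, mul_one, smul_mul_smul_comm]
    abel

lemma isOneModL_prod {α : Type*} (s : Finset α) (f : α → SemiLoc l M)
    (h : ∀ a ∈ s, IsOneModL l M (f a)) : IsOneModL l M (∏ a ∈ s, f a) := by
  classical
  induction s using Finset.induction_on with
  | empty => simpa using isOneModL_one
  | insert a s ha ih =>
    rw [Finset.prod_insert ha]
    exact isOneModL_mul (h a (Finset.mem_insert_self a s))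
      (ih fun b hb => h b (Finset.mem_insert_of_mem hb))

lemma isOneModL_galSemiLocAut (F : Type) [Field F] [Algebra F M] (g : M ≃ₐ[F] M)
    {x : SemiLoc l M} (hx : IsOneModL l M x) : IsOneModL l M (galSemiLocAut l M F g x) := by
  obtain ⟨a, ha, rfl⟩ := hx
  exact ⟨galSemiLocAut l M F g a, smul_mem_semiLat F g ha, by simp [map_add, map_smul]⟩

end OneModL

section Main

variable (l : ℕ) [Fact l.Prime] (F M : Type) [Field F] [NumberField F] [Field M]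
  [NumberField M] [Algebra F M] [IsGalois F M]

/-- **APX-SL** (ring form): if `1 ⊗ c` is the Galois norm of an invertible element `Y` of
`ℚ_l ⊗ M`, then `c N(m) b = a` with `m ∈ Mˣ`, `a, b ∈ 𝓞 F`, `a ≡ b ≡ 1 mod l`. -/
theorem exists_norm_approx_of_semiLoc (c : Fˣ) (Y Y' : SemiLoc l M) (hYY' : Y * Y' = 1)
    (hY : ∏ g : Gal(M/F), galSemiLocAut l M F g Y =
      (1 : ℚ_[l]) ⊗ₜ[ℚ] (algebraMap F M (c : F))) :
    ∃ (m : Mˣ) (a b : 𝓞 F), a ≠ 0 ∧ b ≠ 0 ∧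
      (c : F) * Algebra.norm F (m : M) * (b : F) = (a : F) ∧
      (∃ d : 𝓞 F, a - 1 = (l : 𝓞 F) * d) ∧ (∃ d : 𝓞 F, b - 1 = (l : 𝓞 F) * d) := by
  classical
  have hl : l.Prime := Fact.out
  have hl0 : (l : ℚ_[l]) ≠ 0 := by exact_mod_cast hl.ne_zero
  haveI : FiniteDimensional F M := Module.Finite.of_restrictScalars_finite ℚ F M
  obtain ⟨s, hs⟩ := exists_pow_smul_mem_semiLat (l := l) (M := M) Y
  obtain ⟨m₀, y, hy, hm₀⟩ := exists_approx_semiLat (l := l) (M := M) Y' (s + 1)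
  -- `Z = Y (1 ⊗ m₀) ≡ 1`
  have hZ : IsOneModL l M (Y * ((1 : ℚ_[l]) ⊗ₜ[ℚ] m₀)) := by
    refine ⟨-(((l : ℚ_[l]) ^ s • Y) * y), Subring.neg_mem _ (Subring.mul_mem _ hs hy), ?_⟩
    have h1 : (1 : ℚ_[l]) ⊗ₜ[ℚ] m₀ = Y' - ((l : ℚ_[l]) ^ (s + 1)) • y := by
      rw [← hm₀]; ring
    rw [h1, mul_sub, hYY', pow_succ, smul_neg, smul_mul_assoc, mul_smul_comm, smul_smul,
      mul_comm ((l : ℚ_[l]) ^ s)]
    ring
  -- the norm of `Z`
  have hN : IsOneModL l M (∏ g : Gal(M/F), galSemiLocAut l M F g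
      (Y * ((1 : ℚ_[l]) ⊗ₜ[ℚ] m₀))) :=
    isOneModL_prod _ _ fun g _ => isOneModL_galSemiLocAut F g hZ
  have hprod : ∏ g : Gal(M/F), galSemiLocAut l M F g (Y * ((1 : ℚ_[l]) ⊗ₜ[ℚ] m₀)) =
      (1 : ℚ_[l]) ⊗ₜ[ℚ] (algebraMap F M ((c : F) * Algebra.norm F m₀)) := by
    simp only [map_mul, Finset.prod_mul_distrib, hY, galSemiLocAut_tmul]
    rw [Algebra.norm_eq_prod_automorphisms]
    have h2 : ∏ g : Gal(M/F), ((1 : ℚ_[l]) ⊗ₜ[ℚ] (g m₀) : SemiLoc l M) =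
        (1 : ℚ_[l]) ⊗ₜ[ℚ] (∏ g : Gal(M/F), g m₀) := by
      exact (map_prod (Algebra.TensorProduct.includeRight : M →ₐ[ℚ] SemiLoc l M)
        (fun g : Gal(M/F) => g m₀) Finset.univ).symm
    rw [h2, Algebra.TensorProduct.tmul_mul_tmul, one_mul]
  rw [hprod] at hN
  obtain ⟨ν, hν, hNν⟩ := hN
  set u : F := (c : F) * Algebra.norm F m₀ with hu
  -- `1 ⊗ t = ν`
  have ht : (1 : ℚ_[l]) ⊗ₜ[ℚ] ((algebraMap F M u - 1) / (l : M)) ∈ semiLat l M := by
    have hlM : (l : M) ≠ 0 := by exact_mod_cast hl.ne_zero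
    have h3 : (l : ℚ_[l]) • ((1 : ℚ_[l]) ⊗ₜ[ℚ] ((algebraMap F M u - 1) / (l : M)) :
        SemiLoc l M) = (l : ℚ_[l]) • ν := by
      have h4 : (l : ℚ_[l]) • ((1 : ℚ_[l]) ⊗ₜ[ℚ] ((algebraMap F M u - 1) / (l : M)) :
          SemiLoc l M) = (1 : ℚ_[l]) ⊗ₜ[ℚ] (algebraMap F M u - 1) := by
        have h6 : ((l : ℕ) : SemiLoc l M) = (1 : ℚ_[l]) ⊗ₜ[ℚ] (l : M) :=
          (map_natCast (Algebra.TensorProduct.includeRight : M →ₐ[ℚ] SemiLoc l M) l).symm
        rw [Algebra.smul_def, map_natCast, h6, Algebra.TensorProduct.tmul_mul_tmul, one_mul,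
          mul_div_cancel₀ _ hlM]
      rw [h4, TensorProduct.tmul_sub, hNν, ← Algebra.TensorProduct.one_def]
      abel
    have h5 := smul_right_injective (SemiLoc l M) hl0 h3
    rw [h5]
    exact hν
  obtain ⟨n, hn, hcop, hint⟩ := exists_coprime_isIntegral_of_mem_semiLat _ ht
  obtain ⟨hu0, a, b, ha, hb, hab, had, hbd⟩ :=
    exists_integers_of_isIntegral l F M u n hn hcop hint
  have hm0 : m₀ ≠ 0 := by
    rintro rfl
    apply hu0
    rw [hu, Algebra.norm_zero, mul_zero]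
  exact ⟨Units.mk0 m₀ hm0, a, b, ha, hb, hab, had, hbd⟩

end Main

end Fermat.Agent.S55.helper11
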