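import Fermat.Agent.S55.helper11_Rec1Hyps
import Fermat.Agent.S55.helper73_GlobDefs
import Fermat.Agent.S55.helper46_FG1Strong

/-!
# S55 / REC1, package R-HASSE (helper60, task 297)

The Hasse principle in `LocDatum` form (`helper11.HassePrinciple p`) for `p`-primary classes of
arbitrary finite Galois extensions of number fields, from GLOB's semilocal Hasse principle for
`p`-extensions (`GlobHasse p`, verbatim helper73 `hasse_principle_H2`).

Inputs taken as explicit hypotheses (verbatim statements of the REC1 interface):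
* `helper11.HypRes` (R-RES, `exists_restrict`);
* `HypSL` (R-SL, `isMulCoboundary₂_semiLoc`).
The strong corestriction (`helper46.res_injOn_pPrimary`) is imported.

Proof: `P` a Sylow `p`-subgroup of `Gal(L/F)`, `F' = L^P`; `y := locH F L F' L 2 x` is locally
trivial at every local datum of `L/F'` (R-RES), hence semilocally trivial (R-SL), hence `0`
(`GlobHasse` for the `p`-extension `L/F'`); `locH F L F' L` is the restriction map to `P` up to
the identification `P = Gal(L/F')` (`locH_fixed_comp`), so `res x = 0` and `x = 0`.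
-/

set_option autoImplicit false

open CategoryTheory groupCohomology
open scoped NumberField nonZeroDivisors

namespace Fermat.Agent.S55.helper60

open Fermat.Agent.S55.helper8 Fermat.Agent.S55.helper11 Fermat.Agent.S55.helper73

/-- The class of a multiplicative 2-cocycle. -/
noncomputable def classOf {F L : Type} [Field F] [Field L] [Algebra F L]
    (x : (L ≃ₐ[F] L) × (L ≃ₐ[F] L) → Lˣ) (hx : IsMulCocycle₂ x) :
    H2 (Rep.ofAlgebraAutOnUnits F L) :=
  H2π (Rep.ofAlgebraAutOnUnits F L) (cocyclesOfIsMulCocycle₂ hx)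

/-- R-SL as a hypothesis (verbatim `isMulCoboundary₂_semiLoc` of the REC1 interface). -/
def HypSL : Prop :=
  ∀ (q : Nat.Primes) (F L : Type) [Field F] [NumberField F]
    [Field L] [NumberField L] [Algebra F L] [IsGalois F L]
    (x : (L ≃ₐ[F] L) × (L ≃ₐ[F] L) → Lˣ) (hx : IsMulCocycle₂ x),
    (∀ D : LocDatum (q : ℕ) F L, D.loc (classOf x hx) = 0) →
    IsMulCoboundary₂ (fun g : (L ≃ₐ[F] L) × (L ≃ₐ[F] L) => principalPi L (x g) q)

/-- GLOB's Hasse principle (helper73 `hasse_principle_H2`), as a hypothesis. -/
def GlobHasse (p : ℕ) : Prop :=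
  ∀ (K L : Type) [Field K] [NumberField K] [Field L] [NumberField L] [Algebra K L]
    [IsGalois K L] (n : ℕ), Module.finrank K L = p ^ n →
    ∀ (x : (L ≃ₐ[K] L) × (L ≃ₐ[K] L) → Lˣ), IsMulCocycle₂ x →
      (∀ q : Nat.Primes,
        IsMulCoboundary₂ (fun g : (L ≃ₐ[K] L) × (L ≃ₐ[K] L) => principalPi L (x g) q)) →
      IsMulCoboundary₂ x

section Sylow

variable (F L : Type) [Field F] [Field L] [Algebra F L] (H : Subgroup (L ≃ₐ[F] L))

/-- An element of `H` as an automorphism of `L` over the fixed field of `H`. -/
noncomputable def toFixedAut : ↥H →* (L ≃ₐ[IntermediateField.fixedField H] L) :=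
  (IntermediateField.fixingSubgroupEquiv (IntermediateField.fixedField H)).toMonoidHom.comp
    (Subgroup.inclusion
      (IntermediateField.le_iff_le H (IntermediateField.fixedField H) |>.1 le_rfl))

lemma toFixedAut_apply (g : H) (y : L) : toFixedAut F L H g y = g.1 y := rfl

variable [Normal F L]

lemma locHom_comp_toFixedAut :
    (locHom F L (IntermediateField.fixedField H) L).comp (toFixedAut F L H) = H.subtype := by
  ext g y
  have := algebraMap_locHom F L (IntermediateField.fixedField H) L (toFixedAut F L H g) y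
  exact this

/-- The identity of `Lˣ`, as a morphism from the `Gal(L/L^H)`-module (restricted to `H`) to the
`Gal(L/F)`-module (restricted to `H`). -/
noncomputable def fixedUnits :
    Rep.res (toFixedAut F L H) (Rep.ofAlgebraAutOnUnits (IntermediateField.fixedField H) L) ⟶
      Rep.res H.subtype (Rep.ofAlgebraAutOnUnits F L) :=
  Rep.ofHom
    { toLinearMap := LinearMap.id
      isIntertwining' := fun g => by
        ext a
        rfl }

/-- Localisation along `F ⊆ L^H` (top field unchanged) followed by the identification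
`H → Gal(L/L^H)` is the restriction map `Hⁿ(Gal(L/F), Lˣ) → Hⁿ(H, Lˣ)`. -/
lemma locH_fixed_comp (n : ℕ) :
    locH F L (IntermediateField.fixedField H) L n ≫
        groupCohomology.map (toFixedAut F L H) (fixedUnits F L H) n =
      groupCohomology.map H.subtype (𝟙 (Rep.res H.subtype (Rep.ofAlgebraAutOnUnits F L))) n := by
  unfold locH
  rw [← groupCohomology.map_comp]
  refine groupCohomology.map_congr (locHom_comp_toFixedAut F L H) ?_ n
  ext a
  apply Additive.toMul.injective
  apply Units.ext
  rfl

end Sylow

/-- The class of a multiplicative cocycle vanishes iff it is a multiplicative coboundary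
(one direction). -/
lemma classOf_eq_zero_of_isMulCoboundary₂ {F L : Type} [Field F] [Field L] [Algebra F L]
    (x : (L ≃ₐ[F] L) × (L ≃ₐ[F] L) → Lˣ) (hx : IsMulCocycle₂ x) (h : IsMulCoboundary₂ x) :
    classOf x hx = 0 := by
  unfold classOf
  rw [H2π_eq_zero_iff]
  exact (coboundariesOfIsMulCoboundary₂ h).2

/-- Every class is the class of a multiplicative cocycle. -/
lemma exists_classOf_eq {F L : Type} [Field F] [Field L] [Algebra F L]
    (y : H2 (Rep.ofAlgebraAutOnUnits F L)) :
    ∃ (x : (L ≃ₐ[F] L) × (L ≃ₐ[F] L) → Lˣ) (hx : IsMulCocycle₂ x), classOf x hx = y := by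
  induction y using H2_induction_on with
  | h c =>
    let f : (L ≃ₐ[F] L) × (L ≃ₐ[F] L) → Additive Lˣ := c.1
    have hf : f ∈ cocycles₂ (Rep.ofMulDistribMulAction (L ≃ₐ[F] L) Lˣ) := c.2
    have hc := isMulCocycle₂_of_mem_cocycles₂ (G := L ≃ₐ[F] L) (M := Lˣ) f hf
    refine ⟨Additive.toMul ∘ f, hc, ?_⟩
    unfold classOf
    congr 1

/-- **R-HASSE** (conditional on R-RES and R-SL): the Hasse principle in `LocDatum` form for
`p`-primary classes of arbitrary finite Galois extensions of number fields, from GLOB's
semilocal Hasse principle for `p`-extensions. -/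
theorem hassePrinciple_of_globHasse_of (p : ℕ) [Fact p.Prime] (hRes : HypRes) (hSL : HypSL)
    (hG : GlobHasse p) : HassePrinciple p := by
  intro F L _ _ _ _ _ _ x n hx hloc
  obtain ⟨P⟩ : Nonempty (Sylow p (L ≃ₐ[F] L)) := inferInstance
  -- the restricted class
  have hy0 : (locH F L (IntermediateField.fixedField (P : Subgroup (L ≃ₐ[F] L))) L 2).hom x
      = 0 := by
    obtain ⟨x', hx', hcl⟩ := exists_classOf_eq
      ((locH F L (IntermediateField.fixedField (P : Subgroup (L ≃ₐ[F] L))) L 2).hom x)
    rw [← hcl]
    apply classOf_eq_zero_of_isMulCoboundary₂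
    obtain ⟨m, hm⟩ := IsPGroup.exists_card_eq P.2
    have hdeg : Module.finrank (IntermediateField.fixedField (P : Subgroup (L ≃ₐ[F] L))) L
        = p ^ m := by
      rw [IntermediateField.finrank_fixedField_eq_card, ← hm]
    refine hG _ L m hdeg x' hx' (fun q => hSL q _ L x' hx' (fun E => ?_))
    obtain ⟨D, _, _, _, _, _, _, _, -, -, -, h⟩ :=
      hRes (q : ℕ) F L (IntermediateField.fixedField (P : Subgroup (L ≃ₐ[F] L))) L E
    rw [hcl, h x, hloc (q : ℕ) D, map_zero]
  -- conclude by the strong corestriction
  refine helper46.res_injOn_pPrimary _ 2 p P x ⟨n, hx⟩ ?_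
  have h := congrArg (fun f => f.hom x) (locH_fixed_comp F L (P : Subgroup (L ≃ₐ[F] L)) 2)
  simp only [ModuleCat.hom_comp, LinearMap.comp_apply] at h
  rw [← h, hy0, map_zero]

end Fermat.Agent.S55.helper60
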