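import Fermat.Agent.S55.helper11_Rec1Main
import Fermat.Agent.S55.helper11_RecApxSL
import Fermat.Agent.S55.helper60_RecHasse
import Fermat.Agent.S55.helper96_CyclicNorm

/-!
# S55 / REC1 (helper11): the `l`-part of the reciprocity law from R-SL

`hypApxCyc_of_SL : helper60.HypSL → HypApxCyc` : semilocal Shapiro (R-SL) turns local triviality
of a cyclic class at all local data over `l` into a semilocal norm equation, and APX-SL
(`exists_norm_approx_of_semiLoc`) finishes.
-/

set_option autoImplicit false

open CategoryTheory groupCohomology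
open scoped TensorProduct NumberField

namespace Fermat.Agent.S55.helper11

open Fermat.Agent.S55.helper8 Fermat.Agent.S55.helper73

/-- R-SL + APX-SL give the `l`-part of the assembly. -/
theorem hypApxCyc_of_SL (hSL : helper60.HypSL) : HypApxCyc := by
  intro l _ F M _ _ _ _ _ _ σ hσ c hloc
  classical
  have hl : l.Prime := Fact.out
  haveI : FiniteDimensional F M := Module.Finite.of_restrictScalars_finite ℚ F M
  have hx : IsMulCocycle₂ (cyclicCochain F M σ c) :=
    helper31.isMulCocycle₂_cyclicCochain σ hσ c
  have hcl : helper60.classOf (cyclicCochain F M σ c) hx = cyclicClass F M σ c :=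
    (helper31.cyclicClass_eq σ hσ c).symm
  have hcob := hSL ⟨l, hl⟩ F M (cyclicCochain F M σ c) hx (fun D => by
    rw [hcl]
    exact hloc D)
  -- rewrite the cochain as a cyclic cochain of the semilocal module
  have hfun : (fun g : (M ≃ₐ[F] M) × (M ≃ₐ[F] M) =>
      principalPi M (cyclicCochain F M σ c g) ⟨l, hl⟩) =
      helper96.cycG σ (principalPi M (Units.map (algebraMap F M : F →* M) c) ⟨l, hl⟩) := by
    funext g
    simp only [cyclicCochain, helper96.cycG, map_pow, Pi.pow_apply]
    rfl
  rw [hfun] at hcob
  obtain ⟨y, hy⟩ := helper96.exists_normProd_eq_of_isMulCoboundary₂ (orderOf_pos σ) hσ hcob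
  have hprod : ∏ g : Gal(M/F), g • y =
      principalPi M (Units.map (algebraMap F M : F →* M) c) ⟨l, hl⟩ := by
    rw [← hy, helper96.normProd]
    exact helper96.prod_univ_eq_prod_range hσ (fun g => g • y)
  have hY : ∏ g : Gal(M/F), galSemiLocAut l M F g (y : SemiLoc l M) =
      (1 : ℚ_[l]) ⊗ₜ[ℚ] (algebraMap F M (c : F)) := by
    have h1 := congrArg (fun z : (SemiLoc l M)ˣ => (z : SemiLoc l M)) hprod
    simp only [Units.coe_prod] at h1
    exact h1
  exact exists_norm_approx_of_semiLoc l F M c (y : SemiLoc l M)
    ((y⁻¹ : (SemiLoc l M)ˣ) : SemiLoc l M) (by simp) hY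

end Fermat.Agent.S55.helper11
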