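import Mathlib
import Fermat.Agent.S55.helper11_RecDefs
import Fermat.Agent.S55.helper71_LocNorm

/-!
# S55 / REC1-EXIST (helper15, task 290): local data at the finite places

For a Galois extension of number fields `L/F`:

* `exists_locDatum` : every finite place `v` of `F` carries a local datum `D : LocDatum q F L`
  with `D.AtPlace v` (`q` the residue characteristic of `v`);
* `exists_unique_atPlace` : a local datum sits over exactly one finite place.

Both statements are verbatim those of the REC1 interface (helper11).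

Route.  For a ring homomorphism `φ : F → K` into an algebraic extension `K` of `ℚ_[q]` the
elements of `𝓞 F` of spectral norm `< 1` form a nonzero prime ideal `primeOfHom q K φ`
containing `q` (the spectral norm is multiplicative, ultrametric and `≤ 1` on integers).
By the dictionary of helper71 (`lt_ordT_iff`), `D.AtPlace v` says that `v` is the prime of the
structure map `F → D.Kv`; this gives uniqueness.  For existence let `Ω` be the algebraic closure
of `ℚ_[q]`.  If no `ℚ`-embedding `σ : F → Ω` induced `P = v.asIdeal`, prime avoidance would give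
`a ∈ P` with `|σ a| = 1` for all `σ`, hence `|N_{F/ℚ} a|_q = ∏ |σ a| = 1`, although
`q ∣ N_{F/ℚ} a` (`exists_algHom_primeOfHom_eq`).  Extend `σ` to `ι : L → Ω` and take
`Lw = ℚ_q(ι L)`, `Kv = ℚ_q(ι F)` (`exists_locDatum_of_ringHom`); `Lw/Kv` is Galois because it is
the compositum of `Kv` and the Galois extension `L/F` (`isGalois_of_dense`).
-/

set_option autoImplicit false
set_option linter.style.haveILetI false
set_option linter.unusedSectionVars false
set_option linter.unusedVariables false

open Polynomial NumberField IsDedekindDomain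
open scoped NumberField

namespace Fermat.Agent.S55.helper15

open Fermat.Agent.S55.helper8 Fermat.Agent.S55.helper11

/-! ## Spectral norms of global integers and the induced prime -/

section SpectralNorm

variable (q : ℕ) [Fact q.Prime]
variable (K : Type*) [Field K] [Algebra ℚ_[q] K] [Algebra.IsAlgebraic ℚ_[q] K]

/-- Elements integral over `ℤ` have spectral norm `≤ 1`. -/
theorem spectralNorm_le_one_of_isIntegral_int {x : K} (hx : IsIntegral ℤ x) :
    spectralNorm ℚ_[q] K x ≤ 1 := by
  obtain ⟨f, hf, hfx⟩ := hx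
  have hg : (f.map (Int.castRingHom ℚ_[q])).Monic := hf.map _
  have hgx : Polynomial.aeval x (f.map (Int.castRingHom ℚ_[q])) = 0 := by
    rw [Polynomial.aeval_def, Polynomial.eval₂_map]
    have : (algebraMap ℚ_[q] K).comp (Int.castRingHom ℚ_[q]) = algebraMap ℤ K :=
      RingHom.ext_int _ _
    rw [this]
    exact hfx
  have h1 : spectralAlgNorm ℚ_[q] K x ≤ spectralValue (f.map (Int.castRingHom ℚ_[q])) :=
    norm_root_le_spectralValue spectralAlgNorm_isPowMul isNonarchimedean_spectralNorm hg hgx
  refine h1.trans ((spectralValue_le_one_iff hg).mpr (fun n => ?_))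
  rw [Polynomial.coeff_map]
  exact Padic.norm_int_le_one _

/-- The spectral norm over `ℚ_[q]` is multiplicative. -/
theorem spectralNorm_mul_eq (x y : K) :
    spectralNorm ℚ_[q] K (x * y) = spectralNorm ℚ_[q] K x * spectralNorm ℚ_[q] K y :=
  spectralAlgNorm_mul (K := ℚ_[q]) (L := K) x y

theorem spectralNorm_prod_eq {ι : Type*} (s : Finset ι) (f : ι → K) :
    spectralNorm ℚ_[q] K (∏ i ∈ s, f i) = ∏ i ∈ s, spectralNorm ℚ_[q] K (f i) := by
  classical
  induction s using Finset.induction_on with
  | empty => simp [spectralNorm_one]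
  | insert a s ha ih =>
    rw [Finset.prod_insert ha, Finset.prod_insert ha, spectralNorm_mul_eq, ih]

theorem spectralNorm_natCast_self : spectralNorm ℚ_[q] K (q : K) = (q : ℝ)⁻¹ := by
  have h : (q : K) = algebraMap ℚ_[q] K (q : ℚ_[q]) := by rw [map_natCast]
  rw [h, spectralNorm_extends]
  exact Padic.norm_p

theorem spectralNorm_natCast_self_lt_one : spectralNorm ℚ_[q] K (q : K) < 1 := by
  rw [spectralNorm_natCast_self]
  exact inv_lt_one_of_one_lt₀ (by exact_mod_cast (Fact.out : q.Prime).one_lt)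

variable {F : Type*} [Field F] [NumberField F] (φ : F →+* K)

theorem spectralNorm_map_le_one (a : 𝓞 F) : spectralNorm ℚ_[q] K (φ (a : F)) ≤ 1 := by
  apply spectralNorm_le_one_of_isIntegral_int
  have h : IsIntegral ℤ (a : F) := a.2
  exact h.map (φ : F →+* K).toIntAlgHom

/-- The prime ideal of `𝓞 F` induced by a ring homomorphism of `F` into an algebraic extension
of `ℚ_[q]`: the elements of spectral norm `< 1`. -/
def primeOfHom : Ideal (𝓞 F) where
  carrier := {a | spectralNorm ℚ_[q] K (φ (a : F)) < 1}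
  zero_mem' := by
    show spectralNorm ℚ_[q] K (φ (algebraMap (𝓞 F) F 0)) < 1
    rw [map_zero, map_zero, spectralNorm_zero]
    exact zero_lt_one
  add_mem' := by
    intro a b ha hb
    show spectralNorm ℚ_[q] K (φ (algebraMap (𝓞 F) F (a + b))) < 1
    rw [map_add, map_add]
    exact lt_of_le_of_lt (isNonarchimedean_spectralNorm _ _) (max_lt ha hb)
  smul_mem' := by
    intro c a ha
    show spectralNorm ℚ_[q] K (φ (algebraMap (𝓞 F) F (c * a))) < 1
    rw [map_mul, map_mul, spectralNorm_mul_eq]
    have h1 := spectralNorm_map_le_one q K φ c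
    have h2 : 0 ≤ spectralNorm ℚ_[q] K (φ (a : F)) := spectralNorm_nonneg _
    calc spectralNorm ℚ_[q] K (φ (c : F)) * spectralNorm ℚ_[q] K (φ (a : F))
        ≤ 1 * spectralNorm ℚ_[q] K (φ (a : F)) := mul_le_mul_of_nonneg_right h1 h2
      _ < 1 := by rw [one_mul]; exact ha

theorem mem_primeOfHom (a : 𝓞 F) :
    a ∈ primeOfHom q K φ ↔ spectralNorm ℚ_[q] K (φ (a : F)) < 1 := Iff.rfl

theorem mem_primeOfHom' (a : 𝓞 F) :
    a ∈ primeOfHom q K φ ↔ spectralNorm ℚ_[q] K (φ (algebraMap (𝓞 F) F a)) < 1 := Iff.rfl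

theorem natCast_mem_primeOfHom : (q : 𝓞 F) ∈ primeOfHom q K φ := by
  rw [mem_primeOfHom]
  have : φ (((q : 𝓞 F) : 𝓞 F) : F) = (q : K) := by simp
  rw [this]
  exact spectralNorm_natCast_self_lt_one q K

theorem primeOfHom_isPrime : (primeOfHom q K φ).IsPrime := by
  refine ⟨?_, ?_⟩
  · rw [Ne, Ideal.eq_top_iff_one, mem_primeOfHom']
    simp only [map_one, spectralNorm_one, lt_self_iff_false, not_false_eq_true]
  · intro a b hab
    rw [mem_primeOfHom', map_mul, map_mul, spectralNorm_mul_eq] at hab
    by_contra hcon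
    push Not at hcon
    obtain ⟨ha, hb⟩ := hcon
    rw [mem_primeOfHom', not_lt] at ha hb
    have ha1 := le_antisymm (spectralNorm_map_le_one q K φ a) ha
    have hb1 := le_antisymm (spectralNorm_map_le_one q K φ b) hb
    rw [ha1, hb1, one_mul] at hab
    exact lt_irrefl _ hab

theorem primeOfHom_ne_bot : primeOfHom q K φ ≠ ⊥ := by
  intro h
  have hq := natCast_mem_primeOfHom q K φ
  rw [h, Ideal.mem_bot] at hq
  have : (q : 𝓞 F) ≠ 0 := by
    exact_mod_cast (Fact.out : q.Prime).ne_zero
  exact this hq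

end SpectralNorm

/-! ## The dictionary with `ordT` and uniqueness of the place -/

section Unique

variable (q : ℕ) [Fact q.Prime]

/-- `0 < ordT x` iff the spectral norm of `x` is `< 1`. -/
theorem pos_ordT_iff (K : Type) [Field K] [Algebra ℚ_[q] K] [FiniteDimensional ℚ_[q] K]
    (x : K) : 0 < ordT q K x ↔ spectralNorm ℚ_[q] K x < 1 := by
  have h := Fermat.Agent.S55.helper71.lt_ordT_iff q K x 0
  simpa using h

/-- The place of a local datum is the prime of its structure map. -/
theorem atPlace_iff {F L : Type} [Field F] [NumberField F] [Field L] [Algebra F L]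
    (D : LocDatum q F L) (v : HeightOneSpectrum (𝓞 F)) :
    D.AtPlace v ↔ v.asIdeal = primeOfHom q D.Kv (algebraMap F D.Kv) := by
  constructor
  · intro h
    ext a
    rw [h a, pos_ordT_iff, mem_primeOfHom]
  · intro h a
    rw [h, pos_ordT_iff, mem_primeOfHom]

/-- **R-EXIST (2)**: a local datum sits over exactly one finite place. -/
theorem exists_unique_atPlace (q : ℕ) [Fact q.Prime] (F L : Type) [Field F] [NumberField F]
    [Field L] [NumberField L] [Algebra F L] [IsGalois F L] (D : LocDatum q F L) :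
    ∃! v : HeightOneSpectrum (𝓞 F), D.AtPlace v := by
  refine ⟨⟨primeOfHom q D.Kv (algebraMap F D.Kv), primeOfHom_isPrime q D.Kv _,
    primeOfHom_ne_bot q D.Kv _⟩, ?_, ?_⟩
  · exact (atPlace_iff q D _).mpr rfl
  · intro v' hv'
    apply HeightOneSpectrum.ext
    exact (atPlace_iff q D v').mp hv'

end Unique

/-! ## Construction of a local datum from an embedding -/

section Construction

/-- The compositum of a Galois extension `L/F` with a field `Kv ⊇ F` is Galois over `Kv`:
if `Lw ⊇ Kv` is generated over a subfield `k ⊆ Kv` by the image of `L`, then `Lw/Kv` is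
Galois. -/
theorem isGalois_of_dense {k F L Kv Lw : Type*} [Field k] [Field F] [Field L] [Field Kv]
    [Field Lw] [Algebra F L] [FiniteDimensional F L] [IsGalois F L] [Algebra k Kv] [Algebra k Lw]
    [Algebra Kv Lw] [IsScalarTower k Kv Lw] [Algebra F Kv] [Algebra L Lw] [Algebra F Lw]
    [IsScalarTower F L Lw] [IsScalarTower F Kv Lw]
    (hdense : Algebra.adjoin k (Set.range (algebraMap L Lw)) = ⊤) : IsGalois Kv Lw := by
  obtain ⟨f, hsep, hsplit⟩ := IsGalois.is_separable_splitting_field F L
  have hp : (f.map (algebraMap F Kv)).Separable := hsep.map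
  have hsplits : ((f.map (algebraMap F Kv)).map (algebraMap Kv Lw)).Splits := by
    rw [Polynomial.map_map, ← IsScalarTower.algebraMap_eq F Kv Lw,
      IsScalarTower.algebraMap_eq F L Lw, ← Polynomial.map_map]
    exact (IsSplittingField.splits L f).map _
  have hroots : (f.map (algebraMap F Kv)).rootSet Lw = (algebraMap L Lw) '' f.rootSet L := by
    rw [(IsSplittingField.splits L f).image_rootSet_algebraMap (B := Lw)]
    unfold Polynomial.rootSet
    rw [aroots_map]
  have hadj : Algebra.adjoin Kv ((f.map (algebraMap F Kv)).rootSet Lw) = ⊤ := by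
    rw [eq_top_iff, hroots]
    intro y hyt
    clear hyt
    have hy : y ∈ Algebra.adjoin k (Set.range (algebraMap L Lw)) := by rw [hdense]; trivial
    induction hy using Algebra.adjoin_induction with
    | mem y hy =>
      obtain ⟨x, rfl⟩ := hy
      have hx : x ∈ Algebra.adjoin F (f.rootSet L) := by
        rw [IsSplittingField.adjoin_rootSet L f]; trivial
      induction hx using Algebra.adjoin_induction with
      | mem r hr => exact Algebra.subset_adjoin ⟨r, hr, rfl⟩
      | algebraMap c =>
        rw [← IsScalarTower.algebraMap_apply F L Lw, IsScalarTower.algebraMap_apply F Kv Lw]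
        exact Subalgebra.algebraMap_mem _ _
      | add a b _ _ ha hb => rw [map_add]; exact add_mem ha hb
      | mul a b _ _ ha hb => rw [map_mul]; exact mul_mem ha hb
    | algebraMap c =>
      rw [IsScalarTower.algebraMap_apply k Kv Lw]
      exact Subalgebra.algebraMap_mem _ _
    | add a b _ _ ha hb => exact add_mem ha hb
    | mul a b _ _ ha hb => exact mul_mem ha hb
  haveI : (f.map (algebraMap F Kv)).IsSplittingField Kv Lw := ⟨hsplits, hadj⟩
  exact IsGalois.of_separable_splitting_field hp

/-- If `M = K(S)` is an algebraic extension generated by the range `S` of `f` and `g : X → M`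
lifts `f`, then the `K`-algebra generated by the range of `g` is everything. -/
theorem adjoin_range_eq_top {K E : Type*} [Field K] [Field E] [Algebra K E]
    [Algebra.IsAlgebraic K E] {X : Type*} (f : X → E)
    (g : X → IntermediateField.adjoin K (Set.range f)) (hg : ∀ x, (g x : E) = f x) :
    Algebra.adjoin K (Set.range g) = ⊤ := by
  apply Subalgebra.map_injective (f := (IntermediateField.adjoin K (Set.range f)).val)
    Subtype.val_injective
  rw [Algebra.map_top, AlgHom.map_adjoin]
  have h1 : (⇑(IntermediateField.adjoin K (Set.range f)).val '' Set.range g) = Set.range f := by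
    ext y
    constructor
    · rintro ⟨_, ⟨x, rfl⟩, rfl⟩
      exact ⟨x, (hg x).symm⟩
    · rintro ⟨x, rfl⟩
      exact ⟨g x, ⟨x, rfl⟩, hg x⟩
  rw [h1, IntermediateField.range_val]
  exact (IntermediateField.adjoin_toSubalgebra _).symm

variable (q : ℕ) [Fact q.Prime]

/-- The field generated over `ℚ_[q]` by the image of a number field is finite over `ℚ_[q]`. -/
theorem finiteDimensional_adjoin_range (L : Type*) [Field L] [NumberField L] {E : Type*}
    [Field E] [Algebra ℚ_[q] E] [Algebra.IsAlgebraic ℚ_[q] E] [CharZero E]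
    (ι : L →+* E) :
    FiniteDimensional ℚ_[q] (IntermediateField.adjoin ℚ_[q] (Set.range ι)) := by
  classical
  let b := Module.finBasis ℚ L
  let S₀ : Set E := Set.range fun i => ι (b i)
  have hfin : Finite S₀ := Set.finite_range _
  have hle : IntermediateField.adjoin ℚ_[q] (Set.range ι) ≤
      IntermediateField.adjoin ℚ_[q] S₀ := by
    rw [IntermediateField.adjoin_le_iff]
    rintro _ ⟨x, rfl⟩
    have hx : x = ∑ i, algebraMap ℚ L (b.repr x i) * b i := by
      conv_lhs => rw [← b.sum_repr x]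
      refine Finset.sum_congr rfl fun i _ => ?_
      rw [Algebra.smul_def]
    rw [hx, map_sum, SetLike.mem_coe]
    refine Subalgebra.sum_mem _ fun i _ => ?_
    have hmem : ι (b i) ∈ IntermediateField.adjoin ℚ_[q] S₀ :=
      IntermediateField.subset_adjoin _ _ ⟨i, rfl⟩
    rw [map_mul]
    refine mul_mem ?_ hmem
    have h1 : ι (algebraMap ℚ L (b.repr x i)) =
        algebraMap ℚ_[q] E (algebraMap ℚ ℚ_[q] (b.repr x i)) := by
      rw [eq_ratCast, eq_ratCast, map_ratCast, map_ratCast]
    rw [h1]
    exact IntermediateField.algebraMap_mem _ _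
  have hfd : FiniteDimensional ℚ_[q] (IntermediateField.adjoin ℚ_[q] S₀) :=
    IntermediateField.finiteDimensional_adjoin fun x _ =>
      (Algebra.IsAlgebraic.isAlgebraic x).isIntegral
  exact FiniteDimensional.of_injective (IntermediateField.inclusion hle).toLinearMap
    (IntermediateField.inclusion_injective hle)

/-- The local datum attached to an embedding of `L` into the algebraic closure of `ℚ_[q]`:
`Lw = ℚ_q(ι L)`, `Kv = ℚ_q(ι F)`. -/
theorem exists_locDatum_of_ringHom (F L : Type) [Field F] [NumberField F] [Field L]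
    [NumberField L] [Algebra F L] [IsGalois F L] (ι : L →+* AlgebraicClosure ℚ_[q]) :
    ∃ D : LocDatum q F L, ∀ a : F, spectralNorm ℚ_[q] D.Kv (algebraMap F D.Kv a) =
      spectralNorm ℚ_[q] (AlgebraicClosure ℚ_[q]) (ι (algebraMap F L a)) := by
  classical
  let Lw : IntermediateField ℚ_[q] (AlgebraicClosure ℚ_[q]) :=
    IntermediateField.adjoin ℚ_[q] (Set.range ι)
  have hιmem : ∀ x, ι x ∈ Lw := fun x => IntermediateField.subset_adjoin _ _ ⟨x, rfl⟩
  let ιL : L →+* Lw := ι.codRestrict Lw hιmem
  haveI hfinL : FiniteDimensional ℚ_[q] Lw := finiteDimensional_adjoin_range q L ι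
  let Kv : IntermediateField ℚ_[q] Lw :=
    IntermediateField.adjoin ℚ_[q] (Set.range (ιL.comp (algebraMap F L)))
  have hσmem : ∀ x, ιL (algebraMap F L x) ∈ Kv :=
    fun x => IntermediateField.subset_adjoin _ _ ⟨x, rfl⟩
  let σK : F →+* Kv := (ιL.comp (algebraMap F L)).codRestrict Kv hσmem
  letI algFK : Algebra F Kv := σK.toAlgebra
  letI algLL : Algebra L Lw := ιL.toAlgebra
  letI algFL : Algebra F Lw := (ιL.comp (algebraMap F L)).toAlgebra
  haveI t1 : IsScalarTower F L Lw := IsScalarTower.of_algebraMap_eq (fun x => rfl)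
  haveI t2 : IsScalarTower F Kv Lw := IsScalarTower.of_algebraMap_eq (fun x => rfl)
  have denseL : Algebra.adjoin ℚ_[q] (Set.range (algebraMap L Lw)) = ⊤ :=
    adjoin_range_eq_top (K := ℚ_[q]) (fun x => ι x) (fun x => ιL x) (fun x => rfl)
  have denseK : Algebra.adjoin ℚ_[q] (Set.range (algebraMap F Kv)) = ⊤ :=
    adjoin_range_eq_top (K := ℚ_[q]) (fun x => ιL (algebraMap F L x)) (fun x => σK x)
      (fun x => rfl)
  haveI gal : IsGalois Kv Lw := isGalois_of_dense (k := ℚ_[q]) (F := F) (L := L) denseL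
  refine ⟨{ Kv := Kv, Lw := Lw, denseK := denseK, denseL := denseL }, ?_⟩
  intro a
  show spectralNorm ℚ_[q] Kv (σK a) = spectralNorm ℚ_[q] (AlgebraicClosure ℚ_[q])
    (ι (algebraMap F L a))
  rw [spectralNorm.eq_of_tower (L := Lw), spectralNorm.eq_of_tower (L := AlgebraicClosure ℚ_[q])]
  rfl

end Construction

/-! ## Every prime over `q` comes from an embedding -/

section Existence

variable (q : ℕ) [Fact q.Prime] (F : Type*) [Field F] [NumberField F]

/-- Every prime of `𝓞 F` over `q` is induced by an embedding of `F` into the algebraic closure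
of `ℚ_[q]`. -/
theorem exists_algHom_primeOfHom_eq (P : Ideal (𝓞 F)) [hPp : P.IsPrime] (hP : P ≠ ⊥)
    (hq : (q : 𝓞 F) ∈ P) :
    ∃ σ : F →ₐ[ℚ] AlgebraicClosure ℚ_[q],
      primeOfHom q (AlgebraicClosure ℚ_[q]) (σ : F →+* AlgebraicClosure ℚ_[q]) = P := by
  classical
  by_contra hcon
  push Not at hcon
  have hmax : P.IsMaximal := Ideal.IsPrime.isMaximal hPp hP
  have σ₀ : F →ₐ[ℚ] AlgebraicClosure ℚ_[q] := IsAlgClosed.lift
  -- prime avoidance
  have h1 : ¬ ((P : Set (𝓞 F)) ⊆ ⋃ σ ∈ ((Finset.univ : Finset (F →ₐ[ℚ] AlgebraicClosure ℚ_[q])) :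
      Set (F →ₐ[ℚ] AlgebraicClosure ℚ_[q])),
      ((primeOfHom q (AlgebraicClosure ℚ_[q]) (σ : F →+* AlgebraicClosure ℚ_[q]) :
        Ideal (𝓞 F)) : Set (𝓞 F))) := by
    rw [Ideal.subset_union_prime σ₀ σ₀ (fun σ _ _ _ => primeOfHom_isPrime q _ _)]
    rintro ⟨σ, -, hσ⟩
    exact hcon σ (hmax.eq_of_le (primeOfHom_isPrime q _ _).ne_top hσ).symm
  rw [Set.not_subset] at h1
  obtain ⟨a, haP, ha⟩ := h1
  have ha1 : ∀ σ : F →ₐ[ℚ] AlgebraicClosure ℚ_[q],
      spectralNorm ℚ_[q] (AlgebraicClosure ℚ_[q]) (σ (a : F)) = 1 := by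
    intro σ
    refine le_antisymm (spectralNorm_map_le_one q _ (σ : F →+* AlgebraicClosure ℚ_[q]) a) ?_
    by_contra hlt
    push Not at hlt
    apply ha
    simp only [Finset.coe_univ, Set.mem_univ, Set.iUnion_true, Set.mem_iUnion, SetLike.mem_coe]
    exact ⟨σ, hlt⟩
  -- the norm of `a` is divisible by `q`
  have hN : ((Algebra.norm ℤ a).natAbs : 𝓞 F) ∈ P := by
    have h2 := Ideal.absNorm_mem (Ideal.span {a})
    rw [Ideal.absNorm_span_singleton] at h2
    exact (Ideal.span_singleton_le_iff_mem P).mpr haP h2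
  have hqN : q ∣ (Algebra.norm ℤ a).natAbs := by
    by_contra hndvd
    have hcop : Nat.Coprime q (Algebra.norm ℤ a).natAbs :=
      (Nat.Prime.coprime_iff_not_dvd Fact.out).mpr hndvd
    obtain ⟨u, v, huv⟩ := (Nat.isCoprime_iff_coprime.mpr hcop)
    have h3 : (1 : 𝓞 F) ∈ P := by
      have h4 := congrArg (Int.cast : ℤ → 𝓞 F) huv
      simp only [Int.cast_add, Int.cast_mul, Int.cast_natCast, Int.cast_one] at h4
      rw [← h4]
      exact P.add_mem (P.mul_mem_left _ hq) (P.mul_mem_left _ hN)
    exact hPp.ne_top ((Ideal.eq_top_iff_one P).mpr h3)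
  -- product formula
  have hprod := Algebra.norm_eq_prod_embeddings ℚ (AlgebraicClosure ℚ_[q]) (a : F)
  have h5 : spectralNorm ℚ_[q] (AlgebraicClosure ℚ_[q])
      (algebraMap ℚ (AlgebraicClosure ℚ_[q]) (Algebra.norm ℚ (a : F))) = 1 := by
    rw [hprod, spectralNorm_prod_eq]
    exact Finset.prod_eq_one (fun σ _ => ha1 σ)
  rw [← Algebra.coe_norm_int] at h5
  have h6 : algebraMap ℚ (AlgebraicClosure ℚ_[q]) ((Algebra.norm ℤ a : ℤ) : ℚ) =
      algebraMap ℚ_[q] (AlgebraicClosure ℚ_[q]) ((Algebra.norm ℤ a : ℤ) : ℚ_[q]) := by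
    simp
  rw [h6, spectralNorm_extends] at h5
  have h7 : ‖((Algebra.norm ℤ a : ℤ) : ℚ_[q])‖ < 1 := by
    rw [Padic.norm_intCast_lt_one_iff]
    exact Int.natCast_dvd.mpr hqN
  rw [h5] at h7
  exact lt_irrefl _ h7

end Existence

/-! ## The main statement -/

/-- **R-EXIST (1)**: every finite place carries a local datum. -/
theorem exists_locDatum (F L : Type) [Field F] [NumberField F] [Field L] [NumberField L]
    [Algebra F L] [IsGalois F L] (v : HeightOneSpectrum (𝓞 F)) :
    ∃ (q : ℕ) (_ : Fact q.Prime) (D : LocDatum q F L), D.AtPlace v := by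
  classical
  haveI : NeZero v.asIdeal := ⟨v.ne_bot⟩
  have hqp : (Ideal.absNorm (v.asIdeal.under ℤ)).Prime := Nat.absNorm_under_prime v.asIdeal
  set q : ℕ := Ideal.absNorm (v.asIdeal.under ℤ) with hqdef
  haveI hF : Fact q.Prime := ⟨hqp⟩
  have hqmem : (q : 𝓞 F) ∈ v.asIdeal := by
    have h := Ideal.absNorm_mem (v.asIdeal.under ℤ)
    have h' : algebraMap ℤ (𝓞 F) ((q : ℕ) : ℤ) ∈ v.asIdeal := h
    rw [eq_intCast, Int.cast_natCast] at h'
    exact h'
  haveI := v.isPrime
  obtain ⟨σ, hσ⟩ := exists_algHom_primeOfHom_eq q F v.asIdeal v.ne_bot hqmem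
  letI : Algebra F (AlgebraicClosure ℚ_[q]) := (σ : F →+* AlgebraicClosure ℚ_[q]).toAlgebra
  let ι : L →ₐ[F] AlgebraicClosure ℚ_[q] := IsAlgClosed.lift
  obtain ⟨D, hD⟩ := exists_locDatum_of_ringHom q F L (ι : L →+* AlgebraicClosure ℚ_[q])
  refine ⟨q, hF, D, ?_⟩
  rw [atPlace_iff, ← hσ]
  ext a
  rw [mem_primeOfHom, mem_primeOfHom, hD]
  have h : (ι : L →+* AlgebraicClosure ℚ_[q]) (algebraMap F L (a : F)) = σ (a : F) :=
    ι.commutes (a : F)
  rw [h]
  rfl

end Fermat.Agent.S55.helper15
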