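import Fermat.Agent.S55.helper11_RecDefs
import Fermat.Agent.S55.helper7_LocRes

/-!
# S55 / REC1 R-RES (helper56, task 289): restriction of a local datum along a square of fields

Given a commutative square of fields `F → M`, `L → L'` with `L/F` and `L'/M` finite Galois and a
local datum `E` of `L'/M` over `q`, the `q`-adic closures of the images of `F` and `L` inside
`E.Kv`, `E.Lw` form a local datum `D` of `L/F`, compatibly with localisation of `H²`.

* `locHom_comp'`, `locH_comp'` : functoriality of `locHom` / `locH` along a tower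
  `(F, L) → (K₁, L₁) → (K₂, L₂)`;
* `clK q F Kv`, `clL q F L Kv Lw` : the closures `ℚ_q(F) ⊆ Kv` and `ℚ_q(F)(L) ⊆ Lw`;
* `isGalois_clL` : `clL / clK` is Galois (compositum of a finite Galois extension);
* `denseK_clK`, `denseL_clL` : density (generation over `ℚ_q`);
* `clDatum q F L Kv Lw : LocDatum q F L`, `loc_clDatum`;
* **`exists_restrict`** : the exact statement R-RES of the REC1 interface v1.2.
-/

set_option autoImplicit false
set_option linter.unusedSectionVars false
set_option linter.style.haveILetI false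

open CategoryTheory groupCohomology

namespace Fermat.Agent.S55.helper56

open Fermat.Agent.S55.helper8 Fermat.Agent.S55.helper11

theorem locHom_comp' (F L K₁ L₁ K₂ L₂ : Type) [Field F] [Field L] [Field K₁] [Field L₁] [Field K₂]
    [Field L₂] [Algebra F L] [Normal F L] [Algebra K₁ L₁] [Normal K₁ L₁] [Algebra K₂ L₂]
    [Algebra F K₁] [Algebra L L₁] [Algebra F L₁] [IsScalarTower F L L₁] [IsScalarTower F K₁ L₁]
    [Algebra K₁ K₂] [Algebra L₁ L₂] [Algebra K₁ L₂] [IsScalarTower K₁ L₁ L₂]
    [IsScalarTower K₁ K₂ L₂]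
    [Algebra F K₂] [Algebra L L₂] [Algebra F L₂] [IsScalarTower F L L₂] [IsScalarTower F K₂ L₂]
    [IsScalarTower L L₁ L₂] :
    locHom F L K₂ L₂ = (locHom F L K₁ L₁).comp (locHom K₁ L₁ K₂ L₂) := by
  ext σ x
  apply (algebraMap L L₂).injective
  rw [algebraMap_locHom, MonoidHom.comp_apply]
  have h1 := algebraMap_locHom F L K₁ L₁ (locHom K₁ L₁ K₂ L₂ σ) x
  have h2 := algebraMap_locHom K₁ L₁ K₂ L₂ σ (algebraMap L L₁ x)
  rw [IsScalarTower.algebraMap_apply L L₁ L₂, IsScalarTower.algebraMap_apply L L₁ L₂, h1, h2]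

theorem locH_comp' (F L K₁ L₁ K₂ L₂ : Type) [Field F] [Field L] [Field K₁] [Field L₁] [Field K₂]
    [Field L₂] [Algebra F L] [Normal F L] [Algebra K₁ L₁] [Normal K₁ L₁] [Algebra K₂ L₂]
    [Algebra F K₁] [Algebra L L₁] [Algebra F L₁] [IsScalarTower F L L₁] [IsScalarTower F K₁ L₁]
    [Algebra K₁ K₂] [Algebra L₁ L₂] [Algebra K₁ L₂] [IsScalarTower K₁ L₁ L₂]
    [IsScalarTower K₁ K₂ L₂]
    [Algebra F K₂] [Algebra L L₂] [Algebra F L₂] [IsScalarTower F L L₂] [IsScalarTower F K₂ L₂]
    [IsScalarTower L L₁ L₂] (n : ℕ) :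
    locH F L K₂ L₂ n = locH F L K₁ L₁ n ≫ locH K₁ L₁ K₂ L₂ n := by
  unfold locH
  rw [← groupCohomology.map_comp]
  apply groupCohomology.map_congr (locHom_comp' F L K₁ L₁ K₂ L₂)
  ext x
  apply Additive.toMul.injective
  apply Units.ext
  exact IsScalarTower.algebraMap_apply L L₁ L₂ ((Additive.toMul x : Lˣ) : L)

section Closure

variable (q : ℕ) [Fact q.Prime] (F L : Type) [Field F] [Field L] [Algebra F L]
  (Kv Lw : Type) [Field Kv] [Field Lw] [Algebra ℚ_[q] Kv] [Algebra ℚ_[q] Lw] [Algebra Kv Lw]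
  [IsScalarTower ℚ_[q] Kv Lw]
  [Algebra F Kv] [Algebra L Lw] [Algebra F Lw] [IsScalarTower F L Lw] [IsScalarTower F Kv Lw]

/-- closure of the image of `F` -/
noncomputable def clK : IntermediateField ℚ_[q] Kv :=
  IntermediateField.adjoin ℚ_[q] (Set.range (algebraMap F Kv))

/-- closure of the image of `L`, as an extension of `clK` -/
noncomputable def clL : IntermediateField (clK q F Kv) Lw :=
  IntermediateField.adjoin (clK q F Kv) (Set.range (algebraMap L Lw))

/-- `F → clK` -/
noncomputable abbrev algFclK : Algebra F (clK q F Kv) :=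
  ((algebraMap F Kv).codRestrict (clK q F Kv)
    (fun a => IntermediateField.subset_adjoin _ _ ⟨a, rfl⟩)).toAlgebra

/-- `L → clL` -/
noncomputable abbrev algLclL : Algebra L (clL q F L Kv Lw) :=
  ((algebraMap L Lw).codRestrict (clL q F L Kv Lw)
    (fun a => IntermediateField.subset_adjoin _ _ ⟨a, rfl⟩)).toAlgebra

attribute [local instance] algFclK algLclL

lemma towerFclKLw : IsScalarTower F (clK q F Kv) Lw :=
  IsScalarTower.of_algebraMap_eq (fun a => IsScalarTower.algebraMap_apply F Kv Lw a)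

attribute [local instance] towerFclKLw

lemma towerFLclL : IsScalarTower F L (clL q F L Kv Lw) :=
  IsScalarTower.of_algebraMap_eq
    (fun a => Subtype.ext (IsScalarTower.algebraMap_apply F L Lw a))

lemma towerLclLLw : IsScalarTower L (clL q F L Kv Lw) Lw :=
  IsScalarTower.of_algebraMap_eq (fun _ => rfl)

attribute [local instance] towerFLclL towerLclLLw

lemma coe_algebraMap_clK (a : F) : ((algebraMap F (clK q F Kv) a : clK q F Kv) : Kv) =
    algebraMap F Kv a := rfl

lemma coe_algebraMap_clL (a : L) : ((algebraMap L (clL q F L Kv Lw) a : clL q F L Kv Lw) : Lw) =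
    algebraMap L Lw a := rfl

lemma algebraMap_clK_Kv (x : clK q F Kv) : algebraMap (clK q F Kv) Kv x = (x : Kv) := rfl

lemma algebraMap_clL_Lw (x : clL q F L Kv Lw) :
    algebraMap (clL q F L Kv Lw) Lw x = (x : Lw) := rfl

lemma algebraMap_clK_Lw (x : clK q F Kv) :
    algebraMap (clK q F Kv) Lw x = algebraMap Kv Lw (x : Kv) := rfl

lemma coe_algebraMap_clK_clL (x : clK q F Kv) :
    ((algebraMap (clK q F Kv) (clL q F L Kv Lw) x : clL q F L Kv Lw) : Lw) =
      algebraMap Kv Lw (x : Kv) := rfl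

section dense

variable [FiniteDimensional ℚ_[q] Kv] [FiniteDimensional Kv Lw]

lemma finite_clK_Lw : FiniteDimensional (clK q F Kv) Lw :=
  FiniteDimensional.trans (clK q F Kv) Kv Lw

attribute [local instance] finite_clK_Lw

include Kv in
lemma finite_Q_Lw : FiniteDimensional ℚ_[q] Lw :=
  FiniteDimensional.trans ℚ_[q] Kv Lw

lemma clK_toSubalgebra : (clK q F Kv).toSubalgebra =
    Algebra.adjoin ℚ_[q] (Set.range (algebraMap F Kv)) :=
  IntermediateField.adjoin_toSubalgebra _

lemma clL_toSubalgebra : (clL q F L Kv Lw).toSubalgebra =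
    Algebra.adjoin (clK q F Kv) (Set.range (algebraMap L Lw)) :=
  IntermediateField.adjoin_toSubalgebra _

theorem denseK_clK :
    Algebra.adjoin ℚ_[q] (Set.range (algebraMap F (clK q F Kv))) = ⊤ := by
  rw [eq_top_iff]
  rintro y -
  have hy : (y : Kv) ∈ (clK q F Kv).toSubalgebra := y.2
  rw [clK_toSubalgebra] at hy
  have himg : Set.range (algebraMap F Kv) =
      (clK q F Kv).val '' Set.range (algebraMap F (clK q F Kv)) := by
    ext z
    constructor
    · rintro ⟨a, rfl⟩
      exact ⟨algebraMap F (clK q F Kv) a, ⟨a, rfl⟩, rfl⟩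
    · rintro ⟨_, ⟨a, rfl⟩, rfl⟩
      exact ⟨a, rfl⟩
  rw [himg, ← AlgHom.map_adjoin] at hy
  obtain ⟨y', hy', hyy'⟩ := hy
  have : y' = y := Subtype.ext hyy'
  exact this ▸ hy'

lemma algebraMap_clK_mem (x : clK q F Kv) :
    algebraMap (clK q F Kv) Lw x ∈ Algebra.adjoin ℚ_[q] (Set.range (algebraMap L Lw)) := by
  have hx : (x : Kv) ∈ (clK q F Kv).toSubalgebra := x.2
  rw [clK_toSubalgebra] at hx
  have h2 : algebraMap Kv Lw (x : Kv) ∈
      (Algebra.adjoin ℚ_[q] (Set.range (algebraMap F Kv))).map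
        (IsScalarTower.toAlgHom ℚ_[q] Kv Lw) := ⟨_, hx, rfl⟩
  rw [AlgHom.map_adjoin] at h2
  refine Algebra.adjoin_mono ?_ h2
  rintro _ ⟨_, ⟨a, rfl⟩, rfl⟩
  refine ⟨algebraMap F L a, ?_⟩
  rw [← IsScalarTower.algebraMap_apply F L Lw, IsScalarTower.algebraMap_apply F Kv Lw]
  rfl

lemma clL_le (y : Lw) (hy : y ∈ clL q F L Kv Lw) :
    y ∈ Algebra.adjoin ℚ_[q] (Set.range (algebraMap L Lw)) := by
  have hy' : y ∈ (clL q F L Kv Lw).toSubalgebra := hy
  rw [clL_toSubalgebra] at hy'
  clear hy
  induction hy' using Algebra.adjoin_induction with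
  | mem z hz => exact Algebra.subset_adjoin hz
  | algebraMap x => exact algebraMap_clK_mem q F L Kv Lw x
  | add a b _ _ ha hb => exact add_mem ha hb
  | mul a b _ _ ha hb => exact mul_mem ha hb

theorem denseL_clL :
    Algebra.adjoin ℚ_[q] (Set.range (algebraMap L (clL q F L Kv Lw))) = ⊤ := by
  rw [eq_top_iff]
  rintro y -
  have hy := clL_le q F L Kv Lw (y : Lw) y.2
  have himg : Set.range (algebraMap L Lw) =
      ((clL q F L Kv Lw).val.restrictScalars ℚ_[q]) ''
        Set.range (algebraMap L (clL q F L Kv Lw)) := by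
    ext z
    constructor
    · rintro ⟨a, rfl⟩
      exact ⟨algebraMap L (clL q F L Kv Lw) a, ⟨a, rfl⟩, rfl⟩
    · rintro ⟨_, ⟨a, rfl⟩, rfl⟩
      exact ⟨a, rfl⟩
  rw [himg, ← AlgHom.map_adjoin] at hy
  obtain ⟨y', hy', hyy'⟩ := hy
  have : y' = y := Subtype.ext hyy'
  exact this ▸ hy'

end dense

section galois

variable [FiniteDimensional F L] [IsGalois F L]

open Polynomial in
theorem isGalois_clL : IsGalois (clK q F Kv) (clL q F L Kv Lw) := by
  obtain ⟨T, hT₁, hT₂⟩ := IsGalois.is_separable_splitting_field F L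
  set T' := T.map (algebraMap F (clK q F Kv)) with hT'
  have hsplL : (T.map (algebraMap F L)).Splits := IsSplittingField.splits L T
  have hmap : T'.map (algebraMap (clK q F Kv) Lw) = T.map (algebraMap F Lw) := by
    rw [hT', Polynomial.map_map, ← IsScalarTower.algebraMap_eq]
  have hsplLw : (T'.map (algebraMap (clK q F Kv) Lw)).Splits := by
    rw [hmap, IsScalarTower.algebraMap_eq F L Lw, ← Polynomial.map_map]
    exact hsplL.map _
  have hroot : T'.rootSet Lw = T.rootSet Lw := by
    rw [rootSet, aroots, hmap]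
    rfl
  have hrange : (Set.range (algebraMap L Lw) : Set Lw) =
      ↑(Algebra.adjoin F (T.rootSet Lw)) := by
    rw [IsSplittingField.adjoin_rootSet_eq_range L T (IsScalarTower.toAlgHom F L Lw)]
    rfl
  have key : clL q F L Kv Lw = IntermediateField.adjoin (clK q F Kv) (T'.rootSet Lw) := by
    apply le_antisymm
    · rw [clL, IntermediateField.adjoin_le_iff, hrange, hroot]
      intro z hz
      have h : Algebra.adjoin F (T.rootSet Lw) ≤
          (IntermediateField.adjoin (clK q F Kv) (T.rootSet Lw)).toSubalgebra.restrictScalars F :=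
        Algebra.adjoin_le (IntermediateField.subset_adjoin _ _)
      exact h hz
    · rw [IntermediateField.adjoin_le_iff, hroot]
      intro z hz
      apply IntermediateField.subset_adjoin
      rw [hrange]
      exact Algebra.subset_adjoin hz
  haveI : T'.IsSplittingField (clK q F Kv) (clL q F L Kv Lw) := by
    rw [key]
    exact IntermediateField.adjoin_rootSet_isSplittingField hsplLw
  exact IsGalois.of_separable_splitting_field (p := T') hT₁.map

end galois

section datum

variable [FiniteDimensional ℚ_[q] Kv] [FiniteDimensional Kv Lw] [FiniteDimensional F L]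
  [IsGalois F L]

attribute [local instance] finite_clK_Lw isGalois_clL

/-- The closure datum: the `q`-adic closures of the images of `F` and `L`. -/
noncomputable def clDatum : LocDatum q F L where
  Kv := clK q F Kv
  Lw := clL q F L Kv Lw
  fieldKv := inferInstance
  fieldLw := inferInstance
  algQK := inferInstance
  finQK := inferInstance
  algQL := inferInstance
  algKL := inferInstance
  towerQKL := inferInstance
  finKL := inferInstance
  galKL := isGalois_clL q F L Kv Lw
  algFK := algFclK q F Kv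
  algLL := algLclL q F L Kv Lw
  algFL := inferInstance
  towerFLL := towerFLclL q F L Kv Lw
  towerFKL := inferInstance
  denseK := denseK_clK q F Kv
  denseL := denseL_clL q F L Kv Lw

theorem loc_clDatum (x : H2 (Rep.ofAlgebraAutOnUnits F L)) :
    (locH F L Kv Lw 2).hom x =
      (locH (clK q F Kv) (clL q F L Kv Lw) Kv Lw 2).hom ((clDatum q F L Kv Lw).loc x) := by
  rw [locH_comp' F L (clK q F Kv) (clL q F L Kv Lw) Kv Lw 2]
  rfl

end datum

end Closure

/-- **R-RES**: restriction of a local datum along a square of fields. -/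
theorem exists_restrict (q : ℕ) [Fact q.Prime] (F L M L' : Type) [Field F] [Field L] [Field M]
    [Field L'] [Algebra F L] [FiniteDimensional F L] [IsGalois F L] [Algebra M L']
    [FiniteDimensional M L'] [IsGalois M L']
    [Algebra F M] [Algebra L L'] [Algebra F L'] [IsScalarTower F L L'] [IsScalarTower F M L']
    (E : LocDatum q M L') :
    ∃ (D : LocDatum q F L) (_ : Algebra D.Kv E.Kv) (_ : Algebra D.Lw E.Lw)
      (_ : Algebra D.Kv E.Lw) (_ : IsScalarTower D.Kv D.Lw E.Lw)
      (_ : IsScalarTower D.Kv E.Kv E.Lw) (_ : IsScalarTower ℚ_[q] D.Kv E.Kv)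
      (_ : FiniteDimensional D.Kv E.Kv),
      (∀ a : F, algebraMap D.Kv E.Kv (algebraMap F D.Kv a) =
        algebraMap M E.Kv (algebraMap F M a)) ∧
      (∀ a : L, algebraMap D.Lw E.Lw (algebraMap L D.Lw a) =
        algebraMap L' E.Lw (algebraMap L L' a)) ∧
      (∀ a : F, 0 < ordT q D.Kv (algebraMap F D.Kv a) ↔
        0 < ordT q E.Kv (algebraMap M E.Kv (algebraMap F M a))) ∧
      ∀ x : H2 (Rep.ofAlgebraAutOnUnits F L),
        E.loc ((locH F L M L' 2).hom x) = (locH D.Kv D.Lw E.Kv E.Lw 2).hom (D.loc x) := by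
  letI aFK : Algebra F E.Kv := ((algebraMap M E.Kv).comp (algebraMap F M)).toAlgebra
  letI aLL : Algebra L E.Lw := ((algebraMap L' E.Lw).comp (algebraMap L L')).toAlgebra
  letI aFL : Algebra F E.Lw := ((algebraMap L' E.Lw).comp (algebraMap F L')).toAlgebra
  haveI t1 : IsScalarTower F L E.Lw := IsScalarTower.of_algebraMap_eq (fun a => by
    change algebraMap L' E.Lw (algebraMap F L' a) =
      algebraMap L' E.Lw (algebraMap L L' (algebraMap F L a))
    rw [← IsScalarTower.algebraMap_apply F L L'])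
  haveI t2 : IsScalarTower F E.Kv E.Lw := IsScalarTower.of_algebraMap_eq (fun a => by
    change algebraMap L' E.Lw (algebraMap F L' a) =
      algebraMap E.Kv E.Lw (algebraMap M E.Kv (algebraMap F M a))
    rw [← IsScalarTower.algebraMap_apply M E.Kv E.Lw, IsScalarTower.algebraMap_apply M L' E.Lw,
      ← IsScalarTower.algebraMap_apply F M L'])
  haveI t4 : IsScalarTower L L' E.Lw := IsScalarTower.of_algebraMap_eq (fun _ => rfl)
  haveI t6 : FiniteDimensional (clK q F E.Kv) E.Lw := finite_clK_Lw q F E.Kv E.Lw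
  refine ⟨clDatum q F L E.Kv E.Lw,
    (inferInstance : Algebra (clK q F E.Kv) E.Kv),
    (inferInstance : Algebra (clL q F L E.Kv E.Lw) E.Lw),
    (inferInstance : Algebra (clK q F E.Kv) E.Lw),
    (inferInstance : IsScalarTower (clK q F E.Kv) (clL q F L E.Kv E.Lw) E.Lw),
    (inferInstance : IsScalarTower (clK q F E.Kv) E.Kv E.Lw),
    (inferInstance : IsScalarTower ℚ_[q] (clK q F E.Kv) E.Kv),
    (inferInstance : FiniteDimensional (clK q F E.Kv) E.Kv), ?_, ?_, ?_, ?_⟩
  · intro a
    rfl
  · intro a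
    rfl
  · intro a
    exact (helper7.ordT_algebraMap_pos_iff q (clK q F E.Kv) E.Kv
      (@algebraMap F (clK q F E.Kv) _ _ (algFclK q F E.Kv) a)).symm
  · intro x
    have h1 : E.loc ((locH F L M L' 2).hom x) = (locH F L E.Kv E.Lw 2).hom x := by
      rw [locH_comp' F L M L' E.Kv E.Lw 2]
      rfl
    rw [h1]
    exact loc_clDatum q F L E.Kv E.Lw x

end Fermat.Agent.S55.helper56
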