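import Fermat.Agent.S55.helper71_ShapiroAbs
import Fermat.Agent.S55.helper97_SemiLocBridge
import Fermat.Agent.S55.helper56_RecRes
import Fermat.Agent.S55.helper15_RecExist
import Fermat.Agent.S55.helper60_RecHasse

/-!
# S55 / REC1 R-SL (helper11): semilocal Shapiro in cocycle form

`B = ℚ_q ⊗ L`, `G = Gal(L/F)`.  For a maximal ideal `n` of `B` the residue field `B ⧸ n` with
the closure `clK` of the image of `F` is a local datum `resDatum` of `L/F`; the stabiliser of
`n` acts on `B ⧸ n` over `clK`.  Together with the abstract Shapiro lemma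
(`helper71.isMulCoboundary₂_of_forall_maximal`) this gives R-SL (`helper60.HypSL`).
-/

set_option autoImplicit false
set_option linter.style.haveILetI false

open CategoryTheory groupCohomology
open scoped TensorProduct NumberField Pointwise

namespace Fermat.Agent.S55.helper11

open Fermat.Agent.S55.helper8 Fermat.Agent.S55.helper73 Fermat.Agent.S55.helper97

section Cob

/-- If the localisation of the class of a 2-cocycle vanishes, the localised cocycle is an
explicit coboundary. -/
theorem exists_cob_of_locH_eq_zero (F L Kv Lw : Type) [Field F] [Field L] [Field Kv] [Field Lw]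
    [Algebra F L] [Algebra Kv Lw] [Algebra F Kv] [Algebra L Lw] [Algebra F Lw]
    [IsScalarTower F L Lw] [IsScalarTower F Kv Lw] [Normal F L]
    (x : (L ≃ₐ[F] L) × (L ≃ₐ[F] L) → Lˣ) (hx : IsMulCocycle₂ x)
    (h : (locH F L Kv Lw 2).hom
      (H2π (Rep.ofAlgebraAutOnUnits F L) (cocyclesOfIsMulCocycle₂ hx)) = 0) :
    ∃ b : (Lw ≃ₐ[Kv] Lw) → Lwˣ, ∀ τ τ' : Lw ≃ₐ[Kv] Lw,
      τ • b τ' / b (τ * τ') * b τ =
        Units.map (algebraMap L Lw : L →* Lw)
          (x (locHom F L Kv Lw τ, locHom F L Kv Lw τ')) := by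
  have h1 := H2π_comp_map_apply (locHom F L Kv Lw) (locUnits F L Kv Lw)
    (cocyclesOfIsMulCocycle₂ hx)
  rw [locH] at h
  rw [h1, H2π_eq_zero_iff] at h
  obtain ⟨b, hb⟩ := isMulCoboundary₂_of_mem_coboundaries₂ (G := Lw ≃ₐ[Kv] Lw) (M := Lwˣ) _ h
  exact ⟨b, fun τ τ' => (hb τ τ').trans rfl⟩

end Cob

section Residue

variable (q : ℕ) [Fact q.Prime] (F L : Type) [Field F] [NumberField F] [Field L]
  [NumberField L] [Algebra F L] (n : MaximalSpectrum (SemiLoc q L))

/-- The residue field of the semilocal algebra at a maximal ideal. -/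
abbrev ResF : Type := SemiLoc q L ⧸ n.asIdeal

noncomputable instance resFField : Field (ResF q L n) := Ideal.Quotient.field n.asIdeal

/-- `L → B ⧸ n`. -/
noncomputable def resFMapL : L →+* ResF q L n :=
  (Ideal.Quotient.mk n.asIdeal).comp
    ((Algebra.TensorProduct.includeRight : L →ₐ[ℚ] SemiLoc q L) : L →+* SemiLoc q L)

lemma resFMapL_apply (x : L) :
    resFMapL q L n x = Ideal.Quotient.mk n.asIdeal ((1 : ℚ_[q]) ⊗ₜ[ℚ] x) := rfl

noncomputable instance resFAlgL : Algebra L (ResF q L n) := (resFMapL q L n).toAlgebra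

noncomputable instance resFAlgF : Algebra F (ResF q L n) :=
  ((resFMapL q L n).comp (algebraMap F L)).toAlgebra

instance resFTower : IsScalarTower F L (ResF q L n) :=
  IsScalarTower.of_algebraMap_eq fun _ => rfl

lemma algebraMap_L_resF (x : L) :
    algebraMap L (ResF q L n) x = Ideal.Quotient.mk n.asIdeal ((1 : ℚ_[q]) ⊗ₜ[ℚ] x) := rfl

lemma algebraMap_Q_resF (a : ℚ_[q]) :
    algebraMap ℚ_[q] (ResF q L n) a = Ideal.Quotient.mk n.asIdeal (a ⊗ₜ[ℚ] (1 : L)) := rfl

instance resFFinite : FiniteDimensional ℚ_[q] (ResF q L n) := inferInstance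

/-- `L` generates the residue field over `ℚ_q`. -/
lemma adjoin_range_resF :
    Algebra.adjoin ℚ_[q] (Set.range (algebraMap L (ResF q L n))) = ⊤ := by
  rw [eq_top_iff]
  rintro y -
  obtain ⟨b, rfl⟩ := Ideal.Quotient.mk_surjective y
  induction b using TensorProduct.induction_on with
  | zero => simp
  | tmul a x =>
    have h : (a ⊗ₜ[ℚ] x : SemiLoc q L) = a • ((1 : ℚ_[q]) ⊗ₜ[ℚ] x) := by
      rw [TensorProduct.smul_tmul', smul_eq_mul, mul_one]
    rw [h]
    have h2 : Ideal.Quotient.mk n.asIdeal (a • ((1 : ℚ_[q]) ⊗ₜ[ℚ] x)) =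
        a • algebraMap L (ResF q L n) x := rfl
    rw [h2]
    exact Subalgebra.smul_mem _ (Algebra.subset_adjoin (Set.mem_range_self x)) a
  | add b b' hb hb' =>
    rw [map_add]
    exact add_mem hb hb'

section Datum

variable [IsGalois F L]

/-- The closure of `F` in the residue field. -/
noncomputable abbrev resK : IntermediateField ℚ_[q] (ResF q L n) :=
  helper56.clK q F (ResF q L n)

noncomputable instance resKAlgF : Algebra F (resK q F L n) := helper56.algFclK q F (ResF q L n)

instance resKTower : IsScalarTower F (resK q F L n) (ResF q L n) :=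
  IsScalarTower.of_algebraMap_eq fun _ => rfl

lemma resF_isGalois : IsGalois (resK q F L n) (ResF q L n) :=
  helper15.isGalois_of_dense (k := ℚ_[q]) (F := F) (L := L) (Kv := resK q F L n)
    (Lw := ResF q L n) (adjoin_range_resF q L n)

/-- The local datum of `L/F` at the maximal ideal `n` of `ℚ_q ⊗ L`. -/
noncomputable def resDatum : LocDatum q F L where
  Kv := resK q F L n
  Lw := ResF q L n
  fieldKv := inferInstance
  fieldLw := inferInstance
  algQK := inferInstance
  finQK := inferInstance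
  algQL := inferInstance
  algKL := inferInstance
  towerQKL := inferInstance
  finKL := inferInstance
  galKL := resF_isGalois q F L n
  algFK := resKAlgF q F L n
  algLL := resFAlgL q L n
  algFL := resFAlgF q F L n
  towerFLL := resFTower q F L n
  towerFKL := resKTower q F L n
  denseK := helper56.denseK_clK q F (ResF q L n)
  denseL := adjoin_range_resF q L n

end Datum

section Stab

variable {q F L n}

lemma smul_asIdeal_eq (h : L ≃ₐ[F] L) (hh : h • n = n) :
    n.asIdeal = n.asIdeal.map ((galSemiLocAut q L F h : SemiLoc q L ≃ₐ[ℚ_[q]] SemiLoc q L) :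
      SemiLoc q L →+* SemiLoc q L) := by
  have h1 : (h • n).asIdeal = n.asIdeal := congrArg MaximalSpectrum.asIdeal hh
  rw [asIdeal_smul, Ideal.pointwise_smul_def] at h1
  exact h1.symm

/-- The automorphism of the residue field induced by an element of the stabiliser (over
`ℚ_q`). -/
noncomputable def stabAutQ (h : L ≃ₐ[F] L) (hh : h • n = n) :
    ResF q L n ≃ₐ[ℚ_[q]] ResF q L n :=
  Ideal.quotientEquivAlg n.asIdeal n.asIdeal (galSemiLocAut q L F h) (smul_asIdeal_eq h hh)

lemma stabAutQ_mk (h : L ≃ₐ[F] L) (hh : h • n = n) (y : SemiLoc q L) :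
    stabAutQ h hh (Ideal.Quotient.mk n.asIdeal y) = Ideal.Quotient.mk n.asIdeal (h • y) :=
  rfl

lemma stabAutQ_algebraMap_F (h : L ≃ₐ[F] L) (hh : h • n = n) (a : F) :
    stabAutQ h hh (algebraMap F (ResF q L n) a) = algebraMap F (ResF q L n) a := by
  change stabAutQ h hh (Ideal.Quotient.mk n.asIdeal ((1 : ℚ_[q]) ⊗ₜ[ℚ] (algebraMap F L a))) = _
  rw [stabAutQ_mk, smul_tmul', h.commutes]
  rfl

lemma stabAutQ_resK (h : L ≃ₐ[F] L) (hh : h • n = n) (y : ResF q L n)
    (hy : y ∈ resK q F L n) : stabAutQ h hh y = y := by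
  have hy' : y ∈ (helper56.clK q F (ResF q L n)).toSubalgebra := hy
  rw [helper56.clK_toSubalgebra] at hy'
  clear hy
  induction hy' using Algebra.adjoin_induction with
  | mem z hz =>
    obtain ⟨a, rfl⟩ := hz
    exact stabAutQ_algebraMap_F h hh a
  | algebraMap r => exact (stabAutQ h hh).commutes r
  | add a b _ _ ha hb => rw [map_add, ha, hb]
  | mul a b _ _ ha hb => rw [map_mul, ha, hb]

variable [IsGalois F L]

/-- The automorphism of the residue field over the closure of `F` induced by an element of the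
stabiliser. -/
noncomputable def stabAut (h : L ≃ₐ[F] L) (hh : h • n = n) :
    ResF q L n ≃ₐ[resK q F L n] ResF q L n :=
  { (stabAutQ h hh).toRingEquiv with
    commutes' := fun y => stabAutQ_resK h hh (y : ResF q L n) y.2 }

lemma stabAut_mk (h : L ≃ₐ[F] L) (hh : h • n = n) (y : SemiLoc q L) :
    stabAut h hh (Ideal.Quotient.mk n.asIdeal y) = Ideal.Quotient.mk n.asIdeal (h • y) :=
  rfl

lemma locHom_stabAut (h : L ≃ₐ[F] L) (hh : h • n = n) :
    locHom F L (resK q F L n) (ResF q L n) (stabAut h hh) = h := by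
  ext x
  apply (algebraMap L (ResF q L n)).injective
  rw [algebraMap_locHom]
  change stabAut h hh (Ideal.Quotient.mk n.asIdeal ((1 : ℚ_[q]) ⊗ₜ[ℚ] x)) = _
  rw [stabAut_mk, smul_tmul']
  rfl

lemma stabAut_mul (h h' : L ≃ₐ[F] L) (hh : h • n = n) (hh' : h' • n = n)
    (hhh' : (h * h') • n = n) :
    stabAut (h * h') hhh' = stabAut h hh * stabAut h' hh' := by
  ext y
  obtain ⟨b, rfl⟩ := Ideal.Quotient.mk_surjective y
  rw [AlgEquiv.mul_apply, stabAut_mk, stabAut_mk, stabAut_mk, mul_smul]

end Stab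

section Beta

variable [IsGalois F L]

/-- The local primitive at a maximal ideal, from local triviality at the residue datum. -/
theorem exists_beta (x : (L ≃ₐ[F] L) × (L ≃ₐ[F] L) → Lˣ) (hx : IsMulCocycle₂ x)
    (hloc : ∀ D : LocDatum q F L, D.loc (helper60.classOf x hx) = 0) :
    ∃ β : (L ≃ₐ[F] L) → SemiLoc q L, (∀ h, h • n = n → β h ∉ n.asIdeal) ∧
      ∀ h h' : L ≃ₐ[F] L, h • n = n → h' • n = n →
        ((1 : ℚ_[q]) ⊗ₜ[ℚ] ((x (h, h') : Lˣ) : L)) * β (h * h') - h • β h' * β h
          ∈ n.asIdeal := by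
  classical
  have h0 : (locH F L (resK q F L n) (ResF q L n) 2).hom
      (H2π (Rep.ofAlgebraAutOnUnits F L) (cocyclesOfIsMulCocycle₂ hx)) = 0 :=
    hloc (resDatum q F L n)
  obtain ⟨b, hb⟩ := exists_cob_of_locH_eq_zero F L (resK q F L n) (ResF q L n) x hx h0
  have hlift : ∀ h : L ≃ₐ[F] L, ∃ y : SemiLoc q L, ∀ hh : h • n = n,
      Ideal.Quotient.mk n.asIdeal y = (b (stabAut h hh) : ResF q L n) := by
    intro h
    by_cases hh : h • n = n
    · obtain ⟨y, hy⟩ := Ideal.Quotient.mk_surjective (b (stabAut h hh) : ResF q L n)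
      exact ⟨y, fun _ => hy⟩
    · exact ⟨1, fun hh' => absurd hh' hh⟩
  choose β hβ using hlift
  refine ⟨β, ?_, ?_⟩
  · intro h hh hmem
    have h1 := hβ h hh
    rw [Ideal.Quotient.eq_zero_iff_mem.mpr hmem] at h1
    exact (b (stabAut h hh)).ne_zero h1.symm
  · intro h h' hh hh'
    have hhh' : (h * h') • n = n := by rw [mul_smul, hh', hh]
    have h1 : Ideal.Quotient.mk n.asIdeal (h • β h') =
        stabAut h hh (b (stabAut h' hh') : ResF q L n) := by
      rw [← hβ h' hh', stabAut_mk]
    have h2 := hb (stabAut h hh) (stabAut h' hh')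
    rw [locHom_stabAut, locHom_stabAut, ← stabAut_mul h h' hh hh' hhh'] at h2
    have h3 := congrArg (fun u : (ResF q L n)ˣ => (u : ResF q L n)) h2
    simp only [Units.val_mul, Units.val_div_eq_div_val, Units.coe_map] at h3
    have h4 : ((stabAut h hh • b (stabAut h' hh') : (ResF q L n)ˣ) : ResF q L n) =
        stabAut h hh (b (stabAut h' hh') : ResF q L n) := rfl
    rw [h4] at h3
    have hne : ((b (stabAut (h * h') hhh') : (ResF q L n)ˣ) : ResF q L n) ≠ 0 :=
      (b (stabAut (h * h') hhh')).ne_zero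
    rw [← Ideal.Quotient.eq_zero_iff_mem, map_sub, map_mul, map_mul, hβ _ hhh', hβ h hh, h1,
      sub_eq_zero]
    have h5 : Ideal.Quotient.mk n.asIdeal ((1 : ℚ_[q]) ⊗ₜ[ℚ] ((x (h, h') : Lˣ) : L)) =
        algebraMap L (ResF q L n) ((x (h, h') : Lˣ) : L) := rfl
    rw [h5]
    have h6 : (algebraMap L (ResF q L n) : L →* ResF q L n) ((x (h, h') : Lˣ) : L) =
        algebraMap L (ResF q L n) ((x (h, h') : Lˣ) : L) := rfl
    rw [h6] at h3
    rw [← h3]
    field_simp

end Beta

end Residue

section Final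

/-- **R-SL**: semilocal Shapiro in cocycle form. -/
theorem hypSL : helper60.HypSL := by
  intro q F L _ _ _ _ _ _ x hx hloc
  have hP : ∀ (g : L ≃ₐ[F] L) (u : Lˣ), principalPi L (g • u) q = g • principalPi L u q :=
    fun g u => (congrFun (smul_principalPi L F g u) q).symm
  have hc : IsMulCocycle₂ (fun g : (L ≃ₐ[F] L) × (L ≃ₐ[F] L) => principalPi L (x g) q) := by
    intro g h j
    have h1 := congrArg (fun u : Lˣ => principalPi L u q) (hx g h j)
    simp only [map_mul, Pi.mul_apply, hP] at h1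
    exact h1
  exact helper71.isMulCoboundary₂_of_forall_maximal (B := SemiLoc (q : ℕ) L)
    (G := L ≃ₐ[F] L) (fun _ _ => rfl) hc
    (fun n => exists_beta (q : ℕ) F L n x hx hloc)

end Final

end Fermat.Agent.S55.helper11
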