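import Fermat.Agent.S14.Defs

/-!
# S55 / REC1, package R-ARTSUM (helper30, task 317)

The Artin symbol of a principal ideal as a sum over primes: if `artinMap F M (a) = 1` and the
Frobenius at `w` is `σ ^ k w`, then `orderOf σ ∣ ∑ w, k w * ord_w a`.

Main declarations (namespace `Fermat.Agent.S55.helper30`):
* `artinMap_eq_prod` : `artinMap` of a nonzero ideal as a product over a finset of primes;
* `artin_sum` : the exact statement of `helper11_Rec1Interface` (v1.2), theorem `artin_sum`.
-/

set_option autoImplicit false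

open scoped NumberField nonZeroDivisors IsMulCommutative
open IsDedekindDomain

namespace Fermat.Agent.S55.helper30

open Fermat.Agent.S14

/-- The exponent of `w` in the factorisation of `(a)` read off from the valuation. -/
theorem count_eq_of_valuation {F : Type*} [Field F] [NumberField F]
    (w : HeightOneSpectrum (𝓞 F)) (a : 𝓞 F) (ha : a ≠ 0) (e : ℕ)
    (he : w.valuation F (a : F) = WithZero.exp (-(e : ℤ))) :
    Multiset.count w.asIdeal
      (UniqueFactorizationMonoid.normalizedFactors (Ideal.span {a} : Ideal (𝓞 F))) = e := by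
  classical
  have hI : (Ideal.span {a} : Ideal (𝓞 F)) ≠ 0 := by
    simpa [Ideal.span_singleton_eq_bot] using ha
  have h1 : w.valuation F (a : F) = w.intValuation a :=
    HeightOneSpectrum.valuation_of_algebraMap w a
  rw [h1, HeightOneSpectrum.intValuation_if_neg w ha] at he
  have h2 := WithZero.exp_injective he
  have h3 : ((Associates.mk w.asIdeal).count (Associates.mk (Ideal.span {a})).factors : ℤ) = e := by
    linarith
  have h4 := Ideal.count_associates_factors_eq hI w.isPrime w.ne_bot
  rw [← h4]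
  exact_mod_cast h3

/-- `artinMap` of a nonzero principal ideal `(a)` as a product over any finset `S` of primes
containing all primes dividing `a`. -/
theorem artinMap_span_eq_prod (F M : Type*) [Field F] [NumberField F] [Field M] [NumberField M]
    [Algebra F M] [IsAbelianGalois F M]
    (S : Finset (HeightOneSpectrum (𝓞 F))) (a : 𝓞 F)
    (hS : ∀ w : HeightOneSpectrum (𝓞 F), a ∈ w.asIdeal → w ∈ S)
    (𝔞 : (Ideal (𝓞 F))⁰) (h𝔞 : (𝔞 : Ideal (𝓞 F)) = Ideal.span {a}) :
    artinMap F M 𝔞 = ∏ w ∈ S, frobAt F M w.asIdeal ^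
      Multiset.count w.asIdeal
        (UniqueFactorizationMonoid.normalizedFactors (Ideal.span {a} : Ideal (𝓞 F))) := by
  classical
  rw [artinMap_apply, h𝔞, Finset.prod_multiset_map_count]
  have hinj : Set.InjOn (fun w : HeightOneSpectrum (𝓞 F) => w.asIdeal) (S : Set _) :=
    fun v _ w _ h => HeightOneSpectrum.ext h
  rw [← Finset.prod_image (s := S) (g := fun w : HeightOneSpectrum (𝓞 F) => w.asIdeal)
    (f := fun P : Ideal (𝓞 F) => frobAt F M P ^
      Multiset.count P (UniqueFactorizationMonoid.normalizedFactors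
        (Ideal.span {a} : Ideal (𝓞 F)))) hinj]
  apply Finset.prod_subset
  · intro P hP
    rw [Multiset.mem_toFinset] at hP
    have hprime : Prime P := UniqueFactorizationMonoid.prime_of_normalized_factor P hP
    have hdvd : P ∣ Ideal.span {a} := UniqueFactorizationMonoid.dvd_of_mem_normalizedFactors hP
    have hP0 : P ≠ ⊥ := hprime.ne_zero
    have hPp : P.IsPrime := Ideal.isPrime_of_prime hprime
    have haP : a ∈ P := by
      have := Ideal.le_of_dvd hdvd
      exact this (Ideal.mem_span_singleton_self a)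
    rw [Finset.mem_image]
    exact ⟨⟨P, hPp, hP0⟩, hS ⟨P, hPp, hP0⟩ haP, rfl⟩
  · intro P _ hP
    rw [Multiset.mem_toFinset] at hP
    rw [Multiset.count_eq_zero_of_notMem hP, pow_zero]

/-- **R-ARTSUM** (exact statement of `helper11_Rec1Interface`, v1.2). -/
theorem artin_sum (F M : Type) [Field F] [NumberField F] [Field M] [NumberField M]
    [Algebra F M] [IsAbelianGalois F M] (σ : Gal(M/F))
    (k e : HeightOneSpectrum (𝓞 F) → ℕ) (S : Finset (HeightOneSpectrum (𝓞 F)))
    (a : 𝓞 F) (ha : a ≠ 0) (hS : ∀ w : HeightOneSpectrum (𝓞 F), a ∈ w.asIdeal → w ∈ S)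
    (hk : ∀ w ∈ S, frobAt F M w.asIdeal = σ ^ k w)
    (he : ∀ w : HeightOneSpectrum (𝓞 F), w.valuation F (a : F) = WithZero.exp (-(e w : ℤ)))
    (hart : artinMap F M ⟨Ideal.span {a}, mem_nonZeroDivisors_of_ne_zero
      (by simpa [Ideal.span_singleton_eq_bot] using ha)⟩ = 1) :
    (orderOf σ : ℤ) ∣ ∑ w ∈ S, (k w : ℤ) * (e w : ℤ) := by
  classical
  rw [artinMap_span_eq_prod F M S a hS _ rfl] at hart
  have h1 : ∏ w ∈ S, frobAt F M w.asIdeal ^
      Multiset.count w.asIdeal
        (UniqueFactorizationMonoid.normalizedFactors (Ideal.span {a} : Ideal (𝓞 F))) =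
      σ ^ ∑ w ∈ S, k w * e w := by
    rw [← Finset.prod_pow_eq_pow_sum]
    refine Finset.prod_congr rfl fun w hw => ?_
    rw [hk w hw, count_eq_of_valuation w a ha (e w) (he w), ← pow_mul]
  rw [h1] at hart
  have h2 : orderOf σ ∣ ∑ w ∈ S, k w * e w := orderOf_dvd_of_pow_eq_one hart
  exact_mod_cast Int.natCast_dvd_natCast.mpr h2

end Fermat.Agent.S55.helper30
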