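import Mathlib
import Fermat.Agent.S55.helper11_RecDefs
import Fermat.Agent.S55.helper31_CyclicClass

/-!
# S55 / REC1-CYC2 (helper82): localisation of a global cyclic class

`M/F` a finite cyclic Galois extension with generator `σ`, `D` a local datum with
`Gal(D.Lw/D.Kv)` generated by `φ`, and `locHom φ = σ ^ (u * ([M:F] / [Lw:Kv]))`.  Then the
localisation of the cyclic class `(χ_σ, c)` is `u • (χ_φ, c)`.

Main results:
* `cyc2_locHom_injective` : `locHom` of a local datum is injective (density);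
* `loc_cyclicClass` : the statement of the REC1 interface (verbatim).
-/

set_option autoImplicit false

open CategoryTheory groupCohomology

namespace Fermat.Agent.S55.helper82

open Fermat.Agent.S55.helper8 Fermat.Agent.S55.helper11 Fermat.Agent.S55.helper31

section arith

theorem cyc2_div_add (N a b : ℕ) (hN : 0 < N) :
    (a + b) / N = a / N + b / N + (a % N + b % N) / N := by
  conv_lhs => rw [← Nat.mod_add_div a N, ← Nat.mod_add_div b N]
  rw [show a % N + N * (a / N) + (b % N + N * (b / N))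
    = (a % N + b % N) + N * (a / N + b / N) by ring, Nat.add_mul_div_left _ _ hN]
  ring

/-- The exponent identity behind `loc_cyclicClass`. -/
theorem cyc2_floor_identity (N u i j : ℕ) (hN : 0 < N) :
    ((u * i) % N + (u * j) % N) / N + ((u * i) / N + (u * j) / N)
      = u * ((i + j) / N) + (u * ((i + j) % N)) / N := by
  have h1 : (u * (i + j)) / N = (u * i) / N + (u * j) / N + ((u * i) % N + (u * j) % N) / N := by
    rw [mul_add]
    exact cyc2_div_add N _ _ hN
  have h2 : (u * (i + j)) / N = u * ((i + j) / N) + (u * ((i + j) % N)) / N := by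
    conv_lhs => rw [← Nat.mod_add_div (i + j) N]
    rw [show u * ((i + j) % N + N * ((i + j) / N))
      = u * ((i + j) % N) + N * (u * ((i + j) / N)) by ring, Nat.add_mul_div_left _ _ hN]
    ring
  omega

end arith

section inj

variable {q : ℕ} [Fact q.Prime] {F M : Type} [Field F] [Field M] [Algebra F M] [Normal F M]

/-- `locHom` of a local datum is injective: an automorphism of `D.Lw` over `D.Kv` fixing the
image of `M` is the identity, because that image generates `D.Lw` over `ℚ_[q]`. -/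
theorem cyc2_locHom_injective (D : LocDatum q F M) :
    Function.Injective (locHom F M D.Kv D.Lw) := by
  rw [injective_iff_map_eq_one]
  intro τ hτ
  have h1 : ∀ x : M, τ (algebraMap M D.Lw x) = algebraMap M D.Lw x := by
    intro x
    rw [← algebraMap_locHom F M D.Kv D.Lw τ x, hτ]
    rfl
  have h2 : (τ.toAlgHom).restrictScalars ℚ_[q] = AlgHom.id ℚ_[q] D.Lw := by
    apply AlgHom.ext_of_adjoin_eq_top D.denseL
    rintro _ ⟨x, rfl⟩
    exact h1 x
  ext y
  exact DFunLike.congr_fun h2 y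

end inj

section general

variable (F L Kv Lw : Type) [Field F] [Field L] [Field Kv] [Field Lw]
  [Algebra F L] [Algebra Kv Lw] [Algebra F Kv] [Algebra L Lw] [Algebra F Lw]
  [IsScalarTower F L Lw] [IsScalarTower F Kv Lw] [Normal F L]

/-- Localisation of the class of a 2-cocycle, computed on cocycles: if the localised cocycle
`z₁ ∘ locHom` and `z₂ ^ u` differ by the coboundary of `x`, then `loc [z₁] = u • [z₂]`. -/
theorem cyc2_locH_H2π_eq (z₁ : cocycles₂ (Rep.ofAlgebraAutOnUnits F L))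
    (z₂ : cocycles₂ (Rep.ofAlgebraAutOnUnits Kv Lw)) (u : ℕ)
    (x : (Lw ≃ₐ[Kv] Lw) → Lwˣ)
    (hx : ∀ g h : Lw ≃ₐ[Kv] Lw, g • x h / x (g * h) * x g =
      Units.map (algebraMap L Lw : L →* Lw)
          (Additive.toMul (α := Lˣ) (z₁ (locHom F L Kv Lw g, locHom F L Kv Lw h)))
        / (Additive.toMul (α := Lwˣ) (z₂ (g, h))) ^ u) :
    (locH F L Kv Lw 2).hom (H2π (Rep.ofAlgebraAutOnUnits F L) z₁)
      = u • H2π (Rep.ofAlgebraAutOnUnits Kv Lw) z₂ := by
  have h := H2π_comp_map_apply (locHom F L Kv Lw) (locUnits F L Kv Lw) z₁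
  rw [locH]
  refine h.trans ?_
  rw [← map_nsmul]
  refine (H2π_eq_iff _ _).2 ?_
  refine ⟨fun g => Additive.ofMul (x g), ?_⟩
  funext ⟨g, h⟩
  exact congrArg Additive.ofMul (hx g h)

end general

section main

/-- **R-CYC2** (VERBATIM statement of `helper11.Interface.loc_cyclicClass`): localisation of a
global cyclic class. -/
theorem loc_cyclicClass (q : ℕ) [Fact q.Prime] (F M : Type) [Field F] [Field M] [Algebra F M]
    [FiniteDimensional F M] [IsGalois F M] (D : LocDatum q F M)
    (σ : M ≃ₐ[F] M) (hσ : ∀ τ : M ≃ₐ[F] M, τ ∈ Subgroup.zpowers σ)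
    (φ : D.Lw ≃ₐ[D.Kv] D.Lw) (hφ : ∀ τ : D.Lw ≃ₐ[D.Kv] D.Lw, τ ∈ Subgroup.zpowers φ)
    (u : ℕ)
    (hu : locHom F M D.Kv D.Lw φ =
      σ ^ (u * (Module.finrank F M / Module.finrank D.Kv D.Lw))) (c : Fˣ) :
    D.loc (cyclicClass F M σ c) =
      u • cyclicClass D.Kv D.Lw φ (Units.map (algebraMap F D.Kv : F →* D.Kv) c) := by
  classical
  -- orders
  have hn : orderOf σ = Module.finrank F M := by
    rw [orderOf_eq_card_of_forall_mem_zpowers hσ, IsGalois.card_aut_eq_finrank]
  have hN : orderOf φ = Module.finrank D.Kv D.Lw := by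
    rw [orderOf_eq_card_of_forall_mem_zpowers hφ, IsGalois.card_aut_eq_finrank]
  have hNpos : 0 < orderOf φ := orderOf_pos φ
  have hnpos : 0 < orderOf σ := orderOf_pos σ
  have hdvd : orderOf φ ∣ orderOf σ := by
    rw [← orderOf_injective (locHom F M D.Kv D.Lw) (cyc2_locHom_injective D) φ, hn,
      ← IsGalois.card_aut_eq_finrank]
    exact orderOf_dvd_natCard _
  set m := orderOf σ / orderOf φ with hm
  have hnm : orderOf σ = m * orderOf φ := (Nat.div_mul_cancel hdvd).symm
  rw [← hn, ← hN, ← hm] at hu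
  have hmpos : 0 < m := by
    rcases Nat.eq_zero_or_pos m with h0 | h0
    · rw [h0, zero_mul] at hnm; omega
    · exact h0
  -- dlog of the image
  have hdlog : ∀ h : D.Lw ≃ₐ[D.Kv] D.Lw,
      dlogAut F M σ (locHom F M D.Kv D.Lw h)
        = m * ((u * dlogAut D.Kv D.Lw φ h) % orderOf φ) := by
    intro h
    conv_lhs => rw [← pow_dlogAut (hφ h), map_pow, hu, ← pow_mul, dlogAut_pow, hnm]
    rw [show u * m * dlogAut D.Kv D.Lw φ h = m * (u * dlogAut D.Kv D.Lw φ h) by ring,
      Nat.mul_mod_mul_left]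
  -- the image of `c` in `Lw`
  set cK : D.Kvˣ := Units.map (algebraMap F D.Kv : F →* D.Kv) c with hcK
  set cL : D.Lwˣ := Units.map (algebraMap D.Kv D.Lw : D.Kv →* D.Lw) cK with hcL
  have hcL' : Units.map (algebraMap M D.Lw : M →* D.Lw)
      (Units.map (algebraMap F M : F →* M) c) = cL := by
    ext
    simp only [hcL, hcK, Units.coe_map, MonoidHom.coe_coe]
    rw [← IsScalarTower.algebraMap_apply F M D.Lw, ← IsScalarTower.algebraMap_apply F D.Kv D.Lw]
  rw [cyclicClass_eq σ hσ c, cyclicClass_eq φ hφ cK]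
  refine cyc2_locH_H2π_eq F M D.Kv D.Lw
    (cocyclesOfIsMulCocycle₂ (isMulCocycle₂_cyclicCochain σ hσ c))
    (cocyclesOfIsMulCocycle₂ (isMulCocycle₂_cyclicCochain φ hφ cK)) u
    (fun h => cL ^ (-((u * dlogAut D.Kv D.Lw φ h / orderOf φ : ℕ) : ℤ))) ?_
  intro g h
  show _ = Units.map (algebraMap M D.Lw : M →* D.Lw)
      (cyclicCochain F M σ c (locHom F M D.Kv D.Lw g, locHom F M D.Kv D.Lw h))
    / (cyclicCochain D.Kv D.Lw φ cK (g, h)) ^ u
  simp only [cyclicCochain]
  rw [map_pow, hcL', hdlog g, hdlog h, ← mul_add, hnm, Nat.mul_div_mul_left _ _ hmpos]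
  have hfix : g • cL = cL := smul_algebraMap_unit g cK
  rw [← hcL, smul_zpow', hfix, dlogAut_mul φ g h (hφ g) (hφ h)]
  simp only [← zpow_natCast, ← zpow_mul, div_eq_mul_inv, ← zpow_neg, ← zpow_add]
  congr 1
  have key := cyc2_floor_identity (orderOf φ) u (dlogAut D.Kv D.Lw φ g) (dlogAut D.Kv D.Lw φ h)
    hNpos
  have key' : ((((u * dlogAut D.Kv D.Lw φ g) % orderOf φ + (u * dlogAut D.Kv D.Lw φ h) % orderOf φ)
      / orderOf φ : ℕ) : ℤ) + (((u * dlogAut D.Kv D.Lw φ g) / orderOf φ : ℕ) : ℤ)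
        + (((u * dlogAut D.Kv D.Lw φ h) / orderOf φ : ℕ) : ℤ)
      = (u : ℤ) * (((dlogAut D.Kv D.Lw φ g + dlogAut D.Kv D.Lw φ h) / orderOf φ : ℕ) : ℤ)
        + (((u * ((dlogAut D.Kv D.Lw φ g + dlogAut D.Kv D.Lw φ h) % orderOf φ)) / orderOf φ : ℕ)
          : ℤ) := by
    exact_mod_cast (by rw [add_assoc]; exact key)
  linarith

end main

end Fermat.Agent.S55.helper82
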