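import Fermat.Agent.S55.helper34_RecNormL
import Fermat.Agent.S55.helper82_RecCyc2

/-!
# S55 / REC1-NORML, unconditional (helper34, task 316)

`mem_range_normUnits_of_loc_eq_zero'` is the VERBATIM statement
`helper11.Interface.mem_range_normUnits_of_loc_eq_zero` of the interface (v1.2), obtained from
`helper34.mem_range_normUnits_of_loc_eq_zero` and the landed R-CYC2 (`helper82.loc_cyclicClass`).
-/

set_option autoImplicit false

open CategoryTheory groupCohomology

namespace Fermat.Agent.S55.helper34

open Fermat.Agent.S55.helper8 Fermat.Agent.S55.helper11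

/-- R-CYC2 holds (helper82). -/
theorem locCyclicClassStatement : LocCyclicClassStatement :=
  fun q _ F M _ _ _ _ _ D σ hσ φ hφ u hu c =>
    helper82.loc_cyclicClass q F M D σ hσ φ hφ u hu c

/-- **R-NORML** (VERBATIM interface statement, unconditional): if the localisation at `D` of the
cyclic class `cyclicClass σ c` vanishes, then `c` is a local norm at `D`. -/
theorem mem_range_normUnits_of_loc_eq_zero' (q : ℕ) [Fact q.Prime] (F M : Type) [Field F]
    [Field M] [Algebra F M] [FiniteDimensional F M] [IsGalois F M] (D : LocDatum q F M)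
    (σ : M ≃ₐ[F] M) (hσ : ∀ τ : M ≃ₐ[F] M, τ ∈ Subgroup.zpowers σ) (c : Fˣ)
    (h : D.loc (cyclicClass F M σ c) = 0) :
    Units.map (algebraMap F D.Kv : F →* D.Kv) c ∈ (normUnits D.Kv D.Lw).range :=
  mem_range_normUnits_of_loc_eq_zero q F M locCyclicClassStatement D σ hσ c h

end Fermat.Agent.S55.helper34
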