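import Mathlib

/-!
# S55 / REC1-COMP (helper64): compositum of two Galois extensions of a number field

Two finite Galois extensions `L`, `M` of a number field `F` have a common finite Galois
overfield `L'` (the compositum inside an algebraic closure), Galois over `F`, `L` and `M`.
Exact statement of `exists_compositum` in helper11's REC1 interface.
-/

set_option autoImplicit false
set_option linter.style.haveILetI false

namespace Fermat.Agent.S55.helper64

open IntermediateField

theorem exists_compositum (F L M : Type) [Field F] [NumberField F] [Field L] [NumberField L]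
    [Field M] [NumberField M] [Algebra F L] [Algebra F M] [IsGalois F L] [IsGalois F M] :
    ∃ (L' : Type) (_ : Field L') (_ : NumberField L') (_ : Algebra F L') (_ : Algebra L L')
      (_ : Algebra M L') (_ : IsScalarTower F L L') (_ : IsScalarTower F M L')
      (_ : IsGalois F L'), IsGalois M L' ∧ IsGalois L L' := by
  classical
  haveI : FiniteDimensional F L := Module.Finite.of_restrictScalars_finite ℚ F L
  haveI : FiniteDimensional F M := Module.Finite.of_restrictScalars_finite ℚ F M
  let Ω := AlgebraicClosure F
  let fL : L →ₐ[F] Ω := IsAlgClosed.lift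
  let fM : M →ₐ[F] Ω := IsAlgClosed.lift
  let EL : IntermediateField F Ω := fL.fieldRange
  let EM : IntermediateField F Ω := fM.fieldRange
  let eL : L ≃ₐ[F] EL := AlgEquiv.ofInjectiveField fL
  let eM : M ≃ₐ[F] EM := AlgEquiv.ofInjectiveField fM
  haveI : IsGalois F EL := IsGalois.of_algEquiv eL
  haveI : IsGalois F EM := IsGalois.of_algEquiv eM
  haveI : FiniteDimensional F EL := eL.toLinearEquiv.finiteDimensional
  haveI : FiniteDimensional F EM := eM.toLinearEquiv.finiteDimensional
  let E : IntermediateField F Ω := EL ⊔ EM
  haveI : FiniteDimensional F E := IntermediateField.finiteDimensional_sup EL EM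
  haveI : Normal F E := inferInstanceAs (Normal F (EL ⊔ EM : IntermediateField F Ω))
  haveI : Algebra.IsSeparable F E :=
    inferInstanceAs (Algebra.IsSeparable F (EL ⊔ EM : IntermediateField F Ω))
  haveI : IsGalois F E := ⟨⟩
  have hL : ∀ x : L, fL x ∈ E := fun x =>
    (le_sup_left : EL ≤ E) (AlgHom.mem_fieldRange.mpr ⟨x, rfl⟩)
  have hM : ∀ x : M, fM x ∈ E := fun x =>
    (le_sup_right : EM ≤ E) (AlgHom.mem_fieldRange.mpr ⟨x, rfl⟩)
  let gL : L →ₐ[F] E := fL.codRestrict E.toSubalgebra hL
  let gM : M →ₐ[F] E := fM.codRestrict E.toSubalgebra hM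
  letI aL : Algebra L E := gL.toRingHom.toAlgebra
  letI aM : Algebra M E := gM.toRingHom.toAlgebra
  haveI tL : IsScalarTower F L E := IsScalarTower.of_algebraMap_eq fun x => (gL.commutes x).symm
  haveI tM : IsScalarTower F M E := IsScalarTower.of_algebraMap_eq fun x => (gM.commutes x).symm
  haveI : NumberField E := NumberField.of_module_finite F E
  exact ⟨E, inferInstance, inferInstance, inferInstance, aL, aM, tL, tM, inferInstance,
    IsGalois.tower_top_of_isGalois F M E, IsGalois.tower_top_of_isGalois F L E⟩

end Fermat.Agent.S55.helper64
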