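import Fermat.Agent.S14.Defs
import Fermat.Agent.S55.helper11_RecDefs

/-!
# S55 / REC1-TAME (helper64): invariant of a localised cyclic class at an unramified place

`inv_loc_cyclicClass_unram_of`: the invariant of the localisation of the global cyclic class
`cyclicClass F M σ c` at a local datum `D` over an unramified place `w`, where
`frobAt w = σ ^ k` and `w(c) = exp (-e)`, is `k * e / [M : F]` in `ℚ/ℤ`.

The statement is the one of `inv_loc_cyclicClass_unram` in helper11's REC1 interface (v1.2),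
with the inputs from the packages R-DEC (`unram_locDatum`, `valuation_eq_exp_neg_ord`,
`locHom_injective`) and R-CYC2 (`loc_cyclicClass`) as explicit hypotheses, each in the exact
instantiated shape of the conclusion of the corresponding interface theorem.
-/

set_option autoImplicit false
set_option linter.style.haveILetI false

open CategoryTheory groupCohomology
open scoped NumberField nonZeroDivisors
open IsDedekindDomain

namespace Fermat.Agent.S55.helper64

open Fermat.Agent.S14 Fermat.Agent.S55.helper8 Fermat.Agent.S55.helper11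

/-- order of a generator of the Galois group of a finite Galois extension -/
lemma orderOf_eq_finrank_of_generates {K L : Type} [Field K] [Field L] [Algebra K L]
    [FiniteDimensional K L] [IsGalois K L] (φ : L ≃ₐ[K] L)
    (hφ : ∀ τ : L ≃ₐ[K] L, τ ∈ Subgroup.zpowers φ) : orderOf φ = Module.finrank K L := by
  rw [orderOf_eq_card_of_forall_mem_zpowers hφ, IsGalois.card_aut_eq_finrank]

/-- elementary arithmetic: if `n / gcd n k = m` then `k = (k / (n / m)) * (n / m)`. -/
lemma arith_aux {n k m : ℕ} (hn : 0 < n) (h : n / Nat.gcd n k = m) :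
    n / m = Nat.gcd n k ∧ k / (n / m) * (n / m) = k ∧ m * (n / m) = n := by
  have hg : 0 < Nat.gcd n k := Nat.gcd_pos_of_pos_left k hn
  have hdvd : Nat.gcd n k ∣ n := Nat.gcd_dvd_left n k
  have h1 : n / m = Nat.gcd n k := by
    rw [← h]
    exact Nat.div_div_self hdvd hn.ne'
  refine ⟨h1, ?_, ?_⟩
  · rw [h1]; exact Nat.div_mul_cancel (Nat.gcd_dvd_right n k)
  · rw [h1, ← h]; exact Nat.div_mul_cancel hdvd

theorem inv_loc_cyclicClass_unram_of (I : LocInv) (q : ℕ) [Fact q.Prime] (F M : Type) [Field F]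
    [NumberField F] [Field M] [NumberField M] [Algebra F M] [IsAbelianGalois F M]
    (D : LocDatum q F M) (w : HeightOneSpectrum (𝓞 F))
    (σ : Gal(M/F)) (hσ : ∀ τ : Gal(M/F), τ ∈ Subgroup.zpowers σ)
    (k : ℕ) (hk : frobAt F M w.asIdeal = σ ^ k) (c : Fˣ) (e : ℤ)
    (he : w.valuation F (c : F) = WithZero.exp (-e))
    (hDEC : IsUnram q D.Kv D.Lw ∧ ∃ φ : D.Lw ≃ₐ[D.Kv] D.Lw, IsFrob q D.Kv D.Lw φ ∧
      (∀ τ : D.Lw ≃ₐ[D.Kv] D.Lw, τ ∈ Subgroup.zpowers φ) ∧
      locHom F M D.Kv D.Lw φ = frobAt F M w.asIdeal)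
    (hVAL : w.valuation F (c : F) =
      WithZero.exp (-(ord q D.Kv (Units.map (algebraMap F D.Kv : F →* D.Kv) c))))
    (hINJ : Function.Injective (locHom F M D.Kv D.Lw))
    (hCYC : ∀ φ : D.Lw ≃ₐ[D.Kv] D.Lw, (∀ τ : D.Lw ≃ₐ[D.Kv] D.Lw, τ ∈ Subgroup.zpowers φ) →
      ∀ u : ℕ, locHom F M D.Kv D.Lw φ =
          σ ^ (u * (Module.finrank F M / Module.finrank D.Kv D.Lw)) →
        D.loc (cyclicClass F M σ c) =
          u • cyclicClass D.Kv D.Lw φ (Units.map (algebraMap F D.Kv : F →* D.Kv) c)) :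
    I.inv q D.Kv D.Lw (D.loc (cyclicClass F M σ c)) =
      ((((k : ℚ) * (e : ℚ) / (Module.finrank F M : ℚ) : ℚ)) : QZ) := by
  obtain ⟨hunr, φ, hφF, hφgen, hφloc⟩ := hDEC
  haveI : FiniteDimensional F M := Module.Finite.of_restrictScalars_finite ℚ F M
  set n := Module.finrank F M with hn
  set m := Module.finrank D.Kv D.Lw with hm
  have hnpos : 0 < n := Module.finrank_pos
  have hoσ : orderOf σ = n := orderOf_eq_finrank_of_generates σ hσ
  have hoφ : orderOf φ = m := orderOf_eq_finrank_of_generates φ hφgen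
  have hord : n / Nat.gcd n k = m := by
    have h1 : orderOf (locHom F M D.Kv D.Lw φ) = orderOf φ := orderOf_injective _ hINJ φ
    rw [hφloc, hk, orderOf_pow, hoσ, hoφ] at h1
    exact h1
  obtain ⟨hd, hku, hmn⟩ := arith_aux hnpos hord
  have hmpos : 0 < m := by
    rcases Nat.eq_zero_or_pos m with h0 | h0
    · rw [h0, zero_mul] at hmn; omega
    · exact h0
  have hdpos : 0 < n / m := by
    rw [hd]; exact Nat.gcd_pos_of_pos_left k hnpos
  have hu : locHom F M D.Kv D.Lw φ = σ ^ (k / (n / m) * (n / m)) := by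
    rw [hku, hφloc, hk]
  rw [hCYC φ hφgen (k / (n / m)) hu, map_nsmul, I.unram q D.Kv D.Lw hunr φ hφF]
  have hee : ord q D.Kv (Units.map (algebraMap F D.Kv : F →* D.Kv) c) = e := by
    have := he.symm.trans hVAL
    have h2 := WithZero.exp_injective this
    linarith
  rw [hee, ← AddCircle.coe_nsmul]
  congr 1
  -- rational arithmetic
  have hkQ : (k : ℚ) = ((k / (n / m) : ℕ) : ℚ) * ((n / m : ℕ) : ℚ) := by
    exact_mod_cast hku.symm
  have hnQ : (n : ℚ) = (m : ℚ) * ((n / m : ℕ) : ℚ) := by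
    exact_mod_cast hmn.symm
  have hm0 : (m : ℚ) ≠ 0 := by exact_mod_cast hmpos.ne'
  have hd0 : ((n / m : ℕ) : ℚ) ≠ 0 := by exact_mod_cast hdpos.ne'
  have hmm : (Module.finrank D.Kv D.Lw : ℚ) = (m : ℚ) := by rw [hm]
  rw [nsmul_eq_mul, hmm, hkQ, hnQ]
  field_simp

end Fermat.Agent.S55.helper64
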