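import Fermat.Agent.S14.helper12_ArtinNorm
import Fermat.Agent.S14.helper12_ArtinFunct
import Fermat.Agent.S55.helper11_RecDefs

/-!
# S55 / REC1 R-DEG (helper71, task 313): local degree at an unramified place

* `locHom_injective_of_adjoin` : `locHom F L Kv Lw` is injective as soon as the image of `L`
  generates `Lw` as an algebra over a base ring `R` of `Kv` (generic fields, no valuation);
* `adjoin_eq_top_of_base`, `normal_of_adjoin` : if `M/F` is normal and `Kw` is generated by the
  image of `M` then `Kw/Kv` is normal;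
* `HypUnramLocDatum` : the verbatim statement of R-DEC `unram_locDatum`, as a `Prop`;
* `finrank_eq_orderOf_frobAt_of` : the interface statement of R-DEG, conditional on
  `HypUnramLocDatum` only.
-/

set_option autoImplicit false
set_option linter.unusedSectionVars false
set_option linter.style.haveILetI false

open scoped NumberField
open IsDedekindDomain

namespace Fermat.Agent.S55.helper71

open Fermat.Agent.S14 Fermat.Agent.S55.helper8 Fermat.Agent.S55.helper11

/-- R-DEC `unram_locDatum` (verbatim interface statement), as a hypothesis. -/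
def HypUnramLocDatum : Prop :=
  ∀ (q : ℕ) [Fact q.Prime] (F M : Type) [Field F] [NumberField F] [Field M]
    [NumberField M] [Algebra F M] [IsAbelianGalois F M] (D : LocDatum q F M)
    (v : HeightOneSpectrum (𝓞 F)) (_ : D.AtPlace v)
    (_ : ∀ P : Ideal (𝓞 M), P.IsPrime → P.under (𝓞 F) = v.asIdeal →
      ∀ σ : Gal(M/F), (∀ x : 𝓞 M, σ • x - x ∈ P) → σ = 1),
    IsUnram q D.Kv D.Lw ∧ ∃ φ : D.Lw ≃ₐ[D.Kv] D.Lw, IsFrob q D.Kv D.Lw φ ∧
      (∀ τ : D.Lw ≃ₐ[D.Kv] D.Lw, τ ∈ Subgroup.zpowers φ) ∧
      locHom F M D.Kv D.Lw φ = frobAt F M v.asIdeal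

section Generic

variable (R F L Kv Lw : Type) [CommRing R] [Field F] [Field L] [Field Kv] [Field Lw]
  [Algebra F L] [Algebra Kv Lw] [Algebra F Kv] [Algebra L Lw] [Algebra F Lw]
  [IsScalarTower F L Lw] [IsScalarTower F Kv Lw] [Normal F L]
  [Algebra R Kv] [Algebra R Lw] [IsScalarTower R Kv Lw]

/-- an automorphism of `Lw/Kv` restricting to the identity of `L` is the identity as soon as
the image of `L` generates `Lw` over a base ring of `Kv` -/
theorem locHom_injective_of_adjoin
    (h : Algebra.adjoin R (Set.range (algebraMap L Lw)) = ⊤) :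
    Function.Injective (locHom F L Kv Lw) := by
  rw [injective_iff_map_eq_one]
  intro σ hσ
  have h1 : ∀ x : L, σ (algebraMap L Lw x) = algebraMap L Lw x := by
    intro x
    rw [← algebraMap_locHom F L Kv Lw σ x, hσ]
    rfl
  have h2 : (σ.restrictScalars R : Lw →ₐ[R] Lw) = AlgHom.id R Lw := by
    apply AlgHom.ext_of_adjoin_eq_top h
    rintro _ ⟨x, rfl⟩
    exact h1 x
  ext y
  have := congrArg (fun f : Lw →ₐ[R] Lw => f y) h2
  simpa using this

end Generic

section Generic2

variable (R F M Kv Kw : Type) [CommRing R] [Field F] [Field M] [Field Kv] [Field Kw]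
  [Algebra F M] [Algebra Kv Kw] [Algebra F Kv] [Algebra M Kw] [Algebra F Kw]
  [IsScalarTower F M Kw] [IsScalarTower F Kv Kw] [Normal F M]
  [Algebra R Kv] [Algebra R Kw] [IsScalarTower R Kv Kw]

theorem adjoin_eq_top_of_base (S : Set Kw) (h : Algebra.adjoin R S = ⊤) :
    Algebra.adjoin Kv S = ⊤ := by
  rw [eq_top_iff]
  intro y _
  have hy : y ∈ Algebra.adjoin R S := by rw [h]; exact Algebra.mem_top
  induction hy using Algebra.adjoin_induction with
  | mem x hx => exact Algebra.subset_adjoin hx
  | algebraMap r =>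
    rw [IsScalarTower.algebraMap_apply R Kv Kw]
    exact Subalgebra.algebraMap_mem _ _
  | add x y _ _ hx hy => exact Subalgebra.add_mem _ (hx trivial) (hy trivial)
  | mul x y _ _ hx hy => exact Subalgebra.mul_mem _ (hx trivial) (hy trivial)

include F in
/-- if `M/F` is normal, `Kw/Kv` is algebraic and `Kw` is generated by the image of `M`, then
`Kw/Kv` is normal -/
theorem normal_of_adjoin [Algebra.IsAlgebraic Kv Kw]
    (h : Algebra.adjoin R (Set.range (algebraMap M Kw)) = ⊤) : Normal Kv Kw := by
  have htop : IntermediateField.adjoin Kv (Set.range (algebraMap M Kw)) = ⊤ :=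
    IntermediateField.adjoin_eq_top_of_algebra _ _ (adjoin_eq_top_of_base R Kv Kw _ h)
  rw [normal_iff]
  intro y
  refine ⟨Algebra.IsIntegral.isIntegral y, ?_⟩
  have hy : y ∈ IntermediateField.adjoin Kv (Set.range (algebraMap M Kw)) := by
    rw [htop]; exact IntermediateField.mem_top
  refine IntermediateField.splits_of_mem_adjoin Kv Kw ?_ hy
  rintro _ ⟨m, rfl⟩
  refine ⟨Algebra.IsIntegral.isIntegral _, ?_⟩
  have hm : IsIntegral F m := (Normal.isIntegral ‹Normal F M› m)
  have h1 : minpoly Kv (algebraMap M Kw m) ∣ (minpoly F m).map (algebraMap F Kv) := by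
    apply minpoly.dvd
    rw [Polynomial.aeval_map_algebraMap, Polynomial.aeval_algebraMap_apply, minpoly.aeval,
      map_zero]
  have h2 : ((minpoly F m).map (algebraMap F Kv)).map (algebraMap Kv Kw)
      = ((minpoly F m).map (algebraMap F M)).map (algebraMap M Kw) := by
    rw [Polynomial.map_map, Polynomial.map_map, ← IsScalarTower.algebraMap_eq,
      ← IsScalarTower.algebraMap_eq]
  have h3 : (((minpoly F m).map (algebraMap F Kv)).map (algebraMap Kv Kw)).Splits := by
    rw [h2]
    exact (Normal.splits ‹Normal F M› m).map _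
  refine h3.of_dvd ?_ (Polynomial.map_dvd _ h1)
  exact Polynomial.map_ne_zero (Polynomial.map_ne_zero (minpoly.ne_zero hm))

end Generic2

section Main

/-- **R-DEG** (conditional on R-DEC `unram_locDatum`): the local degree of an abelian extension
`M/F` at an unramified place is the order of the Frobenius. -/
theorem finrank_eq_orderOf_frobAt_of (hU : HypUnramLocDatum)
    (q : ℕ) [Fact q.Prime] (F M : Type) [Field F] [NumberField F]
    [Field M] [NumberField M] [Algebra F M] [IsAbelianGalois F M]
    (L L' : Type) [Field L] [Field L'] [Algebra F L] [Algebra M L']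
    (D : LocDatum q F L) (E : LocDatum q M L')
    [Algebra D.Kv E.Kv] [IsScalarTower ℚ_[q] D.Kv E.Kv] [FiniteDimensional D.Kv E.Kv]
    (hcompat : ∀ a : F, algebraMap D.Kv E.Kv (algebraMap F D.Kv a) =
      algebraMap M E.Kv (algebraMap F M a))
    (w : HeightOneSpectrum (𝓞 F)) (hw : D.AtPlace w)
    (hunr : ∀ P : Ideal (𝓞 M), P.IsPrime → P.under (𝓞 F) = w.asIdeal →
      ∀ σ : Gal(M/F), (∀ x : 𝓞 M, σ • x - x ∈ P) → σ = 1) :
    Module.finrank D.Kv E.Kv = orderOf (frobAt F M w.asIdeal) := by
  classical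
  letI algFE : Algebra F E.Kv := ((algebraMap M E.Kv).comp (algebraMap F M)).toAlgebra
  haveI t1 : IsScalarTower F M E.Kv := IsScalarTower.of_algebraMap_eq (fun _ => rfl)
  haveI t2 : IsScalarTower F D.Kv E.Kv :=
    IsScalarTower.of_algebraMap_eq (fun a => (hcompat a).symm)
  haveI : CharZero D.Kv := charZero_of_injective_algebraMap (algebraMap ℚ_[q] D.Kv).injective
  haveI hnormal : Normal D.Kv E.Kv := normal_of_adjoin ℚ_[q] F M D.Kv E.Kv E.denseK
  haveI hgal : IsGalois D.Kv E.Kv := ⟨⟩
  let D' : LocDatum q F M :=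
    { Kv := D.Kv
      Lw := E.Kv
      denseK := D.denseK
      denseL := E.denseK }
  obtain ⟨-, φ, -, hφgen, hφ⟩ := hU q F M D' w hw hunr
  have hinj : Function.Injective (locHom F M D.Kv E.Kv) :=
    locHom_injective_of_adjoin ℚ_[q] F M D.Kv E.Kv E.denseK
  have h1 : orderOf (locHom F M D.Kv E.Kv φ) = orderOf φ := orderOf_injective _ hinj φ
  have h2 : orderOf φ = Nat.card (E.Kv ≃ₐ[D.Kv] E.Kv) :=
    orderOf_eq_card_of_forall_mem_zpowers hφgen
  have h3 : Nat.card (E.Kv ≃ₐ[D.Kv] E.Kv) = Module.finrank D.Kv E.Kv :=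
    IsGalois.card_aut_eq_finrank D.Kv E.Kv
  rw [← h3, ← h2, ← h1]
  exact congrArg orderOf hφ

end Main

end Fermat.Agent.S55.helper71
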