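import Fermat.Agent.S55.helper72_RecExt
import Fermat.Agent.S55.helper11_Rec1Hyps

/-!
# S55 / REC1 (helper72): discharge of the hypothesis `HypExt` of the REC1 assembly
-/

set_option autoImplicit false

namespace Fermat.Agent.S55.helper72

/-- `HypExt` (R-EXT) holds. -/
theorem hypExt : Fermat.Agent.S55.helper11.HypExt := by
  intro q _ F L L' _ _ _ _ _ _ _ _ _ _ D
  exact exists_extend q F L L' D

end Fermat.Agent.S55.helper72
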