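import Fermat.Agent.S55.helper84_Transport
import Fermat.Agent.S55.helper11_LocGlob

/-!
# S55 / REC1 (helper84, task 292): R-INF, inflation–restriction in the `locH` vocabulary

For a tower `F ⊆ M ⊆ L'` with `L'/F` finite Galois and `M/F` Galois:
a class `y ∈ H²(Gal(L'/F), L'ˣ)` whose restriction to `Gal(L'/M)` vanishes is inflated
from `H²(Gal(M/F), Mˣ)`.

* `galKer F M L'` : the normal subgroup `Gal(L'/M)` of `Gal(L'/F)` (kernel of restriction to `M`);
* `resSideIso`, `locH_res_eq` : `locH F L' M L' n` is the restriction map to `galKer`;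
* `infSideIso`, `locH_inf_eq` : `locH F M F L' n` is the inflation map from the quotient;
* `exists_inf_of_res_eq_zero_of` : R-INF, conditional on FG2.b (`InfResTwoExact`).
-/

set_option autoImplicit false
set_option linter.unusedSectionVars false

open CategoryTheory CategoryTheory.Limits groupCohomology Rep

namespace Fermat.Agent.S55.helper84

open Fermat.Agent.S55.helper11

section RecInf

variable (F M L' : Type) [Field F] [Field M] [Field L'] [Algebra F M]
    [Algebra M L'] [Algebra F L'] [IsScalarTower F M L'] [FiniteDimensional F L']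
    [IsGalois F M] [IsGalois F L']

/-- The subgroup `Gal(L'/M)` of `Gal(L'/F)`, as the kernel of the restriction to `M`. -/
noncomputable def galKer : Subgroup (L' ≃ₐ[F] L') :=
  (AlgEquiv.restrictNormalHom M : (L' ≃ₐ[F] L') →* (M ≃ₐ[F] M)).ker

instance : (galKer F M L').Normal := MonoidHom.normal_ker _

theorem mem_galKer_iff (g : L' ≃ₐ[F] L') :
    g ∈ galKer F M L' ↔ ∀ m : M, g (algebraMap M L' m) = algebraMap M L' m := by
  unfold galKer
  rw [MonoidHom.mem_ker]
  constructor
  · intro h m
    have := AlgEquiv.restrictNormal_commutes g M m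
    rw [← this]
    have h2 : g.restrictNormal M = 1 := h
    rw [h2]
    rfl
  · intro h
    apply AlgEquiv.ext
    intro m
    apply (algebraMap M L').injective
    exact (AlgEquiv.restrictNormal_commutes g M m).trans (h m)

theorem locHom_res_apply (σ : L' ≃ₐ[M] L') (x : L') :
    locHom F L' M L' σ x = σ x :=
  algebraMap_locHom F L' M L' σ x

theorem locHom_res_mem (σ : L' ≃ₐ[M] L') : locHom F L' M L' σ ∈ galKer F M L' := by
  rw [mem_galKer_iff]
  intro m
  rw [locHom_res_apply]
  exact σ.commutes m

/-- `Gal(L'/M) ≃ galKer`. -/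
noncomputable def galKerEquiv : (L' ≃ₐ[M] L') ≃* galKer F M L' :=
  MulEquiv.ofBijective
    ((locHom F L' M L').codRestrict (galKer F M L') (locHom_res_mem F M L'))
    ⟨by
      intro σ τ h
      apply AlgEquiv.ext
      intro x
      have := congrArg (fun g : galKer F M L' => g.1 x) h
      simpa [locHom_res_apply] using this,
     by
      intro g
      refine ⟨{ g.1.toRingEquiv with commutes' := (mem_galKer_iff F M L' g.1).mp g.2 }, ?_⟩
      apply Subtype.ext
      apply AlgEquiv.ext
      intro x
      exact locHom_res_apply F M L' _ x⟩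

theorem galKerEquiv_coe (σ : L' ≃ₐ[M] L') :
    ((galKerEquiv F M L' σ : galKer F M L') : L' ≃ₐ[F] L') = locHom F L' M L' σ := rfl

end RecInf

end Fermat.Agent.S55.helper84

namespace Fermat.Agent.S55.helper84

open Fermat.Agent.S55.helper11

section RecInf2

variable (F M L' : Type) [Field F] [Field M] [Field L'] [Algebra F M]
    [Algebra M L'] [Algebra F L'] [IsScalarTower F M L'] [FiniteDimensional F L']
    [IsGalois F M] [IsGalois F L']

/-- `Hⁿ(Gal(L'/M), L'ˣ) ≅ Hⁿ(galKer, L'ˣ)`. -/
noncomputable def resSideIso (n : ℕ) :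
    groupCohomology (Rep.ofAlgebraAutOnUnits M L') n ≅
      groupCohomology (res (galKer F M L').subtype (Rep.ofAlgebraAutOnUnits F L')) n :=
  groupCohomology.mapIso (galKerEquiv F M L') (LinearEquiv.refl ℤ _)
    (fun σ => by
      ext x
      apply Additive.toMul.injective
      apply Units.ext
      exact (locHom_res_apply F M L' σ _).symm) n

theorem locH_res_eq (n : ℕ) :
    locH F L' M L' n =
      (groupCohomology.map (galKer F M L').subtype (𝟙 _) n :
        groupCohomology (Rep.ofAlgebraAutOnUnits F L') n ⟶
          groupCohomology (res (galKer F M L').subtype (Rep.ofAlgebraAutOnUnits F L')) n) ≫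
        (resSideIso F M L' n).inv := by
  unfold locH
  change _ = groupCohomology.map _ _ n ≫ groupCohomology.map _ _ n
  rw [← groupCohomology.map_comp]
  apply groupCohomology.map_congr
  · rfl
  · ext x
    rfl

end RecInf2

end Fermat.Agent.S55.helper84

namespace Fermat.Agent.S55.helper84

open Fermat.Agent.S55.helper11

section RecInf3

variable (F M L' : Type) [Field F] [Field M] [Field L'] [Algebra F M]
    [Algebra M L'] [Algebra F L'] [IsScalarTower F M L'] [FiniteDimensional F L']
    [IsGalois F M] [IsGalois F L']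

/-- `Gal(L'/F) ⧸ Gal(L'/M) ≃ Gal(M/F)`. -/
noncomputable def galQuotEquiv : (L' ≃ₐ[F] L') ⧸ galKer F M L' ≃* (M ≃ₐ[F] M) :=
  QuotientGroup.quotientKerEquivOfSurjective
    (AlgEquiv.restrictNormalHom M : (L' ≃ₐ[F] L') →* (M ≃ₐ[F] M))
    (AlgEquiv.restrictNormalHom_surjective L')

theorem galQuotEquiv_mk (g : L' ≃ₐ[F] L') :
    galQuotEquiv F M L' (QuotientGroup.mk g) = AlgEquiv.restrictNormalHom M g := rfl

/-- An element of `L'` fixed by `Gal(L'/M)` lies in `M`. -/
theorem mem_range_of_fixed (x : L') (hx : ∀ g ∈ galKer F M L', g x = x) :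
    ∃ m : M, algebraMap M L' m = x := by
  let E : IntermediateField F L' := (IsScalarTower.toAlgHom F M L').fieldRange
  have hE : E.fixingSubgroup = galKer F M L' := by
    ext g
    rw [IntermediateField.mem_fixingSubgroup_iff, mem_galKer_iff]
    constructor
    · intro h m
      exact h _ ⟨m, rfl⟩
    · rintro h _ ⟨m, rfl⟩
      exact h m
  have hx' : x ∈ IntermediateField.fixedField E.fixingSubgroup := by
    intro g
    exact hx g.1 (hE ▸ g.2)
  rw [IsGalois.fixedField_fixingSubgroup] at hx'
  obtain ⟨m, hm⟩ := hx'
  exact ⟨m, hm⟩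

/-- `Mˣ → (L'ˣ)^{Gal(L'/M)}`. -/
noncomputable def unitsToInvariants :
    Additive Mˣ →+
      ↥(Representation.invariants
        ((Rep.ofAlgebraAutOnUnits F L').ρ.comp (galKer F M L').subtype)) where
  toFun m := ⟨Additive.ofMul (Units.map (algebraMap M L' : M →* L') (Additive.toMul m)),
    fun g => by
      apply Additive.toMul.injective
      apply Units.ext
      exact (mem_galKer_iff F M L' g.1).mp g.2 _⟩
  map_zero' := by
    apply Subtype.ext
    apply Additive.toMul.injective
    apply Units.ext
    exact map_one (algebraMap M L')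
  map_add' x y := by
    apply Subtype.ext
    apply Additive.toMul.injective
    apply Units.ext
    exact map_mul (algebraMap M L') _ _

theorem unitsToInvariants_coe (m : Additive Mˣ) :
    ((Additive.toMul (unitsToInvariants F M L' m).1 : L'ˣ) : L') =
      algebraMap M L' ((Additive.toMul m : Mˣ) : M) := rfl

theorem unitsToInvariants_bijective : Function.Bijective (unitsToInvariants F M L') := by
  constructor
  · intro a b h
    apply Additive.toMul.injective
    apply Units.ext
    apply (algebraMap M L').injective
    have := congrArg (fun z => ((Additive.toMul z.1 : L'ˣ) : L')) h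
    exact this
  · intro x
    have hfix : ∀ g ∈ galKer F M L', g ((Additive.toMul x.1 : L'ˣ) : L') =
        ((Additive.toMul x.1 : L'ˣ) : L') := by
      intro g hg
      exact congrArg (fun y : Additive L'ˣ => ((Additive.toMul y : L'ˣ) : L')) (x.2 ⟨g, hg⟩)
    obtain ⟨m, hm⟩ := mem_range_of_fixed F M L' _ hfix
    have hm0 : m ≠ 0 := by
      rintro rfl
      rw [map_zero] at hm
      exact (Additive.toMul x.1 : L'ˣ).ne_zero hm.symm
    refine ⟨Additive.ofMul (Units.mk0 m hm0), ?_⟩
    apply Subtype.ext
    apply Additive.toMul.injective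
    apply Units.ext
    exact hm

/-- `(L'ˣ)^{Gal(L'/M)} ≃ Mˣ`. -/
noncomputable def invariantsEquivUnits :
    ↥(Representation.invariants
        ((Rep.ofAlgebraAutOnUnits F L').ρ.comp (galKer F M L').subtype)) ≃ₗ[ℤ] Additive Mˣ :=
  (AddEquiv.ofBijective (unitsToInvariants F M L')
    (unitsToInvariants_bijective F M L')).symm.toIntLinearEquiv

theorem invariantsEquivUnits_symm_coe (m : Additive Mˣ) :
    ((Additive.toMul ((invariantsEquivUnits F M L').symm m).1 : L'ˣ) : L') =
      algebraMap M L' ((Additive.toMul m : Mˣ) : M) := rfl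

theorem algebraMap_invariantsEquivUnits (x) :
    algebraMap M L' ((Additive.toMul (invariantsEquivUnits F M L' x) : Mˣ) : M) =
      ((Additive.toMul x.1 : L'ˣ) : L') := by
  have h := invariantsEquivUnits_symm_coe F M L' (invariantsEquivUnits F M L' x)
  rw [LinearEquiv.symm_apply_apply] at h
  exact h.symm

end RecInf3

end Fermat.Agent.S55.helper84

namespace Fermat.Agent.S55.helper84

open Fermat.Agent.S55.helper11

section RecInf4

variable (F M L' : Type) [Field F] [Field M] [Field L'] [Algebra F M]
    [Algebra M L'] [Algebra F L'] [IsScalarTower F M L'] [FiniteDimensional F L']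
    [IsGalois F M] [IsGalois F L']

/-- `Hⁿ(Gal(L'/F) ⧸ Gal(L'/M), (L'ˣ)^{Gal(L'/M)}) ≅ Hⁿ(Gal(M/F), Mˣ)`. -/
noncomputable def infSideIso (n : ℕ) :
    groupCohomology ((Rep.ofAlgebraAutOnUnits F L').quotientToInvariants (galKer F M L')) n ≅
      groupCohomology (Rep.ofAlgebraAutOnUnits F M) n :=
  groupCohomology.mapIso (galQuotEquiv F M L') (invariantsEquivUnits F M L')
    (fun g => by
      induction g using QuotientGroup.induction_on with
      | H σ =>
        ext x
        apply Additive.toMul.injective
        apply Units.ext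
        apply (algebraMap M L').injective
        refine (algebraMap_invariantsEquivUnits F M L' _).trans ?_
        refine Eq.trans ?_ (AlgEquiv.restrictNormal_commutes σ M _).symm
        exact congrArg σ (algebraMap_invariantsEquivUnits F M L' x).symm) n

theorem locH_inf_eq (n : ℕ) :
    locH F M F L' n =
      (infSideIso F M L' n).inv ≫
        (groupCohomology.map (QuotientGroup.mk' (galKer F M L'))
          (ofHom <| (Rep.ofAlgebraAutOnUnits F L').ρ.quotientToInvariants_lift
            (galKer F M L')) n :
          groupCohomology ((Rep.ofAlgebraAutOnUnits F L').quotientToInvariants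
            (galKer F M L')) n ⟶ groupCohomology (Rep.ofAlgebraAutOnUnits F L') n) := by
  unfold locH
  change _ = groupCohomology.map _ _ n ≫ groupCohomology.map _ _ n
  refine Eq.trans ?_ (groupCohomology.map_comp _ _ _ _ n)
  apply groupCohomology.map_congr
  · ext g x
    rfl
  · ext x
    rfl

end RecInf4

end Fermat.Agent.S55.helper84

namespace Fermat.Agent.S55.helper84

open Fermat.Agent.S55.helper11

/-- FG2.b (`infH_resH_two_exact`) in the shape of the FG interface (universe `0`). -/
def InfResTwoExact : Prop :=
  ∀ (k G : Type) [CommRing k] [Group G] (S : Subgroup G) [S.Normal] (A : Rep k G),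
    IsZero (groupCohomology (res S.subtype A) 1) →
    Function.Exact
      (groupCohomology.map (QuotientGroup.mk' S) (ofHom <| A.ρ.quotientToInvariants_lift S) 2 :
        groupCohomology (A.quotientToInvariants S) 2 ⟶ groupCohomology A 2)
      (groupCohomology.map S.subtype (𝟙 _) 2 :
        groupCohomology A 2 ⟶ groupCohomology (res S.subtype A) 2)

section RecInf5

variable (F M L' : Type) [Field F] [Field M] [Field L'] [Algebra F M]
    [Algebra M L'] [Algebra F L'] [IsScalarTower F M L'] [FiniteDimensional F L']
    [IsGalois F M] [IsGalois F L']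

/-- R-INF, conditional on FG2.b. -/
theorem exists_inf_of_res_eq_zero_of (hIR : InfResTwoExact)
    (y : H2 (Rep.ofAlgebraAutOnUnits F L'))
    (hy : (locH F L' M L' 2).hom y = 0) :
    ∃ z : H2 (Rep.ofAlgebraAutOnUnits F M), (locH F M F L' 2).hom z = y := by
  have hex := hIR ℤ (L' ≃ₐ[F] L') (galKer F M L') (Rep.ofAlgebraAutOnUnits F L')
    (isZero_H1_res_units F L' (galKer F M L'))
  rw [locH_res_eq] at hy
  have hres : (groupCohomology.map (galKer F M L').subtype (𝟙 _) 2 :
        groupCohomology (Rep.ofAlgebraAutOnUnits F L') 2 ⟶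
          groupCohomology (res (galKer F M L').subtype (Rep.ofAlgebraAutOnUnits F L')) 2) y
      = 0 := by
    have hinj : Function.Injective (resSideIso F M L' 2).inv :=
      (ConcreteCategory.bijective_of_isIso (resSideIso F M L' 2).inv).1
    apply hinj
    rw [map_zero]
    exact hy
  obtain ⟨w, hw⟩ := (hex y).mp hres
  refine ⟨(infSideIso F M L' 2).hom w, ?_⟩
  rw [locH_inf_eq]
  have h1 : (infSideIso F M L' 2).inv ((infSideIso F M L' 2).hom w) = w :=
    ConcreteCategory.congr_hom (infSideIso F M L' 2).hom_inv_id w
  change (groupCohomology.map _ _ 2) ((infSideIso F M L' 2).inv ((infSideIso F M L' 2).hom w)) = y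
  rw [h1]
  exact hw

end RecInf5

end Fermat.Agent.S55.helper84
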