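import Fermat.Agent.S55.helper11_Rec1Main
import Fermat.Agent.S55.helper87_RecN2Wiring
import Fermat.Agent.S55.helper56_RecRes
import Fermat.Agent.S55.helper34_RecNormLFinal
import Fermat.Agent.S55.helper30_RecArtSum
import Fermat.Agent.S55.helper64_RecComp
import Fermat.Agent.S55.helper84_RecInf
import Fermat.Agent.S55.helper61_FG2
import Fermat.Agent.S55.helper15_RecExist
import Fermat.Agent.S55.helper71_RecDeg
import Fermat.Agent.S55.helper64_RecTame
import Fermat.Agent.S55.helper2_RecDec
import Fermat.Agent.S55.helper82_RecCyc2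
import Fermat.Agent.S55.helper60_RecHasse
import Fermat.Agent.S55.helper2_RecUnram
import Fermat.Agent.S55.helper11_RecApxBridge
import Fermat.Agent.S55.helper11_RecSL
import Fermat.Agent.S55.helper72_HypExt

/-!
# S55 / REC1 (helper11): wiring of the landed REC1 packages into the reciprocity law

Each `hyp*` below discharges one hypothesis of `reciprocity_of_inputs_at` by the landed package
theorem.  `reciprocity_pTorsion_of` is the reciprocity law for `p`-torsion classes with the
hypotheses that are not yet on `main` still explicit.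
-/

set_option autoImplicit false

open CategoryTheory groupCohomology
open scoped NumberField nonZeroDivisors
open IsDedekindDomain

namespace Fermat.Agent.S55.helper11

open Fermat.Agent.S14 Fermat.Agent.S55.helper8

/-- N2 for `p`-torsion classes (helper87 + helper15 + helper69). -/
theorem hypAuxAt_one (p : ℕ) [Fact p.Prime] (hp2 : p ≠ 2) : HypAuxAt p 1 := by
  intro F _ _ V T
  obtain ⟨l, M, _, _, _, _, hl, hlT, hcyc, ⟨k, hk⟩, hlV, hunr, hfrob, hart⟩ :=
    helper87.exists_aux_cyclic_uncond p hp2 F V T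
  refine ⟨l, M, inferInstance, inferInstance, inferInstance, inferInstance, hl, hlT, hcyc,
    ⟨k, hk⟩, hlV, hunr, ?_, hart⟩
  intro v hv
  have hp : p.Prime := Fact.out
  have hcard : Nat.card Gal(M/F) = p ^ k := by
    rw [IsGalois.card_aut_eq_finrank, hk]
  have hdvd : orderOf (frobAt F M v.asIdeal) ∣ p ^ k := by
    rw [← hcard]
    exact orderOf_dvd_natCard _
  obtain ⟨j, -, hj⟩ := (Nat.dvd_prime_pow hp).1 hdvd
  rw [pow_one, hj]
  rcases Nat.eq_zero_or_pos j with h0 | h0
  · exfalso
    apply hfrob v hv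
    rw [h0, pow_zero] at hj
    exact orderOf_eq_one_iff.mp hj
  · exact dvd_pow_self p h0.ne'

/-- R-RES (helper56). -/
theorem hypRes : HypRes :=
  fun q _ F L M L' _ _ _ _ _ _ _ _ _ _ _ _ _ _ _ E =>
    helper56.exists_restrict q F L M L' E

/-- R-NORML (helper34 + helper82). -/
theorem hypNormL : HypNormL :=
  fun q _ F M _ _ _ _ _ D σ hσ c h =>
    helper34.mem_range_normUnits_of_loc_eq_zero' q F M D σ hσ c h

/-- R-ARTSUM (helper30). -/
theorem hypArtSum : HypArtSum :=
  fun F M _ _ _ _ _ _ σ k e S a ha hS hk he hart =>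
    helper30.artin_sum F M σ k e S a ha hS hk he hart

/-- R-COMP (helper64). -/
theorem hypComp : HypComp :=
  fun F L M _ _ _ _ _ _ _ _ _ _ => helper64.exists_compositum F L M

/-- R-INF (helper84 + helper61). -/
theorem hypInf : HypInf :=
  fun F M L' _ _ _ _ _ _ _ _ _ _ y hy =>
    helper84.exists_inf_of_res_eq_zero_of F M L'
      (fun k G _ _ S _ A h1 => helper61.infH_resH_two_exact S A h1) y hy

/-- R-EXIST, first half (helper15). -/
theorem hypExist : HypExist :=
  fun F L _ _ _ _ _ _ v => helper15.exists_locDatum F L v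

/-- R-EXIST, second half (helper15). -/
theorem hypPlace : HypPlace :=
  fun q _ F L _ _ _ _ _ _ D => helper15.exists_unique_atPlace q F L D

/-- R-DEG, conditional on R-DEC `unram_locDatum` (helper71). -/
theorem hypDeg_of (hU : helper71.HypUnramLocDatum) : HypDeg :=
  fun q _ F M _ _ _ _ _ _ L L' _ _ _ _ D E _ _ _ hcompat w hw hunr =>
    helper71.finrank_eq_orderOf_frobAt_of hU q F M L L' D E hcompat w hw hunr

/-- R-TAME, conditional on R-DEC `unram_locDatum` (helper64 + helper2 + helper82). -/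
theorem hypTame_of (hU : helper71.HypUnramLocDatum) (I : LocInv) : HypTame I :=
  fun q _ F M _ _ _ _ _ _ D w hw hunr σ hσ k hk c e he =>
    helper64.inv_loc_cyclicClass_unram_of I q F M D w σ hσ k hk c e he (hU q F M D w hw hunr)
      (helper2.valuation_eq_exp_neg_ord q F M D w hw c) (helper2.locHom_injective q F M D)
      (fun φ hφ u hu => helper82.loc_cyclicClass q F M D σ hσ φ hφ u hu c)

/-- R-DEC `unram_locDatum` (helper2). -/
theorem hypUnramLocDatum : helper71.HypUnramLocDatum :=
  fun q _ F M _ _ _ _ _ _ D v hv hunr => helper2.unram_locDatum q F M D v hv hunr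

/-- R-DEG (helper71 + helper2). -/
theorem hypDeg : HypDeg := hypDeg_of hypUnramLocDatum

/-- R-TAME (helper64 + helper2 + helper82). -/
theorem hypTame (I : LocInv) : HypTame I := hypTame_of hypUnramLocDatum I

/-- R-HASSE, conditional on R-SL and GLOB's semilocal Hasse principle (helper60). -/
theorem hassePrinciple_of (p : ℕ) [Fact p.Prime] (hSL : helper60.HypSL)
    (hG : helper60.GlobHasse p) : HassePrinciple p :=
  helper60.hassePrinciple_of_globHasse_of p hypRes hSL hG

/-- **RECIPROCITY LAW for `p`-torsion classes**, `p` odd, with the inputs that are not yet on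
`main` as hypotheses (`LocInv`, Hasse principle, R-EXT, R-DEG, R-TAME, R-APX). -/
theorem reciprocity_pTorsion_of (I : LocInv) (p : ℕ) [Fact p.Prime] (hp2 : p ≠ 2)
    (hH : HassePrinciple p) (hExt : HypExt) (hDeg : HypDeg) (hTame : HypTame I) (hApx : HypApx)
    (F L : Type) [Field F] [NumberField F] [Field L] [NumberField L] [Algebra F L] [IsGalois F L]
    (x : H2 (Rep.ofAlgebraAutOnUnits F L)) (hx : p • x = 0)
    (ι : Type) [Fintype ι] (q : ι → ℕ) [∀ i, Fact (q i).Prime]
    (D : ∀ i, LocDatum (q i) F L) (v : ι → HeightOneSpectrum (𝓞 F))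
    (hv : ∀ i, (D i).AtPlace (v i)) (hinj : Function.Injective v)
    (hsupp : ∀ (r : ℕ) [Fact r.Prime] (E : LocDatum r F L) (w : HeightOneSpectrum (𝓞 F)),
      E.AtPlace w → (∀ i, w ≠ v i) → E.loc x = 0) :
    ∑ i, I.inv (q i) (D i).Kv (D i).Lw ((D i).loc x) = 0 :=
  reciprocity_of_inputs_at I p 1 hH (hypAuxAt_one p hp2) hypRes hExt hypExist hypPlace hDeg
    hypInf hypComp hTame hypNormL hypArtSum hApx F L x (by rw [pow_one]; exact hx) ι q D v hv
    hinj hsupp

/-- **RECIPROCITY LAW for `p`-torsion classes**, `p` odd: current state of the wiring.  Open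
inputs: `LocInv` (LOC-5), R-SL, GLOB's semilocal Hasse principle, R-EXT, R-DEC `unram_locDatum`,
R-APX. -/
theorem reciprocity_pTorsion_of' (I : LocInv) (p : ℕ) [Fact p.Prime] (hp2 : p ≠ 2)
    (hSL : helper60.HypSL) (hG : helper60.GlobHasse p) (hExt : HypExt)
    (hU : helper71.HypUnramLocDatum) (hApx : HypApx)
    (F L : Type) [Field F] [NumberField F] [Field L] [NumberField L] [Algebra F L] [IsGalois F L]
    (x : H2 (Rep.ofAlgebraAutOnUnits F L)) (hx : p • x = 0)
    (ι : Type) [Fintype ι] (q : ι → ℕ) [∀ i, Fact (q i).Prime]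
    (D : ∀ i, LocDatum (q i) F L) (v : ι → HeightOneSpectrum (𝓞 F))
    (hv : ∀ i, (D i).AtPlace (v i)) (hinj : Function.Injective v)
    (hsupp : ∀ (r : ℕ) [Fact r.Prime] (E : LocDatum r F L) (w : HeightOneSpectrum (𝓞 F)),
      E.AtPlace w → (∀ i, w ≠ v i) → E.loc x = 0) :
    ∑ i, I.inv (q i) (D i).Kv (D i).Lw ((D i).loc x) = 0 :=
  reciprocity_pTorsion_of I p hp2 (hassePrinciple_of p hSL hG) hExt (hypDeg_of hU)
    (hypTame_of hU I) hApx F L x hx ι q D v hv hinj hsupp

/-- **RECIPROCITY LAW for `p`-torsion classes**, `p` odd: current state of the wiring.  Open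
inputs: `LocInv` (LOC-5), R-SL, GLOB's semilocal Hasse principle, R-EXT, R-APX. -/
theorem reciprocity_pTorsion_of'' (I : LocInv) (p : ℕ) [Fact p.Prime] (hp2 : p ≠ 2)
    (hSL : helper60.HypSL) (hG : helper60.GlobHasse p) (hExt : HypExt) (hApx : HypApx)
    (F L : Type) [Field F] [NumberField F] [Field L] [NumberField L] [Algebra F L] [IsGalois F L]
    (x : H2 (Rep.ofAlgebraAutOnUnits F L)) (hx : p • x = 0)
    (ι : Type) [Fintype ι] (q : ι → ℕ) [∀ i, Fact (q i).Prime]
    (D : ∀ i, LocDatum (q i) F L) (v : ι → HeightOneSpectrum (𝓞 F))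
    (hv : ∀ i, (D i).AtPlace (v i)) (hinj : Function.Injective v)
    (hsupp : ∀ (r : ℕ) [Fact r.Prime] (E : LocDatum r F L) (w : HeightOneSpectrum (𝓞 F)),
      E.AtPlace w → (∀ i, w ≠ v i) → E.loc x = 0) :
    ∑ i, I.inv (q i) (D i).Kv (D i).Lw ((D i).loc x) = 0 :=
  reciprocity_pTorsion_of' I p hp2 hSL hG hExt hypUnramLocDatum hApx F L x hx ι q D v hv hinj
    hsupp

/-- **RECIPROCITY LAW for `p`-torsion classes**, `p` odd: the `l`-part by R-SL + APX-SL
(no R-APX).  Open inputs: `LocInv` (LOC-5), R-SL, GLOB's semilocal Hasse principle, R-EXT. -/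
theorem reciprocity_pTorsion_SL (I : LocInv) (p : ℕ) [Fact p.Prime] (hp2 : p ≠ 2)
    (hSL : helper60.HypSL) (hG : helper60.GlobHasse p) (hExt : HypExt)
    (F L : Type) [Field F] [NumberField F] [Field L] [NumberField L] [Algebra F L] [IsGalois F L]
    (x : H2 (Rep.ofAlgebraAutOnUnits F L)) (hx : p • x = 0)
    (ι : Type) [Fintype ι] (q : ι → ℕ) [∀ i, Fact (q i).Prime]
    (D : ∀ i, LocDatum (q i) F L) (v : ι → HeightOneSpectrum (𝓞 F))
    (hv : ∀ i, (D i).AtPlace (v i)) (hinj : Function.Injective v)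
    (hsupp : ∀ (r : ℕ) [Fact r.Prime] (E : LocDatum r F L) (w : HeightOneSpectrum (𝓞 F)),
      E.AtPlace w → (∀ i, w ≠ v i) → E.loc x = 0) :
    ∑ i, I.inv (q i) (D i).Kv (D i).Lw ((D i).loc x) = 0 :=
  reciprocity_of_apxCyc_at I p 1 (hassePrinciple_of p hSL hG) (hypAuxAt_one p hp2) hypRes hExt
    hypExist hypPlace hypDeg hypInf hypComp (hypTame I) hypArtSum (hypApxCyc_of_SL hSL) F L x
    (by rw [pow_one]; exact hx) ι q D v hv hinj hsupp

/-- R-HASSE from GLOB's semilocal Hasse principle alone (R-SL is `hypSL`). -/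
theorem hassePrinciple_of_glob (p : ℕ) [Fact p.Prime] (hG : helper60.GlobHasse p) :
    HassePrinciple p :=
  hassePrinciple_of p hypSL hG

/-- **RECIPROCITY LAW for `p`-torsion classes**, `p` odd.  The ONLY open input is GLOB's
semilocal Hasse principle `helper60.GlobHasse p` (the invariant system `I` is a parameter; it
exists by LOC: `helper8.nonempty_locInv`). -/
theorem reciprocity_pTorsion (I : LocInv) (p : ℕ) [Fact p.Prime] (hp2 : p ≠ 2)
    (hG : helper60.GlobHasse p)
    (F L : Type) [Field F] [NumberField F] [Field L] [NumberField L] [Algebra F L] [IsGalois F L]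
    (x : H2 (Rep.ofAlgebraAutOnUnits F L)) (hx : p • x = 0)
    (ι : Type) [Fintype ι] (q : ι → ℕ) [∀ i, Fact (q i).Prime]
    (D : ∀ i, LocDatum (q i) F L) (v : ι → HeightOneSpectrum (𝓞 F))
    (hv : ∀ i, (D i).AtPlace (v i)) (hinj : Function.Injective v)
    (hsupp : ∀ (r : ℕ) [Fact r.Prime] (E : LocDatum r F L) (w : HeightOneSpectrum (𝓞 F)),
      E.AtPlace w → (∀ i, w ≠ v i) → E.loc x = 0) :
    ∑ i, I.inv (q i) (D i).Kv (D i).Lw ((D i).loc x) = 0 :=
  reciprocity_pTorsion_SL I p hp2 hypSL hG helper72.hypExt F L x hx ι q D v hv hinj hsupp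

end Fermat.Agent.S55.helper11
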