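import Fermat.Agent.S55.helper11_Rec1Assembly
import Fermat.Agent.S55.helper11_Rec1Aux

/-!
# S55 / REC1 (helper11): the reciprocity law from the REC1 packages (conditional assembly)

`reciprocity_of_inputs` : the reciprocity law for `p`-primary Brauer classes of number fields,
from the package statements `Hyp*` of `helper11_Rec1Hyps.lean`, an invariant system `I : LocInv`
and the Hasse principle.
-/

set_option autoImplicit false

open CategoryTheory groupCohomology
open scoped NumberField nonZeroDivisors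
open IsDedekindDomain

namespace Fermat.Agent.S55.helper11

open Fermat.Agent.S14 Fermat.Agent.S55.helper8

section AuxAt

/-- N2 for a fixed exponent `n`: the statement `HypAux p` specialised to one `n`. -/
def HypAuxAt (p n : ℕ) : Prop :=
  ∀ (F : Type) [Field F] [NumberField F]
    (V : Finset (HeightOneSpectrum (𝓞 F))) (T : Finset ℕ),
    ∃ (l : ℕ) (M : Type) (_ : Field M) (_ : NumberField M) (_ : Algebra F M)
      (_ : IsAbelianGalois F M),
      l.Prime ∧ l ∉ T ∧ IsCyclic Gal(M/F) ∧ (∃ k : ℕ, Module.finrank F M = p ^ k) ∧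
      (∀ v ∈ V, (l : 𝓞 F) ∉ v.asIdeal) ∧
      (∀ P : Ideal (𝓞 M), P.IsPrime → P ≠ ⊥ → (l : 𝓞 M) ∉ P →
        ∀ σ : Gal(M/F), (∀ x : 𝓞 M, σ • x - x ∈ P) → σ = 1) ∧
      (∀ v ∈ V, p ^ n ∣ orderOf (frobAt F M v.asIdeal)) ∧
      (∀ (c : 𝓞 F) (hc : c ≠ 0), (∃ d : 𝓞 F, c - 1 = (l : 𝓞 F) * d) →
        artinMap F M ⟨Ideal.span {c}, mem_nonZeroDivisors_of_ne_zero
          (by simpa [Ideal.span_singleton_eq_bot] using hc)⟩ = 1)

lemma HypAux.hypAuxAt {p : ℕ} (h : HypAux p) (n : ℕ) : HypAuxAt p n :=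
  fun F _ _ V T => h F V T n

/-- The `l`-part of the assembly in one statement: a cyclic class which is locally trivial at
all local data over `l` is represented, up to a global norm, by a quotient of two integers
`≡ 1 mod l`.  (Consequence of R-NORML + R-APX, or of R-SL + APX-SL.) -/
def HypApxCyc : Prop :=
  ∀ (l : ℕ) [Fact l.Prime] (F M : Type) [Field F] [NumberField F]
    [Field M] [NumberField M] [Algebra F M] [IsGalois F M]
    (σ : M ≃ₐ[F] M), (∀ τ : M ≃ₐ[F] M, τ ∈ Subgroup.zpowers σ) → ∀ (c : Fˣ),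
    (∀ D : LocDatum l F M, D.loc (cyclicClass F M σ c) = 0) →
    ∃ (m : Mˣ) (a b : 𝓞 F), a ≠ 0 ∧ b ≠ 0 ∧
      (c : F) * Algebra.norm F (m : M) * (b : F) = (a : F) ∧
      (∃ d : 𝓞 F, a - 1 = (l : 𝓞 F) * d) ∧ (∃ d : 𝓞 F, b - 1 = (l : 𝓞 F) * d)

lemma hypApxCyc_of_normL_apx (hNormL : HypNormL) (hApx : HypApx) : HypApxCyc :=
  fun l _ F M _ _ _ _ _ _ σ hσ c hloc =>
    hApx l F M c (fun D' => hNormL l F M D' σ hσ c (hloc D'))

end AuxAt

section Step1

/-- Step 1-3 of the assembly: a `p`-primary class supported on `V` is (after inflation) the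
inflation of a cyclic class of an auxiliary cyclic extension `M/F`, unramified outside `l`. -/
lemma exists_cyclic_model_at (I : LocInv) (p : ℕ) (n : ℕ) (hH : HassePrinciple p)
    (hAux : HypAuxAt p n)
    (hRes : HypRes) (hPlace : HypPlace) (hDeg : HypDeg)
    (hInf : HypInf) (hComp : HypComp)
    (F L : Type) [Field F] [NumberField F] [Field L] [NumberField L] [Algebra F L] [IsGalois F L]
    (x : H2 (Rep.ofAlgebraAutOnUnits F L)) (hx : p ^ n • x = 0)
    (V : Finset (HeightOneSpectrum (𝓞 F)))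
    (hsupp : ∀ (r : ℕ) [Fact r.Prime] (E : LocDatum r F L) (w : HeightOneSpectrum (𝓞 F)),
      E.AtPlace w → w ∉ V → E.loc x = 0) :
    ∃ (l : ℕ) (M : Type) (_ : Field M) (_ : NumberField M) (_ : Algebra F M)
      (_ : IsAbelianGalois F M) (L' : Type) (_ : Field L') (_ : NumberField L')
      (_ : Algebra F L') (_ : Algebra L L')
      (_ : Algebra M L') (_ : IsScalarTower F L L') (_ : IsScalarTower F M L')
      (_ : IsGalois F L') (σ : Gal(M/F)) (c : Fˣ),
      l.Prime ∧ (∀ v ∈ V, (l : 𝓞 F) ∉ v.asIdeal) ∧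
      (∀ w : HeightOneSpectrum (𝓞 F), (l : 𝓞 F) ∉ w.asIdeal → UnramAt F M w) ∧
      (∀ (c : 𝓞 F) (hc : c ≠ 0), (∃ d : 𝓞 F, c - 1 = (l : 𝓞 F) * d) →
        artinMap F M ⟨Ideal.span {c}, mem_nonZeroDivisors_of_ne_zero
          (by simpa [Ideal.span_singleton_eq_bot] using hc)⟩ = 1) ∧
      (∀ τ : Gal(M/F), τ ∈ Subgroup.zpowers σ) ∧
      (locH F M F L' 2).hom (cyclicClass F M σ c) = (locH F L F L' 2).hom x := by
  classical
  obtain ⟨l, M, _, _, _, _, hl, -, hcyc, -, hlV, hunrM, hfrob, hart⟩ := hAux F V ∅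
  obtain ⟨L', _, _, _, _, _, _, _, _, hML', -⟩ := hComp F L M
  haveI := hML'
  have hU : ∀ w : HeightOneSpectrum (𝓞 F), (l : 𝓞 F) ∉ w.asIdeal → UnramAt F M w :=
    fun w hw => unramAt_of_natCast_notMem F M l hunrM w hw
  -- the restriction to `M` vanishes
  have hres : (locH F L' M L' 2).hom ((locH F L F L' 2).hom x) = 0 := by
    rw [locH_comp_apply F L F L' M L' 2 x]
    apply hH M L' _ n
    · rw [← map_nsmul, hx, map_zero]
    · intro r _ E
      exact loc_res_eq_zero I p hRes hPlace hDeg F L M L' x n hx (V : Set _)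
        (fun r _ E w hw hwV => hsupp r E w hw (by simpa using hwV))
        (fun w hw => hU w (hlV w (by simpa using hw)))
        (fun w hw => hfrob w (by simpa using hw)) r E
  obtain ⟨z, hz⟩ := hInf F M L' _ hres
  obtain ⟨σ, hσ⟩ := hcyc.exists_generator
  obtain ⟨c, hc⟩ := helper96.cyclicClass_surjective F M σ hσ z
  exact ⟨l, M, inferInstance, inferInstance, inferInstance, inferInstance, L', inferInstance,
    inferInstance, inferInstance, inferInstance, inferInstance, inferInstance, inferInstance,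
    inferInstance, σ, c, hl, hlV, hU, hart, hσ, by rw [hc, hz]⟩

end Step1

section Main

/-- **RECIPROCITY LAW** (conditional assembly): the reciprocity law for `p`-primary Brauer
classes of number fields, from an invariant system, the Hasse principle and the REC1 package
statements. -/
theorem reciprocity_of_apxCyc_at (I : LocInv) (p : ℕ) (n : ℕ) (hH : HassePrinciple p)
    (hAux : HypAuxAt p n) (hRes : HypRes) (hExt : HypExt) (hExist : HypExist)
    (hPlace : HypPlace) (hDeg : HypDeg)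
    (hInf : HypInf) (hComp : HypComp) (hTame : HypTame I)
    (hArt : HypArtSum) (hApxC : HypApxCyc)
    (F L : Type) [Field F] [NumberField F] [Field L] [NumberField L] [Algebra F L] [IsGalois F L]
    (x : H2 (Rep.ofAlgebraAutOnUnits F L)) (hx : p ^ n • x = 0)
    (ι : Type) [Fintype ι] (q : ι → ℕ) [∀ i, Fact (q i).Prime]
    (D : ∀ i, LocDatum (q i) F L) (v : ι → HeightOneSpectrum (𝓞 F))
    (hv : ∀ i, (D i).AtPlace (v i)) (hinj : Function.Injective v)
    (hsupp : ∀ (r : ℕ) [Fact r.Prime] (E : LocDatum r F L) (w : HeightOneSpectrum (𝓞 F)),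
      E.AtPlace w → (∀ i, w ≠ v i) → E.loc x = 0) :
    ∑ i, I.inv (q i) (D i).Kv (D i).Lw ((D i).loc x) = 0 := by
  classical
  set V : Finset (HeightOneSpectrum (𝓞 F)) := Finset.univ.image v with hVdef
  have hvV : ∀ i, v i ∈ V := fun i => Finset.mem_image_of_mem v (Finset.mem_univ i)
  have hsuppV : ∀ (r : ℕ) [Fact r.Prime] (E : LocDatum r F L) (w : HeightOneSpectrum (𝓞 F)),
      E.AtPlace w → w ∉ V → E.loc x = 0 := by
    intro r _ E w hw hwV
    refine hsupp r E w hw (fun i hi => hwV ?_)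
    rw [hi]; exact hvV i
  obtain ⟨l, M, _, _, _, _, L', _, _, _, _, _, _, _, _, σ, c, hl, hlV, hU, hart, hσ, hz⟩ :=
    exists_cyclic_model_at I p n hH hAux hRes hPlace hDeg hInf hComp F L x hx V hsuppV
  haveI : Fact l.Prime := ⟨hl⟩
  -- Step 4: the class is locally trivial at `l`, hence `c` is a local norm at `l`
  have hloc_l : ∀ D' : LocDatum l F M, D'.loc (cyclicClass F M σ c) = 0 := by
    intro D'
    obtain ⟨D₂, hord, hinv⟩ := exists_datum_same_inv I hRes hExt F M L L' _ x hz l D'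
    obtain ⟨w, hw, -⟩ := hPlace l F L D₂
    have hlw : (l : 𝓞 F) ∈ w.asIdeal := by
      rw [hw]
      have := D₂.ordT_natCast_pos
      simpa using this
    have hwV : w ∉ V := fun h => hlV w h hlw
    apply I.injective l D'.Kv D'.Lw
    rw [hinv, hsuppV l D₂ w hw hwV, map_zero, map_zero]
  obtain ⟨m, a, b, ha, hb, hcab, hal, hbl⟩ := hApxC l F M σ hσ c hloc_l
  -- the units `a`, `b`
  have haF : (a : F) ≠ 0 := NumberField.RingOfIntegers.coe_ne_zero_iff.mpr ha
  have hbF : (b : F) ≠ 0 := NumberField.RingOfIntegers.coe_ne_zero_iff.mpr hb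
  set ua : Fˣ := Units.mk0 (a : F) haF with hua
  set ub : Fˣ := Units.mk0 (b : F) hbF with hub
  have hunits : c * normUnits F M m * ub = ua := by
    apply Units.ext
    show ((c * normUnits F M m * Units.mk0 (b : F) hbF : Fˣ) : F) =
      ((Units.mk0 (a : F) haF : Fˣ) : F)
    simpa [normUnits] using hcab
  have hzab : cyclicClass F M σ c = cyclicClass F M σ ua - cyclicClass F M σ ub := by
    have h0 : cyclicClass F M σ (normUnits F M m) = 0 :=
      (helper31.cyclicClass_eq_zero_iff_norm F M σ hσ _).2 ⟨m, rfl⟩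
    rw [← hunits, helper96.cyclicClass_mul F M σ hσ, helper96.cyclicClass_mul F M σ hσ, h0,
      add_zero, add_sub_cancel_right]
  -- Frobenius exponents and valuations
  have hkex : ∀ w : HeightOneSpectrum (𝓞 F), ∃ k : ℕ, frobAt F M w.asIdeal = σ ^ k := by
    intro w
    obtain ⟨k, hk⟩ := helper31.exists_pow_eq_of_mem_zpowers (hσ (frobAt F M w.asIdeal))
    exact ⟨k, hk.symm⟩
  choose k hk using hkex
  choose ea hea hea0 using fun w => exists_nat_valuation F w a ha
  choose eb heb heb0 using fun w => exists_nat_valuation F w b hb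
  set t : HeightOneSpectrum (𝓞 F) → QZ := fun w =>
    ((((k w : ℚ) * (((ea w : ℕ) : ℤ) : ℚ) / (Module.finrank F M : ℚ) : ℚ)) : QZ) -
      ((((k w : ℚ) * (((eb w : ℕ) : ℤ) : ℚ) / (Module.finrank F M : ℚ) : ℚ)) : QZ) with ht
  -- Step 6: the tame formula
  have htame : ∀ (r : ℕ) [Fact r.Prime] (D' : LocDatum r F M) (w : HeightOneSpectrum (𝓞 F)),
      D'.AtPlace w → (l : 𝓞 F) ∉ w.asIdeal →
      I.inv r D'.Kv D'.Lw (D'.loc (cyclicClass F M σ c)) = t w := by
    intro r _ D' w hw hlw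
    rw [hzab, map_sub, map_sub,
      hTame r F M D' w hw (hU w hlw) σ hσ (k w) (hk w) ua ((ea w : ℕ) : ℤ) (hea w),
      hTame r F M D' w hw (hU w hlw) σ hσ (k w) (hk w) ub ((eb w : ℕ) : ℤ) (heb w)]
  -- the finite set `S`
  set S : Finset (HeightOneSpectrum (𝓞 F)) :=
    V ∪ ((finite_setOf_mem_asIdeal F a ha).toFinset ∪ (finite_setOf_mem_asIdeal F b hb).toFinset)
    with hS
  have hVS : V ⊆ S := Finset.subset_union_left
  have haS : ∀ w : HeightOneSpectrum (𝓞 F), a ∈ w.asIdeal → w ∈ S := fun w hw =>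
    Finset.mem_union_right _ (Finset.mem_union_left _ (by simpa using hw))
  have hbS : ∀ w : HeightOneSpectrum (𝓞 F), b ∈ w.asIdeal → w ∈ S := fun w hw =>
    Finset.mem_union_right _ (Finset.mem_union_right _ (by simpa using hw))
  have hsumS : ∑ w ∈ S, t w = 0 := by
    rw [ht, Finset.sum_sub_distrib,
      sum_tame_eq_zero hArt F M σ hσ k ea S a ha haS (fun w _ => hk w) hea (hart a ha hal),
      sum_tame_eq_zero hArt F M σ hσ k eb S b hb hbS (fun w _ => hk w) heb (hart b hb hbl),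
      sub_zero]
  have hzero : ∀ w ∈ S, w ∉ V → t w = 0 := by
    intro w _ hwV
    by_cases hlw : (l : 𝓞 F) ∈ w.asIdeal
    · have h1 : ea w = 0 := hea0 w (notMem_of_sub_one_eq F w l hlw a hal)
      have h2 : eb w = 0 := heb0 w (notMem_of_sub_one_eq F w l hlw b hbl)
      simp [ht, h1, h2]
    · obtain ⟨r, _, D', hD'⟩ := hExist F M w
      rw [← htame r D' w hD' hlw]
      obtain ⟨D₂, hord, hinv⟩ := exists_datum_same_inv I hRes hExt F M L L' _ x hz r D'
      have hD₂ : D₂.AtPlace w := fun a => (hD' a).trans (hord (a : F))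
      rw [hinv, hsuppV r D₂ w hD₂ hwV, map_zero]
  have hterm : ∀ i, I.inv (q i) (D i).Kv (D i).Lw ((D i).loc x) = t (v i) := by
    intro i
    obtain ⟨D', hord, hinv⟩ := exists_datum_same_inv I hRes hExt F L M L' x _ hz.symm (q i) (D i)
    have hD' : D'.AtPlace (v i) := fun a => (hv i a).trans (hord (a : F))
    rw [hinv]
    exact htame (q i) D' (v i) hD' (hlV (v i) (hvV i))
  calc ∑ i, I.inv (q i) (D i).Kv (D i).Lw ((D i).loc x)
      = ∑ i, t (v i) := Finset.sum_congr rfl (fun i _ => hterm i)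
    _ = ∑ w ∈ V, t w := (Finset.sum_image (fun i _ j _ h => hinj h)).symm
    _ = ∑ w ∈ S, t w := Finset.sum_subset hVS (fun w hwS hwV => hzero w hwS hwV)
    _ = 0 := hsumS

/-- **RECIPROCITY LAW** (conditional assembly, exponent `n`), with R-NORML and R-APX as
inputs for the `l`-part. -/
theorem reciprocity_of_inputs_at (I : LocInv) (p : ℕ) (n : ℕ) (hH : HassePrinciple p)
    (hAux : HypAuxAt p n) (hRes : HypRes) (hExt : HypExt) (hExist : HypExist)
    (hPlace : HypPlace) (hDeg : HypDeg)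
    (hInf : HypInf) (hComp : HypComp) (hTame : HypTame I) (hNormL : HypNormL)
    (hArt : HypArtSum) (hApx : HypApx)
    (F L : Type) [Field F] [NumberField F] [Field L] [NumberField L] [Algebra F L] [IsGalois F L]
    (x : H2 (Rep.ofAlgebraAutOnUnits F L)) (hx : p ^ n • x = 0)
    (ι : Type) [Fintype ι] (q : ι → ℕ) [∀ i, Fact (q i).Prime]
    (D : ∀ i, LocDatum (q i) F L) (v : ι → HeightOneSpectrum (𝓞 F))
    (hv : ∀ i, (D i).AtPlace (v i)) (hinj : Function.Injective v)
    (hsupp : ∀ (r : ℕ) [Fact r.Prime] (E : LocDatum r F L) (w : HeightOneSpectrum (𝓞 F)),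
      E.AtPlace w → (∀ i, w ≠ v i) → E.loc x = 0) :
    ∑ i, I.inv (q i) (D i).Kv (D i).Lw ((D i).loc x) = 0 :=
  reciprocity_of_apxCyc_at I p n hH hAux hRes hExt hExist hPlace hDeg hInf hComp
    hTame hArt (hypApxCyc_of_normL_apx hNormL hApx) F L x hx ι q D v hv hinj hsupp

/-- **RECIPROCITY LAW** (conditional assembly), with the auxiliary extensions available for all
exponents. -/
theorem reciprocity_of_inputs (I : LocInv) (p : ℕ) (hH : HassePrinciple p) (hAux : HypAux p)
    (hRes : HypRes) (hExt : HypExt) (hExist : HypExist) (hPlace : HypPlace) (hDeg : HypDeg)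
    (hInf : HypInf) (hComp : HypComp) (hTame : HypTame I) (hNormL : HypNormL)
    (hArt : HypArtSum) (hApx : HypApx)
    (F L : Type) [Field F] [NumberField F] [Field L] [NumberField L] [Algebra F L] [IsGalois F L]
    (x : H2 (Rep.ofAlgebraAutOnUnits F L)) (n : ℕ) (hx : p ^ n • x = 0)
    (ι : Type) [Fintype ι] (q : ι → ℕ) [∀ i, Fact (q i).Prime]
    (D : ∀ i, LocDatum (q i) F L) (v : ι → HeightOneSpectrum (𝓞 F))
    (hv : ∀ i, (D i).AtPlace (v i)) (hinj : Function.Injective v)
    (hsupp : ∀ (r : ℕ) [Fact r.Prime] (E : LocDatum r F L) (w : HeightOneSpectrum (𝓞 F)),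
      E.AtPlace w → (∀ i, w ≠ v i) → E.loc x = 0) :
    ∑ i, I.inv (q i) (D i).Kv (D i).Lw ((D i).loc x) = 0 :=
  reciprocity_of_inputs_at I p n hH (hAux.hypAuxAt n) hRes hExt hExist hPlace hDeg hInf hComp
    hTame hNormL hArt hApx F L x hx ι q D v hv hinj hsupp

end Main

end Fermat.Agent.S55.helper11
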