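import Fermat.Agent.S55.helper73_GlobDefs

/-!
# S55 / REC1 (helper11): the integral lattice of the semilocal algebra `ℚ_l ⊗ M`

`M` a number field.  In the coordinates of an integral basis of `M`, the lattice
`Λ = ℤ_l ⊗ 𝓞_M ⊆ ℚ_l ⊗ M` is the set of elements with coordinates of norm `≤ 1`.

* `semiLat l M : Subring (SemiLoc l M)` : the lattice `Λ`;
* `one_tmul_mem_semiLat` : `1 ⊗ ω ∈ Λ` for integral `ω`;
* `smul_mem_semiLat` : `Λ` is stable under `Gal(M/F)`;
* `exists_approx_semiLat` : `M` is dense in `ℚ_l ⊗ M` (`Λ`-adically);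
* `exists_pow_mul_mem_semiLat` : every element is in `l^{-s} Λ`;
* `exists_coprime_isIntegral_of_mem_semiLat` : if `1 ⊗ t ∈ Λ` then `n t` is integral for some
  `n` prime to `l`.
-/

set_option autoImplicit false

open scoped TensorProduct NumberField

namespace Fermat.Agent.S55.helper11

open Fermat.Agent.S55.helper73 Module

section Lattice

variable (l : ℕ) [Fact l.Prime] (M : Type) [Field M] [NumberField M]

/-- The `ℚ_l`-basis of `ℚ_l ⊗ M` induced by an integral basis of `M`. -/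
noncomputable def semiBasis : Basis (Free.ChooseBasisIndex ℤ (𝓞 M)) ℚ_[l] (SemiLoc l M) :=
  (NumberField.integralBasis M).baseChange ℚ_[l]

lemma semiBasis_apply (i : Free.ChooseBasisIndex ℤ (𝓞 M)) :
    semiBasis l M i = (1 : ℚ_[l]) ⊗ₜ[ℚ] (NumberField.integralBasis M i) := by
  simp [semiBasis]

lemma semiBasis_repr_tmul (a : ℚ_[l]) (m : M) (i : Free.ChooseBasisIndex ℤ (𝓞 M)) :
    (semiBasis l M).repr (a ⊗ₜ[ℚ] m) i = ((NumberField.integralBasis M).repr m i : ℚ) • a := by
  simp [semiBasis]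

/-- coordinates of `1 ⊗ ω`, `ω` integral, are integers -/
lemma norm_repr_one_tmul_le (ω : 𝓞 M) (i : Free.ChooseBasisIndex ℤ (𝓞 M)) :
    ‖(semiBasis l M).repr ((1 : ℚ_[l]) ⊗ₜ[ℚ] (ω : M)) i‖ ≤ 1 := by
  rw [semiBasis_repr_tmul]
  have h := NumberField.integralBasis_repr_apply (K := M) ω i
  rw [h]
  have h2 : ((algebraMap ℤ ℚ) (((NumberField.RingOfIntegers.basis M).repr ω) i) : ℚ) •
      (1 : ℚ_[l]) = (((NumberField.RingOfIntegers.basis M).repr ω i : ℤ) : ℚ_[l]) := by
    rw [Algebra.smul_def, mul_one]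
    simp
  rw [h2]
  exact Padic.norm_int_le_one _

/-- Membership in the lattice `Λ = ℤ_l ⊗ 𝓞_M`: all coordinates have norm `≤ 1`. -/
def IsLat (x : SemiLoc l M) : Prop := ∀ i, ‖(semiBasis l M).repr x i‖ ≤ 1

variable {l M}

lemma isLat_zero : IsLat l M 0 := fun i => by simp

lemma isLat_add {x y : SemiLoc l M} (hx : IsLat l M x) (hy : IsLat l M y) :
    IsLat l M (x + y) := fun i => by
  rw [map_add, Finsupp.add_apply]
  exact (Padic.nonarchimedean _ _).trans (max_le (hx i) (hy i))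

lemma isLat_neg {x : SemiLoc l M} (hx : IsLat l M x) : IsLat l M (-x) := fun i => by
  rw [map_neg, Finsupp.neg_apply, norm_neg]
  exact hx i

lemma isLat_smul {x : SemiLoc l M} (a : ℚ_[l]) (ha : ‖a‖ ≤ 1) (hx : IsLat l M x) :
    IsLat l M (a • x) := fun i => by
  rw [map_smul, Finsupp.smul_apply, smul_eq_mul, norm_mul]
  exact mul_le_one₀ ha (norm_nonneg _) (hx i)

lemma isLat_sum {α : Type*} (s : Finset α) (f : α → SemiLoc l M)
    (h : ∀ a ∈ s, IsLat l M (f a)) : IsLat l M (∑ a ∈ s, f a) := by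
  classical
  induction s using Finset.induction_on with
  | empty => simpa using isLat_zero
  | insert a s ha ih =>
    rw [Finset.sum_insert ha]
    exact isLat_add (h a (Finset.mem_insert_self a s))
      (ih fun b hb => h b (Finset.mem_insert_of_mem hb))

lemma isLat_one_tmul (ω : 𝓞 M) : IsLat l M ((1 : ℚ_[l]) ⊗ₜ[ℚ] (ω : M)) :=
  fun i => norm_repr_one_tmul_le l M ω i

lemma isLat_one_tmul_of_isIntegral {t : M} (ht : IsIntegral ℤ t) :
    IsLat l M ((1 : ℚ_[l]) ⊗ₜ[ℚ] t) :=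
  isLat_one_tmul (⟨t, ht⟩ : 𝓞 M)

lemma isLat_one : IsLat l M 1 := by
  have h := isLat_one_tmul (l := l) (M := M) (1 : 𝓞 M)
  simpa [Algebra.TensorProduct.one_def] using h

lemma isLat_semiBasis (i : Free.ChooseBasisIndex ℤ (𝓞 M)) : IsLat l M (semiBasis l M i) := by
  rw [semiBasis_apply, NumberField.integralBasis_apply]
  exact isLat_one_tmul _

lemma isLat_mul {x y : SemiLoc l M} (hx : IsLat l M x) (hy : IsLat l M y) :
    IsLat l M (x * y) := by
  classical
  rw [← (semiBasis l M).sum_repr x, ← (semiBasis l M).sum_repr y, Finset.sum_mul_sum]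
  refine isLat_sum _ _ fun i _ => isLat_sum _ _ fun j _ => ?_
  rw [smul_mul_smul_comm]
  refine isLat_smul _ ?_ ?_
  · rw [norm_mul]
    exact mul_le_one₀ (hx i) (norm_nonneg _) (hy j)
  · rw [semiBasis_apply, semiBasis_apply, Algebra.TensorProduct.tmul_mul_tmul, one_mul,
      NumberField.integralBasis_apply, NumberField.integralBasis_apply, ← map_mul]
    exact isLat_one_tmul _

variable (l M)

/-- The lattice `Λ = ℤ_l ⊗ 𝓞_M` as a subring of `ℚ_l ⊗ M`. -/
def semiLat : Subring (SemiLoc l M) where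
  carrier := {x | IsLat l M x}
  mul_mem' := isLat_mul
  one_mem' := isLat_one
  add_mem' := isLat_add
  zero_mem' := isLat_zero
  neg_mem' := isLat_neg

variable {l M}

lemma mem_semiLat {x : SemiLoc l M} : x ∈ semiLat l M ↔ IsLat l M x := Iff.rfl

/-- `Λ` is stable under the Galois action. -/
lemma smul_mem_semiLat (F : Type) [Field F] [Algebra F M] (g : M ≃ₐ[F] M) {x : SemiLoc l M}
    (hx : x ∈ semiLat l M) : galSemiLocAut l M F g x ∈ semiLat l M := by
  classical
  rw [← (semiBasis l M).sum_repr x, map_sum]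
  refine Subring.sum_mem _ fun i _ => ?_
  rw [map_smul]
  refine isLat_smul _ (hx i) ?_
  rw [semiBasis_apply, galSemiLocAut_tmul, NumberField.integralBasis_apply]
  exact isLat_one_tmul_of_isIntegral
    (map_isIntegral_int (g : M →+* M) (NumberField.RingOfIntegers.isIntegral_coe _))

lemma one_tmul_eq_sum (m : M) :
    (1 : ℚ_[l]) ⊗ₜ[ℚ] m = ∑ i, (((NumberField.integralBasis M).repr m i : ℚ) : ℚ_[l]) •
      semiBasis l M i := by
  classical
  conv_lhs => rw [← (semiBasis l M).sum_repr ((1 : ℚ_[l]) ⊗ₜ[ℚ] m)]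
  refine Finset.sum_congr rfl fun i _ => ?_
  rw [semiBasis_repr_tmul]
  congr 1
  rw [Algebra.smul_def, mul_one]
  rfl

/-- `M` is dense in `ℚ_l ⊗ M` for the `Λ`-adic topology. -/
lemma exists_approx_semiLat (x : SemiLoc l M) (K : ℕ) :
    ∃ (m : M) (y : SemiLoc l M), y ∈ semiLat l M ∧
      x - (1 : ℚ_[l]) ⊗ₜ[ℚ] m = ((l : ℚ_[l]) ^ K) • y := by
  classical
  have hl0 : (l : ℚ_[l]) ≠ 0 := by exact_mod_cast (Fact.out : l.Prime).ne_zero
  have hlK : (l : ℚ_[l]) ^ K ≠ 0 := pow_ne_zero K hl0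
  have hpos : 0 < ‖(l : ℚ_[l]) ^ K‖ := norm_pos_iff.mpr hlK
  have key : ∀ i, ∃ r : ℚ, ‖(semiBasis l M).repr x i - (r : ℚ_[l])‖ ≤ ‖(l : ℚ_[l]) ^ K‖ :=
    fun i => by
      obtain ⟨r, hr⟩ := Padic.rat_dense l ((semiBasis l M).repr x i) hpos
      exact ⟨r, hr.le⟩
  choose r hr using key
  refine ⟨∑ i, r i • NumberField.integralBasis M i,
    ∑ i, (((semiBasis l M).repr x i - (r i : ℚ_[l])) / (l : ℚ_[l]) ^ K) • semiBasis l M i,
    ?_, ?_⟩
  · refine Subring.sum_mem _ fun i _ => ?_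
    refine isLat_smul _ ?_ (isLat_semiBasis i)
    rw [norm_div]
    exact div_le_one_of_le₀ (hr i) (norm_nonneg _)
  · rw [Finset.smul_sum]
    conv_lhs => rw [← (semiBasis l M).sum_repr x]
    rw [one_tmul_eq_sum, ← Finset.sum_sub_distrib]
    refine Finset.sum_congr rfl fun i _ => ?_
    rw [smul_smul, mul_div_cancel₀ _ hlK, sub_smul]
    congr 2
    rw [map_sum, Finset.sum_apply']
    simp only [map_smul, Module.Basis.repr_self, Finsupp.smul_apply, smul_eq_mul]
    rw [Finset.sum_eq_single i]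
    · simp
    · intro j _ hji
      simp [Finsupp.single_apply, hji]
    · intro h
      exact absurd (Finset.mem_univ i) h

/-- every element of `ℚ_l ⊗ M` lies in `l^{-s} Λ` for some `s`. -/
lemma exists_pow_smul_mem_semiLat (x : SemiLoc l M) :
    ∃ s : ℕ, ((l : ℚ_[l]) ^ s) • x ∈ semiLat l M := by
  classical
  have hl1 : (1 : ℝ) < (l : ℝ) := by exact_mod_cast (Fact.out : l.Prime).one_lt
  obtain ⟨s, hs⟩ := pow_unbounded_of_one_lt (∑ i, ‖(semiBasis l M).repr x i‖) hl1
  refine ⟨s, fun i => ?_⟩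
  rw [map_smul, Finsupp.smul_apply, smul_eq_mul, norm_mul, Padic.norm_p_pow]
  have h1 : ‖(semiBasis l M).repr x i‖ ≤ (l : ℝ) ^ s :=
    (Finset.single_le_sum (f := fun i => ‖(semiBasis l M).repr x i‖)
      (fun j _ => norm_nonneg _) (Finset.mem_univ i)).trans hs.le
  have h2 : (0 : ℝ) < (l : ℝ) ^ s := pow_pos (by linarith) s
  rw [zpow_neg, zpow_natCast, inv_mul_le_iff₀ h2, mul_one]
  exact h1

/-- a rational number of `l`-adic norm `≤ 1` has denominator prime to `l`. -/
lemma not_dvd_den_of_norm_le_one (r : ℚ) (h : ‖(r : ℚ_[l])‖ ≤ 1) : ¬ l ∣ r.den := by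
  intro hdvd
  have hl : l.Prime := Fact.out
  have hnum : ¬ (l : ℤ) ∣ r.num := by
    intro hn
    have h1 : l ∣ r.num.natAbs := Int.natCast_dvd.mp hn
    have h2 : l ∣ Nat.gcd r.num.natAbs r.den := Nat.dvd_gcd h1 hdvd
    rw [r.reduced] at h2
    exact hl.one_lt.ne' (Nat.dvd_one.mp h2)
  have hn1 : ‖((r.num : ℤ) : ℚ_[l])‖ = 1 := by
    rcases lt_or_eq_of_le (Padic.norm_int_le_one (p := l) r.num) with h1 | h1
    · exact absurd (Padic.norm_intCast_lt_one_iff.mp h1) hnum
    · exact h1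
  have hd1 : ‖((r.den : ℕ) : ℚ_[l])‖ < 1 := Padic.norm_natCast_lt_one_iff.mpr hdvd
  have hd0 : ((r.den : ℕ) : ℚ_[l]) ≠ 0 := by exact_mod_cast r.den_ne_zero
  have hr : (r : ℚ_[l]) = ((r.num : ℤ) : ℚ_[l]) / ((r.den : ℕ) : ℚ_[l]) := by
    conv_lhs => rw [← Rat.num_div_den r]
    push_cast
    rfl
  rw [hr, norm_div, hn1, div_le_one (norm_pos_iff.mpr hd0)] at h
  exact absurd h (not_le.mpr hd1)

/-- if `1 ⊗ t ∈ Λ`, then `n t` is integral for some `n` prime to `l`. -/
lemma exists_coprime_isIntegral_of_mem_semiLat (t : M)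
    (ht : (1 : ℚ_[l]) ⊗ₜ[ℚ] t ∈ semiLat l M) :
    ∃ n : ℕ, 0 < n ∧ Nat.Coprime n l ∧ IsIntegral ℤ ((n : M) * t) := by
  classical
  have hl : l.Prime := Fact.out
  set b := NumberField.integralBasis M with hb
  have hden : ∀ i, ¬ l ∣ (b.repr t i).den := by
    intro i
    apply not_dvd_den_of_norm_le_one
    have h := ht i
    rw [semiBasis_repr_tmul, Algebra.smul_def, mul_one] at h
    exact h
  set n : ℕ := ∏ i, (b.repr t i).den with hn
  refine ⟨n, Finset.prod_pos fun i _ => (b.repr t i).den_pos, ?_, ?_⟩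
  · refine Nat.Coprime.prod_left fun i _ => ?_
    exact (Nat.Coprime.symm ((Nat.Prime.coprime_iff_not_dvd hl).mpr (hden i)))
  · have hmem : (n : M) * t ∈ Submodule.span ℤ (Set.range b) := by
      have ht' : t = ∑ i, b.repr t i • b i := (b.sum_repr t).symm
      rw [ht', Finset.mul_sum]
      refine Submodule.sum_mem _ fun i _ => ?_
      have hdvd : (b.repr t i).den ∣ n := Finset.dvd_prod_of_mem _ (Finset.mem_univ i)
      obtain ⟨k, hk⟩ := hdvd
      have h1 : (n : M) * (b.repr t i • b i) = ((k : ℤ) * (b.repr t i).num) • b i := by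
        rw [Algebra.smul_def, ← mul_assoc, zsmul_eq_mul]
        congr 1
        have h2 : ((n : ℚ) * b.repr t i) = (((k : ℤ) * (b.repr t i).num : ℤ) : ℚ) := by
          conv_lhs => rw [← Rat.num_div_den (b.repr t i)]
          rw [hk]
          have hd0 : ((b.repr t i).den : ℚ) ≠ 0 := by exact_mod_cast (b.repr t i).den_ne_zero
          push_cast
          field_simp
        have h3 := congrArg (algebraMap ℚ M) h2
        rw [map_mul] at h3
        simpa using h3
      rw [h1]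
      exact Submodule.smul_mem _ _ (Submodule.subset_span ⟨i, rfl⟩)
    rw [hb, NumberField.mem_span_integralBasis] at hmem
    obtain ⟨ω, hω⟩ := hmem
    rw [← hω]
    exact NumberField.RingOfIntegers.isIntegral_coe ω

end Lattice

end Fermat.Agent.S55.helper11
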