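import Fermat.Agent.S55.helper59_BDefs2
import Fermat.Agent.S55.helper11_Rec1Hyps
import Fermat.Agent.S55.helper13_LocDualTools

/-!
# S55 module B: definitions for the packages B-AR-REC and B-AR-SHA-L (v3)

* `HypRecP Inv p` : the reciprocity law for `p`-torsion classes (conclusion of
  `helper11.reciprocity_pTorsion_SL`), as a `Prop`;
* `MixedRec S L Inv ζ inv` : reciprocity in the language of module B, in MIXED form: the places
  above `S` are seen through the arithmetic local datum `L` and its functionals `inv`, finitely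
  many further places `V` through arbitrary `LocDatum`s;
* `bockCochain` : the 2-cochain `α₀ ∘ res - x ∪ γ` of the local computation for (I7a);
* `HypShaLoc Inv p` : the local computation for (I7a), as a `Prop`.
-/

set_option autoImplicit false

open groupCohomology ExtCitation
open scoped NumberField
open IsDedekindDomain

noncomputable section

namespace Fermat.Agent.S55.helper59

open Fermat.Agent.S55

local instance factOfPrimes3 (q : Nat.Primes) : Fact (q : ℕ).Prime := ⟨q.2⟩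

local notation "Qbar" => AlgebraicClosure ℚ

/-- RECIPROCITY for `p`-torsion classes (= conclusion of `helper11.reciprocity_pTorsion_SL`). -/
def HypRecP (Inv : helper11.LocInv) (p : ℕ) : Prop :=
  ∀ (F L : Type) [Field F] [NumberField F] [Field L] [NumberField L] [Algebra F L]
    [IsGalois F L] (x : groupCohomology.H2 (Rep.ofAlgebraAutOnUnits F L)), p • x = 0 →
    ∀ (ι : Type) [Fintype ι] (q : ι → ℕ) [∀ i, Fact (q i).Prime]
    (D : ∀ i, helper11.LocDatum (q i) F L) (v : ι → HeightOneSpectrum (𝓞 F)),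
    (∀ i, (D i).AtPlace (v i)) → Function.Injective v →
    (∀ (r : ℕ) [Fact r.Prime] (E : helper11.LocDatum r F L) (w : HeightOneSpectrum (𝓞 F)),
      E.AtPlace w → (∀ i, w ≠ v i) → E.loc x = 0) →
    ∑ i, Inv.inv (q i) (D i).Kv (D i).Lw ((D i).loc x) = 0

section Mixed

variable {p : ℕ} [Fact p.Prime] (S : Finset Nat.Primes) {F : IntermediateField ℚ Qbar}
  [NumberField ↥F] {𝒩 : Levels (UF F)} {ι : Type} [Fintype ι]

/-- MIXED RECIPROCITY in the language of module B.  `E/F` is a finite Galois extension inside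
`ℚbar`, unramified outside `S ∪ V`; `c` is a 2-cocycle of `Gal(E/F)` with values in `ℤ/p`.  The
sum of the `inv_w` of the restrictions of (the inflation of) `c` to the local groups of `L`,
plus the sum over `v ∈ V` of the invariants of the localisations of the class of `ζ ^ c` at
arbitrary local data `D v` at `v`, vanishes.  (`V = ∅` gives field (I3) of `BaseInput`.) -/
def MixedRec (L : LocalData (UF F) 𝒩 ι) (Inv : helper11.LocInv) (ζ : (↥F)ˣ)
    (inv : ∀ w : ι, (L.Gv w × L.Gv w → ZMod p) →ₗ[ZMod p] ZMod p) : Prop :=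
  ∀ (E : IntermediateField ↥F Qbar) [FiniteDimensional ↥F ↥E] [IsGalois ↥F ↥E]
    [NumberField ↥E] (c : (E ≃ₐ[↥F] E) × (E ≃ₐ[↥F] E) → ZMod p),
    c ∈ LinearMap.ker (d₂₃ (Rep.trivial (ZMod p) (E ≃ₐ[↥F] E) (ZMod p))).hom →
    ∀ (V : Finset (HeightOneSpectrum (𝓞 ↥F))),
    (∀ v ∈ V, v.asIdeal ∉ helper75.primesOverS (↥F) S) →
    (∀ v : HeightOneSpectrum (𝓞 ↥F), v.asIdeal ∉ helper75.primesOverS (↥F) S → v ∉ V →
      helper11.UnramAt ↥F ↥E v) →
    ∀ (qV : ↥V → ℕ) [∀ v, Fact (qV v).Prime] (D : ∀ v : ↥V, helper11.LocDatum (qV v) ↥F ↥E),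
    (∀ v : ↥V, (D v).AtPlace v.1) →
    helper13.qz p (∑ w, inv w (fun s => c (resFix F E (L.r w s.1), resFix F E (L.r w s.2)))) +
      ∑ v : ↥V, Inv.inv (qV v) (D v).Kv (D v).Lw ((D v).loc
        (helper8.mulClass ↥F ↥E
          (helper8.zetaCochain p (Units.map (algebraMap ↥F ↥E : ↥F →* ↥E) ζ) c))) = 0

end Mixed

section ShaLoc

/-- the 2-cochain `ξ(σ,τ) = α₀(σ̄,τ̄) - x₀(σ̄) γ(τ)` on `G`, for `res : G → G₀`, `σ̄ = res σ` -/
def bockCochain {p : ℕ} {G G₀ : Type} (res : G → G₀) (α₀ : G₀ × G₀ → ZMod p)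
    (x₀ : G₀ → ZMod p) (γ : G → ZMod p) : G × G → ZMod p :=
  fun g => α₀ (res g.1, res g.2) - x₀ (res g.1) * γ g.2

/-- THE LOCAL COMPUTATION FOR (I7a).  `K ⊆ L₀ ⊆ L` finite extensions of `ℚ_q`, `q ≠ p`,
`L₀/K` unramified, `L/K` Galois, `ζ ∈ K` a primitive `p`-th root of unity, `x₀` a character of
`Gal(L₀/K)` which is nontrivial on the Frobenius, `B ∈ L` with `B ^ p = A ∈ L₀`, `p ∤ ord A`,
`σ B = ζ ^ γ(σ) · u₀(σ̄) · B` with `u₀` unit-valued.  If `ξ = α₀ ∘ res - x₀ ∘ res ∪ γ` is a 2-cocycle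
then the invariant of the class of `ζ ^ ξ` is NONZERO (it is `∓ ord(A) x₀(Frob) / p`). -/
def HypShaLoc (Inv : helper11.LocInv) (p : ℕ) [Fact p.Prime] : Prop :=
  ∀ (q : ℕ) [Fact q.Prime], q ≠ p →
  ∀ (K L₀ L : Type) [Field K] [Field L₀] [Field L] [Algebra ℚ_[q] K] [FiniteDimensional ℚ_[q] K]
    [Algebra ℚ_[q] L₀] [Algebra K L₀] [IsScalarTower ℚ_[q] K L₀] [FiniteDimensional K L₀]
    [IsGalois K L₀] [Algebra K L] [FiniteDimensional K L] [IsGalois K L] [Algebra L₀ L]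
    [IsScalarTower K L₀ L],
    helper8.IsUnram q K L₀ → ∀ φ : L₀ ≃ₐ[K] L₀, helper8.IsFrob q K L₀ φ →
    ∀ ζ : Kˣ, IsPrimitiveRoot ζ p →
    ∀ (x₀ : (L₀ ≃ₐ[K] L₀) →* Multiplicative (ZMod p)), x₀ φ ≠ 1 →
    ∀ (α₀ : (L₀ ≃ₐ[K] L₀) × (L₀ ≃ₐ[K] L₀) → ZMod p) (u₀ : (L₀ ≃ₐ[K] L₀) → L₀ˣ),
    (∀ σ, u₀ σ ∈ helper8.unitGroup q L₀) →
    ∀ (A : L₀ˣ), ¬ (p : ℤ) ∣ helper8.ord q L₀ A →
    ∀ (B : L), B ^ p = algebraMap L₀ L (A : L₀) →
    ∀ (γ : (L ≃ₐ[K] L) → ZMod p),
    (∀ σ : L ≃ₐ[K] L, σ B = algebraMap K L ((ζ : K) ^ (γ σ).val) *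
      algebraMap L₀ L (u₀ (helper11.locHom K L₀ K L σ) : L₀) * B) →
    bockCochain (helper11.locHom K L₀ K L) α₀ (fun σ => Multiplicative.toAdd (x₀ σ)) γ ∈
      LinearMap.ker (d₂₃ (Rep.trivial (ZMod p) (L ≃ₐ[K] L) (ZMod p))).hom →
    Inv.inv q K L (helper8.mulClass K L
      (helper8.zetaCochain p (Units.map (algebraMap K L : K →* L) ζ)
        (bockCochain (helper11.locHom K L₀ K L) α₀ (fun σ => Multiplicative.toAdd (x₀ σ)) γ))) ≠ 0

end ShaLoc

end Fermat.Agent.S55.helper59
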