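import Fermat.Agent.S55.helper84_HasseNorm2
import Fermat.Agent.S55.helper6_G9Cyc
import Fermat.Agent.S55.helper60_RecHasse

/-!
# S55 / GLOB G8 (helper84): wiring of the Hasse norm theorem into G9 / REC1

From the two inequalities and G3a in the presence of `ζ_p`:
* `hasseNormCyc_of_inputs : helper6.HasseNormCyc p`
* `hasse_principle_H2_of_inputs` (shape of `helper73.Interface.hasse_principle_H2`)
* `globHasse_of_inputs : helper60.GlobHasse p`
-/

set_option autoImplicit false
set_option linter.style.haveILetI false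
set_option linter.unusedSectionVars false
set_option linter.unusedVariables false

open scoped TensorProduct NumberField

universe u

namespace Fermat.Agent.S55.helper84

open Fermat.Agent.S55.helper73 groupCohomology

theorem hasseNormCyc_of_inputs (p : ℕ) (hp : p.Prime)
    (hI1 : Ineq1Zeta.{u} p) (hI2 : Ineq2Zeta.{u} p) (hG3a : G3aZeta.{u} p) :
    Fermat.Agent.S55.helper6.HasseNormCyc.{u} p :=
  fun K L _ _ _ _ _ _ hdeg b hloc => hasse_norm_of_inputs p hp hI1 hI2 hG3a K L hdeg b hloc

theorem hasse_principle_H2_of_inputs (p : ℕ) (hp : p.Prime)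
    (hI1 : Ineq1Zeta.{u} p) (hI2 : Ineq2Zeta.{u} p) (hG3a : G3aZeta.{u} p)
    (K L : Type u) [Field K] [NumberField K] [Field L] [NumberField L] [Algebra K L]
    [IsGalois K L] (n : ℕ) (hdeg : Module.finrank K L = p ^ n)
    (x : Gal(L/K) × Gal(L/K) → Lˣ) (hx : IsMulCocycle₂ x)
    (hloc : ∀ q : Nat.Primes,
      IsMulCoboundary₂ (fun g : Gal(L/K) × Gal(L/K) => principalPi L (x g) q)) :
    IsMulCoboundary₂ x := by
  haveI : Fact p.Prime := ⟨hp⟩
  exact Fermat.Agent.S55.helper6.hasse_principle_H2_of_hasseNorm p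
    (hasseNormCyc_of_inputs p hp hI1 hI2 hG3a) K L n hdeg x hx hloc

theorem globHasse_of_inputs (p : ℕ) (hp : p.Prime)
    (hI1 : Ineq1Zeta.{0} p) (hI2 : Ineq2Zeta.{0} p) (hG3a : G3aZeta.{0} p) :
    Fermat.Agent.S55.helper60.GlobHasse p :=
  fun K L _ _ _ _ _ _ n hdeg x hx hloc =>
    hasse_principle_H2_of_inputs p hp hI1 hI2 hG3a K L n hdeg x hx hloc

end Fermat.Agent.S55.helper84
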