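import Fermat.Agent.S55.helper73_Ineq1Final
import Fermat.Agent.S55.helper84_HasseNormCyc
import Fermat.Agent.S55.helper6_G9Final

/-!
# S55 / GLOB: final wiring, conditional ONLY on the second inequality (helper73, coordinator)

Unconditional:
* `exists_finset_intUnits_trivial` (G3a, interface v2 verbatim),
* `ineq1Zeta`, `g3aZeta`, `cyclicIneq1` : the Prop-packaged forms used by G8 / G9.

Conditional on `hI2 : helper84.Ineq2Zeta p` (second inequality for cyclic extensions of degree
`p` whose base field contains `ζ_p`) -- and on nothing else: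
* `ideleClass_hilbert90_of_ineq2`, `cyclicH90_of_ineq2`, `hypH90_of_ineq2`
* `hasse_norm_of_ineq2` (no roots of unity), `hasseNormCyc_of_ineq2`
* `hasse_principle_H2_of_ineq2`, `globHasse_of_ineq2` (`= helper60.GlobHasse p`, input of REC1)
* `ideleClass_H1_trivial_of_ineq2`
-/

set_option autoImplicit false

open scoped TensorProduct NumberField
open groupCohomology

universe u v

namespace Fermat.Agent.S55.helper73

section G3a

variable (K L : Type*) [Field K] [NumberField K] [Field L] [NumberField L] [Algebra K L]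
  [IsGalois K L]

/-- **G3a** (interface v2, verbatim): at almost all primes the integral units are
cohomologically trivial. -/
theorem exists_finset_intUnits_trivial
    (σ : Gal(L/K)) (hσ : ∀ τ : Gal(L/K), τ ∈ Subgroup.zpowers σ) :
    ∃ T : Finset Nat.Primes, ∀ q : Nat.Primes, q ∉ T →
      (∀ x ∈ intUnits (q : ℕ) L, (∀ τ : Gal(L/K), τ • x = x) →
        ∃ y ∈ intUnits (q : ℕ) L, normG Gal(L/K) (SemiLoc (q : ℕ) L)ˣ y = x) ∧
      (∀ x ∈ intUnits (q : ℕ) L, normG Gal(L/K) (SemiLoc (q : ℕ) L)ˣ x = 1 →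
        ∃ y ∈ intUnits (q : ℕ) L, σ • y / y = x) := by
  classical
  obtain ⟨T1, hT1⟩ := Fermat.Agent.S55.helper31.exists_finset_princUnits_trivial K L σ hσ
  obtain ⟨T2, hT2⟩ := Fermat.Agent.S55.helper3.exists_finset_intUnits_mod_princUnits K L σ hσ
  refine ⟨T1 ∪ T2, fun q hq => ?_⟩
  rw [Finset.mem_union, not_or] at hq
  exact Fermat.Agent.S55.helper21.intUnits_trivial_of_LAT2_RES K L (q : ℕ) σ
    (hT1 q hq.1) (hT2 q hq.2)

end G3a

section Props

/-- The first inequality in the packaged form of `helper84`. -/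
theorem ineq1Zeta (p : ℕ) (hp : p.Prime) (hp2 : p ≠ 2) :
    Fermat.Agent.S55.helper84.Ineq1Zeta.{u} p :=
  fun K L _ _ _ _ _ _ hdeg _ σ hσ => ineq1 K L p hp hp2 hdeg σ hσ

/-- G3a in the packaged form of `helper84`. -/
theorem g3aZeta (p : ℕ) : Fermat.Agent.S55.helper84.G3aZeta.{u} p :=
  fun K L _ _ _ _ _ _ _ _ σ hσ => exists_finset_intUnits_trivial K L σ hσ

/-- The first inequality in the packaged form of `helper78`. -/
theorem cyclicIneq1 (p : ℕ) (hp : p.Prime) (hp2 : p ≠ 2) :
    Fermat.Agent.S55.helper78.CyclicIneq1.{u, v} p :=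
  fun K L _ _ _ _ _ _ hdeg σ hσ => ineq1 K L p hp hp2 hdeg σ hσ

end Props

section FromIneq2

variable (p : ℕ) (hp : p.Prime) (hp2 : p ≠ 2)

include hp hp2

/-- `Ĥ^{-1}(G, C_L) = 1` for cyclic `L/K` of odd prime degree `p`, `ζ_p ∈ K`
(interface v1 `ideleClass_hilbert90`), from the second inequality. -/
theorem ideleClass_hilbert90_of_ineq2 (hI2 : Fermat.Agent.S55.helper84.Ineq2Zeta.{u} p)
    (K L : Type u) [Field K] [NumberField K] [Field L] [NumberField L] [Algebra K L]
    [IsGalois K L] (hdeg : Module.finrank K L = p) (hζ : ∃ ζ : K, IsPrimitiveRoot ζ p)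
    (σ : Gal(L/K)) (hσ : σ ≠ 1) (x : IdeleClass L)
    (hx : normG Gal(L/K) (IdeleClass L) x = 1) : ∃ y : IdeleClass L, σ • y / y = x :=
  Fermat.Agent.S55.helper84.ideleClass_hilbert90_of K L p hp.pos σ
    (ineq1 K L p hp hp2 hdeg σ hσ) (hI2 K L hdeg hζ) x hx

/-- `helper78.CyclicH90 p` from the second inequality. -/
theorem cyclicH90_of_ineq2 (hI2 : Fermat.Agent.S55.helper84.Ineq2Zeta.{u} p) :
    Fermat.Agent.S55.helper78.CyclicH90.{u, u} p :=
  fun K L _ _ _ _ _ _ hdeg hζ σ hσ x hx =>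
    ideleClass_hilbert90_of_ineq2 p hp hp2 hI2 K L hdeg hζ σ hσ x hx

/-- `helper6.HypH90 p` from the second inequality. -/
theorem hypH90_of_ineq2 (hI2 : Fermat.Agent.S55.helper84.Ineq2Zeta.{u} p) :
    Fermat.Agent.S55.helper6.HypH90.{u} p :=
  fun K L _ _ _ _ _ _ hdeg hζ σ hσ x hx =>
    ideleClass_hilbert90_of_ineq2 p hp hp2 hI2 K L hdeg hζ σ hσ x hx

/-- **Hasse norm theorem** for cyclic extensions of odd prime degree, no hypothesis on roots
of unity (interface v1 `hasse_norm`), from the second inequality. -/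
theorem hasse_norm_of_ineq2 (hI2 : Fermat.Agent.S55.helper84.Ineq2Zeta.{u} p)
    (K : Type v) (L : Type u) [Field K] [NumberField K] [Field L] [NumberField L] [Algebra K L]
    [IsGalois K L] (hdeg : Module.finrank K L = p) (b : Kˣ)
    (hloc : ∀ q : Nat.Primes, ∃ y : (SemiLoc (q : ℕ) L)ˣ,
      normG Gal(L/K) (SemiLoc (q : ℕ) L)ˣ y =
        principalPi L (Units.map (algebraMap K L : K →* L) b) q) :
    ∃ y : Lˣ, normG Gal(L/K) Lˣ y = Units.map (algebraMap K L : K →* L) b :=
  Fermat.Agent.S55.helper84.hasse_norm_of_inputs p hp (ineq1Zeta p hp hp2) hI2 (g3aZeta p)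
    K L hdeg b hloc

/-- `helper6.HasseNormCyc p` from the second inequality. -/
theorem hasseNormCyc_of_ineq2 (hI2 : Fermat.Agent.S55.helper84.Ineq2Zeta.{u} p) :
    Fermat.Agent.S55.helper6.HasseNormCyc.{u} p :=
  Fermat.Agent.S55.helper84.hasseNormCyc_of_inputs p hp (ineq1Zeta p hp hp2) hI2 (g3aZeta p)

/-- **Hasse principle for `H²(G, Lˣ)`**, `G` of odd prime power order (interface v1
`hasse_principle_H2`), from the second inequality. -/
theorem hasse_principle_H2_of_ineq2 (hI2 : Fermat.Agent.S55.helper84.Ineq2Zeta.{u} p)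
    (K L : Type u) [Field K] [NumberField K] [Field L] [NumberField L] [Algebra K L]
    [IsGalois K L] (n : ℕ) (hdeg : Module.finrank K L = p ^ n)
    (x : Gal(L/K) × Gal(L/K) → Lˣ) (hx : IsMulCocycle₂ x)
    (hloc : ∀ q : Nat.Primes,
      IsMulCoboundary₂ (fun g : Gal(L/K) × Gal(L/K) => principalPi L (x g) q)) :
    IsMulCoboundary₂ x :=
  Fermat.Agent.S55.helper84.hasse_principle_H2_of_inputs p hp (ineq1Zeta p hp hp2) hI2
    (g3aZeta p) K L n hdeg x hx hloc

/-- `helper60.GlobHasse p` (the input of REC1) from the second inequality. -/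
theorem globHasse_of_ineq2 (hI2 : Fermat.Agent.S55.helper84.Ineq2Zeta.{0} p) :
    Fermat.Agent.S55.helper60.GlobHasse p :=
  Fermat.Agent.S55.helper84.globHasse_of_inputs p hp (ineq1Zeta p hp hp2) hI2 (g3aZeta p)

/-- `H¹(G, C_L) = 0` for Galois extensions of odd prime power degree (interface v1
`ideleClass_H1_trivial`), from the second inequality. -/
theorem ideleClass_H1_trivial_of_ineq2 (hI2 : Fermat.Agent.S55.helper84.Ineq2Zeta.{v} p)
    (K : Type u) (L : Type v) [Field K] [NumberField K] [Field L] [NumberField L] [Algebra K L]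
    [IsGalois K L] (n : ℕ) (hdeg : Module.finrank K L = p ^ n)
    (f : Gal(L/K) → IdeleClass L) (hf : IsMulCocycle₁ f) : IsMulCoboundary₁ f :=
  haveI : Fact p.Prime := ⟨hp⟩
  Fermat.Agent.S55.helper6.ideleClass_H1_trivial_of_hypH90 p (hypH90_of_ineq2 p hp hp2 hI2)
    K L n hdeg f hf

end FromIneq2

end Fermat.Agent.S55.helper73
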