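import Fermat.Agent.S55.helper11_Rec1Final
import Fermat.Agent.S55.helper59_BDefs3
import Fermat.Agent.S55.helper73_GlobFinal

/-!
# S55 / REC1: the reciprocity law in the shape consumed by module B (helper11)

* `hypRecP_of_globHasse` : `helper59.HypRecP Inv p` from the GLOB input `helper60.GlobHasse p`;
* `hypRecP_of_ineq2` : `helper59.HypRecP Inv p` from the second inequality
  `helper84.Ineq2Zeta p` (the only open input of GLOB).
-/

set_option autoImplicit false

open groupCohomology
open scoped NumberField
open IsDedekindDomain

noncomputable section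

namespace Fermat.Agent.S55.helper11

/-- The reciprocity law for `p`-torsion classes, in the shape `helper59.HypRecP`, from the
Hasse principle `helper60.GlobHasse p`. -/
theorem hypRecP_of_globHasse (Inv : LocInv) (p : ℕ) [Fact p.Prime] (hp2 : p ≠ 2)
    (hG : helper60.GlobHasse p) : helper59.HypRecP Inv p := by
  intro F L _ _ _ _ _ _ x hx ι _ q _ D v hv hinj hsupp
  exact reciprocity_pTorsion Inv p hp2 hG F L x hx ι q D v hv hinj hsupp

/-- The reciprocity law for `p`-torsion classes, in the shape `helper59.HypRecP`, from the
second inequality (with `ζ_p` in the base field). -/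
theorem hypRecP_of_ineq2 (Inv : LocInv) (p : ℕ) [Fact p.Prime] (hp2 : p ≠ 2)
    (hI2 : helper84.Ineq2Zeta.{0} p) : helper59.HypRecP Inv p :=
  hypRecP_of_globHasse Inv p hp2 (helper73.globHasse_of_ineq2 p Fact.out hp2 hI2)

end Fermat.Agent.S55.helper11
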