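import Fermat.Agent.S55.helper78_G9Defs

/-!
# S55 / GLOB-G9-A2 (helper12, task 401): the order of `H²` in an inflation–restriction situation

Pure group cohomology in cocycle form.

* `h2card_dvd_mul` : if `(π, ι)` is an inflation datum `G → Q`, `B → M`, `S' ≅ ker π` acts on `M`
  compatibly and `H¹(S', M) = 1`, then `|H²(G, M)|` is finite (nonzero) and divides
  `|H²(Q, B)| · |H²(S', M)|`.
* `h2card_of_subsingleton` : `|H²(1, M)| = 1`.

Auxiliary (reusable): `isMulCocycle₂_of_isMulCoboundary₂'`, `B2_le_Z2`, `resHom`, `inflHom`,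
`relIndex_dvd_relIndex_of_le`, `relIndex_map_dvd`.
-/

set_option autoImplicit false

open groupCohomology

namespace Fermat.Agent.S55.helper12

open Fermat.Agent.S55.helper6 Fermat.Agent.S55.helper78

section Abstract

variable {A A' : Type*} [CommGroup A] [CommGroup A']

/-- In a commutative group: if `K ≤ L` and `H ≤ L` then `[K : H ⊓ K]` divides `[L : H]`. -/
theorem relIndex_dvd_relIndex_of_le {H K L : Subgroup A} (hHL : H ≤ L) (hKL : K ≤ L) :
    H.relIndex K ∣ H.relIndex L := by
  have h1 : H.relIndex (K ⊔ H) = H.relIndex K := Subgroup.relIndex_sup_right K H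
  have h2 : H.relIndex (K ⊔ H) * (K ⊔ H).relIndex L = H.relIndex L :=
    Subgroup.relIndex_mul_relIndex H (K ⊔ H) L le_sup_right (sup_le hKL hHL)
  rw [← h1, ← h2]
  exact dvd_mul_right _ _

/-- The relative index of images divides the relative index. -/
theorem relIndex_map_dvd (φ : A →* A') (H K : Subgroup A) :
    (H.map φ).relIndex (K.map φ) ∣ H.relIndex K := by
  rw [← Subgroup.relIndex_comap]
  exact Subgroup.relIndex_dvd_of_le_left K (Subgroup.le_comap_map φ H)

end Abstract

section Cochains

variable {G M : Type*} [Group G] [CommGroup M] [MulDistribMulAction G M]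

/-- A multiplicative 2-coboundary is a 2-cocycle (direct computation). -/
theorem isMulCocycle₂_of_isMulCoboundary₂' {f : G × G → M} (hf : IsMulCoboundary₂ f) :
    IsMulCocycle₂ f := by
  obtain ⟨x, hx⟩ := hf
  intro g h j
  simp only [← hx, smul_mul', smul_div', mul_smul, mul_assoc]
  apply Additive.ofMul.injective
  simp only [ofMul_mul, ofMul_div]
  abel

theorem B2_le_Z2 (G M : Type*) [Group G] [CommGroup M] [MulDistribMulAction G M] :
    B2 G M ≤ Z2 G M :=
  fun _ hf => isMulCocycle₂_of_isMulCoboundary₂' hf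

/-- Pull-back of 2-cochains along a map `j : S' → G` (a group homomorphism of cochain groups). -/
def resHom {S' : Type*} (j : S' → G) (M : Type*) [CommGroup M] :
    (G × G → M) →* (S' × S' → M) where
  toFun f := fun p => f (j p.1, j p.2)
  map_one' := rfl
  map_mul' _ _ := rfl

omit [Group G] [MulDistribMulAction G M] in
@[simp]
lemma resHom_apply {S' : Type*} (j : S' → G) (f : G × G → M) (p : S' × S') :
    resHom j M f p = f (j p.1, j p.2) := rfl

/-- Inflation of 2-cochains along `π : G → Q`, `ι : B →* M` (a group homomorphism of cochain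
groups). -/
def inflHom {Q B : Type*} [CommGroup B] (π : G → Q) (ι : B →* M) :
    (Q × Q → B) →* (G × G → M) where
  toFun c := fun p => ι (c (π p.1, π p.2))
  map_one' := by
    funext p
    simp
  map_mul' c c' := by
    funext p
    simp

omit [Group G] [MulDistribMulAction G M] in
@[simp]
lemma inflHom_apply {Q B : Type*} [CommGroup B] (π : G → Q) (ι : B →* M) (c : Q × Q → B)
    (p : G × G) : inflHom π ι c p = ι (c (π p.1, π p.2)) := rfl

variable {S' : Type*} [Group S'] [MulDistribMulAction S' M]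

/-- Restriction of a cocycle is a cocycle. -/
lemma isMulCocycle₂_resHom (j : S' →* G) (hj : ∀ (s : S') (m : M), j s • m = s • m)
    {f : G × G → M} (hf : IsMulCocycle₂ f) : IsMulCocycle₂ (resHom j M f) := by
  intro s t u
  have h := hf (j s) (j t) (j u)
  simp only [resHom_apply, map_mul]
  rw [h, hj]

/-- Restriction of a coboundary is a coboundary. -/
lemma isMulCoboundary₂_resHom (j : S' →* G) (hj : ∀ (s : S') (m : M), j s • m = s • m)
    {f : G × G → M} (hf : IsMulCoboundary₂ f) : IsMulCoboundary₂ (resHom j M f) := by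
  obtain ⟨x, hx⟩ := hf
  refine ⟨fun s => x (j s), fun s t => ?_⟩
  have h := hx (j s) (j t)
  simp only [resHom_apply]
  rw [← h, hj, map_mul]

end Cochains

/-! ## A2 : the order of `H²` in an inflation–restriction situation -/

theorem h2card_dvd_mul {G Q S' M B : Type*} [Group G] [Group Q] [Group S'] [CommGroup M]
    [CommGroup B] [MulDistribMulAction G M] [MulDistribMulAction Q B] [MulDistribMulAction S' M]
    {π : G →* Q} {ι : B →* M} (D : InflDatum π ι) (j : S' →* G)
    (hj : ∀ (s : S') (m : M), j s • m = s • m) (hinj : Function.Injective j)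
    (hrange : j.range = π.ker) (hH1 : H1Trivial S' M)
    (hQ : h2card Q B ≠ 0) (hS : h2card S' M ≠ 0) :
    h2card G M ≠ 0 ∧ h2card G M ∣ h2card Q B * h2card S' M := by
  have hH1' : H1TrivialOn π.ker M := h1TrivialOn_of_hom j hj π.ker hrange hH1
  -- the subgroup of cocycles whose restriction to `S'` is a coboundary
  set Kr : Subgroup (G × G → M) := (B2 S' M).comap (resHom j M) ⊓ Z2 G M with hKr
  have hBKr : B2 G M ≤ Kr := fun f hf =>
    ⟨isMulCoboundary₂_resHom j hj hf, B2_le_Z2 G M hf⟩
  have hKrZ : Kr ≤ Z2 G M := inf_le_right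
  -- (1) `[Z² G : Kr]` divides `h2card S' M`
  have h1 : Kr.relIndex (Z2 G M) ∣ h2card S' M := by
    rw [hKr, Subgroup.inf_relIndex_right, Subgroup.relIndex_comap]
    refine relIndex_dvd_relIndex_of_le (B2_le_Z2 S' M) ?_
    rintro _ ⟨f, hf, rfl⟩
    exact isMulCocycle₂_resHom j hj hf
  -- (2) `[Kr : B² G]` divides `h2card Q B`
  have hKrle : Kr ≤ (Z2 Q B).map (inflHom π ι) ⊔ B2 G M := by
    rintro f ⟨hfres, hfZ⟩
    have hres : ∃ x : G → M, ∀ s ∈ π.ker, ∀ t ∈ π.ker,
        s • x t / x (s * t) * x s = f (s, t) := by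
      have := res_isMulCoboundary₂_of_hom j hj hinj f hfres
      rwa [hrange] at this
    obtain ⟨c, x, hc, hcx⟩ := D.exists_infl_of_res_isMulCoboundary₂ hH1' f hfZ hres
    have hf : f = inflHom π ι c * (fun p : G × G => p.1 • x p.2 / x (p.1 * p.2) * x p.1) := by
      funext p
      exact hcx p.1 p.2
    rw [hf]
    exact Subgroup.mul_mem_sup (Subgroup.mem_map_of_mem _ hc) ⟨x, fun g h => rfl⟩
  have hBB : (B2 Q B).map (inflHom π ι) ≤ B2 G M := by
    rintro _ ⟨c, hc, rfl⟩
    exact D.isMulCoboundary₂_comp hc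
  have h2 : (B2 G M).relIndex Kr ∣ h2card Q B := by
    have e1 : (B2 G M).relIndex Kr ∣
        (B2 G M).relIndex ((Z2 Q B).map (inflHom π ι) ⊔ B2 G M) :=
      relIndex_dvd_relIndex_of_le le_sup_right hKrle
    have e2 : (B2 G M).relIndex ((Z2 Q B).map (inflHom π ι) ⊔ B2 G M) =
        (B2 G M).relIndex ((Z2 Q B).map (inflHom π ι)) :=
      Subgroup.relIndex_sup_right _ _
    have e3 : (B2 G M).relIndex ((Z2 Q B).map (inflHom π ι)) ∣
        ((B2 Q B).map (inflHom π ι)).relIndex ((Z2 Q B).map (inflHom π ι)) :=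
      Subgroup.relIndex_dvd_of_le_left _ hBB
    have e4 : ((B2 Q B).map (inflHom π ι)).relIndex ((Z2 Q B).map (inflHom π ι)) ∣
        h2card Q B := relIndex_map_dvd _ _ _
    exact (e1.trans (e2 ▸ e3)).trans e4
  -- (3) multiplicativity of the relative index
  have h3 : (B2 G M).relIndex Kr * Kr.relIndex (Z2 G M) = h2card G M :=
    Subgroup.relIndex_mul_relIndex _ _ _ hBKr hKrZ
  have hdvd : h2card G M ∣ h2card Q B * h2card S' M := by
    rw [← h3]
    exact mul_dvd_mul h2 h1
  exact ⟨fun h0 => mul_ne_zero hQ hS (by rw [h0] at hdvd; exact zero_dvd_iff.mp hdvd), hdvd⟩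

/-- the trivial group -/
theorem h2card_of_subsingleton {G M : Type*} [Group G] [Subsingleton G] [CommGroup M]
    [MulDistribMulAction G M] : h2card G M = 1 := by
  rw [h2card, Subgroup.relIndex_eq_one]
  intro f _
  refine ⟨fun _ => f (1, 1), fun g h => ?_⟩
  have hg : g = 1 := Subsingleton.elim _ _
  have hh : h = 1 := Subsingleton.elim _ _
  subst hg hh
  simp

end Fermat.Agent.S55.helper12
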