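import Mathlib
import Fermat.Agent.S14.helper58_AuxPrime

/-!
# S55 / GLOB / G7-KUM (helper12): Kummer bookkeeping, field-theoretic part

`K` a number field containing a primitive `p`-th root of unity `ζ` (`p` prime).

* `exists_kummer_field` : for `x₀ ∈ Kˣ` not a `p`-th power there is a number field `N` (same
  universe), Galois of degree `p` over `K`, with `θ ∈ N`, `θ ^ p = x₀`.
* `exists_kummer_generator` : a Galois extension `L/K` of degree `p` is `K(a^(1/p))`.
* `exists_eq_pow_mul_pow` : Kummer descent: if `b ∈ K` is a `p`-th power in `L = K(a^(1/p))`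
  then `b = a ^ j * c ^ p`.
* auxiliary: `irreducible_of_not_pow`, `isSplittingField_of_pow_eq`, `adjoin_eq_top_of_pow_eq'`,
  `eq_one_of_apply_eq` (an element of `Gal(L/K)` fixing `θ` is trivial), `exists_pow_smul_eq`
  (`σ θ = ζ ^ j θ`).
-/

set_option autoImplicit false
set_option linter.unusedSectionVars false
set_option linter.style.haveILetI false

open Polynomial
open scoped NumberField

namespace Fermat.Agent.S55.helper12

section Field

variable {K : Type*} [Field K] {L : Type*} [Field L] [Algebra K L]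

/-- `X ^ p - a` is irreducible if `a` is not a `p`-th power. -/
lemma irreducible_of_not_pow {p : ℕ} (hp : p.Prime) {a : K} (ha : ¬ ∃ c : K, c ^ p = a) :
    Irreducible (X ^ p - C a : K[X]) :=
  X_pow_sub_C_irreducible_of_prime hp (fun b hb => ha ⟨b, hb⟩)

/-- The minimal polynomial of a `p`-th root of a non-`p`-th power. -/
lemma minpoly_of_pow_eq' {p : ℕ} (hp : p.Prime) {a : K} (ha : ¬ ∃ c : K, c ^ p = a) {θ : L}
    (hθ : θ ^ p = algebraMap K L a) : minpoly K θ = X ^ p - C a := by
  have hroot : aeval θ (X ^ p - C a : K[X]) = 0 := by simp [hθ]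
  exact (minpoly.eq_of_irreducible_of_monic (irreducible_of_not_pow hp ha) hroot
    (monic_X_pow_sub_C a hp.ne_zero)).symm

/-- In an extension of degree `p`, a `p`-th root of a non-`p`-th power generates. -/
lemma adjoin_eq_top_of_pow_eq' [FiniteDimensional K L] {p : ℕ} (hp : p.Prime)
    (hdeg : Module.finrank K L = p) {a : K} (ha : ¬ ∃ c : K, c ^ p = a) {θ : L}
    (hθ : θ ^ p = algebraMap K L a) : IntermediateField.adjoin K {θ} = ⊤ := by
  have hint : IsIntegral K θ := IsIntegral.of_finite K θ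
  apply IntermediateField.eq_of_le_of_finrank_eq' le_top
  rw [IntermediateField.finrank_top]
  have h1 := IntermediateField.adjoin.finrank hint
  rw [minpoly_of_pow_eq' hp ha hθ, natDegree_X_pow_sub_C] at h1
  have h2 := Module.finrank_mul_finrank K (IntermediateField.adjoin K {θ}) L
  rw [h1, hdeg] at h2
  exact Nat.eq_of_mul_eq_mul_left hp.pos (by rw [h2, mul_one])

/-- `L` is a splitting field of `X ^ p - a`. -/
lemma isSplittingField_of_pow_eq [FiniteDimensional K L] {p : ℕ} (hp : p.Prime)
    (hdeg : Module.finrank K L = p) {ζ : K} (hζ : IsPrimitiveRoot ζ p) {a : K}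
    (ha : ¬ ∃ c : K, c ^ p = a) {θ : L} (hθ : θ ^ p = algebraMap K L a) :
    IsSplittingField K L (X ^ p - C a) := by
  have hK : (primitiveRoots (Module.finrank K L) K).Nonempty := by
    rw [hdeg]
    exact ⟨ζ, (mem_primitiveRoots hp.pos).mpr hζ⟩
  have h := isSplittingField_X_pow_sub_C_of_root_adjoin_eq_top (K := K) (L := L) hK
    (a := a) (α := θ) (by rw [hdeg]; exact hθ) (adjoin_eq_top_of_pow_eq' hp hdeg ha hθ)
  rwa [hdeg] at h

/-- An automorphism fixing a generator `θ` is trivial. -/
lemma eq_one_of_apply_eq [FiniteDimensional K L] {p : ℕ} (hp : p.Prime)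
    (hdeg : Module.finrank K L = p) {a : K} (ha : ¬ ∃ c : K, c ^ p = a) {θ : L}
    (hθ : θ ^ p = algebraMap K L a) (σ : Gal(L/K)) (hσ : σ θ = θ) : σ = 1 := by
  have htop := adjoin_eq_top_of_pow_eq' hp hdeg ha hθ
  have h1 : σ ∈ (IntermediateField.adjoin K {θ}).fixingSubgroup := by
    rw [IntermediateField.mem_fixingSubgroup_iff]
    intro x hx
    have hx' : x ∈ IntermediateField.fixedField (Subgroup.zpowers σ) := by
      have hle : IntermediateField.adjoin K {θ} ≤
          IntermediateField.fixedField (Subgroup.zpowers σ) := by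
        rw [IntermediateField.adjoin_le_iff]
        intro y hy
        rw [Set.mem_singleton_iff] at hy
        subst hy
        rintro ⟨τ, hτ⟩
        obtain ⟨n, rfl⟩ := Subgroup.mem_zpowers_iff.mp hτ
        change (σ ^ n) y = y
        have hfix : ∀ m : ℕ, (σ ^ m) y = y := by
          intro m
          induction m with
          | zero => simp
          | succ m ih => rw [pow_succ, AlgEquiv.mul_apply, hσ, ih]
        have hfix' : ∀ m : ℕ, (σ⁻¹ ^ m) y = y := by
          intro m
          have := hfix m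
          have h2 : (σ⁻¹ ^ m) ((σ ^ m) y) = y := by
            rw [← AlgEquiv.mul_apply, inv_pow, inv_mul_cancel]
            rfl
          rw [this] at h2
          exact h2
        rcases Int.eq_nat_or_neg n with ⟨m, rfl | rfl⟩
        · rw [zpow_natCast]; exact hfix m
        · rw [zpow_neg, zpow_natCast, ← inv_pow]; exact hfix' m
      exact hle hx
    exact hx' ⟨σ, Subgroup.mem_zpowers σ⟩
  rw [htop, IntermediateField.fixingSubgroup_top] at h1
  exact Subgroup.mem_bot.mp h1

/-- Every automorphism multiplies a `p`-th root `θ ≠ 0` of an element of `K` by a power of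
`ζ`. -/
lemma exists_pow_smul_eq {p : ℕ} (hp : p.Prime) {ζ : K} (hζ : IsPrimitiveRoot ζ p) {b : K}
    {β : L} (hβ : β ^ p = algebraMap K L b) (hβ0 : β ≠ 0) (σ : Gal(L/K)) :
    ∃ i : ℕ, i < p ∧ σ β = algebraMap K L ζ ^ i * β := by
  haveI : NeZero p := ⟨hp.ne_zero⟩
  have hζL : IsPrimitiveRoot (algebraMap K L ζ) p :=
    hζ.map_of_injective (algebraMap K L).injective
  have h1 : (σ β / β) ^ p = 1 := by
    rw [div_pow, ← map_pow, hβ, AlgEquiv.commutes, div_self]
    rw [← hβ]; exact pow_ne_zero _ hβ0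
  obtain ⟨i, hi, hiζ⟩ := hζL.eq_pow_of_pow_eq_one h1
  exact ⟨i, hi, by rw [hiζ, div_mul_cancel₀ _ hβ0]⟩

end Field

section Kummer

universe u v w

/-- A number field has a copy in every universe. -/
theorem exists_copy_universe (K : Type u) [Field K] [NumberField K]
    (N₀ : Type w) [Field N₀] [NumberField N₀] [Algebra K N₀] :
    ∃ (N : Type v) (_ : Field N) (_ : NumberField N) (_ : Algebra K N),
      Nonempty (N ≃ₐ[K] N₀) := by
  haveI : Countable N₀ :=
    (Module.finBasis ℚ N₀).equivFun.toEquiv.injective.countable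
  haveI : Small.{v} N₀ := Countable.toSmall N₀
  let e : Shrink.{v} N₀ ≃ₐ[K] N₀ := Shrink.algEquiv K N₀
  haveI : CharZero (Shrink.{v} N₀) :=
    charZero_of_injective_algebraMap (algebraMap K (Shrink.{v} N₀)).injective
  haveI : Module.Finite K N₀ := by
    haveI : Module.Finite ℚ N₀ := inferInstance
    exact Module.Finite.of_restrictScalars_finite ℚ K N₀
  haveI : Module.Finite K (Shrink.{v} N₀) := Module.Finite.equiv e.symm.toLinearEquiv
  haveI : NumberField (Shrink.{v} N₀) := NumberField.of_module_finite K (Shrink.{v} N₀)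
  exact ⟨Shrink.{v} N₀, inferInstance, inferInstance, inferInstance, ⟨e⟩⟩

variable (K : Type u) [Field K] [NumberField K]

/-- existence of the Kummer extension as a number field in the same universe as `K`. -/
theorem exists_kummer_field_same (p : ℕ) (hp : p.Prime) (ζ : K) (hζ : IsPrimitiveRoot ζ p)
    (x₀ : Kˣ) (hx₀ : ¬ ∃ c : K, c ^ p = (x₀ : K)) :
    ∃ (N : Type u) (_ : Field N) (_ : NumberField N) (_ : Algebra K N) (_ : IsGalois K N),
      Module.finrank K N = p ∧ ∃ θ : N, θ ^ p = algebraMap K N (x₀ : K) := by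
  have hirr : Irreducible (X ^ p - C (x₀ : K) : K[X]) := irreducible_of_not_pow hp hx₀
  haveI : Fact (Irreducible (X ^ p - C (x₀ : K) : K[X])) := ⟨hirr⟩
  have hζ' : (primitiveRoots p K).Nonempty := ⟨ζ, (mem_primitiveRoots hp.pos).mpr hζ⟩
  let N := AdjoinRoot (X ^ p - C (x₀ : K) : K[X])
  haveI hsp : IsSplittingField K N (X ^ p - C (x₀ : K)) :=
    isSplittingField_AdjoinRoot_X_pow_sub_C hζ' hirr
  haveI : FiniteDimensional K N := IsSplittingField.finiteDimensional N (X ^ p - C (x₀ : K))
  haveI : CharZero N := charZero_of_injective_algebraMap (algebraMap K N).injective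
  haveI : NumberField N := NumberField.of_module_finite K N
  refine ⟨N, inferInstance, inferInstance, inferInstance,
    isGalois_of_isSplittingField_X_pow_sub_C hζ' hirr N,
    finrank_of_isSplittingField_X_pow_sub_C hζ' hirr N, AdjoinRoot.root _, ?_⟩
  have h := AdjoinRoot.eval₂_root (X ^ p - C (x₀ : K) : K[X])
  have h2 : AdjoinRoot.root (X ^ p - C (x₀ : K) : K[X]) ^ p =
      AdjoinRoot.of (X ^ p - C (x₀ : K) : K[X]) (x₀ : K) := by
    simpa [sub_eq_zero] using h
  exact h2

/-- existence of the Kummer extension as a number field in any universe. -/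
theorem exists_kummer_field (p : ℕ) (hp : p.Prime) (ζ : K) (hζ : IsPrimitiveRoot ζ p)
    (x₀ : Kˣ) (hx₀ : ¬ ∃ c : K, c ^ p = (x₀ : K)) :
    ∃ (N : Type v) (_ : Field N) (_ : NumberField N) (_ : Algebra K N) (_ : IsGalois K N),
      Module.finrank K N = p ∧ ∃ θ : N, θ ^ p = algebraMap K N (x₀ : K) := by
  obtain ⟨N₀, _, _, _, hgal, hdeg, θ, hθ⟩ := exists_kummer_field_same K p hp ζ hζ x₀ hx₀
  obtain ⟨N, _, _, _, ⟨e⟩⟩ := exists_copy_universe.{u, v, u} K N₀
  refine ⟨N, inferInstance, inferInstance, inferInstance, IsGalois.of_algEquiv e.symm, ?_,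
    e.symm θ, ?_⟩
  · rw [e.toLinearEquiv.finrank_eq, hdeg]
  · rw [← map_pow, hθ, AlgEquiv.commutes]

variable (L : Type*) [Field L] [NumberField L] [Algebra K L] [IsGalois K L]

/-- a cyclic extension of degree `p` of a field containing `ζ_p` is a Kummer extension. -/
theorem exists_kummer_generator (p : ℕ) (hp : p.Prime) (hdeg : Module.finrank K L = p)
    (ζ : K) (hζ : IsPrimitiveRoot ζ p) :
    ∃ (a : Kˣ) (θ : L), (¬ ∃ c : K, c ^ p = (a : K)) ∧ θ ^ p = algebraMap K L (a : K) := by
  haveI : Fact p.Prime := ⟨hp⟩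
  haveI : NeZero p := ⟨hp.ne_zero⟩
  have hcard : Nat.card Gal(L/K) = p := by rw [IsGalois.card_aut_eq_finrank, hdeg]
  haveI : IsCyclic Gal(L/K) := isCyclic_of_prime_card hcard
  have hK : (primitiveRoots (Module.finrank K L) K).Nonempty := by
    rw [hdeg]
    exact ⟨ζ, (mem_primitiveRoots hp.pos).mpr hζ⟩
  obtain ⟨α, ⟨a, ha⟩, hα⟩ := exists_root_adjoin_eq_top_of_isCyclic K L hK
  rw [hdeg] at ha
  have hα0 : α ≠ 0 := by
    rintro rfl
    have h1 : IntermediateField.adjoin K {(0 : L)} = ⊥ := by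
      rw [IntermediateField.adjoin_simple_eq_bot_iff]
      exact zero_mem _
    rw [h1] at hα
    have h2 : Module.finrank K L = 1 := by
      rw [← IntermediateField.finrank_top', ← hα, IntermediateField.finrank_bot]
    rw [hdeg] at h2
    exact hp.one_lt.ne' h2
  have ha0 : a ≠ 0 := by
    rintro rfl
    rw [map_zero] at ha
    exact hα0 (pow_eq_zero_iff hp.ne_zero |>.mp ha.symm)
  refine ⟨Units.mk0 a ha0, α, ?_, ha.symm⟩
  rintro ⟨c, hc⟩
  rw [Units.val_mk0] at hc
  -- `α / c` is a `p`-th root of unity, hence in `K`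
  have hc0 : c ≠ 0 := by
    rintro rfl
    rw [zero_pow hp.ne_zero] at hc
    exact ha0 hc.symm
  have hζL : IsPrimitiveRoot (algebraMap K L ζ) p :=
    hζ.map_of_injective (algebraMap K L).injective
  have h1 : (α / algebraMap K L c) ^ p = 1 := by
    rw [div_pow, ← map_pow, hc, ha, div_self]
    exact pow_ne_zero _ hα0
  obtain ⟨i, -, hi⟩ := hζL.eq_pow_of_pow_eq_one h1
  have hcL : algebraMap K L c ≠ 0 := by
    rw [Ne, map_eq_zero]; exact hc0
  have hαK : α = algebraMap K L (ζ ^ i * c) := by
    rw [map_mul, map_pow, hi, div_mul_cancel₀ _ hcL]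
  have h2 : IntermediateField.adjoin K {α} = ⊥ := by
    rw [IntermediateField.adjoin_simple_eq_bot_iff, IntermediateField.mem_bot]
    exact ⟨_, hαK.symm⟩
  rw [h2] at hα
  have h3 : Module.finrank K L = 1 := by
    rw [← IntermediateField.finrank_top', ← hα, IntermediateField.finrank_bot]
  rw [hdeg] at h3
  exact hp.one_lt.ne' h3

/-- Kummer descent: an element of `K` which is a `p`-th power in `L = K(a^(1/p))` lies in
`a^ℤ K^p`. -/
theorem exists_eq_pow_mul_pow (p : ℕ) (hp : p.Prime) (hdeg : Module.finrank K L = p)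
    (ζ : K) (hζ : IsPrimitiveRoot ζ p) (a : Kˣ) (θ : L) (ha : ¬ ∃ c : K, c ^ p = (a : K))
    (hθ : θ ^ p = algebraMap K L (a : K)) (b : K) (β : L) (hβ : β ^ p = algebraMap K L b) :
    ∃ (j : ℕ) (c : K), b = (a : K) ^ j * c ^ p := by
  have hirr : Irreducible (X ^ p - C (a : K) : K[X]) := irreducible_of_not_pow hp ha
  haveI : IsSplittingField K L (X ^ p - C (a : K)) :=
    isSplittingField_of_pow_eq hp hdeg hζ ha hθ
  obtain ⟨j, -, hj, d, hd⟩ :=
    Fermat.Agent.S14.helper58.exists_pow_eq_mul_pow hp hζ hirr hβ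
  have ha0 : (a : K) ≠ 0 := a.ne_zero
  refine ⟨p - j, d / (a : K), ?_⟩
  rw [div_pow, hd]
  have h1 : (a : K) ^ p = (a : K) ^ (p - j) * (a : K) ^ j := by
    rw [← pow_add, Nat.sub_add_cancel hj]
  field_simp
  rw [h1]
  ring

end Kummer

end Fermat.Agent.S55.helper12
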