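import Mathlib
import Fermat.Agent.S55.helper12_Kummer
import Fermat.Agent.S55.helper89_ChevDefs

/-!
# S55 / GLOB / G7-KUM (helper12): Kummer bookkeeping, ramification and splitting

`K` a number field containing a primitive `p`-th root of unity `ζ`, `L/K` Galois of degree `p`,
`a ∈ Kˣ` not a `p`-th power, `θ ∈ L` with `θ ^ p = a`, `P` a prime of `𝓞 K` with `P ∤ p a`.

* `isUnramAt_of_kummer` : `P` is unramified in `L`.
* `ncard_primesOver_of_isPowMod` : if `a` is a `p`-th power modulo `P`, then `P` splits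
  completely in `L`.

Both follow from `eq_one_of_smul_sub_mem` : an element `σ` of `Gal(L/K)` with `σ θ₁ ≡ θ₁` modulo a
prime `Q ∣ P` (for an integral model `θ₁ = δ θ`) is trivial.

NOTE: the statements of `helper89_G7Plan` omit the hypothesis that `a` is not a `p`-th power in
`K`; without it they are false (`a = 1`, `θ = 1`, `L` arbitrary).
-/

set_option autoImplicit false
set_option linter.unusedSectionVars false
set_option linter.style.haveILetI false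

open Polynomial
open scoped NumberField Pointwise
open IsDedekindDomain

namespace Fermat.Agent.S55.helper12

open Fermat.Agent.S55.helper89

section Domain

/-- If `η ≠ 1` is a `p`-th root of unity (`p` prime) in a commutative ring and `η - 1` lies in a
proper ideal `Q`, then `p ∈ Q`. -/
lemma natCast_mem_of_root_sub_one_mem {R : Type*} [CommRing R] [IsDomain R] {p : ℕ}
    (hp : p.Prime) {η : R} (hη : η ^ p = 1) (hη1 : η ≠ 1) (Q : Ideal R) (h : η - 1 ∈ Q) :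
    (p : R) ∈ Q := by
  have hprim : IsPrimitiveRoot η p := by
    have hord : orderOf η ∣ p := orderOf_dvd_of_pow_eq_one hη
    rcases (Nat.dvd_prime hp).mp hord with h1 | h1
    · exact absurd (orderOf_eq_one_iff.mp h1) hη1
    · rw [← h1]; exact IsPrimitiveRoot.orderOf η
  have hsum : ∑ i ∈ Finset.range p, η ^ i = 0 := hprim.geom_sum_eq_zero hp.one_lt
  have h2 : Ideal.Quotient.mk Q η = 1 := by
    rw [← map_one (Ideal.Quotient.mk Q), Ideal.Quotient.eq]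
    exact h
  have h3 := congrArg (Ideal.Quotient.mk Q) hsum
  rw [map_sum] at h3
  simp only [map_pow, h2, one_pow, Finset.sum_const, Finset.card_range, nsmul_eq_mul, mul_one,
    map_zero] at h3
  rw [← map_natCast (Ideal.Quotient.mk Q), Ideal.Quotient.eq_zero_iff_mem] at h3
  exact h3

end Domain

section Model

variable (K : Type*) [Field K] [NumberField K] (L : Type*) [Field L] [NumberField L]
  [Algebra K L]

/-- Integral model at `P` of two `P`-units `a`, `d` of `K` and of a `p`-th root `θ` of `a`. -/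
lemma exists_integral_model (p : ℕ) (hp : p.Prime) (a d : K) (θ : L)
    (hθ : θ ^ p = algebraMap K L a) (P : HeightOneSpectrum (𝓞 K))
    (ha : P.valuation K a = 1) (hd : P.valuation K d = 1) :
    ∃ (δ a₁ d₁ : 𝓞 K) (θ₁ : 𝓞 L), δ ∉ P.asIdeal ∧ a₁ ∉ P.asIdeal ∧ d₁ ∉ P.asIdeal ∧
      algebraMap (𝓞 K) K a₁ = algebraMap (𝓞 K) K δ ^ p * a ∧
      algebraMap (𝓞 K) K d₁ = algebraMap (𝓞 K) K δ * d ∧
      algebraMap (𝓞 L) L θ₁ = algebraMap K L (algebraMap (𝓞 K) K δ) * θ ∧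
      θ₁ ^ p = algebraMap (𝓞 K) (𝓞 L) a₁ := by
  obtain ⟨na, ⟨δa, hδa⟩, hna⟩ := P.exists_primeCompl_mul_eq_of_integer a (le_of_eq ha)
  obtain ⟨nd, ⟨δd, hδd⟩, hnd⟩ := P.exists_primeCompl_mul_eq_of_integer d (le_of_eq hd)
  change δa ∉ P.asIdeal at hδa
  change δd ∉ P.asIdeal at hδd
  change a * algebraMap (𝓞 K) K δa = algebraMap (𝓞 K) K na at hna
  change d * algebraMap (𝓞 K) K δd = algebraMap (𝓞 K) K nd at hnd
  have hvδa : P.valuation K (algebraMap (𝓞 K) K δa) = 1 :=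
    (HeightOneSpectrum.valuation_eq_one_iff_notMem (K := K) (v := P)).mpr hδa
  have hvδd : P.valuation K (algebraMap (𝓞 K) K δd) = 1 :=
    (HeightOneSpectrum.valuation_eq_one_iff_notMem (K := K) (v := P)).mpr hδd
  have hna' : na ∉ P.asIdeal := by
    rw [← HeightOneSpectrum.valuation_eq_one_iff_notMem (K := K), ← hna, map_mul, ha, hvδa,
      one_mul]
  have hnd' : nd ∉ P.asIdeal := by
    rw [← HeightOneSpectrum.valuation_eq_one_iff_notMem (K := K), ← hnd, map_mul, hd, hvδd,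
      one_mul]
  obtain ⟨δ, hδ⟩ : ∃ δ : 𝓞 K, δ = δa * δd := ⟨_, rfl⟩
  have hδP : δ ∉ P.asIdeal := fun h =>
    (P.isPrime.mem_or_mem (hδ ▸ h)).elim hδa hδd
  obtain ⟨a₁, ha₁⟩ : ∃ a₁ : 𝓞 K, a₁ = δ ^ (p - 1) * (δd * na) := ⟨_, rfl⟩
  obtain ⟨d₁, hd₁⟩ : ∃ d₁ : 𝓞 K, d₁ = δa * nd := ⟨_, rfl⟩
  have hp1 : p - 1 + 1 = p := Nat.sub_add_cancel hp.one_le
  have e2 : algebraMap (𝓞 K) K δ = algebraMap (𝓞 K) K δa * algebraMap (𝓞 K) K δd := by
    rw [hδ, map_mul]
  have ha₁K : algebraMap (𝓞 K) K a₁ = algebraMap (𝓞 K) K δ ^ p * a := by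
    have h1 : algebraMap (𝓞 K) K a₁ = algebraMap (𝓞 K) K δ ^ (p - 1) *
        (algebraMap (𝓞 K) K δd * algebraMap (𝓞 K) K na) := by
      rw [ha₁, map_mul, map_pow, map_mul]
    rw [h1, ← hna]
    calc algebraMap (𝓞 K) K δ ^ (p - 1) * (algebraMap (𝓞 K) K δd * (a * algebraMap (𝓞 K) K δa))
        = algebraMap (𝓞 K) K δ ^ (p - 1) *
            (algebraMap (𝓞 K) K δa * algebraMap (𝓞 K) K δd) * a := by ring
      _ = algebraMap (𝓞 K) K δ ^ (p - 1) * algebraMap (𝓞 K) K δ * a := by rw [e2]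
      _ = algebraMap (𝓞 K) K δ ^ p * a := by rw [← pow_succ, hp1]
  have hd₁K : algebraMap (𝓞 K) K d₁ = algebraMap (𝓞 K) K δ * d := by
    rw [hd₁, map_mul, ← hnd, e2]; ring
  have ha₁P : a₁ ∉ P.asIdeal := by
    intro h
    rw [ha₁] at h
    rcases P.isPrime.mem_or_mem h with h1 | h1
    · exact hδP (P.isPrime.mem_of_pow_mem _ h1)
    · exact (P.isPrime.mem_or_mem h1).elim hδd hna'
  have hd₁P : d₁ ∉ P.asIdeal := fun h => (P.isPrime.mem_or_mem (hd₁ ▸ h)).elim hδa hnd'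
  -- the integral generator
  have hpow : (algebraMap K L (algebraMap (𝓞 K) K δ) * θ) ^ p =
      algebraMap K L (algebraMap (𝓞 K) K a₁) := by
    rw [mul_pow, hθ, ← map_pow, ← map_mul, ha₁K]
  have hint : IsIntegral ℤ (algebraMap K L (algebraMap (𝓞 K) K δ) * θ) := by
    apply IsIntegral.of_pow hp.pos
    rw [hpow]
    exact (NumberField.RingOfIntegers.isIntegral_coe a₁).algebraMap
  refine ⟨δ, a₁, d₁, ⟨_, hint⟩, hδP, ha₁P, hd₁P, ha₁K, hd₁K, rfl, ?_⟩
  apply NumberField.RingOfIntegers.ext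
  change (algebraMap K L (algebraMap (𝓞 K) K δ) * θ) ^ p =
    algebraMap K L (algebraMap (𝓞 K) K a₁)
  exact hpow

end Model

section Key

variable (K : Type*) [Field K] [NumberField K] (L : Type*) [Field L] [NumberField L]
  [Algebra K L] [IsGalois K L]

/-- **Key lemma.** An automorphism `σ` of the Kummer extension `L = K(θ)` with
`σ θ₁ ≡ θ₁` modulo a prime `Q` of `𝓞 L` (`Q ∤ p θ₁`, `θ₁ = δ θ` integral, `δ ≠ 0`) is trivial. -/
theorem eq_one_of_smul_sub_mem (p : ℕ) (hp : p.Prime) (hdeg : Module.finrank K L = p)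
    (ζ : K) (hζ : IsPrimitiveRoot ζ p) (a : Kˣ) (θ : L) (hx : ¬ ∃ c : K, c ^ p = (a : K))
    (hθ : θ ^ p = algebraMap K L (a : K)) (Q : Ideal (𝓞 L)) [Q.IsPrime]
    (hpQ : (p : 𝓞 L) ∉ Q) (δ : K) (hδ : δ ≠ 0) (θ₁ : 𝓞 L)
    (hθ₁ : algebraMap (𝓞 L) L θ₁ = algebraMap K L δ * θ) (hθ₁Q : θ₁ ∉ Q)
    (σ : Gal(L/K)) (hσ : σ • θ₁ - θ₁ ∈ Q) : σ = 1 := by
  haveI : NeZero p := ⟨hp.ne_zero⟩
  have hθ0 : θ ≠ 0 := by
    rintro rfl
    rw [zero_pow hp.ne_zero] at hθ
    have : (a : K) = 0 := (algebraMap K L).injective (by rw [← hθ, map_zero])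
    exact a.ne_zero this
  obtain ⟨i, -, hi⟩ := exists_pow_smul_eq hp hζ hθ hθ0 σ
  -- the root of unity `ζ ^ i` as an element of `𝓞 L`
  have hζLpow : (algebraMap K L ζ ^ i) ^ p = 1 := by
    rw [← pow_mul, mul_comm, pow_mul, ← map_pow, hζ.pow_eq_one, map_one, one_pow]
  have hηint : IsIntegral ℤ (algebraMap K L ζ ^ i) :=
    ⟨X ^ p - 1, monic_X_pow_sub_C 1 hp.ne_zero, by simp [hζLpow]⟩
  set η : 𝓞 L := ⟨algebraMap K L ζ ^ i, hηint⟩ with hη
  have hηp : η ^ p = 1 := by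
    apply NumberField.RingOfIntegers.ext
    change (algebraMap K L ζ ^ i) ^ p = 1
    exact hζLpow
  have hσθ₁ : σ • θ₁ = η * θ₁ := by
    apply NumberField.RingOfIntegers.ext
    change σ (algebraMap (𝓞 L) L θ₁) = (algebraMap K L ζ ^ i) * (algebraMap (𝓞 L) L θ₁)
    rw [hθ₁, map_mul, AlgEquiv.commutes, hi]
    ring
  have h1 : (η - 1) * θ₁ ∈ Q := by
    have : (η - 1) * θ₁ = σ • θ₁ - θ₁ := by rw [hσθ₁]; ring
    rw [this]; exact hσ
  have h2 : η - 1 ∈ Q := (Ideal.IsPrime.mem_or_mem inferInstance h1).resolve_right hθ₁Q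
  have hη1 : η = 1 := by
    by_contra hne
    exact hpQ (natCast_mem_of_root_sub_one_mem hp hηp hne Q h2)
  have hη1' : algebraMap K L ζ ^ i = 1 := by
    have := congrArg (fun x : 𝓞 L => (x : L)) hη1
    simpa [hη] using this
  apply eq_one_of_apply_eq hp hdeg hx hθ σ
  rw [hi, hη1', one_mul]

end Key

section Main

variable (K : Type*) [Field K] [NumberField K] (L : Type*) [Field L] [NumberField L]
  [Algebra K L] [IsGalois K L]

/-- A prime of `𝓞 L` over a prime `P ∌ p` does not contain `p`. -/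
lemma natCast_notMem_of_liesOver (p : ℕ) (P : HeightOneSpectrum (𝓞 K))
    (hp' : (p : 𝓞 K) ∉ P.asIdeal) (Q : Ideal (𝓞 L)) [hQ : Q.LiesOver P.asIdeal] :
    (p : 𝓞 L) ∉ Q := by
  intro h
  apply hp'
  rw [hQ.over, Ideal.under_def, Ideal.mem_comap]
  simpa using h

/-- An element of `𝓞 K` outside `P` is outside every prime of `𝓞 L` over `P`. -/
lemma algebraMap_notMem_of_liesOver (P : HeightOneSpectrum (𝓞 K)) {x : 𝓞 K}
    (hx : x ∉ P.asIdeal) (Q : Ideal (𝓞 L)) [hQ : Q.LiesOver P.asIdeal] :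
    algebraMap (𝓞 K) (𝓞 L) x ∉ Q := by
  intro h
  apply hx
  rw [hQ.over, Ideal.under_def, Ideal.mem_comap]
  exact h

/-- Kummer ramification: `K(a^(1/p))/K` is unramified at the primes not dividing `p a`. -/
theorem isUnramAt_of_kummer (p : ℕ) (hp : p.Prime) (hdeg : Module.finrank K L = p)
    (ζ : K) (hζ : IsPrimitiveRoot ζ p) (a : Kˣ) (θ : L) (hx : ¬ ∃ c : K, c ^ p = (a : K))
    (hθ : θ ^ p = algebraMap K L (a : K)) (P : HeightOneSpectrum (𝓞 K))
    (hp' : (p : 𝓞 K) ∉ P.asIdeal) (ha : P.valuation K (a : K) = 1) : IsUnramAt K L P := by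
  intro Q hQ hQP
  haveI := hQ
  haveI := hQP
  obtain ⟨δ, a₁, d₁, θ₁, hδP, ha₁P, -, ha₁K, -, hθ₁, hθ₁p⟩ :=
    exists_integral_model K L p hp (a : K) (a : K) θ hθ P ha ha
  have hpQ := natCast_notMem_of_liesOver K L p P hp' Q
  have hθ₁Q : θ₁ ∉ Q := by
    intro h
    have h1 : θ₁ ^ p ∈ Q := Ideal.pow_mem_of_mem Q h p hp.pos
    rw [hθ₁p] at h1
    exact algebraMap_notMem_of_liesOver K L P ha₁P Q h1
  have hδ0 : algebraMap (𝓞 K) K δ ≠ 0 := by
    intro h
    apply hδP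
    have : δ = 0 := (FaithfulSMul.algebraMap_injective (𝓞 K) K) (by rw [h, map_zero])
    rw [this]; exact Ideal.zero_mem _
  have hinert : Ideal.inertia Gal(L/K) Q = ⊥ := by
    rw [eq_bot_iff]
    intro σ hσ
    rw [Subgroup.mem_bot]
    exact eq_one_of_smul_sub_mem K L p hp hdeg ζ hζ a θ hx hθ Q hpQ _ hδ0 θ₁ hθ₁ hθ₁Q σ
      (hσ θ₁)
  haveI : P.asIdeal.IsPrime := P.isPrime
  have h1 := Ideal.card_inertia_eq_ramificationIdxIn (G := Gal(L/K)) P.asIdeal Q
  rw [Ideal.ramificationIdxIn_eq_ramificationIdx P.asIdeal Q Gal(L/K), hinert,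
    Subgroup.card_bot] at h1
  exact h1.symm

/-- Kummer splitting: if `a` is a `p`-th power modulo `P` (`P ∤ p a`), then `P` splits
completely in `K(a^(1/p))`. -/
theorem ncard_primesOver_of_isPowMod (p : ℕ) (hp : p.Prime) (hdeg : Module.finrank K L = p)
    (ζ : K) (hζ : IsPrimitiveRoot ζ p) (a : Kˣ) (θ : L) (hx : ¬ ∃ c : K, c ^ p = (a : K))
    (hθ : θ ^ p = algebraMap K L (a : K)) (P : HeightOneSpectrum (𝓞 K))
    (hp' : (p : 𝓞 K) ∉ P.asIdeal) (ha : P.valuation K (a : K) = 1)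
    (hpow : IsPowMod K p P (a : K)) : (P.asIdeal.primesOver (𝓞 L)).ncard = p := by
  haveI : NeZero p := ⟨hp.ne_zero⟩
  haveI : P.asIdeal.IsPrime := P.isPrime
  obtain ⟨d, hd, had⟩ := hpow
  obtain ⟨δ, a₁, d₁, θ₁, hδP, ha₁P, hd₁P, ha₁K, hd₁K, hθ₁, hθ₁p⟩ :=
    exists_integral_model K L p hp (a : K) d θ hθ P ha hd
  -- `a₁ - d₁ ^ p ∈ P`
  have hmem : a₁ - d₁ ^ p ∈ P.asIdeal := by
    rw [← HeightOneSpectrum.valuation_lt_one_iff_mem (K := K)]
    have e : algebraMap (𝓞 K) K (a₁ - d₁ ^ p) =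
        algebraMap (𝓞 K) K δ ^ p * ((a : K) - d ^ p) := by
      rw [map_sub, map_pow, ha₁K, hd₁K]; ring
    change P.valuation K (algebraMap (𝓞 K) K (a₁ - d₁ ^ p)) < 1
    rw [e, map_mul, map_pow]
    have hvδ : P.valuation K (algebraMap (𝓞 K) K δ) = 1 :=
      (HeightOneSpectrum.valuation_eq_one_iff_notMem (K := K) (v := P)).mpr hδP
    rw [hvδ, one_pow, one_mul]
    exact had
  -- a prime above `P`
  obtain ⟨⟨Q, hQp, hQo⟩⟩ := (inferInstance : Nonempty (P.asIdeal.primesOver (𝓞 L)))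
  haveI := hQp
  haveI := hQo
  have hpQ := natCast_notMem_of_liesOver K L p P hp' Q
  have hθ₁Q : θ₁ ∉ Q := by
    intro h
    have h1 : θ₁ ^ p ∈ Q := Ideal.pow_mem_of_mem Q h p hp.pos
    rw [hθ₁p] at h1
    exact algebraMap_notMem_of_liesOver K L P ha₁P Q h1
  have hδ0 : algebraMap (𝓞 K) K δ ≠ 0 := by
    intro h
    apply hδP
    have : δ = 0 := (FaithfulSMul.algebraMap_injective (𝓞 K) K) (by rw [h, map_zero])
    rw [this]; exact Ideal.zero_mem _
  -- the primitive root in `𝓞 L`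
  have hζint : IsIntegral ℤ (algebraMap K L ζ) :=
    ⟨X ^ p - 1, monic_X_pow_sub_C 1 hp.ne_zero, by
      simp [← map_pow, hζ.pow_eq_one]⟩
  set ζL : 𝓞 L := ⟨algebraMap K L ζ, hζint⟩ with hζL
  have hζLprim : IsPrimitiveRoot ζL p := by
    have h1 : IsPrimitiveRoot (algebraMap K L ζ) p :=
      hζ.map_of_injective (algebraMap K L).injective
    have h2 : (algebraMap (𝓞 L) L) ζL = algebraMap K L ζ := rfl
    exact IsPrimitiveRoot.of_map_of_injective (f := algebraMap (𝓞 L) L)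
      (by rw [h2]; exact h1) (FaithfulSMul.algebraMap_injective (𝓞 L) L)
  -- factorisation of `θ₁ ^ p - d₁ ^ p`
  have hprod : θ₁ ^ p - (algebraMap (𝓞 K) (𝓞 L) d₁) ^ p ∈ Q := by
    rw [hθ₁p, ← map_pow, ← map_sub]
    have : algebraMap (𝓞 K) (𝓞 L) (a₁ - d₁ ^ p) ∈ Q := by
      have h1 : a₁ - d₁ ^ p ∈ Q.under (𝓞 K) := by
        rw [← hQo.over]; exact hmem
      exact h1
    exact this
  rw [hζLprim.pow_sub_pow_eq_prod_sub_mul _ _ hp.pos] at hprod
  obtain ⟨μ, hμ, hμQ⟩ := (Ideal.IsPrime.prod_mem_iff (hp := hQp)).mp hprod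
  rw [mem_nthRootsFinset hp.pos] at hμ
  obtain ⟨j, -, hj⟩ := hζLprim.eq_pow_of_pow_eq_one hμ
  -- the stabilizer of `Q` is trivial
  have hstab : MulAction.stabilizer Gal(L/K) Q = ⊥ := by
    rw [eq_bot_iff]
    intro σ hσ
    rw [Subgroup.mem_bot]
    rw [MulAction.mem_stabilizer_iff] at hσ
    have hfixμ : σ • (μ * algebraMap (𝓞 K) (𝓞 L) d₁) = μ * algebraMap (𝓞 K) (𝓞 L) d₁ := by
      apply NumberField.RingOfIntegers.ext
      change σ ((μ : L) * algebraMap K L (d₁ : K)) = (μ : L) * algebraMap K L (d₁ : K)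
      rw [map_mul, AlgEquiv.commutes]
      congr 1
      have hμL : (μ : L) = algebraMap K L (ζ ^ j) := by
        rw [← hj, map_pow]; rfl
      rw [hμL, AlgEquiv.commutes]
    have h1 : σ • (θ₁ - μ * algebraMap (𝓞 K) (𝓞 L) d₁) ∈ σ • Q :=
      Ideal.smul_mem_pointwise_smul σ _ Q hμQ
    rw [hσ, smul_sub, hfixμ] at h1
    have h2 : σ • θ₁ - θ₁ ∈ Q := by
      have := Q.sub_mem h1 hμQ
      convert this using 1
      ring
    exact eq_one_of_smul_sub_mem K L p hp hdeg ζ hζ a θ hx hθ Q hpQ _ hδ0 θ₁ hθ₁ hθ₁Q σ h2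
  -- orbit-stabilizer
  have horb := Algebra.IsInvariant.orbit_eq_primesOver (𝓞 K) (𝓞 L) Gal(L/K) P.asIdeal Q
  have hcard := Nat.card_congr (MulAction.orbitProdStabilizerEquivGroup Gal(L/K) Q)
  rw [Nat.card_prod, hstab, Subgroup.card_bot, mul_one, IsGalois.card_aut_eq_finrank, hdeg]
    at hcard
  rw [← horb, ← hcard]
  exact (Nat.card_coe_set_eq _).symm

end Main

end Fermat.Agent.S55.helper12
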