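import Fermat.Agent.S55.helper11_LocGlob

/-!
# S55 / REC1 R-SL (b2) (helper12, task 420): vanishing of the localised class, on cocycles

GENERIC (no number fields, no valuations): if the localisation `locH` of the class of a
multiplicative 2-cocycle `x` on `Gal(L/F)` vanishes in `H²(Gal(Lw/Kv), Lwˣ)`, then the localised
cocycle `(τ, τ') ↦ x (locHom τ, locHom τ')` is an explicit coboundary on `Gal(Lw/Kv)`.

* `locH_H2π_eq_zero_iff` : the iff-version (cocycle in `cocycles₂` form);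
* `exists_cob_of_locH_eq_zero` : VERBATIM statement of finding "S55 REC1 R-SL SPLIT (helper11)".
-/

set_option autoImplicit false

open CategoryTheory groupCohomology

namespace Fermat.Agent.S55.helper12

open Fermat.Agent.S55.helper11

variable (F L Kv Lw : Type) [Field F] [Field L] [Field Kv] [Field Lw]
  [Algebra F L] [Algebra Kv Lw] [Algebra F Kv] [Algebra L Lw] [Algebra F Lw]
  [IsScalarTower F L Lw] [IsScalarTower F Kv Lw] [Normal F L]

/-- The localised cocycle, evaluated. -/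
theorem mapCocycles₂_locH_apply (z : cocycles₂ (Rep.ofAlgebraAutOnUnits F L))
    (τ τ' : Lw ≃ₐ[Kv] Lw) :
    Additive.toMul (α := Lwˣ)
        ((mapCocycles₂ (locHom F L Kv Lw) (locUnits F L Kv Lw) z :
          cocycles₂ (Rep.ofAlgebraAutOnUnits Kv Lw)) (τ, τ'))
      = Units.map (algebraMap L Lw : L →* Lw)
          (Additive.toMul (α := Lˣ) (z (locHom F L Kv Lw τ, locHom F L Kv Lw τ'))) :=
  rfl

/-- The localisation of the class of a 2-cocycle vanishes iff the localised cocycle is a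
coboundary. -/
theorem locH_H2π_eq_zero_iff (z : cocycles₂ (Rep.ofAlgebraAutOnUnits F L)) :
    (locH F L Kv Lw 2).hom (H2π (Rep.ofAlgebraAutOnUnits F L) z) = 0 ↔
      ∃ b : (Lw ≃ₐ[Kv] Lw) → Lwˣ, ∀ τ τ' : Lw ≃ₐ[Kv] Lw,
        τ • b τ' / b (τ * τ') * b τ = Units.map (algebraMap L Lw : L →* Lw)
          (Additive.toMul (α := Lˣ) (z (locHom F L Kv Lw τ, locHom F L Kv Lw τ'))) := by
  have h1 := H2π_comp_map_apply (locHom F L Kv Lw) (locUnits F L Kv Lw) z
  rw [locH, h1, H2π_eq_zero_iff]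
  constructor
  · intro h
    obtain ⟨b, hb⟩ := isMulCoboundary₂_of_mem_coboundaries₂ _ h
    refine ⟨b, fun τ τ' => ?_⟩
    rw [hb τ τ']
    rfl
  · rintro ⟨b, hb⟩
    have hcob : IsMulCoboundary₂ (G := Lw ≃ₐ[Kv] Lw) (M := Lwˣ)
        (fun p => Units.map (algebraMap L Lw : L →* Lw)
          (Additive.toMul (α := Lˣ) (z (locHom F L Kv Lw p.1, locHom F L Kv Lw p.2)))) :=
      ⟨b, hb⟩
    exact (coboundariesOfIsMulCoboundary₂ hcob).2

/-- **R-SL (b2)** (VERBATIM): if the localisation of the class of the 2-cocycle `x` vanishes, the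
localised cocycle is an explicit coboundary on `Gal(Lw/Kv)`. -/
theorem exists_cob_of_locH_eq_zero (F L Kv Lw : Type) [Field F] [Field L] [Field Kv] [Field Lw]
    [Algebra F L] [Algebra Kv Lw] [Algebra F Kv] [Algebra L Lw] [Algebra F Lw]
    [IsScalarTower F L Lw] [IsScalarTower F Kv Lw] [Normal F L]
    (x : (L ≃ₐ[F] L) × (L ≃ₐ[F] L) → Lˣ) (hx : IsMulCocycle₂ x)
    (h : (locH F L Kv Lw 2).hom
      (H2π (Rep.ofAlgebraAutOnUnits F L) (cocyclesOfIsMulCocycle₂ hx)) = 0) :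
    ∃ b : (Lw ≃ₐ[Kv] Lw) → Lwˣ, ∀ τ τ' : Lw ≃ₐ[Kv] Lw,
      τ • b τ' / b (τ * τ') * b τ =
        Units.map (algebraMap L Lw : L →* Lw) (x (locHom F L Kv Lw τ, locHom F L Kv Lw τ')) :=
  (locH_H2π_eq_zero_iff F L Kv Lw (cocyclesOfIsMulCocycle₂ hx)).1 h

/-- Converse of `exists_cob_of_locH_eq_zero`. -/
theorem locH_eq_zero_of_exists_cob (x : (L ≃ₐ[F] L) × (L ≃ₐ[F] L) → Lˣ) (hx : IsMulCocycle₂ x)
    (b : (Lw ≃ₐ[Kv] Lw) → Lwˣ)
    (hb : ∀ τ τ' : Lw ≃ₐ[Kv] Lw, τ • b τ' / b (τ * τ') * b τ =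
      Units.map (algebraMap L Lw : L →* Lw) (x (locHom F L Kv Lw τ, locHom F L Kv Lw τ'))) :
    (locH F L Kv Lw 2).hom
      (H2π (Rep.ofAlgebraAutOnUnits F L) (cocyclesOfIsMulCocycle₂ hx)) = 0 :=
  (locH_H2π_eq_zero_iff F L Kv Lw (cocyclesOfIsMulCocycle₂ hx)).2 ⟨b, hb⟩

end Fermat.Agent.S55.helper12
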