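import Fermat.Agent.S55.helper89_ChevGroups
import Fermat.Agent.S55.helper73_IdlBasic
import Fermat.Agent.S55.helper24_Dict
import Fermat.Agent.S55.helper79_SUnitRelIndex

/-!
# S55 / GLOB / G7-COUNTU (helper13): `Kˣ ∩ J_{S₀ ∪ T}` is the group of `(S ∪ T)`-units

Statements `principalSub_inf_JST` (U1) and `relIndex_pow_principal` (U2) verbatim from
section `CountU` of `helper89_G7Plan2.lean`.

The small facts on primes of `𝓞 K` over rational primes needed here (M4, M5, M6, M8, M12 of the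
plan) are proved locally under the prefix `countU_`.
-/

set_option autoImplicit false

open scoped TensorProduct NumberField
open IsDedekindDomain

namespace Fermat.Agent.S55.helper13

open Fermat.Agent.S55.helper73 Fermat.Agent.S55.helper89

section CountU

variable (K : Type*) [Field K] [NumberField K]

/-- (M5) every prime of `𝓞 K` lies over a rational prime. -/
theorem countU_exists_prime_mem (P : HeightOneSpectrum (𝓞 K)) :
    ∃ q : ℕ, q.Prime ∧ (q : 𝓞 K) ∈ P.asIdeal := by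
  have hmem : ((Ideal.absNorm P.asIdeal : ℕ) : 𝓞 K) ∈ P.asIdeal := Ideal.absNorm_mem _
  have h0 : Ideal.absNorm P.asIdeal ≠ 0 := fun h => P.ne_bot (Ideal.absNorm_eq_zero_iff.1 h)
  rw [← Nat.prod_primeFactorsList h0, Nat.cast_list_prod] at hmem
  have hmem' : (((Ideal.absNorm P.asIdeal).primeFactorsList.map (Nat.cast : ℕ → 𝓞 K) :
      List (𝓞 K)) : Multiset (𝓞 K)).prod ∈ P.asIdeal := by
    rw [Multiset.prod_coe]
    exact hmem
  obtain ⟨x, hx, hxP⟩ :=
    (Ideal.IsPrime.multiset_prod_mem_iff_exists_mem P.isPrime _).1 hmem'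
  rw [Multiset.mem_coe, List.mem_map] at hx
  obtain ⟨q, hq, rfl⟩ := hx
  exact ⟨q, Nat.prime_of_mem_primeFactorsList hq, hxP⟩

omit [NumberField K] in
/-- (M6) ... and only one. -/
theorem countU_prime_mem_unique (P : HeightOneSpectrum (𝓞 K)) (q q' : ℕ) (hq : q.Prime)
    (hq' : q'.Prime) (h : (q : 𝓞 K) ∈ P.asIdeal) (h' : (q' : 𝓞 K) ∈ P.asIdeal) : q = q' := by
  by_contra hne
  have : Fact q.Prime := ⟨hq⟩
  have hnd : ¬ q ∣ q' := fun hd => hne ((Nat.prime_dvd_prime_iff_eq hq hq').1 hd)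
  exact helper24.natCast_notMem_of_not_dvd q K hnd P h h'

/-- (M4) finitely many primes over a nonzero integer. -/
theorem countU_finite_primes_over (q : ℕ) (hq : q ≠ 0) :
    {P : HeightOneSpectrum (𝓞 K) | (q : 𝓞 K) ∈ P.asIdeal}.Finite := by
  have hne : Ideal.span {(q : 𝓞 K)} ≠ 0 := by
    rw [Ne, Ideal.zero_eq_bot, Ideal.span_singleton_eq_bot]
    exact_mod_cast hq
  refine (Ideal.finite_factors hne).subset fun P hP => ?_
  change P.asIdeal ∣ Ideal.span {(q : 𝓞 K)}
  rw [Ideal.dvd_iff_le, Ideal.span_singleton_le_iff_mem]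
  exact hP

/-- (M8) the set of primes over a finite set of rational primes is finite. -/
theorem countU_primesOverSet_finite (S₀ : Finset ℕ) (hS₀ : ∀ r ∈ S₀, r.Prime) :
    (primesOverSet K S₀).Finite := by
  have h : primesOverSet K S₀ =
      ⋃ r ∈ S₀, {P : HeightOneSpectrum (𝓞 K) | (r : 𝓞 K) ∈ P.asIdeal} := by
    ext P
    simp [primesOverSet]
  rw [h]
  exact Set.Finite.biUnion S₀.finite_toSet
    (fun r hr => countU_finite_primes_over K r (hS₀ r hr).ne_zero)

/-- (M12) a principal element of `unitsAway` is a unit at the primes over `r` outside `T`. -/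
theorem countU_locUnit_mem_unitsAway_iff (r : ℕ) [Fact r.Prime]
    (T : Set (HeightOneSpectrum (𝓞 K))) (b : Kˣ) :
    locUnit r K b ∈ unitsAway r K T ↔
      ∀ P : HeightOneSpectrum (𝓞 K), (r : 𝓞 K) ∈ P.asIdeal → P ∉ T →
        P.valuation K (b : K) = 1 := by
  constructor
  · rintro ⟨a, ha, hx⟩ P hP hPT
    have e : locUnit r K b * (locUnit r K a)⁻¹ = locUnit r K (b * a⁻¹) := by
      rw [map_mul, map_inv]
    rw [e, helper24.locUnit_mem_intUnits_iff] at hx
    have h1 := hx P hP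
    rw [Units.val_mul, Units.val_inv_eq_inv_val, map_mul, map_inv₀, ha P hP hPT, inv_one,
      mul_one] at h1
    exact h1
  · intro h
    exact ⟨b, h, by rw [mul_inv_cancel]; exact one_mem _⟩

/-- U1 : principal ideles in `J_{S₀ ∪ T}`. -/
theorem principalSub_inf_JST (S₀ : Finset ℕ) (hS₀ : ∀ r ∈ S₀, r.Prime)
    (T : Set (HeightOneSpectrum (𝓞 K))) :
    principalSub K ⊓ JST K S₀ T =
      ((primesOverSet K S₀ ∪ T).unit K).map (principalIdele K) := by
  ext x
  rw [Subgroup.mem_inf, Subgroup.mem_map]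
  constructor
  · rintro ⟨hx1, hx2⟩
    obtain ⟨b, rfl⟩ := (mem_principalSub_iff K).1 hx1
    refine ⟨b, ?_, rfl⟩
    intro P hP
    obtain ⟨r, hr, hrP⟩ := countU_exists_prime_mem K P
    have hrS : r ∉ S₀ := fun h => hP (Or.inl ⟨r, h, hrP⟩)
    have hPT : P ∉ T := fun h => hP (Or.inr h)
    have : Fact r.Prime := ⟨hr⟩
    have h1 : locUnit r K b ∈ unitsAway r K T := mem_JST.1 hx2 (⟨r, hr⟩ : Nat.Primes) hrS
    exact (countU_locUnit_mem_unitsAway_iff K r T b).1 h1 P hrP hPT
  · rintro ⟨b, hb, rfl⟩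
    refine ⟨(mem_principalSub_iff K).2 ⟨b, rfl⟩, mem_JST.2 fun r hr => ?_⟩
    have : Fact (r : ℕ).Prime := ⟨r.2⟩
    change locUnit (r : ℕ) K b ∈ unitsAway (r : ℕ) K T
    refine (countU_locUnit_mem_unitsAway_iff K r T b).2 fun P hP hPT => ?_
    apply hb P
    rintro (⟨r', hr', hr'P⟩ | h)
    · have e := countU_prime_mem_unique K P r r' r.2 (hS₀ r' hr') hP hr'P
      exact hr (e ▸ hr')
    · exact hPT h

/-- U2 : `[U_{S ∪ T} : U_{S ∪ T} ∩ K^p] = p ^ (n/2 + #S + #T)` transported to the ideles. -/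
theorem relIndex_pow_principal (p : ℕ) (hp : p.Prime) (hp2 : p ≠ 2) (ζ : K)
    (hζ : IsPrimitiveRoot ζ p) (S₀ : Finset ℕ) (hS₀ : ∀ r ∈ S₀, r.Prime)
    (T : Finset (HeightOneSpectrum (𝓞 K)))
    (hdisj : ∀ P ∈ T, P ∉ primesOverSet K S₀) :
    (((powMonoidHom p : Kˣ →* Kˣ).range ⊓
        (primesOverSet K S₀ ∪ (T : Set (HeightOneSpectrum (𝓞 K)))).unit K).map
          (principalIdele K)).relIndex (principalSub K ⊓ JST K S₀ (T : Set _)) =
      p ^ (Module.finrank ℚ K / 2 + Nat.card (primesOverSet K S₀) + T.card) := by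
  classical
  have hfin := countU_primesOverSet_finite K S₀ hS₀
  rw [principalSub_inf_JST K S₀ hS₀,
    Subgroup.relIndex_map_map_of_injective _ _ (principalIdele_injective K)]
  have hset : (primesOverSet K S₀ ∪ (T : Set (HeightOneSpectrum (𝓞 K)))) =
      ((hfin.toFinset ∪ T : Finset (HeightOneSpectrum (𝓞 K))) :
        Set (HeightOneSpectrum (𝓞 K))) := by
    rw [Finset.coe_union, Set.Finite.coe_toFinset]
  have hd : Disjoint hfin.toFinset T := by
    rw [Finset.disjoint_left]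
    intro P hP hPT
    exact hdisj P hPT ((Set.Finite.mem_toFinset hfin).1 hP)
  rw [hset, helper79.relIndex_pow_unit K p hp hp2 ζ hζ, Finset.card_union_of_disjoint hd,
    Nat.card_coe_set_eq, Set.ncard_eq_toFinset_card _ hfin, add_assoc]

end CountU

end Fermat.Agent.S55.helper13
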