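import Fermat.Agent.S55.helper13_LocalDuality
import Fermat.Agent.S55.helper77_LevelDict
import Fermat.Agent.S55.helper30_LocKummerFin
import Fermat.Agent.S55.helper62_CupSymbol
import Fermat.Agent.S55.helper27_KummerSeqB
import Fermat.Agent.S55.helper31_LocCyclic

/-!
# S55 / LOC-9 (helper13, task 329): `nonempty_localDuality`, UNCONDITIONAL

Final assembly: `LocDualInput` is discharged by the landed packages
LOC-7d (helper77), LOC-7a (helper30), LOC-7b (helper62), LOC-7c (helper27), LOC-3 (helper31).
The statement is verbatim `helper8.Interface2.nonempty_localDuality`.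
-/

set_option autoImplicit false

namespace Fermat.Agent.S55.helper13

open Fermat.Agent.S55 Fermat.Agent.S55.helper8 Fermat.Agent.S55.helper11 groupCohomology

variable (q : ℕ) [Fact q.Prime]

/-- all inputs of LOC-9 are available -/
theorem locDualInput (I : LocInv) (p : ℕ) [Fact p.Prime]
    (K Ω : Type) [Field K] [Field Ω] [Algebra ℚ_[q] K] [FiniteDimensional ℚ_[q] K]
    [Algebra K Ω] [IsAlgClosure K Ω] (ζ : Kˣ) (hζ : IsPrimitiveRoot ζ p) :
    LocDualInput I q p K Ω ζ := by
  haveI : CharZero K := charZero_of_padic q K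
  exact
    { factor_Z1 := fun x hx => helper77.exists_factor_Z1 p K Ω x hx
      factor_Z2 := fun c hc L₀ hL₀ => helper77.exists_factor_Z2 p K Ω c hc L₀ hL₀
      mem_Z2 := fun L _ _ c' hc' => helper77.mem_Z2_of_factor p K Ω L c' hc'
      kummerChar := fun a => helper30.exists_kummerChar p K Ω ζ hζ a
      finite_Z1 := helper30.finite_Z1 q p K Ω ζ hζ
      cup_eq_chiClass := fun L _ _ _ _ χ ψ b β hβ hψ =>
        helper62.mulClass_cup_eq_chiClass p K ζ hζ L χ ψ b β hβ hψ
      mem_B2 := fun L _ _ c hc h => helper27.mem_B2_of_mulClass_eq_zero p K Ω ζ hζ L c hc h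
      inv_ne_zero := helper27.exists_cocycle_inv_ne_zero q p K Ω ζ hζ I
      norm_index := fun L _ _ _ _ _ => helper31.card_quotient_norm_of_isCyclic q K L }

/-- **LOC-9**: local duality in level-constant form, tied to the invariant family `I`
(verbatim `helper8.Interface2.nonempty_localDuality`). -/
theorem nonempty_localDuality (I : LocInv) (p : ℕ) [Fact p.Prime]
    (K Ω : Type) [Field K] [Field Ω] [Algebra ℚ_[q] K] [FiniteDimensional ℚ_[q] K]
    [Algebra K Ω] [IsAlgClosure K Ω] (ζ : Kˣ) (hζ : IsPrimitiveRoot ζ p) :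
    Nonempty (LocalDuality I q p K Ω ζ) :=
  nonempty_localDuality_of_input I q p K Ω ζ hζ.pow_eq_one (locDualInput q I p K Ω ζ hζ)

end Fermat.Agent.S55.helper13
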