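import Fermat.Agent.S55.helper15_RecExist
import Fermat.Agent.S55.helper11_Rec1Hyps

/-!
# S55 / REC1-EXIST wiring (helper15): the hypotheses `HypExist`, `HypPlace` of the REC1 assembly

`Fermat.Agent.S55.helper11.HypExist` and `HypPlace` (inputs of `reciprocity_of_inputs`) hold.
-/

set_option autoImplicit false

namespace Fermat.Agent.S55.helper15

/-- R-EXIST (first half), in the shape consumed by the REC1 assembly. -/
theorem hypExist : Fermat.Agent.S55.helper11.HypExist :=
  fun F L _ _ _ _ _ _ v => exists_locDatum F L v

/-- R-EXIST (second half), in the shape consumed by the REC1 assembly. -/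
theorem hypPlace : Fermat.Agent.S55.helper11.HypPlace :=
  fun q _ F L _ _ _ _ _ _ D => exists_unique_atPlace q F L D

end Fermat.Agent.S55.helper15
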