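import Mathlib
import Fermat.Agent.S14.helper30_AuxPrime
import Fermat.Agent.S14.helper58_AuxPrime

/-!
# S55 / REC-N1 (helper15, task 249): simultaneous auxiliary primes

For an odd prime `p`, `m > 0`, a finite set `Q` of primes (`p ∈ Q` allowed) and a finite set `T`
of excluded numbers, there is a prime `l ∉ T`, `l ≡ 1 mod p ^ m`, such that **no** `q ∈ Q` is a
`p`-th power modulo `l` (`exists_aux_prime_multi`).  The zeta-pole lemma (Z) is a hypothesis
(`ZetaPoleLemma`, verbatim from the REC interface of helper11); it is discharged in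
`helper15_RecN1Wiring.lean`.

Proof.  Fix `q₁ ∈ Q`, let `E = ℚ(ζ_{p^m})`, `u q = q ^ (p - 1) * q₁` for `q ∈ Q \ {q₁}`,
`F = E((u q)^(1/p) : q)` (an iterated splitting field, `exists_kummer_tower`) and
`N = F(q₁^(1/p))`.  Kummer theory (`kummer_step`, induction along the tower) shows that if `q₁`
is a `p`-th power in `F` then `q₁ * ∏ (u q) ^ (e q)` is a `p`-th power in `E`, hence in `ℚ`
because `E/ℚ` is abelian and `p` is odd (`rat_pow_of_pow_in_cyclotomic`); this contradicts unique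
factorisation (`not_pow_prod_kumU`).  So `N/F` is Galois of degree `p`, and (Z) gives a prime
`P` of `F` of prime norm `l` (outside a finite set) which does not split completely in `N`.
Then `l ≡ 1 mod p ^ m` (`mod_prime_pow_eq_one`), `q₁` is not a `p`-th power mod `l`
(`helper30.not_residue`), every `u q` is one, hence no `q ∈ Q` is a `p`-th power mod `l`.

Main declarations (namespace `Fermat.Agent.S55.helper15`):
* `ZetaPoleLemma`, `exists_aux_prime_multi` : the statements of the REC interface;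
* `rat_pow_of_pow_in_cyclotomic`, `dvd_factorization_of_pow_in_cyclotomic` : a rational number
  which is a `p`-th power in `ℚ(ζ_n)` (`p ∣ n`, `p` odd) is a `p`-th power in `ℚ`;
* `kummer_step` : one Kummer step without irreducibility hypothesis;
* `exists_kummer_tower` : the Kummer tower over a number field in `Type`;
* `mod_prime_pow_eq_one` : a degree-one prime of norm `l ≠ p` in a field containing `ζ_{p^m}`
  has `l ≡ 1 mod p ^ m`.
-/

set_option autoImplicit false
set_option linter.style.haveILetI false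
set_option linter.unusedSectionVars false
set_option linter.unusedVariables false

open Polynomial NumberField
open scoped NumberField

namespace Fermat.Agent.S55.helper15

/-! ## The statement of the zeta-pole lemma (verbatim from the REC interface) -/

/-- The zeta-pole lemma (Z) of the S14 cluster (helper69, task 124), as a hypothesis. -/
def ZetaPoleLemma : Prop :=
  ∀ (K L : Type) [Field K] [NumberField K] [Field L] [NumberField L] [Algebra K L]
    [IsGalois K L], 1 < Module.finrank K L → ∀ T : Finset (Ideal (𝓞 K)),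
      ∃ P : Ideal (𝓞 K), P.IsPrime ∧ P ≠ ⊥ ∧ P ∉ T ∧ (Ideal.absNorm P).Prime ∧
        (Ideal.primesOver P (𝓞 L)).ncard ≠ Module.finrank K L

/-! ## Rational `p`-th powers in cyclotomic fields -/

/-- A rational number which is a `p`-th power (`p` odd) in a cyclotomic field `ℚ(ζ_n)` with
`p ∣ n` is a `p`-th power of a rational number.  (The extension is abelian, and there is an
automorphism inverting the `p`-th roots of unity.) -/
theorem rat_pow_of_pow_in_cyclotomic {p n : ℕ} (hp : p.Prime) (hp2 : p ≠ 2) [NeZero n]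
    (hpn : p ∣ n) (E : Type*) [Field E] [Algebra ℚ E] [IsCyclotomicExtension {n} ℚ E]
    (x : ℚ) (y : E) (hy : y ^ p = algebraMap ℚ E x) : ∃ z : ℚ, z ^ p = x := by
  have hn0 : n ≠ 0 := NeZero.ne n
  rcases eq_or_ne y 0 with rfl | hy0
  · refine ⟨0, ?_⟩
    rw [zero_pow hp.ne_zero] at hy ⊢
    exact (algebraMap ℚ E).injective (by rw [map_zero, ← hy])
  haveI : IsGalois ℚ E := IsCyclotomicExtension.isGalois {n} ℚ E
  haveI : FiniteDimensional ℚ E := IsCyclotomicExtension.finiteDimensional {n} ℚ E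
  have hcomm : ∀ σ τ : Gal(E/ℚ), σ * τ = τ * σ :=
    fun σ τ => (IsCyclotomicExtension.isMulCommutative {n} ℚ E).is_comm.comm σ τ
  have hirr : Irreducible (cyclotomic n ℚ) := cyclotomic.irreducible_rat (Nat.pos_of_ne_zero hn0)
  have hζ := IsCyclotomicExtension.zeta_spec n ℚ E
  set ζ := IsCyclotomicExtension.zeta n ℚ E with hζdef
  -- the automorphism inverting the roots of unity
  set τ : Gal(E/ℚ) := IsCyclotomicExtension.fromZetaAut hζ.inv hirr with hτdef
  have hτζ : τ ζ = ζ⁻¹ := IsCyclotomicExtension.fromZetaAut_spec hζ.inv hirr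
  have hτw : ∀ w : E, w ^ p = 1 → τ w = w⁻¹ := by
    intro w hw
    have hwn : w ^ n = 1 := by
      obtain ⟨k, rfl⟩ := hpn
      rw [pow_mul, hw, one_pow]
    obtain ⟨i, -, rfl⟩ := hζ.eq_pow_of_pow_eq_one hwn
    rw [map_pow, hτζ, inv_pow]
  have hodd : ∀ w : E, w ^ p = 1 → w ^ 2 = 1 → w = 1 := by
    intro w hw hw2
    have h := (pow_gcd_eq_one (a := w) (m := p) (n := 2)).mpr ⟨hw, hw2⟩
    have hg : Nat.gcd p 2 = 1 := by
      rw [Nat.coprime_comm.mp ((Nat.coprime_primes Nat.prime_two hp).mpr (Ne.symm hp2))]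
    rwa [hg, pow_one] at h
  have hquot : ∀ (σ : Gal(E/ℚ)) (v : E), v ≠ 0 → v ^ p = algebraMap ℚ E x →
      (σ v / v) ^ p = 1 := by
    intro σ v hv hvp
    rw [div_pow, ← map_pow, hvp, AlgEquiv.commutes, div_self]
    rw [← hvp]; exact pow_ne_zero _ hv
  -- normalise `y` so that it is fixed by `τ`
  set B : E := τ y / y with hB
  have hBp : B ^ p = 1 := hquot τ y hy0 hy
  obtain ⟨k, hk⟩ : ∃ k, p + 1 = 2 * k := by
    rcases hp.eq_two_or_odd with h | h
    · exact absurd h hp2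
    · exact ⟨(p + 1) / 2, by omega⟩
  set u : E := B ^ k with hu
  have hup : u ^ p = 1 := by rw [hu, ← pow_mul, mul_comm, pow_mul, hBp, one_pow]
  have hu2 : u ^ 2 = B := by
    rw [hu, ← pow_mul, mul_comm, ← hk, pow_succ, hBp, one_mul]
  have hu0 : u ≠ 0 := by
    intro h; rw [h, zero_pow hp.ne_zero] at hup; exact zero_ne_one hup
  set y' : E := y * u with hy'
  have hy'0 : y' ≠ 0 := mul_ne_zero hy0 hu0
  have hy'p : y' ^ p = algebraMap ℚ E x := by rw [hy', mul_pow, hup, mul_one, hy]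
  have hτy' : τ y' = y' := by
    have h1 : τ y = B * y := by rw [hB, div_mul_cancel₀ _ hy0]
    rw [hy', map_mul, hτw u hup, h1, ← hu2]
    field_simp
  -- then it is fixed by everything
  have hfix : ∀ σ : Gal(E/ℚ), σ y' = y' := by
    intro σ
    set A : E := σ y' / y' with hA
    have hAp : A ^ p = 1 := hquot σ y' hy'0 hy'p
    have h1 : σ y' = A * y' := by rw [hA, div_mul_cancel₀ _ hy'0]
    have h2 : τ (σ y') = σ y' := by
      have := congrArg (fun f : Gal(E/ℚ) => f y') (hcomm τ σ)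
      simp only [AlgEquiv.mul_apply] at this
      rw [this, hτy']
    rw [h1, map_mul, hτw A hAp, hτy'] at h2
    have hA0 : A ≠ 0 := by
      intro h; rw [h, zero_pow hp.ne_zero] at hAp; exact zero_ne_one hAp
    have h3 : A ^ 2 = 1 := by
      have h4 : A⁻¹ = A := mul_right_cancel₀ hy'0 h2
      rw [pow_two]
      nth_rewrite 1 [← h4]
      exact inv_mul_cancel₀ hA0
    rw [h1, hodd A hAp h3, one_mul]
  obtain ⟨z, hz⟩ := (IsGalois.mem_range_algebraMap_iff_fixed (F := ℚ) (E := E) y').mpr hfix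
  refine ⟨z, (algebraMap ℚ E).injective ?_⟩
  rw [map_pow, hz, hy'p]

/-- If a natural number `N` is a `p`-th power in `ℚ(ζ_n)`, `p ∣ n` odd, then all the exponents
in its prime factorisation are divisible by `p`. -/
theorem dvd_factorization_of_pow_in_cyclotomic {p n : ℕ} (hp : p.Prime) (hp2 : p ≠ 2) [NeZero n]
    (hpn : p ∣ n) (E : Type*) [Field E] [Algebra ℚ E] [IsCyclotomicExtension {n} ℚ E]
    (N : ℕ) (y : E) (hy : y ^ p = (N : E)) (q : ℕ) (hq : q.Prime) :
    p ∣ N.factorization q := by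
  haveI := Fact.mk hq
  obtain ⟨z, hz⟩ := rat_pow_of_pow_in_cyclotomic hp hp2 hpn E (N : ℚ) y (by rw [hy, map_natCast])
  have h := congrArg (padicValRat q) hz
  rw [padicValRat.pow, padicValRat.of_nat] at h
  rw [Nat.factorization_def N hq]
  exact Int.natCast_dvd_natCast.mp ⟨_, h.symm⟩

/-! ## The Kummer generators -/

/-- The Kummer generators used below: `u q = q ^ (p - 1) * q₁`. -/
def kumU (p q₁ q : ℕ) : ℕ := q ^ (p - 1) * q₁

theorem kumU_ne_zero {p q₁ q : ℕ} (hq₁ : q₁.Prime) (hq : q.Prime) : kumU p q₁ q ≠ 0 :=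
  mul_ne_zero (pow_ne_zero _ hq.ne_zero) hq₁.ne_zero

theorem factorization_kumU {p q₁ q : ℕ} (hq₁ : q₁.Prime) (hq : q.Prime) :
    (kumU p q₁ q).factorization = (p - 1) • Finsupp.single q 1 + Finsupp.single q₁ 1 := by
  rw [kumU, Nat.factorization_mul (pow_ne_zero _ hq.ne_zero) hq₁.ne_zero,
    Nat.factorization_pow, hq.factorization, hq₁.factorization]

/-- The number `q₁ * ∏ (u q) ^ (e q)` is not a `p`-th power in a cyclotomic field `ℚ(ζ_n)`,
`p ∣ n`, `p` odd. -/
theorem not_pow_prod_kumU {p n : ℕ} (hp : p.Prime) (hp2 : p ≠ 2) [NeZero n]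
    (hpn : p ∣ n) (E : Type*) [Field E] [Algebra ℚ E] [IsCyclotomicExtension {n} ℚ E]
    (q₁ : ℕ) (hq₁ : q₁.Prime) (s : Finset ℕ) (hs : ∀ q ∈ s, q.Prime) (hq₁s : q₁ ∉ s)
    (e : ℕ → ℕ) (c : E) :
    c ^ p ≠ (q₁ : E) * ∏ q ∈ s, ((kumU p q₁ q : ℕ) : E) ^ e q := by
  intro hc
  set N : ℕ := q₁ * ∏ q ∈ s, kumU p q₁ q ^ e q with hN
  have hcN : c ^ p = (N : E) := by rw [hc, hN]; push_cast; rfl
  have hdvd := dvd_factorization_of_pow_in_cyclotomic hp hp2 hpn E N c hcN
  have hfac : N.factorization = Finsupp.single q₁ 1 +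
      ∑ q ∈ s, e q • ((p - 1) • Finsupp.single q 1 + Finsupp.single q₁ 1) := by
    rw [hN, Nat.factorization_mul hq₁.ne_zero, hq₁.factorization, Nat.factorization_prod]
    · congr 1
      refine Finset.sum_congr rfl (fun q hq => ?_)
      rw [Nat.factorization_pow, factorization_kumU hq₁ (hs q hq)]
    · intro q hq
      exact pow_ne_zero _ (kumU_ne_zero hq₁ (hs q hq))
    · rw [Finset.prod_ne_zero_iff]
      intro q hq
      exact pow_ne_zero _ (kumU_ne_zero hq₁ (hs q hq))
  have hp1 : ¬ p ∣ p - 1 := by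
    intro h
    have := Nat.le_of_dvd (Nat.sub_pos_of_lt hp.one_lt) h
    have := hp.one_lt
    omega
  -- exponents at the `q ∈ s`
  have he : ∀ q ∈ s, p ∣ e q := by
    intro q' hq'
    have h := hdvd q' (hs q' hq')
    have hne : q₁ ≠ q' := fun h => hq₁s (h ▸ hq')
    rw [hfac] at h
    simp only [Finsupp.coe_add, Pi.add_apply, Finsupp.coe_finsetSum, Finset.sum_apply,
      Finsupp.coe_smul, Pi.smul_apply, smul_eq_mul, Finsupp.single_apply, hne, if_false,
      zero_add, add_zero, mul_ite, mul_one, mul_zero, Finset.sum_ite_eq', hq', if_true] at h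
    exact ((Nat.Prime.dvd_mul hp).mp h).resolve_right hp1
  -- exponent at `q₁`
  have h := hdvd q₁ hq₁
  rw [hfac] at h
  have hsum : (∑ q ∈ s, e q • ((p - 1) • Finsupp.single q 1 + Finsupp.single q₁ 1) :
      ℕ →₀ ℕ) q₁ = ∑ q ∈ s, e q := by
    rw [Finsupp.coe_finsetSum, Finset.sum_apply]
    refine Finset.sum_congr rfl (fun q hq => ?_)
    have hne : q ≠ q₁ := fun h => hq₁s (h ▸ hq)
    simp [hne]
  rw [Finsupp.coe_add, Pi.add_apply, hsum, Finsupp.single_eq_same] at h
  have h2 : p ∣ ∑ q ∈ s, e q := Finset.dvd_sum he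
  have h3 : p ∣ 1 := (Nat.dvd_add_left h2).mp h
  exact hp.one_lt.ne' (Nat.dvd_one.mp h3)

/-! ## Kummer theory -/

/-- One Kummer step, without irreducibility hypothesis: if `c ∈ K` becomes a `p`-th power in the
splitting field of `X ^ p - a` over `K ∋ ζ_p`, then `c * a ^ j` is a `p`-th power in `K` for
some `j`. -/
theorem kummer_step {K L : Type*} [Field K] [Field L] [Algebra K L] {p : ℕ} (hp : p.Prime)
    {ζ : K} (hζ : IsPrimitiveRoot ζ p) (a : K) [IsSplittingField K L (X ^ p - C a)] {c : K}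
    {b : L} (hb : b ^ p = algebraMap K L c) : ∃ (j : ℕ) (d : K), d ^ p = c * a ^ j := by
  haveI : NeZero p := ⟨hp.ne_zero⟩
  by_cases H : Irreducible (X ^ p - C a)
  · obtain ⟨j, -, -, d, hd⟩ := Fermat.Agent.S14.helper58.exists_pow_eq_mul_pow hp hζ H hb
    exact ⟨j, d, hd⟩
  · rw [X_pow_sub_C_irreducible_iff_of_prime hp] at H
    push Not at H
    obtain ⟨b₀, hb₀⟩ := H
    have hinj : Function.Injective (algebraMap K L) := (algebraMap K L).injective
    have hζL : IsPrimitiveRoot (algebraMap K L ζ) p := hζ.map_of_injective hinj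
    -- every root lies in the image of `K`
    have hroots : (X ^ p - C a).rootSet L ⊆ ((⊥ : Subalgebra K L) : Set L) := by
      intro r hr
      rw [mem_rootSet] at hr
      have hr' : r ^ p = algebraMap K L a := by
        have := hr.2
        simpa [sub_eq_zero] using this
      rw [SetLike.mem_coe, Algebra.mem_bot]
      rcases eq_or_ne b₀ 0 with h0 | h0
      · refine ⟨0, ?_⟩
        rw [h0, zero_pow hp.ne_zero] at hb₀
        rw [← hb₀, map_zero] at hr'
        rw [map_zero]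
        exact (pow_eq_zero_iff hp.ne_zero).mp hr' |>.symm
      · have hb₀L : algebraMap K L b₀ ≠ 0 := (_root_.map_ne_zero _).mpr h0
        have h1 : (r / algebraMap K L b₀) ^ p = 1 := by
          rw [div_pow, hr', ← hb₀, map_pow, div_self (pow_ne_zero _ hb₀L)]
        obtain ⟨i, -, hi⟩ := hζL.eq_pow_of_pow_eq_one h1
        refine ⟨ζ ^ i * b₀, ?_⟩
        rw [map_mul, map_pow, hi, div_mul_cancel₀ _ hb₀L]
    have htop : (⊤ : Subalgebra K L) ≤ ⊥ := by
      rw [← IsSplittingField.adjoin_rootSet L (X ^ p - C a)]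
      exact Algebra.adjoin_le hroots
    obtain ⟨d, hd⟩ := Algebra.mem_bot.mp (htop (Algebra.mem_top : b ∈ ⊤))
    refine ⟨0, d, hinj ?_⟩
    rw [map_pow, hd, hb, pow_zero, mul_one]

/-- The Kummer tower: over a number field `K ∋ ζ_p` (in `Type`), for a finite family of natural
numbers `u i` there is a number field `F ⊇ K` in which all `u i` are `p`-th powers, and such that
every `x ∈ K` which is a `p`-th power in `F` is, up to `p`-th powers of `K`, in the span of the
`u i`. -/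
theorem exists_kummer_tower (p : ℕ) (hp : p.Prime) (K : Type) [Field K] [NumberField K] (ζ : K)
    (hζ : IsPrimitiveRoot ζ p) {ι : Type*} (u : ι → ℕ) (s : Finset ι) :
    ∃ (F : Type) (_ : Field F) (_ : NumberField F) (_ : Algebra K F),
      (∀ i ∈ s, ∃ θ : F, θ ^ p = (u i : F)) ∧
      ∀ x : K, (∃ y : F, y ^ p = algebraMap K F x) →
        ∃ (c : K) (e : ι → ℕ), c ^ p = x * ∏ i ∈ s, (u i : K) ^ e i := by
  classical
  haveI : NeZero p := ⟨hp.ne_zero⟩
  induction s using Finset.induction_on with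
  | empty =>
    refine ⟨K, inferInstance, inferInstance, Algebra.id K, ?_, ?_⟩
    · intro i hi; simp at hi
    · rintro x ⟨y, hy⟩
      refine ⟨y, fun _ => 0, ?_⟩
      rw [hy]; simp
  | insert a s ha ih =>
    obtain ⟨F₁, hF₁, hN₁, hA₁, hθ, hprop⟩ := ih
    let f : F₁[X] := X ^ p - C (u a : F₁)
    haveI hN' : NumberField f.SplittingField := NumberField.of_module_finite F₁ f.SplittingField
    refine ⟨f.SplittingField, inferInstance, hN',
      ((algebraMap F₁ f.SplittingField).comp (algebraMap K F₁)).toAlgebra, ?_, ?_⟩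
    · intro i hi
      rw [Finset.mem_insert] at hi
      rcases hi with rfl | hi
      · refine ⟨rootOfSplitsXPowSubC hp.pos (u i : F₁) f.SplittingField, ?_⟩
        rw [rootOfSplitsXPowSubC_pow, map_natCast]
      · obtain ⟨θ, hθ'⟩ := hθ i hi
        refine ⟨algebraMap F₁ f.SplittingField θ, ?_⟩
        rw [← map_pow, hθ', map_natCast]
    · rintro x ⟨y, hy⟩
      have hy' : y ^ p = algebraMap F₁ f.SplittingField (algebraMap K F₁ x) := hy
      have hζ₁ : IsPrimitiveRoot (algebraMap K F₁ ζ) p :=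
        hζ.map_of_injective (algebraMap K F₁).injective
      obtain ⟨j, d, hd⟩ := kummer_step hp hζ₁ (u a : F₁) hy'
      obtain ⟨c, e, hc⟩ := hprop (x * (u a : K) ^ j) ⟨d, by
        rw [hd, map_mul, map_pow, map_natCast]⟩
      refine ⟨c, Function.update e a j, ?_⟩
      rw [Finset.prod_insert ha, Function.update_self, hc, mul_assoc]
      congr 2
      refine Finset.prod_congr rfl (fun i hi => ?_)
      rw [Function.update_of_ne]
      rintro rfl
      exact ha hi

/-! ## Residue computations at a degree-one prime -/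

section Residue

variable {F : Type*} [Field F] [NumberField F]

/-- A degree-one prime of norm `l ≠ p` in a number field containing a primitive `p ^ m`-th root
of unity has `l ≡ 1 mod p ^ m`. -/
theorem mod_prime_pow_eq_one {p : ℕ} (hp : p.Prime) {m : ℕ} (hm : 0 < m) (Z : F)
    (hZ : IsPrimitiveRoot Z (p ^ m)) (P : Ideal (𝓞 F)) (l : ℕ) (hl : l.Prime)
    (hN : Ideal.absNorm P = l) (hlp : l ≠ p) : l % p ^ m = 1 := by
  haveI := Fact.mk hl
  haveI := Fact.mk hp
  obtain ⟨φ, hφ⟩ := Fermat.Agent.S14.helper30.exists_ringHom_zmod P l hl hN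
  have hpm : 0 < p ^ m := pow_pos hp.pos m
  obtain ⟨k, rfl⟩ : ∃ k, m = k + 1 := ⟨m - 1, by omega⟩
  let Zi : 𝓞 F := ⟨Z, Fermat.Agent.S14.helper30.isIntegral_of_pow_eq_natCast hpm Z 1
    (by simpa using hZ.pow_eq_one)⟩
  have hZi : IsPrimitiveRoot Zi (p ^ (k + 1)) :=
    IsPrimitiveRoot.of_map_of_injective (f := algebraMap (𝓞 F) F) (by exact hZ)
      RingOfIntegers.coe_injective
  have hW : IsPrimitiveRoot (Zi ^ p ^ k) p := hZi.pow hpm (pow_succ p k)
  have hWsum : ∑ i ∈ Finset.range p, (Zi ^ p ^ k) ^ i = 0 := hW.geom_sum_eq_zero hp.one_lt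
  have h1 : ¬ (φ Zi) ^ p ^ k = 1 := by
    intro h
    have h2 : (p : ZMod l) = 0 := by
      have := congrArg φ hWsum
      rw [map_sum, map_zero] at this
      simp only [map_pow, h, one_pow, Finset.sum_const, Finset.card_range, nsmul_eq_mul,
        mul_one] at this
      exact this
    rw [ZMod.natCast_eq_zero_iff] at h2
    exact hlp ((Nat.prime_dvd_prime_iff_eq hl hp).mp h2)
  have h2 : (φ Zi) ^ p ^ (k + 1) = 1 := by rw [← map_pow, hZi.pow_eq_one, map_one]
  have h3 : orderOf (φ Zi) = p ^ (k + 1) := orderOf_eq_prime_pow h1 h2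
  have h4 : φ Zi ≠ 0 := by
    intro h
    rw [h, zero_pow hpm.ne'] at h2
    exact zero_ne_one h2
  have h5 : p ^ (k + 1) ∣ l - 1 := by
    rw [← h3]
    exact orderOf_dvd_of_pow_eq_one (ZMod.pow_card_sub_one_eq_one h4)
  obtain ⟨t, ht⟩ := h5
  have hl1 : 1 ≤ l := hl.one_lt.le
  have h6 : l = 1 + p ^ (k + 1) * t := by omega
  have h7 : 1 < p ^ (k + 1) := Nat.one_lt_pow (Nat.succ_ne_zero k) hp.one_lt
  rw [h6, Nat.add_mul_mod_self_left, Nat.mod_eq_of_lt h7]

/-- If `q ^ (p - 1) * q₁` is a `p`-th power in `F` and `q₁` is not a `p`-th power modulo a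
degree-one prime of norm `l ∤ q`, then `q` is not a `p`-th power modulo `l` either. -/
theorem not_residue_of_kumU {p : ℕ} (hp : p.Prime) (q₁ q : ℕ) (θ : F)
    (hθ : θ ^ p = ((kumU p q₁ q : ℕ) : F)) (P : Ideal (𝓞 F)) (l : ℕ) (hl : l.Prime)
    (hN : Ideal.absNorm P = l) (hlq : ¬ l ∣ q)
    (hq₁ : ¬ ∃ y : ZMod l, y ^ p = (q₁ : ZMod l)) :
    ¬ ∃ y : ZMod l, y ^ p = (q : ZMod l) := by
  rintro ⟨x, hx⟩
  haveI := Fact.mk hl
  obtain ⟨φ, hφ⟩ := Fermat.Agent.S14.helper30.exists_ringHom_zmod P l hl hN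
  let Θ : 𝓞 F := ⟨θ, Fermat.Agent.S14.helper30.isIntegral_of_pow_eq_natCast hp.pos θ _ hθ⟩
  have hΘ : Θ ^ p = ((kumU p q₁ q : ℕ) : 𝓞 F) := by
    apply RingOfIntegers.ext
    show θ ^ p = _
    rw [hθ]; simp
  have h1 : (φ Θ) ^ p = (q : ZMod l) ^ (p - 1) * (q₁ : ZMod l) := by
    rw [← map_pow, hΘ, map_natCast, kumU]; push_cast; rfl
  have hq0 : (q : ZMod l) ≠ 0 := by
    rwa [Ne, ZMod.natCast_eq_zero_iff]
  have hx0 : x ≠ 0 := by
    rintro rfl
    rw [zero_pow hp.ne_zero] at hx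
    exact hq0 hx.symm
  apply hq₁
  refine ⟨φ Θ / x ^ (p - 1), ?_⟩
  rw [div_pow, h1, ← hx, ← pow_mul, ← pow_mul, mul_comm (p - 1) p, mul_comm, mul_div_assoc,
    div_self (pow_ne_zero _ hx0), mul_one]

end Residue

/-! ## The main statement -/

/-- The main case (`Q` nonempty), over an arbitrary model `E` of the `p ^ m`-th cyclotomic field
in `Type`. -/
theorem exists_aux_prime_multi_aux (hZ : ZetaPoleLemma) (p : ℕ) (hp : p.Prime) (hp2 : p ≠ 2)
    (k : ℕ) (Q : Finset ℕ) (hQ : ∀ q ∈ Q, q.Prime) (T : Finset ℕ) (q₁ : ℕ) (hq₁Q : q₁ ∈ Q)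
    (E : Type) [Field E] [NumberField E] [IsCyclotomicExtension {p ^ (k + 1)} ℚ E] :
    ∃ l : ℕ, l.Prime ∧ l ∉ T ∧ l % p ^ (k + 1) = 1 ∧
      ∀ q ∈ Q, ¬ ∃ y : ZMod l, y ^ p = (q : ZMod l) := by
  classical
  haveI : Fact p.Prime := ⟨hp⟩
  have hq₁ : q₁.Prime := hQ q₁ hq₁Q
  haveI : NeZero (p ^ (k + 1)) := ⟨pow_ne_zero _ hp.ne_zero⟩
  haveI : NeZero p := ⟨hp.ne_zero⟩
  have hζn : IsPrimitiveRoot (IsCyclotomicExtension.zeta (p ^ (k + 1)) ℚ E) (p ^ (k + 1)) :=
    IsCyclotomicExtension.zeta_spec (p ^ (k + 1)) ℚ E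
  set ζn : E := IsCyclotomicExtension.zeta (p ^ (k + 1)) ℚ E with hζndef
  have hζ : IsPrimitiveRoot (ζn ^ p ^ k) p := hζn.pow (pow_pos hp.pos _) (pow_succ p k)
  -- the Kummer tower
  obtain ⟨F, hFf, hFn, hFa, hθ, hprop⟩ :=
    exists_kummer_tower p hp E (ζn ^ p ^ k) hζ (kumU p q₁) (Q.erase q₁)
  have hnotpow : ∀ y : F, y ^ p ≠ (q₁ : F) := by
    intro y hy
    obtain ⟨c, e, hc⟩ := hprop (q₁ : E) ⟨y, by rw [hy, map_natCast]⟩
    exact not_pow_prod_kumU hp hp2 (dvd_pow_self p (Nat.succ_ne_zero k)) E q₁ hq₁ (Q.erase q₁)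
      (fun q hq => hQ q (Finset.mem_of_mem_erase hq)) (Finset.notMem_erase q₁ Q) e c hc
  have hζF : IsPrimitiveRoot (algebraMap E F (ζn ^ p ^ k)) p :=
    hζ.map_of_injective (algebraMap E F).injective
  have hζnF : IsPrimitiveRoot (algebraMap E F ζn) (p ^ (k + 1)) :=
    hζn.map_of_injective (algebraMap E F).injective
  have hζFm : (primitiveRoots p F).Nonempty := ⟨_, (mem_primitiveRoots hp.pos).mpr hζF⟩
  -- the top Kummer extension
  have H1 : Irreducible (X ^ p - C (q₁ : F)) :=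
    (X_pow_sub_C_irreducible_iff_of_prime hp).mpr hnotpow
  let N : Type := (X ^ p - C (q₁ : F)).SplittingField
  haveI hNn : NumberField N := NumberField.of_module_finite F N
  haveI hGal : IsGalois F N := isGalois_of_isSplittingField_X_pow_sub_C hζFm H1 N
  have hfin : Module.finrank F N = p := finrank_of_isSplittingField_X_pow_sub_C hζFm H1 N
  have hdeg : 1 < Module.finrank F N := by rw [hfin]; exact hp.one_lt
  let β : N := rootOfSplitsXPowSubC hp.pos (q₁ : F) N
  have hβ' : β ^ p = algebraMap F N (q₁ : F) := rootOfSplitsXPowSubC_pow (q₁ : F) N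
  have hβ : β ^ p = (q₁ : N) := by rw [hβ', map_natCast]
  have hgen : ∀ σ : Gal(N/F), σ β = β → σ = 1 := by
    intro σ hσ
    have htop : Algebra.adjoin F {β} = ⊤ :=
      Algebra.adjoin_root_eq_top_of_isSplittingField hζFm H1 hβ'
    have : (σ : N →ₐ[F] N) = ((1 : Gal(N/F)) : N →ₐ[F] N) := by
      apply AlgHom.ext_of_adjoin_eq_top htop
      intro x hx
      rw [Set.mem_singleton_iff] at hx
      subst hx
      simpa using hσ
    exact AlgEquiv.coe_toAlgHom_injective this
  -- the finite set of excluded ideals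
  have hTfin : {I : Ideal (𝓞 F) | Ideal.absNorm I ∈ insert p (Q ∪ T)}.Finite := by
    have : {I : Ideal (𝓞 F) | Ideal.absNorm I ∈ insert p (Q ∪ T)} =
        ⋃ n ∈ (insert p (Q ∪ T) : Finset ℕ), {I : Ideal (𝓞 F) | Ideal.absNorm I = n} := by
      ext I; simp
    rw [this]
    exact Set.Finite.biUnion (Finset.finite_toSet _)
      (fun n _ => Ideal.finite_setOfPred_absNorm_eq n)
  obtain ⟨P, hPprime, hPbot, hPT, hlprime, hns⟩ := hZ F N hdeg hTfin.toFinset
  haveI := hPprime
  obtain ⟨Q', σ, hQ'p, hQ', hσ, hσQ⟩ :=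
    Fermat.Agent.S14.helper30.exists_stabilizer_ne_one F N P hns
  set l := Ideal.absNorm P with hl
  have hlS : l ∉ insert p (Q ∪ T) := by
    intro h
    apply hPT
    rw [Set.Finite.mem_toFinset]
    exact h
  simp only [Finset.mem_insert, Finset.mem_union, not_or] at hlS
  obtain ⟨hlp, hlQ, hlT⟩ := hlS
  have hldvd : ∀ q ∈ Q, ¬ l ∣ q := fun q hq h =>
    hlQ (((Nat.prime_dvd_prime_iff_eq hlprime (hQ q hq)).mp h) ▸ hq)
  have hq₁res : ¬ ∃ y : ZMod l, y ^ p = (q₁ : ZMod l) :=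
    Fermat.Agent.S14.helper30.not_residue (p := p) (algebraMap E F (ζn ^ p ^ k)) hζF q₁ β hβ
      hgen P l hlprime rfl hlp (hldvd q₁ hq₁Q) Q' hQ' σ hσ hσQ
  refine ⟨l, hlprime, hlT, ?_, ?_⟩
  · exact mod_prime_pow_eq_one hp (Nat.succ_pos k) (algebraMap E F ζn) hζnF P l hlprime rfl hlp
  · intro q hq
    by_cases hqq : q = q₁
    · subst hqq; exact hq₁res
    · obtain ⟨θ, hθ'⟩ := hθ q (Finset.mem_erase.mpr ⟨hqq, hq⟩)
      exact not_residue_of_kumU hp q₁ q θ hθ' P l hlprime rfl (hldvd q hq) hq₁res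

/-- **REC-N1** (auxiliary prime, simultaneous version). -/
theorem exists_aux_prime_multi (hZ : ZetaPoleLemma) (p : ℕ) [Fact p.Prime] (hp2 : p ≠ 2)
    (m : ℕ) (hm : 0 < m) (Q : Finset ℕ) (hQ : ∀ q ∈ Q, q.Prime) (T : Finset ℕ) :
    ∃ l : ℕ, l.Prime ∧ l ∉ T ∧ l % p ^ m = 1 ∧
      ∀ q ∈ Q, ¬ ∃ y : ZMod l, y ^ p = (q : ZMod l) := by
  classical
  have hp : p.Prime := Fact.out
  have hpm1 : 1 < p ^ m := Nat.one_lt_pow hm.ne' hp.one_lt
  rcases Q.eq_empty_or_nonempty with rfl | ⟨q₁, hq₁Q⟩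
  · -- no condition on residues: Dirichlet for the progression `1 mod p ^ m`
    obtain ⟨l, hl, hgt, hmod⟩ := Nat.exists_prime_gt_modEq_one (k := p ^ m) (T.sup id)
      (pow_ne_zero _ hp.ne_zero)
    refine ⟨l, hl, ?_, ?_, by simp⟩
    · intro hlT
      have := Finset.le_sup (f := id) hlT
      simp only [id_eq] at this
      omega
    · have h := hmod
      unfold Nat.ModEq at h
      rw [h, Nat.mod_eq_of_lt hpm1]
  · -- the main case
    obtain ⟨k, rfl⟩ : ∃ k, m = k + 1 := ⟨m - 1, by omega⟩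
    haveI : NeZero (p ^ (k + 1)) := ⟨pow_ne_zero _ hp.ne_zero⟩
    have hcyc : @IsCyclotomicExtension {p ^ (k + 1)} ℚ (CyclotomicField (p ^ (k + 1)) ℚ) _ _
        DivisionRing.toRatAlgebra := by
      have h : @IsCyclotomicExtension {p ^ (k + 1)} ℚ (CyclotomicField (p ^ (k + 1)) ℚ) _ _
          (CyclotomicField.algebra (p ^ (k + 1)) ℚ) := inferInstance
      have e : (CyclotomicField.algebra (p ^ (k + 1)) ℚ) = DivisionRing.toRatAlgebra :=
        Subsingleton.elim _ _
      rw [e] at h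
      exact h
    exact exists_aux_prime_multi_aux hZ p hp hp2 k Q hQ T q₁ hq₁Q
      (CyclotomicField (p ^ (k + 1)) ℚ)

end Fermat.Agent.S55.helper15
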