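import Fermat.Agent.S55.TopTr
import Fermat.Agent.S55.helper7_LocUnram3
import Fermat.Agent.S55.helper51_LocalLevels
import Fermat.Agent.S14.helper91_FieldObstruction

/-!
# S55 / TOP-LOC-B (helper30, task 475): the data of the twisted local cocycle at `p`

`Ω = PadicAlgCl p`, `G_p = Gal(Ω/ℚ_p)`, `r_p = localGaloisToGlobal p`, `χ = cycloChar p`.
For a global primitive `p`-th root of unity `ζ : ℚbar`:

* `TopLocData p ζ` : a structure carrying
  `L0` (the unramified extension of degree `p` of `ℚ_p` inside `Ω`), its Frobenius `φ0`,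
  the character `x0 : G_p → ℤ/p` with `g|L0 = φ0 ^ x0(g)`, an element `π0` with `π0 ^ p = p`
  and the Kummer cocycle `y0 : G_p → ℤ/p` with `g π0 = ζ0 ^ y0(g) π0`, `ζ0 = padicEmbedding p ζ`;
* `nonempty_topLocData` : such data exist;
* `TopLocData.x0_mul`, `x0_one`, `exists_x0_eq_one`, `x0_eq_zero_iff`;
* `apply_zeta0` : `g ζ0 = ζ0 ^ χ(r_p g)`;
* `TopLocData.y0_mul` : `y0 (g h) = y0 g + χ(r_p g) y0 h`; `y0_eq_zero_iff`.
-/

set_option autoImplicit false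

open groupCohomology ExtCitation

noncomputable section

namespace Fermat.Agent.S55.helper30

open Fermat.Agent.S55 Fermat.Agent.S55.helper8

variable (p : ℕ) [Fact p.Prime]

/-- the image in `Ω` of a global root of unity -/
def zeta0 (ζ : AlgebraicClosure ℚ) : PadicAlgCl p := padicEmbedding p ζ

variable {p}

theorem zeta0_isPrimitiveRoot {ζ : AlgebraicClosure ℚ} (hζ : IsPrimitiveRoot ζ p) :
    IsPrimitiveRoot (zeta0 p ζ) p :=
  hζ.map_of_injective (f := (padicEmbedding p : AlgebraicClosure ℚ →ₐ[ℚ] PadicAlgCl p))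
    (padicEmbedding p).toRingHom.injective

/-- `g ζ0 = ζ0 ^ χ(r_p g)` -/
theorem apply_zeta0 {ζ : AlgebraicClosure ℚ} (hζ : ζ ^ p = 1)
    (g : PadicAlgCl p ≃ₐ[ℚ_[p]] PadicAlgCl p) :
    g (zeta0 p ζ) = zeta0 p ζ ^ ((cycloChar p (localGaloisToGlobal p g) : (ZMod p)ˣ) : ZMod p).val := by
  unfold zeta0
  rw [← padicEmbedding_localGaloisToGlobal,
    Fermat.Agent.S14.helper91.apply_of_pow_eq_one p (localGaloisToGlobal p g) hζ, map_pow]
  rfl

variable (p)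

/-- THE DATA OF TOP-LOC-B. -/
structure TopLocData (ζ : AlgebraicClosure ℚ) where
  /-- the unramified extension of degree `p` -/
  L0 : IntermediateField ℚ_[p] (PadicAlgCl p)
  finiteDimensional : FiniteDimensional ℚ_[p] L0
  isGalois : IsGalois ℚ_[p] L0
  finrank_eq : Module.finrank ℚ_[p] L0 = p
  isUnram : IsUnram p ℚ_[p] L0
  /-- the Frobenius of `L0` -/
  φ0 : L0 ≃ₐ[ℚ_[p]] L0
  isFrob : IsFrob p ℚ_[p] L0 φ0
  orderOf_φ0 : orderOf φ0 = p
  /-- the unramified character -/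
  x0 : (PadicAlgCl p ≃ₐ[ℚ_[p]] PadicAlgCl p) → ZMod p
  x0_spec : ∀ g : PadicAlgCl p ≃ₐ[ℚ_[p]] PadicAlgCl p,
    haveI := isGalois
    AlgEquiv.restrictNormalHom L0 g = φ0 ^ (x0 g).val
  /-- a `p`-th root of `p` -/
  π0 : PadicAlgCl p
  π0_pow : π0 ^ p = (p : PadicAlgCl p)
  /-- the Kummer cocycle of `p` -/
  y0 : (PadicAlgCl p ≃ₐ[ℚ_[p]] PadicAlgCl p) → ZMod p
  y0_spec : ∀ g : PadicAlgCl p ≃ₐ[ℚ_[p]] PadicAlgCl p,
    g π0 = zeta0 p ζ ^ (y0 g).val * π0

variable {p}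

/-- exponents of an element of order `p` are determined modulo `p` -/
theorem zmod_eq_of_pow_eq_of_orderOf {G : Type*} [Group G] {φ : G} (hφ : orderOf φ = p)
    {a b : ZMod p} (h : φ ^ a.val = φ ^ b.val) : a = b := by
  have hp : p.Prime := Fact.out
  have : NeZero p := ⟨hp.ne_zero⟩
  rw [pow_eq_pow_iff_modEq, hφ] at h
  have h1 : a.val = b.val := by
    have := h
    unfold Nat.ModEq at this
    rwa [Nat.mod_eq_of_lt (ZMod.val_lt a), Nat.mod_eq_of_lt (ZMod.val_lt b)] at this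
  exact ZMod.val_injective p h1

/-- exponents of a primitive root only matter modulo the order -/
theorem pow_mod_of_isPrimitiveRoot {M : Type*} [CommMonoid M] {z : M} {k : ℕ}
    (hz : IsPrimitiveRoot z k) (n : ℕ) : z ^ (n % k) = z ^ n := by
  conv_rhs => rw [← Nat.mod_add_div n k]
  rw [pow_add, pow_mul, hz.pow_eq_one, one_pow, mul_one]

theorem nonempty_topLocData {ζ : AlgebraicClosure ℚ} (hζ : IsPrimitiveRoot ζ p) :
    Nonempty (TopLocData p ζ) := by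
  classical
  have hp : p.Prime := Fact.out
  have : NeZero p := ⟨hp.ne_zero⟩
  obtain ⟨L0, hfd, hgal, hrank, hunr⟩ :=
    helper7.exists_unram p ℚ_[p] (PadicAlgCl p) p hp.pos
  obtain ⟨φ0, hfrob, hgen, hord, -⟩ := helper7.exists_frob_of_isUnram p ℚ_[p] L0 hunr
  rw [hrank] at hord
  -- the character
  have hx : ∀ g : PadicAlgCl p ≃ₐ[ℚ_[p]] PadicAlgCl p, ∃ a : ZMod p,
      AlgEquiv.restrictNormalHom L0 g = φ0 ^ a.val := by
    intro g
    obtain ⟨k, hk⟩ := Subgroup.mem_zpowers_iff.mp (hgen (AlgEquiv.restrictNormalHom L0 g))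
    refine ⟨(k : ZMod p), ?_⟩
    rw [← hk, ← zpow_natCast, ← zpow_mod_orderOf φ0 k, hord, ZMod.val_intCast]
  choose x0 hx0 using hx
  -- the root of `p`
  obtain ⟨π0, hπ0⟩ := IsAlgClosed.exists_pow_nat_eq (p : PadicAlgCl p) hp.pos
  have hπ00 : π0 ≠ 0 := by
    rintro rfl
    rw [zero_pow hp.ne_zero] at hπ0
    exact (Nat.cast_ne_zero.mpr hp.ne_zero) hπ0.symm
  have hz := zeta0_isPrimitiveRoot hζ
  have hy : ∀ g : PadicAlgCl p ≃ₐ[ℚ_[p]] PadicAlgCl p, ∃ a : ZMod p,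
      g π0 = zeta0 p ζ ^ a.val * π0 := by
    intro g
    have h1 : (g π0 / π0) ^ p = 1 := by
      rw [div_pow, ← map_pow, hπ0, map_natCast, div_self]
      exact Nat.cast_ne_zero.mpr hp.ne_zero
    obtain ⟨k, hk, hkc⟩ := hz.eq_pow_of_pow_eq_one h1
    refine ⟨(k : ZMod p), ?_⟩
    rw [ZMod.val_natCast, Nat.mod_eq_of_lt hk, hkc, div_mul_cancel₀ _ hπ00]
  choose y0 hy0 using hy
  exact ⟨⟨L0, hfd, hgal, hrank, hunr, φ0, hfrob, hord, x0, hx0, π0, hπ0, y0, hy0⟩⟩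

namespace TopLocData

variable {ζ : AlgebraicClosure ℚ} (d : TopLocData p ζ)

theorem π0_ne_zero : d.π0 ≠ 0 := by
  have hp : p.Prime := Fact.out
  intro h
  have := d.π0_pow
  rw [h, zero_pow hp.ne_zero] at this
  exact (Nat.cast_ne_zero.mpr hp.ne_zero) this.symm

/-- `x0` is additive -/
theorem x0_mul (g h : PadicAlgCl p ≃ₐ[ℚ_[p]] PadicAlgCl p) :
    d.x0 (g * h) = d.x0 g + d.x0 h := by
  have hp : p.Prime := Fact.out
  have : NeZero p := ⟨hp.ne_zero⟩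
  have := d.isGalois
  apply zmod_eq_of_pow_eq_of_orderOf d.orderOf_φ0
  rw [← d.x0_spec, map_mul, d.x0_spec, d.x0_spec, ← pow_add, pow_eq_pow_iff_modEq, d.orderOf_φ0,
    ZMod.val_add]
  exact (Nat.mod_modEq _ _).symm

theorem x0_one : d.x0 1 = 0 := by
  have := d.x0_mul 1 1
  rw [mul_one] at this
  exact left_eq_add.mp this

/-- `x0 g = 0` iff `g` fixes `L0` -/
theorem x0_eq_zero_iff (g : PadicAlgCl p ≃ₐ[ℚ_[p]] PadicAlgCl p) :
    d.x0 g = 0 ↔ g ∈ d.L0.fixingSubgroup := by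
  have hp : p.Prime := Fact.out
  have : NeZero p := ⟨hp.ne_zero⟩
  have := d.isGalois
  rw [← IntermediateField.restrictNormalHom_ker, MonoidHom.mem_ker, d.x0_spec]
  constructor
  · intro h
    rw [h, ZMod.val_zero, pow_zero]
  · intro h
    apply zmod_eq_of_pow_eq_of_orderOf d.orderOf_φ0
    rw [h, ZMod.val_zero, pow_zero]

/-- the character `x0` takes the value `1` (on any lift of the Frobenius) -/
theorem exists_x0_eq_one : ∃ g : PadicAlgCl p ≃ₐ[ℚ_[p]] PadicAlgCl p,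
    d.x0 g = 1 ∧ (haveI := d.isGalois; AlgEquiv.restrictNormalHom d.L0 g = d.φ0) := by
  have hp : p.Prime := Fact.out
  have : NeZero p := ⟨hp.ne_zero⟩
  have := d.isGalois
  have h1 : Algebra.IsAlgebraic ℚ_[p] (PadicAlgCl p) := PadicAlgCl.isAlgebraic p
  have h2 : IsAlgClosure ℚ_[p] (PadicAlgCl p) := ⟨inferInstance, h1⟩
  have h3 : Normal ℚ_[p] (PadicAlgCl p) := IsAlgClosure.normal ℚ_[p] (PadicAlgCl p)
  obtain ⟨g, hg⟩ := AlgEquiv.restrictNormalHom_surjective (F := ℚ_[p]) (K₁ := d.L0)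
    (PadicAlgCl p) d.φ0
  refine ⟨g, ?_, hg⟩
  apply zmod_eq_of_pow_eq_of_orderOf d.orderOf_φ0
  rw [← d.x0_spec, hg, ZMod.val_one, pow_one]

/-- `y0` is a twisted cocycle: `y0 (g h) = y0 g + χ(r_p g) y0 h` -/
theorem y0_mul (hζ : IsPrimitiveRoot ζ p) (g h : PadicAlgCl p ≃ₐ[ℚ_[p]] PadicAlgCl p) :
    d.y0 (g * h) = d.y0 g +
      ((cycloChar p (localGaloisToGlobal p g) : (ZMod p)ˣ) : ZMod p) * d.y0 h := by
  have hp : p.Prime := Fact.out
  have : NeZero p := ⟨hp.ne_zero⟩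
  have hz := zeta0_isPrimitiveRoot hζ
  set c : ZMod p := ((cycloChar p (localGaloisToGlobal p g) : (ZMod p)ˣ) : ZMod p) with hc
  have h1 : (g * h) d.π0 = zeta0 p ζ ^ (c.val * (d.y0 h).val + (d.y0 g).val) * d.π0 := by
    rw [AlgEquiv.mul_apply, d.y0_spec h, map_mul, map_pow, apply_zeta0 hζ.pow_eq_one g,
      d.y0_spec g, ← pow_mul, pow_add]
    ring
  rw [d.y0_spec (g * h)] at h1
  have h2 := mul_right_cancel₀ d.π0_ne_zero h1
  have h3 : (d.y0 (g * h)).val ≡ c.val * (d.y0 h).val + (d.y0 g).val [MOD p] := by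
    have h5 : zeta0 p ζ ^ ((d.y0 (g * h)).val % p) =
        zeta0 p ζ ^ ((c.val * (d.y0 h).val + (d.y0 g).val) % p) := by
      rw [pow_mod_of_isPrimitiveRoot hz, pow_mod_of_isPrimitiveRoot hz]
      exact h2
    exact hz.pow_inj (Nat.mod_lt _ hp.pos) (Nat.mod_lt _ hp.pos) h5
  have h4 : ((((d.y0 (g * h)).val : ℕ) : ZMod p)) =
      ((c.val * (d.y0 h).val + (d.y0 g).val : ℕ) : ZMod p) :=
    (ZMod.natCast_eq_natCast_iff _ _ _).mpr h3
  rw [ZMod.natCast_zmod_val] at h4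
  rw [h4]
  push_cast
  rw [ZMod.natCast_zmod_val, ZMod.natCast_zmod_val, ZMod.natCast_zmod_val]
  ring

/-- `y0 g = 0` iff `g` fixes `π0` -/
theorem y0_eq_zero_iff (hζ : IsPrimitiveRoot ζ p) (g : PadicAlgCl p ≃ₐ[ℚ_[p]] PadicAlgCl p) :
    d.y0 g = 0 ↔ g d.π0 = d.π0 := by
  have hp : p.Prime := Fact.out
  have : NeZero p := ⟨hp.ne_zero⟩
  have hz := zeta0_isPrimitiveRoot hζ
  constructor
  · intro h
    rw [d.y0_spec, h, ZMod.val_zero, pow_zero, one_mul]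
  · intro h
    have h1 := d.y0_spec g
    rw [h] at h1
    have h2 : zeta0 p ζ ^ (d.y0 g).val * d.π0 = 1 * d.π0 := by rw [← h1, one_mul]
    have h3 := mul_right_cancel₀ d.π0_ne_zero h2
    have h4 : (d.y0 g).val = 0 := by
      have := hz.pow_inj (ZMod.val_lt (d.y0 g)) hp.pos (by rw [h3, pow_zero])
      exact this
    exact (ZMod.val_eq_zero _).mp h4

end TopLocData

end Fermat.Agent.S55.helper30
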