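import Fermat.Agent.S55.helper15_TopLocB
import Fermat.Agent.S55.helper30_TopLocBDefs

/-!
# S55 / TOP-LOC-B, bridge (helper15): `helper30.TopLocData` and the named definitions of
`helper15_TopLocB` are interchangeable

* `topLocData p hζ : helper30.TopLocData p ζ` : the data built from `L0 p`, `phi0 p`, `x0 p`,
  `pi0 p`, `y0 p (zeta0 p ζ)`;
* for an ARBITRARY `d : helper30.TopLocData p ζ`: the cochain `bOf d (g, h) = χ(g) d.x0 g d.y0 h`
  and `bOfS_mem_Z2` : it is a level-constant twisted 2-cocycle (exact `TopLocStatement` shape);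
* `bOf_topLocData` : for `d = topLocData p hζ` this is `bLoc p (zeta0 p ζ)`.
-/

set_option autoImplicit false
set_option linter.style.haveILetI false
set_option linter.unusedSectionVars false
set_option linter.unusedVariables false

open groupCohomology ExtCitation

noncomputable section

namespace Fermat.Agent.S55.helper15

variable (p : ℕ) [Fact p.Prime]

/-- the data of `helper30_TopLocBDefs` built from the named definitions of this package -/
def topLocData {ζ : AlgebraicClosure ℚ} (hζ : IsPrimitiveRoot ζ p) : helper30.TopLocData p ζ where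
  L0 := L0 p
  finiteDimensional := finiteDimensional_L0 p
  isGalois := isGalois_L0 p
  finrank_eq := finrank_L0 p
  isUnram := isUnram_L0 p
  φ0 := phi0 p
  isFrob := isFrob_phi0 p
  orderOf_φ0 := orderOf_phi0 p
  x0 := x0 p
  x0_spec := x0_spec p
  π0 := pi0 p
  π0_pow := pi0_pow p
  y0 := y0 p (helper30.zeta0 p ζ)
  y0_spec := y0_spec p (helper30.zeta0_isPrimitiveRoot hζ)

section rfl_lemmas

variable {ζ : AlgebraicClosure ℚ} (hζ : IsPrimitiveRoot ζ p)

@[simp] theorem topLocData_L0 : (topLocData p hζ).L0 = L0 p := rfl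
@[simp] theorem topLocData_φ0 : (topLocData p hζ).φ0 = phi0 p := rfl
@[simp] theorem topLocData_x0 : (topLocData p hζ).x0 = x0 p := rfl
@[simp] theorem topLocData_π0 : (topLocData p hζ).π0 = pi0 p := rfl
@[simp] theorem topLocData_y0 : (topLocData p hζ).y0 = y0 p (helper30.zeta0 p ζ) := rfl

theorem zeta0_eq (ζ : AlgebraicClosure ℚ) : helper30.zeta0 p ζ = padicEmbedding p ζ := rfl

end rfl_lemmas

/-! ### the cocycle of arbitrary data -/

section General

variable {p}
variable {ζ : AlgebraicClosure ℚ} (d : helper30.TopLocData p ζ)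

/-- the twisted 2-cochain `b(g,h) = χ(g) x₀(g) y₀(h)` of the data `d` -/
def bOf : GpLoc p × GpLoc p → ZMod p :=
  fun s => ((chiLoc p s.1 : (ZMod p)ˣ) : ZMod p) * d.x0 s.1 * d.y0 s.2

theorem bOf_apply (g h : GpLoc p) :
    bOf d (g, h) = ((chiLoc p g : (ZMod p)ˣ) : ZMod p) * d.x0 g * d.y0 h := rfl

theorem bOf_apply_of_chiLoc_eq_one (g h : GpLoc p) (hg : chiLoc p g = 1) :
    bOf d (g, h) = d.x0 g * d.y0 h := by
  rw [bOf_apply, hg, Units.val_one, one_mul]

/-- the finite extension `L0(ζ₀, π₀)` through which `b` factors -/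
def K0Of : IntermediateField ℚ_[p] (PadicAlgCl p) :=
  d.L0 ⊔ IntermediateField.adjoin ℚ_[p] {helper30.zeta0 p ζ, d.π0}

theorem finiteDimensional_K0Of : FiniteDimensional ℚ_[p] (K0Of d) := by
  have h0 := d.finiteDimensional
  have h1 : FiniteDimensional ℚ_[p] (IntermediateField.adjoin ℚ_[p]
      ({helper30.zeta0 p ζ, d.π0} : Set (PadicAlgCl p))) :=
    IntermediateField.finiteDimensional_adjoin fun x _ =>
      (PadicAlgCl.isAlgebraic p).isIntegral.isIntegral x
  exact IntermediateField.finiteDimensional_sup _ _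

theorem bOf_mul_of_mem_K0Of (hζ : IsPrimitiveRoot ζ p) (g g' s s' : GpLoc p)
    (hs : s ∈ (K0Of d).fixingSubgroup) (hs' : s' ∈ (K0Of d).fixingSubgroup) :
    bOf d (g * s, g' * s') = bOf d (g, g') := by
  have hz := helper30.zeta0_isPrimitiveRoot hζ
  have h1 : d.x0 s = 0 := by
    rw [d.x0_eq_zero_iff]
    exact IntermediateField.fixingSubgroup_antitone (le_sup_left : d.L0 ≤ K0Of d) hs
  have h2 : s (helper30.zeta0 p ζ) = helper30.zeta0 p ζ := by
    rw [IntermediateField.mem_fixingSubgroup_iff] at hs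
    exact hs _ ((le_sup_right : _ ≤ K0Of d)
      (IntermediateField.subset_adjoin _ _ (Set.mem_insert _ _)))
  have h3 : s' d.π0 = d.π0 := by
    rw [IntermediateField.mem_fixingSubgroup_iff] at hs'
    exact hs' _ ((le_sup_right : _ ≤ K0Of d)
      (IntermediateField.subset_adjoin _ _ (Set.mem_insert_of_mem _ rfl)))
  have h4 : d.y0 (g' * s') = d.y0 g' + ((chiLoc p g' : (ZMod p)ˣ) : ZMod p) * d.y0 s' :=
    d.y0_mul hζ g' s'
  rw [bOf_apply, bOf_apply, map_mul, d.x0_mul, h4, chiLoc_eq_one_of_apply_eq p hz s h2, h1,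
    (d.y0_eq_zero_iff hζ s').2 h3]
  simp

theorem bOf_cocycle (hζ : IsPrimitiveRoot ζ p) (g h j : GpLoc p) :
    ((chiLoc p g : (ZMod p)ˣ) : ZMod p) * bOf d (h, j) - bOf d (g * h, j)
      + bOf d (g, h * j) - bOf d (g, h) = 0 := by
  have h4 : d.y0 (h * j) = d.y0 h + ((chiLoc p h : (ZMod p)ˣ) : ZMod p) * d.y0 j :=
    d.y0_mul hζ h j
  rw [bOf_apply, bOf_apply, bOf_apply, bOf_apply, map_mul, d.x0_mul, h4, Units.val_mul]
  ring

variable (S : Finset Nat.Primes) (hpS : pPrime p ∈ S)

/-- `bOf d` as a cochain of `galLocal S` at `p` with coefficients in the twisted module -/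
def bOfS :
    (galLocal S).Gv ⟨pPrime p, hpS⟩ × (galLocal S).Gv ⟨pPrime p, hpS⟩ →
      (galLocal S).loc (groupCohomology.ofChar (k := ZMod p) (cycloChar p)) ⟨pPrime p, hpS⟩ :=
  (bOf d : GpLoc p × GpLoc p → ZMod p)

theorem bOfS_apply (g h : GpLoc p) :
    (bOfS d S hpS (g, h) : ZMod p) =
      ((cycloChar p (primeLocalToGlobal (pPrime p) g) : (ZMod p)ˣ) : ZMod p) * d.x0 g *
        d.y0 h := rfl

/-- **TOP-LOC-B for arbitrary data**: `b` is a level-constant twisted 2-cocycle at `p`. -/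
theorem bOfS_mem_Z2 (hζ : IsPrimitiveRoot ζ p) :
    bOfS d S hpS ∈ Z2 ((galLocal S).lev ⟨pPrime p, hpS⟩)
      ((galLocal S).loc (groupCohomology.ofChar (k := ZMod p) (cycloChar p))
        ⟨pPrime p, hpS⟩) := by
  refine ⟨?_, LinearMap.mem_ker.mpr ?_⟩
  · refine (helper4.isLev₂_locLevels_iff (pPrime p) _).2
      ((helper51.isLevelConstant₂_primeLocalToGlobal_iff (pPrime p) _).2
        ⟨K0Of (p := p) d, finiteDimensional_K0Of (p := p) d, fun g g' s s' hs hs' =>
          bOf_mul_of_mem_K0Of (p := p) d hζ g g' s s' hs hs'⟩)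
  · funext g
    rw [d₂₃_hom_apply]
    exact bOf_cocycle (p := p) d hζ g.1 g.2.1 g.2.2

end General

/-- for the data of this package, `bOf` is `bLoc` -/
theorem bOf_topLocData {ζ : AlgebraicClosure ℚ} (hζ : IsPrimitiveRoot ζ p) :
    bOf (topLocData p hζ) = bLoc p (helper30.zeta0 p ζ) := rfl

theorem bOfS_topLocData {ζ : AlgebraicClosure ℚ} (hζ : IsPrimitiveRoot ζ p)
    (S : Finset Nat.Primes) (hpS : pPrime p ∈ S) :
    bOfS (topLocData p hζ) S hpS = bLocS p S hpS (helper30.zeta0 p ζ) := rfl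

end Fermat.Agent.S55.helper15
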