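import Fermat.Agent.S55.helper30_TopLocB
import Fermat.Agent.S55.helper77_LevelDict

/-!
# S55 / TOP-LOC-INV, piece (i) (helper30, requested by helper12): the finite level `M`

For a finite extension `K` of `ℚ_p` inside `Ω = PadicAlgCl p`:

* `exists_finite_galois_ge_padic` : every finite extension `K₁` of `ℚ_p` inside `Ω` is contained
  in a finite Galois extension `M` of `K` inside `Ω`;
* `TopLocData.exists_M` : there is a finite Galois `M / K` inside `Ω` containing `L0`, `π0`, `ζ0`
  (the field of definition `K0` of the cocycle `b`), and `K`.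
-/

set_option autoImplicit false

open groupCohomology ExtCitation

noncomputable section

namespace Fermat.Agent.S55.helper30

open Fermat.Agent.S55 Fermat.Agent.S55.helper8

variable {p : ℕ} [Fact p.Prime]

/-- `Ω` is an algebraic closure of every intermediate field `K` of `Ω / ℚ_p` -/
theorem isAlgClosure_padic (K : IntermediateField ℚ_[p] (PadicAlgCl p)) :
    IsAlgClosure K (PadicAlgCl p) := by
  have h1 : Algebra.IsAlgebraic ℚ_[p] (PadicAlgCl p) := PadicAlgCl.isAlgebraic p
  exact ⟨inferInstance, Algebra.IsAlgebraic.tower_top (K := ℚ_[p]) K⟩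

/-- every finite extension `K₁` of `ℚ_p` inside `Ω` is contained in a finite Galois extension of
`K` inside `Ω` -/
theorem exists_finite_galois_ge_padic (K : IntermediateField ℚ_[p] (PadicAlgCl p))
    [FiniteDimensional ℚ_[p] K] (K₁ : IntermediateField ℚ_[p] (PadicAlgCl p))
    [FiniteDimensional ℚ_[p] K₁] :
    ∃ M : IntermediateField K (PadicAlgCl p), FiniteDimensional K M ∧ IsGalois K M ∧
      ∀ x ∈ K₁, x ∈ M := by
  have hle : K ≤ K ⊔ K₁ := le_sup_left
  set M₀ : IntermediateField K (PadicAlgCl p) := IntermediateField.extendScalars hle with hM₀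
  have hfin : FiniteDimensional ℚ_[p] ↥(K ⊔ K₁) := IntermediateField.finiteDimensional_sup K K₁
  have hfin' : FiniteDimensional ℚ_[p] ↥M₀ := hfin
  have hfinK : FiniteDimensional K ↥M₀ := FiniteDimensional.right ℚ_[p] K ↥M₀
  have hAC : IsAlgClosure K (PadicAlgCl p) := isAlgClosure_padic K
  obtain ⟨M, hMf, hMg, hMle⟩ := helper77.exists_finite_galois_ge K (PadicAlgCl p) M₀
  refine ⟨M, hMf, hMg, fun x hx => hMle ?_⟩
  exact (le_sup_right : K₁ ≤ K ⊔ K₁) hx

namespace TopLocData

variable {ζ : AlgebraicClosure ℚ} (d : TopLocData p ζ)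

theorem L0_le_K0 : d.L0 ≤ d.K0 := le_sup_left

theorem zeta0_mem_K0 : zeta0 p ζ ∈ d.K0 :=
  (le_sup_right : _ ≤ d.K0) (IntermediateField.subset_adjoin _ _ (Set.mem_insert _ _))

theorem π0_mem_K0 : d.π0 ∈ d.K0 :=
  (le_sup_right : _ ≤ d.K0)
    (IntermediateField.subset_adjoin _ _ (Set.mem_insert_of_mem _ rfl))

/-- **TOP-LOC-INV (i)**: a finite Galois extension `M / K` inside `Ω` containing `L0`, `π0`
and `ζ0`. -/
theorem exists_M (K : IntermediateField ℚ_[p] (PadicAlgCl p)) [FiniteDimensional ℚ_[p] K] :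
    ∃ M : IntermediateField K (PadicAlgCl p), FiniteDimensional K M ∧ IsGalois K M ∧
      (∀ x ∈ d.L0, x ∈ M) ∧ d.π0 ∈ M ∧ zeta0 p ζ ∈ M := by
  have := d.finiteDimensional_K0
  obtain ⟨M, hMf, hMg, hM⟩ := exists_finite_galois_ge_padic K d.K0
  exact ⟨M, hMf, hMg, fun x hx => hM x (d.L0_le_K0 hx), hM _ d.π0_mem_K0, hM _ d.zeta0_mem_K0⟩

end TopLocData

end Fermat.Agent.S55.helper30
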