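import Fermat.Agent.S55.helper15_TopLocB
import Fermat.Agent.S55.helper30_TopLocM
import Fermat.Agent.S55.helper59_BDic

/-!
# S55 / TOP-LOC-INV, piece (Y) (helper15): the Kummer character `ψ_M` of `π₀` over `K`

Setting: `d : helper30.TopLocData p ζg`, `K` a finite extension of `ℚ_p` inside `Ω = PadicAlgCl p`
containing the root of unity `ζ_K = ζ₀ ^ a` (`a : (ZMod p)ˣ`), `M / K` finite Galois inside `Ω`
containing `π₀`.  Then `ψ : Gal(M/K) →* Multiplicative (ZMod p)` with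

* `σ π₀ = ζ_K ^ ψ(σ) · π₀` for all `σ : Gal(M/K)`  (hypothesis `hψ` of
  `helper62.mulClass_cup_eq_chiClass` with `β = π₀`);
* `ψ (resFix K M g) = a⁻¹ · y₀(g)` for all `g ∈ Gal(Ω/K)`.
-/

set_option autoImplicit false
set_option linter.style.haveILetI false
set_option linter.unusedSectionVars false
set_option linter.unusedVariables false

open groupCohomology ExtCitation

noncomputable section

namespace Fermat.Agent.S55.helper15

open Fermat.Agent.S55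

variable {p : ℕ} [Fact p.Prime]

section

variable {ζg : AlgebraicClosure ℚ} (d : helper30.TopLocData p ζg)
  (K : IntermediateField ℚ_[p] (PadicAlgCl p))

/-- an element of `Gal(Ω/K)` fixes `ζ₀` if `K` contains `ζ₀ ^ a`, `a` a unit -/
theorem apply_zeta0_of_mem_fixingSubgroup (hζg : IsPrimitiveRoot ζg p) (ζK : Kˣ)
    (a : (ZMod p)ˣ)
    (hζK : ((ζK : K) : PadicAlgCl p) = helper30.zeta0 p ζg ^ (a : ZMod p).val)
    (g : PadicAlgCl p ≃ₐ[ℚ_[p]] PadicAlgCl p) (hg : g ∈ K.fixingSubgroup) :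
    g (helper30.zeta0 p ζg) = helper30.zeta0 p ζg := by
  haveI : Fact (1 < p) := ⟨(Fact.out : p.Prime).one_lt⟩
  have hz := helper30.zeta0_isPrimitiveRoot hζg
  have h1 : g ((ζK : K) : PadicAlgCl p) = ((ζK : K) : PadicAlgCl p) :=
    (IntermediateField.mem_fixingSubgroup_iff K g).1 hg _ (ζK : K).2
  have h2 : helper30.zeta0 p ζg =
      (((ζK : K) : PadicAlgCl p)) ^ (((a⁻¹ : (ZMod p)ˣ) : ZMod p)).val := by
    rw [hζK, ← pow_val_mul hz.pow_eq_one, Units.mul_inv, ZMod.val_one, pow_one]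
  rw [h2, map_pow, h1]

/-- `y₀` is additive on `Gal(Ω/K)` -/
theorem y0_mul_of_mem_fixingSubgroup (hζg : IsPrimitiveRoot ζg p) (ζK : Kˣ)
    (a : (ZMod p)ˣ)
    (hζK : ((ζK : K) : PadicAlgCl p) = helper30.zeta0 p ζg ^ (a : ZMod p).val)
    (g h : PadicAlgCl p ≃ₐ[ℚ_[p]] PadicAlgCl p) (hg : g ∈ K.fixingSubgroup) :
    d.y0 (g * h) = d.y0 g + d.y0 h := by
  have h1 := d.y0_mul hζg g h
  have h2 : helper30.chiLoc p g = 1 :=
    helper30.chiLoc_eq_one_of_fixes hζg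
      (apply_zeta0_of_mem_fixingSubgroup K hζg ζK a hζK g hg)
  have h3 : ((cycloChar p (localGaloisToGlobal p g) : (ZMod p)ˣ) : ZMod p) = 1 := h2
  rw [h1, h3, one_mul]

/-- the character `g ↦ a⁻¹ y₀(g)` of `Gal(Ω/K)` -/
def psiFix (hζg : IsPrimitiveRoot ζg p) (ζK : Kˣ) (a : (ZMod p)ˣ)
    (hζK : ((ζK : K) : PadicAlgCl p) = helper30.zeta0 p ζg ^ (a : ZMod p).val) :
    ↥K.fixingSubgroup →* Multiplicative (ZMod p) where
  toFun g := Multiplicative.ofAdd (((a⁻¹ : (ZMod p)ˣ) : ZMod p) *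
    d.y0 (g : PadicAlgCl p ≃ₐ[ℚ_[p]] PadicAlgCl p))
  map_one' := by
    have h0 : d.y0 (1 : PadicAlgCl p ≃ₐ[ℚ_[p]] PadicAlgCl p) = 0 :=
      (d.y0_eq_zero_iff hζg 1).2 rfl
    change Multiplicative.ofAdd (((a⁻¹ : (ZMod p)ˣ) : ZMod p) *
      d.y0 (1 : PadicAlgCl p ≃ₐ[ℚ_[p]] PadicAlgCl p)) = 1
    rw [h0, mul_zero]
    rfl
  map_mul' g h := by
    change Multiplicative.ofAdd (((a⁻¹ : (ZMod p)ˣ) : ZMod p) *
      d.y0 ((g : PadicAlgCl p ≃ₐ[ℚ_[p]] PadicAlgCl p) * (h : PadicAlgCl p ≃ₐ[ℚ_[p]] PadicAlgCl p)))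
      = Multiplicative.ofAdd (((a⁻¹ : (ZMod p)ˣ) : ZMod p) * d.y0 g) *
        Multiplicative.ofAdd (((a⁻¹ : (ZMod p)ˣ) : ZMod p) * d.y0 h)
    rw [y0_mul_of_mem_fixingSubgroup d K hζg ζK a hζK g h g.2, mul_add]
    rfl

theorem psiFix_apply (hζg : IsPrimitiveRoot ζg p) (ζK : Kˣ) (a : (ZMod p)ˣ)
    (hζK : ((ζK : K) : PadicAlgCl p) = helper30.zeta0 p ζg ^ (a : ZMod p).val)
    (g : ↥K.fixingSubgroup) :
    Multiplicative.toAdd (psiFix d K hζg ζK a hζK g) =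
      ((a⁻¹ : (ZMod p)ˣ) : ZMod p) * d.y0 (g : PadicAlgCl p ≃ₐ[ℚ_[p]] PadicAlgCl p) := rfl

variable (M : IntermediateField K (PadicAlgCl p)) [FiniteDimensional K M] [IsGalois K M]

/-- **(Y)** the Kummer character `ψ_M` of `π₀` over `K` with respect to `ζ_K = ζ₀ ^ a`. -/
theorem exists_yM (hζg : IsPrimitiveRoot ζg p) (hπ : d.π0 ∈ M) (ζK : Kˣ) (a : (ZMod p)ˣ)
    (hζK : ((ζK : K) : PadicAlgCl p) = helper30.zeta0 p ζg ^ (a : ZMod p).val) :
    ∃ ψ : (M ≃ₐ[K] M) →* Multiplicative (ZMod p),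
      (∀ σ : M ≃ₐ[K] M, σ ⟨d.π0, hπ⟩ =
        algebraMap K M ((ζK : K) ^ (Multiplicative.toAdd (ψ σ)).val) * ⟨d.π0, hπ⟩) ∧
      (∀ (g : PadicAlgCl p ≃ₐ[ℚ_[p]] PadicAlgCl p) (hg : g ∈ K.fixingSubgroup),
        Multiplicative.toAdd (ψ (helper59.resFix K M ⟨g, hg⟩)) =
          ((a⁻¹ : (ZMod p)ˣ) : ZMod p) * d.y0 g) := by
  haveI : Fact (1 < p) := ⟨(Fact.out : p.Prime).one_lt⟩
  have hz := helper30.zeta0_isPrimitiveRoot hζg
  haveI : IsAlgClosure K (PadicAlgCl p) := helper30.isAlgClosure_padic K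
  haveI : Normal K (PadicAlgCl p) := IsAlgClosure.normal K (PadicAlgCl p)
  have hsurj : Function.Surjective (helper59.resFix K M) := helper59.resFix_surjective K M
  have hker : (helper59.resFix K M).ker ≤ (psiFix d K hζg ζK a hζK).ker := by
    intro g hg
    rw [helper59.mem_ker_resFix_iff] at hg
    rw [MonoidHom.mem_ker]
    have h1 : (g : PadicAlgCl p ≃ₐ[ℚ_[p]] PadicAlgCl p) d.π0 = d.π0 := hg _ hπ
    change Multiplicative.ofAdd (((a⁻¹ : (ZMod p)ˣ) : ZMod p) *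
      d.y0 (g : PadicAlgCl p ≃ₐ[ℚ_[p]] PadicAlgCl p)) = 1
    rw [(d.y0_eq_zero_iff hζg _).2 h1, mul_zero]
    rfl
  refine ⟨MonoidHom.liftOfSurjective (helper59.resFix K M) hsurj
    ⟨psiFix d K hζg ζK a hζK, hker⟩, ?_, ?_⟩
  · intro σ
    obtain ⟨g, rfl⟩ := hsurj σ
    rw [MonoidHom.liftOfRightInverse_comp_apply]
    apply Subtype.ext
    rw [helper59.resFix_apply_coe]
    change (g : PadicAlgCl p ≃ₐ[ℚ_[p]] PadicAlgCl p) d.π0 =
      (((ζK : K) ^ (Multiplicative.toAdd (psiFix d K hζg ζK a hζK g)).val : K) :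
        PadicAlgCl p) * d.π0
    rw [psiFix_apply, d.y0_spec]
    congr 1
    rw [IntermediateField.coe_pow, hζK, ← pow_val_mul hz.pow_eq_one, ← mul_assoc, Units.mul_inv,
      one_mul]
  · intro g hg
    rw [MonoidHom.liftOfRightInverse_comp_apply]
    rfl

end

end Fermat.Agent.S55.helper15
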