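import Fermat.Agent.S55.helper96_LocUnram2b
import Fermat.Agent.S55.helper96_CyclicNorm
import Fermat.Agent.S55.helper33_LocRel
import Fermat.Agent.S55.helper8_LocDefs2
import Fermat.Agent.S55.helper7_LocUnram

/-!
# S55 / B-AR-REC-MIX (e) SUPPORT, local core (helper15)

A unit-valued 2-cocycle of an unramified extension `L/K` of `q`-adic fields is a coboundary:
`mulClass K L f = 0`.

Proof: `Gal(L/K)` is cyclic, generated by the Frobenius `φ` of order `n`; every 2-cocycle `f` is
cohomologous to the cyclic cocycle of `b = ∏_{j<n} f(φ^j, φ)` (explicit form of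
`helper96.exists_cycG_of_isMulCocycle₂`); `b` is a `φ`-fixed unit of `L`, hence a unit of `K`,
hence a norm from `L` (`helper96.exists_norm_eq_of_isUnram`), so the cyclic cocycle is a
coboundary.
-/

set_option autoImplicit false
set_option linter.style.haveILetI false
set_option linter.unusedSectionVars false
set_option linter.unusedVariables false

open groupCohomology

noncomputable section

namespace Fermat.Agent.S55.helper15

open Fermat.Agent.S55.helper8 Fermat.Agent.S55.helper96

section generic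

variable {G : Type*} [Group G] {M : Type*} [CommGroup M] [MulDistribMulAction G M] {φ : G}

/-- explicit form of `helper96.exists_cycG_of_isMulCocycle₂`: a 2-cocycle `c` of a finite cyclic
group differs from the cyclic cocycle of `b = ∏_{j<n} c(φ^j, φ)` by the coboundary of
`σ ↦ c(1,1) / ∏_{j < dlog σ} c(φ^j, φ)`. -/
theorem cocycle_div_cycG_partProd (hfin : 0 < orderOf φ)
    (hgen : ∀ σ : G, σ ∈ Subgroup.zpowers φ) {c : G × G → M} (hc : IsMulCocycle₂ c) (g h : G) :
    g • (c (1, 1) / partProd φ c (dlogG φ h)) / (c (1, 1) / partProd φ c (dlogG φ (g * h))) *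
        (c (1, 1) / partProd φ c (dlogG φ g)) =
      c (g, h) / cycG φ (partProd φ c (orderOf φ)) (g, h) := by
  have key := cocycle_partProd (φ := φ) hc (dlogG φ g) (dlogG φ h)
  rw [pow_dlogG hfin hgen, pow_dlogG hfin hgen, map_one_snd_of_isMulCocycle₂ hc,
    partProd_eq_mod c (dlogG φ g + dlogG φ h), ← dlogG_mul hfin hgen] at key
  simp only [cycG]
  rw [smul_div']
  exact mul_identity_aux _ _ _ _ _ _ _ key

/-- the product of two multiplicative 2-coboundaries is a coboundary -/
theorem isMulCoboundary₂_mul' {c c' : G × G → M} (h : IsMulCoboundary₂ c)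
    (h' : IsMulCoboundary₂ c') : IsMulCoboundary₂ (fun x => c x * c' x) := by
  obtain ⟨x, hx⟩ := h
  obtain ⟨x', hx'⟩ := h'
  refine ⟨fun g => x g * x' g, fun g h => ?_⟩
  simp only
  rw [← hx g h, ← hx' g h, smul_mul']
  simp only [div_eq_mul_inv, mul_inv_rev]
  simp only [mul_assoc, mul_comm, mul_left_comm]

/-- if the cyclic cocycle of `b = ∏_{j<n} c(φ^j, φ)` is a coboundary, so is `c` -/
theorem isMulCoboundary₂_of_cycG_partProd (hfin : 0 < orderOf φ)
    (hgen : ∀ σ : G, σ ∈ Subgroup.zpowers φ) {c : G × G → M} (hc : IsMulCocycle₂ c)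
    (hb : IsMulCoboundary₂ (cycG φ (partProd φ c (orderOf φ)))) : IsMulCoboundary₂ c := by
  have h1 : IsMulCoboundary₂ (fun x : G × G => c x / cycG φ (partProd φ c (orderOf φ)) x) :=
    ⟨fun σ => c (1, 1) / partProd φ c (dlogG φ σ), fun g h =>
      cocycle_div_cycG_partProd hfin hgen hc g h⟩
  have h2 := isMulCoboundary₂_mul' h1 hb
  have h3 : (fun x : G × G => c x / cycG φ (partProd φ c (orderOf φ)) x *
      cycG φ (partProd φ c (orderOf φ)) x) = c := by
    funext x
    exact div_mul_cancel _ _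
  rw [h3] at h2
  exact h2

end generic

section field

variable (q : ℕ) [Fact q.Prime]
variable (K : Type) [Field K] [Algebra ℚ_[q] K] [FiniteDimensional ℚ_[q] K]
variable (L : Type) [Field L] [Algebra ℚ_[q] L] [Algebra K L] [IsScalarTower ℚ_[q] K L]
  [FiniteDimensional K L]

theorem smul_mem_unitGroup (σ : L ≃ₐ[K] L) {u : Lˣ} (hu : u ∈ unitGroup q L) :
    σ • u ∈ unitGroup q L := by
  haveI : FiniteDimensional ℚ_[q] L := Module.Finite.trans K L
  rw [helper33.mem_unitGroup_iff] at hu ⊢
  have h1 : σ • u = Units.map (σ : L →* L) u := Units.ext rfl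
  rw [h1, helper33.ord_algEquiv q K L σ u, hu]

theorem partProd_mem_unitGroup (φ : L ≃ₐ[K] L) (c : (L ≃ₐ[K] L) × (L ≃ₐ[K] L) → Lˣ)
    (hu : ∀ g, c g ∈ unitGroup q L) (k : ℕ) : partProd φ c k ∈ unitGroup q L :=
  Subgroup.prod_mem _ fun j _ => hu _

/-- **Local core of (e) SUPPORT**: a unit-valued 2-cocycle of an unramified extension is a
coboundary. -/
theorem isMulCoboundary₂_of_isUnram_of_unit (h : IsUnram q K L)
    (f : (L ≃ₐ[K] L) × (L ≃ₐ[K] L) → Lˣ) (hf : IsMulCocycle₂ f)
    (hu : ∀ g, f g ∈ unitGroup q L) : IsMulCoboundary₂ f := by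
  haveI : FiniteDimensional ℚ_[q] L := Module.Finite.trans K L
  haveI : IsGalois K L := helper7.isGalois_of_isUnram q K L h
  obtain ⟨φ, hφ, hgen, hord, -⟩ := helper7.exists_frob_of_isUnram q K L h
  have hfin : 0 < orderOf φ := orderOf_pos φ
  refine isMulCoboundary₂_of_cycG_partProd hfin hgen hf ?_
  set b : Lˣ := partProd φ f (orderOf φ) with hb
  have hbu : b ∈ unitGroup q L := partProd_mem_unitGroup q K L φ f hu _
  have hbφ : φ • b = b := smul_partProd_orderOf hf
  have hbfix : ∀ σ : L ≃ₐ[K] L, σ (b : L) = (b : L) := by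
    intro σ
    have := smul_eq_of_gen hgen hbφ σ
    exact congrArg Units.val this
  -- `b` comes from `K`
  have hbK : (b : L) ∈ (⊥ : IntermediateField K L) :=
    (IsGalois.mem_bot_iff_fixed (b : L)).2 hbfix
  obtain ⟨b₀, hb₀⟩ := IntermediateField.mem_bot.1 hbK
  have hb₀0 : b₀ ≠ 0 := by
    rintro rfl
    rw [map_zero] at hb₀
    exact b.ne_zero hb₀.symm
  have hmap : Units.map (algebraMap K L : K →* L) (Units.mk0 b₀ hb₀0) = b :=
    Units.ext hb₀
  have hb₀u : Units.mk0 b₀ hb₀0 ∈ unitGroup q K := by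
    rw [helper33.mem_unitGroup_iff, ← h (Units.mk0 b₀ hb₀0), hmap]
    exact (helper33.mem_unitGroup_iff q L b).1 hbu
  obtain ⟨w, -, hw⟩ := exists_norm_eq_of_isUnram q K L h (Units.mk0 b₀ hb₀0) hb₀u
  have hnp : b = normProd φ w (orderOf φ) := by
    rw [← map_normUnits_eq_normProd K L φ hgen w, hw, hmap]
  rw [hnp]
  exact isMulCoboundary₂_cycG_normProd hfin hgen w

/-- **Local core of (e) SUPPORT**, class form: the class of a unit-valued 2-cocycle of an
unramified extension vanishes. -/
theorem mulClass_eq_zero_of_isUnram_of_unit (h : IsUnram q K L)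
    (f : (L ≃ₐ[K] L) × (L ≃ₐ[K] L) → Lˣ) (hu : ∀ g, f g ∈ unitGroup q L) :
    mulClass K L f = 0 := by
  unfold mulClass
  split_ifs with hf
  · refine (H2π_eq_zero_iff (A := Rep.ofMulDistribMulAction (L ≃ₐ[K] L) Lˣ) _).mpr ?_
    exact (coboundariesOfIsMulCoboundary₂
      (isMulCoboundary₂_of_isUnram_of_unit q K L h f hf hu)).2
  · rfl

end field

end Fermat.Agent.S55.helper15
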