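import Mathlib

/-!
# S55 / REC1-SL, part (A) (helper17): abstract semilocal Shapiro lemma in degree 2

`G` a group, `M` a `G`-module, `I` a finite `G`-set and `e i : M → M` additive endomorphisms with
`∑ i, e i = id` and `g ∘ e i = e (g • i) ∘ g` (an equivariant partition of the identity, e.g. the
projectors of a product decomposition `M = ∏ M_i` permuted by `G`).  If a 2-cocycle `c` of `G` is,
for every `i`, a coboundary on the stabiliser of `i` after applying `e i`, then `c` is a
coboundary.  The proof is an explicit homotopy (prism operator for a retraction of `G` onto the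
stabiliser) on homogeneous cochains; no finiteness of `G` is needed.

Main results: `isCoboundary₂_of_partition` (additive), `isMulCoboundary₂_of_partition`
(multiplicative).
-/

set_option autoImplicit false

open groupCohomology

namespace Fermat.Agent.S55.helper17

section Abstract

variable {G M I : Type*} [Group G] [AddCommGroup M] [DistribMulAction G M] [MulAction G I]

/-- homogeneous form of an inhomogeneous 2-cochain -/
def shF (c : G × G → M) (a b d : G) : M := a • c (a⁻¹ * b, b⁻¹ * d)

omit [MulAction G I] in
lemma shF_smul (c : G × G → M) (g a b d : G) :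
    shF c (g * a) (g * b) (g * d) = g • shF c a b d := by
  have h1 : (g * a)⁻¹ * (g * b) = a⁻¹ * b := by group
  have h2 : (g * b)⁻¹ * (g * d) = b⁻¹ * d := by group
  simp only [shF, h1, h2, mul_smul]

omit [MulAction G I] in
lemma shF_cocycle {c : G × G → M} (hc : IsCocycle₂ c) (a b d f : G) :
    shF c b d f + shF c a b f = shF c a d f + shF c a b d := by
  have h := hc (a⁻¹ * b) (b⁻¹ * d) (d⁻¹ * f)
  have h1 : a⁻¹ * b * (b⁻¹ * d) = a⁻¹ * d := by group
  have h2 : b⁻¹ * d * (d⁻¹ * f) = b⁻¹ * f := by group
  rw [h1, h2] at h
  have h3 := congrArg (fun m => a • m) h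
  simp only [smul_add, smul_smul, mul_inv_cancel_left] at h3
  simp only [shF]
  exact h3.symm

omit [MulAction G I] in
lemma shF_one (c : G × G → M) (g h : G) : shF c 1 g (g * h) = c (g, h) := by
  simp [shF]

/-- the homogeneous 1-cochain attached to `z` -/
def shEps (z : G → M) (a b : G) : M := a • z (a⁻¹ * b)

omit [MulAction G I] in
lemma shEps_smul (z : G → M) (g a b : G) : shEps z (g * a) (g * b) = g • shEps z a b := by
  have h1 : (g * a)⁻¹ * (g * b) = a⁻¹ * b := by group
  simp only [shEps, h1, mul_smul]

variable (G) in
/-- a chosen element moving `i` to `i'` (if there is one) -/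
noncomputable def shU (i i' : I) : G :=
  open Classical in if h : ∃ g : G, g • i = i' then h.choose else 1

lemma shU_smul {i i' : I} (h : ∃ g : G, g • i = i') : shU G i i' • i = i' := by
  simp only [shU, dif_pos h]
  exact h.choose_spec

variable (G) in
/-- a retraction of `G` onto the stabiliser of `i`, equivariant for left translations by the
stabiliser -/
noncomputable def shRho (i : I) (g : G) : G := g * shU G i (g⁻¹ • i)

lemma shRho_smul (i : I) (g : G) : shRho G i g • i = i := by
  rw [shRho, mul_smul, shU_smul ⟨g⁻¹, rfl⟩, smul_inv_smul]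

lemma shRho_mul (i : I) {h : G} (hh : h • i = i) (g : G) :
    shRho G i (h * g) = h * shRho G i g := by
  have h1 : (h * g)⁻¹ • i = g⁻¹ • i := by
    rw [mul_inv_rev, mul_smul]
    congr 1
    rw [inv_smul_eq_iff, hh]
  rw [shRho, shRho, h1, mul_assoc]

variable (G) in
/-- a representative of the orbit of `i` -/
noncomputable def shRep (i : I) : I :=
  Quotient.out (Quotient.mk (MulAction.orbitRel G I) i)

lemma shRep_smul (g : G) (i : I) : shRep G (g • i) = shRep G i := by
  unfold shRep
  congr 1
  apply Quotient.sound
  exact ⟨g, rfl⟩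

lemma exists_smul_shRep (i : I) : ∃ g : G, g • shRep G i = i := by
  have h : (MulAction.orbitRel G I).r (shRep G i) i :=
    Quotient.exact (Quotient.out_eq (Quotient.mk (MulAction.orbitRel G I) i))
  obtain ⟨g, hg⟩ := h
  refine ⟨g⁻¹, ?_⟩
  rw [inv_smul_eq_iff]
  exact hg.symm

variable (G) in
/-- a chosen element moving the representative of the orbit of `i` to `i` -/
noncomputable def shT (i : I) : G := shU G (shRep G i) i

lemma shT_smul (i : I) : shT G i • shRep G i = i := shU_smul (exists_smul_shRep i)

/-- the local primitive at `i` -/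
noncomputable def shEta (e : I → M →+ M) (c : G × G → M) (z : I → G → M) (i : I) (a b : G) : M :=
  e i (shEps (z i) (shRho G i a) (shRho G i b) - shF c a (shRho G i a) (shRho G i b)
    + shF c a b (shRho G i b))

section

variable {e : I → M →+ M} (he : ∀ (g : G) (i : I) (m : M), g • e i m = e (g • i) (g • m))
  {c : G × G → M} (hc : IsCocycle₂ c) {z : I → G → M}
  (hz : ∀ (i : I) (h h' : G), h • i = i → h' • i = i →
    e i (c (h, h')) = e i (h • z i h' - z i (h * h') + z i h))

include he hz in
lemma shEps_spec (i : I) {a b d : G} (ha : a • i = i) (hb : b • i = i) (hd : d • i = i) :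
    e i (shF c a b d) = e i (shEps (z i) b d - shEps (z i) a d + shEps (z i) a b) := by
  have ha' : a⁻¹ • i = i := by rw [inv_smul_eq_iff, ha]
  have hb' : b⁻¹ • i = i := by rw [inv_smul_eq_iff, hb]
  have h1 : (a⁻¹ * b) • i = i := by rw [mul_smul, hb, ha']
  have h2 : (b⁻¹ * d) • i = i := by rw [mul_smul, hd, hb']
  have h := congrArg (fun m => a • m) (hz i _ _ h1 h2)
  simp only [he, ha] at h
  have h3 : a⁻¹ * b * (b⁻¹ * d) = a⁻¹ * d := by group
  rw [h3] at h
  simp only [shF, shEps]
  rw [h]
  congr 1
  simp only [smul_add, smul_sub, smul_smul, mul_inv_cancel_left]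

include he hc hz in
lemma shEta_d (i : I) (a b d : G) :
    shEta e c z i b d - shEta e c z i a d + shEta e c z i a b = e i (shF c a b d) := by
  have h0 := shEps_spec he hz i (shRho_smul i a) (shRho_smul i b) (shRho_smul i d)
  have r1 := shF_cocycle hc a (shRho G i a) (shRho G i b) (shRho G i d)
  have r2 := shF_cocycle hc a b (shRho G i b) (shRho G i d)
  have r3 := shF_cocycle hc a b d (shRho G i d)
  simp only [shEta, ← map_sub, ← map_add]
  have key : shEps (z i) (shRho G i b) (shRho G i d) - shF c b (shRho G i b) (shRho G i d)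
        + shF c b d (shRho G i d)
      - (shEps (z i) (shRho G i a) (shRho G i d) - shF c a (shRho G i a) (shRho G i d)
        + shF c a d (shRho G i d))
      + (shEps (z i) (shRho G i a) (shRho G i b) - shF c a (shRho G i a) (shRho G i b)
        + shF c a b (shRho G i b))
      = (shEps (z i) (shRho G i b) (shRho G i d) - shEps (z i) (shRho G i a) (shRho G i d)
          + shEps (z i) (shRho G i a) (shRho G i b))
        - shF c (shRho G i a) (shRho G i b) (shRho G i d) + shF c a b d := by
    have e1 : shF c (shRho G i a) (shRho G i b) (shRho G i d)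
        = shF c a (shRho G i b) (shRho G i d) + shF c a (shRho G i a) (shRho G i b)
          - shF c a (shRho G i a) (shRho G i d) := by
      rw [eq_sub_iff_add_eq]; exact r1
    have e2 : shF c b (shRho G i b) (shRho G i d)
        = shF c a (shRho G i b) (shRho G i d) + shF c a b (shRho G i b)
          - shF c a b (shRho G i d) := by
      rw [eq_sub_iff_add_eq]; exact r2
    have e3 : shF c b d (shRho G i d)
        = shF c a d (shRho G i d) + shF c a b d - shF c a b (shRho G i d) := by
      rw [eq_sub_iff_add_eq]; exact r3
    rw [e1, e2, e3]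
    abel
  rw [key, map_add, map_sub, ← h0, sub_self, zero_add]

include he in
lemma shEta_smul (i : I) {h : G} (hh : h • i = i) (a b : G) :
    shEta e c z i (h * a) (h * b) = h • shEta e c z i a b := by
  simp only [shEta, shRho_mul i hh, shEps_smul, shF_smul, he, hh, smul_add, smul_sub]

include he in
/-- `t • η_j (t⁻¹ a, t⁻¹ b)` depends only on `t • j` -/
lemma shEta_indep (j : I) {t t' : G} (h : t • j = t' • j) (a b : G) :
    t • shEta e c z j (t⁻¹ * a) (t⁻¹ * b) = t' • shEta e c z j (t'⁻¹ * a) (t'⁻¹ * b) := by
  have hs : (t'⁻¹ * t) • j = j := by rw [mul_smul, h, inv_smul_smul]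
  have h1 : t'⁻¹ * a = (t'⁻¹ * t) * (t⁻¹ * a) := by group
  have h2 : t'⁻¹ * b = (t'⁻¹ * t) * (t⁻¹ * b) := by group
  rw [h1, h2, shEta_smul he j hs, smul_smul, mul_inv_cancel_left]

end

variable [Fintype I]

/-- the global homogeneous primitive -/
noncomputable def shE (e : I → M →+ M) (c : G × G → M) (z : I → G → M) (a b : G) : M :=
  ∑ i : I, shT G i • shEta e c z (shRep G i) ((shT G i)⁻¹ * a) ((shT G i)⁻¹ * b)

section

variable {e : I → M →+ M} (he : ∀ (g : G) (i : I) (m : M), g • e i m = e (g • i) (g • m))
  (hsum : ∀ m : M, ∑ i : I, e i m = m)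
  {c : G × G → M} (hc : IsCocycle₂ c) {z : I → G → M}
  (hz : ∀ (i : I) (h h' : G), h • i = i → h' • i = i →
    e i (c (h, h')) = e i (h • z i h' - z i (h * h') + z i h))

include he in
lemma shE_smul (g a b : G) : shE e c z (g * a) (g * b) = g • shE e c z a b := by
  simp only [shE, Finset.smul_sum]
  rw [← Equiv.sum_comp (MulAction.toPerm g : I ≃ I)]
  refine Finset.sum_congr rfl fun i _ => ?_
  simp only [MulAction.toPerm_apply, shRep_smul]
  have h1 : shT G (g • i) • shRep G i = (g * shT G i) • shRep G i := by
    rw [mul_smul, shT_smul, ← shRep_smul g i, shT_smul]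
  rw [shEta_indep he (shRep G i) h1, mul_smul]
  congr 3 <;> group

include he hsum hc hz in
lemma shE_d (a b d : G) :
    shE e c z b d - shE e c z a d + shE e c z a b = shF c a b d := by
  simp only [shE, ← Finset.sum_sub_distrib, ← Finset.sum_add_distrib, ← smul_sub, ← smul_add]
  rw [← hsum (shF c a b d)]
  refine Finset.sum_congr rfl fun i _ => ?_
  rw [shEta_d he hc hz, he, shT_smul, ← shF_smul]
  congr 2 <;> group

include he hsum hc hz in
lemma isCoboundary₂_of_partition_aux : IsCoboundary₂ c := by
  refine ⟨fun g => shE e c z 1 g, fun g h => ?_⟩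
  have h1 := shE_d he hsum hc hz 1 g (g * h)
  rw [shF_one] at h1
  rw [← h1]
  have h2 := shE_smul (e := e) (c := c) (z := z) he g 1 h
  rw [mul_one] at h2
  rw [← h2]

end

/-- **Abstract semilocal Shapiro lemma, degree 2 (additive form).** -/
theorem isCoboundary₂_of_partition (e : I → M →+ M)
    (he : ∀ (g : G) (i : I) (m : M), g • e i m = e (g • i) (g • m))
    (hsum : ∀ m : M, ∑ i : I, e i m = m)
    (c : G × G → M) (hc : IsCocycle₂ c)
    (hloc : ∀ i : I, ∃ z : G → M, ∀ h h' : G, h • i = i → h' • i = i →
      e i (c (h, h')) = e i (h • z h' - z (h * h') + z h)) :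
    IsCoboundary₂ c := by
  choose z hz using hloc
  exact isCoboundary₂_of_partition_aux he hsum hc hz

end Abstract

section Mul

variable {G M I : Type*} [Group G] [CommGroup M] [MulDistribMulAction G M] [MulAction G I]
  [Fintype I]

variable (G M) in
/-- the additive `G`-module attached to a multiplicative one (used as a local instance only) -/
@[reducible] def shAddAction : DistribMulAction G (Additive M) where
  smul g a := Additive.ofMul (g • a.toMul)
  one_smul a := congrArg Additive.ofMul (one_smul G a.toMul)
  mul_smul g h a := congrArg Additive.ofMul (mul_smul g h a.toMul)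
  smul_zero g := congrArg Additive.ofMul (smul_one g)
  smul_add g a b := congrArg Additive.ofMul (smul_mul' g a.toMul b.toMul)

/-- **Abstract semilocal Shapiro lemma, degree 2 (multiplicative form).** -/
theorem isMulCoboundary₂_of_partition (e : I → M →* M)
    (he : ∀ (g : G) (i : I) (m : M), g • e i m = e (g • i) (g • m))
    (hprod : ∀ m : M, ∏ i : I, e i m = m)
    (c : G × G → M) (hc : IsMulCocycle₂ c)
    (hloc : ∀ i : I, ∃ z : G → M, ∀ h h' : G, h • i = i → h' • i = i →
      e i (c (h, h')) = e i (h • z h' / z (h * h') * z h)) :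
    IsMulCoboundary₂ c := by
  let _ : DistribMulAction G (Additive M) := shAddAction G M
  have key : IsCoboundary₂ (fun p : G × G => Additive.ofMul (c p)) := by
    refine isCoboundary₂_of_partition (G := G) (M := Additive M) (I := I)
      (fun i => MonoidHom.toAdditive (e i)) ?_ ?_ _ ?_ ?_
    · intro g i m
      exact congrArg Additive.ofMul (he g i m.toMul)
    · intro m
      have h := hprod m.toMul
      apply Additive.toMul.injective
      rw [toMul_sum]
      exact h
    · intro g h j
      exact congrArg Additive.ofMul (hc g h j)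
    · intro i
      obtain ⟨z, hz⟩ := hloc i
      refine ⟨fun g => Additive.ofMul (z g), fun h h' hh hh' => ?_⟩
      exact congrArg Additive.ofMul (hz h h' hh hh')
  obtain ⟨y, hy⟩ := key
  exact ⟨fun g => (y g).toMul, fun g h => congrArg Additive.toMul (hy g h)⟩

end Mul

end Fermat.Agent.S55.helper17
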