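import Fermat.Agent.S55.helper97_SemiLocAbs
import Fermat.Agent.S55.helper17_RecSLAbs

/-!
# S55 / REC1-SL, part (B) (helper17): semilocal Shapiro for the units of a reduced Artinian ring

`B` a reduced Artinian commutative ring (a finite product of fields), `G` a group acting on `B`
by ring automorphisms.  A 2-cocycle of `G` with values in `Bˣ` which, for every maximal ideal `n`,
is congruent modulo `n` to a coboundary on the stabiliser of `n`, is a coboundary.

Main result: `isMulCoboundary₂_of_forall_maximal`.
-/

set_option autoImplicit false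

open groupCohomology

namespace Fermat.Agent.S55.helper17

open Fermat.Agent.S55.helper97

section Ring

variable {B : Type*} [CommRing B] [IsArtinianRing B]

open Classical in
/-- the unit with residue `u` at `n` and residue `1` at the other maximal ideals -/
lemma exists_unit_single (n : MaximalSpectrum B) (u : Bˣ) :
    ∃ w : Bˣ, ∀ n' : MaximalSpectrum B,
      (w : B) - (if n' = n then (u : B) else 1) ∈ n'.asIdeal := by
  obtain ⟨y, hy⟩ := exists_forall_sub_mem
    (fun n' : MaximalSpectrum B => if n' = n then (u : B) else 1)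
  have hyu : IsUnit y := by
    apply isUnit_of_forall_notMem
    intro n' hmem
    have h1 := hy n'
    by_cases h : n' = n
    · simp only [if_pos h] at h1
      exact unit_notMem u n' (by simpa using n'.asIdeal.sub_mem hmem h1)
    · simp only [if_neg h] at h1
      have : (1 : B) ∈ n'.asIdeal := by simpa using n'.asIdeal.sub_mem hmem h1
      exact n'.isMaximal.ne_top ((Ideal.eq_top_iff_one _).mpr this)
  exact ⟨hyu.unit, fun n' => by rw [IsUnit.unit_spec]; exact hy n'⟩

/-- the underlying function of `shProj` -/
noncomputable def shProjFun (n : MaximalSpectrum B) (u : Bˣ) : Bˣ :=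
  (exists_unit_single n u).choose

open Classical in
lemma shProjFun_sub_mem (n : MaximalSpectrum B) (u : Bˣ) (n' : MaximalSpectrum B) :
    (shProjFun n u : B) - (if n' = n then (u : B) else 1) ∈ n'.asIdeal :=
  (exists_unit_single n u).choose_spec n'

open Classical in
lemma shProjFun_mk (n : MaximalSpectrum B) (u : Bˣ) (n' : MaximalSpectrum B) :
    Ideal.Quotient.mk n'.asIdeal (shProjFun n u : B)
      = if n' = n then Ideal.Quotient.mk n'.asIdeal (u : B) else 1 := by
  have h := Ideal.Quotient.eq.mpr (shProjFun_sub_mem n u n')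
  rw [h]
  split_ifs
  · rfl
  · exact map_one _

variable [IsReduced B]

/-- two units with the same residues at all maximal ideals are equal -/
lemma units_ext_of_forall_sub_mem {w w' : Bˣ}
    (h : ∀ n : MaximalSpectrum B, (w : B) - (w' : B) ∈ n.asIdeal) : w = w' :=
  Units.ext (eq_of_forall_sub_mem h)

lemma units_ext_of_forall_mk {w w' : Bˣ}
    (h : ∀ n : MaximalSpectrum B,
      Ideal.Quotient.mk n.asIdeal (w : B) = Ideal.Quotient.mk n.asIdeal (w' : B)) : w = w' :=
  units_ext_of_forall_sub_mem fun n => Ideal.Quotient.eq.mp (h n)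

/-- the projector of `Bˣ` onto the factor at `n` -/
noncomputable def shProj (n : MaximalSpectrum B) : Bˣ →* Bˣ where
  toFun := shProjFun n
  map_one' := by
    classical
    apply units_ext_of_forall_mk
    intro n'
    rw [shProjFun_mk]
    split_ifs <;> simp
  map_mul' u v := by
    classical
    apply units_ext_of_forall_mk
    intro n'
    rw [Units.val_mul, map_mul, shProjFun_mk, shProjFun_mk, shProjFun_mk]
    split_ifs <;> simp

open Classical in
lemma shProj_mk (n : MaximalSpectrum B) (u : Bˣ) (n' : MaximalSpectrum B) :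
    Ideal.Quotient.mk n'.asIdeal (shProj n u : B)
      = if n' = n then Ideal.Quotient.mk n'.asIdeal (u : B) else 1 :=
  shProjFun_mk n u n'

lemma shProj_congr (n : MaximalSpectrum B) {u v : Bˣ} (h : (u : B) - (v : B) ∈ n.asIdeal) :
    shProj n u = shProj n v := by
  classical
  apply units_ext_of_forall_mk
  intro n'
  rw [shProj_mk, shProj_mk]
  split_ifs with hn
  · subst hn
    exact Ideal.Quotient.eq.mpr h
  · rfl

lemma prod_shProj [Fintype (MaximalSpectrum B)] (u : Bˣ) :
    ∏ n : MaximalSpectrum B, shProj n u = u := by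
  classical
  apply units_ext_of_forall_mk
  intro n'
  rw [Units.coe_prod, map_prod]
  simp only [shProj_mk]
  rw [Finset.prod_ite_eq]
  simp

variable {G : Type*} [Group G] [MulSemiringAction G B] [MulDistribMulAction G Bˣ]

lemma smul_shProj (hc : ∀ (σ : G) (x : Bˣ), ((σ • x : Bˣ) : B) = σ • (x : B))
    (g : G) (n : MaximalSpectrum B) (u : Bˣ) :
    g • shProj n u = shProj (g • n) (g • u) := by
  classical
  apply units_ext_of_forall_mk
  intro n'
  rw [shProj_mk, hc]
  have h1 := shProjFun_sub_mem n u (g⁻¹ • n')
  have h2 : g • (shProj n u : B) - g • (if g⁻¹ • n' = n then (u : B) else 1) ∈ n'.asIdeal :=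
    smul_sub_mem h1
  rw [Ideal.Quotient.eq.mpr h2]
  have h3 : g⁻¹ • n' = n ↔ n' = g • n := by
    rw [inv_smul_eq_iff]
  by_cases h : n' = g • n
  · rw [if_pos h, if_pos (h3.mpr h), hc]
  · rw [if_neg h, if_neg (fun h' => h (h3.mp h')), smul_one, map_one]

/-- **Semilocal Shapiro lemma, degree 2, for the units of a reduced Artinian ring.** -/
theorem isMulCoboundary₂_of_forall_maximal
    (hc : ∀ (σ : G) (x : Bˣ), ((σ • x : Bˣ) : B) = σ • (x : B))
    (c : G × G → Bˣ) (hcoc : IsMulCocycle₂ c)
    (hloc : ∀ n : MaximalSpectrum B, ∃ z : G → Bˣ, ∀ h h' : G, h • n = n → h' • n = n →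
      ((c (h, h') : Bˣ) : B) - ((h • z h' / z (h * h') * z h : Bˣ) : B) ∈ n.asIdeal) :
    IsMulCoboundary₂ c := by
  have : Fintype (MaximalSpectrum B) := Fintype.ofFinite _
  refine isMulCoboundary₂_of_partition (G := G) (M := Bˣ) (I := MaximalSpectrum B)
    (fun n => shProj n) (fun g n u => smul_shProj hc g n u) (fun u => prod_shProj u) c hcoc ?_
  intro n
  obtain ⟨z, hz⟩ := hloc n
  exact ⟨z, fun h h' hh hh' => shProj_congr n (hz h h' hh hh')⟩

end Ring

end Fermat.Agent.S55.helper17
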