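import Fermat.Agent.S55.helper11_RecDefs
import Fermat.Agent.S55.helper97_SemiLocBridge
import Fermat.Agent.S55.helper17_RecSLRing

/-!
# S55 / REC1-SL, part (C) (helper17): semilocal versus local triviality of Brauer classes

For a finite Galois extension of number fields `L/F` and a prime `q`:

* `locDatumOfMax q F L n` : the local datum (`helper11.LocDatum`) attached to a maximal ideal `n`
  of `ℚ_q ⊗ L` (`Lw = (ℚ_q ⊗ L)/n`, `Kv = (ℚ_q ⊗ F)/(n ∩ (ℚ_q ⊗ F))`);
* `stabAut q F L n h hh` : the element of `Gal(Lw/Kv)` induced by `h` in the decomposition group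
  of `n`, with `locHom_stabAut : locHom (stabAut h) = h`;
* `exists_of_locH_eq_zero` : a class with trivial localisation is represented by a cocycle whose
  localisation is an explicit coboundary;
* `isMulCoboundary₂_semiLoc` : **R-SL** of the REC1 interface (helper11), semilocal Shapiro in
  degree 2.
-/

set_option autoImplicit false

open CategoryTheory groupCohomology
open scoped TensorProduct Pointwise

namespace Fermat.Agent.S55.helper17

open Fermat.Agent.S55.helper73 Fermat.Agent.S55.helper11 Fermat.Agent.S55.helper97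

section LocDatumOfMax

variable (q : ℕ) [Fact q.Prime] (F L : Type) [Field F] [NumberField F] [Field L] [NumberField L]
  [Algebra F L] [IsGalois F L] (n : MaximalSpectrum (SemiLoc q L))

attribute [local instance] semiLocAlgebra

lemma slUnder_isMaximal : (n.asIdeal.under (SemiLoc q F)).IsMaximal := by
  have := semiLoc_isInvariant F L q
  have hint : Algebra.IsIntegral (SemiLoc q F) (SemiLoc q L) :=
    Algebra.IsInvariant.isIntegral (SemiLoc q F) (SemiLoc q L) (L ≃ₐ[F] L)
  have hnmax := n.isMaximal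
  exact Ideal.IsMaximal.under (SemiLoc q F) n.asIdeal

/-- `L → L_w` -/
noncomputable def slMapL : L →+* SemiLoc q L ⧸ n.asIdeal :=
  (Ideal.Quotient.mk n.asIdeal).comp
    (Algebra.TensorProduct.includeRight : L →ₐ[ℚ] SemiLoc q L).toRingHom

/-- `F → F_v` -/
noncomputable def slMapF : F →+* SemiLoc q F ⧸ n.asIdeal.under (SemiLoc q F) :=
  (Ideal.Quotient.mk (n.asIdeal.under (SemiLoc q F))).comp
    (Algebra.TensorProduct.includeRight : F →ₐ[ℚ] SemiLoc q F).toRingHom

omit [IsGalois F L] in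
lemma sl_towerQ : IsScalarTower ℚ_[q] (SemiLoc q F) (SemiLoc q L) :=
  IsScalarTower.of_algebraMap_eq' (by
    ext a
    exact ((bc F L q).commutes a).symm)

attribute [local instance] sl_towerQ

omit [NumberField F] [Algebra F L] [IsGalois F L] in
/-- the image of `L` generates every quotient of `ℚ_q ⊗ L` over `ℚ_q` -/
lemma adjoin_range_mk_includeRight (I : Ideal (SemiLoc q L)) :
    Algebra.adjoin ℚ_[q] (Set.range ((Ideal.Quotient.mk I).comp
      (Algebra.TensorProduct.includeRight : L →ₐ[ℚ] SemiLoc q L).toRingHom)) = ⊤ := by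
  rw [eq_top_iff]
  rintro x -
  obtain ⟨y, rfl⟩ := Ideal.Quotient.mk_surjective x
  induction y using TensorProduct.induction_on with
  | zero => rw [map_zero]; exact zero_mem _
  | tmul a b =>
    have h : Ideal.Quotient.mk I (a ⊗ₜ[ℚ] b)
        = a • Ideal.Quotient.mk I ((1 : ℚ_[q]) ⊗ₜ[ℚ] b) := by
      rw [← Ideal.Quotient.mkₐ_eq_mk ℚ_[q], ← map_smul, TensorProduct.smul_tmul', smul_eq_mul,
        mul_one]
    rw [h]
    have hb : Ideal.Quotient.mk I ((1 : ℚ_[q]) ⊗ₜ[ℚ] b) ∈ Set.range ((Ideal.Quotient.mk I).comp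
        (Algebra.TensorProduct.includeRight : L →ₐ[ℚ] SemiLoc q L).toRingHom) := ⟨b, rfl⟩
    exact Subalgebra.smul_mem _ (Algebra.subset_adjoin hb) a
  | add x y hx hy => rw [map_add]; exact add_mem hx hy

/-- the local datum attached to a maximal ideal of `ℚ_q ⊗ L` -/
noncomputable def locDatumOfMax : LocDatum q F L :=
  haveI hmaxL : n.asIdeal.IsMaximal := n.isMaximal
  haveI hmaxK : (n.asIdeal.under (SemiLoc q F)).IsMaximal := slUnder_isMaximal q F L n
  letI fL : Field (SemiLoc q L ⧸ n.asIdeal) := Ideal.Quotient.field n.asIdeal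
  letI fK : Field (SemiLoc q F ⧸ n.asIdeal.under (SemiLoc q F)) := Ideal.Quotient.field _
  letI aLL : Algebra L (SemiLoc q L ⧸ n.asIdeal) := (slMapL q L n).toAlgebra
  letI aFK : Algebra F (SemiLoc q F ⧸ n.asIdeal.under (SemiLoc q F)) :=
    (slMapF q F L n).toAlgebra
  letI aFL : Algebra F (SemiLoc q L ⧸ n.asIdeal) :=
    ((slMapL q L n).comp (algebraMap F L)).toAlgebra
  haveI hinv : Algebra.IsInvariant (SemiLoc q F) (SemiLoc q L) (L ≃ₐ[F] L) :=
    semiLoc_isInvariant F L q
  haveI hsep : Algebra.IsSeparable (SemiLoc q F ⧸ n.asIdeal.under (SemiLoc q F))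
      (SemiLoc q L ⧸ n.asIdeal) := semiLoc_isSeparable F L q n
  haveI hnor : Normal (SemiLoc q F ⧸ n.asIdeal.under (SemiLoc q F))
      (SemiLoc q L ⧸ n.asIdeal) :=
    Ideal.Quotient.normal (L ≃ₐ[F] L) (n.asIdeal.under (SemiLoc q F)) n.asIdeal
  { Kv := SemiLoc q F ⧸ n.asIdeal.under (SemiLoc q F)
    Lw := SemiLoc q L ⧸ n.asIdeal
    fieldKv := fK
    fieldLw := fL
    algQK := inferInstance
    finQK := inferInstance
    algQL := inferInstance
    algKL := inferInstance
    towerQKL := inferInstance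
    finKL := FiniteDimensional.right ℚ_[q] _ _
    galKL := { to_isSeparable := hsep, to_normal := hnor }
    algFK := aFK
    algLL := aLL
    algFL := aFL
    towerFLL := IsScalarTower.of_algebraMap_eq (fun _ => rfl)
    towerFKL := IsScalarTower.of_algebraMap_eq (fun a => by
      change Ideal.Quotient.mk n.asIdeal ((1 : ℚ_[q]) ⊗ₜ[ℚ] algebraMap F L a)
        = Ideal.Quotient.mk n.asIdeal (bc F L q ((1 : ℚ_[q]) ⊗ₜ[ℚ] a))
      rw [bc_tmul])
    denseK := adjoin_range_mk_includeRight q F _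
    denseL := adjoin_range_mk_includeRight q L _ }

end LocDatumOfMax

section General

variable (F L Kv Lw : Type) [Field F] [Field L] [Field Kv] [Field Lw]
  [Algebra F L] [Algebra Kv Lw] [Algebra F Kv] [Algebra L Lw] [Algebra F Lw]
  [IsScalarTower F L Lw] [IsScalarTower F Kv Lw] [Normal F L]

/-- a 2-cocycle whose localisation is trivial is a coboundary after localisation -/
theorem exists_of_locH_eq_zero (x : (L ≃ₐ[F] L) × (L ≃ₐ[F] L) → Lˣ) (hx : IsMulCocycle₂ x)
    (h0 : (locH F L Kv Lw 2).hom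
      (H2π (Rep.ofAlgebraAutOnUnits F L) (cocyclesOfIsMulCocycle₂ hx)) = 0) :
    ∃ y : (Lw ≃ₐ[Kv] Lw) → Lwˣ, ∀ g h : Lw ≃ₐ[Kv] Lw,
      g • y h / y (g * h) * y g =
        Units.map (algebraMap L Lw : L →* Lw) (x (locHom F L Kv Lw g, locHom F L Kv Lw h)) := by
  have h := H2π_comp_map_apply (locHom F L Kv Lw) (locUnits F L Kv Lw)
    (cocyclesOfIsMulCocycle₂ hx)
  rw [locH] at h0
  rw [h0] at h
  have h1 := (H2π_eq_zero_iff _).1 h.symm
  obtain ⟨y, hy⟩ := isMulCoboundary₂_of_mem_coboundaries₂ _ h1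
  exact ⟨y, fun g h => hy g h⟩

end General

section Main

variable (q : ℕ) [Fact q.Prime] (F L : Type) [Field F] [NumberField F] [Field L] [NumberField L]
  [Algebra F L] [IsGalois F L] (n : MaximalSpectrum (SemiLoc q L))

attribute [local instance] semiLocAlgebra

/-- the reduction map `ℚ_q ⊗ L → L_w` -/
noncomputable def slMk : SemiLoc q L →+* (locDatumOfMax q F L n).Lw :=
  Ideal.Quotient.mk n.asIdeal

lemma slMk_surjective : Function.Surjective (slMk q F L n) :=
  Ideal.Quotient.mk_surjective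

lemma slMk_eq_iff (a b : SemiLoc q L) :
    slMk q F L n a = slMk q F L n b ↔ a - b ∈ n.asIdeal :=
  Ideal.Quotient.eq

lemma algebraMap_eq_slMk (a : L) :
    algebraMap L (locDatumOfMax q F L n).Lw a = slMk q F L n ((1 : ℚ_[q]) ⊗ₜ[ℚ] a) := rfl

/-- the element of the local Galois group induced by an element of the decomposition group -/
noncomputable def stabAut (h : L ≃ₐ[F] L) (hh : h • n = n) :
    (locDatumOfMax q F L n).Lw ≃ₐ[(locDatumOfMax q F L n).Kv] (locDatumOfMax q F L n).Lw :=
  haveI := semiLoc_smulCommClass F L q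
  Ideal.Quotient.stabilizerHom n.asIdeal (n.asIdeal.under (SemiLoc q F)) (L ≃ₐ[F] L)
    ⟨h, congrArg MaximalSpectrum.asIdeal hh⟩

lemma stabAut_mk (h : L ≃ₐ[F] L) (hh : h • n = n) (b : SemiLoc q L) :
    stabAut q F L n h hh (slMk q F L n b) = slMk q F L n (h • b) := rfl

lemma stabAut_mul (h h' : L ≃ₐ[F] L) (hh : h • n = n) (hh' : h' • n = n)
    (hhh : (h * h') • n = n) :
    stabAut q F L n (h * h') hhh = stabAut q F L n h hh * stabAut q F L n h' hh' := by
  apply AlgEquiv.ext
  intro w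
  obtain ⟨b, rfl⟩ := slMk_surjective q F L n w
  rw [AlgEquiv.mul_apply, stabAut_mk, stabAut_mk, stabAut_mk, mul_smul]

lemma locHom_stabAut (h : L ≃ₐ[F] L) (hh : h • n = n) :
    locHom F L (locDatumOfMax q F L n).Kv (locDatumOfMax q F L n).Lw (stabAut q F L n h hh)
      = h := by
  apply AlgEquiv.ext
  intro a
  apply (algebraMap L (locDatumOfMax q F L n).Lw).injective
  rw [algebraMap_locHom, algebraMap_eq_slMk, algebraMap_eq_slMk, stabAut_mk, smul_tmul']

/-- the reduction map on units -/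
noncomputable def slMkU : (SemiLoc q L)ˣ →* ((locDatumOfMax q F L n).Lw)ˣ :=
  Units.map (slMk q F L n : SemiLoc q L →* (locDatumOfMax q F L n).Lw)

lemma slMkU_coe (u : (SemiLoc q L)ˣ) :
    ((slMkU q F L n u : ((locDatumOfMax q F L n).Lw)ˣ) : (locDatumOfMax q F L n).Lw)
      = slMk q F L n (u : SemiLoc q L) := rfl

lemma slMkU_surjective : Function.Surjective (slMkU q F L n) := by
  intro w
  have : IsArtinianRing (SemiLoc q L) := inferInstance
  obtain ⟨z, hz⟩ := exists_unit_mk_eq n w
  exact ⟨z, Units.ext hz⟩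

lemma slMkU_smul (h : L ≃ₐ[F] L) (hh : h • n = n) (u : (SemiLoc q L)ˣ) :
    slMkU q F L n (h • u) = stabAut q F L n h hh • slMkU q F L n u :=
  Units.ext (stabAut_mk q F L n h hh (u : SemiLoc q L)).symm

lemma slMkU_includeRight (a : Lˣ) :
    slMkU q F L n (Units.map
      ((Algebra.TensorProduct.includeRight : L →ₐ[ℚ] SemiLoc q L) : L →* SemiLoc q L) a)
      = Units.map (algebraMap L (locDatumOfMax q F L n).Lw : L →* (locDatumOfMax q F L n).Lw) a :=
  Units.ext rfl

lemma sub_mem_of_slMkU_eq {u v : (SemiLoc q L)ˣ} (h : slMkU q F L n u = slMkU q F L n v) :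
    (u : SemiLoc q L) - (v : SemiLoc q L) ∈ n.asIdeal :=
  (slMk_eq_iff q F L n _ _).mp (congrArg Units.val h)

end Main

section Final

variable (q : ℕ) [Fact q.Prime] (F L : Type) [Field F] [NumberField F] [Field L] [NumberField L]
  [Algebra F L] [IsGalois F L]

/-- **R-SL** for a prime number `q` given with `Fact q.Prime`. -/
theorem isMulCoboundary₂_semiLoc_nat (x : (L ≃ₐ[F] L) × (L ≃ₐ[F] L) → Lˣ) (hx : IsMulCocycle₂ x)
    (hloc : ∀ D : LocDatum q F L,
      D.loc (H2π (Rep.ofAlgebraAutOnUnits F L) (cocyclesOfIsMulCocycle₂ hx)) = 0) :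
    IsMulCoboundary₂ (fun g : (L ≃ₐ[F] L) × (L ≃ₐ[F] L) =>
      Units.map ((Algebra.TensorProduct.includeRight : L →ₐ[ℚ] SemiLoc q L) : L →* SemiLoc q L)
        (x g)) := by
  classical
  have hA : IsArtinianRing (SemiLoc q L) := inferInstance
  have hR : IsReduced (SemiLoc q L) := inferInstance
  refine isMulCoboundary₂_of_forall_maximal (G := L ≃ₐ[F] L) (B := SemiLoc q L)
    (fun _ _ => rfl) _ ?_ ?_
  · intro g h j
    have h1 := congrArg (Units.map
      ((Algebra.TensorProduct.includeRight : L →ₐ[ℚ] SemiLoc q L) : L →* SemiLoc q L)) (hx g h j)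
    rw [map_mul, map_mul] at h1
    have h2 : Units.map
        ((Algebra.TensorProduct.includeRight : L →ₐ[ℚ] SemiLoc q L) : L →* SemiLoc q L)
          (g • x (h, j))
        = g • Units.map
          ((Algebra.TensorProduct.includeRight : L →ₐ[ℚ] SemiLoc q L) : L →* SemiLoc q L)
            (x (h, j)) := by
      apply Units.ext
      change (1 : ℚ_[q]) ⊗ₜ[ℚ] ((g • x (h, j) : Lˣ) : L)
        = galSemiLocAut q L F g ((1 : ℚ_[q]) ⊗ₜ[ℚ] ((x (h, j) : Lˣ) : L))
      rw [galSemiLocAut_tmul]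
      rfl
    rw [h2] at h1
    exact h1
  · intro n
    obtain ⟨y, hy⟩ := exists_of_locH_eq_zero F L (locDatumOfMax q F L n).Kv
      (locDatumOfMax q F L n).Lw x hx (hloc (locDatumOfMax q F L n))
    choose lift hlift using slMkU_surjective q F L n
    refine ⟨fun h => if hh : h • n = n then lift (y (stabAut q F L n h hh)) else 1, ?_⟩
    intro h h' hh hh'
    have hhh : (h * h') • n = n := by rw [mul_smul, hh', hh]
    apply sub_mem_of_slMkU_eq q F L n
    simp only [dif_pos hh, dif_pos hh', dif_pos hhh]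
    rw [map_mul, map_div, slMkU_smul q F L n h hh, hlift, hlift, hlift, slMkU_includeRight,
      stabAut_mul q F L n h h' hh hh' hhh, hy, locHom_stabAut, locHom_stabAut]

/-- **R-SL** (statement of `helper11.Interface.isMulCoboundary₂_semiLoc`, with `classOf x hx`
unfolded to `H2π _ (cocyclesOfIsMulCocycle₂ hx)`): semilocal Shapiro in degree 2.  A global
2-cocycle whose localisations at all local data over `q` vanish becomes a coboundary in
`(ℚ_q ⊗ L)ˣ`. -/
theorem isMulCoboundary₂_semiLoc (q : Nat.Primes) (F L : Type) [Field F] [NumberField F]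
    [Field L] [NumberField L] [Algebra F L] [IsGalois F L]
    (x : (L ≃ₐ[F] L) × (L ≃ₐ[F] L) → Lˣ) (hx : IsMulCocycle₂ x)
    (hloc : ∀ D : LocDatum (q : ℕ) F L,
      D.loc (H2π (Rep.ofAlgebraAutOnUnits F L) (cocyclesOfIsMulCocycle₂ hx)) = 0) :
    IsMulCoboundary₂ (fun g : (L ≃ₐ[F] L) × (L ≃ₐ[F] L) => principalPi L (x g) q) :=
  isMulCoboundary₂_semiLoc_nat (q : ℕ) F L x hx hloc

end Final

end Fermat.Agent.S55.helper17
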