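import Fermat.Agent.S55.helper15_UnramUnitCob
import Fermat.Agent.S55.helper73_GlobDefs2
import Fermat.Agent.S55.helper97_LocVal

/-!
# S55 / REC3 R3-J3 [US-LOC] (helper1, task 618)

`H³(Gal(L/K), U_L) = 0` for an unramified Galois extension `L/K` of `q`-adic fields, in the exact
shape of `helper31_J3Interface` (section `USLoc`).

* `isZero_H3_of_isZero_H1_of_isCyclic` : periodicity for finite cyclic groups, `H¹ = 0 ⟹ H³ = 0`;
* `usloc_isZero_H1_of_forall_isMulCoboundary₁` : `H¹ = 0` from the cocycle criterion;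
* `isMulCoboundary₁_unitGroup_of_isUnram` : a `U_L`-valued 1-cocycle of an unramified extension is
  a coboundary of an element of `U_L` (Hilbert 90 + a uniformizer in `K`);
* `smul_mem_unitGroup`, `isZero_H3_unitGroup` : the interface statements.
-/

set_option autoImplicit false
set_option linter.unusedSectionVars false

open CategoryTheory CategoryTheory.Limits groupCohomology

noncomputable section

namespace Fermat.Agent.S55.helper1

open Fermat.Agent.S55 Fermat.Agent.S55.helper73 Fermat.Agent.S55.helper8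

/-! ## Abstract part -/

section Abstract

/-- Periodicity for finite cyclic groups: `H¹(G, A) = 0 ⟹ H³(G, A) = 0`. -/
theorem isZero_H3_of_isZero_H1_of_isCyclic {k G : Type} [CommRing k] [Group G] [Finite G]
    [IsCyclic G] (A : Rep k G) (h1 : IsZero (groupCohomology A 1)) :
    IsZero (groupCohomology A 3) := by
  let _ : CommGroup G := IsCyclic.commGroup
  let _ : Fintype G := Fintype.ofFinite _
  obtain ⟨g, hg⟩ := IsCyclic.exists_generator (α := G)
  have e3 := Rep.FiniteCyclicGroup.groupCohomologyIsoOdd A g hg 3 (by decide)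
  have e1 := Rep.FiniteCyclicGroup.groupCohomologyIsoOdd A g hg 1 (by decide)
  exact h1.of_iso (e3 ≪≫ e1.symm)

/-- `H¹(G, M) = 0` if every multiplicative 1-cocycle is a coboundary. -/
theorem usloc_isZero_H1_of_forall_isMulCoboundary₁ {G M : Type} [Group G] [CommGroup M]
    [MulDistribMulAction G M]
    (h : ∀ f : G → M, IsMulCocycle₁ f → IsMulCoboundary₁ f) :
    IsZero (groupCohomology (Rep.ofMulDistribMulAction G M) 1) := by
  rw [ModuleCat.isZero_iff_subsingleton]
  have hz : ∀ x : groupCohomology.H1 (Rep.ofMulDistribMulAction G M), x = 0 := fun x =>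
    groupCohomology.H1_induction_on x fun c => (groupCohomology.H1π_eq_zero_iff _).2 <|
      (coboundariesOfIsMulCoboundary₁ (h _ (isMulCocycle₁_of_mem_cocycles₁ _ c.2))).2
  exact ⟨fun x y => (hz x).trans (hz y).symm⟩

end Abstract

/-! ## The local statement -/

section USLoc

variable (q : ℕ) [Fact q.Prime] (K L : Type) [Field K] [Field L] [Algebra ℚ_[q] K]
  [FiniteDimensional ℚ_[q] K] [Algebra ℚ_[q] L] [Algebra K L] [IsScalarTower ℚ_[q] K L]
  [FiniteDimensional K L] [IsGalois K L]

/-- the unit group is stable under `Gal(L/K)` -/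
theorem smul_mem_unitGroup (σ : L ≃ₐ[K] L) {u : Lˣ} (hu : u ∈ unitGroup q L) :
    σ • u ∈ unitGroup q L :=
  helper15.smul_mem_unitGroup q K L σ hu

/-- For `L/K` unramified, every `β : Lˣ` is the product of an element of `Kˣ` and a unit. -/
theorem exists_div_mem_unitGroup_of_isUnram (h : IsUnram q K L) (β : Lˣ) :
    ∃ a : Kˣ, β / Units.map (algebraMap K L : K →* L) a ∈ unitGroup q L := by
  have : FiniteDimensional ℚ_[q] L := Module.Finite.trans K L
  obtain ⟨π, hπ⟩ := helper33.exists_ord_eq_one q K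
  let φ : Kˣ →* Multiplicative ℤ :=
    { toFun := fun a => Multiplicative.ofAdd (ord q K a)
      map_one' := by rw [helper97.ord_one]; rfl
      map_mul' := fun a b => by rw [helper33.ord_mul]; rfl }
  have hz : ∀ n : ℤ, ord q K (π ^ n) = n := by
    intro n
    have h1 : φ (π ^ n) = φ π ^ n := map_zpow φ π n
    have h2 : Multiplicative.toAdd (φ (π ^ n)) = n • Multiplicative.toAdd (φ π) := by
      rw [h1]; rfl
    have h3 : Multiplicative.toAdd (φ π) = 1 := hπ
    rw [h3, smul_eq_mul, mul_one] at h2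
    exact h2
  refine ⟨π ^ (ord q L β), ?_⟩
  rw [helper33.mem_unitGroup_iff, div_eq_mul_inv, helper33.ord_mul, helper97.ord_inv, h,
    hz, add_neg_cancel]

/-- A `U_L`-valued 1-cocycle of an unramified extension is the coboundary of a unit
(Hilbert 90 + a uniformizer in `K`). -/
theorem isMulCoboundary₁_unitGroup_of_isUnram (h : IsUnram q K L)
    (f : (L ≃ₐ[K] L) → Lˣ) (hf : IsMulCocycle₁ f) :
    ∃ β : Lˣ, β ∈ unitGroup q L ∧ ∀ g : L ≃ₐ[K] L, g • β / β = f g := by
  obtain ⟨β, hβ⟩ := isMulCoboundary₁_of_isMulCocycle₁_of_aut_to_units f hf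
  obtain ⟨a, ha⟩ := exists_div_mem_unitGroup_of_isUnram q K L h β
  refine ⟨_, ha, fun g => ?_⟩
  have hfix : g • Units.map (algebraMap K L : K →* L) a = Units.map (algebraMap K L : K →* L) a :=
    Units.ext (g.commutes _)
  rw [smul_div', hfix, ← hβ g]
  rw [div_div_div_cancel_right]

/-- **[US-LOC]**: `H³(Gal(L/K), U_L) = 0` for `L/K` unramified
(`G` cyclic, periodicity FG4, `H¹(G, U_L) = 0` from Hilbert 90 and a uniformizer in `K`). -/
theorem isZero_H3_unitGroup (h : IsUnram q K L) :
    IsZero (groupCohomology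
      (@Rep.ofMulDistribMulAction (L ≃ₐ[K] L) (unitGroup q L) _ _
        (stableAction (unitGroup q L) fun σ _ hu => smul_mem_unitGroup q K L σ hu)) 3) := by
  let _ : MulDistribMulAction (L ≃ₐ[K] L) (unitGroup q L) :=
    stableAction (unitGroup q L) fun σ _ hu => smul_mem_unitGroup q K L σ hu
  have : IsCyclic (L ≃ₐ[K] L) := by
    obtain ⟨φ, -, hgen, -, -⟩ := helper7.exists_frob_of_isUnram q K L h
    exact ⟨⟨φ, hgen⟩⟩
  refine isZero_H3_of_isZero_H1_of_isCyclic _ (usloc_isZero_H1_of_forall_isMulCoboundary₁ ?_)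
  intro f hf
  have hf' : IsMulCocycle₁ (fun g => ((f g : unitGroup q L) : Lˣ)) := fun g g' =>
    congrArg Subtype.val (hf g g')
  obtain ⟨β, hβu, hβ⟩ := isMulCoboundary₁_unitGroup_of_isUnram q K L h _ hf'
  exact ⟨⟨β, hβu⟩, fun g => Subtype.ext (hβ g)⟩

end USLoc

end Fermat.Agent.S55.helper1
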