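import Fermat.Agent.S55.helper21_UnitsRel

/-!
# S55 / GLOB-ASM (helper21, task 349): the first inequality, conditional assembly

`ineq1_of_inputs`: for `L/K` cyclic of odd prime degree `p` with generator `σ`,
`|Ĥ^0(G, C_L)| = p · |Ĥ^{-1}(G, C_L)| ≠ 0`, from the package statements
G1 (`principalPi_injective`), CL-2, CL-4, CL-5, LAT-3, G3a and HQ-4 (for the unit ideles),
taken as explicit hypotheses, and the landed Herbrand toolkit (helper42) and unit theorem
(S14 helper44).
-/

set_option autoImplicit false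
set_option linter.unusedSectionVars false
set_option linter.style.haveILetI false

open scoped TensorProduct NumberField

namespace Fermat.Agent.S55.helper21

open Fermat.Agent.S55.helper73 Fermat.Agent.S55.helper42 Fermat.Agent.S14.helper44

variable (K L : Type*) [Field K] [NumberField K] [Field L] [NumberField L] [Algebra K L]

lemma smul_mem_globalUnits (σ : L ≃ₐ[K] L) (x : Lˣ) (hx : x ∈ globalUnits L) :
    σ • x ∈ globalUnits L := by
  obtain ⟨h1, h2⟩ := hx
  refine ⟨?_, ?_⟩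
  · exact h1.map (σ : L →ₐ[K] L).toRingHom.toIntAlgHom
  · have : (((σ • x)⁻¹ : Lˣ) : L) = σ ((x⁻¹ : Lˣ) : L) := by
      rw [← smul_inv']
      rfl
    rw [this]
    exact h2.map (σ : L →ₐ[K] L).toRingHom.toIntAlgHom

/-- The `G`-module of global units. -/
@[reducible]
noncomputable def globalUnitsAction : MulDistribMulAction (L ≃ₐ[K] L) (globalUnits L) :=
  stableAction (globalUnits L) (smul_mem_globalUnits K L)

section Map

variable (hCL2 : ∀ x : Lˣ,
  (∀ q : Nat.Primes, principalPi L x q ∈ intUnits (q : ℕ) L) ↔ x ∈ globalUnits L)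

/-- The diagonal map from the global units to the unit ideles. -/
noncomputable def guToUnitIdele : ↥(globalUnits L) →* UnitIdele L where
  toFun x := UnitIdele.mk fun q => ⟨principalPi L x q, (hCL2 x).2 x.2 q⟩
  map_one' := by
    apply UnitIdele.ext
    intro q
    apply Subtype.ext
    simp
  map_mul' x y := by
    apply UnitIdele.ext
    intro q
    apply Subtype.ext
    simp

@[simp] lemma guToUnitIdele_comp (x : ↥(globalUnits L)) (q : Nat.Primes) :
    (((guToUnitIdele L hCL2 x).comp q : intUnits (q : ℕ) L) : (SemiLoc (q : ℕ) L)ˣ) =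
      principalPi L x q := rfl

lemma guToUnitIdele_injective (hG1 : Function.Injective (principalPi L)) :
    Function.Injective (guToUnitIdele L hCL2) := by
  intro x y h
  apply Subtype.ext
  apply hG1
  funext q
  have := congrArg (fun u : UnitIdele L => ((u.comp q : intUnits (q : ℕ) L) : (SemiLoc (q : ℕ) L)ˣ)) h
  simpa using this

lemma guToUnitIdele_smul (σ : L ≃ₐ[K] L) (x : ↥(globalUnits L)) :
    letI := globalUnitsAction K L
    guToUnitIdele L hCL2 (σ • x) = σ • guToUnitIdele L hCL2 x := by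
  apply UnitIdele.ext
  intro q
  apply Subtype.ext
  show principalPi L (σ • (x : Lˣ)) q = σ • principalPi L (x : Lˣ) q
  rw [← smul_principalPi]
  rfl

lemma range_guToUnitIdele
    (hCL5 : ∀ u : UnitIdele L, u ∈ (unitIdeleClassHom L).ker ↔
      ∃ x ∈ globalUnits L, ∀ q : Nat.Primes,
        (u.comp q : (SemiLoc (q : ℕ) L)ˣ) = principalPi L x q) :
    (guToUnitIdele L hCL2).range = (unitIdeleClassHom L).ker := by
  ext u
  rw [hCL5]
  constructor
  · rintro ⟨x, rfl⟩
    exact ⟨x, x.2, fun q => rfl⟩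
  · rintro ⟨x, hx, h⟩
    refine ⟨⟨x, hx⟩, ?_⟩
    apply UnitIdele.ext
    intro q
    apply Subtype.ext
    exact (h q).symm

end Map

variable [IsGalois K L]

/-- Herbrand numbers of a stable subgroup, as a module, equal the ambient ones. -/
lemma hZero_stable {G A : Type*} [Group G] [Fintype G] [CommGroup A] [MulDistribMulAction G A]
    {σ : G} (hσ : ∀ τ : G, τ ∈ Subgroup.zpowers σ) (H : Subgroup A)
    (hH : ∀ (τ : G) (x : A), x ∈ H → τ • x ∈ H) :
    letI := stableAction H hH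
    hZero G H = rel0 G A H ∧ hMinus H σ = rel1 A σ H := by
  letI := stableAction H hH
  have h0 := hq0_eq_rel0_range hσ H.subtype Subtype.coe_injective (fun _ _ => rfl)
  have h1 := hq1_eq_rel1_range σ H.subtype Subtype.coe_injective (fun _ _ => rfl)
  rw [Subgroup.range_subtype] at h0 h1
  exact ⟨h0, h1⟩

/-- **Abstract assembly**: `1 → E → U → C` exact with `U → C` of finite-index image,
`h(U) = 1`, `|Ĥ^{-1}(E)| = p |Ĥ^0(E)|`; then `|Ĥ^0(C)| = p |Ĥ^{-1}(C)|`. -/
theorem herbrand_of_exact_finiteIndex {G E U C : Type*} [Group G] [Fintype G]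
    [CommGroup E] [CommGroup U] [CommGroup C]
    [MulDistribMulAction G E] [MulDistribMulAction G U] [MulDistribMulAction G C]
    {σ : G} (hσ : ∀ τ : G, τ ∈ Subgroup.zpowers σ)
    (f : E →* U) (φ : U →* C) (hinj : Function.Injective f) (hex : f.range = φ.ker)
    (hf : ∀ (τ : G) (x : E), f (τ • x) = τ • f x)
    (hφ : ∀ (τ : G) (x : U), φ (τ • x) = τ • φ x)
    (hfin : φ.range.index ≠ 0)
    (p : ℕ) (hp : p ≠ 0)
    (hU : hZero G U = hMinus U σ) (hUne : hZero G U ≠ 0)
    (hE : hMinus E σ = p * hZero G E) (hEne : hZero G E ≠ 0) :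
    hMinus C σ ≠ 0 ∧ hZero G C = p * hMinus C σ := by
  have hRst : ∀ (τ : G) (x : C), x ∈ φ.range → τ • x ∈ φ.range := by
    rintro τ x ⟨u, rfl⟩
    exact ⟨τ • u, hφ τ u⟩
  letI := stableAction φ.range hRst
  obtain ⟨hR0, hR1⟩ := hZero_stable hσ φ.range hRst
  have hsurj : Function.Surjective φ.rangeRestrict := MonoidHom.rangeRestrict_surjective _
  have hex' : f.range = φ.rangeRestrict.ker := by
    rw [hex, MonoidHom.ker_rangeRestrict]
  have hg : ∀ (τ : G) (u : U), φ.rangeRestrict (τ • u) = τ • φ.rangeRestrict u :=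
    fun τ u => by
      apply Subtype.ext
      exact hφ τ u
  have hmul := hq_mul_of_exact hσ f φ.rangeRestrict hinj hsurj hex' hf hg
  have hUne1 : hMinus U σ ≠ 0 := hU ▸ hUne
  have hne := hq_ne_zero_right hσ f φ.rangeRestrict hinj hsurj hex' hf hg hUne hUne1 hEne
    (by
      show hMinus E σ ≠ 0
      rw [hE]
      exact mul_ne_zero hp hEne)
  have hR0' : hq0 G ↥φ.range = rel0 G C φ.range := hR0
  have hR1' : hq1 ↥φ.range σ = rel1 C σ φ.range := hR1
  have hmul' : hZero G U * (p * hZero G E) * rel1 C σ φ.range =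
      hZero G U * hZero G E * rel0 G C φ.range := by
    have := hmul
    rw [hR0', hR1'] at this
    rw [← hE]
    have h3 : hZero G U * hMinus E σ * rel1 C σ φ.range =
        hMinus U σ * hZero G E * rel0 G C φ.range := this
    rw [h3, ← hU]
  rw [hR0', hR1'] at hne
  have hr : rel0 G C φ.range = p * rel1 C σ φ.range := by
    have h1 : hZero G U * hZero G E * (p * rel1 C σ φ.range) =
        hZero G U * hZero G E * rel0 G C φ.range := by
      rw [← hmul']
      ring
    exact (Nat.eq_of_mul_eq_mul_left (Nat.pos_of_ne_zero (mul_ne_zero hUne hEne)) h1).symm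
  obtain ⟨hfin0, -, hfin1⟩ := hq_mul_of_index_ne_zero hσ φ.range
    (fun τ x hx => hRst τ x hx) hfin
  have hC1 : hq1 C σ ≠ 0 := hfin1.2 hne.2
  refine ⟨hC1, ?_⟩
  show hq0 G C = p * hq1 C σ
  have h2 : hq0 G C * rel1 C σ φ.range = (p * hq1 C σ) * rel1 C σ φ.range := by
    rw [hfin0, hr]
    ring
  exact Nat.eq_of_mul_eq_mul_right (Nat.pos_of_ne_zero hne.2) h2

/-- **INEQ1, conditional assembly.** -/
theorem ineq1_of_inputs (p : ℕ) (hp : p.Prime) (hp2 : p ≠ 2) (hdeg : Module.finrank K L = p)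
    (σ : Gal(L/K)) (hσ : σ ≠ 1)
    (hG1 : Function.Injective (principalPi L))
    (hCL2 : ∀ x : Lˣ,
      (∀ q : Nat.Primes, principalPi L x q ∈ intUnits (q : ℕ) L) ↔ x ∈ globalUnits L)
    (hCL4 : (unitIdeleClassHom L).range.index ≠ 0)
    (hCL5 : ∀ u : UnitIdele L, u ∈ (unitIdeleClassHom L).ker ↔
      ∃ x ∈ globalUnits L, ∀ q : Nat.Primes,
        (u.comp q : (SemiLoc (q : ℕ) L)ˣ) = principalPi L x q)
    (hLAT3 : ∀ q : Nat.Primes, hZero Gal(L/K) (intUnits (q : ℕ) L) ≠ 0 ∧
      hZero Gal(L/K) (intUnits (q : ℕ) L) = hMinus (intUnits (q : ℕ) L) σ)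
    (hG3a : ∃ T : Finset Nat.Primes, ∀ q : Nat.Primes, q ∉ T →
      (∀ x ∈ intUnits (q : ℕ) L, (∀ τ : Gal(L/K), τ • x = x) →
        ∃ y ∈ intUnits (q : ℕ) L, normG Gal(L/K) (SemiLoc (q : ℕ) L)ˣ y = x) ∧
      (∀ x ∈ intUnits (q : ℕ) L, normG Gal(L/K) (SemiLoc (q : ℕ) L)ˣ x = 1 →
        ∃ y ∈ intUnits (q : ℕ) L, σ • y / y = x))
    (hHQ4 : ∀ T : Finset Nat.Primes,
      (∀ q : Nat.Primes, q ∉ T → hZero Gal(L/K) (intUnits (q : ℕ) L) = 1 ∧
        hMinus (intUnits (q : ℕ) L) σ = 1) →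
      hZero Gal(L/K) (UnitIdele L) = ∏ q ∈ T, hZero Gal(L/K) (intUnits (q : ℕ) L) ∧
        hMinus (UnitIdele L) σ = ∏ q ∈ T, hMinus (intUnits (q : ℕ) L) σ) :
    hMinus (IdeleClass L) σ ≠ 0 ∧
      hZero Gal(L/K) (IdeleClass L) = p * hMinus (IdeleClass L) σ := by
  haveI : Fact p.Prime := ⟨hp⟩
  have hσgen : ∀ τ : Gal(L/K), τ ∈ Subgroup.zpowers σ := by
    intro τ
    rw [zpowers_eq_top_of_ne_one hdeg hσ]
    exact Subgroup.mem_top τ
  -- Step C: the unit ideles
  obtain ⟨T, hT⟩ := hG3a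
  have hTriv : ∀ q : Nat.Primes, q ∉ T → hZero Gal(L/K) (intUnits (q : ℕ) L) = 1 ∧
      hMinus (intUnits (q : ℕ) L) σ = 1 := by
    intro q hq
    obtain ⟨h0, h1⟩ := hZero_stable hσgen (intUnits (q : ℕ) L)
      (fun τ x hx => smul_mem_intUnits (q : ℕ) L K τ hx)
    refine ⟨?_, ?_⟩
    · rw [h0, rel0_eq_one_iff]
      exact (hT q hq).1
    · rw [h1, rel1_eq_one_iff]
      exact (hT q hq).2
  obtain ⟨hU0, hU1⟩ := hHQ4 T hTriv
  have hUeq : hZero Gal(L/K) (UnitIdele L) = hMinus (UnitIdele L) σ := by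
    rw [hU0, hU1]
    exact Finset.prod_congr rfl fun q _ => (hLAT3 q).2
  have hUne : hZero Gal(L/K) (UnitIdele L) ≠ 0 := by
    rw [hU0]
    exact Finset.prod_ne_zero_iff.mpr fun q _ => (hLAT3 q).1
  -- Step A: the global units
  obtain ⟨hE0ne, hE1⟩ := globalUnits_rel K L hdeg hp2 hσ
  letI := globalUnitsAction K L
  obtain ⟨hA0, hA1⟩ := hZero_stable hσgen (globalUnits L) (smul_mem_globalUnits K L)
  -- Steps B and D
  have hEE : hMinus ↥(globalUnits L) σ = p * hZero Gal(L/K) ↥(globalUnits L) := by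
    rw [hA0, hA1]; exact hE1
  have hEne : hZero Gal(L/K) ↥(globalUnits L) ≠ 0 := by rw [hA0]; exact hE0ne
  have key := herbrand_of_exact_finiteIndex (G := Gal(L/K)) (E := ↥(globalUnits L))
    (U := UnitIdele L) (C := IdeleClass L) (σ := σ) hσgen (guToUnitIdele L hCL2)
    (unitIdeleClassHom L)
  have key2 := key (guToUnitIdele_injective L hCL2 hG1)
  have key3 := key2 (range_guToUnitIdele L hCL2 hCL5)
  have key4 := key3 (fun τ x => guToUnitIdele_smul K L hCL2 τ x)
  have key5 := key4 (fun τ u => unitIdeleClassHom_smul L K τ u)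
  have key6 := key5 hCL4 p hp.ne_zero
  have key7 := key6 hUeq hUne
  have key8 := key7 hEE hEne
  exact key8

end Fermat.Agent.S55.helper21
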