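import Fermat.Agent.S55.helper73_GlobDefs2
import Fermat.Agent.S55.helper42_HerbrandMul

/-!
# S55 / GLOB package HQ (helper42): Herbrand toolkit, interface v2 of helper73

The five statements `herbrand_hexagon`, `herbrand_finite`, `herbrand_congr`, `herbrand_pi`,
`herbrand_finiteIndex` of section HQ of `helper73_GlobInterface2`, verbatim, about
`hZero G A = [A^G : N A]` and `hMinus A σ = [ker N : (σ - 1) A]`.
Namespace `Fermat.Agent.S55.helper42.HQ` (the names `herbrand_*` also occur in
`helper42_FG4` for Mathlib's `groupCohomology`).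
-/

set_option autoImplicit false

open scoped TensorProduct NumberField

namespace Fermat.Agent.S55.helper42.HQ

open Fermat.Agent.S55.helper73 Fermat.Agent.S55.helper42

section HQ

variable {G : Type*} [Group G] [Fintype G] {A B C : Type*} [CommGroup A] [CommGroup B]
  [CommGroup C] [MulDistribMulAction G A] [MulDistribMulAction G B] [MulDistribMulAction G C]

theorem hZero_eq_hq0 : hZero G A = hq0 G A := rfl

theorem hMinus_eq_hq1 (σ : G) : hMinus A σ = hq1 A σ := rfl

/-- HQ-1: the Herbrand hexagon in index form (six numbers). -/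
theorem herbrand_hexagon (σ : G) (hσ : ∀ τ : G, τ ∈ Subgroup.zpowers σ)
    (f : A →* B) (g : B →* C) (hf : Function.Injective f) (hg : Function.Surjective g)
    (hfg : f.range = g.ker) (hfσ : ∀ (τ : G) (a : A), f (τ • a) = τ • f a)
    (hgσ : ∀ (τ : G) (b : B), g (τ • b) = τ • g b) :
    ∃ a0 b0 c0 a1 b1 c1 : ℕ,
      hZero G B = a0 * b0 ∧ hZero G A = b0 * c0 ∧ hZero G C = c1 * a0 ∧
      hMinus B σ = a1 * b1 ∧ hMinus A σ = b1 * c1 ∧ hMinus C σ = c0 * a1 :=
  hq_hexagon hσ f g hf hg hfg hfσ hgσ

/-- HQ-2: finite modules have Herbrand quotient `1`. -/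
theorem herbrand_finite (σ : G) (hσ : ∀ τ : G, τ ∈ Subgroup.zpowers σ) [Finite A] :
    hZero G A ≠ 0 ∧ hZero G A = hMinus A σ :=
  ⟨(hq0_eq_hq1_of_finite hσ).2, (hq0_eq_hq1_of_finite hσ).1⟩

/-- HQ-3: invariance under equivariant isomorphisms. -/
theorem herbrand_congr (e : A ≃* B) (he : ∀ (τ : G) (a : A), e (τ • a) = τ • e a) (σ : G) :
    hZero G A = hZero G B ∧ hMinus A σ = hMinus B σ := by
  have hN : ∀ x, e.toMonoidHom (normG G A x) = normG G B (e.toMonoidHom x) :=
    map_normG e.toMonoidHom he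
  have hD : ∀ x, e.toMonoidHom (deltaHom A σ x) = deltaHom B σ (e.toMonoidHom x) :=
    map_deltaHom e.toMonoidHom he σ
  have hsurj : Function.Surjective e.toMonoidHom := e.surjective
  have hinj : Function.Injective e.toMonoidHom := e.injective
  have hrN : (normG G A).range.map e.toMonoidHom = (normG G B).range := by
    ext y
    constructor
    · rintro ⟨_, ⟨x, rfl⟩, rfl⟩
      exact ⟨e.toMonoidHom x, (hN x).symm⟩
    · rintro ⟨x, rfl⟩
      obtain ⟨x', rfl⟩ := hsurj x
      exact ⟨normG G A x', ⟨x', rfl⟩, hN x'⟩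
  have hrD : (deltaHom A σ).range.map e.toMonoidHom = (deltaHom B σ).range := by
    ext y
    constructor
    · rintro ⟨_, ⟨x, rfl⟩, rfl⟩
      exact ⟨e.toMonoidHom x, (hD x).symm⟩
    · rintro ⟨x, rfl⟩
      obtain ⟨x', rfl⟩ := hsurj x
      exact ⟨deltaHom A σ x', ⟨x', rfl⟩, hD x'⟩
  have hkN : (normG G A).ker.map e.toMonoidHom = (normG G B).ker := by
    ext y
    constructor
    · rintro ⟨x, hx, rfl⟩
      rw [MonoidHom.mem_ker, ← hN, MonoidHom.mem_ker.1 hx, map_one]
    · intro hy
      obtain ⟨x, rfl⟩ := hsurj y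
      refine ⟨x, ?_, rfl⟩
      rw [MonoidHom.mem_ker, ← hN] at hy
      show normG G A x = 1
      exact hinj (by rw [hy, map_one])
  have hfix : (fixedSub G A).map e.toMonoidHom = fixedSub G B := by
    ext y
    constructor
    · rintro ⟨x, hx, rfl⟩
      intro τ
      show τ • e x = e x
      rw [← he, hx τ]
    · intro hy
      obtain ⟨x, rfl⟩ := hsurj y
      refine ⟨x, ?_, rfl⟩
      intro τ
      apply hinj
      show e (τ • x) = e x
      rw [he]
      exact hy τ
  constructor
  · show (normG G A).range.relIndex (fixedSub G A) = (normG G B).range.relIndex (fixedSub G B)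
    rw [← hrN, ← hfix, Subgroup.relIndex_map_map_of_injective _ _ hinj]
  · show (deltaHom A σ).range.relIndex (normG G A).ker =
      (deltaHom B σ).range.relIndex (normG G B).ker
    rw [← hrD, ← hkN, Subgroup.relIndex_map_map_of_injective _ _ hinj]

/-- HQ-5: invariance under passing to a stable subgroup of finite index. -/
theorem herbrand_finiteIndex (σ : G) (hσ : ∀ τ : G, τ ∈ Subgroup.zpowers σ) (H : Subgroup A)
    (hH : ∀ (τ : G) (x : A), x ∈ H → τ • x ∈ H) (hfin : H.index ≠ 0) :
    letI := stableAction H hH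
    (hZero G A * hMinus H σ = hMinus A σ * hZero G H) ∧
      (hZero G H ≠ 0 → hMinus H σ ≠ 0 → hZero G A ≠ 0 ∧ hMinus A σ ≠ 0) := by
  let _ := stableAction H hH
  have hinj : Function.Injective H.subtype := Subtype.val_injective
  have heq : ∀ (τ : G) (x : H), H.subtype (τ • x) = τ • H.subtype x := fun _ _ => rfl
  have h0 : hZero G H = rel0 G A H := by
    have := hq0_eq_rel0_range hσ H.subtype hinj heq
    rwa [Subgroup.range_subtype] at this
  have h1 : hMinus H σ = rel1 A σ H := by
    have := hq1_eq_rel1_range σ H.subtype hinj heq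
    rwa [Subgroup.range_subtype] at this
  obtain ⟨e1, e2, e3⟩ := hq_mul_of_index_ne_zero hσ H (fun τ x hx => hH τ x hx) hfin
  refine ⟨?_, fun hz hm => ⟨?_, ?_⟩⟩
  · rw [h0, h1]
    exact e1
  · rw [h0] at hz
    exact e2.2 hz
  · rw [h1] at hm
    exact e3.2 hm

/-- Relative index of box subgroups of a product: if `K i ≤ H i` outside a finite set `T`, the
relative index is the product over `T`. -/
theorem relIndex_pi {ι : Type*} (M : ι → Type*) [∀ i, CommGroup (M i)]
    (H K : ∀ i, Subgroup (M i)) (T : Finset ι) (hT : ∀ i, i ∉ T → K i ≤ H i) :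
    (Subgroup.pi Set.univ H).relIndex (Subgroup.pi Set.univ K) =
      ∏ i ∈ T, (H i).relIndex (K i) := by
  classical
  let Q : ι → Type _ := fun i => ↥(K i) ⧸ (H i).subgroupOf (K i)
  let φ : ↥(Subgroup.pi Set.univ K) →* (∀ i : ↥T, Q i.1) :=
    { toFun := fun x i => QuotientGroup.mk ⟨x.1 i.1, x.2 i.1 (Set.mem_univ _)⟩
      map_one' := rfl
      map_mul' := fun x y => rfl }
  have hsurj : Function.Surjective φ := by
    intro q
    have hrep : ∀ i : ↥T, ∃ r : ↥(K i.1), (QuotientGroup.mk r : Q i.1) = q i :=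
      fun i => QuotientGroup.mk_surjective (q i)
    choose r hr using hrep
    let x : ∀ j, M j := fun j => if h : j ∈ T then (r ⟨j, h⟩ : M j) else 1
    have hx : x ∈ Subgroup.pi Set.univ K := by
      intro j _
      by_cases h : j ∈ T
      · simp only [x, dif_pos h]
        exact (r ⟨j, h⟩).2
      · simp only [x, dif_neg h]
        exact (K j).one_mem
    refine ⟨⟨x, hx⟩, ?_⟩
    funext i
    show (QuotientGroup.mk ⟨x i.1, hx i.1 (Set.mem_univ _)⟩ : Q i.1) = q i
    rw [← hr i]
    congr 1
    apply Subtype.ext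
    show x i.1 = (r i : M i.1)
    simp only [x, dif_pos i.2]
  have hker : φ.ker = (Subgroup.pi Set.univ H).subgroupOf (Subgroup.pi Set.univ K) := by
    ext x
    rw [MonoidHom.mem_ker, Subgroup.mem_subgroupOf]
    constructor
    · intro h j _
      by_cases hj : j ∈ T
      · have := congrFun h ⟨j, hj⟩
        have h2 : (QuotientGroup.mk ⟨x.1 j, x.2 j (Set.mem_univ _)⟩ : Q j) = 1 := this
        rw [QuotientGroup.eq_one_iff] at h2
        exact h2
      · exact hT j hj (x.2 j (Set.mem_univ _))
    · intro h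
      funext i
      show (QuotientGroup.mk ⟨x.1 i.1, x.2 i.1 (Set.mem_univ _)⟩ : Q i.1) = 1
      rw [QuotientGroup.eq_one_iff]
      exact h i.1 (Set.mem_univ _)
  have hcard : Nat.card (∀ i : ↥T, Q i.1) = φ.ker.index := by
    rw [Subgroup.index_ker, MonoidHom.range_eq_top.2 hsurj]
    exact (Nat.card_congr Subgroup.topEquiv.toEquiv).symm
  unfold Subgroup.relIndex
  rw [← hker, ← hcard, Nat.card_pi]
  exact Finset.prod_coe_sort T (fun i => ((H i).subgroupOf (K i)).index)

section Pi

variable {ι : Type*} (M : ι → Type*) [∀ i, CommGroup (M i)] [∀ i, MulDistribMulAction G (M i)]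

theorem normG_pi_apply (x : ∀ i, M i) (i : ι) :
    normG G (∀ i, M i) x i = normG G (M i) (x i) := by
  rw [normG_apply, normG_apply, Finset.prod_apply]
  rfl

omit [Fintype G] in
theorem deltaHom_pi_apply (σ : G) (x : ∀ i, M i) (i : ι) :
    deltaHom (∀ i, M i) σ x i = deltaHom (M i) σ (x i) := rfl

theorem range_normG_pi :
    (normG G (∀ i, M i)).range = Subgroup.pi Set.univ fun i => (normG G (M i)).range := by
  ext x
  constructor
  · rintro ⟨y, rfl⟩ i _
    exact ⟨y i, (normG_pi_apply M y i).symm⟩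
  · intro h
    have h' : ∀ i, ∃ y : M i, normG G (M i) y = x i := fun i => h i (Set.mem_univ i)
    choose y hy using h'
    refine ⟨y, ?_⟩
    funext i
    rw [normG_pi_apply, hy]

omit [Fintype G] in
theorem range_deltaHom_pi (σ : G) :
    (deltaHom (∀ i, M i) σ).range = Subgroup.pi Set.univ fun i => (deltaHom (M i) σ).range := by
  ext x
  constructor
  · rintro ⟨y, rfl⟩ i _
    exact ⟨y i, rfl⟩
  · intro h
    have h' : ∀ i, ∃ y : M i, deltaHom (M i) σ y = x i := fun i => h i (Set.mem_univ i)
    choose y hy using h'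
    refine ⟨y, ?_⟩
    funext i
    rw [deltaHom_pi_apply, hy]

theorem ker_normG_pi :
    (normG G (∀ i, M i)).ker = Subgroup.pi Set.univ fun i => (normG G (M i)).ker := by
  ext x
  rw [MonoidHom.mem_ker, Subgroup.mem_pi]
  constructor
  · intro h i _
    rw [MonoidHom.mem_ker, ← normG_pi_apply, h]
    rfl
  · intro h
    funext i
    rw [normG_pi_apply]
    exact MonoidHom.mem_ker.1 (h i (Set.mem_univ i))

omit [Fintype G] in
theorem fixedSub_pi :
    fixedSub G (∀ i, M i) = Subgroup.pi Set.univ fun i => fixedSub G (M i) := by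
  ext x
  rw [mem_fixedSub, Subgroup.mem_pi]
  constructor
  · intro h i _ τ
    exact congrFun (h τ) i
  · intro h τ
    funext i
    exact h i (Set.mem_univ i) τ

/-- HQ-4: products, almost all factors cohomologically trivial. -/
theorem herbrand_pi {ι : Type*} (M : ι → Type*) [∀ i, CommGroup (M i)]
    [∀ i, MulDistribMulAction G (M i)] (σ : G) (T : Finset ι)
    (hT : ∀ i, i ∉ T → hZero G (M i) = 1 ∧ hMinus (M i) σ = 1) :
    hZero G (∀ i, M i) = ∏ i ∈ T, hZero G (M i) ∧
      hMinus (∀ i, M i) σ = ∏ i ∈ T, hMinus (M i) σ := by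
  constructor
  · show (normG G (∀ i, M i)).range.relIndex (fixedSub G (∀ i, M i)) = _
    rw [range_normG_pi, fixedSub_pi]
    refine relIndex_pi M _ _ T fun i hi => ?_
    exact Subgroup.relIndex_eq_one.1 (hT i hi).1
  · show (deltaHom (∀ i, M i) σ).range.relIndex (normG G (∀ i, M i)).ker = _
    rw [range_deltaHom_pi, ker_normG_pi]
    refine relIndex_pi M _ _ T fun i hi => ?_
    exact Subgroup.relIndex_eq_one.1 (hT i hi).2

end Pi

end HQ

end Fermat.Agent.S55.helper42.HQ
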