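import Fermat.Agent.S55.helper21_Ineq1
import Fermat.Agent.S55.helper26_ClassFinal
import Fermat.Agent.S55.helper42_HQ
import Fermat.Agent.S55.helper73_IdlBasic

/-!
# S55 / GLOB-ASM (helper21, task 349): the first inequality from LAT-3 and G3a only

`ineq1_of_LAT_G3a`: `ineq1_of_inputs` with G1 (helper73), CL-2/4/5 (helper26) and HQ-4 (helper42)
discharged; the remaining hypotheses are LAT-3 and G3a.
-/

set_option autoImplicit false
set_option linter.unusedSectionVars false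

open scoped TensorProduct NumberField

namespace Fermat.Agent.S55.helper21

open Fermat.Agent.S55.helper73 Fermat.Agent.S55.helper42

variable (K L : Type*) [Field K] [NumberField K] [Field L] [NumberField L] [Algebra K L]
  [IsGalois K L]

/-- HQ-4 for the unit ideles. -/
theorem herbrand_unitIdele (σ : Gal(L/K)) (T : Finset Nat.Primes)
    (hT : ∀ q : Nat.Primes, q ∉ T → hZero Gal(L/K) (intUnits (q : ℕ) L) = 1 ∧
      hMinus (intUnits (q : ℕ) L) σ = 1) :
    hZero Gal(L/K) (UnitIdele L) = ∏ q ∈ T, hZero Gal(L/K) (intUnits (q : ℕ) L) ∧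
      hMinus (UnitIdele L) σ = ∏ q ∈ T, hMinus (intUnits (q : ℕ) L) σ :=
  HQ.herbrand_pi (G := Gal(L/K)) (fun q : Nat.Primes => intUnits (q : ℕ) L) σ T hT

/-- **INEQ1 from LAT-3 and G3a.** -/
theorem ineq1_of_LAT_G3a (p : ℕ) (hp : p.Prime) (hp2 : p ≠ 2) (hdeg : Module.finrank K L = p)
    (σ : Gal(L/K)) (hσ : σ ≠ 1)
    (hLAT3 : ∀ q : Nat.Primes, hZero Gal(L/K) (intUnits (q : ℕ) L) ≠ 0 ∧
      hZero Gal(L/K) (intUnits (q : ℕ) L) = hMinus (intUnits (q : ℕ) L) σ)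
    (hG3a : ∃ T : Finset Nat.Primes, ∀ q : Nat.Primes, q ∉ T →
      (∀ x ∈ intUnits (q : ℕ) L, (∀ τ : Gal(L/K), τ • x = x) →
        ∃ y ∈ intUnits (q : ℕ) L, normG Gal(L/K) (SemiLoc (q : ℕ) L)ˣ y = x) ∧
      (∀ x ∈ intUnits (q : ℕ) L, normG Gal(L/K) (SemiLoc (q : ℕ) L)ˣ x = 1 →
        ∃ y ∈ intUnits (q : ℕ) L, σ • y / y = x)) :
    hMinus (IdeleClass L) σ ≠ 0 ∧
      hZero Gal(L/K) (IdeleClass L) = p * hMinus (IdeleClass L) σ :=
  ineq1_of_inputs K L p hp hp2 hdeg σ hσ (principalPi_injective L)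
    (Fermat.Agent.S55.helper26.forall_principalPi_mem_intUnits_iff L)
    (Fermat.Agent.S55.helper26.unitIdele_index_ne_zero L)
    (Fermat.Agent.S55.helper26.mem_ker_unitIdeleClassHom_iff L)
    hLAT3 hG3a (herbrand_unitIdele K L σ)

end Fermat.Agent.S55.helper21
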