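import Fermat.Agent.S55.helper21_Ineq1b

/-!
# S55 / GLOB-ASM (helper21, task 349): glue LAT-1 ⇒ LAT-3, LAT-2 + RES ⇒ G3a, and INEQ1 from
LAT-1, LAT-2, RES

All hypotheses are the conclusions of the interface-v2 statements
`exists_trivial_unit_subgroup` (LAT-1), `exists_finset_princUnits_trivial` (LAT-2),
`exists_finset_intUnits_mod_princUnits` (RES), verbatim.
-/

set_option autoImplicit false
set_option linter.unusedSectionVars false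

open scoped TensorProduct NumberField

namespace Fermat.Agent.S55.helper21

open Fermat.Agent.S55.helper73 Fermat.Agent.S55.helper42

variable (K L : Type*) [Field K] [NumberField K] [Field L] [NumberField L] [Algebra K L]
  [IsGalois K L]

/-- **LAT-1 ⇒ LAT-3**: the Herbrand quotient of the integral units is `1`. -/
theorem intUnits_herbrand_of_LAT1 (q : ℕ) [Fact q.Prime]
    (σ : Gal(L/K)) (hσ : ∀ τ : Gal(L/K), τ ∈ Subgroup.zpowers σ)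
    (hLAT1 : ∃ V : Subgroup (SemiLoc q L)ˣ, V ≤ intUnits q L ∧
      (∀ (τ : Gal(L/K)) (x : (SemiLoc q L)ˣ), x ∈ V → τ • x ∈ V) ∧
      V.relIndex (intUnits q L) ≠ 0 ∧
      (∀ x ∈ V, (∀ τ : Gal(L/K), τ • x = x) →
        ∃ y ∈ V, normG Gal(L/K) (SemiLoc q L)ˣ y = x) ∧
      (∀ x ∈ V, normG Gal(L/K) (SemiLoc q L)ˣ x = 1 → ∃ y ∈ V, σ • y / y = x)) :
    hZero Gal(L/K) (intUnits q L) ≠ 0 ∧
      hZero Gal(L/K) (intUnits q L) = hMinus (intUnits q L) σ := by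
  obtain ⟨V, hVU, hVst, hVfin, hV0, hV1⟩ := hLAT1
  have hUst : ∀ (τ : Gal(L/K)), ∀ x ∈ intUnits q L, τ • x ∈ intUnits q L :=
    fun τ x hx => smul_mem_intUnits q L K τ hx
  obtain ⟨hmul, h0, h1⟩ := rel_mul_of_relIndex_ne_zero hσ V (intUnits q L) hVU
    (fun τ x hx => hVst τ x hx) hUst hVfin
  have e0 : rel0 Gal(L/K) (SemiLoc q L)ˣ V = 1 := (rel0_eq_one_iff V).2 hV0
  have e1 : rel1 (SemiLoc q L)ˣ σ V = 1 := (rel1_eq_one_iff σ V).2 hV1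
  rw [e0, e1, mul_one, mul_one] at hmul
  obtain ⟨hs0, hs1⟩ := hZero_stable hσ (intUnits q L)
    (fun τ x hx => smul_mem_intUnits q L K τ hx)
  have hs0' : hZero Gal(L/K) (intUnits q L) = rel0 Gal(L/K) (SemiLoc q L)ˣ (intUnits q L) := hs0
  have hs1' : hMinus (intUnits q L) σ = rel1 (SemiLoc q L)ˣ σ (intUnits q L) := hs1
  rw [hs0', hs1']
  exact ⟨h0.2 (by rw [e0]; exact one_ne_zero), hmul⟩

/-- **LAT-2 + RES ⇒ G3a** at one prime. -/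
theorem intUnits_trivial_of_LAT2_RES (q : ℕ) [Fact q.Prime] (σ : Gal(L/K))
    (hLAT2 : (∀ x ∈ princUnits q L, (∀ τ : Gal(L/K), τ • x = x) →
        ∃ y ∈ princUnits q L, normG Gal(L/K) (SemiLoc q L)ˣ y = x) ∧
      (∀ x ∈ princUnits q L, normG Gal(L/K) (SemiLoc q L)ˣ x = 1 →
        ∃ y ∈ princUnits q L, σ • y / y = x))
    (hRES : (∀ x ∈ intUnits q L, (∀ τ : Gal(L/K), τ • x = x) →
        ∃ y ∈ intUnits q L, x / normG Gal(L/K) (SemiLoc q L)ˣ y ∈ princUnits q L) ∧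
      (∀ x ∈ intUnits q L, normG Gal(L/K) (SemiLoc q L)ˣ x = 1 →
        ∃ y ∈ intUnits q L, x / (σ • y / y) ∈ princUnits q L)) :
    (∀ x ∈ intUnits q L, (∀ τ : Gal(L/K), τ • x = x) →
        ∃ y ∈ intUnits q L, normG Gal(L/K) (SemiLoc q L)ˣ y = x) ∧
      (∀ x ∈ intUnits q L, normG Gal(L/K) (SemiLoc q L)ˣ x = 1 →
        ∃ y ∈ intUnits q L, σ • y / y = x) := by
  have hPU : princUnits q L ≤ intUnits q L := Fermat.Agent.S55.helper26.princUnits_le_intUnits L q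
  constructor
  · intro x hx hfix
    obtain ⟨y, hy, hxy⟩ := hRES.1 x hx hfix
    have hfix' : ∀ τ : Gal(L/K), τ • (x / normG Gal(L/K) (SemiLoc q L)ˣ y) =
        x / normG Gal(L/K) (SemiLoc q L)ˣ y := by
      intro τ
      rw [smul_div', hfix τ, smul_normG]
    obtain ⟨z, hz, hzN⟩ := hLAT2.1 _ hxy hfix'
    refine ⟨y * z, mul_mem hy (hPU hz), ?_⟩
    rw [map_mul, hzN, mul_div_cancel]
  · intro x hx hN
    obtain ⟨y, hy, hxy⟩ := hRES.2 x hx hN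
    have hN' : normG Gal(L/K) (SemiLoc q L)ˣ (x / (σ • y / y)) = 1 := by
      rw [map_div, hN, ← deltaHom_apply, normG_deltaHom, div_one]
    obtain ⟨z, hz, hzσ⟩ := hLAT2.2 _ hxy hN'
    refine ⟨y * z, mul_mem hy (hPU hz), ?_⟩
    rw [smul_mul', mul_div_mul_comm, hzσ, mul_div_cancel]

/-- **INEQ1 from LAT-1, LAT-2 and RES.** -/
theorem ineq1_of_LAT_RES (p : ℕ) (hp : p.Prime) (hp2 : p ≠ 2) (hdeg : Module.finrank K L = p)
    (σ : Gal(L/K)) (hσ : σ ≠ 1)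
    (hLAT1 : ∀ q : Nat.Primes, ∃ V : Subgroup (SemiLoc (q : ℕ) L)ˣ, V ≤ intUnits (q : ℕ) L ∧
      (∀ (τ : Gal(L/K)) (x : (SemiLoc (q : ℕ) L)ˣ), x ∈ V → τ • x ∈ V) ∧
      V.relIndex (intUnits (q : ℕ) L) ≠ 0 ∧
      (∀ x ∈ V, (∀ τ : Gal(L/K), τ • x = x) →
        ∃ y ∈ V, normG Gal(L/K) (SemiLoc (q : ℕ) L)ˣ y = x) ∧
      (∀ x ∈ V, normG Gal(L/K) (SemiLoc (q : ℕ) L)ˣ x = 1 → ∃ y ∈ V, σ • y / y = x))
    (hLAT2 : ∃ T : Finset Nat.Primes, ∀ q : Nat.Primes, q ∉ T →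
      (∀ x ∈ princUnits (q : ℕ) L, (∀ τ : Gal(L/K), τ • x = x) →
        ∃ y ∈ princUnits (q : ℕ) L, normG Gal(L/K) (SemiLoc (q : ℕ) L)ˣ y = x) ∧
      (∀ x ∈ princUnits (q : ℕ) L, normG Gal(L/K) (SemiLoc (q : ℕ) L)ˣ x = 1 →
        ∃ y ∈ princUnits (q : ℕ) L, σ • y / y = x))
    (hRES : ∃ T : Finset Nat.Primes, ∀ q : Nat.Primes, q ∉ T →
      (∀ x ∈ intUnits (q : ℕ) L, (∀ τ : Gal(L/K), τ • x = x) →
        ∃ y ∈ intUnits (q : ℕ) L,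
          x / normG Gal(L/K) (SemiLoc (q : ℕ) L)ˣ y ∈ princUnits (q : ℕ) L) ∧
      (∀ x ∈ intUnits (q : ℕ) L, normG Gal(L/K) (SemiLoc (q : ℕ) L)ˣ x = 1 →
        ∃ y ∈ intUnits (q : ℕ) L, x / (σ • y / y) ∈ princUnits (q : ℕ) L)) :
    hMinus (IdeleClass L) σ ≠ 0 ∧
      hZero Gal(L/K) (IdeleClass L) = p * hMinus (IdeleClass L) σ := by
  classical
  have : Fact p.Prime := ⟨hp⟩
  have hσgen : ∀ τ : Gal(L/K), τ ∈ Subgroup.zpowers σ := by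
    intro τ
    rw [Fermat.Agent.S14.helper44.zpowers_eq_top_of_ne_one hdeg hσ]
    exact Subgroup.mem_top τ
  obtain ⟨T1, hT1⟩ := hLAT2
  obtain ⟨T2, hT2⟩ := hRES
  refine ineq1_of_LAT_G3a K L p hp hp2 hdeg σ hσ
    (fun q => intUnits_herbrand_of_LAT1 K L (q : ℕ) σ hσgen (hLAT1 q)) ⟨T1 ∪ T2, fun q hq => ?_⟩
  rw [Finset.mem_union, not_or] at hq
  exact intUnits_trivial_of_LAT2_RES K L (q : ℕ) σ (hT1 q hq.1) (hT2 q hq.2)

end Fermat.Agent.S55.helper21
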