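import Fermat.Agent.S55.helper59_BDefs3

/-!
# S55 / B-AR-SHA-LOC (helper21, task 553): the cochain algebra

Abstract setting: groups `G → G₀` (`res`), commutative groups `M₀ → M` (`ι`) with compatible
actions, `ζ₀ ∈ M₀` with `ζ₀ ^ p = 1` and `ι ζ₀` fixed by `G`, a character
`x₀ : G₀ → ℤ/p`, `u₀ : G₀ → M₀`, `A ∈ M₀`, `B ∈ M` with `B ^ p = ι A` and
`σ B = ζ ^ γ(σ) · ι (u₀ (res σ)) · B`.

* `shaW₀` : the explicit 2-cochain of `G₀` with values in `M₀`;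
* `shaY` : the 1-cochain `σ ↦ B ^ x̃(σ) · ζ ^ (x(σ) γ(σ))` of `G`;
* `sha_key` : `ζ ^ ξ(σ,τ) = (dY)(σ,τ) · ι (W₀ (res σ, res τ))` for the cochain
  `ξ = bockCochain res α₀ x₀ γ`.
-/

set_option autoImplicit false
set_option linter.unusedSectionVars false

namespace Fermat.Agent.S55.helper21

open Fermat.Agent.S55 Fermat.Agent.S55.helper13 Fermat.Agent.S55.helper59

section Alg

/-- an identity in a commutative group, additive form -/
theorem sha_add_identity {A : Type*} [AddCommGroup A] (t1 t2 t3 t4 t5 t6 w b1 b2 b3 c : A)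
    (hB : b2 + b1 = b3 + c) :
    t1 + t2 - t3 + t4 + t5 + t6 =
      (t1 + w + b2 + t2) - (b3 + t3) + (b1 + t4) + (t5 + t6 - w - c) := by
  have hc : c = b2 + b1 - b3 := by rw [hB]; abel
  rw [hc]; abel

/-- the same identity in multiplicative form -/
theorem sha_mul_identity {M : Type*} [CommGroup M] (t1 t2 t3 t4 t5 t6 w b1 b2 b3 c : M)
    (hB : b2 * b1 = b3 * c) :
    t1 * t2 / t3 * t4 * t5 * t6 =
      (t1 * w * b2 * t2) / (b3 * t3) * (b1 * t4) * (t5 * t6 / w / c) :=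
  sha_add_identity (A := Additive M) (Additive.ofMul t1) (Additive.ofMul t2) (Additive.ofMul t3)
    (Additive.ofMul t4) (Additive.ofMul t5) (Additive.ofMul t6) (Additive.ofMul w)
    (Additive.ofMul b1) (Additive.ofMul b2) (Additive.ofMul b3) (Additive.ofMul c) hB

theorem sha_add_identity₂ {A : Type*} [AddCommGroup A] (e1 e2 e3 vs svt vst : A)
    (h : e3 + vst = e2 + svt + (e1 + vs)) : svt + vs - vst = e3 - e2 - e1 := by
  have h3 : e3 = e2 + svt + (e1 + vs) - vst := eq_sub_of_add_eq h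
  rw [h3]; abel

theorem sha_mul_identity₂ {M : Type*} [CommGroup M] (e1 e2 e3 vs svt vst : M)
    (h : e3 * vst = e2 * svt * (e1 * vs)) : svt * vs / vst = e3 / e2 / e1 :=
  sha_add_identity₂ (A := Additive M) (Additive.ofMul e1) (Additive.ofMul e2)
    (Additive.ofMul e3) (Additive.ofMul vs) (Additive.ofMul svt) (Additive.ofMul vst) h

variable {G G₀ M M₀ : Type} [Group G] [Group G₀] [CommGroup M] [CommGroup M₀]
  [MulDistribMulAction G M] [MulDistribMulAction G₀ M₀]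
  (p : ℕ) [NeZero p]

/-- the standard lift `x̃ : G₀ → {0, …, p-1}` of a character -/
def xlift (x₀ : G₀ →* Multiplicative (ZMod p)) (s : G₀) : ℕ :=
  (Multiplicative.toAdd (x₀ s)).val

lemma xlift_mul (x₀ : G₀ →* Multiplicative (ZMod p)) (s t : G₀) :
    xlift p x₀ (s * t) = (xlift p x₀ s + xlift p x₀ t) % p := by
  unfold xlift
  rw [map_mul, toAdd_mul, ZMod.val_add]

lemma xlift_one (x₀ : G₀ →* Multiplicative (ZMod p)) : xlift p x₀ 1 = 0 := by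
  unfold xlift
  rw [map_one, toAdd_one, ZMod.val_zero]

lemma xlift_lt (x₀ : G₀ →* Multiplicative (ZMod p)) (s : G₀) : xlift p x₀ s < p :=
  ZMod.val_lt _

/-- the explicit 2-cochain `W₀` of `G₀` with values in `M₀` -/
def shaW₀ (ζ₀ : M₀) (x₀ : G₀ →* Multiplicative (ZMod p)) (α₀ : G₀ × G₀ → ZMod p)
    (u₀ : G₀ → M₀) (A : M₀) : G₀ × G₀ → M₀ :=
  fun g => ζ₀ ^ (α₀ g).val *
    (g.1 • u₀ g.2 * u₀ g.1 / u₀ (g.1 * g.2)) ^ xlift p x₀ (g.1 * g.2) /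
      (u₀ g.1) ^ xlift p x₀ g.2 / A ^ ((xlift p x₀ g.1 + xlift p x₀ g.2) / p)

/-- the 1-cochain `Y` of `G` with values in `M` -/
def shaY (ζ : M) (res : G →* G₀) (x₀ : G₀ →* Multiplicative (ZMod p)) (B : M)
    (γ : G → ZMod p) : G → M :=
  fun σ => B ^ xlift p x₀ (res σ) * ζ ^ (Multiplicative.toAdd (x₀ (res σ)) * γ σ).val

lemma pow_val_mul {ζ : M} (hζ : ζ ^ p = 1) (a b : ZMod p) :
    (ζ ^ b.val) ^ a.val = ζ ^ (a * b).val := by
  rw [ZMod.val_mul, ← pow_mul, mul_comm b.val a.val]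
  conv_lhs => rw [← Nat.div_add_mod (a.val * b.val) p, pow_add, pow_mul, hζ, one_pow, one_mul]

/-- the key identity with all data as atoms -/
theorem sha_key_aux (ζ : M) (hζ : ζ ^ p = 1) (xs xt gs gt gst α : ZMod p)
    (vs svt vst B A' : M) (hB : B ^ p = A')
    (hD : ζ ^ gst.val * vst = ζ ^ gt.val * svt * (ζ ^ gs.val * vs)) :
    ζ ^ (α - xs * gt).val =
      ((ζ ^ gs.val * vs * B) ^ xt.val * ζ ^ (xt * gt).val) /
        (B ^ (xs + xt).val * ζ ^ ((xs + xt) * gst).val) * (B ^ xs.val * ζ ^ (xs * gs).val) *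
      (ζ ^ α.val * (svt * vs / vst) ^ (xs + xt).val / vs ^ xt.val /
        A' ^ ((xs.val + xt.val) / p)) := by
  have hιD : svt * vs / vst = ζ ^ (gst - gt - gs).val := by
    rw [pow_val_sub p ζ hζ, pow_val_sub p ζ hζ]
    exact sha_mul_identity₂ _ _ _ _ _ _ hD
  have hBrel : B ^ xt.val * B ^ xs.val = B ^ (xs + xt).val * A' ^ ((xs.val + xt.val) / p) := by
    rw [ZMod.val_add, ← hB, ← pow_mul, ← pow_add, ← pow_add, Nat.mod_add_div, add_comm]
  have hE : ζ ^ (xt * gs).val * ζ ^ (xt * gt).val / ζ ^ ((xs + xt) * gst).val *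
      ζ ^ (xs * gs).val * ζ ^ α.val * ζ ^ ((xs + xt) * (gst - gt - gs)).val =
      ζ ^ (α - xs * gt).val := by
    rw [← pow_val_add p ζ hζ, ← pow_val_sub p ζ hζ, ← pow_val_add p ζ hζ,
      ← pow_val_add p ζ hζ, ← pow_val_add p ζ hζ]
    congr 2
    ring
  rw [hιD, mul_pow, mul_pow, pow_val_mul p hζ, pow_val_mul p hζ, ← hE]
  exact sha_mul_identity _ _ _ _ _ _ _ _ _ _ _ hBrel

/-- **The key identity.** -/
theorem sha_key (res : G →* G₀) (ι : M₀ →* M) (hι : ∀ (σ : G) (m : M₀), ι (res σ • m) = σ • ι m)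
    (ζ₀ : M₀) (hζ₀ : ζ₀ ^ p = 1) (hfix : ∀ σ : G, σ • ι ζ₀ = ι ζ₀)
    (x₀ : G₀ →* Multiplicative (ZMod p)) (α₀ : G₀ × G₀ → ZMod p) (u₀ : G₀ → M₀) (A : M₀)
    (B : M) (hB : B ^ p = ι A) (γ : G → ZMod p)
    (hγ : ∀ σ : G, σ • B = (ι ζ₀) ^ (γ σ).val * ι (u₀ (res σ)) * B) (σ τ : G) :
    (ι ζ₀) ^ (bockCochain (⇑res) α₀ (fun s => Multiplicative.toAdd (x₀ s)) γ (σ, τ)).val =
      (σ • shaY p (ι ζ₀) res x₀ B γ τ / shaY p (ι ζ₀) res x₀ B γ (σ * τ) *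
        shaY p (ι ζ₀) res x₀ B γ σ) * ι (shaW₀ p ζ₀ x₀ α₀ u₀ A (res σ, res τ)) := by
  have hζ : (ι ζ₀) ^ p = 1 := by rw [← map_pow, hζ₀, map_one]
  have hfixE : ∀ (ρ : G) (c : ZMod p), ρ • ((ι ζ₀) ^ c.val) = (ι ζ₀) ^ c.val := fun ρ c => by
    rw [smul_pow', hfix]
  -- Step 1: the coboundary of `u₀`
  have hD : (ι ζ₀) ^ (γ (σ * τ)).val * ι (u₀ (res σ * res τ)) =
      (ι ζ₀) ^ (γ τ).val * σ • ι (u₀ (res τ)) * ((ι ζ₀) ^ (γ σ).val * ι (u₀ (res σ))) := by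
    have h1 := hγ (σ * τ)
    rw [mul_smul, hγ τ, smul_mul', smul_mul', hfixE, hγ σ, map_mul] at h1
    have h2 : (ι ζ₀) ^ (γ τ).val * σ • ι (u₀ (res τ)) *
        ((ι ζ₀) ^ (γ σ).val * ι (u₀ (res σ))) * B =
        (ι ζ₀) ^ (γ (σ * τ)).val * ι (u₀ (res σ * res τ)) * B := by
      rw [← h1]; simp only [mul_assoc]
    exact (mul_right_cancel h2).symm
  have key := sha_key_aux p (ι ζ₀) hζ (Multiplicative.toAdd (x₀ (res σ)))
    (Multiplicative.toAdd (x₀ (res τ))) (γ σ) (γ τ) (γ (σ * τ)) (α₀ (res σ, res τ))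
    (ι (u₀ (res σ))) (σ • ι (u₀ (res τ))) (ι (u₀ (res σ * res τ))) B (ι A) hB hD
  have hL : bockCochain (⇑res) α₀ (fun s => Multiplicative.toAdd (x₀ s)) γ (σ, τ) =
      α₀ (res σ, res τ) - Multiplicative.toAdd (x₀ (res σ)) * γ τ := rfl
  rw [hL, key]
  unfold shaY shaW₀ xlift
  simp only [map_div, map_mul, map_pow, hι, smul_mul', smul_pow', hfix, hγ σ, toAdd_mul]

end Alg

end Fermat.Agent.S55.helper21

namespace Fermat.Agent.S55.helper21

open Fermat.Agent.S55 Fermat.Agent.S55.helper13 Fermat.Agent.S55.helper59 groupCohomology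

section Cocycle

variable {G G₀ M M₀ : Type} [Group G] [Group G₀] [CommGroup M] [CommGroup M₀]
  [MulDistribMulAction G M] [MulDistribMulAction G₀ M₀]
  (p : ℕ) [NeZero p]

/-- `W₀` is a 2-cocycle of `G₀` as soon as `ξ` is a 2-cocycle of `G`. -/
theorem isMulCocycle₂_shaW₀ (res : G →* G₀) (hres : Function.Surjective res) (ι : M₀ →* M)
    (hιinj : Function.Injective ι) (hι : ∀ (σ : G) (m : M₀), ι (res σ • m) = σ • ι m)
    (ζ₀ : M₀) (hζ₀ : ζ₀ ^ p = 1) (hfix : ∀ σ : G, σ • ι ζ₀ = ι ζ₀)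
    (x₀ : G₀ →* Multiplicative (ZMod p)) (α₀ : G₀ × G₀ → ZMod p) (u₀ : G₀ → M₀) (A : M₀)
    (B : M) (hB : B ^ p = ι A) (γ : G → ZMod p)
    (hγ : ∀ σ : G, σ • B = (ι ζ₀) ^ (γ σ).val * ι (u₀ (res σ)) * B)
    (hξ : ∀ g h j : G,
      bockCochain (⇑res) α₀ (fun s => Multiplicative.toAdd (x₀ s)) γ (g * h, j) +
        bockCochain (⇑res) α₀ (fun s => Multiplicative.toAdd (x₀ s)) γ (g, h) =
      bockCochain (⇑res) α₀ (fun s => Multiplicative.toAdd (x₀ s)) γ (h, j) +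
        bockCochain (⇑res) α₀ (fun s => Multiplicative.toAdd (x₀ s)) γ (g, h * j)) :
    IsMulCocycle₂ (shaW₀ p ζ₀ x₀ α₀ u₀ A) := by
  have hζ : (ι ζ₀) ^ p = 1 := by rw [← map_pow, hζ₀, map_one]
  set ξ := bockCochain (⇑res) α₀ (fun s => Multiplicative.toAdd (x₀ s)) γ with hξdef
  set Y := shaY p (ι ζ₀) res x₀ B γ with hY
  set W₀ := shaW₀ p ζ₀ x₀ α₀ u₀ A with hW₀
  have hf : IsMulCocycle₂ (helper8.zetaCochain p (ι ζ₀) ξ) :=
    isMulCocycle₂_zetaCochain p (ι ζ₀) hζ hfix ξ hξ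
  have hdY : IsMulCocycle₂ (fun g : G × G => g.1 • Y g.2 / Y (g.1 * g.2) * Y g.1) :=
    isMulCocycle₂_of_isMulCoboundary₂ ⟨Y, fun _ _ => rfl⟩
  have hkey : ∀ σ τ : G, ι (W₀ (res σ, res τ)) =
      helper8.zetaCochain p (ι ζ₀) ξ (σ, τ) / (σ • Y τ / Y (σ * τ) * Y σ) := by
    intro σ τ
    rw [eq_div_iff_mul_eq', mul_comm]
    exact (sha_key p res ι hι ζ₀ hζ₀ hfix x₀ α₀ u₀ A B hB γ hγ σ τ).symm
  intro s t r
  obtain ⟨σ, rfl⟩ := hres s
  obtain ⟨τ, rfl⟩ := hres t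
  obtain ⟨ρ, rfl⟩ := hres r
  apply hιinj
  rw [map_mul, map_mul, hι, ← map_mul res, ← map_mul res, hkey, hkey, hkey, hkey, smul_div',
    div_mul_div_comm, div_mul_div_comm]
  have h1 := hf σ τ ρ
  have h2 := hdY σ τ ρ
  simp only at h2
  rw [h1, h2]

end Cocycle

section Telescoping

/-- the telescoping sum of the carries -/
theorem sum_carry {G₀ : Type} [Group G₀] (p : ℕ) [NeZero p]
    (x₀ : G₀ →* Multiplicative (ZMod p)) (φ : G₀) (n : ℕ) (hn : φ ^ n = 1) :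
    p * ∑ i ∈ Finset.range n, (xlift p x₀ (φ ^ i) + xlift p x₀ φ) / p = n * xlift p x₀ φ := by
  have key : ∀ m : ℕ, p * ∑ i ∈ Finset.range m, (xlift p x₀ (φ ^ i) + xlift p x₀ φ) / p +
      xlift p x₀ (φ ^ m) = m * xlift p x₀ φ := by
    intro m
    induction m with
    | zero => simp [xlift_one]
    | succ m ih =>
      rw [Finset.sum_range_succ, mul_add, pow_succ, xlift_mul, add_assoc, Nat.div_add_mod,
        ← add_assoc, ih]
      ring
  have := key n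
  rwa [hn, xlift_one, add_zero] at this

end Telescoping

end Fermat.Agent.S55.helper21
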