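import Fermat.Agent.S55.helper73_GlobDefs2
import Fermat.Agent.S55.helper42_HerbrandMul
import Fermat.Agent.S14.helper44_UnitsHerbrand

/-!
# S55 / GLOB-ASM (helper21, task 349), part 1: the Herbrand numbers of the global units

For `L/K` cyclic of odd prime degree `p` with generator `σ`, the ambient Herbrand numbers of
`globalUnits L ≤ Lˣ` satisfy `rel1 = p * rel0 ≠ 0` (transport of `helper44.unit_herbrand`).
-/

set_option autoImplicit false

open scoped TensorProduct NumberField

namespace Fermat.Agent.S55.helper21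

open Fermat.Agent.S55.helper73 Fermat.Agent.S55.helper42 Fermat.Agent.S14.helper44

variable (K L : Type*) [Field K] [NumberField K] [Field L] [NumberField L] [Algebra K L]

/-- The inclusion `(𝓞 L)ˣ → Lˣ`. -/
noncomputable def unitToField : (𝓞 L)ˣ →* Lˣ :=
  Units.map (algebraMap (𝓞 L) L : 𝓞 L →* L)

omit [NumberField L] in
@[simp] lemma coe_unitToField (u : (𝓞 L)ˣ) :
    ((unitToField L u : Lˣ) : L) = ((u : 𝓞 L) : L) := rfl

lemma unitToField_injective : Function.Injective (unitToField L) := by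
  intro u v h
  apply units_ext_coe
  have := congrArg (fun x : Lˣ => (x : L)) h
  simpa using this

omit [NumberField L] in
lemma range_unitToField : (unitToField L).range = globalUnits L := by
  ext x
  constructor
  · rintro ⟨u, rfl⟩
    refine ⟨?_, ?_⟩
    · exact NumberField.RingOfIntegers.isIntegral_coe (u : 𝓞 L)
    · have : ((unitToField L u)⁻¹ : Lˣ) = unitToField L u⁻¹ := (map_inv _ _).symm
      rw [this]
      exact NumberField.RingOfIntegers.isIntegral_coe ((u⁻¹ : (𝓞 L)ˣ) : 𝓞 L)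
  · rintro ⟨h1, h2⟩
    let a : 𝓞 L := ⟨(x : L), h1⟩
    let b : 𝓞 L := ⟨((x⁻¹ : Lˣ) : L), h2⟩
    have hab : a * b = 1 := by
      apply NumberField.RingOfIntegers.ext
      show (x : L) * ((x⁻¹ : Lˣ) : L) = 1
      exact Units.mul_inv x
    have hba : b * a = 1 := by rw [mul_comm]; exact hab
    refine ⟨⟨a, b, hab, hba⟩, ?_⟩
    apply Units.ext
    rfl

variable {K L}

omit [NumberField K] [NumberField L] in
lemma unitToField_unitAut (σ : L ≃ₐ[K] L) (u : (𝓞 L)ˣ) :
    unitToField L (unitAut K L σ u) = σ • unitToField L u := by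
  apply Units.ext
  rfl

variable [IsGalois K L]

lemma normG_unitToField (u : (𝓞 L)ˣ) :
    normG Gal(L/K) Lˣ (unitToField L u) = unitToField L (unitIncl K L (unitNorm K L u)) := by
  apply Units.ext
  rw [normG_apply, coe_unitToField, unitIncl_coe, unitNorm_coe,
    Algebra.norm_eq_prod_automorphisms, Units.coe_prod]
  rfl

omit [NumberField K] [NumberField L] [IsGalois K L] in
lemma deltaHom_unitToField (σ : Gal(L/K)) (u : (𝓞 L)ˣ) :
    deltaHom Lˣ σ (unitToField L u) = unitToField L (unitAut K L σ u / u) := by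
  rw [deltaHom_apply, map_div, unitToField_unitAut]

variable (K L)

lemma map_normG_globalUnits :
    (globalUnits L).map (normG Gal(L/K) Lˣ) =
      (((unitNorm K L).range.map (unitIncl K L)).map (unitToField L)) := by
  rw [← range_unitToField]
  ext x
  constructor
  · rintro ⟨y, ⟨u, rfl⟩, rfl⟩
    exact ⟨_, ⟨_, ⟨u, rfl⟩, rfl⟩, (normG_unitToField u).symm⟩
  · rintro ⟨y, ⟨v, ⟨u, rfl⟩, rfl⟩, rfl⟩
    exact ⟨_, ⟨u, rfl⟩, normG_unitToField u⟩

lemma map_deltaHom_globalUnits (σ : Gal(L/K)) :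
    (globalUnits L).map (deltaHom Lˣ σ) = (unitDel σ).range.map (unitToField L) := by
  rw [← range_unitToField]
  ext x
  constructor
  · rintro ⟨y, ⟨u, rfl⟩, rfl⟩
    refine ⟨_, (mem_range_unitDel_iff' σ _).2 ⟨u, rfl⟩, (deltaHom_unitToField σ u).symm⟩
  · rintro ⟨y, hy, rfl⟩
    obtain ⟨u, rfl⟩ := (mem_range_unitDel_iff' σ _).1 hy
    exact ⟨_, ⟨u, rfl⟩, deltaHom_unitToField σ u⟩

lemma globalUnits_inf_ker_normG :
    globalUnits L ⊓ (normG Gal(L/K) Lˣ).ker = (unitNorm K L).ker.map (unitToField L) := by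
  rw [← range_unitToField]
  ext x
  constructor
  · rintro ⟨⟨u, rfl⟩, hx⟩
    have hx' : normG Gal(L/K) Lˣ (unitToField L u) = 1 := hx
    refine ⟨u, ?_, rfl⟩
    show unitNorm K L u = 1
    rw [normG_unitToField] at hx'
    apply unitIncl_injective (K := K) (L := L)
    apply unitToField_injective L
    rw [hx', map_one, map_one]
  · rintro ⟨u, hu, rfl⟩
    have hu' : unitNorm K L u = 1 := hu
    refine ⟨⟨u, rfl⟩, ?_⟩
    show normG Gal(L/K) Lˣ (unitToField L u) = 1
    rw [normG_unitToField, hu', map_one, map_one]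

variable {p : ℕ} [hp : Fact p.Prime]

lemma globalUnits_inf_fixedSub (hdeg : Module.finrank K L = p) {σ : Gal(L/K)} (hσ : σ ≠ 1) :
    globalUnits L ⊓ fixedSub Gal(L/K) Lˣ = (unitIncl K L).range.map (unitToField L) := by
  rw [← range_unitToField]
  ext x
  constructor
  · rintro ⟨⟨u, rfl⟩, hx⟩
    have hu : unitAut K L σ u = u := by
      apply unitToField_injective L
      rw [unitToField_unitAut]
      exact hx σ
    obtain ⟨v, hv⟩ := exists_unitIncl_eq_of_fixed hdeg hσ u hu
    exact ⟨u, ⟨v, hv⟩, rfl⟩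
  · rintro ⟨u, ⟨v, rfl⟩, rfl⟩
    refine ⟨⟨_, rfl⟩, fun τ => ?_⟩
    rw [← unitToField_unitAut, unitAut_unitIncl]

/-- **Herbrand numbers of the global units** (ambient form in `Lˣ`). -/
theorem globalUnits_rel (hdeg : Module.finrank K L = p) (hp2 : p ≠ 2) {σ : Gal(L/K)}
    (hσ : σ ≠ 1) :
    rel0 Gal(L/K) Lˣ (globalUnits L) ≠ 0 ∧
      rel1 Lˣ σ (globalUnits L) = p * rel0 Gal(L/K) Lˣ (globalUnits L) := by
  have e0 : rel0 Gal(L/K) Lˣ (globalUnits L) = (unitNorm K L).range.index := by
    unfold rel0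
    rw [map_normG_globalUnits, globalUnits_inf_fixedSub K L hdeg hσ,
      Subgroup.relIndex_map_map_of_injective _ _ (unitToField_injective L),
      relIndex_map_unitIncl_range]
  have e1 : rel1 Lˣ σ (globalUnits L) = (unitDel σ).range.relIndex (unitNorm K L).ker := by
    unfold rel1
    rw [map_deltaHom_globalUnits, globalUnits_inf_ker_normG,
      Subgroup.relIndex_map_map_of_injective _ _ (unitToField_injective L)]
  rw [e0, e1]
  exact ⟨(unit_herbrand_ne_zero hdeg hσ).1, unit_herbrand hdeg hp2 hσ⟩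

end Fermat.Agent.S55.helper21
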