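import Fermat.Agent.S55.helper24_Dict

/-!
# S55 / GLOB / G7-GEN (helper24): generation of the idele group away from a finite set

`exists_generation` (statement verbatim from `helper89_G7Plan.lean`, section `Gen`): there is a
finite set `S₁` of rational primes such that every idele is, at all primes outside `S₁`, a
principal idele times an integral unit.  Proof: finiteness of the class group gives uniformizers
with support in a fixed finite set of primes.
-/

set_option autoImplicit false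

open scoped TensorProduct NumberField nonZeroDivisors
open IsDedekindDomain

namespace Fermat.Agent.S55.helper24

open Fermat.Agent.S55.helper73 Fermat.Agent.S55.helper89

section Gen

variable (K : Type*) [Field K] [NumberField K]

/-- There is a natural number `N ≠ 0` such that every ideal class contains an integral ideal
containing `N`. -/
lemma exists_classRep_bound :
    ∃ N : ℕ, N ≠ 0 ∧ ∀ c : ClassGroup (𝓞 K), ∃ I : (Ideal (𝓞 K))⁰,
      ClassGroup.mk0 I = c ∧ (N : 𝓞 K) ∈ (I : Ideal (𝓞 K)) := by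
  classical
  choose I hI using (ClassGroup.mk0_surjective (R := 𝓞 K))
  refine ⟨∏ c : ClassGroup (𝓞 K), Ideal.absNorm (I c : Ideal (𝓞 K)), ?_,
    fun c => ⟨I c, hI c, ?_⟩⟩
  · exact Finset.prod_ne_zero_iff.mpr fun c _ => Ideal.absNorm_ne_zero_of_nonZeroDivisors (I c)
  · have h1 : (Ideal.absNorm (I c : Ideal (𝓞 K)) : 𝓞 K) ∈ (I c : Ideal (𝓞 K)) :=
      Ideal.absNorm_mem _
    have h2 : Ideal.absNorm (I c : Ideal (𝓞 K)) ∣
        ∏ c : ClassGroup (𝓞 K), Ideal.absNorm (I c : Ideal (𝓞 K)) :=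
      Finset.dvd_prod_of_mem _ (Finset.mem_univ c)
    obtain ⟨m, hm⟩ := h2
    rw [hm, Nat.cast_mul]
    exact Ideal.mul_mem_right _ _ h1

/-- The valuation of a nonzero integer `π₀` at `P`, as an element of `Multiplicative ℤ`, is
`ofAdd (-1)` if `P ∣ (π₀)` and `P² ∤ (π₀)`. -/
lemma valuationOfNeZero_eq_ofAdd_neg_one (P : HeightOneSpectrum (𝓞 K)) (π : Kˣ) (π₀ : 𝓞 K)
    (hπ : (π : K) = algebraMap (𝓞 K) K π₀)
    (h1 : P.asIdeal ^ 1 ∣ Ideal.span {π₀}) (h2 : ¬ P.asIdeal ^ 2 ∣ Ideal.span {π₀}) :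
    P.valuationOfNeZero π = Multiplicative.ofAdd (-1 : ℤ) := by
  have hv : ((P.valuationOfNeZero π : Multiplicative ℤ) : WithZero (Multiplicative ℤ))
      = P.intValuation π₀ := by
    rw [HeightOneSpectrum.valuationOfNeZero_eq, hπ, HeightOneSpectrum.valuation_of_algebraMap]
  have h1' := (P.intValuation_le_pow_iff_dvd π₀ 1).mpr h1
  have h2' := fun h => h2 ((P.intValuation_le_pow_iff_dvd π₀ 2).mp h)
  rw [← hv] at h1' h2'
  obtain ⟨m, hm⟩ : ∃ m : ℤ, P.valuationOfNeZero π = Multiplicative.ofAdd m :=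
    ⟨Multiplicative.toAdd (P.valuationOfNeZero π), rfl⟩
  rw [hm] at h1' h2' ⊢
  rw [← WithZero.exp_eq_coe_ofAdd, WithZero.exp_le_exp] at h1' h2'
  have h3 : ¬ m ≤ -((2 : ℕ) : ℤ) := h2'
  have : m = -1 := by push_cast at h1' h3; omega
  rw [this]

/-- The valuation of an integer outside `P` is trivial. -/
lemma valuationOfNeZero_eq_one_of_notMem (P : HeightOneSpectrum (𝓞 K)) (π : Kˣ) (π₀ : 𝓞 K)
    (hπ : (π : K) = algebraMap (𝓞 K) K π₀) (h : π₀ ∉ P.asIdeal) :
    P.valuationOfNeZero π = 1 := by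
  have hv : ((P.valuationOfNeZero π : Multiplicative ℤ) : WithZero (Multiplicative ℤ)) = 1 := by
    rw [HeightOneSpectrum.valuationOfNeZero_eq, hπ]
    have h1 : P.valuation K (algebraMap (𝓞 K) K π₀) ≤ 1 := P.valuation_le_one _
    have h2 : ¬ P.valuation K (algebraMap (𝓞 K) K π₀) < 1 := fun h' =>
      h ((P.valuation_lt_one_iff_mem _).mp h')
    exact le_antisymm h1 (not_lt.mp h2)
  exact_mod_cast hv

/-- **Uniformizers with controlled support.**  There is `N ≠ 0` such that every prime `P` not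
containing `N` has a uniformizer which is a unit at all other primes not containing `N`. -/
lemma exists_uniformizer_away :
    ∃ N : ℕ, N ≠ 0 ∧ ∀ P : HeightOneSpectrum (𝓞 K), (N : 𝓞 K) ∉ P.asIdeal →
      ∃ π : Kˣ, P.valuationOfNeZero π = Multiplicative.ofAdd (-1 : ℤ) ∧
        ∀ P' : HeightOneSpectrum (𝓞 K), (N : 𝓞 K) ∉ P'.asIdeal → P' ≠ P →
          P'.valuationOfNeZero π = 1 := by
  obtain ⟨N, hN0, hN⟩ := exists_classRep_bound K
  refine ⟨N, hN0, fun P hP => ?_⟩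
  have hPmem : P.asIdeal ∈ (Ideal (𝓞 K))⁰ := mem_nonZeroDivisors_of_ne_zero P.ne_bot
  obtain ⟨I, hI, hNI⟩ := hN (ClassGroup.mk0 ⟨P.asIdeal, hPmem⟩)⁻¹
  have hprod : ClassGroup.mk0 (⟨P.asIdeal, hPmem⟩ * I) = 1 := by
    rw [map_mul, hI, mul_inv_cancel]
  have hprin : (P.asIdeal * (I : Ideal (𝓞 K))).IsPrincipal :=
    (ClassGroup.mk0_eq_one_iff (I := P.asIdeal * (I : Ideal (𝓞 K))) (mul_mem hPmem I.2)).mp hprod
  obtain ⟨π₀, hπ₀⟩ := hprin.principal
  rw [Ideal.submodule_span_eq] at hπ₀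
  have hI0 : (I : Ideal (𝓞 K)) ≠ ⊥ := nonZeroDivisors.coe_ne_zero I
  have hπ₀0 : π₀ ≠ 0 := by
    rintro rfl
    have : P.asIdeal * (I : Ideal (𝓞 K)) = ⊥ := by rw [hπ₀]; simp
    exact (mul_ne_zero P.ne_bot hI0) this
  have hIP : ∀ P' : HeightOneSpectrum (𝓞 K), (N : 𝓞 K) ∉ P'.asIdeal →
      ¬ (I : Ideal (𝓞 K)) ≤ P'.asIdeal := fun P' hP' h => hP' (h hNI)
  refine ⟨Units.mk0 (algebraMap (𝓞 K) K π₀) (by simpa using hπ₀0), ?_, fun P' hP' hne => ?_⟩
  · refine valuationOfNeZero_eq_ofAdd_neg_one K P _ π₀ rfl ?_ ?_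
    · rw [pow_one, ← hπ₀]
      exact Dvd.intro _ rfl
    · rw [← hπ₀, pow_two]
      intro h
      have h3 : P.asIdeal ∣ (I : Ideal (𝓞 K)) := (mul_dvd_mul_iff_left P.ne_bot).mp h
      exact hIP P hP (Ideal.le_of_dvd h3)
  · refine valuationOfNeZero_eq_one_of_notMem K P' _ π₀ rfl fun hmem => ?_
    have h1 : P.asIdeal * (I : Ideal (𝓞 K)) ≤ P'.asIdeal := by
      rw [hπ₀, Ideal.span_singleton_le_iff_mem]
      exact hmem
    rcases (P'.isPrime.mul_le).mp h1 with h | h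
    · have h2 : P.asIdeal = P'.asIdeal := P.isMaximal.eq_of_le P'.isPrime.ne_top h
      exact hne (HeightOneSpectrum.ext h2.symm)
    · exact hIP P' hP' h

/-- For a rational prime `r` whose primes do not contain `N`, and `a ∈ Kˣ`, there is `b ∈ Kˣ`
with the same valuations as `a` at the primes over `r`, and trivial valuation at all other primes
not containing `N`. -/
lemma exists_same_valuation_over (N : ℕ) (π : HeightOneSpectrum (𝓞 K) → Kˣ)
    (hπ1 : ∀ P : HeightOneSpectrum (𝓞 K), (N : 𝓞 K) ∉ P.asIdeal →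
      P.valuationOfNeZero (π P) = Multiplicative.ofAdd (-1 : ℤ))
    (hπ2 : ∀ P : HeightOneSpectrum (𝓞 K), (N : 𝓞 K) ∉ P.asIdeal →
      ∀ P' : HeightOneSpectrum (𝓞 K), (N : 𝓞 K) ∉ P'.asIdeal → P' ≠ P →
        P'.valuationOfNeZero (π P) = 1)
    (r : ℕ) (hr0 : r ≠ 0)
    (hrN : ∀ P : HeightOneSpectrum (𝓞 K), (r : 𝓞 K) ∈ P.asIdeal → (N : 𝓞 K) ∉ P.asIdeal)
    (a : Kˣ) :
    ∃ b : Kˣ,
      (∀ P : HeightOneSpectrum (𝓞 K), (r : 𝓞 K) ∈ P.asIdeal →
        P.valuationOfNeZero b = P.valuationOfNeZero a) ∧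
      ∀ P : HeightOneSpectrum (𝓞 K), (N : 𝓞 K) ∉ P.asIdeal → (r : 𝓞 K) ∉ P.asIdeal →
        P.valuationOfNeZero b = 1 := by
  classical
  have hfin : {P : HeightOneSpectrum (𝓞 K) | (r : 𝓞 K) ∈ P.asIdeal}.Finite := by
    have h0 : (Ideal.span {(r : 𝓞 K)} : Ideal (𝓞 K)) ≠ 0 := by
      rw [Ne, Ideal.zero_eq_bot, Ideal.span_singleton_eq_bot]
      exact_mod_cast hr0
    refine (Ideal.finite_factors h0).subset fun P hP => ?_
    exact Ideal.dvd_span_singleton.mpr hP
  have hT : ∀ P, P ∈ hfin.toFinset ↔ (r : 𝓞 K) ∈ P.asIdeal := fun P => by simp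
  refine ⟨∏ P ∈ hfin.toFinset, π P ^ (-(Multiplicative.toAdd (P.valuationOfNeZero a))),
    fun P hP => ?_, fun P hPN hPr => ?_⟩
  · rw [map_prod, Finset.prod_eq_single P]
    · rw [map_zpow, hπ1 P (hrN P hP), ← ofAdd_zsmul, smul_eq_mul, mul_neg, neg_mul, neg_neg,
        mul_one, ofAdd_toAdd]
    · intro Q hQ hne
      rw [map_zpow, hπ2 Q (hrN Q ((hT Q).mp hQ)) P (hrN P hP) (Ne.symm hne), one_zpow]
    · intro h
      exact absurd ((hT P).mpr hP) h
  · rw [map_prod]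
    refine Finset.prod_eq_one fun Q hQ => ?_
    have hne : P ≠ Q := by
      rintro rfl
      exact hPr ((hT P).mp hQ)
    rw [map_zpow, hπ2 Q (hrN Q ((hT Q).mp hQ)) P hPN hne, one_zpow]

/-- **Generation** (`helper89_G7Plan`, verbatim): there is a finite set `S₁` of rational primes
such that every idele is, at all primes outside `S₁`, a principal idele times an integral
unit. -/
theorem exists_generation :
    ∃ S₁ : Finset ℕ, ∀ x : Idele K, ∃ a : Kˣ, ∀ r : Nat.Primes, (r : ℕ) ∉ S₁ →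
      (x : IdelePi K) r * (principalPi K a r)⁻¹ ∈ intUnits (r : ℕ) K := by
  classical
  obtain ⟨N, hN0, hN⟩ := exists_uniformizer_away K
  choose! π hπ1 hπ2 using hN
  refine ⟨N.primeFactors, fun x => ?_⟩
  -- local approximants
  have hD1 : ∀ r : Nat.Primes, ∃ a : Kˣ,
      (x : IdelePi K) r * (locUnit (r : ℕ) K a)⁻¹ ∈ intUnits (r : ℕ) K ∧
        ((x : IdelePi K) r ∈ intUnits (r : ℕ) K → a = 1) := by
    intro r
    by_cases h : (x : IdelePi K) r ∈ intUnits (r : ℕ) K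
    · exact ⟨1, by simpa using h, fun _ => rfl⟩
    · obtain ⟨a, ha⟩ := exists_locUnit_mul_mem_intUnits (r : ℕ) K ((x : IdelePi K) r)
      exact ⟨a, ha, fun h' => absurd h' h⟩
  choose f hf1 hf2 using hD1
  have hbad : {r : Nat.Primes | (x : IdelePi K) r ∉ intUnits (r : ℕ) K}.Finite :=
    Filter.eventually_cofinite.mp ((mem_idele K).mp x.2)
  have hrN : ∀ r : Nat.Primes, (r : ℕ) ∉ N.primeFactors →
      ∀ P : HeightOneSpectrum (𝓞 K), (((r : ℕ) : ℕ) : 𝓞 K) ∈ P.asIdeal →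
        (N : 𝓞 K) ∉ P.asIdeal := by
    intro r hr P hP
    have : ¬ (r : ℕ) ∣ N := fun h => hr (Nat.mem_primeFactors.mpr ⟨r.2, h, hN0⟩)
    exact natCast_notMem_of_not_dvd (r : ℕ) K this P hP
  -- global elements with prescribed valuations over one rational prime
  have hG3 : ∀ r : Nat.Primes, ∃ b : Kˣ, (r : ℕ) ∉ N.primeFactors →
      ((∀ P : HeightOneSpectrum (𝓞 K), (((r : ℕ) : ℕ) : 𝓞 K) ∈ P.asIdeal →
          P.valuationOfNeZero b = P.valuationOfNeZero (f r)) ∧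
        ∀ P : HeightOneSpectrum (𝓞 K), (N : 𝓞 K) ∉ P.asIdeal →
          (((r : ℕ) : ℕ) : 𝓞 K) ∉ P.asIdeal → P.valuationOfNeZero b = 1) := by
    intro r
    by_cases hr : (r : ℕ) ∈ N.primeFactors
    · exact ⟨1, fun h => absurd hr h⟩
    · obtain ⟨b, hb⟩ :=
        exists_same_valuation_over K N π hπ1 hπ2 r r.2.ne_zero (hrN r hr) (f r)
      exact ⟨b, fun _ => hb⟩
  choose b hb using hG3
  refine ⟨∏ r ∈ hbad.toFinset.filter (fun r : Nat.Primes => (r : ℕ) ∉ N.primeFactors), b r, fun r hr => ?_⟩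
  set B : Finset Nat.Primes := hbad.toFinset.filter (fun r : Nat.Primes => (r : ℕ) ∉ N.primeFactors) with hB
  rw [principalPi_apply]
  have key : locUnit (r : ℕ) K (f r * (∏ r ∈ B, b r)⁻¹) ∈ intUnits (r : ℕ) K := by
    rw [locUnit_mem_intUnits_iff]
    intro P hP
    rw [← HeightOneSpectrum.valuationOfNeZero_eq]
    have h1 : P.valuationOfNeZero (f r * (∏ r ∈ B, b r)⁻¹) = 1 := by
      rw [map_mul, map_inv, map_prod]
      have hPN := hrN r hr P hP
      have hother : ∀ r' ∈ B, r' ≠ r → P.valuationOfNeZero (b r') = 1 := by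
        intro r' hr' hne
        have hr'N : (r' : ℕ) ∉ N.primeFactors := (Finset.mem_filter.mp hr').2
        refine (hb r' hr'N).2 P hPN ?_
        have hndvd : ¬ (r : ℕ) ∣ (r' : ℕ) := by
          intro h
          exact hne (Subtype.ext ((Nat.prime_dvd_prime_iff_eq r.2 r'.2).mp h).symm)
        exact natCast_notMem_of_not_dvd (r : ℕ) K hndvd P hP
      by_cases hrB : r ∈ B
      · rw [Finset.prod_eq_single r (fun r' hr' hne => hother r' hr' hne)
          (fun h => absurd hrB h), (hb r hr).1 P hP, mul_inv_cancel]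
      · rw [Finset.prod_eq_one (fun r' hr' => hother r' hr' (by rintro rfl; exact hrB hr'))]
        have h2 : (x : IdelePi K) r ∈ intUnits (r : ℕ) K := by
          by_contra h
          exact hrB (Finset.mem_filter.mpr ⟨hbad.mem_toFinset.mpr h, hr⟩)
        rw [hf2 r h2]
        simp
    rw [h1]
    rfl
  have h3 : (x : IdelePi K) r * (locUnit (r : ℕ) K (∏ r ∈ B, b r))⁻¹
      = ((x : IdelePi K) r * (locUnit (r : ℕ) K (f r))⁻¹)
        * locUnit (r : ℕ) K (f r * (∏ r ∈ B, b r)⁻¹) := by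
    rw [map_mul, map_inv, mul_assoc, inv_mul_cancel_left]
  rw [h3]
  exact mul_mem (hf1 r) key

end Gen

end Fermat.Agent.S55.helper24
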