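import Fermat.Agent.S55.helper73_GlobDefs2

/-!
# S55 / GLOB, package CL-4 + CL-5 (helper26)

The image of the unit ideles `∏_q U_q` in the idele class group `C_L = J_L / Lˣ` has finite
index (the quotient is a quotient of the ideal class group of `L`), and the kernel of
`∏_q U_q → C_L` is the group of global units.

The bridging lemma CL-1, the global statement CL-2 and local approximation CL-3 / CL-3' of
`helper73_GlobInterface2` are taken as hypotheses here:

* `unitIdele_index_ne_zero_of` : CL-4 from CL-1 and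
  `hA : ∀ q x, ∃ y : Lˣ, x / principalPi L y q ∈ intUnits q L` (a consequence of CL-3 and CL-3').
* `unitIdele_index_ne_zero_of'` : CL-4 from CL-1, CL-3, CL-3' in their interface shapes.
* `mem_ker_unitIdeleClassHom_iff_of` : CL-5 from CL-2.
-/

set_option autoImplicit false

open scoped TensorProduct NumberField nonZeroDivisors
open IsDedekindDomain HeightOneSpectrum

namespace Fermat.Agent.S55.helper26

open Fermat.Agent.S55.helper73

/-! ## Valuations and counts -/

section Count

variable {R : Type*} [CommRing R] [IsDedekindDomain R] (K : Type*) [Field K] [Algebra R K]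
  [IsFractionRing R K]

open FractionalIdeal in
/-- The adic valuation of a nonzero element in terms of the multiplicity of the prime in the
principal fractional ideal. -/
theorem valuation_eq_exp_neg_count (v : HeightOneSpectrum R) {x : K} (hx : x ≠ 0) :
    v.valuation K x = WithZero.exp (-(count K v (spanSingleton R⁰ x))) := by
  classical
  obtain ⟨n, d, hd, rfl⟩ := IsFractionRing.div_surjective (A := R) x
  have hd0 : d ≠ 0 := nonZeroDivisors.ne_zero hd
  have hn0 : n ≠ 0 := by
    rintro rfl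
    simp at hx
  have hspan : spanSingleton R⁰ (algebraMap R K n / algebraMap R K d) =
      spanSingleton R⁰ ((algebraMap R K) d)⁻¹ * ((Ideal.span {n} : Ideal R) :
        FractionalIdeal R⁰ K) := by
    rw [coeIdeal_span_singleton, spanSingleton_mul_spanSingleton, div_eq_inv_mul]
  have hne : spanSingleton R⁰ (algebraMap R K n / algebraMap R K d) ≠ 0 := by
    rw [ne_eq, spanSingleton_eq_zero_iff]
    exact hx
  rw [count_well_defined K v hne hspan, map_div₀, valuation_of_algebraMap,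
    valuation_of_algebraMap, intValuation_if_neg v hn0, intValuation_if_neg v hd0,
    ← WithZero.exp_sub]
  congr 1
  ring

open FractionalIdeal in
theorem valuation_eq_one_iff_count (v : HeightOneSpectrum R) {x : K} (hx : x ≠ 0) :
    v.valuation K x = 1 ↔ count K v (spanSingleton R⁰ x) = 0 := by
  rw [valuation_eq_exp_neg_count K v hx, ← WithZero.exp_zero, WithZero.exp_inj, neg_eq_zero]

open FractionalIdeal in
theorem count_spanSingleton_mul (v : HeightOneSpectrum R) {x y : K} (hx : x ≠ 0) (hy : y ≠ 0) :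
    count K v (spanSingleton R⁰ (x * y)) =
      count K v (spanSingleton R⁰ x) + count K v (spanSingleton R⁰ y) := by
  rw [← spanSingleton_mul_spanSingleton, count_mul]
  · rwa [ne_eq, spanSingleton_eq_zero_iff]
  · rwa [ne_eq, spanSingleton_eq_zero_iff]

end Count

/-! ## The rational prime below a prime of `𝓞 L` -/

section RatPrime

variable (L : Type*) [Field L] [NumberField L]

theorem exists_primes_mem (v : HeightOneSpectrum (𝓞 L)) :
    ∃ q : Nat.Primes, (((q : ℕ) : ℤ) : 𝓞 L) ∈ v.asIdeal := by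
  have : v.asIdeal.IsMaximal := v.isMaximal
  let _ : Field (𝓞 L ⧸ v.asIdeal) := Ideal.Quotient.field v.asIdeal
  have : Finite (𝓞 L ⧸ v.asIdeal) := Ideal.finiteQuotientOfFreeOfNeBot v.asIdeal v.ne_bot
  obtain ⟨ℓ, hℓ⟩ := CharP.exists (𝓞 L ⧸ v.asIdeal)
  have := hℓ
  have hℓ0 : ℓ ≠ 0 := CharP.char_ne_zero_of_finite (𝓞 L ⧸ v.asIdeal) ℓ
  have hℓp : ℓ.Prime := (CharP.char_is_prime_or_zero (𝓞 L ⧸ v.asIdeal) ℓ).resolve_right hℓ0
  refine ⟨⟨ℓ, hℓp⟩, ?_⟩
  rw [← Ideal.Quotient.eq_zero_iff_mem, map_intCast, Int.cast_natCast]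
  exact CharP.cast_eq_zero _ _

/-- The rational prime below a height one prime of `𝓞 L`. -/
noncomputable def ratPrime (v : HeightOneSpectrum (𝓞 L)) : Nat.Primes :=
  (exists_primes_mem L v).choose

theorem ratPrime_mem (v : HeightOneSpectrum (𝓞 L)) :
    (((ratPrime L v : ℕ) : ℤ) : 𝓞 L) ∈ v.asIdeal :=
  (exists_primes_mem L v).choose_spec

variable {L} in
theorem ratPrime_eq {v : HeightOneSpectrum (𝓞 L)} {q : Nat.Primes}
    (h : (((q : ℕ) : ℤ) : 𝓞 L) ∈ v.asIdeal) : ratPrime L v = q := by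
  by_contra hne
  have hne' : (ratPrime L v : ℕ) ≠ (q : ℕ) := fun h' => hne (Subtype.ext h')
  have hcop : Nat.Coprime (ratPrime L v : ℕ) (q : ℕ) :=
    (Nat.coprime_primes (ratPrime L v).2 q.2).2 hne'
  have hcop' : IsCoprime ((ratPrime L v : ℕ) : ℤ) ((q : ℕ) : ℤ) :=
    Nat.isCoprime_iff_coprime.2 hcop
  obtain ⟨a, b, hab⟩ := hcop'
  have h1 : (1 : 𝓞 L) ∈ v.asIdeal := by
    have : ((a * ((ratPrime L v : ℕ) : ℤ) + b * ((q : ℕ) : ℤ) : ℤ) : 𝓞 L) ∈ v.asIdeal := by
      push_cast
      exact v.asIdeal.add_mem (v.asIdeal.mul_mem_left _ (by simpa using ratPrime_mem L v))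
        (v.asIdeal.mul_mem_left _ (by simpa using h))
    rw [hab] at this
    simpa using this
  exact v.isPrime.ne_top ((Ideal.eq_top_iff_one _).2 h1)

theorem finite_primes_over (q : Nat.Primes) :
    {v : HeightOneSpectrum (𝓞 L) | (((q : ℕ) : ℤ) : 𝓞 L) ∈ v.asIdeal}.Finite := by
  have hq0 : (((q : ℕ) : ℤ) : 𝓞 L) ≠ 0 := by
    simpa using q.2.ne_zero
  have hI : Ideal.span {(((q : ℕ) : ℤ) : 𝓞 L)} ≠ 0 := by
    rw [Ne, Ideal.zero_eq_bot, Ideal.span_singleton_eq_bot]
    exact hq0
  refine (Ideal.finite_factors hI).subset ?_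
  intro v hv
  change v.asIdeal ∣ Ideal.span {(((q : ℕ) : ℤ) : 𝓞 L)}
  rw [Ideal.dvd_iff_le, Ideal.span_singleton_le_iff_mem]
  exact hv

end RatPrime

/-! ## The local order of a semilocal unit at a prime above `q` -/

section Main

variable (L : Type*) [Field L] [NumberField L]

/-- The shape of the local approximation hypothesis used below (a consequence of CL-3, CL-3'). -/
def Approx : Prop :=
  ∀ (q : Nat.Primes) (x : (SemiLoc (q : ℕ) L)ˣ), ∃ y : Lˣ,
    x / principalPi L y q ∈ intUnits (q : ℕ) L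

/-- The shape of the bridging lemma CL-1. -/
def Bridge : Prop :=
  ∀ (q : Nat.Primes) (x : Lˣ), principalPi L x q ∈ intUnits (q : ℕ) L ↔
    ∀ v : HeightOneSpectrum (𝓞 L), (((q : ℕ) : ℤ) : 𝓞 L) ∈ v.asIdeal →
      v.valuation L (x : L) = 1

variable {L}

/-- The order at `v` of a unit of `ℚ_q ⊗ L` (meaningful for `v ∣ q`): the order of a global
element approximating it. -/
noncomputable def locOrd (hA : Approx L) (q : Nat.Primes) (x : (SemiLoc (q : ℕ) L)ˣ)
    (v : HeightOneSpectrum (𝓞 L)) : ℤ :=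
  FractionalIdeal.count L v (FractionalIdeal.spanSingleton (𝓞 L)⁰ (((hA q x).choose : Lˣ) : L))

theorem locOrd_eq (hB : Bridge L) (hA : Approx L) {q : Nat.Primes}
    {v : HeightOneSpectrum (𝓞 L)} (hv : (((q : ℕ) : ℤ) : 𝓞 L) ∈ v.asIdeal)
    (x : (SemiLoc (q : ℕ) L)ˣ) (y : Lˣ) (hy : x / principalPi L y q ∈ intUnits (q : ℕ) L) :
    locOrd hA q x v =
      FractionalIdeal.count L v (FractionalIdeal.spanSingleton (𝓞 L)⁰ (y : L)) := by
  have h0 : x / principalPi L (hA q x).choose q ∈ intUnits (q : ℕ) L := (hA q x).choose_spec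
  set y0 : Lˣ := (hA q x).choose with hy0
  have h1 : principalPi L (y / y0) q ∈ intUnits (q : ℕ) L := by
    have : principalPi L (y / y0) q = (x / principalPi L y0 q) / (x / principalPi L y q) := by
      rw [map_div, Pi.div_apply]
      exact (div_div_div_cancel_left _ _ _).symm
    rw [this]
    exact div_mem h0 hy
  have h2 := (hB q (y / y0)).1 h1 v hv
  rw [valuation_eq_one_iff_count L v (Units.ne_zero _)] at h2
  have h3 : (y : L) = ((y / y0 : Lˣ) : L) * (y0 : L) := by
    rw [← Units.val_mul, div_mul_cancel]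
  change FractionalIdeal.count L v (FractionalIdeal.spanSingleton (𝓞 L)⁰ (y0 : L)) = _
  rw [h3, count_spanSingleton_mul L v (Units.ne_zero _) (Units.ne_zero _), h2, zero_add]

theorem locOrd_mul (hB : Bridge L) (hA : Approx L) {q : Nat.Primes}
    {v : HeightOneSpectrum (𝓞 L)} (hv : (((q : ℕ) : ℤ) : 𝓞 L) ∈ v.asIdeal)
    (x x' : (SemiLoc (q : ℕ) L)ˣ) :
    locOrd hA q (x * x') v = locOrd hA q x v + locOrd hA q x' v := by
  have h0 : x / principalPi L (hA q x).choose q ∈ intUnits (q : ℕ) L := (hA q x).choose_spec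
  have h0' : x' / principalPi L (hA q x').choose q ∈ intUnits (q : ℕ) L :=
    (hA q x').choose_spec
  rw [locOrd_eq hB hA hv (x * x') ((hA q x).choose * (hA q x').choose)]
  · rw [Units.val_mul, count_spanSingleton_mul L v (Units.ne_zero _) (Units.ne_zero _)]
    rfl
  · rw [map_mul, Pi.mul_apply, mul_div_mul_comm]
    exact mul_mem h0 h0'

theorem locOrd_principal (hB : Bridge L) (hA : Approx L) {q : Nat.Primes}
    {v : HeightOneSpectrum (𝓞 L)} (hv : (((q : ℕ) : ℤ) : 𝓞 L) ∈ v.asIdeal) (z : Lˣ) :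
    locOrd hA q (principalPi L z q) v =
      FractionalIdeal.count L v (FractionalIdeal.spanSingleton (𝓞 L)⁰ (z : L)) := by
  apply locOrd_eq hB hA hv
  rw [div_self']
  exact one_mem _

theorem locOrd_eq_zero_of_mem (hB : Bridge L) (hA : Approx L) {q : Nat.Primes}
    {v : HeightOneSpectrum (𝓞 L)} (hv : (((q : ℕ) : ℤ) : 𝓞 L) ∈ v.asIdeal)
    {x : (SemiLoc (q : ℕ) L)ˣ} (hx : x ∈ intUnits (q : ℕ) L) : locOrd hA q x v = 0 := by
  rw [locOrd_eq hB hA hv x 1 (by rwa [map_one, Pi.one_apply, div_one])]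
  rw [Units.val_one, FractionalIdeal.spanSingleton_one, FractionalIdeal.count_one]

theorem locOrd_div (hB : Bridge L) (hA : Approx L) {q : Nat.Primes}
    {v : HeightOneSpectrum (𝓞 L)} (hv : (((q : ℕ) : ℤ) : 𝓞 L) ∈ v.asIdeal)
    (x x' : (SemiLoc (q : ℕ) L)ˣ) :
    locOrd hA q (x / x') v = locOrd hA q x v - locOrd hA q x' v := by
  have h := locOrd_mul hB hA hv (x / x') x'
  rw [div_mul_cancel] at h
  rw [h, add_sub_cancel_right]

theorem mem_intUnits_of_locOrd_eq_zero (hB : Bridge L) (hA : Approx L) {q : Nat.Primes}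
    {x : (SemiLoc (q : ℕ) L)ˣ}
    (h : ∀ v : HeightOneSpectrum (𝓞 L), (((q : ℕ) : ℤ) : 𝓞 L) ∈ v.asIdeal →
      locOrd hA q x v = 0) : x ∈ intUnits (q : ℕ) L := by
  have h0 : x / principalPi L (hA q x).choose q ∈ intUnits (q : ℕ) L := (hA q x).choose_spec
  have h1 : principalPi L (hA q x).choose q ∈ intUnits (q : ℕ) L := by
    rw [hB q]
    intro v hv
    rw [valuation_eq_one_iff_count L v (Units.ne_zero _)]
    exact h v hv
  have := mul_mem h0 h1
  rwa [div_mul_cancel] at this

/-! ## The divisor of an idele -/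

/-- The order of an idele at a prime `v` of `𝓞 L`. -/
noncomputable def gOrd (hA : Approx L) (x : Idele L) (v : HeightOneSpectrum (𝓞 L)) : ℤ :=
  locOrd hA (ratPrime L v) ((x : IdelePi L) (ratPrime L v)) v

theorem gOrd_eq (hA : Approx L) (x : Idele L) {q : Nat.Primes}
    {v : HeightOneSpectrum (𝓞 L)} (hv : (((q : ℕ) : ℤ) : 𝓞 L) ∈ v.asIdeal) :
    gOrd hA x v = locOrd hA q ((x : IdelePi L) q) v := by
  have h := ratPrime_eq hv
  subst h
  rfl

theorem gOrd_mul (hB : Bridge L) (hA : Approx L) (x x' : Idele L)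
    (v : HeightOneSpectrum (𝓞 L)) : gOrd hA (x * x') v = gOrd hA x v + gOrd hA x' v :=
  locOrd_mul hB hA (ratPrime_mem L v) _ _

theorem gOrd_finite (hB : Bridge L) (hA : Approx L) (x : Idele L) :
    ∀ᶠ v : HeightOneSpectrum (𝓞 L) in Filter.cofinite, gOrd hA x v = 0 := by
  have hx : {q : Nat.Primes | ¬ (x : IdelePi L) q ∈ intUnits (q : ℕ) L}.Finite :=
    (mem_idele L).1 x.2
  have hfin : (⋃ q ∈ {q : Nat.Primes | ¬ (x : IdelePi L) q ∈ intUnits (q : ℕ) L},
      {v : HeightOneSpectrum (𝓞 L) | (((q : ℕ) : ℤ) : 𝓞 L) ∈ v.asIdeal}).Finite :=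
    hx.biUnion fun q _ => finite_primes_over L q
  refine hfin.subset ?_
  intro v hv
  simp only [Set.mem_iUnion, Set.mem_ofPred_eq, exists_prop]
  refine ⟨ratPrime L v, ?_, ratPrime_mem L v⟩
  intro hmem
  exact hv (locOrd_eq_zero_of_mem hB hA (ratPrime_mem L v) hmem)

/-- The prime `v` as an invertible fractional ideal. -/
noncomputable def primeUnit (v : HeightOneSpectrum (𝓞 L)) : (FractionalIdeal (𝓞 L)⁰ L)ˣ :=
  Units.mk0 (v.asIdeal : FractionalIdeal (𝓞 L)⁰ L) (FractionalIdeal.coeIdeal_ne_zero.mpr v.ne_bot)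

theorem mulSupport_finite (hB : Bridge L) (hA : Approx L) (x : Idele L) :
    (Function.mulSupport fun v : HeightOneSpectrum (𝓞 L) => primeUnit v ^ gOrd hA x v).Finite := by
  refine (gOrd_finite hB hA x).subset ?_
  intro v hv h0
  apply hv
  change primeUnit v ^ gOrd hA x v = 1
  rw [h0, zpow_zero]

/-- The fractional ideal of an idele. -/
noncomputable def idealHom (hB : Bridge L) (hA : Approx L) :
    Idele L →* (FractionalIdeal (𝓞 L)⁰ L)ˣ :=
  MonoidHom.mk' (fun x => ∏ᶠ v : HeightOneSpectrum (𝓞 L), primeUnit v ^ gOrd hA x v) (by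
    intro x x'
    rw [← finprod_mul_distrib (mulSupport_finite hB hA x) (mulSupport_finite hB hA x')]
    refine finprod_congr fun v => ?_
    rw [gOrd_mul hB hA, zpow_add])

theorem coe_idealHom (hB : Bridge L) (hA : Approx L) (x : Idele L) :
    ((idealHom hB hA x : (FractionalIdeal (𝓞 L)⁰ L)ˣ) : FractionalIdeal (𝓞 L)⁰ L) =
      ∏ᶠ v : HeightOneSpectrum (𝓞 L),
        (v.asIdeal : FractionalIdeal (𝓞 L)⁰ L) ^ gOrd hA x v := by
  change Units.coeHom _ (∏ᶠ v : HeightOneSpectrum (𝓞 L), primeUnit v ^ gOrd hA x v) = _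
  rw [MonoidHom.map_finprod_of_injective _ Units.val_injective]
  refine finprod_congr fun v => ?_
  rw [Units.coeHom_apply, Units.val_zpow_eq_zpow_val]
  rfl

theorem count_idealHom (hB : Bridge L) (hA : Approx L) (x : Idele L)
    (v : HeightOneSpectrum (𝓞 L)) :
    FractionalIdeal.count L v
      ((idealHom hB hA x : (FractionalIdeal (𝓞 L)⁰ L)ˣ) : FractionalIdeal (𝓞 L)⁰ L) =
        gOrd hA x v := by
  rw [coe_idealHom]
  exact FractionalIdeal.count_finprod L v (gOrd hA x) (gOrd_finite hB hA x)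

/-- An idele whose ideal is principal is the product of a unit idele and a principal idele. -/
theorem mem_sup_of_idealHom_mem (hB : Bridge L) (hA : Approx L) (x : Idele L)
    (hx : idealHom hB hA x ∈ (toPrincipalIdeal (𝓞 L) L).range) :
    x ∈ (unitIdeleHom L).range ⊔ principalSub L := by
  obtain ⟨z, hz⟩ := hx
  have hcount : ∀ v : HeightOneSpectrum (𝓞 L),
      FractionalIdeal.count L v (FractionalIdeal.spanSingleton (𝓞 L)⁰ (z : L)) =
        gOrd hA x v := by
    intro v
    rw [← count_idealHom hB hA x v, ← hz, coe_toPrincipalIdeal]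
  have hu : ∀ q : Nat.Primes, (x : IdelePi L) q / principalPi L z q ∈ intUnits (q : ℕ) L := by
    intro q
    apply mem_intUnits_of_locOrd_eq_zero hB hA
    intro v hv
    rw [locOrd_div hB hA hv, locOrd_principal hB hA hv, hcount v, gOrd_eq hA x hv, sub_self]
  set u : UnitIdele L := UnitIdele.mk fun q => ⟨_, hu q⟩ with hu_def
  have hpz : ((x / unitIdeleHom L u : Idele L) : IdelePi L) = principalPi L z := by
    funext q
    change (x : IdelePi L) q / ((x : IdelePi L) q / principalPi L z q) = principalPi L z q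
    rw [div_div_cancel]
  have hx' : x = unitIdeleHom L u * (x / unitIdeleHom L u) := by
    rw [mul_div_cancel]
  rw [hx']
  refine Subgroup.mul_mem_sup ⟨u, rfl⟩ ?_
  change ((x / unitIdeleHom L u : Idele L) : IdelePi L) ∈ (principalPi L).range
  rw [hpz]
  exact ⟨z, rfl⟩

theorem index_principal_ne_zero : (toPrincipalIdeal (𝓞 L) L).range.index ≠ 0 := by
  have : Finite ((FractionalIdeal (𝓞 L)⁰ L)ˣ ⧸ (toPrincipalIdeal (𝓞 L) L).range) :=
    Finite.of_equiv _ (ClassGroup.equiv (R := 𝓞 L) L).toEquiv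
  exact Subgroup.index_ne_zero_of_finite

variable (L)

/-- CL-4 from the bridging lemma and local approximation (in the `intUnits` form). -/
theorem unitIdele_index_ne_zero_of (hB : Bridge L) (hA : Approx L) :
    (unitIdeleClassHom L).range.index ≠ 0 := by
  have h1 : ((toPrincipalIdeal (𝓞 L) L).range.comap (idealHom hB hA)).index ≠ 0 := by
    rw [Subgroup.index_comap]
    exact fun h => index_principal_ne_zero (L := L)
      (Nat.eq_zero_of_zero_dvd (h ▸ Subgroup.relIndex_dvd_index_of_normal _ _))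
  have h2 : (toPrincipalIdeal (𝓞 L) L).range.comap (idealHom hB hA) ≤
      (unitIdeleHom L).range ⊔ principalSub L :=
    fun x hx => mem_sup_of_idealHom_mem hB hA x hx
  have h3 : ((unitIdeleHom L).range ⊔ principalSub L).index ≠ 0 :=
    fun h => h1 (Nat.eq_zero_of_zero_dvd (h ▸ Subgroup.index_dvd_of_le h2))
  have h4 : (unitIdeleClassHom L).range =
      (unitIdeleHom L).range.map (QuotientGroup.mk' (principalSub L)) := by
    rw [MonoidHom.map_range]
    rfl
  rw [h4, Subgroup.index_map, QuotientGroup.ker_mk',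
    MonoidHom.range_eq_top_of_surjective _ (QuotientGroup.mk'_surjective _), Subgroup.index_top,
    mul_one]
  exact h3

/-- CL-4 from CL-1, CL-3, CL-3' in the shapes of `helper73_GlobInterface2`. -/
theorem unitIdele_index_ne_zero_of'
    (hCL1 : ∀ (q : Nat.Primes) (x : Lˣ), principalPi L x q ∈ intUnits (q : ℕ) L ↔
      ∀ v : IsDedekindDomain.HeightOneSpectrum (𝓞 L),
        (((q : ℕ) : ℤ) : 𝓞 L) ∈ v.asIdeal → v.valuation L (x : L) = 1)
    (hCL3 : ∀ (q : Nat.Primes) (x : (SemiLoc (q : ℕ) L)ˣ),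
      ∃ y : Lˣ, x / principalPi L y q ∈ princUnits (q : ℕ) L)
    (hCL3' : ∀ (q : ℕ) [Fact q.Prime], princUnits q L ≤ intUnits q L) :
    (unitIdeleClassHom L).range.index ≠ 0 :=
  unitIdele_index_ne_zero_of L hCL1 fun q x => by
    obtain ⟨y, hy⟩ := hCL3 q x
    exact ⟨y, hCL3' (q : ℕ) hy⟩

/-- CL-5 from CL-2: the kernel of `∏ U_q → C_L` is the image of the global units. -/
theorem mem_ker_unitIdeleClassHom_iff_of
    (hCL2 : ∀ x : Lˣ, (∀ q : Nat.Primes, principalPi L x q ∈ intUnits (q : ℕ) L) ↔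
      x ∈ globalUnits L)
    (u : UnitIdele L) :
    u ∈ (unitIdeleClassHom L).ker ↔
      ∃ x ∈ globalUnits L, ∀ q : Nat.Primes,
        (u.comp q : (SemiLoc (q : ℕ) L)ˣ) = principalPi L x q := by
  have key : u ∈ (unitIdeleClassHom L).ker ↔
      ∃ x : Lˣ, principalPi L x = ((unitIdeleHom L u : Idele L) : IdelePi L) := by
    rw [MonoidHom.mem_ker]
    change (QuotientGroup.mk (unitIdeleHom L u) : IdeleClass L) = 1 ↔ _
    rw [QuotientGroup.eq_one_iff]
    rfl
  rw [key]
  constructor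
  · rintro ⟨x, hx⟩
    have hq : ∀ q : Nat.Primes, (u.comp q : (SemiLoc (q : ℕ) L)ˣ) = principalPi L x q := by
      intro q
      rw [hx]
      rfl
    refine ⟨x, (hCL2 x).1 fun q => ?_, hq⟩
    rw [← hq q]
    exact (u.comp q).2
  · rintro ⟨x, -, hx⟩
    refine ⟨x, ?_⟩
    funext q
    rw [← hx q]
    rfl

end Main

end Fermat.Agent.S55.helper26
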