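import Fermat.Agent.S55.helper24_Dict

/-!
# S55 / GLOB (helper26): the integral closure of `ℤ_q` in `ℚ_q ⊗ K`

For a number field `K` and EVERY prime `q`, an element of `ℚ_q ⊗ K` is integral over `ℤ_q` iff
its coordinates in the basis `1 ⊗ bᵢ` (`bᵢ` the integral basis of `K`) lie in `ℤ_q`:
the integral closure of `ℤ_q` in `ℚ_q ⊗ K` is `ℤ_q ⊗ 𝓞 K`.

* `norm_repr_le_one_of_isIntegral`
* `isIntegral_iff_norm_repr_le_one`
* `isIntegral_iff_exists_sum`
* `isIntegral_qElt_mul_iff` : divisibility by `q` inside the integral closure is read off on the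
  coordinates.
-/

set_option autoImplicit false

open scoped TensorProduct NumberField
open IsDedekindDomain

namespace Fermat.Agent.S55.helper26

open Fermat.Agent.S55.helper73 Fermat.Agent.S55.helper89 Fermat.Agent.S55.helper24

section PadicApprox

variable (q : ℕ) [Fact q.Prime]

/-- A `q`-adic integer is an integer plus `q` times a `q`-adic integer. -/
theorem exists_int_add_q_mul {c : ℚ_[q]} (hc : ‖c‖ ≤ 1) :
    ∃ (n : ℤ) (d : ℚ_[q]), ‖d‖ ≤ 1 ∧ c = (n : ℚ_[q]) + (q : ℚ_[q]) * d := by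
  set x : ℤ_[q] := ⟨c, hc⟩ with hx
  have h := PadicInt.appr_spec 1 x
  rw [pow_one, Ideal.mem_span_singleton'] at h
  obtain ⟨d, hd⟩ := h
  refine ⟨(PadicInt.appr x 1 : ℕ), (d : ℚ_[q]), d.2, ?_⟩
  have h2 : ((d * (q : ℤ_[q]) : ℤ_[q]) : ℚ_[q]) =
      ((x - (PadicInt.appr x 1 : ℕ) : ℤ_[q]) : ℚ_[q]) := congrArg _ hd
  rw [PadicInt.coe_mul, PadicInt.coe_sub, PadicInt.coe_natCast, PadicInt.coe_natCast] at h2
  have hxc : (x : ℚ_[q]) = c := rfl
  rw [hxc] at h2
  push_cast
  linear_combination -h2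

end PadicApprox

section IntClosure

variable (q : ℕ) [Fact q.Prime] (K : Type*) [Field K] [NumberField K]

/-- `1 ⊗ (∑ rᵢ bᵢ) = ∑ rᵢ (1 ⊗ bᵢ)`. -/
theorem one_tmul_sum_smul (r : Module.Free.ChooseBasisIndex ℤ (𝓞 K) → ℚ) :
    ((1 : ℚ_[q]) ⊗ₜ[ℚ] (∑ i, r i • NumberField.integralBasis K i) : SemiLoc q K)
      = ∑ i, (r i : ℚ_[q]) • sbasis q K i := by
  rw [TensorProduct.tmul_sum]
  refine Finset.sum_congr rfl fun i _ => ?_
  rw [sbasis_apply, TensorProduct.smul_tmul', ← TensorProduct.smul_tmul]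
  congr 1

/-- An element of `K` which is integral at all primes over `q` and is `q⁻¹` times an integer
is an integer. -/
theorem isIntegral_of_isIntegral_one_tmul {a : K}
    (ha : IsIntegral ℤ_[q] ((1 : ℚ_[q]) ⊗ₜ[ℚ] a : SemiLoc q K))
    (hqa : IsIntegral ℤ ((q : K) * a)) : IsIntegral ℤ a := by
  have hD := (helper24.isIntegral_one_tmul_iff q K a).1 ha
  have hval : ∀ P : HeightOneSpectrum (𝓞 K), P.valuation K a ≤ 1 := by
    intro P
    by_cases hP : (q : 𝓞 K) ∈ P.asIdeal
    · exact hD P hP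
    · have h1 : P.valuation K (algebraMap (𝓞 K) K (q : 𝓞 K)) = 1 :=
        (P.valuation_eq_one_iff_notMem (K := K)).2 hP
      have h2 : P.valuation K ((q : K) * a) ≤ 1 := by
        have := P.valuation_le_one (K := K) (⟨(q : K) * a, hqa⟩ : 𝓞 K)
        exact this
      rw [map_natCast] at h1
      rwa [map_mul, h1, one_mul] at h2
  obtain ⟨b, hb⟩ := HeightOneSpectrum.mem_integers_of_valuation_le_one K a hval
  rw [← hb]
  exact NumberField.RingOfIntegers.isIntegral_coe b

/-- The coordinates of an integer of `K` in the integral basis are integers. -/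
theorem exists_int_repr_eq {a : K} (ha : IsIntegral ℤ a)
    (i : Module.Free.ChooseBasisIndex ℤ (𝓞 K)) :
    ∃ m : ℤ, (NumberField.integralBasis K).repr a i = (m : ℚ) := by
  refine ⟨(NumberField.RingOfIntegers.basis K).repr (⟨a, ha⟩ : 𝓞 K) i, ?_⟩
  have h := NumberField.integralBasis_repr_apply K (⟨a, ha⟩ : 𝓞 K) i
  rw [show algebraMap (𝓞 K) K ⟨a, ha⟩ = a from rfl] at h
  rw [h]
  simp

/-- Lemma A: if `z` is integral and the coordinates of `q z` are in `ℤ_q`, then the coordinates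
of `z` are in `ℤ_q`. -/
theorem norm_repr_le_one_of_norm_q_mul {z : SemiLoc q K} (hz : IsIntegral ℤ_[q] z)
    (h : ∀ i, ‖(q : ℚ_[q]) * (sbasis q K).repr z i‖ ≤ 1)
    (i : Module.Free.ChooseBasisIndex ℤ (𝓞 K)) : ‖(sbasis q K).repr z i‖ ≤ 1 := by
  classical
  have hq0 : (q : ℚ_[q]) ≠ 0 := by exact_mod_cast (Fact.out : q.Prime).ne_zero
  have hq0' : (q : ℚ) ≠ 0 := by exact_mod_cast (Fact.out : q.Prime).ne_zero
  have hqK : (q : K) ≠ 0 := by exact_mod_cast (Fact.out : q.Prime).ne_zero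
  choose n d hd hnd using fun j => exists_int_add_q_mul q (h j)
  -- `c j = n j / q + d j`
  have hc : ∀ j, (sbasis q K).repr z j = (((n j : ℚ) / (q : ℚ) : ℚ) : ℚ_[q]) + d j := by
    intro j
    have := hnd j
    push_cast
    field_simp
    linear_combination this
  set a : K := ∑ j, ((n j : ℚ) / (q : ℚ)) • NumberField.integralBasis K j with ha_def
  set μ : SemiLoc q K := ∑ j, d j • sbasis q K j with hμ_def
  have hμ : IsIntegral ℤ_[q] μ := isIntegral_sum_smul_sbasis q K d hd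
  have hz_eq : z = (1 : ℚ_[q]) ⊗ₜ[ℚ] a + μ := by
    rw [ha_def, one_tmul_sum_smul, hμ_def, ← Finset.sum_add_distrib]
    conv_lhs => rw [← (sbasis q K).sum_repr z]
    refine Finset.sum_congr rfl fun j _ => ?_
    rw [← add_smul, hc j]
  have ha1 : IsIntegral ℤ_[q] ((1 : ℚ_[q]) ⊗ₜ[ℚ] a : SemiLoc q K) := by
    have : ((1 : ℚ_[q]) ⊗ₜ[ℚ] a : SemiLoc q K) = z - μ := by
      rw [hz_eq]; ring
    rw [this]
    exact hz.sub hμ
  have hqa : IsIntegral ℤ ((q : K) * a) := by
    have : (q : K) * a = ∑ j, (n j : ℤ) • NumberField.integralBasis K j := by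
      rw [ha_def, Finset.mul_sum]
      refine Finset.sum_congr rfl fun j _ => ?_
      rw [Algebra.smul_def, ← mul_assoc, zsmul_eq_mul]
      congr 1
      rw [map_div₀]
      simp only [eq_ratCast, Rat.cast_intCast, Rat.cast_natCast]
      field_simp
    rw [this]
    refine IsIntegral.sum _ fun j _ => ?_
    refine IsIntegral.smul _ ?_
    rw [NumberField.integralBasis_apply]
    exact NumberField.RingOfIntegers.isIntegral_coe _
  have haint : IsIntegral ℤ a := isIntegral_of_isIntegral_one_tmul q K ha1 hqa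
  obtain ⟨m, hm⟩ := exists_int_repr_eq K haint i
  have hrepr : (NumberField.integralBasis K).repr a i = (n i : ℚ) / (q : ℚ) := by
    rw [ha_def, Module.Basis.repr_sum_self]
  have hci : (sbasis q K).repr z i = (m : ℚ_[q]) + d i := by
    rw [hc i, ← hrepr, hm]
    simp
  rw [hci]
  exact (Padic.nonarchimedean _ _).trans (max_le (Padic.norm_int_le_one m) (hd i))

/-- The coordinates of an integral element of `ℚ_q ⊗ K` in the basis `1 ⊗ bᵢ` are in `ℤ_q`. -/
theorem norm_repr_le_one_of_isIntegral {z : SemiLoc q K} (hz : IsIntegral ℤ_[q] z)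
    (i : Module.Free.ChooseBasisIndex ℤ (𝓞 K)) : ‖(sbasis q K).repr z i‖ ≤ 1 := by
  classical
  have hqint : IsIntegral ℤ_[q] (qElt q K) := isIntegral_qElt q K
  have key : ∀ (M : ℕ) (z : SemiLoc q K), IsIntegral ℤ_[q] z →
      (∀ j, ‖(q : ℚ_[q]) ^ M * (sbasis q K).repr z j‖ ≤ 1) →
      ∀ j, ‖(sbasis q K).repr z j‖ ≤ 1 := by
    intro M
    induction M with
    | zero =>
      intro z _ h j
      simpa using h j
    | succ M ih =>
      intro z hz h
      apply ih z hz
      have hz' : IsIntegral ℤ_[q] (qElt q K ^ M * z) := (hqint.pow M).mul hz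
      have hrepr : ∀ j, (sbasis q K).repr (qElt q K ^ M * z) j =
          (q : ℚ_[q]) ^ M * (sbasis q K).repr z j := by
        intro j
        rw [qElt_pow_mul, map_smul, Finsupp.smul_apply, smul_eq_mul]
      intro j
      rw [← hrepr j]
      apply norm_repr_le_one_of_norm_q_mul q K hz'
      intro k
      rw [hrepr k, ← mul_assoc, ← pow_succ']
      exact h k
  choose M hM using fun j => exists_pow_mul_norm_le_one q ((sbasis q K).repr z j)
  exact key (Finset.univ.sup M) z hz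
    (fun j => hM j _ (Finset.le_sup (f := M) (Finset.mem_univ j))) i

/-- Integrality over `ℤ_q` in `ℚ_q ⊗ K` is read off on the coordinates in the basis `1 ⊗ bᵢ`. -/
theorem isIntegral_iff_norm_repr_le_one (z : SemiLoc q K) :
    IsIntegral ℤ_[q] z ↔ ∀ i, ‖(sbasis q K).repr z i‖ ≤ 1 := by
  constructor
  · intro hz i
    exact norm_repr_le_one_of_isIntegral q K hz i
  · intro h
    rw [← (sbasis q K).sum_repr z]
    exact isIntegral_sum_smul_sbasis q K _ h

/-- The integral closure of `ℤ_q` in `ℚ_q ⊗ K` is the `ℤ_q`-span of the basis `1 ⊗ bᵢ`. -/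
theorem isIntegral_iff_exists_sum (z : SemiLoc q K) :
    IsIntegral ℤ_[q] z ↔
      ∃ c : Module.Free.ChooseBasisIndex ℤ (𝓞 K) → ℤ_[q],
        z = ∑ i, (c i : ℚ_[q]) • sbasis q K i := by
  constructor
  · intro hz
    refine ⟨fun i => ⟨(sbasis q K).repr z i, norm_repr_le_one_of_isIntegral q K hz i⟩, ?_⟩
    exact ((sbasis q K).sum_repr z).symm
  · rintro ⟨c, rfl⟩
    exact isIntegral_sum_smul_sbasis q K _ fun i => (c i).2

/-- The integral closure of `ℤ_q` in `ℚ_q ⊗ K`, as a `ℤ_q`-submodule, is spanned by `1 ⊗ bᵢ`. -/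
theorem isIntegral_iff_mem_span (z : SemiLoc q K) :
    IsIntegral ℤ_[q] z ↔ z ∈ Submodule.span ℤ_[q] (Set.range (sbasis q K)) := by
  rw [isIntegral_iff_exists_sum]
  constructor
  · rintro ⟨c, rfl⟩
    refine Submodule.sum_mem _ fun i _ => ?_
    have : (c i : ℚ_[q]) • sbasis q K i = c i • sbasis q K i := rfl
    rw [this]
    exact Submodule.smul_mem _ _ (Submodule.subset_span ⟨i, rfl⟩)
  · intro hz
    induction hz using Submodule.span_induction with
    | mem x hx =>
      obtain ⟨i, rfl⟩ := hx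
      classical
      refine ⟨fun j => if j = i then 1 else 0, ?_⟩
      rw [Finset.sum_eq_single i]
      · simp
      · intro j _ hj
        simp [hj]
      · intro h
        exact absurd (Finset.mem_univ i) h
    | zero => exact ⟨0, by simp⟩
    | add x y _ _ hx hy =>
      obtain ⟨c, rfl⟩ := hx
      obtain ⟨c', rfl⟩ := hy
      refine ⟨c + c', ?_⟩
      rw [← Finset.sum_add_distrib]
      refine Finset.sum_congr rfl fun i _ => ?_
      rw [← add_smul]
      simp
    | smul a x _ hx =>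
      obtain ⟨c, rfl⟩ := hx
      refine ⟨fun i => a * c i, ?_⟩
      rw [Finset.smul_sum]
      refine Finset.sum_congr rfl fun i _ => ?_
      have : a • ((c i : ℚ_[q]) • sbasis q K i) = ((a : ℚ_[q]) * (c i : ℚ_[q])) • sbasis q K i := by
        rw [mul_smul]
        rfl
      rw [this]
      simp

/-- Divisibility by `q` in the integral closure: `z` is `q` times an integral element iff all
coordinates of `z` are divisible by `q` in `ℤ_q`. -/
theorem exists_isIntegral_qElt_mul_iff (z : SemiLoc q K) :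
    (∃ w : SemiLoc q K, IsIntegral ℤ_[q] w ∧ z = qElt q K * w) ↔
      ∀ i, ‖(sbasis q K).repr z i‖ ≤ (q : ℝ)⁻¹ := by
  have hq0 : (q : ℚ_[q]) ≠ 0 := by exact_mod_cast (Fact.out : q.Prime).ne_zero
  have hqpos : (0 : ℝ) < q := by exact_mod_cast (Fact.out : q.Prime).pos
  have hnq : ‖(q : ℚ_[q])‖ = (q : ℝ)⁻¹ := Padic.norm_p
  constructor
  · rintro ⟨w, hw, rfl⟩ i
    have h1 : qElt q K * w = (q : ℚ_[q]) • w := by
      rw [Algebra.smul_def]; rfl
    rw [h1, map_smul, Finsupp.smul_apply, smul_eq_mul, norm_mul, hnq]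
    have := norm_repr_le_one_of_isIntegral q K hw i
    calc (q : ℝ)⁻¹ * ‖(sbasis q K).repr w i‖ ≤ (q : ℝ)⁻¹ * 1 :=
          mul_le_mul_of_nonneg_left this (inv_nonneg.2 hqpos.le)
      _ = (q : ℝ)⁻¹ := mul_one _
  · intro h
    refine ⟨((q : ℚ_[q])⁻¹) • z, ?_, ?_⟩
    · rw [isIntegral_iff_norm_repr_le_one]
      intro i
      rw [map_smul, Finsupp.smul_apply, smul_eq_mul, norm_mul, norm_inv, hnq, inv_inv]
      calc (q : ℝ) * ‖(sbasis q K).repr z i‖ ≤ (q : ℝ) * (q : ℝ)⁻¹ :=
            mul_le_mul_of_nonneg_left (h i) hqpos.le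
        _ = 1 := mul_inv_cancel₀ hqpos.ne'
    · have h1 : qElt q K * ((q : ℚ_[q])⁻¹ • z) = (q : ℚ_[q]) • ((q : ℚ_[q])⁻¹ • z) := by
        rw [Algebra.smul_def (q : ℚ_[q])]; rfl
      rw [h1, smul_smul, mul_inv_cancel₀ hq0, one_smul]

end IntClosure

end Fermat.Agent.S55.helper26
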