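import Fermat.Agent.S55.helper63_HenselPow
import Fermat.Agent.S55.helper5_Bridge
import Fermat.Agent.S55.helper3_ResGlobal

/-!
# S55 / GLOB, package LAT, tame part (helper26)

For a prime `q` not dividing `n = [L : K]` (`L/K` cyclic with generator `σ`), the principal units
`1 + q 𝓞` of `ℚ_q ⊗ L` are cohomologically trivial:

* the `n`-th power map is bijective on `princUnits q L`
  (`pow_eq_one_princUnits`, `exists_pow_eq_princUnits`);
* `Ĥ^0` : a fixed principal unit is the norm of its (fixed) `n`-th root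
  (`exists_normG_eq_of_fixed_princUnits`);
* `Ĥ^{-1}` : Hilbert 90 by the Poincaré series of `c = 1/n`
  (`exists_deltaHom_eq_of_normG_princUnits`).

Consequences: LAT-2 `exists_finset_princUnits_trivial` (VERBATIM `helper73_GlobInterface2`), and
LAT-1 `exists_trivial_unit_subgroup_of_not_dvd` for all `q ∤ [L : K]` with `V = princUnits`.
-/

set_option autoImplicit false
set_option linter.unusedSectionVars false

open scoped TensorProduct NumberField

namespace Fermat.Agent.S55.helper26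

open Fermat.Agent.S55.helper73 Fermat.Agent.S55.helper89

section Roots

variable (q : ℕ) [Fact q.Prime] (L : Type*) [Field L] [NumberField L]

/-- For `q ∤ n` the natural number `n` is a unit of `ℤ_q`: its inverse has norm `≤ 1`. -/
theorem norm_natCast_inv_le_one {n : ℕ} (hn : ¬ q ∣ n) : ‖((n : ℚ_[q]))⁻¹‖ ≤ 1 := by
  have hq : q.Prime := Fact.out
  rw [norm_inv, Padic.norm_natCast_eq_one_iff.mpr ((Nat.Prime.coprime_iff_not_dvd hq).mpr hn),
    inv_one]

theorem natCast_ne_zero_of_not_dvd {n : ℕ} (hn : ¬ q ∣ n) : (n : ℚ_[q]) ≠ 0 := by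
  have : n ≠ 0 := by rintro rfl; exact hn (dvd_zero q)
  exact_mod_cast this

/-- An element `n + q t` (`t` integral, `q ∤ n`) is a unit of `ℚ_q ⊗ L`. -/
theorem isUnit_natCast_add {n : ℕ} (hn : ¬ q ∣ n) {t : SemiLoc q L} (ht : IsIntegral ℤ_[q] t) :
    IsUnit ((n : SemiLoc q L) + qElt q L * t) := by
  have hn0 := natCast_ne_zero_of_not_dvd q hn
  set c : SemiLoc q L := algebraMap ℚ_[q] (SemiLoc q L) ((n : ℚ_[q]))⁻¹ with hc
  have hcint : IsIntegral ℤ_[q] c :=
    helper24.isIntegral_algebraMap_of_norm_le_one q L (norm_natCast_inv_le_one q hn)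
  obtain ⟨w, -, hw⟩ := helper24.exists_oneUnit q L (c * t) (hcint.mul ht)
  have hnc : (n : SemiLoc q L) * c = 1 := by
    rw [hc, ← map_natCast (algebraMap ℚ_[q] (SemiLoc q L)), ← map_mul, mul_inv_cancel₀ hn0,
      map_one]
  have hnu : IsUnit (n : SemiLoc q L) := IsUnit.of_mul_eq_one _ hnc
  have : (n : SemiLoc q L) + qElt q L * t = (n : SemiLoc q L) * (w : SemiLoc q L) := by
    rw [hw, mul_add, mul_one]
    congr 1
    calc qElt q L * t = (n : SemiLoc q L) * c * (qElt q L * t) := by rw [hnc, one_mul]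
      _ = (n : SemiLoc q L) * (qElt q L * (c * t)) := by ring
  rw [this]
  exact hnu.mul w.isUnit

/-- The value of a principal unit. -/
theorem exists_eq_one_add_of_mem_princUnits {x : (SemiLoc q L)ˣ} (hx : x ∈ princUnits q L) :
    ∃ t : SemiLoc q L, IsIntegral ℤ_[q] t ∧ (x : SemiLoc q L) = 1 + qElt q L * t := by
  obtain ⟨⟨z, hz, hxz⟩, -⟩ := hx
  exact ⟨z, hz, by rw [hxz, Algebra.smul_def]; rfl⟩

/-- A sum of `n` principal units is `n + q t` with `t` integral. -/
theorem exists_sum_eq_natCast_add (n : ℕ) (f : ℕ → (SemiLoc q L)ˣ)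
    (hf : ∀ i, f i ∈ princUnits q L) :
    ∃ t : SemiLoc q L, IsIntegral ℤ_[q] t ∧
      ∑ i ∈ Finset.range n, (f i : SemiLoc q L) = (n : SemiLoc q L) + qElt q L * t := by
  choose t ht hft using fun i => exists_eq_one_add_of_mem_princUnits q L (hf i)
  refine ⟨∑ i ∈ Finset.range n, t i, IsIntegral.sum _ fun i _ => ht i, ?_⟩
  rw [Finset.mul_sum, Finset.sum_congr rfl fun i _ => hft i, Finset.sum_add_distrib]
  simp

/-- For `q ∤ n` the principal units have no `n`-torsion. -/
theorem pow_eq_one_princUnits {n : ℕ} (hn : ¬ q ∣ n) {z : (SemiLoc q L)ˣ}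
    (hz : z ∈ princUnits q L) (h : z ^ n = 1) : z = 1 := by
  obtain ⟨t, ht, hsum⟩ := exists_sum_eq_natCast_add q L n (fun i => z ^ i)
    (fun i => Subgroup.pow_mem _ hz i)
  have hS : IsUnit (∑ i ∈ Finset.range n, (z : SemiLoc q L) ^ i) := by
    have := isUnit_natCast_add q L hn ht
    rw [← hsum] at this
    simpa using this
  have h1 : ((z : SemiLoc q L) - 1) * ∑ i ∈ Finset.range n, (z : SemiLoc q L) ^ i = 0 := by
    rw [mul_geom_sum, ← Units.val_pow_eq_pow_val, h, Units.val_one, sub_self]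
  have h2 : (z : SemiLoc q L) - 1 = 0 := (hS.mul_left_eq_zero).1 h1
  exact Units.ext (by rw [Units.val_one]; exact sub_eq_zero.1 h2)

/-- For `q ∤ n` every principal unit is an `n`-th power of a principal unit. -/
theorem exists_pow_eq_princUnits (n : ℕ) (hn : ¬ q ∣ n) (w : (SemiLoc q L)ˣ)
    (hw : w ∈ princUnits q L) : ∃ z ∈ princUnits q L, z ^ n = w := by
  have hq : q.Prime := Fact.out
  induction n using Nat.recOnMul generalizing w with
  | zero => exact absurd (dvd_zero q) hn
  | one => exact ⟨w, hw, pow_one w⟩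
  | prime p hp =>
    have hp' : p.Prime := hp
    have hqp : q ≠ p := by
      rintro rfl
      exact hn dvd_rfl
    rw [helper5.princUnits_eq_oneUnits] at hw ⊢
    exact helper63.exists_pow_eq_of_mem_oneUnits q L p hp' hqp w hw
  | mul a b iha ihb =>
    have ha : ¬ q ∣ a := fun h => hn (h.mul_right b)
    have hb : ¬ q ∣ b := fun h => hn (h.mul_left a)
    obtain ⟨u, hu, hua⟩ := iha ha w hw
    obtain ⟨z, hz, hzb⟩ := ihb hb u hu
    exact ⟨z, hz, by rw [mul_comm, pow_mul, hzb, hua]⟩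

end Roots

section Cohomology

variable (K L : Type*) [Field K] [NumberField K] [Field L] [NumberField L] [Algebra K L]
  [IsGalois K L]
variable (q : ℕ) [Fact q.Prime]

/-- `Ĥ^0` of the principal units vanishes for `q ∤ [L : K]`. -/
theorem exists_normG_eq_of_fixed_princUnits (hq : ¬ q ∣ Fintype.card Gal(L/K))
    (x : (SemiLoc q L)ˣ) (hx : x ∈ princUnits q L) (hfix : ∀ τ : Gal(L/K), τ • x = x) :
    ∃ y ∈ princUnits q L, normG Gal(L/K) (SemiLoc q L)ˣ y = x := by
  obtain ⟨y, hy, hyx⟩ := exists_pow_eq_princUnits q L _ hq x hx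
  have hyfix : ∀ τ : Gal(L/K), τ • y = y := by
    intro τ
    have h1 : τ • y / y ∈ princUnits q L :=
      div_mem (helper3.smul_mem_princUnits' q L K τ hy) hy
    have h2 : (τ • y / y) ^ Fintype.card Gal(L/K) = 1 := by
      rw [div_pow, ← smul_pow', hyx, hfix τ, div_self']
    exact div_eq_one.1 (pow_eq_one_princUnits q L hq h1 h2)
  refine ⟨y, hy, ?_⟩
  rw [normG_apply, Finset.prod_congr rfl fun τ _ => hyfix τ, Finset.prod_const, Finset.card_univ,
    hyx]

/-- `Ĥ^{-1}` of the principal units vanishes for `q ∤ [L : K]` (Hilbert 90 via the Poincaré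
series of the constant `1/n`). -/
theorem exists_deltaHom_eq_of_normG_princUnits (hq : ¬ q ∣ Fintype.card Gal(L/K))
    (σ : Gal(L/K)) (hσ : ∀ τ : Gal(L/K), τ ∈ Subgroup.zpowers σ)
    (x : (SemiLoc q L)ˣ) (hx : x ∈ princUnits q L)
    (hN : normG Gal(L/K) (SemiLoc q L)ˣ x = 1) :
    ∃ y ∈ princUnits q L, σ • y / y = x := by
  have hord : orderOf σ = Fintype.card Gal(L/K) := by
    rw [← Nat.card_eq_fintype_card]
    exact orderOf_eq_card_of_forall_mem_zpowers hσ
  have hq' : ¬ q ∣ orderOf σ := by rwa [hord]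
  have hn0 := natCast_ne_zero_of_not_dvd q hq'
  set c : SemiLoc q L := algebraMap ℚ_[q] (SemiLoc q L) ((orderOf σ : ℚ_[q]))⁻¹ with hc
  have hcint : IsIntegral ℤ_[q] c :=
    helper24.isIntegral_algebraMap_of_norm_le_one q L (norm_natCast_inv_le_one q hq')
  have hcfix : ∀ τ : Gal(L/K), τ • c = c := by
    intro τ
    rw [smul_def, hc]
    exact (galSemiLocAut q L K τ).commutes _
  have hnc : (orderOf σ : SemiLoc q L) * c = 1 := by
    rw [hc, ← map_natCast (algebraMap ℚ_[q] (SemiLoc q L)), ← map_mul, mul_inv_cancel₀ hn0,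
      map_one]
  -- the Poincaré series of `c`
  set s : SemiLoc q L := helper3.poin q L K σ x c with hs
  have hs1 : s = (∑ i ∈ Finset.range (orderOf σ), (helper3.xi q L K σ x i : SemiLoc q L)) * c := by
    rw [hs, helper3.poin_apply, Finset.sum_mul]
    exact Finset.sum_congr rfl fun i _ => by rw [hcfix]
  have hrel : (x : SemiLoc q L) * σ • s = s := by
    have := helper3.poin_rel q L K σ x c
    rw [helper3.xi_orderOf q L K σ hσ x, hN, Units.val_one, one_mul, sub_add_cancel] at this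
    exact this
  obtain ⟨t, ht, hsum⟩ := exists_sum_eq_natCast_add q L (orderOf σ)
    (fun i => helper3.xi q L K σ x i)
    (fun i => Subgroup.prod_mem _ fun k _ => helper3.smul_mem_princUnits' q L K (σ ^ k) hx)
  have hs2 : s = 1 + qElt q L * (c * t) := by
    rw [hs1, hsum, add_mul, hnc]
    ring
  obtain ⟨w, hw, hws⟩ := helper24.exists_oneUnit q L (c * t) (hcint.mul ht)
  rw [← hs2] at hws
  have hw' : w ∈ princUnits q L := by
    rw [helper5.princUnits_eq_oneUnits]
    exact hw
  have hxw : x * σ • w = w := by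
    apply Units.ext
    rw [Units.val_mul, helper3.coe_smul_units_eq, hws]
    exact hrel
  refine ⟨w⁻¹, inv_mem hw', ?_⟩
  rw [smul_inv', inv_div_inv, div_eq_iff_eq_mul]
  exact hxw.symm

/-- LAT-1 at the primes `q ∤ [L : K]`: the principal units are a `G`-stable cohomologically
trivial subgroup of finite index of the integral units. -/
theorem exists_trivial_unit_subgroup_of_not_dvd (hq : ¬ q ∣ Fintype.card Gal(L/K))
    (σ : Gal(L/K)) (hσ : ∀ τ : Gal(L/K), τ ∈ Subgroup.zpowers σ) :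
    ∃ V : Subgroup (SemiLoc q L)ˣ, V ≤ intUnits q L ∧
      (∀ (τ : Gal(L/K)) (x : (SemiLoc q L)ˣ), x ∈ V → τ • x ∈ V) ∧
      V.relIndex (intUnits q L) ≠ 0 ∧
      (∀ x ∈ V, (∀ τ : Gal(L/K), τ • x = x) →
        ∃ y ∈ V, normG Gal(L/K) (SemiLoc q L)ˣ y = x) ∧
      (∀ x ∈ V, normG Gal(L/K) (SemiLoc q L)ˣ x = 1 → ∃ y ∈ V, σ • y / y = x) := by
  classical
  refine ⟨princUnits q L, helper3.princUnits_le_intUnits' q L,
    fun τ x hx => helper3.smul_mem_princUnits' q L K τ hx, ?_,
    fun x hx hfix => exists_normG_eq_of_fixed_princUnits K L q hq x hx hfix,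
    fun x hx hN => exists_deltaHom_eq_of_normG_princUnits K L q hq σ hσ x hx hN⟩
  let ι := Module.Free.ChooseBasisIndex ℤ (𝓞 L)
  let ε : ι ≃ Fin (Fintype.card ι) := Fintype.equivFin ι
  refine helper3.relIndex_princUnits_ne_zero q L
    (fun k => helper24.sbasis q L (ε.symm k)) (fun k => helper24.isIntegral_sbasis q L _) ?_
  intro z hz
  obtain ⟨c, hc⟩ := helper3.exists_repr_of_isIntegral q L z hz
  refine ⟨fun k => c (ε.symm k), ?_⟩
  rw [hc]
  exact (Equiv.sum_comp ε.symm (fun i => c i • helper24.sbasis q L i)).symm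

/-- LAT-2 (almost all `q`): the principal units `1 + q 𝓞` are cohomologically trivial. -/
theorem exists_finset_princUnits_trivial
    (σ : Gal(L/K)) (hσ : ∀ τ : Gal(L/K), τ ∈ Subgroup.zpowers σ) :
    ∃ T : Finset Nat.Primes, ∀ q : Nat.Primes, q ∉ T →
      (∀ x ∈ princUnits (q : ℕ) L, (∀ τ : Gal(L/K), τ • x = x) →
        ∃ y ∈ princUnits (q : ℕ) L, normG Gal(L/K) (SemiLoc (q : ℕ) L)ˣ y = x) ∧
      (∀ x ∈ princUnits (q : ℕ) L, normG Gal(L/K) (SemiLoc (q : ℕ) L)ˣ x = 1 →
        ∃ y ∈ princUnits (q : ℕ) L, σ • y / y = x) := by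
  classical
  let T : Finset Nat.Primes := (Finset.range (Fintype.card Gal(L/K) + 1)).subtype Nat.Prime
  refine ⟨T, fun q hqT => ?_⟩
  have hq : ¬ (q : ℕ) ∣ Fintype.card Gal(L/K) := by
    intro hdvd
    apply hqT
    refine Finset.mem_subtype.mpr (Finset.mem_range.mpr ?_)
    exact Nat.lt_succ_of_le (Nat.le_of_dvd Fintype.card_pos hdvd)
  exact ⟨fun x hx hfix => exists_normG_eq_of_fixed_princUnits K L (q : ℕ) hq x hx hfix,
    fun x hx hN => exists_deltaHom_eq_of_normG_princUnits K L (q : ℕ) hq σ hσ x hx hN⟩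

end Cohomology

end Fermat.Agent.S55.helper26
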