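import Fermat.Agent.S55.helper13_MulClass
import Fermat.Agent.S55.helper1_Symbol
import Fermat.Agent.S55.helper30_LocKummer
import Fermat.Agent.S55.helper77_LevelDict

/-!
# S55 / LOC-7c (helper27, task 328), part A: the Kummer sequence at finite level, injectivity

`mem_B2_of_mulClass_eq_zero` (verbatim from `helper8_LocInterface2`, section LOC7): if the
multiplicative cocycle `ζ ^ c` of `Gal(L/K)` with values in `Lˣ` is a coboundary, then the
inflation of `c` to `Gal(Ω/K)` is a level coboundary with `ZMod p` coefficients.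

Proof: `ζ ^ c = d y`, so `y ^ p` is a 1-cocycle, `y ^ p = d β` by Hilbert 90; choose
`b ^ p = β` in `Ω`; then `σ b = ζ ^ x(σ) y(σ) b` defines a level-constant `x` with `d x = - c`.
-/

set_option autoImplicit false

namespace Fermat.Agent.S55.helper27

open Fermat.Agent.S55 Fermat.Agent.S55.helper8 Fermat.Agent.S55.helper11 groupCohomology

section generic

/-- the cocycle condition for trivial `ZMod p` coefficients, unfolded -/
lemma mem_ker_d₂₃_trivial_iff {G : Type} [Group G] (p : ℕ) (c : G × G → ZMod p) :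
    c ∈ LinearMap.ker (d₂₃ (Rep.trivial (ZMod p) G (ZMod p))).hom ↔
      ∀ g h j : G, c (h, j) - c (g * h, j) + c (g, h * j) - c (g, h) = 0 := by
  rw [LinearMap.mem_ker]
  constructor
  · intro H g h j
    have := congrFun H (g, h, j)
    rw [d₂₃_hom_apply] at this
    exact this
  · intro H
    funext ⟨g, h, j⟩
    rw [d₂₃_hom_apply]
    exact H g h j

/-- `z ^ (a + b).val = z ^ a.val * z ^ b.val` for `z ^ p = 1` -/
lemma pow_zmod_val_add {p : ℕ} [NeZero p] {M : Type*} [Monoid M] {z : M} (hz : z ^ p = 1)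
    (a b : ZMod p) : z ^ (a + b).val = z ^ a.val * z ^ b.val := by
  rw [ZMod.val_add, ← pow_add, ← pow_eq_pow_mod _ hz]

/-- `ζ ^ c` is a multiplicative cocycle if `c` is a cocycle with trivial coefficients and `ζ` is
an invariant element with `ζ ^ p = 1`. -/
lemma isMulCocycle₂_zetaCochain {G : Type} [Group G] {M : Type} [CommGroup M]
    [MulDistribMulAction G M] (p : ℕ) [NeZero p] (z : M) (hz : z ^ p = 1)
    (hfix : ∀ g : G, g • z = z) (c : G × G → ZMod p)
    (hc : c ∈ LinearMap.ker (d₂₃ (Rep.trivial (ZMod p) G (ZMod p))).hom) :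
    IsMulCocycle₂ (zetaCochain p z c) := by
  have hcz := (mem_ker_d₂₃_trivial_iff p c).1 hc
  intro g h j
  simp only [zetaCochain]
  rw [smul_pow', hfix, ← pow_zmod_val_add hz, ← pow_zmod_val_add hz]
  congr 2
  linear_combination -(hcz g h j)

end generic

section LOC7c

variable (p : ℕ) [Fact p.Prime]
  (K Ω : Type) [Field K] [Field Ω]
  [Algebra K Ω] [IsAlgClosure K Ω] (ζ : Kˣ) (hζ : IsPrimitiveRoot ζ p)

include hζ in
/-- LOC-7c (Kummer sequence, injectivity): if `ζ ^ c` is a coboundary in `Lˣ`, then `c` is a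
level coboundary (with `ZMod p` coefficients) on `Gal(Ω/K)`. -/
theorem mem_B2_of_mulClass_eq_zero (L : IntermediateField K Ω) [FiniteDimensional K L]
    [IsGalois K L] (c : (L ≃ₐ[K] L) × (L ≃ₐ[K] L) → ZMod p)
    (hc : c ∈ LinearMap.ker (d₂₃ (Rep.trivial (ZMod p) (L ≃ₐ[K] L) (ZMod p))).hom)
    (h : mulClass K L (zetaCochain p (Units.map (algebraMap K L : K →* L) ζ) c) = 0) :
    (fun g : (Ω ≃ₐ[K] Ω) × (Ω ≃ₐ[K] Ω) =>
      c (AlgEquiv.restrictNormalHom L g.1, AlgEquiv.restrictNormalHom L g.2)) ∈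
      B2 (galLevels K Ω) (Rep.trivial (ZMod p) (Ω ≃ₐ[K] Ω) (ZMod p)) := by
  classical
  have hp : p.Prime := Fact.out
  have : NeZero p := ⟨hp.ne_zero⟩
  have : IsAlgClosed Ω := IsAlgClosure.isAlgClosed K
  have : Algebra.IsAlgebraic K Ω := IsAlgClosure.isAlgebraic
  have : Normal K Ω := IsAlgClosure.normal K Ω
  set ζL : Lˣ := Units.map (algebraMap K L : K →* L) ζ with hζL
  have hζLp : ζL ^ p = 1 := by rw [hζL, ← map_pow, hζ.pow_eq_one, map_one]
  have hζLfix : ∀ τ : L ≃ₐ[K] L, τ • ζL = ζL :=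
    fun τ => helper1.smul_unitsMap_algebraMap K L ζ τ
  have hcoc : IsMulCocycle₂ (zetaCochain p ζL c) :=
    isMulCocycle₂_zetaCochain p ζL hζLp hζLfix c hc
  obtain ⟨y, hy⟩ := (helper13.mulClass_eq_zero_iff K L hcoc).1 h
  -- `y ^ p` is a 1-cocycle
  have hyp : IsMulCocycle₁ (fun g => (y g) ^ p) := by
    intro g h
    have h0 : (zetaCochain p ζL c (g, h)) ^ p = 1 := by
      show (ζL ^ (c (g, h)).val) ^ p = 1
      rw [← pow_mul, mul_comm, pow_mul, hζLp, one_pow]
    have h1 : (g • y h / y (g * h) * y g) ^ p = 1 := by rw [hy g h, h0]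
    show y (g * h) ^ p = g • (y h ^ p) * y g ^ p
    rw [smul_pow']
    rw [div_mul_eq_mul_div, div_pow, div_eq_one, mul_pow] at h1
    exact h1.symm
  obtain ⟨β, hβ⟩ := isMulCoboundary₁_of_isMulCocycle₁_of_aut_to_units _ hyp
  -- a `p`-th root of `β` in `Ω`
  obtain ⟨b, hb⟩ := IsAlgClosed.exists_pow_nat_eq (algebraMap L Ω (β : L)) hp.pos
  have hβ0 : algebraMap L Ω (β : L) ≠ 0 := by
    rw [Ne, map_eq_zero]
    exact β.ne_zero
  have hb0 : b ≠ 0 := by
    rintro rfl
    rw [zero_pow hp.ne_zero] at hb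
    exact hβ0 hb.symm
  -- notation
  set z : Ω := algebraMap K Ω (ζ : K) with hz
  have hzprim : IsPrimitiveRoot z p := by
    have := hζ.map_of_injective (f := Units.coeHom K) Units.val_injective
    exact this.map_of_injective (algebraMap K Ω).injective
  have hzfix : ∀ σ : Ω ≃ₐ[K] Ω, σ z = z := fun σ => σ.commutes _
  let r : (Ω ≃ₐ[K] Ω) →* (L ≃ₐ[K] L) := AlgEquiv.restrictNormalHom L
  have hr : ∀ (σ : Ω ≃ₐ[K] Ω) (x : L), σ (algebraMap L Ω x) = algebraMap L Ω (r σ x) :=
    fun σ x => (AlgEquiv.restrictNormal_commutes σ L x).symm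
  let Y : (Ω ≃ₐ[K] Ω) → Ω := fun σ => algebraMap L Ω (y (r σ) : L)
  have hY0 : ∀ σ, Y σ ≠ 0 := fun σ => by
    show algebraMap L Ω (y (r σ) : L) ≠ 0
    rw [Ne, map_eq_zero]
    exact (y (r σ)).ne_zero
  -- Fact 1
  have hF1 : ∀ σ : Ω ≃ₐ[K] Ω, (σ b) ^ p = (Y σ) ^ p * b ^ p := by
    intro σ
    rw [← map_pow, hb, hr]
    have h1 : r σ • β / β = y (r σ) ^ p := hβ (r σ)
    have h2 : (r σ • β : Lˣ) = y (r σ) ^ p * β := by
      rw [← h1, div_mul_cancel]
    have h3 : r σ (β : L) = (y (r σ) : L) ^ p * (β : L) := by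
      have := congrArg (fun u : Lˣ => (u : L)) h2
      simpa using this
    rw [h3, map_mul, map_pow]
  -- Fact 2
  have hF2 : ∀ σ : Ω ≃ₐ[K] Ω, ∃ x : ZMod p, σ b = z ^ x.val * Y σ * b := by
    intro σ
    have h1 : (σ b / (Y σ * b)) ^ p = 1 := by
      rw [div_pow, mul_pow, hF1 σ]
      exact div_self (mul_ne_zero (pow_ne_zero _ (hY0 σ)) (pow_ne_zero _ hb0))
    obtain ⟨i, hi, hi'⟩ := hzprim.eq_pow_of_pow_eq_one h1
    refine ⟨(i : ZMod p), ?_⟩
    rw [ZMod.val_natCast, Nat.mod_eq_of_lt hi, hi', mul_assoc,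
      div_mul_cancel₀ _ (mul_ne_zero (hY0 σ) hb0)]
  choose x hx using hF2
  -- Fact 3
  have hF3 : ∀ σ τ : Ω ≃ₐ[K] Ω, σ (Y τ) * Y σ = z ^ (c (r σ, r τ)).val * Y (σ * τ) := by
    intro σ τ
    have h1 := hy (r σ) (r τ)
    have h2 : (r σ • y (r τ)) * y (r σ) = zetaCochain p ζL c (r σ, r τ) * y (r σ * r τ) := by
      rw [← h1]
      rw [div_mul_eq_mul_div, div_mul_cancel]
    have h3 := congrArg (fun u : Lˣ => algebraMap L Ω (u : L)) h2
    simp only [zetaCochain, Units.val_mul, Units.val_pow_eq_pow_val, map_mul, map_pow] at h3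
    have e1 : ((r σ • y (r τ) : Lˣ) : L) = r σ (y (r τ) : L) := rfl
    have e2 : algebraMap L Ω (ζL : L) = z := (IsScalarTower.algebraMap_apply K L Ω _).symm
    rw [e1, e2] at h3
    show σ (algebraMap L Ω (y (r τ) : L)) * algebraMap L Ω (y (r σ) : L) =
      z ^ (c (r σ, r τ)).val * algebraMap L Ω (y (r (σ * τ)) : L)
    rw [hr, map_mul]
    exact h3
  -- the key relation
  have hzp : z ^ p = 1 := hzprim.pow_eq_one
  have hkey : ∀ σ τ : Ω ≃ₐ[K] Ω, x (σ * τ) = x σ + x τ + c (r σ, r τ) := by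
    intro σ τ
    apply helper30.zmod_eq_of_pow_eq hzprim
    rw [pow_zmod_val_add hzp, pow_zmod_val_add hzp]
    have h1 : (σ * τ) b = z ^ (x (σ * τ)).val * Y (σ * τ) * b := hx (σ * τ)
    have h2 : (σ * τ) b = z ^ (x τ).val * (σ (Y τ)) * (z ^ (x σ).val * Y σ * b) := by
      rw [AlgEquiv.mul_apply, hx τ, map_mul, map_mul, map_pow, hzfix, hx σ]
    rw [h1] at h2
    have h4 : z ^ (x (σ * τ)).val * Y (σ * τ) * b =
        z ^ (x σ).val * z ^ (x τ).val * z ^ (c (r σ, r τ)).val * Y (σ * τ) * b := by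
      rw [h2]
      calc z ^ (x τ).val * σ (Y τ) * (z ^ (x σ).val * Y σ * b)
          = z ^ (x σ).val * z ^ (x τ).val * (σ (Y τ) * Y σ) * b := by ring
        _ = _ := by rw [hF3]; ring
    have h3 := mul_right_cancel₀ hb0 h4
    exact mul_right_cancel₀ (hY0 (σ * τ)) h3
  -- the level
  have : FiniteDimensional K (IntermediateField.adjoin K ({b} : Set Ω)) :=
    IntermediateField.adjoin.finiteDimensional (Algebra.IsIntegral.isIntegral b)
  let M₀ : IntermediateField K Ω := L ⊔ IntermediateField.adjoin K ({b} : Set Ω)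
  let M : IntermediateField K Ω := IntermediateField.normalClosure K M₀ Ω
  have : FiniteDimensional K M₀ := IntermediateField.finiteDimensional_sup _ _
  have : FiniteDimensional K M := normalClosure.is_finiteDimensional K M₀ Ω
  have : Normal K M := normalClosure.normal K M₀ Ω
  have hLM : L ≤ M := le_sup_left.trans (IntermediateField.le_normalClosure M₀)
  have hbM : b ∈ M := by
    apply IntermediateField.le_normalClosure M₀
    apply (le_sup_right : IntermediateField.adjoin K ({b} : Set Ω) ≤ M₀)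
    exact IntermediateField.mem_adjoin_simple_self K b
  have hlev : ∀ (g : Ω ≃ₐ[K] Ω), ∀ s ∈ M.fixingSubgroup, x (g * s) = x g := by
    intro g s hs
    have hsb : s b = b := (IntermediateField.mem_fixingSubgroup_iff M s).1 hs b hbM
    have hsL : r s = 1 := by
      have : s ∈ L.fixingSubgroup := IntermediateField.fixingSubgroup_antitone hLM hs
      rwa [← IntermediateField.restrictNormalHom_ker, MonoidHom.mem_ker] at this
    have hY : Y (g * s) = Y g := by
      show algebraMap L Ω (y (r (g * s)) : L) = algebraMap L Ω (y (r g) : L)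
      rw [map_mul, hsL, mul_one]
    apply helper30.zmod_eq_of_pow_eq hzprim
    have h1 : (g * s) b = z ^ (x (g * s)).val * Y (g * s) * b := hx (g * s)
    rw [AlgEquiv.mul_apply, hsb, hx g, hY] at h1
    have h2 := mul_right_cancel₀ hb0 h1
    exact (mul_right_cancel₀ (hY0 g) h2).symm
  -- conclusion
  refine ⟨-x, ⟨M.fixingSubgroup, helper77.fixingSubgroup_mem_galLevels K Ω M, ?_⟩, ?_⟩
  · intro g s hs
    show -x (g * s) = -x g
    rw [hlev g s hs]
  · funext ⟨σ, τ⟩
    rw [d₁₂_hom_apply]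
    show (-x) τ - (-x) (σ * τ) + (-x) σ = c (r σ, r τ)
    simp only [Pi.neg_apply]
    rw [hkey σ τ]
    ring

end LOC7c

end Fermat.Agent.S55.helper27
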