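/-
S55-LOC-1 (task 233, helper27), part A: valuation API for a `q`-adic field from the LOC-0 facts
(taken as a hypothesis bundle `LocFacts`), unit filtration, binomial lemma.
-/
import Fermat.Agent.S55.helper8_LocDefs

set_option autoImplicit false
set_option linter.unusedSectionVars false

namespace Fermat.Agent.S55.helper27

open Fermat.Agent.S55.helper8

variable (q : ℕ) [Fact q.Prime]

/-- The LOC-0a / LOC-0b facts used by LOC-1, verbatim from the LOC interface (helper8). -/
structure LocFacts (K : Type) [Field K] [Algebra ℚ_[q] K] [FiniteDimensional ℚ_[q] K] :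
    Prop where
  fdeg_pos : 0 < fdeg q K
  edeg_pos : 0 < edeg q K
  edeg_mul_fdeg : edeg q K * fdeg q K = Module.finrank ℚ_[q] K
  ord_mul : ∀ a b : Kˣ, ord q K (a * b) = ord q K a + ord q K b
  exists_ord_eq_one : ∃ π : Kˣ, ord q K π = 1
  ord_algebraMap_padic : ∀ x : ℚ_[q]ˣ,
    ord q K (Units.map (algebraMap ℚ_[q] K : ℚ_[q] →* K) x) =
      (edeg q K : ℤ) * Padic.valuation (x : ℚ_[q])
  ordT_add_ge : ∀ x y : K, min (ordT q K x) (ordT q K y) ≤ ordT q K (x + y)
  exists_representatives :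
    ∃ S : Finset K, S.card = q ^ fdeg q K ∧ (∀ s ∈ S, 0 ≤ ordT q K s) ∧
      ∀ x : K, 0 ≤ ordT q K x → ∃! s, s ∈ S ∧ 0 < ordT q K (x - s)
  hensel : ∀ (f : Polynomial K), (∀ i, 0 ≤ ordT q K (f.coeff i)) → ∀ a : K,
    0 ≤ ordT q K a →
    2 • ordT q K (f.derivative.eval a) < ordT q K (f.eval a) →
    ∃ b : K, f.eval b = 0 ∧ ordT q K (f.derivative.eval a) < ordT q K (b - a)

variable {q} {K : Type} [Field K] [Algebra ℚ_[q] K] [FiniteDimensional ℚ_[q] K]

namespace LocFacts

variable (h : LocFacts q K)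
include h

lemma ord_one : ord q K 1 = 0 := by
  have := h.ord_mul 1 1
  rw [mul_one] at this
  omega

lemma ord_inv (a : Kˣ) : ord q K a⁻¹ = - ord q K a := by
  have := h.ord_mul a a⁻¹
  rw [mul_inv_cancel, h.ord_one] at this
  omega

omit h in
lemma ordT_zero : ordT q K 0 = ⊤ := by
  simp [ordT]

omit h in
lemma ordT_of_ne_zero {x : K} (hx : x ≠ 0) : ordT q K x = ((ord q K (Units.mk0 x hx) : ℤ) : WithTop ℤ) := by
  simp [ordT, hx]

omit h in
lemma ordT_unit (a : Kˣ) : ordT q K (a : K) = ((ord q K a : ℤ) : WithTop ℤ) := by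
  rw [ordT_of_ne_zero a.ne_zero]
  congr 2
  exact Units.ext rfl

lemma ordT_one : ordT q K 1 = 0 := by
  have := ordT_unit (q := q) (1 : Kˣ)
  rw [Units.val_one, h.ord_one] at this
  simpa using this

lemma ordT_mul (x y : K) : ordT q K (x * y) = ordT q K x + ordT q K y := by
  by_cases hx : x = 0
  · simp [hx, ordT_zero]
  by_cases hy : y = 0
  · simp [hy, ordT_zero]
  have hxy : x * y ≠ 0 := mul_ne_zero hx hy
  rw [ordT_of_ne_zero hx, ordT_of_ne_zero hy, ordT_of_ne_zero hxy, ← WithTop.coe_add,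
    ← h.ord_mul]
  congr 2
  exact Units.ext rfl

/-- The normalised valuation as an `AddValuation`. -/
noncomputable def addVal : AddValuation K (WithTop ℤ) :=
  AddValuation.of (ordT q K) ordT_zero h.ordT_one h.ordT_add_ge h.ordT_mul

@[simp] lemma addVal_apply (x : K) : h.addVal x = ordT q K x := rfl

lemma ordT_neg (x : K) : ordT q K (-x) = ordT q K x := h.addVal.map_neg x

lemma ordT_sub_ge (x y : K) : min (ordT q K x) (ordT q K y) ≤ ordT q K (x - y) :=
  h.addVal.map_sub x y

lemma ordT_pow (x : K) (n : ℕ) : ordT q K (x ^ n) = n • ordT q K x := h.addVal.map_pow x n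

lemma ordT_eq_top_iff {x : K} : ordT q K x = ⊤ ↔ x = 0 := h.addVal.top_iff

lemma ordT_natCast_nonneg (n : ℕ) : 0 ≤ ordT q K (n : K) := by
  induction n with
  | zero => simp [ordT_zero]
  | succ n ih =>
    rw [Nat.cast_succ]
    exact le_trans (le_min ih (by rw [h.ordT_one])) (h.ordT_add_ge _ _)

lemma ordT_intCast_nonneg (n : ℤ) : 0 ≤ ordT q K (n : K) := by
  rcases Int.eq_nat_or_neg n with ⟨m, rfl | rfl⟩
  · simpa using h.ordT_natCast_nonneg m
  · rw [Int.cast_neg, h.ordT_neg]; simpa using h.ordT_natCast_nonneg m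

lemma ordT_add_eq_of_lt {x y : K} (hxy : ordT q K x < ordT q K y) :
    ordT q K (x + y) = ordT q K x :=
  h.addVal.map_add_eq_of_lt_left hxy

lemma ordT_sub_swap (x y : K) : ordT q K (x - y) = ordT q K (y - x) :=
  h.addVal.map_sub_swap x y

/-- The ring of integers `{x | 0 ≤ ord x}`. -/
def intRing : Subring K where
  carrier := {x | 0 ≤ ordT q K x}
  mul_mem' {a b} ha hb := by
    change 0 ≤ ordT q K (a * b)
    rw [h.ordT_mul]
    exact add_nonneg ha hb
  one_mem' := by change 0 ≤ ordT q K 1; rw [h.ordT_one]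
  add_mem' {a b} ha hb := le_trans (le_min ha hb) (h.ordT_add_ge a b)
  zero_mem' := by change 0 ≤ ordT q K 0; rw [ordT_zero]; exact le_top
  neg_mem' {a} ha := by change 0 ≤ ordT q K (-a); rw [h.ordT_neg]; exact ha

lemma mem_intRing {x : K} : x ∈ h.intRing ↔ 0 ≤ ordT q K x := Iff.rfl

lemma mem_unitGroup_iff (a : Kˣ) : a ∈ unitGroup q K ↔ ord q K a = 0 := by
  constructor
  · intro ha; exact ha.1
  · intro ha
    exact ⟨ha, fun b => by rw [h.ord_mul, ha, zero_add]⟩

end LocFacts

end Fermat.Agent.S55.helper27
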