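/-
S55-LOC-1 (task 233, helper27), part C: the unit filtration `U^(m)` of a `q`-adic field:
subgroups, successive quotients, the `p`-power map on `U^(m)`.
-/
import Fermat.Agent.S55.helper27_LocPowA

set_option autoImplicit false
set_option linter.unusedSectionVars false

namespace Fermat.Agent.S55.helper27

open Fermat.Agent.S55.helper8

section GroupLemmas

variable {G : Type*} [Group G]

/-- If `f : G → T` is surjective on `K` with fibres the cosets of `H` (inside `K`), then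
`[K : H] = |T|`. -/
theorem relIndex_eq_card_of_surjOn (H K : Subgroup G) {T : Type*} (f : G → T)
    (hsurj : ∀ t, ∃ a ∈ K, f a = t)
    (hker : ∀ a ∈ K, ∀ b ∈ K, f a = f b ↔ a⁻¹ * b ∈ H) : H.relIndex K = Nat.card T := by
  rw [Subgroup.relIndex, Subgroup.index]
  let g : (↥K ⧸ H.subgroupOf K) → T :=
    Quotient.lift (fun a : K => f (a : G)) (by
      intro a b hab
      have := QuotientGroup.leftRel_apply.1 hab
      rw [Subgroup.mem_subgroupOf] at this
      exact (hker a a.2 b b.2).2 (by simpa using this))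
  refine Nat.card_congr (Equiv.ofBijective g ⟨?_, ?_⟩)
  · intro x y
    induction x using Quotient.inductionOn with | _ a => ?_
    induction y using Quotient.inductionOn with | _ b => ?_
    intro hxy
    apply Quotient.sound
    apply QuotientGroup.leftRel_apply.2
    rw [Subgroup.mem_subgroupOf]
    have := (hker a a.2 b b.2).1 hxy
    simpa using this
  · intro t
    obtain ⟨a, ha, rfl⟩ := hsurj t
    exact ⟨Quotient.mk _ ⟨a, ha⟩, rfl⟩

/-- If `f : G → T` separates the cosets of `H` inside `K` and `T` is finite, then `[K : H]`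
is finite. -/
theorem relIndex_ne_zero_of_injOn (H K : Subgroup G) {T : Type*} [Finite T] (f : G → T)
    (hker : ∀ a ∈ K, ∀ b ∈ K, f a = f b → a⁻¹ * b ∈ H) : H.relIndex K ≠ 0 := by
  rw [Subgroup.relIndex, Subgroup.index]
  let g : (↥K ⧸ H.subgroupOf K) → T := fun x => f ((Quotient.out x : K) : G)
  have hg : Function.Injective g := by
    intro x y hxy
    have h1 := hker _ (Quotient.out x).2 _ (Quotient.out y).2 hxy
    have h2 : (Quotient.mk _ (Quotient.out x) : ↥K ⧸ H.subgroupOf K)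
        = Quotient.mk _ (Quotient.out y) := by
      apply Quotient.sound
      apply QuotientGroup.leftRel_apply.2
      rw [Subgroup.mem_subgroupOf]
      simpa using h1
    rwa [Quotient.out_eq, Quotient.out_eq] at h2
  have : Finite (↥K ⧸ H.subgroupOf K) := Finite.of_injective g hg
  exact Nat.card_pos.ne'

end GroupLemmas

section WithTopInt

lemma wt_le_add_coe_iff (t : WithTop ℤ) (a b : ℤ) :
    (a : WithTop ℤ) ≤ t + (b : WithTop ℤ) ↔ ((a - b : ℤ) : WithTop ℤ) ≤ t := by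
  induction t using WithTop.recTopCoe with
  | top => simp
  | coe n =>
    rw [← WithTop.coe_add, WithTop.coe_le_coe, WithTop.coe_le_coe]
    omega

lemma wt_lt_add_coe_iff (t : WithTop ℤ) (a b : ℤ) :
    (a : WithTop ℤ) < t + (b : WithTop ℤ) ↔ ((a - b : ℤ) : WithTop ℤ) < t := by
  induction t using WithTop.recTopCoe with
  | top =>
    rw [WithTop.top_add]
    exact ⟨fun _ => WithTop.coe_lt_top _, fun _ => WithTop.coe_lt_top _⟩
  | coe n =>
    rw [← WithTop.coe_add, WithTop.coe_lt_coe, WithTop.coe_lt_coe]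
    omega

lemma wt_lt_iff_add_one_le (t : WithTop ℤ) (a : ℤ) :
    (a : WithTop ℤ) < t ↔ ((a + 1 : ℤ) : WithTop ℤ) ≤ t := by
  induction t using WithTop.recTopCoe with
  | top => simp
  | coe n =>
    rw [WithTop.coe_le_coe, WithTop.coe_lt_coe]
    omega

end WithTopInt

variable {q : ℕ} [Fact q.Prime] {K : Type} [Field K] [Algebra ℚ_[q] K]
  [FiniteDimensional ℚ_[q] K]

namespace LocFacts

variable (h : LocFacts q K)
include h

/-- `ord` as a monoid homomorphism. -/
noncomputable def ordHom : Kˣ →* Multiplicative ℤ where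
  toFun a := Multiplicative.ofAdd (ord q K a)
  map_one' := by rw [h.ord_one]; rfl
  map_mul' a b := by rw [h.ord_mul]; rfl

lemma ordHom_apply (a : Kˣ) : h.ordHom a = Multiplicative.ofAdd (ord q K a) := rfl

lemma ord_pow (a : Kˣ) (n : ℕ) : ord q K (a ^ n) = n * ord q K a := by
  have := map_pow h.ordHom a n
  rw [ordHom_apply, ordHom_apply, ← ofAdd_nsmul] at this
  have h2 := Multiplicative.ofAdd.injective this
  rw [h2, nsmul_eq_mul]

lemma ord_zpow (a : Kˣ) (n : ℤ) : ord q K (a ^ n) = n * ord q K a := by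
  have := map_zpow h.ordHom a n
  rw [ordHom_apply, ordHom_apply, ← ofAdd_zsmul] at this
  have h2 := Multiplicative.ofAdd.injective this
  rw [h2, smul_eq_mul]

/-- A unit congruent to `1` modulo the maximal ideal has `ord = 0`. -/
lemma ord_eq_zero_of_lt {a : Kˣ} (ha : 0 < ordT q K ((a : K) - 1)) : ord q K a = 0 := by
  have h1 : ordT q K (1 + ((a : K) - 1)) = ordT q K 1 :=
    h.ordT_add_eq_of_lt (by rw [h.ordT_one]; exact ha)
  rw [add_sub_cancel, ordT_unit, h.ordT_one] at h1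
  exact_mod_cast h1

lemma mem_principalUnits_iff {m : ℕ} {a : Kˣ} :
    a ∈ principalUnits q K m ↔ ord q K a = 0 ∧ (m : WithTop ℤ) ≤ ordT q K ((a : K) - 1) := by
  change (a ∈ unitGroup q K ∧ _) ↔ _
  rw [h.mem_unitGroup_iff]

/-- The principal units `U^(m)` as a subgroup. -/
def pu (m : ℕ) : Subgroup Kˣ where
  carrier := principalUnits q K m
  one_mem' := by
    rw [h.mem_principalUnits_iff]
    refine ⟨h.ord_one, ?_⟩
    rw [Units.val_one, sub_self, ordT_zero]
    exact le_top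
  mul_mem' := by
    intro a b ha hb
    rw [h.mem_principalUnits_iff] at ha hb ⊢
    refine ⟨by rw [h.ord_mul, ha.1, hb.1, add_zero], ?_⟩
    have e : ((a * b : Kˣ) : K) - 1 = ((a : K) - 1) * (b : K) + ((b : K) - 1) := by
      rw [Units.val_mul]; ring
    rw [e]
    refine le_trans (le_min ?_ hb.2) (h.ordT_add_ge _ _)
    rw [h.ordT_mul, ordT_unit b, hb.1]
    simpa using ha.2
  inv_mem' := by
    intro a ha
    rw [h.mem_principalUnits_iff] at ha ⊢
    refine ⟨by rw [h.ord_inv, ha.1, neg_zero], ?_⟩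
    have e : ((a⁻¹ : Kˣ) : K) - 1 = -(((a : K) - 1) * ((a⁻¹ : Kˣ) : K)) := by
      have : (a : K) * ((a⁻¹ : Kˣ) : K) = 1 := by rw [← Units.val_mul, mul_inv_cancel, Units.val_one]
      rw [sub_mul, this]; ring
    rw [e, h.ordT_neg, h.ordT_mul, ordT_unit a⁻¹, h.ord_inv, ha.1]
    simpa using ha.2

lemma mem_pu_iff {m : ℕ} {a : Kˣ} :
    a ∈ h.pu m ↔ ord q K a = 0 ∧ (m : WithTop ℤ) ≤ ordT q K ((a : K) - 1) :=
  h.mem_principalUnits_iff

lemma mem_pu_iff_principalUnits {m : ℕ} {a : Kˣ} : a ∈ h.pu m ↔ a ∈ principalUnits q K m :=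
  Iff.rfl

lemma mem_pu_succ_iff {m : ℕ} {a : Kˣ} :
    a ∈ h.pu (m + 1) ↔ ((m + 1 : ℕ) : WithTop ℤ) ≤ ordT q K ((a : K) - 1) := by
  rw [h.mem_pu_iff]
  constructor
  · exact fun hh => hh.2
  · intro hh
    refine ⟨h.ord_eq_zero_of_lt (lt_of_lt_of_le ?_ hh), hh⟩
    exact_mod_cast Nat.succ_pos m

lemma pu_anti {m n : ℕ} (hmn : m ≤ n) : h.pu n ≤ h.pu m := by
  intro a ha
  rw [h.mem_pu_iff] at ha ⊢
  refine ⟨ha.1, le_trans ?_ ha.2⟩
  exact_mod_cast hmn

lemma pu_zero_eq : h.pu 0 = unitGroup q K := by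
  ext a
  rw [h.mem_pu_iff, h.mem_unitGroup_iff]
  constructor
  · exact fun hh => hh.1
  · intro ha
    refine ⟨ha, ?_⟩
    have : (0 : WithTop ℤ) ≤ ordT q K ((a : K) - 1) := by
      refine le_trans (le_min ?_ ?_) (h.ordT_sub_ge _ _)
      · rw [ordT_unit, ha]; rfl
      · rw [h.ordT_one]
    simpa using this

/-- `ordT (x * π ^ (-j)) = ordT x - j`. -/
lemma ordT_mul_zpow (x : K) (π : Kˣ) (hπ : ord q K π = 1) (j : ℤ) :
    ordT q K (x * ((π ^ j : Kˣ) : K)) = ordT q K x + ((j : ℤ) : WithTop ℤ) := by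
  rw [h.ordT_mul, ordT_unit, h.ord_zpow, hπ, mul_one]

/-- Successive quotients of the unit filtration: `[U^(j) : U^(j+1)] = q ^ f` for `j ≥ 1`. -/
theorem relIndex_pu_succ (j : ℕ) (hj : 1 ≤ j) :
    (h.pu (j + 1)).relIndex (h.pu j) = q ^ fdeg q K := by
  classical
  obtain ⟨π, hπ⟩ := h.exists_ord_eq_one
  obtain ⟨S, hScard, hSint, hS⟩ := h.exists_representatives
  -- the coordinate `x_u = (u - 1) / π ^ j`
  set X : Kˣ → K := fun u => ((u : K) - 1) * ((π ^ (-(j : ℤ)) : Kˣ) : K) with hX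
  have hXint : ∀ u ∈ h.pu j, 0 ≤ ordT q K (X u) := by
    intro u hu
    rw [hX]
    simp only
    rw [h.ordT_mul_zpow _ π hπ]
    have := (h.mem_pu_iff.1 hu).2
    have e0 : (0 : WithTop ℤ) = ((0 : ℤ) : WithTop ℤ) := rfl
    rw [e0, wt_le_add_coe_iff]
    simpa using this
  have hSne : S.Nonempty := by
    rw [← Finset.card_pos, hScard]
    exact pow_pos (Fact.out : q.Prime).pos _
  obtain ⟨s₀, hs₀⟩ := hSne
  let T := {s // s ∈ S}
  let f : Kˣ → T := fun u =>
    if hx : 0 ≤ ordT q K (X u) then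
      ⟨Classical.choose (hS (X u) hx).exists, (Classical.choose_spec (hS (X u) hx).exists).1⟩
    else ⟨s₀, hs₀⟩
  have hf_spec : ∀ u ∈ h.pu j, 0 < ordT q K (X u - (f u : K)) := by
    intro u hu
    have hx := hXint u hu
    simp only [f, dif_pos hx]
    exact (Classical.choose_spec (hS (X u) hx).exists).2
  have hf_unique : ∀ u ∈ h.pu j, ∀ s ∈ S, 0 < ordT q K (X u - s) → (f u : K) = s := by
    intro u hu s hs hlt
    have hx := hXint u hu
    exact (hS (X u) hx).unique ⟨(f u).2, hf_spec u hu⟩ ⟨hs, hlt⟩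
  have hcardT : Nat.card T = q ^ fdeg q K := by
    rw [Nat.card_eq_fintype_card, Fintype.card_coe, hScard]
  rw [← hcardT]
  -- key equivalence
  have hkey : ∀ a ∈ h.pu j, ∀ b ∈ h.pu j,
      (0 < ordT q K (X a - X b) ↔ a⁻¹ * b ∈ h.pu (j + 1)) := by
    intro a ha b hb
    rw [h.mem_pu_succ_iff]
    have e1 : X a - X b = ((a : K) - (b : K)) * ((π ^ (-(j : ℤ)) : Kˣ) : K) := by
      simp only [hX]; ring
    have e2 : ((a⁻¹ * b : Kˣ) : K) - 1 = -(((a : K) - (b : K)) * ((a⁻¹ : Kˣ) : K)) := by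
      have : (a : K) * ((a⁻¹ : Kˣ) : K) = 1 := by
        rw [← Units.val_mul, mul_inv_cancel, Units.val_one]
      rw [Units.val_mul, sub_mul, this]; ring
    have e3 : ordT q K (-(((a : K) - (b : K)) * ((a⁻¹ : Kˣ) : K)))
        = ordT q K ((a : K) - (b : K)) := by
      rw [h.ordT_neg, h.ordT_mul, ordT_unit a⁻¹, h.ord_inv, (h.mem_pu_iff.1 ha).1]
      simp
    rw [e1, e2, e3, h.ordT_mul_zpow _ π hπ]
    have e0 : (0 : WithTop ℤ) = ((0 : ℤ) : WithTop ℤ) := rfl
    rw [e0, wt_lt_add_coe_iff, wt_lt_iff_add_one_le]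
    simp only [sub_neg_eq_add, zero_add]
    norm_cast
  refine relIndex_eq_card_of_surjOn _ _ f ?_ ?_
  · -- surjectivity
    rintro ⟨s, hs⟩
    have hπj : ordT q K (((π ^ j : Kˣ) : K) * s) = ((j : ℤ) : WithTop ℤ) + ordT q K s := by
      rw [h.ordT_mul, ordT_unit, h.ord_pow, hπ, mul_one]
    have hpos : 0 < ordT q K (((π ^ j : Kˣ) : K) * s) := by
      rw [hπj]
      have h1 : (0 : WithTop ℤ) < ((j : ℤ) : WithTop ℤ) := by exact_mod_cast hj
      exact lt_of_lt_of_le h1 (le_add_of_nonneg_right (hSint s hs))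
    have hu0 : (1 + ((π ^ j : Kˣ) : K) * s) ≠ 0 := by
      intro h0
      have h1 : ordT q K (1 + ((π ^ j : Kˣ) : K) * s) = ordT q K 1 :=
        h.ordT_add_eq_of_lt (by rw [h.ordT_one]; exact hpos)
      rw [h0, ordT_zero, h.ordT_one] at h1
      exact WithTop.top_ne_zero h1
    set u : Kˣ := Units.mk0 _ hu0 with hu
    have hu1 : ((u : K) - 1) = ((π ^ j : Kˣ) : K) * s := by
      rw [hu, Units.val_mk0]; ring
    have humem : u ∈ h.pu j := by
      obtain ⟨j', rfl⟩ : ∃ j', j = j' + 1 := ⟨j - 1, by omega⟩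
      rw [h.mem_pu_succ_iff, hu1, hπj]
      have : (((j' + 1 : ℕ) : ℤ) : WithTop ℤ) ≤ (((j' + 1 : ℕ) : ℤ) : WithTop ℤ) + ordT q K s :=
        le_add_of_nonneg_right (hSint s hs)
      exact_mod_cast this
    refine ⟨u, humem, ?_⟩
    apply Subtype.ext
    apply hf_unique u humem s hs
    have : X u = s := by
      simp only [hX]
      rw [hu1, mul_comm (((π ^ j : Kˣ) : K)) s, mul_assoc, ← Units.val_mul, ← zpow_natCast,
        ← zpow_add, add_neg_cancel, zpow_zero, Units.val_one, mul_one]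
    rw [this, sub_self, ordT_zero]
    exact WithTop.top_pos
  · -- fibres
    intro a ha b hb
    rw [← hkey a ha b hb]
    constructor
    · intro hab
      have e : X a - X b = (X a - (f a : K)) - (X b - (f b : K)) := by
        rw [hab]; ring
      rw [e]
      exact lt_of_lt_of_le (lt_min (hf_spec a ha) (hf_spec b hb)) (h.ordT_sub_ge _ _)
    · intro hab
      apply Subtype.ext
      apply hf_unique a ha _ (f b).2
      have e : X a - (f b : K) = (X a - X b) + (X b - (f b : K)) := by ring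
      rw [e]
      exact lt_of_lt_of_le (lt_min hab (hf_spec b hb)) (h.ordT_add_ge _ _)

/-- `[U : U^(1)]` is finite. -/
theorem relIndex_pu_one_ne_zero : (h.pu 1).relIndex (h.pu 0) ≠ 0 := by
  classical
  obtain ⟨S, hScard, hSint, hS⟩ := h.exists_representatives
  have hSne : S.Nonempty := by
    rw [← Finset.card_pos, hScard]
    exact pow_pos (Fact.out : q.Prime).pos _
  obtain ⟨s₀, hs₀⟩ := hSne
  have hint : ∀ u ∈ h.pu 0, 0 ≤ ordT q K (u : K) := by
    intro u hu
    rw [ordT_unit, (h.mem_pu_iff.1 hu).1]; rfl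
  let T := {s // s ∈ S}
  let f : Kˣ → T := fun u =>
    if hx : 0 ≤ ordT q K (u : K) then
      ⟨Classical.choose (hS (u : K) hx).exists,
        (Classical.choose_spec (hS (u : K) hx).exists).1⟩
    else ⟨s₀, hs₀⟩
  have hf_spec : ∀ u ∈ h.pu 0, 0 < ordT q K ((u : K) - (f u : K)) := by
    intro u hu
    have hx := hint u hu
    simp only [f, dif_pos hx]
    exact (Classical.choose_spec (hS (u : K) hx).exists).2
  refine relIndex_ne_zero_of_injOn _ _ f ?_
  intro a ha b hb hab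
  have h0 : h.pu (0 + 1) = h.pu 1 := rfl
  rw [← h0, h.mem_pu_succ_iff]
  have e2 : ((a⁻¹ * b : Kˣ) : K) - 1 = -(((a : K) - (b : K)) * ((a⁻¹ : Kˣ) : K)) := by
    have : (a : K) * ((a⁻¹ : Kˣ) : K) = 1 := by
      rw [← Units.val_mul, mul_inv_cancel, Units.val_one]
    rw [Units.val_mul, sub_mul, this]; ring
  have e3 : ordT q K (-(((a : K) - (b : K)) * ((a⁻¹ : Kˣ) : K)))
      = ordT q K ((a : K) - (b : K)) := by
    rw [h.ordT_neg, h.ordT_mul, ordT_unit a⁻¹, h.ord_inv, (h.mem_pu_iff.1 ha).1]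
    simp
  rw [e2, e3]
  have e : (a : K) - (b : K) = ((a : K) - (f a : K)) - ((b : K) - (f b : K)) := by
    rw [hab]; ring
  have hlt : 0 < ordT q K ((a : K) - (b : K)) := by
    rw [e]
    exact lt_of_lt_of_le (lt_min (hf_spec a ha) (hf_spec b hb)) (h.ordT_sub_ge _ _)
  have e0 : (0 : WithTop ℤ) = ((0 : ℤ) : WithTop ℤ) := rfl
  rw [e0, wt_lt_iff_add_one_le] at hlt
  exact_mod_cast hlt

/-- `[U : U^(m)]` is finite. -/
theorem relIndex_pu_ne_zero (m : ℕ) : (h.pu m).relIndex (h.pu 0) ≠ 0 := by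
  induction m with
  | zero => simp
  | succ m ih =>
    rw [← Subgroup.relIndex_mul_relIndex _ _ _ (h.pu_anti (Nat.le_succ m))
      (h.pu_anti (Nat.zero_le m))]
    refine mul_ne_zero ?_ ih
    rcases Nat.eq_zero_or_pos m with rfl | hm
    · exact h.relIndex_pu_one_ne_zero
    · rw [h.relIndex_pu_succ m hm]
      exact pow_ne_zero _ (Fact.out : q.Prime).ne_zero

/-- `[U^(m) : U^(m+k)] = q ^ (f k)` for `m ≥ 1`. -/
theorem relIndex_pu_add (m k : ℕ) (hm : 1 ≤ m) :
    (h.pu (m + k)).relIndex (h.pu m) = q ^ (fdeg q K * k) := by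
  induction k with
  | zero => simp
  | succ k ih =>
    have e1 : m + (k + 1) = (m + k) + 1 := rfl
    rw [e1, ← Subgroup.relIndex_mul_relIndex (h.pu (m + k + 1)) (h.pu (m + k)) (h.pu m)
      (h.pu_anti (Nat.le_succ (m + k))) (h.pu_anti (Nat.le_add_right m k)), ih,
      h.relIndex_pu_succ (m + k) (by omega), ← pow_add]
    congr 1
    ring

end LocFacts

end Fermat.Agent.S55.helper27
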