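/-
S55-LOC-1 (task 233, helper27), part D: the `p`-power map on principal units
(binomial lemma + Hensel), and the valuation of natural numbers.
-/
import Fermat.Agent.S55.helper27_LocPowC

set_option autoImplicit false
set_option linter.unusedSectionVars false

namespace Fermat.Agent.S55.helper27

open Fermat.Agent.S55.helper8

variable {q : ℕ} [Fact q.Prime] {K : Type} [Field K] [Algebra ℚ_[q] K]
  [FiniteDimensional ℚ_[q] K]

namespace LocFacts

variable (h : LocFacts q K)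
include h

lemma charZero : CharZero K :=
  charZero_of_injective_algebraMap (algebraMap ℚ_[q] K).injective

lemma natCast_ne_zero' {n : ℕ} (hn : n ≠ 0) : (n : K) ≠ 0 := by
  have : CharZero K := h.charZero
  exact_mod_cast hn

/-- The valuation of a natural number. -/
lemma ordT_natCast {n : ℕ} (hn : n ≠ 0) :
    ordT q K (n : K) = ((edeg q K * padicValNat q n : ℕ) : WithTop ℤ) := by
  have hn' : (n : ℚ_[q]) ≠ 0 := by exact_mod_cast hn
  have e : (n : K) = ((Units.map (algebraMap ℚ_[q] K : ℚ_[q] →* K) (Units.mk0 (n : ℚ_[q]) hn') : Kˣ) : K) := by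
    simp
  rw [e, ordT_unit, h.ord_algebraMap_padic, Units.val_mk0, Padic.valuation_natCast]
  norm_cast

/-- Binomial lemma: `(1 + x) ^ p - 1 = x * (p + k * x)` with `k` integral. -/
lemma exists_binom {x : K} (hx : 0 ≤ ordT q K x) (p : ℕ) :
    ∃ k : K, 0 ≤ ordT q K k ∧ (1 + x) ^ p - 1 = x * ((p : K) + k * x) := by
  obtain ⟨k, hk⟩ := Polynomial.powAddExpansion (1 : h.intRing) (⟨x, hx⟩ : h.intRing) p
  refine ⟨(k : K), k.2, ?_⟩
  have := congrArg (fun y : h.intRing => (y : K)) hk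
  simp only [Subring.coe_add, Subring.coe_one, Subring.coe_pow, Subring.coe_mul,
    Subring.coe_natCast, one_pow, mul_one] at this
  rw [this]; ring

/-- If `ord p < ord x` then `ord ((1 + x) ^ p - 1) = ord x + ord p`. -/
lemma ordT_one_add_pow_sub_one {x : K} {p : ℕ}
    (hx : ordT q K (p : K) < ordT q K x) :
    ordT q K ((1 + x) ^ p - 1) = ordT q K x + ordT q K (p : K) := by
  have hx0 : 0 ≤ ordT q K x := le_trans (h.ordT_natCast_nonneg p) hx.le
  obtain ⟨k, hk, e⟩ := h.exists_binom hx0 p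
  rw [e, h.ordT_mul]
  congr 1
  apply h.ordT_add_eq_of_lt
  rw [h.ordT_mul]
  exact lt_of_lt_of_le hx (le_add_of_nonneg_left hk)

/-- `ord p` as a natural number. -/
noncomputable def ordNat (_h : LocFacts q K) (p : ℕ) : ℕ := edeg q K * padicValNat q p

lemma ordT_natCast' {p : ℕ} (hp : 0 < p) : ordT q K (p : K) = ((h.ordNat p : ℕ) : WithTop ℤ) :=
  h.ordT_natCast hp.ne'

/-- Hensel's lemma for `X ^ p - u`. -/
lemma hensel_pow {p : ℕ} (hp : 0 < p) (u : Kˣ) (hu : ord q K u = 0)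
    (hlt : 2 • ordT q K (p : K) < ordT q K ((u : K) - 1)) :
    ∃ w : Kˣ, w ^ p = u ∧ ordT q K (p : K) < ordT q K ((w : K) - 1) := by
  classical
  let f : Polynomial K := Polynomial.X ^ p - Polynomial.C (u : K)
  have hcoeff : ∀ i, 0 ≤ ordT q K (f.coeff i) := by
    intro i
    simp only [f, Polynomial.coeff_sub, Polynomial.coeff_X_pow, Polynomial.coeff_C]
    refine le_trans (le_min ?_ ?_) (h.ordT_sub_ge _ _)
    · split_ifs
      · rw [h.ordT_one]
      · rw [ordT_zero]; exact le_top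
    · split_ifs
      · rw [ordT_unit, hu]; rfl
      · rw [ordT_zero]; exact le_top
  have hev : f.eval 1 = 1 - (u : K) := by simp [f]
  have hder : f.derivative.eval 1 = (p : K) := by
    simp [f, Polynomial.derivative_X_pow]
  obtain ⟨b, hb, hb'⟩ := h.hensel f hcoeff 1 (by rw [h.ordT_one]) (by
    rw [hder, hev, h.ordT_sub_swap]; exact hlt)
  have hbp : b ^ p = (u : K) := by
    have : f.eval b = b ^ p - (u : K) := by simp [f]
    rw [this, sub_eq_zero] at hb
    exact hb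
  have hb0 : b ≠ 0 := by
    rintro rfl
    rw [zero_pow hp.ne'] at hbp
    exact u.ne_zero hbp.symm
  refine ⟨Units.mk0 b hb0, ?_, ?_⟩
  · apply Units.ext
    rw [Units.val_pow_eq_pow_val, Units.val_mk0, hbp]
  · rw [Units.val_mk0]
    rw [hder] at hb'
    exact hb'

/-- Units close to `1` are `p`-th powers (statement in the LOC interface shape). -/
theorem exists_pow_eq_of_mem_principalUnits_of (p : ℕ) (hp : 0 < p) :
    ∃ m : ℕ, ∀ u : Kˣ, u ∈ principalUnits q K m → ∃ w : Kˣ, w ^ p = u := by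
  refine ⟨2 * h.ordNat p + 1, fun u hu => ?_⟩
  rw [h.mem_principalUnits_iff] at hu
  obtain ⟨w, hw, -⟩ := h.hensel_pow hp u hu.1 (by
    refine lt_of_lt_of_le ?_ hu.2
    rw [h.ordT_natCast' hp, two_nsmul]
    have : ((h.ordNat p : ℕ) : ℤ) + (h.ordNat p : ℕ) < ((2 * h.ordNat p + 1 : ℕ) : ℤ) := by
      push_cast; omega
    exact_mod_cast this)
  exact ⟨w, hw⟩

/-- The `p`-power map sends `U^(m)` into `U^(m + ord p)` for `m > ord p`. -/
lemma pow_mem_pu {p : ℕ} (hp : 0 < p) {m : ℕ} (hm : h.ordNat p < m) {u : Kˣ}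
    (hu : u ∈ h.pu m) : u ^ p ∈ h.pu (m + h.ordNat p) := by
  rw [h.mem_pu_iff] at hu ⊢
  refine ⟨by rw [h.ord_pow, hu.1, mul_zero], ?_⟩
  have hx : ordT q K (p : K) < ordT q K ((u : K) - 1) := by
    rw [h.ordT_natCast' hp]
    refine lt_of_lt_of_le ?_ hu.2
    exact_mod_cast hm
  have e : ((u ^ p : Kˣ) : K) - 1 = (1 + ((u : K) - 1)) ^ p - 1 := by
    rw [Units.val_pow_eq_pow_val]; ring
  rw [e, h.ordT_one_add_pow_sub_one hx, h.ordT_natCast' hp]
  have h5 : ((m : ℕ) : WithTop ℤ) + ((h.ordNat p : ℕ) : WithTop ℤ)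
      ≤ ordT q K ((u : K) - 1) + ((h.ordNat p : ℕ) : WithTop ℤ) := by
    gcongr
    exact hu.2
  exact_mod_cast h5

/-- Every element of `U^(m + ord p)` is the `p`-th power of an element of `U^(m)`, `m > ord p`. -/
lemma exists_pow_eq_of_mem_pu {p : ℕ} (hp : 0 < p) {m : ℕ} (hm : h.ordNat p < m) {u : Kˣ}
    (hu : u ∈ h.pu (m + h.ordNat p)) : ∃ w ∈ h.pu m, w ^ p = u := by
  rw [h.mem_pu_iff] at hu
  obtain ⟨w, hw, hw'⟩ := h.hensel_pow hp u hu.1 (by
    refine lt_of_lt_of_le ?_ hu.2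
    rw [h.ordT_natCast' hp, two_nsmul]
    have : ((h.ordNat p : ℕ) : ℤ) + (h.ordNat p : ℕ) < ((m + h.ordNat p : ℕ) : ℤ) := by
      push_cast; omega
    exact_mod_cast this)
  refine ⟨w, ?_, hw⟩
  have hw0 : ord q K w = 0 := by
    apply h.ord_eq_zero_of_lt
    exact lt_of_le_of_lt (h.ordT_natCast_nonneg p) hw'
  rw [h.mem_pu_iff]
  refine ⟨hw0, ?_⟩
  have e : ((u : K)) - 1 = (1 + ((w : K) - 1)) ^ p - 1 := by
    rw [← hw, Units.val_pow_eq_pow_val]; ring
  have h2 := hu.2
  rw [e, h.ordT_one_add_pow_sub_one hw', h.ordT_natCast' hp] at h2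
  -- `m + N ≤ t + N → m ≤ t`
  revert h2
  generalize ordT q K ((w : K) - 1) = t
  induction t using WithTop.recTopCoe with
  | top => intro _; exact le_top
  | coe n =>
    intro h2
    have h3 : ((m + h.ordNat p : ℕ) : ℤ) ≤ n + (h.ordNat p : ℕ) := by exact_mod_cast h2
    have h4 : (m : ℤ) ≤ n := by push_cast at h3; omega
    exact_mod_cast h4

/-- `U^(m)` has no `p`-torsion for `m > ord p`. -/
lemma eq_one_of_pow_eq_one {p : ℕ} (hp : 0 < p) {m : ℕ} (hm : h.ordNat p < m) {u : Kˣ}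
    (hu : u ∈ h.pu m) (hup : u ^ p = 1) : u = 1 := by
  rw [h.mem_pu_iff] at hu
  have hx : ordT q K (p : K) < ordT q K ((u : K) - 1) := by
    rw [h.ordT_natCast' hp]
    refine lt_of_lt_of_le ?_ hu.2
    exact_mod_cast hm
  have e : (1 + ((u : K) - 1)) ^ p - 1 = 0 := by
    have : (1 + ((u : K) - 1)) ^ p = ((u ^ p : Kˣ) : K) := by
      rw [Units.val_pow_eq_pow_val]; ring
    rw [this, hup, Units.val_one, sub_self]
  have h2 := h.ordT_one_add_pow_sub_one hx
  rw [e, ordT_zero, h.ordT_natCast' hp] at h2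
  have h3 : ordT q K ((u : K) - 1) = ⊤ := by
    revert h2
    generalize ordT q K ((u : K) - 1) = t
    induction t using WithTop.recTopCoe with
    | top => intro _; rfl
    | coe n =>
      intro h2
      exfalso
      have : ((n + (h.ordNat p : ℕ) : ℤ) : WithTop ℤ) = ⊤ := by
        rw [h2]; push_cast; rfl
      exact WithTop.coe_ne_top this
  have h4 := h.ordT_eq_top_iff.1 h3
  apply Units.ext
  rw [Units.val_one]
  exact sub_eq_zero.1 h4

/-- The image of `U^(m)` under the `p`-power map is `U^(m + ord p)`, for `m > ord p`. -/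
theorem map_pow_pu {p : ℕ} (hp : 0 < p) {m : ℕ} (hm : h.ordNat p < m) :
    (h.pu m).map (powMonoidHom p : Kˣ →* Kˣ) = h.pu (m + h.ordNat p) := by
  ext u
  rw [Subgroup.mem_map]
  constructor
  · rintro ⟨w, hw, rfl⟩
    exact h.pow_mem_pu hp hm hw
  · intro hu
    obtain ⟨w, hw, hwu⟩ := h.exists_pow_eq_of_mem_pu hp hm hu
    exact ⟨w, hw, hwu⟩

end LocFacts

end Fermat.Agent.S55.helper27
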