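import Fermat.Agent.S55.helper59_BDefs2
import Fermat.Agent.S55.helper69_BArLev

/-!
# S55 module B, B-AR-DEG (helper30, second prover for task 363): local degrees

For an arithmetic local datum `hL : IsArith S F L` and `q' ∈ S`:

* `sum_finrank_Kw` : `∑_{w, q w = q'} [K_w : ℚ_q] = [F : ℚ]`
  (statement of `helper59_BInterface2`, VERBATIM).

Proof: the map `(w, h) ↦ r_q(h) g_w⁻¹ U` is a bijection
`Σ_{w, q w = q'} Gal(Ω/ℚ_q) / Gal(Ω/K_w) ≃ G_ℚ / U` (`hL.cover`, `hL.range_j`), and both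
indices are degrees (`IntermediateField.finrank_eq_fixingSubgroup_index`).
-/

set_option autoImplicit false

open groupCohomology ExtCitation
open scoped NumberField

noncomputable section

namespace Fermat.Agent.S55.helper30

open Fermat.Agent.S55 Fermat.Agent.S55.helper59

attribute [local instance] Fermat.Agent.S55.helper59.factOfPrimes

local notation "Qbar" => AlgebraicClosure ℚ

section index

/-- `[G_ℚ : Gal(ℚbar/F)] = [F : ℚ]` -/
theorem index_fixingSubgroup_Qbar (F : IntermediateField ℚ Qbar) :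
    F.fixingSubgroup.index = Module.finrank ℚ F := by
  have h1 : Algebra.IsAlgebraic ℚ (AlgebraicClosure ℚ) := AlgebraicClosure.isAlgebraic ℚ
  have h3 : Normal ℚ (AlgebraicClosure ℚ) := helper69.normal_Qbar
  have h4 : Algebra.IsSeparable ℚ (AlgebraicClosure ℚ) :=
    Algebra.IsAlgebraic.isSeparable_of_perfectField
  have hG : IsGalois ℚ (AlgebraicClosure ℚ) := ⟨⟩
  rw [← IntermediateField.finrank_eq_fixingSubgroup_index]

/-- `[Gal(Ω/ℚ_q) : Gal(Ω/K)] = [K : ℚ_q]` -/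
theorem index_fixingSubgroup_padic (q : ℕ) [Fact q.Prime]
    (K : IntermediateField ℚ_[q] (PadicAlgCl q)) :
    K.fixingSubgroup.index = Module.finrank ℚ_[q] K := by
  have h1 : Algebra.IsAlgebraic ℚ_[q] (PadicAlgCl q) := PadicAlgCl.isAlgebraic q
  have h2 : IsAlgClosure ℚ_[q] (PadicAlgCl q) := ⟨inferInstance, h1⟩
  have h3 : Normal ℚ_[q] (PadicAlgCl q) := IsAlgClosure.normal ℚ_[q] (PadicAlgCl q)
  have h4 : Algebra.IsSeparable ℚ_[q] (PadicAlgCl q) :=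
    Algebra.IsAlgebraic.isSeparable_of_perfectField
  have hG : IsGalois ℚ_[q] (PadicAlgCl q) := ⟨⟩
  rw [← IntermediateField.finrank_eq_fixingSubgroup_index]

end index

variable {S : Finset Nat.Primes} {F : IntermediateField ℚ Qbar}
  {𝒩 : Levels (UF F)} {ι : Type} {L : LocalData (UF F) 𝒩 ι}

/-- `h ∈ Gal(Ω/K_w)` iff `g_w r_q(h) g_w⁻¹ ∈ U` -/
theorem mem_fixingSubgroup_Kw_iff (hL : IsArith S F L) (w : ι)
    (h : PadicAlgCl (hL.q w : ℕ) ≃ₐ[ℚ_[((hL.q w : ℕ))]] PadicAlgCl (hL.q w : ℕ)) :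
    h ∈ (hL.Kw w).fixingSubgroup ↔
      hL.g w * localGaloisToGlobal (hL.q w : ℕ) h * (hL.g w)⁻¹ ∈ F.fixingSubgroup := by
  rw [← hL.mem_range_jq_iff', hL.mem_range_jq_iff]

theorem degMap_aux₁ {G : Type*} [Group G] (A B g : G) :
    (A * g⁻¹)⁻¹ * (B * g⁻¹) = g * (A⁻¹ * B) * g⁻¹ := by group

theorem degMap_aux₂ {G : Type*} [Group G] (A B g g' u : G)
    (hu : u = (A * g⁻¹)⁻¹ * (B * g'⁻¹)) : g' * B⁻¹ = u⁻¹ * g * A⁻¹ := by
  subst hu; group

theorem degMap_aux₃ {G : Type*} [Group G] (A g u γ : G) (h : γ⁻¹ = u * g * A) :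
    (A⁻¹ * g⁻¹)⁻¹ * γ = u⁻¹ := by
  have h3 : γ = (u * g * A)⁻¹ := by rw [← h, inv_inv]
  subst h3; group

/-- well-definedness of `degMap` -/
theorem degMap_wd (hL : IsArith S F L) (w : ι)
    (a b : PadicAlgCl (hL.q w : ℕ) ≃ₐ[ℚ_[((hL.q w : ℕ))]] PadicAlgCl (hL.q w : ℕ))
    (hab : a⁻¹ * b ∈ (hL.Kw w).fixingSubgroup) :
    (QuotientGroup.mk (localGaloisToGlobal (hL.q w : ℕ) a * (hL.g w)⁻¹) :
      GQ ⧸ F.fixingSubgroup) =
      QuotientGroup.mk (localGaloisToGlobal (hL.q w : ℕ) b * (hL.g w)⁻¹) := by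
  rw [QuotientGroup.eq, degMap_aux₁, ← map_inv, ← map_mul]
  exact (mem_fixingSubgroup_Kw_iff hL w _).mp hab

/-- the map `h ↦ r_q(h) g_w⁻¹ U` at `w` -/
def degMapAt (hL : IsArith S F L) (w : ι) :
    ((PadicAlgCl (hL.q w : ℕ) ≃ₐ[ℚ_[((hL.q w : ℕ))]] PadicAlgCl (hL.q w : ℕ)) ⧸
        (hL.Kw w).fixingSubgroup) → GQ ⧸ F.fixingSubgroup :=
  fun x => Quotient.liftOn' x
    (fun h => (QuotientGroup.mk (localGaloisToGlobal (hL.q w : ℕ) h * (hL.g w)⁻¹) :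
      GQ ⧸ F.fixingSubgroup))
    (fun a b hab => degMap_wd hL w a b (QuotientGroup.leftRel_apply.mp hab))

/-- the map `(w, h) ↦ r_q(h) g_w⁻¹ U` -/
def degMap (hL : IsArith S F L) (q' : Nat.Primes) :
    (Σ w : {w : ι // hL.q w = q'},
      (PadicAlgCl (hL.q w.1 : ℕ) ≃ₐ[ℚ_[((hL.q w.1 : ℕ))]] PadicAlgCl (hL.q w.1 : ℕ)) ⧸
        (hL.Kw w.1).fixingSubgroup) → GQ ⧸ F.fixingSubgroup :=
  fun x => degMapAt hL x.1.1 x.2

theorem degMap_mk (hL : IsArith S F L) (q' : Nat.Primes) (w : {w : ι // hL.q w = q'})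
    (h : PadicAlgCl (hL.q w.1 : ℕ) ≃ₐ[ℚ_[((hL.q w.1 : ℕ))]] PadicAlgCl (hL.q w.1 : ℕ)) :
    degMap hL q' ⟨w, QuotientGroup.mk h⟩ =
      QuotientGroup.mk (localGaloisToGlobal (hL.q w.1 : ℕ) h * (hL.g w.1)⁻¹) := rfl

theorem degMap_injective (hL : IsArith S F L) (q' : Nat.Primes) (hq' : q' ∈ S) :
    Function.Injective (degMap hL q') := by
  rintro ⟨⟨w, hw⟩, x⟩ ⟨⟨w', hw'⟩, y⟩ hxy
  obtain ⟨a, rfl⟩ := QuotientGroup.mk_surjective x
  obtain ⟨b, rfl⟩ := QuotientGroup.mk_surjective y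
  rw [degMap_mk, degMap_mk, QuotientGroup.eq] at hxy
  simp only at hxy
  -- the element `γ` with two representations
  obtain ⟨w₀, -, huniq⟩ := hL.cover q' hq' (hL.g w' * localGaloisToGlobal (hL.q w' : ℕ) b⁻¹)
  have h1 : w' = w₀ := huniq w' ⟨hw', 1, one_mem _, b⁻¹, by rw [one_mul]; rfl⟩
  have h2 : w = w₀ := by
    refine huniq w ⟨hw, _, inv_mem hxy, a⁻¹, ?_⟩
    change hL.g w' * localGaloisToGlobal (hL.q w' : ℕ) b⁻¹ =
      _ * hL.g w * localGaloisToGlobal (hL.q w : ℕ) a⁻¹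
    rw [map_inv, map_inv]
    exact degMap_aux₂ _ _ _ _ _ rfl
  have hww : w = w' := h2.trans h1.symm
  subst hww
  have hab : a⁻¹ * b ∈ (hL.Kw w).fixingSubgroup := by
    rw [mem_fixingSubgroup_Kw_iff, map_mul, map_inv, ← degMap_aux₁]
    exact hxy
  have : (QuotientGroup.mk a : _ ⧸ (hL.Kw w).fixingSubgroup) = QuotientGroup.mk b :=
    QuotientGroup.eq.mpr hab
  rw [this]

theorem degMap_surjective (hL : IsArith S F L) (q' : Nat.Primes) (hq' : q' ∈ S) :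
    Function.Surjective (degMap hL q') := by
  intro c
  obtain ⟨γ, rfl⟩ := QuotientGroup.mk_surjective c
  obtain ⟨w, ⟨hw, u, hu, h, hγ⟩, -⟩ := hL.cover q' hq' γ⁻¹
  have key : ∀ h' : PadicAlgCl (hL.q w : ℕ) ≃ₐ[ℚ_[((hL.q w : ℕ))]] PadicAlgCl (hL.q w : ℕ),
      γ⁻¹ = u * hL.g w * localGaloisToGlobal (hL.q w : ℕ) h' →
      ∃ x, degMap hL q' x = (QuotientGroup.mk γ : GQ ⧸ F.fixingSubgroup) := by
    intro h' hγ'
    refine ⟨⟨⟨w, hw⟩, QuotientGroup.mk h'⁻¹⟩, ?_⟩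
    rw [degMap_mk, QuotientGroup.eq]
    simp only
    rw [map_inv, degMap_aux₃ _ _ _ _ hγ']
    exact inv_mem hu
  exact key h hγ

variable [FiniteDimensional ℚ F] [Fintype ι]

/-- the sum of the local degrees over the places above `q' ∈ S` is the global degree -/
theorem sum_finrank_Kw (hL : IsArith S F L) (q' : Nat.Primes) (hq' : q' ∈ S) :
    ∑ w ∈ Finset.univ.filter (fun w => hL.q w = q'),
      Module.finrank ℚ_[((hL.q w : ℕ))] (hL.Kw w) = Module.finrank ℚ F := by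
  classical
  have hfin : ∀ w : {w : ι // hL.q w = q'},
      Finite ((PadicAlgCl (hL.q w.1 : ℕ) ≃ₐ[ℚ_[((hL.q w.1 : ℕ))]] PadicAlgCl (hL.q w.1 : ℕ)) ⧸
        (hL.Kw w.1).fixingSubgroup) := by
    intro w
    have hfd := hL.finiteDimensional_Kw w.1
    have hidx : (hL.Kw w.1).fixingSubgroup.index ≠ 0 := by
      rw [index_fixingSubgroup_padic]
      exact Module.finrank_pos.ne'
    have : (hL.Kw w.1).fixingSubgroup.FiniteIndex := ⟨hidx⟩
    infer_instance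
  have hcard := Nat.card_congr (Equiv.ofBijective (degMap hL q')
    ⟨degMap_injective hL q' hq', degMap_surjective hL q' hq'⟩)
  rw [Nat.card_sigma] at hcard
  have h1 : Nat.card (GQ ⧸ F.fixingSubgroup) = Module.finrank ℚ F :=
    index_fixingSubgroup_Qbar F
  rw [h1] at hcard
  rw [← hcard]
  have h2 : ∀ w : {w : ι // hL.q w = q'},
      Nat.card ((PadicAlgCl (hL.q w.1 : ℕ) ≃ₐ[ℚ_[((hL.q w.1 : ℕ))]] PadicAlgCl (hL.q w.1 : ℕ)) ⧸
        (hL.Kw w.1).fixingSubgroup) = Module.finrank ℚ_[((hL.q w.1 : ℕ))] (hL.Kw w.1) :=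
    fun w => index_fixingSubgroup_padic (hL.q w.1 : ℕ) (hL.Kw w.1)
  simp only [h2]
  rw [Finset.sum_subtype (Finset.univ.filter (fun w => hL.q w = q'))
    (p := fun w => hL.q w = q') (by simp)]

end Fermat.Agent.S55.helper30
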