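import Fermat.Agent.S55.helper73_Ineq1Final
import Fermat.Agent.S55.helper84_HasseNorm2

/-!
# S55 / GLOB G3a (helper31): integral units are cohomologically trivial at almost all primes

`exists_finset_intUnits_trivial` (interface v2 shape of G3a): for `L/K` a cyclic extension of
number fields with generator `σ`, for all but finitely many primes `q` the integral units of
`ℚ_q ⊗ L` have trivial `Ĥ^0` and `Ĥ^{-1}`.  This is LAT-2 (`helper31_GlobLat`) + RES
(`helper3_ResGlobal`) through helper21's glue `intUnits_trivial_of_LAT2_RES`.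

`g3aZeta`, `ineq1Zeta`: the inputs `G3aZeta p`, `Ineq1Zeta p` of helper84's Hasse norm theorem.
-/

set_option autoImplicit false

open scoped TensorProduct NumberField

universe u

namespace Fermat.Agent.S55.helper31

open Fermat.Agent.S55.helper73

/-- **G3a** (interface v2): for a cyclic extension `L/K` of number fields with generator `σ`,
for almost all primes `q` the integral units of `ℚ_q ⊗ L` are cohomologically trivial. -/
theorem exists_finset_intUnits_trivial (K L : Type*) [Field K] [NumberField K] [Field L]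
    [NumberField L] [Algebra K L] [IsGalois K L]
    (σ : Gal(L/K)) (hσ : ∀ τ : Gal(L/K), τ ∈ Subgroup.zpowers σ) :
    ∃ T : Finset Nat.Primes, ∀ q : Nat.Primes, q ∉ T →
      (∀ x ∈ intUnits (q : ℕ) L, (∀ τ : Gal(L/K), τ • x = x) →
        ∃ y ∈ intUnits (q : ℕ) L, normG Gal(L/K) (SemiLoc (q : ℕ) L)ˣ y = x) ∧
      (∀ x ∈ intUnits (q : ℕ) L, normG Gal(L/K) (SemiLoc (q : ℕ) L)ˣ x = 1 →
        ∃ y ∈ intUnits (q : ℕ) L, σ • y / y = x) := by
  classical
  obtain ⟨T1, hT1⟩ := exists_finset_princUnits_trivial K L σ hσ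
  obtain ⟨T2, hT2⟩ := Fermat.Agent.S55.helper3.exists_finset_intUnits_mod_princUnits K L σ hσ
  refine ⟨T1 ∪ T2, fun q hq => ?_⟩
  rw [Finset.mem_union, not_or] at hq
  exact Fermat.Agent.S55.helper21.intUnits_trivial_of_LAT2_RES K L (q : ℕ) σ
    (hT1 q hq.1) (hT2 q hq.2)

/-- The input `G3aZeta p` of helper84's Hasse norm theorem (no hypothesis on `p` needed). -/
theorem g3aZeta (p : ℕ) : Fermat.Agent.S55.helper84.G3aZeta.{u} p :=
  fun K L _ _ _ _ _ _ _ _ σ hσ => exists_finset_intUnits_trivial K L σ hσ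

/-- The input `Ineq1Zeta p` of helper84's Hasse norm theorem, for odd primes `p`. -/
theorem ineq1Zeta (p : ℕ) (hp : p.Prime) (hp2 : p ≠ 2) :
    Fermat.Agent.S55.helper84.Ineq1Zeta.{u} p :=
  fun K L _ _ _ _ _ _ hdeg _ σ hσ => ineq1 K L p hp hp2 hdeg σ hσ

end Fermat.Agent.S55.helper31
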