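import Mathlib
import Fermat.Agent.S55.helper73_GlobDefs2
import Fermat.Agent.S55.helper31_SemiLocLatt

/-!
# S55 / GLOB (helper31): coordinates of integral elements of `ℚ_q ⊗ L`

For ANY `ℚ`-basis `b` of a number field `L` (finite index type):

* `exists_dual_denominator` : a nonzero integer `m` such that `m •` (trace-dual basis of `b`)
  consists of algebraic integers;
* `repr_mem_Qb_of_isIntegral` : the coordinates (in the basis `1 ⊗ b` of `ℚ_q ⊗ L` over `ℚ_q`)
  of an element integral over `ℤ_q` lie in `q ^ (-v_q(m)) ℤ_q`;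
* `isIntegral_iff_forall_norm_repr_le_one` : if `b` consists of algebraic integers and `q ∤ m`,
  an element is integral over `ℤ_q` iff its coordinates lie in `ℤ_q`;
* `exists_finset_isIntegral_iff` : the same, for all primes outside a finite set.
-/

set_option autoImplicit false
set_option linter.unusedSectionVars false

namespace Fermat.Agent.S55.helper31

open scoped TensorProduct NumberField
open Fermat.Agent.S55.helper73

variable {L : Type*} [Field L] [NumberField L] {ι : Type*} [Fintype ι] [DecidableEq ι]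
  (b : Module.Basis ι ℚ L)

/-- A common denominator of the trace-dual basis. -/
theorem exists_dual_denominator :
    ∃ m : ℤ, m ≠ 0 ∧ ∀ i, IsIntegral ℤ
      (m • (Algebra.traceForm ℚ L).dualBasis (traceForm_nondegenerate ℚ L) b i) := by
  classical
  obtain ⟨m, hm, hmint⟩ := exists_integral_multiples ℤ ℚ
    (Finset.univ.image fun i => (Algebra.traceForm ℚ L).dualBasis
      (traceForm_nondegenerate ℚ L) b i)
  exact ⟨m, hm, fun i => hmint _ (Finset.mem_image_of_mem _ (Finset.mem_univ i))⟩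

variable (q : ℕ) [Fact q.Prime]

/-- The coordinates in the basis `1 ⊗ b` are given by the trace against the dual basis. -/
theorem repr_basis_eq_trace (x : SemiLoc q L) (i : ι) :
    (Algebra.TensorProduct.basis ℚ_[q] b).repr x i
      = Algebra.trace ℚ_[q] (SemiLoc q L) (x * ((1 : ℚ_[q]) ⊗ₜ[ℚ]
          (Algebra.traceForm ℚ L).dualBasis (traceForm_nondegenerate ℚ L) b i)) := by
  have hB := traceForm_nondegenerate ℚ L
  have h : (Algebra.TensorProduct.basis ℚ_[q] b).coord i
      = (Algebra.trace ℚ_[q] (SemiLoc q L)).comp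
        (LinearMap.mulRight ℚ_[q] ((1 : ℚ_[q]) ⊗ₜ[ℚ]
          (Algebra.traceForm ℚ L).dualBasis hB b i : SemiLoc q L)) := by
    apply (Algebra.TensorProduct.basis ℚ_[q] b).ext
    intro k
    rw [Module.Basis.coord_apply, Module.Basis.repr_self, LinearMap.comp_apply,
      LinearMap.mulRight_apply, Algebra.TensorProduct.basis_apply,
      Algebra.TensorProduct.tmul_mul_tmul, mul_one, trace_one_tmul, Finsupp.single_apply,
      ← Algebra.traceForm_apply,
      LinearMap.BilinForm.apply_dualBasis_right hB (Algebra.traceForm_isSymm ℚ)]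
    split_ifs with hkl
    · rw [map_one]
    · rw [map_zero]
  have := LinearMap.congr_fun h x
  simpa using this

/-- **Boundedness of the integral closure**: the coordinates of an element of `ℚ_q ⊗ L`
integral over `ℤ_q` lie in `q ^ (-v_q(m)) ℤ_q`, `m` a denominator of the dual basis. -/
theorem repr_mem_Qb_of_isIntegral (m : ℤ) (hm : m ≠ 0)
    (hmd : ∀ i, IsIntegral ℤ
      (m • (Algebra.traceForm ℚ L).dualBasis (traceForm_nondegenerate ℚ L) b i))
    {z : SemiLoc q L} (hz : IsIntegral ℤ_[q] z) (i : ι) :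
    (Algebra.TensorProduct.basis ℚ_[q] b).repr z i ∈ Qb q (-((padicValInt q m : ℕ) : ℤ)) := by
  set d := (Algebra.traceForm ℚ L).dualBasis (traceForm_nondegenerate ℚ L) b with hd
  set c : ℤ := ((padicValInt q m : ℕ) : ℤ) with hc
  have hnorm : ‖(m : ℚ_[q])‖ = (q : ℝ) ^ (-c) := by
    have h : (m : ℚ_[q]) ≠ 0 := Int.cast_ne_zero.2 hm
    rw [Padic.norm_eq_zpow_neg_valuation h, Padic.valuation_intCast]
  have h1 : IsIntegral ℤ_[q]
      (Algebra.trace ℚ_[q] (SemiLoc q L) (z * ((1 : ℚ_[q]) ⊗ₜ[ℚ] (m • d i)))) :=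
    isIntegral_trace_of_isIntegral (hz.mul (isIntegral_one_tmul_of_isIntegral q L (hmd i)))
  have h2 : z * ((1 : ℚ_[q]) ⊗ₜ[ℚ] (m • d i) : SemiLoc q L)
      = (m : ℚ_[q]) • (z * ((1 : ℚ_[q]) ⊗ₜ[ℚ] d i)) := by
    rw [← Int.cast_smul_eq_zsmul ℚ m (d i), TensorProduct.tmul_smul, mul_smul_comm,
      ← algebraMap_smul ℚ_[q] (m : ℚ)]
    congr 1
  rw [h2, map_smul, ← repr_basis_eq_trace b q, smul_eq_mul] at h1
  have h3 := (mem_Qb_zero_iff q).1 ((mem_Qb_zero_iff_isIntegral q).2 h1)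
  rw [norm_mul, hnorm] at h3
  rw [mem_Qb, neg_neg]
  have hpos : (0 : ℝ) < (q : ℝ) ^ c := zpow_pos (q_real_pos q) _
  have h4 : (q : ℝ) ^ (-c) * (q : ℝ) ^ c = 1 := by
    rw [← zpow_add₀ (q_real_pos q).ne', neg_add_cancel, zpow_zero]
  calc ‖(Algebra.TensorProduct.basis ℚ_[q] b).repr z i‖
      = (q : ℝ) ^ c * ((q : ℝ) ^ (-c) * ‖(Algebra.TensorProduct.basis ℚ_[q] b).repr z i‖) := by
        rw [← mul_assoc, mul_comm ((q : ℝ) ^ c), h4, one_mul]
    _ ≤ (q : ℝ) ^ c * 1 := mul_le_mul_of_nonneg_left h3 hpos.le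
    _ = (q : ℝ) ^ c := mul_one _

omit [DecidableEq ι] in
/-- An element with coordinates in `ℤ_q` with respect to an integral basis is integral. -/
theorem isIntegral_of_forall_norm_repr_le_one (hb : ∀ i, IsIntegral ℤ (b i))
    {z : SemiLoc q L} (hz : ∀ i, ‖(Algebra.TensorProduct.basis ℚ_[q] b).repr z i‖ ≤ 1) :
    IsIntegral ℤ_[q] z := by
  rw [← (Algebra.TensorProduct.basis ℚ_[q] b).sum_repr z]
  refine IsIntegral.sum _ fun i _ => isIntegral_smul_of_mem_Qb q L ((mem_Qb_zero_iff q).2 (hz i)) ?_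
  rw [Algebra.TensorProduct.basis_apply]
  exact isIntegral_one_tmul_of_isIntegral q L (hb i)

/-- For `q` prime to the denominator of the dual basis of an integral basis `b`: the integral
closure of `ℤ_q` in `ℚ_q ⊗ L` is the `ℤ_q`-span of `1 ⊗ b`. -/
theorem isIntegral_iff_forall_norm_repr_le_one (hb : ∀ i, IsIntegral ℤ (b i)) (m : ℤ)
    (hm : m ≠ 0)
    (hmd : ∀ i, IsIntegral ℤ
      (m • (Algebra.traceForm ℚ L).dualBasis (traceForm_nondegenerate ℚ L) b i))
    (hq : ¬ (q : ℤ) ∣ m) (z : SemiLoc q L) :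
    IsIntegral ℤ_[q] z ↔ ∀ i, ‖(Algebra.TensorProduct.basis ℚ_[q] b).repr z i‖ ≤ 1 := by
  constructor
  · intro hz i
    have := repr_mem_Qb_of_isIntegral b q m hm hmd hz i
    rw [padicValInt.eq_zero_of_not_dvd hq] at this
    exact (mem_Qb_zero_iff q).1 (by simpa using this)
  · exact isIntegral_of_forall_norm_repr_le_one b q hb

/-- Integral elements are `ℤ_q`-combinations of the basis `1 ⊗ b`, for `q` prime to the
denominator of the dual basis. -/
theorem exists_padicInt_coords (m : ℤ) (hm : m ≠ 0)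
    (hmd : ∀ i, IsIntegral ℤ
      (m • (Algebra.traceForm ℚ L).dualBasis (traceForm_nondegenerate ℚ L) b i))
    (hq : ¬ (q : ℤ) ∣ m) {z : SemiLoc q L} (hz : IsIntegral ℤ_[q] z) :
    ∃ c : ι → ℤ_[q], z = ∑ i, ((c i : ℤ_[q]) : ℚ_[q]) • ((1 : ℚ_[q]) ⊗ₜ[ℚ] b i : SemiLoc q L) := by
  have h : ∀ i, ‖(Algebra.TensorProduct.basis ℚ_[q] b).repr z i‖ ≤ 1 := by
    intro i
    have := repr_mem_Qb_of_isIntegral b q m hm hmd hz i
    rw [padicValInt.eq_zero_of_not_dvd hq] at this
    exact (mem_Qb_zero_iff q).1 (by simpa using this)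
  refine ⟨fun i => ⟨(Algebra.TensorProduct.basis ℚ_[q] b).repr z i, h i⟩, ?_⟩
  conv_lhs => rw [← (Algebra.TensorProduct.basis ℚ_[q] b).sum_repr z]
  refine Finset.sum_congr rfl fun i _ => ?_
  rw [Algebra.TensorProduct.basis_apply]

omit [DecidableEq ι] in
/-- For all primes outside a finite set, the integral closure of `ℤ_q` in `ℚ_q ⊗ L` is the
`ℤ_q`-span of `1 ⊗ b`, for any `ℚ`-basis `b` of `L` consisting of algebraic integers. -/
theorem exists_finset_isIntegral_iff (hb : ∀ i, IsIntegral ℤ (b i)) :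
    ∃ T : Finset Nat.Primes, ∀ q : Nat.Primes, q ∉ T → ∀ z : SemiLoc (q : ℕ) L,
      IsIntegral ℤ_[(q : ℕ)] z ↔
        ∀ i, ‖(Algebra.TensorProduct.basis ℚ_[(q : ℕ)] b).repr z i‖ ≤ 1 := by
  classical
  obtain ⟨m, hm, hmd⟩ := exists_dual_denominator b
  refine ⟨(Nat.primeFactors m.natAbs).attach.image
    (fun p => (⟨p.1, Nat.prime_of_mem_primeFactors p.2⟩ : Nat.Primes)), fun q hq z => ?_⟩
  have hqm : ¬ (((q : ℕ) : ℤ)) ∣ m := by
    intro h
    apply hq
    rw [Finset.mem_image]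
    have hmem : (q : ℕ) ∈ Nat.primeFactors m.natAbs := by
      rw [Nat.mem_primeFactors]
      exact ⟨q.2, Int.natCast_dvd.1 h, Int.natAbs_ne_zero.2 hm⟩
    exact ⟨⟨(q : ℕ), hmem⟩, Finset.mem_attach _ _, Subtype.ext rfl⟩
  exact isIntegral_iff_forall_norm_repr_le_one b (q : ℕ) hb m hm hmd hqm z

end Fermat.Agent.S55.helper31
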