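import Fermat.Agent.S55.helper73_GlobDefs2
import Fermat.Agent.S55.Defs

/-!
# S55 / REC3 R3-J3 (helper31): finite-level `S`-ideles, definitions

For a field `L` of characteristic `0` and a finite set `S` of rational primes:

* `sIdele S L : Subgroup (Idele L)` : the `S`-ideles (integral units at all `q ∉ S`);
  `helper90.sIdeleSub S` is `sIdele S ℚbar`, definitionally;
* `smul_mem_sIdele`, `sIdeleAction K L S` (a `def`, use `letI`), `repSIdele K L S` : the
  representation of `Gal(L/K)` on the `S`-ideles;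
* `repSemiLocUnits q K L`, `repIntUnits q K L` : the representations of `Gal(L/K)` on
  `(ℚ_q ⊗ L)ˣ` and on the integral units `intUnits q L`.
-/

set_option autoImplicit false

open scoped TensorProduct

noncomputable section

namespace Fermat.Agent.S55.helper31

open Fermat.Agent.S55.helper73

section Defs

variable (S : Finset Nat.Primes) (L : Type*) [Field L] [CharZero L]

/-- The `S`-ideles of `L`: ideles which are integral units at all `q ∉ S`. -/
def sIdele : Subgroup (Idele L) where
  carrier := {x | ∀ q : Nat.Primes, q ∉ S → (x : IdelePi L) q ∈ intUnits (q : ℕ) L}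
  one_mem' := fun _ _ => one_mem _
  mul_mem' := fun hx hy q hq => mul_mem (hx q hq) (hy q hq)
  inv_mem' := fun hx q hq => inv_mem (hx q hq)

variable {S L}

lemma mem_sIdele {x : Idele L} :
    x ∈ sIdele S L ↔ ∀ q : Nat.Primes, q ∉ S → (x : IdelePi L) q ∈ intUnits (q : ℕ) L :=
  Iff.rfl

variable {K : Type*} [Field K] [Algebra K L]

lemma smul_mem_sIdele (σ : L ≃ₐ[K] L) {x : Idele L} (hx : x ∈ sIdele S L) :
    σ • x ∈ sIdele S L := fun q hq =>
  smul_mem_intUnits (q : ℕ) L K σ (hx q hq)

/-- every family of local components which are integral units outside `S` is an `S`-idele -/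
lemma mem_idele_of_forall_notMem {x : IdelePi L}
    (hx : ∀ q : Nat.Primes, q ∉ S → x q ∈ intUnits (q : ℕ) L) : x ∈ idele L := by
  rw [mem_idele, Filter.eventually_cofinite]
  refine S.finite_toSet.subset fun q hq => ?_
  by_contra hqS
  exact hq (hx q hqS)

variable (K L S)

/-- `Gal(L/K)` acts on the `S`-ideles (not an instance: use `letI`). -/
@[reducible]
def sIdeleAction : MulDistribMulAction (L ≃ₐ[K] L) (sIdele S L) :=
  stableAction (sIdele S L) fun σ _ hx => smul_mem_sIdele σ hx

end Defs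

section Reps

variable (q : ℕ) [Fact q.Prime] (S : Finset Nat.Primes)
  (K L : Type) [Field K] [Field L] [CharZero L] [Algebra K L]

/-- the `S`-ideles of `L` as a representation of `Gal(L/K)` -/
abbrev repSIdele : Rep.{0} ℤ (L ≃ₐ[K] L) :=
  @Rep.ofMulDistribMulAction (L ≃ₐ[K] L) (sIdele S L) _ _ (sIdeleAction S L K)

/-- the units of `ℚ_q ⊗ L` as a representation of `Gal(L/K)` -/
abbrev repSemiLocUnits : Rep.{0} ℤ (L ≃ₐ[K] L) :=
  Rep.ofMulDistribMulAction (L ≃ₐ[K] L) (SemiLoc q L)ˣ

/-- the integral units of `ℚ_q ⊗ L` as a representation of `Gal(L/K)` -/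
abbrev repIntUnits : Rep.{0} ℤ (L ≃ₐ[K] L) :=
  Rep.ofMulDistribMulAction (L ≃ₐ[K] L) (intUnits q L)

lemma repSIdele_ρ (σ : L ≃ₐ[K] L) (x : sIdele S L) :
    (repSIdele S K L).ρ σ (Additive.ofMul x) =
      Additive.ofMul (⟨σ • (x : Idele L), smul_mem_sIdele σ x.2⟩ : sIdele S L) := rfl

lemma repSemiLocUnits_ρ (σ : L ≃ₐ[K] L) (x : (SemiLoc q L)ˣ) :
    (repSemiLocUnits q K L).ρ σ (Additive.ofMul x) = Additive.ofMul (σ • x) := rfl

lemma repIntUnits_ρ (σ : L ≃ₐ[K] L) (x : intUnits q L) :
    (repIntUnits q K L).ρ σ (Additive.ofMul x) = Additive.ofMul (σ • x) := rfl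

end Reps

end Fermat.Agent.S55.helper31
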