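import Fermat.Agent.S55.helper31_J3USSL

/-!
# S55 / REC3 R3-J3 (helper31): the interface statement, unconditional

`j3S : helper90.J3S p S F hF` : `H³(G_S, J_S)` is torsion prime to `p` (in fact `Z³ ≤ B³`,
`Z3_le_B3_repJS`), verbatim in the shape of field `j3` of `helper90.Rec3Arith`.

Inputs: semilocal Shapiro at `q ∈ S` (`helper71.isZero_H3_semiLoc`), [US-SL] at `q ∉ S`
(`helper31.isZero_H3_repIntUnits`, from [US-LOC] `helper1.isZero_H3_unitGroup`), [UNR]
(`helper98.unramAt_of_isUnramifiedOutside`), the finite-level realisation of `J_S`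
(`helper69.Dic.finRealJS`) and the abstract dictionary (`helper46.Z3_le_B3_of_isZero`).
-/

set_option autoImplicit false

open scoped TensorProduct NumberField

noncomputable section

namespace Fermat.Agent.S55.helper31

open Fermat.Agent.S55 Fermat.Agent.S55.helper73 Fermat.Agent.S55.helper59
  Fermat.Agent.S55.helper69 Fermat.Agent.S55.helper90

local notation "Qbar" => AlgebraicClosure ℚ

variable {p : ℕ} {S : Finset Nat.Primes} {F : IntermediateField ℚ Qbar}
  [FiniteDimensional ℚ F] (hF : F.IsUnramifiedOutside S)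

/-- `H³(G_S, J_S) = 0` at the level of level-constant cochains. -/
theorem Z3_le_B3_repJS :
    Z3 (sLevelsStr S F hF) (repJS S F hF) ≤ B3 (sLevelsStr S F hF) (repJS S F hF) :=
  Z3_le_B3_repJS_of_ussl hF hypUSSL

/-- **R3-J3** (field `j3` of `helper90.Rec3Arith`), unconditional. -/
theorem j3S [Fact p.Prime] : J3S p S F hF := j3S_of_ussl hF hypUSSL

end Fermat.Agent.S55.helper31
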