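import Fermat.Agent.S55.helper31_IntUnitsLocal
import Fermat.Agent.S55.helper1_J3USLoc
import Fermat.Agent.S55.helper31_J3Wire2

/-!
# S55 / REC3 R3-J3 [US-SL] (helper31): semilocal Shapiro in degree 3 for integral units

`isZero_H3_repIntUnits` : `H³(Gal(E/F), intUnits q E) = 0` if all primes of `E` above `q` have
trivial inertia in `Gal(E/F)`; hence `hypUSSL : HypUSSL` and the interface statement
`j3S : helper90.J3S p S F hF` of R3-J3.

Route: the abstract Shapiro lemma `helper71.exists_cob₂_eq_of_forall_local` for the module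
`Additive (intUnits q E)`, the maximal ideals `n` of `ℚ_q ⊗ E` and the subgroups
`iuK n = {u ≡ 1 mod n}`; the local input is `helper1.isZero_H3_unitGroup` ([US-LOC]) at the
local datum `helper71.slDatum q F E n`; the leaf lemmas are in `helper31_IntUnitsLocal`.
-/

set_option autoImplicit false
set_option linter.unusedSectionVars false
set_option linter.style.haveILetI false
set_option linter.unusedVariables false

open scoped Pointwise TensorProduct NumberField
open groupCohomology CategoryTheory CategoryTheory.Limits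

noncomputable section

namespace Fermat.Agent.S55.helper31

open Fermat.Agent.S55 Fermat.Agent.S55.helper8 Fermat.Agent.S55.helper11
  Fermat.Agent.S55.helper73 Fermat.Agent.S55.helper97 Fermat.Agent.S55.helper71

attribute [local instance] additiveDMA

section Local

variable (q : ℕ) [Fact q.Prime] (F E : Type) [Field F] [NumberField F] [Field E] [NumberField E]
  [Algebra F E] [IsGalois F E]

/-- the inclusion of the integral units in the units, additively -/
def iuIncl : Additive (intUnits q E) →+ Additive (SemiLoc q E)ˣ :=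
  MonoidHom.toAdditive (intUnits q E).subtype

lemma iuIncl_injective : Function.Injective (iuIncl q E) := fun a b h =>
  Additive.toMul.injective (Subtype.ext (congrArg Additive.toMul h))

variable {q E} in
lemma toMul_iuIncl_mem (m : Additive (intUnits q E)) :
    (Additive.toMul (iuIncl q E m) : (SemiLoc q E)ˣ) ∈ intUnits q E :=
  (Additive.toMul m).2

lemma iuIncl_smul (g : E ≃ₐ[F] E) (m : Additive (intUnits q E)) :
    iuIncl q E (g • m) = g • iuIncl q E m := rfl

/-- the integral units congruent to `1` modulo `n` -/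
def iuK (n : MaximalSpectrum (SemiLoc q E)) : AddSubgroup (Additive (intUnits q E)) :=
  (oneModAdd n.asIdeal).comap (iuIncl q E)

lemma mem_iuK {n : MaximalSpectrum (SemiLoc q E)} {m : Additive (intUnits q E)} :
    m ∈ iuK q E n ↔ iuIncl q E m ∈ oneModAdd n.asIdeal := Iff.rfl

/-- the local unit group at `n` as a representation of the local Galois group -/
abbrev locUnitRep (n : MaximalSpectrum (SemiLoc q E)) :
    Rep.{0} ℤ ((slDatum q F E n).Lw ≃ₐ[(slDatum q F E n).Kv] (slDatum q F E n).Lw) :=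
  @Rep.ofMulDistribMulAction
    ((slDatum q F E n).Lw ≃ₐ[(slDatum q F E n).Kv] (slDatum q F E n).Lw)
    (unitGroup q (slDatum q F E n).Lw) _ _
    (stableAction (unitGroup q (slDatum q F E n).Lw) fun σ _ hu =>
      helper1.smul_mem_unitGroup q (slDatum q F E n).Kv (slDatum q F E n).Lw σ hu)

/-- the `n`-component of an integral unit, a local unit -/
def iuPhi (n : MaximalSpectrum (SemiLoc q E)) :
    Additive (intUnits q E) →+ Additive (unitGroup q (slDatum q F E n).Lw) where
  toFun m := Additive.ofMul ⟨Additive.toMul (slPhi q F E n (iuIncl q E m)),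
    (mem_intUnits_iff_forall_slPhi q F E _).1 (toMul_iuIncl_mem m) n⟩
  map_zero' := by
    apply Additive.toMul.injective
    apply Subtype.ext
    show Additive.toMul (slPhi q F E n (iuIncl q E 0)) = 1
    rw [map_zero, map_zero]
    rfl
  map_add' a b := by
    apply Additive.toMul.injective
    apply Subtype.ext
    show Additive.toMul (slPhi q F E n (iuIncl q E (a + b))) =
      Additive.toMul (slPhi q F E n (iuIncl q E a)) * Additive.toMul (slPhi q F E n (iuIncl q E b))
    rw [map_add, map_add]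
    rfl

variable {q F E}

lemma iuPhi_val (n : MaximalSpectrum (SemiLoc q E)) (m : Additive (intUnits q E)) :
    ((Additive.toMul (iuPhi q F E n m) : unitGroup q (slDatum q F E n).Lw) :
      (slDatum q F E n).Lwˣ) = Additive.toMul (slPhi q F E n (iuIncl q E m)) := rfl

lemma iuPhi_eq_iff (n : MaximalSpectrum (SemiLoc q E)) (m m' : Additive (intUnits q E)) :
    iuPhi q F E n m = iuPhi q F E n m' ↔
      slPhi q F E n (iuIncl q E m) = slPhi q F E n (iuIncl q E m') := by
  constructor
  · intro h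
    have := congrArg (fun v : Additive (unitGroup q (slDatum q F E n).Lw) =>
      ((Additive.toMul v : unitGroup q (slDatum q F E n).Lw) : (slDatum q F E n).Lwˣ)) h
    exact Additive.toMul.injective this
  · intro h
    apply Additive.toMul.injective
    apply Subtype.ext
    exact congrArg Additive.toMul h

lemma iuPhi_eq_zero_iff (n : MaximalSpectrum (SemiLoc q E)) (m : Additive (intUnits q E)) :
    iuPhi q F E n m = 0 ↔ m ∈ iuK q E n := by
  rw [mem_iuK, ← slPhi_eq_zero_iff (F := F), ← map_zero (iuPhi q F E n), iuPhi_eq_iff, map_zero,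
    map_zero]

lemma iuPhi_surjective (n : MaximalSpectrum (SemiLoc q E)) :
    Function.Surjective (iuPhi q F E n) := by
  intro v
  obtain ⟨u, hu, huv⟩ := exists_intUnits_slPhi_eq q F E n
    (Additive.ofMul ((Additive.toMul v : unitGroup q (slDatum q F E n).Lw) :
      (slDatum q F E n).Lwˣ)) (Additive.toMul v).2
  refine ⟨Additive.ofMul ⟨Additive.toMul u, hu⟩, ?_⟩
  apply Additive.toMul.injective
  apply Subtype.ext
  exact congrArg Additive.toMul huv

lemma iuPhi_smul (n : MaximalSpectrum (SemiLoc q E)) {h : E ≃ₐ[F] E} (hh : h • n = n)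
    (m : Additive (intUnits q E)) :
    iuPhi q F E n (h • m) = (locUnitRep q F E n).ρ (slTau hh) (iuPhi q F E n m) := by
  apply Additive.toMul.injective
  apply Subtype.ext
  exact congrArg Additive.toMul (slPhi_smul hh (iuIncl q E m))

lemma iuPhi_locHom_smul (n : MaximalSpectrum (SemiLoc q E))
    (τ : (slDatum q F E n).Lw ≃ₐ[(slDatum q F E n).Kv] (slDatum q F E n).Lw)
    (m : Additive (intUnits q E)) :
    iuPhi q F E n (locHom F E (slDatum q F E n).Kv (slDatum q F E n).Lw τ • m) =
      (locUnitRep q F E n).ρ τ (iuPhi q F E n m) := by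
  apply Additive.toMul.injective
  apply Subtype.ext
  exact congrArg Additive.toMul (slPhi_locHom_smul τ (iuIncl q E m))

end Local

section Final

variable (q : ℕ) [Fact q.Prime] (F E : Type) [Field F] [NumberField F] [Field E] [NumberField E]
  [Algebra F E] [IsGalois F E]

/-- the local step: on the stabiliser of a maximal ideal `n` a 3-cocycle with values in the
integral units is, modulo `n`, the coboundary of a cochain with values in the integral units
([US-LOC] at the local datum `slDatum q F E n`) -/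
theorem exists_local_cob₂_intUnits
    (hunr : ∀ P : Ideal (𝓞 E), P.IsPrime → ((q : ℕ) : 𝓞 E) ∈ P →
      ∀ σ : Gal(E/F), (∀ x : 𝓞 E, σ • x - x ∈ P) → σ = 1)
    (n : MaximalSpectrum (SemiLoc q E))
    {c : (E ≃ₐ[F] E) × (E ≃ₐ[F] E) × (E ≃ₐ[F] E) → Additive (intUnits q E)}
    (hc : IsCocycle₃ c) :
    ∃ β : (E ≃ₐ[F] E) × (E ≃ₐ[F] E) → Additive (intUnits q E), ∀ h₁ h₂ h₃ : E ≃ₐ[F] E,
      h₁ • n = n → h₂ • n = n → h₃ • n = n →
        cob₂ β (h₁, h₂, h₃) - c (h₁, h₂, h₃) ∈ iuK q E n := by
  classical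
  have hz : IsZero (groupCohomology (locUnitRep q F E n) 3) :=
    helper1.isZero_H3_unitGroup q (slDatum q F E n).Kv (slDatum q F E n).Lw
      (isUnram_slDatum_of_inertia q F E hunr n)
  rw [helper46.isZero_H3_iff] at hz
  let cbar : (((slDatum q F E n).Lw ≃ₐ[(slDatum q F E n).Kv] (slDatum q F E n).Lw) ×
      ((slDatum q F E n).Lw ≃ₐ[(slDatum q F E n).Kv] (slDatum q F E n).Lw) ×
      ((slDatum q F E n).Lw ≃ₐ[(slDatum q F E n).Kv] (slDatum q F E n).Lw)) →
      (locUnitRep q F E n) :=
    fun t => iuPhi q F E n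
        (c (locHom F E (slDatum q F E n).Kv (slDatum q F E n).Lw t.1,
          locHom F E (slDatum q F E n).Kv (slDatum q F E n).Lw t.2.1,
          locHom F E (slDatum q F E n).Kv (slDatum q F E n).Lw t.2.2))
  have hcbar : d₃₄ (locUnitRep q F E n) cbar = 0 := by
    funext ⟨τ₁, τ₂, τ₃, τ₄⟩
    refine (d₃₄_apply _ cbar τ₁ τ₂ τ₃ τ₄).trans ?_
    have := congrArg (iuPhi q F E n)
      (hc (locHom F E (slDatum q F E n).Kv (slDatum q F E n).Lw τ₁)
        (locHom F E (slDatum q F E n).Kv (slDatum q F E n).Lw τ₂)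
        (locHom F E (slDatum q F E n).Kv (slDatum q F E n).Lw τ₃)
        (locHom F E (slDatum q F E n).Kv (slDatum q F E n).Lw τ₄))
    simp only [map_add, map_sub, map_zero, iuPhi_locHom_smul, ← map_mul] at this
    exact this
  obtain ⟨gbar, hg⟩ := hz cbar hcbar
  have key : ∀ h : (E ≃ₐ[F] E) × (E ≃ₐ[F] E), ∃ u : Additive (intUnits q E),
      ∀ (hh1 : h.1 • n = n) (hh2 : h.2 • n = n),
        iuPhi q F E n u = gbar (slTau hh1, slTau hh2) := by
    intro h
    by_cases hh : h.1 • n = n ∧ h.2 • n = n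
    · obtain ⟨u, hu⟩ := iuPhi_surjective (q := q) (F := F) (E := E) n
        (gbar (slTau hh.1, slTau hh.2))
      exact ⟨u, fun _ _ => hu⟩
    · exact ⟨0, fun h1 h2 => absurd ⟨h1, h2⟩ hh⟩
  choose β hβ using key
  refine ⟨β, fun h₁ h₂ h₃ hh₁ hh₂ hh₃ => ?_⟩
  have h12 : (h₁ * h₂) • n = n := by rw [mul_smul, hh₂, hh₁]
  have h23 : (h₂ * h₃) • n = n := by rw [mul_smul, hh₃, hh₂]
  rw [← iuPhi_eq_zero_iff (F := F), map_sub, sub_eq_zero, cob₂_apply, map_sub, map_add, map_sub,
    iuPhi_smul n hh₁, hβ (h₂, h₃) hh₂ hh₃, hβ (h₁ * h₂, h₃) h12 hh₃, hβ (h₁, h₂ * h₃) hh₁ h23,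
    hβ (h₁, h₂) hh₁ hh₂, slTau_mul hh₁ hh₂ h12, slTau_mul hh₂ hh₃ h23]
  have h3 : (locUnitRep q F E n).ρ (slTau hh₁)
      (gbar (slTau hh₂, slTau hh₃)) - gbar (slTau hh₁ * slTau hh₂, slTau hh₃)
      + gbar (slTau hh₁, slTau hh₂ * slTau hh₃) - gbar (slTau hh₁, slTau hh₂)
      = cbar (slTau hh₁, slTau hh₂, slTau hh₃) :=
    congrFun hg (slTau hh₁, slTau hh₂, slTau hh₃)
  refine h3.trans ?_
  show iuPhi q F E n (c (_, _, _)) = _
  rw [locHom_slTau, locHom_slTau, locHom_slTau]

/-- **[US-SL], cochain form**: every 3-cocycle of `Gal(E/F)` with values in the integral units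
of `ℚ_q ⊗ E` is a coboundary, if the primes of `E` above `q` have trivial inertia. -/
theorem exists_d₂₃_eq_intUnits
    (hunr : ∀ P : Ideal (𝓞 E), P.IsPrime → ((q : ℕ) : 𝓞 E) ∈ P →
      ∀ σ : Gal(E/F), (∀ x : 𝓞 E, σ • x - x ∈ P) → σ = 1)
    (c : (E ≃ₐ[F] E) × (E ≃ₐ[F] E) × (E ≃ₐ[F] E) → repIntUnits q F E)
    (hc : d₃₄ (repIntUnits q F E) c = 0) :
    ∃ b : (E ≃ₐ[F] E) × (E ≃ₐ[F] E) → repIntUnits q F E,
      (d₂₃ (repIntUnits q F E)).hom b = c := by
  have hc' : IsCocycle₃ (M := Additive (intUnits q E)) c := by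
    intro g₁ g₂ g₃ g₄
    have := congrFun hc (g₁, g₂, g₃, g₄)
    rw [d₃₄_apply] at this
    exact this
  obtain ⟨b, hb⟩ := exists_cob₂_eq_of_forall_local (G := E ≃ₐ[F] E)
    (M := Additive (intUnits q E)) (I := MaximalSpectrum (SemiLoc q E)) (iuK q E)
    (fun g n m hm => smul_mem_oneModAdd (B := SemiLoc q E) (G := E ≃ₐ[F] E)
      (fun σ u => rfl) g n (iuIncl q E m) hm)
    (fun m hm => iuIncl_injective q E (by
      rw [map_zero]
      exact eq_zero_of_forall_mem_oneModAdd (B := SemiLoc q E) (iuIncl q E m) hm))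
    (fun f => by
      obtain ⟨m', hm', h⟩ := exists_intUnits_forall_sub_mem q F E
        (fun n => iuIncl q E (f n)) (fun n => toMul_iuIncl_mem (f n))
      refine ⟨Additive.ofMul ⟨Additive.toMul m', hm'⟩, fun n => ?_⟩
      rw [mem_iuK, map_sub]
      exact h n)
    hc' (fun n => exists_local_cob₂_intUnits q F E hunr n hc')
  refine ⟨b, ?_⟩
  funext ⟨g₁, g₂, g₃⟩
  exact (d₂₃_hom_apply (repIntUnits q F E) b (g₁, g₂, g₃)).trans (hb g₁ g₂ g₃)

/-- **[US-SL]**: `H³(Gal(E/F), intUnits q E) = 0` if all primes of `E` above `q` have trivial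
inertia in `Gal(E/F)`. -/
theorem isZero_H3_repIntUnits
    (hunr : ∀ P : Ideal (𝓞 E), P.IsPrime → ((q : ℕ) : 𝓞 E) ∈ P →
      ∀ σ : Gal(E/F), (∀ x : 𝓞 E, σ • x - x ∈ P) → σ = 1) :
    IsZero (groupCohomology (repIntUnits q F E) 3) := by
  rw [helper46.isZero_H3_iff]
  exact exists_d₂₃_eq_intUnits q F E hunr

end Final

/-- **[US-SL]** as the `Prop` of `helper31_J3Wire`. -/
theorem hypUSSL : HypUSSL := fun q _ F E _ _ _ _ _ _ hunr =>
  isZero_H3_repIntUnits q F E hunr

end Fermat.Agent.S55.helper31
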