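import Fermat.Agent.S55.Defs

set_option autoImplicit false

universe u

open CategoryTheory CategoryTheory.Limits groupCohomology Rep

namespace Fermat.Agent.S55.helper46

variable {k G : Type u} [CommRing k] [Group G] (A : Rep.{u} k G)

/-- The 4th object in the complex of inhomogeneous cochains of `A` is isomorphic to
`Fun(G⁴, A)`. -/
def fg7CochainsIso₄ :
    (inhomogeneousCochains A).X 4 ≅ ModuleCat.of k (G × G × G × G → A) :=
  (LinearEquiv.funCongrLeft k A <| ((Fin.consEquiv _).symm.trans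
    ((Equiv.refl G).prodCongr ((Fin.consEquiv _).symm.trans
      ((Equiv.refl G).prodCongr (piFinTwoEquiv fun _ => G)))))).toModuleIso.symm

/-- The differential `d₃₄` of `Defs.lean` as a morphism of `ModuleCat`. -/
def fg7D₃₄ : ModuleCat.of k (G × G × G → A) ⟶ ModuleCat.of k (G × G × G × G → A) :=
  ModuleCat.ofHom (d₃₄ A)

theorem fg7_comp_d₃₄_eq :
    (cochainsIso₃ A).hom ≫ fg7D₃₄ A =
      (inhomogeneousCochains A).d 3 4 ≫ (fg7CochainsIso₄ A).hom := by
  ext x y
  change A.ρ y.1 (x _) - x _ + x _ - x _ + x _ = _ + _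
  dsimp
  rw [Fin.sum_univ_four]
  have h4 : ((-1 : k) ^ (((3 : Fin 4) : ℕ) + 1)) = 1 := by
    have : (((3 : Fin 4) : ℕ) + 1) = 2 * 2 := rfl
    rw [this, pow_mul]; simp
  simp only [sub_eq_add_neg, add_assoc, Fin.val_zero, zero_add, pow_one, neg_smul,
    one_smul, Fin.val_one, Fin.val_two, pow_succ' (-1 : k) 2, neg_sq, Nat.one_add, one_pow,
    mul_one, h4]
  rcongr i <;> fin_cases i <;> rfl

theorem fg7_d₂₃_comp_d₃₄ : d₂₃ A ≫ fg7D₃₄ A = 0 := by
  ext x g
  obtain ⟨g₁, g₂, g₃, g₄⟩ := g
  change d₃₄ A ((d₂₃ A).hom x) (g₁, g₂, g₃, g₄) = 0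
  simp only [d₃₄_apply, d₂₃_hom_apply, map_sub, map_add, mul_assoc,
    ← Module.End.mul_apply, ← map_mul]
  abel

open ShortComplex

/-- The short complex `Fun(G², A) --d₂₃--> Fun(G³, A) --d₃₄--> Fun(G⁴, A)`. -/
def fg7ShortComplexH3 : ShortComplex (ModuleCat k) :=
  ShortComplex.mk (d₂₃ A) (fg7D₃₄ A) (fg7_d₂₃_comp_d₃₄ A)

/-- The 3-cocycles `Z³(G, A)`: the kernel of `d₃₄`. -/
def cocycles₃ : Submodule k (G × G × G → A) := LinearMap.ker (d₃₄ A)

/-- The 3-coboundaries `B³(G, A)`: the range of `d₂₃`. -/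
def coboundaries₃ : Submodule k (G × G × G → A) := LinearMap.range (d₂₃ A).hom

theorem mem_cocycles₃_iff (f : G × G × G → A) : f ∈ cocycles₃ A ↔ d₃₄ A f = 0 := Iff.rfl

theorem mem_coboundaries₃_iff (f : G × G × G → A) :
    f ∈ coboundaries₃ A ↔ ∃ g : G × G → A, (d₂₃ A).hom g = f := Iff.rfl

set_option backward.isDefEq.respectTransparency.types false in
/-- The short complex `fg7ShortComplexH3 A` is isomorphic to the 3rd short complex associated to
the complex of inhomogeneous cochains of `A`. -/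
noncomputable def fg7IsoShortComplexH3 :
    (inhomogeneousCochains A).sc 3 ≅ fg7ShortComplexH3 A :=
  (inhomogeneousCochains A).isoSc' 2 3 4 (by simp) (by simp) ≪≫
    isoMk (cochainsIso₂ A) (cochainsIso₃ A) (fg7CochainsIso₄ A)
      (comp_d₂₃_eq A) (fg7_comp_d₃₄_eq A)

/-- The 3-cocycles of the complex of inhomogeneous cochains of `A` are isomorphic to
`cocycles₃ A`. -/
noncomputable def fg7IsoCocycles₃ : cocycles A 3 ≅ ModuleCat.of k (cocycles₃ A) :=
  cyclesMapIso' (fg7IsoShortComplexH3 A) _ (fg7ShortComplexH3 A).moduleCatLeftHomologyData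

/-- The quotient map from the 3-cocycles of `A`, as a submodule of `G × G × G → A`, to
`H³(G, A)`. -/
noncomputable def H3π : ModuleCat.of k (cocycles₃ A) ⟶ groupCohomology A 3 :=
  (fg7IsoCocycles₃ A).inv ≫ π A 3

set_option backward.isDefEq.respectTransparency false in
instance fg7_epi_H3π : Epi (H3π A) := inferInstanceAs <| Epi (_ ≫ _)

variable {A}

set_option backward.defeqAttrib.useBackward true in
set_option backward.isDefEq.respectTransparency false in
theorem H3π_eq_zero_iff (x : cocycles₃ A) :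
    H3π A x = 0 ↔ (x : G × G × G → A) ∈ coboundaries₃ A := by
  have h := leftHomologyπ_naturality'_assoc (fg7IsoShortComplexH3 A).inv
    (fg7ShortComplexH3 A).moduleCatLeftHomologyData (leftHomologyData _)
    ((inhomogeneousCochains A).sc 3).leftHomologyIso.hom
  simp only [H3π, fg7IsoCocycles₃, π, HomologicalComplex.homologyπ, homologyπ,
    cyclesMapIso'_inv, leftHomologyπ, ← h, ← leftHomologyMapIso'_inv, ModuleCat.hom_comp,
    LinearMap.coe_comp, Function.comp_apply, map_eq_zero_iff _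
    ((ModuleCat.mono_iff_injective <| _).1 inferInstance)]
  simp only [coboundaries₃, fg7ShortComplexH3, LinearMap.mem_range]
  erw [Submodule.mkQ_apply, Submodule.Quotient.mk_eq_zero, LinearMap.mem_range]
  constructor
  · rintro ⟨y, hy⟩
    exact ⟨y, congrArg Subtype.val hy⟩
  · rintro ⟨y, hy⟩
    exact ⟨y, Subtype.ext hy⟩

theorem H3π_surjective : Function.Surjective (H3π A) :=
  (ModuleCat.epi_iff_surjective _).1 (fg7_epi_H3π A)

@[elab_as_elim]
theorem H3_induction_on {C : groupCohomology A 3 → Prop} (x : groupCohomology A 3)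
    (h : ∀ x : cocycles₃ A, C (H3π A x)) : C x := by
  obtain ⟨y, rfl⟩ := H3π_surjective (A := A) x
  exact h y

variable (A) in
/-- `H³(G, A) = 0` iff every 3-cocycle is a 3-coboundary. -/
theorem isZero_H3_iff :
    IsZero (groupCohomology A 3) ↔
      ∀ f : G × G × G → A, d₃₄ A f = 0 → ∃ g : G × G → A, (d₂₃ A).hom g = f := by
  constructor
  · intro h f hf
    have hz : H3π A ⟨f, hf⟩ = 0 := by
      have := (ModuleCat.isZero_iff_subsingleton.mp h)
      exact Subsingleton.elim _ _
    exact (H3π_eq_zero_iff _).1 hz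
  · intro h
    rw [ModuleCat.isZero_iff_subsingleton]
    refine ⟨fun x y => ?_⟩
    suffices hx : ∀ x : groupCohomology A 3, x = 0 by rw [hx x, hx y]
    intro x
    induction x using H3_induction_on with | h x =>
    exact (H3π_eq_zero_iff x).2 (h x.1 x.2)

theorem H3π_eq_iff (x y : cocycles₃ A) :
    H3π A x = H3π A y ↔ (x : G × G × G → A) - y ∈ coboundaries₃ A := by
  rw [← sub_eq_zero, ← map_sub, H3π_eq_zero_iff]
  rfl

variable (A) in
set_option backward.defeqAttrib.useBackward true in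
set_option backward.isDefEq.respectTransparency false in
@[reassoc (attr := simp), elementwise (attr := simp)]
theorem fg7IsoCocycles₃_hom_comp_i :
    (fg7IsoCocycles₃ A).hom ≫ (fg7ShortComplexH3 A).moduleCatLeftHomologyData.i =
      iCocycles A 3 ≫ (cochainsIso₃ A).hom := by
  simp [fg7IsoCocycles₃, fg7IsoShortComplexH3, iCocycles, HomologicalComplex.iCycles, iCycles]

section Functoriality

variable {H : Type u} [Group H] {A' : Rep.{u} k H} {B : Rep.{u} k G} (f : G →* H)
  (φ : res f A' ⟶ B)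

/-- The map `Fun(H⁴, A) → Fun(G⁴, B)` induced by `f : G →* H` and `φ : Res(f)(A) ⟶ B`. -/
noncomputable abbrev fg7CochainsMap₄ :
    ModuleCat.of k (H × H × H × H → A') ⟶ ModuleCat.of k (G × G × G × G → B) :=
  ModuleCat.ofHom <| φ.hom.toLinearMap.compLeft (G × G × G × G) ∘ₗ
    LinearMap.funLeft k A' (Prod.map f (Prod.map f (Prod.map f f)))

set_option backward.isDefEq.respectTransparency false in
/-- The morphism of short complexes induced by `f` and `φ` in degree 3. -/
@[simps]
noncomputable def fg7MapShortComplexH3 :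
    fg7ShortComplexH3 A' ⟶ fg7ShortComplexH3 B where
  τ₁ := cochainsMap₂ f φ
  τ₂ := cochainsMap₃ f φ
  τ₃ := fg7CochainsMap₄ f φ
  comm₁₂ := by
    ext x
    funext g
    simp [fg7ShortComplexH3, ← hom_comm_apply φ]
  comm₂₃ := by
    ext x
    funext g
    obtain ⟨g₁, g₂, g₃, g₄⟩ := g
    simp [fg7ShortComplexH3, fg7D₃₄, d₃₄_apply, ← hom_comm_apply φ]

/-- The induced map `Z³(H, A) ⟶ Z³(G, B)`. -/
noncomputable abbrev mapCocycles₃ :
    ModuleCat.of k (cocycles₃ A') ⟶ ModuleCat.of k (cocycles₃ B) :=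
  ShortComplex.cyclesMap' (fg7MapShortComplexH3 f φ)
    (fg7ShortComplexH3 A').moduleCatLeftHomologyData
    (fg7ShortComplexH3 B).moduleCatLeftHomologyData

theorem coe_mapCocycles₃ (x : cocycles₃ A') (g : G × G × G) :
    (mapCocycles₃ f φ x : G × G × G → B) g = φ.hom ((x : H × H × H → A') (f g.1, f g.2.1, f g.2.2)) :=
  rfl

set_option backward.isDefEq.respectTransparency false in
@[reassoc (attr := simp), elementwise (attr := simp)]
theorem cocyclesMap_comp_fg7IsoCocycles₃_hom :
    cocyclesMap f φ 3 ≫ (fg7IsoCocycles₃ B).hom =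
      (fg7IsoCocycles₃ A').hom ≫ mapCocycles₃ f φ := by
  simp [← cancel_mono (moduleCatLeftHomologyData (fg7ShortComplexH3 B)).i, fg7MapShortComplexH3,
    cochainsMap_f_3_comp_cochainsIso₃ f]

set_option backward.isDefEq.respectTransparency false in
@[reassoc (attr := simp), elementwise (attr := simp)]
theorem H3π_comp_map :
    H3π A' ≫ map f φ 3 = mapCocycles₃ f φ ≫ H3π B := by
  simp [H3π, Iso.inv_comp_eq, ← cocyclesMap_comp_fg7IsoCocycles₃_hom_assoc]

theorem H3π_map_apply (x : cocycles₃ A') :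
    map f φ 3 (H3π A' x) = H3π B (mapCocycles₃ f φ x) :=
  congr($(H3π_comp_map f φ) x)

end Functoriality

end Fermat.Agent.S55.helper46
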