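import Mathlib
import Fermat.Agent.S55.helper97_SemiLocAbs

/-!
# S55 / REC1 R-SL, part (a) (helper71): abstract Shapiro lemma in degree 2, cochain level

`B` a reduced Artinian commutative ring (a finite product of fields), `G` a group acting on `B`
by ring automorphisms (and on `Bˣ` compatibly, `hcoe`).

* `hom2 c x y z = x • c (x⁻¹ y, y⁻¹ z)` : homogeneous form of a 2-cochain, `hom2_cocycle`,
  `hom2_prism` (prism identity for a map `ρ : G → G`);
* `exists_retraction H` : an `H`-equivariant retraction `ρ : G → H`;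
* `prim c β ρ` : the explicit local primitive, `prim_spec` : it is a primitive of `hom2 c`
  modulo the maximal ideal `n`, `prim_smul`, `prim_notMem`;
* **`isMulCoboundary₂_of_forall_maximal`** : a 2-cocycle `c : G × G → Bˣ` which at every maximal
  ideal `n` is, modulo `n`, a coboundary on the stabiliser of `n`, is a coboundary.
-/

set_option autoImplicit false
set_option linter.unusedSectionVars false
set_option linter.style.haveILetI false
set_option linter.unnecessarySeqFocus false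

open scoped Pointwise
open groupCohomology

namespace Fermat.Agent.S55.helper71

open Fermat.Agent.S55.helper97

section Homog

variable {B G : Type*} [CommRing B] [Group G] [MulSemiringAction G B]
  [MulDistribMulAction G Bˣ]

/-- homogeneous form of an inhomogeneous 2-cochain with values in the units of `B` -/
def hom2 (c : G × G → Bˣ) (x y z : G) : B := x • ((c (x⁻¹ * y, y⁻¹ * z) : Bˣ) : B)

/-- the inverse of `hom2` -/
def hom2i (c : G × G → Bˣ) (x y z : G) : B := x • (((c (x⁻¹ * y, y⁻¹ * z))⁻¹ : Bˣ) : B)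

theorem hom2_mul_hom2i (c : G × G → Bˣ) (x y z : G) : hom2 c x y z * hom2i c x y z = 1 := by
  unfold hom2 hom2i
  rw [← smul_mul', Units.mul_inv, smul_one]

theorem hom2_smul (c : G × G → Bˣ) (g x y z : G) :
    hom2 c (g * x) (g * y) (g * z) = g • hom2 c x y z := by
  unfold hom2
  rw [mul_smul]
  congr 4 <;> group

theorem hom2i_smul (c : G × G → Bˣ) (g x y z : G) :
    hom2i c (g * x) (g * y) (g * z) = g • hom2i c x y z := by
  unfold hom2i
  rw [mul_smul]
  congr 5 <;> group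

variable (hcoe : ∀ (σ : G) (u : Bˣ), ((σ • u : Bˣ) : B) = σ • (u : B))

include hcoe in
theorem hom2_cocycle {c : G × G → Bˣ} (hc : IsMulCocycle₂ c) (x y z w : G) :
    hom2 c x z w * hom2 c x y z = hom2 c y z w * hom2 c x y w := by
  have h := hc (x⁻¹ * y) (y⁻¹ * z) (z⁻¹ * w)
  have h1 : x⁻¹ * y * (y⁻¹ * z) = x⁻¹ * z := by group
  have h2 : y⁻¹ * z * (z⁻¹ * w) = y⁻¹ * w := by group
  rw [h1, h2] at h
  have h3 := congrArg (fun u : Bˣ => x • (u : B)) h
  simp only [Units.val_mul, smul_mul', hcoe] at h3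
  unfold hom2
  rw [h3, smul_smul, mul_inv_cancel_left]

include hcoe in
/-- the prism identity (inverse-free form) -/
theorem hom2_prism {c : G × G → Bˣ} (hc : IsMulCocycle₂ c) (ρ : G → G) (x y z : G) :
    hom2 c (ρ x) (ρ y) (ρ z) * hom2 c y z (ρ z) * hom2 c x y (ρ y) * hom2 c x (ρ x) (ρ z)
      = hom2 c x y z * hom2 c x z (ρ z) * hom2 c y (ρ y) (ρ z) * hom2 c x (ρ x) (ρ y) := by
  have e1 := hom2_cocycle hcoe hc x y z (ρ z)
  have e2 := hom2_cocycle hcoe hc x y (ρ y) (ρ z)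
  have e3 := hom2_cocycle hcoe hc x (ρ x) (ρ y) (ρ z)
  linear_combination (-(hom2 c y (ρ y) (ρ z) * hom2 c x (ρ x) (ρ y))) * e1
    + (hom2 c x (ρ x) (ρ y) * hom2 c y z (ρ z)) * e2
    - (hom2 c y z (ρ z) * hom2 c x y (ρ y)) * e3

end Homog

section Retraction

variable {G : Type*} [Group G]

/-- a retraction `G → H` which is equivariant for left multiplication by `H` -/
theorem exists_retraction (H : Subgroup G) :
    ∃ ρ : G → G, (∀ g, ρ g ∈ H) ∧ ∀ η g, η ∈ H → ρ (η * g) = η * ρ g := by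
  classical
  let t : G → G := fun g => Quotient.out (Quotient.mk (QuotientGroup.rightRel H) g)
  have ht : ∀ g, g * (t g)⁻¹ ∈ H := by
    intro g
    have h : (QuotientGroup.rightRel H) (t g) g := Quotient.exact (Quotient.out_eq _)
    exact QuotientGroup.rightRel_apply.mp h
  have ht' : ∀ η g, η ∈ H → t (η * g) = t g := by
    intro η g hη
    show Quotient.out _ = Quotient.out _
    congr 1
    apply Quotient.sound
    show (QuotientGroup.rightRel H) (η * g) g
    rw [QuotientGroup.rightRel_apply]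
    have : g * (η * g)⁻¹ = η⁻¹ := by group
    rw [this]
    exact H.inv_mem hη
  refine ⟨fun g => g * (t g)⁻¹, ht, ?_⟩
  intro η g hη
  show η * g * (t (η * g))⁻¹ = η * (g * (t g)⁻¹)
  rw [ht' η g hη, mul_assoc]

end Retraction

section Local

variable {B G : Type*} [CommRing B] [Group G] [MulSemiringAction G B]
  [MulDistribMulAction G Bˣ]
variable (hcoe : ∀ (σ : G) (u : Bˣ), ((σ • u : Bˣ) : B) = σ • (u : B))

/-- the local primitive `A(x, y)` of the homogeneous cocycle -/
def prim (c : G × G → Bˣ) (β : G → B) (ρ : G → G) (x y : G) : B :=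
  (ρ x • β ((ρ x)⁻¹ * ρ y)) * hom2 c x y (ρ y) * hom2i c x (ρ x) (ρ y)

theorem prim_smul (c : G × G → Bˣ) (β : G → B) (ρ : G → G) (η x y : G)
    (hx : ρ (η * x) = η * ρ x) (hy : ρ (η * y) = η * ρ y) :
    prim c β ρ (η * x) (η * y) = η • prim c β ρ x y := by
  unfold prim
  rw [hx, hy, hom2_smul, hom2i_smul, smul_mul', smul_mul', mul_smul]
  congr 4
  group

variable (n : MaximalSpectrum B)

theorem smul_mem_of_stab {η : G} (hη : η • n = n) {b : B} (hb : b ∈ n.asIdeal) :
    η • b ∈ n.asIdeal := by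
  have h1 : η • b ∈ η • n.asIdeal := Ideal.smul_mem_pointwise_smul _ _ _ hb
  rw [← asIdeal_smul, hη] at h1
  exact h1

theorem smul_notMem_of_stab {η : G} (hη : η • n = n) {b : B} (hb : b ∉ n.asIdeal) :
    η • b ∉ n.asIdeal := by
  intro h
  apply hb
  have hη' : η⁻¹ • n = n := by
    conv_lhs => rw [← hη]
    rw [inv_smul_smul]
  have := smul_mem_of_stab n hη' h
  rwa [inv_smul_smul] at this

theorem hom2_notMem (c : G × G → Bˣ) (x y z : G) : hom2 c x y z ∉ n.asIdeal := by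
  intro h
  have h1 : hom2 c x y z * hom2i c x y z ∈ n.asIdeal := n.asIdeal.mul_mem_right _ h
  rw [hom2_mul_hom2i] at h1
  exact n.isMaximal.ne_top ((Ideal.eq_top_iff_one _).mpr h1)

theorem hom2i_notMem (c : G × G → Bˣ) (x y z : G) : hom2i c x y z ∉ n.asIdeal := by
  intro h
  have h1 : hom2 c x y z * hom2i c x y z ∈ n.asIdeal := n.asIdeal.mul_mem_left _ h
  rw [hom2_mul_hom2i] at h1
  exact n.isMaximal.ne_top ((Ideal.eq_top_iff_one _).mpr h1)

variable {c : G × G → Bˣ} (hc : IsMulCocycle₂ c) {β : G → B} {ρ : G → G}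
  (hβ0 : ∀ h, h • n = n → β h ∉ n.asIdeal)
  (hβ : ∀ h h' : G, h • n = n → h' • n = n →
    ((c (h, h') : Bˣ) : B) * β (h * h') - h • β h' * β h ∈ n.asIdeal)
  (hρ : ∀ g, ρ g • n = n)

include hβ0 hρ in
theorem prim_notMem (x y : G) : prim c β ρ x y ∉ n.asIdeal := by
  unfold prim
  intro h
  have hstab : ((ρ x)⁻¹ * ρ y) • n = n := by
    rw [mul_smul, hρ y]
    conv_lhs => rw [← hρ x]
    rw [inv_smul_smul]
  rcases n.isMaximal.isPrime.mem_or_mem h with h1 | h1
  · rcases n.isMaximal.isPrime.mem_or_mem h1 with h2 | h2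
    · exact smul_notMem_of_stab n (hρ x) (hβ0 _ hstab) h2
    · exact hom2_notMem n c _ _ _ h2
  · exact hom2i_notMem n c _ _ _ h1

include hcoe hβ hρ in
/-- (L3) the homogeneous form of the local coboundary relation -/
theorem hom2_bh (h₀ h₁ h₂ : G) (hh₀ : h₀ • n = n) (hh₁ : h₁ • n = n) (hh₂ : h₂ • n = n) :
    hom2 c h₀ h₁ h₂ * (h₀ • β (h₀⁻¹ * h₂))
      - (h₁ • β (h₁⁻¹ * h₂)) * (h₀ • β (h₀⁻¹ * h₁)) ∈ n.asIdeal := by
  have s1 : (h₀⁻¹ * h₁) • n = n := by
    rw [mul_smul, hh₁]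
    conv_lhs => rw [← hh₀]
    rw [inv_smul_smul]
  have s2 : (h₁⁻¹ * h₂) • n = n := by
    rw [mul_smul, hh₂]
    conv_lhs => rw [← hh₁]
    rw [inv_smul_smul]
  have h := hβ (h₀⁻¹ * h₁) (h₁⁻¹ * h₂) s1 s2
  have h1 : h₀⁻¹ * h₁ * (h₁⁻¹ * h₂) = h₀⁻¹ * h₂ := by group
  rw [h1] at h
  have h2 := smul_mem_of_stab n hh₀ h
  rw [smul_sub, smul_mul', smul_mul', smul_smul, mul_inv_cancel_left] at h2
  unfold hom2
  exact h2

include hcoe hc hβ hρ in
/-- (L4) `prim` is a primitive of the homogeneous cocycle modulo `n` -/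
theorem prim_spec (x y z : G) :
    prim c β ρ y z * prim c β ρ x y - hom2 c x y z * prim c β ρ x z ∈ n.asIdeal := by
  have h3 := hom2_bh hcoe n hβ hρ (ρ x) (ρ y) (ρ z) (hρ x) (hρ y) (hρ z)
  have hp := hom2_prism hcoe hc ρ x y z
  have u1 := hom2_mul_hom2i c y (ρ y) (ρ z)
  have u2 := hom2_mul_hom2i c x (ρ x) (ρ y)
  have u3 := hom2_mul_hom2i c x (ρ x) (ρ z)
  -- the prism identity with inverses
  have hp' : hom2 c (ρ x) (ρ y) (ρ z) * hom2 c y z (ρ z) * hom2i c y (ρ y) (ρ z)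
      * hom2 c x y (ρ y) * hom2i c x (ρ x) (ρ y)
      = hom2 c x y z * hom2 c x z (ρ z) * hom2i c x (ρ x) (ρ z) := by
    have key : (hom2 c y (ρ y) (ρ z) * hom2 c x (ρ x) (ρ y) * hom2 c x (ρ x) (ρ z)) *
        (hom2 c (ρ x) (ρ y) (ρ z) * hom2 c y z (ρ z) * hom2i c y (ρ y) (ρ z)
          * hom2 c x y (ρ y) * hom2i c x (ρ x) (ρ y)
        - hom2 c x y z * hom2 c x z (ρ z) * hom2i c x (ρ x) (ρ z)) = 0 := by
      linear_combination
        (hom2 c (ρ x) (ρ y) (ρ z) * hom2 c y z (ρ z) * hom2 c x y (ρ y) * hom2 c x (ρ x) (ρ z)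
          * hom2 c x (ρ x) (ρ y) * hom2i c x (ρ x) (ρ y)) * u1
        + (hom2 c (ρ x) (ρ y) (ρ z) * hom2 c y z (ρ z) * hom2 c x y (ρ y)
          * hom2 c x (ρ x) (ρ z)) * u2
        - (hom2 c x y z * hom2 c x z (ρ z) * hom2 c y (ρ y) (ρ z) * hom2 c x (ρ x) (ρ y)) * u3
        + hp
    have hunit : IsUnit (hom2 c y (ρ y) (ρ z) * hom2 c x (ρ x) (ρ y) * hom2 c x (ρ x) (ρ z)) := by
      refine IsUnit.mul (IsUnit.mul ?_ ?_) ?_ <;>
      exact IsUnit.of_mul_eq_one _ (hom2_mul_hom2i c _ _ _)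
    exact sub_eq_zero.mp (hunit.mul_right_eq_zero.mp key)
  have e : prim c β ρ y z * prim c β ρ x y - hom2 c x y z * prim c β ρ x z
      = -(hom2 c (ρ x) (ρ y) (ρ z) * (ρ x • β ((ρ x)⁻¹ * ρ z))
          - (ρ y • β ((ρ y)⁻¹ * ρ z)) * (ρ x • β ((ρ x)⁻¹ * ρ y)))
        * (hom2 c y z (ρ z) * hom2i c y (ρ y) (ρ z) * hom2 c x y (ρ y) * hom2i c x (ρ x) (ρ y))
        := by
    unfold prim
    linear_combination (ρ x • β ((ρ x)⁻¹ * ρ z)) * hp'
  rw [e]
  exact n.asIdeal.mul_mem_right _ (n.asIdeal.neg_mem h3)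

end Local

section Global

variable {B G : Type*} [CommRing B] [IsArtinianRing B] [IsReduced B] [Group G]
  [MulSemiringAction G B] [MulDistribMulAction G Bˣ]
variable (hcoe : ∀ (σ : G) (u : Bˣ), ((σ • u : Bˣ) : B) = σ • (u : B))

theorem orbRep_orbRep (m : MaximalSpectrum B) :
    orbRep (G := G) (orbRep (G := G) m) = orbRep (G := G) m := by
  obtain ⟨σ, hσ⟩ := exists_smul_eq_orbRep (G := G) m
  rw [← hσ, orbRep_smul, hσ]

include hcoe in
/-- **Abstract Shapiro lemma in degree 2, cochain level.**  A 2-cocycle with values in the units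
of a reduced Artinian ring `B` which, at every maximal ideal `n`, is a coboundary on the
stabiliser of `n` modulo `n`, is a coboundary. -/
theorem isMulCoboundary₂_of_forall_maximal
    {c : G × G → Bˣ} (hc : IsMulCocycle₂ c)
    (hloc : ∀ n : MaximalSpectrum B, ∃ β : G → B, (∀ h, h • n = n → β h ∉ n.asIdeal) ∧
      ∀ h h' : G, h • n = n → h' • n = n →
        ((c (h, h') : Bˣ) : B) * β (h * h') - h • β h' * β h ∈ n.asIdeal) :
    IsMulCoboundary₂ c := by
  classical
  choose β hβ0 hβ using hloc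
  have hρex : ∀ n : MaximalSpectrum B, ∃ ρ : G → G, (∀ g, ρ g • n = n) ∧
      ∀ η g, η • n = n → ρ (η * g) = η * ρ g := by
    intro n
    obtain ⟨ρ, h1, h2⟩ := exists_retraction (MulAction.stabilizer G n)
    exact ⟨ρ, fun g => MulAction.mem_stabilizer_iff.mp (h1 g),
      fun η g hη => h2 η g (MulAction.mem_stabilizer_iff.mpr hη)⟩
  choose ρ hρ hρeq using hρex
  have hx : ∀ n : MaximalSpectrum B, ∃ x : G, x • n = orbRep (G := G) n :=
    exists_smul_eq_orbRep
  choose X hX using hx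
  have hcrt : ∀ g : G, ∃ a : B, ∀ n : MaximalSpectrum B,
      a - (X n)⁻¹ • prim c (β (orbRep (G := G) n)) (ρ (orbRep (G := G) n)) (X n) (X n * g)
        ∈ n.asIdeal :=
    fun g => exists_forall_sub_mem _
  choose a' ha' using hcrt
  -- (K) the coordinates of `a'`
  have hK : ∀ (m : MaximalSpectrum B) (y g : G),
      y • a' g - prim c (β (orbRep (G := G) m)) (ρ (orbRep (G := G) m)) y (y * g)
        ∈ (orbRep (G := G) m).asIdeal := by
    intro m y g
    set n₀ := orbRep (G := G) m with hn₀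
    have hrep : orbRep (G := G) (y⁻¹ • n₀) = n₀ := by
      rw [orbRep_smul, hn₀, orbRep_orbRep]
    have h1 := ha' g (y⁻¹ • n₀)
    rw [hrep] at h1
    have hXn := hX (y⁻¹ • n₀)
    rw [hrep] at hXn
    set x := X (y⁻¹ • n₀) with hx
    have hη : (x * y⁻¹) • n₀ = n₀ := by rw [mul_smul]; exact hXn
    have e1 : x = (x * y⁻¹) * y := by group
    have e2 : x * g = (x * y⁻¹) * (y * g) := by group
    have h2 : prim c (β n₀) (ρ n₀) x (x * g)
        = (x * y⁻¹) • prim c (β n₀) (ρ n₀) y (y * g) := by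
      conv_lhs => rw [e2]
      conv_lhs => arg 4; rw [e1]
      exact prim_smul c (β n₀) (ρ n₀) (x * y⁻¹) y (y * g) (hρeq n₀ _ _ hη) (hρeq n₀ _ _ hη)
    rw [h2, smul_smul, inv_mul_cancel_left] at h1
    have h3 := smul_sub_mem h1
    rwa [smul_inv_smul] at h3
  -- units
  have hunit : ∀ g : G, IsUnit (a' g) := by
    intro g
    apply isUnit_of_forall_notMem
    intro n hmem
    have h1 := hK n (X n) g
    have h2 : X n • a' g ∈ (orbRep (G := G) n).asIdeal := by
      have := Ideal.smul_mem_pointwise_smul (X n) _ _ hmem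
      rw [← asIdeal_smul, hX n] at this
      exact this
    have h3 : prim c (β (orbRep (G := G) n)) (ρ (orbRep (G := G) n)) (X n) (X n * g)
        ∈ (orbRep (G := G) n).asIdeal := by
      have := (orbRep (G := G) n).asIdeal.sub_mem h2 h1
      rwa [sub_sub_cancel] at this
    exact prim_notMem _ (hβ0 _) (hρ _) _ _ h3
  refine ⟨fun g => (hunit g).unit, fun g h => ?_⟩
  rw [div_mul_eq_mul_div, div_eq_iff_eq_mul]
  apply Units.ext
  rw [Units.val_mul, Units.val_mul, hcoe]
  show g • a' h * a' g = ((c (g, h) : Bˣ) : B) * a' (g * h)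
  apply eq_of_forall_sub_mem
  intro n
  set n₀ := orbRep (G := G) n with hn₀
  have k1 := hK n (X n * g) h
  have k2 := hK n (X n) g
  have k3 := hK n (X n) (g * h)
  have k4 := prim_spec hcoe n₀ hc (hβ n₀) (hρ n₀) (X n) (X n * g) (X n * g * h)
  have hc' : hom2 c (X n) (X n * g) (X n * g * h) = X n • ((c (g, h) : Bˣ) : B) := by
    unfold hom2
    congr 4 <;> group
  rw [hc'] at k4
  rw [← mul_assoc] at k3
  have hmem : X n • (g • a' h * a' g - ((c (g, h) : Bˣ) : B) * a' (g * h)) ∈ n₀.asIdeal := by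
    have e : X n • (g • a' h * a' g - ((c (g, h) : Bˣ) : B) * a' (g * h))
        = ((X n * g) • a' h - prim c (β n₀) (ρ n₀) (X n * g) (X n * g * h)) * (X n • a' g)
          + prim c (β n₀) (ρ n₀) (X n * g) (X n * g * h)
            * (X n • a' g - prim c (β n₀) (ρ n₀) (X n) (X n * g))
          - (X n • ((c (g, h) : Bˣ) : B))
            * (X n • a' (g * h) - prim c (β n₀) (ρ n₀) (X n) (X n * g * h))
          + (prim c (β n₀) (ρ n₀) (X n * g) (X n * g * h) * prim c (β n₀) (ρ n₀) (X n) (X n * g)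
            - X n • ((c (g, h) : Bˣ) : B) * prim c (β n₀) (ρ n₀) (X n) (X n * g * h)) := by
      rw [smul_sub, smul_mul', smul_mul', smul_smul]
      ring
    rw [e]
    refine Ideal.add_mem _ (Ideal.sub_mem _ (Ideal.add_mem _ ?_ ?_) ?_) k4
    · exact Ideal.mul_mem_right _ _ k1
    · exact Ideal.mul_mem_left _ _ k2
    · exact Ideal.mul_mem_left _ _ k3
  have h5 := Ideal.smul_mem_pointwise_smul (X n)⁻¹ _ _ hmem
  rw [inv_smul_smul, ← asIdeal_smul, hn₀, ← hX n, inv_smul_smul] at h5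
  exact h5

end Global

end Fermat.Agent.S55.helper71
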