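import Mathlib
import Fermat.Agent.S55.helper71_ShapiroAbs
import Fermat.Agent.S55.helper60_RecHasse
import Fermat.Agent.S55.helper13_MulClass
import Fermat.Agent.S55.helper15_RecExist
import Fermat.Agent.S55.helper97_SemiLocBridge
import Fermat.Agent.S55.helper71_RecDeg

/-!
# S55 / REC1 R-SL (helper71): semilocal Shapiro in degree 2

`hypSL : helper60.HypSL` and the verbatim interface statement `isMulCoboundary₂_semiLoc`:
a global multiplicative 2-cocycle `x` of `Gal(L/F)` with values in `Lˣ` whose class is trivial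
at every local datum over `q` becomes a coboundary in `(ℚ_q ⊗ L)ˣ`.

Route.  `A = ℚ_q ⊗ L` is a reduced Artinian ring; by the abstract Shapiro lemma
(`isMulCoboundary₂_of_forall_maximal`, `helper71_ShapiroAbs`) it suffices to trivialise the
cocycle modulo every maximal ideal `n` on the stabiliser of `n`.  For such an `n` we build the
local datum `slDatum q F L n` with `Lw = A ⧸ n` and `Kv = ℚ_q(F) ⊆ A ⧸ n`; the quotient map
intertwines `locHom` with the action on `A` (`slPiD_locHom_smul`), every element of the
stabiliser of `n` is in the range of `locHom` (`locHom_slTau`), and the local triviality of the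
class gives a 1-cochain on `Gal(Lw/Kv)` (`isMulCoboundary₂_locCochain_of_loc`) which is lifted
to `A`.
-/

set_option autoImplicit false
set_option linter.unusedSectionVars false
set_option linter.style.haveILetI false
set_option linter.unnecessarySeqFocus false
set_option linter.unusedVariables false

open scoped Pointwise TensorProduct NumberField
open groupCohomology

namespace Fermat.Agent.S55.helper71

open Fermat.Agent.S55.helper8 Fermat.Agent.S55.helper11 Fermat.Agent.S55.helper73
  Fermat.Agent.S55.helper97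

section Datum

variable (q : ℕ) [Fact q.Prime] (F L : Type) [Field F] [NumberField F] [Field L] [NumberField L]
  [Algebra F L] [IsGalois F L] (n : MaximalSpectrum (SemiLoc q L))

/-- the residue field of the semilocal algebra at a maximal ideal -/
abbrev slRes : Type := SemiLoc q L ⧸ n.asIdeal

noncomputable instance slRes_field : Field (slRes q L n) := Ideal.Quotient.field n.asIdeal

/-- the quotient map -/
noncomputable def slPi : SemiLoc q L →ₐ[ℚ_[q]] slRes q L n := Ideal.Quotient.mkₐ ℚ_[q] n.asIdeal

theorem slPi_surjective : Function.Surjective (slPi q L n) := Ideal.Quotient.mkₐ_surjective _ _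

theorem slPi_eq_zero_iff (a : SemiLoc q L) : slPi q L n a = 0 ↔ a ∈ n.asIdeal :=
  Ideal.Quotient.eq_zero_iff_mem

instance slRes_finite : FiniteDimensional ℚ_[q] (slRes q L n) :=
  Module.Finite.of_surjective (slPi q L n).toLinearMap (slPi_surjective q L n)

/-- the embedding of `L` in the residue field -/
noncomputable def slIota : L →+* slRes q L n :=
  ((slPi q L n : SemiLoc q L →+* slRes q L n)).comp
    ((Algebra.TensorProduct.includeRight : L →ₐ[ℚ] SemiLoc q L) : L →+* SemiLoc q L)

theorem slIota_apply (x : L) : slIota q L n x = slPi q L n (1 ⊗ₜ[ℚ] x) := rfl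

/-- the closure of `F` in the residue field -/
noncomputable def slKv : IntermediateField ℚ_[q] (slRes q L n) :=
  IntermediateField.adjoin ℚ_[q] (Set.range ((slIota q L n).comp (algebraMap F L)))

theorem slIota_mem (x : F) : slIota q L n (algebraMap F L x) ∈ slKv q F L n :=
  IntermediateField.subset_adjoin _ _ ⟨x, rfl⟩

/-- the embedding of `F` in its closure -/
noncomputable def slSigma : F →+* slKv q F L n :=
  ((slIota q L n).comp (algebraMap F L)).codRestrict (slKv q F L n) (slIota_mem q F L n)

/-- `L → Lw` -/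
@[reducible] noncomputable def slAlgLL : Algebra L (slRes q L n) := (slIota q L n).toAlgebra

/-- `F → Lw` -/
@[reducible] noncomputable def slAlgFL : Algebra F (slRes q L n) :=
  ((slIota q L n).comp (algebraMap F L)).toAlgebra

/-- `F → Kv` -/
@[reducible] noncomputable def slAlgFK : Algebra F (slKv q F L n) := (slSigma q F L n).toAlgebra

theorem slDenseL :
    letI := slAlgLL q L n
    Algebra.adjoin ℚ_[q] (Set.range (algebraMap L (slRes q L n))) = ⊤ := by
  letI := slAlgLL q L n
  rw [eq_top_iff]
  rintro y -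
  obtain ⟨a, rfl⟩ := slPi_surjective q L n y
  induction a using TensorProduct.induction_on with
  | zero => rw [map_zero]; exact zero_mem _
  | tmul c x =>
    have h : (c ⊗ₜ[ℚ] x : SemiLoc q L) = algebraMap ℚ_[q] (SemiLoc q L) c * (1 ⊗ₜ[ℚ] x) := by
      rw [Algebra.TensorProduct.algebraMap_apply, Algebra.TensorProduct.tmul_mul_tmul, one_mul,
        mul_one]
      rfl
    rw [h, map_mul, AlgHom.commutes]
    exact mul_mem (Subalgebra.algebraMap_mem _ _) (Algebra.subset_adjoin ⟨x, rfl⟩)
  | add a b ha hb => rw [map_add]; exact add_mem ha hb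

theorem slDenseK :
    letI := slAlgFK q F L n
    Algebra.adjoin ℚ_[q] (Set.range (algebraMap F (slKv q F L n))) = ⊤ := by
  letI := slAlgFK q F L n
  exact helper15.adjoin_range_eq_top (K := ℚ_[q]) (fun x => slIota q L n (algebraMap F L x))
    (fun x => slSigma q F L n x) (fun x => rfl)

/-- the local datum at a maximal ideal of the semilocal algebra -/
noncomputable def slDatum : LocDatum q F L :=
  letI algLL : Algebra L (slRes q L n) := slAlgLL q L n
  letI algFL : Algebra F (slRes q L n) := slAlgFL q F L n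
  letI algFK : Algebra F (slKv q F L n) := slAlgFK q F L n
  haveI t1 : IsScalarTower F L (slRes q L n) := IsScalarTower.of_algebraMap_eq (fun x => rfl)
  haveI t2 : IsScalarTower F (slKv q F L n) (slRes q L n) :=
    IsScalarTower.of_algebraMap_eq (fun x => rfl)
  haveI gal : IsGalois (slKv q F L n) (slRes q L n) :=
    helper15.isGalois_of_dense (k := ℚ_[q]) (F := F) (L := L) (slDenseL q L n)
  { Kv := slKv q F L n
    Lw := slRes q L n
    denseK := slDenseK q F L n
    denseL := slDenseL q L n }

end Datum

section Key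

variable {q : ℕ} [Fact q.Prime] {F L : Type} [Field F] [NumberField F] [Field L] [NumberField L]
  [Algebra F L] [IsGalois F L] {n : MaximalSpectrum (SemiLoc q L)}

variable (q F L n) in
/-- the quotient map, with values in the top field of the local datum -/
noncomputable def slPiD : SemiLoc q L →ₐ[ℚ_[q]] (slDatum q F L n).Lw := slPi q L n

theorem slPiD_surjective : Function.Surjective (slPiD q F L n) := slPi_surjective q L n

theorem slPiD_eq_zero_iff (a : SemiLoc q L) : slPiD q F L n a = 0 ↔ a ∈ n.asIdeal :=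
  slPi_eq_zero_iff q L n a

theorem slPi_tmul (c : ℚ_[q]) (y : L) :
    slPi q L n (c ⊗ₜ[ℚ] y) = algebraMap ℚ_[q] (slRes q L n) c * slIota q L n y := by
  have h : (c ⊗ₜ[ℚ] y : SemiLoc q L) = algebraMap ℚ_[q] (SemiLoc q L) c * (1 ⊗ₜ[ℚ] y) := by
    rw [Algebra.TensorProduct.algebraMap_apply, Algebra.TensorProduct.tmul_mul_tmul, one_mul,
      mul_one]
    rfl
  rw [h, map_mul, AlgHom.commutes]
  rfl

theorem slPiD_tmul (c : ℚ_[q]) (y : L) :
    slPiD q F L n (c ⊗ₜ[ℚ] y) =
      algebraMap (slDatum q F L n).Kv (slDatum q F L n).Lw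
        (algebraMap ℚ_[q] (slDatum q F L n).Kv c) * algebraMap L (slDatum q F L n).Lw y :=
  slPi_tmul c y

theorem slPiD_one_tmul (y : L) :
    slPiD q F L n (1 ⊗ₜ[ℚ] y) = algebraMap L (slDatum q F L n).Lw y := rfl

/-- (b1) the quotient map intertwines the decomposition group with the local Galois group -/
theorem slPiD_locHom_smul
    (τ : (slDatum q F L n).Lw ≃ₐ[(slDatum q F L n).Kv] (slDatum q F L n).Lw)
    (a : SemiLoc q L) :
    slPiD q F L n (locHom F L (slDatum q F L n).Kv (slDatum q F L n).Lw τ • a) =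
      τ (slPiD q F L n a) := by
  induction a using TensorProduct.induction_on with
  | zero => rw [smul_zero, map_zero, map_zero]
  | tmul c x =>
    rw [smul_tmul', slPiD_tmul, slPiD_tmul, map_mul, AlgEquiv.commutes, algebraMap_locHom]
  | add a b ha hb => rw [smul_add, map_add, ha, hb, map_add, map_add]

end Key

section Stab

variable {q : ℕ} [Fact q.Prime] {F L : Type} [Field F] [NumberField F] [Field L] [NumberField L]
  [Algebra F L] [IsGalois F L] {n : MaximalSpectrum (SemiLoc q L)}

theorem slMap_eq_of_stab {h : L ≃ₐ[F] L} (hh : h • n = n) :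
    n.asIdeal = n.asIdeal.map ((galSemiLocAut q L F h : SemiLoc q L ≃ₐ[ℚ_[q]] SemiLoc q L) :
      SemiLoc q L →+* SemiLoc q L) := by
  have h1 : (h • n).asIdeal = n.asIdeal := congrArg MaximalSpectrum.asIdeal hh
  rw [asIdeal_smul, Ideal.pointwise_smul_def] at h1
  exact h1.symm

/-- the automorphism of the residue field induced by an element of the stabiliser -/
noncomputable def slTau0 {h : L ≃ₐ[F] L} (hh : h • n = n) :
    slRes q L n ≃ₐ[ℚ_[q]] slRes q L n :=
  Ideal.quotientEquivAlg n.asIdeal n.asIdeal (galSemiLocAut q L F h) (slMap_eq_of_stab hh)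

theorem slTau0_slPi {h : L ≃ₐ[F] L} (hh : h • n = n) (a : SemiLoc q L) :
    slTau0 hh (slPi q L n a) = slPi q L n (h • a) := rfl

theorem slTau0_fix {h : L ≃ₐ[F] L} (hh : h • n = n) (y : slRes q L n)
    (hy : y ∈ slKv q F L n) : slTau0 hh y = y := by
  have hle : slKv q F L n ≤ IntermediateField.fixedField (Subgroup.zpowers (slTau0 hh)) := by
    unfold slKv
    rw [IntermediateField.adjoin_le_iff]
    rintro _ ⟨x, rfl⟩
    rw [SetLike.mem_coe, IntermediateField.mem_fixedField_iff]
    intro f hf
    obtain ⟨k, rfl⟩ := Subgroup.mem_zpowers_iff.mp hf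
    have h1 : slTau0 hh (slIota q L n (algebraMap F L x)) = slIota q L n (algebraMap F L x) := by
      rw [slIota_apply, slTau0_slPi, smul_tmul', AlgEquiv.commutes]
    have h2 : ∀ m : ℕ, (slTau0 hh ^ m) (slIota q L n (algebraMap F L x)) =
        slIota q L n (algebraMap F L x) := by
      intro m
      induction m with
      | zero => rfl
      | succ m ih => rw [pow_succ, AlgEquiv.mul_apply, h1, ih]
    have h3 : ∀ m : ℕ, ((slTau0 hh ^ m)⁻¹) (slIota q L n (algebraMap F L x)) =
        slIota q L n (algebraMap F L x) := by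
      intro m
      have := h2 m
      rw [AlgEquiv.aut_inv]
      exact (AlgEquiv.symm_apply_eq _).mpr this.symm
    rcases Int.eq_nat_or_neg k with ⟨m, rfl | rfl⟩
    · rw [zpow_natCast]; exact h2 m
    · rw [zpow_neg, zpow_natCast]; exact h3 m
  have := hle hy
  rw [IntermediateField.mem_fixedField_iff] at this
  exact this _ (Subgroup.mem_zpowers _)

/-- the element of the local Galois group induced by an element of the stabiliser -/
noncomputable def slTau {h : L ≃ₐ[F] L} (hh : h • n = n) :
    (slDatum q F L n).Lw ≃ₐ[(slDatum q F L n).Kv] (slDatum q F L n).Lw :=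
  AlgEquiv.ofRingEquiv (f := (slTau0 hh).toRingEquiv) (fun k => slTau0_fix hh k.1 k.2)

theorem slTau_slPiD {h : L ≃ₐ[F] L} (hh : h • n = n) (a : SemiLoc q L) :
    slTau hh (slPiD q F L n a) = slPiD q F L n (h • a) := rfl

/-- (b2) the stabiliser of `n` is in the image of the local Galois group -/
theorem locHom_slTau {h : L ≃ₐ[F] L} (hh : h • n = n) :
    locHom F L (slDatum q F L n).Kv (slDatum q F L n).Lw (slTau hh) = h := by
  apply AlgEquiv.ext
  intro x
  apply (algebraMap L (slDatum q F L n).Lw).injective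
  rw [algebraMap_locHom, ← slPiD_one_tmul, slTau_slPiD, smul_tmul', slPiD_one_tmul]

end Stab

section Final

theorem isMulCocycle₂_principalPi (q : Nat.Primes) {F L : Type} [Field F] [Field L] [CharZero L]
    [Algebra F L] {x : (L ≃ₐ[F] L) × (L ≃ₐ[F] L) → Lˣ} (hx : IsMulCocycle₂ x) :
    IsMulCocycle₂ (fun g : (L ≃ₐ[F] L) × (L ≃ₐ[F] L) => principalPi L (x g) q) := by
  intro g h j
  have h1 := congrArg (fun u => principalPi L u q) (hx g h j)
  simp only [map_mul, Pi.mul_apply] at h1
  have h2 := congrFun (smul_principalPi L F g (x (h, j))) q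
  change principalPi L (x (g * h, j)) q * principalPi L (x (g, h)) q =
    g • principalPi L (x (h, j)) q * principalPi L (x (g, h * j)) q
  rw [h1, ← h2]
  rfl

/-- (b3) local triviality of the class, in cochain form -/
theorem isMulCoboundary₂_locCochain_of_loc {q : ℕ} [Fact q.Prime] {F L : Type} [Field F]
    [Field L] [Algebra F L] [Normal F L] (D : LocDatum q F L)
    {x : (L ≃ₐ[F] L) × (L ≃ₐ[F] L) → Lˣ} (hx : IsMulCocycle₂ x)
    (h : D.loc (helper60.classOf x hx) = 0) :
    IsMulCoboundary₂ (helper13.locCochain F L D.Kv D.Lw x) := by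
  have h1 : helper60.classOf x hx = mulClass F L x :=
    (helper13.mulClass_of_isMulCocycle₂ F L hx).symm
  rw [h1] at h
  have h2 : (locH F L D.Kv D.Lw 2).hom (mulClass F L x) = 0 := h
  rw [helper13.locH_mulClass F L D.Kv D.Lw hx] at h2
  exact (helper13.mulClass_eq_zero_iff D.Kv D.Lw
    (helper13.isMulCocycle₂_locCochain F L D.Kv D.Lw hx)).1 h2

/-- **R-SL**: semilocal Shapiro in degree 2 (`helper60.HypSL`, verbatim
`isMulCoboundary₂_semiLoc` of the REC1 interface). -/
theorem hypSL : helper60.HypSL := by
  intro q F L _ _ _ _ _ _ x hx hloc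
  classical
  refine isMulCoboundary₂_of_forall_maximal (B := SemiLoc (q : ℕ) L) (G := L ≃ₐ[F] L)
    (fun σ u => rfl) (isMulCocycle₂_principalPi q hx) ?_
  intro n
  obtain ⟨b, hb⟩ := isMulCoboundary₂_locCochain_of_loc (slDatum (q : ℕ) F L n) hx (hloc _)
  have key : ∀ h : L ≃ₐ[F] L, ∃ a : SemiLoc (q : ℕ) L, ∀ hh : h • n = n,
      slPiD (q : ℕ) F L n a =
        ((b (slTau hh) : (slDatum (q : ℕ) F L n).Lwˣ) : (slDatum (q : ℕ) F L n).Lw) := by
    intro h
    by_cases hh : h • n = n
    · obtain ⟨a, ha⟩ := slPiD_surjective (q := (q : ℕ)) (F := F) (L := L) (n := n)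
        ((b (slTau hh) : (slDatum (q : ℕ) F L n).Lwˣ) : (slDatum (q : ℕ) F L n).Lw)
      exact ⟨a, fun _ => ha⟩
    · exact ⟨0, fun hh' => absurd hh' hh⟩
  choose β hβ using key
  refine ⟨β, fun h hh hmem => ?_, fun h h' hh hh' => ?_⟩
  · have h0 := (slPiD_eq_zero_iff (F := F) _).mpr hmem
    rw [hβ h hh] at h0
    exact Units.ne_zero _ h0
  · have hhh' : (h * h') • n = n := by rw [mul_smul, hh', hh]
    have hτ : slTau hhh' = slTau hh * slTau hh' := by
      apply locHom_injective_of_adjoin ℚ_[(q : ℕ)] F L (slDatum (q : ℕ) F L n).Kv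
        (slDatum (q : ℕ) F L n).Lw (slDatum (q : ℕ) F L n).denseL
      rw [map_mul, locHom_slTau, locHom_slTau, locHom_slTau]
    have h1 := hb (slTau hh) (slTau hh')
    rw [helper13.locCochain_apply, locHom_slTau, locHom_slTau, div_mul_eq_mul_div,
      div_eq_iff_eq_mul] at h1
    have h2 := congrArg (fun u : (slDatum (q : ℕ) F L n).Lwˣ =>
      (u : (slDatum (q : ℕ) F L n).Lw)) h1
    simp only [Units.val_mul, Units.coe_map, MonoidHom.coe_coe] at h2
    rw [← slPiD_eq_zero_iff (F := F), map_sub, map_mul, map_mul, hβ _ hhh', hβ _ hh,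
      ← slTau_slPiD hh, hβ _ hh', sub_eq_zero, hτ]
    rw [principalPi_apply_coe, slPiD_one_tmul]
    exact h2.symm

/-- **R-SL** `isMulCoboundary₂_semiLoc` (interface statement, verbatim): semilocal Shapiro: a
global 2-cocycle whose localisations at all local data over `q` vanish becomes a coboundary in
`(ℚ_q ⊗ L)ˣ`. -/
theorem isMulCoboundary₂_semiLoc (q : Nat.Primes) (F L : Type) [Field F] [NumberField F]
    [Field L] [NumberField L] [Algebra F L] [IsGalois F L]
    (x : (L ≃ₐ[F] L) × (L ≃ₐ[F] L) → Lˣ) (hx : IsMulCocycle₂ x)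
    (hloc : ∀ D : LocDatum (q : ℕ) F L, D.loc (helper60.classOf x hx) = 0) :
    IsMulCoboundary₂ (fun g : (L ≃ₐ[F] L) × (L ≃ₐ[F] L) => principalPi L (x g) q) :=
  hypSL q F L x hx hloc

end Final

end Fermat.Agent.S55.helper71
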