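import Mathlib
import Fermat.Agent.S55.helper71_ShapiroAbs

/-!
# S55 / REC3 (helper71): abstract Shapiro lemma in degree 3, cochain level

`G` a group, `M` a `G`-module, `I` a `G`-set and `K i ≤ M` (`i : I`) a family of subgroups which
is permuted by `G` (`g • K i ≤ K (g • i)`), separating (`⋂ K i = 0`) and satisfying the Chinese
remainder theorem (every family `(m_i)` is congruent to one `m` modulo all `K i`): i.e.
`M = ∏_i M / K i` with `G` permuting the factors.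

`exists_cob₂_eq_of_forall_local`: a 3-cocycle `c` of `G` with values in `M` which, for every
`i`, is a coboundary on the stabiliser of `i` modulo `K i`, is a coboundary.

The proof is the classical one: for an equivariant retraction `ρ : G → G_i` the prism operator
gives a homotopy between the identity and `ρ^*` on homogeneous cochains, which yields a
`G_i`-equivariant primitive modulo `K i`; these are spread over the orbits and glued by the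
Chinese remainder theorem.
-/

set_option autoImplicit false
set_option linter.unusedSectionVars false
set_option linter.style.haveILetI false
set_option linter.unnecessarySeqFocus false
set_option linter.unusedVariables false

namespace Fermat.Agent.S55.helper71

section Homog3

variable {G M : Type*} [Group G] [AddCommGroup M] [DistribMulAction G M]

/-- the inhomogeneous 3-cocycle identity -/
def IsCocycle₃ (c : G × G × G → M) : Prop :=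
  ∀ g₁ g₂ g₃ g₄ : G, g₁ • c (g₂, g₃, g₄) - c (g₁ * g₂, g₃, g₄) + c (g₁, g₂ * g₃, g₄)
    - c (g₁, g₂, g₃ * g₄) + c (g₁, g₂, g₃) = 0

/-- the coboundary of an inhomogeneous 2-cochain -/
def cob₂ (b : G × G → M) (g : G × G × G) : M :=
  g.1 • b (g.2.1, g.2.2) - b (g.1 * g.2.1, g.2.2) + b (g.1, g.2.1 * g.2.2) - b (g.1, g.2.1)

theorem cob₂_apply (b : G × G → M) (g₁ g₂ g₃ : G) :
    cob₂ b (g₁, g₂, g₃) = g₁ • b (g₂, g₃) - b (g₁ * g₂, g₃) + b (g₁, g₂ * g₃) - b (g₁, g₂) := rfl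

/-- homogeneous form of an inhomogeneous 3-cochain -/
def hom3 (c : G × G × G → M) (x₀ x₁ x₂ x₃ : G) : M :=
  x₀ • c (x₀⁻¹ * x₁, x₁⁻¹ * x₂, x₂⁻¹ * x₃)

/-- homogeneous form of an inhomogeneous 2-cochain -/
def homB (b : G × G → M) (x₀ x₁ x₂ : G) : M := x₀ • b (x₀⁻¹ * x₁, x₁⁻¹ * x₂)

theorem hom3_smul (c : G × G × G → M) (g x₀ x₁ x₂ x₃ : G) :
    hom3 c (g * x₀) (g * x₁) (g * x₂) (g * x₃) = g • hom3 c x₀ x₁ x₂ x₃ := by
  unfold hom3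
  rw [mul_smul]
  congr 4 <;> group

theorem homB_smul (b : G × G → M) (g x₀ x₁ x₂ : G) :
    homB b (g * x₀) (g * x₁) (g * x₂) = g • homB b x₀ x₁ x₂ := by
  unfold homB
  rw [mul_smul]
  congr 4 <;> group

/-- the homogeneous coboundary of a homogeneous 3-cochain -/
def dHom3 (c : G × G × G → M) (x₀ x₁ x₂ x₃ x₄ : G) : M :=
  hom3 c x₁ x₂ x₃ x₄ - hom3 c x₀ x₂ x₃ x₄ + hom3 c x₀ x₁ x₃ x₄ - hom3 c x₀ x₁ x₂ x₄
    + hom3 c x₀ x₁ x₂ x₃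

theorem dHom3_eq_zero {c : G × G × G → M} (hc : IsCocycle₃ c) (x₀ x₁ x₂ x₃ x₄ : G) :
    dHom3 c x₀ x₁ x₂ x₃ x₄ = 0 := by
  have h := hc (x₀⁻¹ * x₁) (x₁⁻¹ * x₂) (x₂⁻¹ * x₃) (x₃⁻¹ * x₄)
  have h1 : x₀⁻¹ * x₁ * (x₁⁻¹ * x₂) = x₀⁻¹ * x₂ := by group
  have h2 : x₁⁻¹ * x₂ * (x₂⁻¹ * x₃) = x₁⁻¹ * x₃ := by group
  have h3 : x₂⁻¹ * x₃ * (x₃⁻¹ * x₄) = x₂⁻¹ * x₄ := by group
  rw [h1, h2, h3] at h
  have h4 := congrArg (fun m : M => x₀ • m) h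
  simp only [smul_add, smul_sub, smul_zero, smul_smul, mul_inv_cancel_left] at h4
  unfold dHom3 hom3
  exact h4

/-- the homogeneous coboundary of a homogeneous 2-cochain -/
def dHomB (b : G × G → M) (x₀ x₁ x₂ x₃ : G) : M :=
  homB b x₁ x₂ x₃ - homB b x₀ x₂ x₃ + homB b x₀ x₁ x₃ - homB b x₀ x₁ x₂

theorem dHomB_eq (b : G × G → M) (x₀ x₁ x₂ x₃ : G) :
    dHomB b x₀ x₁ x₂ x₃ = x₀ • cob₂ b (x₀⁻¹ * x₁, x₁⁻¹ * x₂, x₂⁻¹ * x₃) := by
  have h1 : x₀⁻¹ * x₁ * (x₁⁻¹ * x₂) = x₀⁻¹ * x₂ := by group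
  have h2 : x₁⁻¹ * x₂ * (x₂⁻¹ * x₃) = x₁⁻¹ * x₃ := by group
  unfold dHomB homB
  rw [cob₂_apply, h1, h2]
  simp only [smul_add, smul_sub, smul_smul, mul_inv_cancel_left]

/-- the prism operator attached to `ρ : G → G` -/
def prism3 (c : G × G × G → M) (ρ : G → G) (x₀ x₁ x₂ : G) : M :=
  hom3 c x₀ (ρ x₀) (ρ x₁) (ρ x₂) - hom3 c x₀ x₁ (ρ x₁) (ρ x₂) + hom3 c x₀ x₁ x₂ (ρ x₂)

theorem prism3_smul (c : G × G × G → M) (ρ : G → G) (η x₀ x₁ x₂ : G)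
    (h₀ : ρ (η * x₀) = η * ρ x₀) (h₁ : ρ (η * x₁) = η * ρ x₁) (h₂ : ρ (η * x₂) = η * ρ x₂) :
    prism3 c ρ (η * x₀) (η * x₁) (η * x₂) = η • prism3 c ρ x₀ x₁ x₂ := by
  unfold prism3
  rw [h₀, h₁, h₂, hom3_smul, hom3_smul, hom3_smul, smul_add, smul_sub]

/-- the prism identity: `δ ∘ h = ρ^* - id` on cocycles -/
theorem prism3_spec {c : G × G × G → M} (hc : IsCocycle₃ c) (ρ : G → G) (x₀ x₁ x₂ x₃ : G) :
    prism3 c ρ x₁ x₂ x₃ - prism3 c ρ x₀ x₂ x₃ + prism3 c ρ x₀ x₁ x₃ - prism3 c ρ x₀ x₁ x₂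
      = hom3 c (ρ x₀) (ρ x₁) (ρ x₂) (ρ x₃) - hom3 c x₀ x₁ x₂ x₃ := by
  have e1 := dHom3_eq_zero hc x₀ (ρ x₀) (ρ x₁) (ρ x₂) (ρ x₃)
  have e2 := dHom3_eq_zero hc x₀ x₁ (ρ x₁) (ρ x₂) (ρ x₃)
  have e3 := dHom3_eq_zero hc x₀ x₁ x₂ (ρ x₂) (ρ x₃)
  have e4 := dHom3_eq_zero hc x₀ x₁ x₂ x₃ (ρ x₃)
  have key : prism3 c ρ x₁ x₂ x₃ - prism3 c ρ x₀ x₂ x₃ + prism3 c ρ x₀ x₁ x₃
      - prism3 c ρ x₀ x₁ x₂ - (hom3 c (ρ x₀) (ρ x₁) (ρ x₂) (ρ x₃) - hom3 c x₀ x₁ x₂ x₃)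
      = - dHom3 c x₀ (ρ x₀) (ρ x₁) (ρ x₂) (ρ x₃) + dHom3 c x₀ x₁ (ρ x₁) (ρ x₂) (ρ x₃)
        - dHom3 c x₀ x₁ x₂ (ρ x₂) (ρ x₃) + dHom3 c x₀ x₁ x₂ x₃ (ρ x₃) := by
    unfold prism3 dHom3
    abel
  rw [e1, e2, e3, e4] at key
  simp only [neg_zero, add_zero, sub_zero] at key
  exact sub_eq_zero.mp key

/-- the local primitive of the homogeneous cocycle -/
def prim3 (c : G × G × G → M) (β : G × G → M) (ρ : G → G) (x₀ x₁ x₂ : G) : M :=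
  homB β (ρ x₀) (ρ x₁) (ρ x₂) - prism3 c ρ x₀ x₁ x₂

theorem prim3_smul (c : G × G × G → M) (β : G × G → M) (ρ : G → G) (η x₀ x₁ x₂ : G)
    (h₀ : ρ (η * x₀) = η * ρ x₀) (h₁ : ρ (η * x₁) = η * ρ x₁) (h₂ : ρ (η * x₂) = η * ρ x₂) :
    prim3 c β ρ (η * x₀) (η * x₁) (η * x₂) = η • prim3 c β ρ x₀ x₁ x₂ := by
  unfold prim3
  rw [prism3_smul c ρ η x₀ x₁ x₂ h₀ h₁ h₂, h₀, h₁, h₂, homB_smul, smul_sub]

/-- the coboundary of the local primitive -/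
theorem prim3_spec {c : G × G × G → M} (hc : IsCocycle₃ c) (β : G × G → M) (ρ : G → G)
    (x₀ x₁ x₂ x₃ : G) :
    prim3 c β ρ x₁ x₂ x₃ - prim3 c β ρ x₀ x₂ x₃ + prim3 c β ρ x₀ x₁ x₃ - prim3 c β ρ x₀ x₁ x₂
      - hom3 c x₀ x₁ x₂ x₃
      = dHomB β (ρ x₀) (ρ x₁) (ρ x₂) (ρ x₃) - hom3 c (ρ x₀) (ρ x₁) (ρ x₂) (ρ x₃) := by
  have h := prism3_spec hc ρ x₀ x₁ x₂ x₃
  unfold prim3 dHomB
  have : homB β (ρ x₁) (ρ x₂) (ρ x₃) - prism3 c ρ x₁ x₂ x₃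
      - (homB β (ρ x₀) (ρ x₂) (ρ x₃) - prism3 c ρ x₀ x₂ x₃)
      + (homB β (ρ x₀) (ρ x₁) (ρ x₃) - prism3 c ρ x₀ x₁ x₃)
      - (homB β (ρ x₀) (ρ x₁) (ρ x₂) - prism3 c ρ x₀ x₁ x₂) - hom3 c x₀ x₁ x₂ x₃
      = homB β (ρ x₁) (ρ x₂) (ρ x₃) - homB β (ρ x₀) (ρ x₂) (ρ x₃)
        + homB β (ρ x₀) (ρ x₁) (ρ x₃) - homB β (ρ x₀) (ρ x₁) (ρ x₂)
        - (prism3 c ρ x₁ x₂ x₃ - prism3 c ρ x₀ x₂ x₃ + prism3 c ρ x₀ x₁ x₃
          - prism3 c ρ x₀ x₁ x₂) - hom3 c x₀ x₁ x₂ x₃ := by abel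
  rw [this, h]
  abel

end Homog3

section Orbits

variable (G I : Type*) [Group G] [MulAction G I]

/-- orbit representatives together with transporting elements -/
theorem exists_orbit_rep : ∃ (r : I → I) (X : I → G), (∀ i, X i • i = r i) ∧
    ∀ (g : G) (i : I), r (g • i) = r i := by
  classical
  let r : I → I := fun i => Quotient.out (Quotient.mk (MulAction.orbitRel G I) i)
  have hr : ∀ i, ∃ g : G, g • i = r i := by
    intro i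
    have h : (MulAction.orbitRel G I) (r i) i := Quotient.exact (Quotient.out_eq _)
    rw [MulAction.orbitRel_apply] at h
    exact h
  choose X hX using hr
  refine ⟨r, X, hX, fun g i => ?_⟩
  show Quotient.out _ = Quotient.out _
  congr 1
  apply Quotient.sound
  show (MulAction.orbitRel G I) (g • i) i
  rw [MulAction.orbitRel_apply]
  exact ⟨g, rfl⟩

end Orbits

section Global

variable {G M I : Type*} [Group G] [AddCommGroup M] [DistribMulAction G M] [MulAction G I]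

/-- **Abstract Shapiro lemma in degree 3, cochain level.** -/
theorem exists_cob₂_eq_of_forall_local (K : I → AddSubgroup M)
    (hK : ∀ (g : G) (i : I) (m : M), m ∈ K i → g • m ∈ K (g • i))
    (hinj : ∀ m : M, (∀ i, m ∈ K i) → m = 0)
    (hcrt : ∀ f : I → M, ∃ m : M, ∀ i, m - f i ∈ K i)
    {c : G × G × G → M} (hc : IsCocycle₃ c)
    (hloc : ∀ i : I, ∃ β : G × G → M, ∀ h₁ h₂ h₃ : G, h₁ • i = i → h₂ • i = i → h₃ • i = i →
      cob₂ β (h₁, h₂, h₃) - c (h₁, h₂, h₃) ∈ K i) :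
    ∃ b : G × G → M, ∀ g₁ g₂ g₃ : G, cob₂ b (g₁, g₂, g₃) = c (g₁, g₂, g₃) := by
  classical
  choose β hβ using hloc
  have hρex : ∀ i : I, ∃ ρ : G → G, (∀ g, ρ g • i = i) ∧
      ∀ η g, η • i = i → ρ (η * g) = η * ρ g := by
    intro i
    obtain ⟨ρ, h1, h2⟩ := exists_retraction (MulAction.stabilizer G i)
    exact ⟨ρ, fun g => MulAction.mem_stabilizer_iff.mp (h1 g),
      fun η g hη => h2 η g (MulAction.mem_stabilizer_iff.mpr hη)⟩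
  choose ρ hρ hρeq using hρex
  obtain ⟨r, X, hX, hr⟩ := exists_orbit_rep G I
  have hrr : ∀ i, r (r i) = r i := fun i =>
    calc r (r i) = r (X i • i) := by rw [hX i]
      _ = r i := hr _ _
  -- the homogeneous local relation
  have hloc' : ∀ (i : I) (h₀ h₁ h₂ h₃ : G), h₀ • i = i → h₁ • i = i → h₂ • i = i → h₃ • i = i →
      dHomB (β i) h₀ h₁ h₂ h₃ - hom3 c h₀ h₁ h₂ h₃ ∈ K i := by
    intro i h₀ h₁ h₂ h₃ e₀ e₁ e₂ e₃
    have s : ∀ a b : G, a • i = i → b • i = i → (a⁻¹ * b) • i = i := by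
      intro a b ha hb
      rw [mul_smul, hb]
      conv_lhs => rw [← ha]
      rw [inv_smul_smul]
    have h := hβ i _ _ _ (s _ _ e₀ e₁) (s _ _ e₁ e₂) (s _ _ e₂ e₃)
    have h' := hK h₀ i _ h
    rw [e₀, smul_sub] at h'
    rw [dHomB_eq]
    exact h'
  -- gluing
  have hcrt' : ∀ g : G × G, ∃ a : M, ∀ i : I,
      a - (X i)⁻¹ • prim3 c (β (r i)) (ρ (r i)) (X i) (X i * g.1) (X i * g.1 * g.2) ∈ K i :=
    fun g => hcrt _
  choose a ha using hcrt'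
  -- the coordinates of `a`
  have hkey : ∀ (i : I) (y g₁ g₂ : G),
      y • a (g₁, g₂) - prim3 c (β (r i)) (ρ (r i)) y (y * g₁) (y * g₁ * g₂) ∈ K (r i) := by
    intro i y g₁ g₂
    set n₀ := r i with hn₀
    have hrep : r (y⁻¹ • n₀) = n₀ := by rw [hr, hn₀, hrr]
    have h1 := ha (g₁, g₂) (y⁻¹ • n₀)
    rw [hrep] at h1
    have hXn := hX (y⁻¹ • n₀)
    rw [hrep] at hXn
    set x := X (y⁻¹ • n₀) with hx
    have hη : (x * y⁻¹) • n₀ = n₀ := by rw [mul_smul]; exact hXn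
    have e1 : x = (x * y⁻¹) * y := by group
    have e2 : x * g₁ = (x * y⁻¹) * (y * g₁) := by group
    have e3 : x * g₁ * g₂ = (x * y⁻¹) * (y * g₁ * g₂) := by group
    have h2 : prim3 c (β n₀) (ρ n₀) x (x * g₁) (x * g₁ * g₂)
        = (x * y⁻¹) • prim3 c (β n₀) (ρ n₀) y (y * g₁) (y * g₁ * g₂) := by
      conv_lhs => rw [e3, e2]
      conv_lhs => arg 4; rw [e1]
      exact prim3_smul c (β n₀) (ρ n₀) (x * y⁻¹) y (y * g₁) (y * g₁ * g₂)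
        (hρeq n₀ _ _ hη) (hρeq n₀ _ _ hη) (hρeq n₀ _ _ hη)
    rw [h2, smul_smul, inv_mul_cancel_left] at h1
    have h3 := hK y _ _ h1
    rwa [smul_inv_smul, smul_sub, smul_inv_smul] at h3
  refine ⟨a, fun g₁ g₂ g₃ => ?_⟩
  rw [← sub_eq_zero]
  apply hinj
  intro i
  set n₀ := r i with hn₀
  have k1 := hkey i (X i * g₁) g₂ g₃
  have k2 := hkey i (X i) (g₁ * g₂) g₃
  have k3 := hkey i (X i) g₁ (g₂ * g₃)
  have k4 := hkey i (X i) g₁ g₂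
  have hs := prim3_spec hc (β n₀) (ρ n₀) (X i) (X i * g₁) (X i * g₁ * g₂) (X i * g₁ * g₂ * g₃)
  have hl := hloc' n₀ (ρ n₀ (X i)) (ρ n₀ (X i * g₁)) (ρ n₀ (X i * g₁ * g₂))
    (ρ n₀ (X i * g₁ * g₂ * g₃)) (hρ _ _) (hρ _ _) (hρ _ _) (hρ _ _)
  rw [← hs] at hl
  have hF : hom3 c (X i) (X i * g₁) (X i * g₁ * g₂) (X i * g₁ * g₂ * g₃)
      = X i • c (g₁, g₂, g₃) := by
    unfold hom3
    congr 4 <;> group
  rw [hF] at hl
  have e1 : X i * (g₁ * g₂) = X i * g₁ * g₂ := by group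
  have e3 : X i * g₁ * (g₂ * g₃) = X i * g₁ * g₂ * g₃ := by group
  rw [e1] at k2
  rw [e3] at k3
  -- combine
  have hsum : X i • (cob₂ a (g₁, g₂, g₃) - c (g₁, g₂, g₃)) ∈ K n₀ := by
    have : X i • (cob₂ a (g₁, g₂, g₃) - c (g₁, g₂, g₃))
        = ((X i * g₁) • a (g₂, g₃)
            - prim3 c (β n₀) (ρ n₀) (X i * g₁) (X i * g₁ * g₂) (X i * g₁ * g₂ * g₃))
          - (X i • a (g₁ * g₂, g₃)
            - prim3 c (β n₀) (ρ n₀) (X i) (X i * g₁ * g₂) (X i * g₁ * g₂ * g₃))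
          + (X i • a (g₁, g₂ * g₃)
            - prim3 c (β n₀) (ρ n₀) (X i) (X i * g₁) (X i * g₁ * g₂ * g₃))
          - (X i • a (g₁, g₂)
            - prim3 c (β n₀) (ρ n₀) (X i) (X i * g₁) (X i * g₁ * g₂))
          + (prim3 c (β n₀) (ρ n₀) (X i * g₁) (X i * g₁ * g₂) (X i * g₁ * g₂ * g₃)
            - prim3 c (β n₀) (ρ n₀) (X i) (X i * g₁ * g₂) (X i * g₁ * g₂ * g₃)
            + prim3 c (β n₀) (ρ n₀) (X i) (X i * g₁) (X i * g₁ * g₂ * g₃)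
            - prim3 c (β n₀) (ρ n₀) (X i) (X i * g₁) (X i * g₁ * g₂)
            - X i • c (g₁, g₂, g₃)) := by
      rw [cob₂_apply]
      simp only [smul_sub, smul_add, mul_smul]
      abel
    rw [this]
    exact (K n₀).add_mem ((K n₀).sub_mem ((K n₀).add_mem ((K n₀).sub_mem k1 k2) k3) k4) hl
  have := hK (X i)⁻¹ _ _ hsum
  rw [inv_smul_smul, hn₀, ← hX i, inv_smul_smul] at this
  exact this

end Global

end Fermat.Agent.S55.helper71
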