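import Mathlib
import Fermat.Agent.S55.helper71_Shapiro3Abs
import Fermat.Agent.S55.helper97_SemiLocAbs

/-!
# S55 / REC3 (helper71): abstract Shapiro lemma in degree 3 for units of reduced Artinian rings

* `additiveDMA` : the additive form of a `MulDistribMulAction` (the action underlying
  `Rep.ofMulDistribMulAction`), a reducible definition (not a global instance);
* `oneModAdd J` : the units congruent to `1` modulo the ideal `J`, as an additive subgroup of
  `Additive Bˣ`;
* `exists_cob₂_eq_of_forall_maximal` : a 3-cocycle of `G` with values in the units of a reduced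
  Artinian ring `B` which is, at every maximal ideal `n`, a coboundary on the stabiliser of `n`
  modulo `n`, is a coboundary.
-/

set_option autoImplicit false
set_option linter.unusedSectionVars false
set_option linter.style.haveILetI false
set_option linter.unnecessarySeqFocus false
set_option linter.unusedVariables false

open scoped Pointwise

namespace Fermat.Agent.S55.helper71

open Fermat.Agent.S55.helper97

section AddAction

/-- the additive form of a multiplicative distributive action (the action underlying
`Rep.ofMulDistribMulAction`) -/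
@[reducible] def additiveDMA (G M : Type*) [Monoid G] [CommGroup M] [MulDistribMulAction G M] :
    DistribMulAction G (Additive M) where
  smul g x := Additive.ofMul (g • Additive.toMul x)
  one_smul x := by
    show Additive.ofMul ((1 : G) • Additive.toMul x) = x
    rw [one_smul]
    rfl
  mul_smul g h x := by
    show Additive.ofMul ((g * h) • Additive.toMul x) =
      Additive.ofMul (g • Additive.toMul (Additive.ofMul (h • Additive.toMul x)))
    rw [mul_smul]
    rfl
  smul_zero g := by
    show Additive.ofMul (g • (1 : M)) = Additive.ofMul 1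
    rw [smul_one]
  smul_add g x y := by
    show Additive.ofMul (g • (Additive.toMul x * Additive.toMul y)) =
      Additive.ofMul (g • Additive.toMul x * g • Additive.toMul y)
    rw [smul_mul']

end AddAction

section Units

variable {B G : Type*} [CommRing B] [Group G] [MulSemiringAction G B]
  [MulDistribMulAction G Bˣ]
variable (hcoe : ∀ (σ : G) (u : Bˣ), ((σ • u : Bˣ) : B) = σ • (u : B))

attribute [local instance] additiveDMA

/-- units congruent to `1` modulo an ideal, additively -/
def oneModAdd (J : Ideal B) : AddSubgroup (Additive Bˣ) where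
  carrier := {u | ((Additive.toMul u : Bˣ) : B) - 1 ∈ J}
  zero_mem' := by
    show ((1 : Bˣ) : B) - 1 ∈ J
    rw [Units.val_one, sub_self]
    exact J.zero_mem
  add_mem' := by
    intro u v hu hv
    show ((Additive.toMul u * Additive.toMul v : Bˣ) : B) - 1 ∈ J
    have : ((Additive.toMul u * Additive.toMul v : Bˣ) : B) - 1
        = (((Additive.toMul u : Bˣ) : B) - 1) * ((Additive.toMul v : Bˣ) : B)
          + (((Additive.toMul v : Bˣ) : B) - 1) := by
      rw [Units.val_mul]; ring
    rw [this]
    exact J.add_mem (J.mul_mem_right _ hu) hv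
  neg_mem' := by
    intro u hu
    show (((Additive.toMul u)⁻¹ : Bˣ) : B) - 1 ∈ J
    have : (((Additive.toMul u)⁻¹ : Bˣ) : B) - 1
        = -(((Additive.toMul u)⁻¹ : Bˣ) : B) * (((Additive.toMul u : Bˣ) : B) - 1) := by
      have h := Units.inv_mul (Additive.toMul u)
      linear_combination h
    rw [this]
    exact J.mul_mem_left _ hu

theorem mem_oneModAdd (J : Ideal B) (u : Additive Bˣ) :
    u ∈ oneModAdd J ↔ ((Additive.toMul u : Bˣ) : B) - 1 ∈ J := Iff.rfl

include hcoe in
theorem smul_mem_oneModAdd (g : G) (n : MaximalSpectrum B) (u : Additive Bˣ)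
    (hu : u ∈ oneModAdd n.asIdeal) : g • u ∈ oneModAdd (g • n).asIdeal := by
  rw [mem_oneModAdd] at hu ⊢
  have h1 : ((Additive.toMul (g • u) : Bˣ) : B) = g • ((Additive.toMul u : Bˣ) : B) :=
    hcoe g (Additive.toMul u)
  rw [h1, asIdeal_smul]
  have h2 : g • ((Additive.toMul u : Bˣ) : B) - 1 = g • (((Additive.toMul u : Bˣ) : B) - 1) := by
    rw [smul_sub, smul_one]
  rw [h2]
  exact Ideal.smul_mem_pointwise_smul _ _ _ hu

theorem eq_zero_of_forall_mem_oneModAdd [IsArtinianRing B] [IsReduced B] (u : Additive Bˣ)
    (hu : ∀ n : MaximalSpectrum B, u ∈ oneModAdd n.asIdeal) : u = 0 := by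
  have h : ((Additive.toMul u : Bˣ) : B) - 1 = 0 := eq_zero_of_forall_mem hu
  have h1 : (Additive.toMul u : Bˣ) = 1 := Units.ext (sub_eq_zero.mp h)
  exact h1

theorem exists_forall_sub_mem_oneModAdd [IsArtinianRing B] (f : MaximalSpectrum B → Additive Bˣ) :
    ∃ m : Additive Bˣ, ∀ n : MaximalSpectrum B, m - f n ∈ oneModAdd n.asIdeal := by
  obtain ⟨y, hy⟩ := exists_forall_sub_mem (fun n => ((Additive.toMul (f n) : Bˣ) : B))
  have hunit : IsUnit y := by
    apply isUnit_of_forall_notMem
    intro n hmem
    have h1 : ((Additive.toMul (f n) : Bˣ) : B) ∈ n.asIdeal := by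
      have := n.asIdeal.sub_mem hmem (hy n)
      rwa [sub_sub_cancel] at this
    exact n.isMaximal.ne_top (Ideal.eq_top_of_isUnit_mem _ h1 (Units.isUnit _))
  refine ⟨Additive.ofMul hunit.unit, fun n => ?_⟩
  rw [mem_oneModAdd]
  show ((hunit.unit * (Additive.toMul (f n))⁻¹ : Bˣ) : B) - 1 ∈ n.asIdeal
  have : ((hunit.unit * (Additive.toMul (f n))⁻¹ : Bˣ) : B) - 1
      = (y - ((Additive.toMul (f n) : Bˣ) : B)) * (((Additive.toMul (f n))⁻¹ : Bˣ) : B) := by
    rw [Units.val_mul, IsUnit.unit_spec]
    have h := Units.mul_inv (Additive.toMul (f n))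
    linear_combination h
  rw [this]
  exact n.asIdeal.mul_mem_right _ (hy n)

include hcoe in
/-- **Abstract Shapiro lemma in degree 3 for the units of a reduced Artinian ring.** -/
theorem exists_cob₂_eq_of_forall_maximal [IsArtinianRing B] [IsReduced B]
    {c : G × G × G → Additive Bˣ} (hc : IsCocycle₃ c)
    (hloc : ∀ n : MaximalSpectrum B, ∃ β : G × G → Additive Bˣ, ∀ h₁ h₂ h₃ : G,
      h₁ • n = n → h₂ • n = n → h₃ • n = n →
        cob₂ β (h₁, h₂, h₃) - c (h₁, h₂, h₃) ∈ oneModAdd n.asIdeal) :
    ∃ b : G × G → Additive Bˣ, ∀ g₁ g₂ g₃ : G, cob₂ b (g₁, g₂, g₃) = c (g₁, g₂, g₃) :=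
  exists_cob₂_eq_of_forall_local (I := MaximalSpectrum B)
    (fun n => oneModAdd n.asIdeal) (fun g n u hu => smul_mem_oneModAdd hcoe g n u hu)
    eq_zero_of_forall_mem_oneModAdd exists_forall_sub_mem_oneModAdd hc hloc

end Units

end Fermat.Agent.S55.helper71
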