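import Mathlib
import Fermat.Agent.S55.helper71_Shapiro3Units
import Fermat.Agent.S55.helper71_RecSL
import Fermat.Agent.S55.helper8_LocFinal
import Fermat.Agent.S55.helper46_FG7H3

/-!
# S55 / REC3 (helper71): semilocal Shapiro in degree 3

`isZero_H3_semiLoc : IsZero (groupCohomology (Rep.ofMulDistribMulAction Gal(L/F) (ℚ_q ⊗ L)ˣ) 3)`
for a Galois extension of number fields `L/F` and a prime `q`, from the local Tate theorem
`helper8.subsingleton_H3` (LOC-6) at the local data `slDatum q F L n` of the maximal ideals `n`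
of `ℚ_q ⊗ L`, via the abstract Shapiro lemma `exists_cob₂_eq_of_forall_maximal`.
Cochain form: `exists_d₂₃_eq_semiLoc`.
-/

set_option autoImplicit false
set_option linter.unusedSectionVars false
set_option linter.style.haveILetI false
set_option linter.unnecessarySeqFocus false
set_option linter.unusedVariables false

open scoped Pointwise TensorProduct NumberField
open groupCohomology CategoryTheory CategoryTheory.Limits

namespace Fermat.Agent.S55.helper71

open Fermat.Agent.S55 Fermat.Agent.S55.helper8 Fermat.Agent.S55.helper11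
  Fermat.Agent.S55.helper73 Fermat.Agent.S55.helper97

attribute [local instance] additiveDMA

section Local

variable {q : ℕ} [Fact q.Prime] {F L : Type} [Field F] [NumberField F] [Field L] [NumberField L]
  [Algebra F L] [IsGalois F L] {n : MaximalSpectrum (SemiLoc q L)}

variable (q F L n) in
/-- reduction of units modulo `n`, additively -/
noncomputable def slPhi : Additive (SemiLoc q L)ˣ →+ Additive (slDatum q F L n).Lwˣ :=
  MonoidHom.toAdditive (Units.map ((slPiD q F L n : SemiLoc q L →ₐ[ℚ_[q]] (slDatum q F L n).Lw) :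
    SemiLoc q L →* (slDatum q F L n).Lw))

theorem slPhi_coe (u : Additive (SemiLoc q L)ˣ) :
    ((Additive.toMul (slPhi q F L n u) : (slDatum q F L n).Lwˣ) : (slDatum q F L n).Lw) =
      slPiD q F L n ((Additive.toMul u : (SemiLoc q L)ˣ) : SemiLoc q L) := rfl

theorem slPhi_eq_zero_iff (u : Additive (SemiLoc q L)ˣ) :
    slPhi q F L n u = 0 ↔ u ∈ oneModAdd n.asIdeal := by
  rw [mem_oneModAdd, ← slPiD_eq_zero_iff (F := F), map_sub, map_one, sub_eq_zero]
  constructor
  · intro h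
    have := congrArg (fun v : Additive (slDatum q F L n).Lwˣ =>
      ((Additive.toMul v : (slDatum q F L n).Lwˣ) : (slDatum q F L n).Lw)) h
    exact this
  · intro h
    apply Additive.toMul.injective
    apply Units.ext
    exact h

theorem slPhi_surjective : Function.Surjective (slPhi q F L n) := by
  intro v
  obtain ⟨y, hy⟩ := slPiD_surjective (q := q) (F := F) (L := L) (n := n)
    ((Additive.toMul v : (slDatum q F L n).Lwˣ) : (slDatum q F L n).Lw)
  classical
  obtain ⟨z, hz⟩ := exists_forall_sub_mem (fun m : MaximalSpectrum (SemiLoc q L) =>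
    if m = n then y else 1)
  have hzn : slPiD q F L n z = slPiD q F L n y := by
    have := hz n
    rw [if_pos rfl, ← slPiD_eq_zero_iff (F := F), map_sub, sub_eq_zero] at this
    exact this
  have hunit : IsUnit z := by
    apply isUnit_of_forall_notMem
    intro m hmem
    by_cases hmn : m = n
    · subst hmn
      have h0 : slPiD q F L m z = 0 := (slPiD_eq_zero_iff (F := F) z).mpr hmem
      rw [hzn, hy] at h0
      exact Units.ne_zero _ h0
    · have := hz m
      rw [if_neg hmn] at this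
      have h1 : (1 : SemiLoc q L) ∈ m.asIdeal := by
        have := m.asIdeal.sub_mem hmem this
        rwa [sub_sub_cancel] at this
      exact m.isMaximal.ne_top ((Ideal.eq_top_iff_one _).mpr h1)
  refine ⟨Additive.ofMul hunit.unit, ?_⟩
  apply Additive.toMul.injective
  apply Units.ext
  show slPiD q F L n z = _
  rw [hzn, hy]

/-- reduction intertwines the stabiliser with the local Galois group -/
theorem slPhi_smul {h : L ≃ₐ[F] L} (hh : h • n = n) (u : Additive (SemiLoc q L)ˣ) :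
    slPhi q F L n (h • u) =
      (Rep.ofAlgebraAutOnUnits (slDatum q F L n).Kv (slDatum q F L n).Lw).ρ (slTau hh)
        (slPhi q F L n u) := by
  apply Additive.toMul.injective
  apply Units.ext
  exact (slTau_slPiD hh _).symm

theorem slPhi_locHom_smul
    (τ : (slDatum q F L n).Lw ≃ₐ[(slDatum q F L n).Kv] (slDatum q F L n).Lw)
    (u : Additive (SemiLoc q L)ˣ) :
    slPhi q F L n (locHom F L (slDatum q F L n).Kv (slDatum q F L n).Lw τ • u) =
      (Rep.ofAlgebraAutOnUnits (slDatum q F L n).Kv (slDatum q F L n).Lw).ρ τ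
        (slPhi q F L n u) := by
  apply Additive.toMul.injective
  apply Units.ext
  exact slPiD_locHom_smul τ _

theorem slTau_mul {h h' : L ≃ₐ[F] L} (hh : h • n = n) (hh' : h' • n = n)
    (hhh' : (h * h') • n = n) : slTau hhh' = slTau hh * slTau hh' := by
  apply locHom_injective_of_adjoin ℚ_[q] F L (slDatum q F L n).Kv
    (slDatum q F L n).Lw (slDatum q F L n).denseL
  rw [map_mul, locHom_slTau, locHom_slTau, locHom_slTau]

end Local

section Final

variable (q : ℕ) [Fact q.Prime] (F L : Type) [Field F] [NumberField F] [Field L] [NumberField L]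
  [Algebra F L] [IsGalois F L]

/-- the local step: on the stabiliser of a maximal ideal `n` a 3-cocycle is a coboundary modulo
`n` (local Tate theorem at the local datum `slDatum q F L n`) -/
theorem exists_local_cob₂ (n : MaximalSpectrum (SemiLoc q L))
    {c : (L ≃ₐ[F] L) × (L ≃ₐ[F] L) × (L ≃ₐ[F] L) → Additive (SemiLoc q L)ˣ}
    (hc : IsCocycle₃ c) :
    ∃ β : (L ≃ₐ[F] L) × (L ≃ₐ[F] L) → Additive (SemiLoc q L)ˣ, ∀ h₁ h₂ h₃ : L ≃ₐ[F] L,
      h₁ • n = n → h₂ • n = n → h₃ • n = n →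
        cob₂ β (h₁, h₂, h₃) - c (h₁, h₂, h₃) ∈ oneModAdd n.asIdeal := by
  classical
  have hz : IsZero (groupCohomology
      (Rep.ofAlgebraAutOnUnits (slDatum q F L n).Kv (slDatum q F L n).Lw) 3) := by
    haveI := helper8.subsingleton_H3 q (slDatum q F L n).Kv (slDatum q F L n).Lw
    exact ModuleCat.isZero_of_subsingleton _
  rw [helper46.isZero_H3_iff] at hz
  let cbar : (((slDatum q F L n).Lw ≃ₐ[(slDatum q F L n).Kv] (slDatum q F L n).Lw) ×
      ((slDatum q F L n).Lw ≃ₐ[(slDatum q F L n).Kv] (slDatum q F L n).Lw) ×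
      ((slDatum q F L n).Lw ≃ₐ[(slDatum q F L n).Kv] (slDatum q F L n).Lw)) →
      (Rep.ofAlgebraAutOnUnits (slDatum q F L n).Kv (slDatum q F L n).Lw) :=
    fun t => slPhi q F L n
        (c (locHom F L (slDatum q F L n).Kv (slDatum q F L n).Lw t.1,
          locHom F L (slDatum q F L n).Kv (slDatum q F L n).Lw t.2.1,
          locHom F L (slDatum q F L n).Kv (slDatum q F L n).Lw t.2.2))
  have hcbar : d₃₄ (Rep.ofAlgebraAutOnUnits (slDatum q F L n).Kv (slDatum q F L n).Lw)
      cbar = 0 := by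
    funext ⟨τ₁, τ₂, τ₃, τ₄⟩
    refine (d₃₄_apply _ cbar τ₁ τ₂ τ₃ τ₄).trans ?_
    have := congrArg (slPhi q F L n)
      (hc (locHom F L (slDatum q F L n).Kv (slDatum q F L n).Lw τ₁)
        (locHom F L (slDatum q F L n).Kv (slDatum q F L n).Lw τ₂)
        (locHom F L (slDatum q F L n).Kv (slDatum q F L n).Lw τ₃)
        (locHom F L (slDatum q F L n).Kv (slDatum q F L n).Lw τ₄))
    simp only [map_add, map_sub, map_zero, slPhi_locHom_smul, ← map_mul] at this
    exact this
  obtain ⟨gbar, hg⟩ := hz cbar hcbar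
  have key : ∀ h : (L ≃ₐ[F] L) × (L ≃ₐ[F] L), ∃ u : Additive (SemiLoc q L)ˣ,
      ∀ (hh1 : h.1 • n = n) (hh2 : h.2 • n = n),
        slPhi q F L n u = gbar (slTau hh1, slTau hh2) := by
    intro h
    by_cases hh : h.1 • n = n ∧ h.2 • n = n
    · obtain ⟨u, hu⟩ := slPhi_surjective (q := q) (F := F) (L := L) (n := n)
        (gbar (slTau hh.1, slTau hh.2))
      exact ⟨u, fun _ _ => hu⟩
    · exact ⟨0, fun h1 h2 => absurd ⟨h1, h2⟩ hh⟩
  choose β hβ using key
  refine ⟨β, fun h₁ h₂ h₃ hh₁ hh₂ hh₃ => ?_⟩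
  have h12 : (h₁ * h₂) • n = n := by rw [mul_smul, hh₂, hh₁]
  have h23 : (h₂ * h₃) • n = n := by rw [mul_smul, hh₃, hh₂]
  rw [← slPhi_eq_zero_iff (F := F), map_sub, sub_eq_zero, cob₂_apply, map_sub, map_add, map_sub,
    slPhi_smul hh₁, hβ (h₂, h₃) hh₂ hh₃, hβ (h₁ * h₂, h₃) h12 hh₃, hβ (h₁, h₂ * h₃) hh₁ h23,
    hβ (h₁, h₂) hh₁ hh₂, slTau_mul hh₁ hh₂ h12, slTau_mul hh₂ hh₃ h23]
  have h3 : (Rep.ofAlgebraAutOnUnits (slDatum q F L n).Kv (slDatum q F L n).Lw).ρ (slTau hh₁)
      (gbar (slTau hh₂, slTau hh₃)) - gbar (slTau hh₁ * slTau hh₂, slTau hh₃)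
      + gbar (slTau hh₁, slTau hh₂ * slTau hh₃) - gbar (slTau hh₁, slTau hh₂)
      = cbar (slTau hh₁, slTau hh₂, slTau hh₃) :=
    congrFun hg (slTau hh₁, slTau hh₂, slTau hh₃)
  refine h3.trans ?_
  show slPhi q F L n (c (_, _, _)) = _
  rw [locHom_slTau, locHom_slTau, locHom_slTau]

/-- **Semilocal Shapiro in degree 3, cochain form**: every 3-cocycle of `Gal(L/F)` with values
in `(ℚ_q ⊗ L)ˣ` is a coboundary. -/
theorem exists_d₂₃_eq_semiLoc
    (c : (L ≃ₐ[F] L) × (L ≃ₐ[F] L) × (L ≃ₐ[F] L) →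
      Rep.ofMulDistribMulAction (L ≃ₐ[F] L) (SemiLoc q L)ˣ)
    (hc : d₃₄ (Rep.ofMulDistribMulAction (L ≃ₐ[F] L) (SemiLoc q L)ˣ) c = 0) :
    ∃ b : (L ≃ₐ[F] L) × (L ≃ₐ[F] L) → Rep.ofMulDistribMulAction (L ≃ₐ[F] L) (SemiLoc q L)ˣ,
      (d₂₃ (Rep.ofMulDistribMulAction (L ≃ₐ[F] L) (SemiLoc q L)ˣ)).hom b = c := by
  have hc' : IsCocycle₃ (M := Additive (SemiLoc q L)ˣ) c := by
    intro g₁ g₂ g₃ g₄
    have := congrFun hc (g₁, g₂, g₃, g₄)
    rw [d₃₄_apply] at this
    exact this
  obtain ⟨b, hb⟩ := exists_cob₂_eq_of_forall_maximal (B := SemiLoc q L) (G := L ≃ₐ[F] L)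
    (fun σ u => rfl) hc' (fun n => exists_local_cob₂ q F L n hc')
  refine ⟨b, ?_⟩
  funext ⟨g₁, g₂, g₃⟩
  exact (d₂₃_hom_apply (Rep.ofMulDistribMulAction (L ≃ₐ[F] L) (SemiLoc q L)ˣ) b
    (g₁, g₂, g₃)).trans (hb g₁ g₂ g₃)

/-- **Semilocal Shapiro in degree 3**: `H³(Gal(L/F), (ℚ_q ⊗ L)ˣ) = 0`. -/
theorem isZero_H3_semiLoc :
    IsZero (groupCohomology (Rep.ofMulDistribMulAction (L ≃ₐ[F] L) (SemiLoc q L)ˣ) 3) := by
  rw [helper46.isZero_H3_iff]
  exact exists_d₂₃_eq_semiLoc q F L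

end Final

end Fermat.Agent.S55.helper71
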