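import Fermat.Agent.S55.helper31_J3Prod
import Fermat.Agent.S55.helper69_Rec3Dic
import Fermat.Agent.S55.helper71_H3SemiLoc
import Fermat.Agent.S55.helper46_Dic3

/-!
# S55 / REC3 R3-J3 (helper31): conditional wiring

`j3S_of` : `helper90.J3S p S F hF` (in the strong form `Z3 ≤ B3`) from the two remaining
inputs, as `Prop`s:

* `HypUSSL` : `H³(Gal(E/F), intUnits q E) = 0` if all primes of `E` above `q` have trivial
  inertia in `Gal(E/F)`;
* `HypUNR` : the Prelude's `IsUnramifiedOutside` gives trivial inertia groups at the primes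
  above `q ∉ S`.

Discharged here: semilocal Shapiro at `q ∈ S` (`helper71.isZero_H3_semiLoc`), the finite-level
realisation of `J_S` (`helper69.Dic.finRealJS`), the abstract dictionary (`helper46`).
-/

set_option autoImplicit false

open scoped TensorProduct NumberField

open CategoryTheory CategoryTheory.Limits groupCohomology

noncomputable section

namespace Fermat.Agent.S55.helper31

open Fermat.Agent.S55 Fermat.Agent.S55.helper73 Fermat.Agent.S55.helper59
  Fermat.Agent.S55.helper69 Fermat.Agent.S55.helper90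

local notation "Qbar" => AlgebraicClosure ℚ

/-- **[US-SL]** as a `Prop`. -/
def HypUSSL : Prop :=
  ∀ (q : ℕ) [Fact q.Prime] (F E : Type) [Field F] [NumberField F] [Field E] [NumberField E]
    [Algebra F E] [IsGalois F E],
    (∀ P : Ideal (𝓞 E), P.IsPrime → ((q : ℕ) : 𝓞 E) ∈ P →
      ∀ σ : Gal(E/F), (∀ x : 𝓞 E, σ • x - x ∈ P) → σ = 1) →
    IsZero (groupCohomology (repIntUnits q F E) 3)

/-- **[UNR]** as a `Prop`. -/
def HypUNR : Prop :=
  ∀ (S : Finset Nat.Primes) (E : IntermediateField ℚ Qbar), E.IsUnramifiedOutside S →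
    E.fixingSubgroup.Normal → ∀ q : Nat.Primes, q ∉ S →
    ∀ P : Ideal (𝓞 E), P.IsPrime → ((q : ℕ) : 𝓞 E) ∈ P →
    ∀ σ : E ≃ₐ[ℚ] E, (∀ x : 𝓞 E, σ • x - x ∈ P) → σ = 1

section Fin

variable (S : Finset Nat.Primes) (F E : Type) [Field F] [NumberField F] [Field E]
  [NumberField E] [Algebra F E] [IsGalois F E]

/-- **[FIN]**: `H³(Gal(E/F), J_{E,S}) = 0` if `E/F` has trivial inertia at all primes above the
`q ∉ S`. -/
theorem isZero_H3_repSIdele_of_unram (hUS : HypUSSL)
    (hunr : ∀ q : Nat.Primes, q ∉ S → ∀ P : Ideal (𝓞 E), P.IsPrime → ((q : ℕ) : 𝓞 E) ∈ P →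
      ∀ σ : Gal(E/F), (∀ x : 𝓞 E, σ • x - x ∈ P) → σ = 1) :
    IsZero (groupCohomology (repSIdele S F E) 3) :=
  isZero_H3_repSIdele S F E (fun q _ => helper71.isZero_H3_semiLoc (q : ℕ) F E)
    (fun q hq => hUS (q : ℕ) F E (hunr q hq))

end Fin

section Wire

variable {p : ℕ} {S : Finset Nat.Primes} {F : IntermediateField ℚ Qbar}
  [FiniteDimensional ℚ F] (hF : F.IsUnramifiedOutside S)

/-- `H³(G_S, J_S) = 0` (level-constant cochains), from [US-SL] and [UNR]. -/
theorem Z3_le_B3_repJS_of (hUS : HypUSSL) (hUNR : HypUNR) :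
    Z3 (sLevelsStr S F hF) (repJS S F hF) ≤ B3 (sLevelsStr S F hF) (repJS S F hF) := by
  refine helper46.Z3_le_B3_of_isZero (finLevels_sLevelsStr S F hF) (isDisc_repJS S F hF) ?_
  intro N hN
  obtain ⟨E₀, hE₀, hn, hle, rfl⟩ := hN
  obtain ⟨E, hfin, hgal, hres, hnor⟩ := helper7.exists_level_of_normal E₀ hE₀ hn hle
  have hE : (E.restrictScalars ℚ).IsUnramifiedOutside S := hres ▸ hE₀
  have hn' : (E.restrictScalars ℚ).fixingSubgroup.Normal := hres ▸ hn
  haveI : NumberField ↥F := ⟨⟩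
  haveI : FiniteDimensional ℚ ↥E := Module.Finite.trans ↥F ↥E
  haveI : NumberField ↥E := ⟨⟩
  refine ⟨Dic.finRealJS S F hF E hE, ?_, ?_⟩
  · have hk : (Dic.finRealJS S F hF E hE).π.ker = (resFix F E).ker := rfl
    rw [hk, helper7.ker_resFix, hres]
  · change IsZero (groupCohomology (repSIdele S ↥F ↥E) 3)
    refine isZero_H3_repSIdele_of_unram S ↥F ↥E hUS ?_
    intro q hq P hP hqP σ hσ
    have h1 := hUNR S (E.restrictScalars ℚ) hE hn' q hq P hP hqP (σ.restrictScalars ℚ) hσ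
    apply AlgEquiv.ext
    intro x
    exact congrArg (fun τ : (↥(E.restrictScalars ℚ) ≃ₐ[ℚ] ↥(E.restrictScalars ℚ)) => τ x) h1

/-- **R3-J3** (helper90's interface), from [US-SL] and [UNR]. -/
theorem j3S_of [Fact p.Prime] (hUS : HypUSSL) (hUNR : HypUNR) : J3S p S F hF := by
  intro t ht
  refine ⟨1, (Fact.out : p.Prime).not_dvd_one, ?_⟩
  rw [one_smul]
  exact Z3_le_B3_repJS_of hF hUS hUNR ht

end Wire

end Fermat.Agent.S55.helper31
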