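import Mathlib
import Fermat.Agent.S55.helper73_GlobDefs2
import Fermat.Agent.S55.helper31_SemiLocLatt

/-!
# S55 / GLOB (helper31): the principal units `1 + q 𝓞` of `ℚ_q ⊗ L`

* `FiltRing.exists_unit_one_add_B` : in a filtered ring, `1 + y` is a unit for `y ∈ B 1`, with
  inverse in `1 + B 1` (geometric series).
* `exists_princUnit_of_isIntegral` : for `z` integral over `ℤ_q`, `1 + q z` is (the value of) a
  principal unit.
* `mem_princUnits_iff_sub_one_mem` : `x ∈ princUnits q L ↔ x - 1 ∈ q 𝓞` (the condition on the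
  inverse is automatic).
-/

set_option autoImplicit false
set_option linter.unusedSectionVars false

namespace Fermat.Agent.S55.helper31

open scoped TensorProduct NumberField
open Finset Fermat.Agent.S55.helper73

namespace FiltRing

variable {G A : Type*} [Group G] [Fintype G] [CommRing A] [MulSemiringAction G A]
  [MulDistribMulAction G Aˣ] (D : FiltRing G A)

/-- **Geometric series** for the multiplicative filtration: `1 + y` is a unit for `y ∈ B 1`,
with inverse in `1 + B 1`. -/
theorem exists_unit_one_add_B {y : A} (hy : y ∈ D.B 1) :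
    ∃ w : Aˣ, (w : A) = 1 + y ∧ ((w⁻¹ : Aˣ) : A) - 1 ∈ D.B 1 := by
  have hc0 := D.hc0
  set t : A := -y with ht
  have htB : t ∈ D.B 1 := (D.B 1).neg_mem hy
  have hpow : ∀ k : ℕ, t ^ (k + 1) ∈ D.B (k + 1) := by
    intro k
    induction k with
    | zero => simpa using htB
    | succ k ih =>
      rw [pow_succ]
      have h1 := D.mul_mem ih htB
      refine D.B_anti ?_ h1
      push_cast
      omega
  set c : ℕ := D.c.toNat with hc
  have hcc : (c : ℤ) = D.c := Int.toNat_of_nonneg hc0
  set S : ℕ → A := fun k => ∑ i ∈ range (k + c), t ^ (i + 1) with hS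
  have hSsucc : ∀ k, S (k + 1) = S k + t ^ (k + c + 1) := by
    intro k
    simp only [hS]
    rw [show k + 1 + c = (k + c) + 1 by ring, Finset.sum_range_succ]
  have hSmem : ∀ k, S k ∈ D.B 1 := fun k =>
    AddSubgroup.sum_mem _ fun i _ => D.B_anti (by omega) (hpow i)
  have hcauchy : ∀ k : ℕ, S (k + 1) - S k ∈ D.M k := by
    intro k
    rw [hSsucc, add_sub_cancel_left]
    refine D.B_le_M_of_le ?_ (hpow (k + c))
    push_cast
    omega
  obtain ⟨z, hz⟩ := D.complete S hcauchy
  have hzB : z ∈ D.B 1 := by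
    have h1 := D.M_le_B _ (hz 1)
    have h2 : z = (z - S 1) + S 1 := by ring
    rw [h2]
    exact (D.B 1).add_mem (by simpa using h1) (hSmem _)
  have hgeom : ∀ k : ℕ, (1 - t) * (1 + ∑ i ∈ range k, t ^ (i + 1)) = 1 - t ^ (k + 1) := by
    intro k
    induction k with
    | zero => simp
    | succ k ih =>
      rw [Finset.sum_range_succ]
      have e : (1 - t) * (1 + (∑ i ∈ range k, t ^ (i + 1) + t ^ (k + 1)))
          = (1 - t) * (1 + ∑ i ∈ range k, t ^ (i + 1)) + (1 - t) * t ^ (k + 1) := by ring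
      rw [e, ih]
      ring
  have h1t : 1 - t ∈ D.B 0 := (D.B 0).sub_mem D.one_mem (D.B_anti (by omega) htB)
  have hE : (1 + y) * (1 + z) - 1 = 0 := by
    apply D.sep
    intro k
    have e : (1 + y) * (1 + z) - 1 = (1 - t) * (z - S k) - t ^ (k + c + 1) := by
      have h3 := hgeom (k + c)
      have hy' : 1 + y = 1 - t := by rw [ht]; ring
      rw [hy']
      simp only [hS]
      linear_combination h3
    rw [e]
    refine (D.B k).sub_mem ?_ ?_
    · have := D.mul_mem h1t (D.M_le_B _ (hz k))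
      simpa using this
    · exact D.B_anti (by push_cast; omega) (hpow (k + c))
  have hE' : (1 + y) * (1 + z) = 1 := sub_eq_zero.1 hE
  refine ⟨⟨1 + y, 1 + z, hE', by rw [mul_comm]; exact hE'⟩, rfl, ?_⟩
  change 1 + z - 1 ∈ D.B 1
  simpa using hzB

end FiltRing

variable (q : ℕ) [Fact q.Prime] (L : Type*) [Field L] [NumberField L]

/-- For `y ∈ q 𝓞`, `1 + y` is a unit of `ℚ_q ⊗ L` with inverse in `1 + q 𝓞`. -/
theorem exists_unit_one_add_of_mem_Bfil {y : SemiLoc q L} (hy : y ∈ Bfil q L 1) :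
    ∃ w : (SemiLoc q L)ˣ, (w : SemiLoc q L) = 1 + y ∧
      ((w⁻¹ : (SemiLoc q L)ˣ) : SemiLoc q L) - 1 ∈ Bfil q L 1 := by
  obtain ⟨D⟩ := exists_globLatt L L
  have hσ : ∀ τ : Gal(L/L), τ ∈ Subgroup.zpowers (1 : Gal(L/L)) := by
    intro τ
    have : τ = 1 := Subsingleton.elim _ _
    rw [this]
    exact Subgroup.one_mem _
  exact (D.filtRing q 1 hσ).exists_unit_one_add_B hy

/-- `x ∈ princUnits q L ↔ x - 1 ∈ q 𝓞`. -/
theorem mem_princUnits_iff_sub_one_mem {x : (SemiLoc q L)ˣ} :
    x ∈ princUnits q L ↔ (x : SemiLoc q L) - 1 ∈ Bfil q L 1 := by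
  have key : ∀ y : (SemiLoc q L)ˣ,
      (∃ z : SemiLoc q L, IsIntegral ℤ_[q] z ∧ (y : SemiLoc q L) = 1 + (q : ℚ_[q]) • z)
        ↔ (y : SemiLoc q L) - 1 ∈ Bfil q L 1 := by
    intro y
    rw [mem_Bfil_one]
    constructor
    · rintro ⟨z, hz, hy⟩
      exact ⟨z, hz, by rw [hy]; ring⟩
    · rintro ⟨z, hz, hy⟩
      exact ⟨z, hz, by rw [← hy]; ring⟩
  rw [mem_princUnits, key x, key x⁻¹]
  constructor
  · exact fun h => h.1
  · intro h
    refine ⟨h, ?_⟩
    obtain ⟨w, hw, hwi⟩ := exists_unit_one_add_of_mem_Bfil q L h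
    have hwx : w = x := Units.ext (by rw [hw]; ring)
    rw [hwx] at hwi
    exact hwi

/-- For `z` integral over `ℤ_q`, `1 + q z` is a principal unit. -/
theorem exists_princUnit_of_isIntegral {z : SemiLoc q L} (hz : IsIntegral ℤ_[q] z) :
    ∃ u ∈ princUnits q L, (u : SemiLoc q L) = 1 + (q : ℚ_[q]) • z := by
  have hy : (q : ℚ_[q]) • z ∈ Bfil q L 1 := (mem_Bfil_one q L).2 ⟨z, hz, rfl⟩
  obtain ⟨w, hw, -⟩ := exists_unit_one_add_of_mem_Bfil q L hy
  refine ⟨w, ?_, hw⟩
  rw [mem_princUnits_iff_sub_one_mem, hw]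
  simpa using hy

/-- The principal units are integral units. -/
theorem princUnits_le_intUnits' : princUnits q L ≤ intUnits q L := by
  intro x hx
  have h1 := (mem_princUnits_iff_sub_one_mem q L).1 hx
  have h2 := (mem_princUnits_iff_sub_one_mem q L).1 ((princUnits q L).inv_mem hx)
  have key : ∀ y : SemiLoc q L, y - 1 ∈ Bfil q L 1 → IsIntegral ℤ_[q] y := by
    intro y hy
    have e : y = 1 + (y - 1) := by ring
    rw [e]
    exact isIntegral_one.add ((mem_Bfil_zero q L).1 (Bfil_anti q L (by norm_num) hy))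
  exact ⟨key _ h1, key _ h2⟩

end Fermat.Agent.S55.helper31

namespace Fermat.Agent.S55.helper31

open scoped TensorProduct NumberField
open Fermat.Agent.S55.helper73

/-- CL-3' of the GLOB interface v2: principal units are integral units. -/
theorem princUnits_le_intUnits (L : Type*) [Field L] [NumberField L] (q : ℕ) [Fact q.Prime] :
    princUnits q L ≤ intUnits q L :=
  princUnits_le_intUnits' q L

end Fermat.Agent.S55.helper31
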