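import Fermat.Agent.S55.helper33_Rec2SymC

/-!
# S55 / REC2: auxiliary lemmas for the assembly R2-SIMPLE (helper33)

* `orderOf_pow_ordCompl` : in a finite cyclic group of order `N`, an element which is not a
  `p`-th power has `u ^ (N / p^k)` of exact order `p ^ k` (`p^k ∥ N`, `k ≥ 1`).
* `orderOf_primeUnit_pow` : the same for the class of a prime `q` in `(ℤ/l)ˣ`.
* `ideleClassMap_comp` : `C_F → C_E → C_N` is `C_F → C_N`.
* `dvd_index_of_orderOf` : a homomorphism killing a subgroup `S` and taking a value of order `d`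
  forces `d ∣ S.index`.
-/

set_option autoImplicit false

open scoped TensorProduct NumberField

namespace Fermat.Agent.S55.helper33

open Fermat.Agent.S55.helper73

section Group

lemma orderOf_pow_ordCompl {U : Type*} [CommGroup U] [Fintype U] [IsCyclic U] {p : ℕ}
    (hp : p.Prime) (u : U) (hu : ¬ ∃ v : U, v ^ p = u) (hcard : p ∣ Fintype.card U) :
    orderOf (u ^ (ordCompl[p] (Fintype.card U))) = ordProj[p] (Fintype.card U) := by
  set N := Fintype.card U with hN
  have hN0 : N ≠ 0 := Fintype.card_ne_zero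
  set k := N.factorization p with hk
  have hk1 : 1 ≤ k := (hp.dvd_iff_one_le_factorization hN0).mp hcard
  have hNeq : ordProj[p] N * ordCompl[p] N = N := Nat.ordProj_mul_ordCompl_eq_self N p
  have h1 : (u ^ (ordCompl[p] N)) ^ (p ^ k) = 1 := by
    rw [← pow_mul, mul_comm, hNeq, hN, pow_card_eq_one]
  obtain ⟨i, hi, hio⟩ := (Nat.dvd_prime_pow hp).mp (orderOf_dvd_of_pow_eq_one h1)
  rw [hio]
  rcases Nat.lt_or_ge i k with hlt | hge
  · exfalso
    apply hu
    -- u ^ (N / p) = 1
    have h2 : (u ^ (ordCompl[p] N)) ^ (p ^ (k - 1)) = 1 := by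
      have : p ^ i ∣ p ^ (k - 1) := pow_dvd_pow p (by omega)
      obtain ⟨d, hd⟩ := this
      rw [hd, pow_mul, ← hio, pow_orderOf_eq_one, one_pow]
    have h3 : u ^ (N / p) = 1 := by
      have : N / p = ordCompl[p] N * p ^ (k - 1) := by
        have hpk : p ^ k = p ^ (k - 1) * p := by
          rw [← pow_succ]; congr 1; omega
        have : N = (ordCompl[p] N * p ^ (k - 1)) * p := by
          rw [mul_assoc, ← hpk, mul_comm]; exact hNeq.symm
        rw [Nat.div_eq_of_eq_mul_left hp.pos this]
      rw [this, pow_mul]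
      exact h2
    obtain ⟨g, hg⟩ := IsCyclic.exists_generator (α := U)
    obtain ⟨a, rfl⟩ : ∃ a : ℕ, g ^ a = u := by
      have := hg u
      rw [Subgroup.mem_zpowers_iff] at this
      obtain ⟨z, hz⟩ := this
      refine ⟨(z % (orderOf g : ℤ)).toNat, ?_⟩
      have hpos : (0 : ℤ) < orderOf g := by exact_mod_cast orderOf_pos g
      rw [← zpow_natCast, Int.toNat_of_nonneg (Int.emod_nonneg _ hpos.ne'), zpow_mod_orderOf, hz]
    have hog : orderOf g = N := orderOf_eq_card_of_forall_mem_zpowers hg |>.trans (by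
      rw [Nat.card_eq_fintype_card])
    rw [← pow_mul, ← hog] at h3
    have h4 : orderOf g ∣ a * (orderOf g / p) := orderOf_dvd_of_pow_eq_one h3
    have hpN : p ∣ orderOf g := hog ▸ hcard
    obtain ⟨m, hm⟩ := hpN
    have hm0 : m ≠ 0 := by
      rintro rfl
      rw [mul_zero] at hm
      exact (orderOf_pos g).ne' hm
    rw [hm, Nat.mul_div_cancel_left _ hp.pos] at h4
    have h5 : p ∣ a := by
      have : p * m ∣ a * m := h4
      exact Nat.dvd_of_mul_dvd_mul_right (Nat.pos_of_ne_zero hm0) this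
    obtain ⟨a', rfl⟩ := h5
    exact ⟨g ^ a', by rw [← pow_mul, mul_comm]⟩
  · have : i = k := le_antisymm hi hge
    rw [this]

end Group

section Index

lemma dvd_index_of_orderOf {A T : Type*} [Group A] [Monoid T]
    (hcomm : ∀ a b : A, a * b = b * a) (S : Subgroup A)
    (Φ : A →* T) (hΦ : ∀ a ∈ S, Φ a = 1) (β : A) :
    orderOf (Φ β) ∣ S.index := by
  apply orderOf_dvd_of_pow_eq_one
  rw [← map_pow]
  apply hΦ
  have : S.Normal := ⟨fun n hn g => by rw [hcomm g n, mul_inv_cancel_right]; exact hn⟩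
  exact Subgroup.pow_index_mem S β

end Index

section TowerMap

variable (F E N : Type*) [Field F] [CharZero F] [Field E] [CharZero E] [Field N] [CharZero N]
  [Algebra F E] [Algebra F N] [Algebra E N] [IsScalarTower F E N]

lemma bc_comp (q : ℕ) [Fact q.Prime] (t : SemiLoc q F) :
    bc E N q (bc F E q t) = bc F N q t := by
  induction t using TensorProduct.induction_on with
  | zero => simp
  | tmul a b => rw [bc_tmul, bc_tmul, bc_tmul, ← IsScalarTower.algebraMap_apply]
  | add x y hx hy => rw [map_add, map_add, map_add, hx, hy]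

lemma bcIdele_comp (x : Idele F) : bcIdele E N (bcIdele F E x) = bcIdele F N x := by
  apply Subtype.ext
  funext q
  apply Units.ext
  exact bc_comp F E N (q : ℕ) _

lemma ideleClassMap_comp (a : IdeleClass F) :
    ideleClassMap E N (ideleClassMap F E a) = ideleClassMap F N a := by
  induction a using QuotientGroup.induction_on with
  | H x => rw [ideleClassMap_mk, ideleClassMap_mk, ideleClassMap_mk, bcIdele_comp]

end TowerMap

end Fermat.Agent.S55.helper33

namespace Fermat.Agent.S55.helper33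

section PrimeUnit

lemma orderOf_primeUnit_pow (p l q : ℕ) [Fact l.Prime] [Fact q.Prime] (hp : p.Prime)
    (hl2 : l ≠ 2) (hql : q ≠ l) (hpl : p ∣ l - 1)
    (hq : ¬ ∃ y : ZMod l, y ^ p = (q : ZMod l)) :
    orderOf (primeUnit q l 1 hql ^ (ordCompl[p] (l - 1))) = ordProj[p] (l - 1) := by
  have hl : l.Prime := Fact.out
  have : NeZero (l ^ 1) := ⟨pow_ne_zero 1 hl.ne_zero⟩
  have : IsCyclic (ZMod (l ^ 1))ˣ := ZMod.isCyclic_units_of_prime_pow l hl hl2 1
  have hcard : Fintype.card (ZMod (l ^ 1))ˣ = l - 1 := by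
    rw [ZMod.card_units_eq_totient, Nat.totient_prime_pow hl (by norm_num)]
    simp
  have key := orderOf_pow_ordCompl (U := (ZMod (l ^ 1))ˣ) hp (primeUnit q l 1 hql) (by
    rintro ⟨v, hv⟩
    apply hq
    refine ⟨ZMod.castHom (dvd_pow_self l one_ne_zero) (ZMod l) (v : ZMod (l ^ 1)), ?_⟩
    rw [← map_pow, ← Units.val_pow_eq_pow_val, hv]
    simp [primeUnit]) (by rw [hcard]; exact hpl)
  rw [hcard] at key
  exact key

end PrimeUnit

end Fermat.Agent.S55.helper33
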