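import Fermat.Agent.S55.helper33_Rec2Wiring
import Fermat.Agent.S55.helper6_Rec3Fin
import Fermat.Agent.S55.helper89_Ineq2Wire

/-!
# S55 / REC2: the UNCONDITIONAL statements (helper33, tasks 251/382)

GLOB G7 (`helper89.ineq2`, Chevalley's second inequality) is on main, hence so are the two
GLOB G9 statements `helper1.HypGlobH1`, `helper1.HypGlobH2` (`helper6_Rec3Fin`), and all of
REC2 is unconditional:

* `hypGlobH1_holds`, `hypGlobH2_holds` : the two GLOB G9 statements;
* `rec2Hyp_holds : Rec2Hyp`, `hypRec2Simple_holds : helper1.HypRec2Simple` (= R2-SIMPLE);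
* `isZero_H3_ideleClass_holds`, `card_H2_ideleClass_holds`, `exists_fundamentalClass_holds`,
  `exists_class_of_order_holds` : R2-TATE for `L/F` Galois of odd prime power degree.
-/

set_option autoImplicit false

open scoped TensorProduct NumberField
open groupCohomology

namespace Fermat.Agent.S55.helper33

open Fermat.Agent.S55.helper73

/-- Chevalley's second inequality, for all odd primes (GLOB G7, helper89). -/
theorem hypIneq2_holds :
    ∀ p : ℕ, p.Prime → p ≠ 2 → Fermat.Agent.S55.helper6.HypIneq2.{0} p :=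
  fun p hp hp2 => Fermat.Agent.S55.helper89.hypIneq2.{0} p hp hp2

/-- GLOB G9: `H¹(Gal(L/K), C_L) = 1`. -/
theorem hypGlobH1_holds : helper1.HypGlobH1 :=
  Fermat.Agent.S55.helper6.hypGlobH1_of_ineq2 hypIneq2_holds

/-- GLOB G9: `|H²(Gal(L/K), C_L)| ∣ [L : K]`. -/
theorem hypGlobH2_holds : helper1.HypGlobH2 :=
  Fermat.Agent.S55.helper6.hypGlobH2_of_ineq2 hypIneq2_holds

/-- All hypotheses of the REC2 assembly hold. -/
theorem rec2Hyp_holds : Rec2Hyp :=
  rec2Hyp_of_glob hypGlobH1_holds hypGlobH2_holds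

/-- **R2-SIMPLE, unconditional**: for `L/F` Galois of odd prime power degree `p ^ n` there is a
2-cocycle of `Gal(L/F)` with values in `C_L` whose class has exact order `p ^ n`. -/
theorem hypRec2Simple_holds : helper1.HypRec2Simple :=
  hypRec2Simple_of_glob hypGlobH1_holds hypGlobH2_holds

section Tate

variable (F L : Type) [Field F] [NumberField F] [Field L] [NumberField L] [Algebra F L]
  [IsGalois F L] (p : ℕ) (hp : p.Prime) (hp2 : p ≠ 2) (n : ℕ)
  (hdeg : Module.finrank F L = p ^ n)

include hp hp2 hdeg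

/-- **R2-TATE (O1), unconditional**: `H³(Gal(L/F), C_L) = 0`. -/
theorem isZero_H3_ideleClass_holds :
    CategoryTheory.Limits.IsZero
      (groupCohomology (Rep.ofMulDistribMulAction Gal(L/F) (IdeleClass L)) 3) :=
  isZero_H3_ideleClass_of_glob hypGlobH1_holds hypGlobH2_holds F L p hp hp2 n hdeg

/-- **R2-TATE, unconditional**: `|H²(Gal(L/F), C_L)| = [L : F]` and `H²` is cyclic. -/
theorem card_H2_ideleClass_holds :
    Nat.card (groupCohomology (Rep.ofMulDistribMulAction Gal(L/F) (IdeleClass L)) 2) = p ^ n ∧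
      ∃ γ : groupCohomology (Rep.ofMulDistribMulAction Gal(L/F) (IdeleClass L)) 2,
        ∀ x, ∃ m : ℤ, x = m • γ :=
  card_H2_ideleClass_of_glob hypGlobH1_holds hypGlobH2_holds F L p hp hp2 n hdeg

/-- **R2-TATE (2), unconditional** (fundamental class). -/
theorem exists_fundamentalClass_holds :
    ∃ γ : groupCohomology (Rep.ofMulDistribMulAction Gal(L/F) (IdeleClass L)) 2,
      (∀ U : Subgroup Gal(L/F), Nat.card (groupCohomology
        (Rep.res U.subtype (Rep.ofMulDistribMulAction Gal(L/F) (IdeleClass L))) 2) =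
          Nat.card U) ∧
      (∀ U : Subgroup Gal(L/F), ∀ x : groupCohomology
        (Rep.res U.subtype (Rep.ofMulDistribMulAction Gal(L/F) (IdeleClass L))) 2,
        ∃ m : ℤ, x = m • groupCohomology.map U.subtype (CategoryTheory.CategoryStruct.id _) 2 γ) :=
  exists_fundamentalClass_of_glob hypGlobH1_holds hypGlobH2_holds F L p hp hp2 n hdeg

/-- The class of exact order `[L : F]` generating `H²(Gal(L/F), C_L)`, unconditional. -/
theorem exists_class_of_order_holds :
    Nat.card (groupCohomology (Rep.ofMulDistribMulAction Gal(L/F) (IdeleClass L)) 2) = p ^ n ∧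
      ∃ γ : groupCohomology (Rep.ofMulDistribMulAction Gal(L/F) (IdeleClass L)) 2,
        (∀ j : ℕ, j • γ = 0 ↔ p ^ n ∣ j) ∧ ∀ x, ∃ m : ℤ, x = m • γ :=
  exists_class_of_order_of_glob hypGlobH1_holds hypGlobH2_holds F L p hp hp2 n hdeg

end Tate

end Fermat.Agent.S55.helper33
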