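import Fermat.Agent.S55.helper33_Rec2Defs

/-!
# S55 / REC2: Galois-theoretic bridging lemmas (helper33)

For a tower `F ⊆ E ⊆ N` (abstract fields with `IsScalarTower F E N`):
* `range_restrictScalarsHom` : the image of `Gal(N/E) → Gal(N/F)` is the kernel of the restriction
  `Gal(N/F) → Gal(E/F)`;
* `restrictScalarsHom_smul_ideleClass` : the actions of `Gal(N/E)` and `Gal(N/F)` on `C_N` are
  compatible.
-/

set_option autoImplicit false

open scoped TensorProduct NumberField

namespace Fermat.Agent.S55.helper33

open Fermat.Agent.S55.helper73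

section Tower

variable (F E N : Type*) [Field F] [Field E] [Field N] [Algebra F E] [Algebra F N]
  [Algebra E N] [IsScalarTower F E N]

lemma restrictScalarsHom_injective :
    Function.Injective (AlgEquiv.restrictScalarsHom F : (N ≃ₐ[E] N) →* (N ≃ₐ[F] N)) :=
  AlgEquiv.restrictScalars_injective F

variable [Normal F E]

lemma restrictNormalHom_restrictScalarsHom (τ : N ≃ₐ[E] N) :
    AlgEquiv.restrictNormalHom E (AlgEquiv.restrictScalarsHom F τ) = 1 := by
  apply AlgEquiv.ext
  intro x
  apply (algebraMap E N).injective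
  change algebraMap E N ((AlgEquiv.restrictScalars F τ).restrictNormal E x) = algebraMap E N x
  rw [AlgEquiv.restrictNormal_commutes]
  exact τ.commutes x

lemma exists_restrictScalarsHom_eq (σ : N ≃ₐ[F] N) (h : AlgEquiv.restrictNormalHom E σ = 1) :
    ∃ τ : N ≃ₐ[E] N, AlgEquiv.restrictScalarsHom F τ = σ := by
  have hc : ∀ x : E, σ (algebraMap E N x) = algebraMap E N x := by
    intro x
    have h1 := AlgEquiv.restrictNormal_commutes σ E x
    have h2 : σ.restrictNormal E = 1 := h
    rw [h2] at h1
    simpa using h1.symm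
  refine ⟨{ σ.toRingEquiv with commutes' := hc }, ?_⟩
  apply AlgEquiv.ext
  intro x
  rfl

lemma range_restrictScalarsHom :
    (AlgEquiv.restrictScalarsHom F : (N ≃ₐ[E] N) →* (N ≃ₐ[F] N)).range =
      (AlgEquiv.restrictNormalHom E : (N ≃ₐ[F] N) →* (E ≃ₐ[F] E)).ker := by
  ext σ
  constructor
  · rintro ⟨τ, rfl⟩
    exact restrictNormalHom_restrictScalarsHom F E N τ
  · intro h
    exact exists_restrictScalarsHom_eq F E N σ h

end Tower

section Action

variable (F E N : Type*) [Field F] [Field E] [Field N] [CharZero N] [Algebra F E] [Algebra F N]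
  [Algebra E N] [IsScalarTower F E N]

lemma restrictScalarsHom_smul_idele (τ : N ≃ₐ[E] N) (x : Idele N) :
    (AlgEquiv.restrictScalarsHom F τ : N ≃ₐ[F] N) • x = τ • x := by
  apply Subtype.ext
  funext q
  apply Units.ext
  rfl

lemma restrictScalarsHom_smul_ideleClass (τ : N ≃ₐ[E] N) (c : IdeleClass N) :
    (AlgEquiv.restrictScalarsHom F τ : N ≃ₐ[F] N) • c = τ • c := by
  induction c using QuotientGroup.induction_on with
  | H x => rw [smul_mk, smul_mk, restrictScalarsHom_smul_idele]

end Action

end Fermat.Agent.S55.helper33
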