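import Fermat.Agent.S55.helper6_InfRes

/-!
# S55 / REC2: the abstract theorem R2-ABS for a group with two complementary quotients (helper33)

`AbsStatement` is the statement of package R2-ABS (for a product group `G × H`, universe 0).
`abs_general` transports it to a finite group `𝒢` with two homomorphisms `πG : 𝒢 →* G`,
`πH : 𝒢 →* H` such that `(πG, πH) : 𝒢 → G × H` is bijective (for `𝒢 = Gal(N/F)`,
`G = Gal(L/F)`, `H = Gal(M₀/F)`, `N = L M₀` with `L`, `M₀` linearly disjoint).
-/

set_option autoImplicit false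

open groupCohomology

namespace Fermat.Agent.S55.helper33

open Fermat.Agent.S55.helper6

/-- The statement of package **R2-ABS** (blueprint `exists_cocycle_of_order`), universe 0. -/
def AbsStatement : Prop :=
  ∀ {G H C A B A₀ T : Type} [Group G] [Fintype G] [Group H] [Fintype H]
    [CommGroup C] [CommGroup A] [CommGroup B] [CommGroup A₀] [CommGroup T]
    [MulDistribMulAction (G × H) C] [MulDistribMulAction G A] [MulDistribMulAction H B]
    (ιA : A →* C) (_ : InflDatum (MonoidHom.fst G H) ιA)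
    (ιB : B →* C) (_ : InflDatum (MonoidHom.snd G H) ιB)
    (ι₀ : A₀ →* C) (_ : Function.Injective ι₀)
    (_ : ∀ c : C, (∀ g : G × H, g • c = c) → ∃ a, ι₀ a = c)
    (σ : H) (_ : ∀ s : H, s ∈ Subgroup.zpowers σ)
    (_ : Fintype.card G ∣ Fintype.card H)
    (_ : H1TrivialOn (MonoidHom.fst G H).ker C)
    (_ : H1TrivialOn (MonoidHom.snd G H).ker C)
    (_ : ∀ S : Subgroup A,
      (∀ a, a ∈ S ↔ ∃ z : C, ιA a = ∏ s : H, ((1 : G), s) • z) → S.index ∣ Fintype.card H)
    (𝔄 : A₀ →* T)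
    (_ : ∀ (a₀ : A₀) (y : B), ι₀ a₀ = ιB (∏ s : H, s • y) → 𝔄 a₀ = 1)
    (β : A) (b₀ : A₀) (_ : ι₀ b₀ = ιA (∏ g : G, g • β))
    (_ : orderOf (𝔄 b₀) = Fintype.card H),
    ∃ γ : G × G → A, IsMulCocycle₂ γ ∧
      ∀ j : ℕ, IsMulCoboundary₂ (fun p : G × G => γ p ^ j) ↔ Fintype.card G ∣ j

section

variable {𝒢 G H C A B A₀ T : Type} [Group 𝒢] [Group G] [Group H]

/-- The isomorphism `𝒢 ≃* G × H` attached to two complementary quotients. -/
noncomputable def prodEquiv (πG : 𝒢 →* G) (πH : 𝒢 →* H)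
    (hbij : Function.Bijective (fun x : 𝒢 => (πG x, πH x))) : 𝒢 ≃* G × H :=
  MulEquiv.ofBijective (πG.prod πH) hbij

lemma prodEquiv_apply (πG : 𝒢 →* G) (πH : 𝒢 →* H)
    (hbij : Function.Bijective (fun x : 𝒢 => (πG x, πH x))) (x : 𝒢) :
    prodEquiv πG πH hbij x = (πG x, πH x) := rfl

lemma fst_prodEquiv_symm (πG : 𝒢 →* G) (πH : 𝒢 →* H)
    (hbij : Function.Bijective (fun x : 𝒢 => (πG x, πH x))) (y : G × H) :
    πG ((prodEquiv πG πH hbij).symm y) = y.1 := by
  have h := (prodEquiv πG πH hbij).apply_symm_apply y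
  rw [prodEquiv_apply] at h
  exact congrArg Prod.fst h

lemma snd_prodEquiv_symm (πG : 𝒢 →* G) (πH : 𝒢 →* H)
    (hbij : Function.Bijective (fun x : 𝒢 => (πG x, πH x))) (y : G × H) :
    πH ((prodEquiv πG πH hbij).symm y) = y.2 := by
  have h := (prodEquiv πG πH hbij).apply_symm_apply y
  rw [prodEquiv_apply] at h
  exact congrArg Prod.snd h

variable [Fintype G] [Fintype H] [CommGroup C] [CommGroup A] [CommGroup B] [CommGroup A₀]
  [CommGroup T] [MulDistribMulAction 𝒢 C] [MulDistribMulAction G A] [MulDistribMulAction H B]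

/-- **R2-ABS for a group with two complementary quotients.** -/
theorem abs_general (hAbs : AbsStatement) (πG : 𝒢 →* G) (πH : 𝒢 →* H)
    (hbij : Function.Bijective (fun x : 𝒢 => (πG x, πH x)))
    (ιA : A →* C) (DA : InflDatum πG ιA) (ιB : B →* C) (DB : InflDatum πH ιB)
    (ι₀ : A₀ →* C) (hinj₀ : Function.Injective ι₀)
    (hfix₀ : ∀ c : C, (∀ g : 𝒢, g • c = c) → ∃ a, ι₀ a = c)
    (σ : H) (hσ : ∀ s : H, s ∈ Subgroup.zpowers σ)
    (hdvd : Fintype.card G ∣ Fintype.card H)
    (h1A : H1TrivialOn πG.ker C) (h1B : H1TrivialOn πH.ker C)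
    (h2 : ∀ S : Subgroup A,
      (∀ a, a ∈ S ↔ ∃ z : C, ιA a = ∏ s : H, ((prodEquiv πG πH hbij).symm ((1 : G), s)) • z) →
        S.index ∣ Fintype.card H)
    (𝔄 : A₀ →* T)
    (h3 : ∀ (a₀ : A₀) (y : B), ι₀ a₀ = ιB (∏ s : H, s • y) → 𝔄 a₀ = 1)
    (β : A) (b₀ : A₀) (hb₀ : ι₀ b₀ = ιA (∏ g : G, g • β))
    (h4 : orderOf (𝔄 b₀) = Fintype.card H) :
    ∃ γ : G × G → A, IsMulCocycle₂ γ ∧
      ∀ j : ℕ, IsMulCoboundary₂ (fun p : G × G => γ p ^ j) ↔ Fintype.card G ∣ j := by
  classical
  set e := prodEquiv πG πH hbij with he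
  let act : MulDistribMulAction (G × H) C :=
    MulDistribMulAction.compHom C (e.symm : G × H →* 𝒢)
  have hsmul : ∀ (x : G × H) (c : C), x • c = (e.symm x) • c := fun _ _ => rfl
  have hsmul' : ∀ (t : 𝒢) (c : C), (e t) • c = t • c := by
    intro t c
    rw [hsmul, MulEquiv.symm_apply_apply]
  have DA' : InflDatum (MonoidHom.fst G H) ιA :=
    { surj := fun g => ⟨(g, 1), rfl⟩
      inj := DA.inj
      equivariant := by
        intro x b
        rw [hsmul, ← DA.equivariant, fst_prodEquiv_symm]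
        rfl
      exists_of_fixed := by
        intro m hm
        refine DA.exists_of_fixed m fun t ht => ?_
        rw [← hsmul']
        refine hm (e t) ?_
        rw [MonoidHom.mem_ker]
        exact ht }
  have DB' : InflDatum (MonoidHom.snd G H) ιB :=
    { surj := fun h => ⟨(1, h), rfl⟩
      inj := DB.inj
      equivariant := by
        intro x b
        rw [hsmul, ← DB.equivariant, snd_prodEquiv_symm]
        rfl
      exists_of_fixed := by
        intro m hm
        refine DB.exists_of_fixed m fun t ht => ?_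
        rw [← hsmul']
        refine hm (e t) ?_
        rw [MonoidHom.mem_ker]
        exact ht }
  have hfix₀' : ∀ c : C, (∀ g : G × H, g • c = c) → ∃ a, ι₀ a = c := by
    intro c hc
    refine hfix₀ c fun g => ?_
    rw [← hsmul']
    exact hc (e g)
  have h1A' : H1TrivialOn (MonoidHom.fst G H).ker C := by
    intro φ hφ
    obtain ⟨a, ha⟩ := h1A (fun t => φ (e t)) (by
      intro s hs t ht
      have hs' : e s ∈ (MonoidHom.fst G H).ker := by
        rw [MonoidHom.mem_ker]; exact hs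
      have ht' : e t ∈ (MonoidHom.fst G H).ker := by
        rw [MonoidHom.mem_ker]; exact ht
      show φ (e (s * t)) = s • φ (e t) * φ (e s)
      rw [map_mul, hφ _ hs' _ ht', hsmul'])
    refine ⟨a, fun x hx => ?_⟩
    have hx' : e.symm x ∈ πG.ker := by
      rw [MonoidHom.mem_ker, he, fst_prodEquiv_symm]
      exact hx
    have := ha (e.symm x) hx'
    rw [hsmul]
    simpa using this
  have h1B' : H1TrivialOn (MonoidHom.snd G H).ker C := by
    intro φ hφ
    obtain ⟨a, ha⟩ := h1B (fun t => φ (e t)) (by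
      intro s hs t ht
      have hs' : e s ∈ (MonoidHom.snd G H).ker := by
        rw [MonoidHom.mem_ker]; exact hs
      have ht' : e t ∈ (MonoidHom.snd G H).ker := by
        rw [MonoidHom.mem_ker]; exact ht
      show φ (e (s * t)) = s • φ (e t) * φ (e s)
      rw [map_mul, hφ _ hs' _ ht', hsmul'])
    refine ⟨a, fun x hx => ?_⟩
    have hx' : e.symm x ∈ πH.ker := by
      rw [MonoidHom.mem_ker, he, snd_prodEquiv_symm]
      exact hx
    have := ha (e.symm x) hx'
    rw [hsmul]
    simpa using this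
  exact hAbs ιA DA' ιB DB' ι₀ hinj₀ hfix₀' σ hσ hdvd h1A' h1B' h2 𝔄 h3 β b₀ hb₀ h4

end

end Fermat.Agent.S55.helper33
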