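import Fermat.Agent.S55.helper33_Rec2Aux
import Fermat.Agent.S55.helper33_Rec2Gal
import Fermat.Agent.S55.helper33_Rec2Transport

/-!
# S55 / REC2: assembly R2-SIMPLE (helper33, task 382)

`exists_cocycle_ideleClass_of` : for a Galois extension `L/F` of number fields of odd prime power
degree `p ^ n` there is a 2-cocycle `γ` of `Gal(L/F)` with values in the idele class group `C_L`
whose class has exact order `p ^ n` -- CONDITIONALLY on the package statements of the REC2
blueprint (`SymHyp`, `AbsStatement`, `BetaStatement`, `N1Statement`, `FieldStatement`,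
`InflStatement`, `FixedClassStatement`, `FixedIdeleDescent`, `IdeleClassMapInjective`,
`H1Statement`, `IneqStatement`), all of which are Props in the exact blueprint shapes.
-/

set_option autoImplicit false

open scoped TensorProduct NumberField
open groupCohomology

namespace Fermat.Agent.S55.helper33

open Fermat.Agent.S55.helper73 Fermat.Agent.S55.helper6

/-- Package R2-BETA. -/
def BetaStatement : Prop :=
  ∀ (L : Type) [Field L] [NumberField L] (T : Finset ℕ),
    ∃ q : ℕ, q.Prime ∧ q ∉ T ∧ ∃ x : Lˣ, padicValRat q (Algebra.norm ℚ (x : L)) = 1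

/-- REC-N1 (helper15, landed): auxiliary primes. -/
def N1Statement : Prop :=
  ∀ (p : ℕ) [Fact p.Prime], p ≠ 2 → ∀ m : ℕ, 0 < m → ∀ Q : Finset ℕ, (∀ q ∈ Q, q.Prime) →
    ∀ T : Finset ℕ, ∃ l : ℕ, l.Prime ∧ l ∉ T ∧ l % p ^ m = 1 ∧
      ∀ q ∈ Q, ¬ ∃ y : ZMod l, y ^ p = (q : ZMod l)

/-- Package R2-FIELD (blueprint v1.1). -/
def FieldStatement : Prop :=
  ∀ (F L : Type) [Field F] [NumberField F] [Field L] [NumberField L]
    [Algebra F L] [IsGalois F L] (p l : ℕ) [Fact p.Prime] [Fact l.Prime], p ≠ l →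
    ∃ (M₀ : Type) (_ : Field M₀) (_ : NumberField M₀) (_ : Algebra F M₀) (_ : IsGalois F M₀)
      (M₁ : Type) (_ : Field M₁) (_ : NumberField M₁) (_ : Algebra M₀ M₁) (_ : IsGalois M₀ M₁)
      (N : Type) (_ : Field N) (_ : NumberField N) (_ : Algebra F N) (_ : Algebra L N)
      (_ : Algebra M₀ N) (_ : IsScalarTower F L N) (_ : IsScalarTower F M₀ N)
      (_ : IsGalois F N) (_ : IsGalois L N) (_ : IsGalois M₀ N),
      IsCyclic Gal(M₀/F) ∧ (∃ k : ℕ, Module.finrank F M₀ = p ^ k) ∧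
      Module.finrank F M₀ ∣ l - 1 ∧
      (∃ ζ : M₁, IsPrimitiveRoot ζ l) ∧ Module.finrank M₀ M₁ ∣ l - 1 ∧
      ¬ p ∣ Module.finrank M₀ M₁ ∧
      (∀ σ : Gal(N/F), AlgEquiv.restrictNormalHom L σ = 1 →
        AlgEquiv.restrictNormalHom M₀ σ = 1 → σ = 1)

/-- Package R2-G1 (1). -/
def InflStatement : Prop :=
  ∀ (F E N : Type) [Field F] [NumberField F] [Field E] [NumberField E] [Field N]
    [NumberField N] [Algebra F E] [Algebra F N] [Algebra E N] [IsScalarTower F E N]
    [IsGalois F E] [IsGalois F N],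
    InflDatum (M := IdeleClass N) (B := IdeleClass E)
      (AlgEquiv.restrictNormalHom E : Gal(N/F) →* Gal(E/F)) (ideleClassMap E N)

/-- Package R2-G1 (3). -/
def FixedClassStatement : Prop :=
  ∀ (F N : Type) [Field F] [NumberField F] [Field N] [NumberField N] [Algebra F N]
    [IsGalois F N] (c : IdeleClass N), (∀ σ : Gal(N/F), σ • c = c) →
      ∃ a : IdeleClass F, ideleClassMap F N a = c

/-- GLOB G9: `H¹(Gal(L/K), C_L) = 1` for odd prime power degree. -/
def H1Statement : Prop :=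
  ∀ (K L : Type) [Field K] [NumberField K] [Field L] [NumberField L] [Algebra K L]
    [IsGalois K L] (p : ℕ), p.Prime → p ≠ 2 → ∀ n : ℕ, Module.finrank K L = p ^ n →
      ∀ f : Gal(L/K) → IdeleClass L, IsMulCocycle₁ f → IsMulCoboundary₁ f

/-- Package R2-INEQ. -/
def IneqStatement : Prop :=
  ∀ (K L : Type) [Field K] [NumberField K] [Field L] [NumberField L] [Algebra K L]
    [IsGalois K L] [IsCyclic Gal(L/K)] (p : ℕ), p.Prime → p ≠ 2 → ∀ n : ℕ,
      Module.finrank K L = p ^ n → hZero Gal(L/K) (IdeleClass L) ∣ p ^ n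

/-- All inputs of the assembly. -/
structure Rec2Hyp : Prop where
  sym : SymHyp
  abs : AbsStatement
  beta : BetaStatement
  n1 : N1Statement
  field : FieldStatement
  infl : InflStatement
  fixedClass : FixedClassStatement
  fixedIdele : FixedIdeleDescent
  inj : IdeleClassMapInjective
  h1 : H1Statement
  ineq : IneqStatement

section SymFacts

variable (hS : SymHyp)

/-- (a) the class symbol (exponent divisible by `[M₁ : M₀]`) is trivial on `C_{M₀}` when `M₁`
contains the `l`-th roots of unity. -/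
lemma symC_eq_one_of_root_above (M₀ M₁ : Type) [Field M₀] [NumberField M₀] [Field M₁]
    [NumberField M₁] [Algebra M₀ M₁] (l : ℕ) [Fact l.Prime] (hl2 : l ≠ 2)
    (hζ : ∃ ζ : M₁, IsPrimitiveRoot ζ l) (e : ℕ) (he : 2 ∣ e)
    (hd : Module.finrank M₀ M₁ ∣ e) (y : IdeleClass M₀) : symC hS M₀ l e he y = 1 := by
  induction y using QuotientGroup.induction_on with
  | H y₀ =>
    rw [symC_mk]
    have h1 := hS.bc M₀ M₁ l y₀
    rw [hS.root M₁ l hl2 hζ] at h1
    obtain ⟨d, hd⟩ := hd
    rw [hd, pow_mul, ← h1, one_pow]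

/-- (b) if the class symbol is trivial on `C_K`, it is trivial on `C_N` for `N/K` Galois. -/
lemma symC_eq_one_above (hfix : FixedIdeleDescent) (hinj : IdeleClassMapInjective)
    (hfixC : FixedClassStatement)
    (K N : Type) [Field K] [NumberField K] [Field N] [NumberField N] [Algebra K N]
    [IsGalois K N] (l : ℕ) [Fact l.Prime] (e : ℕ) (he : 2 ∣ e)
    (h : ∀ a : IdeleClass K, symC hS K l e he a = 1) (z : IdeleClass N) :
    symC hS N l e he z = 1 := by
  obtain ⟨a, ha⟩ := hfixC K N (normG Gal(N/K) (IdeleClass N) z) (fun σ => smul_normG_aux σ z)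
  rw [← symC_eq_of_ideleClassMap_eq_normG hS K N l hfix hinj e he a z ha]
  exact h a

end SymFacts

section NormSub

variable (E N : Type) [Field E] [NumberField E] [Field N] [NumberField N] [Algebra E N]
  [IsGalois E N]

omit [IsGalois E N] in
lemma smul_bcIdele (σ : Gal(N/E)) (x : Idele E) : σ • bcIdele E N x = bcIdele E N x := by
  apply Subtype.ext
  funext q
  apply Units.ext
  change galSemiLocAut (q : ℕ) N E σ (bc E N (q : ℕ) ((x : IdelePi E) q : SemiLoc (q : ℕ) E)) =
    bc E N (q : ℕ) ((x : IdelePi E) q : SemiLoc (q : ℕ) E)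
  generalize (((x : IdelePi E) q : (SemiLoc (q : ℕ) E)ˣ) : SemiLoc (q : ℕ) E) = t
  induction t using TensorProduct.induction_on with
  | zero => simp
  | tmul a b => rw [bc_tmul, galSemiLocAut_tmul, AlgEquiv.commutes]
  | add x y hx hy => rw [map_add, map_add, hx, hy]

omit [IsGalois E N] in
lemma smul_ideleClassMap (σ : Gal(N/E)) (a : IdeleClass E) :
    σ • ideleClassMap E N a = ideleClassMap E N a := by
  induction a using QuotientGroup.induction_on with
  | H x => rw [ideleClassMap_mk, smul_mk, smul_bcIdele]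

lemma range_ideleClassMap (hfixC : FixedClassStatement) :
    (ideleClassMap E N).range = fixedSub Gal(N/E) (IdeleClass N) := by
  ext c
  constructor
  · rintro ⟨a, rfl⟩
    exact fun σ => smul_ideleClassMap E N σ a
  · intro hc
    exact hfixC E N c hc

/-- The norm subgroup of `C_E` (classes whose image in `C_N` is a norm). -/
noncomputable def normSub : Subgroup (IdeleClass E) :=
  (normG Gal(N/E) (IdeleClass N)).range.comap (ideleClassMap E N)

omit [IsGalois E N] in
lemma mem_normSub (a : IdeleClass E) :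
    a ∈ normSub E N ↔ ∃ z : IdeleClass N, ideleClassMap E N a = normG Gal(N/E) (IdeleClass N) z := by
  rw [normSub, Subgroup.mem_comap, MonoidHom.mem_range]
  constructor
  · rintro ⟨z, hz⟩
    exact ⟨z, hz.symm⟩
  · rintro ⟨z, hz⟩
    exact ⟨z, hz.symm⟩

lemma index_normSub (hfixC : FixedClassStatement) :
    (normSub E N).index = hZero Gal(N/E) (IdeleClass N) := by
  rw [normSub, Subgroup.index_comap, range_ideleClassMap E N hfixC, hZero_def]
  rfl

end NormSub

section Cross

variable (F E E' N : Type) [Field F] [Field E] [Field E'] [Field N]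
  [Algebra F E] [Algebra F E'] [Algebra F N] [Algebra E N] [Algebra E' N]
  [IsScalarTower F E N] [IsScalarTower F E' N] [Normal F E']

/-- The map `Gal(N/E) → Gal(E'/F)`, `τ ↦ τ|_{E'}`. -/
noncomputable def crossHom : (N ≃ₐ[E] N) →* (E' ≃ₐ[F] E') :=
  (AlgEquiv.restrictNormalHom E').comp (AlgEquiv.restrictScalarsHom F)

lemma crossHom_apply (τ : N ≃ₐ[E] N) :
    crossHom F E E' N τ = AlgEquiv.restrictNormalHom E' (AlgEquiv.restrictScalarsHom F τ) := rfl

variable [Normal F E]

lemma crossHom_injective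
    (hjoint : ∀ σ : N ≃ₐ[F] N, AlgEquiv.restrictNormalHom E σ = 1 →
      AlgEquiv.restrictNormalHom E' σ = 1 → σ = 1) :
    Function.Injective (crossHom F E E' N) := by
  rw [injective_iff_map_eq_one]
  intro τ hτ
  have h1 := restrictNormalHom_restrictScalarsHom F E N τ
  have h2 := hjoint _ h1 hτ
  exact restrictScalarsHom_injective F E N (h2.trans (map_one _).symm)

end Cross

section Core

variable (F L M₀ M₁ N : Type) [Field F] [NumberField F] [Field L] [NumberField L]
  [Field M₀] [NumberField M₀] [Field M₁] [NumberField M₁] [Field N] [NumberField N]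
  [Algebra F L] [Algebra F M₀] [Algebra M₀ M₁] [Algebra F N] [Algebra L N] [Algebra M₀ N]
  [IsScalarTower F L N] [IsScalarTower F M₀ N]
  [IsGalois F L] [IsGalois F M₀] [IsGalois F N] [IsGalois L N] [IsGalois M₀ N]

set_option maxHeartbeats 1600000 in
/-- The core of R2-SIMPLE, for given auxiliary fields. -/
theorem exists_cocycle_ideleClass_core (hyp : Rec2Hyp)
    (p l q : ℕ) [Fact p.Prime] [Fact l.Prime] [Fact q.Prime] (hp2 : p ≠ 2) (hl2 : l ≠ 2)
    (hql : q ≠ l) (n : ℕ) (hdeg : Module.finrank F L = p ^ n)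
    (x : Lˣ) (hx : padicValRat q (Algebra.norm ℚ (x : L)) = 1)
    (hlq : ¬ ∃ y : ZMod l, y ^ p = (q : ZMod l)) (hl1 : p ^ (n + 1) ∣ l - 1)
    (hcyc : IsCyclic Gal(M₀/F)) (k' : ℕ) (hk' : Module.finrank F M₀ = p ^ k')
    (hM0dvd : Module.finrank F M₀ ∣ l - 1) (hζ : ∃ ζ : M₁, IsPrimitiveRoot ζ l)
    (hM1dvd : Module.finrank M₀ M₁ ∣ l - 1) (hM1p : ¬ p ∣ Module.finrank M₀ M₁)
    (hjoint : ∀ σ : Gal(N/F), AlgEquiv.restrictNormalHom L σ = 1 →
        AlgEquiv.restrictNormalHom M₀ σ = 1 → σ = 1) :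
    ∃ γ : Gal(L/F) × Gal(L/F) → IdeleClass L, IsMulCocycle₂ γ ∧
      ∀ j : ℕ, IsMulCoboundary₂ (fun g : Gal(L/F) × Gal(L/F) => γ g ^ j) ↔ p ^ n ∣ j := by
  classical
  have hS := hyp.sym
  have hp : p.Prime := Fact.out
  have hl : l.Prime := Fact.out
  have hpdvd : p ∣ l - 1 := dvd_trans (dvd_pow_self p (Nat.succ_ne_zero n)) hl1
  have hl10 : l - 1 ≠ 0 := by
    have := hl.two_le
    omega
  -- the exponents
  set k := (l - 1).factorization p with hk
  set c := ordCompl[p] (l - 1) with hc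
  have hkc : p ^ k * c = l - 1 := Nat.ordProj_mul_ordCompl_eq_self (l - 1) p
  have hnk : n + 1 ≤ k := (hp.pow_dvd_iff_le_factorization hl10).mp hl1
  have hc2 : 2 ∣ c := by
    have h2 : 2 ∣ l - 1 := by
      rcases hl.eq_two_or_odd with h | h
      · exact absurd h hl2
      · omega
    rw [← hkc] at h2
    have hcop : Nat.Coprime 2 (p ^ k) := by
      apply Nat.Coprime.pow_right
      rw [Nat.coprime_primes Nat.prime_two hp]
      exact fun h => hp2 h.symm
    exact hcop.dvd_of_dvd_mul_left h2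
  have hdc : Module.finrank M₀ M₁ ∣ c := by
    rw [← hkc] at hM1dvd
    have hcop : Nat.Coprime (Module.finrank M₀ M₁) (p ^ k) := by
      apply Nat.Coprime.pow_right
      exact ((Nat.Prime.coprime_iff_not_dvd hp).mpr hM1p).symm
    exact hcop.dvd_of_dvd_mul_left hM1dvd
  -- (a), (b), (c), (d)
  have ha : ∀ y : IdeleClass M₀, symC hS M₀ l c hc2 y = 1 :=
    symC_eq_one_of_root_above hS M₀ M₁ l hl2 hζ c hc2 hdc
  have hb : ∀ z : IdeleClass N, symC hS N l c hc2 z = 1 :=
    symC_eq_one_above hS hyp.fixedIdele hyp.inj hyp.fixedClass M₀ N l c hc2 ha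
  have hcL : ∀ a ∈ normSub L N, symC hS L l c hc2 a = 1 := by
    intro a haS
    obtain ⟨z, hz⟩ := (mem_normSub L N a).mp haS
    rw [symC_eq_of_ideleClassMap_eq_normG hS L N l hyp.fixedIdele hyp.inj c hc2 a z hz]
    exact hb z
  have hdF : ∀ (a₀ : IdeleClass F) (y : IdeleClass M₀),
      ideleClassMap F M₀ a₀ = normG Gal(M₀/F) (IdeleClass M₀) y →
        symC hS F l c hc2 a₀ = 1 := by
    intro a₀ y h
    rw [symC_eq_of_ideleClassMap_eq_normG hS F M₀ l hyp.fixedIdele hyp.inj c hc2 a₀ y h]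
    exact ha y
  -- (e) the class β
  let q' : Nat.Primes := ⟨q, Fact.out⟩
  set β : IdeleClass L := QuotientGroup.mk (singleIdele L q' (principalPi L x q')) with hβdef
  have hβ : symC hS L l c hc2 β = primeUnit q l 1 hql ^ c := by
    have h1 := symC_single hS L l c hc2 q' hql x
    rw [h1]
    have h2 : padicValRat (q' : ℕ) (Algebra.norm ℚ (x : L)) = 1 := hx
    rw [h2, zpow_one]
  have hordβ : orderOf (symC hS L l c hc2 β) = p ^ k := by
    rw [hβ]
    exact orderOf_primeUnit_pow p l q hp hl2 hql hpdvd hlq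
  -- (f) the class b₀ = N_{L/F} β
  obtain ⟨b₀, hb₀⟩ := hyp.fixedClass F L (normG Gal(L/F) (IdeleClass L) β)
    (fun σ => smul_normG_aux σ β)
  have hordb₀ : orderOf (symC hS F l c hc2 b₀) = p ^ k := by
    rw [symC_eq_of_ideleClassMap_eq_normG hS F L l hyp.fixedIdele hyp.inj c hc2 b₀ β hb₀]
    exact hordβ
  -- counting: `[N : L] = [M₀ : F] = p ^ k`
  have hinjL : Function.Injective (crossHom F L M₀ N) := crossHom_injective F L M₀ N hjoint
  have hinjM : Function.Injective (crossHom F M₀ L N) :=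
    crossHom_injective F M₀ L N (fun σ h1 h2 => hjoint σ h2 h1)
  have hcardM₀ : Nat.card Gal(M₀/F) = p ^ k' := by
    rw [IsGalois.card_aut_eq_finrank, hk']
  have hcardL : Nat.card Gal(L/F) = p ^ n := by
    rw [IsGalois.card_aut_eq_finrank, hdeg]
  have : IsCyclic Gal(N/L) := isCyclic_of_injective (crossHom F L M₀ N) hinjL
  obtain ⟨j, hj⟩ : ∃ j, Module.finrank L N = p ^ j := by
    have h1 : Nat.card Gal(N/L) ∣ Nat.card Gal(M₀/F) := Subgroup.card_dvd_of_injective _ hinjL
    rw [hcardM₀, IsGalois.card_aut_eq_finrank] at h1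
    obtain ⟨j, -, hj⟩ := (Nat.dvd_prime_pow hp).mp h1
    exact ⟨j, hj⟩
  obtain ⟨j', hj'⟩ : ∃ j', Module.finrank M₀ N = p ^ j' := by
    have h1 : Nat.card Gal(N/M₀) ∣ Nat.card Gal(L/F) := Subgroup.card_dvd_of_injective _ hinjM
    rw [hcardL, IsGalois.card_aut_eq_finrank] at h1
    obtain ⟨j', -, hj'⟩ := (Nat.dvd_prime_pow hp).mp h1
    exact ⟨j', hj'⟩
  have hcardNL : Nat.card Gal(N/L) = p ^ j := by
    rw [IsGalois.card_aut_eq_finrank, hj]
  have hjk' : j ≤ k' := by
    have h1 : Nat.card Gal(N/L) ∣ Nat.card Gal(M₀/F) := Subgroup.card_dvd_of_injective _ hinjL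
    rw [hcardM₀, hcardNL] at h1
    exact (Nat.pow_dvd_pow_iff_le_right hp.one_lt).mp h1
  have hidx : (normSub L N).index ∣ p ^ j := by
    rw [index_normSub L N hyp.fixedClass]
    exact hyp.ineq L N p hp hp2 j hj
  have hkj : k ≤ j := by
    have h1 : p ^ k ∣ p ^ j := by
      rw [← hordβ]
      exact dvd_trans (dvd_index_of_orderOf (fun a b => mul_comm a b) (normSub L N)
        (symC hS L l c hc2) hcL β) hidx
    exact (Nat.pow_dvd_pow_iff_le_right hp.one_lt).mp h1
  have hk'k : k' ≤ k := by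
    rw [hk'] at hM0dvd
    exact (hp.pow_dvd_iff_le_factorization hl10).mp hM0dvd
  have hjk : j = k := le_antisymm (le_trans hjk' hk'k) hkj
  have hk'eq : k' = k := le_antisymm hk'k (le_trans hkj hjk')
  subst hk'eq
  subst hjk
  -- the restriction `Gal(N/L) → Gal(M₀/F)` is bijective
  have hbijL : Function.Bijective (crossHom F L M₀ N) := by
    rw [Nat.bijective_iff_injective_and_card]
    exact ⟨hinjL, by rw [hcardNL, hcardM₀]⟩
  -- `Gal(N/F) ≃ Gal(L/F) × Gal(M₀/F)`
  have hbij : Function.Bijective (fun σ : Gal(N/F) =>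
      ((AlgEquiv.restrictNormalHom L : Gal(N/F) →* Gal(L/F)) σ,
        (AlgEquiv.restrictNormalHom M₀ : Gal(N/F) →* Gal(M₀/F)) σ)) := by
    rw [Nat.bijective_iff_injective_and_card]
    constructor
    · intro σ τ hστ
      have e1 : (AlgEquiv.restrictNormalHom L : Gal(N/F) →* Gal(L/F)) σ =
          (AlgEquiv.restrictNormalHom L : Gal(N/F) →* Gal(L/F)) τ := congrArg Prod.fst hστ
      have e2 : (AlgEquiv.restrictNormalHom M₀ : Gal(N/F) →* Gal(M₀/F)) σ =
          (AlgEquiv.restrictNormalHom M₀ : Gal(N/F) →* Gal(M₀/F)) τ := congrArg Prod.snd hστ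
      have h1 : AlgEquiv.restrictNormalHom L (σ⁻¹ * τ) = 1 := by
        rw [map_mul, map_inv, e1, inv_mul_cancel]
      have h2 : AlgEquiv.restrictNormalHom M₀ (σ⁻¹ * τ) = 1 := by
        rw [map_mul, map_inv, e2, inv_mul_cancel]
      exact inv_mul_eq_one.mp (hjoint _ h1 h2)
    · rw [Nat.card_prod, hcardL, hcardM₀, IsGalois.card_aut_eq_finrank,
        ← Module.finrank_mul_finrank F L N, hdeg, hj]
  -- the inputs of the abstract theorem
  have h1A : H1TrivialOn (AlgEquiv.restrictNormalHom L : Gal(N/F) →* Gal(L/F)).ker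
      (IdeleClass N) :=
    h1TrivialOn_of_hom (AlgEquiv.restrictScalarsHom F : Gal(N/L) →* Gal(N/F))
      (fun τ c => restrictScalarsHom_smul_ideleClass F L N τ c) _
      (range_restrictScalarsHom F L N) (hyp.h1 L N p hp hp2 k hj)
  have h1B : H1TrivialOn (AlgEquiv.restrictNormalHom M₀ : Gal(N/F) →* Gal(M₀/F)).ker
      (IdeleClass N) :=
    h1TrivialOn_of_hom (AlgEquiv.restrictScalarsHom F : Gal(N/M₀) →* Gal(N/F))
      (fun τ c => restrictScalarsHom_smul_ideleClass F M₀ N τ c) _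
      (range_restrictScalarsHom F M₀ N) (hyp.h1 M₀ N p hp hp2 j' hj')
  have hcardM₀' : Fintype.card Gal(M₀/F) = p ^ k := by
    rw [← Nat.card_eq_fintype_card, hcardM₀]
  have hcardL' : Fintype.card Gal(L/F) = p ^ n := by
    rw [← Nat.card_eq_fintype_card, hcardL]
  have hprod : ∀ z : IdeleClass N,
      ∏ s : Gal(M₀/F), ((prodEquiv (AlgEquiv.restrictNormalHom L : Gal(N/F) →* Gal(L/F))
        (AlgEquiv.restrictNormalHom M₀ : Gal(N/F) →* Gal(M₀/F)) hbij).symm
          ((1 : Gal(L/F)), s)) • z = normG Gal(N/L) (IdeleClass N) z := by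
    intro z
    rw [normG_apply]
    symm
    refine Fintype.prod_equiv (Equiv.ofBijective (crossHom F L M₀ N) hbijL) _ _ fun τ => ?_
    have h1 : (prodEquiv (AlgEquiv.restrictNormalHom L : Gal(N/F) →* Gal(L/F))
        (AlgEquiv.restrictNormalHom M₀ : Gal(N/F) →* Gal(M₀/F)) hbij)
          (AlgEquiv.restrictScalarsHom F τ) = ((1 : Gal(L/F)), crossHom F L M₀ N τ) := by
      rw [prodEquiv_apply, restrictNormalHom_restrictScalarsHom F L N τ]
      rfl
    have h2 : (prodEquiv (AlgEquiv.restrictNormalHom L : Gal(N/F) →* Gal(L/F))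
        (AlgEquiv.restrictNormalHom M₀ : Gal(N/F) →* Gal(M₀/F)) hbij).symm
          ((1 : Gal(L/F)), crossHom F L M₀ N τ) = AlgEquiv.restrictScalarsHom F τ := by
      rw [← h1, MulEquiv.symm_apply_apply]
    rw [Equiv.ofBijective_apply, h2, restrictScalarsHom_smul_ideleClass F L N τ z]
  have h2 : ∀ S : Subgroup (IdeleClass L),
      (∀ a, a ∈ S ↔ ∃ z : IdeleClass N, ideleClassMap L N a =
        ∏ s : Gal(M₀/F), ((prodEquiv (AlgEquiv.restrictNormalHom L : Gal(N/F) →* Gal(L/F))
          (AlgEquiv.restrictNormalHom M₀ : Gal(N/F) →* Gal(M₀/F)) hbij).symm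
            ((1 : Gal(L/F)), s)) • z) → S.index ∣ Fintype.card Gal(M₀/F) := by
    intro S hSmem
    have hSeq : S = normSub L N := by
      ext a
      rw [hSmem a, mem_normSub]
      constructor
      · rintro ⟨z, hz⟩
        exact ⟨z, by rw [hz, hprod z]⟩
      · rintro ⟨z, hz⟩
        exact ⟨z, by rw [hz, hprod z]⟩
    rw [hSeq, hcardM₀']
    exact hidx
  have h3 : ∀ (a₀ : IdeleClass F) (y : IdeleClass M₀),
      ideleClassMap F N a₀ = ideleClassMap M₀ N (∏ s : Gal(M₀/F), s • y) →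
        symC hS F l c hc2 a₀ = 1 := by
    intro a₀ y h
    rw [← ideleClassMap_comp F M₀ N a₀] at h
    exact hdF a₀ y (hyp.inj M₀ N h)
  have hb₀' : ideleClassMap F N b₀ = ideleClassMap L N (∏ g : Gal(L/F), g • β) := by
    rw [← ideleClassMap_comp F L N b₀, hb₀, normG_apply]
  have h4 : orderOf (symC hS F l c hc2 b₀) = Fintype.card Gal(M₀/F) := by
    rw [hordb₀, hcardM₀']
  have hdvd : Fintype.card Gal(L/F) ∣ Fintype.card Gal(M₀/F) := by
    rw [hcardL', hcardM₀']
    exact pow_dvd_pow p (by omega)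
  obtain ⟨σ, hσ⟩ := IsCyclic.exists_generator (α := Gal(M₀/F))
  have key := abs_general (𝒢 := Gal(N/F)) (G := Gal(L/F)) (H := Gal(M₀/F)) (C := IdeleClass N)
    (A := IdeleClass L) (B := IdeleClass M₀) (A₀ := IdeleClass F) (T := (ZMod (l ^ 1))ˣ)
    hyp.abs (AlgEquiv.restrictNormalHom L : Gal(N/F) →* Gal(L/F))
    (AlgEquiv.restrictNormalHom M₀ : Gal(N/F) →* Gal(M₀/F)) hbij
    (ideleClassMap L N) (hyp.infl F L N) (ideleClassMap M₀ N) (hyp.infl F M₀ N)
    (ideleClassMap F N) (hyp.inj F N) (hyp.fixedClass F N) σ hσ hdvd h1A h1B h2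
    (symC hS F l c hc2) h3 β b₀ hb₀' h4
  rw [hcardL'] at key
  exact key

end Core

section Main

/-- **R2-SIMPLE**, conditional on the package statements: for `L/F` Galois of odd prime power
degree `p ^ n` there is a 2-cocycle of `Gal(L/F)` with values in `C_L` whose class has exact
order `p ^ n`. -/
theorem exists_cocycle_ideleClass_of (hyp : Rec2Hyp)
    (F L : Type) [Field F] [NumberField F] [Field L] [NumberField L] [Algebra F L]
    [IsGalois F L] (p : ℕ) (hp : p.Prime) (hp2 : p ≠ 2) (n : ℕ)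
    (hdeg : Module.finrank F L = p ^ n) :
    ∃ γ : Gal(L/F) × Gal(L/F) → IdeleClass L, IsMulCocycle₂ γ ∧
      ∀ j : ℕ, IsMulCoboundary₂ (fun g : Gal(L/F) × Gal(L/F) => γ g ^ j) ↔ p ^ n ∣ j := by
  classical
  have : Fact p.Prime := ⟨hp⟩
  -- Step 1: the prime q and the element x
  obtain ⟨q, hq, -, x, hx⟩ := hyp.beta L ∅
  have : Fact q.Prime := ⟨hq⟩
  -- Step 2: the auxiliary prime l
  obtain ⟨l, hl, hlT, hlmod, hlq⟩ := hyp.n1 p hp2 (n + 1) (Nat.succ_pos n) {q}
    (by intro q' hq'; rw [Finset.mem_singleton] at hq'; rw [hq']; exact hq) {q}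
  have : Fact l.Prime := ⟨hl⟩
  have hql : q ≠ l := by
    intro h
    exact hlT (by rw [Finset.mem_singleton]; exact h.symm)
  have hlq' : ¬ ∃ y : ZMod l, y ^ p = (q : ZMod l) := hlq q (Finset.mem_singleton_self q)
  have hp3 : 3 ≤ p := by
    have := hp.two_le
    omega
  have hppow : 3 ≤ p ^ (n + 1) := by
    calc 3 ≤ p := hp3
      _ = p ^ 1 := (pow_one p).symm
      _ ≤ p ^ (n + 1) := Nat.pow_le_pow_right hp.pos (by omega)
  have hl1 : p ^ (n + 1) ∣ l - 1 := by
    have h1 : l % p ^ (n + 1) = 1 % p ^ (n + 1) := by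
      rw [hlmod, Nat.mod_eq_of_lt (by omega)]
    exact (Nat.modEq_iff_dvd' hl.one_lt.le).mp h1.symm
  have hl2 : l ≠ 2 := by
    rintro rfl
    have := Nat.le_of_dvd (by norm_num) hl1
    omega
  have hpl : p ≠ l := by
    rintro rfl
    have h1 : p ∣ p - 1 := dvd_trans (dvd_pow_self p (Nat.succ_ne_zero n)) hl1
    have := Nat.le_of_dvd (by omega) h1
    omega
  -- Step 3: the auxiliary fields
  obtain ⟨M₀, _, _, _, _, M₁, _, _, _, _, N, _, _, _, _, _, _, _, _, _, _, hcyc, ⟨k', hk'⟩,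
    hM0dvd, hζ, hM1dvd, hM1p, hjoint⟩ := hyp.field F L p l hpl
  exact exists_cocycle_ideleClass_core F L M₀ M₁ N hyp p l q hp2 hl2 hql n hdeg x hx hlq' hl1
    hcyc k' hk' hM0dvd hζ hM1dvd hM1p hjoint

end Main

end Fermat.Agent.S55.helper33
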