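import Fermat.Agent.S55.helper33_Rec2Defs

/-!
# S55 / REC2: the cyclotomic symbol on idele CLASSES (helper33)

Everything here is CONDITIONAL on `SymHyp` (= the statements of the packages R2-SYM-P, R2-SYM-N,
R2-SYM-D/C of the REC2 blueprint, modulus `l`, fields in `Type`).  From them we build the
class-level symbol `symC hS K l e : IdeleClass K →* (ZMod (l ^ 1))ˣ` (`e` even) and prove the
five facts used by the assembly R2-SIMPLE.
-/

set_option autoImplicit false

open scoped TensorProduct NumberField

namespace Fermat.Agent.S55.helper33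

open Fermat.Agent.S55.helper73

/-- The package statements about the cyclotomic idele symbol (modulus `l`), bundled. -/
structure SymHyp : Prop where
  mul : ∀ (K : Type) [Field K] [NumberField K] (l : ℕ) [Fact l.Prime] (y y' : Idele K),
    cycSymFun K l 1 (y * y') = cycSymFun K l 1 y * cycSymFun K l 1 y'
  principal : ∀ (K : Type) [Field K] [NumberField K] (l : ℕ) [Fact l.Prime] (y : Idele K),
    y ∈ principalSub K → cycSymFun K l 1 y ^ 2 = 1
  single : ∀ (K : Type) [Field K] [NumberField K] (l : ℕ) [Fact l.Prime] (q : Nat.Primes)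
    (x : (SemiLoc (q : ℕ) K)ˣ), cycSymFun K l 1 (singleIdele K q x) = cycSymAt K l 1 (q : ℕ) x
  atPrincipal : ∀ (K : Type) [Field K] [NumberField K] (l : ℕ) [Fact l.Prime] (q : Nat.Primes)
    (hq : (q : ℕ) ≠ l) (c : Kˣ), cycSymAt K l 1 (q : ℕ) (principalPi K c q) =
      primeUnit (q : ℕ) l 1 hq ^ padicValRat (q : ℕ) (Algebra.norm ℚ (c : K))
  normG : ∀ (K L : Type) [Field K] [NumberField K] [Field L] [NumberField L] [Algebra K L]
    [IsGalois K L] (l : ℕ) [Fact l.Prime] (x : Idele K) (y : Idele L),
    bcIdele K L x = normG Gal(L/K) (Idele L) y → cycSymFun K l 1 x = cycSymFun L l 1 y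
  bc : ∀ (K L : Type) [Field K] [NumberField K] [Field L] [NumberField L] [Algebra K L]
    (l : ℕ) [Fact l.Prime] (x : Idele K),
    cycSymFun L l 1 (bcIdele K L x) = cycSymFun K l 1 x ^ Module.finrank K L
  root : ∀ (K : Type) [Field K] [NumberField K] (l : ℕ) [Fact l.Prime], l ≠ 2 →
    (∃ ζ : K, IsPrimitiveRoot ζ l) → ∀ y : Idele K, cycSymFun K l 1 y = 1

section

variable (hS : SymHyp) (K : Type) [Field K] [NumberField K] (l : ℕ) [Fact l.Prime]

/-- The cyclotomic idele symbol modulo `l` as a group homomorphism. -/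
noncomputable def symHom : Idele K →* (ZMod (l ^ 1))ˣ where
  toFun := cycSymFun K l 1
  map_one' := by
    have h := hS.mul K l 1 1
    rw [mul_one] at h
    exact (mul_eq_left.mp h.symm)
  map_mul' := hS.mul K l

@[simp] lemma symHom_apply (y : Idele K) : symHom hS K l y = cycSymFun K l 1 y := rfl

/-- The `e`-th power of the symbol on idele classes (`e` even). -/
noncomputable def symC (e : ℕ) (he : 2 ∣ e) : IdeleClass K →* (ZMod (l ^ 1))ˣ :=
  QuotientGroup.lift (principalSub K) ((powMonoidHom e).comp (symHom hS K l)) (by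
    intro y hy
    rw [MonoidHom.mem_ker]
    obtain ⟨d, rfl⟩ := he
    change cycSymFun K l 1 y ^ (2 * d) = 1
    rw [pow_mul, hS.principal K l y hy, one_pow])

@[simp] lemma symC_mk (e : ℕ) (he : 2 ∣ e) (y : Idele K) :
    symC hS K l e he (QuotientGroup.mk y : IdeleClass K) = cycSymFun K l 1 y ^ e := rfl

lemma symC_eq_one_of_root (e : ℕ) (he : 2 ∣ e) (hl : l ≠ 2)
    (hζ : ∃ ζ : K, IsPrimitiveRoot ζ l) (a : IdeleClass K) : symC hS K l e he a = 1 := by
  induction a using QuotientGroup.induction_on with
  | H y => rw [symC_mk, hS.root K l hl hζ y, one_pow]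

lemma symC_single (e : ℕ) (he : 2 ∣ e) (q : Nat.Primes) (hq : (q : ℕ) ≠ l) (c : Kˣ) :
    symC hS K l e he (QuotientGroup.mk (singleIdele K q (principalPi K c q)) : IdeleClass K) =
      (primeUnit (q : ℕ) l 1 hq ^ padicValRat (q : ℕ) (Algebra.norm ℚ (c : K))) ^ e := by
  rw [symC_mk, hS.single K l q, hS.atPrincipal K l q hq c]

end

section Tower

variable (hS : SymHyp) (K L : Type) [Field K] [NumberField K] [Field L] [NumberField L]
  [Algebra K L] (l : ℕ) [Fact l.Prime]

lemma symC_ideleClassMap (e : ℕ) (he : 2 ∣ e) (a : IdeleClass K) :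
    symC hS L l e he (ideleClassMap K L a) = symC hS K l e he a ^ Module.finrank K L := by
  induction a using QuotientGroup.induction_on with
  | H y =>
    rw [ideleClassMap_mk, symC_mk, symC_mk, hS.bc K L l y, ← pow_mul, ← pow_mul, mul_comm]

/-- `σ • N x = N x` for the group norm. -/
lemma smul_normG_aux {G A : Type*} [Group G] [Fintype G] [CommGroup A] [MulDistribMulAction G A]
    (σ : G) (x : A) : σ • normG G A x = normG G A x := by
  rw [normG_apply, Finset.smul_prod']
  refine Fintype.prod_equiv (Equiv.mulLeft σ) _ _ fun τ => ?_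
  rw [smul_smul]
  rfl

lemma normG_mk [IsGalois K L] (z : Idele L) :
    normG Gal(L/K) (IdeleClass L) (QuotientGroup.mk z) =
      QuotientGroup.mk (normG Gal(L/K) (Idele L) z) := by
  rw [normG_apply, normG_apply]
  simp only [smul_mk]
  rw [← QuotientGroup.mk'_apply, map_prod]
  rfl

/-- Fixed ideles descend (GLOB G1, task 343), as a hypothesis. -/
def FixedIdeleDescent : Prop :=
  ∀ (K L : Type) [Field K] [NumberField K] [Field L] [NumberField L] [Algebra K L]
    [IsGalois K L] (x : Idele L), (∀ σ : Gal(L/K), σ • x = x) → ∃ y : Idele K, bcIdele K L y = x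

/-- `C_K → C_L` is injective (R2-G1 (2)), as a hypothesis. -/
def IdeleClassMapInjective : Prop :=
  ∀ (K L : Type) [Field K] [NumberField K] [Field L] [NumberField L] [Algebra K L]
    [IsGalois K L], Function.Injective (ideleClassMap K L)

variable [IsGalois K L]

/-- Transitivity of the class-level symbol: if `a ∈ C_K` maps to the norm of `z ∈ C_L`, then the
symbols agree. -/
lemma symC_eq_of_ideleClassMap_eq_normG (hfix : FixedIdeleDescent)
    (hinj : IdeleClassMapInjective) (e : ℕ) (he : 2 ∣ e)
    (a : IdeleClass K) (z : IdeleClass L)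
    (h : ideleClassMap K L a = normG Gal(L/K) (IdeleClass L) z) :
    symC hS K l e he a = symC hS L l e he z := by
  induction z using QuotientGroup.induction_on with
  | H z₀ =>
    obtain ⟨x₁, hx₁⟩ := hfix K L (normG Gal(L/K) (Idele L) z₀)
      (fun σ => smul_normG_aux σ z₀)
    have h2 : ideleClassMap K L a = ideleClassMap K L (QuotientGroup.mk x₁) := by
      rw [h, normG_mk, ideleClassMap_mk, hx₁]
    rw [hinj K L h2, symC_mk, symC_mk, hS.normG K L l x₁ z₀ hx₁]

end Tower

end Fermat.Agent.S55.helper33
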