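import Fermat.Agent.S55.helper4_Rec3Surj
import Fermat.Agent.S55.helper33_Rec3SurjFin
import Fermat.Agent.S55.helper90_Rec3Final

/-!
# S55 / REC3, R3-LOC-SURJ: final wiring (helper33)

`helper4.loc_surj_of` is `loc_surj` conditional only on `FinChiStatement p`, which is
`helper33.finChi p`.  This file records the unconditional statements:

* `loc_surj` : the statement of `helper90.LocInterface.loc_surj`, unconditional;
* `hypLocSurj` : `helper90.HypLocSurj p S`.
-/

set_option autoImplicit false
set_option linter.unusedSectionVars false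
set_option linter.unusedVariables false

open groupCohomology ExtCitation

noncomputable section

namespace Fermat.Agent.S55.helper33

open Fermat.Agent.S55 Fermat.Agent.S55.helper59 Fermat.Agent.S55.helper69
  Fermat.Agent.S55.helper73 Fermat.Agent.S55.helper90

local notation "Qbar" => AlgebraicClosure ℚ

/-- **R3-LOC-SURJ**, unconditional: every `p`-primary local class at `w` is the localisation of a
class of `H²(G_S, J_S)` which is locally trivial at all `w' ≠ w`. -/
theorem loc_surj {p : ℕ} [Fact p.Prime] {S : Finset Nat.Primes} {F : IntermediateField ℚ Qbar}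
    [FiniteDimensional ℚ F] (hF : F.IsUnramifiedOutside S)
    {ι : Type} [Fintype ι] {L : LocalData (UF F) (sLevelsStr S F hF) ι} (hL : IsArith S F L)
    (hp2 : p ≠ 2) (hpS : (⟨p, Fact.out⟩ : Nat.Primes) ∈ S)
    (ζ : (↥F)ˣ) (hζ : IsPrimitiveRoot ζ p)
    (w : ι) (c : L.Gv w × L.Gv w → (arithLocSys hF hL).Ω w)
    (hc : c ∈ Z2 (L.lev w) ((arithLocSys hF hL).Ω w)) (n : ℕ)
    (hn : p ^ n • c ∈ B2 (L.lev w) ((arithLocSys hF hL).Ω w)) :
    ∃ j ∈ Z2 (sLevelsStr S F hF) (repJS S F hF),
      (arithLocSys hF hL).loc₂ w j - c ∈ B2 (L.lev w) ((arithLocSys hF hL).Ω w) ∧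
      ∀ w', w' ≠ w → (arithLocSys hF hL).loc₂ w' j ∈ B2 (L.lev w') ((arithLocSys hF hL).Ω w') :=
  helper4.loc_surj_of hF hL (finChi p) hp2 hpS ζ hζ w c hc n hn

/-- **R3-LOC-SURJ** in the quantified form consumed by `helper90.hypRec3Arith_of`. -/
theorem hypLocSurj (p : ℕ) [Fact p.Prime] (S : Finset Nat.Primes) : helper90.HypLocSurj p S :=
  fun _F _ hF _ι _ _L hL hp2 hpS ζ hζ w c hc n hn =>
    loc_surj hF hL hp2 hpS ζ hζ w c hc n hn

end Fermat.Agent.S55.helper33
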