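import Fermat.Agent.S55.helper11_RecDefs
import Fermat.Agent.S55.helper31_CyclicClass

/-!
# S55 / REC1-NORML (helper34, task 316)

If the localisation of the global cyclic class `cyclicClass σ c` at a local datum `D` vanishes,
then `c` is a local norm at `D`.

* `locHom_injective` : R-DEC, first statement (verbatim from the interface
  `helper11_Rec1Interface` v1.2), proved here unconditionally;
* `LocCyclicClassStatement` : the statement of R-CYC2 (`loc_cyclicClass`), as a `Prop`;
* `mem_range_normUnits_of_loc_eq_zero_of` : R-NORML for a datum `D`, with the instance of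
  R-CYC2 at `D` as the only hypothesis;
* `mem_range_normUnits_of_loc_eq_zero` : R-NORML (interface statement) from
  `LocCyclicClassStatement`;
* `exists_generator_map_eq_pow` : the (pure group theory) choice of a generator `φ` of the local
  Galois group which restricts to `σ ^ (n / n_w)`.
-/

set_option autoImplicit false

open CategoryTheory groupCohomology

namespace Fermat.Agent.S55.helper34

open Fermat.Agent.S55.helper8 Fermat.Agent.S55.helper11

/-- An element whose order is the cardinality of the (finite) group generates it. -/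
theorem forall_mem_zpowers_of_orderOf_eq_card {H : Type*} [Group H] [Finite H] (φ : H)
    (h : orderOf φ = Nat.card H) : ∀ τ : H, τ ∈ Subgroup.zpowers φ := by
  have h1 : Nat.card (Subgroup.zpowers φ) = Nat.card H := by
    rw [Nat.card_zpowers, h]
  have h2 : Subgroup.zpowers φ = ⊤ := Subgroup.eq_top_of_card_eq _ h1
  intro τ
  rw [h2]
  trivial

/-- Pure group theory: if `f : H →* G` is injective and `G` is finite cyclic with generator `σ`,
then `H` has a generator `φ` with `f φ = σ ^ (|G| / |H|)`. -/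
theorem exists_generator_map_eq_pow {G H : Type*} [Group G] [Group H] [Finite G] [Finite H]
    (f : H →* G) (hf : Function.Injective f) (σ : G)
    (hσ : ∀ τ : G, τ ∈ Subgroup.zpowers σ) :
    ∃ φ : H, (∀ τ : H, τ ∈ Subgroup.zpowers φ) ∧ f φ = σ ^ (Nat.card G / Nat.card H) := by
  have : IsCyclic G := ⟨σ, hσ⟩
  have : IsCyclic H := isCyclic_of_injective f hf
  obtain ⟨ψ, hψ⟩ := IsCyclic.exists_generator (α := H)
  set n := Nat.card G with hn
  set h := Nat.card H with hh
  have hn0 : 0 < n := Nat.card_pos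
  have hh0 : 0 < h := Nat.card_pos
  have hoσ : orderOf σ = n := orderOf_eq_card_of_forall_mem_zpowers hσ
  have hoψ : orderOf ψ = h := orderOf_eq_card_of_forall_mem_zpowers hψ
  obtain ⟨k, hk⟩ : ∃ k : ℕ, σ ^ k = f ψ := by
    have := hσ (f ψ)
    rw [← mem_powers_iff_mem_zpowers] at this
    exact this
  have hofψ : orderOf (f ψ) = h := by rw [orderOf_injective f hf ψ, hoψ]
  -- `gcd n k = n / h`
  have hgcd : n = Nat.gcd n k * h := by
    have h1 : orderOf (σ ^ k) = n / Nat.gcd n k := by rw [orderOf_pow, hoσ]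
    rw [hk, hofψ] at h1
    rw [h1]
    exact (Nat.mul_div_cancel' (Nat.gcd_dvd_left n k)).symm
  have hd : n / h = Nat.gcd n k := Nat.div_eq_of_eq_mul_left hh0 hgcd
  have hσn : σ ^ n = 1 := by rw [← hoσ]; exact pow_orderOf_eq_one σ
  have hmap : f (ψ ^ (Nat.gcdB n k)) = σ ^ (n / h) := by
    rw [map_zpow, ← hk, hd, ← zpow_natCast σ (Nat.gcd n k), Nat.gcd_eq_gcd_ab, zpow_add,
      zpow_mul, zpow_natCast, hσn, one_zpow, one_mul, zpow_mul, zpow_natCast]
  refine ⟨ψ ^ (Nat.gcdB n k), ?_, hmap⟩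
  apply forall_mem_zpowers_of_orderOf_eq_card
  rw [← orderOf_injective f hf, hmap, orderOf_pow, hoσ, hd, ← hh]
  have h2 : Nat.gcd n (Nat.gcd n k) = Nat.gcd n k :=
    Nat.gcd_eq_right (Nat.gcd_dvd_left n k)
  rw [h2]
  exact Nat.div_eq_of_eq_mul_right (Nat.gcd_pos_of_pos_left k hn0) hgcd

/-- **R-DEC, first statement** (verbatim): the restriction map `Gal(Lw/Kv) → Gal(L/F)` of a
local datum is injective. -/
theorem locHom_injective (q : ℕ) [Fact q.Prime] (F L : Type) [Field F] [Field L] [Algebra F L]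
    [FiniteDimensional F L] [IsGalois F L] (D : LocDatum q F L) :
    Function.Injective (locHom F L D.Kv D.Lw) := by
  rw [injective_iff_map_eq_one]
  intro σ hσ
  -- `σ` fixes the image of `L`
  have hfix : ∀ x : L, σ (algebraMap L D.Lw x) = algebraMap L D.Lw x := by
    intro x
    rw [← algebraMap_locHom F L D.Kv D.Lw σ x, hσ]
    rfl
  -- `σ` as a `ℚ_[q]`-algebra hom
  let τ : D.Lw →ₐ[ℚ_[q]] D.Lw := (σ.toAlgHom).restrictScalars ℚ_[q]
  have hτ : ∀ y ∈ Algebra.adjoin ℚ_[q] (Set.range (algebraMap L D.Lw)), τ y = y := by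
    intro y hy
    induction hy using Algebra.adjoin_induction with
    | mem x hx =>
      obtain ⟨a, rfl⟩ := hx
      exact hfix a
    | algebraMap r => exact τ.commutes r
    | add x y _ _ hx hy => rw [map_add, hx, hy]
    | mul x y _ _ hx hy => rw [map_mul, hx, hy]
  ext y
  have hy : y ∈ Algebra.adjoin ℚ_[q] (Set.range (algebraMap L D.Lw)) := by
    rw [D.denseL]; trivial
  exact hτ y hy

/-- The statement of R-CYC2 (`loc_cyclicClass` of the interface, verbatim). -/
def LocCyclicClassStatement : Prop :=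
  ∀ (q : ℕ) [Fact q.Prime] (F M : Type) [Field F] [Field M] [Algebra F M]
    [FiniteDimensional F M] [IsGalois F M] (D : LocDatum q F M)
    (σ : M ≃ₐ[F] M) (_ : ∀ τ : M ≃ₐ[F] M, τ ∈ Subgroup.zpowers σ)
    (φ : D.Lw ≃ₐ[D.Kv] D.Lw) (_ : ∀ τ : D.Lw ≃ₐ[D.Kv] D.Lw, τ ∈ Subgroup.zpowers φ)
    (u : ℕ)
    (_ : locHom F M D.Kv D.Lw φ =
      σ ^ (u * (Module.finrank F M / Module.finrank D.Kv D.Lw))) (c : Fˣ),
    D.loc (cyclicClass F M σ c) =
      u • cyclicClass D.Kv D.Lw φ (Units.map (algebraMap F D.Kv : F →* D.Kv) c)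

section main

variable (q : ℕ) [Fact q.Prime] (F M : Type) [Field F] [Field M] [Algebra F M]
  [FiniteDimensional F M] [IsGalois F M]

/-- **R-NORML**, with the instance of R-CYC2 at `D` as explicit hypothesis: if the
localisation at `D` of the cyclic class `cyclicClass σ c` vanishes then `c` is a local norm. -/
theorem mem_range_normUnits_of_loc_eq_zero_of (D : LocDatum q F M)
    (hcyc : ∀ (σ : M ≃ₐ[F] M) (_ : ∀ τ : M ≃ₐ[F] M, τ ∈ Subgroup.zpowers σ)
      (φ : D.Lw ≃ₐ[D.Kv] D.Lw) (_ : ∀ τ : D.Lw ≃ₐ[D.Kv] D.Lw, τ ∈ Subgroup.zpowers φ)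
      (u : ℕ)
      (_ : locHom F M D.Kv D.Lw φ =
        σ ^ (u * (Module.finrank F M / Module.finrank D.Kv D.Lw))) (c : Fˣ),
      D.loc (cyclicClass F M σ c) =
        u • cyclicClass D.Kv D.Lw φ (Units.map (algebraMap F D.Kv : F →* D.Kv) c))
    (σ : M ≃ₐ[F] M) (hσ : ∀ τ : M ≃ₐ[F] M, τ ∈ Subgroup.zpowers σ) (c : Fˣ)
    (h : D.loc (cyclicClass F M σ c) = 0) :
    Units.map (algebraMap F D.Kv : F →* D.Kv) c ∈ (normUnits D.Kv D.Lw).range := by
  obtain ⟨φ, hφ, hmap⟩ := exists_generator_map_eq_pow (locHom F M D.Kv D.Lw)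
    (locHom_injective q F M D) σ hσ
  rw [IsGalois.card_aut_eq_finrank, IsGalois.card_aut_eq_finrank] at hmap
  have h1 := hcyc σ hσ φ hφ 1 (by rw [one_mul]; exact hmap) c
  rw [h, one_smul] at h1
  exact (helper31.cyclicClass_eq_zero_iff q D.Kv D.Lw φ hφ _).mp h1.symm

/-- **R-NORML** (interface statement `mem_range_normUnits_of_loc_eq_zero`), from R-CYC2. -/
theorem mem_range_normUnits_of_loc_eq_zero (hcyc : LocCyclicClassStatement)
    (D : LocDatum q F M)
    (σ : M ≃ₐ[F] M) (hσ : ∀ τ : M ≃ₐ[F] M, τ ∈ Subgroup.zpowers σ) (c : Fˣ)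
    (h : D.loc (cyclicClass F M σ c) = 0) :
    Units.map (algebraMap F D.Kv : F →* D.Kv) c ∈ (normUnits D.Kv D.Lw).range :=
  mem_range_normUnits_of_loc_eq_zero_of q F M D (hcyc q F M D) σ hσ c h

end main

end Fermat.Agent.S55.helper34
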