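import Mathlib
import Fermat.Agent.S55.Defs
import Fermat.Agent.S55.helper35_Cup

/-!
# S55 / SH (helper35), package ADM: invariance and level-constancy of homogeneous cochains

For a group `Γ`, a subgroup `H` and a level structure `𝒩` on `Γ`:

* `IsInv_n H F`   : the homogeneous cochain `F : Γ → ⋯ → Γ → N` is invariant under simultaneous
                    left translation by elements of `H`;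
* `IsLevH_n 𝒩 F` : `F` is invariant under right translation of each variable separately by the
                    elements of one level `N ∈ 𝒩`;
* `EqvMap₂ H₁ H₂ f g` : the maps `f g : Γ₁ → Γ₂` are left-equivariant for a common map `H₁ → H₂`;
* `LevMap 𝒩₁ 𝒩₂ f` : `f (x * s) ∈ f x * N₂` for `s` in a small enough level.

and the preservation of these properties under differentials, pull-backs, prisms, cup products,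
transfers.
-/

set_option autoImplicit false
set_option linter.unusedSectionVars false

namespace Fermat.Agent.S55.helper35

open Fermat.Agent.S55

section Defs

variable {Γ : Type} [Group Γ] {N : Type}

/-- left invariance of a homogeneous `0`-cochain -/
def IsInv0 (H : Subgroup Γ) (F : Γ → N) : Prop := ∀ u ∈ H, ∀ x₀, F (u * x₀) = F x₀
/-- left invariance of a homogeneous `1`-cochain -/
def IsInv1 (H : Subgroup Γ) (F : Γ → Γ → N) : Prop :=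
  ∀ u ∈ H, ∀ x₀ x₁, F (u * x₀) (u * x₁) = F x₀ x₁
/-- left invariance of a homogeneous `2`-cochain -/
def IsInv2 (H : Subgroup Γ) (F : Γ → Γ → Γ → N) : Prop :=
  ∀ u ∈ H, ∀ x₀ x₁ x₂, F (u * x₀) (u * x₁) (u * x₂) = F x₀ x₁ x₂
/-- left invariance of a homogeneous `3`-cochain -/
def IsInv3 (H : Subgroup Γ) (F : Γ → Γ → Γ → Γ → N) : Prop :=
  ∀ u ∈ H, ∀ x₀ x₁ x₂ x₃, F (u * x₀) (u * x₁) (u * x₂) (u * x₃) = F x₀ x₁ x₂ x₃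
/-- left invariance of a homogeneous `4`-cochain -/
def IsInv4 (H : Subgroup Γ) (F : Γ → Γ → Γ → Γ → Γ → N) : Prop :=
  ∀ u ∈ H, ∀ x₀ x₁ x₂ x₃ x₄, F (u * x₀) (u * x₁) (u * x₂) (u * x₃) (u * x₄) = F x₀ x₁ x₂ x₃ x₄

/-- level-constancy of a homogeneous `0`-cochain -/
def IsLevH0 (𝒩 : Levels Γ) (F : Γ → N) : Prop :=
  ∃ M ∈ 𝒩.mem, ∀ x₀, ∀ s₀ ∈ M, F (x₀ * s₀) = F x₀
/-- level-constancy of a homogeneous `1`-cochain -/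
def IsLevH1 (𝒩 : Levels Γ) (F : Γ → Γ → N) : Prop :=
  ∃ M ∈ 𝒩.mem, ∀ x₀ x₁, ∀ s₀ ∈ M, ∀ s₁ ∈ M, F (x₀ * s₀) (x₁ * s₁) = F x₀ x₁
/-- level-constancy of a homogeneous `2`-cochain -/
def IsLevH2 (𝒩 : Levels Γ) (F : Γ → Γ → Γ → N) : Prop :=
  ∃ M ∈ 𝒩.mem, ∀ x₀ x₁ x₂, ∀ s₀ ∈ M, ∀ s₁ ∈ M, ∀ s₂ ∈ M,
    F (x₀ * s₀) (x₁ * s₁) (x₂ * s₂) = F x₀ x₁ x₂
/-- level-constancy of a homogeneous `3`-cochain -/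
def IsLevH3 (𝒩 : Levels Γ) (F : Γ → Γ → Γ → Γ → N) : Prop :=
  ∃ M ∈ 𝒩.mem, ∀ x₀ x₁ x₂ x₃, ∀ s₀ ∈ M, ∀ s₁ ∈ M, ∀ s₂ ∈ M, ∀ s₃ ∈ M,
    F (x₀ * s₀) (x₁ * s₁) (x₂ * s₂) (x₃ * s₃) = F x₀ x₁ x₂ x₃

variable {Γ₁ Γ₂ : Type} [Group Γ₁] [Group Γ₂]

/-- `f` and `g` are left-equivariant for a common map `H₁ → H₂` -/
def EqvMap₂ (H₁ : Subgroup Γ₁) (H₂ : Subgroup Γ₂) (f g : Γ₁ → Γ₂) : Prop :=
  ∀ u ∈ H₁, ∃ u' ∈ H₂, ∀ x, f (u * x) = u' * f x ∧ g (u * x) = u' * g x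

/-- `f` is left-equivariant for some map `H₁ → H₂` -/
def EqvMap (H₁ : Subgroup Γ₁) (H₂ : Subgroup Γ₂) (f : Γ₁ → Γ₂) : Prop := EqvMap₂ H₁ H₂ f f

/-- `f` maps right cosets of small levels into right cosets of levels -/
def LevMap (𝒩₁ : Levels Γ₁) (𝒩₂ : Levels Γ₂) (f : Γ₁ → Γ₂) : Prop :=
  ∀ M₂ ∈ 𝒩₂.mem, ∃ M₁ ∈ 𝒩₁.mem, ∀ x, ∀ s ∈ M₁, ∃ s' ∈ M₂, f (x * s) = f x * s'

end Defs

/-! ### Closure under the group operations -/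

section Closure

variable {Γ : Type} [Group Γ] {N : Type} [AddCommGroup N] (H : Subgroup Γ) (𝒩 : Levels Γ)

lemma isInv0_zero : IsInv0 H (0 : Γ → N) := fun _ _ _ => rfl
lemma isInv1_zero : IsInv1 H (0 : Γ → Γ → N) := fun _ _ _ _ => rfl
lemma isInv2_zero : IsInv2 H (0 : Γ → Γ → Γ → N) := fun _ _ _ _ _ => rfl
lemma isInv3_zero : IsInv3 H (0 : Γ → Γ → Γ → Γ → N) := fun _ _ _ _ _ _ => rfl

lemma isLevH0_zero : IsLevH0 𝒩 (0 : Γ → N) := by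
  obtain ⟨M, hM⟩ := 𝒩.nonempty
  exact ⟨M, hM, fun _ _ _ => rfl⟩
lemma isLevH1_zero : IsLevH1 𝒩 (0 : Γ → Γ → N) := by
  obtain ⟨M, hM⟩ := 𝒩.nonempty
  exact ⟨M, hM, fun _ _ _ _ _ _ => rfl⟩
lemma isLevH2_zero : IsLevH2 𝒩 (0 : Γ → Γ → Γ → N) := by
  obtain ⟨M, hM⟩ := 𝒩.nonempty
  exact ⟨M, hM, fun _ _ _ _ _ _ _ _ _ => rfl⟩
lemma isLevH3_zero : IsLevH3 𝒩 (0 : Γ → Γ → Γ → Γ → N) := by
  obtain ⟨M, hM⟩ := 𝒩.nonempty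
  exact ⟨M, hM, fun _ _ _ _ _ _ _ _ _ _ _ _ => rfl⟩

variable {H 𝒩}

lemma IsInv0.add {F F' : Γ → N} (h : IsInv0 H F) (h' : IsInv0 H F') : IsInv0 H (F + F') :=
  fun u hu x0 => by
    simp only [Pi.add_apply, h u hu, h' u hu]
lemma IsInv1.add {F F' : Γ → Γ → N} (h : IsInv1 H F) (h' : IsInv1 H F') :
    IsInv1 H (F + F') :=
  fun u hu x0 x1 => by
    simp only [Pi.add_apply, h u hu, h' u hu]
lemma IsInv2.add {F F' : Γ → Γ → Γ → N} (h : IsInv2 H F) (h' : IsInv2 H F') :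
    IsInv2 H (F + F') :=
  fun u hu x0 x1 x2 => by
    simp only [Pi.add_apply, h u hu, h' u hu]
lemma IsInv3.add {F F' : Γ → Γ → Γ → Γ → N} (h : IsInv3 H F) (h' : IsInv3 H F') :
    IsInv3 H (F + F') :=
  fun u hu x0 x1 x2 x3 => by
    simp only [Pi.add_apply, h u hu, h' u hu]
lemma IsInv0.sub {F F' : Γ → N} (h : IsInv0 H F) (h' : IsInv0 H F') : IsInv0 H (F - F') :=
  fun u hu x0 => by
    simp only [Pi.sub_apply, h u hu, h' u hu]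
lemma IsInv1.sub {F F' : Γ → Γ → N} (h : IsInv1 H F) (h' : IsInv1 H F') :
    IsInv1 H (F - F') :=
  fun u hu x0 x1 => by
    simp only [Pi.sub_apply, h u hu, h' u hu]
lemma IsInv2.sub {F F' : Γ → Γ → Γ → N} (h : IsInv2 H F) (h' : IsInv2 H F') :
    IsInv2 H (F - F') :=
  fun u hu x0 x1 x2 => by
    simp only [Pi.sub_apply, h u hu, h' u hu]
lemma IsInv3.sub {F F' : Γ → Γ → Γ → Γ → N} (h : IsInv3 H F) (h' : IsInv3 H F') :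
    IsInv3 H (F - F') :=
  fun u hu x0 x1 x2 x3 => by
    simp only [Pi.sub_apply, h u hu, h' u hu]
lemma IsInv0.neg {F : Γ → N} (h : IsInv0 H F) : IsInv0 H (-F) :=
  fun u hu x0 => by
    simp only [Pi.neg_apply, h u hu]
lemma IsInv1.neg {F : Γ → Γ → N} (h : IsInv1 H F) : IsInv1 H (-F) :=
  fun u hu x0 x1 => by
    simp only [Pi.neg_apply, h u hu]
lemma IsInv2.neg {F : Γ → Γ → Γ → N} (h : IsInv2 H F) : IsInv2 H (-F) :=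
  fun u hu x0 x1 x2 => by
    simp only [Pi.neg_apply, h u hu]

lemma IsLevH0.add {F F' : Γ → N} (h : IsLevH0 𝒩 F) (h' : IsLevH0 𝒩 F') :
    IsLevH0 𝒩 (F + F') := by
  obtain ⟨M, hM, h⟩ := h
  obtain ⟨M', hM', h'⟩ := h'
  obtain ⟨M'', hM'', hle⟩ := 𝒩.directed M hM M' hM'
  exact ⟨M'', hM'', fun x0 s0 hs0 => by
    simp only [Pi.add_apply, h x0 s0 (hle hs0).1, h' x0 s0 (hle hs0).2]⟩
lemma IsLevH1.add {F F' : Γ → Γ → N} (h : IsLevH1 𝒩 F) (h' : IsLevH1 𝒩 F') :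
    IsLevH1 𝒩 (F + F') := by
  obtain ⟨M, hM, h⟩ := h
  obtain ⟨M', hM', h'⟩ := h'
  obtain ⟨M'', hM'', hle⟩ := 𝒩.directed M hM M' hM'
  exact ⟨M'', hM'', fun x0 x1 s0 hs0 s1 hs1 => by
    simp only [Pi.add_apply, h x0 x1 s0 (hle hs0).1 s1 (hle hs1).1, h' x0 x1 s0 (hle hs0).2 s1 (hle hs1).2]⟩
lemma IsLevH2.add {F F' : Γ → Γ → Γ → N} (h : IsLevH2 𝒩 F) (h' : IsLevH2 𝒩 F') :
    IsLevH2 𝒩 (F + F') := by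
  obtain ⟨M, hM, h⟩ := h
  obtain ⟨M', hM', h'⟩ := h'
  obtain ⟨M'', hM'', hle⟩ := 𝒩.directed M hM M' hM'
  exact ⟨M'', hM'', fun x0 x1 x2 s0 hs0 s1 hs1 s2 hs2 => by
    simp only [Pi.add_apply, h x0 x1 x2 s0 (hle hs0).1 s1 (hle hs1).1 s2 (hle hs2).1, h' x0 x1 x2 s0 (hle hs0).2 s1 (hle hs1).2 s2 (hle hs2).2]⟩
lemma IsLevH3.add {F F' : Γ → Γ → Γ → Γ → N} (h : IsLevH3 𝒩 F) (h' : IsLevH3 𝒩 F') :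
    IsLevH3 𝒩 (F + F') := by
  obtain ⟨M, hM, h⟩ := h
  obtain ⟨M', hM', h'⟩ := h'
  obtain ⟨M'', hM'', hle⟩ := 𝒩.directed M hM M' hM'
  exact ⟨M'', hM'', fun x0 x1 x2 x3 s0 hs0 s1 hs1 s2 hs2 s3 hs3 => by
    simp only [Pi.add_apply, h x0 x1 x2 x3 s0 (hle hs0).1 s1 (hle hs1).1 s2 (hle hs2).1 s3 (hle hs3).1, h' x0 x1 x2 x3 s0 (hle hs0).2 s1 (hle hs1).2 s2 (hle hs2).2 s3 (hle hs3).2]⟩
lemma IsLevH0.sub {F F' : Γ → N} (h : IsLevH0 𝒩 F) (h' : IsLevH0 𝒩 F') :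
    IsLevH0 𝒩 (F - F') := by
  obtain ⟨M, hM, h⟩ := h
  obtain ⟨M', hM', h'⟩ := h'
  obtain ⟨M'', hM'', hle⟩ := 𝒩.directed M hM M' hM'
  exact ⟨M'', hM'', fun x0 s0 hs0 => by
    simp only [Pi.sub_apply, h x0 s0 (hle hs0).1, h' x0 s0 (hle hs0).2]⟩
lemma IsLevH1.sub {F F' : Γ → Γ → N} (h : IsLevH1 𝒩 F) (h' : IsLevH1 𝒩 F') :
    IsLevH1 𝒩 (F - F') := by
  obtain ⟨M, hM, h⟩ := h
  obtain ⟨M', hM', h'⟩ := h'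
  obtain ⟨M'', hM'', hle⟩ := 𝒩.directed M hM M' hM'
  exact ⟨M'', hM'', fun x0 x1 s0 hs0 s1 hs1 => by
    simp only [Pi.sub_apply, h x0 x1 s0 (hle hs0).1 s1 (hle hs1).1, h' x0 x1 s0 (hle hs0).2 s1 (hle hs1).2]⟩
lemma IsLevH2.sub {F F' : Γ → Γ → Γ → N} (h : IsLevH2 𝒩 F) (h' : IsLevH2 𝒩 F') :
    IsLevH2 𝒩 (F - F') := by
  obtain ⟨M, hM, h⟩ := h
  obtain ⟨M', hM', h'⟩ := h'
  obtain ⟨M'', hM'', hle⟩ := 𝒩.directed M hM M' hM'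
  exact ⟨M'', hM'', fun x0 x1 x2 s0 hs0 s1 hs1 s2 hs2 => by
    simp only [Pi.sub_apply, h x0 x1 x2 s0 (hle hs0).1 s1 (hle hs1).1 s2 (hle hs2).1, h' x0 x1 x2 s0 (hle hs0).2 s1 (hle hs1).2 s2 (hle hs2).2]⟩
lemma IsLevH3.sub {F F' : Γ → Γ → Γ → Γ → N} (h : IsLevH3 𝒩 F) (h' : IsLevH3 𝒩 F') :
    IsLevH3 𝒩 (F - F') := by
  obtain ⟨M, hM, h⟩ := h
  obtain ⟨M', hM', h'⟩ := h'
  obtain ⟨M'', hM'', hle⟩ := 𝒩.directed M hM M' hM'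
  exact ⟨M'', hM'', fun x0 x1 x2 x3 s0 hs0 s1 hs1 s2 hs2 s3 hs3 => by
    simp only [Pi.sub_apply, h x0 x1 x2 x3 s0 (hle hs0).1 s1 (hle hs1).1 s2 (hle hs2).1 s3 (hle hs3).1, h' x0 x1 x2 x3 s0 (hle hs0).2 s1 (hle hs1).2 s2 (hle hs2).2 s3 (hle hs3).2]⟩
lemma IsLevH0.neg {F : Γ → N} (h : IsLevH0 𝒩 F) : IsLevH0 𝒩 (-F) := by
  obtain ⟨M, hM, h⟩ := h
  exact ⟨M, hM, fun x0 s0 hs0 => by
    simp only [Pi.neg_apply, h x0 s0 hs0]⟩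
lemma IsLevH1.neg {F : Γ → Γ → N} (h : IsLevH1 𝒩 F) : IsLevH1 𝒩 (-F) := by
  obtain ⟨M, hM, h⟩ := h
  exact ⟨M, hM, fun x0 x1 s0 hs0 s1 hs1 => by
    simp only [Pi.neg_apply, h x0 x1 s0 hs0 s1 hs1]⟩
lemma IsLevH2.neg {F : Γ → Γ → Γ → N} (h : IsLevH2 𝒩 F) : IsLevH2 𝒩 (-F) := by
  obtain ⟨M, hM, h⟩ := h
  exact ⟨M, hM, fun x0 x1 x2 s0 hs0 s1 hs1 s2 hs2 => by
    simp only [Pi.neg_apply, h x0 x1 x2 s0 hs0 s1 hs1 s2 hs2]⟩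

/-! ### Differentials -/

lemma IsInv0.hd0 {F : Γ → N} (h : IsInv0 H F) : IsInv1 H (hd0 F) := by
  intro u hu x0 x1
  simp only [hd0_apply, h u hu]
lemma IsInv1.hd1 {F : Γ → Γ → N} (h : IsInv1 H F) : IsInv2 H (hd1 F) := by
  intro u hu x0 x1 x2
  simp only [hd1_apply, h u hu]
lemma IsInv2.hd2 {F : Γ → Γ → Γ → N} (h : IsInv2 H F) : IsInv3 H (hd2 F) := by
  intro u hu x0 x1 x2 x3
  simp only [hd2_apply, h u hu]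
lemma IsLevH0.hd0 {F : Γ → N} (h : IsLevH0 𝒩 F) : IsLevH1 𝒩 (hd0 F) := by
  obtain ⟨M, hM, h⟩ := h
  refine ⟨M, hM, fun x0 x1 s0 hs0 s1 hs1 => ?_⟩
  simp only [hd0_apply, h x0 s0 hs0, h x1 s1 hs1]
lemma IsLevH1.hd1 {F : Γ → Γ → N} (h : IsLevH1 𝒩 F) : IsLevH2 𝒩 (hd1 F) := by
  obtain ⟨M, hM, h⟩ := h
  refine ⟨M, hM, fun x0 x1 x2 s0 hs0 s1 hs1 s2 hs2 => ?_⟩
  simp only [hd1_apply, h x1 x2 s1 hs1 s2 hs2, h x0 x2 s0 hs0 s2 hs2, h x0 x1 s0 hs0 s1 hs1]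
lemma IsLevH2.hd2 {F : Γ → Γ → Γ → N} (h : IsLevH2 𝒩 F) : IsLevH3 𝒩 (hd2 F) := by
  obtain ⟨M, hM, h⟩ := h
  refine ⟨M, hM, fun x0 x1 x2 x3 s0 hs0 s1 hs1 s2 hs2 s3 hs3 => ?_⟩
  simp only [hd2_apply, h x1 x2 x3 s1 hs1 s2 hs2 s3 hs3, h x0 x2 x3 s0 hs0 s2 hs2 s3 hs3,
    h x0 x1 x3 s0 hs0 s1 hs1 s3 hs3, h x0 x1 x2 s0 hs0 s1 hs1 s2 hs2]

end Closure

/-! ### Pull-backs and prisms -/

section Maps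

variable {Γ₁ Γ₂ : Type} [Group Γ₁] [Group Γ₂] {N : Type} [AddCommGroup N]
  {H₁ : Subgroup Γ₁} {H₂ : Subgroup Γ₂} {𝒩₁ : Levels Γ₁} {𝒩₂ : Levels Γ₂} {f g : Γ₁ → Γ₂}

lemma IsInv0.pull0 (hf : EqvMap H₁ H₂ f) {F : Γ₂ → N} (h : IsInv0 H₂ F) :
    IsInv0 H₁ (pull0 f F) := by
  intro u hu x0
  obtain ⟨u', hu', e⟩ := hf u hu
  simp only [pull0_apply, (e x0).1, h u' hu']
lemma IsInv1.pull1 (hf : EqvMap H₁ H₂ f) {F : Γ₂ → Γ₂ → N} (h : IsInv1 H₂ F) :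
    IsInv1 H₁ (pull1 f F) := by
  intro u hu x0 x1
  obtain ⟨u', hu', e⟩ := hf u hu
  simp only [pull1_apply, (e x0).1, (e x1).1, h u' hu']
lemma IsInv2.pull2 (hf : EqvMap H₁ H₂ f) {F : Γ₂ → Γ₂ → Γ₂ → N} (h : IsInv2 H₂ F) :
    IsInv2 H₁ (pull2 f F) := by
  intro u hu x0 x1 x2
  obtain ⟨u', hu', e⟩ := hf u hu
  simp only [pull2_apply, (e x0).1, (e x1).1, (e x2).1, h u' hu']
lemma IsInv3.pull3 (hf : EqvMap H₁ H₂ f) {F : Γ₂ → Γ₂ → Γ₂ → Γ₂ → N} (h : IsInv3 H₂ F) :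
    IsInv3 H₁ (pull3 f F) := by
  intro u hu x0 x1 x2 x3
  obtain ⟨u', hu', e⟩ := hf u hu
  simp only [pull3_apply, (e x0).1, (e x1).1, (e x2).1, (e x3).1, h u' hu']

lemma IsInv1.prism1 (hfg : EqvMap₂ H₁ H₂ f g) {F : Γ₂ → Γ₂ → N} (h : IsInv1 H₂ F) :
    IsInv0 H₁ (prism1 f g F) := by
  intro u hu x0
  obtain ⟨u', hu', e⟩ := hfg u hu
  simp only [prism1_apply, (e x0).1, (e x0).2, h u' hu']
lemma IsInv2.prism2 (hfg : EqvMap₂ H₁ H₂ f g) {F : Γ₂ → Γ₂ → Γ₂ → N} (h : IsInv2 H₂ F) :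
    IsInv1 H₁ (prism2 f g F) := by
  intro u hu x0 x1
  obtain ⟨u', hu', e⟩ := hfg u hu
  simp only [prism2_apply, (e x0).1, (e x0).2, (e x1).1, (e x1).2, h u' hu']
lemma IsInv3.prism3 (hfg : EqvMap₂ H₁ H₂ f g) {F : Γ₂ → Γ₂ → Γ₂ → Γ₂ → N} (h : IsInv3 H₂ F) :
    IsInv2 H₁ (prism3 f g F) := by
  intro u hu x0 x1 x2
  obtain ⟨u', hu', e⟩ := hfg u hu
  simp only [prism3_apply, (e x0).1, (e x0).2, (e x1).1, (e x1).2, (e x2).1, (e x2).2,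
    h u' hu']

lemma IsLevH0.pull0 (hf : LevMap 𝒩₁ 𝒩₂ f) {F : Γ₂ → N} (h : IsLevH0 𝒩₂ F) :
    IsLevH0 𝒩₁ (pull0 f F) := by
  obtain ⟨M₂, hM₂, h⟩ := h
  obtain ⟨M₁, hM₁, e⟩ := hf M₂ hM₂
  refine ⟨M₁, hM₁, fun x0 s0 hs0 => ?_⟩
  obtain ⟨t0, ht0, e0⟩ := e x0 s0 hs0
  simp only [pull0_apply, e0, h (f x0) t0 ht0]
lemma IsLevH1.pull1 (hf : LevMap 𝒩₁ 𝒩₂ f) {F : Γ₂ → Γ₂ → N} (h : IsLevH1 𝒩₂ F) :
    IsLevH1 𝒩₁ (pull1 f F) := by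
  obtain ⟨M₂, hM₂, h⟩ := h
  obtain ⟨M₁, hM₁, e⟩ := hf M₂ hM₂
  refine ⟨M₁, hM₁, fun x0 x1 s0 hs0 s1 hs1 => ?_⟩
  obtain ⟨t0, ht0, e0⟩ := e x0 s0 hs0
  obtain ⟨t1, ht1, e1⟩ := e x1 s1 hs1
  simp only [pull1_apply, e0, e1, h (f x0) (f x1) t0 ht0 t1 ht1]
lemma IsLevH2.pull2 (hf : LevMap 𝒩₁ 𝒩₂ f) {F : Γ₂ → Γ₂ → Γ₂ → N} (h : IsLevH2 𝒩₂ F) :
    IsLevH2 𝒩₁ (pull2 f F) := by
  obtain ⟨M₂, hM₂, h⟩ := h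
  obtain ⟨M₁, hM₁, e⟩ := hf M₂ hM₂
  refine ⟨M₁, hM₁, fun x0 x1 x2 s0 hs0 s1 hs1 s2 hs2 => ?_⟩
  obtain ⟨t0, ht0, e0⟩ := e x0 s0 hs0
  obtain ⟨t1, ht1, e1⟩ := e x1 s1 hs1
  obtain ⟨t2, ht2, e2⟩ := e x2 s2 hs2
  simp only [pull2_apply, e0, e1, e2, h (f x0) (f x1) (f x2) t0 ht0 t1 ht1 t2 ht2]
lemma IsLevH3.pull3 (hf : LevMap 𝒩₁ 𝒩₂ f) {F : Γ₂ → Γ₂ → Γ₂ → Γ₂ → N} (h : IsLevH3 𝒩₂ F) :
    IsLevH3 𝒩₁ (pull3 f F) := by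
  obtain ⟨M₂, hM₂, h⟩ := h
  obtain ⟨M₁, hM₁, e⟩ := hf M₂ hM₂
  refine ⟨M₁, hM₁, fun x0 x1 x2 x3 s0 hs0 s1 hs1 s2 hs2 s3 hs3 => ?_⟩
  obtain ⟨t0, ht0, e0⟩ := e x0 s0 hs0
  obtain ⟨t1, ht1, e1⟩ := e x1 s1 hs1
  obtain ⟨t2, ht2, e2⟩ := e x2 s2 hs2
  obtain ⟨t3, ht3, e3⟩ := e x3 s3 hs3
  simp only [pull3_apply, e0, e1, e2, e3, h (f x0) (f x1) (f x2) (f x3) t0 ht0 t1 ht1 t2 ht2 t3 ht3]

lemma IsLevH1.prism1 (hf : LevMap 𝒩₁ 𝒩₂ f) (hg : LevMap 𝒩₁ 𝒩₂ g) {F : Γ₂ → Γ₂ → N}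
    (h : IsLevH1 𝒩₂ F) : IsLevH0 𝒩₁ (prism1 f g F) := by
  obtain ⟨M₂, hM₂, h⟩ := h
  obtain ⟨Mf, hMf, ef⟩ := hf M₂ hM₂
  obtain ⟨Mg, hMg, eg⟩ := hg M₂ hM₂
  obtain ⟨M₁, hM₁, hle⟩ := 𝒩₁.directed Mf hMf Mg hMg
  refine ⟨M₁, hM₁, fun x0 s0 hs0 => ?_⟩
  obtain ⟨tf0, htf0, ef0⟩ := ef x0 s0 (hle hs0).1
  obtain ⟨tg0, htg0, eg0⟩ := eg x0 s0 (hle hs0).2
  simp only [prism1_apply, ef0, eg0, h (f x0) (g x0) tf0 htf0 tg0 htg0]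
lemma IsLevH2.prism2 (hf : LevMap 𝒩₁ 𝒩₂ f) (hg : LevMap 𝒩₁ 𝒩₂ g) {F : Γ₂ → Γ₂ → Γ₂ → N}
    (h : IsLevH2 𝒩₂ F) : IsLevH1 𝒩₁ (prism2 f g F) := by
  obtain ⟨M₂, hM₂, h⟩ := h
  obtain ⟨Mf, hMf, ef⟩ := hf M₂ hM₂
  obtain ⟨Mg, hMg, eg⟩ := hg M₂ hM₂
  obtain ⟨M₁, hM₁, hle⟩ := 𝒩₁.directed Mf hMf Mg hMg
  refine ⟨M₁, hM₁, fun x0 x1 s0 hs0 s1 hs1 => ?_⟩
  obtain ⟨tf0, htf0, ef0⟩ := ef x0 s0 (hle hs0).1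
  obtain ⟨tg0, htg0, eg0⟩ := eg x0 s0 (hle hs0).2
  obtain ⟨tf1, htf1, ef1⟩ := ef x1 s1 (hle hs1).1
  obtain ⟨tg1, htg1, eg1⟩ := eg x1 s1 (hle hs1).2
  simp only [prism2_apply, ef0, eg0, ef1, eg1, h (f x0) (g x0) (g x1) tf0 htf0 tg0 htg0 tg1 htg1, h (f x0) (f x1) (g x1) tf0 htf0 tf1 htf1 tg1 htg1]
lemma IsLevH3.prism3 (hf : LevMap 𝒩₁ 𝒩₂ f) (hg : LevMap 𝒩₁ 𝒩₂ g)
    {F : Γ₂ → Γ₂ → Γ₂ → Γ₂ → N} (h : IsLevH3 𝒩₂ F) : IsLevH2 𝒩₁ (prism3 f g F) := by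
  obtain ⟨M₂, hM₂, h⟩ := h
  obtain ⟨Mf, hMf, ef⟩ := hf M₂ hM₂
  obtain ⟨Mg, hMg, eg⟩ := hg M₂ hM₂
  obtain ⟨M₁, hM₁, hle⟩ := 𝒩₁.directed Mf hMf Mg hMg
  refine ⟨M₁, hM₁, fun x0 x1 x2 s0 hs0 s1 hs1 s2 hs2 => ?_⟩
  obtain ⟨tf0, htf0, ef0⟩ := ef x0 s0 (hle hs0).1
  obtain ⟨tg0, htg0, eg0⟩ := eg x0 s0 (hle hs0).2
  obtain ⟨tf1, htf1, ef1⟩ := ef x1 s1 (hle hs1).1
  obtain ⟨tg1, htg1, eg1⟩ := eg x1 s1 (hle hs1).2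
  obtain ⟨tf2, htf2, ef2⟩ := ef x2 s2 (hle hs2).1
  obtain ⟨tg2, htg2, eg2⟩ := eg x2 s2 (hle hs2).2
  simp only [prism3_apply, ef0, eg0, ef1, eg1, ef2, eg2, h (f x0) (g x0) (g x1) (g x2) tf0 htf0 tg0 htg0 tg1 htg1 tg2 htg2, h (f x0) (f x1) (g x1) (g x2) tf0 htf0 tf1 htf1 tg1 htg1 tg2 htg2, h (f x0) (f x1) (f x2) (g x2) tf0 htf0 tf1 htf1 tf2 htf2 tg2 htg2]

lemma EqvMap₂.refl_left (hfg : EqvMap₂ H₁ H₂ f g) : EqvMap H₁ H₂ f :=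
  fun u hu => by
    obtain ⟨u', hu', h⟩ := hfg u hu
    exact ⟨u', hu', fun x => ⟨(h x).1, (h x).1⟩⟩

lemma EqvMap₂.refl_right (hfg : EqvMap₂ H₁ H₂ f g) : EqvMap H₁ H₂ g :=
  fun u hu => by
    obtain ⟨u', hu', h⟩ := hfg u hu
    exact ⟨u', hu', fun x => ⟨(h x).2, (h x).2⟩⟩

end Maps

/-! ### Cup products (values in a commutative ring) -/

section Cups

variable {Γ : Type} [Group Γ] {k : Type} [CommRing k] {H : Subgroup Γ} {𝒩 : Levels Γ}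

lemma IsInv0.cup01 {F : Γ → k} {F' : Γ → Γ → k} (h : IsInv0 H F) (h' : IsInv1 H F') :
    IsInv1 H (cup01 (AddMonoidHom.mul (R := k)) F F') := by
  intro u hu x0 x1
  simp only [cup01_apply, AddMonoidHom.mul_apply, h u hu x0, h' u hu x0 x1]
lemma IsInv1.cup10 {F : Γ → Γ → k} {F' : Γ → k} (h : IsInv1 H F) (h' : IsInv0 H F') :
    IsInv1 H (cup10 (AddMonoidHom.mul (R := k)) F F') := by
  intro u hu x0 x1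
  simp only [cup10_apply, AddMonoidHom.mul_apply, h u hu x0 x1, h' u hu x1]
lemma IsInv0.cup02 {F : Γ → k} {F' : Γ → Γ → Γ → k} (h : IsInv0 H F) (h' : IsInv2 H F') :
    IsInv2 H (cup02 (AddMonoidHom.mul (R := k)) F F') := by
  intro u hu x0 x1 x2
  simp only [cup02_apply, AddMonoidHom.mul_apply, h u hu x0, h' u hu x0 x1 x2]
lemma IsInv1.cup11 {F : Γ → Γ → k} {F' : Γ → Γ → k} (h : IsInv1 H F) (h' : IsInv1 H F') :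
    IsInv2 H (cup11 (AddMonoidHom.mul (R := k)) F F') := by
  intro u hu x0 x1 x2
  simp only [cup11_apply, AddMonoidHom.mul_apply, h u hu x0 x1, h' u hu x1 x2]
lemma IsInv2.cup20 {F : Γ → Γ → Γ → k} {F' : Γ → k} (h : IsInv2 H F) (h' : IsInv0 H F') :
    IsInv2 H (cup20 (AddMonoidHom.mul (R := k)) F F') := by
  intro u hu x0 x1 x2
  simp only [cup20_apply, AddMonoidHom.mul_apply, h u hu x0 x1 x2, h' u hu x2]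
lemma IsLevH0.cup01 {F : Γ → k} {F' : Γ → Γ → k} (h : IsLevH0 𝒩 F) (h' : IsLevH1 𝒩 F') :
    IsLevH1 𝒩 (cup01 (AddMonoidHom.mul (R := k)) F F') := by
  obtain ⟨M, hM, h⟩ := h
  obtain ⟨M', hM', h'⟩ := h'
  obtain ⟨M'', hM'', hle⟩ := 𝒩.directed M hM M' hM'
  refine ⟨M'', hM'', fun x0 x1 s0 hs0 s1 hs1 => ?_⟩
  simp only [cup01_apply, AddMonoidHom.mul_apply, h x0 s0 (hle hs0).1, h' x0 x1 s0 (hle hs0).2 s1 (hle hs1).2]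
lemma IsLevH1.cup10 {F : Γ → Γ → k} {F' : Γ → k} (h : IsLevH1 𝒩 F) (h' : IsLevH0 𝒩 F') :
    IsLevH1 𝒩 (cup10 (AddMonoidHom.mul (R := k)) F F') := by
  obtain ⟨M, hM, h⟩ := h
  obtain ⟨M', hM', h'⟩ := h'
  obtain ⟨M'', hM'', hle⟩ := 𝒩.directed M hM M' hM'
  refine ⟨M'', hM'', fun x0 x1 s0 hs0 s1 hs1 => ?_⟩
  simp only [cup10_apply, AddMonoidHom.mul_apply, h x0 x1 s0 (hle hs0).1 s1 (hle hs1).1, h' x1 s1 (hle hs1).2]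
lemma IsLevH0.cup02 {F : Γ → k} {F' : Γ → Γ → Γ → k} (h : IsLevH0 𝒩 F) (h' : IsLevH2 𝒩 F') :
    IsLevH2 𝒩 (cup02 (AddMonoidHom.mul (R := k)) F F') := by
  obtain ⟨M, hM, h⟩ := h
  obtain ⟨M', hM', h'⟩ := h'
  obtain ⟨M'', hM'', hle⟩ := 𝒩.directed M hM M' hM'
  refine ⟨M'', hM'', fun x0 x1 x2 s0 hs0 s1 hs1 s2 hs2 => ?_⟩
  simp only [cup02_apply, AddMonoidHom.mul_apply, h x0 s0 (hle hs0).1, h' x0 x1 x2 s0 (hle hs0).2 s1 (hle hs1).2 s2 (hle hs2).2]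
lemma IsLevH1.cup11 {F : Γ → Γ → k} {F' : Γ → Γ → k} (h : IsLevH1 𝒩 F) (h' : IsLevH1 𝒩 F') :
    IsLevH2 𝒩 (cup11 (AddMonoidHom.mul (R := k)) F F') := by
  obtain ⟨M, hM, h⟩ := h
  obtain ⟨M', hM', h'⟩ := h'
  obtain ⟨M'', hM'', hle⟩ := 𝒩.directed M hM M' hM'
  refine ⟨M'', hM'', fun x0 x1 x2 s0 hs0 s1 hs1 s2 hs2 => ?_⟩
  simp only [cup11_apply, AddMonoidHom.mul_apply, h x0 x1 s0 (hle hs0).1 s1 (hle hs1).1, h' x1 x2 s1 (hle hs1).2 s2 (hle hs2).2]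
lemma IsLevH2.cup20 {F : Γ → Γ → Γ → k} {F' : Γ → k} (h : IsLevH2 𝒩 F) (h' : IsLevH0 𝒩 F') :
    IsLevH2 𝒩 (cup20 (AddMonoidHom.mul (R := k)) F F') := by
  obtain ⟨M, hM, h⟩ := h
  obtain ⟨M', hM', h'⟩ := h'
  obtain ⟨M'', hM'', hle⟩ := 𝒩.directed M hM M' hM'
  refine ⟨M'', hM'', fun x0 x1 x2 s0 hs0 s1 hs1 s2 hs2 => ?_⟩
  simp only [cup20_apply, AddMonoidHom.mul_apply, h x0 x1 x2 s0 (hle hs0).1 s1 (hle hs1).1 s2 (hle hs2).1, h' x2 s2 (hle hs2).2]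

end Cups

end Fermat.Agent.S55.helper35
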