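import Mathlib
import Fermat.Agent.S55.helper35_Cup

/-!
# S55 / SH (helper35): homogeneous cones

Purely combinatorial: a homogeneous cone datum `HDat I` consists of a "global" set `X`, "local"
sets `Y w` (`w : I`) and localisation maps `a w : Y w → X`.  Cone cochains of degree `n` are pairs
`(F, Φ)` of a homogeneous `n`-cochain on `X` and homogeneous `(n-1)`-cochains on the `Y w`, with
differential `(F, Φ) ↦ (d F, a^* F - d Φ)`.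

We provide: normalised prisms, strict pull-backs, shears (change of the localisation maps), the
deformation lemmas (local and global) and cup products with global cochains.
-/

set_option linter.unusedSectionVars false
set_option linter.unusedSimpArgs false
set_option autoImplicit false

namespace Fermat.Agent.S55.helper35

/-! ### Normalised prisms -/

section PrismN

variable {X Y Z N : Type*} [AddCommGroup N]

/-- normalised prism `C¹(Y) → C⁰(X)` -/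
def prismN1 (ρ₀ ρ₁ : X → Y) (F : Y → Y → N) : X → N :=
  prism1 ρ₀ ρ₁ F - prism1 ρ₁ ρ₁ F
/-- normalised prism `C²(Y) → C¹(X)` -/
def prismN2 (ρ₀ ρ₁ : X → Y) (F : Y → Y → Y → N) : X → X → N :=
  prism2 ρ₀ ρ₁ F - prism2 ρ₁ ρ₁ F
/-- normalised prism `C³(Y) → C²(X)` -/
def prismN3 (ρ₀ ρ₁ : X → Y) (F : Y → Y → Y → Y → N) : X → X → X → N :=
  prism3 ρ₀ ρ₁ F - prism3 ρ₁ ρ₁ F
/-- normalised prism `C⁴(Y) → C³(X)` -/
def prismN4 (ρ₀ ρ₁ : X → Y) (F : Y → Y → Y → Y → Y → N) : X → X → X → X → N :=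
  prism4 ρ₀ ρ₁ F - prism4 ρ₁ ρ₁ F

@[simp] lemma prismN1_self (ρ : X → Y) (F : Y → Y → N) : prismN1 ρ ρ F = 0 := sub_self _
@[simp] lemma prismN2_self (ρ : X → Y) (F : Y → Y → Y → N) : prismN2 ρ ρ F = 0 := sub_self _
@[simp] lemma prismN3_self (ρ : X → Y) (F : Y → Y → Y → Y → N) : prismN3 ρ ρ F = 0 := sub_self _

lemma prismN1_pull1 (ρ₀ ρ₁ : X → Y) (σ : Y → Z) (F : Z → Z → N) :
    prismN1 ρ₀ ρ₁ (pull1 σ F) = prismN1 (σ ∘ ρ₀) (σ ∘ ρ₁) F := rfl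
lemma prismN2_pull2 (ρ₀ ρ₁ : X → Y) (σ : Y → Z) (F : Z → Z → Z → N) :
    prismN2 ρ₀ ρ₁ (pull2 σ F) = prismN2 (σ ∘ ρ₀) (σ ∘ ρ₁) F := rfl
lemma prismN3_pull3 (ρ₀ ρ₁ : X → Y) (σ : Y → Z) (F : Z → Z → Z → Z → N) :
    prismN3 ρ₀ ρ₁ (pull3 σ F) = prismN3 (σ ∘ ρ₀) (σ ∘ ρ₁) F := rfl

lemma pull0_prismN1 (σ : X → Y) (ρ₀ ρ₁ : Y → Z) (F : Z → Z → N) :
    pull0 σ (prismN1 ρ₀ ρ₁ F) = prismN1 (ρ₀ ∘ σ) (ρ₁ ∘ σ) F := rfl
lemma pull1_prismN2 (σ : X → Y) (ρ₀ ρ₁ : Y → Z) (F : Z → Z → Z → N) :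
    pull1 σ (prismN2 ρ₀ ρ₁ F) = prismN2 (ρ₀ ∘ σ) (ρ₁ ∘ σ) F := rfl
lemma pull2_prismN3 (σ : X → Y) (ρ₀ ρ₁ : Y → Z) (F : Z → Z → Z → Z → N) :
    pull2 σ (prismN3 ρ₀ ρ₁ F) = prismN3 (ρ₀ ∘ σ) (ρ₁ ∘ σ) F := rfl

theorem prismN1_hd0 (ρ₀ ρ₁ : X → Y) (F : Y → N) :
    prismN1 ρ₀ ρ₁ (hd0 F) = pull0 ρ₁ F - pull0 ρ₀ F := by
  funext x₀
  simp only [prismN1, Pi.sub_apply, prism1_apply, hd0_apply, pull0_apply]
  abel

theorem hd0_prismN1_add (ρ₀ ρ₁ : X → Y) (F : Y → Y → N) :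
    hd0 (prismN1 ρ₀ ρ₁ F) + prismN2 ρ₀ ρ₁ (hd1 F) = pull1 ρ₁ F - pull1 ρ₀ F := by
  have h1 := hd0_prism1_add ρ₀ ρ₁ F
  have h2 := hd0_prism1_add ρ₁ ρ₁ F
  rw [sub_self] at h2
  rw [prismN1, prismN2, hd0_sub, ← h1]
  have h3 : hd0 (prism1 ρ₁ ρ₁ F) = - prism2 ρ₁ ρ₁ (hd1 F) := eq_neg_of_add_eq_zero_left h2
  rw [h3]
  abel

theorem hd1_prismN2_add (ρ₀ ρ₁ : X → Y) (F : Y → Y → Y → N) :
    hd1 (prismN2 ρ₀ ρ₁ F) + prismN3 ρ₀ ρ₁ (hd2 F) = pull2 ρ₁ F - pull2 ρ₀ F := by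
  have h1 := hd1_prism2_add ρ₀ ρ₁ F
  have h2 := hd1_prism2_add ρ₁ ρ₁ F
  rw [sub_self] at h2
  rw [prismN2, prismN3, hd1_sub, ← h1]
  have h3 : hd1 (prism2 ρ₁ ρ₁ F) = - prism3 ρ₁ ρ₁ (hd2 F) := eq_neg_of_add_eq_zero_left h2
  rw [h3]
  abel

theorem hd2_prismN3_add (ρ₀ ρ₁ : X → Y) (F : Y → Y → Y → Y → N) :
    hd2 (prismN3 ρ₀ ρ₁ F) + prismN4 ρ₀ ρ₁ (hd3 F) = pull3 ρ₁ F - pull3 ρ₀ F := by
  have h1 := hd2_prism3_add ρ₀ ρ₁ F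
  have h2 := hd2_prism3_add ρ₁ ρ₁ F
  rw [sub_self] at h2
  rw [prismN3, prismN4, hd2_sub, ← h1]
  have h3 : hd2 (prism3 ρ₁ ρ₁ F) = - prism4 ρ₁ ρ₁ (hd3 F) := eq_neg_of_add_eq_zero_left h2
  rw [h3]
  abel

lemma prismN2_zero (ρ₀ ρ₁ : X → Y) : prismN2 ρ₀ ρ₁ (0 : Y → Y → Y → N) = 0 := by
  funext x₀ x₁; simp [prismN2]
lemma prismN3_zero (ρ₀ ρ₁ : X → Y) : prismN3 ρ₀ ρ₁ (0 : Y → Y → Y → Y → N) = 0 := by
  funext x₀ x₁ x₂; simp [prismN3]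
lemma prismN4_zero (ρ₀ ρ₁ : X → Y) : prismN4 ρ₀ ρ₁ (0 : Y → Y → Y → Y → Y → N) = 0 := by
  funext x₀ x₁ x₂ x₃; simp [prismN4]

/-- a `1`-cocycle and its pull-back along `ρ₀` -/
theorem sub_pull1_of_cocycle (ρ₀ : X → X) (F : X → X → N) (hF : hd1 F = 0) :
    F - pull1 ρ₀ F = hd0 (prismN1 ρ₀ id F) := by
  have h := hd0_prismN1_add ρ₀ id F
  rw [hF, prismN2_zero, add_zero, pull1_id] at h
  exact h.symm

theorem sub_pull2_of_cocycle (ρ₀ : X → X) (F : X → X → X → N) (hF : hd2 F = 0) :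
    F - pull2 ρ₀ F = hd1 (prismN2 ρ₀ id F) := by
  have h := hd1_prismN2_add ρ₀ id F
  rw [hF, prismN3_zero, add_zero, pull2_id] at h
  exact h.symm

theorem sub_pull3_of_cocycle (ρ₀ : X → X) (F : X → X → X → X → N) (hF : hd3 F = 0) :
    F - pull3 ρ₀ F = hd2 (prismN3 ρ₀ id F) := by
  have h := hd2_prismN3_add ρ₀ id F
  rw [hF, prismN4_zero, add_zero, pull3_id] at h
  exact h.symm

end PrismN

/-! ### Cone data -/

/-- A homogeneous cone datum. -/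
structure HDat (I : Type) where
  /-- the global set -/
  X : Type
  /-- the local sets -/
  Y : I → Type
  /-- the localisation maps -/
  a : ∀ w, Y w → X

namespace HDat

variable {I : Type} (𝔇 : HDat I) (N : Type) [AddCommGroup N]

/-- cone `1`-cochains -/
abbrev K1 : Type := (𝔇.X → 𝔇.X → N) × (∀ w, 𝔇.Y w → N)
/-- cone `2`-cochains -/
abbrev K2 : Type := (𝔇.X → 𝔇.X → 𝔇.X → N) × (∀ w, 𝔇.Y w → 𝔇.Y w → N)
/-- cone `3`-cochains -/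
abbrev K3 : Type := (𝔇.X → 𝔇.X → 𝔇.X → 𝔇.X → N) × (∀ w, 𝔇.Y w → 𝔇.Y w → 𝔇.Y w → N)
/-- cone `4`-cochains -/
abbrev K4 : Type :=
  (𝔇.X → 𝔇.X → 𝔇.X → 𝔇.X → 𝔇.X → N) × (∀ w, 𝔇.Y w → 𝔇.Y w → 𝔇.Y w → 𝔇.Y w → N)

variable {N}

/-- cone differential in degree `0` -/
def hdc0 (F : 𝔇.X → N) : 𝔇.K1 N := (hd0 F, fun w => pull0 (𝔇.a w) F)
/-- cone differential in degree `1` -/
def hdc1 (z : 𝔇.K1 N) : 𝔇.K2 N := (hd1 z.1, fun w => pull1 (𝔇.a w) z.1 - hd0 (z.2 w))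
/-- cone differential in degree `2` -/
def hdc2 (z : 𝔇.K2 N) : 𝔇.K3 N := (hd2 z.1, fun w => pull2 (𝔇.a w) z.1 - hd1 (z.2 w))
/-- cone differential in degree `3` -/
def hdc3 (z : 𝔇.K3 N) : 𝔇.K4 N := (hd3 z.1, fun w => pull3 (𝔇.a w) z.1 - hd2 (z.2 w))

@[simp] lemma hdc0_fst (F : 𝔇.X → N) : (𝔇.hdc0 F).1 = hd0 F := rfl
@[simp] lemma hdc0_snd (F : 𝔇.X → N) (w : I) : (𝔇.hdc0 F).2 w = pull0 (𝔇.a w) F := rfl
@[simp] lemma hdc1_fst (z : 𝔇.K1 N) : (𝔇.hdc1 z).1 = hd1 z.1 := rfl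
@[simp] lemma hdc1_snd (z : 𝔇.K1 N) (w : I) :
    (𝔇.hdc1 z).2 w = pull1 (𝔇.a w) z.1 - hd0 (z.2 w) := rfl
@[simp] lemma hdc2_fst (z : 𝔇.K2 N) : (𝔇.hdc2 z).1 = hd2 z.1 := rfl
@[simp] lemma hdc2_snd (z : 𝔇.K2 N) (w : I) :
    (𝔇.hdc2 z).2 w = pull2 (𝔇.a w) z.1 - hd1 (z.2 w) := rfl
@[simp] lemma hdc3_fst (z : 𝔇.K3 N) : (𝔇.hdc3 z).1 = hd3 z.1 := rfl
@[simp] lemma hdc3_snd (z : 𝔇.K3 N) (w : I) :
    (𝔇.hdc3 z).2 w = pull3 (𝔇.a w) z.1 - hd2 (z.2 w) := rfl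

lemma hdc1_hdc0 (F : 𝔇.X → N) : 𝔇.hdc1 (𝔇.hdc0 F) = 0 := by
  refine Prod.ext (hd1_hd0 F) ?_
  funext w
  simp only [hdc1_snd, hdc0_fst, hdc0_snd, ← hd0_pull0, sub_self]
  rfl

lemma hdc2_hdc1 (z : 𝔇.K1 N) : 𝔇.hdc2 (𝔇.hdc1 z) = 0 := by
  refine Prod.ext (hd2_hd1 z.1) ?_
  funext w
  simp only [hdc2_snd, hdc1_fst, hdc1_snd, ← hd1_pull1, hd1_sub, hd1_hd0, sub_zero, sub_self]
  rfl

lemma hdc3_hdc2 (z : 𝔇.K2 N) : 𝔇.hdc3 (𝔇.hdc2 z) = 0 := by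
  refine Prod.ext (hd3_hd2 z.1) ?_
  funext w
  simp only [hdc3_snd, hdc2_fst, hdc2_snd, ← hd2_pull2, hd2_sub, hd2_hd1, sub_zero, sub_self]
  rfl

lemma hdc1_add (z z' : 𝔇.K1 N) : 𝔇.hdc1 (z + z') = 𝔇.hdc1 z + 𝔇.hdc1 z' := by
  refine Prod.ext (hd1_add z.1 z'.1) ?_
  funext w x₀ x₁
  simp only [hdc1_snd, Prod.fst_add, Prod.snd_add, Pi.add_apply, Pi.sub_apply, pull1_apply,
    hd0_apply]
  abel

lemma hdc2_add (z z' : 𝔇.K2 N) : 𝔇.hdc2 (z + z') = 𝔇.hdc2 z + 𝔇.hdc2 z' := by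
  refine Prod.ext (hd2_add z.1 z'.1) ?_
  funext w x₀ x₁ x₂
  simp only [hdc2_snd, Prod.fst_add, Prod.snd_add, Pi.add_apply, Pi.sub_apply, pull2_apply,
    hd1_apply]
  abel

lemma hdc3_add (z z' : 𝔇.K3 N) : 𝔇.hdc3 (z + z') = 𝔇.hdc3 z + 𝔇.hdc3 z' := by
  refine Prod.ext (hd3_add z.1 z'.1) ?_
  funext w x₀ x₁ x₂ x₃
  simp only [hdc3_snd, Prod.fst_add, Prod.snd_add, Pi.add_apply, Pi.sub_apply, pull3_apply,
    hd2_apply]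
  abel

lemma hdc1_sub (z z' : 𝔇.K1 N) : 𝔇.hdc1 (z - z') = 𝔇.hdc1 z - 𝔇.hdc1 z' := by
  refine Prod.ext (hd1_sub z.1 z'.1) ?_
  funext w x₀ x₁
  simp only [hdc1_snd, Prod.fst_sub, Prod.snd_sub, Pi.sub_apply, pull1_apply, hd0_apply]
  abel

lemma hdc2_sub (z z' : 𝔇.K2 N) : 𝔇.hdc2 (z - z') = 𝔇.hdc2 z - 𝔇.hdc2 z' := by
  refine Prod.ext (hd2_sub z.1 z'.1) ?_
  funext w x₀ x₁ x₂
  simp only [hdc2_snd, Prod.fst_sub, Prod.snd_sub, Pi.sub_apply, pull2_apply, hd1_apply]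
  abel

lemma hdc3_sub (z z' : 𝔇.K3 N) : 𝔇.hdc3 (z - z') = 𝔇.hdc3 z - 𝔇.hdc3 z' := by
  refine Prod.ext (hd3_sub z.1 z'.1) ?_
  funext w x₀ x₁ x₂ x₃
  simp only [hdc3_snd, Prod.fst_sub, Prod.snd_sub, Pi.sub_apply, pull3_apply, hd2_apply]
  abel


/-! ### Strict pull-backs -/

section Pull

variable {𝔇} {𝔈 : HDat I} (f : 𝔇.X → 𝔈.X) (fw : ∀ w, 𝔇.Y w → 𝔈.Y w)

/-- pull-back of cone `1`-cochains -/
def pullC1 (z : 𝔈.K1 N) : 𝔇.K1 N := (pull1 f z.1, fun w => pull0 (fw w) (z.2 w))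
/-- pull-back of cone `2`-cochains -/
def pullC2 (z : 𝔈.K2 N) : 𝔇.K2 N := (pull2 f z.1, fun w => pull1 (fw w) (z.2 w))
/-- pull-back of cone `3`-cochains -/
def pullC3 (z : 𝔈.K3 N) : 𝔇.K3 N := (pull3 f z.1, fun w => pull2 (fw w) (z.2 w))
/-- pull-back of cone `4`-cochains -/
def pullC4 (z : 𝔈.K4 N) : 𝔇.K4 N := (pull4 f z.1, fun w => pull3 (fw w) (z.2 w))

@[simp] lemma pullC1_fst (z : 𝔈.K1 N) : (pullC1 f fw z).1 = pull1 f z.1 := rfl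
@[simp] lemma pullC1_snd (z : 𝔈.K1 N) (w : I) : (pullC1 f fw z).2 w = pull0 (fw w) (z.2 w) := rfl
@[simp] lemma pullC2_fst (z : 𝔈.K2 N) : (pullC2 f fw z).1 = pull2 f z.1 := rfl
@[simp] lemma pullC2_snd (z : 𝔈.K2 N) (w : I) : (pullC2 f fw z).2 w = pull1 (fw w) (z.2 w) := rfl
@[simp] lemma pullC3_fst (z : 𝔈.K3 N) : (pullC3 f fw z).1 = pull3 f z.1 := rfl
@[simp] lemma pullC3_snd (z : 𝔈.K3 N) (w : I) : (pullC3 f fw z).2 w = pull2 (fw w) (z.2 w) := rfl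
@[simp] lemma pullC4_fst (z : 𝔈.K4 N) : (pullC4 f fw z).1 = pull4 f z.1 := rfl
@[simp] lemma pullC4_snd (z : 𝔈.K4 N) (w : I) : (pullC4 f fw z).2 w = pull3 (fw w) (z.2 w) := rfl

variable (hf : ∀ w y, 𝔈.a w (fw w y) = f (𝔇.a w y))
include hf

lemma hdc0_pull0 (F : 𝔈.X → N) : 𝔇.hdc0 (pull0 f F) = pullC1 f fw (𝔈.hdc0 F) := by
  refine Prod.ext rfl ?_
  funext w y
  simp only [hdc0_snd, pullC1_snd, pull0_apply, hf]

lemma hdc1_pullC1 (z : 𝔈.K1 N) : 𝔇.hdc1 (pullC1 f fw z) = pullC2 f fw (𝔈.hdc1 z) := by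
  refine Prod.ext rfl ?_
  funext w y₀ y₁
  simp only [hdc1_snd, pullC1_fst, pullC1_snd, pullC2_snd, pull1_apply, pull0_apply,
    Pi.sub_apply, hd0_apply, hf]

lemma hdc2_pullC2 (z : 𝔈.K2 N) : 𝔇.hdc2 (pullC2 f fw z) = pullC3 f fw (𝔈.hdc2 z) := by
  refine Prod.ext rfl ?_
  funext w y₀ y₁ y₂
  simp only [hdc2_snd, pullC2_fst, pullC2_snd, pullC3_snd, pull2_apply, pull1_apply,
    Pi.sub_apply, hd1_apply, hf]

lemma hdc3_pullC3 (z : 𝔈.K3 N) : 𝔇.hdc3 (pullC3 f fw z) = pullC4 f fw (𝔈.hdc3 z) := by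
  refine Prod.ext rfl ?_
  funext w y₀ y₁ y₂ y₃
  simp only [hdc3_snd, pullC3_fst, pullC3_snd, pullC4_snd, pull3_apply, pull2_apply,
    Pi.sub_apply, hd2_apply, hf]

end Pull

/-! ### Shears: change of the localisation maps -/

section Shear

variable (a' : ∀ w, 𝔇.Y w → 𝔇.X)

/-- the same cone datum with other localisation maps -/
abbrev withMaps : HDat I := ⟨𝔇.X, 𝔇.Y, a'⟩

/-- shear of cone `1`-cochains: `(F, Φ) ↦ (F, Φ + prism(a, a') F)` -/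
def shear1 (z : 𝔇.K1 N) : (𝔇.withMaps a').K1 N :=
  (z.1, fun w => z.2 w + prism1 (𝔇.a w) (a' w) z.1)
/-- shear of cone `2`-cochains -/
def shear2 (z : 𝔇.K2 N) : (𝔇.withMaps a').K2 N :=
  (z.1, fun w => z.2 w + prism2 (𝔇.a w) (a' w) z.1)
/-- shear of cone `3`-cochains -/
def shear3 (z : 𝔇.K3 N) : (𝔇.withMaps a').K3 N :=
  (z.1, fun w => z.2 w + prism3 (𝔇.a w) (a' w) z.1)
/-- shear of cone `4`-cochains -/
def shear4 (z : 𝔇.K4 N) : (𝔇.withMaps a').K4 N :=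
  (z.1, fun w => z.2 w + prism4 (𝔇.a w) (a' w) z.1)

/-- inverse shear of cone `1`-cochains -/
def unshear1 (z : (𝔇.withMaps a').K1 N) : 𝔇.K1 N :=
  (z.1, fun w => z.2 w - prism1 (𝔇.a w) (a' w) z.1)
/-- inverse shear of cone `2`-cochains -/
def unshear2 (z : (𝔇.withMaps a').K2 N) : 𝔇.K2 N :=
  (z.1, fun w => z.2 w - prism2 (𝔇.a w) (a' w) z.1)
/-- inverse shear of cone `3`-cochains -/
def unshear3 (z : (𝔇.withMaps a').K3 N) : 𝔇.K3 N :=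
  (z.1, fun w => z.2 w - prism3 (𝔇.a w) (a' w) z.1)
/-- inverse shear of cone `4`-cochains -/
def unshear4 (z : (𝔇.withMaps a').K4 N) : 𝔇.K4 N :=
  (z.1, fun w => z.2 w - prism4 (𝔇.a w) (a' w) z.1)

lemma shear1_unshear1 (z : (𝔇.withMaps a').K1 N) : 𝔇.shear1 a' (𝔇.unshear1 a' z) = z := by
  refine Prod.ext rfl ?_
  funext w
  simp [shear1, unshear1]
lemma shear2_unshear2 (z : (𝔇.withMaps a').K2 N) : 𝔇.shear2 a' (𝔇.unshear2 a' z) = z := by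
  refine Prod.ext rfl ?_
  funext w
  simp [shear2, unshear2]
lemma shear3_unshear3 (z : (𝔇.withMaps a').K3 N) : 𝔇.shear3 a' (𝔇.unshear3 a' z) = z := by
  refine Prod.ext rfl ?_
  funext w
  simp [shear3, unshear3]

lemma hdc1_shear1 (z : 𝔇.K1 N) :
    (𝔇.withMaps a').hdc1 (𝔇.shear1 a' z) = 𝔇.shear2 a' (𝔇.hdc1 z) := by
  refine Prod.ext rfl ?_
  funext w
  have h := hd0_prism1_add (𝔇.a w) (a' w) z.1
  show pull1 (a' w) z.1 - hd0 (z.2 w + prism1 (𝔇.a w) (a' w) z.1) =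
    pull1 (𝔇.a w) z.1 - hd0 (z.2 w) + prism2 (𝔇.a w) (a' w) (hd1 z.1)
  rw [hd0_add, eq_sub_iff_add_eq] at *
  rw [← h]
  abel

lemma hdc2_shear2 (z : 𝔇.K2 N) :
    (𝔇.withMaps a').hdc2 (𝔇.shear2 a' z) = 𝔇.shear3 a' (𝔇.hdc2 z) := by
  refine Prod.ext rfl ?_
  funext w
  have h := hd1_prism2_add (𝔇.a w) (a' w) z.1
  show pull2 (a' w) z.1 - hd1 (z.2 w + prism2 (𝔇.a w) (a' w) z.1) =
    pull2 (𝔇.a w) z.1 - hd1 (z.2 w) + prism3 (𝔇.a w) (a' w) (hd2 z.1)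
  rw [hd1_add, eq_sub_iff_add_eq] at *
  rw [← h]
  abel

lemma hdc3_shear3 (z : 𝔇.K3 N) :
    (𝔇.withMaps a').hdc3 (𝔇.shear3 a' z) = 𝔇.shear4 a' (𝔇.hdc3 z) := by
  refine Prod.ext rfl ?_
  funext w
  have h := hd2_prism3_add (𝔇.a w) (a' w) z.1
  show pull3 (a' w) z.1 - hd2 (z.2 w + prism3 (𝔇.a w) (a' w) z.1) =
    pull3 (𝔇.a w) z.1 - hd2 (z.2 w) + prism4 (𝔇.a w) (a' w) (hd3 z.1)
  rw [hd2_add, eq_sub_iff_add_eq] at *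
  rw [← h]
  abel

lemma hdc1_unshear1 (z : (𝔇.withMaps a').K1 N) :
    𝔇.hdc1 (𝔇.unshear1 a' z) = 𝔇.unshear2 a' ((𝔇.withMaps a').hdc1 z) := by
  refine Prod.ext rfl ?_
  funext w
  have h := hd0_prism1_add (𝔇.a w) (a' w) z.1
  show pull1 (𝔇.a w) z.1 - hd0 (z.2 w - prism1 (𝔇.a w) (a' w) z.1) =
    pull1 (a' w) z.1 - hd0 (z.2 w) - prism2 (𝔇.a w) (a' w) (hd1 z.1)
  rw [hd0_sub, eq_sub_iff_add_eq] at *
  rw [← h]
  abel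

lemma hdc2_unshear2 (z : (𝔇.withMaps a').K2 N) :
    𝔇.hdc2 (𝔇.unshear2 a' z) = 𝔇.unshear3 a' ((𝔇.withMaps a').hdc2 z) := by
  refine Prod.ext rfl ?_
  funext w
  have h := hd1_prism2_add (𝔇.a w) (a' w) z.1
  show pull2 (𝔇.a w) z.1 - hd1 (z.2 w - prism2 (𝔇.a w) (a' w) z.1) =
    pull2 (a' w) z.1 - hd1 (z.2 w) - prism3 (𝔇.a w) (a' w) (hd2 z.1)
  rw [hd1_sub, eq_sub_iff_add_eq] at *
  rw [← h]
  abel

lemma hdc3_unshear3 (z : (𝔇.withMaps a').K3 N) :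
    𝔇.hdc3 (𝔇.unshear3 a' z) = 𝔇.unshear4 a' ((𝔇.withMaps a').hdc3 z) := by
  refine Prod.ext rfl ?_
  funext w
  have h := hd2_prism3_add (𝔇.a w) (a' w) z.1
  show pull3 (𝔇.a w) z.1 - hd2 (z.2 w - prism3 (𝔇.a w) (a' w) z.1) =
    pull3 (a' w) z.1 - hd2 (z.2 w) - prism4 (𝔇.a w) (a' w) (hd3 z.1)
  rw [hd2_sub, eq_sub_iff_add_eq] at *
  rw [← h]
  abel

end Shear


/-! ### Deformation lemmas -/

section Deform

/-- global deformation of a cone `2`-cochain along `e : X → X` -/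
def defoG2 (e : 𝔇.X → 𝔇.X) (z : 𝔇.K2 N) : 𝔇.K2 N :=
  (pull2 e z.1, fun w => z.2 w - pull1 (𝔇.a w) (prism2 e id z.1))
/-- global deformation of a cone `3`-cochain along `e : X → X` -/
def defoG3 (e : 𝔇.X → 𝔇.X) (z : 𝔇.K3 N) : 𝔇.K3 N :=
  (pull3 e z.1, fun w => z.2 w - pull2 (𝔇.a w) (prism3 e id z.1))

/-- **Global deformation lemma**, degree `2`. -/
theorem sub_defoG2 (e : 𝔇.X → 𝔇.X) (z : 𝔇.K2 N) (hz : 𝔇.hdc2 z = 0) :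
    z - 𝔇.defoG2 e z = 𝔇.hdc1 (prism2 e id z.1, 0) := by
  have h1 : hd2 z.1 = 0 := congrArg Prod.fst hz
  refine Prod.ext ?_ ?_
  · have h := pull2_sub_pull2_of_cocycle e id z.1 h1
    rw [pull2_id] at h
    exact h
  · funext w
    show z.2 w - (z.2 w - pull1 (𝔇.a w) (prism2 e id z.1)) =
      pull1 (𝔇.a w) (prism2 e id z.1) - hd0 (0 : 𝔇.Y w → N)
    rw [hd0_zero]
    abel

/-- **Global deformation lemma**, degree `3`. -/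
theorem sub_defoG3 (e : 𝔇.X → 𝔇.X) (z : 𝔇.K3 N) (hz : 𝔇.hdc3 z = 0) :
    z - 𝔇.defoG3 e z = 𝔇.hdc2 (prism3 e id z.1, 0) := by
  have h1 : hd3 z.1 = 0 := congrArg Prod.fst hz
  refine Prod.ext ?_ ?_
  · have h := pull3_sub_pull3_of_cocycle e id z.1 h1
    rw [pull3_id] at h
    exact h
  · funext w
    show z.2 w - (z.2 w - pull2 (𝔇.a w) (prism3 e id z.1)) =
      pull2 (𝔇.a w) (prism3 e id z.1) - hd1 (0 : 𝔇.Y w → 𝔇.Y w → N)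
    rw [hd1_zero]
    abel

/-- the restricted deformation: a cone `2`-cochain of `⟨X', Y, ρ ∘ a⟩` -/
def defoR2 {X' : Type} (i : X' → 𝔇.X) (ρ : 𝔇.X → X') (z : 𝔇.K2 N) :
    (HDat.mk X' 𝔇.Y (fun w y => ρ (𝔇.a w y))).K2 N :=
  (pull2 i z.1, fun w => z.2 w - pull1 (𝔇.a w) (prism2 (i ∘ ρ) id z.1))
/-- the restricted deformation: a cone `3`-cochain of `⟨X', Y, ρ ∘ a⟩` -/
def defoR3 {X' : Type} (i : X' → 𝔇.X) (ρ : 𝔇.X → X') (z : 𝔇.K3 N) :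
    (HDat.mk X' 𝔇.Y (fun w y => ρ (𝔇.a w y))).K3 N :=
  (pull3 i z.1, fun w => z.2 w - pull2 (𝔇.a w) (prism3 (i ∘ ρ) id z.1))

lemma pullC2_defoR2 {X' : Type} (i : X' → 𝔇.X) (ρ : 𝔇.X → X') (z : 𝔇.K2 N) :
    pullC2 (𝔇 := 𝔇) (𝔈 := HDat.mk X' 𝔇.Y (fun w y => ρ (𝔇.a w y))) ρ (fun _ => id)
      (𝔇.defoR2 i ρ z) = 𝔇.defoG2 (i ∘ ρ) z := rfl

lemma pullC3_defoR3 {X' : Type} (i : X' → 𝔇.X) (ρ : 𝔇.X → X') (z : 𝔇.K3 N) :
    pullC3 (𝔇 := 𝔇) (𝔈 := HDat.mk X' 𝔇.Y (fun w y => ρ (𝔇.a w y))) ρ (fun _ => id)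
      (𝔇.defoR3 i ρ z) = 𝔇.defoG3 (i ∘ ρ) z := rfl

theorem hdc2_defoR2 {X' : Type} (i : X' → 𝔇.X) (ρ : 𝔇.X → X') (z : 𝔇.K2 N)
    (hz : 𝔇.hdc2 z = 0) :
    (HDat.mk X' 𝔇.Y (fun w y => ρ (𝔇.a w y))).hdc2 (𝔇.defoR2 i ρ z) = 0 := by
  have h1 : hd2 z.1 = 0 := congrArg Prod.fst hz
  have h2 : ∀ w, pull2 (𝔇.a w) z.1 - hd1 (z.2 w) = 0 := fun w => congrFun (congrArg Prod.snd hz) w
  refine Prod.ext ?_ ?_
  · show hd2 (pull2 i z.1) = 0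
    rw [hd2_pull2, h1]; rfl
  · funext w
    have h := pull2_sub_pull2_of_cocycle (i ∘ ρ) id z.1 h1
    rw [pull2_id] at h
    show pull2 (fun y => ρ (𝔇.a w y)) (pull2 i z.1)
      - hd1 (z.2 w - pull1 (𝔇.a w) (prism2 (i ∘ ρ) id z.1)) = 0
    rw [hd1_sub, hd1_pull1, ← h]
    have h3 : hd1 (z.2 w) = pull2 (𝔇.a w) z.1 := (sub_eq_zero.mp (h2 w)).symm
    rw [h3]
    funext y₀ y₁ y₂
    simp only [pull2_apply, Pi.sub_apply, Function.comp_apply, Pi.zero_apply]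
    abel

theorem hdc3_defoR3 {X' : Type} (i : X' → 𝔇.X) (ρ : 𝔇.X → X') (z : 𝔇.K3 N)
    (hz : 𝔇.hdc3 z = 0) :
    (HDat.mk X' 𝔇.Y (fun w y => ρ (𝔇.a w y))).hdc3 (𝔇.defoR3 i ρ z) = 0 := by
  have h1 : hd3 z.1 = 0 := congrArg Prod.fst hz
  have h2 : ∀ w, pull3 (𝔇.a w) z.1 - hd2 (z.2 w) = 0 := fun w => congrFun (congrArg Prod.snd hz) w
  refine Prod.ext ?_ ?_
  · show hd3 (pull3 i z.1) = 0
    rw [hd3_pull3, h1]; rfl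
  · funext w
    have h := pull3_sub_pull3_of_cocycle (i ∘ ρ) id z.1 h1
    rw [pull3_id] at h
    show pull3 (fun y => ρ (𝔇.a w y)) (pull3 i z.1)
      - hd2 (z.2 w - pull2 (𝔇.a w) (prism3 (i ∘ ρ) id z.1)) = 0
    rw [hd2_sub, hd2_pull2, ← h]
    have h3 : hd2 (z.2 w) = pull3 (𝔇.a w) z.1 := (sub_eq_zero.mp (h2 w)).symm
    rw [h3]
    funext y₀ y₁ y₂ y₃
    simp only [pull3_apply, Pi.sub_apply, Function.comp_apply, Pi.zero_apply]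
    abel

/-- **Local deformation lemma**, degree `2`: if `a ∘ e = a` then a cone cocycle and its pull-back
along `(id, e)` differ by the coboundary of `(0, - prismN (e, id) Φ)`. -/
theorem sub_pullC2_local (e : ∀ w, 𝔇.Y w → 𝔇.Y w) (he : ∀ w y, 𝔇.a w (e w y) = 𝔇.a w y)
    (z : 𝔇.K2 N) (hz : 𝔇.hdc2 z = 0) :
    z - pullC2 (𝔇 := 𝔇) (𝔈 := 𝔇) id e z = 𝔇.hdc1 (0, fun w => - prismN1 (e w) id (z.2 w)) := by
  have h2 : ∀ w, pull2 (𝔇.a w) z.1 - hd1 (z.2 w) = 0 := fun w => congrFun (congrArg Prod.snd hz) w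
  refine Prod.ext ?_ ?_
  · show z.1 - pull2 id z.1 = hd1 0
    rw [pull2_id, sub_self, hd1_zero]
  · funext w
    have h := hd0_prismN1_add (e w) id (z.2 w)
    have h3 : hd1 (z.2 w) = pull2 (𝔇.a w) z.1 := (sub_eq_zero.mp (h2 w)).symm
    have h4 : (𝔇.a w) ∘ (e w) = (𝔇.a w) ∘ id := funext fun y => he w y
    rw [h3, prismN2_pull2, h4, prismN2_self, add_zero, pull1_id] at h
    show z.2 w - pull1 (e w) (z.2 w) =
      pull1 (𝔇.a w) (0 : 𝔇.X → 𝔇.X → N) - hd0 (- prismN1 (e w) id (z.2 w))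
    rw [hd0_neg, h]
    funext y₀ y₁
    simp only [Pi.sub_apply, pull1_apply, Pi.zero_apply, Pi.neg_apply]
    abel

/-- **Local deformation lemma**, degree `3`. -/
theorem sub_pullC3_local (e : ∀ w, 𝔇.Y w → 𝔇.Y w) (he : ∀ w y, 𝔇.a w (e w y) = 𝔇.a w y)
    (z : 𝔇.K3 N) (hz : 𝔇.hdc3 z = 0) :
    z - pullC3 (𝔇 := 𝔇) (𝔈 := 𝔇) id e z = 𝔇.hdc2 (0, fun w => - prismN2 (e w) id (z.2 w)) := by
  have h2 : ∀ w, pull3 (𝔇.a w) z.1 - hd2 (z.2 w) = 0 := fun w => congrFun (congrArg Prod.snd hz) w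
  refine Prod.ext ?_ ?_
  · show z.1 - pull3 id z.1 = hd2 0
    rw [pull3_id, sub_self, hd2_zero]
  · funext w
    have h := hd1_prismN2_add (e w) id (z.2 w)
    have h3 : hd2 (z.2 w) = pull3 (𝔇.a w) z.1 := (sub_eq_zero.mp (h2 w)).symm
    have h4 : (𝔇.a w) ∘ (e w) = (𝔇.a w) ∘ id := funext fun y => he w y
    rw [h3, prismN3_pull3, h4, prismN3_self, add_zero, pull2_id] at h
    show z.2 w - pull2 (e w) (z.2 w) =
      pull2 (𝔇.a w) (0 : 𝔇.X → 𝔇.X → 𝔇.X → N) - hd1 (- prismN2 (e w) id (z.2 w))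
    rw [hd1_neg, h]
    funext y₀ y₁ y₂
    simp only [Pi.sub_apply, pull2_apply, Pi.zero_apply, Pi.neg_apply]
    abel

end Deform


/-! ### Cup products of a global cochain with a cone cochain -/

section CupC

variable {N₁ N₂ N₃ : Type} [AddCommGroup N₁] [AddCommGroup N₂] [AddCommGroup N₃]
  (B : N₁ →+ N₂ →+ N₃)

/-- `(i,j) = (0,2)` -/
def cupC02 (x : 𝔇.X → N₁) (z : 𝔇.K2 N₂) : 𝔇.K2 N₃ :=
  (cup02 B x z.1, fun w => cup01 B (pull0 (𝔇.a w) x) (z.2 w))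
/-- `(i,j) = (1,1)` -/
def cupC11 (x : 𝔇.X → 𝔇.X → N₁) (z : 𝔇.K1 N₂) : 𝔇.K2 N₃ :=
  (cup11 B x z.1, fun w => - cup10 B (pull1 (𝔇.a w) x) (z.2 w))
/-- `(i,j) = (0,3)` -/
def cupC03 (x : 𝔇.X → N₁) (z : 𝔇.K3 N₂) : 𝔇.K3 N₃ :=
  (cup03 B x z.1, fun w => cup02 B (pull0 (𝔇.a w) x) (z.2 w))
/-- `(i,j) = (1,2)` -/
def cupC12 (x : 𝔇.X → 𝔇.X → N₁) (z : 𝔇.K2 N₂) : 𝔇.K3 N₃ :=
  (cup12 B x z.1, fun w => - cup11 B (pull1 (𝔇.a w) x) (z.2 w))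
/-- `(i,j) = (2,1)` -/
def cupC21 (x : 𝔇.X → 𝔇.X → 𝔇.X → N₁) (z : 𝔇.K1 N₂) : 𝔇.K3 N₃ :=
  (cup21 B x z.1, fun w => cup20 B (pull2 (𝔇.a w) x) (z.2 w))

/-- Leibniz rule `(0,2)`. -/
theorem hdc2_cupC02 (x : 𝔇.X → N₁) (z : 𝔇.K2 N₂) :
    𝔇.hdc2 (𝔇.cupC02 B x z) = 𝔇.cupC12 B (hd0 x) z + 𝔇.cupC03 B x (𝔇.hdc2 z) := by
  refine Prod.ext (hd2_cup02 B x z.1) ?_
  funext w y₀ y₁ y₂
  simp only [hdc2_snd, cupC02, cupC12, cupC03, Prod.snd_add, Pi.add_apply, Pi.sub_apply,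
    Pi.neg_apply, pull2_apply, pull1_apply, pull0_apply, hd1_apply, hd0_apply, cup02_apply,
    cup01_apply, cup11_apply, map_sub, map_add, AddMonoidHom.sub_apply]
  abel

/-- Leibniz rule `(1,1)`. -/
theorem hdc2_cupC11 (x : 𝔇.X → 𝔇.X → N₁) (z : 𝔇.K1 N₂) :
    𝔇.hdc2 (𝔇.cupC11 B x z) = 𝔇.cupC21 B (hd1 x) z - 𝔇.cupC12 B x (𝔇.hdc1 z) := by
  refine Prod.ext (hd2_cup11 B x z.1) ?_
  funext w y₀ y₁ y₂
  simp only [hdc2_snd, hdc1_snd, hdc1_fst, cupC11, cupC12, cupC21, Prod.snd_sub, Pi.sub_apply,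
    Pi.neg_apply, pull2_apply, pull1_apply, pull0_apply, hd1_apply, hd0_apply, cup20_apply,
    cup10_apply, cup11_apply, map_sub, map_add, map_neg, AddMonoidHom.sub_apply,
    AddMonoidHom.add_apply]
  abel

/-- Cup product with the difference of a `1`-cocycle and its pull-back. -/
theorem cupC12_sub_pull (e : 𝔇.X → 𝔇.X) (x : 𝔇.X → 𝔇.X → N₁) (hx : hd1 x = 0)
    (z : 𝔇.K2 N₂) (hz : 𝔇.hdc2 z = 0) :
    𝔇.cupC12 B x z - 𝔇.cupC12 B (pull1 e x) z = 𝔇.hdc2 (𝔇.cupC02 B (prism1 e id x) z) := by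
  rw [hdc2_cupC02, hz]
  have h := pull1_sub_pull1_of_cocycle e id x hx
  rw [pull1_id] at h
  rw [← h]
  refine Prod.ext ?_ ?_
  · funext x₀ x₁ x₂ x₃
    simp only [cupC12, cupC03, Prod.fst_sub, Prod.fst_add, Prod.fst_zero, Pi.sub_apply,
      Pi.add_apply, cup12_apply, cup03_apply, Pi.zero_apply, map_zero, add_zero, map_sub,
      AddMonoidHom.sub_apply]
  · funext w y₀ y₁ y₂
    simp only [cupC12, cupC03, Prod.snd_sub, Prod.snd_add, Prod.snd_zero, Pi.sub_apply,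
      Pi.add_apply, Pi.neg_apply, cup11_apply, cup02_apply, pull1_apply, Pi.zero_apply, map_zero,
      add_zero, map_sub, AddMonoidHom.sub_apply]
    abel

/-- Cup product with the difference of a `2`-cocycle and its pull-back. -/
theorem cupC21_sub_pull (e : 𝔇.X → 𝔇.X) (x : 𝔇.X → 𝔇.X → 𝔇.X → N₁) (hx : hd2 x = 0)
    (z : 𝔇.K1 N₂) (hz : 𝔇.hdc1 z = 0) :
    𝔇.cupC21 B x z - 𝔇.cupC21 B (pull2 e x) z = 𝔇.hdc2 (𝔇.cupC11 B (prism2 e id x) z) := by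
  rw [hdc2_cupC11, hz]
  have h := pull2_sub_pull2_of_cocycle e id x hx
  rw [pull2_id] at h
  rw [← h]
  refine Prod.ext ?_ ?_
  · funext x₀ x₁ x₂ x₃
    simp only [cupC21, cupC12, Prod.fst_sub, Prod.fst_zero, Pi.sub_apply,
      cup21_apply, cup12_apply, Pi.zero_apply, map_zero, sub_zero, map_sub,
      AddMonoidHom.sub_apply]
  · funext w y₀ y₁ y₂
    simp only [cupC21, cupC12, Prod.snd_sub, Prod.snd_zero, Pi.sub_apply,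
      Pi.neg_apply, cup20_apply, cup11_apply, pull2_apply, Pi.zero_apply, map_zero,
      sub_zero, map_sub, AddMonoidHom.sub_apply, neg_zero]

/-- A `0`-cocycle is constant: cup product with it commutes with pull-back. -/
theorem cupC03_pull (e : 𝔇.X → 𝔇.X) (x : 𝔇.X → N₁) (hx : hd0 x = 0) (z : 𝔇.K3 N₂) :
    𝔇.cupC03 B (pull0 e x) z = 𝔇.cupC03 B x z := by
  have h : ∀ x₀ x₁, x x₁ = x x₀ := fun x₀ x₁ => by
    have := congrFun (congrFun hx x₀) x₁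
    simpa [sub_eq_zero] using this
  have h' : pull0 e x = x := funext fun x₀ => h _ _
  rw [h']

/-! ### Cup products and shears -/

variable (a' : ∀ w, 𝔇.Y w → 𝔇.X)

/-- `(0,3)`: strict compatibility with the shear. -/
theorem cupC03_shear3 (x : 𝔇.X → N₁) (hx : hd0 x = 0) (z : 𝔇.K3 N₂) :
    (𝔇.withMaps a').cupC03 B x (𝔇.shear3 a' z) = 𝔇.shear3 a' (𝔇.cupC03 B x z) := by
  have h : ∀ x₀ x₁, x x₁ = x x₀ := fun x₀ x₁ => by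
    have := congrFun (congrFun hx x₀) x₁
    simpa [sub_eq_zero] using this
  refine Prod.ext rfl ?_
  funext w y₀ y₁ y₂
  simp only [cupC03, shear3, Pi.add_apply, cup02_apply, cup03_apply, pull0_apply, prism3_apply,
    map_add, map_sub, h (𝔇.a w y₀) (a' w y₀)]

/-- `(1,2)`: compatibility with the shear up to a coboundary. -/
theorem cupC12_shear2 (x : 𝔇.X → 𝔇.X → N₁) (hx : hd1 x = 0) (z : 𝔇.K2 N₂)
    (hz : 𝔇.hdc2 z = 0) :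
    (𝔇.withMaps a').cupC12 B x (𝔇.shear2 a' z) - 𝔇.shear3 a' (𝔇.cupC12 B x z) =
      (𝔇.withMaps a').hdc2 (0, fun w =>
        cup01 B (prism1 (𝔇.a w) (a' w) x) (z.2 w + prism2 (𝔇.a w) (a' w) z.1)) := by
  have hz' := congrArg (𝔇.shear3 a') hz
  rw [← hdc2_shear2] at hz'
  have h2 : ∀ w, hd1 (z.2 w + prism2 (𝔇.a w) (a' w) z.1) = pull2 (a' w) z.1 := fun w => by
    have := congrFun (congrArg Prod.snd hz') w
    have e : pull2 (a' w) z.1 - hd1 (z.2 w + prism2 (𝔇.a w) (a' w) z.1) = 0 := by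
      refine this.trans ?_
      show (0 : 𝔇.Y w → 𝔇.Y w → 𝔇.Y w → N₂) + prism3 (𝔇.a w) (a' w) 0 = 0
      funext y₀ y₁ y₂
      simp
    exact (sub_eq_zero.mp e).symm
  refine Prod.ext ?_ ?_
  · show cup12 B x z.1 - cup12 B x z.1 = hd2 0
    rw [sub_self, hd2_zero]
  · funext w
    have hq := pull1_sub_pull1_of_cocycle (𝔇.a w) (a' w) x hx
    show - cup11 B (pull1 (a' w) x) (z.2 w + prism2 (𝔇.a w) (a' w) z.1)
        - (- cup11 B (pull1 (𝔇.a w) x) (z.2 w) + prism3 (𝔇.a w) (a' w) (cup12 B x z.1)) =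
      pull2 (a' w) (0 : 𝔇.X → 𝔇.X → 𝔇.X → N₃)
        - hd1 (cup01 B (prism1 (𝔇.a w) (a' w) x) (z.2 w + prism2 (𝔇.a w) (a' w) z.1))
    rw [hd1_cup01, h2 w, prism3_cup12, ← hq]
    funext y₀ y₁ y₂
    simp only [Pi.sub_apply, Pi.add_apply, Pi.neg_apply, cup11_apply, cup02_apply, pull1_apply,
      pull2_apply, prism1_apply, prism2_apply, Pi.zero_apply, map_sub, map_add,
      AddMonoidHom.sub_apply]
    abel

/-- `(2,1)`: compatibility with the shear up to a coboundary. -/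
theorem cupC21_shear1 (x : 𝔇.X → 𝔇.X → 𝔇.X → N₁) (hx : hd2 x = 0) (z : 𝔇.K1 N₂)
    (hz : 𝔇.hdc1 z = 0) :
    (𝔇.withMaps a').cupC21 B x (𝔇.shear1 a' z) - 𝔇.shear3 a' (𝔇.cupC21 B x z) =
      (𝔇.withMaps a').hdc2 (0, fun w =>
        - cup10 B (prism2 (𝔇.a w) (a' w) x) (z.2 w + prism1 (𝔇.a w) (a' w) z.1)) := by
  have hz' := congrArg (𝔇.shear2 a') hz
  rw [← hdc1_shear1] at hz'
  have h2 : ∀ w, hd0 (z.2 w + prism1 (𝔇.a w) (a' w) z.1) = pull1 (a' w) z.1 := fun w => by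
    have := congrFun (congrArg Prod.snd hz') w
    have e : pull1 (a' w) z.1 - hd0 (z.2 w + prism1 (𝔇.a w) (a' w) z.1) = 0 := by
      refine this.trans ?_
      show (0 : 𝔇.Y w → 𝔇.Y w → N₂) + prism2 (𝔇.a w) (a' w) 0 = 0
      funext y₀ y₁
      simp
    exact (sub_eq_zero.mp e).symm
  refine Prod.ext ?_ ?_
  · show cup21 B x z.1 - cup21 B x z.1 = hd2 0
    rw [sub_self, hd2_zero]
  · funext w
    have hq := pull2_sub_pull2_of_cocycle (𝔇.a w) (a' w) x hx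
    show cup20 B (pull2 (a' w) x) (z.2 w + prism1 (𝔇.a w) (a' w) z.1)
        - (cup20 B (pull2 (𝔇.a w) x) (z.2 w) + prism3 (𝔇.a w) (a' w) (cup21 B x z.1)) =
      pull2 (a' w) (0 : 𝔇.X → 𝔇.X → 𝔇.X → N₃)
        - hd1 (- cup10 B (prism2 (𝔇.a w) (a' w) x) (z.2 w + prism1 (𝔇.a w) (a' w) z.1))
    rw [hd1_neg, hd1_cup10, h2 w, prism3_cup21, ← hq]
    funext y₀ y₁ y₂
    simp only [Pi.sub_apply, Pi.add_apply, Pi.neg_apply, cup11_apply, cup20_apply, pull1_apply,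
      pull2_apply, prism1_apply, prism2_apply, Pi.zero_apply, map_sub, map_add,
      AddMonoidHom.sub_apply]
    abel

end CupC

end HDat

end Fermat.Agent.S55.helper35
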