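import Mathlib
import Fermat.Agent.S55.helper35_Adm
import Fermat.Agent.S55.helper35_Cor
import Fermat.Agent.S55.helper38_ShTrB

/-!
# S55 / SH (helper35): equivariance and level properties of the maps of the big model

`i : U → G`, `e = i ∘ retr U : G → G`, `ι = D.iotaMap v j : G_v → G`, `β₀ β₁ : G_v → U`,
`i_w : U_w → G_v`, `e_w = i_w ∘ retr U_w : G_v → G_v`.
-/

set_option autoImplicit false
set_option linter.unusedSectionVars false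
set_option linter.style.haveILetI false

namespace Fermat.Agent.S55.helper35

open Fermat.Agent.S55

variable {G : Type} [Group G] {𝒩 : Levels G} {ι : Type} {L : LocalData G 𝒩 ι} {U : Subgroup G}

/-! ### Identity -/

lemma eqvMap₂_id_id {Γ : Type} [Group Γ] (H : Subgroup Γ) : EqvMap₂ H H (id : Γ → Γ) id :=
  fun u hu => ⟨u, hu, fun _ => ⟨rfl, rfl⟩⟩

lemma levMap_id {Γ : Type} [Group Γ] (𝒩 : Levels Γ) : LevMap 𝒩 𝒩 (id : Γ → Γ) :=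
  fun M hM => ⟨M, hM, fun _ s hs => ⟨s, hs, rfl⟩⟩

/-! ### The retraction `e = i ∘ retr H` of a group onto a subgroup containing a level -/

section Retr

variable {Γ : Type} [Group Γ] (H : Subgroup Γ)

/-- `e = i ∘ retr H` -/
noncomputable def eRetr (x : Γ) : Γ := ((retr H x : ↥H) : Γ)

lemma eRetr_mul {u : Γ} (hu : u ∈ H) (x : Γ) : eRetr H (u * x) = u * eRetr H x := by
  have := retr_mul H ⟨u, hu⟩ x
  simp only [eRetr]
  rw [this]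
  rfl

lemma eqvMap₂_eRetr_id : EqvMap₂ H H (eRetr H) id :=
  fun u hu => ⟨u, hu, fun x => ⟨eRetr_mul H hu x, rfl⟩⟩

lemma eqvMap_eRetr : EqvMap H H (eRetr H) :=
  fun u hu => ⟨u, hu, fun x => ⟨eRetr_mul H hu x, eRetr_mul H hu x⟩⟩

lemma eqvMap_val : EqvMap (⊤ : Subgroup ↥H) H (Subtype.val : ↥H → Γ) :=
  fun u _ => ⟨(u : Γ), u.2, fun _ => ⟨rfl, rfl⟩⟩

lemma eqvMap_retr : EqvMap H (⊤ : Subgroup ↥H) (retr H) :=
  fun u hu => ⟨⟨u, hu⟩, Subgroup.mem_top _, fun x => ⟨retr_mul H ⟨u, hu⟩ x, retr_mul H ⟨u, hu⟩ x⟩⟩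

/-- `e` is a level map as soon as `H` contains a level -/
lemma levMap_eRetr (𝒩 : Levels Γ) (hH : ∃ N ∈ 𝒩.mem, N ≤ H) : LevMap 𝒩 𝒩 (eRetr H) := by
  intro M₂ hM₂
  obtain ⟨N, hN, hNH⟩ := hH
  obtain ⟨M₁, hM₁, hle⟩ := 𝒩.directed M₂ hM₂ N hN
  haveI := 𝒩.normal M₁ hM₁
  refine ⟨M₁, hM₁, fun x s hs => ?_⟩
  obtain ⟨m, hm, h1⟩ := helper38.retr_mul_right H M₁ (fun t ht => hNH (hle ht).2) x hs
  refine ⟨(m : Γ), (hle (Subgroup.mem_subgroupOf.mp hm)).1, ?_⟩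
  simp only [eRetr]
  rw [h1]
  rfl

end Retr

/-! ### The inclusion `U → G` and the retraction `G → U` -/

section Incl

variable (hU : ∃ N ∈ 𝒩.mem, N ≤ U)

lemma levMap_val : LevMap (restrictLevels 𝒩 U hU) 𝒩 (Subtype.val : ↥U → G) := by
  intro M₂ hM₂
  obtain ⟨N, hN, hNU⟩ := hU
  obtain ⟨M₁, hM₁, hle⟩ := 𝒩.directed M₂ hM₂ N hN
  refine ⟨M₁.subgroupOf U, ⟨M₁, hM₁, fun t ht => hNU (hle ht).2, rfl⟩, fun x s hs => ?_⟩
  exact ⟨(s : G), (hle (Subgroup.mem_subgroupOf.mp hs)).1, rfl⟩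

lemma levMap_retr : LevMap 𝒩 (restrictLevels 𝒩 U hU) (retr U) := by
  rintro M₂ ⟨N, hN, hNU, rfl⟩
  haveI := 𝒩.normal N hN
  refine ⟨N, hN, fun x s hs => ?_⟩
  obtain ⟨m, hm, h1⟩ := helper38.retr_mul_right U N hNU x hs
  exact ⟨m, hm, h1⟩

end Incl

/-! ### The local maps -/

section Local

namespace ShData

variable (D : ShData L U) (hU : ∃ N ∈ 𝒩.mem, N ≤ U) (v : ι) (j : D.J v) [Finite (G ⧸ U)]

lemma iotaMap_mul {u : L.Gv v} (hu : u ∈ D.Uw v j) (x : L.Gv v) :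
    D.iotaMap v j (u * x) = ((D.rw v j ⟨u, hu⟩ : ↥U) : G) * D.iotaMap v j x := by
  rw [ShData.coe_rw]
  simp only [ShData.iotaMap, map_mul]
  group

lemma eqvMap_iotaMap : EqvMap (D.Uw v j) U (D.iotaMap v j) :=
  fun u hu => ⟨((D.rw v j ⟨u, hu⟩ : ↥U) : G), (D.rw v j ⟨u, hu⟩).2,
    fun x => ⟨D.iotaMap_mul v j hu x, D.iotaMap_mul v j hu x⟩⟩

lemma levMap_iotaMap : LevMap (L.lev v) 𝒩 (D.iotaMap v j) := by
  intro M₂ hM₂
  obtain ⟨M₁, hM₁, hle⟩ := L.compat v M₂ hM₂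
  refine ⟨M₁, hM₁, fun x s hs => ⟨L.r v s, hle hs, ?_⟩⟩
  simp only [ShData.iotaMap, map_mul, mul_assoc]

lemma eqvMap₂_beta : EqvMap₂ (D.Uw v j) (⊤ : Subgroup ↥U) (D.beta0 v j) (D.beta1 v j) :=
  fun u hu => ⟨D.rw v j ⟨u, hu⟩, Subgroup.mem_top _,
    fun x => ⟨helper38.beta0_mul D v j hu x, helper38.beta1_mul D v j hu x⟩⟩

include hU in
lemma levMap_beta0 : LevMap (L.lev v) (restrictLevels 𝒩 U hU) (D.beta0 v j) := by
  rintro M₂ ⟨N, hN, hNU, rfl⟩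
  obtain ⟨M₀, hM₀⟩ := (L.lev v).nonempty
  obtain ⟨M', hM', -, hleU, hr⟩ := helper38.exists_local_level D v j hN hNU hM₀
  haveI := (L.lev v).normal M' hM'
  refine ⟨M', hM', fun x s hs => ?_⟩
  obtain ⟨n, hn, h1⟩ := helper38.beta0_mul_right D v j hN hleU hr x hs
  exact ⟨n, hn, h1⟩

include hU in
lemma levMap_beta1 : LevMap (L.lev v) (restrictLevels 𝒩 U hU) (D.beta1 v j) := by
  rintro M₂ ⟨N, hN, hNU, rfl⟩
  obtain ⟨M₁, hM₁, hle⟩ := L.compat v N hN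
  refine ⟨M₁, hM₁, fun x s hs => ?_⟩
  obtain ⟨n, hn, h1⟩ := helper38.beta1_mul_right D v j hN hNU x (hle hs)
  exact ⟨n, hn, h1⟩

lemma levMap_valw :
    LevMap (inducedLevels (L.lev v) (D.Uw v j)) (L.lev v) (Subtype.val : ↥(D.Uw v j) → L.Gv v) := by
  intro M₂ hM₂
  exact ⟨M₂.subgroupOf (D.Uw v j), ⟨M₂, hM₂, rfl⟩,
    fun x s hs => ⟨(s : L.Gv v), Subgroup.mem_subgroupOf.mp hs, rfl⟩⟩

include hU in
/-- the local groups `U_w` contain a local level -/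
lemma exists_level_le_Uw : ∃ M ∈ (L.lev v).mem, M ≤ D.Uw v j := by
  obtain ⟨N, hN, hNU⟩ := hU
  obtain ⟨M₀, hM₀⟩ := (L.lev v).nonempty
  obtain ⟨M', hM', -, hleU, -⟩ := helper38.exists_local_level D v j hN hNU hM₀
  exact ⟨M', hM', hleU⟩

include hU in
lemma levMap_eRetrw : LevMap (L.lev v) (L.lev v) (eRetr (D.Uw v j)) :=
  levMap_eRetr (D.Uw v j) (L.lev v) (D.exists_level_le_Uw hU v j)

include hU in
lemma levMap_retrw :
    LevMap (L.lev v) (inducedLevels (L.lev v) (D.Uw v j)) (retr (D.Uw v j)) := by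
  rintro M₂ ⟨M, hM, rfl⟩
  obtain ⟨M₀, hM₀, hM₀U⟩ := D.exists_level_le_Uw hU v j
  obtain ⟨M₁, hM₁, hle⟩ := (L.lev v).directed M hM M₀ hM₀
  haveI := (L.lev v).normal M₁ hM₁
  refine ⟨M₁, hM₁, fun x s hs => ?_⟩
  obtain ⟨m, hm, h1⟩ := helper38.retr_mul_right (D.Uw v j) M₁ (fun t ht => hM₀U (hle ht).2) x hs
  refine ⟨m, ?_, h1⟩
  rw [Subgroup.mem_subgroupOf] at hm ⊢
  exact (hle hm).1

end ShData

end Local

end Fermat.Agent.S55.helper35
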