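import Mathlib
import Fermat.Agent.S55.helper35_Cor
import Fermat.Agent.S55.helper35_HCone
import Fermat.Agent.S55.helper35_Adm
import Fermat.Agent.S55.helper35_Maps

/-!
# S55 / SH (helper35): the big model and the map `Ψ` on homogeneous cone cochains

For `D : ShData L U`:

* `hdatOf L`          : the homogeneous cone datum `(G, (G_v), (r_v))` of a `LocalData`;
* `D.bigDat`          : the big model `𝔐 = (G, (G_v)_{(v,j)}, (h ↦ (y v j)⁻¹ * r_v h))`;
* `D.subDat hU`       : `𝔑 = hdatOf (D.localData hU) = (U, (U_w), (r_w))`;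
* admissible cochains : `AdmG_n` (global, on `G`, `U`-invariant, level-constant for `𝒩`),
  `AdmL_n` (local at `(v,j)`, on `G_v`, `U_w`-invariant, level-constant for `L.lev v`),
  `AdmM_n` (cone cochains of `𝔐`); `AdmN_n` (cone cochains of `𝔑`, invariance under the whole
  group);
* `D.PsiH_n`          : `Ψ (H, Θ) = (ρ^* H, (ρ_w^* Θ_w + prism (β₀, β₁) H)_w)`.
-/

set_option autoImplicit false
set_option linter.unusedSectionVars false

open groupCohomology

noncomputable section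

namespace Fermat.Agent.S55.helper35

open Fermat.Agent.S55

variable {G : Type} [Group G] {𝒩 : Levels G} {ι : Type}

/-- the homogeneous cone datum of a `LocalData` -/
abbrev hdatOf (L : LocalData G 𝒩 ι) : HDat ι :=
  ⟨G, L.Gv, fun v h => L.r v h⟩

variable {L : LocalData G 𝒩 ι} {U : Subgroup G} (D : ShData L U)

namespace ShData

/-- the big model -/
abbrev bigDat : HDat (Σ v, D.J v) :=
  ⟨G, fun w => L.Gv w.1, fun w h => D.iotaMap w.1 w.2 h⟩

/-- the cone datum of the open subgroup -/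
abbrev subDat (hU : ∃ N ∈ 𝒩.mem, N ≤ U) : HDat (Σ v, D.J v) := hdatOf (D.localData hU)

variable (k : Type) [Field k]

/-! ### Admissible cochains -/

/-- admissible global cochains of the big model, degree `0` -/
def AdmG0 (F : G → k) : Prop := IsInv0 U F ∧ IsLevH0 𝒩 F
/-- admissible global cochains of the big model, degree `1` -/
def AdmG1 (F : G → G → k) : Prop := IsInv1 U F ∧ IsLevH1 𝒩 F
/-- admissible global cochains of the big model, degree `2` -/
def AdmG2 (F : G → G → G → k) : Prop := IsInv2 U F ∧ IsLevH2 𝒩 F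
/-- admissible global cochains of the big model, degree `3` -/
def AdmG3 (F : G → G → G → G → k) : Prop := IsInv3 U F ∧ IsLevH3 𝒩 F

/-- admissible local cochains of the big model at `w = (v,j)`, degree `0` (no level condition) -/
def AdmL0 (w : Σ v, D.J v) (F : L.Gv w.1 → k) : Prop := IsInv0 (D.Uw w.1 w.2) F
/-- admissible local cochains of the big model at `w = (v,j)`, degree `1` -/
def AdmL1 (w : Σ v, D.J v) (F : L.Gv w.1 → L.Gv w.1 → k) : Prop :=
  IsInv1 (D.Uw w.1 w.2) F ∧ IsLevH1 (L.lev w.1) F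
/-- admissible local cochains of the big model at `w = (v,j)`, degree `2` -/
def AdmL2 (w : Σ v, D.J v) (F : L.Gv w.1 → L.Gv w.1 → L.Gv w.1 → k) : Prop :=
  IsInv2 (D.Uw w.1 w.2) F ∧ IsLevH2 (L.lev w.1) F

/-- admissible cone `1`-cochains of the big model -/
def AdmM1 (z : D.bigDat.K1 k) : Prop := AdmG1 (𝒩 := 𝒩) (U := U) k z.1 ∧ ∀ w, D.AdmL0 k w (z.2 w)
/-- admissible cone `2`-cochains of the big model -/
def AdmM2 (z : D.bigDat.K2 k) : Prop := AdmG2 (𝒩 := 𝒩) (U := U) k z.1 ∧ ∀ w, D.AdmL1 k w (z.2 w)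
/-- admissible cone `3`-cochains of the big model -/
def AdmM3 (z : D.bigDat.K3 k) : Prop := AdmG3 (𝒩 := 𝒩) (U := U) k z.1 ∧ ∀ w, D.AdmL2 k w (z.2 w)

variable (hU : ∃ N ∈ 𝒩.mem, N ≤ U)

/-- admissible cone `1`-cochains of the open subgroup -/
def AdmN1 (z : (D.subDat hU).K1 k) : Prop :=
  (IsInv1 (⊤ : Subgroup ↥U) z.1 ∧ IsLevH1 (restrictLevels 𝒩 U hU) z.1) ∧
    ∀ w : Σ v, D.J v, IsInv0 (⊤ : Subgroup ↥(D.Uw w.1 w.2)) (z.2 w)
/-- admissible cone `2`-cochains of the open subgroup -/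
def AdmN2 (z : (D.subDat hU).K2 k) : Prop :=
  (IsInv2 (⊤ : Subgroup ↥U) z.1 ∧ IsLevH2 (restrictLevels 𝒩 U hU) z.1) ∧
    ∀ w : Σ v, D.J v, IsInv1 (⊤ : Subgroup ↥(D.Uw w.1 w.2)) (z.2 w) ∧
      IsLevH1 (inducedLevels (L.lev w.1) (D.Uw w.1 w.2)) (z.2 w)
/-- admissible cone `3`-cochains of the open subgroup -/
def AdmN3 (z : (D.subDat hU).K3 k) : Prop :=
  (IsInv3 (⊤ : Subgroup ↥U) z.1 ∧ IsLevH3 (restrictLevels 𝒩 U hU) z.1) ∧
    ∀ w : Σ v, D.J v, IsInv2 (⊤ : Subgroup ↥(D.Uw w.1 w.2)) (z.2 w) ∧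
      IsLevH2 (inducedLevels (L.lev w.1) (D.Uw w.1 w.2)) (z.2 w)

/-! ### The map `Ψ` -/

variable {k}

/-- `Ψ` on cone `1`-cochains -/
def PsiH1 (z : (D.subDat hU).K1 k) : D.bigDat.K1 k :=
  (pull1 (retr U) z.1, fun w =>
    pull0 (retr (D.Uw w.1 w.2)) (z.2 w) + prism1 (D.beta0 w.1 w.2) (D.beta1 w.1 w.2) z.1)
/-- `Ψ` on cone `2`-cochains -/
def PsiH2 (z : (D.subDat hU).K2 k) : D.bigDat.K2 k :=
  (pull2 (retr U) z.1, fun w =>
    pull1 (retr (D.Uw w.1 w.2)) (z.2 w) + prism2 (D.beta0 w.1 w.2) (D.beta1 w.1 w.2) z.1)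
/-- `Ψ` on cone `3`-cochains -/
def PsiH3 (z : (D.subDat hU).K3 k) : D.bigDat.K3 k :=
  (pull3 (retr U) z.1, fun w =>
    pull2 (retr (D.Uw w.1 w.2)) (z.2 w) + prism3 (D.beta0 w.1 w.2) (D.beta1 w.1 w.2) z.1)
/-- `Ψ` on cone `4`-cochains -/
def PsiH4 (z : (D.subDat hU).K4 k) : D.bigDat.K4 k :=
  (pull4 (retr U) z.1, fun w =>
    pull3 (retr (D.Uw w.1 w.2)) (z.2 w) + prism4 (D.beta0 w.1 w.2) (D.beta1 w.1 w.2) z.1)


end ShData

end Fermat.Agent.S55.helper35
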