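import Mathlib
import Fermat.Agent.S55.helper35_Big

/-!
# S55 / SH (helper35): surjectivity of `Ψ` on cone cohomology, scalar homogeneous form

For a cone cocycle `Z = (F, Φ)` of the big model (degree `2` or `3`) we give an explicit cone
cocycle `evH Z` of the open subgroup and an explicit cochain `hoH Z` of the big model with

  `Z - Ψ (evH Z) = d (hoH Z)`,

using FIRST-ORDER homotopies only:

* `evH Z = (i^* F, i_w^* Θ_w)`, `Θ_w = Φ_w - ι_w^* T F - prism (β₀, β₁) (i^* F)`, `T = prism (e, id)`,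
  `e = i ∘ retr U`;
* `hoH Z = (T F, - prismN (e_w, id) Θ_w)`, `e_w = i_w ∘ retr U_w`.

Both constructions preserve admissibility (invariance and level-constancy).
-/

set_option autoImplicit false
set_option linter.unusedSectionVars false
set_option linter.unusedSimpArgs false

noncomputable section

namespace Fermat.Agent.S55.helper35

open Fermat.Agent.S55

variable {k G : Type} [Field k] [Group G] {𝒩 : Levels G} {ι : Type} {L : LocalData G 𝒩 ι}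
  {U : Subgroup G} (D : ShData L U) (hU : ∃ N ∈ 𝒩.mem, N ≤ U)

namespace ShData

/-! ### Elementary identities between the maps -/

lemma beta0_val (w : Σ v, D.J v) (h : ↥(D.Uw w.1 w.2)) :
    D.beta0 w.1 w.2 (h : L.Gv w.1) = D.rw w.1 w.2 h := by
  unfold ShData.beta0
  rw [retr_coe]

lemma beta0_eRetr (w : Σ v, D.J v) (h : L.Gv w.1) :
    D.beta0 w.1 w.2 (eRetr (D.Uw w.1 w.2) h) = D.beta0 w.1 w.2 h := by
  unfold ShData.beta0 eRetr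
  rw [retr_coe]

lemma beta0_comp_eRetr (w : Σ v, D.J v) :
    (D.beta0 w.1 w.2) ∘ (eRetr (D.Uw w.1 w.2)) = (D.beta0 w.1 w.2) ∘ id :=
  funext fun h => D.beta0_eRetr w h

/-! ### Degree `2` -/

/-- the corrected local component, degree `2` -/
def theta1 (Z : D.bigDat.K2 k) (w : Σ v, D.J v) : L.Gv w.1 → L.Gv w.1 → k :=
  Z.2 w - pull1 (D.iotaMap w.1 w.2) (prism2 (eRetr U) id Z.1)
    - prism2 (D.beta0 w.1 w.2) (D.beta1 w.1 w.2) (pull2 (Subtype.val : ↥U → G) Z.1)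

/-- the witness, degree `2` -/
def evH2 (Z : D.bigDat.K2 k) : (D.subDat hU).K2 k :=
  (pull2 (Subtype.val : ↥U → G) Z.1,
    fun w => pull1 (Subtype.val : ↥(D.Uw w.1 w.2) → L.Gv w.1) (D.theta1 Z w))

/-- the homotopy, degree `2` -/
def hoH2 (Z : D.bigDat.K2 k) : D.bigDat.K1 k :=
  (prism2 (eRetr U) id Z.1, fun w => - prismN1 (eRetr (D.Uw w.1 w.2)) id (D.theta1 Z w))

lemma hd1_theta1 (Z : D.bigDat.K2 k) (hZ : D.bigDat.hdc2 Z = 0) (w : Σ v, D.J v) :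
    hd1 (D.theta1 Z w) = pull2 (D.beta0 w.1 w.2) (pull2 (Subtype.val : ↥U → G) Z.1) := by
  have h1 : hd2 Z.1 = 0 := congrArg Prod.fst hZ
  have h2 : pull2 (D.iotaMap w.1 w.2) Z.1 - hd1 (Z.2 w) = 0 :=
    congrFun (congrArg Prod.snd hZ) w
  have h2' : hd1 (Z.2 w) = pull2 (D.iotaMap w.1 w.2) Z.1 := (sub_eq_zero.mp h2).symm
  have h3 := pull2_sub_pull2_of_cocycle (eRetr U) id Z.1 h1
  have h4 : hd2 (pull2 (Subtype.val : ↥U → G) Z.1) = 0 := by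
    rw [hd2_pull2, h1]; rfl
  have h5 := pull2_sub_pull2_of_cocycle (D.beta0 w.1 w.2) (D.beta1 w.1 w.2) _ h4
  unfold theta1
  rw [hd1_sub, hd1_sub, hd1_pull1, ← h3, ← h5, h2']
  funext y₀ y₁ y₂
  simp only [Pi.sub_apply, pull2_apply, id]
  have e : ∀ y, eRetr U (D.iotaMap w.1 w.2 y) = ((D.beta1 w.1 w.2 y : ↥U) : G) := fun _ => rfl
  rw [e, e, e]
  abel

theorem hdc2_evH2 (Z : D.bigDat.K2 k) (hZ : D.bigDat.hdc2 Z = 0) :
    (D.subDat hU).hdc2 (D.evH2 hU Z) = 0 := by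
  have h1 : hd2 Z.1 = 0 := congrArg Prod.fst hZ
  refine Prod.ext ?_ ?_
  · show hd2 (pull2 (Subtype.val : ↥U → G) Z.1) = 0
    rw [hd2_pull2, h1]; rfl
  · funext w
    show pull2 (fun h => D.rw w.1 w.2 h) (pull2 (Subtype.val : ↥U → G) Z.1)
      - hd1 (pull1 (Subtype.val : ↥(D.Uw w.1 w.2) → L.Gv w.1) (D.theta1 Z w)) = 0
    rw [hd1_pull1, D.hd1_theta1 Z hZ w]
    funext y₀ y₁ y₂
    simp only [Pi.sub_apply, pull2_apply, D.beta0_val, sub_self]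
    rfl

theorem sub_PsiH2_evH2 (Z : D.bigDat.K2 k) (hZ : D.bigDat.hdc2 Z = 0) :
    Z - D.PsiH2 hU (D.evH2 hU Z) = D.bigDat.hdc1 (D.hoH2 Z) := by
  have h1 : hd2 Z.1 = 0 := congrArg Prod.fst hZ
  refine Prod.ext ?_ ?_
  · have h3 := pull2_sub_pull2_of_cocycle (eRetr U) id Z.1 h1
    rw [pull2_id] at h3
    exact h3
  · funext w
    have hA := hd0_prismN1_add (eRetr (D.Uw w.1 w.2)) id (D.theta1 Z w)
    rw [D.hd1_theta1 Z hZ w, prismN2_pull2, D.beta0_comp_eRetr w, prismN2_self, add_zero,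
      pull1_id] at hA
    show Z.2 w - (pull1 (retr (D.Uw w.1 w.2))
          (pull1 (Subtype.val : ↥(D.Uw w.1 w.2) → L.Gv w.1) (D.theta1 Z w))
        + prism2 (D.beta0 w.1 w.2) (D.beta1 w.1 w.2) (pull2 (Subtype.val : ↥U → G) Z.1)) =
      pull1 (fun h => D.iotaMap w.1 w.2 h) (prism2 (eRetr U) id Z.1)
        - hd0 (- prismN1 (eRetr (D.Uw w.1 w.2)) id (D.theta1 Z w))
    rw [hd0_neg, hA]
    have e : pull1 (retr (D.Uw w.1 w.2))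
        (pull1 (Subtype.val : ↥(D.Uw w.1 w.2) → L.Gv w.1) (D.theta1 Z w)) =
        pull1 (eRetr (D.Uw w.1 w.2)) (D.theta1 Z w) := rfl
    rw [e]
    funext y₀ y₁
    simp only [theta1, Pi.sub_apply, Pi.add_apply, Pi.neg_apply, pull1_apply]
    abel

variable [Finite (G ⧸ U)]

include hU in
lemma adm_theta1 (Z : D.bigDat.K2 k) (hA : D.AdmM2 k Z) (w : Σ v, D.J v) :
    IsInv1 (D.Uw w.1 w.2) (D.theta1 Z w) ∧ IsLevH1 (L.lev w.1) (D.theta1 Z w) := by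
  obtain ⟨⟨hF1, hF2⟩, hΦ⟩ := hA
  obtain ⟨hΦ1, hΦ2⟩ := hΦ w
  have a1 : IsInv1 U (prism2 (eRetr U) id Z.1) := hF1.prism2 (eqvMap₂_eRetr_id U)
  have a2 : IsLevH1 𝒩 (prism2 (eRetr U) id Z.1) :=
    hF2.prism2 (levMap_eRetr U 𝒩 hU) (levMap_id 𝒩)
  have b1 : IsInv2 (⊤ : Subgroup ↥U) (pull2 (Subtype.val : ↥U → G) Z.1) :=
    hF1.pull2 (eqvMap_val U)
  have b2 : IsLevH2 (restrictLevels 𝒩 U hU) (pull2 (Subtype.val : ↥U → G) Z.1) :=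
    hF2.pull2 (levMap_val hU)
  refine ⟨(hΦ1.sub (a1.pull1 (D.eqvMap_iotaMap w.1 w.2))).sub
      (b1.prism2 (D.eqvMap₂_beta w.1 w.2)),
    (hΦ2.sub (a2.pull1 (D.levMap_iotaMap w.1 w.2))).sub
      (b2.prism2 (D.levMap_beta0 hU w.1 w.2) (D.levMap_beta1 hU w.1 w.2))⟩

theorem admN2_evH2 (Z : D.bigDat.K2 k) (hA : D.AdmM2 k Z) : D.AdmN2 k hU (D.evH2 hU Z) := by
  refine ⟨⟨hA.1.1.pull2 (eqvMap_val U), hA.1.2.pull2 (levMap_val hU)⟩, fun w => ?_⟩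
  obtain ⟨h1, h2⟩ := D.adm_theta1 hU Z hA w
  exact ⟨h1.pull1 (eqvMap_val (D.Uw w.1 w.2)), h2.pull1 (D.levMap_valw w.1 w.2)⟩

include hU in
theorem admM1_hoH2 (Z : D.bigDat.K2 k) (hA : D.AdmM2 k Z) : D.AdmM1 k (D.hoH2 Z) := by
  refine ⟨⟨hA.1.1.prism2 (eqvMap₂_eRetr_id U),
    hA.1.2.prism2 (levMap_eRetr U 𝒩 hU) (levMap_id 𝒩)⟩, fun w => ?_⟩
  obtain ⟨h1, -⟩ := D.adm_theta1 hU Z hA w
  show IsInv0 (D.Uw w.1 w.2) (- prismN1 (eRetr (D.Uw w.1 w.2)) id (D.theta1 Z w))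
  exact ((h1.prism1 (eqvMap₂_eRetr_id (D.Uw w.1 w.2))).sub
    (h1.prism1 (eqvMap₂_id_id (D.Uw w.1 w.2)))).neg

/-- **Surjectivity of `Ψ` on cone cohomology, degree `2`, scalar form.** -/
theorem psurj_core2 (Z : D.bigDat.K2 k) (hZ : D.bigDat.hdc2 Z = 0) (hA : D.AdmM2 k Z) :
    ∃ Z' : (D.subDat hU).K2 k, (D.subDat hU).hdc2 Z' = 0 ∧ D.AdmN2 k hU Z' ∧
      ∃ W : D.bigDat.K1 k, D.AdmM1 k W ∧ Z - D.PsiH2 hU Z' = D.bigDat.hdc1 W :=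
  ⟨D.evH2 hU Z, D.hdc2_evH2 hU Z hZ, D.admN2_evH2 hU Z hA, D.hoH2 Z, D.admM1_hoH2 hU Z hA,
    D.sub_PsiH2_evH2 hU Z hZ⟩


/-! ### Degree `3` -/

omit [Finite (G ⧸ U)] in
/-- the corrected local component, degree `3` -/
def theta2 (Z : D.bigDat.K3 k) (w : Σ v, D.J v) : L.Gv w.1 → L.Gv w.1 → L.Gv w.1 → k :=
  Z.2 w - pull2 (D.iotaMap w.1 w.2) (prism3 (eRetr U) id Z.1)
    - prism3 (D.beta0 w.1 w.2) (D.beta1 w.1 w.2) (pull3 (Subtype.val : ↥U → G) Z.1)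

omit [Finite (G ⧸ U)] in
/-- the witness, degree `3` -/
def evH3 (Z : D.bigDat.K3 k) : (D.subDat hU).K3 k :=
  (pull3 (Subtype.val : ↥U → G) Z.1,
    fun w => pull2 (Subtype.val : ↥(D.Uw w.1 w.2) → L.Gv w.1) (D.theta2 Z w))

omit [Finite (G ⧸ U)] in
/-- the homotopy, degree `3` -/
def hoH3 (Z : D.bigDat.K3 k) : D.bigDat.K2 k :=
  (prism3 (eRetr U) id Z.1, fun w => - prismN2 (eRetr (D.Uw w.1 w.2)) id (D.theta2 Z w))

omit [Finite (G ⧸ U)] in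
lemma hd2_theta2 (Z : D.bigDat.K3 k) (hZ : D.bigDat.hdc3 Z = 0) (w : Σ v, D.J v) :
    hd2 (D.theta2 Z w) = pull3 (D.beta0 w.1 w.2) (pull3 (Subtype.val : ↥U → G) Z.1) := by
  have h1 : hd3 Z.1 = 0 := congrArg Prod.fst hZ
  have h2 : pull3 (D.iotaMap w.1 w.2) Z.1 - hd2 (Z.2 w) = 0 :=
    congrFun (congrArg Prod.snd hZ) w
  have h2' : hd2 (Z.2 w) = pull3 (D.iotaMap w.1 w.2) Z.1 := (sub_eq_zero.mp h2).symm
  have h3 := pull3_sub_pull3_of_cocycle (eRetr U) id Z.1 h1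
  have h4 : hd3 (pull3 (Subtype.val : ↥U → G) Z.1) = 0 := by
    rw [hd3_pull3, h1]; rfl
  have h5 := pull3_sub_pull3_of_cocycle (D.beta0 w.1 w.2) (D.beta1 w.1 w.2) _ h4
  unfold theta2
  rw [hd2_sub, hd2_sub, hd2_pull2, ← h3, ← h5, h2']
  funext y₀ y₁ y₂ y₃
  simp only [Pi.sub_apply, pull3_apply, id]
  have e : ∀ y, eRetr U (D.iotaMap w.1 w.2 y) = ((D.beta1 w.1 w.2 y : ↥U) : G) := fun _ => rfl
  rw [e, e, e, e]
  abel

omit [Finite (G ⧸ U)] in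
theorem hdc3_evH3 (Z : D.bigDat.K3 k) (hZ : D.bigDat.hdc3 Z = 0) :
    (D.subDat hU).hdc3 (D.evH3 hU Z) = 0 := by
  have h1 : hd3 Z.1 = 0 := congrArg Prod.fst hZ
  refine Prod.ext ?_ ?_
  · show hd3 (pull3 (Subtype.val : ↥U → G) Z.1) = 0
    rw [hd3_pull3, h1]; rfl
  · funext w
    show pull3 (fun h => D.rw w.1 w.2 h) (pull3 (Subtype.val : ↥U → G) Z.1)
      - hd2 (pull2 (Subtype.val : ↥(D.Uw w.1 w.2) → L.Gv w.1) (D.theta2 Z w)) = 0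
    rw [hd2_pull2, D.hd2_theta2 Z hZ w]
    funext y₀ y₁ y₂ y₃
    simp only [Pi.sub_apply, pull3_apply, D.beta0_val, sub_self]
    rfl

omit [Finite (G ⧸ U)] in
theorem sub_PsiH3_evH3 (Z : D.bigDat.K3 k) (hZ : D.bigDat.hdc3 Z = 0) :
    Z - D.PsiH3 hU (D.evH3 hU Z) = D.bigDat.hdc2 (D.hoH3 Z) := by
  have h1 : hd3 Z.1 = 0 := congrArg Prod.fst hZ
  refine Prod.ext ?_ ?_
  · have h3 := pull3_sub_pull3_of_cocycle (eRetr U) id Z.1 h1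
    rw [pull3_id] at h3
    exact h3
  · funext w
    have hA := hd1_prismN2_add (eRetr (D.Uw w.1 w.2)) id (D.theta2 Z w)
    rw [D.hd2_theta2 Z hZ w, prismN3_pull3, D.beta0_comp_eRetr w, prismN3_self, add_zero,
      pull2_id] at hA
    show Z.2 w - (pull2 (retr (D.Uw w.1 w.2))
          (pull2 (Subtype.val : ↥(D.Uw w.1 w.2) → L.Gv w.1) (D.theta2 Z w))
        + prism3 (D.beta0 w.1 w.2) (D.beta1 w.1 w.2) (pull3 (Subtype.val : ↥U → G) Z.1)) =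
      pull2 (fun h => D.iotaMap w.1 w.2 h) (prism3 (eRetr U) id Z.1)
        - hd1 (- prismN2 (eRetr (D.Uw w.1 w.2)) id (D.theta2 Z w))
    rw [hd1_neg, hA]
    have e : pull2 (retr (D.Uw w.1 w.2))
        (pull2 (Subtype.val : ↥(D.Uw w.1 w.2) → L.Gv w.1) (D.theta2 Z w)) =
        pull2 (eRetr (D.Uw w.1 w.2)) (D.theta2 Z w) := rfl
    rw [e]
    funext y₀ y₁ y₂
    simp only [theta2, Pi.sub_apply, Pi.add_apply, Pi.neg_apply, pull2_apply]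
    abel

include hU in
lemma adm_theta2 (Z : D.bigDat.K3 k) (hA : D.AdmM3 k Z) (w : Σ v, D.J v) :
    IsInv2 (D.Uw w.1 w.2) (D.theta2 Z w) ∧ IsLevH2 (L.lev w.1) (D.theta2 Z w) := by
  obtain ⟨⟨hF1, hF2⟩, hΦ⟩ := hA
  obtain ⟨hΦ1, hΦ2⟩ := hΦ w
  have a1 : IsInv2 U (prism3 (eRetr U) id Z.1) := hF1.prism3 (eqvMap₂_eRetr_id U)
  have a2 : IsLevH2 𝒩 (prism3 (eRetr U) id Z.1) :=
    hF2.prism3 (levMap_eRetr U 𝒩 hU) (levMap_id 𝒩)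
  have b1 : IsInv3 (⊤ : Subgroup ↥U) (pull3 (Subtype.val : ↥U → G) Z.1) :=
    hF1.pull3 (eqvMap_val U)
  have b2 : IsLevH3 (restrictLevels 𝒩 U hU) (pull3 (Subtype.val : ↥U → G) Z.1) :=
    hF2.pull3 (levMap_val hU)
  refine ⟨(hΦ1.sub (a1.pull2 (D.eqvMap_iotaMap w.1 w.2))).sub
      (b1.prism3 (D.eqvMap₂_beta w.1 w.2)),
    (hΦ2.sub (a2.pull2 (D.levMap_iotaMap w.1 w.2))).sub
      (b2.prism3 (D.levMap_beta0 hU w.1 w.2) (D.levMap_beta1 hU w.1 w.2))⟩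

theorem admN3_evH3 (Z : D.bigDat.K3 k) (hA : D.AdmM3 k Z) : D.AdmN3 k hU (D.evH3 hU Z) := by
  refine ⟨⟨hA.1.1.pull3 (eqvMap_val U), hA.1.2.pull3 (levMap_val hU)⟩, fun w => ?_⟩
  obtain ⟨h1, h2⟩ := D.adm_theta2 hU Z hA w
  exact ⟨h1.pull2 (eqvMap_val (D.Uw w.1 w.2)), h2.pull2 (D.levMap_valw w.1 w.2)⟩

include hU in
theorem admM2_hoH3 (Z : D.bigDat.K3 k) (hA : D.AdmM3 k Z) : D.AdmM2 k (D.hoH3 Z) := by
  refine ⟨⟨hA.1.1.prism3 (eqvMap₂_eRetr_id U),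
    hA.1.2.prism3 (levMap_eRetr U 𝒩 hU) (levMap_id 𝒩)⟩, fun w => ?_⟩
  obtain ⟨h1, h2⟩ := D.adm_theta2 hU Z hA w
  show IsInv1 (D.Uw w.1 w.2) (- prismN2 (eRetr (D.Uw w.1 w.2)) id (D.theta2 Z w)) ∧
    IsLevH1 (L.lev w.1) (- prismN2 (eRetr (D.Uw w.1 w.2)) id (D.theta2 Z w))
  exact ⟨((h1.prism2 (eqvMap₂_eRetr_id (D.Uw w.1 w.2))).sub
      (h1.prism2 (eqvMap₂_id_id (D.Uw w.1 w.2)))).neg,
    ((h2.prism2 (D.levMap_eRetrw hU w.1 w.2) (levMap_id (L.lev w.1))).sub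
      (h2.prism2 (levMap_id (L.lev w.1)) (levMap_id (L.lev w.1)))).neg⟩

/-- **Surjectivity of `Ψ` on cone cohomology, degree `3`, scalar form.** -/
theorem psurj_core3 (Z : D.bigDat.K3 k) (hZ : D.bigDat.hdc3 Z = 0) (hA : D.AdmM3 k Z) :
    ∃ Z' : (D.subDat hU).K3 k, (D.subDat hU).hdc3 Z' = 0 ∧ D.AdmN3 k hU Z' ∧
      ∃ W : D.bigDat.K2 k, D.AdmM2 k W ∧ Z - D.PsiH3 hU Z' = D.bigDat.hdc2 W :=
  ⟨D.evH3 hU Z, D.hdc3_evH3 hU Z hZ, D.admN3_evH3 hU Z hA, D.hoH3 Z, D.admM2_hoH3 hU Z hA,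
    D.sub_PsiH3_evH3 hU Z hZ⟩

end ShData

end Fermat.Agent.S55.helper35
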