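import Fermat.Agent.S55.BaseTargetFinal
import Fermat.Agent.S55.helper53_ShTransportP
import Fermat.Agent.S55.helper62_ShPf12
import Fermat.Agent.S55.helper57_Devissage

/-!
# S55 module SH: assembly of `ShStatement` (helper35)

`ShStatement p S` (see `BaseTargetFinal.lean`) is obtained from ONE term of
`helper53.ShTransportP` for
`L := L`, `φ := evPairing (permRep k U) χ`, `L' := D.localData hU`, `φ' := mulPairing k U`,
`tr' := tr ∘ₗ D.corCone χ hU`, with `s_i :=` helper62's `piU`, `shA₁`, `shA₂` and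
`P_n :=` helper62's `pB₁ pB₂ pB₃`.

This file proves the assembly for general `(k, G, L, χ, U, D)`, with the fields of
`ShTransportP` that concern the coinduction maps `pB_n` collected in the structure `ShOpenFields`
(fields proved in other files are plugged in by the final wrapper).
-/

set_option autoImplicit false

open groupCohomology

noncomputable section

namespace Fermat.Agent.S55.helper35

open Fermat.Agent.S55 Fermat.Agent.S55.helper62

variable {k G : Type} [Field k] [Group G] {𝒩 : Levels G} {ι : Type} {L : LocalData G 𝒩 ι}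
  {U : Subgroup G} [Finite (G ⧸ U)]

/-- The fields of `helper53.ShTransportP` about the coinduction maps `pB_n`
(membership, coboundaries, surjectivity in cohomology and the projection formula `pf21`). -/
structure ShOpenFields (χ : G →* kˣ) (D : ShData L U) (hU : ∃ N ∈ 𝒩.mem, N ≤ U)
    (tr : CcAmb3 L (ofChar χ) →ₗ[k] k) : Prop where
  P1_mem : ∀ y' ∈ Zc1 (D.localData hU) (trivRep k ↥U), pB₁ χ D hU y' ∈ Zc1 L (Bp k U χ)
  P2_mem : ∀ y' ∈ Zc2 (D.localData hU) (trivRep k ↥U), pB₂ χ D hU y' ∈ Zc2 L (Bp k U χ)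
  P3_mem : ∀ y' ∈ Zc3 (D.localData hU) (trivRep k ↥U), pB₃ χ D hU y' ∈ Zc3 L (Bp k U χ)
  P2_bdry : ∀ y' ∈ Bc2 (D.localData hU) (trivRep k ↥U), pB₂ χ D hU y' ∈ Bc2 L (Bp k U χ)
  P3_bdry : ∀ y' ∈ Bc3 (D.localData hU) (trivRep k ↥U), pB₃ χ D hU y' ∈ Bc3 L (Bp k U χ)
  P2_surj : ∀ y ∈ Zc2 L (Bp k U χ), ∃ y' ∈ Zc2 (D.localData hU) (trivRep k ↥U),
    y - pB₂ χ D hU y' ∈ Bc2 L (Bp k U χ)
  P3_surj : ∀ y ∈ Zc3 L (Bp k U χ), ∃ y' ∈ Zc3 (D.localData hU) (trivRep k ↥U),
    y - pB₃ χ D hU y' ∈ Bc3 L (Bp k U χ)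
  pf21 : ∀ x ∈ Z2 𝒩 (permRep k U), ∀ y' ∈ Zc1 (D.localData hU) (trivRep k ↥U),
    tr (cupc₂₁ L (evPairing (permRep k U) χ) x (pB₁ χ D hU y'))
      = (tr ∘ₗ D.corCone χ hU)
          (cupc₂₁ (D.localData hU) (mulPairing k ↥U) (shA₂ k U x) y')

/-- THE TRANSPORT DATUM of module SH. -/
def shTransportP (χ : G →* kˣ) (D : ShData L U) (hU : ∃ N ∈ 𝒩.mem, N ≤ U)
    (tr : CcAmb3 L (ofChar χ) →ₗ[k] k) (htr : ∀ c ∈ Bc3 L (ofChar χ), tr c = 0)
    (hχ : ∀ g ∈ U, χ g = 1) (h : ShOpenFields χ D hU tr) :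
    helper53.ShTransportP L (evPairing (permRep k U) χ) tr
      (D.localData hU) (mulPairing k ↥U) (tr ∘ₗ D.corCone χ hU) where
  s0 := piU k U
  s1 := shA₁ k U
  s2 := shA₂ k U
  P1 := pB₁ χ D hU
  P2 := pB₂ χ D hU
  P3 := pB₃ χ D hU
  s0_mem := fun a _ => fun _ => rfl
  s1_mem := fun x hx => shA₁_mem_Z1 hU hx
  s2_mem := fun x hx => shA₂_mem_Z2 hU hx
  s0_surj := fun a' _ => by
    refine ⟨a' • normElt k U, Submodule.smul_mem _ _ normElt_mem_H0, ?_⟩
    have h1 : piU k U (normElt k U) = 1 := by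
      have := piU_rho_normElt (k := k) (U := U) (1 : G)
      rwa [map_one] at this
    rw [map_smul, h1]
    exact mul_one a'
  s1_inj := fun x hx hB => shA_inj₁ hx hB
  s1_surj := fun x' hx' => by
    obtain ⟨x, hx, e⟩ := shA_surj₁ hU hx'
    exact ⟨x, hx, by rw [e, sub_self]; exact Submodule.zero_mem _⟩
  s2_inj := fun x hx hB => shA_inj₂ hU hx hB
  P1_mem := h.P1_mem
  P2_mem := h.P2_mem
  P3_mem := h.P3_mem
  P2_bdry := h.P2_bdry
  P3_bdry := h.P3_bdry
  P2_surj := h.P2_surj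
  P3_surj := h.P3_surj
  pf03 := fun a ha y' _ => pf03 χ D hU tr ha y'
  pf12 := fun x hx y' hy' => pf12 χ D hU tr htr hχ hx hy'
  pf21 := h.pf21

/-- `B = k[G/U]^*(χ)` is smooth (`χ|U = 1`, `U` contains a level). -/
lemma isSmooth_Bp (χ : G →* kˣ) (hU : ∃ N ∈ 𝒩.mem, N ≤ U) (hχ : ∀ g ∈ U, χ g = 1) :
    IsSmooth 𝒩 (Bp k U χ) := by
  obtain ⟨N, hN, hle⟩ := hU
  have hNn : N.Normal := 𝒩.normal N hN
  refine isSmooth_dualTwist ⟨N, hN, fun g hg => hχ g (hle hg)⟩ ⟨N, hN, fun s hs a => ?_⟩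
  exact helper57.ofMulAction_trivial_of_mem hle hs a

/-- the augmentation `k(χ) → k[G/U]^*(χ)`, `c ↦ c • (sum of the coefficients)` -/
def augB (χ : G →* kˣ) : EqHom (ofChar χ) (Bp k U χ) where
  f := LinearMap.toSpanSingleton k (Bp k U χ) (dualOf χ (fun _ => (1 : k)))
  comm g c := by
    apply h62_dual_ext χ
    intro x
    show ((((χ g : k) • c : k) • (dualOf χ (fun _ => (1 : k)) : Bp k U χ) : Bp k U χ) :
        Module.Dual k (permRep k U)) (MonoidAlgebra.single x 1)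
      = (((Bp k U χ).ρ g (c • (dualOf χ (fun _ => (1 : k)) : Bp k U χ)) : Bp k U χ) :
        Module.Dual k (permRep k U)) (MonoidAlgebra.single x 1)
    rw [Rep.dualTwist_ρ_apply]
    show ((χ g : k) • c) • (dualOf χ (fun _ => (1 : k)) : Module.Dual k (permRep k U))
        (MonoidAlgebra.single x 1)
      = (χ g : k) • (c • (dualOf χ (fun _ => (1 : k)) : Module.Dual k (permRep k U))
        ((permRep k U).ρ g⁻¹ (MonoidAlgebra.single x 1)))
    have e : (permRep k U).ρ g⁻¹ (MonoidAlgebra.single x 1)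
        = MonoidAlgebra.single (g⁻¹ • x) (1 : k) := by
      exact Representation.ofMulAction_single _ _ _
    rw [e, dualOf_single, dualOf_single, smul_smul]
    rfl

/-- THE ASSEMBLY of module SH for general `(k, G, L, χ, U, D)`. -/
theorem shStatement_of (χ : G →* kˣ) (D : ShData L U) (hU : ∃ N ∈ 𝒩.mem, N ≤ U)
    (tr : CcAmb3 L (ofChar χ) →ₗ[k] k) (htr : ∀ c ∈ Bc3 L (ofChar χ), tr c = 0)
    (hχ : ∀ g ∈ U, χ g = 1) (h : ShOpenFields χ D hU tr) :
    (∀ y ∈ Bc3 (D.localData hU) (trivRep k ↥U), (tr ∘ₗ D.corCone χ hU) y = 0) ∧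
    ((Nat.card (G ⧸ U) : k) ≠ 0 → (∃ z ∈ Zc3 L (ofChar χ), tr z ≠ 0) →
      ∃ y ∈ Zc3 (D.localData hU) (trivRep k ↥U), (tr ∘ₗ D.corCone χ hU) y ≠ 0) ∧
    (Claim (D.localData hU) (mulPairing k ↥U) (tr ∘ₗ D.corCone χ hU) →
      Claim L (evPairing (permRep k U) χ) tr) := by
  have h1 := helper38.tr_corCone_eq_zero L χ tr U hU D htr hχ
  refine ⟨h1, fun hcard hz => ?_, fun hC => ?_⟩
  · refine (shTransportP χ D hU tr htr hχ h).exists_ne_zero htr (normElt_mem_H0 (k := k) (U := U))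
      (augB χ) (Nat.card (G ⧸ U) : k) hcard (fun c => ?_) hz
    classical
    letI : Fintype (G ⧸ U) := Fintype.ofFinite _
    show ((c • (dualOf χ (fun _ => (1 : k)) : Bp k U χ) : Bp k U χ) :
        Module.Dual k (permRep k U)) (normElt k U) = (Nat.card (G ⧸ U) : k) • c
    show c • (dualOf χ (fun _ => (1 : k)) : Module.Dual k (permRep k U)) (normElt k U)
      = (Nat.card (G ⧸ U) : k) • c
    rw [dualOf_normElt, Finset.sum_const, Finset.card_univ, Nat.card_eq_fintype_card,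
      nsmul_eq_mul, mul_one, smul_eq_mul, smul_eq_mul, mul_comm]
  · exact (shTransportP χ D hU tr htr hχ h).claim (isSmooth_Bp χ hU hχ) htr h1 hC

/-- `ShStatement p S` from the open fields (for `G_ℚ`, `galLocal S`, the cyclotomic character). -/
theorem shStatement_of_fields (p : ℕ) [Fact p.Prime] (S : Finset Nat.Primes)
    (h : ∀ (tr : CcAmb3 (galLocal S) (ofChar (k := ZMod p) (ExtCitation.cycloChar p))
        →ₗ[ZMod p] ZMod p)
      (U : Subgroup GQ) (hU : ∃ N ∈ (galLevels S).mem, N ≤ U)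
      [Finite (GQ ⧸ U)] (D : ShData (galLocal S) U),
      (∀ c ∈ Bc3 (galLocal S) (ofChar (k := ZMod p) (ExtCitation.cycloChar p)), tr c = 0) →
      (∀ g ∈ U, ExtCitation.cycloChar p g = 1) →
      ShOpenFields (ExtCitation.cycloChar p) D hU tr) :
    ShStatement p S :=
  fun tr U hU _ D htr hχ =>
    shStatement_of (ExtCitation.cycloChar p) D hU tr htr hχ (h tr U hU D htr hχ)

end Fermat.Agent.S55.helper35
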