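import Fermat.Agent.S55.helper78_G9Defs
import Fermat.Agent.S55.helper73_IdlBasic
import Fermat.Agent.S55.helper96_CyclicNorm

/-!
# S55 / GLOB-G9-C (helper37, task 405), part 1: abstract lemmas and idele class lemmas

* `exists_smul_div_eq_pow_card` : for a finite cyclic group `G = ⟨σ⟩` acting on `M`, an element
  of norm one has its `|G|`-th power in `(σ - 1) M` (= interface A1 `exists_pow_card_eq_of_norm`).
* `exists_smul_div_eq_of_coprime` : Bezout step.
* `smul_ideleClass_congr`, `smul_smul_ideleClass_comm` : the action of `Gal(L/K)` on `C_L` only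
  depends on the underlying ring automorphism.
* `smul_bcClass_of_comm` : general equivariance of base change `C_M → C_L`.
* `bcClass_injective_of_isGalois` : `C_M → C_L` is injective for Galois `L/M`.
* `exists_bcClass_eq_of_fixed` : fixed classes come from `C_M`.
-/

set_option autoImplicit false

open scoped TensorProduct NumberField
open groupCohomology

namespace Fermat.Agent.S55.helper37

open Fermat.Agent.S55.helper73 Fermat.Agent.S55.helper78 Fermat.Agent.S55.helper96

section abstract

variable {G M : Type*} [Group G] [CommGroup M] [MulDistribMulAction G M]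

theorem smul_normProd_eq (σ : G) (x : M) (k : ℕ) :
    σ • normProd σ x k = normProd σ x k * ((σ ^ k) • x / x) := by
  have h1 := normProd_add (φ := σ) x 1 k
  have h2 := normProd_add (φ := σ) x k 1
  have h3 : normProd σ x 1 = x := by simp [normProd]
  rw [add_comm 1 k, h2, h3, pow_one] at h1
  -- h1 : normProd k * σ^k • x = x * σ • normProd k
  rw [mul_div_assoc', h1, mul_comm x, mul_div_assoc, div_self', mul_one]

theorem smul_prod_normProd (σ : G) (x : M) (n : ℕ) :
    σ • (∏ k ∈ Finset.range n, normProd σ x k) =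
      (∏ k ∈ Finset.range n, normProd σ x k) * (normProd σ x n / x ^ n) := by
  rw [Finset.smul_prod']
  simp_rw [smul_normProd_eq]
  rw [Finset.prod_mul_distrib, Finset.prod_div_distrib, Finset.prod_const, Finset.card_range]
  rfl

/-- Interface A1 (`exists_pow_card_eq_of_norm`): for cyclic `G` of order `n`, an element of norm
`1` has its `n`-th power in `(σ - 1) M`. -/
theorem exists_smul_div_eq_pow_card [Fintype G] (σ : G)
    (hσ : ∀ τ : G, τ ∈ Subgroup.zpowers σ)
    (x : M) (hx : normG G M x = 1) : ∃ y : M, σ • y / y = x ^ Fintype.card G := by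
  have hcard : orderOf σ = Fintype.card G := by
    rw [← Nat.card_eq_fintype_card]
    exact orderOf_eq_card_of_forall_mem_zpowers hσ
  have hN : normProd σ x (orderOf σ) = 1 := by
    rw [← hx, normG_apply, prod_univ_eq_prod_range hσ]
    rfl
  refine ⟨(∏ k ∈ Finset.range (orderOf σ), normProd σ x k)⁻¹, ?_⟩
  have key : ∀ W X : M, (W * (1 / X))⁻¹ / W⁻¹ = X := by
    intro W X
    rw [one_div, mul_inv, inv_inv, div_eq_mul_inv, inv_inv, mul_comm W⁻¹ X, mul_assoc,
      inv_mul_cancel, mul_one]
  rw [smul_inv', smul_prod_normProd, hN, key, hcard]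

/-- Bezout step: if `x ^ d` and `x ^ n` are in `(σ - 1) M` and `d`, `n` are coprime, then so
is `x`. -/
theorem exists_smul_div_eq_of_coprime (σ : G) (x : M) (d n : ℕ) (hcop : Nat.Coprime d n)
    (h1 : ∃ y : M, σ • y / y = x ^ d) (h2 : ∃ z : M, σ • z / z = x ^ n) :
    ∃ w : M, σ • w / w = x := by
  have hd : x ^ d ∈ (deltaHom M σ).range := h1
  have hn : x ^ n ∈ (deltaHom M σ).range := h2
  have hx : x ∈ (deltaHom M σ).range := by
    have hb := Nat.gcd_eq_gcd_ab d n
    rw [hcop.gcd_eq_one] at hb
    have e : x = (x ^ d) ^ (Nat.gcdA d n) * (x ^ n) ^ (Nat.gcdB d n) := by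
      rw [← zpow_natCast x d, ← zpow_natCast x n, ← zpow_mul, ← zpow_mul, ← zpow_add, ← hb]
      simp
    rw [e]
    exact mul_mem (zpow_mem hd _) (zpow_mem hn _)
  exact hx

end abstract

section semilocal

variable (q : ℕ) [Fact q.Prime]

/-- the action on the semilocal algebra only depends on the underlying map -/
theorem galSemiLocAut_congr {L : Type*} [Field L] [CharZero L]
    {K₁ K₂ : Type*} [Field K₁] [Field K₂] [Algebra K₁ L] [Algebra K₂ L]
    (a : L ≃ₐ[K₁] L) (b : L ≃ₐ[K₂] L) (h : ∀ z : L, a z = b z) (x : SemiLoc q L) :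
    galSemiLocAut q L K₁ a x = galSemiLocAut q L K₂ b x := by
  induction x using TensorProduct.induction_on with
  | zero => simp
  | tmul u v => rw [galSemiLocAut_tmul, galSemiLocAut_tmul, h]
  | add x y hx hy => rw [map_add, map_add, hx, hy]

theorem galSemiLocAut_comm {L : Type*} [Field L] [CharZero L]
    {K₁ K₂ : Type*} [Field K₁] [Field K₂] [Algebra K₁ L] [Algebra K₂ L]
    (a : L ≃ₐ[K₁] L) (b : L ≃ₐ[K₂] L) (h : ∀ z : L, a (b z) = b (a z)) (x : SemiLoc q L) :
    galSemiLocAut q L K₁ a (galSemiLocAut q L K₂ b x) =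
      galSemiLocAut q L K₂ b (galSemiLocAut q L K₁ a x) := by
  induction x using TensorProduct.induction_on with
  | zero => simp
  | tmul u v => simp only [galSemiLocAut_tmul, h]
  | add x y hx hy => simp only [map_add, hx, hy]

theorem galSemiLocAut_bc {M L : Type*} [Field M] [CharZero M] [Field L] [CharZero L]
    [Algebra M L] {K₁ K₂ : Type*} [Field K₁] [Field K₂] [Algebra K₁ L] [Algebra K₂ M]
    (τ : L ≃ₐ[K₁] L) (g : M ≃ₐ[K₂] M)
    (h : ∀ b : M, τ (algebraMap M L b) = algebraMap M L (g b)) (x : SemiLoc q M) :
    galSemiLocAut q L K₁ τ (bc M L q x) = bc M L q (galSemiLocAut q M K₂ g x) := by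
  induction x using TensorProduct.induction_on with
  | zero => simp
  | tmul u v => rw [bc_tmul, galSemiLocAut_tmul, galSemiLocAut_tmul, bc_tmul, h]
  | add x y hx hy => simp only [map_add, hx, hy]

end semilocal

section ideleClass

theorem smul_ideleClass_congr {L : Type*} [Field L] [CharZero L]
    {K₁ K₂ : Type*} [Field K₁] [Field K₂] [Algebra K₁ L] [Algebra K₂ L]
    (a : L ≃ₐ[K₁] L) (b : L ≃ₐ[K₂] L) (h : ∀ z : L, a z = b z) (c : IdeleClass L) :
    a • c = b • c := by
  induction c using QuotientGroup.induction_on with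
  | H x =>
    rw [smul_mk, smul_mk]
    congr 1
    apply Subtype.ext
    funext r
    apply Units.ext
    exact galSemiLocAut_congr (r : ℕ) a b h _

theorem smul_smul_ideleClass_comm {L : Type*} [Field L] [CharZero L]
    {K₁ K₂ : Type*} [Field K₁] [Field K₂] [Algebra K₁ L] [Algebra K₂ L]
    (a : L ≃ₐ[K₁] L) (b : L ≃ₐ[K₂] L) (h : ∀ z : L, a (b z) = b (a z)) (c : IdeleClass L) :
    a • b • c = b • a • c := by
  induction c using QuotientGroup.induction_on with
  | H x =>
    rw [smul_mk, smul_mk, smul_mk, smul_mk]
    congr 1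
    apply Subtype.ext
    funext r
    apply Units.ext
    exact galSemiLocAut_comm (r : ℕ) a b h _

/-- General equivariance of base change on idele classes. -/
theorem smul_bcClass_of_comm {M L : Type*} [Field M] [CharZero M] [Field L] [CharZero L]
    [Algebra M L] {K₁ K₂ : Type*} [Field K₁] [Field K₂] [Algebra K₁ L] [Algebra K₂ M]
    (τ : L ≃ₐ[K₁] L) (g : M ≃ₐ[K₂] M)
    (h : ∀ b : M, τ (algebraMap M L b) = algebraMap M L (g b)) (c : IdeleClass M) :
    τ • bcClass M L c = bcClass M L (g • c) := by
  induction c using QuotientGroup.induction_on with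
  | H x =>
    rw [bcClass_mk, smul_mk, smul_mk, bcClass_mk]
    congr 1
    apply Subtype.ext
    funext r
    apply Units.ext
    exact galSemiLocAut_bc (r : ℕ) τ g h _

/-- Base-changed classes are fixed by `Gal(L/M)`. -/
theorem smul_bcClass {M L : Type*} [Field M] [CharZero M] [Field L] [CharZero L]
    [Algebra M L] (τ : L ≃ₐ[M] L) (c : IdeleClass M) :
    τ • bcClass M L c = bcClass M L c := by
  have h := smul_bcClass_of_comm (K₂ := M) τ (1 : M ≃ₐ[M] M) (fun b => by simp) c
  rwa [one_smul] at h

variable (M L : Type*) [Field M] [NumberField M] [Field L] [NumberField L] [Algebra M L]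

theorem bcIdele_injective : Function.Injective (bcIdele M L) := by
  intro x y h
  apply Subtype.ext
  funext r
  apply bcUnits_injective M L (r : ℕ)
  have := congrArg (fun z : Idele L => (z : IdelePi L) r) h
  exact this

variable [IsGalois M L]

/-- `C_M → C_L` is injective for a Galois extension `L/M` of number fields
(= interface G9-B `bcClass_injective`). -/
theorem bcClass_injective_of_isGalois : Function.Injective (bcClass M L) := by
  rw [injective_iff_map_eq_one]
  intro c hc
  induction c using QuotientGroup.induction_on with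
  | H x =>
    rw [bcClass_mk, QuotientGroup.eq_one_iff, mem_principalSub_iff] at hc
    obtain ⟨z, hz⟩ := hc
    -- `z` is fixed by the Galois group
    have hfix : ∀ σ : L ≃ₐ[M] L, σ • z = z := by
      intro σ
      apply principalIdele_injective L
      rw [← smul_principalIdele, hz]
      apply Subtype.ext
      funext r
      apply Units.ext
      exact smul_bc M L (r : ℕ) σ _
    have hz' : ∀ σ : L ≃ₐ[M] L, σ (z : L) = (z : L) := fun σ => by
      have := congrArg Units.val (hfix σ)
      simpa using this
    obtain ⟨y, hy⟩ := (IsGalois.mem_range_algebraMap_iff_fixed (F := M) (E := L) (z : L)).mpr hz'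
    have hy0 : y ≠ 0 := by
      rintro rfl
      rw [map_zero] at hy
      exact z.ne_zero hy.symm
    have hzy : Units.map (algebraMap M L : M →* L) (Units.mk0 y hy0) = z := by
      ext
      simpa using hy
    rw [QuotientGroup.eq_one_iff, mem_principalSub_iff]
    refine ⟨Units.mk0 y hy0, ?_⟩
    apply bcIdele_injective M L
    rw [bcIdele_principalIdele, hzy, hz]

/-- Fixed classes of `C_L` come from `C_M`. -/
theorem exists_bcClass_eq_of_fixed (c : IdeleClass L) (hc : ∀ σ : L ≃ₐ[M] L, σ • c = c) :
    ∃ b : IdeleClass M, bcClass M L b = c := by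
  obtain ⟨y, hy⟩ := exists_bcIdele_of_fixed_class M L c hc
  exact ⟨QuotientGroup.mk y, by rw [bcClass_mk, hy]⟩

end ideleClass

end Fermat.Agent.S55.helper37
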