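import Fermat.Agent.S55.helper37_G9CAbs

/-!
# S55 / GLOB-G9-C (helper37, task 405), part 2: the cyclotomic tower

`L/K` Galois, `L' = L(ζ_p)` a cyclotomic extension of `L`, `K' ⊆ L'` an intermediate field of
`L'/K` containing `ζ_p`.

* `ringHom_eq_of_cyclotomic` : ring homs on `L'` agreeing on `L` and `ζ` are equal;
* `isGalois_of_cyclotomic` : `L'/K` is Galois;
* `finrank_adjoin_primitiveRoot_le` : `[K(ζ) : K] ≤ p - 1`;
* `resHom K L L' K'` : restriction `Gal(L'/K') → Gal(L/K)`, `resHom_injective`.
-/

set_option autoImplicit false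
set_option linter.style.haveILetI false
set_option linter.unusedSectionVars false

open scoped NumberField
open Polynomial IntermediateField

namespace Fermat.Agent.S55.helper37

universe u v

section generation

variable (L L' : Type*) [Field L] [Field L'] [Algebra L L'] (p : ℕ) [NeZero p]
  [IsCyclotomicExtension {p} L L']

/-- Ring homomorphisms on a cyclotomic extension `L' = L(ζ)` agreeing on `L` and on `ζ` are
equal. -/
theorem ringHom_eq_of_cyclotomic {ζ : L'} (hζ : IsPrimitiveRoot ζ p) {R : Type*} [Semiring R]
    (a b : L' →+* R) (hL : ∀ l : L, a (algebraMap L L' l) = b (algebraMap L L' l))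
    (hz : a ζ = b ζ) (z : L') : a z = b z := by
  let E : Subalgebra L L' :=
    { carrier := {z | a z = b z}
      mul_mem' := fun {x y} hx hy => by
        simp only [Set.mem_ofPred_eq] at hx hy ⊢
        rw [map_mul, map_mul, hx, hy]
      one_mem' := by simp
      add_mem' := fun {x y} hx hy => by
        simp only [Set.mem_ofPred_eq] at hx hy ⊢
        rw [map_add, map_add, hx, hy]
      zero_mem' := by simp
      algebraMap_mem' := hL }
  have h : Algebra.adjoin L ({ζ} : Set L') ≤ E := Algebra.adjoin_le (by
    intro w hw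
    rw [Set.mem_singleton_iff] at hw
    subst hw
    exact hz)
  rw [IsCyclotomicExtension.adjoin_primitive_root_eq_top hζ] at h
  exact h (Algebra.mem_top (x := z))

end generation

section galois

variable (K : Type u) (L L' : Type v) [Field K] [NumberField K] [Field L] [NumberField L]
  [Field L'] [NumberField L'] [Algebra K L] [Algebra L L'] [Algebra K L'] [IsScalarTower K L L']
  [IsGalois K L] (p : ℕ) [NeZero p] [IsCyclotomicExtension {p} L L']

include L p in
/-- A cyclotomic extension of a Galois extension of `K` is Galois over `K`. -/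
theorem isGalois_of_cyclotomic : IsGalois K L' := by
  haveI : FiniteDimensional K L := Module.Finite.of_restrictScalars_finite ℚ K L
  haveI : FiniteDimensional K L' := Module.Finite.of_restrictScalars_finite ℚ K L'
  obtain ⟨f, hf⟩ := Normal.exists_isSplittingField K L
  -- make the polynomial nonzero
  obtain ⟨f', hf'0, hf'⟩ : ∃ f' : K[X], f' ≠ 0 ∧ IsSplittingField K L f' := by
    by_cases h0 : f = 0
    · subst h0
      refine ⟨1, one_ne_zero, ⟨by simp, ?_⟩⟩
      have h1 := hf.adjoin_rootSet'
      simpa [rootSet] using h1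
    · exact ⟨f, h0, hf⟩
  haveI := hf'
  haveI : IsSplittingField L L' ((cyclotomic p K).map (algebraMap K L)) := by
    rw [map_cyclotomic]
    exact IsCyclotomicExtension.splitting_field_cyclotomic p L L'
  haveI : IsSplittingField K L' (f' * cyclotomic p K) :=
    IsSplittingField.mul (K := L) L' f' (cyclotomic p K) hf'0 (cyclotomic_ne_zero p K)
  haveI : Normal K L' := Normal.of_isSplittingField (f' * cyclotomic p K)
  exact ⟨⟩

omit [NumberField L] [NumberField L'] [IsGalois K L] [NumberField K] [IsCyclotomicExtension {p} L L'] in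
include L in
/-- `[K(ζ) : K] ≤ p - 1` for a primitive `p`-th root of unity `ζ`, `p` prime. -/
theorem finrank_adjoin_primitiveRoot_le (hp : p.Prime) {ζ : L'} (hζ : IsPrimitiveRoot ζ p) :
    Module.finrank K K⟮ζ⟯ ≤ p - 1 := by
  have hint : IsIntegral K ζ := (hζ.isIntegral hp.pos).tower_top (R := ℤ)
  rw [IntermediateField.adjoin.finrank hint]
  have hroot : aeval ζ (cyclotomic p K) = 0 := by
    rw [aeval_def, eval₂_eq_eval_map, map_cyclotomic]
    exact hζ.isRoot_cyclotomic hp.pos
  have hdvd := minpoly.dvd K ζ hroot
  have h1 := natDegree_le_of_dvd hdvd (cyclotomic_ne_zero p K)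
  rwa [natDegree_cyclotomic, Nat.totient_prime hp] at h1

end galois

section restriction

variable (K : Type u) (L L' : Type v) [Field K] [Field L]
  [Field L'] [Algebra K L] [Algebra L L'] [Algebra K L'] [IsScalarTower K L L']
  [Normal K L] (K' : IntermediateField K L')

/-- Restriction `Gal(L'/K') → Gal(L/K)`. -/
noncomputable def resHom : Gal(L'/K') →* Gal(L/K) :=
  (AlgEquiv.restrictNormalHom L).comp (AlgEquiv.restrictScalarsHom K)

theorem resHom_commutes (τ : Gal(L'/K')) (l : L) :
    τ (algebraMap L L' l) = algebraMap L L' (resHom K L L' K' τ l) :=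
  (AlgEquiv.restrictNormal_commutes (τ.restrictScalars K) L l).symm

variable (p : ℕ) [NeZero p] [IsCyclotomicExtension {p} L L']

theorem resHom_injective {ζ : L'} (hζ : IsPrimitiveRoot ζ p) (hζK' : ζ ∈ K') :
    Function.Injective (resHom K L L' K') := by
  rw [injective_iff_map_eq_one]
  intro τ hτ
  apply AlgEquiv.ext
  intro z
  refine ringHom_eq_of_cyclotomic L L' p hζ (τ : L' →+* L') (RingHom.id L') (fun l => ?_) ?_ z
  · have := resHom_commutes K L L' K' τ l
    rw [hτ] at this
    exact this
  · exact τ.commutes (⟨ζ, hζK'⟩ : K')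

end restriction

end Fermat.Agent.S55.helper37
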