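/-
helper39, S55 module B, package B-AR-SHA-L-LOC0 (task 683): the Kummer 2-cocycle `z` (with
`d b = ζ ^ z`, `b g ^ p = g β / β`) is locally a level coboundary.

Proof: choose `β'` in `ℚbar` with `β' ^ p = β`; for `σ ∈ U = Gal(ℚbar / F)` the element
`b (res σ) β' / σ β'` is a `p`-th root of unity `ζ ^ u σ`; then `z ∘ res = d u` on `U`, and `u` is
constant on the cosets of the fixing subgroup of the normal closure of `ℚ(β', α)` (`α` a
primitive element of `E / F`), which contains a local level at every `w`.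
-/
import Fermat.Agent.S55.helper59_BDic
import Fermat.Agent.S55.helper60_BArDicL

set_option autoImplicit false
set_option linter.unusedSectionVars false
set_option linter.unusedVariables false
set_option linter.style.haveILetI false

open groupCohomology ExtCitation
open scoped NumberField
open IsDedekindDomain

noncomputable section

namespace Fermat.Agent.S55.helper39

open Fermat.Agent.S55 Fermat.Agent.S55.helper59

local notation "Qbar" => AlgebraicClosure ℚ

attribute [local instance] helper69.isAlgebraic_Qbar helper69.isAlgClosure_Qbar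
  helper69.normal_Qbar

section Core

variable {k Ω : Type*} [Field k] [Field Ω] [Algebra k Ω] {U : Type*} [Group U] {p : ℕ}
  [Fact p.Prime]

/-- **Kummer primitive** (pure algebra): if `b σ ^ p = σ β / β`, `β = β' ^ p` and
`d b = ζ ^ z`, then `z = d u` with `ζ ^ u σ = b σ β' / σ β'`. -/
theorem exists_kummer_primitive_core (φ : U →* (Ω ≃ₐ[k] Ω)) (ζ : Ω) (hζ : IsPrimitiveRoot ζ p)
    (hζfix : ∀ σ : U, φ σ ζ = ζ) (β' : Ω) (hβ' : β' ≠ 0)
    (b : U → Ω)
    (hb : ∀ σ, b σ ^ p = φ σ (β' ^ p) / β' ^ p)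
    (z : U × U → ZMod p)
    (hz : ∀ σ τ, φ σ (b τ) * b σ / b (σ * τ) = ζ ^ (z (σ, τ)).val) :
    ∃ u : U → ZMod p, (∀ σ τ, z (σ, τ) = u τ - u (σ * τ) + u σ) ∧
      ∀ σ s : U, φ s β' = β' → b (σ * s) = b σ → u (σ * s) = u σ := by
  classical
  have hp : 0 < p := (Fact.out : p.Prime).pos
  have : NeZero p := ⟨hp.ne'⟩
  have hφβ' : ∀ σ : U, φ σ β' ≠ 0 := fun σ => by
    rw [Ne, map_eq_zero_iff (φ σ) (φ σ).injective]
    exact hβ'
  -- the root of unity `y σ = b σ β' / σ β'`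
  have hy : ∀ σ : U, (b σ * β' / φ σ β') ^ p = 1 := by
    intro σ
    rw [div_pow, mul_pow, hb σ, map_pow]
    have h1 : β' ^ p ≠ 0 := pow_ne_zero _ hβ'
    have h2 : φ σ β' ^ p ≠ 0 := pow_ne_zero _ (hφβ' σ)
    field_simp
  have hex : ∀ σ : U, ∃ i : ℕ, i < p ∧ ζ ^ i = b σ * β' / φ σ β' := fun σ =>
    hζ.eq_pow_of_pow_eq_one (hy σ)
  choose i hi_lt hi using hex
  refine ⟨fun σ => (i σ : ZMod p), ?_, ?_⟩
  · intro σ τ
    -- compare powers of `ζ`
    have hbσ : ∀ σ : U, b σ = ζ ^ i σ * φ σ β' / β' := by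
      intro σ
      rw [hi σ]
      have := hφβ' σ
      field_simp
    have h1 := hz σ τ
    have hζpow : ∀ n : ℕ, φ σ (ζ ^ n) = ζ ^ n := fun n => by rw [map_pow, hζfix]
    have h2 : φ σ (b τ) = ζ ^ i τ * φ (σ * τ) β' / φ σ β' := by
      rw [hbσ τ, map_div₀, map_mul, hζpow, map_mul]
      rfl
    have h3 : ζ ^ (z (σ, τ)).val * ζ ^ i (σ * τ) = ζ ^ i τ * ζ ^ i σ := by
      rw [← h1, h2, hbσ σ, hbσ (σ * τ)]
      have e1 := hφβ' σ
      have e2 := hφβ' (σ * τ)
      have e3 : ζ ^ i (σ * τ) ≠ 0 := pow_ne_zero _ (hζ.ne_zero hp.ne')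
      field_simp
    rw [← pow_add, ← pow_add] at h3
    have hfin : IsOfFinOrder ζ := isOfFinOrder_iff_pow_eq_one.mpr ⟨p, hp, hζ.pow_eq_one⟩
    have h4 := hfin.pow_eq_pow_iff_modEq.mp h3
    rw [← hζ.eq_orderOf] at h4
    have h5 := (ZMod.natCast_eq_natCast_iff _ _ p).mpr h4
    push_cast at h5
    rw [ZMod.natCast_zmod_val] at h5
    show z (σ, τ) = (i τ : ZMod p) - (i (σ * τ) : ZMod p) + (i σ : ZMod p)
    linear_combination h5
  · intro σ s hs hbs
    have h1 : ζ ^ i (σ * s) = ζ ^ i σ := by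
      rw [hi, hi, hbs, map_mul, AlgEquiv.mul_apply, hs]
    have h2 := hζ.pow_inj (hi_lt _) (hi_lt _) h1
    show ((i (σ * s) : ℕ) : ZMod p) = (i σ : ZMod p)
    rw [h2]

end Core

section Global

variable {p : ℕ} [Fact p.Prime] {S : Finset Nat.Primes} {F : IntermediateField ℚ Qbar}
  [NumberField ↥F] {𝒩 : Levels (UF F)} {ι : Type} [Fintype ι]
  {L : LocalData (UF F) 𝒩 ι}

set_option maxHeartbeats 3200000 in
set_option synthInstance.maxHeartbeats 400000 in
/-- the global Kummer primitive of `z ∘ res`. -/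
theorem exists_kummer_primitive (ζ : (↥F)ˣ) (hζ : IsPrimitiveRoot ζ p)
    (E : IntermediateField ↥F Qbar) [FiniteDimensional ↥F ↥E] [IsGalois ↥F ↥E]
    (β : (↥E)ˣ) (b : (E ≃ₐ[↥F] E) → (↥E)ˣ) (hb : ∀ g, b g ^ p = g • β / β)
    (z : (E ≃ₐ[↥F] E) × (E ≃ₐ[↥F] E) → ZMod p)
    (hz : ∀ g h, g • b h * b g / b (g * h) =
      (Units.map (algebraMap ↥F ↥E : ↥F →* ↥E) ζ) ^ (z (g, h)).val) :
    ∃ (β' : Qbar) (u : UF F → ZMod p),
      (∀ σ τ : UF F, z (resFix F E σ, resFix F E τ) = u τ - u (σ * τ) + u σ) ∧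
      ∀ σ s : UF F, (s : GQ) β' = β' → resFix F E s = 1 → u (σ * s) = u σ := by
  have hp : 0 < p := (Fact.out : p.Prime).pos
  obtain ⟨β', hβ'⟩ := IsAlgClosed.exists_pow_nat_eq (((β : ↥E) : Qbar)) hp
  have hβ0 : (((β : ↥E) : Qbar)) ≠ 0 := by
    have h0 : ((β : ↥E)) ≠ 0 := β.ne_zero
    intro h
    exact h0 (Subtype.ext h)
  have hβ'0 : β' ≠ 0 := by
    rintro rfl
    rw [zero_pow hp.ne'] at hβ'
    exact hβ0 hβ'.symm
  have hζQ : IsPrimitiveRoot (algebraMap ↥F Qbar (ζ : ↥F)) p :=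
    (IsPrimitiveRoot.coe_units_iff.mpr hζ).map_of_injective (algebraMap ↥F Qbar).injective
  have hfix : ∀ σ : UF F, (F.fixingSubgroup.subtype σ) (algebraMap ↥F Qbar (ζ : ↥F))
      = algebraMap ↥F Qbar (ζ : ↥F) := by
    intro σ
    exact (IntermediateField.mem_fixingSubgroup_iff F _).mp σ.2 _ (ζ : ↥F).2
  have hcoe : ∀ (g : E ≃ₐ[↥F] E) (x : (↥E)ˣ), ((g • x : (↥E)ˣ) : ↥E) = g (x : ↥E) :=
    fun g x => rfl
  -- translation of the hypotheses into `Qbar`
  have hbQ : ∀ σ : UF F, (((b (resFix F E σ) : (↥E)ˣ) : ↥E) : Qbar) ^ p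
      = (F.fixingSubgroup.subtype σ) (β' ^ p) / β' ^ p := by
    intro σ
    have h1 : ((b (resFix F E σ) : (↥E)ˣ) : ↥E) ^ p = (resFix F E σ) (β : ↥E) / (β : ↥E) := by
      have h0 := congrArg (fun x : (↥E)ˣ => (x : ↥E)) (hb (resFix F E σ))
      simpa only [Units.val_pow_eq_pow_val, Units.val_div_eq_div_val, hcoe] using h0
    have h2 := congrArg (fun x : ↥E => (x : Qbar)) h1
    simp only [IntermediateField.coe_pow, IntermediateField.coe_div] at h2
    rw [h2, resFix_apply_coe, hβ']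
    rfl
  have hzQ : ∀ σ τ : UF F,
      (F.fixingSubgroup.subtype σ) (((b (resFix F E τ) : (↥E)ˣ) : ↥E) : Qbar)
        * (((b (resFix F E σ) : (↥E)ˣ) : ↥E) : Qbar)
        / (((b (resFix F E (σ * τ)) : (↥E)ˣ) : ↥E) : Qbar)
      = (algebraMap ↥F Qbar (ζ : ↥F)) ^ (z (resFix F E σ, resFix F E τ)).val := by
    intro σ τ
    have h1 : (resFix F E σ) ((b (resFix F E τ) : (↥E)ˣ) : ↥E)
        * ((b (resFix F E σ) : (↥E)ˣ) : ↥E)
        / ((b (resFix F E σ * resFix F E τ) : (↥E)ˣ) : ↥E)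
        = (algebraMap ↥F ↥E (ζ : ↥F)) ^ (z (resFix F E σ, resFix F E τ)).val := by
      have h0 := congrArg (fun x : (↥E)ˣ => (x : ↥E)) (hz (resFix F E σ) (resFix F E τ))
      simpa only [Units.val_pow_eq_pow_val, Units.val_div_eq_div_val, Units.val_mul, hcoe,
        Units.coe_map, MonoidHom.coe_coe] using h0
    have h2 := congrArg (fun x : ↥E => (x : Qbar)) h1
    simp only [IntermediateField.coe_pow, IntermediateField.coe_div,
      IntermediateField.coe_mul] at h2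
    rw [resFix_apply_coe] at h2
    rw [map_mul]
    exact h2
  obtain ⟨u, hu1, hu2⟩ := exists_kummer_primitive_core (k := ℚ) (Ω := Qbar)
    (F.fixingSubgroup.subtype) (algebraMap ↥F Qbar (ζ : ↥F)) hζQ hfix β' hβ'0
    (fun σ => (((b (resFix F E σ) : (↥E)ˣ) : ↥E) : Qbar)) hbQ
    (fun s => z (resFix F E s.1, resFix F E s.2)) hzQ
  refine ⟨β', u, hu1, fun σ s hs hres => hu2 σ s hs ?_⟩
  show (((b (resFix F E (σ * s)) : (↥E)ˣ) : ↥E) : Qbar) = _
  rw [map_mul, hres, mul_one]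

set_option maxHeartbeats 3200000 in
set_option synthInstance.maxHeartbeats 400000 in
/-- [SHL-LOC0] the Kummer 2-cocycle `z` is locally a level coboundary. -/
theorem res_mem_B2_of_kummer (hL : IsArith S F L) (ζ : (↥F)ˣ) (hζ : IsPrimitiveRoot ζ p)
    (E : IntermediateField ↥F Qbar) [FiniteDimensional ↥F ↥E] [IsGalois ↥F ↥E]
    (β : (↥E)ˣ) (b : (E ≃ₐ[↥F] E) → (↥E)ˣ) (hb : ∀ g, b g ^ p = g • β / β)
    (z : (E ≃ₐ[↥F] E) × (E ≃ₐ[↥F] E) → ZMod p)
    (hz : ∀ g h, g • b h * b g / b (g * h) =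
      (Units.map (algebraMap ↥F ↥E : ↥F →* ↥E) ζ) ^ (z (g, h)).val)
    (w : ι) :
    (fun s : L.Gv w × L.Gv w => z (resFix F E (L.r w s.1), resFix F E (L.r w s.2))) ∈
      B2 (L.lev w) (T (ZMod p) (L.Gv w)) := by
  obtain ⟨β', u, hu1, hu2⟩ := exists_kummer_primitive ζ hζ E β b hb z hz
  -- a primitive element of `E / F`
  obtain ⟨α, hα⟩ := Field.exists_primitive_element ↥F ↥E
  -- the finite normal level generated by `β'` and `α`
  have hfd₀ : FiniteDimensional ℚ
      (IntermediateField.adjoin ℚ ({β', ((α : ↥E) : Qbar)} : Set Qbar)) :=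
    IntermediateField.finiteDimensional_adjoin (fun x _ => Algebra.IsIntegral.isIntegral x)
  have hMfd : FiniteDimensional ℚ (IntermediateField.normalClosure ℚ
      (IntermediateField.adjoin ℚ ({β', ((α : ↥E) : Qbar)} : Set Qbar)) Qbar) :=
    normalClosure.is_finiteDimensional ℚ _ Qbar
  have hMn : Normal ℚ (IntermediateField.normalClosure ℚ
      (IntermediateField.adjoin ℚ ({β', ((α : ↥E) : Qbar)} : Set Qbar)) Qbar) :=
    normalClosure.normal ℚ _ Qbar
  have hβ'M : β' ∈ IntermediateField.normalClosure ℚ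
      (IntermediateField.adjoin ℚ ({β', ((α : ↥E) : Qbar)} : Set Qbar)) Qbar :=
    IntermediateField.le_normalClosure _
      (IntermediateField.subset_adjoin _ _ (Set.mem_insert _ _))
  have hαM : ((α : ↥E) : Qbar) ∈ IntermediateField.normalClosure ℚ
      (IntermediateField.adjoin ℚ ({β', ((α : ↥E) : Qbar)} : Set Qbar)) Qbar :=
    IntermediateField.le_normalClosure _
      (IntermediateField.subset_adjoin _ _ (Set.mem_insert_of_mem _ rfl))
  have hnorm := helper69.fixingSubgroup_normal_of_normal _ hMn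
  obtain ⟨N, hN, hle⟩ := hL.le_lev w _ ⟨_, hMfd, hnorm, rfl⟩
  have hfixM : ∀ s ∈ N, ((L.r w s : UF F) : GQ) ∈ (IntermediateField.normalClosure ℚ
      (IntermediateField.adjoin ℚ ({β', ((α : ↥E) : Qbar)} : Set Qbar)) Qbar).fixingSubgroup := by
    intro s hs
    have h1 := hle hs
    rw [Subgroup.mem_comap] at h1
    rw [hL.r_eq w s]
    exact hnorm.conj_mem _ h1 (hL.g w)
  refine ⟨fun x => u (L.r w x), ⟨N, hN, fun g s hs => ?_⟩, ?_⟩
  · show u (L.r w (g * s)) = u (L.r w g)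
    rw [map_mul]
    have hfix := (IntermediateField.mem_fixingSubgroup_iff _ _).mp (hfixM s hs)
    refine hu2 _ _ (hfix β' hβ'M) ?_
    have hker : L.r w s ∈ (resFix F E).ker := by
      rw [mem_ker_resFix_iff]
      have h2 : (IntermediateField.fixingSubgroupEquiv F (L.r w s)) ∈ E.fixingSubgroup :=
        helper60.mem_fixingSubgroup_of_primitive E α hα _ (hfix _ hαM)
      intro x hx
      exact (IntermediateField.mem_fixingSubgroup_iff E _).mp h2 x hx
    exact hker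
  · funext s
    rw [d₁₂_hom_apply]
    show u (L.r w s.2) - u (L.r w (s.1 * s.2)) + u (L.r w s.1) = _
    rw [map_mul]
    exact (hu1 _ _).symm

end Global

end Fermat.Agent.S55.helper39
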