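import Fermat.Agent.S55.helper63_HenselPow
import Fermat.Agent.S55.helper3_ResGlobal

/-!
# S55 / GLOB-LAT-2 (helper3): the principal units are cohomologically trivial at almost all primes

For a cyclic extension `L/K` of number fields of degree `n` and a prime `q ∤ n`, the group
`P = 1 + q 𝓞` of principal units of `ℚ_q ⊗ L` satisfies `Ĥ^0(G, P) = Ĥ^{-1}(G, P) = 1`:
* `P` is uniquely `n`-divisible (Hensel, `helper63`), so a fixed `x` is the norm of its `n`-th root;
* the Poincaré series with `c = 1/n` produces `y` with `σ y / y = x` when `N x = 1`.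
Statement `exists_finset_princUnits_trivial` verbatim from `helper73_GlobInterface2` (LAT-2).
-/

set_option autoImplicit false

open scoped TensorProduct NumberField

noncomputable section

namespace Fermat.Agent.S55.helper3

open Fermat.Agent.S55.helper73 Fermat.Agent.S55.helper89 Fermat.Agent.S55.helper24

section OneUnits

variable (q : ℕ) [Fact q.Prime] (L : Type*) [Field L] [NumberField L]

lemma qElt_mul_eq (z : SemiLoc q L) : qElt q L * z = (q : ℚ_[q]) • z := by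
  rw [Algebra.smul_def]
  rfl

lemma princUnits_eq_oneUnits : princUnits q L = oneUnits q L := by
  ext x
  constructor
  · intro hx
    obtain ⟨⟨z, hz, h1⟩, -⟩ := id hx
    exact ⟨princUnits_le_intUnits' q L hx, z, hz, by rw [h1, qElt_mul_eq]⟩
  · rintro ⟨hx, t, ht, h⟩
    exact mem_princUnits_of q L hx ht (by rw [h, qElt_mul_eq])

/-- the principal unit `1 + q z` -/
lemma exists_princUnit (z : SemiLoc q L) (hz : IsIntegral ℤ_[q] z) :
    ∃ Y : (SemiLoc q L)ˣ, Y ∈ princUnits q L ∧ (Y : SemiLoc q L) = 1 + (q : ℚ_[q]) • z := by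
  obtain ⟨w, hw, hw1⟩ := exists_oneUnit q L z hz
  refine ⟨w, ?_, ?_⟩
  · rw [princUnits_eq_oneUnits]
    exact hw
  · rw [hw1, qElt_mul_eq]

lemma exists_eq_one_add_of_mem_princUnits {x : (SemiLoc q L)ˣ} (hx : x ∈ princUnits q L) :
    ∃ z : SemiLoc q L, IsIntegral ℤ_[q] z ∧ (x : SemiLoc q L) = 1 + (q : ℚ_[q]) • z := hx.1

/-- `1/n` is integral for `q ∤ n` -/
lemma isIntegral_inv_natCast {n : ℕ} (hn : ¬ q ∣ n) :
    IsIntegral ℤ_[q] (algebraMap ℚ_[q] (SemiLoc q L) ((n : ℚ_[q])⁻¹)) := by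
  refine isIntegral_algebraMap_of_norm_le_one q L ?_
  rw [norm_inv, Padic.norm_natCast_eq_one_iff.mpr
    ((Nat.Prime.coprime_iff_not_dvd (Fact.out : q.Prime)).mpr hn), inv_one]

lemma natCast_ne_zero_of_not_dvd {n : ℕ} (hn : ¬ q ∣ n) : (n : ℚ_[q]) ≠ 0 := by
  have : n ≠ 0 := by rintro rfl; exact hn (dvd_zero q)
  exact_mod_cast this

/-- a sum of `n` principal units is `n` times a principal unit -/
lemma exists_sum_eq_natCast_mul {n : ℕ} (hn : ¬ q ∣ n) (f : ℕ → (SemiLoc q L)ˣ)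
    (hf : ∀ i, f i ∈ princUnits q L) :
    ∃ Y : (SemiLoc q L)ˣ, Y ∈ princUnits q L ∧
      algebraMap ℚ_[q] (SemiLoc q L) ((n : ℚ_[q])⁻¹) * ∑ i ∈ Finset.range n, (f i : SemiLoc q L)
        = (Y : SemiLoc q L) := by
  choose z hz hfz using fun i => exists_eq_one_add_of_mem_princUnits q L (hf i)
  obtain ⟨Y, hY, hYv⟩ := exists_princUnit q L
    (algebraMap ℚ_[q] (SemiLoc q L) ((n : ℚ_[q])⁻¹) * ∑ i ∈ Finset.range n, z i)
    ((isIntegral_inv_natCast q L hn).mul (IsIntegral.sum _ fun i _ => hz i))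
  refine ⟨Y, hY, ?_⟩
  rw [hYv]
  simp_rw [hfz]
  rw [Finset.sum_add_distrib, Finset.sum_const, Finset.card_range, ← Finset.smul_sum, mul_add]
  have h1 : algebraMap ℚ_[q] (SemiLoc q L) ((n : ℚ_[q])⁻¹) * (n • (1 : SemiLoc q L)) = 1 := by
    rw [nsmul_eq_mul, mul_one]
    have : ((n : ℕ) : SemiLoc q L) = algebraMap ℚ_[q] (SemiLoc q L) (n : ℚ_[q]) := by simp
    rw [this, ← map_mul, inv_mul_cancel₀ (natCast_ne_zero_of_not_dvd q hn), map_one]
  rw [h1]
  congr 1
  simp only [Algebra.smul_def]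
  ring

end OneUnits

section Roots

variable (q : ℕ) [Fact q.Prime] (L : Type*) [Field L] [NumberField L]

/-- the principal units have no `n`-torsion for `q ∤ n` -/
theorem eq_one_of_pow_eq_one_of_mem_princUnits {n : ℕ} (hn : ¬ q ∣ n) {u : (SemiLoc q L)ˣ}
    (hu : u ∈ princUnits q L) (h : u ^ n = 1) : u = 1 := by
  obtain ⟨Y, -, hY⟩ := exists_sum_eq_natCast_mul q L hn (fun i => u ^ i)
    (fun i => (princUnits q L).pow_mem hu i)
  have h1 : ((u : SemiLoc q L) - 1) * ∑ i ∈ Finset.range n, (u : SemiLoc q L) ^ i = 0 := by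
    rw [mul_comm, geom_sum_mul, ← Units.val_pow_eq_pow_val, h, Units.val_one, sub_self]
  have h2 : ((u : SemiLoc q L) - 1) * (Y : SemiLoc q L) = 0 := by
    rw [← hY]
    simp only [Units.val_pow_eq_pow_val]
    rw [mul_left_comm, h1, mul_zero]
  have h3 : (u : SemiLoc q L) - 1 = 0 := by
    have := congrArg (fun t => t * ((Y⁻¹ : (SemiLoc q L)ˣ) : SemiLoc q L)) h2
    simpa [mul_assoc] using this
  exact Units.ext (by rw [Units.val_one]; exact sub_eq_zero.mp h3)

/-- the principal units are `n`-divisible for `q ∤ n` -/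
theorem exists_pow_eq_of_mem_princUnits (n : ℕ) (hn : ¬ q ∣ n) :
    ∀ w ∈ princUnits q L, ∃ z ∈ princUnits q L, z ^ n = w := by
  induction n using Nat.recOnMul with
  | zero => exact absurd (dvd_zero q) hn
  | one => exact fun w hw => ⟨w, hw, pow_one w⟩
  | prime p hp =>
    intro w hw
    have hqp : q ≠ p := by
      rintro rfl
      exact hn dvd_rfl
    rw [princUnits_eq_oneUnits] at hw ⊢
    exact helper63.exists_pow_eq_of_mem_oneUnits q L p hp hqp w hw
  | mul a b ha hb =>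
    intro w hw
    have hqa : ¬ q ∣ a := fun h => hn (h.mul_right b)
    have hqb : ¬ q ∣ b := fun h => hn (h.mul_left a)
    obtain ⟨z1, hz1, h1⟩ := ha hqa w hw
    obtain ⟨z2, hz2, h2⟩ := hb hqb z1 hz1
    exact ⟨z2, hz2, by rw [mul_comm, pow_mul, h2, h1]⟩

end Roots

section Coh

variable (q : ℕ) [Fact q.Prime] (L : Type*) [Field L] [NumberField L]
  (K : Type*) [Field K] [Algebra K L]

lemma xi_mem_princUnits (σ : L ≃ₐ[K] L) {x : (SemiLoc q L)ˣ} (hx : x ∈ princUnits q L) (i : ℕ) :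
    xi q L K σ x i ∈ princUnits q L :=
  Subgroup.prod_mem _ fun k _ => smul_mem_princUnits' q L K (σ ^ k) hx

lemma smul_algebraMap_eq (τ : L ≃ₐ[K] L) (a : ℚ_[q]) :
    τ • (algebraMap ℚ_[q] (SemiLoc q L) a) = algebraMap ℚ_[q] (SemiLoc q L) a := by
  rw [smul_def]
  exact (galSemiLocAut q L K τ).commutes a

variable [Fintype (L ≃ₐ[K] L)]

/-- `Ĥ^0(G, P) = 1` for `q ∤ |G|` -/
theorem exists_normG_eq_of_fixed (hn : ¬ q ∣ Fintype.card (L ≃ₐ[K] L))
    {x : (SemiLoc q L)ˣ} (hx : x ∈ princUnits q L) (hfix : ∀ τ : L ≃ₐ[K] L, τ • x = x) :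
    ∃ y ∈ princUnits q L, normG (L ≃ₐ[K] L) (SemiLoc q L)ˣ y = x := by
  obtain ⟨y, hy, hyx⟩ := exists_pow_eq_of_mem_princUnits q L _ hn x hx
  have hyfix : ∀ τ : L ≃ₐ[K] L, τ • y = y := by
    intro τ
    have h1 : (τ • y / y) ^ Fintype.card (L ≃ₐ[K] L) = 1 := by
      rw [div_pow, ← smul_pow', hyx, hfix τ, div_self']
    have h2 : τ • y / y ∈ princUnits q L :=
      (princUnits q L).div_mem (smul_mem_princUnits' q L K τ hy) hy
    exact div_eq_one.mp (eq_one_of_pow_eq_one_of_mem_princUnits q L hn h2 h1)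
  refine ⟨y, hy, ?_⟩
  rw [normG_apply, Finset.prod_congr rfl (fun τ _ => hyfix τ), Finset.prod_const,
    Finset.card_univ, hyx]

/-- `Ĥ^{-1}(G, P) = 1` for `q ∤ |G|` -/
theorem exists_deltaHom_eq_of_normG_eq_one (hn : ¬ q ∣ Fintype.card (L ≃ₐ[K] L))
    (σ : L ≃ₐ[K] L) (hσ : ∀ τ : L ≃ₐ[K] L, τ ∈ Subgroup.zpowers σ)
    {x : (SemiLoc q L)ˣ} (hx : x ∈ princUnits q L)
    (hN : normG (L ≃ₐ[K] L) (SemiLoc q L)ˣ x = 1) :
    ∃ y ∈ princUnits q L, σ • y / y = x := by
  have hcard : orderOf σ = Fintype.card (L ≃ₐ[K] L) := by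
    rw [← Nat.card_eq_fintype_card]
    exact orderOf_eq_card_of_forall_mem_zpowers hσ
  have hn' : ¬ q ∣ orderOf σ := by rw [hcard]; exact hn
  set c : SemiLoc q L := algebraMap ℚ_[q] (SemiLoc q L) (((orderOf σ : ℕ) : ℚ_[q])⁻¹) with hc
  obtain ⟨Y, hY, hYv⟩ := exists_sum_eq_natCast_mul q L hn' (fun i => xi q L K σ x i)
    (fun i => xi_mem_princUnits q L K σ hx i)
  have hpoin : poin q L K σ x c = (Y : SemiLoc q L) := by
    rw [poin_apply, ← hYv, Finset.mul_sum]
    refine Finset.sum_congr rfl fun i _ => ?_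
    rw [hc, smul_algebraMap_eq, mul_comm]
  have hrel := poin_rel q L K σ x c
  rw [xi_orderOf q L K σ hσ x, hN, hpoin, ← coe_smul_units_eq, Units.val_one, one_mul,
    sub_add_cancel, ← Units.val_mul] at hrel
  have hrel' : x * σ • Y = Y := Units.ext hrel
  refine ⟨Y⁻¹, (princUnits q L).inv_mem hY, ?_⟩
  rw [smul_inv', inv_div_inv, div_eq_iff_eq_mul]
  exact hrel'.symm

end Coh

section MainLat

variable (K L : Type*) [Field K] [NumberField K] [Field L] [NumberField L] [Algebra K L]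
  [IsGalois K L]

set_option linter.unusedSectionVars false in
/-- **LAT-2** (almost all `q`): the principal units `1 + q 𝓞` are cohomologically trivial. -/
theorem exists_finset_princUnits_trivial
    (σ : Gal(L/K)) (hσ : ∀ τ : Gal(L/K), τ ∈ Subgroup.zpowers σ) :
    ∃ T : Finset Nat.Primes, ∀ q : Nat.Primes, q ∉ T →
      (∀ x ∈ princUnits (q : ℕ) L, (∀ τ : Gal(L/K), τ • x = x) →
        ∃ y ∈ princUnits (q : ℕ) L, normG Gal(L/K) (SemiLoc (q : ℕ) L)ˣ y = x) ∧
      (∀ x ∈ princUnits (q : ℕ) L, normG Gal(L/K) (SemiLoc (q : ℕ) L)ˣ x = 1 →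
        ∃ y ∈ princUnits (q : ℕ) L, σ • y / y = x) := by
  classical
  let n := Fintype.card Gal(L/K)
  have hn0 : 0 < n := Fintype.card_pos
  let T : Finset Nat.Primes := (Finset.range (n + 1)).subtype Nat.Prime
  refine ⟨T, fun q hq => ?_⟩
  have hqn : n < (q : ℕ) := by
    by_contra h
    exact hq (Finset.mem_subtype.mpr (Finset.mem_range.mpr (by omega)))
  have hndvd : ¬ (q : ℕ) ∣ Fintype.card Gal(L/K) := Nat.not_dvd_of_pos_of_lt hn0 hqn
  exact ⟨fun x hx hfix => exists_normG_eq_of_fixed (q : ℕ) L K hndvd hx hfix,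
    fun x hx hN => exists_deltaHom_eq_of_normG_eq_one (q : ℕ) L K hndvd σ hσ hx hN⟩

end MainLat

end Fermat.Agent.S55.helper3
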