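import Fermat.Agent.S55.helper89_ChevGroups
import Fermat.Agent.S55.helper73_IdlBasic

/-!
# S55 / GLOB / G7-COUNTE (helper40): the index `[J_{S₀ ∪ T} : E]`

* `relIndex_ideleSub` (E1): index of a subgroup of the ideles cut out by local conditions which
  differ at finitely many primes only;
* `relIndex_ES_JST` (E2): `[J_{S₀ ∪ T} : E] = ∏_{r ∈ S₀} [(ℚ_r ⊗ K)ˣ : p-th powers]`.

Statements VERBATIM from `helper89_G7Plan2` (section CountE).
-/

set_option autoImplicit false
set_option linter.unusedVariables false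

open scoped TensorProduct NumberField
open IsDedekindDomain

namespace Fermat.Agent.S55.helper40

open Fermat.Agent.S55.helper73 Fermat.Agent.S55.helper89

section CountE

variable (K : Type*) [Field K] [NumberField K]

open Classical in
/-- Extension by `1` of a finite family of local units: an element of the full product. -/
noncomputable def extPi (F : Finset Nat.Primes)
    (h : ∀ r : F, (SemiLoc ((r : Nat.Primes) : ℕ) K)ˣ) : IdelePi K :=
  fun r => if hr : r ∈ F then h ⟨r, hr⟩ else 1

lemma extPi_of_mem (F : Finset Nat.Primes)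
    (h : ∀ r : F, (SemiLoc ((r : Nat.Primes) : ℕ) K)ˣ) {r : Nat.Primes} (hr : r ∈ F) :
    extPi K F h r = h ⟨r, hr⟩ := by
  classical
  exact dif_pos hr

lemma extPi_of_notMem (F : Finset Nat.Primes)
    (h : ∀ r : F, (SemiLoc ((r : Nat.Primes) : ℕ) K)ˣ) {r : Nat.Primes} (hr : r ∉ F) :
    extPi K F h r = 1 := by
  classical
  exact dif_neg hr

lemma extPi_mem_idele (F : Finset Nat.Primes)
    (h : ∀ r : F, (SemiLoc ((r : Nat.Primes) : ℕ) K)ˣ) : extPi K F h ∈ idele K := by
  rw [mem_idele, Filter.eventually_cofinite]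
  refine F.finite_toSet.subset ?_
  intro r hr
  by_contra hrF
  apply hr
  have : r ∉ F := hrF
  rw [extPi_of_notMem K F h this]
  exact one_mem _

/-- E1 : index of a subgroup of the ideles cut out by local conditions which differ at finitely
many primes only. -/
theorem relIndex_ideleSub (H' H : ∀ r : Nat.Primes, Subgroup (SemiLoc (r : ℕ) K)ˣ)
    (F : Finset Nat.Primes) (hle : ∀ r, H' r ≤ H r) (heq : ∀ r, r ∉ F → H' r = H r) :
    (ideleSub K H').relIndex (ideleSub K H) = ∏ r ∈ F, (H' r).relIndex (H r) := by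
  classical
  -- the target group
  let Q : F → Type _ := fun r => (H (r : Nat.Primes)) ⧸ ((H' (r : Nat.Primes)).subgroupOf
    (H (r : Nat.Primes)))
  -- the homomorphism
  let f : (ideleSub K H) →* (∀ r : F, Q r) :=
    { toFun := fun x r => QuotientGroup.mk
        (⟨((x : Idele K) : IdelePi K) (r : Nat.Primes), x.2 (r : Nat.Primes)⟩ :
          H (r : Nat.Primes))
      map_one' := by
        funext r
        rfl
      map_mul' := by
        intro x y
        funext r
        rfl }
  have hker : f.ker = (ideleSub K H').subgroupOf (ideleSub K H) := by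
    ext x
    rw [MonoidHom.mem_ker, Subgroup.mem_subgroupOf, mem_ideleSub]
    constructor
    · intro hx r
      by_cases hr : r ∈ F
      · have h1 := congrFun hx ⟨r, hr⟩
        have h2 : (QuotientGroup.mk
            (⟨((x : Idele K) : IdelePi K) r, x.2 r⟩ : H r) :
              (H r) ⧸ ((H' r).subgroupOf (H r))) = 1 := h1
        rw [QuotientGroup.eq_one_iff, Subgroup.mem_subgroupOf] at h2
        exact h2
      · rw [heq r hr]
        exact x.2 r
    · intro hx
      funext r
      change (QuotientGroup.mk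
            (⟨((x : Idele K) : IdelePi K) (r : Nat.Primes), x.2 (r : Nat.Primes)⟩ :
              H (r : Nat.Primes)) :
              (H (r : Nat.Primes)) ⧸ ((H' (r : Nat.Primes)).subgroupOf (H (r : Nat.Primes)))) = 1
      rw [QuotientGroup.eq_one_iff, Subgroup.mem_subgroupOf]
      exact hx (r : Nat.Primes)
  have hsurj : Function.Surjective f := by
    intro y
    -- choose representatives
    have hrep : ∀ r : F, ∃ h : H (r : Nat.Primes), (QuotientGroup.mk h : Q r) = y r :=
      fun r => QuotientGroup.mk_surjective (y r)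
    choose h hh using hrep
    let z : IdelePi K := extPi K F (fun r => ((h r : H (r : Nat.Primes)) :
      (SemiLoc ((r : Nat.Primes) : ℕ) K)ˣ))
    have hz : z ∈ idele K := extPi_mem_idele K F _
    have hzH : (⟨z, hz⟩ : Idele K) ∈ ideleSub K H := by
      intro r
      change z r ∈ H r
      by_cases hr : r ∈ F
      · have : z r = ((h ⟨r, hr⟩ : H r) : (SemiLoc (r : ℕ) K)ˣ) := extPi_of_mem K F _ hr
        rw [this]
        exact (h ⟨r, hr⟩).2
      · have : z r = 1 := extPi_of_notMem K F _ hr
        rw [this]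
        exact one_mem _
    refine ⟨⟨⟨z, hz⟩, hzH⟩, ?_⟩
    funext r
    rw [← hh r]
    change (QuotientGroup.mk (⟨z (r : Nat.Primes), _⟩ : H (r : Nat.Primes)) : Q r) = _
    congr 1
    apply Subtype.ext
    exact extPi_of_mem K F (fun r => ((h r : H (r : Nat.Primes)) :
      (SemiLoc ((r : Nat.Primes) : ℕ) K)ˣ)) r.2
  have h1 : (ideleSub K H').relIndex (ideleSub K H) = Nat.card (∀ r : F, Q r) := by
    have h2 := Subgroup.index_comap_of_surjective (⊥ : Subgroup (∀ r : F, Q r)) hsurj
    rw [MonoidHom.comap_bot, Subgroup.index_bot, hker] at h2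
    exact h2
  rw [h1, Nat.card_pi]
  rw [← Finset.prod_coe_sort F (fun r => (H' r).relIndex (H r))]
  rfl

/-- E2 : `[J_{S₀ ∪ T} : E] = ∏_{r ∈ S₀} [(ℚ_r ⊗ K)ˣ : p-th powers]`. -/
theorem relIndex_ES_JST (p : ℕ) (S₀ : Finset ℕ) (T : Set (HeightOneSpectrum (𝓞 K))) :
    (ES K p S₀ T).relIndex (JST K S₀ T) =
      Finset.prod (S₀.subtype Nat.Prime : Finset Nat.Primes) fun r : Nat.Primes =>
        (powMonoidHom p : (SemiLoc (r : ℕ) K)ˣ →* (SemiLoc (r : ℕ) K)ˣ).range.index := by
  have h := relIndex_ideleSub K (locES K p S₀ T) (locJST K S₀ T)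
    (S₀.subtype Nat.Prime : Finset Nat.Primes) ?_ ?_
  · change (ideleSub K (locES K p S₀ T)).relIndex (ideleSub K (locJST K S₀ T)) = _
    rw [h]
    refine Finset.prod_congr rfl fun r hr => ?_
    have hr' : (r : ℕ) ∈ S₀ := Finset.mem_subtype.1 hr
    rw [locES_of_mem p T hr', locJST_of_mem T hr', Subgroup.relIndex_top_right]
  · intro r
    by_cases hr : (r : ℕ) ∈ S₀
    · rw [locJST_of_mem T hr]
      exact le_top
    · rw [locES_of_notMem p T hr, locJST_of_notMem T hr]
  · intro r hr
    have hr' : (r : ℕ) ∉ S₀ := fun h => hr (Finset.mem_subtype.2 h)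
    rw [locES_of_notMem p T hr', locJST_of_notMem T hr']

end CountE

end Fermat.Agent.S55.helper40
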