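import Fermat.Agent.S55.helper59_BDefs

/-!
# S55 module B, package B-ABS-TR (helper42): structure of `H_c^3` for trivial coefficients

Pure cochain linear algebra over `Defs.lean` / `helper59_BDefs.lean`:
`d₂₃_cup_comm`, `exists_scalar_of_tr`, `exists_scalar_ne_zero_of_tr`, `claim_surj0`, `exists_tr`
(statements verbatim from `helper59_BInterface`).
-/

set_option autoImplicit false

universe u

open groupCohomology ExtCitation

noncomputable section

namespace Fermat.Agent.S55.helper42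

open Fermat.Agent.S55 Fermat.Agent.S55.helper59

section Abstract

variable {k : Type u} [Field k] {G : Type u} [Group G] {𝒩 : Levels G} {ι : Type} [Fintype ι]
  (L : LocalData G 𝒩 ι)

/-- B-ABS-ADJ (homotopy for graded commutativity, trivial coefficients):
`d(-z(g,h) x(gh)) = x ∪ z - z ∪ x` for a 1-cocycle `x` and a 2-cocycle `z`. -/
theorem d₂₃_cup_comm (x : G → k) (z : G × G → k) (hx : x ∈ LinearMap.ker (d₁₂ (T k G)).hom)
    (hz : z ∈ LinearMap.ker (d₂₃ (T k G)).hom) :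
    (d₂₃ (T k G)).hom (fun g => - (z g * x (g.1 * g.2))) = cup₁₂ x z - cup₂₁ z x := by
  have hx' : ∀ g h : G, x (g * h) = x g + x h := by
    intro g h
    have := congrFun (LinearMap.mem_ker.1 hx) (g, h)
    simp only [d₁₂_hom_apply, Pi.zero_apply] at this
    have h2 : x h - x (g * h) + x g = 0 := this
    linear_combination -h2
  have hz' : ∀ g₁ g₂ g₃ : G, z (g₂, g₃) - z (g₁ * g₂, g₃) + z (g₁, g₂ * g₃) - z (g₁, g₂) = 0 := by
    intro g₁ g₂ g₃
    have := congrFun (LinearMap.mem_ker.1 hz) (g₁, g₂, g₃)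
    simp only [d₂₃_hom_apply, Pi.zero_apply] at this
    exact this
  funext ⟨g₁, g₂, g₃⟩
  simp only [d₂₃_hom_apply, Pi.sub_apply, cup₁₂_apply, cup₂₁_apply]
  have e : ∀ a : k, (T k G).ρ g₁ a = a := fun a => rfl
  rw [e]
  simp only [hx', mul_assoc]
  linear_combination -(x g₁ + x g₂ + x g₃) * hz' g₁ g₂ g₃

/-! ### Level-constancy and cocycle bookkeeping -/

omit [Fintype ι] in
/-- restriction of a level 2-cochain is a local level 2-cochain -/
lemma res₂_mem_C2 (w : ι) {α : G × G → k} (hα : α ∈ C2 𝒩 (T k G)) :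
    res₂ L (T k G) w α ∈ C2 (L.lev w) (T k (L.Gv w)) := by
  obtain ⟨N, hN, h⟩ := hα
  obtain ⟨N', hN', hle⟩ := L.compat w N hN
  refine ⟨N', hN', fun g₁ g₂ s₁ hs₁ s₂ hs₂ => ?_⟩
  simp only [res₂_apply, map_mul]
  exact h _ _ _ (hle hs₁) _ (hle hs₂)

/-- `d` of a level 1-cochain is a level 2-cochain (trivial coefficients). -/
lemma d₁₂_mem_C2 {H : Type u} [Group H] (𝒩' : Levels H) {β : H → k}
    (hβ : β ∈ C1 𝒩' (T k H)) : (d₁₂ (T k H)).hom β ∈ C2 𝒩' (T k H) := by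
  obtain ⟨N, hN, h⟩ := hβ
  have hnorm : N.Normal := 𝒩'.normal N hN
  refine ⟨N, hN, fun g₁ g₂ s₁ hs₁ s₂ hs₂ => ?_⟩
  simp only [d₁₂_hom_apply]
  have e : ∀ (g : H) (a : k), (T k H).ρ g a = a := fun _ _ => rfl
  rw [e, e, h g₂ s₂ hs₂, h g₁ s₁ hs₁]
  have h3 : g₁ * s₁ * (g₂ * s₂) = g₁ * g₂ * (g₂⁻¹ * s₁ * g₂ * s₂) := by group
  have h4 : g₂⁻¹ * s₁ * g₂ * s₂ ∈ N := by
    refine N.mul_mem ?_ hs₂
    have := hnorm.conj_mem s₁ hs₁ g₂⁻¹
    simpa using this
  rw [h3, h _ _ h4]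

/-- `d` of a level 1-cochain is a level 2-cocycle (trivial coefficients). -/
lemma d₁₂_mem_Z2 {H : Type u} [Group H] (𝒩' : Levels H) {β : H → k}
    (hβ : β ∈ C1 𝒩' (T k H)) : (d₁₂ (T k H)).hom β ∈ Z2 𝒩' (T k H) := by
  refine ⟨d₁₂_mem_C2 𝒩' hβ, ?_⟩
  show (d₂₃ (T k H)).hom ((d₁₂ (T k H)).hom β) = 0
  have := congrArg (fun f => f.hom β) (d₁₂_comp_d₂₃ (T k H))
  exact this

lemma inv_d₁₂ (I : BaseInput (k := k) L) (w : ι) {β : L.Gv w → k}
    (hβ : β ∈ C1 (L.lev w) (T k (L.Gv w))) :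
    I.inv w ((d₁₂ (T k (L.Gv w))).hom β) = 0 :=
  (I.inv_eq_zero_iff w _ (d₁₂_mem_Z2 (L.lev w) hβ)).2 ⟨β, hβ, rfl⟩

omit [Fintype ι] in
lemma d₂₃_res₂ (w : ι) (α : G × G → k) :
    (d₂₃ (T k (L.Gv w))).hom (res₂ L (T k G) w α) =
      res₃ L (T k G) w ((d₂₃ (T k G)).hom α) := by
  funext ⟨g₁, g₂, g₃⟩
  simp only [d₂₃_hom_apply, res₂_apply, res₃_apply, map_mul]
  rfl

/-! ### The functional `c ↦ tr (0, c)` -/

omit [Fintype ι] in
/-- `tr` kills `(0, (d β_w)_w)`. -/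
lemma tr_zero_d (tr : CcAmb3 L (T k G) →ₗ[k] k) (htr : ∀ y ∈ Bc3 L (T k G), tr y = 0)
    (β : ∀ w, L.Gv w → k) (hβ : ∀ w, β w ∈ C1 (L.lev w) (T k (L.Gv w))) :
    tr (((0 : G × G × G → k), fun w => (d₁₂ (T k (L.Gv w))).hom (β w)) : CcAmb3 L (T k G)) = 0 := by
  have hmem : ((0 : G × G → k), β) ∈ Cc2 L (T k G) := by
    refine ⟨(C2 𝒩 (T k G)).zero_mem, ?_⟩
    intro w _
    exact hβ w
  have h1 := htr _ ⟨_, hmem, rfl⟩
  have h2 : dc₂₃ L (T k G) ((0 : G × G → k), β) =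
      -(((0 : G × G × G → k), fun w => (d₁₂ (T k (L.Gv w))).hom (β w)) : CcAmb3 L (T k G)) := by
    refine Prod.ext ?_ ?_
    · show (d₂₃ (T k G)).hom 0 = -0
      rw [map_zero, neg_zero]
    · funext w
      show res₂ L (T k G) w 0 - (d₁₂ (T k (L.Gv w))).hom (β w) = -((d₁₂ (T k (L.Gv w))).hom (β w))
      rw [map_zero, zero_sub]
  rw [h2, map_neg, neg_eq_zero] at h1
  exact h1

omit [Fintype ι] in
/-- `tr` kills `(0, (res_w z)_w)` for a global level 2-cocycle `z`. -/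
lemma tr_zero_res (tr : CcAmb3 L (T k G) →ₗ[k] k) (htr : ∀ y ∈ Bc3 L (T k G), tr y = 0)
    (z : G × G → k) (hz : z ∈ Z2 𝒩 (T k G)) :
    tr (((0 : G × G × G → k), fun w => res₂ L (T k G) w z) : CcAmb3 L (T k G)) = 0 := by
  have hmem : (z, (0 : ∀ w, L.Gv w → k)) ∈ Cc2 L (T k G) := by
    refine ⟨hz.1, ?_⟩
    intro w _
    exact (C1 (L.lev w) (T k (L.Gv w))).zero_mem
  have h1 := htr _ ⟨_, hmem, rfl⟩
  have h2 : dc₂₃ L (T k G) (z, (0 : ∀ w, L.Gv w → k)) =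
      (((0 : G × G × G → k), fun w => res₂ L (T k G) w z) : CcAmb3 L (T k G)) := by
    refine Prod.ext ?_ ?_
    · exact LinearMap.mem_ker.1 hz.2
    · funext w
      show res₂ L (T k G) w z - (d₁₂ (T k (L.Gv w))).hom 0 = res₂ L (T k G) w z
      rw [map_zero, sub_zero]
  rw [h2] at h1
  exact h1

omit [Fintype ι] in
/-- Reduction to the local part. -/
lemma tr_eq_of_d (tr : CcAmb3 L (T k G) →ₗ[k] k) (htr : ∀ y ∈ Bc3 L (T k G), tr y = 0)
    (y : CcAmb3 L (T k G)) (α : G × G → k) (hα : α ∈ C2 𝒩 (T k G))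
    (hd : (d₂₃ (T k G)).hom α = y.1) :
    tr y = tr (((0 : G × G × G → k), fun w => y.2 w - res₂ L (T k G) w α) :
      CcAmb3 L (T k G)) := by
  have hmem : (α, (0 : ∀ w, L.Gv w → k)) ∈ Cc2 L (T k G) := by
    refine ⟨hα, ?_⟩
    intro w _
    exact (C1 (L.lev w) (T k (L.Gv w))).zero_mem
  have h1 := htr _ ⟨_, hmem, rfl⟩
  have h2 : y = dc₂₃ L (T k G) (α, (0 : ∀ w, L.Gv w → k)) +
      (((0 : G × G × G → k), fun w => y.2 w - res₂ L (T k G) w α) : CcAmb3 L (T k G)) := by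
    refine Prod.ext ?_ ?_
    · show y.1 = (d₂₃ (T k G)).hom α + 0
      rw [add_zero, hd]
    · funext w
      show y.2 w = (res₂ L (T k G) w α - (d₁₂ (T k (L.Gv w))).hom 0) +
        (y.2 w - res₂ L (T k G) w α)
      rw [map_zero, sub_zero]
      abel
  conv_lhs => rw [h2]
  rw [map_add, h1, zero_add]

omit [Fintype ι] in
/-- The local part of a cone 3-cocycle, corrected by a primitive of the global part, is a
family of local level 2-cocycles. -/
lemma sub_res_mem_Z2 (y : CcAmb3 L (T k G)) (hy : y ∈ Zc3 L (T k G)) (α : G × G → k)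
    (hα : α ∈ C2 𝒩 (T k G)) (hd : (d₂₃ (T k G)).hom α = y.1) (w : ι) :
    y.2 w - res₂ L (T k G) w α ∈ Z2 (L.lev w) (T k (L.Gv w)) := by
  obtain ⟨⟨-, hy2⟩, hker⟩ := hy
  have hy2w : y.2 w ∈ C2 (L.lev w) (T k (L.Gv w)) := hy2 w (Set.mem_univ w)
  refine ⟨Submodule.sub_mem _ hy2w (res₂_mem_C2 L w hα), ?_⟩
  have h1 : dc₃₄ L (T k G) y = 0 := LinearMap.mem_ker.1 hker
  have h2 : res₃ L (T k G) w y.1 - (d₂₃ (T k (L.Gv w))).hom (y.2 w) = 0 :=
    congrFun (congrArg Prod.snd h1) w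
  show (d₂₃ (T k (L.Gv w))).hom (y.2 w - res₂ L (T k G) w α) = 0
  rw [map_sub, d₂₃_res₂, hd]
  rw [sub_eq_zero] at h2 ⊢
  exact h2.symm

/-- An element of `Zc3` has a primitive of its global part (by `H^3 = 0`). -/
lemma exists_primitive (I : BaseInput (k := k) L) (y : CcAmb3 L (T k G))
    (hy : y ∈ Zc3 L (T k G)) : ∃ α ∈ C2 𝒩 (T k G), (d₂₃ (T k G)).hom α = y.1 := by
  obtain ⟨⟨hy1, -⟩, hker⟩ := hy
  have h1 : dc₃₄ L (T k G) y = 0 := LinearMap.mem_ker.1 hker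
  have h2 : d₃₄ (T k G) y.1 = 0 := congrArg Prod.fst h1
  have h3 : y.1 ∈ Z3 𝒩 (T k G) := ⟨hy1, LinearMap.mem_ker.2 h2⟩
  obtain ⟨α, hα, hd⟩ := I.h3 h3
  exact ⟨α, hα, hd⟩

/-- KEY LEMMA: on families of local level 2-cocycles the functional `c ↦ tr (0, c)` is a
multiple of the sum of the local invariants. -/
lemma tr_zero_eq [DecidableEq ι] (I : BaseInput (k := k) L) (tr : CcAmb3 L (T k G) →ₗ[k] k)
    (htr : ∀ y ∈ Bc3 L (T k G), tr y = 0) (w₀ : ι) (c₀ : L.Gv w₀ × L.Gv w₀ → k)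
    (hc₀ : c₀ ∈ Z2 (L.lev w₀) (T k (L.Gv w₀))) (h1 : I.inv w₀ c₀ = 1)
    (c : ∀ w, L.Gv w × L.Gv w → k) (hc : ∀ w, c w ∈ Z2 (L.lev w) (T k (L.Gv w))) :
    tr (((0 : G × G × G → k), c) : CcAmb3 L (T k G)) =
      tr (((0 : G × G × G → k), Pi.single w₀ c₀) : CcAmb3 L (T k G)) * ∑ w, I.inv w (c w) := by
  set s : k := ∑ w, I.inv w (c w) with hs
  have hsingle : ∀ w, (Pi.single w₀ (s • c₀) : ∀ w, L.Gv w × L.Gv w → k) w ∈
      Z2 (L.lev w) (T k (L.Gv w)) := by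
    intro w
    by_cases hw : w = w₀
    · subst hw
      rw [Pi.single_eq_same]
      exact Submodule.smul_mem _ _ hc₀
    · rw [Pi.single_eq_of_ne hw]
      exact Submodule.zero_mem _
  have hsum_single : ∑ w, I.inv w ((Pi.single w₀ (s • c₀) : ∀ w, L.Gv w × L.Gv w → k) w) = s := by
    rw [Finset.sum_eq_single w₀]
    · rw [Pi.single_eq_same, map_smul, h1, smul_eq_mul, mul_one]
    · intro w _ hw
      rw [Pi.single_eq_of_ne hw, map_zero]
    · intro h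
      exact absurd (Finset.mem_univ w₀) h
  let c' : ∀ w, L.Gv w × L.Gv w → k :=
    fun w => c w - (Pi.single w₀ (s • c₀) : ∀ w, L.Gv w × L.Gv w → k) w
  have hc' : ∀ w, c' w ∈ Z2 (L.lev w) (T k (L.Gv w)) :=
    fun w => Submodule.sub_mem _ (hc w) (hsingle w)
  have hsum : ∑ w, I.inv w (c' w) = 0 := by
    have : ∀ w, I.inv w (c' w) =
        I.inv w (c w) - I.inv w ((Pi.single w₀ (s • c₀) : ∀ w, L.Gv w × L.Gv w → k) w) :=
      fun w => map_sub _ _ _
    simp only [this, Finset.sum_sub_distrib, hsum_single]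
    rw [← hs, sub_self]
  obtain ⟨z, hz, hzc⟩ := I.exists_global₂ c' hc' hsum
  have hzc' : ∀ w, ∃ β ∈ C1 (L.lev w) (T k (L.Gv w)),
      (d₁₂ (T k (L.Gv w))).hom β = c' w - fun s => z (L.r w s.1, L.r w s.2) := by
    intro w
    obtain ⟨β, hβ, hd⟩ := hzc w
    exact ⟨β, hβ, hd⟩
  choose β hβ hβd using hzc'
  have e1 : (((0 : G × G × G → k), c') : CcAmb3 L (T k G)) =
      (((0 : G × G × G → k), fun w => res₂ L (T k G) w z) : CcAmb3 L (T k G)) +
      (((0 : G × G × G → k), fun w => (d₁₂ (T k (L.Gv w))).hom (β w)) : CcAmb3 L (T k G)) := by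
    refine Prod.ext ?_ ?_
    · show (0 : G × G × G → k) = 0 + 0
      rw [add_zero]
    · funext w
      show c' w = res₂ L (T k G) w z + (d₁₂ (T k (L.Gv w))).hom (β w)
      rw [hβd w]
      funext x
      simp only [Pi.add_apply, Pi.sub_apply]
      have : (res₂ L (T k G) w) z x = z ((L.r w) x.1, (L.r w) x.2) := rfl
      rw [this]
      ring
  have e2 : tr (((0 : G × G × G → k), c') : CcAmb3 L (T k G)) = 0 := by
    rw [e1, map_add, tr_zero_res L tr htr z hz, tr_zero_d L tr htr β hβ, add_zero]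
  have e3 : (((0 : G × G × G → k), c) : CcAmb3 L (T k G)) =
      (((0 : G × G × G → k), c') : CcAmb3 L (T k G)) +
      s • (((0 : G × G × G → k), Pi.single w₀ c₀) : CcAmb3 L (T k G)) := by
    refine Prod.ext ?_ ?_
    · show (0 : G × G × G → k) = 0 + s • 0
      rw [smul_zero, add_zero]
    · funext w
      show c w = c' w + s • (Pi.single w₀ c₀ : ∀ w, L.Gv w × L.Gv w → k) w
      have : s • (Pi.single w₀ c₀ : ∀ w, L.Gv w × L.Gv w → k) w =
          (Pi.single w₀ (s • c₀) : ∀ w, L.Gv w × L.Gv w → k) w := by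
        by_cases hw : w = w₀
        · subst hw
          rw [Pi.single_eq_same, Pi.single_eq_same]
        · rw [Pi.single_eq_of_ne hw, Pi.single_eq_of_ne hw, smul_zero]
      rw [this]
      show c w = c w - _ + _
      abel
  rw [e3, map_add, e2, zero_add, map_smul, smul_eq_mul, mul_comm]

/-- B-ABS-TR (structure of `H_c^3`): on cone 3-cocycles every functional killing cone
coboundaries is the multiple `ε • ∑_w inv_w` of the intrinsic trace, computed as follows: if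
`y = (a, b) ∈ Zc3` and `a = d α` with `α ∈ C2`, then `tr y = ε * ∑_w inv_w (b_w - res_w α)`. -/
theorem exists_scalar_of_tr (I : BaseInput (k := k) L) (tr : CcAmb3 L (T k G) →ₗ[k] k)
    (htr : ∀ y ∈ Bc3 L (T k G), tr y = 0) :
    ∃ ε : k, ∀ y ∈ Zc3 L (T k G), ∀ α ∈ C2 𝒩 (T k G), (d₂₃ (T k G)).hom α = y.1 →
      tr y = ε * ∑ w, I.inv w (y.2 w - res₂ L (T k G) w α) := by
  classical
  rcases isEmpty_or_nonempty ι with hι | hι
  · refine ⟨0, fun y hy α hα hd => ?_⟩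
    rw [tr_eq_of_d L tr htr y α hα hd, zero_mul]
    have : (((0 : G × G × G → k), fun w => y.2 w - res₂ L (T k G) w α) : CcAmb3 L (T k G)) = 0 :=
      Prod.ext rfl (funext fun w => isEmptyElim w)
    rw [this, map_zero]
  · obtain ⟨w₀⟩ := hι
    obtain ⟨c, hc, hne⟩ := I.inv_ne_zero w₀
    refine ⟨tr (((0 : G × G × G → k), Pi.single w₀ ((I.inv w₀ c)⁻¹ • c)) : CcAmb3 L (T k G)),
      fun y hy α hα hd => ?_⟩
    rw [tr_eq_of_d L tr htr y α hα hd]
    refine tr_zero_eq L I tr htr w₀ _ (Submodule.smul_mem _ _ hc) ?_ _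
      (sub_res_mem_Z2 L y hy α hα hd)
    rw [map_smul, smul_eq_mul, inv_mul_cancel₀ hne]

/-- B-ABS-TR': the scalar is nonzero as soon as `tr` is nonzero on some cone cocycle. -/
theorem exists_scalar_ne_zero_of_tr (I : BaseInput (k := k) L) (tr : CcAmb3 L (T k G) →ₗ[k] k)
    (htr : ∀ y ∈ Bc3 L (T k G), tr y = 0) (hne : ∃ y ∈ Zc3 L (T k G), tr y ≠ 0) :
    ∃ ε : k, ε ≠ 0 ∧ ∀ y ∈ Zc3 L (T k G), ∀ α ∈ C2 𝒩 (T k G), (d₂₃ (T k G)).hom α = y.1 →
      tr y = ε * ∑ w, I.inv w (y.2 w - res₂ L (T k G) w α) := by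
  obtain ⟨ε, hε⟩ := exists_scalar_of_tr L I tr htr
  refine ⟨ε, ?_, hε⟩
  obtain ⟨y, hy, hty⟩ := hne
  obtain ⟨α, hα, hd⟩ := exists_primitive L I y hy
  intro h0
  apply hty
  rw [hε y hy α hα hd, h0, zero_mul]

/-- B-ABS-0 (`β⁰` surjective). -/
theorem claim_surj0 (I : BaseInput (k := k) L) (tr : CcAmb3 L (T k G) →ₗ[k] k)
    (htr : ∀ y ∈ Bc3 L (T k G), tr y = 0) (hne : ∃ y ∈ Zc3 L (T k G), tr y ≠ 0)
    (ψ : CcAmb3 L (T k G) →ₗ[k] k) (hψ : ∀ y ∈ Bc3 L (T k G), ψ y = 0) :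
    ∃ a ∈ H0 (T k G), ∀ y ∈ Zc3 L (T k G), ψ y = tr (cupc₀₃ L (mulPairing k G) a y) := by
  obtain ⟨ε, hε0, hε⟩ := exists_scalar_ne_zero_of_tr L I tr htr hne
  obtain ⟨δ, hδ⟩ := exists_scalar_of_tr L I ψ hψ
  refine ⟨δ / ε, fun g => rfl, fun y hy => ?_⟩
  obtain ⟨α, hα, hd⟩ := exists_primitive L I y hy
  have hcup : cupc₀₃ L (mulPairing k G) (δ / ε) y = (δ / ε) • y := rfl
  rw [hcup, map_smul, smul_eq_mul, hδ y hy α hα hd, hε y hy α hα hd]
  field_simp

/-! ### Existence of a trace -/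

/-- The parametrisation `(α, c) ↦ (d α, c + res α)` of the cone 3-cochains with exact global
part. -/
def trParam : (↥(C2 𝒩 (T k G)) × (∀ w, L.Gv w × L.Gv w → k)) →ₗ[k] CcAmb3 L (T k G) where
  toFun v := ((d₂₃ (T k G)).hom v.1.1, fun w => v.2 w + res₂ L (T k G) w v.1.1)
  map_add' v v' := by
    refine Prod.ext ?_ ?_
    · show (d₂₃ (T k G)).hom (v.1.1 + v'.1.1) = (d₂₃ (T k G)).hom v.1.1 + (d₂₃ (T k G)).hom v'.1.1
      rw [map_add]
    · funext w
      show (v.2 w + v'.2 w) + res₂ L (T k G) w (v.1.1 + v'.1.1) =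
        (v.2 w + res₂ L (T k G) w v.1.1) + (v'.2 w + res₂ L (T k G) w v'.1.1)
      rw [map_add]
      abel
  map_smul' a v := by
    refine Prod.ext ?_ ?_
    · show (d₂₃ (T k G)).hom (a • v.1.1) = a • (d₂₃ (T k G)).hom v.1.1
      rw [map_smul]
    · funext w
      show a • v.2 w + res₂ L (T k G) w (a • v.1.1) = a • (v.2 w + res₂ L (T k G) w v.1.1)
      rw [map_smul, smul_add]

/-- The sum of the local invariants, as a functional on the parameter space. -/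
def trSum (I : BaseInput (k := k) L) :
    (↥(C2 𝒩 (T k G)) × (∀ w, L.Gv w × L.Gv w → k)) →ₗ[k] k where
  toFun v := ∑ w, I.inv w (v.2 w)
  map_add' v v' := by
    show ∑ w, I.inv w (v.2 w + v'.2 w) = ∑ w, I.inv w (v.2 w) + ∑ w, I.inv w (v'.2 w)
    simp only [map_add, Finset.sum_add_distrib]
  map_smul' a v := by
    show ∑ w, I.inv w (a • v.2 w) = a • ∑ w, I.inv w (v.2 w)
    simp only [map_smul, Finset.smul_sum]

lemma trSum_mem_dualAnnihilator (I : BaseInput (k := k) L) :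
    trSum L I ∈ (LinearMap.ker (trParam L)).dualAnnihilator := by
  rw [Submodule.mem_dualAnnihilator]
  rintro ⟨⟨α, hα⟩, c⟩ hv
  have hv' : trParam L (⟨α, hα⟩, c) = 0 := LinearMap.mem_ker.1 hv
  have h1 : (d₂₃ (T k G)).hom α = 0 := congrArg Prod.fst hv'
  have h2 : ∀ w, c w + res₂ L (T k G) w α = 0 := fun w => congrFun (congrArg Prod.snd hv') w
  have hz : α ∈ Z2 𝒩 (T k G) := ⟨hα, LinearMap.mem_ker.2 h1⟩
  have hrec := I.reciprocity α hz
  show ∑ w, I.inv w (c w) = 0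
  have h3 : ∀ w, I.inv w (c w) = - I.inv w (fun s => α (L.r w s.1, L.r w s.2)) := by
    intro w
    have : c w = - res₂ L (T k G) w α := eq_neg_of_add_eq_zero_left (h2 w)
    rw [this, map_neg]
    rfl
  simp only [h3, Finset.sum_neg_distrib, hrec, neg_zero]

/-- B-ABS-EX: an admissible trace exists (used for the top-level `tr`). -/
theorem exists_tr (I : BaseInput (k := k) L) [Nonempty ι] :
    ∃ tr : CcAmb3 L (T k G) →ₗ[k] k, (∀ y ∈ Bc3 L (T k G), tr y = 0) ∧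
      ∃ y ∈ Zc3 L (T k G), tr y ≠ 0 := by
  classical
  have hmem := trSum_mem_dualAnnihilator L I
  rw [← LinearMap.range_dualMap_eq_dualAnnihilator_ker] at hmem
  obtain ⟨tr, htr⟩ := hmem
  have key : ∀ v, tr (trParam L v) = trSum L I v := fun v => by
    rw [← htr]
    rfl
  refine ⟨tr, ?_, ?_⟩
  · rintro y ⟨⟨α, β⟩, ⟨hα, hβ⟩, rfl⟩
    have hβ' : ∀ w, β w ∈ C1 (L.lev w) (T k (L.Gv w)) := fun w => hβ w (Set.mem_univ w)
    have e : dc₂₃ L (T k G) (α, β) =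
        trParam L (⟨α, hα⟩, fun w => - (d₁₂ (T k (L.Gv w))).hom (β w)) := by
      refine Prod.ext rfl ?_
      funext w
      show res₂ L (T k G) w α - (d₁₂ (T k (L.Gv w))).hom (β w) =
        - (d₁₂ (T k (L.Gv w))).hom (β w) + res₂ L (T k G) w α
      abel
    rw [e, key]
    show ∑ w, I.inv w (- (d₁₂ (T k (L.Gv w))).hom (β w)) = 0
    refine Finset.sum_eq_zero fun w _ => ?_
    rw [map_neg, inv_d₁₂ L I w (hβ' w), neg_zero]
  · obtain ⟨w₀⟩ := ‹Nonempty ι›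
    obtain ⟨c, hc, hne⟩ := I.inv_ne_zero w₀
    have hsingle : ∀ w, (Pi.single w₀ c : ∀ w, L.Gv w × L.Gv w → k) w ∈
        Z2 (L.lev w) (T k (L.Gv w)) := by
      intro w
      by_cases hw : w = w₀
      · subst hw
        rw [Pi.single_eq_same]
        exact hc
      · rw [Pi.single_eq_of_ne hw]
        exact Submodule.zero_mem _
    have e : (((0 : G × G × G → k), Pi.single w₀ c) : CcAmb3 L (T k G)) =
        trParam L ((0 : ↥(C2 𝒩 (T k G))), Pi.single w₀ c) := by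
      refine Prod.ext ?_ ?_
      · show (0 : G × G × G → k) = (d₂₃ (T k G)).hom 0
        rw [map_zero]
      · funext w
        show (Pi.single w₀ c : ∀ w, L.Gv w × L.Gv w → k) w =
          (Pi.single w₀ c : ∀ w, L.Gv w × L.Gv w → k) w + res₂ L (T k G) w 0
        rw [map_zero, add_zero]
    refine ⟨((0 : G × G × G → k), Pi.single w₀ c), ⟨⟨?_, ?_⟩, ?_⟩, ?_⟩
    · exact (C3 𝒩 (T k G)).zero_mem
    · intro w _
      exact (hsingle w).1
    · show dc₃₄ L (T k G) (((0 : G × G × G → k), Pi.single w₀ c) : CcAmb3 L (T k G)) = 0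
      refine Prod.ext ?_ ?_
      · show d₃₄ (T k G) 0 = 0
        rw [map_zero]
      · funext w
        show res₃ L (T k G) w 0 -
          (d₂₃ (T k (L.Gv w))).hom ((Pi.single w₀ c : ∀ w, L.Gv w × L.Gv w → k) w) = 0
        rw [map_zero, zero_sub, neg_eq_zero]
        exact LinearMap.mem_ker.1 (hsingle w).2
    · rw [e, key]
      show ∑ w, I.inv w ((Pi.single w₀ c : ∀ w, L.Gv w × L.Gv w → k) w) ≠ 0
      rw [Finset.sum_eq_single w₀]
      · rw [Pi.single_eq_same]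
        exact hne
      · intro w _ hw
        rw [Pi.single_eq_of_ne hw, map_zero]
      · intro h
        exact absurd (Finset.mem_univ w₀) h

end Abstract

end Fermat.Agent.S55.helper42
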