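import Fermat.Agent.S55.Arith
import Fermat.Agent.S55.helper51_Arch
import Fermat.Agent.S55.helper69_BArLev

/-!
# S55, module A: the BRIDGE between the Prelude's `sha₁`, `sha₂` and the abstract `Sha1`, `Sha2`

`bridgeStatement p S : BridgeStatement p S`.
-/

set_option autoImplicit false

open groupCohomology ExtCitation CategoryTheory

noncomputable section

namespace Fermat.Agent.S55.helper42.Bridge

open Fermat.Agent.S55

variable (S : Finset Nat.Primes)

/-! ## global dictionary -/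

section Global

variable {k : Type} [CommRing k] (M : Rep k GQ)

theorem levelCochainsS₁_eq_C1 : levelCochainsS₁ S M = C1 (galLevels S) M := by
  ext f
  exact (helper69.isLev₁_galLevels_iff S f).symm

theorem levelCochainsS₂_eq_C2 : levelCochainsS₂ S M = C2 (galLevels S) M := by
  ext f
  exact (helper69.isLev₂_galLevels_iff S f).symm

theorem levelCocyclesS₂_eq_Z2 : levelCocyclesS₂ S M = Z2 (galLevels S) M := by
  rw [levelCocyclesS₂, Z2, levelCochainsS₂_eq_C2, inf_comm]
  rfl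

theorem levelCoboundariesS₂_eq_B2 : levelCoboundariesS₂ S M = B2 (galLevels S) M := by
  rw [levelCoboundariesS₂, B2, levelCochainsS₁_eq_C1]

/-- the Prelude's `continuousH2S` is the abstract level `H2` -/
def h2Equiv : continuousH2S S M ≃ₗ[k] H2 (galLevels S) M :=
  Submodule.Quotient.equiv _ _ (LinearEquiv.ofEq _ _ (levelCocyclesS₂_eq_Z2 S M)) (by
    ext ⟨f, hf⟩
    simp only [Submodule.mem_map, Submodule.mem_comap, Submodule.subtype_apply]
    constructor
    · rintro ⟨⟨g, hg⟩, hgB, hfg⟩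
      have : g = f := congrArg Subtype.val hfg
      subst this
      rw [← levelCoboundariesS₂_eq_B2]
      exact hgB
    · intro h
      refine ⟨⟨f, by rw [levelCocyclesS₂_eq_Z2]; exact hf⟩, ?_, rfl⟩
      rw [levelCoboundariesS₂_eq_B2]
      exact h)

@[simp] theorem h2Equiv_mk (f : ↥(levelCocyclesS₂ S M)) :
    h2Equiv S M (Submodule.Quotient.mk f) =
      Submodule.Quotient.mk ⟨f.1, (levelCocyclesS₂_eq_Z2 S M) ▸ f.2⟩ := rfl

end Global

/-! ## local dictionary -/

section Local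

variable (q : Nat.Primes)

/-- every finite extension is contained in a finite extension with normal fixing subgroup -/
theorem exists_normal_finite (F : IntermediateField ℚ (AlgebraicClosure ℚ))
    (hF : FiniteDimensional ℚ F) :
    ∃ E : IntermediateField ℚ (AlgebraicClosure ℚ), F ≤ E ∧ FiniteDimensional ℚ E ∧
      (E.fixingSubgroup : Subgroup GQ).Normal := by
  have := helper69.normal_Qbar
  refine ⟨IntermediateField.normalClosure ℚ F (AlgebraicClosure ℚ), ?_, inferInstance, ?_⟩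
  · intro x hx
    unfold IntermediateField.normalClosure
    have h1 : x ∈ (F.val).fieldRange := ⟨⟨x, hx⟩, rfl⟩
    exact (le_iSup (fun f : F →ₐ[ℚ] AlgebraicClosure ℚ => f.fieldRange) F.val) h1
  · exact helper69.fixingSubgroup_normal_of_normal _
      (normalClosure.normal ℚ F (AlgebraicClosure ℚ))

theorem isLev₁_locLevels_iff {X : Type*} (f : primeLocalGaloisGroup q → X) :
    IsLev₁ (locLevels q) f ↔ IsLevelConstant₁ (primeLocalToGlobal q) f := by
  constructor
  · rintro ⟨N, ⟨F, hF, -, rfl⟩, h⟩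
    exact ⟨F, hF, fun g s hs => h g s hs⟩
  · rintro ⟨F, hF, h⟩
    obtain ⟨E, hle, hE, hn⟩ := exists_normal_finite F hF
    exact ⟨_, ⟨E, hE, hn, rfl⟩, fun g s hs =>
      h g s (IntermediateField.fixingSubgroup_antitone hle hs)⟩

theorem isLev₂_locLevels_iff {X : Type*}
    (f : primeLocalGaloisGroup q × primeLocalGaloisGroup q → X) :
    IsLev₂ (locLevels q) f ↔ IsLevelConstant₂ (primeLocalToGlobal q) f := by
  constructor
  · rintro ⟨N, ⟨F, hF, -, rfl⟩, h⟩
    exact ⟨F, hF, fun g g' s s' hs hs' => h g g' s hs s' hs'⟩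
  · rintro ⟨F, hF, h⟩
    obtain ⟨E, hle, hE, hn⟩ := exists_normal_finite F hF
    exact ⟨_, ⟨E, hE, hn, rfl⟩, fun g g' s hs s' hs' =>
      h g g' s s' (IntermediateField.fixingSubgroup_antitone hle hs)
        (IntermediateField.fixingSubgroup_antitone hle hs')⟩

variable {k : Type} [CommRing k] (B : Rep k (primeLocalGaloisGroup q))

theorem levelCochains₁_eq_C1 : levelCochains₁ (primeLocalToGlobal q) B = C1 (locLevels q) B := by
  ext f
  exact (isLev₁_locLevels_iff q f).symm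

theorem levelCoboundaries₂_eq_B2 :
    levelCoboundaries₂ (primeLocalToGlobal q) B = B2 (locLevels q) B := by
  rw [levelCoboundaries₂, B2, levelCochains₁_eq_C1]

end Local

/-! ## `sha₂` -/

section Sha2

variable {k : Type} [CommRing k] (M : Rep k GQ)

/-- the local restriction of the class of `f` vanishes iff the restricted cocycle is a level
coboundary for the local levels -/
theorem locRes₂S_mk_eq_zero_iff (q : ↥S) (f : ↥(levelCocyclesS₂ S M)) :
    locRes₂S S M (primeLocalToGlobal q.1) (Submodule.Quotient.mk f) = 0 ↔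
      res₂ (galLocal S) M q f.1 ∈ B2 ((galLocal S).lev q) ((galLocal S).loc M q) := by
  have h1 : locRes₂S S M (primeLocalToGlobal q.1) (Submodule.Quotient.mk f) =
      continuousH2π (primeLocalToGlobal q.1) (Rep.res (primeLocalToGlobal q.1) M)
        (levelCocycles₂Map (rH := MonoidHom.id _) (rG := primeLocalToGlobal q.1)
          (primeLocalToGlobal q.1) (fun _ => rfl)
          (LinearMap.id : M →ₗ[k] Rep.res (primeLocalToGlobal q.1) M) (fun _ _ => rfl)
          (levelCocyclesS₂ToLevelCocycles₂ S M f)) := rfl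
  rw [h1, continuousH2π_eq_zero_iff, levelCoboundaries₂_eq_B2]
  rfl

theorem mem_Sha2_iff (y : H2 (galLevels S) M) :
    y ∈ Sha2 (galLocal S) M ↔ ∃ f : ↥(Z2 (galLevels S) M),
      (∀ q : ↥S, res₂ (galLocal S) M q f.1 ∈ B2 ((galLocal S).lev q) ((galLocal S).loc M q)) ∧
        Submodule.Quotient.mk f = y := by
  simp only [Sha2, Submodule.mem_map, Submodule.mem_comap, Submodule.subtype_apply, LocTriv2,
    Submodule.mem_iInf, Submodule.mkQ_apply]

/-- the image of the Prelude's `sha₂` in the abstract `H2` is the abstract `Sha2`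
(`2` invertible: the archimedean index contributes nothing) -/
theorem map_sha₂_eq (h2 : IsUnit (2 : k)) :
    (sha₂ S M).map (h2Equiv S M).toLinearMap = Sha2 (galLocal S) M := by
  ext y
  rw [mem_Sha2_iff]
  constructor
  · rintro ⟨x, hx, rfl⟩
    obtain ⟨f, rfl⟩ := Submodule.mkQ_surjective _ x
    have hx' := (helper51.mem_sha₂_iff S h2 M _).1 hx
    exact ⟨⟨f.1, (levelCocyclesS₂_eq_Z2 S M) ▸ f.2⟩,
      fun q => (locRes₂S_mk_eq_zero_iff S M q f).1 (hx' q), rfl⟩
  · rintro ⟨f, hf, rfl⟩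
    have hf' : f.1 ∈ levelCocyclesS₂ S M := by rw [levelCocyclesS₂_eq_Z2]; exact f.2
    refine ⟨Submodule.Quotient.mk ⟨f.1, hf'⟩, ?_, rfl⟩
    exact (helper51.mem_sha₂_iff S h2 M _).2
      fun q => (locRes₂S_mk_eq_zero_iff S M q ⟨f.1, hf'⟩).2 (hf q)

/-- **BRIDGE, `Sha²` half.** -/
def sha2Equiv (h2 : IsUnit (2 : k)) : sha₂ S M ≃ₗ[k] Sha2 (galLocal S) M :=
  ((h2Equiv S M).submoduleMap (sha₂ S M)).trans (LinearEquiv.ofEq _ _ (map_sha₂_eq S M h2))

end Sha2

/-! ## `sha₁` -/

section Sha1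

variable {K : Type} [Field K] (A : Rep K GQ)

theorem Z1_le_cocycles₁ : Z1 (galLevels S) A ≤ cocycles₁ A := inf_le_right

/-- level cocycles to Mathlib's `H1` -/
def toH1 : ↥(Z1 (galLevels S) A) →ₗ[K] groupCohomology.H1 A :=
  (H1π A).hom ∘ₗ Submodule.inclusion (Z1_le_cocycles₁ S A)

theorem toH1_apply (f : ↥(Z1 (galLevels S) A)) :
    toH1 S A f = (H1π A).hom ⟨f.1, Z1_le_cocycles₁ S A f.2⟩ := rfl

theorem toH1_eq_zero_iff (f : ↥(Z1 (galLevels S) A)) :
    toH1 S A f = 0 ↔ f.1 ∈ B1 A := by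
  rw [toH1_apply]
  exact H1π_eq_zero_iff (A := A) ⟨f.1, Z1_le_cocycles₁ S A f.2⟩

/-- the abstract level `H1` maps to Mathlib's `H1` -/
def h1Map : H1 (galLevels S) A →ₗ[K] groupCohomology.H1 A :=
  Submodule.liftQ _ (toH1 S A) (fun f hf => by
    rw [LinearMap.mem_ker]
    exact (toH1_eq_zero_iff S A f).2 hf)

@[simp] theorem h1Map_mk (f : ↥(Z1 (galLevels S) A)) :
    h1Map S A (Submodule.Quotient.mk f) = toH1 S A f := rfl

theorem h1Map_injective : Function.Injective (h1Map S A) := by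
  rw [← LinearMap.ker_eq_bot, LinearMap.ker_eq_bot']
  intro y hy
  obtain ⟨f, rfl⟩ := Submodule.mkQ_surjective _ y
  rw [Submodule.mkQ_apply, h1Map_mk, toH1_eq_zero_iff] at hy
  rw [Submodule.mkQ_apply, Submodule.Quotient.mk_eq_zero]
  exact hy

theorem mem_Sha1_iff (y : H1 (galLevels S) A) :
    y ∈ Sha1 (galLocal S) A ↔ ∃ f : ↥(Z1 (galLevels S) A),
      (∀ q : ↥S, res₁ (galLocal S) A q f.1 ∈ B1 ((galLocal S).loc A q)) ∧
        Submodule.Quotient.mk f = y := by
  simp only [Sha1, Submodule.mem_map, Submodule.mem_comap, Submodule.subtype_apply, LocTriv1,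
    Submodule.mem_iInf, Submodule.mkQ_apply]

/-- the local condition of `sha₁` in cocycle form -/
theorem res₁_mem_B1_iff (q : ↥S) (c : cocycles₁ A) :
    res₁ (galLocal S) A q c.1 ∈ B1 ((galLocal S).loc A q) ↔
      (groupCohomology.map (primeLocalToGlobal q.1)
        (𝟙 (Rep.res (primeLocalToGlobal q.1) A)) 1).hom ((H1π A).hom c) = 0 := by
  rw [helper51.map_H1π_eq_zero_iff]
  constructor
  · rintro ⟨m, hm⟩
    refine ⟨m, fun σ => ?_⟩
    exact (congrFun hm σ).symm
  · rintro ⟨m, hm⟩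
    refine ⟨m, ?_⟩
    funext σ
    exact (hm σ).symm

/-- the image of the abstract `Sha1` in Mathlib's `H1` is the Prelude's `sha₁`
(`2 ≠ 0`: the archimedean index contributes nothing) -/
theorem map_Sha1_eq (h2 : (2 : K) ≠ 0) :
    (Sha1 (galLocal S) A).map (h1Map S A) = sha₁ S A := by
  ext x
  rw [helper51.mem_sha₁_iff S h2 A x, mem_continuousH1S_iff]
  constructor
  · rintro ⟨y, hy, rfl⟩
    obtain ⟨f, hf, rfl⟩ := (mem_Sha1_iff S A y).1 hy
    refine ⟨⟨⟨f.1, Z1_le_cocycles₁ S A f.2⟩, (helper69.isLev₁_galLevels_iff S f.1).1 f.2.1, rfl⟩,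
      fun q => ?_⟩
    exact (res₁_mem_B1_iff S A q ⟨f.1, Z1_le_cocycles₁ S A f.2⟩).1 (hf q)
  · rintro ⟨⟨c, hc, rfl⟩, hloc⟩
    have hcZ : c.1 ∈ Z1 (galLevels S) A :=
      ⟨(helper69.isLev₁_galLevels_iff S c.1).2 hc, c.2⟩
    refine ⟨Submodule.Quotient.mk ⟨c.1, hcZ⟩, ?_, rfl⟩
    exact (mem_Sha1_iff S A _).2 ⟨⟨c.1, hcZ⟩, fun q => (res₁_mem_B1_iff S A q c).2 (hloc q), rfl⟩

/-- **BRIDGE, `Sha¹` half.** -/
def sha1Equiv (h2 : (2 : K) ≠ 0) : sha₁ S A ≃ₗ[K] Sha1 (galLocal S) A :=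
  ((Submodule.equivMapOfInjective (h1Map S A) (h1Map_injective S A) (Sha1 (galLocal S) A)).trans
    (LinearEquiv.ofEq _ _ (map_Sha1_eq S A h2))).symm

end Sha1

/-! ## the statement -/

/-- **BRIDGE**: the Prelude's `sha₁`, `sha₂` are the abstract `Sha1`, `Sha2` of `galLocal S`. -/
theorem bridgeStatement (p : ℕ) [Fact p.Prime] (S : Finset Nat.Primes) : BridgeStatement p S := by
  intro hp2 _ M _ _
  exact ⟨⟨sha1Equiv S _ (helper51.isUnit_two_zmod hp2).ne_zero⟩,
    ⟨sha2Equiv S M (helper51.isUnit_two_zmod hp2)⟩⟩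

end Fermat.Agent.S55.helper42.Bridge
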