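import Fermat.Agent.S55.helper43_ApxMain

/-!
# S55 / REC1-APX (helper43): `exists_norm_approx`

If `c ∈ Fˣ` is a local norm at every local datum of `M/F` over `l`, then there is `m ∈ Mˣ`
with `c * N_{M/F}(m) = a / b`, `a ≡ b ≡ 1 mod l` (`a b : 𝓞 F`).  The existence of local data
at the primes of `F` above `l` (R-EXIST of the REC1 interface) is a hypothesis.
-/

set_option autoImplicit false
set_option linter.unusedSectionVars false
set_option linter.style.haveILetI false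

open scoped NumberField
open IsDedekindDomain

namespace Fermat.Agent.S55.helper43

open Fermat.Agent.S55.helper8 Fermat.Agent.S55.helper11

variable {l : ℕ} [Fact l.Prime] {F M : Type} [Field F] [NumberField F] [Field M] [NumberField M]
  [Algebra F M] [IsGalois F M]

/-- the primes of `F` above `l` are finitely many -/
theorem finite_primesAbove (l : ℕ) [Fact l.Prime] (F : Type) [Field F] [NumberField F] :
    Finite {v : HeightOneSpectrum (𝓞 F) // ((l : ℕ) : 𝓞 F) ∈ v.asIdeal} := by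
  have hlO : ((l : ℕ) : 𝓞 F) ≠ 0 := by exact_mod_cast (Fact.out : l.Prime).ne_zero
  have h0 : Ideal.span {((l : ℕ) : 𝓞 F)} ≠ 0 := by
    rw [Ne, Ideal.zero_eq_bot, Ideal.span_singleton_eq_bot]
    exact hlO
  have hfin := Ideal.finite_factors h0
  have hset : {v : HeightOneSpectrum (𝓞 F) | ((l : ℕ) : 𝓞 F) ∈ v.asIdeal} =
      {v : HeightOneSpectrum (𝓞 F) | v.asIdeal ∣ Ideal.span {((l : ℕ) : 𝓞 F)}} := by
    ext v
    simp only [Set.mem_ofPred_eq, Ideal.dvd_iff_le, Ideal.span_singleton_le_iff_mem]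
  exact (hset ▸ hfin).to_subtype

/-- distinct primes are separated by an integer -/
theorem exists_mem_notMem_of_ne {v v' : HeightOneSpectrum (𝓞 F)} (h : v ≠ v') :
    ∃ a : 𝓞 F, a ∈ v.asIdeal ∧ a ∉ v'.asIdeal := by
  by_contra hcon
  push Not at hcon
  have hle : v.asIdeal ≤ v'.asIdeal := fun a ha => hcon a ha
  have := v.isMaximal.eq_of_le v'.isPrime.ne_top hle
  exact h (HeightOneSpectrum.ext this)

section Family

variable (D : {v : HeightOneSpectrum (𝓞 F) // ((l : ℕ) : 𝓞 F) ∈ v.asIdeal} → LocDatum l F M)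
  (hD : ∀ v, (D v).AtPlace v.1)

/-- the family of absolute values of `M` above `l` -/
noncomputable def wFam
    (i : Σ v : {v : HeightOneSpectrum (𝓞 F) // ((l : ℕ) : 𝓞 F) ∈ v.asIdeal},
      (M ≃ₐ[F] M) ⧸ (locHom F M (D v).Kv (D v).Lw).range) : AbsoluteValue M ℝ :=
  abvG (D i.1) i.2.out

theorem wFam_mk (v : {v : HeightOneSpectrum (𝓞 F) // ((l : ℕ) : 𝓞 F) ∈ v.asIdeal})
    (g : M ≃ₐ[F] M) (x : M) :
    wFam D ⟨v, (g : (M ≃ₐ[F] M) ⧸ (locHom F M (D v).Kv (D v).Lw).range)⟩ x =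
      abvD (D v) (g⁻¹ x) := by
  rw [wFam, ← abvG_apply]
  refine abvG_eq_of_mem (D v) _ _ ?_ x
  rw [← QuotientGroup.eq]
  exact QuotientGroup.out_eq' _

include hD in
theorem wFam_pairwise :
    Pairwise fun i j => ¬ (wFam D i).IsEquiv (wFam D j) := by
  rintro ⟨v, C⟩ ⟨v', C'⟩ hij heq
  have hl1 : (1 : ℝ) < l := by exact_mod_cast (Fact.out : l.Prime).one_lt
  by_cases hv : v = v'
  · subst hv
    have h1 : wFam D ⟨v, C⟩ = wFam D ⟨v, C'⟩ := by
      refine abv_eq_of_isEquiv heq (l : M) ?_ ?_ ?_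
      · rw [wFam, abvG_natCast, abvD_natCast_prime]; positivity
      · rw [wFam, abvG_natCast, abvD_natCast_prime]
        exact inv_lt_one_of_one_lt₀ hl1
      · rw [wFam, wFam, abvG_natCast, abvG_natCast]
    have h2 := mem_of_abvG_eq (D v) _ _ h1
    rw [← QuotientGroup.eq, QuotientGroup.out_eq', QuotientGroup.out_eq'] at h2
    have h3 : C = C' := h2
    exact hij (by rw [h3])
  · have hv' : v.1 ≠ v'.1 := fun h => hv (Subtype.ext h)
    obtain ⟨a, ha, ha'⟩ := exists_mem_notMem_of_ne hv'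
    have h1 : wFam D ⟨v, C⟩ (algebraMap F M (a : F)) < 1 := by
      rw [wFam, abvG_algebraMap, ← atPlace_iff_abvD_lt_one (D v) v.1 (hD v)]
      exact ha
    have h2 : ¬ wFam D ⟨v', C'⟩ (algebraMap F M (a : F)) < 1 := by
      rw [wFam, abvG_algebraMap, ← atPlace_iff_abvD_lt_one (D v') v'.1 (hD v')]
      exact ha'
    exact h2 (heq.lt_one_iff.1 h1)

end Family

section Main

/-- **R-APX** with the existence of local data above `l` as a hypothesis. -/
theorem exists_norm_approx_of_exists (l : ℕ) [Fact l.Prime] (F M : Type) [Field F]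
    [NumberField F] [Field M] [NumberField M] [Algebra F M] [IsGalois F M]
    (hex : ∀ v : HeightOneSpectrum (𝓞 F), ((l : ℕ) : 𝓞 F) ∈ v.asIdeal →
      ∃ D : LocDatum l F M, D.AtPlace v)
    (c : Fˣ)
    (hloc : ∀ D : LocDatum l F M,
      Units.map (algebraMap F D.Kv : F →* D.Kv) c ∈ (normUnits D.Kv D.Lw).range) :
    ∃ (m : Mˣ) (a b : 𝓞 F), a ≠ 0 ∧ b ≠ 0 ∧
      (c : F) * Algebra.norm F (m : M) * (b : F) = (a : F) ∧
      (∃ d : 𝓞 F, a - 1 = (l : 𝓞 F) * d) ∧ (∃ d : 𝓞 F, b - 1 = (l : 𝓞 F) * d) := by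
  classical
  haveI := finFM F M
  haveI := finite_primesAbove l F
  have hl1 : (1 : ℝ) < l := by exact_mod_cast (Fact.out : l.Prime).one_lt
  have hε : (0 : ℝ) < (l : ℝ)⁻¹ := by positivity
  have hε1 : (l : ℝ)⁻¹ ≤ 1 := (inv_lt_one_of_one_lt₀ hl1).le
  choose Dv hDv using hex
  -- the family of local data
  let D : {v : HeightOneSpectrum (𝓞 F) // ((l : ℕ) : 𝓞 F) ∈ v.asIdeal} → LocDatum l F M :=
    fun v => Dv v.1 v.2
  have hD : ∀ v, (D v).AtPlace v.1 := fun v => hDv v.1 v.2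
  -- local norms
  have hμ : ∀ v, ∃ μ : (D v).Lw, μ ≠ 0 ∧
      Algebra.norm (D v).Kv μ = algebraMap F (D v).Kv (c : F) := by
    intro v
    obtain ⟨μ, hμ⟩ := hloc (D v)
    refine ⟨(μ : (D v).Lw), μ.ne_zero, ?_⟩
    have := congrArg (fun u : (D v).Kvˣ => (u : (D v).Kv)) hμ
    simpa [normUnits] using this
  choose μ hμ0 hμN using hμ
  -- the precision
  haveI : ∀ v, Algebra.IsAlgebraic ℚ_[l] (D v).Lw := fun v => algLw (D v)
  have := Fintype.ofFinite {v : HeightOneSpectrum (𝓞 F) // ((l : ℕ) : 𝓞 F) ∈ v.asIdeal}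
  set S : ℝ := ∑ v, sn l (D v).Lw (μ v) with hS
  have hS0 : 0 ≤ S := Finset.sum_nonneg fun v _ => sn_nonneg l _
  set δ : ℝ := (l : ℝ)⁻¹ / (1 + S) with hδ
  have hδ0 : 0 < δ := div_pos hε (by linarith)
  have hδε : δ ≤ (l : ℝ)⁻¹ := div_le_self hε.le (by linarith)
  have hδμ : ∀ v, sn l (D v).Lw (μ v) * δ < (l : ℝ)⁻¹ := by
    intro v
    have h1 : sn l (D v).Lw (μ v) ≤ S :=
      Finset.single_le_sum (f := fun v => sn l (D v).Lw (μ v))
        (fun v _ => sn_nonneg l _) (Finset.mem_univ v)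
    rw [hδ, ← mul_div_assoc, div_lt_iff₀ (by linarith)]
    nlinarith [sn_nonneg l (μ v)]
  -- approximate the inverses of the local elements
  have hm0 : ∀ v, ∃ m₀ : M, sn l (D v).Lw ((μ v)⁻¹ - algebraMap M (D v).Lw m₀) < δ :=
    fun v => exists_sn_sub_lt l (D v).denseL _ δ hδ0
  choose m₀ hm₀ using hm0
  -- weak approximation
  obtain ⟨m, hm⟩ := h43_weak_approx (wFam D) (fun i => abvG_isNontrivial _ _)
    (wFam_pairwise D hD)
    (fun i => if i.2 = ((1 : M ≃ₐ[F] M) : (M ≃ₐ[F] M) ⧸ (locHom F M (D i.1).Kv (D i.1).Lw).range)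
      then m₀ i.1 else 1) δ hδ0
  -- the two local conditions
  have hA : ∀ v, spectralNorm ℚ_[l] (D v).Lw (μ v * algebraMap M (D v).Lw m - 1) < (l : ℝ)⁻¹ := by
    intro v
    have h1 := hm ⟨v, ((1 : M ≃ₐ[F] M) : (M ≃ₐ[F] M) ⧸ (locHom F M (D v).Kv (D v).Lw).range)⟩
    rw [if_pos rfl, wFam_mk, inv_one, AlgEquiv.one_apply, abvD_apply, map_sub] at h1
    have h2 : μ v * algebraMap M (D v).Lw m - 1 =
        μ v * ((algebraMap M (D v).Lw m - algebraMap M (D v).Lw (m₀ v)) -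
          ((μ v)⁻¹ - algebraMap M (D v).Lw (m₀ v))) := by
      have hmu : μ v * (μ v)⁻¹ = 1 := mul_inv_cancel₀ (hμ0 v)
      linear_combination hmu
    rw [← sn_def, h2, sn_mul]
    have h3 : sn l (D v).Lw ((algebraMap M (D v).Lw m - algebraMap M (D v).Lw (m₀ v)) -
          ((μ v)⁻¹ - algebraMap M (D v).Lw (m₀ v))) < δ :=
      (sn_sub_le_max l _ _).trans_lt (max_lt h1 (hm₀ v))
    have hμpos : 0 < sn l (D v).Lw (μ v) :=
      lt_of_le_of_ne (sn_nonneg l _) (fun h => hμ0 v ((sn_eq_zero_iff l _).1 h.symm))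
    exact (mul_lt_mul_of_pos_left h3 hμpos).trans (hδμ v)
  have hB : ∀ v, ∀ g : M ≃ₐ[F] M, g ∉ (locHom F M (D v).Kv (D v).Lw).range →
      abvD (D v) (g⁻¹ m - 1) < (l : ℝ)⁻¹ := by
    intro v g hg
    have h1 := hm ⟨v, (g : (M ≃ₐ[F] M) ⧸ (locHom F M (D v).Kv (D v).Lw).range)⟩
    have hne : ¬ ((g : (M ≃ₐ[F] M) ⧸ (locHom F M (D v).Kv (D v).Lw).range) =
        ((1 : M ≃ₐ[F] M) : (M ≃ₐ[F] M) ⧸ (locHom F M (D v).Kv (D v).Lw).range)) := by
      rw [QuotientGroup.eq, mul_one]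
      exact fun h => hg (by simpa using inv_mem h)
    rw [if_neg hne, wFam_mk, map_sub, map_one] at h1
    exact h1.trans_le hδε
  -- the estimate at each prime above `l`
  have hest : ∀ v, abvD (D v) (algebraMap F M ((c : F) * Algebra.norm F m) - 1) < (l : ℝ)⁻¹ :=
    fun v => abvD_mul_norm_sub_one_lt (D v) (c : F) (μ v) (hμN v) m _ hε hε1 (hA v) (hB v)
  -- `m ≠ 0`
  by_cases hm0 : m = 0
  · -- then there is no prime above `l`, and `m = 1` works
    have hempty : ∀ (v : HeightOneSpectrum (𝓞 F)) (hv : ((l : ℕ) : 𝓞 F) ∈ v.asIdeal), False := by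
      intro v hv
      have h1 := hest ⟨v, hv⟩
      rw [hm0, Algebra.norm_zero, mul_zero, map_zero, zero_sub, map_neg_eq_map, map_one] at h1
      linarith
    obtain ⟨a, b, ha, hb, hab, hda, hdb⟩ := exists_int_of_abvD_lt (l := l) (M := M)
      Dv hDv ((c : F) * Algebra.norm F (1 : M)) (by simp)
      (fun v hv => (hempty v hv).elim)
    exact ⟨1, a, b, ha, hb, by simpa using hab, hda, hdb⟩
  · have hN0 : Algebra.norm F m ≠ 0 := by
      rw [Ne, Algebra.norm_eq_zero_iff]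
      exact hm0
    obtain ⟨a, b, ha, hb, hab, hda, hdb⟩ := exists_int_of_abvD_lt (l := l) (M := M)
      Dv hDv ((c : F) * Algebra.norm F m) (mul_ne_zero c.ne_zero hN0)
      (fun v hv => hest ⟨v, hv⟩)
    exact ⟨Units.mk0 m hm0, a, b, ha, hb, hab, hda, hdb⟩

end Main

section Adapter

/-- The statement R-EXIST (`exists_locDatum`) of the REC1 interface, as a proposition. -/
def ExistsLocDatum : Prop :=
  ∀ (F L : Type) [Field F] [NumberField F] [Field L] [NumberField L] [Algebra F L]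
    [IsGalois F L] (v : HeightOneSpectrum (𝓞 F)),
    ∃ (q : ℕ) (_ : Fact q.Prime) (D : LocDatum q F L), D.AtPlace v

/-- the residue characteristic of a local datum at `v` lies in `v` -/
theorem natCast_mem_of_atPlace {q : ℕ} [Fact q.Prime] {F L : Type} [Field F] [NumberField F]
    [Field L] [Algebra F L] (D : LocDatum q F L) (v : HeightOneSpectrum (𝓞 F))
    (hv : D.AtPlace v) : ((q : ℕ) : 𝓞 F) ∈ v.asIdeal := by
  haveI := algKv D
  rw [hv]
  have h1 := Fermat.Agent.S55.helper71.lt_ordT_iff q D.Kv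
    (algebraMap F D.Kv (((q : ℕ) : 𝓞 F) : F)) 0
  rw [zpow_zero] at h1
  have h2 : ((0 : ℤ) : WithTop ℤ) = 0 := rfl
  rw [h2] at h1
  rw [h1]
  have h3 : algebraMap F D.Kv (((q : ℕ) : 𝓞 F) : F) = ((q : ℕ) : D.Kv) := by
    simp
  rw [h3]
  exact sn_prime_lt_one q

/-- a local datum at a prime above `l` is a local datum over `l` -/
theorem eq_of_atPlace {q : ℕ} [Fact q.Prime] {F L : Type} [Field F] [NumberField F]
    [Field L] [Algebra F L] (D : LocDatum q F L) (v : HeightOneSpectrum (𝓞 F))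
    (hv : D.AtPlace v) (hl : ((l : ℕ) : 𝓞 F) ∈ v.asIdeal) : q = l := by
  by_contra hne
  have hq := natCast_mem_of_atPlace D v hv
  have hcop : Nat.Coprime q l :=
    (Nat.coprime_primes (Fact.out : q.Prime) (Fact.out : l.Prime)).2 hne
  have hint : IsCoprime (q : ℤ) (l : ℤ) := Nat.isCoprime_iff_coprime.2 hcop
  obtain ⟨a, b, hab⟩ := hint
  have h1 : (1 : 𝓞 F) ∈ v.asIdeal := by
    have h2 : (1 : 𝓞 F) = (a : 𝓞 F) * ((q : ℕ) : 𝓞 F) + (b : 𝓞 F) * ((l : ℕ) : 𝓞 F) := by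
      have := congrArg (fun z : ℤ => (z : 𝓞 F)) hab
      simp only [Int.cast_add, Int.cast_mul, Int.cast_natCast, Int.cast_one] at this
      exact this.symm
    rw [h2]
    exact add_mem (Ideal.mul_mem_left _ _ hq) (Ideal.mul_mem_left _ _ hl)
  exact v.isPrime.ne_top ((Ideal.eq_top_iff_one _).2 h1)

/-- **R-APX**, from R-EXIST. -/
theorem exists_norm_approx_of_existsLocDatum (hE : ExistsLocDatum) (l : ℕ) [Fact l.Prime]
    (F M : Type) [Field F] [NumberField F] [Field M] [NumberField M] [Algebra F M]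
    [IsGalois F M] (c : Fˣ)
    (hloc : ∀ D : LocDatum l F M,
      Units.map (algebraMap F D.Kv : F →* D.Kv) c ∈ (normUnits D.Kv D.Lw).range) :
    ∃ (m : Mˣ) (a b : 𝓞 F), a ≠ 0 ∧ b ≠ 0 ∧
      (c : F) * Algebra.norm F (m : M) * (b : F) = (a : F) ∧
      (∃ d : 𝓞 F, a - 1 = (l : 𝓞 F) * d) ∧ (∃ d : 𝓞 F, b - 1 = (l : 𝓞 F) * d) := by
  refine exists_norm_approx_of_exists l F M (fun v hv => ?_) c hloc
  obtain ⟨q, hq, D, hD⟩ := hE F M v
  have hql : q = l := eq_of_atPlace D v hD hv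
  subst hql
  exact ⟨D, hD⟩

end Adapter

end Fermat.Agent.S55.helper43
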