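import Mathlib

/-!
# S55 / REC1-APX (helper43), part A: the spectral norm of an algebraic extension of `ℚ_[l]`

General facts about `spectralNorm ℚ_[l] L` (multiplicativity, ultrametric inequality,
products of elements close to `1`, density of a subring generating `L`), and the elementary
form of the weak approximation theorem.
-/

set_option autoImplicit false
set_option linter.unusedSectionVars false

namespace Fermat.Agent.S55.helper43

open Polynomial

section WeakApprox

/-- Weak approximation, elementary form. -/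
theorem h43_weak_approx {F : Type*} [Field F] {ι : Type*} [Finite ι]
    (v : ι → AbsoluteValue F ℝ) (h : ∀ i, (v i).IsNontrivial)
    (hv : Pairwise fun i j ↦ ¬(v i).IsEquiv (v j)) (z : ι → F) (ε : ℝ) (hε : 0 < ε) :
    ∃ m : F, ∀ i, v i (m - z i) < ε := by
  classical
  have := Fintype.ofFinite ι
  have hd := AbsoluteValue.denseRange_algebraMap_pi h hv
  rw [Metric.denseRange_iff] at hd
  obtain ⟨m, hm⟩ := hd (fun i => WithAbs.toAbs (v i) (z i)) ε hε
  refine ⟨m, fun i => ?_⟩
  have h1 := (dist_pi_lt_iff hε).1 hm i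
  rw [dist_comm, dist_eq_norm] at h1
  have h2 : (algebraMap F (WithAbs (v i))) m - WithAbs.toAbs (v i) (z i)
      = WithAbs.toAbs (v i) (m - z i) := rfl
  have h3 : (algebraMap F ((i : ι) → WithAbs (v i)) m) i = (algebraMap F (WithAbs (v i))) m := rfl
  rw [h3, h2, WithAbs.norm_toAbs_eq] at h1
  exact h1

end WeakApprox

section SN

variable (l : ℕ) [Fact l.Prime] (L : Type*) [Field L] [Algebra ℚ_[l] L]
  [Algebra.IsAlgebraic ℚ_[l] L]

/-- the spectral norm of `L / ℚ_[l]` -/
noncomputable def sn (x : L) : ℝ := spectralNorm ℚ_[l] L x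

variable {L}

theorem sn_def (x : L) : sn l L x = spectralNorm ℚ_[l] L x := rfl

theorem sn_nonneg (x : L) : 0 ≤ sn l L x := spectralNorm_nonneg x

theorem sn_zero : sn l L (0 : L) = 0 := spectralNorm_zero

theorem sn_one : sn l L (1 : L) = 1 := spectralNorm_one

theorem sn_mul (x y : L) : sn l L (x * y) = sn l L x * sn l L y :=
  spectralAlgNorm_mul x y

theorem sn_eq_zero_iff (x : L) : sn l L x = 0 ↔ x = 0 :=
  ⟨fun h => eq_zero_of_map_spectralNorm_eq_zero h (Algebra.IsAlgebraic.isAlgebraic x),
    fun h => h ▸ sn_zero l⟩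

theorem sn_neg (x : L) : sn l L (-x) = sn l L x :=
  spectralNorm_neg (Algebra.IsAlgebraic.isAlgebraic x)

theorem sn_sub_comm (x y : L) : sn l L (x - y) = sn l L (y - x) := by
  rw [← sn_neg, neg_sub]

theorem sn_add_le_max (x y : L) : sn l L (x + y) ≤ max (sn l L x) (sn l L y) :=
  isNonarchimedean_spectralNorm x y

theorem sn_sub_le_max (x y : L) : sn l L (x - y) ≤ max (sn l L x) (sn l L y) := by
  rw [sub_eq_add_neg]
  exact (sn_add_le_max l x (-y)).trans (by rw [sn_neg])

theorem sn_add_le (x y : L) : sn l L (x + y) ≤ sn l L x + sn l L y :=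
  (sn_add_le_max l x y).trans (max_le_add_of_nonneg (sn_nonneg l x) (sn_nonneg l y))

theorem sn_algebraMap (k : ℚ_[l]) : sn l L (algebraMap ℚ_[l] L k) = ‖k‖ :=
  spectralNorm_extends k

theorem sn_inv (x : L) : sn l L x⁻¹ = (sn l L x)⁻¹ := by
  by_cases hx : x = 0
  · simp [hx, sn_zero]
  · have h1 : sn l L x * sn l L x⁻¹ = 1 := by
      rw [← sn_mul, mul_inv_cancel₀ hx, sn_one]
    exact eq_inv_of_mul_eq_one_right h1

/-- the `l`-adic absolute value of the prime `l` -/
theorem sn_prime : sn l L (l : L) = (l : ℝ)⁻¹ := by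
  have h : (l : L) = algebraMap ℚ_[l] L (l : ℚ_[l]) := by rw [map_natCast]
  rw [h, sn_algebraMap, Padic.norm_p]

theorem sn_prime_lt_one : sn l L (l : L) < 1 := by
  rw [sn_prime]
  exact inv_lt_one_of_one_lt₀ (by exact_mod_cast (Fact.out : l.Prime).one_lt)

theorem sn_prime_pos : 0 < sn l L (l : L) := by
  rw [sn_prime]
  exact inv_pos.mpr (by exact_mod_cast (Fact.out : l.Prime).pos)

/-- automorphisms are isometries -/
theorem sn_algEquiv {K : Type*} [Field K] [Algebra ℚ_[l] K] [Algebra K L]
    [IsScalarTower ℚ_[l] K L] (σ : L ≃ₐ[K] L) (x : L) : sn l L (σ x) = sn l L x :=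
  (spectralNorm_eq_of_equiv (σ.restrictScalars ℚ_[l]) x).symm

/-- compatibility with towers -/
theorem sn_tower {K : Type*} [Field K] [Algebra ℚ_[l] K] [Algebra.IsAlgebraic ℚ_[l] K]
    [Algebra K L] [IsScalarTower ℚ_[l] K L] (x : K) :
    sn l L (algebraMap K L x) = sn l K x :=
  (spectralNorm.eq_of_tower (K := ℚ_[l]) (L := L) x).symm

/-- a product of elements congruent to `1` is congruent to `1` -/
theorem sn_prod_sub_one_lt {ι : Type*} (s : Finset ι) (f : ι → L) (ε : ℝ) (hε : 0 < ε)
    (hε1 : ε ≤ 1) (h : ∀ i ∈ s, sn l L (f i - 1) < ε) : sn l L (∏ i ∈ s, f i - 1) < ε := by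
  classical
  induction s using Finset.induction_on with
  | empty => simpa [sn_zero] using hε
  | insert a s ha ih =>
    rw [Finset.prod_insert ha]
    have h1 := h a (Finset.mem_insert_self a s)
    have h2 := ih (fun i hi => h i (Finset.mem_insert_of_mem hi))
    have h3 : f a * ∏ i ∈ s, f i - 1 = f a * (∏ i ∈ s, f i - 1) + (f a - 1) := by ring
    have h4 : sn l L (f a) ≤ 1 := by
      have : f a = (f a - 1) + 1 := by ring
      rw [this]
      refine (sn_add_le_max l _ _).trans (max_le (h1.le.trans hε1) (sn_one l).le)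
    rw [h3]
    refine (sn_add_le_max l _ _).trans_lt (max_lt ?_ h1)
    rw [sn_mul]
    calc sn l L (f a) * sn l L (∏ i ∈ s, f i - 1) ≤ 1 * sn l L (∏ i ∈ s, f i - 1) :=
          mul_le_mul_of_nonneg_right h4 (sn_nonneg l _)
      _ = sn l L (∏ i ∈ s, f i - 1) := one_mul _
      _ < ε := h2

/-- elements integral over `ℤ` have norm at most one -/
theorem sn_le_one_of_isIntegral {x : L} (hx : IsIntegral ℤ x) : sn l L x ≤ 1 := by
  obtain ⟨f, hf, hfx⟩ := hx
  set g : ℚ_[l][X] := f.map (Int.castRingHom ℚ_[l]) with hg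
  have hgm : g.Monic := hf.map _
  have hgx : aeval x g = 0 := by
    rw [hg, aeval_def, eval₂_map]
    have : (algebraMap ℚ_[l] L).comp (Int.castRingHom ℚ_[l]) = algebraMap ℤ L :=
      RingHom.ext_int _ _
    rw [this]
    exact hfx
  have h1 : spectralAlgNorm ℚ_[l] L x ≤ spectralValue g :=
    norm_root_le_spectralValue spectralAlgNorm_isPowMul isNonarchimedean_spectralNorm hgm hgx
  refine h1.trans ((spectralValue_le_one_iff hgm).mpr fun n => ?_)
  rw [hg, coeff_map]
  exact Padic.norm_int_le_one _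

end SN

section Dense

variable (l : ℕ) [Fact l.Prime] {L : Type*} [Field L] [Algebra ℚ_[l] L]
  [Algebra.IsAlgebraic ℚ_[l] L]

/-- If the image of the characteristic-zero field `A` generates `L` over `ℚ_[l]`, then it is
dense in `L` for the spectral norm. -/
theorem exists_sn_sub_lt {A : Type*} [Field A] [CharZero A] [Algebra A L]
    (h : Algebra.adjoin ℚ_[l] (Set.range (algebraMap A L)) = ⊤) (x : L) (ε : ℝ) (hε : 0 < ε) :
    ∃ a : A, sn l L (x - algebraMap A L a) < ε := by
  have hx : x ∈ Algebra.adjoin ℚ_[l] (Set.range (algebraMap A L)) := by rw [h]; trivial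
  revert ε
  induction hx using Algebra.adjoin_induction with
  | mem y hy =>
    intro ε hε
    obtain ⟨a, rfl⟩ := hy
    exact ⟨a, by simpa [sn_zero] using hε⟩
  | algebraMap r =>
    intro ε hε
    obtain ⟨t, ht⟩ := Padic.rat_dense l r hε
    refine ⟨(t : A), ?_⟩
    have h1 : algebraMap A L (t : A) = algebraMap ℚ_[l] L (t : ℚ_[l]) := by
      rw [map_ratCast, map_ratCast]
    rw [h1, ← map_sub, sn_algebraMap]
    exact ht
  | add y z _ _ ihy ihz =>
    intro ε hε
    obtain ⟨a, ha⟩ := ihy ε hε
    obtain ⟨b, hb⟩ := ihz ε hε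
    refine ⟨a + b, ?_⟩
    have : y + z - algebraMap A L (a + b) = (y - algebraMap A L a) + (z - algebraMap A L b) := by
      rw [map_add]; ring
    rw [this]
    exact (sn_add_le_max l _ _).trans_lt (max_lt ha hb)
  | mul y z _ _ ihy ihz =>
    intro ε hε
    have hy0 : 0 < sn l L y + 1 := by linarith [sn_nonneg l y]
    have hz0 : 0 < sn l L z + 2 := by linarith [sn_nonneg l z]
    obtain ⟨b, hb⟩ := ihz (min (ε / (sn l L y + 1)) 1) (lt_min (div_pos hε hy0) one_pos)
    obtain ⟨a, ha⟩ := ihy (ε / (sn l L z + 2)) (div_pos hε hz0)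
    refine ⟨a * b, ?_⟩
    have h1 : y * z - algebraMap A L (a * b)
        = y * (z - algebraMap A L b) + algebraMap A L b * (y - algebraMap A L a) := by
      rw [map_mul]; ring
    have hb1 : sn l L (algebraMap A L b) ≤ sn l L z + 1 := by
      have : algebraMap A L b = z - (z - algebraMap A L b) := by ring
      rw [this]
      refine (sn_sub_le_max l _ _).trans (max_le (by linarith) ?_)
      exact (hb.le.trans (min_le_right _ _)).trans (by linarith [sn_nonneg l z])
    rw [h1]
    refine (sn_add_le_max l _ _).trans_lt (max_lt ?_ ?_)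
    · rw [sn_mul]
      calc sn l L y * sn l L (z - algebraMap A L b)
          ≤ sn l L y * (ε / (sn l L y + 1)) :=
            mul_le_mul_of_nonneg_left (hb.le.trans (min_le_left _ _)) (sn_nonneg l y)
        _ < (sn l L y + 1) * (ε / (sn l L y + 1)) :=
            mul_lt_mul_of_pos_right (by linarith) (div_pos hε hy0)
        _ = ε := by field_simp
    · rw [sn_mul]
      calc sn l L (algebraMap A L b) * sn l L (y - algebraMap A L a)
          ≤ (sn l L z + 1) * sn l L (y - algebraMap A L a) :=
            mul_le_mul_of_nonneg_right hb1 (sn_nonneg l _)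
        _ ≤ (sn l L z + 1) * (ε / (sn l L z + 2)) :=
            mul_le_mul_of_nonneg_left ha.le (by linarith [sn_nonneg l z])
        _ < (sn l L z + 2) * (ε / (sn l L z + 2)) :=
            mul_lt_mul_of_pos_right (by linarith) (div_pos hε hz0)
        _ = ε := by field_simp

end Dense

end Fermat.Agent.S55.helper43
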