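import Fermat.Agent.S55.helper11_RecDefs
import Fermat.Agent.S55.helper71_LocNorm
import Fermat.Agent.S55.helper43_ApxNorm

/-!
# S55 / REC1-APX (helper43), part B: the absolute value of a local datum and its isometries

For a local datum `D` of a Galois extension `M/F` the spectral norm of `D.Lw` restricts to an
absolute value `abvD D` on `M`.  The image of `locHom : Gal(D.Lw/D.Kv) → Gal(M/F)` is exactly
the group of isometries of `abvD D` (the decomposition group), and `locHom` is injective.
-/

set_option autoImplicit false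
set_option linter.unusedSectionVars false
set_option linter.style.haveILetI false

open scoped NumberField

namespace Fermat.Agent.S55.helper43

open Fermat.Agent.S55.helper8 Fermat.Agent.S55.helper11

variable {l : ℕ} [Fact l.Prime] {F M : Type} [Field F] [Field M] [Algebra F M]

/-- `D.Lw` is finite over `ℚ_[l]`. -/
theorem finLw (D : LocDatum l F M) : FiniteDimensional ℚ_[l] D.Lw :=
  Module.Finite.trans D.Kv D.Lw

/-- `D.Lw` is algebraic over `ℚ_[l]`. -/
theorem algLw (D : LocDatum l F M) : Algebra.IsAlgebraic ℚ_[l] D.Lw :=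
  haveI := finLw D
  Algebra.IsAlgebraic.of_finite ℚ_[l] D.Lw

/-- `D.Kv` is algebraic over `ℚ_[l]`. -/
theorem algKv (D : LocDatum l F M) : Algebra.IsAlgebraic ℚ_[l] D.Kv :=
  Algebra.IsAlgebraic.of_finite ℚ_[l] D.Kv

/-- The absolute value on `M` induced by the local datum `D`. -/
noncomputable def abvD (D : LocDatum l F M) : AbsoluteValue M ℝ :=
  haveI := algLw D
  { toFun := fun x => sn l D.Lw (algebraMap M D.Lw x)
    map_mul' := fun x y => by rw [map_mul, sn_mul]
    nonneg' := fun x => sn_nonneg l _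
    eq_zero' := fun x => by rw [sn_eq_zero_iff, map_eq_zero]
    add_le' := fun x y => by rw [map_add]; exact sn_add_le l _ _ }

theorem abvD_apply (D : LocDatum l F M) (x : M) :
    abvD D x = spectralNorm ℚ_[l] D.Lw (algebraMap M D.Lw x) := rfl

theorem abvD_add_le_max (D : LocDatum l F M) (x y : M) :
    abvD D (x + y) ≤ max (abvD D x) (abvD D y) := by
  haveI := algLw D
  rw [abvD_apply, map_add]
  exact sn_add_le_max l _ _

theorem abvD_sub_le_max (D : LocDatum l F M) (x y : M) :
    abvD D (x - y) ≤ max (abvD D x) (abvD D y) := by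
  haveI := algLw D
  rw [abvD_apply, map_sub]
  exact sn_sub_le_max l _ _

theorem abvD_natCast_prime (D : LocDatum l F M) : abvD D (l : M) = (l : ℝ)⁻¹ := by
  haveI := algLw D
  rw [abvD_apply, map_natCast]
  exact sn_prime l

theorem abvD_isNontrivial (D : LocDatum l F M) : (abvD D).IsNontrivial := by
  have hl : (1 : ℝ) < l := by exact_mod_cast (Fact.out : l.Prime).one_lt
  refine ⟨(l : M), ?_, ?_⟩
  · intro h
    have := abvD_natCast_prime D
    rw [h, map_zero] at this
    have : (l : ℝ)⁻¹ ≠ 0 := inv_ne_zero (by linarith)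
    exact this (by linarith)
  · rw [abvD_natCast_prime]
    exact (inv_lt_one_of_one_lt₀ hl).ne

/-- restriction to `F` -/
theorem abvD_algebraMap (D : LocDatum l F M) (a : F) :
    abvD D (algebraMap F M a) = spectralNorm ℚ_[l] D.Kv (algebraMap F D.Kv a) := by
  haveI := algLw D
  haveI := algKv D
  rw [abvD_apply, ← IsScalarTower.algebraMap_apply F M D.Lw,
    IsScalarTower.algebraMap_apply F D.Kv D.Lw]
  exact sn_tower l (K := D.Kv) (L := D.Lw) _

section Galois

variable [Normal F M]

/-- elements of the image of `locHom` are isometries -/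
theorem abvD_locHom (D : LocDatum l F M) (σ : D.Lw ≃ₐ[D.Kv] D.Lw) (x : M) :
    abvD D (locHom F M D.Kv D.Lw σ x) = abvD D x := by
  haveI := algLw D
  rw [abvD_apply, abvD_apply, algebraMap_locHom]
  exact sn_algEquiv l σ _

/-- `locHom` is injective -/
theorem locHom_injective_h43 (D : LocDatum l F M) :
    Function.Injective (locHom F M D.Kv D.Lw) := by
  rw [injective_iff_map_eq_one]
  intro σ hσ
  have h1 : ∀ x : M, σ (algebraMap M D.Lw x) = algebraMap M D.Lw x := fun x => by
    rw [← algebraMap_locHom F M D.Kv D.Lw σ x, hσ]; rfl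
  have h2 : (σ.restrictScalars ℚ_[l] : D.Lw →ₐ[ℚ_[l]] D.Lw) = AlgHom.id ℚ_[l] D.Lw := by
    refine AlgHom.ext_of_adjoin_eq_top D.denseL ?_
    rintro _ ⟨x, rfl⟩
    exact h1 x
  ext y
  exact DFunLike.congr_fun h2 y

end Galois

section Isometry

variable [FiniteDimensional F M] [IsGalois F M] [CharZero F]

/-- every element of `D.Kv` which is the image of an element `z` of `M` is approximated by
elements of `F` -/
theorem exists_abvD_sub_lt_of_mem_Kv (D : LocDatum l F M) (z : M) (k : D.Kv)
    (hk : algebraMap D.Kv D.Lw k = algebraMap M D.Lw z) (ε : ℝ) (hε : 0 < ε) :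
    ∃ f : F, abvD D (z - algebraMap F M f) < ε := by
  haveI := algLw D
  haveI := algKv D
  obtain ⟨f, hf⟩ := exists_sn_sub_lt l D.denseK k ε hε
  refine ⟨f, ?_⟩
  rw [abvD_apply, map_sub, ← hk, ← IsScalarTower.algebraMap_apply F M D.Lw,
    IsScalarTower.algebraMap_apply F D.Kv D.Lw, ← map_sub]
  rw [← sn_def, sn_tower l (K := D.Kv) (L := D.Lw)]
  exact hf

/-- an isometry of `abvD D` lies in the image of `locHom` -/
theorem mem_range_locHom_of_isometry (D : LocDatum l F M) (g : M ≃ₐ[F] M)
    (hg : ∀ x, abvD D (g x) = abvD D x) : g ∈ (locHom F M D.Kv D.Lw).range := by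
  rw [← IntermediateField.fixingSubgroup_fixedField (locHom F M D.Kv D.Lw).range,
    IntermediateField.mem_fixingSubgroup_iff]
  intro z hz
  -- the image of `z` in `D.Lw` is fixed by the local Galois group, so it lies in `D.Kv`
  have h1 : ∀ σ : D.Lw ≃ₐ[D.Kv] D.Lw, σ (algebraMap M D.Lw z) = algebraMap M D.Lw z := by
    intro σ
    rw [← algebraMap_locHom F M D.Kv D.Lw σ z]
    congr 1
    exact hz ⟨locHom F M D.Kv D.Lw σ, ⟨σ, rfl⟩⟩
  have h2 : algebraMap M D.Lw z ∈ (⊥ : IntermediateField D.Kv D.Lw) := by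
    rw [← IsGalois.fixedField_top (F := D.Kv) (E := D.Lw)]
    rintro ⟨σ, -⟩
    exact h1 σ
  obtain ⟨k, hk⟩ := IntermediateField.mem_bot.1 h2
  -- approximate by elements of `F`
  by_contra hne
  have hpos : 0 < abvD D (g z - z) := (abvD D).pos (sub_ne_zero.mpr hne)
  obtain ⟨f, hf⟩ := exists_abvD_sub_lt_of_mem_Kv D z k hk _ hpos
  have h3 : g z - z = g (z - algebraMap F M f) - (z - algebraMap F M f) := by
    rw [map_sub, g.commutes]; ring
  have h4 : abvD D (g z - z) < abvD D (g z - z) := by
    conv_lhs => rw [h3]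
    exact (abvD_sub_le_max D _ _).trans_lt (max_lt (by rw [hg]; exact hf) hf)
  exact lt_irrefl _ h4

/-- the image of `locHom` is the group of isometries -/
theorem mem_range_locHom_iff (D : LocDatum l F M) (g : M ≃ₐ[F] M) :
    g ∈ (locHom F M D.Kv D.Lw).range ↔ ∀ x, abvD D (g x) = abvD D x :=
  ⟨by rintro ⟨σ, rfl⟩ x; exact abvD_locHom D σ x, mem_range_locHom_of_isometry D g⟩

end Isometry

section AtPlace

variable [NumberField F]

/-- integers have absolute value at most one -/
theorem abvD_integer_le_one (D : LocDatum l F M) (a : 𝓞 F) :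
    abvD D (algebraMap F M (a : F)) ≤ 1 := by
  haveI := algLw D
  rw [abvD_apply]
  refine sn_le_one_of_isIntegral l ?_
  have h1 : IsIntegral ℤ (a : F) := a.2
  exact (h1.map (IsScalarTower.toAlgHom ℤ F M)).map (IsScalarTower.toAlgHom ℤ M D.Lw) |>.algebraMap

end AtPlace

end Fermat.Agent.S55.helper43
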