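import Fermat.Agent.S55.helper43_ApxGalois

/-!
# S55 / REC1-APX (helper43), part C: approximation of local norms by a global norm

`exists_norm_approx_of_exists`: the statement R-APX of the REC1 interface (helper11), with the
existence of local data at the primes above `l` (R-EXIST) as a hypothesis.
-/

set_option autoImplicit false
set_option linter.unusedSectionVars false
set_option linter.style.haveILetI false

open scoped NumberField
open IsDedekindDomain

namespace Fermat.Agent.S55.helper43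

open Fermat.Agent.S55.helper8 Fermat.Agent.S55.helper11

section General

/-- two equivalent absolute values which agree at a point of absolute value in `(0,1)` are
equal -/
theorem abv_eq_of_isEquiv {K : Type*} [Field K] {v w : AbsoluteValue K ℝ} (h : v.IsEquiv w)
    (a : K) (ha0 : 0 < v a) (ha1 : v a < 1) (haw : v a = w a) : v = w := by
  obtain ⟨c, hc, hcw⟩ := AbsoluteValue.isEquiv_iff_exists_rpow_eq.1 h
  have h1 : v a ^ c = v a := by
    have h0 : v a ^ c = w a := congrFun hcw a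
    rw [h0, haw]
  have hc1 : c = 1 := by
    by_contra hne
    rcases lt_or_gt_of_ne hne with h' | h'
    · have := Real.rpow_lt_rpow_of_exponent_gt ha0 ha1 h'
      rw [Real.rpow_one, h1] at this
      exact lt_irrefl _ this
    · have := Real.rpow_lt_rpow_of_exponent_gt ha0 ha1 h'
      rw [Real.rpow_one, h1] at this
      exact lt_irrefl _ this
  ext x
  have h0 : v x ^ c = w x := congrFun hcw x
  rw [hc1, Real.rpow_one] at h0
  exact h0

end General

variable {l : ℕ} [Fact l.Prime] {F M : Type} [Field F] [NumberField F] [Field M] [NumberField M]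
  [Algebra F M] [IsGalois F M]

/-- `M` is finite over `F` -/
theorem finFM (F M : Type) [Field F] [NumberField F] [Field M] [NumberField M]
    [Algebra F M] : FiniteDimensional F M :=
  Module.Finite.of_restrictScalars_finite ℚ F M

/-- `AtPlace` in terms of the absolute value -/
theorem atPlace_iff_abvD_lt_one (D : LocDatum l F M) (v : HeightOneSpectrum (𝓞 F))
    (hv : D.AtPlace v) (a : 𝓞 F) :
    a ∈ v.asIdeal ↔ abvD D (algebraMap F M (a : F)) < 1 := by
  rw [hv a, abvD_algebraMap]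
  have := Fermat.Agent.S55.helper71.lt_ordT_iff l D.Kv (algebraMap F D.Kv (a : F)) 0
  rw [zpow_zero] at this
  exact this

/-- the absolute value `x ↦ |g⁻¹ x|_D` -/
noncomputable def abvG (D : LocDatum l F M) (g : M ≃ₐ[F] M) : AbsoluteValue M ℝ where
  toFun x := abvD D (g⁻¹ x)
  map_mul' x y := by rw [map_mul, map_mul]
  nonneg' x := (abvD D).nonneg _
  eq_zero' x := by rw [(abvD D).eq_zero, map_eq_zero_iff _ (AlgEquiv.injective _)]
  add_le' x y := by rw [map_add]; exact (abvD D).add_le _ _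

theorem abvG_apply (D : LocDatum l F M) (g : M ≃ₐ[F] M) (x : M) :
    abvG D g x = abvD D (g⁻¹ x) := rfl

theorem abvG_algebraMap (D : LocDatum l F M) (g : M ≃ₐ[F] M) (a : F) :
    abvG D g (algebraMap F M a) = abvD D (algebraMap F M a) := by
  rw [abvG_apply, AlgEquiv.commutes]

theorem abvG_natCast (D : LocDatum l F M) (g : M ≃ₐ[F] M) (n : ℕ) :
    abvG D g (n : M) = abvD D (n : M) := by
  rw [abvG_apply, map_natCast]

theorem abvG_isNontrivial (D : LocDatum l F M) (g : M ≃ₐ[F] M) : (abvG D g).IsNontrivial := by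
  obtain ⟨x, hx0, hx1⟩ := abvD_isNontrivial D
  refine ⟨g x, ?_, ?_⟩
  · rwa [Ne, map_eq_zero_iff _ (AlgEquiv.injective _)]
  · rw [abvG_apply]
    have : g⁻¹ (g x) = x := by
      change (g⁻¹ * g) x = x
      rw [inv_mul_cancel]; rfl
    rwa [this]

/-- well-definedness on cosets of the decomposition group -/
theorem abvG_eq_of_mem (D : LocDatum l F M) (g g' : M ≃ₐ[F] M)
    (h : g⁻¹ * g' ∈ (locHom F M D.Kv D.Lw).range) (x : M) : abvG D g x = abvG D g' x := by
  haveI := finFM F M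
  have h' : (g⁻¹ * g')⁻¹ ∈ (locHom F M D.Kv D.Lw).range := inv_mem h
  have h1 := (mem_range_locHom_iff D _).1 h' (g⁻¹ x)
  rw [abvG_apply, abvG_apply, ← h1]
  congr 1
  change ((g⁻¹ * g')⁻¹ * g⁻¹) x = g'⁻¹ x
  congr 1
  group

/-- the converse -/
theorem mem_of_abvG_eq (D : LocDatum l F M) (g g' : M ≃ₐ[F] M)
    (h : abvG D g = abvG D g') : g⁻¹ * g' ∈ (locHom F M D.Kv D.Lw).range := by
  haveI := finFM F M
  rw [mem_range_locHom_iff]
  intro y
  have h1 := DFunLike.congr_fun h (g' y)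
  rw [abvG_apply, abvG_apply] at h1
  have h2 : g'⁻¹ (g' y) = y := by
    change (g'⁻¹ * g') y = y
    rw [inv_mul_cancel]; rfl
  rw [h2] at h1
  exact h1


section LocalEstimate

/-- binary version of `sn_prod_sub_one_lt` -/
theorem sn_mul_sub_one_lt {L : Type*} [Field L] [Algebra ℚ_[l] L] [Algebra.IsAlgebraic ℚ_[l] L]
    (x y : L) (ε : ℝ) (hε1 : ε ≤ 1) (hx : sn l L (x - 1) < ε) (hy : sn l L (y - 1) < ε) :
    sn l L (x * y - 1) < ε := by
  have h3 : x * y - 1 = x * (y - 1) + (x - 1) := by ring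
  have h4 : sn l L x ≤ 1 := by
    have : x = (x - 1) + 1 := by ring
    rw [this]
    exact (sn_add_le_max l _ _).trans (max_le (hx.le.trans hε1) (sn_one l).le)
  rw [h3]
  refine (sn_add_le_max l _ _).trans_lt (max_lt ?_ hx)
  rw [sn_mul]
  calc sn l L x * sn l L (y - 1) ≤ 1 * sn l L (y - 1) :=
        mul_le_mul_of_nonneg_right h4 (sn_nonneg l _)
    _ = sn l L (y - 1) := one_mul _
    _ < ε := hy

open Classical in
/-- the image in `D.Lw` of `c * N_{M/F} m` as a product -/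
theorem algebraMap_mul_norm_eq (D : LocDatum l F M) (c : F) (μ : D.Lw)
    (hμ : Algebra.norm D.Kv μ = algebraMap F D.Kv c) (m : M) :
    algebraMap M D.Lw (algebraMap F M (c * Algebra.norm F m)) =
      (∏ σ : D.Lw ≃ₐ[D.Kv] D.Lw, σ (μ * algebraMap M D.Lw m)) *
        ∏ g ∈ (Finset.univ : Finset (M ≃ₐ[F] M)).filter
          (fun g => ¬ g ∈ (locHom F M D.Kv D.Lw).range), algebraMap M D.Lw (g⁻¹ m) := by
  haveI := finFM F M
  have hc : algebraMap M D.Lw (algebraMap F M c) = ∏ σ : D.Lw ≃ₐ[D.Kv] D.Lw, σ μ := by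
    rw [← Algebra.norm_eq_prod_automorphisms D.Kv μ, hμ,
      ← IsScalarTower.algebraMap_apply F M D.Lw, ← IsScalarTower.algebraMap_apply F D.Kv D.Lw]
  have hN : algebraMap F M (Algebra.norm F m) = ∏ g : M ≃ₐ[F] M, g⁻¹ m := by
    rw [Algebra.norm_eq_prod_automorphisms F m]
    exact (Equiv.prod_comp (Equiv.inv (M ≃ₐ[F] M)) (fun g => g m)).symm
  have hsplit : ∏ g : M ≃ₐ[F] M, algebraMap M D.Lw (g⁻¹ m) =
      (∏ g ∈ (Finset.univ : Finset (M ≃ₐ[F] M)).filter
          (fun g => g ∈ (locHom F M D.Kv D.Lw).range), algebraMap M D.Lw (g⁻¹ m)) *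
        ∏ g ∈ (Finset.univ : Finset (M ≃ₐ[F] M)).filter
          (fun g => ¬ g ∈ (locHom F M D.Kv D.Lw).range), algebraMap M D.Lw (g⁻¹ m) :=
    (Finset.prod_filter_mul_prod_filter_not _ _ _).symm
  have himg : (Finset.univ : Finset (M ≃ₐ[F] M)).filter
      (fun g => g ∈ (locHom F M D.Kv D.Lw).range) =
      (Finset.univ : Finset (D.Lw ≃ₐ[D.Kv] D.Lw)).image (locHom F M D.Kv D.Lw) := by
    ext g
    simp [MonoidHom.mem_range]
  have hH : ∏ g ∈ (Finset.univ : Finset (M ≃ₐ[F] M)).filter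
      (fun g => g ∈ (locHom F M D.Kv D.Lw).range), algebraMap M D.Lw (g⁻¹ m) =
      ∏ σ : D.Lw ≃ₐ[D.Kv] D.Lw, σ (algebraMap M D.Lw m) := by
    rw [himg, Finset.prod_image (fun x _ y _ h => locHom_injective_h43 D h)]
    rw [← Equiv.prod_comp (Equiv.inv (D.Lw ≃ₐ[D.Kv] D.Lw))
      (fun σ => σ (algebraMap M D.Lw m))]
    refine Finset.prod_congr rfl fun σ _ => ?_
    rw [← map_inv, algebraMap_locHom F M D.Kv D.Lw σ⁻¹ m]
    rfl
  rw [map_mul, map_mul, hc, hN, map_prod, hsplit, hH, ← mul_assoc, ← Finset.prod_mul_distrib]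
  congr 1
  refine Finset.prod_congr rfl fun σ _ => ?_
  rw [map_mul]

/-- the local estimate -/
theorem abvD_mul_norm_sub_one_lt (D : LocDatum l F M) (c : F) (μ : D.Lw)
    (hμ : Algebra.norm D.Kv μ = algebraMap F D.Kv c) (m : M) (ε : ℝ) (hε : 0 < ε) (hε1 : ε ≤ 1)
    (h1 : spectralNorm ℚ_[l] D.Lw (μ * algebraMap M D.Lw m - 1) < ε)
    (h2 : ∀ g : M ≃ₐ[F] M, g ∉ (locHom F M D.Kv D.Lw).range → abvD D (g⁻¹ m - 1) < ε) :
    abvD D (algebraMap F M (c * Algebra.norm F m) - 1) < ε := by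
  classical
  haveI := algLw D
  rw [abvD_apply, map_sub, map_one, algebraMap_mul_norm_eq D c μ hμ m]
  refine sn_mul_sub_one_lt _ _ ε hε1 ?_ ?_
  · refine sn_prod_sub_one_lt l _ _ ε hε hε1 fun σ _ => ?_
    have : σ (μ * algebraMap M D.Lw m) - 1 = σ (μ * algebraMap M D.Lw m - 1) := by
      rw [map_sub, map_one]
    rw [this, sn_algEquiv l σ]
    exact h1
  · refine sn_prod_sub_one_lt l _ _ ε hε hε1 fun g hg => ?_
    have hg' : g ∉ (locHom F M D.Kv D.Lw).range := (Finset.mem_filter.1 hg).2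
    have := h2 g hg'
    rwa [abvD_apply, map_sub, map_one] at this

end LocalEstimate

section Denominators

variable {l : ℕ} [Fact l.Prime] {F M : Type} [Field F] [NumberField F] [Field M] [NumberField M]
  [Algebra F M] [IsGalois F M]

/-- the prime number `l` is not a unit of `𝓞 F` -/
theorem not_isUnit_natCast_prime (l : ℕ) [Fact l.Prime] (F : Type) [Field F] [NumberField F] :
    ¬ IsUnit ((l : ℕ) : 𝓞 F) := by
  intro hu
  obtain ⟨t, ht⟩ := hu.exists_right_inv
  have hl0 : (l : ℚ) ≠ 0 := by exact_mod_cast (Fact.out : l.Prime).ne_zero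
  have h1 : ((t : 𝓞 F) : F) = algebraMap ℚ F ((l : ℚ)⁻¹) := by
    have h2 : ((l : 𝓞 F) : F) * (t : F) = 1 := by
      have := congrArg (fun x : 𝓞 F => (x : F)) ht
      simpa using this
    have h3 : ((l : 𝓞 F) : F) = algebraMap ℚ F (l : ℚ) := by
      rw [map_natCast]; simp
    rw [h3] at h2
    rw [map_inv₀]
    exact eq_inv_of_mul_eq_one_right h2
  have h4 : IsIntegral ℤ ((l : ℚ)⁻¹) := by
    have h5 : IsIntegral ℤ ((t : 𝓞 F) : F) := t.2
    rw [h1] at h5
    exact (isIntegral_algebraMap_iff (algebraMap ℚ F).injective).1 h5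
  obtain ⟨n, hn⟩ := IsIntegrallyClosed.isIntegral_iff.1 h4
  have h6 : (l : ℚ) * (n : ℚ) = 1 := by
    have : (algebraMap ℤ ℚ n) = (n : ℚ) := rfl
    rw [← this, hn, mul_inv_cancel₀ hl0]
  have h7 : (l : ℤ) * n = 1 := by exact_mod_cast h6
  have h8 : IsUnit (l : ℤ) := IsUnit.of_mul_eq_one _ h7
  rw [Int.isUnit_iff] at h8
  have hl2 := (Fact.out : l.Prime).two_le
  rcases h8 with h8 | h8 <;> omega

/-- clearing denominators: if `x ≡ 1 mod l` at all local data over the primes above `l`, then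
`x = a / b` with `a ≡ b ≡ 1 mod l`. -/
theorem exists_int_of_abvD_lt (Dv : ∀ v : HeightOneSpectrum (𝓞 F), (l : 𝓞 F) ∈ v.asIdeal →
      LocDatum l F M)
    (hDv : ∀ (v : HeightOneSpectrum (𝓞 F)) (hv : (l : 𝓞 F) ∈ v.asIdeal), (Dv v hv).AtPlace v)
    (x : F) (hx0 : x ≠ 0)
    (hx : ∀ (v : HeightOneSpectrum (𝓞 F)) (hv : (l : 𝓞 F) ∈ v.asIdeal),
      abvD (Dv v hv) (algebraMap F M x - 1) < (l : ℝ)⁻¹) :
    ∃ a b : 𝓞 F, a ≠ 0 ∧ b ≠ 0 ∧ x * (b : F) = (a : F) ∧
      (∃ d : 𝓞 F, a - 1 = (l : 𝓞 F) * d) ∧ (∃ d : 𝓞 F, b - 1 = (l : 𝓞 F) * d) := by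
  have hl0 : (l : F) ≠ 0 := by exact_mod_cast (Fact.out : l.Prime).ne_zero
  have hlO : ((l : ℕ) : 𝓞 F) ≠ 0 := by exact_mod_cast (Fact.out : l.Prime).ne_zero
  set y : F := (x - 1) / (l : F) with hy
  have hxy : x = 1 + (l : F) * y := by rw [hy]; field_simp; ring
  -- `y` is integral at the primes above `l`
  have hyv : ∀ (v : HeightOneSpectrum (𝓞 F)) (hv : (l : 𝓞 F) ∈ v.asIdeal),
      abvD (Dv v hv) (algebraMap F M y) < 1 := by
    intro v hv
    have h1 := hx v hv
    have h2 : algebraMap F M x - 1 = (l : M) * algebraMap F M y := by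
      rw [hxy]; simp
    rw [h2, map_mul, abvD_natCast_prime] at h1
    have hlpos : (0 : ℝ) < (l : ℝ)⁻¹ := inv_pos.mpr (by exact_mod_cast (Fact.out : l.Prime).pos)
    by_contra hcon
    rw [not_lt] at hcon
    have : (l : ℝ)⁻¹ * 1 ≤ (l : ℝ)⁻¹ * abvD (Dv v hv) (algebraMap F M y) :=
      mul_le_mul_of_nonneg_left hcon hlpos.le
    linarith
  -- the denominator ideal
  let J : Ideal (𝓞 F) :=
    { carrier := {d | ∃ n : 𝓞 F, y * (d : F) = (n : F)}
      add_mem' := by
        rintro a b ⟨n, hn⟩ ⟨n', hn'⟩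
        exact ⟨n + n', by push_cast; rw [mul_add, hn, hn']⟩
      zero_mem' := ⟨0, by simp⟩
      smul_mem' := by
        rintro r a ⟨n, hn⟩
        refine ⟨r * n, ?_⟩
        simp only [smul_eq_mul]
        push_cast
        linear_combination (r : F) * hn }
  have hJ : ∀ d : 𝓞 F, d ∈ J ↔ ∃ n : 𝓞 F, y * (d : F) = (n : F) := fun d => Iff.rfl
  have hsup : J ⊔ Ideal.span {((l : ℕ) : 𝓞 F)} = ⊤ := by
    by_contra hne
    obtain ⟨P, hP, hle⟩ := Ideal.exists_le_maximal _ hne
    have hlP : ((l : ℕ) : 𝓞 F) ∈ P :=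
      hle (Ideal.mem_sup_right (Ideal.subset_span (Set.mem_singleton _)))
    have hP0 : P ≠ ⊥ := by
      intro h0
      rw [h0, Ideal.mem_bot] at hlP
      exact hlO hlP
    let v : HeightOneSpectrum (𝓞 F) := ⟨P, hP.isPrime, hP0⟩
    have hv : (l : 𝓞 F) ∈ v.asIdeal := hlP
    obtain ⟨n, d, hnd | hnd⟩ := v.exists_primeCompl_mul_eq_or_mul_eq (K := F) y
    · have hdJ : (d : 𝓞 F) ∈ J := (hJ _).2 ⟨n, hnd⟩
      exact d.2 (hle (Ideal.mem_sup_left hdJ))
    · -- impossible: `|y| < 1`, `|n| ≤ 1`, `|d| = 1`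
      have h1 := congrArg (fun z : F => abvD (Dv v hv) (algebraMap F M z)) hnd
      simp only [map_mul] at h1
      have hd1 : ¬ abvD (Dv v hv) (algebraMap F M ((d : 𝓞 F) : F)) < 1 := by
        rw [← atPlace_iff_abvD_lt_one (Dv v hv) v (hDv v hv)]
        exact d.2
      have hn1 := abvD_integer_le_one (Dv v hv) n
      have hy1 := hyv v hv
      have hy0 := (abvD (Dv v hv)).nonneg (algebraMap F M y)
      have hn0 := (abvD (Dv v hv)).nonneg (algebraMap F M (n : F))
      apply hd1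
      have h2 : abvD (Dv v hv) (algebraMap F M ((d : 𝓞 F) : F)) =
          abvD (Dv v hv) (algebraMap F M y) * abvD (Dv v hv) (algebraMap F M (n : F)) := h1.symm
      rw [h2]
      calc abvD (Dv v hv) (algebraMap F M y) * abvD (Dv v hv) (algebraMap F M (n : F))
          ≤ abvD (Dv v hv) (algebraMap F M y) * 1 := mul_le_mul_of_nonneg_left hn1 hy0
        _ < 1 := by rw [mul_one]; exact hy1
  -- write `1 = s + l t`
  have h1mem : (1 : 𝓞 F) ∈ J ⊔ Ideal.span {((l : ℕ) : 𝓞 F)} := by rw [hsup]; trivial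
  obtain ⟨s, hs, u, hu, hsu⟩ := Submodule.mem_sup.1 h1mem
  obtain ⟨t, rfl⟩ := Ideal.mem_span_singleton'.1 hu
  obtain ⟨n, hn⟩ := (hJ s).1 hs
  have hs1 : s - 1 = (l : 𝓞 F) * (-t) := by
    have : s = 1 - t * (l : 𝓞 F) := by rw [← hsu]; ring
    rw [this]; ring
  have hs0 : s ≠ 0 := by
    intro h0
    rw [h0, zero_add] at hsu
    exact not_isUnit_natCast_prime l F (IsUnit.of_mul_eq_one _ (by rw [mul_comm]; exact hsu))
  refine ⟨s + (l : 𝓞 F) * n, s, ?_, hs0, ?_, ⟨n - t, ?_⟩, ⟨-t, hs1⟩⟩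
  · intro h0
    have h1 : x * (s : F) = ((s + (l : 𝓞 F) * n : 𝓞 F) : F) := by
      push_cast
      rw [hxy]
      linear_combination (l : F) * hn
    rw [h0] at h1
    have hsF : (s : F) ≠ 0 := by
      intro h; apply hs0; exact_mod_cast h
    simp only [map_zero] at h1
    exact (mul_ne_zero hx0 hsF) (by simpa using h1)
  · push_cast
    rw [hxy]
    linear_combination (l : F) * hn
  · have : s = 1 - t * (l : 𝓞 F) := by rw [← hsu]; ring
    rw [this]; ring

end Denominators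

end Fermat.Agent.S55.helper43
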