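import Fermat.Agent.S55.helper11_Rec1Hyps
import Fermat.Agent.S55.helper15_RecExist
import Fermat.Agent.S55.helper43_Apx

/-!
# S55 / REC1-APX wiring (helper43): the hypothesis `HypApx` of the REC1 assembly holds

`Fermat.Agent.S55.helper11.HypApx` (input of `reciprocity_of_inputs`), unconditionally, from
`exists_norm_approx_of_existsLocDatum` and R-EXIST (`helper15.exists_locDatum`).
-/

set_option autoImplicit false

namespace Fermat.Agent.S55.helper43

/-- R-EXIST in the shape consumed by `exists_norm_approx_of_existsLocDatum`. -/
theorem existsLocDatum : ExistsLocDatum :=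
  fun F L _ _ _ _ _ _ v => Fermat.Agent.S55.helper15.exists_locDatum F L v

/-- **R-APX**, unconditional, in the shape consumed by the REC1 assembly. -/
theorem hypApx : Fermat.Agent.S55.helper11.HypApx :=
  fun l _ F M _ _ _ _ _ _ c hloc =>
    exists_norm_approx_of_existsLocDatum existsLocDatum l F M c hloc

end Fermat.Agent.S55.helper43
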