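import Fermat.Agent.S55.helper85_Rec3AbsT
import Fermat.Agent.S55.helper60_Rec3Tors

/-!
# S55 / REC3 (FUND): R3-ABS-DIV (helper43, second prover)

`H²(J)` is `p`-divisible up to multipliers prime to `p`: `div2J`, statement VERBATIM from
`helper90_Rec3Interface` (`LocSys.Good.div2J`).

Route: torsion (`helper60.exists_nsmul_mem_B2`) makes `m₀ • j` `p`-primary; its localisations are
`p`-divisible (`div2`) with `p`-primary roots, which are globalised one index at a time (`surj`);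
the difference is locally trivial everywhere, hence trivial up to a multiplier prime to `p`
(`inj`).
-/

set_option autoImplicit false
set_option linter.unusedSectionVars false

open groupCohomology

noncomputable section

namespace Fermat.Agent.S55.helper43

open Fermat.Agent.S55 Fermat.Agent.S55.helper90

section Abs

variable {k U : Type} [CommRing k] [Group U] {𝒩 : Levels U} {ι : Type} [Fintype ι]
variable {E J C : Rep.{0} k U} {X : ESeq E J C} {L : LocalData U 𝒩 ι}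
variable {p : ℕ} [Fact p.Prime]

/-- localisation of 2-cochains as an additive map -/
def loc₂Hom (Λ : LocSys J L) (w : ι) : (U × U → J) →+ (L.Gv w × L.Gv w → Λ.Ω w) where
  toFun f := Λ.loc₂ w f
  map_zero' := by
    funext x
    exact map_zero _
  map_add' f g := by
    funext x
    exact map_add _ _ _

lemma loc₂Hom_apply (Λ : LocSys J L) (w : ι) (f : U × U → J) :
    loc₂Hom Λ w f = Λ.loc₂ w f := rfl

lemma loc₂_sum (Λ : LocSys J L) (w : ι) (s : Finset ι) (f : ι → U × U → J) :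
    Λ.loc₂ w (∑ i ∈ s, f i) = ∑ i ∈ s, Λ.loc₂ w (f i) := by
  rw [← loc₂Hom_apply, map_sum]
  rfl

/-- **R3-ABS-DIV**: `H²(J)` is `p`-divisible up to multipliers prime to `p`. -/
theorem div2J (hfin : FinLevels 𝒩) (hdJ : IsDisc 𝒩 J)
    (Λ : LocSys J L) (K : KummerDatum E p) (hΛ : Λ.Good X p K)
    (j : U × U → J) (hj : j ∈ Z2 𝒩 J) :
    ∃ m : ℕ, ¬ p ∣ m ∧ ∃ j' ∈ Z2 𝒩 J, m • j - p • j' ∈ B2 𝒩 J := by
  classical
  obtain ⟨n₀, hn₀, hn₀j⟩ := helper60.exists_nsmul_mem_B2 hfin J hdJ j hj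
  obtain ⟨e, m₀, hm₀, rfl⟩ :=
    Nat.exists_eq_pow_mul_and_not_dvd hn₀.ne' p (Fact.out : p.Prime).one_lt.ne'
  -- the `p`-primary class `j₀ = m₀ • j`
  set j₀ : U × U → J := m₀ • j with hj₀
  have hj₀Z : j₀ ∈ Z2 𝒩 J := (Z2 𝒩 J).nsmul_mem hj m₀
  have hj₀B : p ^ e • j₀ ∈ B2 𝒩 J := by
    rw [hj₀, ← mul_smul]
    exact hn₀j
  -- local roots, globalised
  have key : ∀ w : ι, ∃ jw ∈ Z2 𝒩 J,
      (p • Λ.loc₂ w jw - Λ.loc₂ w j₀ ∈ B2 (L.lev w) (Λ.Ω w)) ∧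
      ∀ w', w' ≠ w → Λ.loc₂ w' jw ∈ B2 (L.lev w') (Λ.Ω w') := by
    intro w
    have hcZ : Λ.loc₂ w j₀ ∈ Z2 (L.lev w) (Λ.Ω w) := helper85.loc₂_mem_Z2 Λ w hj₀Z
    have hcB : p ^ e • Λ.loc₂ w j₀ ∈ B2 (L.lev w) (Λ.Ω w) := by
      rw [← helper85.loc₂_nsmul]
      exact helper85.loc₂_mem_B2 Λ w hj₀B
    obtain ⟨c', hc'Z, hc'⟩ := hΛ.div2 w _ hcZ e hcB
    have hc'B : p ^ (e + 1) • c' ∈ B2 (L.lev w) (Λ.Ω w) := by
      have e1 : p ^ (e + 1) • c' = p ^ e • (p • c' - Λ.loc₂ w j₀) + p ^ e • Λ.loc₂ w j₀ := by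
        rw [pow_succ, mul_smul, smul_sub]
        abel
      rw [e1]
      exact Submodule.add_mem _ ((B2 (L.lev w) (Λ.Ω w)).nsmul_mem hc' _) hcB
    obtain ⟨jw, hjwZ, hjw, hjw'⟩ := hΛ.surj w c' hc'Z (e + 1) hc'B
    refine ⟨jw, hjwZ, ?_, hjw'⟩
    have e2 : p • Λ.loc₂ w jw - Λ.loc₂ w j₀ =
        p • (Λ.loc₂ w jw - c') + (p • c' - Λ.loc₂ w j₀) := by
      rw [smul_sub]
      abel
    rw [e2]
    exact Submodule.add_mem _ ((B2 (L.lev w) (Λ.Ω w)).nsmul_mem hjw _) hc'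
  choose jw hjwZ hjw hjw' using key
  set j'' : U × U → J := ∑ w, jw w with hj''
  have hj''Z : j'' ∈ Z2 𝒩 J := Submodule.sum_mem _ fun w _ => hjwZ w
  -- `p • j'' - j₀` is locally trivial everywhere
  have hloc : ∀ w, Λ.loc₂ w (p • j'' - j₀) ∈ B2 (L.lev w) (Λ.Ω w) := by
    intro w
    have e3 : Λ.loc₂ w (p • j'' - j₀) =
        (p • Λ.loc₂ w (jw w) - Λ.loc₂ w j₀) +
          p • ∑ w' ∈ (Finset.univ : Finset ι).erase w, Λ.loc₂ w (jw w') := by
      rw [helper85.loc₂_sub, helper85.loc₂_nsmul, hj'', loc₂_sum,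
        ← Finset.add_sum_erase _ _ (Finset.mem_univ w), smul_add]
      abel
    rw [e3]
    refine Submodule.add_mem _ (hjw w) ((B2 (L.lev w) (Λ.Ω w)).nsmul_mem ?_ p)
    refine Submodule.sum_mem _ fun w' hw' => ?_
    exact hjw' w' w (Finset.ne_of_mem_erase hw').symm
  obtain ⟨m₁, hm₁, h⟩ := hΛ.inj _
    (Submodule.sub_mem _ ((Z2 𝒩 J).nsmul_mem hj''Z p) hj₀Z) hloc
  refine ⟨m₁ * m₀, not_dvd_mul' p hm₁ hm₀, m₁ • j'', (Z2 𝒩 J).nsmul_mem hj''Z m₁, ?_⟩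
  have e4 : (m₁ * m₀) • j - p • m₁ • j'' = -(m₁ • (p • j'' - j₀)) := by
    rw [hj₀, mul_smul, smul_sub, smul_comm p m₁ j'']
    abel
  rw [e4]
  exact Submodule.neg_mem _ h

end Abs

end Fermat.Agent.S55.helper43
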