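import Fermat.Agent.S55.helper90_Rec3Int

/-!
# S55 / REC3 (FUND): R3-ABS-ONTO, the cochain algebra (helper43, task 500)

`H²(J) → H²(C)` is onto on `p`-parts (`helper90.OntoP`), from

* torsion of `H²(C)` (R3-ABS-TORS),
* `p`-divisibility of `H²(J)` up to multipliers prime to `p` (R3-ABS-DIV),
* one class `t` of `H²(J)` killed by `p` whose image in `H²(C)` is not trivial (R3-ABS-T),
* local cyclicity of the `p`-part of `H²(C)` (`helper90.C2Cyc`).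

Also the analogous statement `helper90.DivJP` (the kernel of `H²(J) → H²(C)` is `p`-divisible on
`p`-parts) from the same inputs.

Main results: `ontoP_of_class`, `divJP_of_class` (inputs as plain hypotheses) and
`ontoP_of_packages`, `divJP_of_packages` (inputs in the shape of the interface statements).
-/

set_option autoImplicit false
set_option linter.unusedSectionVars false

open groupCohomology

noncomputable section

namespace Fermat.Agent.S55.helper43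

open Fermat.Agent.S55 Fermat.Agent.S55.helper90

section Abs

variable {k U : Type} [CommRing k] [Group U] {𝒩 : Levels U}
variable {E J C : Rep.{0} k U} {X : ESeq E J C}
variable {p : ℕ} [Fact p.Prime]

/-! ## Push-forward of cochains along `π` -/

/-- the image in `C` of a level 2-cocycle of `J` is a level 2-cocycle -/
lemma piComp_mem_Z2 {j : U × U → J} (hj : j ∈ Z2 𝒩 J) :
    (fun x => X.π (j x)) ∈ Z2 𝒩 C := by
  refine ⟨IsLev₂.comp' 𝒩 hj.1 X.π, ?_⟩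
  change (d₂₃ C).hom _ = 0
  rw [d₂₃_map X.π_eq]
  have h0 : (d₂₃ J).hom j = 0 := hj.2
  funext x
  rw [h0]
  exact map_zero _

/-- the image in `C` of a level 2-coboundary of `J` is a level 2-coboundary -/
lemma piComp_mem_B2 {j : U × U → J} (hj : j ∈ B2 𝒩 J) :
    (fun x => X.π (j x)) ∈ B2 𝒩 C := by
  obtain ⟨s, hs, rfl⟩ := hj
  exact ⟨fun g => X.π (s g), IsLev₁.comp' 𝒩 hs X.π, d₁₂_map X.π_eq s⟩

lemma piComp_nsmul (n : ℕ) (j : U × U → J) :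
    (fun x => X.π ((n • j) x)) = n • fun x => X.π (j x) := by
  funext x
  simp only [Pi.smul_apply, map_nsmul]

lemma piComp_sub (a b : U × U → J) :
    (fun x => X.π ((a - b) x)) = (fun x => X.π (a x)) - fun x => X.π (b x) := by
  funext x
  simp only [Pi.sub_apply, map_sub]

/-! ## The chain of `p`-power roots of a class -/

/-- If `H²(J)` is `p`-divisible up to multipliers prime to `p`, every class `t` has `p ^ n`-th
roots up to multipliers prime to `p`. -/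
lemma exists_pow_root
    (hDiv : ∀ j ∈ Z2 𝒩 J, ∃ m : ℕ, ¬ p ∣ m ∧ ∃ j' ∈ Z2 𝒩 J, m • j - p • j' ∈ B2 𝒩 J)
    (t : U × U → J) (ht : t ∈ Z2 𝒩 J) (n : ℕ) :
    ∃ m : ℕ, ¬ p ∣ m ∧ ∃ tn ∈ Z2 𝒩 J, p ^ n • tn - m • t ∈ B2 𝒩 J := by
  induction n with
  | zero =>
    refine ⟨1, ?_, t, ht, ?_⟩
    · intro h
      exact (Fact.out : p.Prime).one_lt.ne' (Nat.dvd_one.1 h)
    · rw [pow_zero, sub_self]
      exact Submodule.zero_mem _
  | succ n ih =>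
    obtain ⟨m, hm, tn, htn, h⟩ := ih
    obtain ⟨m', hm', j', hj', h'⟩ := hDiv tn htn
    refine ⟨m' * m, not_dvd_mul' p hm' hm, j', hj', ?_⟩
    have e : p ^ (n + 1) • j' - (m' * m) • t =
        m' • (p ^ n • tn - m • t) - p ^ n • (m' • tn - p • j') := by
      rw [pow_succ, mul_smul, mul_smul, smul_sub, smul_sub, smul_comm m' (p ^ n) tn]
      abel
    rw [e]
    exact Submodule.sub_mem _ ((B2 𝒩 J).nsmul_mem h m') ((B2 𝒩 J).nsmul_mem h' (p ^ n))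

/-- The image in `H²(C)` of a `p ^ n`-th root of a class `t` of exact order `p` (with non-trivial
image) has order exactly `p ^ (n + 1)`. -/
lemma piComp_root_order {t tn : U × U → J} {m n : ℕ} (hm : ¬ p ∣ m)
    (hpt : p • t ∈ B2 𝒩 J) (hπt : (fun x => X.π (t x)) ∉ B2 𝒩 C)
    (h : p ^ n • tn - m • t ∈ B2 𝒩 J) :
    p ^ (n + 1) • (fun x => X.π (tn x)) ∈ B2 𝒩 C ∧
      p ^ n • (fun x => X.π (tn x)) ∉ B2 𝒩 C := by
  constructor
  · have e : p ^ (n + 1) • tn = p • (p ^ n • tn - m • t) + m • (p • t) := by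
      rw [pow_succ, mul_comm, mul_smul, smul_sub, smul_comm m p t]
      abel
    rw [← piComp_nsmul, e]
    exact piComp_mem_B2 (X := X)
      (Submodule.add_mem _ ((B2 𝒩 J).nsmul_mem h p) ((B2 𝒩 J).nsmul_mem hpt m))
  · intro hn
    apply hπt
    have h1 : m • (fun x => X.π (t x)) ∈ B2 𝒩 C := by
      have e : m • (fun x => X.π (t x)) =
          p ^ n • (fun x => X.π (tn x)) - fun x => X.π ((p ^ n • tn - m • t) x) := by
        rw [piComp_sub, piComp_nsmul, piComp_nsmul]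
        abel
      rw [e]
      exact Submodule.sub_mem _ hn (piComp_mem_B2 (X := X) h)
    have h2 : p • (fun x => X.π (t x)) ∈ B2 𝒩 C := by
      rw [← piComp_nsmul]
      exact piComp_mem_B2 (X := X) hpt
    exact mem_B2_of_nsmul_mem hm h1 h2

/-! ## `OntoP` -/

/-- **R3-ABS-ONTO**, inputs as plain hypotheses. -/
theorem ontoP_of_class
    (hTors : ∀ c ∈ Z2 𝒩 C, ∃ n : ℕ, 0 < n ∧ n • c ∈ B2 𝒩 C)
    (hDiv : ∀ j ∈ Z2 𝒩 J, ∃ m : ℕ, ¬ p ∣ m ∧ ∃ j' ∈ Z2 𝒩 J, m • j - p • j' ∈ B2 𝒩 J)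
    (hC2 : C2Cyc 𝒩 p C)
    (t : U × U → J) (ht : t ∈ Z2 𝒩 J) (hpt : p • t ∈ B2 𝒩 J)
    (hπt : (fun x => X.π (t x)) ∉ B2 𝒩 C) : OntoP 𝒩 X p := by
  intro c hc
  obtain ⟨n₀, hn₀, hn₀c⟩ := hTors c hc
  obtain ⟨e, m, hm, rfl⟩ :=
    Nat.exists_eq_pow_mul_and_not_dvd hn₀.ne' p (Fact.out : p.Prime).one_lt.ne'
  refine ⟨m, hm, ?_⟩
  cases e with
  | zero =>
    refine ⟨0, Submodule.zero_mem _, ?_⟩
    rw [pow_zero, one_mul] at hn₀c
    have e0 : (fun x => X.π ((0 : U × U → J) x)) = 0 := by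
      funext x
      exact map_zero _
    rw [e0, sub_zero]
    exact hn₀c
  | succ n =>
    obtain ⟨mn, hmn, tn, htn, h⟩ := exists_pow_root hDiv t ht n
    obtain ⟨h1, h2⟩ := piComp_root_order (X := X) hmn hpt hπt h
    have h3 : p ^ (n + 1) • (m • c) ∈ B2 𝒩 C := by
      rw [← mul_smul]
      exact hn₀c
    obtain ⟨a, ha⟩ := hC2 _ (piComp_mem_Z2 (X := X) htn) (m • c) ((Z2 𝒩 C).nsmul_mem hc m)
      n (n + 1) h1 h2 h3
    refine ⟨a • tn, (Z2 𝒩 J).nsmul_mem htn a, ?_⟩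
    rw [piComp_nsmul]
    exact ha

/-! ## `DivJP` -/

/-- **R3-ABS-DIVJ**, inputs as plain hypotheses. -/
theorem divJP_of_class
    (hDiv : ∀ j ∈ Z2 𝒩 J, ∃ m : ℕ, ¬ p ∣ m ∧ ∃ j' ∈ Z2 𝒩 J, m • j - p • j' ∈ B2 𝒩 J)
    (hC2 : C2Cyc 𝒩 p C)
    (t : U × U → J) (ht : t ∈ Z2 𝒩 J) (hpt : p • t ∈ B2 𝒩 J)
    (hπt : (fun x => X.π (t x)) ∉ B2 𝒩 C) : DivJP 𝒩 X p := by
  intro j hj hπj
  obtain ⟨m, hm, j₁, hj₁, h⟩ := hDiv j hj
  -- `π j₁` is killed by `p`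
  have h3 : p ^ (0 + 1) • (fun x => X.π (j₁ x)) ∈ B2 𝒩 C := by
    have e : p ^ (0 + 1) • (fun x => X.π (j₁ x)) =
        m • (fun x => X.π (j x)) - fun x => X.π ((m • j - p • j₁) x) := by
      rw [piComp_sub, piComp_nsmul, piComp_nsmul, zero_add, pow_one]
      abel
    rw [e]
    exact Submodule.sub_mem _ ((B2 𝒩 C).nsmul_mem hπj m) (piComp_mem_B2 (X := X) h)
  have h1 : p ^ 1 • (fun x => X.π (t x)) ∈ B2 𝒩 C := by
    rw [pow_one, ← piComp_nsmul]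
    exact piComp_mem_B2 (X := X) hpt
  have h2 : p ^ 0 • (fun x => X.π (t x)) ∉ B2 𝒩 C := by
    rw [pow_zero, one_smul]
    exact hπt
  obtain ⟨a, ha⟩ := hC2 _ (piComp_mem_Z2 (X := X) ht) _ (piComp_mem_Z2 (X := X) hj₁)
    0 1 h1 h2 h3
  refine ⟨m, hm, j₁ - a • t, Submodule.sub_mem _ hj₁ ((Z2 𝒩 J).nsmul_mem ht a), ?_, ?_⟩
  · rw [piComp_sub, piComp_nsmul]
    exact ha
  · have e : m • j - p • (j₁ - a • t) = (m • j - p • j₁) + a • (p • t) := by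
      rw [smul_sub, smul_comm p a t]
      abel
    rw [e]
    exact Submodule.add_mem _ h ((B2 𝒩 J).nsmul_mem hpt a)

end Abs

/-! ## Interface shapes -/

section Packages

variable {k U : Type} [CommRing k] [Group U] {𝒩 : Levels U} {ι : Type} [Fintype ι]
variable {E J C : Rep.{0} k U} {X : ESeq E J C} {L : LocalData U 𝒩 ι}
variable {p : ℕ} [Fact p.Prime]

/-- the class `t` needed by `ontoP_of_class` / `divJP_of_class`, from the conclusion of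
R3-ABS-T at one index -/
lemma exists_class_of_local (K : KummerDatum E p) (Λ : LocSys J L)
    (inv : ∀ w : ι, (L.Gv w × L.Gv w → ZMod p) →ₗ[ZMod p] ZMod p)
    (I1' : ∀ w, ∃ c ∈ Z2 (L.lev w) (Tp (L.Gv w) p), inv w c ≠ 0)
    (hι : Nonempty ι)
    (hT : ∀ (w : ι) (c : L.Gv w × L.Gv w → ZMod p), c ∈ Z2 (L.lev w) (Tp (L.Gv w) p) →
      inv w c ≠ 0 →
      ∃ t ∈ Z2 𝒩 J, p • t ∈ B2 𝒩 J ∧
        (Λ.loc₂ w t - fun s => Λ.κ X K w (c s)) ∈ B2 (L.lev w) (Λ.Ω w) ∧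
        (∀ w', w' ≠ w → Λ.loc₂ w' t ∈ B2 (L.lev w') (Λ.Ω w')) ∧
        (fun x => X.π (t x)) ∉ B2 𝒩 C) :
    ∃ t ∈ Z2 𝒩 J, p • t ∈ B2 𝒩 J ∧ (fun x => X.π (t x)) ∉ B2 𝒩 C := by
  obtain ⟨w₀⟩ := hι
  obtain ⟨c, hc, hc0⟩ := I1' w₀
  obtain ⟨t, ht, hpt, -, -, hπt⟩ := hT w₀ c hc hc0
  exact ⟨t, ht, hpt, hπt⟩

/-- **R3-ABS-ONTO** from the conclusions of R3-ABS-TORS (for `C`), R3-ABS-DIV and R3-ABS-T. -/
theorem ontoP_of_packages (K : KummerDatum E p) (hC2 : C2Cyc 𝒩 p C) (Λ : LocSys J L)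
    (inv : ∀ w : ι, (L.Gv w × L.Gv w → ZMod p) →ₗ[ZMod p] ZMod p)
    (I1' : ∀ w, ∃ c ∈ Z2 (L.lev w) (Tp (L.Gv w) p), inv w c ≠ 0)
    (hι : Nonempty ι)
    (hTors : ∀ c ∈ Z2 𝒩 C, ∃ n : ℕ, 0 < n ∧ n • c ∈ B2 𝒩 C)
    (hDiv : ∀ j ∈ Z2 𝒩 J, ∃ m : ℕ, ¬ p ∣ m ∧ ∃ j' ∈ Z2 𝒩 J, m • j - p • j' ∈ B2 𝒩 J)
    (hT : ∀ (w : ι) (c : L.Gv w × L.Gv w → ZMod p), c ∈ Z2 (L.lev w) (Tp (L.Gv w) p) →
      inv w c ≠ 0 →
      ∃ t ∈ Z2 𝒩 J, p • t ∈ B2 𝒩 J ∧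
        (Λ.loc₂ w t - fun s => Λ.κ X K w (c s)) ∈ B2 (L.lev w) (Λ.Ω w) ∧
        (∀ w', w' ≠ w → Λ.loc₂ w' t ∈ B2 (L.lev w') (Λ.Ω w')) ∧
        (fun x => X.π (t x)) ∉ B2 𝒩 C) :
    OntoP 𝒩 X p := by
  obtain ⟨t, ht, hpt, hπt⟩ := exists_class_of_local K Λ inv I1' hι hT
  exact ontoP_of_class hTors hDiv hC2 t ht hpt hπt

/-- **R3-ABS-DIVJ** from the conclusions of R3-ABS-DIV and R3-ABS-T. -/
theorem divJP_of_packages (K : KummerDatum E p) (hC2 : C2Cyc 𝒩 p C) (Λ : LocSys J L)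
    (inv : ∀ w : ι, (L.Gv w × L.Gv w → ZMod p) →ₗ[ZMod p] ZMod p)
    (I1' : ∀ w, ∃ c ∈ Z2 (L.lev w) (Tp (L.Gv w) p), inv w c ≠ 0)
    (hι : Nonempty ι)
    (hDiv : ∀ j ∈ Z2 𝒩 J, ∃ m : ℕ, ¬ p ∣ m ∧ ∃ j' ∈ Z2 𝒩 J, m • j - p • j' ∈ B2 𝒩 J)
    (hT : ∀ (w : ι) (c : L.Gv w × L.Gv w → ZMod p), c ∈ Z2 (L.lev w) (Tp (L.Gv w) p) →
      inv w c ≠ 0 →
      ∃ t ∈ Z2 𝒩 J, p • t ∈ B2 𝒩 J ∧
        (Λ.loc₂ w t - fun s => Λ.κ X K w (c s)) ∈ B2 (L.lev w) (Λ.Ω w) ∧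
        (∀ w', w' ≠ w → Λ.loc₂ w' t ∈ B2 (L.lev w') (Λ.Ω w')) ∧
        (fun x => X.π (t x)) ∉ B2 𝒩 C) :
    DivJP 𝒩 X p := by
  obtain ⟨t, ht, hpt, hπt⟩ := exists_class_of_local K Λ inv I1' hι hT
  exact divJP_of_class hDiv hC2 t ht hpt hπt

end Packages

end Fermat.Agent.S55.helper43
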