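import Fermat.Agent.S55.helper85_Rec3AbsT

/-!
# S55 / REC3, package R3-ABS-T (helper85): verbatim statement

* `lkb` : the local Kummer bridge (statement of R3-ABS-LKB) from `LocSys.Good`;
* `exists_local_class` : **R3-ABS-T**, verbatim blueprint statement, unconditional.
-/

set_option autoImplicit false

open groupCohomology

noncomputable section

namespace Fermat.Agent.S55.helper85

open Fermat.Agent.S55 Fermat.Agent.S55.helper59 Fermat.Agent.S55.helper90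

section

variable {k U : Type} [CommRing k] [Group U] {𝒩 : Levels U} {ι : Type}
variable {E J C : Rep.{0} k U} {X : ESeq E J C} {L : LocalData U 𝒩 ι}
variable {p : ℕ} [Fact p.Prime]

lemma d₁₂_κ (K : KummerDatum E p) (Λ : LocSys J L) (w : ι) (m : L.Gv w → ZMod p) :
    (d₁₂ (Λ.Ω w)).hom (fun x => Λ.κ X K w (m x)) =
      fun x => Λ.κ X K w ((d₁₂ (Tp (L.Gv w) p)).hom m x) := by
  funext x
  simp only [d₁₂_hom_apply, κ_fixed, map_sub, map_add]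
  rfl

/-- `d₀₁` of an element of a discrete module is a level 1-cochain. -/
lemma d₀₁_mem_C1 {G : Type} [Group G] {𝒩' : Levels G} {A : Rep.{0} k G} (hd : IsDisc 𝒩' A)
    (a : A) : (d₀₁ A).hom a ∈ C1 𝒩' A := by
  obtain ⟨N, hN, hfix⟩ := hd a
  refine ⟨N, hN, fun g s hs => ?_⟩
  simp only [d₀₁_hom_apply, map_mul, Module.End.mul_apply, hfix s hs]

/-- **R3-ABS-LKB** (local Kummer bridge): a level 2-cocycle `z` of `ℤ/p` on the local group whose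
image in `Ω w` is a level coboundary is a level coboundary. -/
theorem lkb (K : KummerDatum E p) (Λ : LocSys J L) (hΛ : Λ.Good X p K) : LKB X K Λ := by
  intro w z _ h
  obtain ⟨β, hβ, hdβ⟩ := h
  -- `p β` is a level 1-cocycle, hence a coboundary
  have hpβ : p • β ∈ Z1 (L.lev w) (Λ.Ω w) := by
    refine ⟨(C1 _ _).nsmul_mem hβ p, ?_⟩
    change (d₁₂ (Λ.Ω w)).hom (p • β) = 0
    rw [map_nsmul, hdβ]
    exact nsmul_κ_comp X K Λ w z
  obtain ⟨γ, hγ⟩ := hΛ.hilbert90 w hpβ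
  obtain ⟨δ, hδ⟩ := hΛ.div w γ
  -- `β' = β - d δ` is killed by `p`
  obtain ⟨β', hβ'⟩ : ∃ β' : L.Gv w → Λ.Ω w, β' = β - (d₀₁ (Λ.Ω w)).hom δ := ⟨_, rfl⟩
  have hβ'C : β' ∈ C1 (L.lev w) (Λ.Ω w) :=
    hβ' ▸ Submodule.sub_mem _ hβ (d₀₁_mem_C1 (hΛ.disc w) δ)
  have hpβ' : ∀ s, p • β' s = 0 := by
    intro s
    have e : p • β' = 0 := by
      rw [hβ', smul_sub, ← map_nsmul, hδ, hγ, sub_self]
    exact congrFun e s
  -- the cochain `b` of `ℤ/p` with `κ ∘ b = β'`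
  choose b hb using fun s => hΛ.torsion w (β' s) (hpβ' s)
  have hκb : (fun s => Λ.κ X K w (b s)) = β' := funext hb
  have hbC : b ∈ C1 (L.lev w) (Tp (L.Gv w) p) := by
    obtain ⟨N, hN, hc⟩ := hβ'C
    refine ⟨N, hN, fun g s hs => hΛ.κ_inj w ?_⟩
    rw [hb, hb, hc g s hs]
  refine ⟨b, hbC, ?_⟩
  funext x
  apply hΛ.κ_inj w
  have h1 := congrFun (d₁₂_κ (X := X) K Λ w b) x
  rw [hκb] at h1
  have h2 : (d₁₂ (Λ.Ω w)).hom β' = (d₁₂ (Λ.Ω w)).hom β := by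
    have hdd : (d₁₂ (Λ.Ω w)).hom ((d₀₁ (Λ.Ω w)).hom δ) = 0 :=
      congrArg (fun φ => φ.hom δ) (d₀₁_comp_d₁₂ (Λ.Ω w))
    rw [hβ', map_sub, hdd, sub_zero]
  rw [h2, hdβ] at h1
  exact h1.symm

end

section AbsT

variable {k U : Type} [CommRing k] [Group U] {𝒩 : Levels U} {ι : Type} [Fintype ι]
variable {E J C : Rep.{0} k U} {X : ESeq E J C} {L : LocalData U 𝒩 ι}
variable {p : ℕ} [Fact p.Prime]

/-- **R3-ABS-T**: for every `w` there is a class `t` of `H²(J)` killed by `p`, locally trivial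
outside `w`, whose image in `H²(C)` is NOT trivial (otherwise `exists_Tp_of_J` produces a global
class of `H²(U, ℤ/p)` with exactly one non-zero local invariant, contradicting reciprocity). -/
theorem exists_local_class (hG : X.GoodP 𝒩 p) (K : KummerDatum E p) (hdE : IsDisc 𝒩 E)
    (hC1 : C1P 𝒩 p C) (Λ : LocSys J L) (hΛ : Λ.Good X p K)
    (inv : ∀ w : ι, (L.Gv w × L.Gv w → ZMod p) →ₗ[ZMod p] ZMod p)
    (I1 : ∀ w, ∀ c ∈ Z2 (L.lev w) (Tp (L.Gv w) p),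
      inv w c = 0 ↔ c ∈ B2 (L.lev w) (Tp (L.Gv w) p))
    (I3 : ∀ z ∈ Z2 𝒩 (Tp U p), ∑ w, inv w (fun s => z (L.r w s.1, L.r w s.2)) = 0)
    (w : ι) (c : L.Gv w × L.Gv w → ZMod p) (hc : c ∈ Z2 (L.lev w) (Tp (L.Gv w) p))
    (hc0 : inv w c ≠ 0) :
    ∃ t ∈ Z2 𝒩 J, p • t ∈ B2 𝒩 J ∧
      (Λ.loc₂ w t - fun s => Λ.κ X K w (c s)) ∈ B2 (L.lev w) (Λ.Ω w) ∧
      (∀ w', w' ≠ w → Λ.loc₂ w' t ∈ B2 (L.lev w') (Λ.Ω w')) ∧
      (fun x => X.π (t x)) ∉ B2 𝒩 C :=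
  exists_local_class_of_lkb hG K hdE hC1 Λ hΛ (lkb K Λ hΛ) inv I1 I3 w c hc hc0

end AbsT

end Fermat.Agent.S55.helper85
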