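import Fermat.Agent.S55.helper43_Rec3Onto
import Fermat.Agent.S55.helper43_Rec3Div
import Fermat.Agent.S55.helper85_Rec3AbsT2

/-!
# S55 / REC3 (FUND): R3-ABS-ONTO and R3-ABS-DIVJ, VERBATIM (helper43, task 500)

`ontoP`, `divJP` : the statements of `helper90_Rec3Interface` (section `Abs`) verbatim, without
any hypothesis on other packages: R3-ABS-TORS = `helper60.exists_nsmul_mem_B2`,
R3-ABS-DIV = `helper43.div2J`, R3-ABS-T = `helper85.exists_local_class`.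
-/

set_option autoImplicit false
set_option linter.unusedSectionVars false

open groupCohomology

noncomputable section

namespace Fermat.Agent.S55.helper43

open Fermat.Agent.S55 Fermat.Agent.S55.helper90

section Abs

variable {k U : Type} [CommRing k] [Group U] {𝒩 : Levels U} {ι : Type} [Fintype ι]
variable {E J C : Rep.{0} k U} {X : ESeq E J C} {L : LocalData U 𝒩 ι}
variable {p : ℕ} [Fact p.Prime]

/-- **R3-ABS-ONTO**: `H²(J) → H²(C)` is onto on `p`-parts. -/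
theorem ontoP (hG : X.GoodP 𝒩 p) (K : KummerDatum E p) (hdE : IsDisc 𝒩 E)
    (hC1 : C1P 𝒩 p C) (hC2 : C2Cyc 𝒩 p C) (Λ : LocSys J L) (hΛ : Λ.Good X p K)
    (inv : ∀ w : ι, (L.Gv w × L.Gv w → ZMod p) →ₗ[ZMod p] ZMod p)
    (I1 : ∀ w, ∀ c ∈ Z2 (L.lev w) (Tp (L.Gv w) p),
      inv w c = 0 ↔ c ∈ B2 (L.lev w) (Tp (L.Gv w) p))
    (I1' : ∀ w, ∃ c ∈ Z2 (L.lev w) (Tp (L.Gv w) p), inv w c ≠ 0)
    (I3 : ∀ z ∈ Z2 𝒩 (Tp U p), ∑ w, inv w (fun s => z (L.r w s.1, L.r w s.2)) = 0)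
    (hι : Nonempty ι) : OntoP 𝒩 X p :=
  ontoP_of_packages K hC2 Λ inv I1' hι
    (fun c hc => helper60.exists_nsmul_mem_B2 hG.fin C hG.discC c hc)
    (fun j hj => div2J hG.fin hG.discJ Λ K hΛ j hj)
    (fun w c hc hc0 => helper85.exists_local_class hG K hdE hC1 Λ hΛ inv I1 I3 w c hc hc0)

/-- **R3-ABS-DIVJ**: the kernel of `H²(J) → H²(C)` is `p`-divisible on `p`-parts. -/
theorem divJP (hG : X.GoodP 𝒩 p) (K : KummerDatum E p) (hdE : IsDisc 𝒩 E)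
    (hC1 : C1P 𝒩 p C) (hC2 : C2Cyc 𝒩 p C) (Λ : LocSys J L) (hΛ : Λ.Good X p K)
    (inv : ∀ w : ι, (L.Gv w × L.Gv w → ZMod p) →ₗ[ZMod p] ZMod p)
    (I1 : ∀ w, ∀ c ∈ Z2 (L.lev w) (Tp (L.Gv w) p),
      inv w c = 0 ↔ c ∈ B2 (L.lev w) (Tp (L.Gv w) p))
    (I1' : ∀ w, ∃ c ∈ Z2 (L.lev w) (Tp (L.Gv w) p), inv w c ≠ 0)
    (I3 : ∀ z ∈ Z2 𝒩 (Tp U p), ∑ w, inv w (fun s => z (L.r w s.1, L.r w s.2)) = 0)
    (hι : Nonempty ι) : DivJP 𝒩 X p :=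
  divJP_of_packages K hC2 Λ inv I1' hι
    (fun j hj => div2J hG.fin hG.discJ Λ K hΛ j hj)
    (fun w c hc hc0 => helper85.exists_local_class hG K hdE hC1 Λ hΛ inv I1 I3 w c hc hc0)

end Abs

end Fermat.Agent.S55.helper43
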