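/-
S55 / GLOB-EL (helper44): the Herbrand quotient of the global units in the `hZero` / `hMinus`
form of the GLOB interface (helper73_GlobDefs2), transported from
`Fermat.Agent.S14.helper44.unit_herbrand`.

Main result: `globalUnits_herbrand` : for `L/K` Galois of odd prime degree `p`, `σ ≠ 1`,
`hMinus (globalUnits L) σ = p * hZero Gal(L/K) (globalUnits L)`, both nonzero
(with the action `globalUnitsAction = stableAction (globalUnits L) _`).
-/
import Fermat.Agent.S55.helper73_GlobDefs2
import Fermat.Agent.S14.helper44_UnitsHerbrand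

set_option linter.unusedSectionVars false
set_option autoImplicit false
set_option linter.style.haveILetI false

open scoped NumberField

namespace Fermat.Agent.S55.helper44

open Fermat.Agent.S55.helper73 Fermat.Agent.S14.helper44

variable (K L : Type*) [Field K] [NumberField K] [Field L] [NumberField L] [Algebra K L]

theorem coe_smul_units (σ : L ≃ₐ[K] L) (x : Lˣ) : ((σ • x : Lˣ) : L) = σ (x : L) := rfl

theorem coe_inv_smul_units (σ : L ≃ₐ[K] L) (x : Lˣ) :
    (((σ • x)⁻¹ : Lˣ) : L) = σ ((x⁻¹ : Lˣ) : L) := by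
  rw [← smul_inv']
  rfl

theorem smul_mem_globalUnits (σ : L ≃ₐ[K] L) {x : Lˣ} (hx : x ∈ globalUnits L) :
    σ • x ∈ globalUnits L := by
  obtain ⟨h1, h2⟩ := hx
  refine ⟨?_, ?_⟩
  · rw [coe_smul_units]
    exact h1.map (σ.toAlgHom.restrictScalars ℤ)
  · rw [coe_inv_smul_units]
    exact h2.map (σ.toAlgHom.restrictScalars ℤ)

/-- The units of `𝓞 L` as elements of `Lˣ`. -/
noncomputable def unitsToField : (𝓞 L)ˣ →* Lˣ :=
  Units.map (algebraMap (𝓞 L) L : 𝓞 L →* L)

theorem unitsToField_coe (u : (𝓞 L)ˣ) : ((unitsToField L u : Lˣ) : L) = ((u : 𝓞 L) : L) := rfl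

theorem unitsToField_injective : Function.Injective (unitsToField L) := by
  intro u v h
  apply units_ext_coe
  have := congrArg (fun x : Lˣ => (x : L)) h
  exact this

theorem range_unitsToField : (unitsToField L).range = globalUnits L := by
  ext x
  constructor
  · rintro ⟨u, rfl⟩
    refine ⟨?_, ?_⟩
    · rw [unitsToField_coe]
      exact NumberField.RingOfIntegers.isIntegral_coe _
    · rw [← map_inv, unitsToField_coe]
      exact NumberField.RingOfIntegers.isIntegral_coe _
  · rintro ⟨h1, h2⟩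
    let a : 𝓞 L := ⟨(x : L), h1⟩
    let b : 𝓞 L := ⟨((x⁻¹ : Lˣ) : L), h2⟩
    have hab : a * b = 1 := by
      apply NumberField.RingOfIntegers.ext
      change (x : L) * ((x⁻¹ : Lˣ) : L) = 1
      simp
    refine ⟨⟨a, b, hab, by rw [mul_comm]; exact hab⟩, ?_⟩
    apply Units.ext
    rfl

theorem unitsToField_unitAut (σ : L ≃ₐ[K] L) (u : (𝓞 L)ˣ) :
    unitsToField L (unitAut K L σ u) = σ • unitsToField L u := by
  apply Units.ext
  rfl

/-- The units of `𝓞 L` as elements of `globalUnits L`. -/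
noncomputable def toGlobalUnits : (𝓞 L)ˣ →* ↥(globalUnits L) :=
  (unitsToField L).codRestrict (globalUnits L) (fun u => by
    rw [← range_unitsToField]; exact ⟨u, rfl⟩)

theorem toGlobalUnits_coe (u : (𝓞 L)ˣ) :
    ((toGlobalUnits L u : ↥(globalUnits L)) : Lˣ) = unitsToField L u := rfl

theorem toGlobalUnits_injective : Function.Injective (toGlobalUnits L) := by
  intro u v h
  apply unitsToField_injective L
  exact congrArg Subtype.val h

theorem toGlobalUnits_surjective : Function.Surjective (toGlobalUnits L) := by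
  rintro ⟨x, hx⟩
  rw [← range_unitsToField] at hx
  obtain ⟨u, rfl⟩ := hx
  exact ⟨u, rfl⟩

/-- `(𝓞 L)ˣ ≃* globalUnits L`. -/
noncomputable def unitsEquivGlobalUnits : (𝓞 L)ˣ ≃* ↥(globalUnits L) :=
  MulEquiv.ofBijective (toGlobalUnits L)
    ⟨toGlobalUnits_injective L, toGlobalUnits_surjective L⟩

section Transport

variable {K L}
variable [IsGalois K L] [Fintype (L ≃ₐ[K] L)]

/-- The `Gal(L/K)`-action on `globalUnits L` (use `letI`). -/
@[reducible]
noncomputable def globalUnitsAction : MulDistribMulAction (L ≃ₐ[K] L) ↥(globalUnits L) :=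
  stableAction (globalUnits L) (fun τ _ hx => smul_mem_globalUnits K L τ hx)

theorem toGlobalUnits_unitAut (σ : L ≃ₐ[K] L) (u : (𝓞 L)ˣ) :
    letI := globalUnitsAction (K := K) (L := L)
    toGlobalUnits L (unitAut K L σ u) = σ • toGlobalUnits L u := by
  apply Subtype.ext
  exact unitsToField_unitAut K L σ u

theorem normG_toGlobalUnits (u : (𝓞 L)ˣ) :
    letI := globalUnitsAction (K := K) (L := L)
    normG (L ≃ₐ[K] L) ↥(globalUnits L) (toGlobalUnits L u) =
      toGlobalUnits L (unitIncl K L (unitNorm K L u)) := by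
  letI := globalUnitsAction (K := K) (L := L)
  apply Subtype.ext
  apply Units.ext
  rw [normG_apply]
  have h1 : ((((∏ τ : L ≃ₐ[K] L, τ • toGlobalUnits L u : ↥(globalUnits L)) : Lˣ)) : L) =
      ∏ τ : L ≃ₐ[K] L, τ ((u : 𝓞 L) : L) := by
    rw [Subgroup.val_finsetProd, Units.coe_prod]
    rfl
  rw [h1]
  change _ = algebraMap K L (Algebra.norm K ((u : 𝓞 L) : L))
  rw [Algebra.norm_eq_prod_automorphisms]
  apply Finset.prod_congr _ (fun _ _ => rfl)
  ext
  simp

theorem deltaHom_toGlobalUnits (σ : L ≃ₐ[K] L) (u : (𝓞 L)ˣ) :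
    letI := globalUnitsAction (K := K) (L := L)
    deltaHom ↥(globalUnits L) σ (toGlobalUnits L u) =
      toGlobalUnits L (unitAut K L σ u / u) := by
  letI := globalUnitsAction (K := K) (L := L)
  rw [deltaHom_apply, map_div, toGlobalUnits_unitAut]

theorem range_normG_globalUnits :
    letI := globalUnitsAction (K := K) (L := L)
    (normG (L ≃ₐ[K] L) ↥(globalUnits L)).range =
      ((unitNorm K L).range.map (unitIncl K L)).map (toGlobalUnits L) := by
  letI := globalUnitsAction (K := K) (L := L)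
  ext x
  constructor
  · rintro ⟨y, rfl⟩
    obtain ⟨u, rfl⟩ := toGlobalUnits_surjective L y
    rw [normG_toGlobalUnits]
    exact ⟨_, ⟨_, ⟨u, rfl⟩, rfl⟩, rfl⟩
  · rintro ⟨_, ⟨_, ⟨u, rfl⟩, rfl⟩, rfl⟩
    exact ⟨toGlobalUnits L u, normG_toGlobalUnits u⟩

theorem ker_normG_globalUnits :
    letI := globalUnitsAction (K := K) (L := L)
    (normG (L ≃ₐ[K] L) ↥(globalUnits L)).ker = (unitNorm K L).ker.map (toGlobalUnits L) := by
  letI := globalUnitsAction (K := K) (L := L)
  ext x
  obtain ⟨u, rfl⟩ := toGlobalUnits_surjective L x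
  rw [MonoidHom.mem_ker, normG_toGlobalUnits,
    Subgroup.mem_map_iff_mem (toGlobalUnits_injective L), MonoidHom.mem_ker]
  constructor
  · intro h
    have h1 : unitIncl K L (unitNorm K L u) = 1 :=
      toGlobalUnits_injective L (by rw [h, map_one])
    exact unitIncl_injective (K := K) (L := L) (by rw [h1, map_one])
  · intro h
    rw [h, map_one, map_one]

theorem range_deltaHom_globalUnits (σ : L ≃ₐ[K] L) :
    letI := globalUnitsAction (K := K) (L := L)
    (deltaHom ↥(globalUnits L) σ).range = (unitDel σ).range.map (toGlobalUnits L) := by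
  letI := globalUnitsAction (K := K) (L := L)
  ext x
  constructor
  · rintro ⟨y, rfl⟩
    obtain ⟨u, rfl⟩ := toGlobalUnits_surjective L y
    rw [deltaHom_toGlobalUnits]
    exact ⟨_, (mem_range_unitDel_iff' σ _).mpr ⟨u, rfl⟩, rfl⟩
  · rintro ⟨v, hv, rfl⟩
    obtain ⟨u, rfl⟩ := (mem_range_unitDel_iff' σ v).mp hv
    exact ⟨toGlobalUnits L u, deltaHom_toGlobalUnits σ u⟩

theorem fixedSub_globalUnits {p : ℕ} [Fact p.Prime] (hdeg : Module.finrank K L = p)
    {σ : L ≃ₐ[K] L} (hσ : σ ≠ 1) :
    letI := globalUnitsAction (K := K) (L := L)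
    fixedSub (L ≃ₐ[K] L) ↥(globalUnits L) = (unitIncl K L).range.map (toGlobalUnits L) := by
  letI := globalUnitsAction (K := K) (L := L)
  ext x
  obtain ⟨u, rfl⟩ := toGlobalUnits_surjective L x
  rw [mem_fixedSub, Subgroup.mem_map_iff_mem (toGlobalUnits_injective L)]
  constructor
  · intro h
    have h1 : unitAut K L σ u = u := by
      apply toGlobalUnits_injective L
      rw [toGlobalUnits_unitAut]
      exact h σ
    obtain ⟨v, hv⟩ := exists_unitIncl_eq_of_fixed hdeg hσ u h1
    exact ⟨v, hv⟩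
  · rintro ⟨v, rfl⟩ τ
    rw [← toGlobalUnits_unitAut, unitAut_unitIncl]

/-- **Herbrand quotient of the global units**, in the `hZero` / `hMinus` form of the GLOB
interface: for `L/K` Galois of odd prime degree `p` and `σ ≠ 1`,
`|Ĥ^{-1}(G, E_L)| = p * |Ĥ^0(G, E_L)|`, both finite and nonzero. -/
theorem globalUnits_herbrand {p : ℕ} (hp : p.Prime) (hp2 : p ≠ 2)
    (hdeg : Module.finrank K L = p) (σ : L ≃ₐ[K] L) (hσ : σ ≠ 1) :
    letI := globalUnitsAction (K := K) (L := L)
    hZero (L ≃ₐ[K] L) ↥(globalUnits L) ≠ 0 ∧ hMinus ↥(globalUnits L) σ ≠ 0 ∧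
      hMinus ↥(globalUnits L) σ = p * hZero (L ≃ₐ[K] L) ↥(globalUnits L) := by
  letI := globalUnitsAction (K := K) (L := L)
  haveI : Fact p.Prime := ⟨hp⟩
  have hZ : hZero (L ≃ₐ[K] L) ↥(globalUnits L) = (unitNorm K L).range.index := by
    rw [hZero_def, ← Subgroup.relIndex, range_normG_globalUnits, fixedSub_globalUnits hdeg hσ,
      Subgroup.relIndex_map_map_of_injective _ _ (toGlobalUnits_injective L),
      relIndex_map_unitIncl_range]
  have hM : hMinus ↥(globalUnits L) σ = (unitDel σ).range.relIndex (unitNorm K L).ker := by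
    rw [hMinus_def, ← Subgroup.relIndex, range_deltaHom_globalUnits, ker_normG_globalUnits,
      Subgroup.relIndex_map_map_of_injective _ _ (toGlobalUnits_injective L)]
  have h1 := unit_herbrand hdeg hp2 hσ
  have h2 := unit_herbrand_ne_zero hdeg hσ
  rw [hZ, hM]
  exact ⟨h2.1, h2.2, h1⟩

end Transport

end Fermat.Agent.S55.helper44
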