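import Mathlib

/-!
# Hilbert 90 for level-constant cocycles of an infinite Galois group (helper44)

`exists_coboundary_of_level`: for a Galois extension `Ω / K` (possibly infinite), a
multiplicative 1-cocycle `f : Gal(Ω/K) → Ωˣ` which is constant on the right cosets of
`Gal(Ω/M₀)` for a finite subextension `M₀` is a coboundary.
-/

set_option autoImplicit false

open groupCohomology

noncomputable section

namespace Fermat.Agent.S55.helper44

variable {K Ω : Type*} [Field K] [Field Ω] [Algebra K Ω]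

/-- the kernel of restriction to a normal intermediate field is its fixing subgroup -/
theorem restrictNormalHom_eq_one_iff (M : IntermediateField K Ω) [Normal K M]
    (g : Ω ≃ₐ[K] Ω) : AlgEquiv.restrictNormalHom M g = 1 ↔ g ∈ M.fixingSubgroup := by
  rw [IntermediateField.mem_fixingSubgroup_iff]
  constructor
  · intro h x hx
    have h1 : algebraMap M Ω (AlgEquiv.restrictNormalHom M g ⟨x, hx⟩) = g x :=
      AlgEquiv.restrictNormal_commutes g M ⟨x, hx⟩
    rw [h] at h1
    exact h1.symm
  · intro h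
    ext x
    have h1 : algebraMap M Ω (AlgEquiv.restrictNormalHom M g x) = g x :=
      AlgEquiv.restrictNormal_commutes g M x
    change algebraMap M Ω (AlgEquiv.restrictNormalHom M g x) = algebraMap M Ω x
    rw [h1]
    exact h x x.2

/-- **Hilbert 90 for level-constant cocycles.** -/
theorem exists_coboundary_of_level [IsGalois K Ω]
    (f : (Ω ≃ₐ[K] Ω) → Ωˣ)
    (hcoc : ∀ g h : Ω ≃ₐ[K] Ω, f (g * h) = Units.map (g : Ω →* Ω) (f h) * f g)
    (M₀ : IntermediateField K Ω) [FiniteDimensional K M₀]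
    (hlev : ∀ g : Ω ≃ₐ[K] Ω, ∀ s ∈ M₀.fixingSubgroup, f (g * s) = f g) :
    ∃ b : Ωˣ, ∀ g : Ω ≃ₐ[K] Ω, f g = Units.map (g : Ω →* Ω) b / b := by
  classical
  let M : IntermediateField K Ω := IntermediateField.normalClosure K M₀ Ω
  have hMfd : FiniteDimensional K M := normalClosure.is_finiteDimensional K M₀ Ω
  have hMn : Normal K M := normalClosure.normal K M₀ Ω
  have hM₀M : M₀ ≤ M := IntermediateField.le_normalClosure M₀
  have hlevM : ∀ g : Ω ≃ₐ[K] Ω, ∀ s ∈ M.fixingSubgroup, f (g * s) = f g :=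
    fun g s hs => hlev g s (IntermediateField.fixingSubgroup_le hM₀M hs)
  have hf1 : f 1 = 1 := by
    have h := hcoc 1 1
    rw [mul_one] at h
    have h2 : Units.map ((1 : Ω ≃ₐ[K] Ω) : Ω →* Ω) (f 1) = f 1 := by
      ext; rfl
    rw [h2] at h
    exact (mul_eq_left.1 h.symm)
  have hfN : ∀ s ∈ M.fixingSubgroup, f s = 1 := fun s hs => by
    have h := hlevM 1 s hs
    rwa [one_mul, hf1] at h
  have hnorm : ∀ (g s : Ω ≃ₐ[K] Ω), s ∈ M.fixingSubgroup → g⁻¹ * s * g ∈ M.fixingSubgroup := by
    intro g s hs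
    rw [← restrictNormalHom_eq_one_iff] at hs ⊢
    rw [map_mul, map_mul, hs, mul_one, map_inv, inv_mul_cancel]
  have hval : ∀ g, ((f g : Ωˣ) : Ω) ∈ M := by
    intro g
    rw [← InfiniteGalois.fixedField_fixingSubgroup M, IntermediateField.mem_fixedField_iff]
    intro s hs
    have h1 := hcoc s g
    rw [hfN s hs, mul_one] at h1
    have h2 := hlevM g _ (hnorm g s hs)
    rw [show g * (g⁻¹ * s * g) = s * g by group] at h2
    rw [h2] at h1
    exact (congrArg Units.val h1).symm
  have hres_surj : Function.Surjective (AlgEquiv.restrictNormalHom (F := K) (K₁ := Ω) M) :=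
    AlgEquiv.restrictNormalHom_surjective Ω
  have hdep : ∀ g g' : Ω ≃ₐ[K] Ω,
      AlgEquiv.restrictNormalHom M g = AlgEquiv.restrictNormalHom M g' → f g = f g' := by
    intro g g' h
    have h1 : g⁻¹ * g' ∈ M.fixingSubgroup :=
      (restrictNormalHom_eq_one_iff M _).1 (by rw [map_mul, map_inv, h, inv_mul_cancel])
    have h2 := hlevM g _ h1
    rw [mul_inv_cancel_left] at h2
    exact h2.symm
  choose lift hlift using hres_surj
  let cbar : (M ≃ₐ[K] M) → Mˣ := fun τ =>
    Units.mk0 (⟨((f (lift τ) : Ωˣ) : Ω), hval (lift τ)⟩ : M)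
      (fun h => (f (lift τ)).ne_zero (congrArg Subtype.val h))
  have hcbar_val : ∀ τ, (((cbar τ : Mˣ) : M) : Ω) = ((f (lift τ) : Ωˣ) : Ω) := fun τ => rfl
  have hsmul : ∀ (g : Ω ≃ₐ[K] Ω) (x : M),
      (((AlgEquiv.restrictNormalHom M g) x : M) : Ω) = g (x : Ω) :=
    fun g x => AlgEquiv.restrictNormal_commutes g M x
  have hcocbar : IsMulCocycle₁ cbar := by
    intro σ τ
    rw [AlgEquiv.smul_units_def]
    apply Units.ext
    apply Subtype.val_injective
    have e1 : f (lift (σ * τ)) = f (lift σ * lift τ) :=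
      hdep _ _ (by rw [hlift, map_mul, hlift, hlift])
    have e2 := hcoc (lift σ) (lift τ)
    rw [hcbar_val, e1, e2]
    simp only [Units.val_mul, Units.coe_map, MonoidHom.coe_coe, MulMemClass.coe_mul]
    congr 1
    have e3 := hsmul (lift σ) ((cbar τ : Mˣ) : M)
    rw [hlift] at e3
    rw [e3, hcbar_val]
  obtain ⟨β, hβ⟩ := isMulCoboundary₁_of_isMulCocycle₁_of_aut_to_units cbar hcocbar
  refine ⟨Units.map (algebraMap M Ω : M →* Ω) β, fun g => ?_⟩
  have e1 : f g = f (lift (AlgEquiv.restrictNormalHom M g)) := hdep _ _ (hlift _).symm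
  have e2 := hβ (AlgEquiv.restrictNormalHom M g)
  rw [AlgEquiv.smul_units_def] at e2
  apply Units.ext
  rw [e1, ← hcbar_val, ← e2]
  simp only [Units.val_div_eq_div_val, Units.coe_map, MonoidHom.coe_coe,
    IntermediateField.coe_div]
  rw [hsmul g]
  rfl

end Fermat.Agent.S55.helper44

end
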