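import Fermat.Agent.S55.helper90_Rec3Int

/-!
# S55 / REC3 : R3-ABS-DIVJ (helper44, task 501)

The kernel of `H²(J) → H²(C)` is `p`-divisible on `p`-parts (`DivJP`), from

* (DIV) `H²(J)` is `p`-divisible up to multipliers prime to `p` (`LocSys.Good.div2J`, helper84);
* (T)   a class `t` of `H²(J)` killed by `p` whose image in `H²(C)` is not trivial
        (`exists_local_class`, helper85);
* `C2Cyc` : the `p`-part of `H²(C)` is locally cyclic.

`divJP_of` is the core (only the three inputs above); `divJP_of_packages` has the exact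
hypothesis list of the interface `divJP` plus the statements of the two packages (DIV), (T) for
the given data.
-/

set_option autoImplicit false

open groupCohomology

noncomputable section

namespace Fermat.Agent.S55.helper44

open Fermat.Agent.S55 Fermat.Agent.S55.helper59 Fermat.Agent.S55.helper69
  Fermat.Agent.S55.helper73 Fermat.Agent.S55.helper90

section Maps

variable {k U : Type} [CommRing k] [Group U] {𝒩 : Levels U}
variable {A B : Rep.{0} k U} {f : A →+ B}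

/-- composition with an equivariant additive map preserves level 2-cocycles -/
lemma comp_mem_Z2 (hf : IsEquivariant f) {j : U × U → A} (hj : j ∈ Z2 𝒩 A) :
    (fun x => f (j x)) ∈ Z2 𝒩 B := by
  refine ⟨IsLev₂.comp' 𝒩 hj.1 f, ?_⟩
  change (d₂₃ B).hom (fun x => f (j x)) = 0
  rw [d₂₃_map hf]
  have h : (d₂₃ A).hom j = 0 := hj.2
  rw [h]
  funext x
  exact map_zero f

/-- composition with an equivariant additive map preserves level 2-coboundaries -/
lemma comp_mem_B2 (hf : IsEquivariant f) {j : U × U → A} (hj : j ∈ B2 𝒩 A) :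
    (fun x => f (j x)) ∈ B2 𝒩 B := by
  obtain ⟨s, hs, rfl⟩ := hj
  exact ⟨fun g => f (s g), IsLev₁.comp' 𝒩 hs f, d₁₂_map hf s⟩

end Maps

section Abs

variable {k U : Type} [CommRing k] [Group U] {𝒩 : Levels U} {ι : Type} [Fintype ι]
variable {E J C : Rep.{0} k U} {X : ESeq E J C} {L : LocalData U 𝒩 ι}
variable {p : ℕ} [Fact p.Prime]

omit [Fintype ι] [Fact p.Prime] in
/-- **R3-ABS-DIVJ, core**: `DivJP` from divisibility of `H²(J)`, one class `t` killed by `p`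
with nontrivial image in `H²(C)`, and local cyclicity of `H²(C)(p)`. -/
theorem divJP_of
    (hDIV : ∀ j ∈ Z2 𝒩 J, ∃ m : ℕ, ¬ p ∣ m ∧ ∃ j' ∈ Z2 𝒩 J, m • j - p • j' ∈ B2 𝒩 J)
    (hT : ∃ t ∈ Z2 𝒩 J, p • t ∈ B2 𝒩 J ∧ (fun x => X.π (t x)) ∉ B2 𝒩 C)
    (hC2 : C2Cyc 𝒩 p C) : DivJP 𝒩 X p := by
  intro j hj hπj
  obtain ⟨m, hm, j₁, hj₁, hmj⟩ := hDIV j hj
  obtain ⟨t, ht, hpt, hπt⟩ := hT
  have hc₁ : (fun x => X.π (t x)) ∈ Z2 𝒩 C := comp_mem_Z2 X.π_eq ht
  have hc₂ : (fun x => X.π (j₁ x)) ∈ Z2 𝒩 C := comp_mem_Z2 X.π_eq hj₁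
  have h1 : p ^ 1 • (fun x => X.π (t x)) ∈ B2 𝒩 C := by
    have h := comp_mem_B2 (𝒩 := 𝒩) X.π_eq hpt
    have e : p ^ 1 • (fun x => X.π (t x)) = fun x => X.π ((p • t) x) := by
      funext x
      simp only [pow_one, Pi.smul_apply, map_nsmul]
    rw [e]
    exact h
  have h0 : p ^ 0 • (fun x => X.π (t x)) ∉ B2 𝒩 C := by
    rw [pow_zero, one_smul]
    exact hπt
  have h2 : p ^ (0 + 1) • (fun x => X.π (j₁ x)) ∈ B2 𝒩 C := by
    have e : p ^ (0 + 1) • (fun x => X.π (j₁ x)) =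
        m • (fun x => X.π (j x)) - (fun x => X.π ((m • j - p • j₁) x)) := by
      funext x
      simp only [zero_add, pow_one, Pi.smul_apply, Pi.sub_apply, map_sub, map_nsmul]
      abel
    rw [e]
    exact Submodule.sub_mem _ ((B2 𝒩 C).nsmul_mem hπj m) (comp_mem_B2 X.π_eq hmj)
  obtain ⟨a, ha⟩ := hC2 _ hc₁ _ hc₂ 0 1 h1 h0 h2
  refine ⟨m, hm, j₁ - a • t, Submodule.sub_mem _ hj₁ ((Z2 𝒩 J).nsmul_mem ht a), ?_, ?_⟩
  · have e : (fun x => X.π ((j₁ - a • t) x)) =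
        (fun x => X.π (j₁ x)) - a • (fun x => X.π (t x)) := by
      funext x
      simp only [Pi.smul_apply, Pi.sub_apply, map_sub, map_nsmul]
    rw [e]
    exact ha
  · have e : m • j - p • (j₁ - a • t) = (m • j - p • j₁) + a • (p • t) := by
      rw [smul_sub, smul_comm p a t]
      abel
    rw [e]
    exact Submodule.add_mem _ hmj ((B2 𝒩 J).nsmul_mem hpt a)

omit [Fintype ι] in
/-- **R3-ABS-DIVJ**, with the hypothesis list of the interface statement `divJP` and the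
conclusions of the packages R3-ABS-DIV (`LocSys.Good.div2J`) and R3-ABS-T
(`exists_local_class`) for the given data as explicit hypotheses. -/
theorem divJP_of_packages
    (Λ : LocSys J L) (K : KummerDatum E p)
    (hdiv2J : ∀ j ∈ Z2 𝒩 J, ∃ m : ℕ, ¬ p ∣ m ∧ ∃ j' ∈ Z2 𝒩 J, m • j - p • j' ∈ B2 𝒩 J)
    (inv : ∀ w : ι, (L.Gv w × L.Gv w → ZMod p) →ₗ[ZMod p] ZMod p)
    (hloc : ∀ (w : ι) (c : L.Gv w × L.Gv w → ZMod p),
      c ∈ Z2 (L.lev w) (Tp (L.Gv w) p) → inv w c ≠ 0 →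
      ∃ t ∈ Z2 𝒩 J, p • t ∈ B2 𝒩 J ∧
        (Λ.loc₂ w t - fun s => Λ.κ X K w (c s)) ∈ B2 (L.lev w) (Λ.Ω w) ∧
        (∀ w', w' ≠ w → Λ.loc₂ w' t ∈ B2 (L.lev w') (Λ.Ω w')) ∧
        (fun x => X.π (t x)) ∉ B2 𝒩 C)
    (hC2 : C2Cyc 𝒩 p C)
    (I1' : ∀ w, ∃ c ∈ Z2 (L.lev w) (Tp (L.Gv w) p), inv w c ≠ 0)
    (hι : Nonempty ι) : DivJP 𝒩 X p := by
  obtain ⟨w⟩ := hι
  obtain ⟨c, hc, hc0⟩ := I1' w
  obtain ⟨t, ht, hpt, -, -, hπt⟩ := hloc w c hc hc0
  exact divJP_of hdiv2J ⟨t, ht, hpt, hπt⟩ hC2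

end Abs

end Fermat.Agent.S55.helper44

end
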