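import Fermat.Agent.S55.helper46_Dic

/-!
# S55 / REC3 R3-DIC, abstract part II (helper46): transition maps between finite levels,
inflation of classes, class-level detection, the standard realisation `U ⧸ N`.
-/

set_option autoImplicit false

open CategoryTheory CategoryTheory.Limits groupCohomology Rep

noncomputable section

namespace Fermat.Agent.S55.helper46

open Fermat.Agent.S55 Fermat.Agent.S55.helper90

variable {k U : Type} [CommRing k] [Group U]

namespace FinReal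

variable {𝒩 : Levels U} {M : Rep.{0} k U} (X X' : FinReal 𝒩 M) (hle : X'.π.ker ≤ X.π.ker)

/-- the transition map `X'.Q →* X.Q` between two finite levels -/
def trans : X'.Q →* X.Q := X'.π.liftOfSurjective X'.π_surj ⟨X.π, hle⟩

@[simp] lemma trans_π (u : U) : X.trans X' hle (X'.π u) = X.π u :=
  MonoidHom.liftOfRightInverse_comp_apply _ _ _ _ _

lemma trans_surjective : Function.Surjective (X.trans X' hle) := by
  intro q
  obtain ⟨u, rfl⟩ := X.π_surj q
  exact ⟨X'.π u, X.trans_π X' hle u⟩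

/-- elements of the finite-level module are fixed by `ker π` -/
lemma ρ_j_of_mem_ker {s : U} (hs : s ∈ X.π.ker) (m : X.M') : M.ρ s (X.j m) = X.j m := by
  rw [← X.j_ρ, MonoidHom.mem_ker.1 hs, map_one, Module.End.one_apply]

/-- `j` as a linear equivalence onto its range -/
def jEquiv : X.M' ≃ₗ[k] LinearMap.range X.j := LinearEquiv.ofInjective X.j X.j_inj

include hle in
lemma range_j_le : LinearMap.range X.j ≤ LinearMap.range X'.j := by
  rintro _ ⟨m, rfl⟩
  exact X'.j_surj _ fun s hs => X.ρ_j_of_mem_ker (hle hs) m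

/-- the transition map `X.M' → X'.M'` between the finite-level modules -/
def transM : X.M' →ₗ[k] X'.M' :=
  X'.jEquiv.symm.toLinearMap ∘ₗ Submodule.inclusion (X.range_j_le X' hle) ∘ₗ X.jEquiv.toLinearMap

@[simp] lemma j_transM (m : X.M') : X'.j (X.transM X' hle m) = X.j m := by
  have h := (X'.jEquiv).apply_symm_apply
    (Submodule.inclusion (X.range_j_le X' hle) (X.jEquiv m))
  exact congrArg Subtype.val h

lemma transM_injective : Function.Injective (X.transM X' hle) := by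
  intro m m' h
  apply X.j_inj
  rw [← X.j_transM X' hle, h, X.j_transM X' hle]

lemma transM_ρ (q : X'.Q) (m : X.M') :
    X.transM X' hle (X.M'.ρ (X.trans X' hle q) m) = X'.M'.ρ q (X.transM X' hle m) := by
  obtain ⟨u, rfl⟩ := X'.π_surj q
  apply X'.j_inj
  rw [j_transM, trans_π, X.j_ρ, X'.j_ρ, j_transM]

/-- the transition morphism of representations -/
def transHom : res (X.trans X' hle) X.M' ⟶ X'.M' :=
  ConcreteCategory.ofHom (C := Rep.{0} k X'.Q)
    { toLinearMap := X.transM X' hle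
      isIntertwining' := fun q => by
        ext m
        exact X.transM_ρ X' hle q m }

@[simp] lemma transHom_hom (m : X.M') : (X.transHom X' hle).hom m = X.transM X' hle m := rfl

/-- inflation in cohomology between two finite levels -/
def inflTo (n : ℕ) : groupCohomology X.M' n ⟶ groupCohomology X'.M' n :=
  groupCohomology.map (X.trans X' hle) (X.transHom X' hle) n

/-! ### transition maps and inflation of cochains -/

lemma infl₁_trans (f : X.Q → X.M') :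
    X'.infl₁ (fun q => X.transM X' hle (f (X.trans X' hle q))) = X.infl₁ f := by
  funext g
  simp

lemma infl₂_trans (f : X.Q × X.Q → X.M') :
    X'.infl₂ (fun q => X.transM X' hle (f (X.trans X' hle q.1, X.trans X' hle q.2))) =
      X.infl₂ f := by
  funext ⟨g₁, g₂⟩
  simp

lemma infl₃_trans (f : X.Q × X.Q × X.Q → X.M') :
    X'.infl₃ (fun q => X.transM X' hle
      (f (X.trans X' hle q.1, X.trans X' hle q.2.1, X.trans X' hle q.2.2))) = X.infl₃ f := by
  funext ⟨g₁, g₂, g₃⟩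
  simp

lemma infl₁_mapCocycles₁ (f : cocycles₁ X.M') :
    X'.infl₁ (mapCocycles₁ (X.trans X' hle) (X.transHom X' hle) f : X'.Q → X'.M') =
      X.infl₁ (f : X.Q → X.M') :=
  X.infl₁_trans X' hle f

lemma infl₂_mapCocycles₂ (f : cocycles₂ X.M') :
    X'.infl₂ (mapCocycles₂ (X.trans X' hle) (X.transHom X' hle) f : X'.Q × X'.Q → X'.M') =
      X.infl₂ (f : X.Q × X.Q → X.M') :=
  X.infl₂_trans X' hle f

lemma infl₃_mapCocycles₃ (f : cocycles₃ X.M') :
    X'.infl₃ (mapCocycles₃ (X.trans X' hle) (X.transHom X' hle) f :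
      X'.Q × X'.Q × X'.Q → X'.M') = X.infl₃ (f : X.Q × X.Q × X.Q → X.M') :=
  X.infl₃_trans X' hle f

/-! ### inflation of classes -/

lemma inflTo_H1π (f : cocycles₁ X.M') :
    X.inflTo X' hle 1 (H1π X.M' f) =
      H1π X'.M' (mapCocycles₁ (X.trans X' hle) (X.transHom X' hle) f) :=
  H1π_comp_map_apply (X.trans X' hle) (X.transHom X' hle) f

lemma inflTo_H2π (f : cocycles₂ X.M') :
    X.inflTo X' hle 2 (H2π X.M' f) =
      H2π X'.M' (mapCocycles₂ (X.trans X' hle) (X.transHom X' hle) f) :=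
  H2π_comp_map_apply (X.trans X' hle) (X.transHom X' hle) f

lemma inflTo_H3π (f : cocycles₃ X.M') :
    X.inflTo X' hle 3 (H3π X.M' f) =
      H3π X'.M' (mapCocycles₃ (X.trans X' hle) (X.transHom X' hle) f) :=
  H3π_map_apply (X.trans X' hle) (X.transHom X' hle) f

/-! ### classes and level-constant coboundaries -/

/-- a finite-level class which vanishes gives a level-constant coboundary -/
lemma infl₁_mem_B1_of_H1π_eq_zero {f : cocycles₁ X.M'} (h : H1π X.M' f = 0) :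
    X.infl₁ (f : X.Q → X.M') ∈ B1 M := by
  obtain ⟨m, hm⟩ := (H1π_eq_zero_iff f).1 h
  have : (f : X.Q → X.M') = (d₀₁ X.M').hom m := hm.symm
  rw [this]
  exact X.infl₁_mem_B1 m

lemma infl₂_mem_B2_of_H2π_eq_zero {f : cocycles₂ X.M'} (h : H2π X.M' f = 0) :
    X.infl₂ (f : X.Q × X.Q → X.M') ∈ B2 𝒩 M := by
  obtain ⟨g, hg⟩ := (H2π_eq_zero_iff f).1 h
  have : (f : X.Q × X.Q → X.M') = (d₁₂ X.M').hom g := hg.symm
  rw [this]
  exact X.infl₂_mem_B2 g

lemma infl₃_mem_B3_of_H3π_eq_zero {f : cocycles₃ X.M'} (h : H3π X.M' f = 0) :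
    X.infl₃ (f : X.Q × X.Q × X.Q → X.M') ∈ B3 𝒩 M := by
  obtain ⟨g, hg⟩ := (H3π_eq_zero_iff f).1 h
  have : (f : X.Q × X.Q × X.Q → X.M') = (d₂₃ X.M').hom g := hg.symm
  rw [this]
  exact X.infl₃_mem_B3 g

/-- if the inflation of a finite-level class to a deeper level vanishes, the inflated cocycle is
a level-constant coboundary -/
lemma infl₁_mem_B1_of_inflTo_eq_zero {f : cocycles₁ X.M'}
    (h : X.inflTo X' hle 1 (H1π X.M' f) = 0) : X.infl₁ (f : X.Q → X.M') ∈ B1 M := by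
  rw [inflTo_H1π] at h
  rw [← X.infl₁_mapCocycles₁ X' hle]
  exact X'.infl₁_mem_B1_of_H1π_eq_zero h

lemma infl₂_mem_B2_of_inflTo_eq_zero {f : cocycles₂ X.M'}
    (h : X.inflTo X' hle 2 (H2π X.M' f) = 0) : X.infl₂ (f : X.Q × X.Q → X.M') ∈ B2 𝒩 M := by
  rw [inflTo_H2π] at h
  rw [← X.infl₂_mapCocycles₂ X' hle]
  exact X'.infl₂_mem_B2_of_H2π_eq_zero h

lemma infl₃_mem_B3_of_inflTo_eq_zero {f : cocycles₃ X.M'}
    (h : X.inflTo X' hle 3 (H3π X.M' f) = 0) :
    X.infl₃ (f : X.Q × X.Q × X.Q → X.M') ∈ B3 𝒩 M := by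
  rw [inflTo_H3π] at h
  rw [← X.infl₃_mapCocycles₃ X' hle]
  exact X'.infl₃_mem_B3_of_H3π_eq_zero h

end FinReal

/-! ## DET, class level -/

section ClassDet

variable {𝒩 : Levels U} {M : Rep.{0} k U}

/-- **DET, classes, degree 1**: if the inflation of a finite-level 1-cocycle is a coboundary,
its class dies at every sufficiently deep finite level. -/
theorem inflTo_H1π_eq_zero (hd : IsDisc 𝒩 M) (X : FinReal 𝒩 M) (f : cocycles₁ X.M')
    (h : X.infl₁ (f : X.Q → X.M') ∈ B1 M) :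
    ∃ N ∈ 𝒩.mem, ∀ (X' : FinReal 𝒩 M) (hle : X'.π.ker ≤ X.π.ker), X'.π.ker ≤ N →
      X.inflTo X' hle 1 (H1π X.M' f) = 0 := by
  obtain ⟨N, hN, hdet⟩ := exists_of_mem_B1 hd h
  refine ⟨N, hN, fun X' hle hX' => ?_⟩
  obtain ⟨m, hm⟩ := hdet X' hX'
  rw [FinReal.inflTo_H1π, H1π_eq_zero_iff]
  refine ⟨m, X'.infl₁_injective ?_⟩
  rw [hm, ← X.infl₁_mapCocycles₁ X' hle]

/-- **DET, classes, degree 2.** -/
theorem inflTo_H2π_eq_zero (hfin : FinLevels 𝒩) (hd : IsDisc 𝒩 M) (X : FinReal 𝒩 M)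
    (f : cocycles₂ X.M') (h : X.infl₂ (f : X.Q × X.Q → X.M') ∈ B2 𝒩 M) :
    ∃ N ∈ 𝒩.mem, ∀ (X' : FinReal 𝒩 M) (hle : X'.π.ker ≤ X.π.ker), X'.π.ker ≤ N →
      X.inflTo X' hle 2 (H2π X.M' f) = 0 := by
  obtain ⟨N, hN, hdet⟩ := exists_of_mem_B2 hfin hd h
  refine ⟨N, hN, fun X' hle hX' => ?_⟩
  obtain ⟨g, hg⟩ := hdet X' hX'
  rw [FinReal.inflTo_H2π, H2π_eq_zero_iff]
  refine ⟨g, X'.infl₂_injective ?_⟩
  rw [hg, ← X.infl₂_mapCocycles₂ X' hle]

/-- **DET, classes, degree 3.** -/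
theorem inflTo_H3π_eq_zero (hfin : FinLevels 𝒩) (hd : IsDisc 𝒩 M) (X : FinReal 𝒩 M)
    (f : cocycles₃ X.M') (h : X.infl₃ (f : X.Q × X.Q × X.Q → X.M') ∈ B3 𝒩 M) :
    ∃ N ∈ 𝒩.mem, ∀ (X' : FinReal 𝒩 M) (hle : X'.π.ker ≤ X.π.ker), X'.π.ker ≤ N →
      X.inflTo X' hle 3 (H3π X.M' f) = 0 := by
  obtain ⟨N, hN, hdet⟩ := exists_of_mem_B3 hfin hd h
  refine ⟨N, hN, fun X' hle hX' => ?_⟩
  obtain ⟨g, hg⟩ := hdet X' hX'
  rw [FinReal.inflTo_H3π, H3π_eq_zero_iff]
  refine ⟨g, X'.infl₃_injective ?_⟩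
  rw [hg, ← X.infl₃_mapCocycles₃ X' hle]

end ClassDet

/-! ## The standard realisation attached to a level -/

section OfLevel

variable (𝒩 : Levels U) (M : Rep.{0} k U)

/-- The standard finite-level realisation attached to a level `N`: `Q = U ⧸ N`,
`M' = M.quotientToInvariants N`. -/
def FinReal.ofLevel (N : Subgroup U) (hN : N ∈ 𝒩.mem) : FinReal 𝒩 M :=
  haveI : N.Normal := 𝒩.normal N hN
  { Q := U ⧸ N
    grp := inferInstance
    π := QuotientGroup.mk' N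
    π_surj := QuotientGroup.mk'_surjective N
    ker_level := ⟨N, hN, by rw [QuotientGroup.ker_mk']⟩
    M' := M.quotientToInvariants N
    j := Submodule.subtype _
    j_inj := Subtype.val_injective
    j_ρ := fun _ _ => rfl
    j_surj := fun m hm => ⟨⟨m, fun s => hm s (by rw [QuotientGroup.ker_mk']; exact s.2)⟩, rfl⟩ }

lemma FinReal.ofLevel_ker (N : Subgroup U) (hN : N ∈ 𝒩.mem) :
    (FinReal.ofLevel 𝒩 M N hN).π.ker = N :=
  haveI : N.Normal := 𝒩.normal N hN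
  QuotientGroup.ker_mk' N

variable {𝒩 M}

/-- **MAIN, standard form, degree 1.** -/
theorem Z1_le_B1_of_isZero_quotient (hfin : FinLevels 𝒩) (hd : IsDisc 𝒩 M)
    (h : ∀ N ∈ 𝒩.mem, ∃ N' ∈ 𝒩.mem, ∃ _ : N'.Normal, N' ≤ N ∧
      IsZero (groupCohomology (M.quotientToInvariants N') 1)) :
    Z1 𝒩 M ≤ B1 M :=
  Z1_le_B1_of_isZero hfin hd fun N hN => by
    obtain ⟨N', hN', _, hle, hz⟩ := h N hN
    exact ⟨FinReal.ofLevel 𝒩 M N' hN', by rw [FinReal.ofLevel_ker]; exact hle, hz⟩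

/-- **MAIN, standard form, degree 2.** -/
theorem Z2_le_B2_of_isZero_quotient (hfin : FinLevels 𝒩) (hd : IsDisc 𝒩 M)
    (h : ∀ N ∈ 𝒩.mem, ∃ N' ∈ 𝒩.mem, ∃ _ : N'.Normal, N' ≤ N ∧
      IsZero (groupCohomology (M.quotientToInvariants N') 2)) :
    Z2 𝒩 M ≤ B2 𝒩 M :=
  Z2_le_B2_of_isZero hfin hd fun N hN => by
    obtain ⟨N', hN', _, hle, hz⟩ := h N hN
    exact ⟨FinReal.ofLevel 𝒩 M N' hN', by rw [FinReal.ofLevel_ker]; exact hle, hz⟩

/-- **MAIN, standard form, degree 3.** -/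
theorem Z3_le_B3_of_isZero_quotient (hfin : FinLevels 𝒩) (hd : IsDisc 𝒩 M)
    (h : ∀ N ∈ 𝒩.mem, ∃ N' ∈ 𝒩.mem, ∃ _ : N'.Normal, N' ≤ N ∧
      IsZero (groupCohomology (M.quotientToInvariants N') 3)) :
    Z3 𝒩 M ≤ B3 𝒩 M :=
  Z3_le_B3_of_isZero hfin hd fun N hN => by
    obtain ⟨N', hN', _, hle, hz⟩ := h N hN
    exact ⟨FinReal.ofLevel 𝒩 M N' hN', by rw [FinReal.ofLevel_ker]; exact hle, hz⟩

end OfLevel

end Fermat.Agent.S55.helper46
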