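import Mathlib

/-!
# S55 module FG, package FG1: transfer (weak corestriction), torsion and Sylow reduction

For a finite index subgroup `S ≤ G` and `A : Rep k G` we build

* `fg1Unit S A : A ⟶ Coind_S^G Res_S A`, `a ↦ (g ↦ g a)`;
* `fg1Trace S A : Coind_S^G Res_S A ⟶ A`, `f ↦ ∑_{g ∈ S\G} g⁻¹ f(g)`;

with `fg1Unit ≫ fg1Trace = [G : S]`, and deduce, using Shapiro's lemma from Mathlib,

* `exists_transfer`: maps `j : Hⁿ(G, A) ⟶ Hⁿ(S, A)`, `c : Hⁿ(S, A) ⟶ Hⁿ(G, A)` with
  `c ∘ j = [G : S]`;
* `card_nsmul_eq_zero`: `|G|` kills `Hⁿ(G, A)` for `n ≥ 1`;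
* `exists_injOn_pPrimary`: the `p`-primary part of `Hⁿ(G, A)` embeds into `Hⁿ(P, A)`;
* `isZero_of_forall_sylow`: `Hⁿ(G, A) = 0` as soon as `Hⁿ(P, A) = 0` for all Sylow subgroups.
-/

set_option autoImplicit false

universe u

open CategoryTheory CategoryTheory.Limits groupCohomology Rep

namespace Fermat.Agent.S55.helper46

variable {k G : Type u} [CommRing k] [Group G]

/-- The unit `A ⟶ Coind_S^G Res_S A`, `a ↦ (g ↦ g a)`. -/
noncomputable def fg1Unit (S : Subgroup G) (A : Rep.{u} k G) :
    A ⟶ coind S.subtype (res S.subtype A) :=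
  (resCoindAdjunction k S.subtype).unit.app A

/-- The trace `Coind_S^G Res_S A ⟶ A`, `f ↦ ∑_{g ∈ S\G} g⁻¹ f(g)`. -/
noncomputable def fg1Trace (S : Subgroup G) [S.FiniteIndex] (A : Rep.{u} k G) :
    coind S.subtype (res S.subtype A) ⟶ A :=
  open scoped Classical in (coindResAdjunction k S).counit.app A

theorem fg1Unit_apply (S : Subgroup G) (A : Rep.{u} k G) (a : A) (g : G) :
    ((fg1Unit S A).hom a).1 g = A.ρ g a := by
  rfl

theorem fg1_counit_mk (S : Subgroup G) (A : Rep.{u} k G) (g : G) (a : A) :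
    ((indResAdjunction k S.subtype).counit.app A).hom
      (Representation.IndV.mk S.subtype (res S.subtype A).ρ g a) = A.ρ g⁻¹ a := by
  simp [indResAdjunction, indResHomEquiv]

attribute [local instance] Subgroup.fintypeQuotientOfFiniteIndex in
/-- Explicit formula for the trace. -/
theorem fg1Trace_apply (S : Subgroup G) [S.FiniteIndex] (A : Rep.{u} k G)
    (f : coind S.subtype (res S.subtype A)) :
    (fg1Trace S A).hom f = ∑ q : Quotient (QuotientGroup.rightRel S),
      Quotient.liftOn q (fun g => A.ρ g⁻¹ (f.1 g)) (fun g₁ g₂ ⟨s, (hs : _ * _ = _)⟩ => by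
        subst hs
        have := f.2 s g₂
        simp only [Subgroup.coe_subtype] at this
        simp [this]) := by
  classical
  unfold fg1Trace
  rw [coindResAdjunction_counit_app]
  change ((indResAdjunction k S.subtype).counit.app A).hom
    (coindToInd (res S.subtype A) f) = _
  rw [coindToInd_apply, map_sum]
  refine Finset.sum_congr rfl fun q _ => ?_
  induction q using Quotient.inductionOn with | h g =>
  exact fg1_counit_mk S A g (f.1 g)

attribute [local instance] Subgroup.fintypeQuotientOfFiniteIndex in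
/-- `trace ∘ unit = [G : S]`. -/
theorem fg1Unit_comp_fg1Trace (S : Subgroup G) [S.FiniteIndex] (A : Rep.{u} k G) :
    fg1Unit S A ≫ fg1Trace S A = S.index • 𝟙 A := by
  classical
  ext a
  change (fg1Trace S A).hom ((fg1Unit S A).hom a) = (S.index • 𝟙 A : A ⟶ A).hom a
  rw [fg1Trace_apply]
  have : ∀ q : Quotient (QuotientGroup.rightRel S),
      Quotient.liftOn q (fun g => A.ρ g⁻¹ (((fg1Unit S A).hom a).1 g))
        (fun g₁ g₂ ⟨s, (hs : _ * _ = _)⟩ => by
          subst hs
          have := ((fg1Unit S A).hom a).2 s g₂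
          simp only [Subgroup.coe_subtype] at this
          simp [this]) = a := by
    intro q
    induction q using Quotient.inductionOn with | h g =>
    change A.ρ g⁻¹ (A.ρ g a) = a
    simp
  rw [Finset.sum_congr rfl fun q _ => this q]
  have hcard : Fintype.card (Quotient (QuotientGroup.rightRel S)) = S.index := by
    rw [Subgroup.index, ← Nat.card_eq_fintype_card]
    exact Nat.card_congr (QuotientGroup.quotientRightRelEquivQuotientLeftRel S)
  simp only [Finset.sum_const, Finset.card_univ, hcard, Rep.nsmul_hom]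
  rfl

/-- `Hⁿ(G, -)` is additive on morphisms (natural-number multiples). -/
theorem fg1_map_nsmul {A B : Rep.{u} k G} (φ : A ⟶ B) (m : ℕ) (n : ℕ) :
    groupCohomology.map (MonoidHom.id G) (m • φ) n =
      m • groupCohomology.map (MonoidHom.id G) φ n := by
  exact ((cochainsFunctor k G) ⋙
    (HomologicalComplex.homologyFunctor _ _ n)).map_nsmul (f := φ) (n := m)

/-- The transfer pair: `j = Shapiro ∘ Hⁿ(unit)`. -/
noncomputable def fg1J (S : Subgroup G) (A : Rep.{u} k G) (n : ℕ) :
    groupCohomology A n ⟶ groupCohomology (res S.subtype A) n :=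
  groupCohomology.map (MonoidHom.id G) (fg1Unit S A) n ≫
    (groupCohomology.coindIso (res S.subtype A) n).hom

/-- The transfer pair: `c = Hⁿ(trace) ∘ Shapiro⁻¹`. -/
noncomputable def fg1C (S : Subgroup G) [S.FiniteIndex] (A : Rep.{u} k G) (n : ℕ) :
    groupCohomology (res S.subtype A) n ⟶ groupCohomology A n :=
  (groupCohomology.coindIso (res S.subtype A) n).inv ≫
    groupCohomology.map (MonoidHom.id G) (fg1Trace S A) n

theorem fg1J_comp_fg1C (S : Subgroup G) [S.FiniteIndex] (A : Rep.{u} k G) (n : ℕ) :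
    fg1J S A n ≫ fg1C S A n = S.index • 𝟙 _ := by
  unfold fg1J fg1C
  rw [Category.assoc, Iso.hom_inv_id_assoc, ← groupCohomology.map_id_comp]
  have h2 : groupCohomology.map (MonoidHom.id G) (fg1Unit S A ≫ fg1Trace S A) n =
      groupCohomology.map (MonoidHom.id G) (S.index • 𝟙 A) n :=
    congrArg (fun φ : A ⟶ A => groupCohomology.map (MonoidHom.id G) φ n)
      (fg1Unit_comp_fg1Trace S A)
  rw [h2, fg1_map_nsmul, groupCohomology.map_id]

theorem fg1C_fg1J_apply (S : Subgroup G) [S.FiniteIndex] (A : Rep.{u} k G) (n : ℕ)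
    (x : groupCohomology A n) : fg1C S A n (fg1J S A n x) = S.index • x := by
  have := congrArg (fun f => f.hom x) (fg1J_comp_fg1C S A n)
  simpa using this

/-- FG1.b (transfer, weak form): for `S` of finite index there is a linear map
`j : Hⁿ(G, A) → Hⁿ(S, A)` and a linear map `c` back with `c ∘ j = [G : S]`. -/
theorem exists_transfer (S : Subgroup G) [S.FiniteIndex] (A : Rep.{u} k G) (n : ℕ) :
    ∃ (j : groupCohomology A n ⟶ groupCohomology (res S.subtype A) n)
      (c : groupCohomology (res S.subtype A) n ⟶ groupCohomology A n),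
      ∀ x : groupCohomology A n, c (j x) = S.index • x :=
  ⟨fg1J S A n, fg1C S A n, fg1C_fg1J_apply S A n⟩

/-- FG1.a: `Hⁿ(G, A)` is killed by `|G|` for `n ≥ 1`. -/
theorem card_nsmul_eq_zero [Finite G] (A : Rep.{u} k G) (n : ℕ) (hn : 0 < n)
    (x : groupCohomology A n) : Nat.card G • x = 0 := by
  obtain ⟨j, c, h⟩ := exists_transfer (⊥ : Subgroup G) A n
  obtain ⟨m, rfl⟩ := Nat.exists_eq_succ_of_ne_zero hn.ne'
  have hz : IsZero (groupCohomology (res (⊥ : Subgroup G).subtype A) (m + 1)) :=
    isZero_groupCohomology_succ_of_subsingleton _ m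
  have hj : j x = 0 := by
    have := (ModuleCat.isZero_iff_subsingleton.mp hz)
    exact Subsingleton.elim _ _
  have := h x
  rw [hj, map_zero, Subgroup.index_bot] at this
  exact this.symm

/-- FG1.e: the `p`-primary part of `Hⁿ(G, A)` embeds into `Hⁿ(P, A)` for a `p`-Sylow
subgroup `P`. -/
theorem exists_injOn_pPrimary [Finite G] (A : Rep.{u} k G) (n : ℕ) (p : ℕ) [Fact p.Prime]
    (P : Sylow p G) :
    ∃ j : groupCohomology A n ⟶ groupCohomology (res (P : Subgroup G).subtype A) n,
      ∀ x : groupCohomology A n, (∃ m : ℕ, p ^ m • x = 0) → j x = 0 → x = 0 := by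
  obtain ⟨j, c, h⟩ := exists_transfer (P : Subgroup G) A n
  refine ⟨j, fun x ⟨m, hm⟩ hj => ?_⟩
  have h1 : (P : Subgroup G).index • x = 0 := by
    rw [← h x, hj, map_zero]
  have hcop : Nat.Coprime (p ^ m) (P : Subgroup G).index :=
    Nat.Coprime.pow_left m ((Nat.Prime.coprime_iff_not_dvd Fact.out).2 P.not_dvd_index)
  have hd1 : addOrderOf x ∣ p ^ m := addOrderOf_dvd_of_nsmul_eq_zero hm
  have hd2 : addOrderOf x ∣ (P : Subgroup G).index := addOrderOf_dvd_of_nsmul_eq_zero h1
  have : addOrderOf x = 1 := Nat.eq_one_of_dvd_coprimes hcop hd1 hd2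
  exact AddMonoid.addOrderOf_eq_one_iff.mp this

/-- FG1.d: Sylow reduction of vanishing (any degree). -/
theorem isZero_of_forall_sylow' [Finite G] (A : Rep.{u} k G) (n : ℕ)
    (h : ∀ (p : ℕ) [Fact p.Prime] (P : Sylow p G),
      IsZero (groupCohomology (res (P : Subgroup G).subtype A) n)) :
    IsZero (groupCohomology A n) := by
  rw [ModuleCat.isZero_iff_subsingleton]
  refine ⟨fun x y => ?_⟩
  suffices hx : ∀ x : groupCohomology A n, x = 0 by rw [hx x, hx y]
  intro x
  by_contra hx
  have hne : addOrderOf x ≠ 1 := fun h1 => hx (AddMonoid.addOrderOf_eq_one_iff.mp h1)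
  obtain ⟨p, hp, hpd⟩ := Nat.exists_prime_and_dvd hne
  have : Fact p.Prime := ⟨hp⟩
  obtain ⟨P⟩ : Nonempty (Sylow p G) := inferInstance
  obtain ⟨j, c, hjc⟩ := exists_transfer (P : Subgroup G) A n
  have hj : j x = 0 := by
    have := (ModuleCat.isZero_iff_subsingleton.mp (h p P))
    exact Subsingleton.elim _ _
  have h1 : (P : Subgroup G).index • x = 0 := by
    rw [← hjc x, hj, map_zero]
  exact P.not_dvd_index (hpd.trans (addOrderOf_dvd_of_nsmul_eq_zero h1))

/-- FG1.d: Sylow reduction of vanishing (interface form, with the unused hypothesis `0 < n`). -/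
theorem isZero_of_forall_sylow [Finite G] (A : Rep.{u} k G) (n : ℕ) (_hn : 0 < n)
    (h : ∀ (p : ℕ) [Fact p.Prime] (P : Sylow p G),
      IsZero (groupCohomology (res (P : Subgroup G).subtype A) n)) :
    IsZero (groupCohomology A n) :=
  isZero_of_forall_sylow' A n h

/-- Variant of FG1.d: it suffices to check one Sylow subgroup for each prime dividing `|G|`. -/
theorem isZero_of_exists_sylow [Finite G] (A : Rep.{u} k G) (n : ℕ) (hn : 0 < n)
    (h : ∀ (p : ℕ) [Fact p.Prime], p ∣ Nat.card G → ∃ P : Sylow p G,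
      IsZero (groupCohomology (res (P : Subgroup G).subtype A) n)) :
    IsZero (groupCohomology A n) := by
  rw [ModuleCat.isZero_iff_subsingleton]
  refine ⟨fun x y => ?_⟩
  suffices hx : ∀ x : groupCohomology A n, x = 0 by rw [hx x, hx y]
  intro x
  by_contra hx
  have hne : addOrderOf x ≠ 1 := fun h1 => hx (AddMonoid.addOrderOf_eq_one_iff.mp h1)
  obtain ⟨p, hp, hpd⟩ := Nat.exists_prime_and_dvd hne
  have : Fact p.Prime := ⟨hp⟩
  have hpG : p ∣ Nat.card G :=
    hpd.trans (addOrderOf_dvd_of_nsmul_eq_zero (card_nsmul_eq_zero A n hn x))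
  obtain ⟨P, hP⟩ := h p hpG
  obtain ⟨j, c, hjc⟩ := exists_transfer (P : Subgroup G) A n
  have hj : j x = 0 := by
    have := (ModuleCat.isZero_iff_subsingleton.mp hP)
    exact Subsingleton.elim _ _
  have h1 : (P : Subgroup G).index • x = 0 := by
    rw [← hjc x, hj, map_zero]
  exact P.not_dvd_index (hpd.trans (addOrderOf_dvd_of_nsmul_eq_zero h1))

/-- The cohomology `Hⁿ(G, A)`, `n ≥ 1`, of a finite group is a torsion group: every element has
finite order dividing `|G|`. -/
theorem addOrderOf_dvd_card [Finite G] (A : Rep.{u} k G) (n : ℕ) (hn : 0 < n)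
    (x : groupCohomology A n) : addOrderOf x ∣ Nat.card G :=
  addOrderOf_dvd_of_nsmul_eq_zero (card_nsmul_eq_zero A n hn x)

end Fermat.Agent.S55.helper46
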