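import Fermat.Agent.S55.helper46_FG1Strong

/-!
# S55 module FG, package FG2 brick B3: the acyclic embedding `A ↪ A* = Coind_1^G A`

For `A : Rep k G` we build the short exact sequence `fg2SC A : 0 → A → A* → A*/A → 0` with
`A* = Coind_1^G Res_1 A` (all functions `G → A`, `G` acting by right translation) and prove

* `isZero_fg2_mid`      : `Hⁿ⁺¹(G, A*) = 0`;
* `isZero_fg2_mid_res`  : `Hⁿ⁺¹(S, A*) = 0` for every subgroup `S`;
* `isZero_fg2_mid_quot` : `Hⁿ⁺¹(G/S, (A*)^S) = 0` for every normal subgroup `S`;
* `fg2_map_invariants_shortExact` : taking `S`-invariants preserves short exact sequences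
  `0 → X₁ → X₂ → X₃ → 0` with `H¹(S, X₁) = 0`;
* `fg2InfMap` : the morphism of short complexes "inclusion of the invariants" used for the
  naturality of connecting homomorphisms with respect to inflation.

These are the inputs of the dimension shifting proof of inflation-restriction in degrees `≥ 2`.
-/

set_option autoImplicit false

universe u

open CategoryTheory CategoryTheory.Limits groupCohomology Rep

namespace Fermat.Agent.S55.helper46

variable {k G : Type u} [CommRing k] [Group G]

/-- The coinduced module `A* = Coind_1^G Res_1 A` (functions `G → A`). -/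
noncomputable abbrev fg2Star (A : Rep.{u} k G) : Rep.{u} k G :=
  coind (⊥ : Subgroup G).subtype (res (⊥ : Subgroup G).subtype A)

/-- Every function `G → A` is an element of `A*`. -/
def fg2StarMk (A : Rep.{u} k G) (f : G → A) : fg2Star A :=
  ⟨f, fun t h => by
    obtain ⟨t, ht⟩ := t
    obtain rfl : t = 1 := Subgroup.mem_bot.mp ht
    simp⟩

@[simp] theorem fg2StarMk_apply (A : Rep.{u} k G) (f : G → A) (h : G) :
    (fg2StarMk A f).1 h = f h := rfl

theorem fg2Star_ρ_apply (A : Rep.{u} k G) (g : G) (f : fg2Star A) (h : G) :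
    ((fg2Star A).ρ g f).1 h = f.1 (h * g) := rfl

/-- The short complex `0 → A → A* → A*/A → 0`. -/
noncomputable def fg2SC (A : Rep.{u} k G) : ShortComplex (Rep.{u} k G) :=
  ShortComplex.mk (fg1Unit ⊥ A) (cokernel.π (fg1Unit ⊥ A)) (cokernel.condition _)

theorem fg2SC_X₁ (A : Rep.{u} k G) : (fg2SC A).X₁ = A := rfl

theorem fg2SC_X₂ (A : Rep.{u} k G) : (fg2SC A).X₂ = fg2Star A := rfl

theorem fg2SC_f (A : Rep.{u} k G) : (fg2SC A).f = fg1Unit ⊥ A := rfl

theorem fg1Unit_bot_injective (A : Rep.{u} k G) :
    Function.Injective (fg1Unit (⊥ : Subgroup G) A).hom := by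
  intro a b h
  have key : ∀ c : A, ((fg1Unit (⊥ : Subgroup G) A).hom c).1 1 = c := fun c => by
    rw [fg1Unit_apply]; simp
  rw [← key a, ← key b, h]

instance fg2_mono (A : Rep.{u} k G) : Mono (fg1Unit (⊥ : Subgroup G) A) :=
  (Rep.mono_iff_injective _).2 (fg1Unit_bot_injective A)

theorem fg2SC_shortExact (A : Rep.{u} k G) : (fg2SC A).ShortExact :=
  ShortComplex.ShortExact.mk' (ShortComplex.exact_cokernel _) (fg2_mono A)
    (by dsimp [fg2SC]; infer_instance)

theorem isZero_fg2_mid (A : Rep.{u} k G) (n : ℕ) :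
    IsZero (groupCohomology (fg2SC A).X₂ (n + 1)) :=
  (isZero_groupCohomology_succ_of_subsingleton _ n).of_iso (coindIso _ (n + 1))

section Res

variable (S : Subgroup G)

/-- The `S`-component of `h = out(hS) * s`. -/
noncomputable def fg2Sec (h : G) : S :=
  ⟨(Quotient.out (h : G ⧸ S))⁻¹ * h, by
    rw [← QuotientGroup.eq]; exact QuotientGroup.out_eq' _⟩

theorem fg2_out_mul_sec (h : G) : Quotient.out (h : G ⧸ S) * (fg2Sec S h : G) = h := by
  simp [fg2Sec]

theorem fg2_mk_out_mul (c : G ⧸ S) (s : S) : ((Quotient.out c * (s : G) : G) : G ⧸ S) = c := by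
  rw [QuotientGroup.mk_mul_of_mem _ s.2]
  exact QuotientGroup.out_eq' c

theorem fg2Sec_out_mul (c : G ⧸ S) (s : S) : fg2Sec S (Quotient.out c * (s : G)) = s := by
  apply Subtype.ext
  simp only [fg2Sec]
  rw [fg2_mk_out_mul]
  simp

/-- The coefficient module `(G ⧸ S → A)` with trivial action of the trivial group. -/
noncomputable abbrev fg2ResCoeff (A : Rep.{u} k G) : Rep.{u} k (⊥ : Subgroup S) :=
  Rep.trivial k (⊥ : Subgroup S) ((G ⧸ S) → A)

/-- `Res_S (Coind_1^G A) ≃ Coind_1^S (G/S → A)` as `k`-modules. -/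
noncomputable def fg2ResLinearEquiv (A : Rep.{u} k G) :
    (fg2Star A) ≃ₗ[k] (coind (⊥ : Subgroup S).subtype (fg2ResCoeff S A)) where
  toFun f := ⟨fun s c => f.1 (Quotient.out c * (s : G)), fun t s => by
    obtain ⟨t, ht⟩ := t
    obtain rfl : t = 1 := Subgroup.mem_bot.mp ht
    simp⟩
  map_add' f g := by
    apply Subtype.ext
    funext s c
    rfl
  map_smul' r f := by
    apply Subtype.ext
    funext s c
    rfl
  invFun F := fg2StarMk A (fun h => F.1 (fg2Sec S h) (h : G ⧸ S))
  left_inv f := by
    apply Subtype.ext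
    funext h
    simp only [fg2StarMk_apply]
    rw [fg2_out_mul_sec]
  right_inv F := by
    apply Subtype.ext
    funext s c
    simp only [fg2StarMk_apply]
    rw [fg2Sec_out_mul, fg2_mk_out_mul]

/-- `Res_S (Coind_1^G A) ≅ Coind_1^S (G/S → A)` as `S`-representations. -/
noncomputable def fg2ResIso (A : Rep.{u} k G) :
    res S.subtype (fg2Star A) ≅ coind (⊥ : Subgroup S).subtype (fg2ResCoeff S A) :=
  Rep.mkIso <| .mk (fg2ResLinearEquiv S A) fun t => by
    ext f s c
    change f.1 (Quotient.out c * (s : G) * (t : G)) = f.1 (Quotient.out c * ((s * t : S) : G))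
    simp [mul_assoc]

theorem fg2_isZero_coind_bot (B : Rep.{u} k (⊥ : Subgroup G)) (n : ℕ) :
    IsZero (groupCohomology (coind (⊥ : Subgroup G).subtype B) (n + 1)) :=
  (isZero_groupCohomology_succ_of_subsingleton B n).of_iso (coindIso B (n + 1))

/-- `A*` is acyclic for every subgroup. -/
theorem isZero_fg2Star_res (A : Rep.{u} k G) (n : ℕ) :
    IsZero (groupCohomology (res S.subtype (fg2Star A)) (n + 1)) :=
  (fg2_isZero_coind_bot (fg2ResCoeff S A) n).of_iso
    ((groupCohomology.functor k S (n + 1)).mapIso (fg2ResIso S A))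

end Res

section Quot

variable (S : Subgroup G) [S.Normal]

omit [S.Normal] in
/-- An `S`-invariant element of `A*` is constant on left cosets of `S`. -/
theorem fg2_inv_const (A : Rep.{u} k G)
    (f : Representation.invariants ((fg2Star A).ρ.comp S.subtype)) {h h' : G}
    (hh : (h : G ⧸ S) = (h' : G ⧸ S)) : f.1.1 h = f.1.1 h' := by
  have hs : h⁻¹ * h' ∈ S := QuotientGroup.eq.mp hh
  have := congrArg (fun φ : fg2Star A => φ.1 h) (f.2 ⟨h⁻¹ * h', hs⟩)
  simp only [MonoidHom.comp_apply, Subgroup.coe_subtype] at this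
  rw [fg2Star_ρ_apply] at this
  simpa using this.symm

/-- The coefficient module `A` with trivial action of the trivial subgroup of `G ⧸ S`. -/
noncomputable abbrev fg2QuotCoeff (A : Rep.{u} k G) : Rep.{u} k (⊥ : Subgroup (G ⧸ S)) :=
  Rep.trivial k (⊥ : Subgroup (G ⧸ S)) A

/-- `(Coind_1^G A)^S ≃ Coind_1^{G/S} A` as `k`-modules. -/
noncomputable def fg2QuotLinearEquiv (A : Rep.{u} k G) :
    (Representation.invariants ((fg2Star A).ρ.comp S.subtype)) ≃ₗ[k]
      (coind (⊥ : Subgroup (G ⧸ S)).subtype (fg2QuotCoeff S A)) where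
  toFun f := ⟨fun c => f.1.1 (Quotient.out c), fun t s => by
    obtain ⟨t, ht⟩ := t
    obtain rfl : t = 1 := Subgroup.mem_bot.mp ht
    simp⟩
  map_add' f g := by
    apply Subtype.ext
    funext c
    rfl
  map_smul' r f := by
    apply Subtype.ext
    funext c
    rfl
  invFun F := ⟨fg2StarMk A (fun h => F.1 (h : G ⧸ S)), fun s => by
    apply Subtype.ext
    funext h
    change F.1 ((h * (s : G) : G) : G ⧸ S) = F.1 (h : G ⧸ S)
    rw [QuotientGroup.mk_mul_of_mem _ s.2]⟩
  left_inv f := by
    apply Subtype.ext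
    apply Subtype.ext
    funext h
    exact fg2_inv_const S A f (QuotientGroup.out_eq' _)
  right_inv F := by
    apply Subtype.ext
    funext c
    change F.1 ((Quotient.out c : G) : G ⧸ S) = F.1 c
    rw [QuotientGroup.out_eq']

/-- `(Coind_1^G A)^S ≅ Coind_1^{G/S} A` as `G ⧸ S`-representations. -/
noncomputable def fg2QuotIso (A : Rep.{u} k G) :
    (fg2Star A).quotientToInvariants S ≅
      coind (⊥ : Subgroup (G ⧸ S)).subtype (fg2QuotCoeff S A) :=
  Rep.mkIso <| .mk (fg2QuotLinearEquiv S A) fun t => by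
    induction t using QuotientGroup.induction_on with | H g =>
    ext f c
    change f.1.1 (Quotient.out c * g) = f.1.1 (Quotient.out (c * (g : G ⧸ S)))
    apply fg2_inv_const S A f
    rw [QuotientGroup.out_eq', QuotientGroup.mk_mul, QuotientGroup.out_eq']

/-- `(A*)^S` is acyclic for `G ⧸ S`. -/
theorem isZero_fg2Star_quot (A : Rep.{u} k G) (n : ℕ) :
    IsZero (groupCohomology ((fg2Star A).quotientToInvariants S) (n + 1)) :=
  (fg2_isZero_coind_bot (fg2QuotCoeff S A) n).of_iso
    ((groupCohomology.functor k (G ⧸ S) (n + 1)).mapIso (fg2QuotIso S A))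

end Quot

section Invariants

/-- A short complex of representations is short exact as soon as the underlying maps form a
short exact sequence. -/
theorem fg2_shortExact_of_function_exact (X : ShortComplex (Rep.{u} k G))
    (hf : Function.Injective X.f.hom) (hg : Function.Surjective X.g.hom)
    (hex : Function.Exact X.f.hom X.g.hom) : X.ShortExact where
  exact := by
    rw [← ShortComplex.exact_map_iff_of_faithful X (forget₂ (Rep k G) (ModuleCat k)),
      ShortComplex.ShortExact.moduleCat_exact_iff_function_exact]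
    exact hex
  mono_f := (Rep.mono_iff_injective _).2 hf
  epi_g := (Rep.epi_iff_surjective _).2 hg

theorem fg2_function_exact_of_shortExact {X : ShortComplex (Rep.{u} k G)}
    (hX : X.ShortExact) : Function.Exact X.f.hom X.g.hom := by
  have := hX.exact
  rw [← ShortComplex.exact_map_iff_of_faithful X (forget₂ (Rep k G) (ModuleCat k)),
      ShortComplex.ShortExact.moduleCat_exact_iff_function_exact] at this
  exact this

variable (S : Subgroup G) [S.Normal]

instance fg2_quotInv_preservesZeroMorphisms :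
    (quotientToInvariantsFunctor.{u} k S).PreservesZeroMorphisms where
  map_zero _ _ := rfl

instance fg2_quotInv_additive : (quotientToInvariantsFunctor.{u} k S).Additive where
  map_add := rfl

theorem fg2_quotInv_map_apply {A B : Rep.{u} k G} (f : A ⟶ B)
    (x : A.quotientToInvariants S) :
    (((quotientToInvariantsFunctor k S).map f).hom x).1 = f.hom x.1 := rfl

omit [S.Normal] in
/-- Vanishing of `H¹(S, A)` in cocycle form. -/
theorem fg2_exists_of_isZero_H1 (A : Rep.{u} k G)
    (h1 : IsZero (groupCohomology (res S.subtype A) 1))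
    (c : S → A) (hc : ∀ s t : S, c (s * t) = A.ρ s (c t) + c s) :
    ∃ a : A, ∀ s : S, c s = A.ρ s a - a := by
  have hmem : c ∈ cocycles₁ (res S.subtype A) := by
    rw [mem_cocycles₁_def]
    intro s t
    rw [hc s t]
    simp only [MonoidHom.comp_apply, Subgroup.coe_subtype]
    abel
  have hz : H1π (res S.subtype A) ⟨c, hmem⟩ = 0 := by
    have := (ModuleCat.isZero_iff_subsingleton.mp h1)
    exact Subsingleton.elim _ _
  rw [H1π_eq_zero_iff] at hz
  obtain ⟨a, ha⟩ := hz
  refine ⟨a, fun s => ?_⟩
  exact (congrFun ha s).symm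

/-- Taking `S`-invariants preserves short exact sequences `0 → X₁ → X₂ → X₃ → 0` with
`H¹(S, X₁) = 0`. -/
theorem fg2_map_invariants_shortExact (X : ShortComplex (Rep.{u} k G)) (hX : X.ShortExact)
    (h1 : IsZero (groupCohomology (res S.subtype X.X₁) 1)) :
    (X.map (quotientToInvariantsFunctor k S)).ShortExact := by
  have hinj : Function.Injective X.f.hom := (Rep.mono_iff_injective _).1 hX.mono_f
  have hsurj : Function.Surjective X.g.hom := (Rep.epi_iff_surjective _).1 hX.epi_g
  have hex : Function.Exact X.f.hom X.g.hom := fg2_function_exact_of_shortExact hX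
  refine fg2_shortExact_of_function_exact _ ?_ ?_ ?_
  · intro x y hxy
    apply Subtype.ext
    apply hinj
    exact congrArg Subtype.val hxy
  · intro z
    obtain ⟨b, hb⟩ := hsurj z.1
    have hz : ∀ s : S, X.X₃.ρ s z.1 = z.1 := fun s => z.2 s
    have h2 : ∀ s : S, ∃ a : X.X₁, X.f.hom a = X.X₂.ρ s b - b := by
      intro s
      apply (hex _).1
      rw [map_sub, hom_comm_apply, hb, hz s, sub_self]
    choose c hc using h2
    obtain ⟨a, ha⟩ := fg2_exists_of_isZero_H1 S X.X₁ h1 c (fun s t => by
      apply hinj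
      rw [hc, map_add, hom_comm_apply, hc, hc]
      simp only [Subgroup.coe_mul, map_mul, Module.End.mul_apply, map_sub]
      abel)
    refine ⟨⟨b - X.f.hom a, fun s => ?_⟩, ?_⟩
    · change X.X₂.ρ s (b - X.f.hom a) = b - X.f.hom a
      have h3 := hc s
      rw [ha s, map_sub, hom_comm_apply] at h3
      rw [map_sub]
      have : X.X₂.ρ s b - b = X.X₂.ρ s (X.f.hom a) - X.f.hom a := h3.symm
      exact sub_eq_sub_iff_sub_eq_sub.mp this
    · apply Subtype.ext
      change X.g.hom (b - X.f.hom a) = z.1
      rw [map_sub, hb, (hex _).2 ⟨a, rfl⟩, sub_zero]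
  · intro y
    constructor
    · intro hy
      have hy' : X.g.hom y.1 = 0 := congrArg Subtype.val hy
      obtain ⟨a, ha⟩ := (hex _).1 hy'
      refine ⟨⟨a, fun s => ?_⟩, Subtype.ext ha⟩
      apply hinj
      change X.f.hom (X.X₁.ρ s a) = X.f.hom a
      rw [hom_comm_apply, ha]
      exact y.2 s
    · rintro ⟨x, rfl⟩
      apply Subtype.ext
      change X.g.hom (X.f.hom x.1) = 0
      exact (hex _).2 ⟨x.1, rfl⟩

end Invariants


section Deliverables

variable (S : Subgroup G)

/-- `A*` is acyclic for every subgroup (statement in terms of `fg2SC`). -/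
theorem isZero_fg2_mid_res (A : Rep.{u} k G) (n : ℕ) :
    IsZero (groupCohomology (res S.subtype (fg2SC A).X₂) (n + 1)) :=
  isZero_fg2Star_res S A n

variable [S.Normal]

/-- `(A*)^S` is acyclic for `G ⧸ S` (statement in terms of `fg2SC`). -/
theorem isZero_fg2_mid_quot (A : Rep.{u} k G) (n : ℕ) :
    IsZero (groupCohomology ((fg2SC A).X₂.quotientToInvariants S) (n + 1)) :=
  isZero_fg2Star_quot S A n

/-- The sequence of invariants of `fg2SC A` is short exact when `H¹(S, A) = 0`. -/
theorem fg2_invariants_shortExact (A : Rep.{u} k G)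
    (h1 : IsZero (groupCohomology (res S.subtype A) 1)) :
    ((fg2SC A).map (quotientToInvariantsFunctor k S)).ShortExact :=
  fg2_map_invariants_shortExact S (fg2SC A) (fg2SC_shortExact A) h1

/-- The inclusion of invariants `Res_{G → G/S} (A^S) ⟶ A`. -/
noncomputable abbrev fg2InfHom (A : Rep.{u} k G) :
    res (QuotientGroup.mk' S) (A.quotientToInvariants S) ⟶ A :=
  ofHom <| A.ρ.quotientToInvariants_lift S

/-- The morphism of short complexes given by the inclusions of the invariants. -/
noncomputable def fg2InfMap (X : ShortComplex (Rep.{u} k G)) :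
    (X.map (quotientToInvariantsFunctor k S)).map (resFunctor (QuotientGroup.mk' S)) ⟶ X where
  τ₁ := fg2InfHom S X.X₁
  τ₂ := fg2InfHom S X.X₂
  τ₃ := fg2InfHom S X.X₃
  comm₁₂ := by ext x; rfl
  comm₂₃ := by ext x; rfl

end Deliverables

end Fermat.Agent.S55.helper46
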