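import Fermat.Agent.S55.helper46_FG1Strong
import Fermat.Agent.S55.helper46_FG7H3

/-!
# S55 FG8 (helper46): recognition of coinduced modules, Shapiro's lemma in all degrees

`S ≤ G`, `A : Rep k G`, `B : Rep k S`, `π : Res_S A ⟶ B` such that `a ↦ (g ↦ π (g • a))` is a
bijection of `A` onto `Coind_S^G B` (`IsShapiro π`; e.g. `A = ∏_{i ∈ G/S} B_i` a semilocal
module, `π` the projection onto one factor).  Then `res` followed by `π` is an isomorphism
`Hⁿ(G, A) ≅ Hⁿ(S, B)` for every `n`, with explicit cocycle forms in degrees `1, 2, 3`.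
-/

set_option autoImplicit false

universe u

open CategoryTheory CategoryTheory.Limits groupCohomology Rep

noncomputable section

namespace Fermat.Agent.S55.helper46

variable {k G : Type u} [CommRing k] [Group G] {S : Subgroup G}
  {A : Rep.{u} k G} {B : Rep.{u} k S}

/-- The adjoint `A ⟶ Coind_S^G B` of `π : Res_S A ⟶ B`, `a ↦ (g ↦ π (g • a))`. -/
def fg8Adj (π : res S.subtype A ⟶ B) : A ⟶ coind S.subtype B :=
  resCoindHomEquiv S.subtype A B π

theorem fg8Adj_apply (π : res S.subtype A ⟶ B) (a : A) (g : G) :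
    ((fg8Adj π).hom a).1 g = π.hom (A.ρ g a) := rfl

/-- `π : Res_S A ⟶ B` exhibits `A` as the coinduced module of `B`. -/
structure IsShapiro (π : res S.subtype A ⟶ B) : Prop where
  inj : ∀ a : A, (∀ g : G, π.hom (A.ρ g a) = 0) → a = 0
  surj : ∀ f : G → B, (∀ (s : S) (g : G), f (s * g) = B.ρ s (f g)) →
    ∃ a : A, ∀ g, π.hom (A.ρ g a) = f g

variable {π : res S.subtype A ⟶ B}

theorem IsShapiro.bijective (h : IsShapiro π) : Function.Bijective (fg8Adj π).hom := by
  constructor
  · rw [injective_iff_map_eq_zero]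
    intro a ha
    refine h.inj a fun g => ?_
    rw [← fg8Adj_apply, ha]
    rfl
  · intro f
    obtain ⟨a, ha⟩ := h.surj f.1 (fun s g => f.2 s g)
    exact ⟨a, Subtype.ext (funext ha)⟩

/-- `A ≅ Coind_S^G B`. -/
def IsShapiro.iso (h : IsShapiro π) : A ≅ coind S.subtype B :=
  Rep.mkIso <| .mk (LinearEquiv.ofBijective (fg8Adj π).hom.toLinearMap h.bijective) fun g => by
    ext a : 1
    exact hom_comm_apply (fg8Adj π) g a

theorem IsShapiro.iso_hom (h : IsShapiro π) : h.iso.hom = fg8Adj π := rfl

/-! ## Shapiro's lemma for a recognised coinduced module -/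

/-- `res` followed by `π` factors through Shapiro's isomorphism. -/
theorem fg8_map_eq (π : res S.subtype A ⟶ B) (n : ℕ) :
    groupCohomology.map S.subtype π n =
      groupCohomology.map (MonoidHom.id G) (fg8Adj π) n ≫ (coindIso B n).hom := by
  rw [fg1_coindIso_hom, ← groupCohomology.map_comp]
  refine groupCohomology.map_congr rfl ?_ n
  ext a
  change π.hom a = π.hom (A.ρ 1 a)
  rw [map_one, Module.End.one_apply]

/-- **Shapiro's lemma, recognised form**: `Hⁿ(G, A) ≅ Hⁿ(S, B)`. -/
def IsShapiro.cohIso (h : IsShapiro π) (n : ℕ) : groupCohomology A n ≅ groupCohomology B n :=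
  (groupCohomology.functor k G n).mapIso h.iso ≪≫ coindIso B n

theorem IsShapiro.cohIso_hom (h : IsShapiro π) (n : ℕ) :
    (h.cohIso n).hom = groupCohomology.map S.subtype π n := by
  rw [fg8_map_eq]
  rfl

theorem IsShapiro.isIso_map (h : IsShapiro π) (n : ℕ) :
    IsIso (groupCohomology.map S.subtype π n) := by
  rw [← h.cohIso_hom n]
  infer_instance

theorem IsShapiro.map_bijective (h : IsShapiro π) (n : ℕ) :
    Function.Bijective (groupCohomology.map S.subtype π n) := by
  rw [← h.cohIso_hom n]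
  exact ConcreteCategory.bijective_of_isIso (h.cohIso n).hom

theorem IsShapiro.map_injective (h : IsShapiro π) (n : ℕ) :
    Function.Injective (groupCohomology.map S.subtype π n) := (h.map_bijective n).1

theorem IsShapiro.map_surjective (h : IsShapiro π) (n : ℕ) :
    Function.Surjective (groupCohomology.map S.subtype π n) := (h.map_bijective n).2

theorem IsShapiro.isZero_iff (h : IsShapiro π) (n : ℕ) :
    IsZero (groupCohomology A n) ↔ IsZero (groupCohomology B n) :=
  (h.cohIso n).isZero_iff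

/-! ## Explicit cocycle forms -/

/-- degree 1: a 1-cocycle of `G` in `A` whose restriction-projection is a coboundary is a
coboundary -/
theorem IsShapiro.exists_d₀₁ (h : IsShapiro π) (f : G → A) (hf : (d₁₂ A).hom f = 0)
    (hb : ∃ b : B, (d₀₁ B).hom b = fun s : S => π.hom (f s)) :
    ∃ a : A, (d₀₁ A).hom a = f := by
  have hz : groupCohomology.map S.subtype π 1 (H1π A ⟨f, hf⟩) = 0 := by
    rw [H1π_comp_map_apply, H1π_eq_zero_iff]
    exact hb
  have := h.map_injective 1 (hz.trans (map_zero _).symm)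
  exact (H1π_eq_zero_iff _).1 this

/-- degree 2 -/
theorem IsShapiro.exists_d₁₂ (h : IsShapiro π) (f : G × G → A) (hf : (d₂₃ A).hom f = 0)
    (hb : ∃ b : S → B, (d₁₂ B).hom b = fun s : S × S => π.hom (f (s.1, s.2))) :
    ∃ a : G → A, (d₁₂ A).hom a = f := by
  have hz : groupCohomology.map S.subtype π 2 (H2π A ⟨f, hf⟩) = 0 := by
    rw [H2π_comp_map_apply, H2π_eq_zero_iff]
    exact hb
  have := h.map_injective 2 (hz.trans (map_zero _).symm)
  exact (H2π_eq_zero_iff _).1 this

/-- degree 3 -/
theorem IsShapiro.exists_d₂₃ (h : IsShapiro π) (f : G × G × G → A) (hf : d₃₄ A f = 0)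
    (hb : ∃ b : S × S → B,
      (d₂₃ B).hom b = fun s : S × S × S => π.hom (f (s.1, s.2.1, s.2.2))) :
    ∃ a : G × G → A, (d₂₃ A).hom a = f := by
  have hz : groupCohomology.map S.subtype π 3 (H3π A ⟨f, hf⟩) = 0 := by
    rw [H3π_map_apply, H3π_eq_zero_iff]
    exact hb
  have := h.map_injective 3 (hz.trans (map_zero _).symm)
  exact (H3π_eq_zero_iff _).1 this

/-! ## Recognition by a transversal -/

/-- Recognition criterion: if the `t i` represent all right cosets of `S` in `G`
(`G = ⋃ S * t i`) and `a ↦ (π (t i • a))_i` is a bijection `A → (ι → B)`, then `π` is a Shapiro projection. -/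
theorem IsShapiro.of_transversal {ι : Type*} (t : ι → G)
    (ht : ∀ g : G, ∃ i : ι, ∃ s : S, g = s * t i)
    (hinj : ∀ a : A, (∀ i, π.hom (A.ρ (t i) a) = 0) → a = 0)
    (hsurj : ∀ b : ι → B, ∃ a : A, ∀ i, π.hom (A.ρ (t i) a) = b i) :
    IsShapiro π where
  inj a ha := hinj a fun i => ha (t i)
  surj f hf := by
    obtain ⟨a, ha⟩ := hsurj fun i => f (t i)
    refine ⟨a, fun g => ?_⟩
    obtain ⟨i, s, rfl⟩ := ht g
    rw [hf, ← ha i, map_mul, Module.End.mul_apply]
    exact hom_comm_apply π s (A.ρ (t i) a)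

end Fermat.Agent.S55.helper46
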