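import Fermat.Agent.S55.helper59_BDefs2
import Fermat.Agent.S55.helper69_BArLev

/-!
# S55 module B, package B-AR-LOC (helper49, task 361)

The local fields `inv`, (I1), (I2), `loc_fin` of `helper59.BaseInput` for an arithmetic local
datum, by transport of `helper8.LocalDuality` along the isomorphisms
`hL.locEquiv w : U_w ≃* Gal(Ω/K_w)`.

* `exists_local_inv_of_dic` : the statement `exists_local_inv` of `helper59_BInterface2`, with the
  local level dictionary (`isLev₁_loc_iff`, `isLev₂_loc_iff`, task B-AR-DIC-L) as explicit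
  hypotheses.
-/

set_option autoImplicit false

open groupCohomology ExtCitation
open scoped NumberField

noncomputable section

namespace Fermat.Agent.S55.helper49

open Fermat.Agent.S55 Fermat.Agent.S55.helper59

/-! ## Transport of cochains with trivial coefficients along a group isomorphism -/

section Transport

variable {k : Type} [Field k] {H H' : Type} [Group H] [Group H'] (e : H ≃* H')

/-- pull-back of 1-cochains along `e.symm` -/
def bl_pull₁ : (H → k) ≃ₗ[k] (H' → k) := LinearEquiv.funCongrLeft k k e.symm.toEquiv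

/-- pull-back of 2-cochains along `e.symm` -/
def bl_pull₂ : (H × H → k) ≃ₗ[k] (H' × H' → k) :=
  LinearEquiv.funCongrLeft k k (Equiv.prodCongr e.symm.toEquiv e.symm.toEquiv)

@[simp] lemma bl_pull₁_apply (x : H → k) (g : H') : bl_pull₁ e x g = x (e.symm g) := rfl
@[simp] lemma bl_pull₂_apply (c : H × H → k) (g : H' × H') :
    bl_pull₂ e c g = c (e.symm g.1, e.symm g.2) := rfl

lemma bl_d₁₂_pull (x : H → k) :
    (d₁₂ (T k H')).hom (bl_pull₁ e x) = bl_pull₂ e ((d₁₂ (T k H)).hom x) := by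
  funext g
  change (T k H').ρ g.1 (x (e.symm g.2)) - x (e.symm (g.1 * g.2)) + x (e.symm g.1)
    = (T k H).ρ (e.symm g.1) (x (e.symm g.2)) - x (e.symm g.1 * e.symm g.2) + x (e.symm g.1)
  rw [map_mul]
  rfl

lemma bl_d₂₃_pull (c : H × H → k) (g : H' × H' × H') :
    (d₂₃ (T k H')).hom (bl_pull₂ e c) g
      = (d₂₃ (T k H)).hom c (e.symm g.1, e.symm g.2.1, e.symm g.2.2) := by
  change (T k H').ρ g.1 (c (e.symm g.2.1, e.symm g.2.2)) - c (e.symm (g.1 * g.2.1), e.symm g.2.2)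
      + c (e.symm g.1, e.symm (g.2.1 * g.2.2)) - c (e.symm g.1, e.symm g.2.1)
    = (T k H).ρ (e.symm g.1) (c (e.symm g.2.1, e.symm g.2.2))
      - c (e.symm g.1 * e.symm g.2.1, e.symm g.2.2)
      + c (e.symm g.1, e.symm g.2.1 * e.symm g.2.2) - c (e.symm g.1, e.symm g.2.1)
  rw [map_mul, map_mul]
  rfl

variable {𝒩 : Levels H} {𝒩' : Levels H'}

section dic

variable (hd₁ : ∀ f : H' → k, IsLev₁ 𝒩 (fun s => f (e s)) ↔ IsLev₁ 𝒩' f)
  (hd₂ : ∀ f : H' × H' → k, IsLev₂ 𝒩 (fun s => f (e s.1, e s.2)) ↔ IsLev₂ 𝒩' f)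

include hd₁ in
lemma bl_mem_C1_iff (x : H → k) : bl_pull₁ e x ∈ C1 𝒩' (T k H') ↔ x ∈ C1 𝒩 (T k H) := by
  rw [mem_C1, mem_C1, ← hd₁]
  have h : (fun s => bl_pull₁ e x (e s)) = x := by
    funext s
    simp
  rw [h]

include hd₂ in
lemma bl_mem_C2_iff (c : H × H → k) : bl_pull₂ e c ∈ C2 𝒩' (T k H') ↔ c ∈ C2 𝒩 (T k H) := by
  rw [mem_C2, mem_C2, ← hd₂]
  have h : (fun s : H × H => bl_pull₂ e c (e s.1, e s.2)) = c := by
    funext s
    simp
  rw [h]

include hd₁ in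
lemma bl_mem_Z1_iff (x : H → k) : bl_pull₁ e x ∈ Z1 𝒩' (T k H') ↔ x ∈ Z1 𝒩 (T k H) := by
  change (bl_pull₁ e x ∈ C1 𝒩' (T k H') ∧ (d₁₂ (T k H')).hom (bl_pull₁ e x) = 0) ↔
    (x ∈ C1 𝒩 (T k H) ∧ (d₁₂ (T k H)).hom x = 0)
  rw [bl_mem_C1_iff e hd₁, bl_d₁₂_pull, LinearEquiv.map_eq_zero_iff]

include hd₂ in
lemma bl_mem_Z2_iff (c : H × H → k) : bl_pull₂ e c ∈ Z2 𝒩' (T k H') ↔ c ∈ Z2 𝒩 (T k H) := by
  change (bl_pull₂ e c ∈ C2 𝒩' (T k H') ∧ (d₂₃ (T k H')).hom (bl_pull₂ e c) = 0) ↔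
    (c ∈ C2 𝒩 (T k H) ∧ (d₂₃ (T k H)).hom c = 0)
  rw [bl_mem_C2_iff e hd₂]
  refine and_congr Iff.rfl ⟨fun h => ?_, fun h => ?_⟩
  · funext g
    have h1 := bl_d₂₃_pull e c (e g.1, e g.2.1, e g.2.2)
    simp only [MulEquiv.symm_apply_apply] at h1
    change (d₂₃ (T k H)).hom c (g.1, g.2.1, g.2.2) = 0
    rw [← h1, h]
    rfl
  · funext g
    rw [bl_d₂₃_pull, h]
    rfl

include hd₁ in
lemma bl_mem_B2_iff (c : H × H → k) : bl_pull₂ e c ∈ B2 𝒩' (T k H') ↔ c ∈ B2 𝒩 (T k H) := by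
  constructor
  · rintro ⟨a', ha', h⟩
    refine ⟨(bl_pull₁ e).symm a', ?_, ?_⟩
    · rw [SetLike.mem_coe, ← bl_mem_C1_iff e hd₁, LinearEquiv.apply_symm_apply]
      exact ha'
    · apply (bl_pull₂ e).injective
      rw [← bl_d₁₂_pull, LinearEquiv.apply_symm_apply]
      exact h
  · rintro ⟨a, ha, rfl⟩
    exact ⟨bl_pull₁ e a, (bl_mem_C1_iff e hd₁ a).mpr ha, bl_d₁₂_pull e a⟩

include hd₁ in
lemma bl_map_Z1 :
    (Z1 𝒩 (T k H)).map ((bl_pull₁ (k := k) e : (H → k) ≃ₗ[k] (H' → k)) : (H → k) →ₗ[k] (H' → k))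
      = Z1 𝒩' (T k H') := by
  ext x'
  constructor
  · rintro ⟨x, hx, rfl⟩
    exact (bl_mem_Z1_iff e hd₁ x).mpr hx
  · intro hx'
    refine ⟨(bl_pull₁ e).symm x', ?_, LinearEquiv.apply_symm_apply _ _⟩
    rw [SetLike.mem_coe, ← bl_mem_Z1_iff e hd₁, LinearEquiv.apply_symm_apply]
    exact hx'

end dic

end Transport

/-! ## The local fields of `BaseInput` -/

section Main

local instance bl_factOfPrimes (q : Nat.Primes) : Fact (q : ℕ).Prime := ⟨q.2⟩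

local notation "Qbar" => AlgebraicClosure ℚ

variable {p : ℕ} [Fact p.Prime] {S : Finset Nat.Primes} {F : IntermediateField ℚ Qbar}
  [FiniteDimensional ℚ F] {𝒩 : Levels (UF F)} {ι : Type} [Fintype ι]
  {L : LocalData (UF F) 𝒩 ι}

omit [Fact (Nat.Prime p)] [FiniteDimensional ℚ ↥F] [Fintype ι] in
lemma bl_isPrimitiveRoot_locUnit (hL : IsArith S F L) (w : ι) (ζ : (↥F)ˣ)
    (hζ : IsPrimitiveRoot ζ p) : IsPrimitiveRoot (hL.locUnit w ζ) p := by
  refine hζ.map_of_injective (f := Units.map (hL.locEmb w : ↥F →* ↥(hL.Kw w))) ?_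
  exact Units.map_injective (RingHom.injective (hL.locEmb w))

omit [Fintype ι] in
/-- B-AR-LOC with the local level dictionary as hypotheses. -/
theorem exists_local_inv_of_dic (hL : IsArith S F L) (Inv : helper11.LocInv)
    (hLD : HypLocalDuality Inv p) (ζ : (↥F)ˣ) (hζ : IsPrimitiveRoot ζ p)
    (hd₁ : ∀ (w : ι)
      (f : (PadicAlgCl (hL.q w : ℕ) ≃ₐ[hL.Kw w] PadicAlgCl (hL.q w : ℕ)) → ZMod p),
      IsLev₁ (L.lev w) (fun s => f (hL.locEquiv w s)) ↔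
        IsLev₁ (helper8.galLevels (hL.Kw w) (PadicAlgCl (hL.q w : ℕ))) f)
    (hd₂ : ∀ (w : ι)
      (f : (PadicAlgCl (hL.q w : ℕ) ≃ₐ[hL.Kw w] PadicAlgCl (hL.q w : ℕ)) ×
        (PadicAlgCl (hL.q w : ℕ) ≃ₐ[hL.Kw w] PadicAlgCl (hL.q w : ℕ)) → ZMod p),
      IsLev₂ (L.lev w) (fun s => f (hL.locEquiv w s.1, hL.locEquiv w s.2)) ↔
        IsLev₂ (helper8.galLevels (hL.Kw w) (PadicAlgCl (hL.q w : ℕ))) f) :
    ∃ inv : ∀ w : ι, (L.Gv w × L.Gv w → ZMod p) →ₗ[ZMod p] ZMod p,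
      InvCompat Inv ζ hL inv ∧
      (∀ w, ∀ c ∈ Z2 (L.lev w) (T (ZMod p) (L.Gv w)),
        inv w c = 0 ↔ c ∈ B2 (L.lev w) (T (ZMod p) (L.Gv w))) ∧
      (∀ w, ∃ c ∈ Z2 (L.lev w) (T (ZMod p) (L.Gv w)), inv w c ≠ 0) ∧
      (∀ w, ∀ x ∈ Z1 (L.lev w) (T (ZMod p) (L.Gv w)),
        (∀ y ∈ Z1 (L.lev w) (T (ZMod p) (L.Gv w)), inv w (cup₁₁ x y) = 0) → x = 0) ∧
      (∀ w, Module.Finite (ZMod p) ↥(Z1 (L.lev w) (T (ZMod p) (L.Gv w)))) := by
  classical
  have hfd : ∀ w, FiniteDimensional ℚ_[((hL.q w : ℕ))] (hL.Kw w) :=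
    fun w => hL.finiteDimensional_Kw w
  have hac : ∀ w, IsAlgClosure (hL.Kw w) (PadicAlgCl (hL.q w : ℕ)) := fun w =>
    ⟨inferInstance, Algebra.IsAlgebraic.tower_top (K := ℚ_[((hL.q w : ℕ))]) _⟩
  let D : ∀ w, helper8.LocalDuality Inv (hL.q w : ℕ) p (hL.Kw w) (PadicAlgCl (hL.q w : ℕ))
      (hL.locUnit w ζ) := fun w =>
    haveI := hfd w
    haveI := hac w
    (hLD (hL.q w : ℕ) (hL.Kw w) (PadicAlgCl (hL.q w : ℕ)) (hL.locUnit w ζ)
      (bl_isPrimitiveRoot_locUnit hL w ζ hζ)).some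
  refine ⟨fun w => (D w).inv ∘ₗ (bl_pull₂ (hL.locEquiv w)).toLinearMap, ?_, ?_, ?_, ?_, ?_⟩
  · -- `InvCompat`
    intro w M _ _ c hc
    have hkey : bl_pull₂ (hL.locEquiv w) (infl₂ (hL.locRes w M) c)
        = fun g => c (AlgEquiv.restrictNormalHom M g.1, AlgEquiv.restrictNormalHom M g.2) := by
      funext g
      change c (hL.locRes w M ((hL.locEquiv w).symm g.1),
          hL.locRes w M ((hL.locEquiv w).symm g.2))
        = c (AlgEquiv.restrictNormalHom M g.1, AlgEquiv.restrictNormalHom M g.2)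
      rw [hL.locRes_eq, hL.locRes_eq, MulEquiv.apply_symm_apply, MulEquiv.apply_symm_apply]
    have h := (D w).inv_spec M c hc
    rw [← hkey] at h
    exact h
  · -- (I1) injectivity
    intro w c hc
    have h := (D w).inv_eq_zero_iff (bl_pull₂ (hL.locEquiv w) c)
      ((bl_mem_Z2_iff (hL.locEquiv w) (hd₂ w) c).mpr hc)
    rw [bl_mem_B2_iff (hL.locEquiv w) (hd₁ w)] at h
    exact h
  · -- (I1) non-vanishing
    intro w
    obtain ⟨c', hc', hne⟩ := (D w).inv_ne_zero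
    refine ⟨(bl_pull₂ (hL.locEquiv w)).symm c', ?_, ?_⟩
    · rw [← bl_mem_Z2_iff (hL.locEquiv w) (hd₂ w), LinearEquiv.apply_symm_apply]
      exact hc'
    · change (D w).inv (bl_pull₂ (hL.locEquiv w) ((bl_pull₂ (hL.locEquiv w)).symm c')) ≠ 0
      rw [LinearEquiv.apply_symm_apply]
      exact hne
  · -- (I2) local duality
    intro w x hx hxy
    have hx' := (bl_mem_Z1_iff (hL.locEquiv w) (hd₁ w) x).mpr hx
    have h := (D w).nondeg (bl_pull₁ (hL.locEquiv w) x) hx' (by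
      intro y' hy'
      have hy : (bl_pull₁ (hL.locEquiv w)).symm y' ∈ Z1 (L.lev w) (T (ZMod p) (L.Gv w)) := by
        rw [← bl_mem_Z1_iff (hL.locEquiv w) (hd₁ w), LinearEquiv.apply_symm_apply]
        exact hy'
      have h1 := hxy _ hy
      have h2 : bl_pull₂ (hL.locEquiv w) (cup₁₁ x ((bl_pull₁ (hL.locEquiv w)).symm y'))
          = fun g => bl_pull₁ (hL.locEquiv w) x g.1 * y' g.2 := by
        funext g
        change x ((hL.locEquiv w).symm g.1) *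
          (bl_pull₁ (hL.locEquiv w)) ((bl_pull₁ (hL.locEquiv w)).symm y') g.2 = _
        rw [LinearEquiv.apply_symm_apply]
        rfl
      change (D w).inv (bl_pull₂ (hL.locEquiv w) (cup₁₁ x _)) = 0 at h1
      rw [h2] at h1
      exact h1)
    exact (LinearEquiv.map_eq_zero_iff _).mp h
  · -- finiteness
    intro w
    have := (D w).fin
    exact Module.Finite.equiv
      (LinearEquiv.ofSubmodules (bl_pull₁ (hL.locEquiv w)) _ _
        (bl_map_Z1 (hL.locEquiv w) (hd₁ w))).symm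

end Main

end Fermat.Agent.S55.helper49
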