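import Fermat.Agent.S55.helper98_BArRecI3
import Fermat.Agent.S14.helper90_Unramified

/-!
# S55 / REC3 R3-H1E, item (B)(iii) (helper49): `hunr` of `helper79.exists_h1ERel` from the Prelude

For a finite Galois level `E/F` inside `ℚbar` which is unramified outside `S` in the Prelude's
sense, every nonzero prime of `𝓞 E` not above `S` has ramification index `1` over `𝓞 F`.
This is EXACTLY the hypothesis `hunr` of `helper79.exists_h1ERel` / `helper79.exists_h1EHom`
(with `K := ↥F`, `L := ↥E`).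
-/

set_option autoImplicit false
set_option linter.style.haveILetI false

open IsDedekindDomain
open scoped NumberField

noncomputable section

namespace Fermat.Agent.S55.helper49

local notation "Qbar" => AlgebraicClosure ℚ

variable {S : Finset Nat.Primes} {F : IntermediateField ℚ Qbar} [NumberField ↥F]

/-- trivial inertia in `Gal(E/F)` at every nonzero prime of `E` not above `S` -/
theorem hu_inertia_eq_one (E : IntermediateField ↥F Qbar)
    [FiniteDimensional ↥F ↥E] [IsGalois ↥F ↥E] [NumberField ↥E]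
    (hE : (E.restrictScalars ℚ).IsUnramifiedOutside S)
    (P : Ideal (𝓞 ↥E)) [hP : P.IsPrime] (hP0 : P ≠ ⊥)
    (hPS : P ∉ helper75.primesOverS ↥E S) (σ : Gal(↥E/↥F))
    (hσ : σ ∈ Ideal.inertia Gal(↥E/↥F) P) : σ = 1 := by
  have hvne : P.under (𝓞 ↥F) ≠ ⊥ := Ideal.under_ne_bot (𝓞 ↥F) hP0
  let v : HeightOneSpectrum (𝓞 ↥F) := ⟨P.under (𝓞 ↥F), inferInstance, hvne⟩
  have hv : v.asIdeal ∉ helper75.primesOverS (↥F) S := by
    rintro ⟨-, -, ℓ, hℓS, hℓv⟩
    refine hPS ⟨hP, hP0, ℓ, hℓS, ?_⟩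
    have h1 : ((ℓ : ℕ) : 𝓞 ↥F) ∈ P.under (𝓞 ↥F) := hℓv
    rw [Ideal.under, Ideal.mem_comap, map_natCast] at h1
    exact h1
  exact helper98.unramAt_of_isUnramifiedOutside E hE v hv P hP rfl σ hσ

/-- **(B)(iii) of R3-H1E**: the hypothesis `hunr` of `helper79.exists_h1ERel` for an `S`-level. -/
theorem ramificationIdx_eq_one_of_isUnramifiedOutside (E : IntermediateField ↥F Qbar)
    [FiniteDimensional ↥F ↥E] [IsGalois ↥F ↥E] [NumberField ↥E]
    (hE : (E.restrictScalars ℚ).IsUnramifiedOutside S) :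
    ∀ (P : Ideal (𝓞 ↥E)) [P.IsPrime], P ≠ ⊥ → P ∉ helper75.primesOverS ↥E S →
      P.ramificationIdx (𝓞 ↥F) = 1 := by
  intro P hP hP0 hPS
  rw [← Fermat.Agent.S14.helper90.card_inertia_eq_ramificationIdx (K := ↥F) P hP0,
    Nat.card_eq_one_iff_unique]
  refine ⟨⟨fun a b => Subtype.ext ?_⟩, ⟨1⟩⟩
  rw [hu_inertia_eq_one E hE P hP0 hPS a a.2, hu_inertia_eq_one E hE P hP0 hPS b b.2]

end Fermat.Agent.S55.helper49
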