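import Fermat.Agent.S14.helper91_Dictionary
import Fermat.Agent.S14.helper91_FieldObstruction
import Fermat.Prelude.Def_GroupCohomology_ContinuousUnramified

/-!
# S55 / REC3 R3-J3 [UNR] (helper49, task 619)

For `E/ℚ` finite Galois, unramified outside `S` in the Prelude's sense
(`IntermediateField.IsUnramifiedOutside`), and a prime number `q ∉ S`, every prime of `𝓞 E`
above `q` has trivial inertia group in `Gal(E/ℚ)` (elementary form: `σ x - x ∈ P` for all
`x : 𝓞 E` implies `σ = 1`).

Main statement: `Fermat.Agent.S55.helper49.inertia_eq_one_of_isUnramifiedOutside`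
(VERBATIM the statement of `helper31_J3Interface`, section UNR).
-/

set_option autoImplicit false
set_option linter.style.haveILetI false

open scoped NumberField

noncomputable section

namespace Fermat.Agent.S55.helper49

open Fermat.Agent.S14.helper91 Fermat.Agent.S54.helper91

local notation "Qbar" => AlgebraicClosure ℚ

/-- a prime ideal of `𝓞 E` containing a prime number is maximal -/
theorem ju_isMaximal_of_natCast_mem (E : Type*) [Field E] [NumberField E]
    (q : ℕ) (hq0 : q ≠ 0) (P : Ideal (𝓞 E)) (hP : P.IsPrime) (hqP : (q : 𝓞 E) ∈ P) :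
    P.IsMaximal := by
  have hne : P ≠ ⊥ := by
    intro hbot
    rw [hbot, Ideal.mem_bot] at hqP
    exact hq0 (by exact_mod_cast hqP)
  exact hP.isMaximal hne

/-- **[UNR]**: for `E/ℚ` finite Galois unramified outside `S` (Prelude sense) and `q ∉ S`, every
prime of `𝓞 E` above `q` has trivial inertia group in `Gal(E/ℚ)`. -/
theorem inertia_eq_one_of_isUnramifiedOutside (S : Finset Nat.Primes)
    (E : IntermediateField ℚ Qbar) (hE : E.IsUnramifiedOutside S) (hN : E.fixingSubgroup.Normal)
    (q : Nat.Primes) (hq : q ∉ S)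
    (P : Ideal (𝓞 E)) (hP : P.IsPrime) (hqP : ((q : ℕ) : 𝓞 E) ∈ P)
    (σ : E ≃ₐ[ℚ] E) (hσ : ∀ x : 𝓞 E, σ • x - x ∈ P) : σ = 1 := by
  haveI : FiniteDimensional ℚ E := hE.1
  haveI : NumberField E := ⟨⟩
  have hG : IsGalois ℚ Qbar := Fermat.Agent.S54.helper91.isGalois_Qbar
  haveI : IsGalois ℚ E := (InfiniteGalois.normal_iff_isGalois E).mp hN
  haveI : P.IsMaximal := ju_isMaximal_of_natCast_mem E q q.2.ne_zero P hP hqP
  obtain ⟨A, hA⟩ := exists_primeOf_eq (↥E) P
  have hAq : A.LiesOverPrime q :=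
    liesOverPrime_of_natCast_mem (↥E) A (by rw [hA]; exact hqP)
  have hI := hE.2 q hq A hAq
  have hτ : σ ∈ Ideal.inertia (E ≃ₐ[ℚ] E) (primeOf (↥E) A) := by
    intro x
    rw [hA]
    exact hσ x
  obtain ⟨σ', hσ'I, hσ'⟩ := exists_mem_inertia_restrict_eq (↥E) A q.2 hAq σ hτ
  rw [← hσ']
  exact restrictNormalHom_eq_one_of_mem_fixingSubgroup E (hI hσ'I)

end Fermat.Agent.S55.helper49
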