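import Mathlib
import Fermat.Agent.S14.helper12_ArtinFunct
import Fermat.Agent.S14.helper90_Unramified

/-!
# S55 / REC-N2 (helper87), part 2: Frobenius and Artin map of a subextension

`E/F` an abelian extension of number fields, `M` an intermediate field.

* `inertia_trivial_under` : if the inertia group of `PE` in `Gal(E/F)` is trivial, so is the
  inertia group of `PE ∩ 𝓞 M` in `Gal(M/F)`.
* `frobAt_eq_restrict` : `frobAt F M 𝔭` is the restriction of `frobAt F E 𝔭` when `E/F` is
  unramified over `𝔭`.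
* `artinMap_eq_restrict` : the same for the Artin map.
* `restrictNormalHom_fixedField_eq_one_iff` : the kernel of the restriction to the fixed field
  of `H` is `H`.
-/

set_option autoImplicit false
set_option linter.unusedSectionVars false
set_option linter.style.haveILetI false

open scoped NumberField IsMulCommutative nonZeroDivisors

namespace Fermat.Agent.S55.helper87

open Fermat.Agent.S14

section Sub

variable (F E : Type*) [Field F] [NumberField F] [Field E] [NumberField E] [Algebra F E]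
  [IsAbelianGalois F E] (M : IntermediateField F E)

/-- Restriction to `M` is compatible with the action on integers. -/
lemma algebraMap_restrict_smul (σ : Gal(E/F)) (y : 𝓞 M) :
    algebraMap (𝓞 M) (𝓞 E) (AlgEquiv.restrictNormalHom M σ • y) =
      σ • algebraMap (𝓞 M) (𝓞 E) y := by
  apply NumberField.RingOfIntegers.ext
  exact AlgEquiv.restrictNormal_commutes σ M (y : M)

/-- Trivial inertia descends to a subextension. -/
theorem inertia_trivial_under (PE : Ideal (𝓞 E)) [PE.IsPrime] (hPE : PE ≠ ⊥)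
    (hunr : ∀ τ : Gal(E/F), (∀ x : 𝓞 E, τ • x - x ∈ PE) → τ = 1)
    (σ : Gal(M/F)) (hσ : ∀ x : 𝓞 M, σ • x - x ∈ PE.under (𝓞 M)) : σ = 1 := by
  set P : Ideal (𝓞 M) := PE.under (𝓞 M) with hPdef
  haveI : P.IsPrime := Ideal.IsPrime.under (𝓞 M) PE
  have hP0 : P ≠ ⊥ := Ideal.under_ne_bot (𝓞 M) hPE
  haveI : PE.LiesOver P := ⟨rfl⟩
  have h1 : PE.ramificationIdx (𝓞 F) = 1 := by
    rw [← helper90.card_inertia_eq_ramificationIdx (K := F) PE hPE]
    exact helper12.card_inertia_eq_one F E PE hunr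
  have h2 : PE.ramificationIdx (𝓞 F) = P.ramificationIdx (𝓞 F) * PE.ramificationIdx (𝓞 M) :=
    Ideal.ramificationIdx_tower (R := 𝓞 F) P PE
  have h3 : P.ramificationIdx (𝓞 F) = 1 := by
    rw [h1] at h2
    exact Nat.eq_one_of_mul_eq_one_right h2.symm
  have hcard : Nat.card (Ideal.inertia Gal(M/F) P) = 1 := by
    rw [helper90.card_inertia_eq_ramificationIdx (K := F) P hP0, h3]
  have hmem : σ ∈ Ideal.inertia Gal(M/F) P := fun x => hσ x
  have hsub : Subsingleton (Ideal.inertia Gal(M/F) P) :=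
    (Nat.card_eq_one_iff_unique.mp hcard).1
  have := Subsingleton.elim (⟨σ, hmem⟩ : Ideal.inertia Gal(M/F) P) 1
  exact congrArg Subtype.val this

/-- The Frobenius of `M/F` at `𝔭` is the restriction of the Frobenius of `E/F`, when `E/F` is
unramified over `𝔭`. -/
theorem frobAt_eq_restrict (𝔭 : Ideal (𝓞 F)) [𝔭.IsPrime] (h𝔭 : 𝔭 ≠ ⊥)
    (hunr : ∀ PE : Ideal (𝓞 E), PE.IsPrime → PE.under (𝓞 F) = 𝔭 →
      ∀ τ : Gal(E/F), (∀ x : 𝓞 E, τ • x - x ∈ PE) → τ = 1) :
    frobAt F M 𝔭 = AlgEquiv.restrictNormalHom M (frobAt F E 𝔭) := by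
  obtain ⟨PE, hPEp, hPE0, hPE𝔭⟩ := helper12.exists_prime_over F E 𝔭 h𝔭
  haveI := hPEp
  have hfrob := helper12.isArithFrobAt_frobAt F E 𝔭 h𝔭 PE hPE𝔭
  have h1 : IsArithFrobAt (𝓞 F) (AlgEquiv.restrictNormalHom M (frobAt F E 𝔭))
      (PE.under (𝓞 M)) :=
    helper12.isArithFrobAt_under_of_card_eq (A := 𝓞 F) (A' := 𝓞 F) (B := 𝓞 M) (B' := 𝓞 E)
      (frobAt F E 𝔭) (AlgEquiv.restrictNormalHom M (frobAt F E 𝔭))
      (algebraMap_restrict_smul F E M (frobAt F E 𝔭)) PE hfrob rfl
  haveI : (PE.under (𝓞 M)).IsPrime := Ideal.IsPrime.under (𝓞 M) PE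
  have hP0 : PE.under (𝓞 M) ≠ ⊥ := Ideal.under_ne_bot (𝓞 M) hPE0
  have h2 := helper12.eq_frobAt_of_isArithFrobAt F M (PE.under (𝓞 M)) hP0
    (inertia_trivial_under F E M PE hPE0 (hunr PE hPEp hPE𝔭)) _ h1
  rw [h2, Ideal.under_under, hPE𝔭]

/-- The Artin map of `M/F` is the restriction of the Artin map of `E/F` on ideals whose prime
factors have compatible Frobenius elements. -/
theorem artinMap_eq_restrict (𝔞 : (Ideal (𝓞 F))⁰)
    (h : ∀ 𝔭 ∈ UniqueFactorizationMonoid.normalizedFactors (𝔞 : Ideal (𝓞 F)),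
      frobAt F M 𝔭 = AlgEquiv.restrictNormalHom M (frobAt F E 𝔭)) :
    artinMap F M 𝔞 = AlgEquiv.restrictNormalHom M (artinMap F E 𝔞) := by
  rw [artinMap_apply, artinMap_apply, map_multiset_prod, Multiset.map_map]
  congr 1
  exact Multiset.map_congr rfl h

end Sub

section Fixed

variable (F E : Type*) [Field F] [NumberField F] [Field E] [NumberField E] [Algebra F E]
  [IsAbelianGalois F E] (H : Subgroup Gal(E/F))

/-- The kernel of the restriction to the fixed field of `H` is `H`. -/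
theorem restrictNormalHom_fixedField_eq_one_iff (τ : Gal(E/F)) :
    AlgEquiv.restrictNormalHom (IntermediateField.fixedField H) τ = 1 ↔ τ ∈ H := by
  rw [← MonoidHom.mem_ker, IntermediateField.restrictNormalHom_ker,
    IntermediateField.fixingSubgroup_fixedField]

end Fixed

end Fermat.Agent.S55.helper87
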