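import Mathlib
import Fermat.Agent.S14.Defs
import Fermat.Agent.S55.helper87_RecSub

/-!
# S55 / REC4, package R4-R-AB (helper49, task 355)

Reciprocity for an abelian unramified extension of number fields follows from reciprocity for
its cyclic subextensions.
-/

set_option autoImplicit false
set_option linter.unusedSectionVars false
set_option linter.style.haveILetI false

open scoped NumberField IsMulCommutative nonZeroDivisors

namespace Fermat.Agent.S55.helper49

open Fermat.Agent.S14

/-- In a finite commutative group, every nontrivial element lies outside some subgroup with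
cyclic quotient. -/
lemma r4_exists_subgroup_isCyclic_quotient {G : Type*} [CommGroup G] [Finite G] {τ : G}
    (hτ : τ ≠ 1) : ∃ H : Subgroup G, τ ∉ H ∧ IsCyclic (G ⧸ H) := by
  obtain ⟨φ, hφ⟩ := CommGroup.exists_apply_ne_one_of_hasEnoughRootsOfUnity G ℂ hτ
  refine ⟨φ.ker, fun h => hφ (MonoidHom.mem_ker.mp h), ?_⟩
  haveI : Finite φ.range := Finite.of_surjective φ.rangeRestrict φ.rangeRestrict_surjective
  haveI : IsCyclic φ.range := inferInstance
  exact isCyclic_of_surjective (QuotientGroup.quotientKerEquivRange φ).symm
    (QuotientGroup.quotientKerEquivRange φ).symm.surjective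

/-- **R4-R-AB**: reciprocity for an abelian unramified extension follows from reciprocity for its
cyclic subextensions. -/
theorem hasReciprocity_of_forall_isCyclic (F M : Type*) [Field F] [NumberField F]
    [Field M] [NumberField M] [Algebra F M] [IsAbelianGalois F M]
    (hunr : IsUnramifiedEverywhere F M)
    (h : ∀ E : IntermediateField F M, IsCyclic Gal(E/F) → HasReciprocity F E) :
    HasReciprocity F M := by
  intro 𝔞 h𝔞
  by_contra hτ
  -- the group `Gal(M/F)` is commutative
  letI : CommGroup Gal(M/F) :=
    { (inferInstance : Group Gal(M/F)) with mul_comm := fun a b => mul_comm a b }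
  obtain ⟨H, hτH, hcyc⟩ := r4_exists_subgroup_isCyclic_quotient (G := Gal(M/F)) hτ
  set E : IntermediateField F M := IntermediateField.fixedField H with hE
  -- `Gal(E/F)` is cyclic
  have hker : ∀ σ : Gal(M/F), AlgEquiv.restrictNormalHom E σ = 1 ↔ σ ∈ H :=
    fun σ => helper87.restrictNormalHom_fixedField_eq_one_iff F M H σ
  have hcycE : IsCyclic Gal(E/F) := by
    have hle : H ≤ (AlgEquiv.restrictNormalHom (F := F) (K₁ := M) E).ker := fun σ hσ =>
      MonoidHom.mem_ker.mpr ((hker σ).mpr hσ)
    refine isCyclic_of_surjective (QuotientGroup.lift H (AlgEquiv.restrictNormalHom E) hle) ?_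
    intro τ
    obtain ⟨σ, rfl⟩ := AlgEquiv.restrictNormalHom_surjective (F := F) (K₁ := E) M τ
    exact ⟨QuotientGroup.mk σ, rfl⟩
  have hrecE := h E hcycE 𝔞 h𝔞
  -- the Artin map of `E/F` is the restriction of the Artin map of `M/F`
  have hres : artinMap F E 𝔞 = AlgEquiv.restrictNormalHom E (artinMap F M 𝔞) := by
    apply helper87.artinMap_eq_restrict F M E 𝔞
    intro 𝔭 h𝔭
    have hprime : Prime 𝔭 := UniqueFactorizationMonoid.prime_of_normalized_factor 𝔭 h𝔭
    haveI : 𝔭.IsPrime := Ideal.isPrime_of_prime hprime
    exact helper87.frobAt_eq_restrict F M E 𝔭 hprime.ne_zero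
      (fun PE hPE _ τ hτ' => hunr PE hPE (by
        rintro rfl
        exact hprime.ne_zero (by
          have := ‹(⊥ : Ideal (𝓞 M)).under (𝓞 F) = 𝔭›
          rw [← this]
          exact Ideal.comap_bot_of_injective _
            (FaithfulSMul.algebraMap_injective (𝓞 F) (𝓞 M)))) τ hτ')
  rw [hrecE] at hres
  exact hτH ((hker _).mp hres.symm)

end Fermat.Agent.S55.helper49
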