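import Fermat.Agent.S55.helper90_Rec3LocDef
import Fermat.Agent.S55.helper42_KumRoots
import Fermat.Agent.S55.helper60_BArDicL

/-!
# S55 / REC3, R3-LOC-SURJ (helper4): the level character with large local image

* `CycDegStatement p` : the `p`-part of the degree of a `q`-adic field containing `ζ_{p^m}` tends
  to infinity with `m` (package SURJ-CYC);
* `autToPow_eq_iff`, `autToPow_eq_one_iff` : the cyclotomic character is determined by the image
  of the root of unity;
* `card_range_autToPow` : the image of the cyclotomic character of `Gal(Ω/K)` has order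
  `[K(ζ) : K]`;
* `exists_char_locally_large_of` : a level character `ψ : Gal(ℚbar/F) → ℤ/N` (for the `S`-levels)
  whose restriction to the local group at `w` has image of order divisible by `p ^ n`.
-/

set_option autoImplicit false
set_option linter.unusedSectionVars false

open groupCohomology ExtCitation

noncomputable section

namespace Fermat.Agent.S55.helper4

open Fermat.Agent.S55 Fermat.Agent.S55.helper59 Fermat.Agent.S55.helper69
  Fermat.Agent.S55.helper73 Fermat.Agent.S55.helper90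

local instance factOfPrimesSurjC (q : Nat.Primes) : Fact (q : ℕ).Prime := ⟨q.2⟩

local notation "Qbar" => AlgebraicClosure ℚ

/-- **SURJ-CYC** (statement): the `p`-part of the degree of a `q`-adic field containing a
primitive `p ^ m`-th root of unity tends to infinity with `m`. -/
def CycDegStatement (p : ℕ) : Prop :=
  ∀ (q : ℕ) [Fact q.Prime] (n : ℕ), ∃ m : ℕ, 0 < m ∧
    ∀ (K' : IntermediateField ℚ_[q] (PadicAlgCl q)) [FiniteDimensional ℚ_[q] K']
      (ζ : PadicAlgCl q), IsPrimitiveRoot ζ (p ^ m) → ζ ∈ K' → p ^ n ∣ Module.finrank ℚ_[q] K'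

/-! ## The cyclotomic character -/

section AutToPow

variable {R S : Type*} [CommRing R] [CommRing S] [IsDomain S] [Algebra R S] {μ : S} {n : ℕ}
  [NeZero n] (hμ : IsPrimitiveRoot μ n)

/-- a unit of `ℤ/n` with `μ ^ u = σ μ` is the value of the cyclotomic character at `σ` -/
theorem autToPow_eq_of_pow_eq (σ : S ≃ₐ[R] S) (u : (ZMod n)ˣ)
    (h : μ ^ (u : ZMod n).val = σ μ) : hμ.autToPow R σ = u := by
  have h1 := hμ.autToPow_spec R σ
  rw [← h] at h1
  have h2 := hμ.pow_inj (ZMod.val_lt _) (ZMod.val_lt _) h1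
  exact Units.ext (ZMod.val_injective n h2)

theorem autToPow_eq_iff (σ τ : S ≃ₐ[R] S) :
    hμ.autToPow R σ = hμ.autToPow R τ ↔ σ μ = τ μ := by
  constructor
  · intro h
    rw [← hμ.autToPow_spec R σ, ← hμ.autToPow_spec R τ, h]
  · intro h
    exact autToPow_eq_of_pow_eq hμ σ _ (by rw [hμ.autToPow_spec R τ, h])

theorem autToPow_eq_one_iff (σ : S ≃ₐ[R] S) : hμ.autToPow R σ = 1 ↔ σ μ = μ := by
  rw [← map_one (hμ.autToPow R), autToPow_eq_iff]
  rfl

end AutToPow

section Range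

variable {K Ω : Type*} [Field K] [Field Ω] [Algebra K Ω] {ζ : Ω} {n : ℕ} [NeZero n]
  (hζ : IsPrimitiveRoot ζ n)

theorem ker_autToPow :
    (hζ.autToPow K).ker = (IntermediateField.adjoin K {ζ}).fixingSubgroup := by
  ext σ
  rw [MonoidHom.mem_ker, autToPow_eq_one_iff, IntermediateField.mem_fixingSubgroup_iff]
  constructor
  · intro h
    have key : (σ : Ω →ₐ[K] Ω).comp (IntermediateField.adjoin K {ζ}).val =
        (IntermediateField.adjoin K {ζ}).val := by
      refine IntermediateField.algHom_ext_of_eq_adjoin K rfl fun x hx => ?_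
      rw [Set.mem_singleton_iff] at hx
      subst hx
      exact h
    intro x hx
    exact congrArg (fun φ : (IntermediateField.adjoin K {ζ}) →ₐ[K] Ω => φ ⟨x, hx⟩) key
  · intro h
    exact h ζ (IntermediateField.mem_adjoin_simple_self K ζ)

/-- the image of the cyclotomic character of `Gal(Ω/K)` has order `[K(ζ) : K]` -/
theorem card_range_autToPow [IsGalois K Ω] :
    Nat.card (hζ.autToPow K).range = Module.finrank K (IntermediateField.adjoin K {ζ}) := by
  rw [← Subgroup.index_ker, ker_autToPow, IntermediateField.finrank_eq_fixingSubgroup_index]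

end Range

/-! ## Local degrees -/

section LocalDegree

variable {p : ℕ} [Fact p.Prime]

theorem pow_dvd_of_pow_add_dvd_mul {d e n : ℕ} (hd : d ≠ 0) (he : e ≠ 0)
    (h : p ^ (n + padicValNat p d) ∣ d * e) : p ^ n ∣ e := by
  rw [padicValNat_dvd_iff_le (mul_ne_zero hd he), padicValNat.mul hd he] at h
  rw [padicValNat_dvd_iff_le he]
  omega

/-- for `m` large the degree of `K(ζ_{p^m})/K` is divisible by `p ^ n` -/
theorem pow_dvd_finrank_adjoin (hcyc : CycDegStatement p) (q : ℕ) [Fact q.Prime]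
    (K : IntermediateField ℚ_[q] (PadicAlgCl q)) [FiniteDimensional ℚ_[q] K] (n : ℕ) :
    ∃ m : ℕ, 0 < m ∧ ∀ ζ : PadicAlgCl q, IsPrimitiveRoot ζ (p ^ m) →
      p ^ n ∣ Module.finrank K (IntermediateField.adjoin K {ζ}) := by
  obtain ⟨m, hm, h⟩ := hcyc q (n + padicValNat p (Module.finrank ℚ_[q] K))
  refine ⟨m, hm, fun ζ hζ => ?_⟩
  have hint : IsIntegral K ζ := Algebra.IsIntegral.isIntegral ζ
  have hfd : FiniteDimensional K (IntermediateField.adjoin K {ζ}) :=
    IntermediateField.adjoin.finiteDimensional hint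
  have hfd' : FiniteDimensional ℚ_[q] (IntermediateField.adjoin K {ζ}) :=
    Module.Finite.trans K _
  have hfd'' : FiniteDimensional ℚ_[q]
      ((IntermediateField.adjoin K {ζ}).restrictScalars ℚ_[q]) := hfd'
  have h1 := h ((IntermediateField.adjoin K {ζ}).restrictScalars ℚ_[q]) ζ hζ
    (IntermediateField.mem_adjoin_simple_self K ζ)
  have h2 : Module.finrank ℚ_[q] ((IntermediateField.adjoin K {ζ}).restrictScalars ℚ_[q]) =
      Module.finrank ℚ_[q] K * Module.finrank K (IntermediateField.adjoin K {ζ}) :=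
    (Module.finrank_mul_finrank ℚ_[q] K (IntermediateField.adjoin K {ζ})).symm
  rw [h2] at h1
  exact pow_dvd_of_pow_add_dvd_mul Module.finrank_pos.ne' Module.finrank_pos.ne' h1

end LocalDegree

/-! ## The level character -/

section Char

variable {p : ℕ} [Fact p.Prime] {S : Finset Nat.Primes} {F : IntermediateField ℚ Qbar}
  [FiniteDimensional ℚ F] (hF : F.IsUnramifiedOutside S)
  {ι : Type} {L : LocalData (UF F) (sLevelsStr S F hF) ι}

/-- the global cyclotomic character at `r_w s` is the local cyclotomic character at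
`locEquiv s` -/
theorem autToPow_r_eq (hL : IsArith S F L) {m : ℕ} [NeZero (p ^ m)] {ζ₀ : Qbar}
    (hζ₀ : IsPrimitiveRoot ζ₀ (p ^ m)) (w : ι) (hζ : IsPrimitiveRoot (padicEmbedding (hL.q w : ℕ) ζ₀) (p ^ m)) (s : L.Gv w) :
    hζ₀.autToPow ℚ ((L.r w s : UF F) : Qbar ≃ₐ[ℚ] Qbar) =
      hζ.autToPow ↥(hL.Kw w) (hL.locEquiv w s) := by
  have hr : ((L.r w s : UF F) : Qbar ≃ₐ[ℚ] Qbar) =
      hL.g w * localGaloisToGlobal (hL.q w : ℕ) (hL.jq w s) * (hL.g w)⁻¹ := hL.r_eq w s
  rw [hr, map_mul, map_mul, map_inv, mul_comm, inv_mul_cancel_left]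
  symm
  apply autToPow_eq_of_pow_eq
  rw [← map_pow, hζ₀.autToPow_spec ℚ, padicEmbedding_localGaloisToGlobal, hL.locEquiv_apply]

/-- **SURJ-CHAR** (conditional on SURJ-CYC): a level character of `U` whose restriction to the
local group at `w` has image of order divisible by `p ^ n`. -/
theorem exists_char_locally_large_of (hL : IsArith S F L) (hcyc : CycDegStatement p)
    (hp2 : p ≠ 2) (hpS : (⟨p, Fact.out⟩ : Nat.Primes) ∈ S) (w : ι) (n : ℕ) :
    ∃ (N : ℕ) (_ : 0 < N) (ψ : UF F →* Multiplicative (ZMod N)),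
      (∃ N₀ ∈ (sLevelsStr S F hF).mem, N₀ ≤ ψ.ker) ∧
      p ^ n ∣ Nat.card (ψ.comp (L.r w)).range := by
  have hfdK : FiniteDimensional ℚ_[(hL.q w : ℕ)] (hL.Kw w) := hL.finiteDimensional_Kw w
  obtain ⟨m, -, hdeg⟩ := pow_dvd_finrank_adjoin hcyc (hL.q w : ℕ) (hL.Kw w) n
  have hne : NeZero (p ^ m) := ⟨pow_ne_zero _ (Fact.out : p.Prime).ne_zero⟩
  have hneQ : NeZero ((p : ℕ) : ℚ) := ⟨by exact_mod_cast (Fact.out : p.Prime).ne_zero⟩
  obtain ⟨ζ₀, hζ₀⟩ := HasEnoughRootsOfUnity.exists_primitiveRoot Qbar (p ^ m)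
  have hC : IsCyclic (ZMod (p ^ m))ˣ := ZMod.isCyclic_units_of_prime_pow p Fact.out hp2 m
  have hζ : IsPrimitiveRoot (padicEmbedding (hL.q w : ℕ) ζ₀) (p ^ m) :=
    hζ₀.map_of_injective (padicEmbedding (hL.q w : ℕ)).toRingHom.injective
  refine ⟨Nat.card (ZMod (p ^ m))ˣ, Nat.card_pos,
    (zmodCyclicMulEquiv hC).symm.toMonoidHom.comp
      ((hζ₀.autToPow ℚ).comp F.fixingSubgroup.subtype), ?_, ?_⟩
  · have hNF : NumberField ↥F := ⟨⟩
    obtain ⟨E, hE, hn, hle, hζE⟩ := helper42.inSLevel_of_pow_eq_one (S := S) (F := F) (n := p ^ m)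
      (fun q hq => by
        have h1 : (q : ℕ) ∣ p := q.2.dvd_of_dvd_pow hq
        have h2 : (q : ℕ) = p := (Nat.prime_dvd_prime_iff_eq q.2 Fact.out).1 h1
        have h3 : q = ⟨p, Fact.out⟩ := Subtype.ext h2
        rw [h3]
        exact hpS) hF ζ₀ hζ₀.pow_eq_one
    refine ⟨E.fixingSubgroup.subgroupOf F.fixingSubgroup, ⟨E, hE, hn, hle, rfl⟩, fun σ hσ => ?_⟩
    rw [MonoidHom.mem_ker]
    have hσ' : ((σ : UF F) : Qbar ≃ₐ[ℚ] Qbar) ∈ E.fixingSubgroup := Subgroup.mem_subgroupOf.1 hσ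
    have h1 : hζ₀.autToPow ℚ ((σ : UF F) : Qbar ≃ₐ[ℚ] Qbar) = 1 :=
      (autToPow_eq_one_iff hζ₀ _).2 ((IntermediateField.mem_fixingSubgroup_iff _ _).1 hσ' ζ₀ hζE)
    change (zmodCyclicMulEquiv hC).symm (hζ₀.autToPow ℚ ((σ : UF F) : Qbar ≃ₐ[ℚ] Qbar)) = 1
    rw [h1, map_one]
  · have hGal : IsGalois ↥(hL.Kw w) (PadicAlgCl (hL.q w : ℕ)) := by
      have : IsAlgClosure ↥(hL.Kw w) (PadicAlgCl (hL.q w : ℕ)) := ⟨inferInstance, inferInstance⟩
      infer_instance
    have hrange : (((zmodCyclicMulEquiv hC).symm.toMonoidHom.comp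
        ((hζ₀.autToPow ℚ).comp F.fixingSubgroup.subtype)).comp (L.r w)).range =
        (hζ.autToPow ↥(hL.Kw w)).range.map (zmodCyclicMulEquiv hC).symm.toMonoidHom := by
      ext y
      constructor
      · rintro ⟨s, rfl⟩
        refine ⟨hζ.autToPow ↥(hL.Kw w) (hL.locEquiv w s), ⟨_, rfl⟩, ?_⟩
        rw [← autToPow_r_eq hF hL hζ₀ w hζ s]
        rfl
      · rintro ⟨_, ⟨τ, rfl⟩, rfl⟩
        obtain ⟨s, rfl⟩ := (hL.locEquiv w).surjective τ
        refine ⟨s, ?_⟩
        rw [← autToPow_r_eq hF hL hζ₀ w hζ s]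
        rfl
    have hcard : Nat.card ↥(Subgroup.map (zmodCyclicMulEquiv hC).symm.toMonoidHom
        (hζ.autToPow ↥(hL.Kw w)).range) = Nat.card (hζ.autToPow ↥(hL.Kw w)).range :=
      Subgroup.card_map_of_injective (f := (zmodCyclicMulEquiv hC).symm.toMonoidHom)
        (zmodCyclicMulEquiv hC).symm.injective
    rw [hrange, hcard, card_range_autToPow]
    exact hdeg _ hζ

end Char

end Fermat.Agent.S55.helper4
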