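import Fermat.Agent.S55.helper89_ChevGroups
import Fermat.Agent.S55.helper24_Dict

/-!
# S55 / GLOB / G7-MISC (helper50): small facts about primes of `𝓞 K` over rational primes

Statements M4 -- M12 verbatim from `helper89_G7Plan2.lean`, section `Misc`
(M1 -- M3 are in `helper50_ChevMisc2`).
-/

set_option autoImplicit false
set_option linter.unusedSectionVars false
set_option linter.unusedVariables false

open scoped TensorProduct NumberField
open IsDedekindDomain

namespace Fermat.Agent.S55.helper50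

open Fermat.Agent.S55.helper73 Fermat.Agent.S55.helper89

section Misc

variable (K : Type*) [Field K] [NumberField K]

/-- M4 : finitely many primes over a rational prime. -/
theorem finite_primes_over (q : ℕ) (hq : q ≠ 0) :
    {P : HeightOneSpectrum (𝓞 K) | (q : 𝓞 K) ∈ P.asIdeal}.Finite := by
  have h : (Ideal.span {(q : 𝓞 K)} : Ideal (𝓞 K)) ≠ 0 := by
    rw [Ne, Ideal.zero_eq_bot, Ideal.span_singleton_eq_bot]
    exact_mod_cast hq
  refine (Ideal.finite_factors h).subset ?_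
  intro Q hQ
  change Q.asIdeal ∣ Ideal.span {(q : 𝓞 K)}
  rw [Ideal.dvd_span_singleton]
  exact hQ

/-- M7 : the norm of a prime lies in it. -/
theorem absNorm_mem (P : HeightOneSpectrum (𝓞 K)) :
    ((Ideal.absNorm P.asIdeal : ℕ) : 𝓞 K) ∈ P.asIdeal :=
  Ideal.absNorm_mem P.asIdeal

/-- a natural number in a prime ideal has a prime factor in it -/
theorem exists_prime_dvd_mem (P : HeightOneSpectrum (𝓞 K)) (n : ℕ) (hn : n ≠ 0)
    (h : (n : 𝓞 K) ∈ P.asIdeal) : ∃ q : ℕ, q.Prime ∧ q ∣ n ∧ (q : 𝓞 K) ∈ P.asIdeal := by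
  induction n using Nat.strong_induction_on with
  | _ n ih =>
    have hn1 : n ≠ 1 := by
      rintro rfl
      exact P.isPrime.ne_top ((Ideal.eq_top_iff_one _).2 (by simpa using h))
    obtain ⟨q, hq, hqn⟩ := Nat.exists_prime_and_dvd hn1
    obtain ⟨m, rfl⟩ := hqn
    have hm0 : m ≠ 0 := by
      rintro rfl
      exact hn (mul_zero _)
    rw [Nat.cast_mul] at h
    rcases P.isPrime.mem_or_mem h with h1 | h1
    · exact ⟨q, hq, dvd_mul_right _ _, h1⟩
    · have hlt : m < q * m := by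
        have := hq.one_lt
        nlinarith [Nat.pos_of_ne_zero hm0]
      obtain ⟨q', hq', hq'm, hq'P⟩ := ih m hlt hm0 h1
      exact ⟨q', hq', hq'm.mul_left _, hq'P⟩

/-- M5 : every prime lies over a rational prime, namely the prime dividing its norm. -/
theorem exists_prime_mem (P : HeightOneSpectrum (𝓞 K)) :
    ∃ q : ℕ, q.Prime ∧ (q : 𝓞 K) ∈ P.asIdeal := by
  have h0 : Ideal.absNorm P.asIdeal ≠ 0 := by
    rw [Ne, Ideal.absNorm_eq_zero_iff]
    exact P.ne_bot
  obtain ⟨q, hq, -, hqP⟩ := exists_prime_dvd_mem K P _ h0 (absNorm_mem K P)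
  exact ⟨q, hq, hqP⟩

/-- M6 : ... and only one. -/
theorem prime_mem_unique (P : HeightOneSpectrum (𝓞 K)) (q q' : ℕ) (hq : q.Prime) (hq' : q'.Prime)
    (h : (q : 𝓞 K) ∈ P.asIdeal) (h' : (q' : 𝓞 K) ∈ P.asIdeal) : q = q' := by
  by_contra hne
  have hcop : Nat.Coprime q q' := (Nat.coprime_primes hq hq').2 hne
  have hcop' : IsCoprime (q : ℤ) (q' : ℤ) := Nat.isCoprime_iff_coprime.2 hcop
  obtain ⟨a, b, hab⟩ := hcop'
  have h1 : (1 : 𝓞 K) ∈ P.asIdeal := by
    have : ((a * (q : ℤ) + b * (q' : ℤ) : ℤ) : 𝓞 K) ∈ P.asIdeal := by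
      push_cast
      exact P.asIdeal.add_mem (P.asIdeal.mul_mem_left _ h) (P.asIdeal.mul_mem_left _ h')
    rw [hab] at this
    simpa using this
  exact P.isPrime.ne_top ((Ideal.eq_top_iff_one _).2 h1)

/-- a natural number in a prime over `q` is divisible by `q` -/
theorem dvd_of_mem (P : HeightOneSpectrum (𝓞 K)) (q : ℕ) (hq : q.Prime)
    (h : (q : 𝓞 K) ∈ P.asIdeal) (n : ℕ) (hn : (n : 𝓞 K) ∈ P.asIdeal) : q ∣ n := by
  rcases eq_or_ne n 0 with rfl | hn0
  · exact dvd_zero _
  obtain ⟨q', hq', hq'n, hq'P⟩ := exists_prime_dvd_mem K P n hn0 hn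
  rw [prime_mem_unique K P q q' hq hq' h hq'P]
  exact hq'n

/-- M8 : the primes over a finite set of rational primes, as a finset. -/
theorem primesOverSet_finite (S₀ : Finset ℕ) (hS₀ : ∀ r ∈ S₀, r.Prime) :
    (primesOverSet K S₀).Finite := by
  have e : primesOverSet K S₀ =
      ⋃ r ∈ S₀, {P : HeightOneSpectrum (𝓞 K) | (r : 𝓞 K) ∈ P.asIdeal} := by
    ext P
    simp [primesOverSet]
  rw [e]
  exact S₀.finite_toSet.biUnion fun r hr => finite_primes_over K r (hS₀ r hr).ne_zero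

/-- counting the primes over a finset of rational primes -/
theorem card_primesOver_finset (I : Finset Nat.Primes) :
    Nat.card {P : HeightOneSpectrum (𝓞 K) // ∃ r ∈ I, ((r : ℕ) : 𝓞 K) ∈ P.asIdeal} =
      Finset.sum I fun r : Nat.Primes =>
        Nat.card {P : HeightOneSpectrum (𝓞 K) // ((r : ℕ) : 𝓞 K) ∈ P.asIdeal} := by
  classical
  -- the finite sets of primes over each `r`
  let F : Nat.Primes → Finset (HeightOneSpectrum (𝓞 K)) := fun r =>
    (finite_primes_over K (r : ℕ) r.2.ne_zero).toFinset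
  have hF : ∀ (r : Nat.Primes) (P : HeightOneSpectrum (𝓞 K)),
      P ∈ F r ↔ ((r : ℕ) : 𝓞 K) ∈ P.asIdeal := fun r P =>
    (finite_primes_over K (r : ℕ) r.2.ne_zero).mem_toFinset
  have hcard : ∀ r : Nat.Primes,
      Nat.card {P : HeightOneSpectrum (𝓞 K) // ((r : ℕ) : 𝓞 K) ∈ P.asIdeal} = (F r).card := by
    intro r
    rw [← Nat.card_eq_finsetCard (F r)]
    exact Nat.card_congr (Equiv.subtypeEquivRight fun P => (hF r P).symm)
  have hdisj : Set.PairwiseDisjoint (I : Set Nat.Primes) F := by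
    intro r _ r' _ hne
    rw [Function.onFun, Finset.disjoint_left]
    intro P hP hP'
    apply hne
    apply Subtype.ext
    exact prime_mem_unique K P r r' r.2 r'.2 ((hF r P).1 hP) ((hF r' P).1 hP')
  have h1 : Nat.card {P : HeightOneSpectrum (𝓞 K) // ∃ r ∈ I, ((r : ℕ) : 𝓞 K) ∈ P.asIdeal} =
      (I.biUnion F).card := by
    rw [← Nat.card_eq_finsetCard (I.biUnion F)]
    refine Nat.card_congr (Equiv.subtypeEquivRight fun P => ?_)
    simp only [Finset.mem_biUnion, hF]
  rw [h1, Finset.card_biUnion hdisj]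
  exact Finset.sum_congr rfl fun r _ => (hcard r).symm

/-- M9 : counting the primes over `S₀` prime by prime. -/
theorem card_primesOverSet (S₀ : Finset ℕ) (hS₀ : ∀ r ∈ S₀, r.Prime) :
    Nat.card (primesOverSet K S₀) =
      Finset.sum (S₀.subtype Nat.Prime : Finset Nat.Primes) fun r : Nat.Primes =>
        Nat.card {P : HeightOneSpectrum (𝓞 K) // ((r : ℕ) : 𝓞 K) ∈ P.asIdeal} := by
  refine Eq.trans ?_ (card_primesOver_finset K (S₀.subtype Nat.Prime : Finset Nat.Primes))
  refine Nat.card_congr (Equiv.subtypeEquivRight fun P => ?_)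
  constructor
  · rintro ⟨r, hr, hP⟩
    exact ⟨⟨r, hS₀ r hr⟩, Finset.mem_subtype.2 hr, hP⟩
  · rintro ⟨r, hr, hP⟩
    exact ⟨r, Finset.mem_subtype.1 hr, hP⟩

/-- M11 : `unitsAway` with no prime of `T` over `r` is `intUnits` (this is D2). -/
theorem unitsAway_eq_intUnits (r : ℕ) [Fact r.Prime] (T : Set (HeightOneSpectrum (𝓞 K)))
    (hT : ∀ P ∈ T, (r : 𝓞 K) ∉ P.asIdeal) : unitsAway r K T = intUnits r K := by
  refine le_antisymm ?_ (intUnits_le_unitsAway r K T)
  rintro x ⟨a, ha, hx⟩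
  have ha' : locUnit r K a ∈ intUnits r K :=
    (helper24.locUnit_mem_intUnits_iff r K a).2 fun P hP => ha P hP fun hPT => hT P hPT hP
  have := mul_mem hx ha'
  simpa using this

/-- M10 : in `ℚ_r ⊗ K` with no prime of `T` over `r`, `powAt = intUnits` (this is D3). -/
theorem powAt_eq_intUnits (r : ℕ) [Fact r.Prime] (p : ℕ) (T : Set (HeightOneSpectrum (𝓞 K)))
    (hT : ∀ P ∈ T, (r : 𝓞 K) ∉ P.asIdeal) : powAt r K p T = intUnits r K := by
  refine le_antisymm (powAt_le_intUnits r K p T) ?_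
  intro u hu
  obtain ⟨c, hc, huc⟩ := helper24.exists_locUnit_mul_mem_oneUnits r K u hu
  exact ⟨c, (helper24.locUnit_mem_intUnits_iff r K c).1 hc, hc, huc,
    fun P hP hPT => absurd hP (hT P hPT)⟩

/-- M12 : a principal element of `unitsAway` is a unit at the primes over `r` outside `T`
(D2 again). -/
theorem locUnit_mem_unitsAway_iff (r : ℕ) [Fact r.Prime] (T : Set (HeightOneSpectrum (𝓞 K)))
    (b : Kˣ) : locUnit r K b ∈ unitsAway r K T ↔
      ∀ P : HeightOneSpectrum (𝓞 K), (r : 𝓞 K) ∈ P.asIdeal → P ∉ T →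
        P.valuation K (b : K) = 1 := by
  constructor
  · rintro ⟨a, ha, hx⟩ P hP hPT
    have e : locUnit r K b * (locUnit r K a)⁻¹ = locUnit r K (b * a⁻¹) := by
      rw [map_mul, map_inv]
    rw [e] at hx
    have h1 := (helper24.locUnit_mem_intUnits_iff r K (b * a⁻¹)).1 hx P hP
    have h2 := ha P hP hPT
    rw [Units.val_mul, map_mul, Units.val_inv_eq_inv_val, map_inv₀, h2, inv_one, mul_one] at h1
    exact h1
  · intro h
    exact ⟨b, h, by simp [one_mem]⟩

end Misc

end Fermat.Agent.S55.helper50
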