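import Fermat.Agent.S55.helper50_IntCochainAbs

/-!
# S55 / GLOB-G9-D1 (helper50): residue norms on a finite reduced `ℚ_q`-algebra

For a finite reduced `ℚ_[q]`-algebra `B` and a maximal ideal `n` the residue field `B ⧸ n` is a
finite extension of `ℚ_[q]`; `resNorm n b` is the spectral norm of the residue class of `b`.
It is multiplicative, invariant under `ℚ_[q]`-algebra automorphisms, and an element of `B` is
integral over `ℤ_[q]` iff all its residue norms are `≤ 1`.
-/

set_option autoImplicit false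
set_option linter.unusedSectionVars false
set_option linter.style.haveILetI false

open Polynomial

namespace Fermat.Agent.S55.helper50

open Fermat.Agent.S55.helper97

section ResNorm

variable (q : ℕ) [Fact q.Prime]
variable {B : Type*} [CommRing B] [Algebra ℚ_[q] B] [Algebra ℤ_[q] B]
  [IsScalarTower ℤ_[q] ℚ_[q] B] [Module.Finite ℚ_[q] B]

theorem maxSpec_isMaximal (n : MaximalSpectrum B) : n.asIdeal.IsMaximal := n.isMaximal

attribute [local instance] maxSpec_isMaximal

/-- the residue field at a maximal ideal (used as a local instance only) -/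
@[reducible] noncomputable def resField (n : MaximalSpectrum B) : Field (B ⧸ n.asIdeal) :=
  Ideal.Quotient.field n.asIdeal

attribute [local instance] resField

theorem resFinite (n : MaximalSpectrum B) : Module.Finite ℚ_[q] (B ⧸ n.asIdeal) :=
  Module.Finite.of_surjective (Ideal.Quotient.mkₐ ℚ_[q] n.asIdeal).toLinearMap
    (Ideal.Quotient.mkₐ_surjective ℚ_[q] n.asIdeal)

attribute [local instance] resFinite

theorem resAlgebraic (n : MaximalSpectrum B) : Algebra.IsAlgebraic ℚ_[q] (B ⧸ n.asIdeal) :=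
  Algebra.IsAlgebraic.of_finite ℚ_[q] (B ⧸ n.asIdeal)

attribute [local instance] resAlgebraic

/-- the residue norm of `b` at the maximal ideal `n` -/
noncomputable def resNorm (n : MaximalSpectrum B) (b : B) : ℝ :=
  spectralNorm ℚ_[q] (B ⧸ n.asIdeal) (Ideal.Quotient.mk n.asIdeal b)

theorem resNorm_nonneg (n : MaximalSpectrum B) (b : B) : 0 ≤ resNorm q n b :=
  spectralNorm_nonneg _

theorem resNorm_one (n : MaximalSpectrum B) : resNorm q n (1 : B) = 1 := by
  unfold resNorm
  rw [map_one]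
  exact spectralNorm_one

theorem resNorm_mul (n : MaximalSpectrum B) (b c : B) :
    resNorm q n (b * c) = resNorm q n b * resNorm q n c := by
  unfold resNorm
  rw [map_mul]
  exact spectralAlgNorm_mul (K := ℚ_[q]) (L := B ⧸ n.asIdeal) _ _

theorem resNorm_congr (n : MaximalSpectrum B) {b c : B} (h : b - c ∈ n.asIdeal) :
    resNorm q n b = resNorm q n c := by
  unfold resNorm
  rw [(Ideal.Quotient.eq).mpr h]

/-- integral elements have residue norms `≤ 1` -/
theorem resNorm_le_one_of_isIntegral (n : MaximalSpectrum B) {b : B}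
    (hb : IsIntegral ℤ_[q] b) : resNorm q n b ≤ 1 := by
  have hb' : IsIntegral ℤ_[q] (Ideal.Quotient.mk n.asIdeal b) :=
    hb.map (Ideal.Quotient.mkₐ ℤ_[q] n.asIdeal)
  obtain ⟨p, hp, hroot⟩ := hb'
  set P : ℚ_[q][X] := p.map (algebraMap ℤ_[q] ℚ_[q]) with hP
  have hPm : P.Monic := hp.map _
  have hPr : aeval (Ideal.Quotient.mk n.asIdeal b) P = 0 := by
    rw [hP, aeval_def, eval₂_map, ← IsScalarTower.algebraMap_eq]
    exact hroot
  have hPc : ∀ i : ℕ, ‖P.coeff i‖ ≤ 1 := by
    intro i
    rw [hP, coeff_map]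
    exact PadicInt.norm_le_one _
  have h1 : spectralAlgNorm ℚ_[q] (B ⧸ n.asIdeal) (Ideal.Quotient.mk n.asIdeal b)
      ≤ spectralValue P :=
    norm_root_le_spectralValue spectralAlgNorm_isPowMul isNonarchimedean_spectralNorm hPm hPr
  exact h1.trans ((spectralValue_le_one_iff hPm).mpr hPc)

/-- a monic polynomial over `ℤ_[q]` killing the residue class of `b`, if the residue norm
is `≤ 1` -/
theorem exists_monic_aeval_mem (n : MaximalSpectrum B) {b : B} (hb : resNorm q n b ≤ 1) :
    ∃ p : ℤ_[q][X], p.Monic ∧ aeval b p ∈ n.asIdeal := by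
  set v := Ideal.Quotient.mk n.asIdeal b with hv
  have hint : IsIntegral ℚ_[q] v := Algebra.IsIntegral.isIntegral v
  have hm : (minpoly ℚ_[q] v).Monic := minpoly.monic hint
  have hc : ∀ i : ℕ, ‖(minpoly ℚ_[q] v).coeff i‖ ≤ 1 := (spectralValue_le_one_iff hm).mp hb
  have hl : minpoly ℚ_[q] v ∈ Polynomial.lifts (algebraMap ℤ_[q] ℚ_[q]) := by
    rw [Polynomial.lifts_iff_coeff_lifts]
    intro i
    exact ⟨⟨(minpoly ℚ_[q] v).coeff i, hc i⟩, rfl⟩
  obtain ⟨p, hpmap, -, hpm⟩ := Polynomial.lifts_and_degree_eq_and_monic hl hm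
  refine ⟨p, hpm, ?_⟩
  have h0 : aeval v (minpoly ℚ_[q] v) = 0 := minpoly.aeval _ _
  rw [← hpmap, aeval_def, eval₂_map, ← IsScalarTower.algebraMap_eq, ← aeval_def] at h0
  have h1 : aeval v p = Ideal.Quotient.mk n.asIdeal (aeval b p) := by
    rw [hv]
    exact (aeval_algHom_apply (Ideal.Quotient.mkₐ ℤ_[q] n.asIdeal) b p)
  rw [h1] at h0
  exact Ideal.Quotient.eq_zero_iff_mem.mp h0

/-- residue norms are compatible with `ℚ_[q]`-algebra endomorphisms -/
theorem resNorm_algHom (f : B →ₐ[ℚ_[q]] B) (n n' : MaximalSpectrum B)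
    (h : ∀ b ∈ n.asIdeal, f b ∈ n'.asIdeal) (b : B) :
    resNorm q n' (f b) = resNorm q n b := by
  set g : B →ₐ[ℚ_[q]] (B ⧸ n'.asIdeal) := (Ideal.Quotient.mkₐ ℚ_[q] n'.asIdeal).comp f with hg
  have hker : ∀ a ∈ n.asIdeal, g a = 0 := by
    intro a ha
    rw [hg, AlgHom.comp_apply, Ideal.Quotient.mkₐ_eq_mk, Ideal.Quotient.eq_zero_iff_mem]
    exact h a ha
  set gbar : (B ⧸ n.asIdeal) →ₐ[ℚ_[q]] (B ⧸ n'.asIdeal) :=
    Ideal.Quotient.liftₐ n.asIdeal g hker with hgbar
  have hinj : Function.Injective gbar := (gbar : (B ⧸ n.asIdeal) →+* (B ⧸ n'.asIdeal)).injective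
  have hval : gbar (Ideal.Quotient.mk n.asIdeal b) = Ideal.Quotient.mk n'.asIdeal (f b) := by
    rw [hgbar, Ideal.Quotient.liftₐ_apply, Ideal.Quotient.lift_mk]
    rfl
  unfold resNorm spectralNorm
  rw [← hval, minpoly.algHom_eq gbar hinj]

variable [IsArtinianRing B] [IsReduced B]

/-- an element all of whose residue norms are `≤ 1` is integral over `ℤ_[q]` -/
theorem isIntegral_of_forall_resNorm_le_one {b : B} (hb : ∀ n, resNorm q n b ≤ 1) :
    IsIntegral ℤ_[q] b := by
  classical
  letI : Fintype (MaximalSpectrum B) := Fintype.ofFinite _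
  choose p hpm hpn using fun n => exists_monic_aeval_mem q n (hb n)
  refine ⟨∏ n : MaximalSpectrum B, p n, monic_prod_of_monic _ _ fun n _ => hpm n, ?_⟩
  rw [← aeval_def, map_prod]
  apply eq_zero_of_forall_mem
  intro n
  exact Ideal.prod_mem _ (Finset.mem_univ n) (hpn n)

end ResNorm

end Fermat.Agent.S55.helper50
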