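import Fermat.Agent.S55.helper78_G9Defs
import Fermat.Agent.S55.helper97_SemiLocBridge
import Fermat.Agent.S55.helper50_ResNorm

/-!
# S55 / GLOB-G9-D1 (helper50): integral cochains for the semilocal algebra `ℚ_q ⊗ L`

`exists_intUnits_cochain` : if a `1`-cochain `y : Gal(L/K) → (ℚ_q ⊗ L)ˣ` has a coboundary with
values in the integral units, then the same coboundary is the coboundary of a cochain with values
in the integral units (statement D1 of the GLOB-G9 interface of helper78, verbatim).
-/

set_option autoImplicit false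
set_option linter.unusedSectionVars false

open scoped TensorProduct NumberField Pointwise

namespace Fermat.Agent.S55.helper50

open Fermat.Agent.S55.helper73 Fermat.Agent.S55.helper97

section Local

variable (L : Type*) [Field L] [NumberField L] (q : ℕ) [Fact q.Prime]

/-- the local absolute value of a unit of `ℚ_q ⊗ L` at a maximal ideal -/
noncomputable def phiLoc (n : MaximalSpectrum (SemiLoc q L)) : (SemiLoc q L)ˣ →* ℝ where
  toFun u := resNorm q n (u : SemiLoc q L)
  map_one' := resNorm_one q n
  map_mul' u v := resNorm_mul q n u v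

theorem phiLoc_apply (n : MaximalSpectrum (SemiLoc q L)) (u : (SemiLoc q L)ˣ) :
    phiLoc L q n u = resNorm q n (u : SemiLoc q L) := rfl

theorem phiLoc_nonneg (n : MaximalSpectrum (SemiLoc q L)) (u : (SemiLoc q L)ˣ) :
    0 ≤ phiLoc L q n u := resNorm_nonneg q n _

/-- the integral units are the units all of whose local absolute values are `1` -/
theorem mem_intUnits_iff_phiLoc (u : (SemiLoc q L)ˣ) :
    u ∈ intUnits q L ↔ ∀ n, phiLoc L q n u = 1 := by
  constructor
  · rintro ⟨h1, h2⟩ n
    have a1 : phiLoc L q n u ≤ 1 := resNorm_le_one_of_isIntegral q n h1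
    have a2 : phiLoc L q n u⁻¹ ≤ 1 := resNorm_le_one_of_isIntegral q n h2
    have a3 : phiLoc L q n u * phiLoc L q n u⁻¹ = 1 := by
      rw [← map_mul, mul_inv_cancel, map_one]
    have a4 : 0 ≤ phiLoc L q n u := phiLoc_nonneg L q n u
    have a5 : 0 ≤ phiLoc L q n u⁻¹ := phiLoc_nonneg L q n _
    nlinarith
  · intro h
    refine ⟨isIntegral_of_forall_resNorm_le_one q fun n => ?_,
      isIntegral_of_forall_resNorm_le_one q fun n => ?_⟩
    · exact (h n).le
    · have : phiLoc L q n u⁻¹ = 1 := by rw [map_inv, h n, inv_one]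
      exact this.le

end Local

section Main

variable (K L : Type*) [Field K] [NumberField K] [Field L] [NumberField L] [Algebra K L]
  (q : ℕ) [Fact q.Prime]

/-- equivariance of the local absolute values -/
theorem phiLoc_smul (σ : Gal(L/K)) (n : MaximalSpectrum (SemiLoc q L)) (u : (SemiLoc q L)ˣ) :
    phiLoc L q (σ • n) (σ • u) = phiLoc L q n u := by
  rw [phiLoc_apply, phiLoc_apply, coe_smul_units]
  refine resNorm_algHom q (galSemiLocAut q L K σ).toAlgHom n (σ • n) ?_ (u : SemiLoc q L)
  intro b hb
  rw [asIdeal_smul]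
  exact (Ideal.smul_mem_pointwise_smul_iff (a := σ)).mpr hb

/-- **GLOB-G9-D1** (interface statement, verbatim). -/
theorem exists_intUnits_cochain (K L : Type*) [Field K] [NumberField K] [Field L]
    [NumberField L] [Algebra K L] [IsGalois K L] (q : ℕ) [Fact q.Prime]
    (x : Gal(L/K) × Gal(L/K) → (SemiLoc q L)ˣ) (hx : ∀ g, x g ∈ intUnits q L)
    (y : Gal(L/K) → (SemiLoc q L)ˣ)
    (hy : ∀ g h : Gal(L/K), g • y h / y (g * h) * y g = x (g, h)) :
    ∃ y' : Gal(L/K) → (SemiLoc q L)ˣ, (∀ g, y' g ∈ intUnits q L) ∧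
      ∀ g h : Gal(L/K), g • y' h / y' (g * h) * y' g = x (g, h) := by
  obtain ⟨y', h1, h2⟩ := exists_cochain_abs (B := SemiLoc q L) (G := Gal(L/K)) (phiLoc L q)
    (phiLoc_nonneg L q) (phiLoc_smul K L q)
    (fun g n => (mem_intUnits_iff_phiLoc L q (x g)).mp (hx g) n) hy
    (fun n u v h => resNorm_congr q n h)
  exact ⟨y', fun g => (mem_intUnits_iff_phiLoc L q (y' g)).mpr (h1 g), h2⟩

end Main

end Fermat.Agent.S55.helper50
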