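import Fermat.Agent.S55.helper97_SemiLocAbs

/-!
# S55 / GLOB-G9-D1 (helper50): integral cochains, abstract form

`B` is an Artinian ring with an action of a finite group `G`, and `φ n : Bˣ →* ℝ`
(`n` a maximal ideal) is a `G`-equivariant family of nonnegative "local absolute values" which
only depend on the residue class modulo `n`.  If the coboundary of a 1-cochain `y : G → Bˣ` has
all local absolute values equal to `1`, then `y` can be modified by a 1-coboundary into a cochain
all of whose values have local absolute values `1`.  (This is `H¹(G, Bˣ/U) = 1` for the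
permutation module `Bˣ/U`.)
-/

set_option autoImplicit false

namespace Fermat.Agent.S55.helper50

open Fermat.Agent.S55.helper97

section Abs

set_option linter.unusedSectionVars false

variable {B G : Type*} [CommRing B] [Group G] [Finite G]
  [MulSemiringAction G B] [MulDistribMulAction G Bˣ]

variable (φ : MaximalSpectrum B → Bˣ →* ℝ)

/-- the value of a local absolute value is nonzero -/
theorem phi_ne_zero (n : MaximalSpectrum B) (u : Bˣ) : φ n u ≠ 0 := by
  intro h
  have h1 : φ n u * φ n u⁻¹ = 1 := by rw [← map_mul, mul_inv_cancel, map_one]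
  rw [h, zero_mul] at h1
  exact zero_ne_one h1

variable (hnn : ∀ n u, 0 ≤ φ n u)
  (heq : ∀ (σ : G) (n : MaximalSpectrum B) (u : Bˣ), φ (σ • n) (σ • u) = φ n u)

include heq in
theorem phi_smul_of_stab {n : MaximalSpectrum B} {s : G} (hs : s • n = n) (u : Bˣ) :
    φ n (s • u) = φ n u := by
  have := heq s n u
  rwa [hs] at this

include heq in
theorem phi_smul_eq (g : G) (n : MaximalSpectrum B) (u : Bˣ) :
    φ n (g • u) = φ (g⁻¹ • n) u := by
  have := heq g (g⁻¹ • n) u
  rwa [smul_inv_smul] at this

variable {x : G × G → Bˣ} (hx : ∀ g n, φ n (x g) = 1) {y : G → Bˣ}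
  (hy : ∀ g h : G, g • y h / y (g * h) * y g = x (g, h))

include hx hy in
/-- the cocycle relation for the local absolute values -/
theorem phi_cocycle (n : MaximalSpectrum B) (g h : G) :
    φ n (y (g * h)) = φ n (g • y h) * φ n (y g) := by
  have h1 := congrArg (φ n) (hy g h)
  rw [hx, map_mul, map_div] at h1
  have h2 : φ n (y (g * h)) ≠ 0 := phi_ne_zero φ n _
  field_simp at h1
  linarith

include hx hy heq in
theorem phi_stab_mul {n : MaximalSpectrum B} {s t : G} (hs : s • n = n) :
    φ n (y (s * t)) = φ n (y t) * φ n (y s) := by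
  rw [phi_cocycle φ hx hy n s t, phi_smul_of_stab φ heq hs]

include hx hy heq in
theorem phi_one (n : MaximalSpectrum B) : φ n (y 1) = 1 := by
  have h := phi_stab_mul φ heq hx hy (n := n) (s := 1) (t := 1) (one_smul G n)
  rw [mul_one] at h
  have h2 : φ n (y 1) ≠ 0 := phi_ne_zero φ n _
  have h3 : φ n (y 1) * (φ n (y 1) - 1) = 0 := by linarith
  rcases mul_eq_zero.mp h3 with h4 | h4
  · exact absurd h4 h2
  · linarith

include hx hy heq in
theorem phi_stab_pow {n : MaximalSpectrum B} {s : G} (hs : s • n = n) (k : ℕ) :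
    φ n (y (s ^ k)) = φ n (y s) ^ k := by
  induction k with
  | zero => rw [pow_zero, pow_zero, phi_one φ heq hx hy]
  | succ k ih =>
    rw [pow_succ', phi_stab_mul φ heq hx hy hs, ih, pow_succ]

include hx hy heq hnn in
/-- on the stabiliser of `n` the cochain has local absolute value `1` at `n` -/
theorem phi_stab_eq_one {n : MaximalSpectrum B} {s : G} (hs : s • n = n) :
    φ n (y s) = 1 := by
  have h1 := phi_stab_pow φ heq hx hy hs (orderOf s)
  rw [pow_orderOf_eq_one, phi_one φ heq hx hy] at h1
  exact (pow_eq_one_iff_of_nonneg (hnn n (y s)) (orderOf_pos s).ne').mp h1.symm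

variable [IsArtinianRing B]
  (hloc : ∀ (n : MaximalSpectrum B) (u v : Bˣ), (u : B) - (v : B) ∈ n.asIdeal → φ n u = φ n v)

include hnn heq hx hy hloc in
/-- **Integral cochains, abstract form.** -/
theorem exists_cochain_abs :
    ∃ y' : G → Bˣ, (∀ g n, φ n (y' g) = 1) ∧
      ∀ g h : G, g • y' h / y' (g * h) * y' g = x (g, h) := by
  classical
  -- translation elements
  have hrep : ∀ n : MaximalSpectrum B, ∃ g : G, g • orbRep (G := G) n = n := by
    intro n
    obtain ⟨σ, hσ⟩ := exists_smul_eq_orbRep (G := G) n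
    exact ⟨σ⁻¹, by rw [← hσ, inv_smul_smul]⟩
  choose gn hgn using hrep
  -- the correcting unit, by the Chinese remainder theorem
  obtain ⟨z, hz⟩ := exists_forall_sub_mem
    (fun n : MaximalSpectrum B => (((y (gn n))⁻¹ : Bˣ) : B))
  have hzu : IsUnit z := isUnit_of_forall_notMem fun n =>
    notMem_of_sub_mem ((y (gn n))⁻¹) n (hz n)
  obtain ⟨Z, rfl⟩ := hzu
  have hZ : ∀ n, φ n Z = (φ n (y (gn n)))⁻¹ := by
    intro n
    rw [hloc n Z ((y (gn n))⁻¹) (hz n), map_inv]
  refine ⟨fun g => y g * Z / (g • Z), ?_, ?_⟩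
  · intro g n
    -- `m = g⁻¹ n`
    set m : MaximalSpectrum B := g⁻¹ • n with hm
    have hgm : g • m = n := by rw [hm, smul_inv_smul]
    have horb : orbRep (G := G) m = orbRep (G := G) n := by rw [hm, orbRep_smul]
    set s : G := (gn n)⁻¹ * g * gn m with hs
    have hsn : s • orbRep (G := G) n = orbRep (G := G) n := by
      rw [hs, mul_smul, mul_smul, ← horb, hgn m, hgm, inv_smul_eq_iff, horb, hgn n]
    have h1 : φ (orbRep (G := G) n) (y s) = 1 := phi_stab_eq_one φ hnn heq hx hy hsn
    have hggm : g * gn m = gn n * s := by rw [hs]; group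
    -- the two cocycle relations
    have c1 : φ n (y (g * gn m)) = φ n (g • y (gn m)) * φ n (y g) := phi_cocycle φ hx hy n _ _
    have c2 : φ n (y (gn n * s)) = φ n (gn n • y s) * φ n (y (gn n)) :=
      phi_cocycle φ hx hy n _ _
    have e1 : φ n (gn n • y s) = 1 := by
      have := heq (gn n) (orbRep (G := G) n) (y s)
      rw [hgn n] at this
      rw [this, h1]
    have e2 : φ n (g • y (gn m)) = φ m (y (gn m)) := by
      have := heq g m (y (gn m))
      rwa [hgm] at this
    have e3 : φ n (g • Z) = (φ m (y (gn m)))⁻¹ := by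
      have := heq g m Z
      rw [hgm] at this
      rw [this, hZ m]
    rw [hggm, c2, e1, one_mul, e2] at c1
    have hne : φ m (y (gn m)) ≠ 0 := phi_ne_zero φ m _
    have hne2 : φ n (y (gn n)) ≠ 0 := phi_ne_zero φ n _
    have hne3 : φ n (y g) ≠ 0 := phi_ne_zero φ n _
    change φ n (y g * Z / (g • Z)) = 1
    rw [map_div, map_mul, e3, hZ n, c1]
    field_simp
  · intro g h
    have key : g • (y h * Z / (h • Z)) / (y (g * h) * Z / ((g * h) • Z)) * (y g * Z / (g • Z))
        = g • y h / y (g * h) * y g := by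
      rw [smul_div', smul_mul', mul_smul]
      have : ∀ a b c d e f : Bˣ, a * b / c / (d * e / c) * (f * e / b) = a / d * f := by
        intro a b c d e f
        rw [div_eq_mul_inv, div_eq_mul_inv, div_eq_mul_inv, div_eq_mul_inv, div_eq_mul_inv]
        simp only [mul_inv_rev, inv_inv]
        have h1 : a * b * c⁻¹ * (c * (e⁻¹ * d⁻¹)) * (f * e * b⁻¹)
            = a * d⁻¹ * f * (b * b⁻¹) * (c⁻¹ * c) * (e⁻¹ * e) := by
          simp only [mul_assoc, mul_comm, mul_left_comm]
        rw [h1, mul_inv_cancel, inv_mul_cancel, inv_mul_cancel, mul_one, mul_one, mul_one]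
      exact this _ _ _ _ _ _
    change g • (y h * Z / (h • Z)) / (y (g * h) * Z / ((g * h) • Z)) * (y g * Z / (g • Z))
        = x (g, h)
    rw [key, hy]

end Abs

end Fermat.Agent.S55.helper50
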