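import Fermat.Agent.S55.helper35_SHDefs
import Fermat.Agent.S55.helper57_Devissage
import Fermat.Agent.S55.ABasic
import Fermat.Agent.S55.helper53_Final

/-!
# S55 module SH, package SH-G: Shapiro's lemma for `k[G/U]` in degrees `0, 1, 2` (helper53)

`G` a group with levels `𝒩`, `U ≤ G` a subgroup of finite index containing a level,
`A = permRep k U = k[G/U]`, `A' = trivRep k U`, levels of `U` = `restrictLevels 𝒩 U hU`.
The Shapiro maps are `sh x = ε ∘ x|_U`, `ε = ` coefficient of the trivial coset: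

* `shA0`, `shA1`, `shA2` and `shA0_mem`, `shA1_mem`, `shA2_mem` (cocycles to cocycles);
* `shA0_surj` : `H^0(G, A) → H^0(U, k)` is surjective;
* `shA1_inj`, `shA1_surj` : `H^1(G, A) → H^1(U, k)` is bijective;
* `shA2_inj` : `H^2(G, A) → H^2(U, k)` is injective (explicit prism `prismA2`).

These are the fields `s0_mem s0_surj s1_mem s1_inj s1_surj s2_mem s2_inj` of
`helper53.ShTransport` for `s_i = shA_i`.
-/

set_option autoImplicit false

open groupCohomology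

noncomputable section

namespace Fermat.Agent.S55.helper53

open Fermat.Agent.S55 Fermat.Agent.S55.helper35 Fermat.Agent.S55.helper57

variable {k G : Type} [Field k] [Group G] (U : Subgroup G)

/-! ## Coefficients of elements of `k[G/U]` -/

/-- coefficient of `a ∈ k[G/U]` at the coset `i`, as a linear map -/
def cf (i : G ⧸ U) : (permRep k U) →ₗ[k] k :=
  (Finsupp.lapply i) ∘ₗ (MonoidAlgebra.coeffLinearEquiv k).toLinearMap

lemma cf_apply (i : G ⧸ U) (a : permRep k U) :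
    cf U i a = MonoidAlgebra.coeff (R := k) (M := G ⧸ U) a i := rfl

lemma cf_ρ (g : G) (a : permRep k U) (i : G ⧸ U) :
    cf U i ((permRep k U).ρ g a) = cf U (g⁻¹ • i) a := by
  rw [cf_apply, cf_apply]
  exact Representation.coeff_ofMulAction g a i

lemma permRep_ext {a b : permRep k U} (h : ∀ i, cf U i a = cf U i b) : a = b := by
  apply MonoidAlgebra.coeff_injective
  ext i
  exact h i

/-- the trivial coset -/
abbrev e₀ : G ⧸ U := ((1 : G) : G ⧸ U)

lemma smul_e₀ (g : G) : g • e₀ U = (g : G ⧸ U) := by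
  rw [e₀, MulAction.Quotient.smul_mk, smul_eq_mul, mul_one]

lemma smul_e₀_of_mem {u : G} (hu : u ∈ U) : u • e₀ U = e₀ U := by
  rw [smul_e₀, e₀, QuotientGroup.eq]
  simpa using hu

lemma inv_smul_e₀_of_mem {u : G} (hu : u ∈ U) : u⁻¹ • e₀ U = e₀ U :=
  smul_e₀_of_mem U (U.inv_mem hu)

lemma cosetRep_smul_e₀ (i : G ⧸ U) : cosetRep U i • e₀ U = i := by
  rw [smul_e₀, mk_cosetRep]

/-- the representative of the trivial coset lies in `U` -/
lemma cosetRep_e₀_mem : cosetRep U (e₀ U) ∈ U := by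
  have h := mk_cosetRep U (e₀ U)
  rw [e₀, eq_comm, QuotientGroup.eq] at h
  simpa using h

/-- the augmentation: coefficient at the trivial coset (a `U`-equivariant functional) -/
def eps : (permRep k U) →ₗ[k] k := cf U (e₀ U)

lemma eps_ρ_of_mem {u : G} (hu : u ∈ U) (a : permRep k U) :
    eps U ((permRep k U).ρ u a) = eps U a := by
  rw [eps, cf_ρ, inv_smul_e₀_of_mem U hu]

lemma cf_eq_eps (i : G ⧸ U) (a : permRep k U) :
    cf U i a = eps U ((permRep k U).ρ (cosetRep U i)⁻¹ a) := by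
  rw [eps, cf_ρ, inv_inv, cosetRep_smul_e₀]

/-! ## The Shapiro maps on cochains -/

/-- Shapiro map in degree `0` -/
def shA0 (a : permRep k U) : trivRep k ↥U := eps U a

/-- Shapiro map in degree `1`: restrict to `U` and take the coefficient of the trivial coset -/
def shA1 (x : G → permRep k U) : ↥U → trivRep k ↥U := fun u => eps U (x u)

/-- Shapiro map in degree `2` -/
def shA2 (x : G × G → permRep k U) : ↥U × ↥U → trivRep k ↥U :=
  fun u => eps U (x ((u.1 : G), (u.2 : G)))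

@[simp] lemma shA1_apply (x : G → permRep k U) (u : ↥U) : shA1 U x u = eps U (x u) := rfl
@[simp] lemma shA2_apply (x : G × G → permRep k U) (u v : ↥U) :
    shA2 U x (u, v) = eps U (x ((u : G), (v : G))) := rfl

variable {U} {𝒩 : Levels G} (hU : ∃ N ∈ 𝒩.mem, N ≤ U)

include hU in
/-- below every level there is a level contained in `U` -/
lemma exists_level_le_inf (N : Subgroup G) (hN : N ∈ 𝒩.mem) :
    ∃ N' ∈ 𝒩.mem, N' ≤ N ∧ N' ≤ U := by
  obtain ⟨N₀, hN₀, hN₀U⟩ := hU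
  obtain ⟨N', hN', hle⟩ := 𝒩.directed N hN N₀ hN₀
  exact ⟨N', hN', hle.trans inf_le_left, (hle.trans inf_le_right).trans hN₀U⟩

/-! ### Degree 0 -/

lemma shA0_mem (a : permRep k U) : shA0 U a ∈ H0 (trivRep k ↥U) := fun _ => rfl

/-! ### Degree 1: cocycles to cocycles -/

lemma shA1_mem_C1 {x : G → permRep k U} (hx : x ∈ C1 𝒩 (permRep k U)) :
    shA1 U x ∈ C1 (restrictLevels 𝒩 U hU) (trivRep k ↥U) := by
  obtain ⟨N, hN, h⟩ := hx
  obtain ⟨N', hN', hle, hleU⟩ := exists_level_le_inf hU N hN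
  refine ⟨N'.subgroupOf U, ⟨N', hN', hleU, rfl⟩, fun u s hs => ?_⟩
  show eps U (x ((u * s : ↥U) : G)) = eps U (x u)
  rw [Subgroup.coe_mul, h _ _ (hle (Subgroup.mem_subgroupOf.mp hs))]

lemma d₁₂_shA1 (x : G → permRep k U) (u v : ↥U) :
    (d₁₂ (trivRep k ↥U)).hom (shA1 U x) (u, v)
      = eps U ((d₁₂ (permRep k U)).hom x ((u : G), (v : G))) := by
  rw [d₁₂_hom_apply, d₁₂_hom_apply, map_add, map_sub, eps_ρ_of_mem U u.2]
  rfl

lemma shA1_mem {x : G → permRep k U} (hx : x ∈ Z1 𝒩 (permRep k U)) :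
    shA1 U x ∈ Z1 (restrictLevels 𝒩 U hU) (trivRep k ↥U) := by
  refine ⟨shA1_mem_C1 hU hx.1, ?_⟩
  have h2 : (d₁₂ (permRep k U)).hom x = 0 := hx.2
  show (d₁₂ (trivRep k ↥U)).hom (shA1 U x) = 0
  funext ⟨u, v⟩
  rw [d₁₂_shA1, h2]
  exact map_zero _


/-! ### `B1` of the trivial module vanishes -/

lemma eq_zero_of_mem_B1_triv {Γ : Type} [Group Γ] {y : Γ → trivRep k Γ}
    (hy : y ∈ B1 (trivRep k Γ)) : y = 0 := by
  obtain ⟨a, rfl⟩ := hy
  funext g
  rw [d₀₁_hom_apply]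
  exact sub_self a

/-! ### Degree 1: injectivity -/

/-- the cocycle relation, coefficientwise -/
lemma cf_z1 {x : G → permRep k U} (hx : (d₁₂ (permRep k U)).hom x = 0) (g h : G) (i : G ⧸ U) :
    cf U i (x (g * h)) = cf U (g⁻¹ • i) (x h) + cf U i (x g) := by
  have h1 := z1_apply (permRep k U) hx g h
  rw [h1, map_add, cf_ρ]

section Finite

variable [Finite (G ⧸ U)]

variable (U) in
/-- the element of `k[G/U]` with given coefficients -/
def ofFun : (G ⧸ U → k) →ₗ[k] (permRep k U) :=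
  (MonoidAlgebra.coeffLinearEquiv k).symm.toLinearMap ∘ₗ
    (Finsupp.linearEquivFunOnFinite k k (G ⧸ U)).symm.toLinearMap

@[simp] lemma cf_ofFun (f : G ⧸ U → k) (i : G ⧸ U) : cf U i (ofFun U f) = f i := by
  simp [cf, ofFun]

/-- SHAPIRO, injectivity on `H^1`. -/
theorem shA1_inj {x : G → permRep k U} (hx : x ∈ Z1 𝒩 (permRep k U))
    (h : shA1 U x ∈ B1 (trivRep k ↥U)) : x ∈ B1 (permRep k U) := by
  have h0 : ∀ u : G, u ∈ U → eps U (x u) = 0 := fun u hu =>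
    congrFun (eq_zero_of_mem_B1_triv h) ⟨u, hu⟩
  have hz : (d₁₂ (permRep k U)).hom x = 0 := hx.2
  -- independence of the representative
  have hind : ∀ (s : G) (i : G ⧸ U), (s : G ⧸ U) = i →
      cf U i (x s) = cf U i (x (cosetRep U i)) := by
    intro s i hs
    have hu : (cosetRep U i)⁻¹ * s ∈ U := by
      rw [← QuotientGroup.eq, mk_cosetRep, hs]
    have e : s = cosetRep U i * ((cosetRep U i)⁻¹ * s) := by group
    have h1 := cf_z1 hz (cosetRep U i) ((cosetRep U i)⁻¹ * s) i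
    rw [← e] at h1
    have h2 : (cosetRep U i)⁻¹ • i = e₀ U := by
      rw [inv_smul_eq_iff, cosetRep_smul_e₀]
    rw [h1, h2]
    have h3 : cf U (e₀ U) (x ((cosetRep U i)⁻¹ * s)) = 0 := h0 _ hu
    rw [h3, zero_add]
  refine ⟨ofFun U (fun i => - cf U i (x (cosetRep U i))), ?_⟩
  funext g
  rw [d₀₁_hom_apply]
  refine permRep_ext U fun i => ?_
  rw [map_sub, cf_ρ, cf_ofFun, cf_ofFun]
  -- `x (σ i) = x (g * (g⁻¹ * σ i))`
  have e : cosetRep U i = g * (g⁻¹ * cosetRep U i) := by group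
  have h1 := cf_z1 hz g (g⁻¹ * cosetRep U i) i
  rw [← e] at h1
  have h2 : ((g⁻¹ * cosetRep U i : G) : G ⧸ U) = g⁻¹ • i := smul_mk_cosetRep U g⁻¹ i
  rw [hind _ _ h2] at h1
  rw [h1]
  abel

/-! ### Degree 0: surjectivity -/

/-- the norm element `∑ e_i` -/
def normElt : permRep k U := ofFun U (fun _ => 1)

lemma normElt_mem_H0 : (normElt : permRep k U) ∈ H0 (permRep k U) := by
  intro g
  refine permRep_ext U fun i => ?_
  rw [cf_ρ, normElt, cf_ofFun, cf_ofFun]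

theorem shA0_surj (a' : trivRep k ↥U) :
    ∃ a ∈ H0 (permRep k U), shA0 U a = a' := by
  refine ⟨(a' : k) • normElt, Submodule.smul_mem _ _ normElt_mem_H0, ?_⟩
  show eps U ((a' : k) • normElt) = a'
  rw [map_smul, eps, normElt, cf_ofFun, smul_eq_mul, mul_one]

/-! ### Degree 1: surjectivity -/

/-- additivity of a `1`-cocycle with trivial coefficients -/
lemma z1_triv_mul {Γ : Type} [Group Γ] {y : Γ → trivRep k Γ}
    (hy : (d₁₂ (trivRep k Γ)).hom y = 0) (g h : Γ) : y (g * h) = y g + y h := by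
  have := z1_apply (trivRep k Γ) hy g h
  rw [this, add_comm]
  rfl

/-- the coinduced cochain of a `1`-cochain of `U` -/
def coindA1 (y : ↥U → trivRep k ↥U) : G → permRep k U :=
  fun g => ofFun U (fun i => y (cocyc U g i))

@[simp] lemma cf_coindA1 (y : ↥U → trivRep k ↥U) (g : G) (i : G ⧸ U) :
    cf U i (coindA1 y g) = y (cocyc U g i) := by
  rw [coindA1, cf_ofFun]

lemma coindA1_mem_C1 {y : ↥U → trivRep k ↥U}
    (hy : y ∈ C1 (restrictLevels 𝒩 U hU) (trivRep k ↥U)) :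
    coindA1 y ∈ C1 𝒩 (permRep k U) := by
  obtain ⟨N', ⟨N, hN, hNU, rfl⟩, h⟩ := hy
  refine ⟨N, hN, fun g s hs => ?_⟩
  have : N.Normal := 𝒩.normal N hN
  refine permRep_ext U fun i => ?_
  rw [cf_coindA1, cf_coindA1, cocyc_mul]
  exact h _ _ (Subgroup.mem_subgroupOf.mpr (cocyc_mem_of_mem hNU hs _))

lemma coindA1_mem {y : ↥U → trivRep k ↥U}
    (hy : y ∈ Z1 (restrictLevels 𝒩 U hU) (trivRep k ↥U)) :
    coindA1 y ∈ Z1 𝒩 (permRep k U) := by
  refine ⟨coindA1_mem_C1 hU hy.1, ?_⟩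
  have hz : (d₁₂ (trivRep k ↥U)).hom y = 0 := hy.2
  show (d₁₂ (permRep k U)).hom (coindA1 y) = 0
  funext ⟨g, h⟩
  rw [d₁₂_hom_apply]
  refine permRep_ext U fun i => ?_
  rw [map_add, map_sub, cf_ρ, cf_coindA1, cf_coindA1, cf_coindA1, cocyc_mul,
    z1_triv_mul hz]
  show _ = cf U i 0
  rw [map_zero]
  abel

lemma shA1_coindA1 {y : ↥U → trivRep k ↥U} (hz : (d₁₂ (trivRep k ↥U)).hom y = 0) :
    shA1 U (coindA1 y) = y := by
  funext u
  rw [shA1_apply, eps, cf_coindA1]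
  -- `cocyc u e₀ = σ₀⁻¹ u σ₀`
  set σ₀ : ↥U := ⟨cosetRep U (e₀ U), cosetRep_e₀_mem U⟩ with hσ₀
  have e : cocyc U (u : G) (e₀ U) = σ₀⁻¹ * u * σ₀ := by
    apply Subtype.ext
    rw [coe_cocyc, inv_smul_e₀_of_mem U u.2]
    rfl
  rw [e, z1_triv_mul hz, z1_triv_mul hz]
  have h1 : y (σ₀⁻¹) + y σ₀ = 0 := by
    rw [← z1_triv_mul hz, inv_mul_cancel]
    have := z1_triv_mul hz 1 1
    rw [mul_one] at this
    exact left_eq_add.mp this
  calc y σ₀⁻¹ + y u + y σ₀ = y u + (y σ₀⁻¹ + y σ₀) := by abel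
    _ = y u := by rw [h1, add_zero]

/-- SHAPIRO, surjectivity on `H^1`. -/
theorem shA1_surj {y : ↥U → trivRep k ↥U}
    (hy : y ∈ Z1 (restrictLevels 𝒩 U hU) (trivRep k ↥U)) :
    ∃ x ∈ Z1 𝒩 (permRep k U), shA1 U x - y ∈ B1 (trivRep k ↥U) := by
  refine ⟨coindA1 y, coindA1_mem hU hy, ?_⟩
  rw [shA1_coindA1 hy.2, sub_self]
  exact (B1 (trivRep k ↥U)).zero_mem


/-! ### Degree 2 -/

omit [Finite (G ⧸ U)] in
lemma shA2_mem_C2 {x : G × G → permRep k U} (hx : x ∈ C2 𝒩 (permRep k U)) :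
    shA2 U x ∈ C2 (restrictLevels 𝒩 U hU) (trivRep k ↥U) := by
  obtain ⟨N, hN, h⟩ := hx
  obtain ⟨N', hN', hle, hleU⟩ := exists_level_le_inf hU N hN
  refine ⟨N'.subgroupOf U, ⟨N', hN', hleU, rfl⟩, fun u v s hs t ht => ?_⟩
  show eps U (x (((u * s : ↥U) : G), ((v * t : ↥U) : G))) = eps U (x ((u : G), (v : G)))
  rw [Subgroup.coe_mul, Subgroup.coe_mul, h _ _ _ (hle (Subgroup.mem_subgroupOf.mp hs)) _
    (hle (Subgroup.mem_subgroupOf.mp ht))]

omit [Finite (G ⧸ U)] in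
lemma d₂₃_shA2 (x : G × G → permRep k U) (u v w : ↥U) :
    (d₂₃ (trivRep k ↥U)).hom (shA2 U x) (u, v, w)
      = eps U ((d₂₃ (permRep k U)).hom x ((u : G), (v : G), (w : G))) := by
  rw [d₂₃_hom_apply, d₂₃_hom_apply, map_sub, map_add, map_sub, eps_ρ_of_mem U u.2]
  rfl

omit [Finite (G ⧸ U)] in
lemma shA2_mem {x : G × G → permRep k U} (hx : x ∈ Z2 𝒩 (permRep k U)) :
    shA2 U x ∈ Z2 (restrictLevels 𝒩 U hU) (trivRep k ↥U) := by
  refine ⟨shA2_mem_C2 hU hx.1, ?_⟩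
  have h2 : (d₂₃ (permRep k U)).hom x = 0 := hx.2
  show (d₂₃ (trivRep k ↥U)).hom (shA2 U x) = 0
  funext ⟨u, v, w⟩
  rw [d₂₃_shA2, h2]
  exact map_zero _

omit [Finite (G ⧸ U)] in
/-- the `2`-cocycle relation, coefficientwise -/
lemma cf_z2 {x : G × G → permRep k U} (hx : (d₂₃ (permRep k U)).hom x = 0) (g₁ g₂ g₃ : G)
    (i : G ⧸ U) :
    cf U (g₁⁻¹ • i) (x (g₂, g₃)) - cf U i (x (g₁ * g₂, g₃)) + cf U i (x (g₁, g₂ * g₃))
      - cf U i (x (g₁, g₂)) = 0 := by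
  have h := congrArg (cf U i) (z2_apply (permRep k U) hx g₁ g₂ g₃)
  rwa [map_sub, map_add, map_sub, cf_ρ, map_zero] at h

/-- the homotopy: a level `1`-cochain `z` of `G` with `d z = x` if `x` is a cocycle with
`sh x = d y` -/
def prismA2 (y : ↥U → trivRep k ↥U) (x : G × G → permRep k U) : G → permRep k U :=
  fun a => ofFun U (fun i => y (cocyc U a i)
    - cf U i (x (cosetRep U i, (cocyc U a i : G)))
    + cf U i (x (a, cosetRep U (a⁻¹ • i))))

lemma cf_prismA2 (y : ↥U → trivRep k ↥U) (x : G × G → permRep k U) (a : G) (i : G ⧸ U) :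
    cf U i (prismA2 y x a) = y (cocyc U a i)
      - cf U i (x (cosetRep U i, (cocyc U a i : G)))
      + cf U i (x (a, cosetRep U (a⁻¹ • i))) := by
  rw [prismA2, cf_ofFun]

lemma prismA2_mem_C1 {y : ↥U → trivRep k ↥U}
    (hy : y ∈ C1 (restrictLevels 𝒩 U hU) (trivRep k ↥U))
    {x : G × G → permRep k U} (hx : x ∈ C2 𝒩 (permRep k U)) :
    prismA2 y x ∈ C1 𝒩 (permRep k U) := by
  obtain ⟨N', ⟨N₁, hN₁, hN₁U, rfl⟩, h₁⟩ := hy
  obtain ⟨N₂, hN₂, h₂⟩ := hx
  obtain ⟨N, hN, hle₁, hle₂⟩ := exists_level_le hN₁ hN₂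
  refine ⟨N, hN, fun g s hs => ?_⟩
  have : N.Normal := 𝒩.normal N hN
  have hNU : N ≤ U := hle₁.trans hN₁U
  refine permRep_ext U fun i => ?_
  have hc : cocyc U (g * s) i = cocyc U g i * cocyc U s (g⁻¹ • i) := cocyc_mul U g s i
  have hcN : (cocyc U s (g⁻¹ • i) : G) ∈ N := cocyc_mem_of_mem hNU hs _
  have hsm : (g * s)⁻¹ • i = g⁻¹ • i := by
    rw [mul_inv_rev, mul_smul, smul_coset_eq_of_mem hNU (N.inv_mem hs)]
  rw [cf_prismA2, cf_prismA2, hc, hsm]
  have e1 : y (cocyc U g i * cocyc U s (g⁻¹ • i)) = y (cocyc U g i) :=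
    h₁ _ _ (Subgroup.mem_subgroupOf.mpr (hle₁ hcN))
  have e2 : x (cosetRep U i, ((cocyc U g i * cocyc U s (g⁻¹ • i) : ↥U) : G))
      = x (cosetRep U i, (cocyc U g i : G)) := by
    have := h₂ (cosetRep U i) (cocyc U g i : G) 1 (N₂.one_mem) _ (hle₂ hcN)
    rwa [mul_one] at this
  have e3 : x (g * s, cosetRep U (g⁻¹ • i)) = x (g, cosetRep U (g⁻¹ • i)) := by
    have := h₂ g (cosetRep U (g⁻¹ • i)) s (hle₂ hs) 1 (N₂.one_mem)
    rwa [mul_one] at this
  rw [e1, e2, e3]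

/-- the key computation: `d (prismA2 y x) = x` -/
lemma d₁₂_prismA2 {y : ↥U → trivRep k ↥U} {x : G × G → permRep k U}
    (hx : (d₂₃ (permRep k U)).hom x = 0)
    (hxy : (d₁₂ (trivRep k ↥U)).hom y = shA2 U x) :
    (d₁₂ (permRep k U)).hom (prismA2 y x) = x := by
  funext ⟨a, b⟩
  rw [d₁₂_hom_apply]
  refine permRep_ext U fun i => ?_
  rw [map_add, map_sub, cf_ρ, cf_prismA2, cf_prismA2, cf_prismA2]
  have hl : (a * b)⁻¹ • i = b⁻¹ • a⁻¹ • i := by rw [mul_inv_rev, mul_smul]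
  rw [hl, cocyc_mul, Subgroup.coe_mul]
  -- the value of `d y`
  have h0 : y (cocyc U b (a⁻¹ • i)) - y (cocyc U a i * cocyc U b (a⁻¹ • i)) + y (cocyc U a i)
      = cf U (e₀ U) (x ((cocyc U a i : G), (cocyc U b (a⁻¹ • i) : G))) := by
    have := congrFun hxy (cocyc U a i, cocyc U b (a⁻¹ • i))
    rw [d₁₂_hom_apply] at this
    exact this
  -- group identities
  have g1 : cosetRep U i * (cocyc U a i : G) = a * cosetRep U (a⁻¹ • i) := by
    rw [coe_cocyc]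
    simp only [mul_assoc, mul_inv_cancel_left]
  have g2 : cosetRep U (a⁻¹ • i) * (cocyc U b (a⁻¹ • i) : G)
      = b * cosetRep U (b⁻¹ • a⁻¹ • i) := by
    rw [coe_cocyc]
    simp only [mul_assoc, mul_inv_cancel_left]
  have g0 : (cosetRep U i)⁻¹ • i = e₀ U := by
    rw [inv_smul_eq_iff, cosetRep_smul_e₀]
  have h1 := cf_z2 hx (cosetRep U i) (cocyc U a i : G) (cocyc U b (a⁻¹ • i) : G) i
  rw [g0, g1] at h1
  have h2 := cf_z2 hx a (cosetRep U (a⁻¹ • i)) (cocyc U b (a⁻¹ • i) : G) i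
  rw [g2] at h2
  have h3 := cf_z2 hx a b (cosetRep U (b⁻¹ • a⁻¹ • i)) i
  linear_combination h0 + h1 - h2 + h3

/-- SHAPIRO, injectivity on `H^2`. -/
theorem shA2_inj {x : G × G → permRep k U} (hx : x ∈ Z2 𝒩 (permRep k U))
    (h : shA2 U x ∈ B2 (restrictLevels 𝒩 U hU) (trivRep k ↥U)) : x ∈ B2 𝒩 (permRep k U) := by
  obtain ⟨y, hy, hxy⟩ := h
  exact ⟨prismA2 y x, prismA2_mem_C1 hU hy hx.1, d₁₂_prismA2 hx.2 hxy⟩

end Finite

end Fermat.Agent.S55.helper53
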