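import Fermat.Agent.S55.ABasic

/-!
# S55 module SH: abstract transport of `Claim` along Shapiro-type data (helper53)

Two abstract settings are given: `(G, 𝒩, L, φ : A × B → C, tr)` and
`(G', 𝒩', L', φ' : A' × B' → C', tr')` (in the application: `G = G_ℚ`, `A = k[G/U]`,
`B = A^*(χ)`, `C = k(χ)` and `G' = U`, `A' = B' = C' = k`, `tr' = tr ∘ cor`).

`ShTransport` packages cochain maps `s_i : C^i(G, A) → C^i(G', A')` (`i = 0, 1, 2`) and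
`c_j : C_c^j(L, B) → C_c^j(L', B')` (`j = 1, 2, 3`) together with exactly those properties
(cocycles to cocycles, injectivity / surjectivity on cohomology in the degrees needed, and the
projection formulas `tr (x ∪ y) = tr' (s x ∪ c y)` on cocycles) which imply

  `claim_of_shTransport : Claim L' φ' tr' → Claim L φ tr`.

No finiteness and no smoothness of `A, B, C` is used; on the primed side `B'` is smooth and `tr'`
kills cone coboundaries.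
-/

set_option autoImplicit false

universe u

open groupCohomology

noncomputable section

namespace Fermat.Agent.S55.helper53

open Fermat.Agent.S55

section LinearAlgebra

variable {k : Type*} [Field k] {V V' : Type*} [AddCommGroup V] [Module k V]
  [AddCommGroup V'] [Module k V']

/-- Transport of a functional along a map which is injective modulo "coboundaries":
if `ψ` kills `Bd` and `c y ∈ Bd'` implies `y ∈ Bd` for `y ∈ Z`, then there is a functional `ψ'`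
killing `Bd'` with `ψ' (c y) = ψ y` on `Z`. -/
theorem exists_functional_comp (Z Bd : Submodule k V) (Bd' : Submodule k V') (c : V →ₗ[k] V')
    (ψ : V →ₗ[k] k) (hψ : ∀ y ∈ Bd, ψ y = 0) (hinj : ∀ y ∈ Z, c y ∈ Bd' → y ∈ Bd) :
    ∃ ψ' : V' →ₗ[k] k, (∀ b ∈ Bd', ψ' b = 0) ∧ ∀ y ∈ Z, ψ' (c y) = ψ y := by
  -- the map `f : Z → V' / Bd'`
  let f : ↥Z →ₗ[k] V' ⧸ Bd' := (Bd'.mkQ.comp c).comp Z.subtype
  let ψZ : ↥Z →ₗ[k] k := ψ.comp Z.subtype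
  have hker : LinearMap.ker f ≤ LinearMap.ker ψZ := by
    intro y hy
    have h1 : Bd'.mkQ (c y.1) = 0 := hy
    rw [Submodule.mkQ_apply, Submodule.Quotient.mk_eq_zero] at h1
    exact hψ _ (hinj y.1 y.2 h1)
  -- the functional on the range of `f`
  let g₀ : ↥(LinearMap.range f) →ₗ[k] k :=
    ((LinearMap.ker f).liftQ ψZ hker).comp f.quotKerEquivRange.symm.toLinearMap
  obtain ⟨g, hg⟩ := LinearMap.exists_extend g₀
  refine ⟨g.comp Bd'.mkQ, fun b hb => ?_, fun y hy => ?_⟩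
  · have : Bd'.mkQ b = 0 := by
      rw [Submodule.mkQ_apply, Submodule.Quotient.mk_eq_zero]
      exact hb
    rw [LinearMap.comp_apply, this, map_zero]
  · have h1 : g (f ⟨y, hy⟩) = g₀ ⟨f ⟨y, hy⟩, LinearMap.mem_range_self f _⟩ := by
      have := LinearMap.congr_fun hg ⟨f ⟨y, hy⟩, LinearMap.mem_range_self f _⟩
      exact this
    have h2 : f.quotKerEquivRange.symm ⟨f ⟨y, hy⟩, LinearMap.mem_range_self f _⟩
        = Submodule.Quotient.mk ⟨y, hy⟩ := by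
      rw [LinearEquiv.symm_apply_eq]
      rfl
    show g (f ⟨y, hy⟩) = ψ y
    rw [h1]
    show ((LinearMap.ker f).liftQ ψZ hker)
      (f.quotKerEquivRange.symm ⟨f ⟨y, hy⟩, LinearMap.mem_range_self f _⟩) = ψ y
    rw [h2]
    rfl

end LinearAlgebra

variable {k G G' : Type u} [Field k] [Group G] [Group G']
  {𝒩 : Levels G} {𝒩' : Levels G'} {ι ι' : Type}

/-- SHAPIRO-TYPE TRANSPORT DATA between `(L, φ, tr)` and `(L', φ', tr')`. -/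
structure ShTransport (L : LocalData G 𝒩 ι) {A B C : Rep.{u} k G} (φ : EqPairing A B C)
    (tr : CcAmb3 L C →ₗ[k] k)
    (L' : LocalData G' 𝒩' ι') {A' B' C' : Rep.{u} k G'} (φ' : EqPairing A' B' C')
    (tr' : CcAmb3 L' C' →ₗ[k] k) where
  /-- the map on `0`-cochains -/
  s0 : A → A'
  /-- the map on `1`-cochains -/
  s1 : (G → A) → (G' → A')
  /-- the map on `2`-cochains -/
  s2 : (G × G → A) → (G' × G' → A')
  /-- the map on cone `1`-cochains -/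
  c1 : CcAmb1 L B → CcAmb1 L' B'
  /-- the map on cone `2`-cochains -/
  c2 : CcAmb2 L B →ₗ[k] CcAmb2 L' B'
  /-- the map on cone `3`-cochains -/
  c3 : CcAmb3 L B →ₗ[k] CcAmb3 L' B'
  s0_mem : ∀ a ∈ H0 A, s0 a ∈ H0 A'
  s1_mem : ∀ x ∈ Z1 𝒩 A, s1 x ∈ Z1 𝒩' A'
  s2_mem : ∀ x ∈ Z2 𝒩 A, s2 x ∈ Z2 𝒩' A'
  /-- `H^0(A) → H^0(A')` is surjective -/
  s0_surj : ∀ a' ∈ H0 A', ∃ a ∈ H0 A, s0 a = a'
  /-- `H^1(A) → H^1(A')` is injective -/
  s1_inj : ∀ x ∈ Z1 𝒩 A, s1 x ∈ B1 A' → x ∈ B1 A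
  /-- `H^1(A) → H^1(A')` is surjective -/
  s1_surj : ∀ x' ∈ Z1 𝒩' A', ∃ x ∈ Z1 𝒩 A, s1 x - x' ∈ B1 A'
  /-- `H^2(A) → H^2(A')` is injective -/
  s2_inj : ∀ x ∈ Z2 𝒩 A, s2 x ∈ B2 𝒩' A' → x ∈ B2 𝒩 A
  /-- `H_c^1(B) → H_c^1(B')` is surjective -/
  c1_surj : ∀ y' ∈ Zc1 L' B', ∃ y ∈ Zc1 L B, c1 y - y' ∈ Bc1 L' B'
  /-- `H_c^2(B) → H_c^2(B')` is injective -/
  c2_inj : ∀ y ∈ Zc2 L B, c2 y ∈ Bc2 L' B' → y ∈ Bc2 L B
  /-- `H_c^2(B) → H_c^2(B')` is surjective -/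
  c2_surj : ∀ y' ∈ Zc2 L' B', ∃ y ∈ Zc2 L B, c2 y - y' ∈ Bc2 L' B'
  c2_mem : ∀ y ∈ Zc2 L B, c2 y ∈ Zc2 L' B'
  /-- `H_c^3(B) → H_c^3(B')` is injective -/
  c3_inj : ∀ y ∈ Zc3 L B, c3 y ∈ Bc3 L' B' → y ∈ Bc3 L B
  c3_mem : ∀ y ∈ Zc3 L B, c3 y ∈ Zc3 L' B'
  /-- projection formula in bidegree `(0, 3)` -/
  key03 : ∀ a ∈ H0 A, ∀ y ∈ Zc3 L B, tr (cupc₀₃ L φ a y) = tr' (cupc₀₃ L' φ' (s0 a) (c3 y))
  /-- projection formula in bidegree `(1, 2)` -/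
  key12 : ∀ x ∈ Z1 𝒩 A, ∀ y ∈ Zc2 L B, tr (cupc₁₂ L φ x y) = tr' (cupc₁₂ L' φ' (s1 x) (c2 y))
  /-- projection formula in bidegree `(2, 1)` -/
  key21 : ∀ x ∈ Z2 𝒩 A, ∀ y ∈ Zc1 L B, tr (cupc₂₁ L φ x y) = tr' (cupc₂₁ L' φ' (s2 x) (c1 y))

namespace ShTransport

variable {L : LocalData G 𝒩 ι} {A B C : Rep.{u} k G} {φ : EqPairing A B C}
  {tr : CcAmb3 L C →ₗ[k] k}
  {L' : LocalData G' 𝒩' ι'} {A' B' C' : Rep.{u} k G'} {φ' : EqPairing A' B' C'}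
  {tr' : CcAmb3 L' C' →ₗ[k] k}

theorem surj0 (D : ShTransport L φ tr L' φ' tr') (h : Surj0 L' φ' tr') : Surj0 L φ tr := by
  intro ψ hψ
  obtain ⟨ψ', hψ', hψc⟩ := exists_functional_comp (Zc3 L B) (Bc3 L B) (Bc3 L' B') D.c3 ψ hψ
    D.c3_inj
  obtain ⟨a', ha', h1⟩ := h ψ' hψ'
  obtain ⟨a, ha, rfl⟩ := D.s0_surj a' ha'
  refine ⟨a, ha, fun y hy => ?_⟩
  rw [D.key03 a ha y hy, ← h1 _ (D.c3_mem y hy), hψc y hy]

theorem inj1 (D : ShTransport L φ tr L' φ' tr') (hB' : IsSmooth 𝒩' B')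
    (htr' : ∀ c ∈ Bc3 L' C', tr' c = 0) (h : Inj1 L' φ' tr') : Inj1 L φ tr := by
  intro x hx hxy
  refine D.s1_inj x hx (h _ (D.s1_mem x hx) fun y' hy' => ?_)
  obtain ⟨y, hy, w, hw, hwy⟩ := D.c2_surj y' hy'
  have e : y' = D.c2 y - dc₁₂ L' B' w := by rw [hwy]; abel
  rw [e, ← cupL₁₂_apply, map_sub, map_sub, cupL₁₂_apply, cupL₁₂_apply, ← D.key12 x hx y hy,
    hxy y hy, htr' _ (cupc₁₂_dc₁₂_mem_Bc3 L' φ' hB' (D.s1_mem x hx) hw), sub_zero]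

theorem surj1 (D : ShTransport L φ tr L' φ' tr')
    (htr' : ∀ c ∈ Bc3 L' C', tr' c = 0) (h : Surj1 L' φ' tr') : Surj1 L φ tr := by
  intro ψ hψ
  obtain ⟨ψ', hψ', hψc⟩ := exists_functional_comp (Zc2 L B) (Bc2 L B) (Bc2 L' B') D.c2 ψ hψ
    D.c2_inj
  obtain ⟨x', hx', h1⟩ := h ψ' hψ'
  obtain ⟨x, hx, a, ha⟩ := D.s1_surj x' hx'
  refine ⟨x, hx, fun y hy => ?_⟩
  have e : D.s1 x = x' + (d₀₁ A').hom a := by rw [ha]; abel
  rw [D.key12 x hx y hy, e, ← cupL₁₂_apply, map_add, LinearMap.add_apply, map_add,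
    cupL₁₂_apply, cupL₁₂_apply, htr' _ (cupc₁₂_d₀₁_mem_Bc3 L' φ' a (D.c2_mem y hy)), add_zero,
    ← h1 _ (D.c2_mem y hy), hψc y hy]

theorem inj2 (D : ShTransport L φ tr L' φ' tr') (hB' : IsSmooth 𝒩' B')
    (htr' : ∀ c ∈ Bc3 L' C', tr' c = 0) (h : Inj2 L' φ' tr') : Inj2 L φ tr := by
  intro x hx hxy
  refine D.s2_inj x hx (h _ (D.s2_mem x hx) fun y' hy' => ?_)
  obtain ⟨y, hy, b, hb⟩ := D.c1_surj y' hy'
  have e : y' = D.c1 y - dc₀₁ L' B' b := by rw [hb]; abel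
  rw [e, ← cupL₂₁_apply, map_sub, map_sub, cupL₂₁_apply, cupL₂₁_apply, ← D.key21 x hx y hy,
    hxy y hy, htr' _ (cupc₂₁_dc₀₁_mem_Bc3 L' φ' hB' (D.s2_mem x hx) b), sub_zero]

/-- TRANSPORT OF THE CLAIM along Shapiro-type data. -/
theorem claim (D : ShTransport L φ tr L' φ' tr') (hB' : IsSmooth 𝒩' B')
    (htr' : ∀ c ∈ Bc3 L' C', tr' c = 0) (h : Claim L' φ' tr') : Claim L φ tr :=
  ⟨D.surj0 h.surj0, D.inj1 hB' htr' h.inj1, D.surj1 htr' h.surj1, D.inj2 hB' htr' h.inj2⟩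

/-- NON-VANISHING OF THE TRANSPORTED TRACE: if `C` is a retract of `B` up to the scalar `n ≠ 0`
through the invariant element `a` (in the application `a = ∑ e_i`, `f 1 =` the constant function,
`n = [G:U]`), and `tr` is nonzero on cone `3`-cocycles, then so is `tr'`. -/
theorem exists_ne_zero (D : ShTransport L φ tr L' φ' tr') {a : A} (ha : a ∈ H0 A)
    (f : EqHom C B) (n : k) (hn : n ≠ 0) (hf : ∀ c : C, φ.φ a (f.f c) = n • c)
    (hz : ∃ z ∈ Zc3 L C, tr z ≠ 0) : ∃ z' ∈ Zc3 L' C', tr' z' ≠ 0 := by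
  obtain ⟨z, hz, hne⟩ := hz
  have hy : ccmap₃ L f.f z ∈ Zc3 L B := ccmap₃_mem_Zc3 L f hz
  have e : cupc₀₃ L φ a (ccmap₃ L f.f z) = n • z := by
    refine Prod.ext ?_ ?_
    · funext g
      exact hf _
    · funext v s
      exact hf _
  have hs0 : ∀ g : G', A'.ρ g (D.s0 a) = D.s0 a := (mem_H0).1 (D.s0_mem a ha)
  let F : EqHom B' C' := ⟨φ'.φ (D.s0 a), fun g b => by
    have h := φ'.equivariant g (D.s0 a) b
    rw [hs0 g] at h
    exact h⟩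
  refine ⟨cupc₀₃ L' φ' (D.s0 a) (D.c3 (ccmap₃ L f.f z)), ?_, ?_⟩
  · exact ccmap₃_mem_Zc3 L' F (D.c3_mem _ hy)
  · rw [← D.key03 a ha _ hy, e, map_smul, smul_eq_mul]
    exact mul_ne_zero hn hne

end ShTransport

end Fermat.Agent.S55.helper53
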