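import Fermat.Agent.S55.helper78_G9Defs

/-!
# S55 / GLOB-G9 package A4 (helper56, task 403): comparison with Mathlib's `groupCohomology.H2`

For `G M : Type`, `M` a commutative group with a `MulDistribMulAction` of `G`:

* `h2ClassHom G M : Z2 G M →* Multiplicative (H2 (Rep.ofMulDistribMulAction G M))`, the class
  map, surjective (`h2ClassHom_surjective`) with kernel `B²` (`h2ClassHom_ker`);
* **`natCard_H2_eq_h2card`** : `Nat.card (H2 (Rep.ofMulDistribMulAction G M)) = h2card G M`;
* **`finite_H2_of_h2card_ne_zero`**.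
-/

set_option autoImplicit false
set_option linter.unusedSectionVars false

open groupCohomology

namespace Fermat.Agent.S55.helper56

open Fermat.Agent.S55.helper78

section A4

variable (G M : Type) [Group G] [CommGroup M] [MulDistribMulAction G M]

/-- The class map `Z²(G, M) → H²(G, M)` (Mathlib's `H2`), as a group homomorphism. -/
noncomputable def h2ClassHom :
    Z2 G M →* Multiplicative (H2 (Rep.ofMulDistribMulAction G M)) where
  toFun f := Multiplicative.ofAdd
    (H2π (Rep.ofMulDistribMulAction G M) (cocyclesOfIsMulCocycle₂ (mem_Z2.mp f.2)))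
  map_one' := by
    have : cocyclesOfIsMulCocycle₂ (mem_Z2.mp (1 : Z2 G M).2) =
        (0 : cocycles₂ (Rep.ofMulDistribMulAction G M)) := Subtype.ext rfl
    rw [this, map_zero]
    rfl
  map_mul' f f' := by
    have : cocyclesOfIsMulCocycle₂ (mem_Z2.mp (f * f').2) =
        cocyclesOfIsMulCocycle₂ (mem_Z2.mp f.2) + cocyclesOfIsMulCocycle₂ (mem_Z2.mp f'.2) :=
      Subtype.ext rfl
    rw [this, map_add]
    rfl

lemma h2ClassHom_apply (f : Z2 G M) :
    h2ClassHom G M f = Multiplicative.ofAdd
      (H2π (Rep.ofMulDistribMulAction G M) (cocyclesOfIsMulCocycle₂ (mem_Z2.mp f.2))) := rfl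

lemma h2ClassHom_surjective : Function.Surjective (h2ClassHom G M) := by
  have key : ∀ t : H2 (Rep.ofMulDistribMulAction G M),
      ∃ f : Z2 G M, h2ClassHom G M f = Multiplicative.ofAdd t := by
    intro t
    refine H2_induction_on t (fun x => ?_)
    have hx := isMulCocycle₂_of_mem_cocycles₂ (G := G) (M := M) x.1 x.2
    refine ⟨⟨_, mem_Z2.mpr hx⟩, ?_⟩
    rw [h2ClassHom_apply]
    have : cocyclesOfIsMulCocycle₂ hx = x := Subtype.ext rfl
    rw [this]
  intro y
  exact key (Multiplicative.toAdd y)

lemma h2ClassHom_ker : (h2ClassHom G M).ker = (B2 G M).subgroupOf (Z2 G M) := by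
  ext f
  rw [MonoidHom.mem_ker, Subgroup.mem_subgroupOf, mem_B2, h2ClassHom_apply]
  have h1 : Multiplicative.ofAdd (H2π (Rep.ofMulDistribMulAction G M)
      (cocyclesOfIsMulCocycle₂ (mem_Z2.mp f.2))) = 1 ↔
      H2π (Rep.ofMulDistribMulAction G M) (cocyclesOfIsMulCocycle₂ (mem_Z2.mp f.2)) = 0 :=
    Iff.rfl
  rw [h1, H2π_eq_zero_iff]
  constructor
  · intro h
    exact isMulCoboundary₂_of_mem_coboundaries₂ (M := M) (G := G) _ h
  · intro h
    exact (coboundariesOfIsMulCoboundary₂ h).2

theorem natCard_H2_eq_h2card :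
    Nat.card (H2 (Rep.ofMulDistribMulAction G M)) = h2card G M := by
  have e := QuotientGroup.quotientKerEquivOfSurjective (h2ClassHom G M)
    (h2ClassHom_surjective G M)
  have h1 : Nat.card (H2 (Rep.ofMulDistribMulAction G M)) =
      Nat.card (Multiplicative (H2 (Rep.ofMulDistribMulAction G M))) := rfl
  rw [h1, ← Nat.card_congr e.toEquiv, ← Subgroup.index_eq_card, h2ClassHom_ker]
  rfl

theorem finite_H2_of_h2card_ne_zero (h : h2card G M ≠ 0) :
    Finite (H2 (Rep.ofMulDistribMulAction G M)) := by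
  rw [← natCard_H2_eq_h2card] at h
  exact Nat.finite_of_card_ne_zero h

end A4

end Fermat.Agent.S55.helper56
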