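import Mathlib

/-!
# S55 / LOC-5x (helper57): common overfields

Two finite extensions `M₁`, `M₂` of `L` (finite over `K`, characteristic zero) embed into a
common finite Galois extension `M` of `K`, compatibly with `L`.  Exact statement of
`exists_common_overfield` in helper8's LOC interface v1.

Construction: `Ω = AlgebraicClosure M₁`, `M₂ → Ω` an `L`-embedding (`IsAlgClosed.lift`),
`M` = normal closure in `Ω` of the compositum of the images of `M₁` and `M₂`.
-/

set_option autoImplicit false

namespace Fermat.Agent.S55.helper57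

open IntermediateField

/-- two finite extensions `M₁`, `M₂` of `L` (finite over `K`, characteristic zero) embed into a
common finite Galois extension `M` of `K`, compatibly with `L` -/
theorem exists_common_overfield (K L M₁ M₂ : Type) [Field K] [Field L] [Field M₁] [Field M₂]
    [CharZero K] [Algebra K L] [Algebra K M₁] [Algebra K M₂] [Algebra L M₁] [Algebra L M₂]
    [IsScalarTower K L M₁] [IsScalarTower K L M₂] [FiniteDimensional K M₁]
    [FiniteDimensional K M₂] :
    ∃ (M : Type) (_ : Field M) (_ : Algebra K M) (_ : Algebra L M) (_ : Algebra M₁ M)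
      (_ : Algebra M₂ M), IsScalarTower K L M ∧ IsScalarTower K M₁ M ∧ IsScalarTower K M₂ M ∧
        IsScalarTower L M₁ M ∧ IsScalarTower L M₂ M ∧ FiniteDimensional K M ∧ IsGalois K M := by
  classical
  have hfinL₂ : FiniteDimensional L M₂ := Module.Finite.of_restrictScalars_finite K L M₂
  let Ω := AlgebraicClosure M₁
  -- the embeddings into `Ω`
  let f₁ : M₁ →ₐ[L] Ω := IsScalarTower.toAlgHom L M₁ Ω
  let f₂ : M₂ →ₐ[L] Ω := IsAlgClosed.lift
  let h₁ : M₁ →ₐ[K] Ω := f₁.restrictScalars K
  let h₂ : M₂ →ₐ[K] Ω := f₂.restrictScalars K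
  let E₁ : IntermediateField K Ω := h₁.fieldRange
  let E₂ : IntermediateField K Ω := h₂.fieldRange
  have hE₁ : FiniteDimensional K E₁ := (AlgEquiv.ofInjectiveField h₁).toLinearEquiv.finiteDimensional
  have hE₂ : FiniteDimensional K E₂ := (AlgEquiv.ofInjectiveField h₂).toLinearEquiv.finiteDimensional
  let E₀ : IntermediateField K Ω := E₁ ⊔ E₂
  have hE₀ : FiniteDimensional K E₀ := IntermediateField.finiteDimensional_sup E₁ E₂
  let E : IntermediateField K Ω := IntermediateField.normalClosure K E₀ Ω
  have hEfin : FiniteDimensional K E := normalClosure.is_finiteDimensional K E₀ Ω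
  have hEnorm : Normal K E := normalClosure.normal K E₀ Ω
  have hEsep : Algebra.IsSeparable K E := Algebra.IsAlgebraic.isSeparable_of_perfectField
  have hEgal : IsGalois K E := ⟨⟩
  have hle : E₀ ≤ E := IntermediateField.le_normalClosure E₀
  have hm₁ : ∀ x : M₁, h₁ x ∈ E := fun x =>
    hle ((le_sup_left : E₁ ≤ E₀) (AlgHom.mem_fieldRange.mpr ⟨x, rfl⟩))
  have hm₂ : ∀ x : M₂, h₂ x ∈ E := fun x =>
    hle ((le_sup_right : E₂ ≤ E₀) (AlgHom.mem_fieldRange.mpr ⟨x, rfl⟩))
  let g₁ : M₁ →ₐ[K] E := h₁.codRestrict E.toSubalgebra hm₁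
  let g₂ : M₂ →ₐ[K] E := h₂.codRestrict E.toSubalgebra hm₂
  let a₁ : Algebra M₁ E := g₁.toRingHom.toAlgebra
  let a₂ : Algebra M₂ E := g₂.toRingHom.toAlgebra
  let aL : Algebra L E := (g₁.toRingHom.comp (algebraMap L M₁)).toAlgebra
  have t₁ : IsScalarTower K M₁ E := IsScalarTower.of_algebraMap_eq fun x => (g₁.commutes x).symm
  have t₂ : IsScalarTower K M₂ E := IsScalarTower.of_algebraMap_eq fun x => (g₂.commutes x).symm
  have tL₁ : IsScalarTower L M₁ E := IsScalarTower.of_algebraMap_eq fun x => rfl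
  have tL₂ : IsScalarTower L M₂ E := IsScalarTower.of_algebraMap_eq fun x => by
    apply Subtype.ext
    change (algebraMap M₁ Ω) (algebraMap L M₁ x) = f₂ (algebraMap L M₂ x)
    rw [f₂.commutes, ← IsScalarTower.algebraMap_apply]
  have tKL : IsScalarTower K L E := IsScalarTower.of_algebraMap_eq fun x => by
    change algebraMap K E x = g₁ (algebraMap L M₁ (algebraMap K L x))
    rw [← IsScalarTower.algebraMap_apply K L M₁, g₁.commutes]
  exact ⟨E, inferInstance, inferInstance, aL, a₁, a₂, tKL, t₁, t₂, tL₁, tL₂, hEfin, hEgal⟩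

end Fermat.Agent.S55.helper57
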