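import Mathlib
import Fermat.Agent.S55.helper71_LocResidue

/-!
# S55 / REC1 (helper71): density of a generating subfield of a `q`-adic field

`K` a finite extension of `ℚ_[q]`, `F` a field with `[Algebra F K]` whose image generates `K`
as a `ℚ_[q]`-algebra (`Algebra.adjoin ℚ_[q] (Set.range (algebraMap F K)) = ⊤`, the density
hypotheses `denseK`, `denseL` of `helper11.LocDatum`).

* `exists_spectralNorm_sub_lt`, `exists_le_ordT_sub` : the image of `F` is dense;
* `spectralNorm_eq_of_sub_lt` : `|x - y| < |x| → |y| = |x|`;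
* `exists_ord_map_eq`, `exists_ord_map_eq_one` : `ord` takes all its values on `Fˣ`; in
  particular `F` contains a uniformiser of `K`.
-/

set_option autoImplicit false
set_option linter.unusedSectionVars false
set_option linter.style.haveILetI false

namespace Fermat.Agent.S55.helper71

open Fermat.Agent.S55.helper8 Fermat.Agent.S55.helper33

section Approx

variable (q : ℕ) [Fact q.Prime]
variable (K : Type) [Field K] [Algebra ℚ_[q] K] [FiniteDimensional ℚ_[q] K]
variable (F : Type) [Field F] [Algebra F K]

/-- **density**: if the image of `F` generates the `q`-adic field `K` over `ℚ_[q]`, then it is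
dense for the spectral norm. -/
theorem exists_spectralNorm_sub_lt
    (h : Algebra.adjoin ℚ_[q] (Set.range (algebraMap F K)) = ⊤) (x : K) {ε : ℝ} (hε : 0 < ε) :
    ∃ a : F, spectralNorm ℚ_[q] K (x - algebraMap F K a) < ε := by
  letI : NormedField K := spectralNorm.normedField ℚ_[q] K
  have hnorm : ∀ z : K, ‖z‖ = spectralNorm ℚ_[q] K z := fun _ => rfl
  -- the closure of the image of `F`
  let s : Subring K := (algebraMap F K).range
  have hcont : Continuous (algebraMap ℚ_[q] K) := by
    have hiso : Isometry (algebraMap ℚ_[q] K) := by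
      refine AddMonoidHomClass.isometry_of_norm _ (fun r => ?_)
      rw [hnorm, spectralNorm_extends]
    exact hiso.continuous
  have hQ : ∀ r : ℚ_[q], algebraMap ℚ_[q] K r ∈ s.topologicalClosure := by
    intro r
    have hr : r ∈ closure (Set.range (Rat.cast : ℚ → ℚ_[q])) := by
      rw [(Padic.denseRange_ratCast q).closure_range]
      exact Set.mem_univ r
    refine map_mem_closure hcont hr ?_
    rintro _ ⟨c, rfl⟩
    refine ⟨(c : F), ?_⟩
    rw [map_ratCast, map_ratCast]
  let A : Subalgebra ℚ_[q] K :=
    { s.topologicalClosure with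
      algebraMap_mem' := hQ }
  have hA : Algebra.adjoin ℚ_[q] (Set.range (algebraMap F K)) ≤ A := by
    refine Algebra.adjoin_le ?_
    rintro _ ⟨a, rfl⟩
    exact s.le_topologicalClosure ⟨a, rfl⟩
  have hx : x ∈ closure (s : Set K) := by
    have : x ∈ A := hA (by rw [h]; exact Algebra.mem_top)
    exact this
  obtain ⟨y, ⟨a, rfl⟩, hy⟩ := Metric.mem_closure_iff.mp hx ε hε
  refine ⟨a, ?_⟩
  rw [← hnorm, ← dist_eq_norm]
  exact hy

/-- density, `ordT` form -/
theorem exists_le_ordT_sub
    (h : Algebra.adjoin ℚ_[q] (Set.range (algebraMap F K)) = ⊤) (x : K) (n : ℤ) :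
    ∃ a : F, (n : WithTop ℤ) ≤ ordT q K (x - algebraMap F K a) := by
  obtain ⟨a, ha⟩ := exists_spectralNorm_sub_lt q K F h x (zpow_pos (rho_pos q K) n)
  exact ⟨a, (le_ordT_iff q K _ n).mpr ha.le⟩

/-- ultrametric: an element close to `x` has the same spectral norm as `x` -/
theorem spectralNorm_eq_of_sub_lt {x y : K}
    (h : spectralNorm ℚ_[q] K (x - y) < spectralNorm ℚ_[q] K x) :
    spectralNorm ℚ_[q] K y = spectralNorm ℚ_[q] K x := by
  apply le_antisymm
  · have h1 : y = x - (x - y) := by ring
    have h2 := spectralNorm_sub_le q K x (x - y)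
    rw [← h1, max_eq_left h.le] at h2
    exact h2
  · by_contra hcon
    rw [not_le] at hcon
    have h1 : x = (x - y) + y := by ring
    have h2 := spectralNorm_add_le q K (x - y) y
    rw [← h1] at h2
    exact absurd h2 (not_le.mpr (max_lt h hcon))

/-- every value of `ord` is taken on the image of `F` -/
theorem exists_ord_map_eq
    (h : Algebra.adjoin ℚ_[q] (Set.range (algebraMap F K)) = ⊤) (u : Kˣ) :
    ∃ a : Fˣ, ord q K (Units.map (algebraMap F K : F →* K) a) = ord q K u := by
  have hu : 0 < spectralNorm ℚ_[q] K (u : K) := by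
    rw [spectralNorm_units]
    exact zpow_pos (rho_pos q K) _
  obtain ⟨a, ha⟩ := exists_spectralNorm_sub_lt q K F h (u : K) hu
  have h1 := spectralNorm_eq_of_sub_lt q K ha
  have ha0 : a ≠ 0 := by
    rintro rfl
    rw [map_zero, spectralNorm_zero] at h1
    exact absurd h1 hu.ne
  refine ⟨Units.mk0 a ha0, ?_⟩
  have h2 := spectralNorm_units q K (Units.map (algebraMap F K : F →* K) (Units.mk0 a ha0))
  have h3 : ((Units.map (algebraMap F K : F →* K) (Units.mk0 a ha0) : Kˣ) : K)
      = algebraMap F K a := rfl
  rw [h3, h1, spectralNorm_units] at h2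
  exact (zpow_right_injective₀ (rho_pos q K) (rho_lt_one q K).ne h2).symm

/-- **(F5)** the image of `F` contains a uniformiser -/
theorem exists_ord_map_eq_one
    (h : Algebra.adjoin ℚ_[q] (Set.range (algebraMap F K)) = ⊤) :
    ∃ a : Fˣ, ord q K (Units.map (algebraMap F K : F →* K) a) = 1 := by
  obtain ⟨π, hπ⟩ := exists_ord_eq_one q K
  obtain ⟨a, ha⟩ := exists_ord_map_eq q K F h π
  exact ⟨a, ha.trans hπ⟩

end Approx

end Fermat.Agent.S55.helper71
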