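import Mathlib
import Fermat.Agent.S55.helper7_LocUnram
import Fermat.Agent.S55.helper71_RecApprox

/-!
# S55 / REC1 (helper71): the place of a number field induced by a dense embedding into a
`q`-adic field

`F` a number field, `K` a finite extension of `ℚ_[q]`, `[Algebra F K]` with
`hdense : Algebra.adjoin ℚ_[q] (Set.range (algebraMap F K)) = ⊤`, `v` a finite place of `F` with
`hv : ∀ a : 𝓞 F, a ∈ v.asIdeal ↔ 0 < ordT q K (algebraMap F K a)` (`= LocDatum.AtPlace`).

* `ordT_algebraMap_nonneg` (F1): algebraic integers have non-negative valuation;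
* `valuation_eq_exp_neg_ord_of` (F6): `v.valuation F c = exp (- ord (ι c))`;
* `valuation_le_one_iff_ordT`, `valuation_lt_one_iff_ordT`;
* `exists_integer_ordT_sub_pos` (F7): `𝓞 F` surjects onto the residue field of `K`;
* `resInt : 𝓞 F →+* kq q K`, `ker_resInt`, `resInt_surjective`;
* `card_quotient_eq` (F8): `Nat.card (𝓞 F ⧸ v.asIdeal) = q ^ fdeg q K`.
-/

set_option autoImplicit false
set_option linter.unusedSectionVars false
set_option linter.style.haveILetI false

open scoped NumberField
open IsDedekindDomain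

namespace Fermat.Agent.S55.helper71

open Fermat.Agent.S55.helper8 Fermat.Agent.S55.helper33

section Place

variable (q : ℕ) [Fact q.Prime]
variable (K : Type) [Field K] [Algebra ℚ_[q] K] [FiniteDimensional ℚ_[q] K]
variable (F : Type) [Field F] [NumberField F] [Algebra F K]

/-- an element of `K` which is integral over `ℤ` has non-negative valuation -/
theorem ordT_nonneg_of_isIntegral_int {x : K} (hx : IsIntegral ℤ x) : 0 ≤ ordT q K x := by
  letI alg : Algebra ℤ_[q] K :=
    ((algebraMap ℚ_[q] K).comp (algebraMap ℤ_[q] ℚ_[q])).toAlgebra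
  haveI : IsScalarTower ℤ_[q] ℚ_[q] K := IsScalarTower.of_algebraMap_eq (fun _ => rfl)
  have h1 : IsIntegral ℤ_[q] x := hx.tower_top
  have h2 := (isIntegral_iff_spectralNorm_le_one q K x).mp h1
  have h3 := (le_ordT_iff q K x 0).mpr (by rwa [zpow_zero])
  exact_mod_cast h3

/-- **(F1)** the image of an algebraic integer has non-negative valuation -/
theorem ordT_algebraMap_nonneg (a : 𝓞 F) : 0 ≤ ordT q K (algebraMap F K (a : F)) := by
  apply ordT_nonneg_of_isIntegral_int
  have h1 : IsIntegral ℤ (a : F) := NumberField.RingOfIntegers.isIntegral_coe a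
  exact h1.map (algebraMap F K).toIntAlgHom

/-- the valuation `ord ∘ ι` on `Fˣ`, as a homomorphism -/
noncomputable def ordHom : Fˣ →* Multiplicative ℤ where
  toFun c := Multiplicative.ofAdd (ord q K (Units.map (algebraMap F K : F →* K) c))
  map_one' := by
    rw [map_one]
    have := ord_mul q K 1 1
    rw [one_mul] at this
    have h0 : ord q K 1 = 0 := by linarith
    rw [h0]; rfl
  map_mul' c d := by
    rw [map_mul, ord_mul, ofAdd_add]

theorem ordHom_apply (c : Fˣ) :
    Multiplicative.toAdd (ordHom q K F c) = ord q K (Units.map (algebraMap F K : F →* K) c) :=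
  rfl

theorem ordT_algebraMap_unit (c : Fˣ) :
    ordT q K (algebraMap F K (c : F)) =
      ((ord q K (Units.map (algebraMap F K : F →* K) c) : ℤ) : WithTop ℤ) := by
  exact helper97.ordT_unit q K (Units.map (algebraMap F K : F →* K) c)

variable {q K F}
variable (hdense : Algebra.adjoin ℚ_[q] (Set.range (algebraMap F K)) = ⊤)
  (v : HeightOneSpectrum (𝓞 F))
  (hv : ∀ a : 𝓞 F, a ∈ v.asIdeal ↔ 0 < ordT q K (algebraMap F K (a : F)))

include hv in
theorem ordT_eq_zero_of_notMem {r : 𝓞 F} (hr : r ∉ v.asIdeal) :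
    ordT q K (algebraMap F K (r : F)) = 0 := by
  refine le_antisymm ?_ (ordT_algebraMap_nonneg q K F r)
  rw [← not_lt]
  exact fun h => hr ((hv r).mpr h)

include hv in
theorem ordT_eq_zero_of_valuation_eq_one {x : F} (hx : v.valuation F x = 1) :
    ordT q K (algebraMap F K x) = 0 := by
  obtain ⟨n, d, hnd | hnd⟩ := v.exists_primeCompl_mul_eq_or_mul_eq (K := F) x
  · have hd : v.valuation F (algebraMap (𝓞 F) F d) = 1 :=
      (v.valuation_eq_one_iff_notMem (K := F)).mpr d.2
    have hn : n ∉ v.asIdeal := by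
      rw [← v.valuation_eq_one_iff_notMem (K := F), ← hnd, map_mul, hx, hd, mul_one]
    have h1 := ordT_eq_zero_of_notMem v hv hn
    have h2 := ordT_eq_zero_of_notMem v hv d.2
    have h3 : algebraMap F K ((n : 𝓞 F) : F) = algebraMap F K x * algebraMap F K ((d : 𝓞 F) : F) := by
      rw [← map_mul]; congr 1; exact hnd.symm
    rw [h3, helper7.ordT_mul, h2, add_zero] at h1
    exact h1
  · have hd : v.valuation F (algebraMap (𝓞 F) F d) = 1 :=
      (v.valuation_eq_one_iff_notMem (K := F)).mpr d.2
    have hn : n ∉ v.asIdeal := by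
      rw [← v.valuation_eq_one_iff_notMem (K := F)]
      have := congrArg (v.valuation F) hnd
      rw [map_mul, hx, one_mul, hd] at this
      exact this
    have h1 := ordT_eq_zero_of_notMem v hv hn
    have h2 := ordT_eq_zero_of_notMem v hv d.2
    have h3 : algebraMap F K ((d : 𝓞 F) : F) = algebraMap F K x * algebraMap F K ((n : 𝓞 F) : F) := by
      rw [← map_mul]; congr 1; exact hnd.symm
    rw [h3, helper7.ordT_mul, h1, add_zero] at h2
    exact h2

include hdense hv in
/-- **(F6)** the `v`-adic valuation of `F` is `exp (- ord ∘ ι)` -/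
theorem valuation_eq_exp_neg_ord_of (c : Fˣ) :
    v.valuation F (c : F) =
      WithZero.exp (-(ord q K (Units.map (algebraMap F K : F →* K) c))) := by
  classical
  have hvne : ∀ c : Fˣ, v.valuation F (c : F) ≠ 0 :=
    fun c => (Valuation.ne_zero_iff _).mpr c.ne_zero
  have hAexp : ∀ c : Fˣ, v.valuation F (c : F) = WithZero.exp (WithZero.log (v.valuation F (c : F))) :=
    fun c => (WithZero.exp_log (hvne c)).symm
  have hWmul : ∀ c d : Fˣ, ord q K (Units.map (algebraMap F K : F →* K) (c * d))
      = ord q K (Units.map (algebraMap F K : F →* K) c)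
        + ord q K (Units.map (algebraMap F K : F →* K) d) := fun c d => by
    rw [map_mul, ord_mul]
  have hWzpow : ∀ (c : Fˣ) (k : ℤ), ord q K (Units.map (algebraMap F K : F →* K) (c ^ k))
      = k * ord q K (Units.map (algebraMap F K : F →* K) c) := fun c k => by
    have := congrArg Multiplicative.toAdd (map_zpow (ordHom q K F) c k)
    rw [toAdd_zpow] at this
    exact this
  have hAmul : ∀ c d : Fˣ, WithZero.log (v.valuation F ((c * d : Fˣ) : F))
      = WithZero.log (v.valuation F (c : F)) + WithZero.log (v.valuation F (d : F)) :=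
    fun c d => by
      rw [Units.val_mul, map_mul]; exact WithZero.log_mul (hvne c) (hvne d)
  have hAzpow : ∀ (c : Fˣ) (k : ℤ), WithZero.log (v.valuation F ((c ^ k : Fˣ) : F))
      = k * WithZero.log (v.valuation F (c : F)) := fun c k => by
    rw [Units.val_zpow_eq_zpow_val, map_zpow₀, WithZero.log_zpow, smul_eq_mul]
  have key1 : ∀ c : Fˣ, WithZero.log (v.valuation F (c : F)) = 0 →
      ord q K (Units.map (algebraMap F K : F →* K) c) = 0 := by
    intro c hc
    have h1 : v.valuation F (c : F) = 1 := by rw [hAexp, hc, WithZero.exp_zero]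
    have h2 := ordT_eq_zero_of_valuation_eq_one v hv h1
    rw [ordT_algebraMap_unit] at h2
    exact_mod_cast h2
  obtain ⟨π₀, hπ₀⟩ := v.valuation_exists_uniformizer F
  have hπ₀ne : π₀ ≠ 0 := by
    rintro rfl
    rw [map_zero] at hπ₀
    exact WithZero.exp_ne_zero hπ₀.symm
  have hAπ : WithZero.log (v.valuation F ((Units.mk0 π₀ hπ₀ne : Fˣ) : F)) = -1 := by
    rw [Units.val_mk0, hπ₀, WithZero.log_exp]
  have hform : ∀ c : Fˣ, ord q K (Units.map (algebraMap F K : F →* K) c)
      = -(WithZero.log (v.valuation F (c : F)))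
        * ord q K (Units.map (algebraMap F K : F →* K) (Units.mk0 π₀ hπ₀ne)) := by
    intro c
    have h1 : WithZero.log (v.valuation F
        ((c * (Units.mk0 π₀ hπ₀ne) ^ (WithZero.log (v.valuation F (c : F))) : Fˣ) : F)) = 0 := by
      rw [hAmul, hAzpow, hAπ]; ring
    have h2 := key1 _ h1
    rw [hWmul, hWzpow] at h2
    linarith
  obtain ⟨c₀, hc₀⟩ := exists_ord_map_eq_one q K F hdense
  obtain ⟨r, hr, hr0⟩ : ∃ r : 𝓞 F, r ∈ v.asIdeal ∧ r ≠ 0 :=
    Submodule.exists_mem_ne_zero_of_ne_bot v.ne_bot
  have hrF : (r : F) ≠ 0 := by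
    intro h
    exact hr0 (NumberField.RingOfIntegers.coe_eq_zero_iff.mp h)
  have hr1 : WithZero.log (v.valuation F ((Units.mk0 (r : F) hrF : Fˣ) : F)) < 0 := by
    rw [Units.val_mk0, WithZero.log_lt_iff_lt_exp ((Valuation.ne_zero_iff _).mpr hrF),
      WithZero.exp_zero]
    exact (v.valuation_lt_one_iff_mem (K := F) r).mpr hr
  have hr2 : 0 < ord q K (Units.map (algebraMap F K : F →* K) (Units.mk0 (r : F) hrF)) := by
    have := (hv r).mp hr
    rw [show algebraMap F K (r : F) = algebraMap F K ((Units.mk0 (r : F) hrF : Fˣ) : F) from rfl,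
      ordT_algebraMap_unit] at this
    exact_mod_cast this
  have he1 := hform c₀
  rw [hc₀] at he1
  have he2 := hform (Units.mk0 (r : F) hrF)
  set e := ord q K (Units.map (algebraMap F K : F →* K) (Units.mk0 π₀ hπ₀ne)) with he
  have hepos : 0 < e := by
    by_contra hcon
    rw [not_lt] at hcon
    have : -(WithZero.log (v.valuation F ((Units.mk0 (r : F) hrF : Fˣ) : F))) * e ≤ 0 :=
      mul_nonpos_of_nonneg_of_nonpos (by linarith) hcon
    linarith
  have he : e = 1 := by
    have hdvd : e ∣ 1 := ⟨-(WithZero.log (v.valuation F (c₀ : F))), by rw [he1]; ring⟩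
    exact Int.eq_one_of_dvd_one hepos.le hdvd
  have := hform c
  rw [he, mul_one] at this
  rw [this, neg_neg]
  exact hAexp c

include hdense hv in
theorem valuation_le_one_iff_ordT (x : F) :
    v.valuation F x ≤ 1 ↔ 0 ≤ ordT q K (algebraMap F K x) := by
  by_cases hx : x = 0
  · subst hx
    simp [helper7.ordT_zero]
  · have h1 := valuation_eq_exp_neg_ord_of hdense v hv (Units.mk0 x hx)
    have h2 := ordT_algebraMap_unit q K F (Units.mk0 x hx)
    rw [Units.val_mk0] at h1 h2
    rw [h1, h2, ← WithZero.exp_zero, WithZero.exp_le_exp]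
    rw [show (0 : WithTop ℤ) = ((0 : ℤ) : WithTop ℤ) from rfl, WithTop.coe_le_coe]
    omega

include hdense hv in
theorem valuation_lt_one_iff_ordT (x : F) :
    v.valuation F x < 1 ↔ 0 < ordT q K (algebraMap F K x) := by
  by_cases hx : x = 0
  · subst hx
    simp [helper7.ordT_zero]
  · have h1 := valuation_eq_exp_neg_ord_of hdense v hv (Units.mk0 x hx)
    have h2 := ordT_algebraMap_unit q K F (Units.mk0 x hx)
    rw [Units.val_mk0] at h1 h2
    rw [h1, h2, ← WithZero.exp_zero, WithZero.exp_lt_exp]
    rw [show (0 : WithTop ℤ) = ((0 : ℤ) : WithTop ℤ) from rfl, WithTop.coe_lt_coe]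
    omega

include hdense hv in
/-- **(F7)** the integers of `F` surject onto the residue field of `K` -/
theorem exists_integer_ordT_sub_pos (y : K) (hy : 0 ≤ ordT q K y) :
    ∃ a : 𝓞 F, 0 < ordT q K (y - algebraMap F K (a : F)) := by
  obtain ⟨b, hb⟩ := exists_le_ordT_sub q K F hdense y 1
  have hb' : 0 < ordT q K (y - algebraMap F K b) := by
    refine lt_of_lt_of_le ?_ hb
    exact_mod_cast zero_lt_one
  have hb0 : 0 ≤ ordT q K (algebraMap F K b) := by
    have h1 := helper7.ordT_sub_ge q K y (y - algebraMap F K b)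
    rw [sub_sub_cancel] at h1
    exact le_trans (le_min hy hb'.le) h1
  have hvb : v.valuation F b ≤ 1 := (valuation_le_one_iff_ordT hdense v hv b).mpr hb0
  obtain ⟨a, ha⟩ := v.exists_valuation_sub_lt_of_integer hvb 1
  rw [Units.val_one] at ha
  have ha' : 0 < ordT q K (algebraMap F K ((a : F) - b)) :=
    (valuation_lt_one_iff_ordT hdense v hv _).mp ha
  refine ⟨a, ?_⟩
  have h2 : y - algebraMap F K (a : F)
      = (y - algebraMap F K b) - algebraMap F K ((a : F) - b) := by
    rw [map_sub]; ring
  rw [h2]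
  exact helper7.ordT_sub_pos q K hb' ha'

/-- the reduction map `𝓞 F → k_K` -/
noncomputable def resInt : 𝓞 F →+* helper7.kq q K :=
  (helper7.res q K).comp
    (((algebraMap F K).comp (algebraMap (𝓞 F) F)).codRestrict (helper7.Oq q K)
      (fun a => ordT_algebraMap_nonneg q K F a))

theorem resInt_eq_zero_iff (a : 𝓞 F) :
    resInt (q := q) (K := K) (F := F) a = 0 ↔ 0 < ordT q K (algebraMap F K (a : F)) := by
  unfold resInt
  rw [RingHom.comp_apply, helper7.res_eq_zero_iff]
  rfl

include hdense hv in
theorem resInt_surjective : Function.Surjective (resInt (q := q) (K := K) (F := F)) := by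
  intro z
  obtain ⟨y, rfl⟩ := helper7.res_surjective q K z
  obtain ⟨a, ha⟩ := exists_integer_ordT_sub_pos hdense v hv (y : K) y.2
  refine ⟨a, ?_⟩
  unfold resInt
  rw [RingHom.comp_apply, helper7.res_eq_iff, helper7.ordT_sub_comm]
  exact ha

include hv in
theorem ker_resInt : RingHom.ker (resInt (q := q) (K := K) (F := F)) = v.asIdeal := by
  ext a
  rw [RingHom.mem_ker, resInt_eq_zero_iff, hv]

include hdense hv in
/-- **(F8)** the residue field of `v` has `q ^ f` elements -/
theorem card_quotient_eq : Nat.card (𝓞 F ⧸ v.asIdeal) = q ^ fdeg q K := by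
  rw [← helper7.card_residueField q K, ← ker_resInt v hv]
  exact Nat.card_congr
    (RingHom.quotientKerEquivOfSurjective (resInt_surjective hdense v hv)).toEquiv

end Place

end Fermat.Agent.S55.helper71
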