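import Fermat.Agent.S14.helper12_ArtinNorm
import Fermat.Agent.S14.helper12_ArtinFunct
import Fermat.Agent.S55.helper11_RecDefs
import Fermat.Agent.S55.helper71_RecPlace
import Fermat.Agent.S55.helper71_RecDeg

/-!
# S55 / REC1 R-DEC + R-DEG (helper71): decomposition group, Frobenius and valuation of a local
datum

The three interface statements of R-DEC (`helper11_Rec1Interface`, v1.2), verbatim:
`locHom_injective`, `valuation_eq_exp_neg_ord`, `unram_locDatum`; and the interface statement
of R-DEG `finrank_eq_orderOf_frobAt`.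

Generic tools (`F ⊆ M` number fields, `K ⊆ E` `q`-adic fields, compatible dense embeddings):
* `inducedPrime q K F`, `inducedPlace q K F` : the prime of `𝓞 F` induced by `F → K`;
* `inducedPrime_under` : the induced prime of `M → E` lies over the one of `F → K`;
* `ramificationIdx'_eq_one_of_inertia` : trivial inertia group ⇒ ramification index one;
* `isUnram_of_inertia` : trivial inertia at the induced prime ⇒ `IsUnram q K E`;
* `isArithFrobAt_locHom` : the restriction of a local Frobenius is an arithmetic Frobenius at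
  the induced prime.
-/

set_option autoImplicit false
set_option linter.unusedSectionVars false
set_option linter.style.haveILetI false

open scoped NumberField
open IsDedekindDomain

namespace Fermat.Agent.S55.helper71

open Fermat.Agent.S14 Fermat.Agent.S55.helper8 Fermat.Agent.S55.helper11
open Fermat.Agent.S55.helper33

section Induced

variable (q : ℕ) [Fact q.Prime]
variable (K : Type) [Field K] [Algebra ℚ_[q] K] [FiniteDimensional ℚ_[q] K]
variable (F : Type) [Field F] [NumberField F] [Algebra F K]

/-- the prime of `𝓞 F` induced by an embedding of `F` into a `q`-adic field -/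
noncomputable def inducedPrime : Ideal (𝓞 F) :=
  RingHom.ker (resInt (q := q) (K := K) (F := F))

theorem mem_inducedPrime (a : 𝓞 F) :
    a ∈ inducedPrime q K F ↔ 0 < ordT q K (algebraMap F K (a : F)) := by
  unfold inducedPrime
  rw [RingHom.mem_ker, resInt_eq_zero_iff]

instance inducedPrime_isPrime : (inducedPrime q K F).IsPrime :=
  RingHom.ker_isPrime _

theorem inducedPrime_ne_bot : inducedPrime q K F ≠ ⊥ := by
  intro h
  have hq : (q : 𝓞 F) ∈ inducedPrime q K F := by
    rw [mem_inducedPrime]
    have : algebraMap F K (((q : 𝓞 F)) : F) = (q : K) := by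
      simp
    rw [this]
    exact helper7.ordT_q_pos q K
  rw [h, Ideal.mem_bot] at hq
  have : (q : 𝓞 F) ≠ 0 := by
    exact_mod_cast (Fact.out : q.Prime).ne_zero
  exact this hq

/-- the induced place -/
noncomputable def inducedPlace : HeightOneSpectrum (𝓞 F) :=
  ⟨inducedPrime q K F, inferInstance, inducedPrime_ne_bot q K F⟩

theorem mem_inducedPlace (a : 𝓞 F) :
    a ∈ (inducedPlace q K F).asIdeal ↔ 0 < ordT q K (algebraMap F K (a : F)) :=
  mem_inducedPrime q K F a

end Induced

section Under

variable (q : ℕ) [Fact q.Prime]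
variable (K : Type) [Field K] [Algebra ℚ_[q] K] [FiniteDimensional ℚ_[q] K]
variable (E : Type) [Field E] [Algebra ℚ_[q] E] [Algebra K E] [IsScalarTower ℚ_[q] K E]
  [FiniteDimensional K E] [FiniteDimensional ℚ_[q] E]
variable (F M : Type) [Field F] [NumberField F] [Field M] [NumberField M] [Algebra F M]
  [Algebra F K] [Algebra M E] [Algebra F E] [IsScalarTower F M E] [IsScalarTower F K E]

theorem algebraMap_coe_eq (a : 𝓞 F) :
    algebraMap M E ((algebraMap (𝓞 F) (𝓞 M) a : 𝓞 M) : M)
      = algebraMap K E (algebraMap F K (a : F)) := by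
  have h1 : ((algebraMap (𝓞 F) (𝓞 M) a : 𝓞 M) : M) = algebraMap F M (a : F) := rfl
  rw [h1, ← IsScalarTower.algebraMap_apply F M E, IsScalarTower.algebraMap_apply F K E]

/-- (G1) the induced prime of `M → E` lies over the induced prime of `F → K` -/
theorem inducedPrime_under :
    (inducedPrime q E M).under (𝓞 F) = inducedPrime q K F := by
  ext a
  rw [Ideal.under_def, Ideal.mem_comap, mem_inducedPrime, mem_inducedPrime,
    algebraMap_coe_eq K E F M a, helper7.ordT_algebraMap_pos_iff]

variable [IsGalois F M]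

/-- trivial inertia ⇒ ramification index one (Mathlib chain) -/
theorem ramificationIdx'_eq_one_of_inertia (v : HeightOneSpectrum (𝓞 F))
    (w : HeightOneSpectrum (𝓞 M)) [w.asIdeal.LiesOver v.asIdeal]
    (hunr : ∀ σ : Gal(M/F), (∀ x : 𝓞 M, σ • x - x ∈ w.asIdeal) → σ = 1) :
    v.asIdeal.ramificationIdx' w.asIdeal = 1 := by
  have h1 := Fermat.Agent.S14.helper12.card_inertia_eq_one F M w.asIdeal hunr
  have h2 := Ideal.card_inertia_eq_ramificationIdxIn (G := Gal(M/F)) v.asIdeal w.asIdeal
  have h3 := Ideal.ramificationIdxIn_eq_ramificationIdx v.asIdeal w.asIdeal Gal(M/F)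
  have h4 := Ideal.ramificationIdx'_eq_ramificationIdx v.asIdeal w.asIdeal v.ne_bot
  rw [h4, ← h3, ← h2, h1]

/-- (G2) trivial inertia at the induced prime ⇒ the local extension is unramified -/
theorem isUnram_of_inertia
    (hK : Algebra.adjoin ℚ_[q] (Set.range (algebraMap F K)) = ⊤)
    (hE : Algebra.adjoin ℚ_[q] (Set.range (algebraMap M E)) = ⊤)
    (hunr : ∀ σ : Gal(M/F), (∀ x : 𝓞 M, σ • x - x ∈ inducedPrime q E M) → σ = 1) :
    IsUnram q K E := by
  rw [helper33.isUnram_iff]
  haveI hlies : (inducedPlace q E M).asIdeal.LiesOver (inducedPlace q K F).asIdeal :=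
    ⟨(inducedPrime_under q K E F M).symm⟩
  have he := ramificationIdx'_eq_one_of_inertia F M (inducedPlace q K F) (inducedPlace q E M)
    hunr
  obtain ⟨t, ht⟩ := exists_ord_map_eq_one q K F hK
  have h1 := valuation_eq_exp_neg_ord_of hK (inducedPlace q K F) (mem_inducedPlace q K F) t
  have h2 := valuation_eq_exp_neg_ord_of hE (inducedPlace q E M) (mem_inducedPlace q E M)
    (Units.map (algebraMap F M : F →* M) t)
  have h3 := HeightOneSpectrum.valuation_liesOver M (inducedPlace q K F) (inducedPlace q E M)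
    (t : F)
  rw [he, pow_one, h1, ht] at h3
  have h4 : ((Units.map (algebraMap F M : F →* M) t : Mˣ) : M) = algebraMap F M (t : F) := rfl
  rw [h4, ← h3, WithZero.exp_inj] at h2
  have h5 : Units.map (algebraMap M E : M →* E) (Units.map (algebraMap F M : F →* M) t)
      = Units.map (algebraMap K E : K →* E) (Units.map (algebraMap F K : F →* K) t) := by
    ext
    show algebraMap M E (algebraMap F M (t : F)) = algebraMap K E (algebraMap F K (t : F))
    rw [← IsScalarTower.algebraMap_apply F M E, IsScalarTower.algebraMap_apply F K E]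
  rw [h5, helper33.ord_algebraMap, ht, mul_one] at h2
  have h6 : (relE q K E : ℤ) = 1 := by linarith
  exact_mod_cast h6

end Under

section Main

variable (q : ℕ) [Fact q.Prime]
variable (K : Type) [Field K] [Algebra ℚ_[q] K] [FiniteDimensional ℚ_[q] K]
variable (E : Type) [Field E] [Algebra ℚ_[q] E] [Algebra K E] [IsScalarTower ℚ_[q] K E]
  [FiniteDimensional K E] [FiniteDimensional ℚ_[q] E]
variable (F M : Type) [Field F] [NumberField F] [Field M] [NumberField M] [Algebra F M]
  [Algebra F K] [Algebra M E] [Algebra F E] [IsScalarTower F M E] [IsScalarTower F K E]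
  [IsAbelianGalois F M]

/-- (G4) the restriction of a local Frobenius is an arithmetic Frobenius at the induced prime -/
theorem isArithFrobAt_locHom
    (hK : Algebra.adjoin ℚ_[q] (Set.range (algebraMap F K)) = ⊤)
    (φ : E ≃ₐ[K] E) (hφ : IsFrob q K E φ) :
    IsArithFrobAt (𝓞 F) (locHom F M K E φ) (inducedPrime q E M) := by
  intro x
  have hcard : Nat.card (𝓞 F ⧸ inducedPrime q K F) = q ^ fdeg q K :=
    card_quotient_eq hK (inducedPlace q K F) (mem_inducedPlace q K F)
  rw [inducedPrime_under q K E F M, hcard, mem_inducedPrime]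
  have h1 := hφ (algebraMap M E (x : M)) (ordT_algebraMap_nonneg q E M x)
  have h2 : algebraMap M E (((MulSemiringAction.toAlgHom (𝓞 F) (𝓞 M) (locHom F M K E φ)) x
      - x ^ (q ^ fdeg q K) : 𝓞 M) : M)
      = φ (algebraMap M E (x : M)) - (algebraMap M E (x : M)) ^ (q ^ fdeg q K) := by
    rw [← algebraMap_locHom F M K E φ (x : M), ← map_pow, ← map_sub]
    rfl
  rw [h2]
  exact h1

end Main

section Final

/-- **R-DEC** `locHom_injective` (interface statement, verbatim). -/
theorem locHom_injective (q : ℕ) [Fact q.Prime] (F L : Type) [Field F] [Field L] [Algebra F L]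
    [FiniteDimensional F L] [IsGalois F L] (D : LocDatum q F L) :
    Function.Injective (locHom F L D.Kv D.Lw) :=
  locHom_injective_of_adjoin ℚ_[q] F L D.Kv D.Lw D.denseL

/-- **R-DEC** `valuation_eq_exp_neg_ord` (interface statement, verbatim). -/
theorem valuation_eq_exp_neg_ord (q : ℕ) [Fact q.Prime] (F L : Type) [Field F] [NumberField F]
    [Field L] [Algebra F L] (D : LocDatum q F L) (v : HeightOneSpectrum (𝓞 F))
    (hv : D.AtPlace v) (c : Fˣ) :
    v.valuation F (c : F) =
      WithZero.exp (-(ord q D.Kv (Units.map (algebraMap F D.Kv : F →* D.Kv) c))) :=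
  valuation_eq_exp_neg_ord_of D.denseK v hv c

/-- **R-DEC** `unram_locDatum` (interface statement, verbatim). -/
theorem unram_locDatum (q : ℕ) [Fact q.Prime] (F M : Type) [Field F] [NumberField F] [Field M]
    [NumberField M] [Algebra F M] [IsAbelianGalois F M] (D : LocDatum q F M)
    (v : HeightOneSpectrum (𝓞 F)) (hv : D.AtPlace v)
    (hunr : ∀ P : Ideal (𝓞 M), P.IsPrime → P.under (𝓞 F) = v.asIdeal →
      ∀ σ : Gal(M/F), (∀ x : 𝓞 M, σ • x - x ∈ P) → σ = 1) :
    IsUnram q D.Kv D.Lw ∧ ∃ φ : D.Lw ≃ₐ[D.Kv] D.Lw, IsFrob q D.Kv D.Lw φ ∧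
      (∀ τ : D.Lw ≃ₐ[D.Kv] D.Lw, τ ∈ Subgroup.zpowers φ) ∧
      locHom F M D.Kv D.Lw φ = frobAt F M v.asIdeal := by
  haveI : FiniteDimensional ℚ_[q] D.Lw := helper33.finiteDimensional_top q D.Kv D.Lw
  have hPv : (inducedPrime q D.Lw M).under (𝓞 F) = v.asIdeal := by
    rw [inducedPrime_under q D.Kv D.Lw F M]
    ext a
    rw [mem_inducedPrime, hv a]
  have hunrP := hunr (inducedPrime q D.Lw M) inferInstance hPv
  have hU : IsUnram q D.Kv D.Lw :=
    isUnram_of_inertia q D.Kv D.Lw F M D.denseK D.denseL hunrP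
  obtain ⟨φ, hφ, hgen, -, -⟩ := helper7.exists_frob_of_isUnram q D.Kv D.Lw hU
  refine ⟨hU, φ, hφ, hgen, ?_⟩
  have hfrob := isArithFrobAt_locHom q D.Kv D.Lw F M D.denseK φ hφ
  have := Fermat.Agent.S14.helper12.eq_frobAt_of_isArithFrobAt F M (inducedPrime q D.Lw M)
    (inducedPrime_ne_bot q D.Lw M) hunrP _ hfrob
  rw [this, hPv]

end Final

section Deg

/-- **R-DEG** `finrank_eq_orderOf_frobAt` (interface statement, verbatim): the local degree of
an abelian extension `M/F` at an unramified place is the order of the Frobenius. -/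
theorem finrank_eq_orderOf_frobAt (q : ℕ) [Fact q.Prime] (F M : Type) [Field F] [NumberField F]
    [Field M] [NumberField M] [Algebra F M] [IsAbelianGalois F M]
    (L L' : Type) [Field L] [Field L'] [Algebra F L] [Algebra M L']
    (D : LocDatum q F L) (E : LocDatum q M L')
    [Algebra D.Kv E.Kv] [IsScalarTower ℚ_[q] D.Kv E.Kv] [FiniteDimensional D.Kv E.Kv]
    (hcompat : ∀ a : F, algebraMap D.Kv E.Kv (algebraMap F D.Kv a) =
      algebraMap M E.Kv (algebraMap F M a))
    (w : HeightOneSpectrum (𝓞 F)) (hw : D.AtPlace w)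
    (hunr : ∀ P : Ideal (𝓞 M), P.IsPrime → P.under (𝓞 F) = w.asIdeal →
      ∀ σ : Gal(M/F), (∀ x : 𝓞 M, σ • x - x ∈ P) → σ = 1) :
    Module.finrank D.Kv E.Kv = orderOf (frobAt F M w.asIdeal) :=
  finrank_eq_orderOf_frobAt_of
    (fun q _ F M _ _ _ _ _ _ D v hv hunr => unram_locDatum q F M D v hv hunr)
    q F M L L' D E hcompat w hw hunr

end Deg

end Fermat.Agent.S55.helper71
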