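import Mathlib
import Fermat.Agent.S55.helper71_H3SemiLoc
import Fermat.Agent.S55.helper50_IntCochain
import Fermat.Agent.S55.helper31_J3Defs
import Fermat.Agent.S55.helper1_J3USLoc
import Fermat.Agent.S55.helper71_LocNorm
import Fermat.Agent.S55.helper71_RecDec

/-!
# S55 / REC3 R3-J3 [US-SL] (helper57, task 620): semilocal Shapiro in degree 3 for the integral
units

`isZero_H3_repIntUnits` : `H³(Gal(E/F), intUnits q E) = 0` if all primes of `E` above `q` have
trivial inertia in `Gal(E/F)` (verbatim the statement of section USSL of helper31's interface).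

Route: the abstract Shapiro lemma in degree 3 (`helper71.exists_cob₂_eq_of_forall_local`) for
`M = Additive (intUnits q E)`, indexed by the maximal ideals `n` of `ℚ_q ⊗ E`, with
`K n` = the integral units congruent to `1` modulo `n`.  The reduction modulo `n` maps the
integral units ONTO the unit group `unitGroup q Lw` of the local field `Lw = (ℚ_q ⊗ E) ⧸ n`
(dictionary: integral unit ⇔ all residue norms are `1` ⇔ all local `ord`s vanish), and the local
vanishing is `helper1.isZero_H3_unitGroup` at the local datum `slDatum q F E n`, which is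
unramified by `helper71.isUnram_of_inertia`.
-/

set_option autoImplicit false
set_option linter.unusedSectionVars false
set_option linter.style.haveILetI false
set_option linter.unnecessarySeqFocus false
set_option linter.unusedVariables false

open scoped Pointwise TensorProduct NumberField
open groupCohomology CategoryTheory CategoryTheory.Limits

namespace Fermat.Agent.S55.helper57

open Fermat.Agent.S55 Fermat.Agent.S55.helper8 Fermat.Agent.S55.helper11
  Fermat.Agent.S55.helper73 Fermat.Agent.S55.helper97 Fermat.Agent.S55.helper71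

attribute [local instance] helper71.additiveDMA

/-! ## The local dictionary -/

section LocalDict

variable (q : ℕ) [Fact q.Prime] (K : Type) [Field K] [Algebra ℚ_[q] K]
  [FiniteDimensional ℚ_[q] K]

/-- a unit of a `q`-adic field is in the unit group iff its spectral norm is `1` -/
theorem ussl_mem_unitGroup_iff_spectralNorm (a : Kˣ) :
    a ∈ unitGroup q K ↔ spectralNorm ℚ_[q] K (a : K) = 1 := by
  rw [helper97.mem_unitGroup_iff, helper71.spectralNorm_units]
  have h0 := helper71.rho_pos q K
  have h1 := helper71.rho_lt_one q K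
  exact (zpow_eq_one_iff_right₀ h0.le h1.ne).symm

end LocalDict

/-! ## The semilocal dictionary -/

section Semi

variable {q : ℕ} [Fact q.Prime] {F L : Type} [Field F] [NumberField F] [Field L] [NumberField L]
  [Algebra F L] [IsGalois F L] {n : MaximalSpectrum (SemiLoc q L)}

theorem ussl_finite_Lw (n : MaximalSpectrum (SemiLoc q L)) :
    FiniteDimensional ℚ_[q] (slDatum q F L n).Lw :=
  helper33.finiteDimensional_top q (slDatum q F L n).Kv (slDatum q F L n).Lw

/-- the local absolute value at `n` is the spectral norm of the reduction modulo `n` -/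
theorem ussl_phiLoc_eq (u : (SemiLoc q L)ˣ) :
    helper50.phiLoc L q n u =
      spectralNorm ℚ_[q] (slDatum q F L n).Lw (slPiD q F L n (u : SemiLoc q L)) := rfl

/-- the reduction of a unit modulo `n` is a local unit iff the local absolute value is `1` -/
theorem ussl_slPhi_mem_unitGroup_iff (u : Additive (SemiLoc q L)ˣ) :
    (Additive.toMul (slPhi q F L n u) : (slDatum q F L n).Lwˣ) ∈
      unitGroup q (slDatum q F L n).Lw ↔ helper50.phiLoc L q n (Additive.toMul u) = 1 := by
  haveI := ussl_finite_Lw (q := q) (F := F) (L := L) n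
  rw [ussl_mem_unitGroup_iff_spectralNorm, ussl_phiLoc_eq (F := F)]
  rfl

/-- the local absolute value only depends on the class modulo `n` -/
theorem ussl_phiLoc_congr {m u : Additive (SemiLoc q L)ˣ}
    (h : m - u ∈ oneModAdd n.asIdeal) :
    helper50.phiLoc L q n (Additive.toMul m) = helper50.phiLoc L q n (Additive.toMul u) := by
  rw [mem_oneModAdd] at h
  have h1 : helper50.phiLoc L q n (Additive.toMul (m - u)) = 1 := by
    rw [helper50.phiLoc_apply, helper50.resNorm_congr q n h, helper50.resNorm_one]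
  have h2 : (Additive.toMul m : (SemiLoc q L)ˣ) = Additive.toMul (m - u) * Additive.toMul u := by
    rw [← toMul_add, sub_add_cancel]
  rw [h2, map_mul, h1, one_mul]

end Semi

/-! ## The module of integral units -/

section Module

variable {q : ℕ} [Fact q.Prime] {F L : Type} [Field F] [NumberField F] [Field L] [NumberField L]
  [Algebra F L] [IsGalois F L] {n : MaximalSpectrum (SemiLoc q L)}

variable (q L) in
/-- the inclusion of the integral units in the units, additively -/
noncomputable def usslIncl : Additive (intUnits q L) →+ Additive (SemiLoc q L)ˣ :=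
  MonoidHom.toAdditive (intUnits q L).subtype

theorem usslIncl_injective : Function.Injective (usslIncl q L) := by
  intro u v h
  apply Additive.toMul.injective
  apply Subtype.ext
  exact congrArg Additive.toMul h

theorem usslIncl_smul (g : L ≃ₐ[F] L) (u : Additive (intUnits q L)) :
    usslIncl q L (g • u) = g • usslIncl q L u := rfl

theorem usslIncl_mem (u : Additive (intUnits q L)) :
    (Additive.toMul (usslIncl q L u) : (SemiLoc q L)ˣ) ∈ intUnits q L :=
  (Additive.toMul u).2

variable (q L) in
/-- the integral units congruent to `1` modulo `n`, additively -/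
noncomputable def usslK (n : MaximalSpectrum (SemiLoc q L)) :
    AddSubgroup (Additive (intUnits q L)) :=
  (oneModAdd n.asIdeal).comap (usslIncl q L)

theorem mem_usslK (u : Additive (intUnits q L)) :
    u ∈ usslK q L n ↔ usslIncl q L u ∈ oneModAdd n.asIdeal := Iff.rfl

theorem usslK_smul (g : L ≃ₐ[F] L) (n : MaximalSpectrum (SemiLoc q L))
    (u : Additive (intUnits q L)) (hu : u ∈ usslK q L n) : g • u ∈ usslK q L (g • n) := by
  rw [mem_usslK] at hu ⊢
  rw [usslIncl_smul]
  exact smul_mem_oneModAdd (B := SemiLoc q L) (G := L ≃ₐ[F] L) (fun σ u => rfl) g n _ hu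

theorem usslK_inj (u : Additive (intUnits q L)) (hu : ∀ n, u ∈ usslK q L n) : u = 0 := by
  apply usslIncl_injective
  rw [map_zero]
  exact eq_zero_of_forall_mem_oneModAdd _ hu

/-- a unit which is congruent to an integral unit modulo every maximal ideal is integral -/
theorem ussl_mem_intUnits_of_forall {m : Additive (SemiLoc q L)ˣ}
    (f : MaximalSpectrum (SemiLoc q L) → Additive (SemiLoc q L)ˣ)
    (hf : ∀ n, helper50.phiLoc L q n (Additive.toMul (f n)) = 1)
    (hm : ∀ n, m - f n ∈ oneModAdd n.asIdeal) :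
    (Additive.toMul m : (SemiLoc q L)ˣ) ∈ intUnits q L := by
  rw [helper50.mem_intUnits_iff_phiLoc]
  intro n
  rw [ussl_phiLoc_congr (hm n), hf n]

theorem usslK_crt (f : MaximalSpectrum (SemiLoc q L) → Additive (intUnits q L)) :
    ∃ m : Additive (intUnits q L), ∀ n, m - f n ∈ usslK q L n := by
  obtain ⟨m, hm⟩ := exists_forall_sub_mem_oneModAdd (fun n => usslIncl q L (f n))
  have hmU : (Additive.toMul m : (SemiLoc q L)ˣ) ∈ intUnits q L :=
    ussl_mem_intUnits_of_forall (fun n => usslIncl q L (f n))
      (fun n => (helper50.mem_intUnits_iff_phiLoc L q _).mp (usslIncl_mem (f n)) n) hm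
  refine ⟨Additive.ofMul ⟨Additive.toMul m, hmU⟩, fun n => ?_⟩
  rw [mem_usslK, map_sub]
  exact hm n

end Module

/-! ## Reduction of the integral units onto the local unit groups -/

section Reduction

variable {q : ℕ} [Fact q.Prime] {F L : Type} [Field F] [NumberField F] [Field L] [NumberField L]
  [Algebra F L] [IsGalois F L] {n : MaximalSpectrum (SemiLoc q L)}

variable (q F L n) in
/-- the unit group of the local field at `n` as a representation of the local Galois group -/
noncomputable abbrev usslRep :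
    Rep.{0} ℤ ((slDatum q F L n).Lw ≃ₐ[(slDatum q F L n).Kv] (slDatum q F L n).Lw) :=
  @Rep.ofMulDistribMulAction
    ((slDatum q F L n).Lw ≃ₐ[(slDatum q F L n).Kv] (slDatum q F L n).Lw)
    (unitGroup q (slDatum q F L n).Lw) _ _
    (stableAction (unitGroup q (slDatum q F L n).Lw) fun σ _ hu =>
      helper1.smul_mem_unitGroup q (slDatum q F L n).Kv (slDatum q F L n).Lw σ hu)

theorem usslPhi_aux (u : Additive (intUnits q L)) :
    (Additive.toMul (slPhi q F L n (usslIncl q L u)) : (slDatum q F L n).Lwˣ) ∈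
      unitGroup q (slDatum q F L n).Lw :=
  (ussl_slPhi_mem_unitGroup_iff (F := F) _).mpr
    ((helper50.mem_intUnits_iff_phiLoc L q _).mp (usslIncl_mem u) n)

variable (q F L n) in
/-- reduction of the integral units modulo `n`, with values in the local unit group -/
noncomputable def usslPhi :
    Additive (intUnits q L) →+ Additive (unitGroup q (slDatum q F L n).Lw) where
  toFun u := Additive.ofMul ⟨Additive.toMul (slPhi q F L n (usslIncl q L u)), usslPhi_aux u⟩
  map_zero' := by
    apply Additive.toMul.injective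
    apply Subtype.ext
    show Additive.toMul (slPhi q F L n (usslIncl q L 0)) = 1
    rw [map_zero, map_zero]
    rfl
  map_add' u v := by
    apply Additive.toMul.injective
    apply Subtype.ext
    show Additive.toMul (slPhi q F L n (usslIncl q L (u + v))) =
      Additive.toMul (slPhi q F L n (usslIncl q L u)) *
        Additive.toMul (slPhi q F L n (usslIncl q L v))
    rw [map_add, map_add]
    rfl

theorem usslPhi_coe (u : Additive (intUnits q L)) :
    Additive.ofMul ((Additive.toMul (usslPhi q F L n u) : unitGroup q (slDatum q F L n).Lw) :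
      (slDatum q F L n).Lwˣ) = slPhi q F L n (usslIncl q L u) := rfl

theorem usslPhi_ext {v w : Additive (unitGroup q (slDatum q F L n).Lw)}
    (h : ((Additive.toMul v : unitGroup q (slDatum q F L n).Lw) : (slDatum q F L n).Lwˣ) =
      ((Additive.toMul w : unitGroup q (slDatum q F L n).Lw) : (slDatum q F L n).Lwˣ)) :
    v = w := by
  apply Additive.toMul.injective
  apply Subtype.ext
  exact h

theorem usslPhi_eq_zero_iff (u : Additive (intUnits q L)) :
    usslPhi q F L n u = 0 ↔ u ∈ usslK q L n := by
  rw [mem_usslK, ← slPhi_eq_zero_iff (F := F)]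
  constructor
  · intro h
    have := congrArg (fun v : Additive (unitGroup q (slDatum q F L n).Lw) =>
      Additive.ofMul ((Additive.toMul v : unitGroup q (slDatum q F L n).Lw) :
        (slDatum q F L n).Lwˣ)) h
    exact this
  · intro h
    apply usslPhi_ext
    exact congrArg Additive.toMul h

theorem usslPhi_surjective : Function.Surjective (usslPhi q F L n) := by
  classical
  intro v
  obtain ⟨u₀, hu₀⟩ := slPhi_surjective (q := q) (F := F) (L := L) (n := n)
    (Additive.ofMul ((Additive.toMul v : unitGroup q (slDatum q F L n).Lw) :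
      (slDatum q F L n).Lwˣ))
  obtain ⟨m, hm⟩ := exists_forall_sub_mem_oneModAdd
    (fun k : MaximalSpectrum (SemiLoc q L) => if k = n then u₀ else 0)
  have hmn : m - u₀ ∈ oneModAdd n.asIdeal := by
    have := hm n
    rwa [if_pos rfl] at this
  have hmU : (Additive.toMul m : (SemiLoc q L)ˣ) ∈ intUnits q L := by
    refine ussl_mem_intUnits_of_forall _ (fun k => ?_) hm
    by_cases hk : k = n
    · subst hk
      rw [if_pos rfl, ← ussl_slPhi_mem_unitGroup_iff (F := F), hu₀]
      exact (Additive.toMul v).2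
    · rw [if_neg hk]
      exact map_one _
  refine ⟨Additive.ofMul ⟨Additive.toMul m, hmU⟩, ?_⟩
  apply usslPhi_ext
  show Additive.toMul (slPhi q F L n m) = _
  have h1 : slPhi q F L n m = slPhi q F L n u₀ := by
    rw [← sub_eq_zero, ← map_sub, slPhi_eq_zero_iff (F := F)]
    exact hmn
  rw [h1, hu₀]
  rfl

/-- reduction intertwines the stabiliser with the local Galois group -/
theorem usslPhi_smul {h : L ≃ₐ[F] L} (hh : h • n = n) (u : Additive (intUnits q L)) :
    usslPhi q F L n (h • u) = (usslRep q F L n).ρ (slTau hh) (usslPhi q F L n u) := by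
  apply usslPhi_ext
  exact congrArg Additive.toMul (slPhi_smul hh (usslIncl q L u))

theorem usslPhi_locHom_smul
    (τ : (slDatum q F L n).Lw ≃ₐ[(slDatum q F L n).Kv] (slDatum q F L n).Lw)
    (u : Additive (intUnits q L)) :
    usslPhi q F L n (locHom F L (slDatum q F L n).Kv (slDatum q F L n).Lw τ • u) =
      (usslRep q F L n).ρ τ (usslPhi q F L n u) := by
  apply usslPhi_ext
  exact congrArg Additive.toMul (slPhi_locHom_smul τ (usslIncl q L u))

end Reduction

/-! ## The local and the global step -/

section Final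

variable (q : ℕ) [Fact q.Prime] (F E : Type) [Field F] [NumberField F] [Field E] [NumberField E]
  [Algebra F E] [IsGalois F E]

/-- trivial inertia at all primes above `q` ⇒ all local data over `q` are unramified -/
theorem ussl_isUnram
    (hunr : ∀ P : Ideal (𝓞 E), P.IsPrime → ((q : ℕ) : 𝓞 E) ∈ P →
      ∀ σ : Gal(E/F), (∀ x : 𝓞 E, σ • x - x ∈ P) → σ = 1)
    (n : MaximalSpectrum (SemiLoc q E)) :
    IsUnram q (slDatum q F E n).Kv (slDatum q F E n).Lw := by
  haveI := ussl_finite_Lw (q := q) (F := F) (L := E) n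
  refine isUnram_of_inertia q (slDatum q F E n).Kv (slDatum q F E n).Lw F E
    (slDatum q F E n).denseK (slDatum q F E n).denseL ?_
  refine hunr (inducedPrime q (slDatum q F E n).Lw E) inferInstance ?_
  rw [mem_inducedPrime]
  have h1 : algebraMap E (slDatum q F E n).Lw ((((q : ℕ) : 𝓞 E)) : E) =
      ((q : ℕ) : (slDatum q F E n).Lw) := by
    simp
  rw [h1]
  exact helper7.ordT_q_pos q (slDatum q F E n).Lw

/-- the local step: on the stabiliser of a maximal ideal `n` a 3-cocycle with values in the
integral units is a coboundary modulo `n` -/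
theorem ussl_exists_local_cob₂
    (hunr : ∀ P : Ideal (𝓞 E), P.IsPrime → ((q : ℕ) : 𝓞 E) ∈ P →
      ∀ σ : Gal(E/F), (∀ x : 𝓞 E, σ • x - x ∈ P) → σ = 1)
    (n : MaximalSpectrum (SemiLoc q E))
    {c : (E ≃ₐ[F] E) × (E ≃ₐ[F] E) × (E ≃ₐ[F] E) → Additive (intUnits q E)}
    (hc : IsCocycle₃ c) :
    ∃ β : (E ≃ₐ[F] E) × (E ≃ₐ[F] E) → Additive (intUnits q E), ∀ h₁ h₂ h₃ : E ≃ₐ[F] E,
      h₁ • n = n → h₂ • n = n → h₃ • n = n →
        cob₂ β (h₁, h₂, h₃) - c (h₁, h₂, h₃) ∈ usslK q E n := by
  classical
  have hz : IsZero (groupCohomology (usslRep q F E n) 3) :=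
    helper1.isZero_H3_unitGroup q (slDatum q F E n).Kv (slDatum q F E n).Lw
      (ussl_isUnram q F E hunr n)
  rw [helper46.isZero_H3_iff] at hz
  let cbar : (((slDatum q F E n).Lw ≃ₐ[(slDatum q F E n).Kv] (slDatum q F E n).Lw) ×
      ((slDatum q F E n).Lw ≃ₐ[(slDatum q F E n).Kv] (slDatum q F E n).Lw) ×
      ((slDatum q F E n).Lw ≃ₐ[(slDatum q F E n).Kv] (slDatum q F E n).Lw)) →
      (usslRep q F E n) :=
    fun t => usslPhi q F E n
        (c (locHom F E (slDatum q F E n).Kv (slDatum q F E n).Lw t.1,
          locHom F E (slDatum q F E n).Kv (slDatum q F E n).Lw t.2.1,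
          locHom F E (slDatum q F E n).Kv (slDatum q F E n).Lw t.2.2))
  have hcbar : d₃₄ (usslRep q F E n) cbar = 0 := by
    funext ⟨τ₁, τ₂, τ₃, τ₄⟩
    refine (d₃₄_apply _ cbar τ₁ τ₂ τ₃ τ₄).trans ?_
    have := congrArg (usslPhi q F E n)
      (hc (locHom F E (slDatum q F E n).Kv (slDatum q F E n).Lw τ₁)
        (locHom F E (slDatum q F E n).Kv (slDatum q F E n).Lw τ₂)
        (locHom F E (slDatum q F E n).Kv (slDatum q F E n).Lw τ₃)
        (locHom F E (slDatum q F E n).Kv (slDatum q F E n).Lw τ₄))
    simp only [map_add, map_sub, map_zero, usslPhi_locHom_smul, ← map_mul] at this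
    exact this
  obtain ⟨gbar, hg⟩ := hz cbar hcbar
  have key : ∀ h : (E ≃ₐ[F] E) × (E ≃ₐ[F] E), ∃ u : Additive (intUnits q E),
      ∀ (hh1 : h.1 • n = n) (hh2 : h.2 • n = n),
        usslPhi q F E n u = gbar (slTau hh1, slTau hh2) := by
    intro h
    by_cases hh : h.1 • n = n ∧ h.2 • n = n
    · obtain ⟨u, hu⟩ := usslPhi_surjective (q := q) (F := F) (L := E) (n := n)
        (gbar (slTau hh.1, slTau hh.2))
      exact ⟨u, fun _ _ => hu⟩
    · exact ⟨0, fun h1 h2 => absurd ⟨h1, h2⟩ hh⟩
  choose β hβ using key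
  refine ⟨β, fun h₁ h₂ h₃ hh₁ hh₂ hh₃ => ?_⟩
  have h12 : (h₁ * h₂) • n = n := by rw [mul_smul, hh₂, hh₁]
  have h23 : (h₂ * h₃) • n = n := by rw [mul_smul, hh₃, hh₂]
  rw [← usslPhi_eq_zero_iff (F := F), map_sub, sub_eq_zero, cob₂_apply, map_sub, map_add,
    map_sub, usslPhi_smul hh₁, hβ (h₂, h₃) hh₂ hh₃, hβ (h₁ * h₂, h₃) h12 hh₃,
    hβ (h₁, h₂ * h₃) hh₁ h23, hβ (h₁, h₂) hh₁ hh₂, slTau_mul hh₁ hh₂ h12,
    slTau_mul hh₂ hh₃ h23]
  have h3 : (usslRep q F E n).ρ (slTau hh₁)
      (gbar (slTau hh₂, slTau hh₃)) - gbar (slTau hh₁ * slTau hh₂, slTau hh₃)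
      + gbar (slTau hh₁, slTau hh₂ * slTau hh₃) - gbar (slTau hh₁, slTau hh₂)
      = cbar (slTau hh₁, slTau hh₂, slTau hh₃) :=
    congrFun hg (slTau hh₁, slTau hh₂, slTau hh₃)
  refine h3.trans ?_
  show usslPhi q F E n (c (_, _, _)) = _
  rw [locHom_slTau, locHom_slTau, locHom_slTau]

/-- **[US-SL], cochain form**: under trivial inertia above `q`, every 3-cocycle of `Gal(E/F)`
with values in the integral units of `ℚ_q ⊗ E` is a coboundary. -/
theorem exists_d₂₃_eq_repIntUnits
    (hunr : ∀ P : Ideal (𝓞 E), P.IsPrime → ((q : ℕ) : 𝓞 E) ∈ P →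
      ∀ σ : Gal(E/F), (∀ x : 𝓞 E, σ • x - x ∈ P) → σ = 1)
    (c : (E ≃ₐ[F] E) × (E ≃ₐ[F] E) × (E ≃ₐ[F] E) → helper31.repIntUnits q F E)
    (hc : d₃₄ (helper31.repIntUnits q F E) c = 0) :
    ∃ b : (E ≃ₐ[F] E) × (E ≃ₐ[F] E) → helper31.repIntUnits q F E,
      (d₂₃ (helper31.repIntUnits q F E)).hom b = c := by
  have hc' : IsCocycle₃ (M := Additive (intUnits q E)) c := by
    intro g₁ g₂ g₃ g₄
    have := congrFun hc (g₁, g₂, g₃, g₄)
    rw [d₃₄_apply] at this
    exact this
  obtain ⟨b, hb⟩ := exists_cob₂_eq_of_forall_local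
    (I := MaximalSpectrum (SemiLoc q E)) (G := E ≃ₐ[F] E) (M := Additive (intUnits q E))
    (fun n => usslK q E n) (fun g n u hu => usslK_smul g n u hu) usslK_inj usslK_crt hc'
    (fun n => ussl_exists_local_cob₂ q F E hunr n hc')
  refine ⟨b, ?_⟩
  funext ⟨g₁, g₂, g₃⟩
  exact (d₂₃_hom_apply (helper31.repIntUnits q F E) b (g₁, g₂, g₃)).trans (hb g₁ g₂ g₃)

/-- **[US-SL]** (helper31's interface statement, verbatim): `H³(Gal(E/F), intUnits q E) = 0` if
all primes of `E` above `q` have trivial inertia in `Gal(E/F)`. -/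
theorem isZero_H3_repIntUnits
    (hunr : ∀ P : Ideal (𝓞 E), P.IsPrime → ((q : ℕ) : 𝓞 E) ∈ P →
      ∀ σ : Gal(E/F), (∀ x : 𝓞 E, σ • x - x ∈ P) → σ = 1) :
    IsZero (groupCohomology (helper31.repIntUnits q F E) 3) := by
  rw [helper46.isZero_H3_iff]
  exact exists_d₂₃_eq_repIntUnits q F E hunr

end Final

end Fermat.Agent.S55.helper57
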