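import Mathlib

/-!
# S55 module FG, package FG3 (helper60): acyclic modules and trivial coefficients

Over Mathlib's `groupCohomology`:

* `isZero_coind_bot` (FG3.a): `Hⁿ(G, coind_1^G A) = 0` for `n ≥ 1`.
* `card_nsmul_eq_zero` (= FG1.a, proved directly by the averaging/trace argument):
  `|G|` kills `Hⁿ(G, A)` for `n ≥ 1`, `G` finite.
* `isZero_of_isUnit_card` (FG3.b): `|G|` invertible in `k` implies `Hⁿ(G, A) = 0`, `n ≥ 1`.
* `isZero_of_bijective_card_nsmul`: same if multiplication by `|G|` is bijective on `A`.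
* `isZero_H1_trivial_int` (FG3.c): `H¹(G, ℤ) = 0`.
* `H2TrivialIntIso`, `H2TrivialIntAddEquiv`: `H²(G, ℤ) ≅ Hom(G, ℚ/ℤ)` (`ℚ/ℤ = AddCircle (1 : ℚ)`),
  the inverse of the connecting homomorphism of `0 → ℤ → ℚ → ℚ/ℤ → 0`.
* `card_addMonoidHom_QmodZ`: `|Hom(G, ℚ/ℤ)| = |G^ab|`.
* `card_H2_trivial_int` (FG3.d): `|H²(G, ℤ)| = |G^ab|`.
-/

set_option autoImplicit false

universe u

open CategoryTheory CategoryTheory.Limits groupCohomology Rep

namespace Fermat.Agent.S55.helper60

variable {k G : Type u} [CommRing k] [Group G]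

/-! ## FG3.a: coinduced modules are acyclic -/

/-- FG3.a: coinduced-from-trivial modules are acyclic. -/
theorem isZero_coind_bot (A : Rep.{u} k (⊥ : Subgroup G)) (n : ℕ) (hn : 0 < n) :
    IsZero (groupCohomology (coind (⊥ : Subgroup G).subtype A) n) := by
  obtain ⟨m, rfl⟩ := Nat.exists_eq_succ_of_ne_zero hn.ne'
  exact (isZero_groupCohomology_succ_of_subsingleton A m).of_iso (coindIso A (m + 1))

/-! ## The trace argument: `|G|` kills higher cohomology -/

/-- The unit `A ⟶ coind_1^G (res A)`, `a ↦ (g ↦ ρ(g) a)`. -/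
noncomputable def toCoindBot (A : Rep.{u} k G) :
    A ⟶ coind (⊥ : Subgroup G).subtype (res (⊥ : Subgroup G).subtype A) :=
  resCoindToHom _ A _ (𝟙 _)

lemma toCoindBot_apply (A : Rep.{u} k G) (a : A) (g : G) :
    ((toCoindBot A).hom a).1 g = A.ρ g a := rfl

/-- The trace `coind_1^G (res A) ⟶ A`, `f ↦ ∑ g, ρ(g⁻¹) (f g)`. -/
noncomputable def fromCoindBot [Fintype G] (A : Rep.{u} k G) :
    coind (⊥ : Subgroup G).subtype (res (⊥ : Subgroup G).subtype A) ⟶ A :=
  Rep.ofHom (σ := A.ρ)
    { toLinearMap := ∑ g : G, (A.ρ g⁻¹) ∘ₗ (LinearMap.proj g) ∘ₗ (Submodule.subtype _)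
      isIntertwining' := fun h => by
        ext f
        simp only [LinearMap.coe_comp, Function.comp_apply, LinearMap.sum_apply,
          Submodule.subtype_apply, LinearMap.proj_apply, map_sum]
        refine Fintype.sum_equiv (Equiv.mulRight h) _ _ (fun d => ?_)
        simp only [Equiv.coe_mulRight, mul_inv_rev]
        rw [← Module.End.mul_apply, ← map_mul, mul_inv_cancel_left]
        rfl }

lemma fromCoindBot_apply [Fintype G] (A : Rep.{u} k G)
    (f : coind (⊥ : Subgroup G).subtype (res (⊥ : Subgroup G).subtype A)) :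
    (fromCoindBot A).hom f = ∑ g : G, A.ρ g⁻¹ (f.1 g) := by
  simp [fromCoindBot]

lemma toCoindBot_comp_fromCoindBot [Fintype G] (A : Rep.{u} k G) :
    toCoindBot A ≫ fromCoindBot A = (Fintype.card G) • 𝟙 A := by
  refine Rep.hom_ext (Representation.IntertwiningMap.ext (LinearMap.ext fun a => ?_))
  rw [Rep.hom_comp, Rep.nsmul_hom, Rep.hom_id]
  change (fromCoindBot A).hom ((toCoindBot A).hom a) = _
  rw [fromCoindBot_apply]
  have : ∀ g : G, A.ρ g⁻¹ (((toCoindBot A).hom a).1 g) = a := fun g => by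
    rw [toCoindBot_apply, ← Module.End.mul_apply, ← map_mul, inv_mul_cancel, map_one,
      Module.End.one_apply]
  simp only [this, Finset.sum_const, Finset.card_univ]
  rfl

/-- The functor `Hⁿ(G, -)` commutes with `m • -` on morphisms. -/
lemma functor_map_nsmul {A B : Rep.{u} k G} (f : A ⟶ B) (m n : ℕ) :
    (functor k G n).map (m • f) = m • (functor k G n).map f :=
  (cochainsFunctor k G ⋙ HomologicalComplex.homologyFunctor _ _ n).map_nsmul

/-- `|G|` kills `Hⁿ(G, A)` for `n ≥ 1` (`Fintype` version, as an identity of morphisms). -/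
theorem card_nsmul_id_eq_zero [Fintype G] (A : Rep.{u} k G) (n : ℕ) (hn : 0 < n) :
    (Fintype.card G) • 𝟙 (groupCohomology A n) = 0 := by
  have h1 : (functor k G n).map (toCoindBot A ≫ fromCoindBot A) = 0 := by
    rw [Functor.map_comp]
    have h0 : (functor k G n).map (toCoindBot A) = 0 :=
      (isZero_coind_bot (res (⊥ : Subgroup G).subtype A) n hn).eq_of_tgt _ _
    rw [h0, zero_comp]
  rw [toCoindBot_comp_fromCoindBot, functor_map_nsmul, CategoryTheory.Functor.map_id] at h1
  exact h1

/-- FG1.a (proved directly): `|G|` kills `Hⁿ(G, A)` for `n ≥ 1`. -/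
theorem card_nsmul_eq_zero [Finite G] (A : Rep.{u} k G) (n : ℕ) (hn : 0 < n)
    (x : groupCohomology A n) : Nat.card G • x = 0 := by
  classical
  let _ : Fintype G := Fintype.ofFinite G
  have h := card_nsmul_id_eq_zero A n hn
  have h' := congrArg (fun f : groupCohomology A n ⟶ groupCohomology A n => f.hom x) h
  simpa [Nat.card_eq_fintype_card] using h'

/-! ## FG3.b: vanishing when `|G|` is invertible -/

/-- FG3.b: if `|G|` is invertible in `k`, higher cohomology vanishes. -/
theorem isZero_of_isUnit_card [Finite G] (A : Rep.{u} k G) (h : IsUnit (Nat.card G : k))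
    (n : ℕ) (hn : 0 < n) : IsZero (groupCohomology A n) := by
  rw [ModuleCat.isZero_iff_subsingleton]
  refine ⟨fun x y => ?_⟩
  obtain ⟨u, hu⟩ := h
  have key : ∀ z : groupCohomology A n, z = 0 := fun z => by
    have hz := card_nsmul_eq_zero A n hn z
    rw [← Nat.cast_smul_eq_nsmul k, ← hu] at hz
    have := congrArg (fun w => (↑u⁻¹ : k) • w) hz
    simpa [smul_smul] using this
  rw [key x, key y]

/-- If multiplication by `|G|` is bijective on `A`, then `Hⁿ(G, A) = 0` for `n ≥ 1`. -/
theorem isZero_of_bijective_card_nsmul [Finite G] (A : Rep.{u} k G)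
    (h : Function.Bijective (fun a : A => Nat.card G • a)) (n : ℕ) (hn : 0 < n) :
    IsZero (groupCohomology A n) := by
  -- the inverse of multiplication by `|G|`, as a morphism of representations
  let e : A ≃ A := Equiv.ofBijective _ h
  have he : ∀ a : A, Nat.card G • e.symm a = a := fun a => e.apply_symm_apply a
  have he' : ∀ a : A, e.symm (Nat.card G • a) = a := fun a => e.symm_apply_apply a
  let ψl : A →ₗ[k] A :=
    { toFun := e.symm
      map_add' := fun a b => by
        apply h.1
        simp only [smul_add, he]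
      map_smul' := fun c a => by
        apply h.1
        simp only [RingHom.id_apply, he]
        rw [smul_comm, he] }
  let ψ : A ⟶ A := Rep.ofHom (ρ := A.ρ) (σ := A.ρ)
    { toLinearMap := ψl
      isIntertwining' := fun g => by
        ext a
        apply h.1
        simp only [LinearMap.coe_comp, Function.comp_apply]
        change Nat.card G • e.symm (A.ρ g a) = Nat.card G • A.ρ g (e.symm a)
        rw [he, ← map_nsmul, he] }
  have hψ : (Nat.card G • 𝟙 A) ≫ ψ = 𝟙 A := by
    refine Rep.hom_ext (Representation.IntertwiningMap.ext (LinearMap.ext fun a => ?_))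
    change e.symm (Nat.card G • a) = a
    exact he' a
  rw [ModuleCat.isZero_iff_subsingleton]
  have key : ∀ z : groupCohomology A n, z = 0 := fun z => by
    have h1 : (functor k G n).map (Nat.card G • 𝟙 A) ≫ (functor k G n).map ψ = 𝟙 _ := by
      rw [← Functor.map_comp, hψ, CategoryTheory.Functor.map_id]
    rw [functor_map_nsmul, CategoryTheory.Functor.map_id] at h1
    have h3 := congrArg (fun f => f.hom z) h1
    change ((functor k G n).map ψ).hom (Nat.card G • z) = z at h3
    have h4 : ((functor k G n).map ψ).hom (Nat.card G • z) = ((functor k G n).map ψ).hom 0 :=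
      congrArg _ (card_nsmul_eq_zero A n hn z)
    exact h3.symm.trans (h4.trans (map_zero _))
  exact ⟨fun x y => by rw [key x, key y]⟩

/-! ## FG3.c: `H¹(G, ℤ) = 0` -/

/-- FG3.c: `H¹(G, ℤ) = 0` for a finite group with trivial action. -/
theorem isZero_H1_trivial_int (G : Type) [Group G] [Finite G] :
    IsZero (groupCohomology (Rep.trivial ℤ G ℤ) 1) := by
  refine IsZero.of_iso ?_ (H1IsoOfIsTrivial (Rep.trivial ℤ G ℤ))
  rw [ModuleCat.isZero_iff_subsingleton]
  refine ⟨fun f g => ?_⟩
  have key : ∀ f : Additive G →+ ℤ, f = 0 := fun f => by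
    refine AddMonoidHom.ext fun x => ?_
    have hx : Nat.card G • x = 0 := by
      have := pow_card_eq_one' (G := G) (x := x.toMul)
      exact congrArg Additive.ofMul this
    have h2 : Nat.card G • f x = 0 := by rw [← map_nsmul, hx, map_zero]
    have hpos : 0 < Nat.card G := Nat.card_pos
    simpa [hpos.ne'] using h2
  rw [key f, key g]

/-! ## Short exact sequences of representations from exact sequences of functions -/

/-- A short complex of representations is short exact as soon as the underlying maps form a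
short exact sequence of sets. -/
lemma shortExact_of_function_exact (X : ShortComplex (Rep.{u} k G))
    (hf : Function.Injective X.f.hom) (hg : Function.Surjective X.g.hom)
    (hex : Function.Exact X.f.hom X.g.hom) : X.ShortExact where
  exact := by
    rw [← ShortComplex.exact_map_iff_of_faithful X (forget₂ (Rep k G) (ModuleCat k)),
      ShortComplex.ShortExact.moduleCat_exact_iff_function_exact]
    exact hex
  mono_f := (Rep.mono_iff_injective _).2 hf
  epi_g := (Rep.epi_iff_surjective _).2 hg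

/-! ## `ℚ/ℤ` and `H²(G, ℤ) ≅ Hom(G, ℚ/ℤ)` -/

/-- `ℚ/ℤ`, as `AddCircle (1 : ℚ) = ℚ ⧸ zmultiples 1`. -/
abbrev QmodZ : Type := AddCircle (1 : ℚ)

section SES

variable (G : Type) [Group G]

/-- The short complex `ℤ ⟶ ℚ ⟶ ℚ/ℤ` of trivial `G`-representations. -/
noncomputable def intRatSC : ShortComplex (Rep.{0} ℤ G) where
  X₁ := Rep.trivial ℤ G ℤ
  X₂ := Rep.trivial ℤ G ℚ
  X₃ := Rep.trivial ℤ G QmodZ
  f := Rep.ofHom ⟨(Int.castAddHom ℚ).toIntLinearMap, fun _ => rfl⟩
  g := Rep.ofHom ⟨(QuotientAddGroup.mk' (AddSubgroup.zmultiples (1 : ℚ))).toIntLinearMap,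
    fun _ => rfl⟩
  zero := by
    refine Rep.hom_ext (Representation.IntertwiningMap.ext (LinearMap.ext fun a => ?_))
    change ((a : ℚ) : AddCircle (1 : ℚ)) = 0
    rw [QuotientAddGroup.eq_zero_iff]
    exact ⟨a, by simp⟩

lemma intRatSC_f_apply (a : ℤ) : (intRatSC G).f.hom a = (a : ℚ) := rfl

lemma intRatSC_g_apply (y : ℚ) : (intRatSC G).g.hom y = (y : AddCircle (1 : ℚ)) := rfl

lemma intRatSC_shortExact : (intRatSC G).ShortExact := by
  refine shortExact_of_function_exact _ ?_ ?_ ?_
  · intro a b h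
    exact Int.cast_injective (α := ℚ) h
  · intro x
    obtain ⟨y, rfl⟩ := QuotientAddGroup.mk_surjective x
    exact ⟨y, rfl⟩
  · intro (y : ℚ)
    constructor
    · intro h
      have h' : ((y : ℚ) : AddCircle (1 : ℚ)) = 0 := h
      rw [QuotientAddGroup.eq_zero_iff] at h'
      obtain ⟨a, ha⟩ := h'
      refine ⟨a, ?_⟩
      have ha' : (a : ℚ) = y := by simpa using ha
      exact ha'
    · rintro ⟨(a : ℤ), rfl⟩
      change (((a : ℤ) : ℚ) : AddCircle (1 : ℚ)) = 0
      rw [QuotientAddGroup.eq_zero_iff]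
      exact ⟨a, by simp⟩

variable [Finite G]

/-- `Hⁿ(G, ℚ) = 0` for `n ≥ 1`, `G` finite (trivial action, coefficients over `ℤ`). -/
lemma isZero_groupCohomology_trivial_rat (n : ℕ) (hn : 0 < n) :
    IsZero (groupCohomology (Rep.trivial ℤ G ℚ) n) := by
  refine isZero_of_bijective_card_nsmul _ ?_ n hn
  have hpos : (Nat.card G : ℚ) ≠ 0 := Nat.cast_ne_zero.2 Nat.card_pos.ne'
  constructor
  · intro (a : ℚ) (b : ℚ) (h : Nat.card G • a = Nat.card G • b)
    simpa [nsmul_eq_mul, hpos] using h
  · intro (b : ℚ)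
    refine ⟨(b / Nat.card G : ℚ), ?_⟩
    change Nat.card G • (b / Nat.card G : ℚ) = b
    rw [nsmul_eq_mul]; field_simp

/-- The connecting homomorphism `H¹(G, ℚ/ℤ) ⟶ H²(G, ℤ)` is an isomorphism for finite `G`. -/
theorem isIso_δ_intRatSC :
    IsIso (groupCohomology.δ (intRatSC_shortExact G) 1 2 rfl) :=
  groupCohomology.isIso_δ_of_isZero (intRatSC_shortExact G) 1
    (isZero_groupCohomology_trivial_rat G 1 one_pos)
    (isZero_groupCohomology_trivial_rat G 2 two_pos)

/-- The connecting isomorphism `H¹(G, ℚ/ℤ) ≅ H²(G, ℤ)` for a finite group `G`. -/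
noncomputable def δIntRatIso :
    groupCohomology (Rep.trivial ℤ G QmodZ) 1 ≅ groupCohomology (Rep.trivial ℤ G ℤ) 2 :=
  @asIso _ _ _ _ (groupCohomology.δ (intRatSC_shortExact G) 1 2 rfl) (isIso_δ_intRatSC G)

lemma δIntRatIso_hom :
    (δIntRatIso G).hom = groupCohomology.δ (intRatSC_shortExact G) 1 2 rfl := rfl

/-- `H²(G, ℤ) ≅ Hom(G, ℚ/ℤ)` for a finite group `G`. -/
noncomputable def H2TrivialIntIso :
    groupCohomology (Rep.trivial ℤ G ℤ) 2 ≅ ModuleCat.of ℤ (Additive G →+ QmodZ) :=
  (δIntRatIso G).symm ≪≫ H1IsoOfIsTrivial (Rep.trivial ℤ G QmodZ)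

/-- `H²(G, ℤ) ≃+ Hom(G, ℚ/ℤ)` for a finite group `G`. -/
noncomputable def H2TrivialIntAddEquiv :
    groupCohomology (Rep.trivial ℤ G ℤ) 2 ≃+ (Additive G →+ QmodZ) :=
  (H2TrivialIntIso G).toLinearEquiv.toAddEquiv

end SES

/-! ## Counting `Hom(G, ℚ/ℤ)` -/

lemma addOrderOf_one_div_QmodZ (n : ℕ) (hn : 0 < n) :
    addOrderOf (((1 : ℚ) / n : ℚ) : QmodZ) = n :=
  AddCircle.addOrderOf_period_div hn

lemma card_torsion_QmodZ_le (n : ℕ) (hn : n ≠ 0) :
    {x : QmodZ | n • x = 0}.encard ≤ n := by
  refine AddCircle.card_torsion_le_of_isSMulRegular (1 : ℚ) n hn ?_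
  intro a b h
  have h' : (n : ℚ) * a = n * b := by simpa [nsmul_eq_mul] using h
  exact mul_left_cancel₀ (Nat.cast_ne_zero.2 hn) h'

/-- The map from `n`-th roots of unity of `Multiplicative (ℚ/ℤ)` to the `n`-torsion of `ℚ/ℤ`. -/
def rootsToTorsion (n : ℕ) (u : rootsOfUnity n (Multiplicative QmodZ)) :
    {x : QmodZ | n • x = 0} :=
  ⟨Multiplicative.toAdd (u.1 : Multiplicative QmodZ), by
    have h := u.2
    rw [mem_rootsOfUnity'] at h
    exact congrArg Multiplicative.toAdd h⟩

lemma rootsToTorsion_injective (n : ℕ) : Function.Injective (rootsToTorsion n) := by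
  intro u v h
  have h1 : Multiplicative.toAdd (u.1 : Multiplicative QmodZ)
      = Multiplicative.toAdd (v.1 : Multiplicative QmodZ) := congrArg Subtype.val h
  exact Subtype.ext (Units.ext (Multiplicative.toAdd.injective h1))

/-- `Multiplicative (ℚ/ℤ)` has enough `n`-th roots of unity for every `n ≠ 0`. -/
theorem hasEnoughRootsOfUnity_QmodZ (n : ℕ) [NeZero n] :
    HasEnoughRootsOfUnity (Multiplicative QmodZ) n where
  prim := ⟨Multiplicative.ofAdd (((1 : ℚ) / n : ℚ) : QmodZ), by
    have := IsPrimitiveRoot.orderOf (Multiplicative.ofAdd (((1 : ℚ) / n : ℚ) : QmodZ))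
    rwa [orderOf_ofAdd_eq_addOrderOf, addOrderOf_one_div_QmodZ n (NeZero.pos n)] at this⟩
  cyc := by
    have hfin : {x : QmodZ | n • x = 0}.Finite :=
      Set.finite_of_encard_le_coe (card_torsion_QmodZ_le n (NeZero.ne n))
    have : Finite {x : QmodZ | n • x = 0} := hfin.to_subtype
    have : Finite (rootsOfUnity n (Multiplicative QmodZ)) :=
      Finite.of_injective _ (rootsToTorsion_injective n)
    have hcard : Nat.card (rootsOfUnity n (Multiplicative QmodZ)) ≤ n := by
      refine (Nat.card_le_card_of_injective _ (rootsToTorsion_injective n)).trans ?_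
      have h1 := card_torsion_QmodZ_le n (NeZero.ne n)
      rw [Nat.card_coe_set_eq, Set.ncard]
      exact ENat.toNat_le_of_le_natCast h1
    -- the element `1/n`
    let ζ : Multiplicative QmodZ := Multiplicative.ofAdd (((1 : ℚ) / n : ℚ) : QmodZ)
    have hζ : orderOf ζ = n := by
      rw [orderOf_ofAdd_eq_addOrderOf, addOrderOf_one_div_QmodZ n (NeZero.pos n)]
    have hζn : ζ ^ n = 1 := by rw [← hζ]; exact pow_orderOf_eq_one ζ
    let x : rootsOfUnity n (Multiplicative QmodZ) := ⟨toUnits ζ, by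
      rw [mem_rootsOfUnity']
      exact hζn⟩
    have hx : orderOf x = n := by
      have h1 : orderOf x = orderOf (toUnits ζ) := Subgroup.orderOf_mk _ _
      have h2 : orderOf (toUnits ζ) = orderOf ζ :=
        (toUnits (G := Multiplicative QmodZ)).orderOf_eq ζ
      rw [h1, h2, hζ]
    refine isCyclic_of_orderOf_eq_card x (le_antisymm orderOf_le_card ?_)
    rw [hx]; exact hcard

/-- `Hom(G, ℚ/ℤ)` has exactly `|G^ab|` elements, for a finite group `G`. -/
theorem card_addMonoidHom_QmodZ (G : Type*) [Group G] [Finite G] :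
    Nat.card (Additive G →+ QmodZ) = Nat.card (Abelianization G) := by
  have hexp : Monoid.exponent (Abelianization G) ≠ 0 :=
    Monoid.exponent_ne_zero_of_finite
  have : NeZero (Monoid.exponent (Abelianization G)) := ⟨hexp⟩
  have := hasEnoughRootsOfUnity_QmodZ (Monoid.exponent (Abelianization G))
  rw [← CommGroup.card_monoidHom_of_hasEnoughRootsOfUnity (Abelianization G)
    (Multiplicative QmodZ)]
  refine Nat.card_congr ?_
  exact (AddMonoidHom.toMultiplicativeRight (α := G) (β := QmodZ)).trans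
    ((MulEquiv.monoidHomCongrRight (M := G) (toUnits (G := Multiplicative QmodZ))).toEquiv.trans
      Abelianization.lift)

/-! ## FG3.d -/

/-- FG3.d: `H²(G, ℤ) ≃ Hom(G, ℚ/ℤ)` has exactly `|G^ab|` elements. -/
theorem card_H2_trivial_int (G : Type) [Group G] [Finite G] :
    Nat.card (groupCohomology (Rep.trivial ℤ G ℤ) 2) = Nat.card (Abelianization G) := by
  rw [← card_addMonoidHom_QmodZ G]
  exact Nat.card_congr (H2TrivialIntAddEquiv G).toEquiv

end Fermat.Agent.S55.helper60
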