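import Fermat.Agent.S55.helper8_LocDefs2
import Fermat.Agent.S55.helper7_LocUnram
import Fermat.Agent.S55.helper60_FG3

/-!
# S55 / LOC-5t (helper57): the tame formula for an arbitrary invariant system `I : LocInv`

* `finrank_nsmul_inv` : `[L:K] • inv x = 0` (VERBATIM `helper8_LocInterface2`, unconditional);
* `exists_inv_eq_of_card` : the image of `inv` is the `[L:K]`-torsion of `ℚ/ℤ`, given LOC-4
  `card_H2` as a hypothesis;
* `inv_chiClass_of_isUnram_of`, `inv_cyclicClass_of_isUnram_of` : `inv (χ, b) = ord b · χ(Frob) / N`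
  and `inv (cyclicClass σ b) = k · ord b / n` (`Frob = σ ^ k`) for unramified `L/K`, given the
  symbol calculus LOC-5b as a hypothesis `SymbolCalc K L`;
* `SymbolCalc.chiClass_eq_nsmul_cyclicClass` : if `φ` generates `Gal(L/K)` then
  `(χ, b) = t • (χ_φ, b)` whenever `N t = n χ(φ)`.
-/

set_option autoImplicit false
set_option linter.style.haveILetI false
set_option linter.unusedSectionVars false

namespace Fermat.Agent.S55.helper57

open Fermat.Agent.S55 Fermat.Agent.S55.helper8 Fermat.Agent.S55.helper11 groupCohomology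

/-! ## multiplication by `m` as a map `ℤ/N → ℤ/(N m)` -/

/-- multiplication by `m` as a map `ℤ/N → ℤ/(N m)` -/
def zmodMulCast (N m : ℕ) : ZMod N →+ ZMod (N * m) :=
  ZMod.lift N ⟨(AddMonoidHom.mulLeft (m : ZMod (N * m))).comp (Int.castAddHom (ZMod (N * m))), by
    simp only [AddMonoidHom.coe_comp, Function.comp_apply, Int.coe_castAddHom, Int.cast_natCast,
      AddMonoidHom.coe_mulLeft]
    rw [← Nat.cast_mul, mul_comm, ZMod.natCast_self]⟩

lemma zmodMulCast_val (N m : ℕ) [NeZero N] (hm : 0 < m) (x : ZMod N) :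
    (zmodMulCast N m x).val = m * x.val := by
  have hx : x = ((x.val : ℤ) : ZMod N) := by simp
  have h1 : zmodMulCast N m x = ((m * x.val : ℕ) : ZMod (N * m)) := by
    conv_lhs => rw [hx]
    rw [zmodMulCast, ZMod.lift_coe]
    simp
  rw [h1, ZMod.val_natCast]
  apply Nat.mod_eq_of_lt
  rw [mul_comm N m]
  exact Nat.mul_lt_mul_of_pos_left (ZMod.val_lt x) hm

section chars

variable {G : Type*} [Group G]

/-- the character `m · χ : G → ℤ/(N m)` -/
def castChar (N m : ℕ) (χ : G →* Multiplicative (ZMod N)) : G →* Multiplicative (ZMod (N * m)) :=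
  (AddMonoidHom.toMultiplicative (zmodMulCast N m)).comp χ

lemma castChar_val (N m : ℕ) [NeZero N] (hm : 0 < m) (χ : G →* Multiplicative (ZMod N)) (g : G) :
    (Multiplicative.toAdd (castChar N m χ g)).val = m * (Multiplicative.toAdd (χ g)).val :=
  zmodMulCast_val N m hm _

/-- two characters with values in `ℤ/N₁ = ℤ/N₂` agreeing on a generator are "equal" -/
lemma char_heq_of_generator {N₁ N₂ : ℕ} (h : N₁ = N₂) [NeZero N₁]
    (χ₁ : G →* Multiplicative (ZMod N₁)) (χ₂ : G →* Multiplicative (ZMod N₂)) (φ : G)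
    (hφ : ∀ g : G, g ∈ Subgroup.zpowers φ)
    (hval : (Multiplicative.toAdd (χ₁ φ)).val = (Multiplicative.toAdd (χ₂ φ)).val) :
    HEq χ₁ χ₂ := by
  subst h
  apply heq_of_eq
  have h1 : χ₁ φ = χ₂ φ := by
    apply Multiplicative.toAdd.injective
    exact ZMod.val_injective _ hval
  refine MonoidHom.ext fun g => ?_
  obtain ⟨j, rfl⟩ := Subgroup.mem_zpowers_iff.1 (hφ g)
  rw [map_zpow, map_zpow, h1]

end chars

/-! ## `ℚ/ℤ` -/

lemma qz_coe_add_int (x : ℚ) (m : ℤ) : (((x + (m : ℚ) : ℚ)) : QZ) = (x : QZ) := by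
  rw [AddCircle.coe_add, add_eq_left, AddCircle.coe_eq_zero_iff]
  exact ⟨m, by simp⟩

lemma qz_nsmul_coe (t : ℕ) (x : ℚ) : t • ((x : ℚ) : QZ) = (((t : ℚ) * x : ℚ) : QZ) := by
  rw [← AddCircle.coe_nsmul, nsmul_eq_mul]

/-! ## The symbol calculus (LOC-5b) as a hypothesis -/

/-- The LOC-5b statements (symbol calculus) used by LOC-5t, for a fixed extension `L/K`:
instances of `exists_dlogChar`, `cyclicClass_eq_chiClass`, `chiClass_char_mul`, `chiClass_cast`
of `helper8_LocInterface2`. -/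
structure SymbolCalc (K L : Type) [Field K] [Field L] [Algebra K L] : Prop where
  exists_dlogChar : ∀ φ : L ≃ₐ[K] L, (∀ σ : L ≃ₐ[K] L, σ ∈ Subgroup.zpowers φ) →
    ∃ χ : (L ≃ₐ[K] L) →* Multiplicative (ZMod (orderOf φ)), χ φ = Multiplicative.ofAdd 1
  cyclicClass_eq_chiClass : ∀ φ : L ≃ₐ[K] L, (∀ σ : L ≃ₐ[K] L, σ ∈ Subgroup.zpowers φ) →
    ∀ χ : (L ≃ₐ[K] L) →* Multiplicative (ZMod (orderOf φ)), χ φ = Multiplicative.ofAdd 1 →
    ∀ b : Kˣ, cyclicClass K L φ b = chiClass K L (orderOf φ) χ b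
  chiClass_char_mul : ∀ (N : ℕ) [NeZero N] (χ χ' : (L ≃ₐ[K] L) →* Multiplicative (ZMod N))
    (b : Kˣ), chiClass K L N (χ * χ') b = chiClass K L N χ b + chiClass K L N χ' b
  chiClass_cast : ∀ (N m : ℕ), 0 < N → 0 < m →
    ∀ (χ : (L ≃ₐ[K] L) →* Multiplicative (ZMod N))
      (χ' : (L ≃ₐ[K] L) →* Multiplicative (ZMod (N * m))),
    (∀ g, (Multiplicative.toAdd (χ' g)).val = m * (Multiplicative.toAdd (χ g)).val) →
    ∀ b : Kˣ, chiClass K L (N * m) χ' b = chiClass K L N χ b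

section symbol

variable {K L : Type} [Field K] [Field L] [Algebra K L]

lemma SymbolCalc.chiClass_one (hS : SymbolCalc K L) (N : ℕ) [NeZero N] (b : Kˣ) :
    chiClass K L N 1 b = 0 := by
  have h := hS.chiClass_char_mul N 1 1 b
  rw [one_mul] at h
  exact left_eq_add.1 h

lemma SymbolCalc.chiClass_pow (hS : SymbolCalc K L) (N : ℕ) [NeZero N]
    (χ : (L ≃ₐ[K] L) →* Multiplicative (ZMod N)) (t : ℕ) (b : Kˣ) :
    chiClass K L N (χ ^ t) b = t • chiClass K L N χ b := by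
  induction t with
  | zero => rw [pow_zero, zero_smul, hS.chiClass_one]
  | succ t ih => rw [pow_succ, hS.chiClass_char_mul, ih, succ_nsmul]

/-- two symbols with characters in `ℤ/N₁ = ℤ/N₂` agreeing on a generator are equal -/
lemma chiClass_eq_of_generator {N₁ N₂ : ℕ} (h : N₁ = N₂) [NeZero N₁]
    (χ₁ : (L ≃ₐ[K] L) →* Multiplicative (ZMod N₁)) (χ₂ : (L ≃ₐ[K] L) →* Multiplicative (ZMod N₂))
    (φ : L ≃ₐ[K] L) (hφ : ∀ g : L ≃ₐ[K] L, g ∈ Subgroup.zpowers φ)
    (hval : (Multiplicative.toAdd (χ₁ φ)).val = (Multiplicative.toAdd (χ₂ φ)).val) (b : Kˣ) :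
    chiClass K L N₁ χ₁ b = chiClass K L N₂ χ₂ b := by
  subst h
  have h1 : χ₁ φ = χ₂ φ := by
    apply Multiplicative.toAdd.injective
    exact ZMod.val_injective _ hval
  have h2 : χ₁ = χ₂ := by
    refine MonoidHom.ext fun g => ?_
    obtain ⟨j, rfl⟩ := Subgroup.mem_zpowers_iff.1 (hφ g)
    rw [map_zpow, map_zpow, h1]
  rw [h2]

/-- **Key relation**: if `φ` generates `Gal(L/K)`, every symbol `(χ, b)` is a multiple of the
cyclic class `(χ_φ, b)`: `(χ, b) = t (χ_φ, b)` whenever `N t = n χ(φ)`. -/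
lemma SymbolCalc.chiClass_eq_nsmul_cyclicClass [FiniteDimensional K L] (hS : SymbolCalc K L)
    (φ : L ≃ₐ[K] L) (hφ : ∀ g : L ≃ₐ[K] L, g ∈ Subgroup.zpowers φ)
    (N : ℕ) [NeZero N] (χ : (L ≃ₐ[K] L) →* Multiplicative (ZMod N)) (t : ℕ)
    (ht : orderOf φ * (Multiplicative.toAdd (χ φ)).val = N * t) (b : Kˣ) :
    chiClass K L N χ b = t • cyclicClass K L φ b := by
  classical
  set n := orderOf φ with hn_def
  set a := (Multiplicative.toAdd (χ φ)).val with ha_def
  have hn : 0 < n := orderOf_pos φ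
  have hN : 0 < N := Nat.pos_of_ne_zero (NeZero.ne N)
  haveI : NeZero n := ⟨hn.ne'⟩
  haveI : NeZero (N * n) := ⟨(Nat.mul_pos hN hn).ne'⟩
  haveI : NeZero (n * N) := ⟨(Nat.mul_pos hn hN).ne'⟩
  have ha : a < N := ZMod.val_lt _
  obtain ⟨χφ, hχφ⟩ := hS.exists_dlogChar φ hφ
  have h1 : chiClass K L (N * n) (castChar N n χ) b = chiClass K L N χ b :=
    hS.chiClass_cast N n hN hn χ _ (castChar_val N n hn χ) b
  have h2 : chiClass K L (n * N) (castChar n N χφ) b = cyclicClass K L φ b := by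
    rw [hS.cyclicClass_eq_chiClass φ hφ χφ hχφ b]
    exact hS.chiClass_cast n N hn hN χφ _ (castChar_val n N hN χφ) b
  rw [← h1, ← h2, ← hS.chiClass_pow]
  refine chiClass_eq_of_generator (Nat.mul_comm N n) _ _ φ hφ ?_ b
  rw [castChar_val N n hn χ φ]
  -- the value of `(castChar n N χφ) ^ t` at `φ`
  have h3 : Multiplicative.toAdd (((castChar n N χφ) ^ t) φ) = ((n * a : ℕ) : ZMod (n * N)) := by
    rw [MonoidHom.pow_apply, toAdd_pow]
    have h4 : Multiplicative.toAdd (castChar n N χφ φ) =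
        ((N * (Multiplicative.toAdd (χφ φ)).val : ℕ) : ZMod (n * N)) := by
      rw [← castChar_val n N hN χφ φ, ZMod.natCast_zmod_val]
    rw [h4, hχφ, toAdd_ofAdd, nsmul_eq_mul, ← Nat.cast_mul]
    rcases Nat.lt_or_ge 1 n with h1n | h1n
    · haveI : Fact (1 < n) := ⟨h1n⟩
      rw [ZMod.val_one, mul_one, mul_comm t N, ← ht]
    · have hn1 : n = 1 := le_antisymm h1n hn
      have ht0 : t = 0 := by
        rw [hn1, one_mul] at ht
        by_contra hne
        have : N ≤ N * t := Nat.le_mul_of_pos_right N (Nat.pos_of_ne_zero hne)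
        omega
      have ha0 : a = 0 := by
        rw [ht0, mul_zero, hn1, one_mul] at ht
        exact ht
      rw [ht0, ha0, zero_mul, mul_zero]
  rw [h3, ZMod.val_natCast]
  symm
  apply Nat.mod_eq_of_lt
  exact Nat.mul_lt_mul_of_pos_left ha hn

end symbol

/-! ## LOC-5t : the tame formula -/

section tame

variable (q : ℕ) [Fact q.Prime] (I : LocInv) (K L : Type) [Field K] [Field L]
  [Algebra ℚ_[q] K] [Algebra ℚ_[q] L] [Algebra K L] [IsScalarTower ℚ_[q] K L]
  [FiniteDimensional ℚ_[q] K] [FiniteDimensional K L] [IsGalois K L]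

/-- `inv (χ, b) = ord b · χ(Frob) / N` for unramified `L/K` (conditional on LOC-5b) -/
theorem inv_chiClass_of_isUnram_of (hS : SymbolCalc K L) (h : IsUnram q K L) (φ : L ≃ₐ[K] L)
    (hφ : IsFrob q K L φ) (N : ℕ) [NeZero N] (χ : (L ≃ₐ[K] L) →* Multiplicative (ZMod N))
    (b : Kˣ) :
    I.inv q K L (chiClass K L N χ b) =
      ((((ord q K b : ℚ) * ((Multiplicative.toAdd (χ φ)).val : ℚ)) / (N : ℚ) : ℚ) : QZ) := by
  obtain ⟨φ₀, hφ₀, hgen₀, hord₀, huniq⟩ := helper7.exists_frob_of_isUnram q K L h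
  obtain rfl : φ = φ₀ := huniq φ hφ
  have hdvd : N ∣ orderOf φ * (Multiplicative.toAdd (χ φ)).val := by
    rw [← ZMod.natCast_eq_zero_iff, Nat.cast_mul, ZMod.natCast_zmod_val, ← nsmul_eq_mul,
      ← toAdd_pow, ← map_pow, pow_orderOf_eq_one, map_one, toAdd_one]
  obtain ⟨t, ht⟩ := hdvd
  rw [hS.chiClass_eq_nsmul_cyclicClass φ hgen₀ N χ t ht b, map_nsmul, I.unram q K L h φ hφ b,
    qz_nsmul_coe]
  congr 1
  have hN : (N : ℚ) ≠ 0 := Nat.cast_ne_zero.2 (NeZero.ne N)
  have hn : (Module.finrank K L : ℚ) ≠ 0 := Nat.cast_ne_zero.2 Module.finrank_pos.ne'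
  have htq : (Module.finrank K L : ℚ) * ((Multiplicative.toAdd (χ φ)).val : ℚ) = N * t := by
    rw [← hord₀]
    exact_mod_cast ht
  field_simp
  linear_combination (-(ord q K b : ℚ)) * htq

/-- `inv (χ_σ, b) = k · ord b / n` if `Frob = σ ^ k` (conditional on LOC-5b) -/
theorem inv_cyclicClass_of_isUnram_of (hS : SymbolCalc K L) (h : IsUnram q K L)
    (φ : L ≃ₐ[K] L) (hφ : IsFrob q K L φ)
    (σ : L ≃ₐ[K] L) (hσ : ∀ τ : L ≃ₐ[K] L, τ ∈ Subgroup.zpowers σ) (k : ℕ) (hk : φ = σ ^ k)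
    (b : Kˣ) :
    I.inv q K L (cyclicClass K L σ b) =
      ((((k : ℚ) * (ord q K b : ℚ)) / (Module.finrank K L : ℚ) : ℚ) : QZ) := by
  obtain ⟨χσ, hχσ⟩ := hS.exists_dlogChar σ hσ
  have hordσ : orderOf σ = Module.finrank K L := by
    rw [orderOf_eq_card_of_forall_mem_zpowers hσ, IsGalois.card_aut_eq_finrank]
  have hn : 0 < orderOf σ := orderOf_pos σ
  haveI : NeZero (orderOf σ) := ⟨hn.ne'⟩
  rw [hS.cyclicClass_eq_chiClass σ hσ χσ hχσ b,
    inv_chiClass_of_isUnram_of q I K L hS h φ hφ (orderOf σ) χσ b]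
  have hval : (Multiplicative.toAdd (χσ φ)).val = k % orderOf σ := by
    rw [hk, map_pow, hχσ, toAdd_pow, toAdd_ofAdd, nsmul_eq_mul, mul_one, ZMod.val_natCast]
  rw [hval, hordσ]
  set n := Module.finrank K L with hn_def
  have hnq : (n : ℚ) ≠ 0 := Nat.cast_ne_zero.2 Module.finrank_pos.ne'
  obtain ⟨d, hd⟩ : ∃ d : ℕ, d = k / n := ⟨_, rfl⟩
  obtain ⟨m, hm⟩ : ∃ m : ℕ, m = k % n := ⟨_, rfl⟩
  have hdiv : (k : ℚ) = (m : ℚ) + (n : ℚ) * (d : ℚ) := by
    rw [hd, hm]
    exact_mod_cast (Nat.mod_add_div k n).symm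
  rw [← hm]
  have hrw : ((k : ℚ) * (ord q K b : ℚ)) / (n : ℚ) =
      ((ord q K b : ℚ) * (m : ℚ)) / (n : ℚ) + (((ord q K b * (d : ℤ) : ℤ)) : ℚ) := by
    rw [hdiv, Int.cast_mul, Int.cast_natCast]
    field_simp
  rw [hrw, qz_coe_add_int]

/-- `[L : K]` kills the invariants -/
theorem finrank_nsmul_inv (x : groupCohomology.H2 (Rep.ofAlgebraAutOnUnits K L)) :
    Module.finrank K L • I.inv q K L x = 0 := by
  rw [← map_nsmul, ← IsGalois.card_aut_eq_finrank K L]
  have h0 : Nat.card (L ≃ₐ[K] L) • x = 0 :=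
    helper60.card_nsmul_eq_zero (Rep.ofAlgebraAutOnUnits K L) 2 (by norm_num) x
  rw [h0, map_zero]

/-- the image of `inv` is the `[L:K]`-torsion (conditional on LOC-4 `card_H2`) -/
theorem exists_inv_eq_of_card
    (hcard : Nat.card (groupCohomology.H2 (Rep.ofAlgebraAutOnUnits K L)) = Module.finrank K L)
    (r : QZ) (hr : Module.finrank K L • r = 0) :
    ∃ x : groupCohomology.H2 (Rep.ofAlgebraAutOnUnits K L), I.inv q K L x = r := by
  set n := Module.finrank K L with hn_def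
  have hn : 0 < n := Module.finrank_pos
  set T : Set QZ := {u : QZ | n • u = 0} with hT
  have hTfin : T.Finite := AddCircle.finite_torsion (1 : ℚ) hn
  have hTcard : T.encard ≤ n :=
    AddCircle.card_torsion_le_of_isSMulRegular (1 : ℚ) n hn.ne'
      (.of_right_eq_zero_of_smul fun _ ↦ by simp [hn.ne'])
  have hsub : Set.range (I.inv q K L) ⊆ T := by
    rintro _ ⟨x, rfl⟩
    exact finrank_nsmul_inv q I K L x
  have hrange : (Set.range (I.inv q K L)).ncard = n := by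
    rw [← Nat.card_coe_set_eq, Nat.card_range_of_injective (I.injective q K L), hcard]
  have hTn : T.ncard ≤ n := by
    have := hTfin.cast_ncard_eq
    rw [← this] at hTcard
    exact_mod_cast hTcard
  have heq : Set.range (I.inv q K L) = T :=
    Set.eq_of_subset_of_ncard_le hsub (by rw [hrange]; exact hTn) hTfin
  have hrT : r ∈ T := hr
  rw [← heq] at hrT
  exact hrT

end tame

end Fermat.Agent.S55.helper57
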