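import Fermat.Agent.S55.helper59_BArAsm

/-!
# S55 module B: assembly of the arithmetic `BaseInput`, second form (helper59)

Same as `baseInput_of_inputs`, but the REC3 inputs (I4), (I5), `#Sha² ≤ #Cl_S/p` and the input
(I7a) may use ALL the properties of the local functionals that are already established at that
point: `InvCompat`, (I1), non-vanishing, (I3) (this is the shape of `helper90.h3_of_arith`,
`helper90.exists_global₂_of_arith`).
-/

set_option autoImplicit false

open groupCohomology ExtCitation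
open scoped NumberField

noncomputable section

namespace Fermat.Agent.S55.helper59

open Fermat.Agent.S55

local instance factOfPrimesAsm2 (q : Nat.Primes) : Fact (q : ℕ).Prime := ⟨q.2⟩

local notation "Qbar" => AlgebraicClosure ℚ

variable {p : ℕ} [Fact p.Prime] {S : Finset Nat.Primes} {F : IntermediateField ℚ Qbar}
  [NumberField ↥F] {𝒩 : Levels (UF F)} {ι : Type} [Fintype ι]
  {L : LocalData (UF F) 𝒩 ι}

/-- non-vanishing of the local functionals -/
def InvNeZeroFor (L : LocalData (UF F) 𝒩 ι) (inv : InvFam p L) : Prop :=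
  ∀ w, ∃ c ∈ Z2 (L.lev w) (T (ZMod p) (L.Gv w)), inv w c ≠ 0

/-- `#Sha² ≤ #Cl_S/p` -/
def Sha2Bound (S : Finset Nat.Primes) (L : LocalData (UF F) 𝒩 ι) (p : ℕ) [Fact p.Prime] :
    Prop :=
  Finite (↥(sha2Z (k := ZMod p) L) ⧸
      (B2 𝒩 (T (ZMod p) (UF F))).comap (sha2Z (k := ZMod p) L).subtype) ∧
    Nat.card (↥(sha2Z (k := ZMod p) L) ⧸
      (B2 𝒩 (T (ZMod p) (UF F))).comap (sha2Z (k := ZMod p) L).subtype) ≤
    Nat.card (helper75.ClSModP (↥F) p S)

/-- B-AR-ASM, second form. -/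
theorem baseInput_of_inputs₂ (hp2 : p ≠ 2) (hpS : (⟨p, Fact.out⟩ : Nat.Primes) ∈ S)
    (hF : F.IsUnramifiedOutside S) (h𝒩 : 𝒩.mem = sLevels S F) (hL : IsArith S F L)
    (Inv : helper11.LocInv) (ζ : (↥F)ˣ) (hζ : IsPrimitiveRoot ζ p)
    (hI3 : ∀ inv : InvFam p L, InvCompat Inv ζ hL inv → RecipFor L inv)
    (hI4 : ∀ inv : InvFam p L, InvCompat Inv ζ hL inv → InvIffFor L inv →
      InvNeZeroFor L inv → RecipFor L inv → ExistsGlobal₂For L inv)
    (h3 : ∀ inv : InvFam p L, InvCompat Inv ζ hL inv → InvIffFor L inv →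
      InvNeZeroFor L inv → RecipFor L inv →
      Z3 𝒩 (T (ZMod p) (UF F)) ≤ B3 𝒩 (T (ZMod p) (UF F)))
    (hI7a : ∀ inv : InvFam p L, InvCompat Inv ζ hL inv → InvIffFor L inv →
      InvNeZeroFor L inv → RecipFor L inv →
      Z3 𝒩 (T (ZMod p) (UF F)) ≤ B3 𝒩 (T (ZMod p) (UF F)) →
      Finite ↥(Z1 𝒩 (T (ZMod p) (UF F))) → ShaLeftFor L inv)
    (hsha1 : Nat.card ↥(sha1Z (k := ZMod p) L) ≤ Nat.card (helper75.ClSModP (↥F) p S))
    (hsha2 : ∀ inv : InvFam p L, InvCompat Inv ζ hL inv → InvIffFor L inv →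
      InvNeZeroFor L inv → RecipFor L inv → Sha2Bound S L p) :
    ∃ I : BaseInput (k := ZMod p) L, InvCompat Inv ζ hL I.inv := by
  classical
  have hp : p.Prime := Fact.out
  obtain ⟨inv, hinv, hI1, hne, hI2, hlocfin⟩ :=
    helper49.exists_local_inv hL Inv (helper8.hypLocalDuality Inv p) ζ hζ
  have hrec : RecipFor L inv := hI3 inv hinv
  have hH3 := h3 inv hinv hI1 hne hrec
  have hs2 := hsha2 inv hinv hI1 hne hrec
  -- cardinalities
  set h := Nat.card (helper75.ClSModP (↥F) p S) with hh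
  have hhpos : 0 < h := Nat.card_pos
  have hg := helper97.card_Z1_glob hp2 hpS hF h𝒩 hL ζ hζ
  have hgfin : Finite ↥(Z1 𝒩 (T (ZMod p) (UF F))) := by
    apply Nat.finite_of_card_ne_zero
    rw [hg]
    exact (Nat.mul_pos (pow_pos hp.pos _) hhpos).ne'
  have heven : Even (Module.finrank ℚ F) :=
    helper50.even_finrank_of_isPrimitiveRoot (↥F) p hp hp2 (ζ : ↥F)
      (hζ.map_of_injective (f := Units.coeHom ↥F) Units.val_injective)
  have hn2 : 2 * (Module.finrank ℚ F / 2) = Module.finrank ℚ F :=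
    Nat.two_mul_div_two_of_even heven
  have hprod := prod_card_Z1_loc hpS hL ζ hζ
  have hgsq : Nat.card ↥(Z1 𝒩 (T (ZMod p) (UF F))) ^ 2 =
      p ^ (2 * Nat.card ι + Module.finrank ℚ F) * h ^ 2 := by
    rw [hg, mul_pow, ← pow_mul, add_mul, mul_comm (Module.finrank ℚ F / 2) 2, hn2,
      mul_comm (Nat.card ι) 2]
  have hlfin : ∀ w, Finite ↥(Z1 (L.lev w) (T (ZMod p) (L.Gv w))) := fun w => by
    have := hlocfin w
    exact Module.finite_of_finite (ZMod p)
  have hcard : Nat.card ↥(sha1Z (k := ZMod p) L) ^ 2 *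
      ∏ w, Nat.card ↥(Z1 (L.lev w) (T (ZMod p) (L.Gv w))) ≤
        Nat.card ↥(Z1 𝒩 (T (ZMod p) (UF F))) ^ 2 := by
    rw [hprod, hgsq, mul_comm]
    exact Nat.mul_le_mul_left _ (Nat.pow_le_pow_left hsha1 2)
  obtain ⟨hI6, heq⟩ := helper83.BArIso.exists_global₁_of_card L inv
    (fun w c hc => (hI1 w c (B2_le_Z2_triv w hc)).2 hc) hI2 hlfin hgfin hrec hcard
  have hsha1eq : Nat.card ↥(sha1Z (k := ZMod p) L) = h := by
    rw [hprod, hgsq, mul_comm] at heq
    have h2 := Nat.eq_of_mul_eq_mul_left (pow_pos hp.pos _) heq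
    exact Nat.pow_left_injective (by norm_num : (2 : ℕ) ≠ 0) h2
  have hleft : ShaLeftFor L inv := hI7a inv hinv hI1 hne hrec hH3 hgfin
  have hright := helper38.sha_right_of_card L inv hI1 hrec hH3 hgfin hleft hs2.1
    (by rw [hsha1eq]; exact hs2.2)
  have : Module.Finite (ZMod p) ↥(Z1 𝒩 (T (ZMod p) (UF F))) := Module.Finite.of_finite
  exact ⟨{ inv := inv
           inv_eq_zero_iff := hI1
           inv_ne_zero := hne
           loc_nondeg := hI2
           loc_fin := hlocfin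
           glob_fin := inferInstance
           reciprocity := hrec
           exists_global₂ := hI4 inv hinv hI1 hne hrec
           h3 := hH3
           exists_global₁ := hI6
           sha_left := hleft
           sha_right := hright }, hinv⟩

end Fermat.Agent.S55.helper59
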