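import Fermat.Agent.S55.helper59_BArAsm2
import Fermat.Agent.S55.helper59_BArFinal

/-!
# S55 module B: the deliverable `BaseInputStatement p S`, second form (helper59)

Variants `HypI4'`, `HypH3'`, `HypI7a'`, `HypSha2'` of the Props of `helper59_BArFinal`, in which
the REC3 inputs and (I7a) may use ALL the properties of the local functionals that are
established at that point of the assembly (`InvCompat`, (I1), non-vanishing, (I3)), and
`baseInputStatement_of_hyps'`.  The old Props imply the new ones.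
-/

set_option autoImplicit false

open groupCohomology ExtCitation
open scoped NumberField

noncomputable section

namespace Fermat.Agent.S55.helper59

open Fermat.Agent.S55

local instance factOfPrimesFin2 (q : Nat.Primes) : Fact (q : ℕ).Prime := ⟨q.2⟩

local notation "Qbar" => AlgebraicClosure ℚ

variable (p : ℕ) [Fact p.Prime] (S : Finset Nat.Primes)

/-- (I4) for all arithmetic local data; the local functionals are non-zero -/
def HypI4' (Inv : helper11.LocInv) : Prop :=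
  ∀ (F : IntermediateField ℚ Qbar) [NumberField ↥F] (𝒩 : Levels (UF F)) (ι : Type) [Fintype ι]
    (L : LocalData (UF F) 𝒩 ι), p ≠ 2 → (⟨p, Fact.out⟩ : Nat.Primes) ∈ S →
    F.IsUnramifiedOutside S → 𝒩.mem = sLevels S F → ∀ hL : IsArith S F L,
    ∀ ζ : (↥F)ˣ, IsPrimitiveRoot ζ p →
    ∀ inv : InvFam p L, InvCompat Inv ζ hL inv → InvIffFor L inv →
      (∀ w, ∃ c ∈ Z2 (L.lev w) (T (ZMod p) (L.Gv w)), inv w c ≠ 0) → RecipFor L inv →
      ExistsGlobal₂For L inv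

/-- (I5) for all arithmetic local data, given the local functionals -/
def HypH3' (Inv : helper11.LocInv) : Prop :=
  ∀ (F : IntermediateField ℚ Qbar) [NumberField ↥F] (𝒩 : Levels (UF F)) (ι : Type) [Fintype ι]
    (L : LocalData (UF F) 𝒩 ι), p ≠ 2 → (⟨p, Fact.out⟩ : Nat.Primes) ∈ S →
    F.IsUnramifiedOutside S → 𝒩.mem = sLevels S F → ∀ hL : IsArith S F L,
    ∀ ζ : (↥F)ˣ, IsPrimitiveRoot ζ p →
    ∀ inv : InvFam p L, InvCompat Inv ζ hL inv → InvIffFor L inv →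
      (∀ w, ∃ c ∈ Z2 (L.lev w) (T (ZMod p) (L.Gv w)), inv w c ≠ 0) → RecipFor L inv →
      Z3 𝒩 (T (ZMod p) (UF F)) ≤ B3 𝒩 (T (ZMod p) (UF F))

/-- (I7a) for all arithmetic local data; the local functionals are non-zero -/
def HypI7a' (Inv : helper11.LocInv) : Prop :=
  ∀ (F : IntermediateField ℚ Qbar) [NumberField ↥F] (𝒩 : Levels (UF F)) (ι : Type) [Fintype ι]
    (L : LocalData (UF F) 𝒩 ι), p ≠ 2 → (⟨p, Fact.out⟩ : Nat.Primes) ∈ S →
    F.IsUnramifiedOutside S → 𝒩.mem = sLevels S F → ∀ hL : IsArith S F L,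
    ∀ ζ : (↥F)ˣ, IsPrimitiveRoot ζ p →
    ∀ inv : InvFam p L, InvCompat Inv ζ hL inv → InvIffFor L inv →
      (∀ w, ∃ c ∈ Z2 (L.lev w) (T (ZMod p) (L.Gv w)), inv w c ≠ 0) → RecipFor L inv →
      Z3 𝒩 (T (ZMod p) (UF F)) ≤ B3 𝒩 (T (ZMod p) (UF F)) →
      Finite ↥(Z1 𝒩 (T (ZMod p) (UF F))) → ShaLeftFor L inv

/-- `#Sha² ≤ #Cl_S/p` for all arithmetic local data, given the local functionals -/
def HypSha2' (Inv : helper11.LocInv) : Prop :=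
  ∀ (F : IntermediateField ℚ Qbar) [NumberField ↥F] (𝒩 : Levels (UF F)) (ι : Type) [Fintype ι]
    (L : LocalData (UF F) 𝒩 ι), p ≠ 2 → (⟨p, Fact.out⟩ : Nat.Primes) ∈ S →
    F.IsUnramifiedOutside S → 𝒩.mem = sLevels S F → ∀ hL : IsArith S F L,
    ∀ ζ : (↥F)ˣ, IsPrimitiveRoot ζ p →
    ∀ inv : InvFam p L, InvCompat Inv ζ hL inv → InvIffFor L inv →
      (∀ w, ∃ c ∈ Z2 (L.lev w) (T (ZMod p) (L.Gv w)), inv w c ≠ 0) → RecipFor L inv →
      Sha2Bound S L p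

variable {p S}

omit [Fact p.Prime] in
/-- a primitive root of unity in `(↥F)ˣ` gives `HasZeta p F` -/
lemma hasZeta_of_unit {F : IntermediateField ℚ Qbar} (ζ : (↥F)ˣ) (hζ : IsPrimitiveRoot ζ p) :
    HasZeta p F := by
  have h1 : IsPrimitiveRoot ((ζ : ↥F) : Qbar) p :=
    (hζ.map_of_injective (f := Units.coeHom ↥F) Units.val_injective).map_of_injective
      (f := F.val) Subtype.val_injective
  exact ⟨_, h1, (ζ : ↥F).2⟩

lemma hypI4'_of_hypI4 {Inv : helper11.LocInv} (h : HypI4 p S Inv) : HypI4' p S Inv :=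
  fun F _ 𝒩 ι _ L hp2 hpS hF h𝒩 hL ζ hζ inv hinv hI1 _ hrec =>
    h F 𝒩 ι L hp2 hpS hF h𝒩 hL ζ hζ inv hinv hI1 hrec

lemma hypH3'_of_hypH3 (Inv : helper11.LocInv) (h : HypH3 p S) : HypH3' p S Inv :=
  fun F _ 𝒩 _ _ _ hp2 hpS hF h𝒩 _ ζ hζ _ _ _ _ _ =>
    h F 𝒩 hp2 hpS hF h𝒩 (hasZeta_of_unit ζ hζ)

lemma hypI7a'_of_hypI7a {Inv : helper11.LocInv} (h : HypI7a p S Inv) : HypI7a' p S Inv :=
  fun F _ 𝒩 ι _ L hp2 hpS hF h𝒩 hL ζ hζ inv hinv hI1 _ hrec hH3 hfin =>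
    h F 𝒩 ι L hp2 hpS hF h𝒩 hL ζ hζ inv hinv hI1 hrec hH3 hfin

lemma hypSha2'_of_hypSha2 (Inv : helper11.LocInv) (h : HypSha2 p S) : HypSha2' p S Inv :=
  fun F _ 𝒩 ι _ L hp2 hpS hF h𝒩 hL ζ hζ _ _ _ _ _ =>
    h F 𝒩 ι L hp2 hpS hF h𝒩 hL ζ hζ

/-- the arithmetic `BaseInput` for every arithmetic local datum, from the six open inputs
(second form) -/
theorem baseInput_of_hyps' (Inv : helper11.LocInv) (h3 : HypI3 p S Inv) (h4 : HypI4' p S Inv)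
    (hH3 : HypH3' p S Inv) (h7 : HypI7a' p S Inv) (hs1 : HypSha1 p S) (hs2 : HypSha2' p S Inv)
    {F : IntermediateField ℚ Qbar} [NumberField ↥F] {𝒩 : Levels (UF F)} {ι : Type} [Fintype ι]
    {L : LocalData (UF F) 𝒩 ι} (hp2 : p ≠ 2) (hpS : (⟨p, Fact.out⟩ : Nat.Primes) ∈ S)
    (hF : F.IsUnramifiedOutside S) (h𝒩 : 𝒩.mem = sLevels S F) (hL : IsArith S F L)
    (ζ : (↥F)ˣ) (hζ : IsPrimitiveRoot ζ p) :
    ∃ I : BaseInput (k := ZMod p) L, InvCompat Inv ζ hL I.inv :=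
  baseInput_of_inputs₂ hp2 hpS hF h𝒩 hL Inv ζ hζ
    (h3 F 𝒩 ι L hp2 hpS hF h𝒩 hL ζ hζ)
    (h4 F 𝒩 ι L hp2 hpS hF h𝒩 hL ζ hζ)
    (hH3 F 𝒩 ι L hp2 hpS hF h𝒩 hL ζ hζ)
    (h7 F 𝒩 ι L hp2 hpS hF h𝒩 hL ζ hζ)
    (hs1 F 𝒩 ι L hp2 hpS hF h𝒩 hL (hasZeta_of_unit ζ hζ))
    (hs2 F 𝒩 ι L hp2 hpS hF h𝒩 hL ζ hζ)

/-- **THE DELIVERABLE OF MODULE B** (second form): `BaseInputStatement p S`, from the six open
inputs. -/
theorem baseInputStatement_of_hyps' (Inv : helper11.LocInv) (h3 : HypI3 p S Inv)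
    (h4 : HypI4' p S Inv) (hH3 : HypH3' p S Inv) (h7 : HypI7a' p S Inv) (hs1 : HypSha1 p S)
    (hs2 : HypSha2' p S Inv) : BaseInputStatement p S := by
  intro hp2 hpS F hfd hF hζF hU D
  have : NumberField ↥F := ⟨⟩
  obtain ⟨ζ, hζ⟩ := exists_unit_of_hasZeta hζF
  obtain ⟨I, hI⟩ := baseInput_of_hyps' Inv h3 h4 hH3 h7 hs1 hs2 hp2 hpS hF
    (restrictLevels_mem_eq_sLevels S F hU) (shIsArith S F hU D) ζ hζ
  exact ⟨I, Inv, ζ, hζ, hI⟩

end Fermat.Agent.S55.helper59
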