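import Fermat.Agent.S55.helper75_Rec4ShaL
import Fermat.Agent.S55.helper2_RecUnram
import Fermat.Agent.S55.helper11_Rec1Hyps

/-!
# S55 module B, package B-AR-SHA-L-FROBCONJ (helper60, task 681)

`exists_conj_locHom_frob` : at a place `v` of `F` where the finite Galois extension `E/F` is
unramified, the restriction `locHom φ ∈ Gal(E/F)` of a local Frobenius `φ` of a local datum at
`v` is conjugate to the restriction `resFix F E σ` of any Frobenius element `σ ∈ Gal(ℚbar/F)`
at a valuation subring `A` of `ℚbar` over `v` (residue degree one over `ℓ`).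

Statement VERBATIM from helper75's blueprint `blueprints/S55/helper75_BArShaL_bp.lean`
([SHL-FROBCONJ]).

Proof: both elements are arithmetic Frobenius elements (`IsArithFrobAt`) at primes of `E` over
`v` (`primeOf E A`, resp. `helper2.inducedPrime q E D.Lw`); the two primes are conjugate
(`Algebra.IsInvariant.exists_smul_of_under_eq`), conjugation transports Frobenius elements
(`IsArithFrobAt.conj`), two Frobenius elements at the same prime differ by inertia
(`IsArithFrobAt.mul_inv_mem_inertia`), and the inertia group is trivial (`hunr`).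
-/

set_option autoImplicit false
set_option linter.unusedSectionVars false
set_option linter.unusedVariables false
set_option linter.style.haveILetI false

open groupCohomology ExtCitation
open scoped NumberField Pointwise
open IsDedekindDomain

noncomputable section

namespace Fermat.Agent.S55.helper60

open Fermat.Agent.S55 Fermat.Agent.S55.helper59 Fermat.Agent.S14.helper91
open Fermat.Agent.S54.helper91 hiding GQ

attribute [local instance] zbarAction zbarTopology zbarActionOver zbarAlgebraOver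

local notation "Qbar" => AlgebraicClosure ℚ

section Global

variable {p : ℕ} [Fact p.Prime] {S : Finset Nat.Primes} {F : IntermediateField ℚ Qbar}
  [NumberField ↥F] {𝒩 : Levels (UF F)} {ι : Type} [Fintype ι]
  {L : LocalData (UF F) 𝒩 ι}

/-- [SHL-FROBCONJ] -/
theorem exists_conj_locHom_frob
    (E : IntermediateField ↥F Qbar) [FiniteDimensional ↥F ↥E] [IsGalois ↥F ↥E] [NumberField ↥E]
    (v : HeightOneSpectrum (𝓞 ↥F)) (hunr : helper11.UnramAt ↥F ↥E v)
    {ℓ : ℕ} (hℓ : ℓ.Prime) (hcard : Nat.card (𝓞 ↥F ⧸ v.asIdeal) = ℓ)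
    (A : ValuationSubring Qbar) (hA : A.LiesOverPrime ℓ) (hAv : primeOf ↥F A = v.asIdeal)
    (σ : UF F) (hσ : A.IsFrobeniusAt ((σ : UF F) : GQ) ℓ)
    (q : ℕ) [Fact q.Prime] (D : helper11.LocDatum q ↥F ↥E) (hD : D.AtPlace v)
    (φ : D.Lw ≃ₐ[D.Kv] D.Lw) (hφ : helper8.IsFrob q D.Kv D.Lw φ) :
    ∃ τ : (E ≃ₐ[↥F] E), helper11.locHom ↥F ↥E D.Kv D.Lw φ = τ * resFix F E σ * τ⁻¹ := by
  -- the prime of `E` cut out by `A`
  have hP₁under : (primeOf ↥E A).under (𝓞 ↥F) = v.asIdeal := by
    rw [← hAv]
    ext y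
    rw [Ideal.under_def, Ideal.mem_comap, mem_primeOf_iff, mem_primeOf_iff]
    rfl
  have hres : IsArithFrobAt (𝓞 ↥F) (resFix F E σ) (primeOf ↥E A) := by
    intro y
    have hcard' : Nat.card (𝓞 ↥F ⧸ (primeOf ↥E A).under (𝓞 ↥F)) = ℓ := by
      rw [hP₁under, hcard]
    rw [hcard', mem_primeOf_iff]
    have h1 := IsFrobeniusAt_valuation_lt_one A hσ
      (mem_valuationSubring_of_isIntegral A (toZbar ↥E y).2)
    have h2 : algebraMap ↥E Qbar
        (((MulSemiringAction.toAlgHom (𝓞 ↥F) (𝓞 ↥E) (resFix F E σ)) y -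
          y ^ ℓ : 𝓞 ↥E) : ↥E) =
        ((σ : UF F) : GQ) ((toZbar ↥E y : Zbar) : Qbar) -
          ((toZbar ↥E y : Zbar) : Qbar) ^ ℓ := by
      rw [toZbar_coe]
      simp only [map_sub, map_pow]
      congr 1
      exact resFix_apply_coe F E σ (y : ↥E)
    rw [h2]
    exact h1
  -- the prime of `E` induced by the local datum
  have hP₂under : (helper2.inducedPrime q ↥E D.Lw).under (𝓞 ↥F) = v.asIdeal := by
    rw [helper2.under_inducedPrime, ← helper2.asIdeal_eq_inducedPrime_of_atPlace q D v hD]
  have hloc := helper2.isArithFrobAt_locHom q ↥F ↥E D φ hφ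
  -- transitivity
  obtain ⟨τ, hτ⟩ := Algebra.IsInvariant.exists_smul_of_under_eq (𝓞 ↥F) (𝓞 ↥E) Gal(↥E/↥F)
    (primeOf ↥E A) (helper2.inducedPrime q ↥E D.Lw) (by rw [hP₁under, hP₂under])
  refine ⟨τ, ?_⟩
  have hconj := hres.conj τ
  rw [← hτ] at hconj
  have hin := hloc.mul_inv_mem_inertia hconj
  have h1 := hunr (helper2.inducedPrime q ↥E D.Lw) inferInstance hP₂under _ (fun x => hin x)
  exact mul_inv_eq_one.mp h1

end Global

end Fermat.Agent.S55.helper60
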