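import Fermat.Agent.S55.helper59_BDefs3

/-!
# S55 module B: mixed reciprocity for a multiplicative cocycle (design of helper75)

`MixedRecTheta S L Inv ζ inv` : as `MixedRec`, but for an ARBITRARY multiplicative 2-cocycle
`θ : Gal(E/F)² → Eˣ` with `p`-torsion class, which on every local group of `L` is of the form
`ζ ^ a_w` for a family `a_w` of `ℤ/p`-valued functions; the support condition is stated directly
(`D'.loc [θ] = 0` at every local datum at a place not above `S` and not in `V`).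
`MixedRec` is the special case `θ = ζ ^ c`.
-/

set_option autoImplicit false

open groupCohomology ExtCitation
open scoped NumberField
open IsDedekindDomain

noncomputable section

namespace Fermat.Agent.S55.helper59

open Fermat.Agent.S55

local instance factOfPrimes4 (q : Nat.Primes) : Fact (q : ℕ).Prime := ⟨q.2⟩

local notation "Qbar" => AlgebraicClosure ℚ

/-- `f` is a multiplicative 2-cocycle of `Gal(L/K)` with values in `Lˣ` (wrapper of
`groupCohomology.IsMulCocycle₂` for abstract fields, to keep instance search cheap) -/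
def IsMulCoc (K L : Type) [Field K] [Field L] [Algebra K L]
    (f : (L ≃ₐ[K] L) × (L ≃ₐ[K] L) → Lˣ) : Prop :=
  groupCohomology.IsMulCocycle₂ f

lemma isMulCoc_iff (K L : Type) [Field K] [Field L] [Algebra K L]
    (f : (L ≃ₐ[K] L) × (L ≃ₐ[K] L) → Lˣ) :
    IsMulCoc K L f ↔ groupCohomology.IsMulCocycle₂ f := Iff.rfl

variable {p : ℕ} [Fact p.Prime] (S : Finset Nat.Primes) {F : IntermediateField ℚ Qbar}
  [NumberField ↥F] {𝒩 : Levels (UF F)} {ι : Type} [Fintype ι]

/-- MIXED RECIPROCITY for a multiplicative cocycle `θ`. -/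
def MixedRecTheta (L : LocalData (UF F) 𝒩 ι) (Inv : helper11.LocInv) (ζ : (↥F)ˣ)
    (inv : ∀ w : ι, (L.Gv w × L.Gv w → ZMod p) →ₗ[ZMod p] ZMod p) : Prop :=
  ∀ (E : IntermediateField ↥F Qbar) [FiniteDimensional ↥F ↥E] [IsGalois ↥F ↥E]
    [NumberField ↥E] (θ : (E ≃ₐ[↥F] E) × (E ≃ₐ[↥F] E) → (↥E)ˣ),
    IsMulCoc ↥F ↥E θ → p • helper8.mulClass ↥F ↥E θ = 0 →
    ∀ (a : ∀ w : ι, L.Gv w × L.Gv w → ZMod p),
    (∀ (w : ι) (s : L.Gv w × L.Gv w),
      θ (resFix F E (L.r w s.1), resFix F E (L.r w s.2)) =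
        (Units.map (algebraMap ↥F ↥E : ↥F →* ↥E) ζ) ^ (a w s).val) →
    ∀ (V : Finset (HeightOneSpectrum (𝓞 ↥F))),
    (∀ v ∈ V, v.asIdeal ∉ helper75.primesOverS (↥F) S) →
    (∀ (r : ℕ) [Fact r.Prime] (D' : helper11.LocDatum r ↥F ↥E)
      (v : HeightOneSpectrum (𝓞 ↥F)), D'.AtPlace v →
      v.asIdeal ∉ helper75.primesOverS (↥F) S → v ∉ V →
      D'.loc (helper8.mulClass ↥F ↥E θ) = 0) →
    ∀ (qV : ↥V → ℕ) [∀ v, Fact (qV v).Prime] (D : ∀ v : ↥V, helper11.LocDatum (qV v) ↥F ↥E),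
    (∀ v : ↥V, (D v).AtPlace v.1) →
    helper13.qz p (∑ w, inv w (a w)) +
      ∑ v : ↥V, Inv.inv (qV v) (D v).Kv (D v).Lw ((D v).loc (helper8.mulClass ↥F ↥E θ)) = 0

end Fermat.Agent.S55.helper59
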