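import Fermat.Agent.S55.helper75_Rec4Bridge
import Fermat.Agent.S54.helper91_Frobenius

/-!
# S55 / REC4 (helper75, task 487): R4-SHA-L, the Frobenius input of (I7a) in B language

* `isFrobeniusAt_of_zbar` : an automorphism of `ℚbar` stabilising `𝔪_A ∩ Zbar` with the Frobenius
  congruence on `Zbar` is a Frobenius element at `A`;
* `exists_isFrobeniusAt_over` : RELATIVE existence of Frobenius elements: if the prime of `F`
  below `A` has residue field `𝔽_ℓ`, then `Gal(ℚbar/F)` contains a Frobenius element at `A`;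
* `exists_frobenius_apply_ne_zero` (**R4-SHA-L**, shape of helper59, finding 892): a nonzero
  class `x` of `Sha¹(G_{F,S}, ℤ/p)` does not vanish on a Frobenius element `σ ∈ Gal(ℚbar/F)` at a
  prime `v` of `F` of residue degree one over a rational prime `ℓ` outside any finite set `T`.

Proof of the last statement: the fixed field `M` of `ker x` is abelian and unramified everywhere
over `F` (as in `helper75_Rec4BrAux`); by `exists_frobAt_not_mem` (zeta-pole lemma) there is a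
degree-one prime `P` of `F` outside `T` with `frobAt F M P ≠ 1`; a Frobenius element of
`Gal(ℚbar/F)` at a valuation subring over `P` restricts to `frobAt F M P`.
-/

set_option autoImplicit false
set_option linter.unusedVariables false
set_option linter.unusedSectionVars false
set_option linter.style.haveILetI false

open groupCohomology ExtCitation
open scoped NumberField Pointwise

noncomputable section

namespace Fermat.Agent.S55.helper75

open Fermat.Agent.S55 Fermat.Agent.S55.helper59 Fermat.Agent.S14.helper91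
open Fermat.Agent.S54.helper91 hiding GQ

attribute [local instance] zbarAction zbarTopology zbarActionOver zbarAlgebraOver

local notation "Qbar" => AlgebraicClosure ℚ

section FrobZbar

/-- An automorphism stabilising `𝔪_A ∩ Zbar` and satisfying the Frobenius congruence on `Zbar`
is a Frobenius element at `A`. -/
theorem isFrobeniusAt_of_zbar (A : ValuationSubring Qbar) {ℓ : ℕ} (hℓ : ℓ.Prime)
    (hA : A.LiesOverPrime ℓ) (σ : GQ) (hσQ : σ • zbarPrime A = zbarPrime A)
    (hσF : ∀ b : Zbar, σ • b - b ^ ℓ ∈ zbarPrime A) : A.IsFrobeniusAt σ ℓ := by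
  have hσD : σ ∈ A.decompositionSubgroup ℚ := mem_decompositionSubgroup_of_stab A hℓ hA σ hσQ
  refine ⟨hσD, fun xbar => ?_⟩
  obtain ⟨a, rfl⟩ := IsLocalRing.residue_surjective xbar
  rw [← IsLocalRing.ResidueField.residue_smul, ← map_pow]
  rw [← sub_eq_zero, ← map_sub, IsLocalRing.residue_eq_zero_iff, A.valuation_lt_one_iff]
  have hcoe : (((⟨σ, hσD⟩ : A.decompositionSubgroup ℚ) • a - a ^ ℓ : A) : Qbar) =
      σ (a : Qbar) - (a : Qbar) ^ ℓ := rfl
  rw [hcoe]
  obtain ⟨s, x, hs, hx, hs1, hsx⟩ :=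
    exists_integral_fraction A hℓ hA a.2 (isAlgebraic_int_Qbar (a : Qbar))
  have hσs1 : A.valuation (σ s) = 1 := valuation_apply_eq_one_of_stab A σ hσQ hs hs1
  have hFs : A.valuation (σ s - s ^ ℓ) < 1 := by
    have := hσF ⟨s, hs⟩
    rw [mem_zbarPrime_iff] at this
    exact this
  have hFx : A.valuation (σ x - x ^ ℓ) < 1 := by
    have := hσF ⟨x, hx⟩
    rw [mem_zbarPrime_iff] at this
    exact this
  have hxle : A.valuation x ≤ 1 := valuation_le_one_of_isIntegral A hx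
  have key : (σ (a : Qbar) - (a : Qbar) ^ ℓ) * (σ s * s ^ ℓ) =
      (σ x - x ^ ℓ) * s ^ ℓ - x ^ ℓ * (σ s - s ^ ℓ) := by
    have e1 : σ x = σ s * σ (a : Qbar) := by rw [← map_mul, hsx]
    have e2 : x ^ ℓ = s ^ ℓ * (a : Qbar) ^ ℓ := by rw [← mul_pow, hsx]
    rw [e1, e2]; ring
  have hval : A.valuation ((σ (a : Qbar) - (a : Qbar) ^ ℓ) * (σ s * s ^ ℓ)) < 1 := by
    rw [key]
    refine Valuation.map_sub_lt _ ?_ ?_
    · rw [map_mul, map_pow, hs1, one_pow, mul_one]; exact hFx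
    · rw [map_mul, map_pow]
      calc A.valuation x ^ ℓ * A.valuation (σ s - s ^ ℓ)
          ≤ 1 * A.valuation (σ s - s ^ ℓ) := by
            gcongr
            exact pow_le_one₀ zero_le hxle
        _ = A.valuation (σ s - s ^ ℓ) := one_mul _
        _ < 1 := hFs
  rw [map_mul, map_mul, map_pow, hσs1, hs1, one_pow, mul_one, mul_one] at hval
  exact hval

end FrobZbar

section FrobOver

variable (F : IntermediateField ℚ (AlgebraicClosure ℚ)) [FiniteDimensional ℚ F]

/-- an element of `Gal(ℚbar/F)` as an element of `F.fixingSubgroup`. -/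
def ofGalOverBase (h : GalOver ↥F) : UF F :=
  ⟨(h.restrictScalars ℚ : GQ), by
    rw [IntermediateField.mem_fixingSubgroup_iff]
    intro x hx
    exact h.commutes ⟨x, hx⟩⟩

omit [FiniteDimensional ℚ F] in
theorem coe_ofGalOverBase (h : GalOver ↥F) :
    ((ofGalOverBase F h : UF F) : GQ) = (h.restrictScalars ℚ : GQ) := rfl

/-- **Relative existence of Frobenius elements**: if the prime of `F` below `A` has residue
field `𝔽_ℓ`, then `Gal(ℚbar/F)` contains a Frobenius element at `A`. -/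
theorem exists_isFrobeniusAt_over (A : ValuationSubring Qbar) {ℓ : ℕ} (hℓ : ℓ.Prime)
    (hA : A.LiesOverPrime ℓ) (hdeg : Nat.card (𝓞 ↥F ⧸ primeOf ↥F A) = ℓ) :
    ∃ σ : UF F, A.IsFrobeniusAt ((σ : UF F) : GQ) ℓ := by
  have := compactSpace_over ↥F
  have := totallyDisconnectedSpace_over ↥F
  have := zbar_discrete
  have := zbarOver_continuousSMul ↥F
  have := zbarOver_isInvariant ↥F
  have := zbarOver_smulCommClass ↥F
  have : (zbarPrime A).LiesOver (primeOf ↥F A) := ⟨rfl⟩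
  let φ₀ := frobAlgEquiv A hℓ hA
  have hφ₀ : ∀ x, φ₀ x = x ^ ℓ := fun x => rfl
  -- `r ^ ℓ = r` in the residue field of `F`
  have hpow : ∀ r : 𝓞 ↥F ⧸ primeOf ↥F A, r ^ ℓ = r := by
    intro r
    haveI : Finite (𝓞 ↥F ⧸ primeOf ↥F A) := Nat.finite_of_card_ne_zero (by rw [hdeg]; exact hℓ.ne_zero)
    haveI : (primeOf ↥F A).IsMaximal := helper85.primeOf_isMaximal ↥F A hℓ hA
    letI : Field (𝓞 ↥F ⧸ primeOf ↥F A) := Ideal.Quotient.field _
    letI : Fintype (𝓞 ↥F ⧸ primeOf ↥F A) := Fintype.ofFinite _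
    have h := FiniteField.pow_card r
    rw [← Nat.card_eq_fintype_card, hdeg] at h
    exact h
  let φ : (Zbar ⧸ zbarPrime A) ≃ₐ[𝓞 ↥F ⧸ primeOf ↥F A] (Zbar ⧸ zbarPrime A) :=
    AlgEquiv.ofRingEquiv (f := φ₀.toRingEquiv) (by
      intro r
      show φ₀ (algebraMap _ _ r) = algebraMap _ _ r
      rw [hφ₀, ← map_pow, hpow])
  have hφ : ∀ x, φ x = x ^ ℓ := fun x => rfl
  obtain ⟨g, hg⟩ := Ideal.Quotient.stabilizerHom_surjective_of_profinite (G := GalOver ↥F)
    (primeOf ↥F A) (zbarPrime A) φ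
  refine ⟨ofGalOverBase F g.1, isFrobeniusAt_of_zbar A hℓ hA _ ?_ ?_⟩
  · rw [coe_ofGalOverBase, smul_restrictScalars]; exact g.2
  · intro b
    have h1 := congrArg (fun f => f (Ideal.Quotient.mk _ b)) hg
    simp only [Ideal.Quotient.stabilizerHom_apply, hφ] at h1
    rw [← map_pow] at h1
    exact Ideal.Quotient.eq.mp h1

end FrobOver

section Main

variable {p : ℕ} [Fact p.Prime] {S : Finset Nat.Primes}
  {F : IntermediateField ℚ (AlgebraicClosure ℚ)} [FiniteDimensional ℚ F]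
  {𝒩 : Levels (UF F)} {ι : Type} {L : LocalData (UF F) 𝒩 ι}

open Fermat.Agent.S14 IsDedekindDomain in
/-- **R4-SHA-L**: a nonzero class of `Sha¹(G_{F,S}, ℤ/p)` does not vanish on a Frobenius element
of `Gal(ℚbar/F)` at a prime of `F` of residue degree one outside any finite set of rational
primes. -/
theorem exists_frobenius_apply_ne_zero [NumberField ↥F]
    (hF : F.IsUnramifiedOutside S) (h𝒩 : 𝒩.mem = sLevels S F) (hL : IsArith S F L)
    (x : UF F → ZMod p) (hx : x ∈ sha1Z (k := ZMod p) L) (hx0 : x ≠ 0) (T : Finset ℕ) :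
    ∃ ℓ : ℕ, ℓ.Prime ∧ ℓ ∉ T ∧ ∃ v : HeightOneSpectrum (𝓞 ↥F),
      (ℓ : 𝓞 ↥F) ∈ v.asIdeal ∧ Nat.card (𝓞 ↥F ⧸ v.asIdeal) = ℓ ∧
      ∃ A : ValuationSubring Qbar, A.LiesOverPrime ℓ ∧ primeOf ↥F A = v.asIdeal ∧
      ∃ σ : UF F, A.IsFrobeniusAt ((σ : UF F) : GQ) ℓ ∧ x σ ≠ 0 := by
  classical
  have hxZ := (mem_sha1Z_iff L x).mp hx
  obtain ⟨N₀, hN₀, hlev⟩ : IsLev₁ 𝒩 x := hxZ.1.1
  rw [h𝒩] at hN₀
  obtain ⟨E₀, hE₀, -, hFE, rfl⟩ := hN₀
  haveI : FiniteDimensional ℚ E₀ := hE₀.1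
  have hadd := sha1Z_add L hx
  have hone' := sha1Z_one L hx
  have hinv := sha1Z_inv L hx
  let N : Subgroup (UF F) :=
    { carrier := {g | x g = 0}
      mul_mem' := fun {a b} ha hb => by
        show x (a * b) = 0
        rw [hadd, show x a = 0 from ha, show x b = 0 from hb, add_zero]
      one_mem' := hone'
      inv_mem' := fun {a} ha => by
        show x a⁻¹ = 0
        rw [hinv, show x a = 0 from ha, neg_zero] }
  have hmemN : ∀ g : UF F, g ∈ N ↔ x g = 0 := fun g => Iff.rfl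
  have hle : E₀.fixingSubgroup.subgroupOf F.fixingSubgroup ≤ N := fun s hs => by
    have := hlev 1 s hs
    rw [one_mul] at this
    rw [hmemN, this]
    exact hone'
  haveI hNn : N.Normal := ⟨fun n hn g => by
    rw [hmemN] at hn ⊢
    rw [hadd, hadd, hinv, hn]
    abel⟩
  set M : IntermediateField ↥F Qbar := fieldOf F N with hM
  haveI hMfin : FiniteDimensional ↥F ↥M := finiteDimensional_fieldOf F N E₀ hFE hle
  haveI hMgal : IsGalois ↥F ↥M := isGalois_fieldOf F N E₀ hFE hle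
  haveI : Normal ↥F ↥M := hMgal.to_normal
  have hker : ∀ σ : UF F, σ ∈ (resFix F M).ker ↔ σ ∈ N :=
    mem_ker_resFix_fieldOf F N E₀ hFE hle
  have hMunr : (M.restrictScalars ℚ).IsUnramifiedOutside S :=
    hE₀.of_le (fieldOf_restrictScalars_le F N E₀ hFE hle)
  haveI : Normal ↥F Qbar := (isGalois_Qbar_over F).to_normal
  have hsurj : Function.Surjective (resFix F M) := resFix_surjective F M
  have hone : ∀ σ : UF F, σ ∈ N → resFix F M σ = 1 := fun σ hσ =>
    MonoidHom.mem_ker.mp ((hker σ).mpr hσ)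
  have hdecN : ∀ (q : Nat.Primes), q ∈ S → ∀ A : ValuationSubring Qbar,
      A.LiesOverPrime (q : ℕ) → ∀ σ : UF F, ((σ : UF F) : GQ) ∈ A.decompositionSubgroup ℚ →
      σ ∈ N := fun q hq A hA σ hσ =>
    helper98.apply_eq_zero_of_mem_decompositionSubgroup_of_transitive
      (fun hℓ A B hA hB => helper48.exists_smul_eq_of_liesOverPrime hℓ A B hA hB)
      hL x hadd hxZ.2 q hq A hA σ hσ
  haveI : NumberField ↥M :=
    { to_charZero := inferInstance
      to_finiteDimensional := Module.Finite.trans ↥F ↥M }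
  have hcomm : ∀ a b : ↥M ≃ₐ[↥F] ↥M, a * b = b * a := by
    intro a b
    obtain ⟨g, rfl⟩ := hsurj a
    obtain ⟨h, rfl⟩ := hsurj b
    have hc : g * h * g⁻¹ * h⁻¹ ∈ N := by
      rw [hmemN, hadd, hadd, hadd, hinv, hinv]
      abel
    have h1 := hone _ hc
    rw [map_mul, map_mul, map_mul, map_inv, map_inv] at h1
    calc resFix F M g * resFix F M h
        = (resFix F M g * resFix F M h * (resFix F M g)⁻¹ * (resFix F M h)⁻¹) *
            (resFix F M h * resFix F M g) := by group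
      _ = resFix F M h * resFix F M g := by rw [h1, one_mul]
  haveI : IsAbelianGalois ↥F ↥M := { toIsGalois := hMgal, is_comm := ⟨hcomm⟩ }
  -- unramified everywhere
  have hunr : IsUnramifiedEverywhere ↥F ↥M := by
    intro P hP hP0 σ hσ
    haveI := hP
    haveI : P.IsMaximal := Ring.DimensionLEOne.maximalOfPrime hP0 hP
    obtain ⟨A, hA⟩ := exists_primeOf_eq ↥M P
    obtain ⟨ℓ, hℓ, hℓP⟩ := exists_prime_natCast_mem P hP0
    have hAℓ : A.LiesOverPrime ℓ := liesOverPrime_of_natCast_mem ↥M A (by rw [hA]; exact hℓP)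
    obtain ⟨σ', hσ'I, hσ'⟩ := helper85.exists_inertia_lift F M A hℓ hAℓ σ
      (fun x => by rw [hA]; exact hσ x)
    rw [← hσ']
    by_cases hS : (⟨ℓ, hℓ⟩ : Nat.Primes) ∈ S
    · apply hone
      exact hdecN ⟨ℓ, hℓ⟩ hS A hAℓ σ' ((mem_inertiaSubgroupIn_iff_valuation A _).mp hσ'I).1
    · have h1 := hMunr.2 ⟨ℓ, hℓ⟩ hS A hAℓ hσ'I
      rw [← MonoidHom.mem_ker, mem_ker_resFix_iff]
      intro x hx
      exact (IntermediateField.mem_fixingSubgroup_iff _ _).mp h1 x hx
  -- the Galois group is non-trivial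
  have hbot : (⊥ : Subgroup Gal(↥M/↥F)) ≠ ⊤ := by
    intro h
    apply hx0
    funext g
    have h1 : resFix F M g ∈ (⊥ : Subgroup Gal(↥M/↥F)) := h ▸ Subgroup.mem_top _
    rw [Subgroup.mem_bot, ← MonoidHom.mem_ker, hker, hmemN] at h1
    exact h1
  -- the excluded primes
  set a : 𝓞 ↥F := ∏ t ∈ T.filter Nat.Prime, (t : 𝓞 ↥F) with ha
  have ha0 : a ≠ 0 := by
    rw [ha, Finset.prod_ne_zero_iff]
    intro t ht
    have := (Finset.mem_filter.mp ht).2
    exact_mod_cast this.ne_zero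
  have hI : (Ideal.span {a} : Ideal (𝓞 ↥F)) ≠ 0 := by
    simpa [Ideal.span_singleton_eq_bot] using ha0
  set T' : Finset (Ideal (𝓞 ↥F)) :=
    (Ideal.finite_factors hI).toFinset.image (fun v => v.asIdeal) with hT'
  obtain ⟨P, hP, hP0, hPT, hP1, hP2⟩ := exists_frobAt_not_mem ↥F ↥M hunr T' ⊥ hbot
  haveI := hP
  have hℓP : ((Ideal.absNorm P : ℕ) : 𝓞 ↥F) ∈ P := Ideal.absNorm_mem P
  refine ⟨Ideal.absNorm P, hP1, ?_, ⟨P, hP, hP0⟩, hℓP, ?_, ?_⟩
  · intro hT
    apply hPT
    rw [hT', Finset.mem_image]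
    refine ⟨⟨P, hP, hP0⟩, ?_, rfl⟩
    rw [Set.Finite.mem_toFinset]
    show (⟨P, hP, hP0⟩ : HeightOneSpectrum (𝓞 ↥F)).asIdeal ∣ Ideal.span {a}
    rw [Ideal.dvd_iff_le, Ideal.span_singleton_le_iff_mem]
    have hdvd : ((Ideal.absNorm P : ℕ) : 𝓞 ↥F) ∣ a := by
      rw [ha]
      exact Finset.dvd_prod_of_mem (fun t : ℕ => (t : 𝓞 ↥F))
        (Finset.mem_filter.mpr ⟨hT, hP1⟩)
    exact Ideal.mem_of_dvd _ hdvd hℓP
  · show Nat.card (𝓞 ↥F ⧸ P) = Ideal.absNorm P
    rw [Ideal.absNorm_apply, Submodule.cardQuot_apply]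
  · -- the valuation subring
    obtain ⟨P', hP', hP'0, hP'P, hfrob⟩ := helper12.exists_isArithFrobAt_frobAt ↥F ↥M P hP0
    haveI := hP'
    haveI : P'.IsMaximal := Ring.DimensionLEOne.maximalOfPrime hP'0 hP'
    obtain ⟨A, hA⟩ := exists_primeOf_eq ↥M P'
    have hℓP' : ((Ideal.absNorm P : ℕ) : 𝓞 ↥M) ∈ P' := by
      have h1 : algebraMap (𝓞 ↥F) (𝓞 ↥M) ((Ideal.absNorm P : ℕ) : 𝓞 ↥F) ∈ P' := by
        rw [← Ideal.mem_comap, ← Ideal.under_def, hP'P]
        exact hℓP
      simpa using h1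
    have hAℓ : A.LiesOverPrime (Ideal.absNorm P) :=
      liesOverPrime_of_natCast_mem ↥M A (by rw [hA]; exact hℓP')
    have hAF : primeOf ↥F A = P := by
      rw [← hP'P, ← hA]
      ext y
      rw [Ideal.under_def, Ideal.mem_comap, mem_primeOf_iff, mem_primeOf_iff]
      rfl
    have hdeg : Nat.card (𝓞 ↥F ⧸ primeOf ↥F A) = Ideal.absNorm P := by
      rw [hAF, Ideal.absNorm_apply, Submodule.cardQuot_apply]
    obtain ⟨σ, hσ⟩ := exists_isFrobeniusAt_over F A hP1 hAℓ hdeg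
    refine ⟨A, hAℓ, hAF, σ, hσ, ?_⟩
    -- `σ` restricts to the Frobenius of `M/F` at `P`
    have hres : IsArithFrobAt (𝓞 ↥F) (resFix F M σ) P' := by
      intro y
      have hcard : Nat.card (𝓞 ↥F ⧸ P'.under (𝓞 ↥F)) = Ideal.absNorm P := by
        rw [hP'P, Ideal.absNorm_apply, Submodule.cardQuot_apply]
      rw [hcard, ← hA, mem_primeOf_iff]
      have h1 := IsFrobeniusAt_valuation_lt_one A hσ
        (mem_valuationSubring_of_isIntegral A (toZbar ↥M y).2)
      have h2 : algebraMap ↥M Qbar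
          (((MulSemiringAction.toAlgHom (𝓞 ↥F) (𝓞 ↥M) (resFix F M σ)) y -
            y ^ Ideal.absNorm P : 𝓞 ↥M) : ↥M) =
          ((σ : UF F) : GQ) ((toZbar ↥M y : Zbar) : Qbar) -
            ((toZbar ↥M y : Zbar) : Qbar) ^ Ideal.absNorm P := by
        rw [toZbar_coe]
        simp only [map_sub, map_pow]
        congr 1
        exact resFix_apply_coe F M σ (y : ↥M)
      rw [h2]
      exact h1
    have heq := helper12.eq_frobAt_of_isArithFrobAt ↥F ↥M P' hP'0
      (fun τ hτ => hunr P' hP' hP'0 τ hτ) (resFix F M σ) hres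
    rw [hP'P] at heq
    intro hxσ
    apply hP2
    rw [Subgroup.mem_bot, ← heq]
    exact hone σ ((hmemN σ).mpr hxσ)

end Main

end Fermat.Agent.S55.helper75
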