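import Fermat.Agent.S55.helper75_TameG
import Fermat.Agent.S55.helper75_ShaLAlg
import Fermat.Agent.S55.helper75_Rec4ShaL
import Fermat.Agent.S55.helper59_BDefs4
import Fermat.Agent.S55.helper59_BArAsm
import Fermat.Agent.S55.helper15_UnramSupport
import Fermat.Agent.S55.helper15_RecExist
import Fermat.Agent.S55.helper98_BArRecI3
import Fermat.Agent.S55.helper42_KumRoots
import Fermat.Agent.S55.helper38_BArShaAbs
import Fermat.Agent.S55.helper21_BArShaLoc
import Fermat.Agent.S55.helper79_SUnit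
import Fermat.Agent.S55.helper7_BArDicG

/-!
# S55 module B, package B-AR-SHA-L (helper75): the left kernel of the Sha-pairing (I7a)

THETA design: for `0 ≠ x ∈ Sha¹(G_{F,S}, ℤ/p)` choose a prime `Q ∉ S` of degree one with
`x(Frob_Q) ≠ 0` (`exists_frobenius_apply_ne_zero`), a generator `a` of `Q ^ h`, `h = p ^ k m`,
`p ∤ m` (`exists_gen`), the Kummer 2-cocycle `z` of `β = a ^ (1 / p ^ k)` (package SHL-KUM), a
primitive `α` of `x ∪ z`, and apply mixed reciprocity (`MixedRecTheta`) to the Brauer cocycle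
`Θ = thetaCochain p ζ β x b α` at an `S`-level `E`: it is `ζ ^ α` at the places above `S`, trivial
at the places outside `S ∪ {Q}` (SHL-SUPP), and has invariant `- m x(Frob_Q) / p ≠ 0` at `Q`
(SHL-LOCVAL, SHL-FROBCONJ).

* `ord_of_pow_eq` [SHL-ORD], `exists_gen` [SHL-GEN], `natCast_prime_eq_of_mem`;
* `shaLeftFor_of_inputs` [SHL-ASM]: `ShaLeftFor L inv` from `MixedRecTheta`, conditional on the
  packages SHL-KUM, SHL-FROBCONJ, SHL-LOCVAL, SHL-SUPP (explicit hypotheses, verbatim the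
  statements of the package owners).
-/

set_option autoImplicit false
set_option linter.unusedSectionVars false
set_option linter.unusedVariables false
set_option linter.style.haveILetI false

open groupCohomology ExtCitation
open scoped NumberField
open IsDedekindDomain

noncomputable section

namespace Fermat.Agent.S55.helper75

open Fermat.Agent.S55 Fermat.Agent.S55.helper59 Fermat.Agent.S14.helper91

local notation "Qbar" => AlgebraicClosure ℚ

section Local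

open Fermat.Agent.S55.helper8 Fermat.Agent.S55.helper11

variable (q : ℕ) [Fact q.Prime] (F E : Type) [Field F] [NumberField F] [Field E]
  [NumberField E] [Algebra F E] [IsGalois F E]

/-- [SHL-ORD] -/
theorem ord_of_pow_eq (D : LocDatum q F E) (v : HeightOneSpectrum (𝓞 F)) (hv : D.AtPlace v)
    (hunr : IsUnram q D.Kv D.Lw) (y : Eˣ) (c : Fˣ) (n : ℕ)
    (hy : y ^ n = Units.map (algebraMap F E : F →* E) c) (e : ℤ)
    (hc : v.valuation F (c : F) = WithZero.exp (-e)) :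
    (n : ℤ) * ord q D.Lw (Units.map (algebraMap E D.Lw : E →* D.Lw) y) = e := by
  have : FiniteDimensional ℚ_[q] D.Lw := Module.Finite.trans D.Kv D.Lw
  have h1 := helper2.valuation_eq_exp_neg_ord q F E D v hv c
  rw [hc, WithZero.exp_inj, neg_inj] at h1
  have h2 := hunr (Units.map (algebraMap F D.Kv : F →* D.Kv) c)
  have h3 : Units.map (algebraMap D.Kv D.Lw : D.Kv →* D.Lw)
      (Units.map (algebraMap F D.Kv : F →* D.Kv) c) =
      (Units.map (algebraMap E D.Lw : E →* D.Lw) y) ^ n := by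
    rw [← map_pow, hy]
    apply Units.ext
    simp only [Units.coe_map, MonoidHom.coe_coe]
    exact (helper2.algebraMap_compat q F E D (c : F)).symm
  rw [h3, helper21.ord_pow'] at h2
  rw [h2, ← h1]

end Local

section Gen

variable {F : Type} [Field F] [NumberField F]

/-- [SHL-GEN] -/
theorem exists_gen (p : ℕ) [Fact p.Prime] (v : HeightOneSpectrum (𝓞 F)) :
    ∃ (a : Fˣ) (k m : ℕ), ¬ p ∣ m ∧
      v.valuation F (a : F) = WithZero.exp (-((p ^ k * m : ℕ) : ℤ)) ∧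
      (∀ v' : HeightOneSpectrum (𝓞 F), v' ≠ v → v'.valuation F (a : F) = 1) ∧
      (∀ v' : HeightOneSpectrum (𝓞 F),
        ((p ^ k : ℕ) : ℤ) ∣ Multiplicative.toAdd (v'.valuationOfNeZero a)) := by
  have hp : p.Prime := Fact.out
  obtain ⟨a, ha0, ha⟩ := helper79.exists_span_eq_pow_classExp (R := 𝓞 F) v
  have hpos : 0 < helper79.classExp (𝓞 F) := helper79.classExp_pos (𝓞 F)
  obtain ⟨k, m, hm, hkm⟩ := Nat.exists_eq_pow_mul_and_not_dvd hpos.ne' p hp.ne_one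
  have hK : algebraMap (𝓞 F) F a ≠ 0 := by simpa using ha0
  have hv1 : v.valuation F (algebraMap (𝓞 F) F a) = WithZero.exp (-((p ^ k * m : ℕ) : ℤ)) := by
    rw [HeightOneSpectrum.valuation_of_algebraMap, helper79.intValuation_eq_of_span_eq_pow v ha,
      hkm]
  have hv2 : ∀ v' : HeightOneSpectrum (𝓞 F), v' ≠ v →
      v'.valuation F (algebraMap (𝓞 F) F a) = 1 := by
    intro v' hv'
    rw [HeightOneSpectrum.valuation_of_algebraMap,
      helper79.intValuation_eq_one_of_span_eq_pow v v' hv' ha]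
  refine ⟨Units.mk0 (algebraMap (𝓞 F) F a) hK, k, m, hm, hv1, hv2, fun v' => ?_⟩
  by_cases hv' : v' = v
  · subst hv'
    have h1 := helper79.valuationOfNeZero_mk0_algebraMap F v' ha0 _
      (helper79.intValuation_eq_of_span_eq_pow v' ha)
    rw [h1, toAdd_ofAdd, hkm]
    refine Dvd.dvd.neg_right ?_
    push_cast
    exact Dvd.intro _ rfl
  · have h1 := helper79.valuationOfNeZero_mk0_algebraMap F v' ha0 0
      (by rw [helper79.intValuation_eq_one_of_span_eq_pow v v' hv' ha]; rfl)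
    rw [h1, toAdd_ofAdd]
    exact dvd_zero _

/-- two distinct rational primes do not lie in the same prime ideal -/
theorem natCast_prime_eq_of_mem (v : HeightOneSpectrum (𝓞 F)) {ℓ q : ℕ} (hℓ : ℓ.Prime)
    (hq : q.Prime) (hℓv : (ℓ : 𝓞 F) ∈ v.asIdeal) (hqv : (q : 𝓞 F) ∈ v.asIdeal) : ℓ = q := by
  by_contra hne
  have hco : IsCoprime (ℓ : ℤ) (q : ℤ) :=
    Nat.Coprime.isCoprime ((Nat.coprime_primes hℓ hq).mpr hne)
  obtain ⟨a, b, hab⟩ := hco
  have h1 : ((a * ℓ + b * q : ℤ) : 𝓞 F) ∈ v.asIdeal := by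
    push_cast
    exact v.asIdeal.add_mem (v.asIdeal.mul_mem_left _ hℓv) (v.asIdeal.mul_mem_left _ hqv)
  rw [hab, Int.cast_one] at h1
  exact v.isPrime.ne_top ((Ideal.eq_top_iff_one _).mpr h1)

end Gen

section Asm

variable {p : ℕ} [Fact p.Prime] {S : Finset Nat.Primes} {F : IntermediateField ℚ Qbar}
  [NumberField ↥F] {𝒩 : Levels (UF F)} {ι : Type} [Fintype ι]
  {L : LocalData (UF F) 𝒩 ι}

/-- [SHL-ASM], conditional on the packages SHL-KUM (helper83), SHL-FROBCONJ (task 681),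
SHL-LOCVAL, SHL-SUPP (task 682). -/
theorem shaLeftFor_of_inputs (hpS : (⟨p, Fact.out⟩ : Nat.Primes) ∈ S)
    (hF : F.IsUnramifiedOutside S) (h𝒩 : 𝒩.mem = sLevels S F) (hL : IsArith S F L)
    (Inv : helper11.LocInv) (ζ : (↥F)ˣ) (hζ : IsPrimitiveRoot ζ p)
    (h3 : Z3 𝒩 (T (ZMod p) (UF F)) ≤ B3 𝒩 (T (ZMod p) (UF F)))
    (inv : ∀ w : ι, (L.Gv w × L.Gv w → ZMod p) →ₗ[ZMod p] ZMod p)
    (hMixT : MixedRecTheta S L Inv ζ inv)
    -- SHL-KUM
    (hKum : ∀ (a : (↥F)ˣ) (k : ℕ),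
      (∀ v : HeightOneSpectrum (𝓞 ↥F), v ∉ helper97.placesOver (↥F) S →
        ((p ^ k : ℕ) : ℤ) ∣ Multiplicative.toAdd (v.valuationOfNeZero a)) →
      ∃ z ∈ Z2 𝒩 (T (ZMod p) (UF F)),
        (∀ w, (fun s : L.Gv w × L.Gv w => z (L.r w s.1, L.r w s.2)) ∈
          B2 (L.lev w) (T (ZMod p) (L.Gv w))) ∧
        ∃ E₀ : IntermediateField ↥F Qbar, FiniteDimensional ↥F ↥E₀ ∧ IsGalois ↥F ↥E₀ ∧
          (E₀.restrictScalars ℚ).IsUnramifiedOutside S ∧
          ∀ (E : IntermediateField ↥F Qbar) [FiniteDimensional ↥F ↥E] [IsGalois ↥F ↥E],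
            E₀ ≤ E →
            ∃ (β : (↥E)ˣ) (b : (E ≃ₐ[↥F] E) → (↥E)ˣ)
              (z' : (E ≃ₐ[↥F] E) × (E ≃ₐ[↥F] E) → ZMod p),
              β ^ (p ^ k) = Units.map (algebraMap ↥F ↥E : ↥F →* ↥E) a ∧
              (∀ g, b g ^ p = g • β / β) ∧ (∀ g, b g ^ (p ^ (k + 1)) = 1) ∧
              (∀ g h, g • b h * b g / b (g * h) =
                (Units.map (algebraMap ↥F ↥E : ↥F →* ↥E) ζ) ^ (z' (g, h)).val) ∧
              ∀ σ τ : UF F, z (σ, τ) = z' (resFix F E σ, resFix F E τ))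
    -- SHL-FROBCONJ
    (hFrob : ∀ (E : IntermediateField ↥F Qbar) [FiniteDimensional ↥F ↥E] [IsGalois ↥F ↥E]
      [NumberField ↥E] (v : HeightOneSpectrum (𝓞 ↥F)) (hunr : helper11.UnramAt ↥F ↥E v)
      {ℓ : ℕ} (hℓ : ℓ.Prime) (hcard : Nat.card (𝓞 ↥F ⧸ v.asIdeal) = ℓ)
      (A : ValuationSubring Qbar) (hA : A.LiesOverPrime ℓ) (hAv : primeOf ↥F A = v.asIdeal)
      (σ : UF F) (hσ : A.IsFrobeniusAt ((σ : UF F) : GQ) ℓ)
      (q : ℕ) [Fact q.Prime] (D : helper11.LocDatum q ↥F ↥E) (hD : D.AtPlace v)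
      (φ : D.Lw ≃ₐ[D.Kv] D.Lw) (hφ : helper8.IsFrob q D.Kv D.Lw φ),
      ∃ τ : (E ≃ₐ[↥F] E), helper11.locHom ↥F ↥E D.Kv D.Lw φ = τ * resFix F E σ * τ⁻¹)
    -- SHL-LOCVAL
    (hLocVal : ∀ (q : ℕ) [Fact q.Prime] (F E : Type) [Field F] [NumberField F] [Field E]
      [NumberField E] [Algebra F E] [IsGalois F E]
      (D : helper11.LocDatum q F E)
      (hunr : helper8.IsUnram q D.Kv D.Lw) (φ : D.Lw ≃ₐ[D.Kv] D.Lw)
      (hφ : helper8.IsFrob q D.Kv D.Lw φ)
      (ζ β : Eˣ) (x : (E ≃ₐ[F] E) → ZMod p) (hx : ∀ g h, x (g * h) = x g + x h)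
      (b : (E ≃ₐ[F] E) → Eˣ) (α : (E ≃ₐ[F] E) × (E ≃ₐ[F] E) → ZMod p)
      (hΘ : IsMulCocycle₂ (thetaCochain p ζ β x b α))
      (hζ : ζ ^ p = 1) (hbt : ∀ g, ∃ n : ℕ, 0 < n ∧ b g ^ n = 1),
      Inv.inv q D.Kv D.Lw (D.loc (helper8.mulClass F E (thetaCochain p ζ β x b α))) =
        - helper13.qz p (((helper8.ord q D.Lw
            (Units.map (algebraMap E D.Lw : E →* D.Lw) β) : ℤ) : ZMod p) *
          x (helper11.locHom F E D.Kv D.Lw φ)))
    -- SHL-SUPP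
    (hSupp : ∀ (q : ℕ) [Fact q.Prime] (F E : Type) [Field F] [NumberField F] [Field E]
      [NumberField E] [Algebra F E] [IsGalois F E]
      (D : helper11.LocDatum q F E)
      (hunr : helper8.IsUnram q D.Kv D.Lw)
      (ζ β : Eˣ) (x : (E ≃ₐ[F] E) → ZMod p)
      (b : (E ≃ₐ[F] E) → Eˣ) (α : (E ≃ₐ[F] E) × (E ≃ₐ[F] E) → ZMod p)
      (hΘ : IsMulCocycle₂ (thetaCochain p ζ β x b α))
      (hζ : ζ ^ p = 1) (hbt : ∀ g, ∃ n : ℕ, 0 < n ∧ b g ^ n = 1)
      (hβ : helper8.ord q D.Lw (Units.map (algebraMap E D.Lw : E →* D.Lw) β) = 0),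
      D.loc (helper8.mulClass F E (thetaCochain p ζ β x b α)) = 0) :
    ShaLeftFor L inv := by
  classical
  intro x hx hxloc hx0
  have hp : p.Prime := Fact.out
  -- Step 1: the Frobenius
  have hxsha : x ∈ sha1Z (k := ZMod p) L := (mem_sha1Z_iff L x).mpr ⟨hx, hxloc⟩
  have hxadd : ∀ g h : UF F, x (g * h) = x g + x h := fun g h => sha1Z_add L hxsha g h
  obtain ⟨ℓ, hℓ, hℓT, v, hℓv, hcard, A, hA, hAv, σ, hσ, hxσ⟩ :=
    exists_frobenius_apply_ne_zero hF h𝒩 hL x hxsha hx0 (S.image (fun q : Nat.Primes => (q : ℕ)))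
  have hvS : v.asIdeal ∉ primesOverS ↥F S := by
    rintro ⟨-, -, q, hqS, hqv⟩
    apply hℓT
    rw [Finset.mem_image]
    exact ⟨q, hqS, (natCast_prime_eq_of_mem v hℓ q.2 hℓv hqv).symm⟩
  -- Step 2: the generator
  obtain ⟨a, k, m, hm, hva, hva', hdvd⟩ := exists_gen p v
  -- Step 3: the Kummer package
  obtain ⟨z, hz, hzloc, E₀, hE₀fin, hE₀gal, hE₀unr, hE₀⟩ := hKum a k (fun v' _ => hdvd v')
  refine ⟨z, hz, hzloc, ?_⟩
  -- Step 4: the primitive
  obtain ⟨α, hα, hdα⟩ := helper38.exists_primitive_cup₁₂ h3 hx hz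
  refine ⟨α, hα, hdα, ?_⟩
  -- Step 5: the level `E`
  obtain ⟨Ex, hExfin, hExgal, hExunr, x', hx'⟩ := (helper7.isLev₁_glob_iff hF h𝒩 x).mp hx.1
  obtain ⟨Eα, hEαfin, hEαgal, hEαunr, α', hα'⟩ := (helper7.isLev₂_glob_iff hF h𝒩 α).mp hα
  obtain ⟨E₁, hE₁fin, hE₁gal, hE₁unr, hle1, hle2, -⟩ :=
    helper7.exists_level_ge hF E₀ Ex hE₀unr hExunr
  obtain ⟨E, hEfin, hEgal, hEunr, hle3, hle4, -⟩ :=
    helper7.exists_level_ge hF E₁ Eα hE₁unr hEαunr
  haveI : NumberField ↥E :=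
    { to_charZero := inferInstance
      to_finiteDimensional := Module.Finite.trans ↥F ↥E }
  haveI : Normal ↥F ↥E := hEgal.to_normal
  haveI : Normal ↥F ↥Ex := hExgal.to_normal
  haveI : Normal ↥F ↥Eα := hEαgal.to_normal
  have hE₀E : E₀ ≤ E := hle1.trans hle3
  have hExE : Ex ≤ E := hle2.trans hle3
  obtain ⟨β, b, z', hβ, hb, hbt, hz', hzz'⟩ := hE₀ E hE₀E
  have hsurj : Function.Surjective (resFix F E) := resFix_surjective F E
  -- the character at level `E`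
  obtain ⟨xE, hxE⟩ : ∃ xE : (E ≃ₐ[↥F] E) → ZMod p, ∀ σ : UF F, x σ = xE (resFix F E σ) := by
    refine ⟨infl₁ (helper7.resTrans Ex E hExE) x', fun σ => ?_⟩
    rw [hx', helper7.infl₁_resTrans Ex E hExE]
    rfl
  have hxEadd : ∀ g h, xE (g * h) = xE g + xE h := by
    intro g h
    obtain ⟨σ, rfl⟩ := hsurj g
    obtain ⟨τ, rfl⟩ := hsurj h
    rw [← map_mul, ← hxE, ← hxE, ← hxE, hxadd]
  -- the primitive at level `E`
  obtain ⟨αE, hαE⟩ : ∃ αE : (E ≃ₐ[↥F] E) × (E ≃ₐ[↥F] E) → ZMod p,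
      ∀ σ τ : UF F, α (σ, τ) = αE (resFix F E σ, resFix F E τ) := by
    refine ⟨infl₂ (helper7.resTrans Eα E hle4) α', fun σ τ => ?_⟩
    rw [hα', helper7.infl₂_resTrans Eα E hle4]
    rfl
  have hdαE : ∀ g h j, αE (h, j) - αE (g * h, j) + αE (g, h * j) - αE (g, h) =
      xE g * z' (h, j) := by
    intro g h j
    obtain ⟨σ₁, rfl⟩ := hsurj g
    obtain ⟨σ₂, rfl⟩ := hsurj h
    obtain ⟨σ₃, rfl⟩ := hsurj j
    have := congrFun hdα (σ₁, σ₂, σ₃)
    rw [helper25.d₂₃_T_apply, cup₁₂_apply] at this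
    rw [← map_mul, ← map_mul, ← hαE, ← hαE, ← hαE, ← hαE, ← hxE, ← hzz']
    exact this
  -- the cocycle `Θ`
  set ζE : (↥E)ˣ := Units.map (algebraMap ↥F ↥E : ↥F →* ↥E) ζ with hζEdef
  have hζE : ζE ^ p = 1 := by rw [hζEdef, ← map_pow, hζ.pow_eq_one, map_one]
  have hζG : ∀ g : (E ≃ₐ[↥F] E), g • ζE = ζE := by
    intro g
    apply Units.ext
    exact g.commutes _
  have hΘ : IsMulCocycle₂ (thetaCochain p ζE β xE b αE) :=
    isMulCocycle₂_thetaCochain ζE β hζE hζG xE hxEadd b hb z' hz' αE hdαE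
  have hpΘ : p • helper8.mulClass ↥F ↥E (thetaCochain p ζE β xE b αE) = 0 := by
    rw [← helper13.mulClass_pow ↥F ↥E hΘ p]
    exact helper13.mulClass_eq_zero_of_isMulCoboundary₂ ↥F ↥E
      (isMulCoboundary₂_thetaCochain_pow ζE β hζE xE hxEadd b hb αE)
  have hbt' : ∀ g, ∃ n : ℕ, 0 < n ∧ b g ^ n = 1 :=
    fun g => ⟨p ^ (k + 1), pow_pos hp.pos _, hbt g⟩
  -- Step 6: the local datum at `v`
  obtain ⟨q, hq, D, hD⟩ := helper15.exists_locDatum ↥F ↥E v
  haveI := hq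
  have hunrv : helper11.UnramAt ↥F ↥E v :=
    helper98.unramAt_of_isUnramifiedOutside E hEunr v hvS
  have hIs : helper8.IsUnram q D.Kv D.Lw := helper15.isUnram_of_unramAt q ↥F ↥E D v hD hunrv
  haveI : FiniteDimensional ℚ_[q] D.Lw := Module.Finite.trans D.Kv D.Lw
  obtain ⟨φ, hφ, -, -, -⟩ := helper7.exists_frob_of_isUnram q D.Kv D.Lw hIs
  -- the local value at `v`
  have hordβ : helper8.ord q D.Lw (Units.map (algebraMap ↥E D.Lw : ↥E →* D.Lw) β) = (m : ℤ) := by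
    have h1 := ord_of_pow_eq q ↥F ↥E D v hD hIs β a (p ^ k) hβ _ hva
    have hpk : ((p ^ k : ℕ) : ℤ) ≠ 0 := by exact_mod_cast (pow_pos hp.pos k).ne'
    apply mul_left_cancel₀ hpk
    rw [h1]
    push_cast
    ring
  obtain ⟨τ, hτ⟩ := hFrob E v hunrv hℓ hcard A hA hAv σ hσ q D hD φ hφ
  have hxφ : xE (helper11.locHom ↥F ↥E D.Kv D.Lw φ) = x σ := by
    have h1 : xE (1 : E ≃ₐ[↥F] E) = 0 := by
      have := hxEadd 1 1
      rw [mul_one] at this
      exact left_eq_add.mp this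
    have h2 : xE τ⁻¹ = - xE τ := by
      have := hxEadd τ τ⁻¹
      rw [mul_inv_cancel, h1] at this
      exact eq_neg_of_add_eq_zero_right this.symm
    rw [hτ, hxEadd, hxEadd, h2, ← hxE]
    ring
  have hval := hLocVal q ↥F ↥E D hIs φ hφ ζE β xE hxEadd b αE hΘ hζE hbt'
  rw [hordβ, hxφ, Int.cast_natCast] at hval
  -- Step 7: mixed reciprocity
  have hmix := hMixT E (thetaCochain p ζE β xE b αE) ((isMulCoc_iff _ _ _).mpr hΘ) hpΘ
    (fun w s => α (L.r w s.1, L.r w s.2))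
    (fun w s => by
      rw [thetaCochain_of_eq_zero ζE β xE b αE (by rw [← hxE]; exact hxloc w s.1)
        (by rw [← hxE]; exact hxloc w s.2), ← hαE])
    {v}
    (fun v' hv' => by rw [Finset.mem_singleton.mp hv']; exact hvS)
    (fun r hr D' v' hD' hv'S hv'V => by
      haveI := hr
      have hunr' := helper98.unramAt_of_isUnramifiedOutside E hEunr v' hv'S
      have hIs' := helper15.isUnram_of_unramAt r ↥F ↥E D' v' hD' hunr'
      have hne : v' ≠ v := fun h => hv'V (by rw [h]; exact Finset.mem_singleton_self v)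
      have h0 := ord_of_pow_eq r ↥F ↥E D' v' hD' hIs' β a (p ^ k) hβ 0
        (by rw [hva' v' hne, neg_zero, WithZero.exp_zero])
      have hpk : ((p ^ k : ℕ) : ℤ) ≠ 0 := by exact_mod_cast (pow_pos hp.pos k).ne'
      have hβ0 := (mul_eq_zero.mp h0).resolve_left hpk
      exact hSupp r ↥F ↥E D' hIs' ζE β xE b αE hΘ hζE hbt' hβ0)
    (fun _ => q) (fun _ => D)
    (fun v' => by
      have : (v' : HeightOneSpectrum (𝓞 ↥F)) = v := Finset.mem_singleton.mp v'.2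
      rw [this]
      exact hD)
  have hsum : (∑ _v' : ↥({v} : Finset (HeightOneSpectrum (𝓞 ↥F))),
      Inv.inv q D.Kv D.Lw (D.loc (helper8.mulClass ↥F ↥E (thetaCochain p ζE β xE b αE)))) =
      Inv.inv q D.Kv D.Lw (D.loc (helper8.mulClass ↥F ↥E (thetaCochain p ζE β xE b αE))) := by
    rw [Finset.sum_const, Finset.card_univ, Fintype.card_coe, Finset.card_singleton, one_smul]
  have hmix' : helper13.qz p (∑ w, inv w (fun s => α (L.r w s.1, L.r w s.2))) +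
      Inv.inv q D.Kv D.Lw (D.loc (helper8.mulClass ↥F ↥E (thetaCochain p ζE β xE b αE))) = 0 := by
    rw [← hsum]
    exact hmix
  clear hmix
  rw [hval] at hmix'
  intro hzero
  rw [hzero, map_zero, zero_add, neg_eq_zero] at hmix'
  have h0 : ((m : ℕ) : ZMod p) * x σ = 0 := by
    apply helper13.qz_injective (p := p)
    rw [hmix', map_zero]
  rcases mul_eq_zero.mp h0 with h | h
  · exact hm ((ZMod.natCast_eq_zero_iff m p).mp h)
  · exact hxσ h

end Asm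

end Fermat.Agent.S55.helper75
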