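import Fermat.Agent.S55.helper83_ShaKumAlg
import Fermat.Agent.S55.helper59_BDefs3
import Fermat.Agent.S55.helper69_BArLev
import Fermat.Agent.S55.helper42_KumRoots
import Fermat.Agent.S55.helper7_BArDicG

/-!
# S55 module B, I7a (THETA design): the global Kummer package [SHL-KUM] + [SHL-LOC0]

For `a ∈ Fˣ` with `p ^ k ∣ ord_v a` at every place `v` of `F` not above `S` (`p ∈ S`,
`ζ_p ∈ F`): a 2-cocycle `z ∈ Z²(𝒩, ℤ/p)`, locally a coboundary at every local group of `L`,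
together with, on every finite Galois level `E ⊇ E₀` (`E₀` an `S`-level), a `p ^ k`-th root
`β ∈ Eˣ` of `a` and a 1-cochain `b : Gal(E/F) → μ_{p^(k+1)}(E)` with `b g ^ p = g β / β` and
`d b = ζ ^ z̄`, `z = infl z̄`.
-/

set_option autoImplicit false
set_option linter.unusedSectionVars false
set_option linter.unusedVariables false

open groupCohomology ExtCitation
open scoped NumberField
open IsDedekindDomain

noncomputable section

namespace Fermat.Agent.S55.helper83.ShaKum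

open Fermat.Agent.S55 Fermat.Agent.S55.helper59

local instance factOfPrimesKum (q : Nat.Primes) : Fact (q : ℕ).Prime := ⟨q.2⟩

local notation "Qbar" => AlgebraicClosure ℚ

/-- the finite-level Kummer datum (a wrapper for abstract fields, to keep instance search
cheap): `β ^ (p ^ k) = a`, `b g ^ p = g β / β`, `b g ∈ μ_{p^(k+1)}`, `d b = ζ ^ z`. -/
def IsKumDatum (K L : Type) [Field K] [Field L] [Algebra K L] (p k : ℕ) (ζ a β : Lˣ)
    (b : (L ≃ₐ[K] L) → Lˣ) (z : (L ≃ₐ[K] L) × (L ≃ₐ[K] L) → ZMod p) : Prop :=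
  β ^ (p ^ k) = a ∧ (∀ g, b g ^ p = g • β / β) ∧ (∀ g, b g ^ (p ^ (k + 1)) = 1) ∧
    ∀ g h, g • b h * b g / b (g * h) = ζ ^ (z (g, h)).val

section Roots

variable {p : ℕ} [Fact p.Prime]

/-- a `p ^ k`-th root of a primitive `p`-th root of unity has order `p ^ (k + 1)` -/
lemma orderOf_of_pow_eq {M : Type*} [Monoid M] {ω ζ : M} (k : ℕ) (hω : ω ^ (p ^ k) = ζ)
    (hζ : orderOf ζ = p) : orderOf ω = p ^ (k + 1) := by
  have hp : p.Prime := Fact.out
  have h1 : ω ^ (p ^ (k + 1)) = 1 := by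
    rw [pow_succ, pow_mul, hω, ← hζ, pow_orderOf_eq_one]
  obtain ⟨j, hj, hjk⟩ := (Nat.dvd_prime_pow hp).1 (orderOf_dvd_of_pow_eq_one h1)
  rcases Nat.lt_or_ge j (k + 1) with h | h
  · exfalso
    have h2 : ω ^ (p ^ k) = 1 := by
      apply orderOf_dvd_iff_pow_eq_one.1
      rw [hjk]
      exact pow_dvd_pow p (Nat.lt_succ_iff.1 h)
    rw [hω] at h2
    have h3 : orderOf ζ = 1 := orderOf_eq_one_iff.2 h2
    rw [hζ] at h3
    exact hp.one_lt.ne' h3
  · rw [hjk, le_antisymm hj h]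

/-- in the unit group of a field, an element of order `n` generates the `n`-torsion -/
lemma exists_pow_eq_of_orderOf {K : Type*} [Field K] {ω : Kˣ} {n : ℕ} (hn : 0 < n)
    (hω : orderOf ω = n) (y : Kˣ) (hy : y ^ n = 1) : ∃ i : ℕ, ω ^ i = y := by
  have h1 : IsPrimitiveRoot ω n := hω ▸ IsPrimitiveRoot.orderOf ω
  have h2 : IsPrimitiveRoot (ω : K) n := IsPrimitiveRoot.coe_units_iff.2 h1
  have : NeZero n := ⟨hn.ne'⟩
  have hy' : (y : K) ^ n = 1 := by
    rw [← Units.val_pow_eq_pow_val, hy, Units.val_one]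
  obtain ⟨i, -, hi⟩ := h2.eq_pow_of_pow_eq_one hy'
  exact ⟨i, Units.ext (by rw [Units.val_pow_eq_pow_val, hi])⟩

end Roots

section Setup

variable {p : ℕ} [Fact p.Prime] {F : IntermediateField ℚ Qbar}

lemma smul_coe (σ : UF F) (x : Qbarˣ) :
    ((σ • x : Qbarˣ) : Qbar) = (σ : helper59.GQ) (x : Qbar) := rfl

lemma smul_eq_of_mem (σ : UF F) (x : Qbarˣ) (hx : (x : Qbar) ∈ F) : σ • x = x := by
  apply Units.ext
  rw [smul_coe]
  exact (IntermediateField.mem_fixingSubgroup_iff _ _).1 σ.2 _ hx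

lemma exists_roots (ζ : (↥F)ˣ) (hζ : IsPrimitiveRoot ζ p) (a : (↥F)ˣ) (k : ℕ) :
    ∃ ω β₁ : Qbarˣ, (ω : Qbar) ^ (p ^ k) = ((ζ : ↥F) : Qbar) ∧
      (β₁ : Qbar) ^ (p ^ (k + 1)) = ((a : ↥F) : Qbar) ∧
      orderOf ω = p ^ (k + 1) ∧ (∀ y : Qbarˣ, y ^ (p ^ (k + 1)) = 1 → ∃ i : ℕ, ω ^ i = y) ∧
      (∀ σ : UF F, σ • (β₁ ^ (p ^ (k + 1))) = β₁ ^ (p ^ (k + 1))) ∧
      (∀ σ : UF F, σ • (ω ^ (p ^ k)) = ω ^ (p ^ k)) := by
  have hp : p.Prime := Fact.out
  have hζ0 : ((ζ : ↥F) : Qbar) ≠ 0 := fun h => ζ.ne_zero (Subtype.ext h)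
  have ha0 : ((a : ↥F) : Qbar) ≠ 0 := fun h => a.ne_zero (Subtype.ext h)
  obtain ⟨ω₀, hω₀⟩ := IsAlgClosed.exists_pow_nat_eq ((ζ : ↥F) : Qbar) (pow_pos hp.pos k)
  obtain ⟨β₀, hβ₀⟩ := IsAlgClosed.exists_pow_nat_eq ((a : ↥F) : Qbar) (pow_pos hp.pos (k + 1))
  have hω₀0 : ω₀ ≠ 0 := by
    rintro rfl
    rw [zero_pow (pow_pos hp.pos k).ne'] at hω₀
    exact hζ0 hω₀.symm
  have hβ₀0 : β₀ ≠ 0 := by
    rintro rfl
    rw [zero_pow (pow_pos hp.pos (k + 1)).ne'] at hβ₀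
    exact ha0 hβ₀.symm
  have hζQ : IsPrimitiveRoot ((ζ : ↥F) : Qbar) p :=
    (IsPrimitiveRoot.coe_units_iff.2 hζ).map_of_injective
      (f := algebraMap ↥F Qbar) (algebraMap ↥F Qbar).injective
  have hζu : orderOf ((Units.mk0 ω₀ hω₀0) ^ (p ^ k)) = p := by
    have h1 : IsPrimitiveRoot ((Units.mk0 ω₀ hω₀0) ^ (p ^ k)) p := by
      rw [← IsPrimitiveRoot.coe_units_iff, Units.val_pow_eq_pow_val, Units.val_mk0, hω₀]
      exact hζQ
    exact h1.eq_orderOf.symm
  have hord : orderOf (Units.mk0 ω₀ hω₀0) = p ^ (k + 1) := orderOf_of_pow_eq k rfl hζu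
  refine ⟨Units.mk0 ω₀ hω₀0, Units.mk0 β₀ hβ₀0, hω₀, hβ₀, hord,
    exists_pow_eq_of_orderOf (pow_pos hp.pos (k + 1)) hord, fun σ => ?_, fun σ => ?_⟩
  · apply smul_eq_of_mem
    rw [Units.val_pow_eq_pow_val, Units.val_mk0, hβ₀]
    exact (a : ↥F).2
  · apply smul_eq_of_mem
    rw [Units.val_pow_eq_pow_val, Units.val_mk0, hω₀]
    exact (ζ : ↥F).2

end Setup


section Levels

variable {S : Finset Nat.Primes} {F : IntermediateField ℚ Qbar}

/-- two elements of `S`-levels lie in a common finite Galois `S`-level over `F` -/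
lemma exists_level_mem {x y : Qbar} (hx : helper97.InSLevel S F x)
    (hy : helper97.InSLevel S F y) :
    ∃ (E : IntermediateField ↥F Qbar) (_ : FiniteDimensional ↥F ↥E) (_ : IsGalois ↥F ↥E),
      (E.restrictScalars ℚ).IsUnramifiedOutside S ∧ x ∈ E ∧ y ∈ E := by
  obtain ⟨E₁, hE₁, hn₁, hle₁, hx₁⟩ := hx
  obtain ⟨E₂, hE₂, hn₂, hle₂, hy₂⟩ := hy
  have hn : (E₁ ⊔ E₂).fixingSubgroup.Normal := by
    rw [IntermediateField.fixingSubgroup_sup]
    infer_instance
  obtain ⟨E, hfin, hgal, hres, -⟩ := helper7.exists_level_of_normal (E₁ ⊔ E₂) (hE₁.sup hE₂) hn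
    (le_sup_of_le_left hle₁)
  refine ⟨E, hfin, hgal, hres ▸ hE₁.sup hE₂, ?_, ?_⟩
  · have : x ∈ E.restrictScalars ℚ := by
      rw [hres]
      exact (le_sup_left : E₁ ≤ E₁ ⊔ E₂) hx₁
    exact this
  · have : y ∈ E.restrictScalars ℚ := by
      rw [hres]
      exact (le_sup_right : E₂ ≤ E₁ ⊔ E₂) hy₂
    exact this

/-- every element of `ℚbar` lies in a finite normal extension of `ℚ` -/
lemma exists_normal_mem (x : Qbar) :
    ∃ E : IntermediateField ℚ Qbar, FiniteDimensional ℚ E ∧ E.fixingSubgroup.Normal ∧ x ∈ E := by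
  have := helper69.isAlgebraic_Qbar
  have := helper69.normal_Qbar
  have hx : IsIntegral ℚ x := Algebra.IsIntegral.isIntegral x
  have hfin : FiniteDimensional ℚ (IntermediateField.adjoin ℚ {x}) :=
    IntermediateField.adjoin.finiteDimensional hx
  refine ⟨IntermediateField.normalClosure ℚ (IntermediateField.adjoin ℚ {x}) Qbar,
    inferInstance, ?_, ?_⟩
  · exact helper69.fixingSubgroup_normal_of_normal _
      (normalClosure.normal ℚ (IntermediateField.adjoin ℚ {x}) Qbar)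
  · have h1 : x ∈ ((IntermediateField.adjoin ℚ {x}).val).fieldRange :=
      ⟨⟨x, IntermediateField.mem_adjoin_simple_self ℚ x⟩, rfl⟩
    unfold IntermediateField.normalClosure
    exact (le_iSup (fun f : (IntermediateField.adjoin ℚ {x}) →ₐ[ℚ] Qbar => f.fieldRange)
      (IntermediateField.adjoin ℚ {x}).val) h1

end Levels

section Triv

variable {k : Type} [Field k] {G : Type} [Group G]

lemma d₁₂_triv_apply (x : G → k) (g h : G) :
    (d₁₂ (T k G)).hom x (g, h) = x h - x (g * h) + x g := by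
  rw [d₁₂_hom_apply]
  rfl

lemma d₂₃_triv_apply (z : G × G → k) (g₁ g₂ g₃ : G) :
    (d₂₃ (T k G)).hom z (g₁, g₂, g₃) =
      z (g₂, g₃) - z (g₁ * g₂, g₃) + z (g₁, g₂ * g₃) - z (g₁, g₂) := by
  rw [d₂₃_hom_apply]
  rfl

end Triv

section FiniteLevel

variable {F : IntermediateField ℚ Qbar}

/-- the Galois action on units, on underlying elements (abstract fields) -/
lemma coe_smul_units (K L : Type) [Field K] [Field L] [Algebra K L] (g : L ≃ₐ[K] L) (x : Lˣ) :
    ((g • x : Lˣ) : L) = g (x : L) := rfl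

/-- an element of `ℚbarˣ` lying in `E`, as a unit of `E` -/
def toUnitsE (E : IntermediateField ↥F Qbar) (x : Qbarˣ) (hx : (x : Qbar) ∈ E) : (↥E)ˣ :=
  Units.mk0 ⟨x, hx⟩ (fun h => x.ne_zero (congrArg Subtype.val h))

@[simp] lemma coe_toUnitsE (E : IntermediateField ↥F Qbar) (x : Qbarˣ) (hx : (x : Qbar) ∈ E) :
    (((toUnitsE E x hx : (↥E)ˣ) : ↥E) : Qbar) = x := rfl

/-- units of `E` are equal if their images in `ℚbar` are -/
lemma unitsE_ext (E : IntermediateField ↥F Qbar) {x y : (↥E)ˣ}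
    (h : ((x : ↥E) : Qbar) = ((y : ↥E) : Qbar)) : x = y :=
  Units.ext (Subtype.ext h)

end FiniteLevel

variable {p : ℕ} [Fact p.Prime] {S : Finset Nat.Primes} {F : IntermediateField ℚ Qbar}
  [NumberField ↥F] {𝒩 : Levels (UF F)} {ι : Type} [Fintype ι] {L : LocalData (UF F) 𝒩 ι}

theorem exists_kummer_package (hpS : (⟨p, Fact.out⟩ : Nat.Primes) ∈ S)
    (hF : F.IsUnramifiedOutside S) (h𝒩 : 𝒩.mem = sLevels S F) (hL : IsArith S F L)
    (ζ : (↥F)ˣ) (hζ : IsPrimitiveRoot ζ p) (a : (↥F)ˣ) (k : ℕ)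
    (ha : ∀ v : HeightOneSpectrum (𝓞 ↥F), v ∉ helper97.placesOver (↥F) S →
      ((p ^ k : ℕ) : ℤ) ∣ Multiplicative.toAdd (v.valuationOfNeZero a)) :
    ∃ z ∈ Z2 𝒩 (T (ZMod p) (UF F)),
      (∀ w, (fun s : L.Gv w × L.Gv w => z (L.r w s.1, L.r w s.2)) ∈
        B2 (L.lev w) (T (ZMod p) (L.Gv w))) ∧
      ∃ E₀ : IntermediateField ↥F Qbar, FiniteDimensional ↥F ↥E₀ ∧ IsGalois ↥F ↥E₀ ∧
        (E₀.restrictScalars ℚ).IsUnramifiedOutside S ∧
        ∀ (E : IntermediateField ↥F Qbar) [FiniteDimensional ↥F ↥E] [IsGalois ↥F ↥E], E₀ ≤ E →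
          ∃ (β : (↥E)ˣ) (b : (E ≃ₐ[↥F] E) → (↥E)ˣ)
            (z' : (E ≃ₐ[↥F] E) × (E ≃ₐ[↥F] E) → ZMod p),
            IsKumDatum ↥F ↥E p k (Units.map (algebraMap ↥F ↥E : ↥F →* ↥E) ζ)
              (Units.map (algebraMap ↥F ↥E : ↥F →* ↥E) a) β b z' ∧
            ∀ σ τ : UF F, z (σ, τ) = z' (resFix F E σ, resFix F E τ) := by
  have hp : p.Prime := Fact.out
  obtain ⟨ω, β₁, hω, hβ₁, hord, hcyc, haG, hζG⟩ := exists_roots (F := F) ζ hζ a k
  have hβ : ((β₁ ^ p : Qbarˣ) : Qbar) ^ (p ^ k) = ((a : ↥F) : Qbar) := by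
    rw [Units.val_pow_eq_pow_val, ← pow_mul, ← pow_succ', hβ₁]
  have hnS : ∀ n : ℕ, ∀ q : Nat.Primes, (q : ℕ) ∣ p ^ n → q ∈ S := by
    intro n q hq
    have h1 : (q : ℕ) = p := (Nat.prime_dvd_prime_iff_eq q.2 hp).1 (q.2.dvd_of_dvd_pow hq)
    have h2 : q = ⟨p, Fact.out⟩ := Subtype.ext h1
    rw [h2]
    exact hpS
  have hβS : helper97.InSLevel S F ((β₁ ^ p : Qbarˣ) : Qbar) :=
    helper42.inSLevel_of_forall_dvd (hnS k) hF a _ hβ ha
  have hωS : helper97.InSLevel S F (ω : Qbar) :=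
    helper42.inSLevel_of_pow_eq_one (hnS (k + 1)) hF _
      (by rw [← Units.val_pow_eq_pow_val, omega_pow_pow hord, Units.val_one])
  obtain ⟨E₀, hfin₀, hgal₀, hE₀, hβE₀, hωE₀⟩ := exists_level_mem hβS hωS
  -- the kernel of restriction to a level above `E₀` fixes `β` and `ω`
  have hker : ∀ (E : IntermediateField ↥F Qbar) [Normal ↥F ↥E], E₀ ≤ E →
      (∀ s ∈ (resFix F E).ker, s • (β₁ ^ p) = β₁ ^ p) ∧
        (∀ s ∈ (resFix F E).ker, s • ω = ω) := by
    intro E _ hE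
    refine ⟨fun s hs => ?_, fun s hs => ?_⟩
    · apply Units.ext
      rw [smul_coe]
      exact (mem_ker_resFix_iff F E s).1 hs _ (hE hβE₀)
    · apply Units.ext
      rw [smul_coe]
      exact (mem_ker_resFix_iff F E s).1 hs _ (hE hωE₀)
  have hzlev : ∀ (E : IntermediateField ↥F Qbar) [Normal ↥F ↥E], E₀ ≤ E →
      ∀ g₁ g₂ s₁ s₂ : UF F, s₁ ∈ (resFix F E).ker → s₂ ∈ (resFix F E).ker →
        kumZ p k ω β₁ (g₁ * s₁, g₂ * s₂) = kumZ p k ω β₁ (g₁, g₂) :=
    fun E _ hE g₁ g₂ s₁ s₂ h₁ h₂ =>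
      kumZ_mul_of_fix hord hcyc haG hζG (resFix F E).ker (hker E hE).1 (hker E hE).2
        g₁ g₂ s₁ s₂ h₁ h₂
  refine ⟨kumZ p k ω β₁, ⟨?_, ?_⟩, ?_, E₀, hfin₀, hgal₀, hE₀, ?_⟩
  · -- level-constant
    obtain ⟨N, hN, hle⟩ := helper7.exists_mem_le_ker h𝒩 E₀ hE₀
    exact ⟨N, hN, fun g₁ g₂ s₁ hs₁ s₂ hs₂ => hzlev E₀ le_rfl g₁ g₂ s₁ s₂ (hle hs₁) (hle hs₂)⟩
  · -- cocycle
    rw [SetLike.mem_coe, LinearMap.mem_ker]
    funext ⟨g₁, g₂, g₃⟩
    rw [d₂₃_triv_apply]
    exact kumZ_cocycle g₁ g₂ g₃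
  · -- locally a coboundary
    intro w
    obtain ⟨E', hfin', hn', hmem'⟩ := exists_normal_mem (β₁ : Qbar)
    obtain ⟨N, hN, hle⟩ := hL.le_lev w _ ⟨E', hfin', hn', rfl⟩
    refine ⟨fun s => - kumU p k ω β₁ (L.r w s), ⟨N, hN, fun g s hs => ?_⟩, ?_⟩
    · have h1 : (L.r w s) • β₁ = β₁ := by
        apply Units.ext
        rw [smul_coe, hL.r_eq w s]
        have h2 : (primeLocalToGlobal (hL.q w)) (hL.j w s) ∈ E'.fixingSubgroup := hle hs
        have h3 := hn'.conj_mem _ h2 (hL.g w)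
        exact (IntermediateField.mem_fixingSubgroup_iff _ _).1 h3 _ hmem'
      show - kumU p k ω β₁ (L.r w (g * s)) = - kumU p k ω β₁ (L.r w g)
      rw [map_mul, kumU_mul_of_fix _ _ h1]
    · funext ⟨s, t⟩
      rw [d₁₂_triv_apply]
      show _ = kumZ p k ω β₁ (L.r w s, L.r w t)
      rw [kumZ_eq, map_mul]
  · -- the finite levels
    intro E _ _ hE
    have hsurj := resFix_surjective F E
    have hlift : ∀ g, resFix F E (Function.surjInv hsurj g) = g := Function.surjInv_eq hsurj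
    have hβE : ((β₁ ^ p : Qbarˣ) : Qbar) ∈ E := hE hβE₀
    have hωE : (ω : Qbar) ∈ E := hE hωE₀
    have hbE : ∀ σ : UF F, ((kumB p k ω β₁ σ : Qbarˣ) : Qbar) ∈ E := fun σ => by
      rw [kumB, Units.val_pow_eq_pow_val]
      exact pow_mem hωE _
    have hgal : ∀ (g : E ≃ₐ[↥F] E) (x : ↥E),
        ((g x : ↥E) : Qbar) = ((Function.surjInv hsurj g : UF F) : helper59.GQ) (x : Qbar) := by
      intro g x
      rw [← resFix_apply_coe F E (Function.surjInv hsurj g) x, hlift g]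
    have hres : ∀ σ τ : UF F, resFix F E σ = resFix F E τ → ∀ x ∈ E,
        (σ : helper59.GQ) x = (τ : helper59.GQ) x := by
      intro σ τ hστ x hx
      rw [← resFix_apply_coe F E σ ⟨x, hx⟩, ← resFix_apply_coe F E τ ⟨x, hx⟩, hστ]
    refine ⟨toUnitsE E (β₁ ^ p) hβE,
      fun g => toUnitsE E (kumB p k ω β₁ (Function.surjInv hsurj g)) (hbE _),
      fun g => kumZ p k ω β₁ (Function.surjInv hsurj g.1, Function.surjInv hsurj g.2), ?_, ?_⟩
    · unfold IsKumDatum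
      refine ⟨?_, fun g => ?_, fun g => ?_, fun g h => ?_⟩
      · apply unitsE_ext
        rw [Units.val_pow_eq_pow_val]
        exact hβ
      · apply unitsE_ext
        rw [Units.val_pow_eq_pow_val, Units.val_div_eq_div_val, coe_smul_units]
        have h1 := congrArg (fun x : Qbarˣ => (x : Qbar))
          (kumB_pow hord hcyc haG (Function.surjInv hsurj g))
        simp only [Units.val_pow_eq_pow_val, Units.val_div_eq_div_val, smul_coe] at h1
        simp only [SubmonoidClass.coe_pow, IntermediateField.coe_div, hgal, coe_toUnitsE,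
          Units.val_pow_eq_pow_val]
        exact h1
      · apply unitsE_ext
        have h1 := congrArg (fun x : Qbarˣ => (x : Qbar))
          (kumB_pow_eq_one (p := p) (k := k) (β₁ := β₁) hord (Function.surjInv hsurj g))
        simp only [Units.val_pow_eq_pow_val, Units.val_one] at h1
        simp only [SubmonoidClass.coe_pow, coe_toUnitsE, Units.val_pow_eq_pow_val, Units.val_one,
          IntermediateField.coe_one]
        exact h1
      · apply unitsE_ext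
        rw [Units.val_pow_eq_pow_val, Units.val_div_eq_div_val, Units.val_mul, coe_smul_units]
        have h1 := congrArg (fun x : Qbarˣ => (x : Qbar))
          (kumB_coboundary hord hcyc haG hζG (Function.surjInv hsurj g)
            (Function.surjInv hsurj h))
        have h2 : kumB p k ω β₁ (Function.surjInv hsurj (g * h)) =
            kumB p k ω β₁ (Function.surjInv hsurj g * Function.surjInv hsurj h) := by
          apply kumB_congr hord hcyc haG
          apply Units.ext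
          rw [smul_coe, smul_coe]
          exact hres _ _ (by rw [map_mul, hlift, hlift, hlift]) _ hβE
        simp only [Units.val_pow_eq_pow_val, Units.val_div_eq_div_val, Units.val_mul,
          smul_coe] at h1
        simp only [SubmonoidClass.coe_pow, IntermediateField.coe_div, IntermediateField.coe_mul,
          hgal, coe_toUnitsE, h2, Units.coe_map]
        rw [h1, hω]
        rfl
    · intro σ τ
      obtain ⟨s₁, hs₁, e₁⟩ := helper7.surjInv_eq_mul (resFix F E) hsurj σ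
      obtain ⟨s₂, hs₂, e₂⟩ := helper7.surjInv_eq_mul (resFix F E) hsurj τ
      show kumZ p k ω β₁ (σ, τ) = kumZ p k ω β₁ (Function.surjInv hsurj (resFix F E σ),
        Function.surjInv hsurj (resFix F E τ))
      rw [e₁, e₂, hzlev E hE σ τ s₁ s₂ hs₁ hs₂]

end Fermat.Agent.S55.helper83.ShaKum
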