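import Fermat.Agent.S55.helper59_BArWire
import Fermat.Agent.S55.helper75_BArShaL
import Fermat.Agent.S55.helper83_BArShaKum
import Fermat.Agent.S55.helper60_BArShaLFrobConj
import Fermat.Agent.S55.helper10_ShaLLocVal

/-!
# S55 module B: the input (I7a), unconditionally (helper59)

`hypI7a Inv : HypI7a p S Inv` (trivial left kernel of the Sha-pairing), by wiring the assembly
`helper75.shaLeftFor_of_inputs` with the packages SHL-KUM (`helper83`), SHL-FROBCONJ (`helper60`),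
SHL-LOCVAL / SHL-SUPP (`helper10`) and the mixed reciprocity law `mixedRecTheta`.
-/

set_option autoImplicit false

open groupCohomology ExtCitation
open scoped NumberField
open IsDedekindDomain

noncomputable section

namespace Fermat.Agent.S55.helper59

open Fermat.Agent.S55

local instance factOfPrimesI7a (q : Nat.Primes) : Fact (q : ℕ).Prime := ⟨q.2⟩

local notation "Qbar" => AlgebraicClosure ℚ

variable {p : ℕ} [Fact p.Prime] {S : Finset Nat.Primes}

set_option synthInstance.maxHeartbeats 400000 in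
/-- (I7a) for one arithmetic local datum -/
theorem shaLeftFor_of_invCompat {F : IntermediateField ℚ Qbar} [NumberField ↥F]
    {𝒩 : Levels (UF F)} {ι : Type} [Fintype ι] {L : LocalData (UF F) 𝒩 ι} (hp2 : p ≠ 2)
    (hpS : (⟨p, Fact.out⟩ : Nat.Primes) ∈ S) (hF : F.IsUnramifiedOutside S)
    (h𝒩 : 𝒩.mem = sLevels S F) (hL : IsArith S F L) (Inv : helper11.LocInv) (ζ : (↥F)ˣ)
    (hζ : IsPrimitiveRoot ζ p) (h3 : Z3 𝒩 (T (ZMod p) (UF F)) ≤ B3 𝒩 (T (ZMod p) (UF F)))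
    (inv : ∀ w : ι, (L.Gv w × L.Gv w → ZMod p) →ₗ[ZMod p] ZMod p)
    (hinv : InvCompat Inv ζ hL inv) : ShaLeftFor L inv := by
  refine helper75.shaLeftFor_of_inputs hpS hF h𝒩 hL Inv ζ hζ h3 inv
    (mixedRecTheta hp2 hL Inv ζ hζ inv hinv) ?_ ?_ ?_ ?_
  · intro a k ha
    obtain ⟨z, hz, hzloc, E₀, h1, h2, h3', h4⟩ :=
      helper83.ShaKum.exists_kummer_package hpS hF h𝒩 hL ζ hζ a k ha
    refine ⟨z, hz, hzloc, E₀, h1, h2, h3', fun E _ _ hE => ?_⟩
    obtain ⟨β, b, z', hK, hzz⟩ := h4 E hE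
    exact ⟨β, b, z', hK.1, hK.2.1, hK.2.2.1, hK.2.2.2, hzz⟩
  · intro E _ _ _ v hunr ℓ hℓ hcard A hA hAv σ hσ q _ D hD φ hφ
    exact helper60.exists_conj_locHom_frob E v hunr hℓ hcard A hA hAv σ hσ q D hD φ hφ
  · intro q _ F' E' _ _ _ _ _ _ D hunr φ hφ ζ' β x hx b α hΘ hζ' hbt
    exact helper10.inv_loc_mulClass_thetaCochain q F' E' p Inv D hunr φ hφ ζ' β x hx b α hΘ
      hζ' hbt
  · intro q _ F' E' _ _ _ _ _ _ D hunr ζ' β x b α hΘ hζ' hbt hβ
    exact helper10.loc_mulClass_thetaCochain_eq_zero q F' E' p D hunr ζ' β x b α hΘ hζ' hbt hβ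

/-- **(I7a), unconditionally.** -/
theorem hypI7a (Inv : helper11.LocInv) : HypI7a p S Inv :=
  fun _ _ _ _ _ _ hp2 hpS hF h𝒩 hL ζ hζ inv hinv _ _ h3 _ =>
    shaLeftFor_of_invCompat hp2 hpS hF h𝒩 hL Inv ζ hζ h3 inv hinv

/-- `BaseInputStatement p S` from the three REC3 inputs (I4), (I5), `#Sha²`. -/
theorem baseInputStatement_of_rec3 (Inv : helper11.LocInv) (h4 : HypI4' p S Inv)
    (hH3 : HypH3' p S Inv) (hs2 : HypSha2' p S Inv) : BaseInputStatement p S :=
  baseInputStatement_of_rec3_i7a Inv h4 hH3 hs2 (hypI7a'_of_hypI7a (hypI7a Inv))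

end Fermat.Agent.S55.helper59
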