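import Fermat.Agent.S55.helper72_BArRecMix
import Fermat.Agent.S55.helper59_BDefs4

/-!
# S55 module B: mixed reciprocity for a multiplicative cocycle (helper59)

`mixedRecTheta_of_recP` : `HypRecP Inv p` + `InvCompat` imply `MixedRecTheta S L Inv ζ inv`
(the form of the mixed reciprocity law used for (I7a), design of helper75).  Built on the local
data `mixDatum` of helper72 (`helper72_BArRecMix*`).
-/

set_option autoImplicit false

open groupCohomology ExtCitation
open scoped NumberField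
open IsDedekindDomain

noncomputable section

namespace Fermat.Agent.S55.helper59

open Fermat.Agent.S55 Fermat.Agent.S55.helper8 Fermat.Agent.S55.helper11
  Fermat.Agent.S55.helper72

local instance factOfPrimesTh (q : Nat.Primes) : Fact (q : ℕ).Prime := ⟨q.2⟩

local notation "Qbar" => AlgebraicClosure ℚ

section Generic

variable {p : ℕ} [Fact p.Prime]

/-- `a ↦ ζ ^ a.val` is injective on `ZMod p` for a primitive `p`-th root of unity `ζ` -/
lemma zmod_eq_of_pow_val_eq {M : Type*} [CommMonoid M] {ζ : M} (hζ : IsPrimitiveRoot ζ p)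
    {a b : ZMod p} (h : ζ ^ a.val = ζ ^ b.val) : a = b := by
  have hp : p.Prime := Fact.out
  have : NeZero p := ⟨hp.ne_zero⟩
  exact ZMod.val_injective p (hζ.pow_inj (ZMod.val_lt a) (ZMod.val_lt b) h)

/-- if `ζ ^ c` is a multiplicative 2-cocycle (`ζ` a fixed primitive `p`-th root of unity) then
`c` is an additive 2-cocycle -/
lemma cocycle_of_isMulCocycle₂_zetaCochain {G M : Type*} [Group G] [CommGroup M]
    [MulDistribMulAction G M] {ζ : M} (hζ : IsPrimitiveRoot ζ p) (hfix : ∀ g : G, g • ζ = ζ)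
    (c : G × G → ZMod p) (h : IsMulCocycle₂ (zetaCochain p ζ c)) (g h' j : G) :
    c (g * h', j) + c (g, h') = c (h', j) + c (g, h' * j) := by
  have hp : p.Prime := Fact.out
  have : NeZero p := ⟨hp.ne_zero⟩
  have h1 := h g h' j
  simp only [zetaCochain] at h1
  rw [smul_pow', hfix, ← helper13.pow_val_add p ζ hζ.pow_eq_one,
    ← helper13.pow_val_add p ζ hζ.pow_eq_one] at h1
  exact zmod_eq_of_pow_val_eq hζ h1

end Generic

section Arith

variable {S : Finset Nat.Primes} {F : IntermediateField ℚ Qbar}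
  {𝒩 : Levels (UF F)} {ι : Type} {L : LocalData (UF F) 𝒩 ι}
  (hL : IsArith S F L) (E : IntermediateField ↥F Qbar) (w : ι)
  [NumberField ↥F] [FiniteDimensional ↥F ↥E] [IsGalois ↥F ↥E]

omit [NumberField ↥F] in
/-- the restriction to the finite level `mixField` is surjective -/
lemma mixLocRes_surjective' (M : IntermediateField (hL.Kw w) (PadicAlgCl (hL.q w : ℕ)))
    [Normal (hL.Kw w) M] : Function.Surjective (hL.locRes w M) := by
  have : Algebra.IsAlgebraic ↥(hL.Kw w) (PadicAlgCl (hL.q w : ℕ)) := mix_isAlgebraic_Kw hL w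
  have : IsAlgClosure (hL.Kw w) (PadicAlgCl (hL.q w : ℕ)) := ⟨inferInstance, inferInstance⟩
  have : Normal (hL.Kw w) (PadicAlgCl (hL.q w : ℕ)) :=
    IsAlgClosure.normal (hL.Kw w) (PadicAlgCl (hL.q w : ℕ))
  intro τ
  obtain ⟨σ, hσ⟩ := resFix_surjective (hL.Kw w) M τ
  obtain ⟨s, hs⟩ := hL.toLoc_surjective w σ
  exact ⟨s, by rw [IsArith.locRes, MonoidHom.comp_apply, hs, hσ]⟩

lemma mixLocRes_surjective : Function.Surjective (mixLocRes hL E w) :=
  mixLocRes_surjective' hL w (mixField hL E w)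

variable {p : ℕ} [Fact p.Prime]

set_option synthInstance.maxHeartbeats 400000 in
set_option maxHeartbeats 1000000 in
/-- (d) LOCAL VALUE for a multiplicative cocycle `θ` which is `ζ ^ a` on the local group. -/
theorem mix_inv_eq_theta (Inv : LocInv) (ζ : (↥F)ˣ) (hζ : IsPrimitiveRoot ζ p)
    (inv : ∀ w : ι, (L.Gv w × L.Gv w → ZMod p) →ₗ[ZMod p] ZMod p)
    (hinv : InvCompat Inv ζ hL inv)
    (θ : (E ≃ₐ[↥F] E) × (E ≃ₐ[↥F] E) → (↥E)ˣ) (hθ : IsMulCoc ↥F ↥E θ)
    (a : L.Gv w × L.Gv w → ZMod p)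
    (ha : ∀ s : L.Gv w × L.Gv w, θ (resFix F E (L.r w s.1), resFix F E (L.r w s.2)) =
      (Units.map (algebraMap ↥F ↥E : ↥F →* ↥E) ζ) ^ (a s).val) :
    Inv.inv (hL.q w : ℕ) (mixDatum hL E w).Kv (mixDatum hL E w).Lw
        ((mixDatum hL E w).loc (mulClass ↥F ↥E θ)) = helper13.qz p (inv w a) := by
  classical
  have hsurj := mixLocRes_surjective hL E w
  choose sec hsec using hsurj
  -- the factor of `a` through the finite level
  let c' : ((mixDatum hL E w).Lw ≃ₐ[(mixDatum hL E w).Kv] (mixDatum hL E w).Lw) ×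
      ((mixDatum hL E w).Lw ≃ₐ[(mixDatum hL E w).Kv] (mixDatum hL E w).Lw) → ZMod p :=
    fun g => a (sec g.1, sec g.2)
  -- the root of unity in the local field
  set ζw : ((mixDatum hL E w).Lw)ˣ :=
    Units.map (algebraMap (mixDatum hL E w).Kv (mixDatum hL E w).Lw :
        (mixDatum hL E w).Kv →* (mixDatum hL E w).Lw)
      (Units.map (algebraMap ↥F (mixDatum hL E w).Kv : ↥F →* (mixDatum hL E w).Kv) ζ) with hζw
  have hζw' : ζw = Units.map (algebraMap ↥E (mixDatum hL E w).Lw : ↥E →* (mixDatum hL E w).Lw)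
      (Units.map (algebraMap ↥F ↥E : ↥F →* ↥E) ζ) := by
    apply Units.ext
    change algebraMap (mixDatum hL E w).Kv (mixDatum hL E w).Lw
        (algebraMap ↥F (mixDatum hL E w).Kv (ζ : ↥F)) =
      algebraMap ↥E (mixDatum hL E w).Lw (algebraMap ↥F ↥E (ζ : ↥F))
    rw [← IsScalarTower.algebraMap_apply ↥F ↥E (mixDatum hL E w).Lw,
      ← IsScalarTower.algebraMap_apply ↥F (mixDatum hL E w).Kv (mixDatum hL E w).Lw]
  have hθloc : ∀ g : ((mixDatum hL E w).Lw ≃ₐ[(mixDatum hL E w).Kv] (mixDatum hL E w).Lw) ×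
      ((mixDatum hL E w).Lw ≃ₐ[(mixDatum hL E w).Kv] (mixDatum hL E w).Lw),
      θ (locHom ↥F ↥E (mixDatum hL E w).Kv (mixDatum hL E w).Lw g.1,
        locHom ↥F ↥E (mixDatum hL E w).Kv (mixDatum hL E w).Lw g.2) =
      (Units.map (algebraMap ↥F ↥E : ↥F →* ↥E) ζ) ^ (c' g).val := by
    intro g
    have h1 := ha (sec g.1, sec g.2)
    rw [← mix_locHom_locRes hL E w (sec g.1), ← mix_locHom_locRes hL E w (sec g.2),
      hsec, hsec] at h1
    exact h1
  have hloc : helper13.locCochain ↥F ↥E (mixDatum hL E w).Kv (mixDatum hL E w).Lw θ =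
      zetaCochain p ζw c' := by
    funext g
    rw [helper13.locCochain_apply, hθloc g, map_pow, ← hζw']
    rfl
  have hζE : IsPrimitiveRoot (Units.map (algebraMap ↥F ↥E : ↥F →* ↥E) ζ) p :=
    hζ.map_of_injective (f := Units.map (algebraMap ↥F ↥E : ↥F →* ↥E))
      (Units.map_injective (algebraMap ↥F ↥E).injective)
  have hζwp : IsPrimitiveRoot ζw p := by
    rw [hζw']
    exact hζE.map_of_injective
      (f := Units.map (algebraMap ↥E (mixDatum hL E w).Lw : ↥E →* (mixDatum hL E w).Lw))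
      (Units.map_injective (algebraMap ↥E (mixDatum hL E w).Lw).injective)
  have hcocloc : IsMulCocycle₂ (zetaCochain p ζw c') := by
    rw [← hloc]
    exact helper13.isMulCocycle₂_locCochain ↥F ↥E (mixDatum hL E w).Kv (mixDatum hL E w).Lw hθ
  have hfix : ∀ g : (mixDatum hL E w).Lw ≃ₐ[(mixDatum hL E w).Kv] (mixDatum hL E w).Lw,
      g • ζw = ζw := fun g =>
    helper13.units_map_fix (mixDatum hL E w).Kv (mixDatum hL E w).Lw _ g
  have hc' : c' ∈ LinearMap.ker (d₂₃ (Rep.trivial (ZMod p)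
      ((mixDatum hL E w).Lw ≃ₐ[(mixDatum hL E w).Kv] (mixDatum hL E w).Lw) (ZMod p))).hom := by
    rw [helper13.mem_ker_d₂₃_trivial_iff]
    exact cocycle_of_isMulCocycle₂_zetaCochain hζwp hfix c' hcocloc
  have h := hinv w (mixField hL E w) c' hc'
  have hinfl : infl₂ (hL.locRes w (mixField hL E w)) c' = a := by
    funext s
    change a (sec (mixLocRes hL E w s.1), sec (mixLocRes hL E w s.2)) = a s
    apply zmod_eq_of_pow_val_eq hζE
    rw [← ha, ← ha]
    change θ (resFix F E (L.r w (sec (mixLocRes hL E w s.1))),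
      resFix F E (L.r w (sec (mixLocRes hL E w s.2)))) = _
    rw [← mix_locHom_locRes hL E w (sec (mixLocRes hL E w s.1)),
      ← mix_locHom_locRes hL E w (sec (mixLocRes hL E w s.2)), hsec, hsec,
      mix_locHom_locRes, mix_locHom_locRes]
  rw [hinfl] at h
  rw [helper13.qz_apply, h]
  change Inv.inv _ _ _ ((locH ↥F ↥E (mixDatum hL E w).Kv (mixDatum hL E w).Lw 2).hom _) = _
  rw [helper13.locH_mulClass ↥F ↥E (mixDatum hL E w).Kv (mixDatum hL E w).Lw hθ, hloc]
  rfl

end Arith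

section Main

variable {p : ℕ} [Fact p.Prime] {S : Finset Nat.Primes} {F : IntermediateField ℚ Qbar}
  [NumberField ↥F] {𝒩 : Levels (UF F)} {ι : Type} [Fintype ι]
  {L : LocalData (UF F) 𝒩 ι}

set_option synthInstance.maxHeartbeats 400000 in
set_option maxHeartbeats 1000000 in
/-- **MIXED RECIPROCITY for a multiplicative cocycle.** -/
theorem mixedRecTheta_of_recP (hL : IsArith S F L) (Inv : helper11.LocInv)
    (hRec : HypRecP Inv p) (ζ : (↥F)ˣ) (hζ : IsPrimitiveRoot ζ p)
    (inv : ∀ w : ι, (L.Gv w × L.Gv w → ZMod p) →ₗ[ZMod p] ZMod p)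
    (hinv : InvCompat Inv ζ hL inv) : MixedRecTheta S L Inv ζ inv := by
  intro E _ _ _ θ hθ hpx a ha V hV hsup qV _ D hD
  -- the index data
  let q' : ι ⊕ ↥V → ℕ := Sum.elim (fun w => (hL.q w : ℕ)) qV
  have hq' : ∀ i, Fact (q' i).Prime := by
    rintro (w | v)
    · exact ⟨(hL.q w).2⟩
    · exact inferInstanceAs (Fact (qV v).Prime)
  let D' : ∀ i, LocDatum (q' i) ↥F ↥E := fun i =>
    match i with
    | Sum.inl w => mixDatum hL E w
    | Sum.inr v => D v
  let v' : ι ⊕ ↥V → HeightOneSpectrum (𝓞 ↥F) := Sum.elim (fun w => mixPlace hL w) (fun v => v.1)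
  have hat : ∀ i, (D' i).AtPlace (v' i) := by
    rintro (w | v)
    · exact mixDatum_atPlace hL E w
    · exact hD v
  have hinj : Function.Injective v' := by
    rintro (w₁ | v₁) (w₂ | v₂) h
    · have h' : helper96.primeAt hL w₁ = helper96.primeAt hL w₂ :=
        congrArg HeightOneSpectrum.asIdeal h
      rw [helper96.primeAt_injective hL h']
    · exfalso
      have h' : helper96.primeAt hL w₁ = v₂.1.asIdeal := congrArg HeightOneSpectrum.asIdeal h
      exact hV v₂.1 v₂.2 (h' ▸ helper96.primeAt_mem hL w₁)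
    · exfalso
      have h' : v₁.1.asIdeal = helper96.primeAt hL w₂ := congrArg HeightOneSpectrum.asIdeal h
      exact hV v₁.1 v₁.2 (h' ▸ helper96.primeAt_mem hL w₂)
    · have h' : v₁.1 = v₂.1 := h
      rw [Subtype.ext h']
  have hsupp : ∀ (r : ℕ) [Fact r.Prime] (E' : LocDatum r ↥F ↥E)
      (w' : HeightOneSpectrum (𝓞 ↥F)), E'.AtPlace w' → (∀ i, w' ≠ v' i) →
      E'.loc (mulClass ↥F ↥E θ) = 0 := by
    intro r _ E' w' hE' hne
    have h1 : w'.asIdeal ∉ helper75.primesOverS ↥F S := by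
      intro h
      obtain ⟨w, hw⟩ := helper96.exists_primeAt_eq hL _ h
      exact hne (Sum.inl w) (HeightOneSpectrum.ext hw.symm)
    have h2 : w' ∉ V := fun h => hne (Sum.inr ⟨w', h⟩) rfl
    exact hsup r E' w' hE' h1 h2
  have key := hRec ↥F ↥E _ hpx (ι ⊕ ↥V) q' D' v' hat hinj hsupp
  rw [Fintype.sum_sum_type] at key
  have h1 : ∑ w : ι, Inv.inv (q' (Sum.inl w)) (D' (Sum.inl w)).Kv (D' (Sum.inl w)).Lw
      ((D' (Sum.inl w)).loc (mulClass ↥F ↥E θ)) = helper13.qz p (∑ w, inv w (a w)) := by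
    rw [map_sum]
    exact Finset.sum_congr rfl
      (fun w _ => mix_inv_eq_theta hL E w Inv ζ hζ inv hinv θ hθ (a w) (ha w))
  rw [h1] at key
  exact key

end Main

end Fermat.Agent.S55.helper59
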