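import Fermat.Agent.S55.helper79_Rec3H1EReal

/-!
# S55 / REC3, package R3-H1E (helper79): `#(H¹(G_S, E_S)/p) ≤ #(Cl_S(F)/p)`

The class map `Z¹(G_S, E_S) → Cl_S(F)`: a level cocycle `z` is realised at a finite good level
`E/F` by an `S`-unit valued cocycle `a` (`exists_isRealized`), Hilbert 90 gives `β ∈ 𝓞_E` with
`σ β = a_σ β`, and `(β) = 𝔞 𝓞_E · 𝔅` with `𝔅` an `S`-ideal (`exists_h1ERel`); the class of `𝔞`
in `Cl_S(F)` is independent of all choices, additive in `z`, and trivial only on coboundaries.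
The abstract counting lemma `index_le_of_monoidHom` then gives
`#(Z¹/(B¹ + p Z¹)) ≤ #(Cl_S(F)/p)`.

* `card_H1ModP_le` : **R3-H1E**, verbatim as in the REC3 interface (`Rec3Arith.h1e`).
-/

set_option autoImplicit false
set_option linter.unusedSectionVars false
set_option linter.unusedVariables false
set_option linter.style.haveILetI false

open IsDedekindDomain groupCohomology
open scoped NumberField nonZeroDivisors TensorProduct

noncomputable section

namespace Fermat.Agent.S55.helper79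

open Fermat.Agent.S55 Fermat.Agent.S55.helper59 Fermat.Agent.S55.helper73
  Fermat.Agent.S55.helper69 Fermat.Agent.S55.helper90 Fermat.Agent.S55.helper7

local notation "Qbar" => AlgebraicClosure ℚ

attribute [local instance] helper69.isAlgebraic_Qbar helper69.isAlgClosure_Qbar
  helper69.normal_Qbar

/-! ## Transition between levels -/

section Trans

variable {S : Finset Nat.Primes} {F : IntermediateField ℚ Qbar} [FiniteDimensional ℚ F]
  {hF : F.IsUnramifiedOutside S} [NumberField ↥F]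

/-- the algebra structure of an inclusion of levels -/
@[reducible] def algLe {X X' : GoodLevel S F} (h : X.E ≤ X'.E) : Algebra ↥X.E ↥X'.E :=
  (IntermediateField.inclusion h).toRingHom.toAlgebra

lemma isScalarTower_algLe {X X' : GoodLevel S F} (h : X.E ≤ X'.E) :
    letI := algLe h
    IsScalarTower ↥F ↥X.E ↥X'.E :=
  letI := algLe h
  IsScalarTower.of_algebraMap_eq fun _ => rfl

/-- inflation of a function on `Gal(E/F)` to `Gal(E'/F)` -/
def inflA {X X' : GoodLevel S F} (h : X.E ≤ X'.E) (a : (↥X.E ≃ₐ[↥F] ↥X.E) → (↥X.E)ˣ) :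
    (↥X'.E ≃ₐ[↥F] ↥X'.E) → (↥X'.E)ˣ :=
  letI := algLe h
  haveI := isScalarTower_algLe h
  fun σ' => Units.map (algebraMap ↥X.E ↥X'.E : ↥X.E →* ↥X'.E) (a (σ'.restrictNormal ↥X.E))

lemma restrictNormal_resFix {X X' : GoodLevel S F} (h : X.E ≤ X'.E) (σ : UF F) :
    letI := algLe h
    haveI := isScalarTower_algLe h
    (resFix F X'.E σ).restrictNormal ↥X.E = resFix F X.E σ := by
  letI := algLe h
  haveI := isScalarTower_algLe h
  ext x
  have h1 := AlgEquiv.restrictNormal_commutes (resFix F X'.E σ) ↥X.E x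
  have h2 : ((algebraMap ↥X.E ↥X'.E ((resFix F X'.E σ).restrictNormal ↥X.E x) : ↥X'.E) : Qbar) =
      ((((resFix F X'.E σ).restrictNormal ↥X.E x) : ↥X.E) : Qbar) := rfl
  rw [← h2, h1, resFix_apply_coe, resFix_apply_coe]
  rfl

lemma pIdele_map {X X' : GoodLevel S F} (h : X.E ≤ X'.E) (u : (↥X.E)ˣ) :
    letI := algLe h
    pIdele X' (Units.map (algebraMap ↥X.E ↥X'.E : ↥X.E →* ↥X'.E) u) = pIdele X u := by
  letI := algLe h
  rw [pIdele_apply, pIdele_apply]
  congr 1

lemma IsRealized.inflation {X X' : GoodLevel S F} (h : X.E ≤ X'.E)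
    {a : (↥X.E ≃ₐ[↥F] ↥X.E) → (↥X.E)ˣ} {z : UF F → repES S F hF}
    (hr : IsRealized hF X a z) : IsRealized hF X' (inflA h a) z := by
  intro σ
  rw [hr σ]
  unfold inflA
  rw [pIdele_map h, restrictNormal_resFix h σ]

lemma H1ERel.inflA {X X' : GoodLevel S F} (h : X.E ≤ X'.E)
    {a : (↥X.E ≃ₐ[↥F] ↥X.E) → (↥X.E)ˣ} {c : ClS ↥F S} (hr : H1ERel ↥F ↥X.E S a c) :
    H1ERel ↥F ↥X'.E S (inflA h a) c := by
  letI := algLe h
  haveI := isScalarTower_algLe h
  exact H1ERel.inflation hr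

/-- two good levels are dominated by a third one -/
lemma exists_goodLevel_ge (hF : F.IsUnramifiedOutside S) (X₁ X₂ : GoodLevel S F) :
    ∃ X : GoodLevel S F, X₁.E ≤ X.E ∧ X₂.E ≤ X.E := by
  obtain ⟨E, hfin, hgal, hunr, h1, h2, hnor⟩ := exists_level_ge hF X₁.E X₂.E X₁.unr X₂.unr
  exact ⟨⟨E, hfin, hgal, hnor, hunr⟩, h1, h2⟩

end Trans

/-! ## The class of a level cocycle -/

section Class

variable {S : Finset Nat.Primes} {F : IntermediateField ℚ Qbar} [FiniteDimensional ℚ F]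
  {hF : F.IsUnramifiedOutside S} [NumberField ↥F]

variable (hF) in
/-- `c ∈ Cl_S(F)` is the class of the level cochain `z` -/
def H1Class (z : UF F → repES S F hF) (c : ClS ↥F S) : Prop :=
  ∃ (X : GoodLevel S F) (a : (↥X.E ≃ₐ[↥F] ↥X.E) → (↥X.E)ˣ),
    IsRealized hF X a z ∧ H1ERel ↥F ↥X.E S a c

theorem exists_h1Class (z : UF F → repES S F hF)
    (hz : z ∈ Z1 (sLevelsStr S F hF) (repES S F hF)) : ∃ c : ClS ↥F S, H1Class hF z c := by
  obtain ⟨X, a, hcoc, haS, hr⟩ := exists_isRealized z hz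
  obtain ⟨c, hc⟩ := exists_h1ERel (K := ↥F) (L := ↥X.E) (S := S)
    (fun P _ hP0 hPS =>
      ramificationIdx_eq_one_of_isUnramifiedOutside X.E X.nor X.unr P hP0 hPS) a hcoc haS
  exact ⟨c, X, a, hr, hc⟩

theorem H1Class.unique {z : UF F → repES S F hF} {c c' : ClS ↥F S} (h : H1Class hF z c)
    (h' : H1Class hF z c') : c = c' := by
  obtain ⟨X₁, a₁, hr₁, hc₁⟩ := h
  obtain ⟨X₂, a₂, hr₂, hc₂⟩ := h'
  obtain ⟨X, h₁, h₂⟩ := exists_goodLevel_ge hF X₁ X₂
  have e := (hr₁.inflation h₁).unique (hr₂.inflation h₂)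
  have k₁ := hc₁.inflA h₁
  have k₂ := hc₂.inflA h₂
  rw [e] at k₁
  exact k₁.unique k₂

theorem H1Class.add {z z' : UF F → repES S F hF} {c c' : ClS ↥F S} (h : H1Class hF z c)
    (h' : H1Class hF z' c') : H1Class hF (z + z') (c * c') := by
  obtain ⟨X₁, a₁, hr₁, hc₁⟩ := h
  obtain ⟨X₂, a₂, hr₂, hc₂⟩ := h'
  obtain ⟨X, h₁, h₂⟩ := exists_goodLevel_ge hF X₁ X₂
  exact ⟨X, inflA h₁ a₁ * inflA h₂ a₂, (hr₁.inflation h₁).add (hr₂.inflation h₂),
    (hc₁.inflA h₁).mul (hc₂.inflA h₂)⟩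

end Class

/-! ## The kernel of the class map -/

section Kernel

variable {S : Finset Nat.Primes} {F : IntermediateField ℚ Qbar} [FiniteDimensional ℚ F]
  {hF : F.IsUnramifiedOutside S} [NumberField ↥F]

lemma pIdele_mem_idele (X : GoodLevel S F) (u : (↥X.E)ˣ) : pIdele X u ∈ idele Qbar := by
  have h : pIdele X u =
      ((bcIdele ↥X.E Qbar (principalIdele ↥X.E u) : Idele Qbar) : IdelePi Qbar) := by
    funext q
    rw [pIdele_apply, principalPi_Qbar_map]
    rfl
  rw [h]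
  exact (bcIdele ↥X.E Qbar (principalIdele ↥X.E u)).2

lemma smul_pIdele_of_mem_fixingSubgroup (X : GoodLevel S F) (u : (↥X.E)ˣ)
    (σ : Qbar ≃ₐ[ℚ] Qbar) (hσ : σ ∈ (X.E.restrictScalars ℚ).fixingSubgroup) :
    σ • pIdele X u = pIdele X u := by
  rw [pIdele_apply, smul_principalPi]
  congr 1
  apply Units.ext
  have h1 := (IntermediateField.mem_fixingSubgroup_iff _ σ).1 hσ
    ((u : ↥X.E) : Qbar) (u : ↥X.E).2
  exact h1

/-- the element of `E_S` attached to an `S`-unit of a good level -/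
def unitES (hF : F.IsUnramifiedOutside S) (X : GoodLevel S F) (u : (↥X.E)ˣ)
    (hu : u ∈ sUnits ↥X.E S) : repES S F hF :=
  Additive.ofMul (⟨⟨pIdele X u, pIdele_mem_idele X u⟩,
    ⟨⟨⟨X.E.restrictScalars ℚ, ⟨X.unr, helper69.fixingSubgroup_normal_of_normal _ X.nor,
        le_restrictScalars X.E⟩,
      fun σ hσ => Subtype.ext (smul_pIdele_of_mem_fixingSubgroup X u σ hσ)⟩,
      fun q hq => (mem_sUnits_iff_principalPi S ↥X.E u).1 hu q hq⟩,
    ⟨_, rfl⟩⟩⟩ : bigES S F hF)

lemma valPi_unitES (X : GoodLevel S F) (u : (↥X.E)ˣ) (hu : u ∈ sUnits ↥X.E S) :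
    valPi hF (unitES hF X u hu) = pIdele X u := rfl

theorem H1Class.mem_B1 {z : UF F → repES S F hF} (h : H1Class hF z 1) :
    z ∈ B1 (repES S F hF) := by
  obtain ⟨X, a, hr, hc⟩ := h
  obtain ⟨u, hu, hua⟩ := (h1ERel_one_iff a).1 hc
  refine ⟨unitES hF X u hu, ?_⟩
  funext σ
  rw [d₀₁_hom_apply]
  apply valPi_injective
  rw [valPi_sub, valPi_ρ, valPi_unitES, hr σ, ← pIdele_smul, ← map_div, hua]

end Kernel

/-! ## The class map and the count -/

section Count

variable {S : Finset Nat.Primes} {F : IntermediateField ℚ Qbar} [FiniteDimensional ℚ F]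
  (hF : F.IsUnramifiedOutside S) [NumberField ↥F]

/-- the class of a level cocycle -/
def classZ1 (z : ↥(Z1 (sLevelsStr S F hF) (repES S F hF))) : ClS ↥F S :=
  (exists_h1Class (hF := hF) z.1 z.2).choose

lemma classZ1_spec (z : ↥(Z1 (sLevelsStr S F hF) (repES S F hF))) :
    H1Class hF z.1 (classZ1 hF z) :=
  (exists_h1Class (hF := hF) z.1 z.2).choose_spec

/-- the class map `Z¹(G_S, E_S) → Cl_S(F)` -/
def classHom : Multiplicative ↥(Z1 (sLevelsStr S F hF) (repES S F hF)) →* ClS ↥F S :=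
  MonoidHom.mk' (fun z => classZ1 hF (Multiplicative.toAdd z)) (fun z z' =>
    (classZ1_spec hF (Multiplicative.toAdd z + Multiplicative.toAdd z')).unique
      ((classZ1_spec hF (Multiplicative.toAdd z)).add (classZ1_spec hF (Multiplicative.toAdd z'))))

lemma classHom_apply (z : ↥(Z1 (sLevelsStr S F hF) (repES S F hF))) :
    classHom hF (Multiplicative.ofAdd z) = classZ1 hF z := rfl

/-- **R3-H1E**: `H¹(G_S, E_S)/p` is finite of order at most `#(Cl_S(F)/p)`. -/
theorem card_H1ModP_le {p : ℕ} [Fact p.Prime] {S : Finset Nat.Primes}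
    {F : IntermediateField ℚ Qbar} [FiniteDimensional ℚ F] (hF : F.IsUnramifiedOutside S)
    [NumberField ↥F] (hpS : (⟨p, Fact.out⟩ : Nat.Primes) ∈ S) :
    Finite (H1ModP (sLevelsStr S F hF) p (repES S F hF)) ∧
    Nat.card (H1ModP (sLevelsStr S F hF) p (repES S F hF)) ≤
      Nat.card (helper75.ClSModP ↥F p S) := by
  set W : AddSubgroup ↥(Z1 (sLevelsStr S F hF) (repES S F hF)) :=
    ((pZ1B1 (sLevelsStr S F hF) p (repES S F hF)).comap
      (Z1 (sLevelsStr S F hF) (repES S F hF)).subtype).toAddSubgroup with hW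
  have h1 : ∀ z : ↥(Z1 (sLevelsStr S F hF) (repES S F hF)),
      classHom hF (Multiplicative.ofAdd z) = 1 → z ∈ W := by
    intro z hz
    rw [classHom_apply] at hz
    have h := classZ1_spec hF z
    rw [hz] at h
    have hB : z.1 ∈ B1 (repES S F hF) := h.mem_B1
    exact (le_sup_left : B1 (repES S F hF) ≤ pZ1B1 (sLevelsStr S F hF) p (repES S F hF)) hB
  have h2 : ∀ z : ↥(Z1 (sLevelsStr S F hF) (repES S F hF)), p • z ∈ W := by
    intro z
    have hz : (p • z).1 ∈ (Z1 (sLevelsStr S F hF) (repES S F hF)).map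
        (((p : ℤ)) • (LinearMap.id : (UF F → repES S F hF) →ₗ[ℤ] (UF F → repES S F hF))) := by
      refine ⟨z.1, z.2, ?_⟩
      rw [LinearMap.smul_apply, LinearMap.id_apply, natCast_zsmul]
      rfl
    exact (le_sup_right : _ ≤ pZ1B1 (sLevelsStr S F hF) p (repES S F hF)) hz
  obtain ⟨hne, hle⟩ := index_le_of_monoidHom W (classHom hF) p h1 h2
  have hcard : Nat.card (H1ModP (sLevelsStr S F hF) p (repES S F hF)) = W.index := rfl
  refine ⟨?_, ?_⟩
  · exact Nat.finite_of_card_ne_zero (hcard ▸ hne)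
  · rw [hcard, card_clSModP_eq]
    exact hle

end Count

end Fermat.Agent.S55.helper79
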