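import Fermat.Agent.S55.helper90_Rec3Final
import Fermat.Agent.S55.helper59_BArFinal2
import Fermat.Agent.S55.helper79_Rec3H1EFinal
import Fermat.Agent.S55.helper57_J3USSL

/-!
# S55 / REC3: the three deliverables for module B, from R3-LOC-INJ and R3-LOC-SURJ (helper90)

With R3-H1E (`helper79.card_H1ModP_le`) and [US-SL] (`helper57.isZero_H3_repIntUnits`) on main,
the only open inputs of REC3 are the two fields `inj`, `surj` of the local system
(`HypLocInj p S`, `HypLocSurj p S`).

* `hypI4'_of_loc : HypLocInj p S → HypLocSurj p S → helper59.HypI4' p S Inv`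
* `hypH3'_of_loc : HypLocInj p S → HypLocSurj p S → helper59.HypH3' p S Inv`
* `hypSha2_of_loc : HypLocInj p S → HypLocSurj p S → helper59.HypSha2 p S`
* `hypSha2'_of_loc : HypLocInj p S → HypLocSurj p S → helper59.HypSha2' p S Inv`
-/

set_option autoImplicit false

open groupCohomology ExtCitation
open scoped NumberField

noncomputable section

namespace Fermat.Agent.S55.helper90

open Fermat.Agent.S55 Fermat.Agent.S55.helper59 Fermat.Agent.S55.helper69
  Fermat.Agent.S55.helper73

local notation "Qbar" => AlgebraicClosure ℚ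

/-- [US-SL] (helper57) -/
theorem hypUSSL_holds : helper31.HypUSSL :=
  fun q _ F E _ _ _ _ _ _ hunr => helper57.isZero_H3_repIntUnits q F E hunr

variable {p : ℕ} [Fact p.Prime] {S : Finset Nat.Primes}

/-- R3-H1E (helper79) -/
theorem hypH1E_holds : HypH1E p S := by
  intro F _ hF hpS
  haveI : FiniteDimensional ℚ F := hF.1
  exact helper79.card_H1ModP_le hF hpS

/-- the bundle `Rec3Arith` for all arithmetic local data, from R3-LOC-INJ and R3-LOC-SURJ -/
theorem hypRec3Arith_of_loc (hinj : HypLocInj p S) (hsurj : HypLocSurj p S) :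
    HypRec3Arith p S :=
  hypRec3Arith_of hypUSSL_holds hinj hsurj hypH1E_holds

/-- **(I4)** in the shape of module B. -/
theorem hypI4'_of_loc (Inv : helper11.LocInv) (hinj : HypLocInj p S) (hsurj : HypLocSurj p S) :
    helper59.HypI4' p S Inv :=
  hypI4_of_arith Inv (hypRec3Arith_of_loc hinj hsurj)

/-- **(I5)** in the shape of module B. -/
theorem hypH3'_of_loc (Inv : helper11.LocInv) (hinj : HypLocInj p S) (hsurj : HypLocSurj p S) :
    helper59.HypH3' p S Inv :=
  hypH3_of_arith Inv (hypRec3Arith_of_loc hinj hsurj)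

/-- **`#Sha² ≤ #Cl_S/p`** in the shape of module B. -/
theorem hypSha2_of_loc (hinj : HypLocInj p S) (hsurj : HypLocSurj p S) :
    helper59.HypSha2 p S :=
  hypSha2_of_arith (hypRec3Arith_of_loc hinj hsurj)

/-- **`#Sha² ≤ #Cl_S/p`** in the second shape of module B. -/
theorem hypSha2'_of_loc (Inv : helper11.LocInv) (hinj : HypLocInj p S)
    (hsurj : HypLocSurj p S) : helper59.HypSha2' p S Inv :=
  helper59.hypSha2'_of_hypSha2 Inv (hypSha2_of_loc hinj hsurj)

end Fermat.Agent.S55.helper90
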