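import Fermat.Agent.S55.helper59_BArMain
import Fermat.Agent.S55.helper90_Rec3Final2
import Fermat.Agent.S55.helper4_Rec3Surj
import Fermat.Agent.S55.helper33_Rec3SurjFin

/-!
# S55 module B: `BaseInputStatement p S` from R3-LOC-INJ alone (helper59)

* `hypLocSurj : helper90.HypLocSurj p S` (R3-LOC-SURJ, unconditional: `helper4.loc_surj_of` with
  `helper33.finChi`);
* `baseInputStatement_of_locInj : helper90.HypLocInj p S → BaseInputStatement p S`.
-/

set_option autoImplicit false

open groupCohomology ExtCitation
open scoped NumberField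

noncomputable section

namespace Fermat.Agent.S55.helper59

open Fermat.Agent.S55

variable {p : ℕ} [Fact p.Prime] {S : Finset Nat.Primes}

/-- **R3-LOC-SURJ, unconditionally.** -/
theorem hypLocSurj : helper90.HypLocSurj p S :=
  fun _ _ hF _ _ _ hL hp2 hpS ζ hζ w c hc n hn =>
    helper4.loc_surj_of hF hL (helper33.finChi p) hp2 hpS ζ hζ w c hc n hn

/-- **MODULE B, conditional only on R3-LOC-INJ.** -/
theorem baseInputStatement_of_locInj (hinj : helper90.HypLocInj p S) :
    BaseInputStatement p S :=
  baseInputStatement_of_rec3Arith (helper90.hypRec3Arith_of_loc hinj hypLocSurj)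

end Fermat.Agent.S55.helper59
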