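import Fermat.Agent.S55.helper72_BArRecMix
import Fermat.Agent.S55.helper15_UnramSupport

/-!
# S55 module B, package B-AR-REC-MIX (helper72, task 551): the final statement

`mixedRec_of_recP` : VERBATIM the statement of helper59's interface v3
(`blueprints/S55/helper59_BInterface3.lean`), unconditional.
-/

set_option autoImplicit false

open groupCohomology ExtCitation
open scoped NumberField
open IsDedekindDomain

noncomputable section

namespace Fermat.Agent.S55.helper72

open Fermat.Agent.S55 Fermat.Agent.S55.helper59 Fermat.Agent.S55.helper8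
  Fermat.Agent.S55.helper11

local instance mixFactOfPrimesFinal (q : Nat.Primes) : Fact (q : ℕ).Prime := ⟨q.2⟩

local notation "Qbar" => AlgebraicClosure ℚ

/-- (e) SUPPORT (helper15). -/
theorem mixHypSupport (p : ℕ) [Fact p.Prime] : MixHypSupport p :=
  fun r _ F E _ _ _ _ _ _ D w hD hun ζ hζ c _ =>
    helper15.loc_mulClass_zetaCochain_eq_zero_of_unramAt r F E D w hD hun p
      (Fact.out : p.Prime).pos ζ hζ c

variable {p : ℕ} [Fact p.Prime] {S : Finset Nat.Primes} {F : IntermediateField ℚ Qbar}
  [NumberField ↥F] {𝒩 : Levels (UF F)} {ι : Type} [Fintype ι]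
  {L : LocalData (UF F) 𝒩 ι}

/-- **B-AR-REC-MIX**: mixed reciprocity in the language of module B. -/
theorem mixedRec_of_recP (hp2 : p ≠ 2) (hL : IsArith S F L) (Inv : helper11.LocInv)
    (hRec : HypRecP Inv p) (ζ : (↥F)ˣ) (hζ : IsPrimitiveRoot ζ p)
    (inv : ∀ w : ι, (L.Gv w × L.Gv w → ZMod p) →ₗ[ZMod p] ZMod p)
    (hinv : InvCompat Inv ζ hL inv) : MixedRec S L Inv ζ inv :=
  mixedRec_of_recP_of (mixHypSupport p) hL Inv hRec ζ hζ inv hinv

end Fermat.Agent.S55.helper72
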