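import Fermat.Agent.S55.helper75_Rec4One
import Fermat.Agent.S55.helper11_Rec1Final
import Fermat.Agent.S55.helper8_LocFinal

/-!
# S55 / REC4 (helper75): wiring of the REC4 deliverable to the landed REC1 theorems

* `recTame`, `recExist` : the Props `RecTame I`, `RecExist` of `helper75_Rec4Hyps` are theorems
  (`helper11.hypTame`, `helper11.hypExist`);
* `hypRecP_of_globHasse` : `helper59.HypRecP I p` from GLOB's Hasse principle
  (`helper11.reciprocity_pTorsion`);
* `card_sha1Z_le_of_hypRecP`, `card_sha1Z_le_of_globHasse` :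
  `#Sha¹(G_{F,S}, ℤ/p) ≤ #(Cl_S(F)/p)` (= helper59 `Interface2.card_sha1Z_le`), conditional ONLY
  on `HypRecP I p`, resp. on `helper60.GlobHasse p`.
-/

set_option autoImplicit false
set_option linter.unusedVariables false
set_option linter.unusedSectionVars false

open groupCohomology ExtCitation
open scoped NumberField

noncomputable section

namespace Fermat.Agent.S55.helper75

open Fermat.Agent.S55 Fermat.Agent.S55.helper59 Fermat.Agent.S55.helper11

/-- R-TAME is a theorem. -/
theorem recTame (I : LocInv) : RecTame I :=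
  fun q _ F M _ _ _ _ _ _ D w hD hunr σ hσ k hk c e he =>
    helper11.hypTame I q F M D w hD hunr σ hσ k hk c e he

/-- R-EXIST is a theorem. -/
theorem recExist : RecExist := helper11.hypExist

/-- reciprocity for `p`-torsion classes from GLOB's Hasse principle. -/
theorem hypRecP_of_globHasse (I : LocInv) (p : ℕ) [Fact p.Prime] (hp2 : p ≠ 2)
    (hG : helper60.GlobHasse p) : helper59.HypRecP I p :=
  fun F L _ _ _ _ _ _ x hx ι _ q _ D v hv hinj hsupp =>
    helper11.reciprocity_pTorsion I p hp2 hG F L x hx ι q D v hv hinj hsupp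

variable {p : ℕ} [Fact p.Prime] {S : Finset Nat.Primes}
  {F : IntermediateField ℚ (AlgebraicClosure ℚ)} [FiniteDimensional ℚ F]
  {𝒩 : Levels (UF F)} {ι : Type} {L : LocalData (UF F) 𝒩 ι}

/-- **R4-BR**: `#Sha¹(G_{F,S}, ℤ/p) ≤ #(Cl_S(F)/p)`, conditional only on reciprocity for
`p`-torsion classes. -/
theorem card_sha1Z_le_of_hypRecP [NumberField ↥F] (I : LocInv) (hRec : helper59.HypRecP I p)
    (hF : F.IsUnramifiedOutside S) (h𝒩 : 𝒩.mem = sLevels S F) (hL : IsArith S F L) :
    Nat.card ↥(sha1Z (k := ZMod p) L) ≤ Nat.card (ClSModP (↥F) p S) :=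
  card_sha1Z_le_of_recP I hRec (recTame I) recExist hF h𝒩 hL

/-- **R4-BR**: `#Sha¹(G_{F,S}, ℤ/p) ≤ #(Cl_S(F)/p)`, conditional only on GLOB's Hasse principle
(and the existence of an invariant system `I`). -/
theorem card_sha1Z_le_of_globHasse [NumberField ↥F] (I : LocInv) (hp2 : p ≠ 2)
    (hG : helper60.GlobHasse p)
    (hF : F.IsUnramifiedOutside S) (h𝒩 : 𝒩.mem = sLevels S F) (hL : IsArith S F L) :
    Nat.card ↥(sha1Z (k := ZMod p) L) ≤ Nat.card (ClSModP (↥F) p S) :=
  card_sha1Z_le_of_hypRecP I (hypRecP_of_globHasse I p hp2 hG) hF h𝒩 hL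

/-- **R4-BR**: `#Sha¹(G_{F,S}, ℤ/p) ≤ #(Cl_S(F)/p)`, conditional ONLY on GLOB's Hasse principle
`helper60.GlobHasse p`. -/
theorem card_sha1Z_le_of_globHasse' [NumberField ↥F] (hp2 : p ≠ 2)
    (hG : helper60.GlobHasse p)
    (hF : F.IsUnramifiedOutside S) (h𝒩 : 𝒩.mem = sLevels S F) (hL : IsArith S F L) :
    Nat.card ↥(sha1Z (k := ZMod p) L) ≤ Nat.card (ClSModP (↥F) p S) := by
  obtain ⟨I⟩ := helper8.nonempty_locInv
  exact card_sha1Z_le_of_globHasse I hp2 hG hF h𝒩 hL

end Fermat.Agent.S55.helper75
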