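import Fermat.Agent.S55.helper59_BArFinal2
import Fermat.Agent.S55.helper59_BArRecTheta
import Fermat.Agent.S55.helper72_BArRecMixFinal
import Fermat.Agent.S55.helper98_BArRecI3
import Fermat.Agent.S55.helper75_Rec4Wire
import Fermat.Agent.S55.helper11_RecUncond

/-!
# S55 module B: the inputs (I3) and `#Sha¹ ≤ #Cl_S/p`, unconditionally (helper59)

* `hypI3 Inv : HypI3 p S Inv`  (REC1 `helper11.hypRecP` + `helper72.mixedRec_of_recP` +
  `helper98.reciprocity_B`);
* `hypSha1 : HypSha1 p S`  (REC1 + REC4 `helper75.card_sha1Z_le_of_hypRecP`);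
* `mixedRecTheta hp2 hL Inv ζ hζ inv hinv : MixedRecTheta S L Inv ζ inv`.
-/

set_option autoImplicit false

open groupCohomology ExtCitation
open scoped NumberField

noncomputable section

namespace Fermat.Agent.S55.helper59

open Fermat.Agent.S55

local notation "Qbar" => AlgebraicClosure ℚ

variable {p : ℕ} [Fact p.Prime] {S : Finset Nat.Primes}

/-- **(I3), unconditionally.** -/
theorem hypI3 (Inv : helper11.LocInv) : HypI3 p S Inv :=
  fun _ _ _ _ _ _ hp2 _ hF h𝒩 hL ζ hζ inv hinv =>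
    helper98.reciprocity_B hF h𝒩 Inv ζ inv
      (helper72.mixedRec_of_recP hp2 hL Inv (helper11.hypRecP Inv p hp2) ζ hζ inv hinv)

/-- **`#Sha¹ ≤ #Cl_S/p`, unconditionally.** -/
theorem hypSha1 : HypSha1 p S := by
  intro F _ 𝒩 ι _ L hp2 _ hF h𝒩 hL _
  obtain ⟨Inv⟩ := helper8.nonempty_locInv
  exact helper75.card_sha1Z_le_of_hypRecP Inv (helper11.hypRecP Inv p hp2) hF h𝒩 hL

/-- **mixed reciprocity for multiplicative cocycles, unconditionally.** -/
theorem mixedRecTheta {F : IntermediateField ℚ Qbar} [NumberField ↥F] {𝒩 : Levels (UF F)}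
    {ι : Type} [Fintype ι] {L : LocalData (UF F) 𝒩 ι} (hp2 : p ≠ 2) (hL : IsArith S F L)
    (Inv : helper11.LocInv) (ζ : (↥F)ˣ) (hζ : IsPrimitiveRoot ζ p)
    (inv : ∀ w : ι, (L.Gv w × L.Gv w → ZMod p) →ₗ[ZMod p] ZMod p)
    (hinv : InvCompat Inv ζ hL inv) : MixedRecTheta S L Inv ζ inv :=
  mixedRecTheta_of_recP hL Inv (helper11.hypRecP Inv p hp2) ζ hζ inv hinv

/-- `BaseInputStatement p S` from the three inputs that are still open: (I4), (I5), `#Sha²`
(REC3) and (I7a). -/
theorem baseInputStatement_of_rec3_i7a (Inv : helper11.LocInv) (h4 : HypI4' p S Inv)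
    (hH3 : HypH3' p S Inv) (hs2 : HypSha2' p S Inv) (h7 : HypI7a' p S Inv) :
    BaseInputStatement p S :=
  baseInputStatement_of_hyps' Inv (hypI3 Inv) h4 hH3 h7 hypSha1 hs2

end Fermat.Agent.S55.helper59
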