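import Fermat.Agent.S55.helper79_SUnitRelIndex

/-!
# S55 / B-AR-KUM-G4 (helper5): S-units modulo `p`-th powers

`#(𝓞_{K,T}^× / p) = p ^ (|T| + [K:ℚ]/2)` for a number field `K ∋ ζ_p`, `p` odd.
Wrapper around `helper79.numberField_index_range_pow_sunit_of_isPrimitiveRoot`.
-/

set_option autoImplicit false

open IsDedekindDomain
open scoped NumberField nonZeroDivisors

namespace Fermat.Agent.S55.helper5

/-- KG4: `#(𝓞_{K,T}^× / p) = p^(|T| + [K:ℚ]/2)` for a number field `K ∋ ζ_p`, `p` odd. -/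
theorem card_sunit_mod_pow (K : Type*) [Field K] [NumberField K]
    (T : Set (HeightOneSpectrum (𝓞 K))) [Finite T] (p : ℕ) [Fact p.Prime] (hp2 : p ≠ 2)
    (ζ : K) (hζ : IsPrimitiveRoot ζ p) :
    Nat.card ((T.unit K) ⧸ (powMonoidHom p : T.unit K →* T.unit K).range) =
      p ^ (Nat.card T + Module.finrank ℚ K / 2) := by
  have hp : p.Prime := Fact.out
  have hp3 : 2 < p := lt_of_le_of_ne hp.two_le (Ne.symm hp2)
  rw [← Subgroup.index_eq_card,
    helper79.numberField_index_range_pow_sunit_of_isPrimitiveRoot K T hp hp2 hζ,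
    helper79.nrComplexPlaces_eq_finrank_div_two K hp3 hζ, add_comm]

end Fermat.Agent.S55.helper5
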