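import Mathlib

/-!
# S55-FG2 (part 1): naturality of the connecting homomorphism under change of groups
-/

set_option autoImplicit false

universe u

open CategoryTheory CategoryTheory.Limits groupCohomology Rep

namespace Fermat.Agent.S55.helper61

variable {k G H : Type u} [CommRing k] [Group G] [Group H]

/-- The morphism of short complexes of cochain complexes induced by a group homomorphism
`f : G →* H` and a morphism of short complexes `res f X ⟶ Y` (given by its components). -/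
noncomputable def cochainsShortComplexMap (f : G →* H) {X : ShortComplex (Rep k H)}
    {Y : ShortComplex (Rep k G)} (τ₁ : res f X.X₁ ⟶ Y.X₁) (τ₂ : res f X.X₂ ⟶ Y.X₂)
    (τ₃ : res f X.X₃ ⟶ Y.X₃) (h₁₂ : (resFunctor f).map X.f ≫ τ₂ = τ₁ ≫ Y.f)
    (h₂₃ : (resFunctor f).map X.g ≫ τ₃ = τ₂ ≫ Y.g) :
    X.map (cochainsFunctor k H) ⟶ Y.map (cochainsFunctor k G) where
  τ₁ := cochainsMap f τ₁
  τ₂ := cochainsMap f τ₂
  τ₃ := cochainsMap f τ₃
  comm₁₂ := by
    show cochainsMap f τ₁ ≫ cochainsMap (MonoidHom.id G) Y.f =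
      cochainsMap (MonoidHom.id H) X.f ≫ cochainsMap f τ₂
    rw [← cochainsMap_comp, ← cochainsMap_comp]
    exact congrArg (cochainsMap f) h₁₂.symm
  comm₂₃ := by
    show cochainsMap f τ₂ ≫ cochainsMap (MonoidHom.id G) Y.g =
      cochainsMap (MonoidHom.id H) X.g ≫ cochainsMap f τ₃
    rw [← cochainsMap_comp, ← cochainsMap_comp]
    exact congrArg (cochainsMap f) h₂₃.symm

/-- Naturality of the connecting homomorphism with respect to change of groups. -/
theorem δ_naturality_map (f : G →* H) {X : ShortComplex (Rep k H)}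
    {Y : ShortComplex (Rep k G)} (hX : X.ShortExact) (hY : Y.ShortExact)
    (τ₁ : res f X.X₁ ⟶ Y.X₁) (τ₂ : res f X.X₂ ⟶ Y.X₂)
    (τ₃ : res f X.X₃ ⟶ Y.X₃) (h₁₂ : (resFunctor f).map X.f ≫ τ₂ = τ₁ ≫ Y.f)
    (h₂₃ : (resFunctor f).map X.g ≫ τ₃ = τ₂ ≫ Y.g) (i j : ℕ) (hij : i + 1 = j) :
    δ hX i j hij ≫ groupCohomology.map f τ₁ j =
      groupCohomology.map f τ₃ i ≫ δ hY i j hij :=
  HomologicalComplex.HomologySequence.δ_naturality (cochainsShortComplexMap f τ₁ τ₂ τ₃ h₁₂ h₂₃)
    (map_cochainsFunctor_shortExact hX) (map_cochainsFunctor_shortExact hY) i j hij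

end Fermat.Agent.S55.helper61
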