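import Mathlib
import Fermat.Agent.S55.helper89_ChevDefs

/-!
# S55 / GLOB / G7-HENSEL (helper63): `U⁽¹⁾` is `p`-divisible for `q ≠ p`

* `isAdicComplete_of_finite` : a finite module over an `I`-adically complete noetherian ring is
  `I`-adically complete.
* `exists_pow_eq_of_mem_oneUnits` : for `q ≠ p` every `w ∈ oneUnits q K` is `z ^ p` with
  `z ∈ oneUnits q K` (Hensel's lemma in the finite `ℤ_q`-algebra `ℤ_q[t]`).
-/

set_option autoImplicit false

open scoped TensorProduct NumberField
open IsDedekindDomain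

namespace Fermat.Agent.S55.helper63

open Fermat.Agent.S55.helper73 Fermat.Agent.S55.helper89

/-- A finite module over an `I`-adically complete noetherian ring is `I`-adically complete. -/
theorem isAdicComplete_of_finite {R : Type*} [CommRing R] [IsNoetherianRing R] (I : Ideal R)
    [IsAdicComplete I R] (M : Type*) [AddCommGroup M] [Module R M] [Module.Finite R M] :
    IsAdicComplete I M := by
  haveI : IsHausdorff I M := IsHausdorff.of_le_jacobson I M (IsAdicComplete.le_jacobson_bot I)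
  haveI : IsPrecomplete I M := by
    rw [← AdicCompletion.of_surjective_iff]
    intro y
    obtain ⟨x, rfl⟩ := AdicCompletion.ofTensorProduct_surjective_of_finite I M y
    induction x using TensorProduct.induction_on with
    | zero => exact ⟨0, by simp⟩
    | tmul r m =>
      obtain ⟨r₀, rfl⟩ := AdicCompletion.of_surjective I R r
      refine ⟨r₀ • m, ?_⟩
      rw [AdicCompletion.ofTensorProduct_tmul]
      ext n
      rw [AdicCompletion.smul_eval]
      simp only [AdicCompletion.of_apply, map_smul]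
      rfl
    | add a b ha hb =>
      obtain ⟨a', ha'⟩ := ha
      obtain ⟨b', hb'⟩ := hb
      exact ⟨a' + b', by rw [map_add, map_add, ha', hb']⟩
  exact {}

section Hensel

variable (q : ℕ) [Fact q.Prime] (K : Type*) [Field K] [NumberField K]

theorem isUnit_natCast_padicInt (p : ℕ) (hp : p.Prime) (hqp : q ≠ p) :
    IsUnit ((p : ℕ) : ℤ_[q]) := by
  rw [PadicInt.isUnit_iff, PadicInt.norm_natCast_eq_one_iff]
  exact (Nat.coprime_primes (Fact.out : q.Prime) hp).mpr hqp

/-- **G7-HENSEL.** For `q ≠ p`, every element of `U⁽¹⁾` is a `p`-th power of an element of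
`U⁽¹⁾`. -/
theorem exists_pow_eq_of_mem_oneUnits (p : ℕ) (hp : p.Prime) (hqp : q ≠ p)
    (w : (SemiLoc q K)ˣ) (hw : w ∈ oneUnits q K) : ∃ z ∈ oneUnits q K, z ^ p = w := by
  obtain ⟨hwint, t, ht, hwt⟩ := hw
  have hqE : qElt q K = ((q : ℕ) : SemiLoc q K) := by simp [qElt]
  -- the finite `ℤ_q`-algebra `R' = ℤ_q[t]`
  let R' : Subalgebra ℤ_[q] (SemiLoc q K) := Algebra.adjoin ℤ_[q] {t}
  haveI hfin : Module.Finite ℤ_[q] R' := Module.Finite.iff_fg.mpr ht.fg_adjoin_singleton
  let I : Ideal ℤ_[q] := IsLocalRing.maximalIdeal ℤ_[q]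
  haveI h1 : IsAdicComplete I R' := isAdicComplete_of_finite I R'
  haveI h2 : IsAdicComplete (I.map (algebraMap ℤ_[q] R')) R' :=
    (IsAdicComplete.map_algebraMap_iff I R').mpr h1
  let t' : R' := ⟨t, Algebra.subset_adjoin (Set.mem_singleton t)⟩
  let w' : R' := 1 + ((q : ℕ) : R') * t'
  have hw' : ((w' : R') : SemiLoc q K) = (w : SemiLoc q K) := by
    rw [hwt, hqE]
    simp [w', t']
  let f : Polynomial R' := Polynomial.X ^ p - Polynomial.C w'
  have hf : f.Monic := Polynomial.monic_X_pow_sub_C w' hp.ne_zero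
  have hqI : ((q : ℕ) : R') ∈ I.map (algebraMap ℤ_[q] R') := by
    have h : ((q : ℕ) : ℤ_[q]) ∈ I := by
      show ((q : ℕ) : ℤ_[q]) ∈ IsLocalRing.maximalIdeal ℤ_[q]
      rw [PadicInt.maximalIdeal_eq_span_p]
      exact Ideal.subset_span rfl
    have h' := Ideal.mem_map_of_mem (algebraMap ℤ_[q] R') h
    rwa [map_natCast] at h'
  have he1 : f.eval 1 ∈ I.map (algebraMap ℤ_[q] R') := by
    have h : f.eval 1 = -(((q : ℕ) : R') * t') := by
      simp only [f, w', Polynomial.eval_sub, Polynomial.eval_pow, Polynomial.eval_X,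
        Polynomial.eval_C, one_pow]
      ring
    rw [h]
    exact neg_mem (Ideal.mul_mem_right _ _ hqI)
  have he2 : IsUnit (Ideal.Quotient.mk (I.map (algebraMap ℤ_[q] R'))
      (f.derivative.eval 1)) := by
    have h : f.derivative.eval 1 = ((p : ℕ) : R') := by
      simp only [f, Polynomial.derivative_sub, Polynomial.derivative_X_pow,
        Polynomial.derivative_C, sub_zero, Polynomial.eval_mul, Polynomial.eval_C,
        Polynomial.eval_pow, Polynomial.eval_X, one_pow, mul_one]
    rw [h]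
    have hpu := (isUnit_natCast_padicInt q p hp hqp).map (algebraMap ℤ_[q] R')
    rw [map_natCast] at hpu
    exact hpu.map _
  obtain ⟨z', hz', hz1⟩ := HenselianRing.is_henselian f hf 1 he1 he2
  -- `z' ^ p = w'` and `z' - 1 ∈ q R'`
  have hzp : z' ^ p = w' := by
    have h : f.eval z' = 0 := hz'
    simp only [f, Polynomial.eval_sub, Polynomial.eval_pow, Polynomial.eval_X,
      Polynomial.eval_C] at h
    exact sub_eq_zero.mp h
  have hzpA : ((z' : R') : SemiLoc q K) ^ p = (w : SemiLoc q K) := by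
    rw [← hw', ← hzp]
    rfl
  have hInt : ∀ x : R', IsIntegral ℤ_[q] ((x : R') : SemiLoc q K) := by
    intro x
    have h : IsIntegral ℤ_[q] x := IsIntegral.of_finite ℤ_[q] x
    exact h.map (R'.val)
  have hzu : IsUnit ((z' : R') : SemiLoc q K) := by
    have h : IsUnit (((z' : R') : SemiLoc q K) ^ p) := by
      rw [hzpA]
      exact w.isUnit
    exact (isUnit_pow_iff hp.ne_zero).mp h
  obtain ⟨s', hs'⟩ : ∃ s' : R', z' - 1 = ((q : ℕ) : R') * s' := by
    have h : I.map (algebraMap ℤ_[q] R') = Ideal.span {((q : ℕ) : R')} := by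
      show (IsLocalRing.maximalIdeal ℤ_[q]).map (algebraMap ℤ_[q] R') = _
      rw [PadicInt.maximalIdeal_eq_span_p, Ideal.map_span, Set.image_singleton, map_natCast]
    rw [h, Ideal.mem_span_singleton'] at hz1
    obtain ⟨a, ha⟩ := hz1
    exact ⟨a, by rw [← ha, mul_comm]⟩
  refine ⟨hzu.unit, ⟨⟨?_, ?_⟩, (s' : SemiLoc q K), hInt s', ?_⟩, ?_⟩
  · exact hInt z'
  · -- `z⁻¹ = z ^ (p - 1) * w⁻¹`
    have h : ((hzu.unit⁻¹ : (SemiLoc q K)ˣ) : SemiLoc q K) =
        ((z' : R') : SemiLoc q K) ^ (p - 1) * ((w⁻¹ : (SemiLoc q K)ˣ) : SemiLoc q K) := by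
      have e1 : hzu.unit ^ p = w := by
        apply Units.ext
        rw [Units.val_pow_eq_pow_val, IsUnit.unit_spec, hzpA]
      have e2 : hzu.unit⁻¹ = hzu.unit ^ (p - 1) * w⁻¹ := by
        apply eq_mul_inv_of_mul_eq
        have e3 : hzu.unit ^ p = hzu.unit * hzu.unit ^ (p - 1) := by
          rw [← pow_succ', Nat.sub_add_cancel hp.one_le]
        rw [← e1, e3, inv_mul_cancel_left]
      rw [e2, Units.val_mul, Units.val_pow_eq_pow_val, IsUnit.unit_spec]
    rw [h]
    exact ((hInt z').pow _).mul hwint.2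
  · rw [IsUnit.unit_spec, hqE]
    have h := congrArg (fun x : R' => (x : SemiLoc q K)) hs'
    have hq' : (((q : ℕ) : R') : SemiLoc q K) = ((q : ℕ) : SemiLoc q K) :=
      map_natCast R'.val q
    simp only [Subalgebra.coe_sub, Subalgebra.coe_one, Subalgebra.coe_mul, hq'] at h
    rw [← h]
    ring
  · apply Units.ext
    rw [Units.val_pow_eq_pow_val, IsUnit.unit_spec, hzpA]

end Hensel

end Fermat.Agent.S55.helper63
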