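import Fermat.Agent.S55.helper64_SemiLocPrimes
import Fermat.Agent.S55.helper27_LocPowFinal

/-!
# S55 / GLOB / G7-IDX (helper64): the index of the `p`-th powers in `(ℚ_q ⊗ K)ˣ`

`index_pow_semiLoc`: for a number field `K` containing a primitive `p`-th root of unity,
`[(ℚ_q ⊗ K)ˣ : (ℚ_q ⊗ K)ˣᵖ] = p ^ (2 #{P | q} + [q = p] [K : ℚ])`
(statement verbatim from section `Idx` of `helper89_G7Plan`).

Proof: `ℚ_q ⊗ K` is the product of its residue fields (reduced Artinian), each residue field is a
`q`-adic field containing `ζ_p`, to which LOC-1 (`helper27.card_units_mod_pow`, transported to an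
arbitrary universe in `index_pow_local`) applies; the local degrees add up to `[K : ℚ]` and the
number of factors is the number of primes over `q` (`card_maximalSpectrum_semiLoc`).
-/

set_option autoImplicit false
set_option linter.style.haveILetI false

open scoped TensorProduct NumberField
open IsDedekindDomain

namespace Fermat.Agent.S55.helper64

open Fermat.Agent.S55.helper73

/-- dependent version of `Subgroup.index_pi` -/
lemma index_pi_dep {ι : Type*} [Fintype ι] {G : ι → Type*} [∀ i, Group (G i)]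
    (H : ∀ i, Subgroup (G i)) :
    (Subgroup.pi Set.univ H).index = ∏ i, (H i).index := by
  simp_rw [Subgroup.index, ← Nat.card_pi]
  refine Nat.card_congr
    ((Quotient.congrRight (fun x y ↦ ?_)).trans (Setoid.piQuotientEquiv _).symm)
  rw [QuotientGroup.leftRel_pi]

/-- the index of the `p`-th powers is invariant under ring isomorphisms -/
lemma index_pow_range_congr {A B : Type*} [CommRing A] [CommRing B] (e : A ≃+* B) (p : ℕ) :
    (powMonoidHom p : Aˣ →* Aˣ).range.index = (powMonoidHom p : Bˣ →* Bˣ).range.index := by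
  rw [← Subgroup.index_map_equiv (powMonoidHom p : Aˣ →* Aˣ).range (Units.mapEquiv e.toMulEquiv)]
  congr 1
  ext y
  constructor
  · rintro ⟨_, ⟨x, rfl⟩, rfl⟩
    exact ⟨Units.mapEquiv e.toMulEquiv x, by simp⟩
  · rintro ⟨x, rfl⟩
    refine ⟨(Units.mapEquiv e.toMulEquiv).symm x ^ p, ⟨_, rfl⟩, ?_⟩
    change (Units.mapEquiv e.toMulEquiv) ((Units.mapEquiv e.toMulEquiv).symm x ^ p) = x ^ p
    rw [map_pow, MulEquiv.apply_symm_apply]

/-- LOC-1 (`helper27.card_units_mod_pow`) for `q`-adic fields in an arbitrary universe. -/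
theorem index_pow_local (q : ℕ) [Fact q.Prime] (F : Type*) [Field F] [Algebra ℚ_[q] F]
    [FiniteDimensional ℚ_[q] F] (p : ℕ) [Fact p.Prime] (ζ : F) (hζ : IsPrimitiveRoot ζ p) :
    (powMonoidHom p : Fˣ →* Fˣ).range.index =
      p ^ (2 + if p = q then Module.finrank ℚ_[q] F else 0) := by
  haveI : Small.{0} F :=
    ⟨⟨Fin (Module.finrank ℚ_[q] F) → ℚ_[q], ⟨(Module.finBasis ℚ_[q] F).equivFun.toEquiv⟩⟩⟩
  let e : Shrink.{0} F ≃ₐ[ℚ_[q]] F := Shrink.algEquiv ℚ_[q] F
  haveI : FiniteDimensional ℚ_[q] (Shrink.{0} F) := Module.Finite.equiv e.symm.toLinearEquiv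
  have h1 := Fermat.Agent.S55.helper27.card_units_mod_pow q (Shrink.{0} F) p (e.symm ζ)
    (hζ.map_of_injective e.symm.injective)
  rw [← index_pow_range_congr e.toRingEquiv p, Subgroup.index, h1, e.toLinearEquiv.finrank_eq]

section Main

variable (q : ℕ) [Fact q.Prime] (K : Type*) [Field K] [NumberField K]

/-- the units of `ℚ_q ⊗ K` as the product of the units of the residue fields -/
noncomputable def unitsEquivPi :
    (SemiLoc q K)ˣ ≃* ∀ n : MaximalSpectrum (SemiLoc q K), (ResField q K n)ˣ :=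
  (Units.mapEquiv (IsArtinianRing.equivPi (SemiLoc q K)).toMulEquiv).trans MulEquiv.piUnits

lemma unitsEquivPi_apply (x : (SemiLoc q K)ˣ) (n : MaximalSpectrum (SemiLoc q K)) :
    ((unitsEquivPi q K x n : (ResField q K n)ˣ) : ResField q K n) = toRes n (x : SemiLoc q K) :=
  rfl

lemma map_range_pow (p : ℕ) :
    (powMonoidHom p : (SemiLoc q K)ˣ →* (SemiLoc q K)ˣ).range.map
        (unitsEquivPi q K : (SemiLoc q K)ˣ →* _) =
      Subgroup.pi Set.univ fun n : MaximalSpectrum (SemiLoc q K) =>
        (powMonoidHom p : (ResField q K n)ˣ →* (ResField q K n)ˣ).range := by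
  ext y
  constructor
  · rintro ⟨_, ⟨x, rfl⟩, rfl⟩
    intro n _
    exact ⟨unitsEquivPi q K x n, by
      change unitsEquivPi q K x n ^ p = (unitsEquivPi q K (x ^ p)) n
      rw [map_pow]; rfl⟩
  · intro hy
    have hy' : ∀ n, ∃ z : (ResField q K n)ˣ, z ^ p = y n := fun n => hy n (Set.mem_univ n)
    choose z hz using hy'
    refine ⟨(unitsEquivPi q K).symm z ^ p, ⟨_, rfl⟩, ?_⟩
    change unitsEquivPi q K ((unitsEquivPi q K).symm z ^ p) = y
    rw [map_pow, MulEquiv.apply_symm_apply]
    funext n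
    exact hz n

lemma sum_finrank_resField [Fintype (MaximalSpectrum (SemiLoc q K))] :
    ∑ n : MaximalSpectrum (SemiLoc q K), Module.finrank ℚ_[q] (ResField q K n) =
      Module.finrank ℚ K := by
  rw [← Module.finrank_pi_fintype ℚ_[q],
    ← ((IsArtinianRing.equivPi (SemiLoc q K)).restrictScalars ℚ_[q]).toLinearEquiv.finrank_eq]
  exact Module.finrank_baseChange

lemma index_pow_semiLoc_aux [Fintype (MaximalSpectrum (SemiLoc q K))] (p : ℕ) :
    (powMonoidHom p : (SemiLoc q K)ˣ →* (SemiLoc q K)ˣ).range.index =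
      ∏ n : MaximalSpectrum (SemiLoc q K),
        (powMonoidHom p : (ResField q K n)ˣ →* (ResField q K n)ˣ).range.index := by
  have h1 := Subgroup.index_map_equiv (powMonoidHom p : (SemiLoc q K)ˣ →* (SemiLoc q K)ˣ).range
    (unitsEquivPi q K)
  have h2 := map_range_pow q K p
  have h3 := index_pi_dep fun n : MaximalSpectrum (SemiLoc q K) =>
        (powMonoidHom p : (ResField q K n)ˣ →* (ResField q K n)ˣ).range
  rw [← h1, ← h3, ← h2]

/-- the index of the `p`-th powers in `(ℚ_q ⊗ K)ˣ` when `ζ_p ∈ K` (`q` first). -/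
theorem index_pow_semiLoc_of_prime (p : ℕ) (hp : p.Prime) (ζ : K) (hζ : IsPrimitiveRoot ζ p) :
    (powMonoidHom p : (SemiLoc q K)ˣ →* (SemiLoc q K)ˣ).range.index =
      p ^ (2 * Nat.card {P : HeightOneSpectrum (𝓞 K) // (q : 𝓞 K) ∈ P.asIdeal} +
        if q = p then Module.finrank ℚ K else 0) := by
  classical
  haveI : Fact p.Prime := ⟨hp⟩
  haveI : Fintype (MaximalSpectrum (SemiLoc q K)) := Fintype.ofFinite _
  rw [index_pow_semiLoc_aux]
  have hloc : ∀ n : MaximalSpectrum (SemiLoc q K),
      (powMonoidHom p : (ResField q K n)ˣ →* (ResField q K n)ˣ).range.index =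
        p ^ (2 + if p = q then Module.finrank ℚ_[q] (ResField q K n) else 0) := fun n =>
    index_pow_local q (ResField q K n) p (((toRes n : SemiLoc q K →+* ResField q K n).comp
      (jK q K)) ζ) (hζ.map_of_injective (RingHom.injective _))
  rw [Finset.prod_congr rfl fun n _ => hloc n, Finset.prod_pow_eq_pow_sum]
  congr 1
  rw [Finset.sum_add_distrib, Finset.sum_const, Finset.card_univ, smul_eq_mul, mul_comm,
    ← Nat.card_eq_fintype_card, card_maximalSpectrum_semiLoc]
  congr 1
  by_cases h : p = q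
  · simp only [h, if_true]
    exact sum_finrank_resField q K
  · have h' : ¬ q = p := fun h'' => h h''.symm
    simp [h, h']

end Main

/-- **G7-IDX** (statement verbatim from `helper89_G7Plan`, section `Idx`): the index of the
`p`-th powers in `(ℚ_q ⊗ K)ˣ` when `ζ_p ∈ K` is `p ^ (2 #{P | q} + [q = p] [K : ℚ])`. -/
theorem index_pow_semiLoc (K : Type*) [Field K] [NumberField K] (p : ℕ) (hp : p.Prime) (ζ : K)
    (hζ : IsPrimitiveRoot ζ p) (q : ℕ) [Fact q.Prime] :
    (powMonoidHom p : (SemiLoc q K)ˣ →* (SemiLoc q K)ˣ).range.index =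
      p ^ (2 * Nat.card {P : HeightOneSpectrum (𝓞 K) // (q : 𝓞 K) ∈ P.asIdeal} +
        if q = p then Module.finrank ℚ K else 0) :=
  index_pow_semiLoc_of_prime q K p hp ζ hζ

end Fermat.Agent.S55.helper64
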