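import Fermat.Agent.S55.helper97_SemiLocBridge
import Fermat.Agent.S55.helper89_ChevDefs

/-!
# S55 / GLOB / G7-IDX (helper64): maximal ideals of `ℚ_q ⊗ K` and primes of `𝓞 K` over `q`

For a number field `K` (any universe) and a prime `q`, the maximal ideals `n` of the semilocal
algebra `SemiLoc q K = ℚ_q ⊗_ℚ K` are in bijection with the primes `P` of `𝓞 K` containing `q`:

* `wv n x` : the absolute value of `x : ℚ_q ⊗ K` at `n` (spectral norm of the image of `x` in the
  residue field `ResField q K n`, a finite extension of `ℚ_q`); multiplicative, ultrametric,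
  extends the `q`-adic norm, `≤ 1` on `1 ⊗ 𝓞 K`;
* `primeOf n : HeightOneSpectrum (𝓞 K)` : the prime `{a | wv n (1 ⊗ a) < 1}`;
* `exists_jK_approx` : `K` is dense in `ℚ_q ⊗ K`;
* `primeOf_injective`, `exists_primeOf_eq` (surjectivity onto the primes over `q`);
* `primesOverEquiv`, `card_maximalSpectrum_semiLoc`.
-/

set_option autoImplicit false
set_option linter.style.haveILetI false
set_option linter.unusedSectionVars false

open scoped TensorProduct NumberField
open IsDedekindDomain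

namespace Fermat.Agent.S55.helper64

open Fermat.Agent.S55.helper73

section Res

variable (q : ℕ) [Fact q.Prime] (K : Type*) [Field K] [NumberField K]

/-- the residue field of the semilocal algebra at a maximal ideal -/
abbrev ResField (n : MaximalSpectrum (SemiLoc q K)) : Type _ := SemiLoc q K ⧸ n.asIdeal

variable {q K}

noncomputable instance resFieldField (n : MaximalSpectrum (SemiLoc q K)) :
    Field (ResField q K n) :=
  Ideal.Quotient.field n.asIdeal

/-- the quotient map as an algebra hom -/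
noncomputable def toRes (n : MaximalSpectrum (SemiLoc q K)) :
    SemiLoc q K →ₐ[ℚ_[q]] ResField q K n :=
  Ideal.Quotient.mkₐ ℚ_[q] n.asIdeal

lemma toRes_surjective (n : MaximalSpectrum (SemiLoc q K)) :
    Function.Surjective (toRes n) :=
  Ideal.Quotient.mk_surjective

lemma toRes_eq_zero_iff (n : MaximalSpectrum (SemiLoc q K)) (x : SemiLoc q K) :
    toRes n x = 0 ↔ x ∈ n.asIdeal :=
  Ideal.Quotient.eq_zero_iff_mem

/-- the absolute value at `n` -/
noncomputable def wv (n : MaximalSpectrum (SemiLoc q K)) (x : SemiLoc q K) : ℝ :=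
  spectralNorm ℚ_[q] (ResField q K n) (toRes n x)

lemma wv_nonneg (n : MaximalSpectrum (SemiLoc q K)) (x : SemiLoc q K) : 0 ≤ wv n x :=
  spectralNorm_nonneg _

lemma wv_mul (n : MaximalSpectrum (SemiLoc q K)) (x y : SemiLoc q K) :
    wv n (x * y) = wv n x * wv n y := by
  unfold wv
  rw [map_mul]
  exact spectralAlgNorm_mul (K := ℚ_[q]) (L := ResField q K n) _ _

lemma wv_add_le (n : MaximalSpectrum (SemiLoc q K)) (x y : SemiLoc q K) :
    wv n (x + y) ≤ max (wv n x) (wv n y) := by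
  unfold wv
  rw [map_add]
  exact isNonarchimedean_spectralNorm (K := ℚ_[q]) (L := ResField q K n) _ _

lemma wv_algebraMap (n : MaximalSpectrum (SemiLoc q K)) (c : ℚ_[q]) :
    wv n (algebraMap ℚ_[q] (SemiLoc q K) c) = ‖c‖ := by
  unfold wv
  rw [AlgHom.commutes]
  exact spectralNorm_extends c

lemma wv_one (n : MaximalSpectrum (SemiLoc q K)) : wv n 1 = 1 := by
  unfold wv
  rw [map_one]
  exact spectralNorm_one

lemma wv_zero (n : MaximalSpectrum (SemiLoc q K)) : wv n 0 = 0 := by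
  unfold wv
  rw [map_zero]
  exact spectralNorm_zero

lemma wv_eq_zero_iff (n : MaximalSpectrum (SemiLoc q K)) (x : SemiLoc q K) :
    wv n x = 0 ↔ x ∈ n.asIdeal := by
  rw [← toRes_eq_zero_iff]
  unfold wv
  constructor
  · intro h
    exact eq_zero_of_map_spectralNorm_eq_zero h (Algebra.IsAlgebraic.isAlgebraic _)
  · intro h
    rw [h]
    exact spectralNorm_zero

lemma wv_smul (n : MaximalSpectrum (SemiLoc q K)) (c : ℚ_[q]) (x : SemiLoc q K) :
    wv n (c • x) = ‖c‖ * wv n x := by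
  rw [Algebra.smul_def, wv_mul, wv_algebraMap]

lemma wv_neg (n : MaximalSpectrum (SemiLoc q K)) (x : SemiLoc q K) :
    wv n (-x) = wv n x := by
  have : -x = (-1 : ℚ_[q]) • x := by simp
  rw [this, wv_smul, norm_neg, norm_one, one_mul]

lemma wv_sub_le (n : MaximalSpectrum (SemiLoc q K)) (x y : SemiLoc q K) :
    wv n (x - y) ≤ max (wv n x) (wv n y) := by
  rw [sub_eq_add_neg]
  exact (wv_add_le n x (-y)).trans (by rw [wv_neg])

lemma wv_natCast_q (n : MaximalSpectrum (SemiLoc q K)) :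
    wv n ((q : ℕ) : SemiLoc q K) = (q : ℝ)⁻¹ := by
  have h : ((q : ℕ) : SemiLoc q K) = algebraMap ℚ_[q] (SemiLoc q K) (q : ℚ_[q]) := by
    rw [map_natCast]
  rw [h, wv_algebraMap]
  exact Padic.norm_p

lemma wv_natCast_q_lt_one (n : MaximalSpectrum (SemiLoc q K)) :
    wv n ((q : ℕ) : SemiLoc q K) < 1 := by
  rw [wv_natCast_q]
  have : (1 : ℝ) < q := by exact_mod_cast (Fact.out : q.Prime).one_lt
  exact inv_lt_one_of_one_lt₀ this

variable (q K)

/-- the diagonal embedding `K → ℚ_q ⊗ K` -/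
noncomputable def jK : K →+* SemiLoc q K :=
  ((Algebra.TensorProduct.includeRight : K →ₐ[ℚ] SemiLoc q K) : K →+* SemiLoc q K)

/-- the diagonal embedding `𝓞 K → ℚ_q ⊗ K` -/
noncomputable def jInt : 𝓞 K →+* SemiLoc q K :=
  (jK q K).comp (algebraMap (𝓞 K) K)

variable {q K}

lemma jK_apply (x : K) : jK q K x = 1 ⊗ₜ[ℚ] x := rfl

lemma jInt_apply (a : 𝓞 K) : jInt q K a = jK q K (a : K) := rfl

lemma wv_jK_le_one (n : MaximalSpectrum (SemiLoc q K)) {x : K} (hx : IsIntegral ℤ x) :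
    wv n (jK q K x) ≤ 1 := by
  obtain ⟨f, hf, hfx⟩ := hx
  have hmonic : (f.map (algebraMap ℤ ℚ_[q])).Monic := hf.map _
  have hroot : Polynomial.aeval (toRes n (jK q K x)) (f.map (algebraMap ℤ ℚ_[q])) = 0 := by
    rw [Polynomial.aeval_def, Polynomial.eval₂_map]
    have h1 : (algebraMap ℚ_[q] (ResField q K n)).comp (algebraMap ℤ ℚ_[q]) =
        (((toRes n : SemiLoc q K →+* ResField q K n).comp (jK q K)).comp (algebraMap ℤ K)) :=
      RingHom.ext_int _ _
    rw [h1]
    have h3 := Polynomial.hom_eval₂ f (algebraMap ℤ K)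
      ((toRes n : SemiLoc q K →+* ResField q K n).comp (jK q K)) x
    rw [hfx, map_zero] at h3
    exact h3.symm
  have h2 : spectralAlgNorm ℚ_[q] (ResField q K n) (toRes n (jK q K x)) ≤
      spectralValue (f.map (algebraMap ℤ ℚ_[q])) :=
    norm_root_le_spectralValue spectralAlgNorm_isPowMul isNonarchimedean_spectralNorm hmonic hroot
  refine h2.trans ((spectralValue_le_one_iff hmonic).mpr fun i => ?_)
  rw [Polynomial.coeff_map]
  exact Padic.norm_int_le_one _

lemma wv_jInt_le_one (n : MaximalSpectrum (SemiLoc q K)) (a : 𝓞 K) :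
    wv n (jInt q K a) ≤ 1 :=
  wv_jK_le_one n a.isIntegral_coe

lemma jInt_natCast (m : ℕ) : jInt q K (m : 𝓞 K) = (m : SemiLoc q K) := map_natCast _ m

/-- the prime of `𝓞 K` below a maximal ideal of `ℚ_q ⊗ K` -/
noncomputable def primeIdeal (n : MaximalSpectrum (SemiLoc q K)) : Ideal (𝓞 K) where
  carrier := {a | wv n (jInt q K a) < 1}
  add_mem' := by
    intro a b ha hb
    simp only [Set.mem_ofPred_eq, map_add] at ha hb ⊢
    exact (wv_add_le n _ _).trans_lt (max_lt ha hb)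
  zero_mem' := by
    simp only [Set.mem_ofPred_eq, map_zero, wv_zero]
    exact zero_lt_one
  smul_mem' := by
    intro c a ha
    simp only [Set.mem_ofPred_eq, smul_eq_mul, map_mul, wv_mul] at ha ⊢
    calc wv n (jInt q K c) * wv n (jInt q K a) ≤ 1 * wv n (jInt q K a) :=
          mul_le_mul_of_nonneg_right (wv_jInt_le_one n c) (wv_nonneg n _)
      _ < 1 := by rwa [one_mul]

lemma mem_primeIdeal (n : MaximalSpectrum (SemiLoc q K)) (a : 𝓞 K) :
    a ∈ primeIdeal n ↔ wv n (jInt q K a) < 1 := Iff.rfl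

lemma notMem_primeIdeal (n : MaximalSpectrum (SemiLoc q K)) (a : 𝓞 K) :
    a ∉ primeIdeal n ↔ wv n (jInt q K a) = 1 := by
  rw [mem_primeIdeal, not_lt]
  exact ⟨fun h => le_antisymm (wv_jInt_le_one n a) h, fun h => h.ge⟩

lemma natCast_q_mem_primeIdeal (n : MaximalSpectrum (SemiLoc q K)) :
    ((q : ℕ) : 𝓞 K) ∈ primeIdeal n := by
  rw [mem_primeIdeal, jInt_natCast]
  exact wv_natCast_q_lt_one n

instance primeIdeal_isPrime (n : MaximalSpectrum (SemiLoc q K)) : (primeIdeal n).IsPrime := by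
  refine ⟨?_, ?_⟩
  · intro h
    have : (1 : 𝓞 K) ∈ primeIdeal n := by rw [h]; trivial
    rw [mem_primeIdeal, map_one, wv_one] at this
    exact lt_irrefl _ this
  · intro a b hab
    by_contra hcon
    push Not at hcon
    rw [notMem_primeIdeal, notMem_primeIdeal] at hcon
    rw [mem_primeIdeal, map_mul, wv_mul, hcon.1, hcon.2, one_mul] at hab
    exact lt_irrefl _ hab

lemma primeIdeal_ne_bot (n : MaximalSpectrum (SemiLoc q K)) : primeIdeal n ≠ ⊥ := by
  intro h
  have h1 := natCast_q_mem_primeIdeal n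
  rw [h, Ideal.mem_bot] at h1
  have : (q : ℕ) = 0 := by exact_mod_cast h1
  exact (Fact.out : q.Prime).ne_zero this

/-- the prime of `𝓞 K` below a maximal ideal of `ℚ_q ⊗ K`, as a height one prime -/
noncomputable def primeOf (n : MaximalSpectrum (SemiLoc q K)) : HeightOneSpectrum (𝓞 K) :=
  ⟨primeIdeal n, primeIdeal_isPrime n, primeIdeal_ne_bot n⟩

lemma primeOf_asIdeal (n : MaximalSpectrum (SemiLoc q K)) :
    (primeOf n).asIdeal = primeIdeal n := rfl

lemma jK_smul_rat (r : ℚ) (k : K) : jK q K (r • k) = (r : ℚ_[q]) • jK q K k := by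
  rw [jK_apply, jK_apply, TensorProduct.tmul_smul, TensorProduct.smul_tmul',
    TensorProduct.smul_tmul' (r : ℚ_[q])]
  congr 1

lemma tmul_eq_smul_jK (c : ℚ_[q]) (k : K) : (c ⊗ₜ[ℚ] k : SemiLoc q K) = c • jK q K k := by
  rw [jK_apply, TensorProduct.smul_tmul', smul_eq_mul, mul_one]

/-- `K` is dense in `ℚ_q ⊗ K` -/
lemma exists_jK_approx (e : SemiLoc q K) {ε : ℝ} (hε : 0 < ε) :
    ∃ b : K, ∀ n : MaximalSpectrum (SemiLoc q K), wv n (e - jK q K b) < ε := by
  classical
  haveI : Fintype (MaximalSpectrum (SemiLoc q K)) := Fintype.ofFinite _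
  induction e using TensorProduct.induction_on with
  | zero =>
    refine ⟨0, fun n => ?_⟩
    rw [map_zero, sub_zero, wv_zero]
    exact hε
  | tmul c k =>
    set M : ℝ := ∑ n : MaximalSpectrum (SemiLoc q K), wv n (jK q K k) with hM
    have hM0 : 0 ≤ M := Finset.sum_nonneg fun n _ => wv_nonneg n _
    have hMn : ∀ n : MaximalSpectrum (SemiLoc q K), wv n (jK q K k) ≤ M := fun n =>
      Finset.single_le_sum (f := fun n => wv n (jK q K k)) (fun m _ => wv_nonneg m _)
        (Finset.mem_univ n)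
    have hδ : 0 < ε / (M + 1) := div_pos hε (by linarith)
    obtain ⟨r, hr⟩ := Padic.rat_dense q c hδ
    refine ⟨r • k, fun n => ?_⟩
    rw [jK_smul_rat, tmul_eq_smul_jK, ← sub_smul, wv_smul]
    calc ‖c - (r : ℚ_[q])‖ * wv n (jK q K k) ≤ ε / (M + 1) * M :=
          mul_le_mul hr.le (hMn n) (wv_nonneg n _) hδ.le
      _ < ε / (M + 1) * (M + 1) := by
          apply mul_lt_mul_of_pos_left _ hδ
          linarith
      _ = ε := by field_simp
  | add x y hx hy =>
    obtain ⟨bx, hbx⟩ := hx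
    obtain ⟨by', hby⟩ := hy
    refine ⟨bx + by', fun n => ?_⟩
    have : x + y - jK q K (bx + by') = (x - jK q K bx) + (y - jK q K by') := by
      rw [map_add]; ring
    rw [this]
    exact (wv_add_le n _ _).trans_lt (max_lt (hbx n) (hby n))

lemma wv_eq_one_of_sub_lt (n : MaximalSpectrum (SemiLoc q K)) {x : SemiLoc q K}
    (h : wv n (x - 1) < 1) : wv n x = 1 := by
  apply le_antisymm
  · have : x = (x - 1) + 1 := by ring
    rw [this]
    exact (wv_add_le n _ _).trans (max_le h.le (wv_one n).le)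
  · by_contra hlt
    push Not at hlt
    have h1 : wv n (x - (x - 1)) ≤ max (wv n x) (wv n (x - 1)) := wv_sub_le n _ _
    rw [sub_sub_cancel, wv_one] at h1
    exact absurd h1 (not_le.mpr (max_lt hlt h))

lemma wv_jK_algebraMap (n : MaximalSpectrum (SemiLoc q K)) (a : 𝓞 K) :
    wv n (jK q K (algebraMap (𝓞 K) K a)) = wv n (jInt q K a) := rfl

theorem primeOf_injective :
    Function.Injective (primeOf : MaximalSpectrum (SemiLoc q K) → HeightOneSpectrum (𝓞 K)) := by
  classical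
  intro n n' hnn
  by_contra hne
  have hI : primeIdeal n = primeIdeal n' := congrArg HeightOneSpectrum.asIdeal hnn
  obtain ⟨e, he⟩ := Fermat.Agent.S55.helper97.exists_forall_sub_mem
    (fun m : MaximalSpectrum (SemiLoc q K) => if m = n then (1 : SemiLoc q K) else 0)
  have he1 : e - 1 ∈ n.asIdeal := by simpa using he n
  have he2 : e ∈ n'.asIdeal := by
    have := he n'
    rwa [if_neg (Ne.symm hne), sub_zero] at this
  obtain ⟨b, hb⟩ := exists_jK_approx e (zero_lt_one' ℝ)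
  have hb1 : wv n (jK q K b) = 1 := by
    apply wv_eq_one_of_sub_lt
    have : jK q K b - 1 = (e - 1) - (e - jK q K b) := by ring
    rw [this]
    refine (wv_sub_le n _ _).trans_lt (max_lt ?_ (hb n))
    rw [(wv_eq_zero_iff n _).mpr he1]
    exact zero_lt_one
  have hb2 : wv n' (jK q K b) < 1 := by
    have : jK q K b = e - (e - jK q K b) := by ring
    rw [this]
    refine (wv_sub_le n' _ _).trans_lt (max_lt ?_ (hb n'))
    rw [(wv_eq_zero_iff n' _).mpr he2]
    exact zero_lt_one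
  obtain ⟨a, d, h | h⟩ := (primeOf n).exists_primeCompl_mul_eq_or_mul_eq (K := K) b
  · have hd : (d : 𝓞 K) ∉ primeIdeal n := d.2
    have hd' : (d : 𝓞 K) ∉ primeIdeal n' := hI ▸ hd
    rw [notMem_primeIdeal] at hd hd'
    have h1 : wv n (jK q K b) * wv n (jInt q K d) = wv n (jInt q K a) := by
      rw [← wv_jK_algebraMap, ← wv_jK_algebraMap, ← wv_mul, ← map_mul, h]
    have h2 : wv n' (jK q K b) * wv n' (jInt q K d) = wv n' (jInt q K a) := by
      rw [← wv_jK_algebraMap, ← wv_jK_algebraMap, ← wv_mul, ← map_mul, h]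
    rw [hb1, hd, one_mul] at h1
    rw [hd', mul_one] at h2
    have ha : a ∈ primeIdeal n' := by rw [mem_primeIdeal, ← h2]; exact hb2
    have ha' : a ∉ primeIdeal n := by rw [notMem_primeIdeal, ← h1]
    exact ha' (hI ▸ ha)
  · have hd : (d : 𝓞 K) ∉ primeIdeal n := d.2
    have hd' : (d : 𝓞 K) ∉ primeIdeal n' := hI ▸ hd
    rw [notMem_primeIdeal] at hd'
    have h2 : wv n' (jK q K b) * wv n' (jInt q K a) = wv n' (jInt q K d) := by
      rw [← wv_jK_algebraMap, ← wv_jK_algebraMap, ← wv_mul, ← map_mul, h]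
    rw [hd'] at h2
    have : wv n' (jK q K b) * wv n' (jInt q K a) < 1 := by
      calc wv n' (jK q K b) * wv n' (jInt q K a) ≤ wv n' (jK q K b) * 1 :=
            mul_le_mul_of_nonneg_left (wv_jInt_le_one n' a) (wv_nonneg n' _)
        _ < 1 := by rwa [mul_one]
    rw [h2] at this
    exact lt_irrefl _ this

end Res

section Surj

variable (q : ℕ) [Fact q.Prime] (K : Type*) [Field K] [NumberField K]

/-- the natural map `ℤ_q ⊗ 𝓞 K → ℚ_q ⊗ K` -/
noncomputable def phiInt : ℤ_[q] ⊗[ℤ] (𝓞 K) →ₐ[ℤ_[q]] SemiLoc q K :=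
  Algebra.TensorProduct.lift (Algebra.ofId ℤ_[q] (SemiLoc q K)) ((jInt q K).toIntAlgHom)
    (fun _ _ => Commute.all _ _)

variable {q K}

lemma phiInt_tmul (c : ℤ_[q]) (a : 𝓞 K) :
    phiInt q K (c ⊗ₜ[ℤ] a) = algebraMap ℤ_[q] (SemiLoc q K) c * jInt q K a := by
  simp [phiInt, Algebra.ofId_apply]

lemma phiInt_one_tmul (a : 𝓞 K) : phiInt q K (1 ⊗ₜ[ℤ] a) = jInt q K a := by
  rw [phiInt_tmul, map_one, one_mul]

lemma phiInt_injective : Function.Injective (phiInt q K) := by
  classical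
  rw [injective_iff_map_eq_zero]
  intro x hx
  set b₁ := Algebra.TensorProduct.basis ℤ_[q] (NumberField.RingOfIntegers.basis K) with hb₁
  set b₂ := Algebra.TensorProduct.basis ℚ_[q] (NumberField.integralBasis K) with hb₂
  have hb : ∀ i, phiInt q K (b₁ i) = b₂ i := by
    intro i
    rw [hb₁, hb₂, Algebra.TensorProduct.basis_apply, Algebra.TensorProduct.basis_apply,
      phiInt_one_tmul, NumberField.integralBasis_apply]
    rfl
  have hx' : x = ∑ i, b₁.repr x i • b₁ i := (b₁.sum_repr x).symm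
  rw [hx', map_sum] at hx
  have h2 : ∑ i, (algebraMap ℤ_[q] ℚ_[q] (b₁.repr x i)) • b₂ i = 0 := by
    rw [← hx]
    refine Finset.sum_congr rfl fun i _ => ?_
    rw [map_smul, hb, algebraMap_smul]
  have h3 := Fintype.linearIndependent_iff.mp b₂.linearIndependent _ h2
  have h4 : ∀ i, b₁.repr x i = 0 := fun i => by
    have := h3 i
    exact (FaithfulSMul.algebraMap_injective ℤ_[q] ℚ_[q]) (by rw [this, map_zero])
  rw [hx']
  exact Finset.sum_eq_zero fun i _ => by rw [h4 i, zero_smul]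

omit [NumberField K] in
lemma charP_quot (P : HeightOneSpectrum (𝓞 K)) (hP : ((q : ℕ) : 𝓞 K) ∈ P.asIdeal) :
    CharP (𝓞 K ⧸ P.asIdeal) q := by
  haveI := P.isPrime
  rw [CharP.charP_iff_prime_eq_zero (Fact.out : q.Prime)]
  rw [← map_natCast (Ideal.Quotient.mk P.asIdeal)]
  exact Ideal.Quotient.eq_zero_iff_mem.mpr hP

/-- the reduction map `ℤ_q → 𝓞 K / P` at a prime over `q` -/
noncomputable def rhoInt (P : HeightOneSpectrum (𝓞 K)) (hP : ((q : ℕ) : 𝓞 K) ∈ P.asIdeal) :
    ℤ_[q] →+* 𝓞 K ⧸ P.asIdeal :=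
  haveI := charP_quot P hP
  (ZMod.castHom (dvd_refl q) (𝓞 K ⧸ P.asIdeal)).comp PadicInt.toZMod

/-- the reduction map `ℤ_q ⊗ 𝓞 K → 𝓞 K / P` at a prime over `q` -/
noncomputable def psiInt (P : HeightOneSpectrum (𝓞 K)) (hP : ((q : ℕ) : 𝓞 K) ∈ P.asIdeal) :
    ℤ_[q] ⊗[ℤ] (𝓞 K) →+* 𝓞 K ⧸ P.asIdeal :=
  (Algebra.TensorProduct.lift (R := ℤ) (S := ℤ) (rhoInt P hP).toIntAlgHom
    ((Ideal.Quotient.mk P.asIdeal).toIntAlgHom) (fun _ _ => Commute.all _ _)).toRingHom

lemma psiInt_tmul (P : HeightOneSpectrum (𝓞 K)) (hP : ((q : ℕ) : 𝓞 K) ∈ P.asIdeal)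
    (c : ℤ_[q]) (a : 𝓞 K) :
    psiInt P hP (c ⊗ₜ[ℤ] a) = rhoInt P hP c * Ideal.Quotient.mk P.asIdeal a := by
  unfold psiInt
  refine (Algebra.TensorProduct.lift_tmul _ _ _ _ _).trans ?_
  rfl

lemma psiInt_one_tmul (P : HeightOneSpectrum (𝓞 K)) (hP : ((q : ℕ) : 𝓞 K) ∈ P.asIdeal)
    (a : 𝓞 K) : psiInt P hP (1 ⊗ₜ[ℤ] a) = Ideal.Quotient.mk P.asIdeal a := by
  rw [psiInt_tmul, map_one, one_mul]

lemma psiInt_algebraMap_ne_zero (P : HeightOneSpectrum (𝓞 K))
    (hP : ((q : ℕ) : 𝓞 K) ∈ P.asIdeal) {c : ℤ_[q]} (hc : IsUnit c) :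
    psiInt P hP (algebraMap ℤ_[q] (ℤ_[q] ⊗[ℤ] (𝓞 K)) c) ≠ 0 := by
  haveI := P.isPrime
  have h1 : IsUnit (algebraMap ℤ_[q] (ℤ_[q] ⊗[ℤ] (𝓞 K)) c) := hc.map _
  exact (h1.map (psiInt P hP)).ne_zero

lemma psiInt_ker_isPrime (P : HeightOneSpectrum (𝓞 K)) (hP : ((q : ℕ) : 𝓞 K) ∈ P.asIdeal) :
    (RingHom.ker (psiInt P hP)).IsPrime := by
  haveI := P.isPrime
  exact RingHom.ker_isPrime _

lemma norm_coeff_zero_minpoly (n : MaximalSpectrum (SemiLoc q K)) (x : ResField q K n) :
    ‖(minpoly ℚ_[q] x).coeff 0‖ =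
      spectralNorm ℚ_[q] (ResField q K n) x ^ (minpoly ℚ_[q] x).natDegree := by
  have hx : IsIntegral ℚ_[q] x := Algebra.IsIntegral.isIntegral x
  have hd : (minpoly ℚ_[q] x).natDegree ≠ 0 := (minpoly.natDegree_pos hx).ne'
  rw [spectralNorm.spectralNorm_eq_norm_coeff_zero_rpow, one_div,
    Real.rpow_inv_natCast_pow (norm_nonneg _) hd]

/-- there is a maximal ideal of `ℚ_q ⊗ K` whose trace on `ℤ_q ⊗ 𝓞 K` lies in the kernel of the
reduction map at `P` -/
lemma exists_comap_le_ker (P : HeightOneSpectrum (𝓞 K)) (hP : ((q : ℕ) : 𝓞 K) ∈ P.asIdeal) :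
    ∃ n : MaximalSpectrum (SemiLoc q K), ∀ z : ℤ_[q] ⊗[ℤ] (𝓞 K),
      phiInt q K z ∈ n.asIdeal → psiInt P hP z = 0 := by
  classical
  haveI : Fintype (MaximalSpectrum (SemiLoc q K)) := Fintype.ofFinite _
  haveI := P.isPrime
  by_contra hcon
  push Not at hcon
  choose y hy hy0 using hcon
  have h0 : phiInt q K (∏ n, y n) = 0 := by
    apply Fermat.Agent.S55.helper97.eq_of_forall_sub_mem
    intro m
    rw [sub_zero, map_prod]
    exact Ideal.prod_mem _ (Finset.mem_univ m) (hy m)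
  have h1 : ∏ n, y n = 0 := phiInt_injective (by rw [h0, map_zero])
  have h2 : ∏ n, psiInt P hP (y n) = 0 := by rw [← map_prod, h1, map_zero]
  obtain ⟨n, -, hn⟩ := Finset.prod_eq_zero_iff.mp h2
  exact hy0 n hn

/-- every prime of `𝓞 K` over `q` comes from a maximal ideal of `ℚ_q ⊗ K` -/
theorem exists_primeOf_eq (P : HeightOneSpectrum (𝓞 K)) (hP : ((q : ℕ) : 𝓞 K) ∈ P.asIdeal) :
    ∃ n : MaximalSpectrum (SemiLoc q K), primeOf n = P := by
  classical
  obtain ⟨n, hn⟩ := exists_comap_le_ker P hP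
  refine ⟨n, ?_⟩
  have hle : P.asIdeal ≤ primeIdeal n := by
    intro a ha
    by_contra hna
    rw [notMem_primeIdeal] at hna
    set x : ResField q K n := toRes n (jInt q K a) with hx
    have hxint : IsIntegral ℚ_[q] x := Algebra.IsIntegral.isIntegral x
    have hmonic := minpoly.monic hxint
    have hsn : spectralNorm ℚ_[q] (ResField q K n) x = 1 := hna
    have hcoeff : ∀ i, ‖(minpoly ℚ_[q] x).coeff i‖ ≤ 1 :=
      (spectralValue_le_one_iff hmonic).mp hsn.le
    have hlift : minpoly ℚ_[q] x ∈ Polynomial.lifts (algebraMap ℤ_[q] ℚ_[q]) := by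
      rw [Polynomial.lifts_iff_coeff_lifts]
      intro i
      exact ⟨⟨(minpoly ℚ_[q] x).coeff i, hcoeff i⟩, rfl⟩
    obtain ⟨f', hf', -, -⟩ := Polynomial.lifts_and_degree_eq_and_monic hlift hmonic
    have hc0 : IsUnit (f'.coeff 0) := by
      rw [PadicInt.isUnit_iff]
      have h1 : ((f'.coeff 0 : ℤ_[q]) : ℚ_[q]) = (minpoly ℚ_[q] x).coeff 0 := by
        rw [← hf', Polynomial.coeff_map]
        rfl
      rw [← PadicInt.padic_norm_e_of_padicInt, h1, norm_coeff_zero_minpoly, hsn, one_pow]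
    set z : ℤ_[q] ⊗[ℤ] (𝓞 K) := Polynomial.aeval (1 ⊗ₜ[ℤ] a : ℤ_[q] ⊗[ℤ] (𝓞 K)) f' with hz
    have hz1 : phiInt q K z ∈ n.asIdeal := by
      rw [← toRes_eq_zero_iff, hz, ← Polynomial.aeval_algHom_apply, phiInt_one_tmul]
      have h2 : toRes n (Polynomial.aeval (jInt q K a) f') = Polynomial.aeval x f' := by
        rw [hx]
        exact (Polynomial.aeval_algHom_apply ((toRes n).restrictScalars ℤ_[q]) (jInt q K a) f').symm
      rw [h2, Polynomial.aeval_def, IsScalarTower.algebraMap_eq ℤ_[q] ℚ_[q] (ResField q K n),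
        ← Polynomial.eval₂_map, hf', ← Polynomial.aeval_def, minpoly.aeval]
    have hz2 := hn z hz1
    have hz3 : psiInt P hP z = psiInt P hP (algebraMap ℤ_[q] (ℤ_[q] ⊗[ℤ] (𝓞 K)) (f'.coeff 0)) := by
      rw [hz, Polynomial.aeval_def, Polynomial.hom_eval₂, psiInt_one_tmul,
        Ideal.Quotient.eq_zero_iff_mem.mpr ha, Polynomial.eval₂_at_zero]
      rfl
    exact psiInt_algebraMap_ne_zero P hP hc0 (hz3 ▸ hz2)
  apply HeightOneSpectrum.ext
  exact (Ideal.IsMaximal.eq_of_le P.isMaximal (primeIdeal_isPrime n).ne_top hle).symm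

/-- the bijection between the maximal ideals of `ℚ_q ⊗ K` and the primes of `𝓞 K` over `q` -/
noncomputable def primesOverEquiv :
    MaximalSpectrum (SemiLoc q K) ≃
      {P : HeightOneSpectrum (𝓞 K) // ((q : ℕ) : 𝓞 K) ∈ P.asIdeal} :=
  Equiv.ofBijective (fun n => ⟨primeOf n, natCast_q_mem_primeIdeal n⟩)
    ⟨fun _ _ h => primeOf_injective (congrArg Subtype.val h),
      fun P => by
        obtain ⟨n, hn⟩ := exists_primeOf_eq P.1 P.2
        exact ⟨n, Subtype.ext hn⟩⟩

@[simp]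
lemma primesOverEquiv_apply (n : MaximalSpectrum (SemiLoc q K)) :
    ((primesOverEquiv n : {P : HeightOneSpectrum (𝓞 K) // ((q : ℕ) : 𝓞 K) ∈ P.asIdeal}) :
      HeightOneSpectrum (𝓞 K)) = primeOf n := rfl

variable (q K)

/-- the number of maximal ideals of `ℚ_q ⊗ K` is the number of primes of `𝓞 K` over `q` -/
theorem card_maximalSpectrum_semiLoc :
    Nat.card (MaximalSpectrum (SemiLoc q K)) =
      Nat.card {P : HeightOneSpectrum (𝓞 K) // ((q : ℕ) : 𝓞 K) ∈ P.asIdeal} :=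
  Nat.card_congr primesOverEquiv

end Surj

end Fermat.Agent.S55.helper64
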