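import Mathlib
import Fermat.Agent.S55.Defs

/-!
# S55 module A: cochain-level toolkit for maps of coefficients (helper65)

Post-composition of (cone) cochains with linear maps, compatibility with the differentials for
equivariant maps, level-constancy, `d ∘ d = 0` for the cone, and the two Leibniz rules
`(0,2)` and `(1,1)` for the cone cup products of `Fermat.Agent.S55.Defs`.
-/

set_option autoImplicit false

universe u

open groupCohomology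

noncomputable section

namespace Fermat.Agent.S55.helper65

open Fermat.Agent.S55

variable {k G : Type u} [Field k] [Group G]

/-- A `k`-linear map between representations is equivariant. -/
def IsEqv {A B : Rep.{u} k G} (f : A →ₗ[k] B) : Prop :=
  ∀ (g : G) (a : A), f (A.ρ g a) = B.ρ g (f a)

section Map

variable {𝒩 : Levels G} {ι : Type} (L : LocalData G 𝒩 ι) {A B : Rep.{u} k G}

/-- post-composition on cone `1`-cochains -/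
def mapc₁ (f : A →ₗ[k] B) : CcAmb1 L A →ₗ[k] CcAmb1 L B where
  toFun y := (fun g => f (y.1 g), fun v => f (y.2 v))
  map_add' y z := by
    refine Prod.ext ?_ ?_
    · funext g; exact map_add f _ _
    · funext v; exact map_add f _ _
  map_smul' c y := by
    refine Prod.ext ?_ ?_
    · funext g; exact map_smul f _ _
    · funext v; exact map_smul f _ _

/-- post-composition on cone `2`-cochains -/
def mapc₂ (f : A →ₗ[k] B) : CcAmb2 L A →ₗ[k] CcAmb2 L B where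
  toFun y := (fun g => f (y.1 g), fun v s => f (y.2 v s))
  map_add' y z := by
    refine Prod.ext ?_ ?_
    · funext g; exact map_add f _ _
    · funext v s; exact map_add f _ _
  map_smul' c y := by
    refine Prod.ext ?_ ?_
    · funext g; exact map_smul f _ _
    · funext v s; exact map_smul f _ _

/-- post-composition on cone `3`-cochains -/
def mapc₃ (f : A →ₗ[k] B) : CcAmb3 L A →ₗ[k] CcAmb3 L B where
  toFun y := (fun g => f (y.1 g), fun v s => f (y.2 v s))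
  map_add' y z := by
    refine Prod.ext ?_ ?_
    · funext g; exact map_add f _ _
    · funext v s; exact map_add f _ _
  map_smul' c y := by
    refine Prod.ext ?_ ?_
    · funext g; exact map_smul f _ _
    · funext v s; exact map_smul f _ _

/-- post-composition on cone `4`-cochains -/
def mapc₄ (f : A →ₗ[k] B) : CcAmb4 L A →ₗ[k] CcAmb4 L B where
  toFun y := (fun g => f (y.1 g), fun v s => f (y.2 v s))
  map_add' y z := by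
    refine Prod.ext ?_ ?_
    · funext g; exact map_add f _ _
    · funext v s; exact map_add f _ _
  map_smul' c y := by
    refine Prod.ext ?_ ?_
    · funext g; exact map_smul f _ _
    · funext v s; exact map_smul f _ _

@[simp] lemma mapc₁_fst (f : A →ₗ[k] B) (y : CcAmb1 L A) (g : G) :
    (mapc₁ L f y).1 g = f (y.1 g) := rfl
@[simp] lemma mapc₁_snd (f : A →ₗ[k] B) (y : CcAmb1 L A) (v : ι) :
    (mapc₁ L f y).2 v = f (y.2 v) := rfl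
@[simp] lemma mapc₂_fst (f : A →ₗ[k] B) (y : CcAmb2 L A) (g : G × G) :
    (mapc₂ L f y).1 g = f (y.1 g) := rfl
@[simp] lemma mapc₂_snd (f : A →ₗ[k] B) (y : CcAmb2 L A) (v : ι) (s : L.Gv v) :
    (mapc₂ L f y).2 v s = f (y.2 v s) := rfl
@[simp] lemma mapc₃_fst (f : A →ₗ[k] B) (y : CcAmb3 L A) (g : G × G × G) :
    (mapc₃ L f y).1 g = f (y.1 g) := rfl
@[simp] lemma mapc₃_snd (f : A →ₗ[k] B) (y : CcAmb3 L A) (v : ι) (s : L.Gv v × L.Gv v) :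
    (mapc₃ L f y).2 v s = f (y.2 v s) := rfl

end Map


/-! ## Plain cochains: compatibility of the differentials with equivariant maps -/

section Plain

variable {A B : Rep.{u} k G}

lemma d01_map {f : A →ₗ[k] B} (hf : IsEqv f) (a : A) :
    (d₀₁ B).hom (f a) = fun g => f ((d₀₁ A).hom a g) := by
  funext g
  simp only [d₀₁_hom_apply, map_sub, hf g a]

lemma d12_map {f : A →ₗ[k] B} (hf : IsEqv f) (x : G → A) :
    (d₁₂ B).hom (fun g => f (x g)) = fun g => f ((d₁₂ A).hom x g) := by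
  have hf' : ∀ (g : G) (a : A), f (A.ρ g a) = B.ρ g (f a) := hf
  funext g
  simp only [d₁₂_hom_apply, map_sub, map_add, hf']

lemma d23_map {f : A →ₗ[k] B} (hf : IsEqv f) (x : G × G → A) :
    (d₂₃ B).hom (fun g => f (x g)) = fun g => f ((d₂₃ A).hom x g) := by
  have hf' : ∀ (g : G) (a : A), f (A.ρ g a) = B.ρ g (f a) := hf
  funext g
  simp only [d₂₃_hom_apply, map_sub, map_add, hf']

lemma d34_map {f : A →ₗ[k] B} (hf : IsEqv f) (x : G × G × G → A) :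
    d₃₄ B (fun g => f (x g)) = fun g => f (d₃₄ A x g) := by
  have hf' : ∀ (g : G) (a : A), f (A.ρ g a) = B.ρ g (f a) := hf
  funext ⟨g₁, g₂, g₃, g₄⟩
  simp only [d₃₄_apply, map_sub, map_add, hf']

lemma d12_d01 (a : A) : (d₁₂ A).hom ((d₀₁ A).hom a) = 0 :=
  d₀₁_comp_d₁₂_apply A a

lemma d23_d12 (x : G → A) : (d₂₃ A).hom ((d₁₂ A).hom x) = 0 :=
  d₁₂_comp_d₂₃_apply A x

lemma d34_d23 (x : G × G → A) : d₃₄ A ((d₂₃ A).hom x) = 0 := by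
  funext ⟨g₁, g₂, g₃, g₄⟩
  simp only [d₃₄_apply, d₂₃_hom_apply, map_sub, map_add, Pi.zero_apply, mul_assoc,
    ← Module.End.mul_apply, ← map_mul]
  abel

end Plain


/-! ## Level constancy -/

section Level

variable {𝒩 : Levels G} {A B : Rep.{u} k G}

lemma exists_level_le {N₁ N₂ : Subgroup G} (h₁ : N₁ ∈ 𝒩.mem) (h₂ : N₂ ∈ 𝒩.mem) :
    ∃ N ∈ 𝒩.mem, N.Normal ∧ N ≤ N₁ ∧ N ≤ N₂ := by
  obtain ⟨N, hN, hle⟩ := 𝒩.directed N₁ h₁ N₂ h₂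
  exact ⟨N, hN, 𝒩.normal N hN, fun _ h => (hle h).1, fun _ h => (hle h).2⟩

lemma comp_mem_C1 {X : Type*} (f : A → X) {x : G → A} (hx : IsLev₁ 𝒩 x) :
    IsLev₁ 𝒩 (fun g => f (x g)) := by
  obtain ⟨N, hN, h⟩ := hx
  exact ⟨N, hN, fun g s hs => by simp only [h g s hs]⟩

lemma comp_mem_C2 {X : Type*} (f : A → X) {x : G × G → A} (hx : IsLev₂ 𝒩 x) :
    IsLev₂ 𝒩 (fun g => f (x g)) := by
  obtain ⟨N, hN, h⟩ := hx
  exact ⟨N, hN, fun g₁ g₂ s₁ hs₁ s₂ hs₂ => by simp only [h g₁ g₂ s₁ hs₁ s₂ hs₂]⟩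

lemma comp_mem_C3 {X : Type*} (f : A → X) {x : G × G × G → A} (hx : IsLev₃ 𝒩 x) :
    IsLev₃ 𝒩 (fun g => f (x g)) := by
  obtain ⟨N, hN, h⟩ := hx
  exact ⟨N, hN, fun g₁ g₂ g₃ s₁ hs₁ s₂ hs₂ s₃ hs₃ => by
    simp only [h g₁ g₂ g₃ s₁ hs₁ s₂ hs₂ s₃ hs₃]⟩

lemma of_comp_mem_C1 {X : Type*} {f : A → X} (hf : Function.Injective f) {x : G → A}
    (hx : IsLev₁ 𝒩 (fun g => f (x g))) : IsLev₁ 𝒩 x := by
  obtain ⟨N, hN, h⟩ := hx
  exact ⟨N, hN, fun g s hs => hf (h g s hs)⟩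

/-- moving a level element across a group element -/
lemma mul_level_mul {N : Subgroup G} (hN : N.Normal) (g h : G) {s t : G} (hs : s ∈ N)
    (ht : t ∈ N) : ∃ n ∈ N, g * s * (h * t) = g * h * n :=
  ⟨h⁻¹ * s * h * t, N.mul_mem (by simpa using hN.conj_mem s hs h⁻¹) ht, by group⟩

lemma d01_mem_C1 (hA : IsSmooth 𝒩 A) (a : A) : (d₀₁ A).hom a ∈ C1 𝒩 A := by
  obtain ⟨N, hN, h⟩ := hA
  refine ⟨N, hN, fun g s hs => ?_⟩
  simp only [d₀₁_hom_apply, map_mul, Module.End.mul_apply, h s hs a]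

lemma d12_mem_C2 (hA : IsSmooth 𝒩 A) {x : G → A} (hx : x ∈ C1 𝒩 A) :
    (d₁₂ A).hom x ∈ C2 𝒩 A := by
  obtain ⟨N₁, hN₁, h₁⟩ := hA
  obtain ⟨N₂, hN₂, h₂⟩ := hx
  obtain ⟨N, hN, hnorm, hle₁, hle₂⟩ := exists_level_le hN₁ hN₂
  refine ⟨N, hN, fun g₁ g₂ s₁ hs₁ s₂ hs₂ => ?_⟩
  obtain ⟨n, hn, e⟩ := mul_level_mul hnorm g₁ g₂ hs₁ hs₂
  simp only [d₁₂_hom_apply, map_mul, Module.End.mul_apply, e, h₂ _ _ (hle₂ hn),
    h₂ _ _ (hle₂ hs₁), h₂ _ _ (hle₂ hs₂), h₁ s₁ (hle₁ hs₁)]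

lemma d23_mem_C3 (hA : IsSmooth 𝒩 A) {x : G × G → A} (hx : x ∈ C2 𝒩 A) :
    (d₂₃ A).hom x ∈ C3 𝒩 A := by
  obtain ⟨N₁, hN₁, h₁⟩ := hA
  obtain ⟨N₂, hN₂, h₂⟩ := hx
  obtain ⟨N, hN, hnorm, hle₁, hle₂⟩ := exists_level_le hN₁ hN₂
  refine ⟨N, hN, fun g₁ g₂ g₃ s₁ hs₁ s₂ hs₂ s₃ hs₃ => ?_⟩
  obtain ⟨n, hn, e⟩ := mul_level_mul hnorm g₁ g₂ hs₁ hs₂
  obtain ⟨n', hn', e'⟩ := mul_level_mul hnorm g₂ g₃ hs₂ hs₃
  have one_mem : (1 : G) ∈ N₂ := N₂.one_mem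
  have a1 : x (g₂ * s₂, g₃ * s₃) = x (g₂, g₃) := h₂ _ _ _ (hle₂ hs₂) _ (hle₂ hs₃)
  have a2 : x (g₁ * s₁ * (g₂ * s₂), g₃ * s₃) = x (g₁ * g₂, g₃) := by
    rw [e]; exact h₂ _ _ _ (hle₂ hn) _ (hle₂ hs₃)
  have a3 : x (g₁ * s₁, g₂ * s₂ * (g₃ * s₃)) = x (g₁, g₂ * g₃) := by
    rw [e']; exact h₂ _ _ _ (hle₂ hs₁) _ (hle₂ hn')
  have a4 : x (g₁ * s₁, g₂ * s₂) = x (g₁, g₂) := h₂ _ _ _ (hle₂ hs₁) _ (hle₂ hs₂)
  simp only [d₂₃_hom_apply, map_mul, Module.End.mul_apply, a1, a2, a3, a4, h₁ s₁ (hle₁ hs₁)]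

lemma mem_Z1_iff (x : G → A) : x ∈ Z1 𝒩 A ↔ x ∈ C1 𝒩 A ∧ (d₁₂ A).hom x = 0 := by
  rw [Z1, Submodule.mem_inf, LinearMap.mem_ker]

lemma mem_Z2_iff (x : G × G → A) : x ∈ Z2 𝒩 A ↔ x ∈ C2 𝒩 A ∧ (d₂₃ A).hom x = 0 := by
  rw [Z2, Submodule.mem_inf, LinearMap.mem_ker]

lemma mem_B1_iff (x : G → A) : x ∈ B1 A ↔ ∃ a : A, (d₀₁ A).hom a = x := by
  rw [B1, LinearMap.mem_range]

lemma mem_B2_iff (x : G × G → A) : x ∈ B2 𝒩 A ↔ ∃ u ∈ C1 𝒩 A, (d₁₂ A).hom u = x := by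
  rw [B2, Submodule.mem_map]

lemma mem_H0_iff (a : A) : a ∈ H0 A ↔ (d₀₁ A).hom a = 0 := by
  rw [H0, ← d₀₁_ker_eq_invariants, LinearMap.mem_ker]

end Level


/-! ## Cone cochains -/

section ConeBasic

variable {𝒩 : Levels G} {ι : Type} (L : LocalData G 𝒩 ι) {A B : Rep.{u} k G}

lemma mem_Cc1_iff (y : CcAmb1 L A) : y ∈ Cc1 L A ↔ IsLev₁ 𝒩 y.1 := by
  simp only [Cc1, Submodule.mem_prod, Submodule.mem_top, and_true, mem_C1]

lemma mem_Cc2_iff (y : CcAmb2 L A) :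
    y ∈ Cc2 L A ↔ IsLev₂ 𝒩 y.1 ∧ ∀ v, IsLev₁ (L.lev v) (y.2 v) := by
  simp only [Cc2, Submodule.mem_prod, Submodule.mem_pi, Set.mem_univ, forall_true_left, mem_C2,
    mem_C1]

lemma mem_Cc3_iff (y : CcAmb3 L A) :
    y ∈ Cc3 L A ↔ IsLev₃ 𝒩 y.1 ∧ ∀ v, IsLev₂ (L.lev v) (y.2 v) := by
  simp only [Cc3, Submodule.mem_prod, Submodule.mem_pi, Set.mem_univ, forall_true_left, mem_C3,
    mem_C2]

lemma isSmooth_loc (hA : IsSmooth 𝒩 A) (v : ι) : IsSmooth (L.lev v) (L.loc A v) := by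
  obtain ⟨N, hN, h⟩ := hA
  obtain ⟨N', hN', hle⟩ := L.compat v N hN
  exact ⟨N', hN', fun s hs a => h (L.r v s) (hle hs) a⟩

lemma res₁_mem {x : G → A} (hx : IsLev₁ 𝒩 x) (v : ι) : IsLev₁ (L.lev v) (res₁ L A v x) := by
  obtain ⟨N, hN, h⟩ := hx
  obtain ⟨N', hN', hle⟩ := L.compat v N hN
  refine ⟨N', hN', fun g s hs => ?_⟩
  simp only [res₁_apply, map_mul]
  exact h _ _ (hle hs)

lemma res₂_mem {x : G × G → A} (hx : IsLev₂ 𝒩 x) (v : ι) :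
    IsLev₂ (L.lev v) (res₂ L A v x) := by
  obtain ⟨N, hN, h⟩ := hx
  obtain ⟨N', hN', hle⟩ := L.compat v N hN
  refine ⟨N', hN', fun g₁ g₂ s₁ hs₁ s₂ hs₂ => ?_⟩
  simp only [res₂_apply, map_mul]
  exact h _ _ _ (hle hs₁) _ (hle hs₂)

lemma mapc₁_mem (f : A →ₗ[k] B) {y : CcAmb1 L A} (hy : y ∈ Cc1 L A) :
    mapc₁ L f y ∈ Cc1 L B := by
  rw [mem_Cc1_iff] at hy ⊢
  exact comp_mem_C1 f hy

lemma mapc₂_mem (f : A →ₗ[k] B) {y : CcAmb2 L A} (hy : y ∈ Cc2 L A) :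
    mapc₂ L f y ∈ Cc2 L B := by
  rw [mem_Cc2_iff] at hy ⊢
  exact ⟨comp_mem_C2 f hy.1, fun v => comp_mem_C1 (A := L.loc A v) f (hy.2 v)⟩

lemma mapc₃_mem (f : A →ₗ[k] B) {y : CcAmb3 L A} (hy : y ∈ Cc3 L A) :
    mapc₃ L f y ∈ Cc3 L B := by
  rw [mem_Cc3_iff] at hy ⊢
  exact ⟨comp_mem_C3 f hy.1, fun v => comp_mem_C2 (A := L.loc A v) f (hy.2 v)⟩

lemma dc₁₂_mem (hA : IsSmooth 𝒩 A) {y : CcAmb1 L A} (hy : y ∈ Cc1 L A) :
    dc₁₂ L A y ∈ Cc2 L A := by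
  rw [mem_Cc1_iff] at hy
  rw [mem_Cc2_iff]
  refine ⟨d12_mem_C2 hA hy, fun v => ?_⟩
  exact (C1 (L.lev v) (L.loc A v)).sub_mem (res₁_mem L hy v)
    (d01_mem_C1 (isSmooth_loc L hA v) (y.2 v))

lemma dc₂₃_mem (hA : IsSmooth 𝒩 A) {y : CcAmb2 L A} (hy : y ∈ Cc2 L A) :
    dc₂₃ L A y ∈ Cc3 L A := by
  rw [mem_Cc2_iff] at hy
  rw [mem_Cc3_iff]
  refine ⟨d23_mem_C3 hA hy.1, fun v => ?_⟩
  exact (C2 (L.lev v) (L.loc A v)).sub_mem (res₂_mem L hy.1 v)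
    (d12_mem_C2 (isSmooth_loc L hA v) (hy.2 v))

lemma isEqv_loc {f : A →ₗ[k] B} (hf : IsEqv f) (v : ι) :
    IsEqv (A := L.loc A v) (B := L.loc B v) f :=
  fun s a => hf (L.r v s) a

lemma dc₁₂_map {f : A →ₗ[k] B} (hf : IsEqv f) (y : CcAmb1 L A) :
    dc₁₂ L B (mapc₁ L f y) = mapc₂ L f (dc₁₂ L A y) := by
  refine Prod.ext ?_ ?_
  · exact d12_map hf y.1
  · funext v s
    have h := congrFun (d01_map (isEqv_loc L hf v) (y.2 v)) s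
    simp only [dc₁₂, LinearMap.coe_mk, AddHom.coe_mk, mapc₁_fst, mapc₁_snd, mapc₂_snd,
      Pi.sub_apply, res₁_apply, map_sub]
    rw [h]

lemma dc₂₃_map {f : A →ₗ[k] B} (hf : IsEqv f) (y : CcAmb2 L A) :
    dc₂₃ L B (mapc₂ L f y) = mapc₃ L f (dc₂₃ L A y) := by
  refine Prod.ext ?_ ?_
  · exact d23_map hf y.1
  · funext v s
    have h := congrFun (d12_map (isEqv_loc L hf v) (y.2 v)) s
    simp only [dc₂₃, LinearMap.coe_mk, AddHom.coe_mk, mapc₃_snd,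
      Pi.sub_apply, map_sub]
    rw [← h]
    rfl

lemma dc₃₄_map {f : A →ₗ[k] B} (hf : IsEqv f) (y : CcAmb3 L A) :
    dc₃₄ L B (mapc₃ L f y) = mapc₄ L f (dc₃₄ L A y) := by
  refine Prod.ext ?_ ?_
  · exact d34_map hf y.1
  · funext v s
    have h := congrFun (d23_map (isEqv_loc L hf v) (y.2 v)) s
    simp only [dc₃₄, LinearMap.coe_mk, AddHom.coe_mk, mapc₄,
      Pi.sub_apply, map_sub]
    rw [← h]
    rfl

lemma res₂_d12 (x : G → A) (v : ι) :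
    res₂ L A v ((d₁₂ A).hom x) = (d₁₂ (L.loc A v)).hom (res₁ L A v x) := by
  funext ⟨s, t⟩
  simp only [res₂_apply, d₁₂_hom_apply, res₁_apply, map_mul]
  rfl

lemma res₃_d23 (x : G × G → A) (v : ι) :
    res₃ L A v ((d₂₃ A).hom x) = (d₂₃ (L.loc A v)).hom (res₂ L A v x) := by
  funext ⟨s, t, w⟩
  simp only [res₃_apply, d₂₃_hom_apply, res₂_apply, map_mul]
  rfl

lemma dc₂₃_dc₁₂ (y : CcAmb1 L A) : dc₂₃ L A (dc₁₂ L A y) = 0 := by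
  refine Prod.ext ?_ ?_
  · exact d23_d12 y.1
  · funext v
    show res₂ L A v ((d₁₂ A).hom y.1)
      - (d₁₂ (L.loc A v)).hom (res₁ L A v y.1 - (d₀₁ (L.loc A v)).hom (y.2 v)) = 0
    rw [map_sub, res₂_d12, d12_d01, sub_zero, sub_self]

lemma dc₃₄_dc₂₃ (y : CcAmb2 L A) : dc₃₄ L A (dc₂₃ L A y) = 0 := by
  refine Prod.ext ?_ ?_
  · exact d34_d23 y.1
  · funext v
    show res₃ L A v ((d₂₃ A).hom y.1)
      - (d₂₃ (L.loc A v)).hom (res₂ L A v y.1 - (d₁₂ (L.loc A v)).hom (y.2 v)) = 0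
    rw [map_sub, res₃_d23, d23_d12, sub_zero, sub_self]

lemma mem_Zc1_iff (y : CcAmb1 L A) : y ∈ Zc1 L A ↔ y ∈ Cc1 L A ∧ dc₁₂ L A y = 0 := by
  rw [Zc1, Submodule.mem_inf, LinearMap.mem_ker]

lemma mem_Zc2_iff (y : CcAmb2 L A) : y ∈ Zc2 L A ↔ y ∈ Cc2 L A ∧ dc₂₃ L A y = 0 := by
  rw [Zc2, Submodule.mem_inf, LinearMap.mem_ker]

lemma mem_Zc3_iff (y : CcAmb3 L A) : y ∈ Zc3 L A ↔ y ∈ Cc3 L A ∧ dc₃₄ L A y = 0 := by
  rw [Zc3, Submodule.mem_inf, LinearMap.mem_ker]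

lemma mem_Bc2_iff (y : CcAmb2 L A) : y ∈ Bc2 L A ↔ ∃ w ∈ Cc1 L A, dc₁₂ L A w = y := by
  rw [Bc2, Submodule.mem_map]

lemma mem_Bc3_iff (y : CcAmb3 L A) : y ∈ Bc3 L A ↔ ∃ w ∈ Cc2 L A, dc₂₃ L A w = y := by
  rw [Bc3, Submodule.mem_map]

end ConeBasic

end Fermat.Agent.S55.helper65
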