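import Mathlib
import Fermat.Agent.S55.helper65_Basic

/-!
# S55 module A: Leibniz rules, level constancy and naturality of the cone cup products (helper65)
-/

set_option autoImplicit false

universe u

open groupCohomology

noncomputable section

namespace Fermat.Agent.S55.helper65

open Fermat.Agent.S55

variable {k G : Type u} [Field k] [Group G]
variable {𝒩 : Levels G} {ι : Type} (L : LocalData G 𝒩 ι) {A B C : Rep.{u} k G}
  (φ : EqPairing A B C)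

/-- Leibniz rule in bidegree `(0,2)`. -/
theorem leibniz₀₂ (a : A) (y : CcAmb2 L B) :
    dc₂₃ L C (cupc₀₂ L φ a y) =
      cupc₁₂ L φ ((d₀₁ A).hom a) y + cupc₀₃ L φ a (dc₂₃ L B y) := by
  refine Prod.ext ?_ ?_
  · funext ⟨g, h, j⟩
    simp only [dc₂₃, cupc₀₂, cupc₁₂, cupc₀₃, LinearMap.coe_mk, AddHom.coe_mk, Prod.fst_add,
      Pi.add_apply, d₂₃_hom_apply, d₀₁_hom_apply, map_sub, map_add, LinearMap.sub_apply,
      ← φ.equivariant]
    abel
  · funext v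
    funext ⟨s, t⟩
    have e : ∀ (c : C), (L.loc C v).ρ s c = C.ρ (L.r v s) c := fun _ => rfl
    have e' : ∀ (b : B), (L.loc B v).ρ s b = B.ρ (L.r v s) b := fun _ => rfl
    simp only [dc₂₃, cupc₀₂, cupc₁₂, cupc₀₃, LinearMap.coe_mk, AddHom.coe_mk, Prod.snd_add,
      Pi.add_apply, Pi.sub_apply, res₂_apply, d₁₂_hom_apply, d₀₁_hom_apply, map_sub, map_add,
      LinearMap.sub_apply, e, e', ← φ.equivariant]
    abel

/-- Leibniz rule in bidegree `(1,1)`. -/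
theorem leibniz₁₁ (x : G → A) (y : CcAmb1 L B) :
    dc₂₃ L C (cupc₁₁ L φ x y) =
      cupc₂₁ L φ ((d₁₂ A).hom x) y - cupc₁₂ L φ x (dc₁₂ L B y) := by
  refine Prod.ext ?_ ?_
  · funext ⟨g, h, j⟩
    simp only [dc₂₃, dc₁₂, cupc₁₁, cupc₁₂, cupc₂₁, LinearMap.coe_mk, AddHom.coe_mk, Prod.fst_sub,
      Pi.sub_apply, d₂₃_hom_apply, d₁₂_hom_apply, map_sub, map_add, LinearMap.sub_apply,
      LinearMap.add_apply, ← φ.equivariant, map_mul, Module.End.mul_apply]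
    abel
  · funext v
    funext ⟨s, t⟩
    have e : ∀ (c : C), (L.loc C v).ρ s c = C.ρ (L.r v s) c := fun _ => rfl
    have e' : ∀ (s : L.Gv v) (b : B), (L.loc B v).ρ s b = B.ρ (L.r v s) b := fun _ _ => rfl
    simp only [dc₂₃, dc₁₂, cupc₁₁, cupc₁₂, cupc₂₁, LinearMap.coe_mk, AddHom.coe_mk, Prod.snd_sub,
      Pi.sub_apply, res₂_apply, res₁_apply, d₁₂_hom_apply, d₀₁_hom_apply, map_sub, map_add,
      map_neg, LinearMap.sub_apply, LinearMap.add_apply, e, e', ← φ.equivariant, map_mul,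
      Module.End.mul_apply]
    abel


/-! ## Level constancy of cup products -/

lemma cupc₀₂_mem (a : A) {y : CcAmb2 L B} (hy : y ∈ Cc2 L B) : cupc₀₂ L φ a y ∈ Cc2 L C := by
  rw [mem_Cc2_iff] at hy ⊢
  exact ⟨comp_mem_C2 (φ.φ a) hy.1, fun v => comp_mem_C1 (A := L.loc B v) (φ.φ a) (hy.2 v)⟩

lemma cupc₁₁_mem (hB : IsSmooth 𝒩 B) {x : G → A} (hx : x ∈ C1 𝒩 A) {y : CcAmb1 L B}
    (hy : y ∈ Cc1 L B) : cupc₁₁ L φ x y ∈ Cc2 L C := by
  rw [mem_Cc1_iff] at hy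
  rw [mem_Cc2_iff]
  obtain ⟨N₁, hN₁, h₁⟩ := hB
  obtain ⟨N₂, hN₂, h₂⟩ := hx
  obtain ⟨N₃, hN₃, h₃⟩ := hy
  obtain ⟨N₄, hN₄, -, hle₁, hle₂⟩ := exists_level_le hN₁ hN₂
  obtain ⟨N, hN, -, hle₄, hle₃⟩ := exists_level_le hN₄ hN₃
  constructor
  · refine ⟨N, hN, fun g₁ g₂ s₁ hs₁ s₂ hs₂ => ?_⟩
    simp only [cupc₁₁, h₂ g₁ s₁ (hle₂ (hle₄ hs₁)), h₃ g₂ s₂ (hle₃ hs₂), map_mul,
      Module.End.mul_apply, h₁ s₁ (hle₁ (hle₄ hs₁))]
  · intro v
    obtain ⟨N', hN', hle'⟩ := L.compat v N hN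
    refine ⟨N', hN', fun g s hs => ?_⟩
    have hs' : L.r v s ∈ N := hle' hs
    simp only [cupc₁₁, map_mul, h₂ _ _ (hle₂ (hle₄ hs')), Module.End.mul_apply,
      h₁ _ (hle₁ (hle₄ hs'))]

/-! ## Naturality of cup products -/

section Nat

variable {A' B' : Rep.{u} k G} (φ' : EqPairing A' B' C)

lemma cupc₀₃_nat {f : A →ₗ[k] A'} {p : B' →ₗ[k] B}
    (h : ∀ (a : A) (b' : B'), φ'.φ (f a) b' = φ.φ a (p b')) (a : A) (y : CcAmb3 L B') :
    cupc₀₃ L φ' (f a) y = cupc₀₃ L φ a (mapc₃ L p y) := by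
  refine Prod.ext ?_ ?_
  · funext g
    exact h _ _
  · funext v s
    exact h _ _

lemma cupc₁₂_nat {f : A →ₗ[k] A'} {p : B' →ₗ[k] B} (hp : IsEqv p)
    (h : ∀ (a : A) (b' : B'), φ'.φ (f a) b' = φ.φ a (p b')) (x : G → A) (y : CcAmb2 L B') :
    cupc₁₂ L φ' (fun g => f (x g)) y = cupc₁₂ L φ x (mapc₂ L p y) := by
  refine Prod.ext ?_ ?_
  · funext g
    simp only [cupc₁₂, mapc₂_fst, h, hp _ _]
  · funext v s
    simp only [cupc₁₂, mapc₂_snd, h, hp _ _]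

lemma cupc₂₁_nat {f : A →ₗ[k] A'} {p : B' →ₗ[k] B} (hp : IsEqv p)
    (h : ∀ (a : A) (b' : B'), φ'.φ (f a) b' = φ.φ a (p b')) (x : G × G → A) (y : CcAmb1 L B') :
    cupc₂₁ L φ' (fun g => f (x g)) y = cupc₂₁ L φ x (mapc₁ L p y) := by
  refine Prod.ext ?_ ?_
  · funext g
    simp only [cupc₂₁, mapc₁_fst, h, hp _ _]
  · funext v s
    simp only [cupc₂₁, mapc₁_snd, h, hp _ _]

end Nat

/-! ## Bilinear versions -/

/-- `cupc₀₃` as a bilinear map -/
def cupB₀₃ : A →ₗ[k] CcAmb3 L B →ₗ[k] CcAmb3 L C :=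
  LinearMap.mk₂ k (cupc₀₃ L φ)
    (fun a a' y => by
      refine Prod.ext ?_ ?_
      · funext g; simp only [cupc₀₃, map_add, LinearMap.add_apply, Prod.fst_add, Pi.add_apply]
      · funext v s
        simp only [cupc₀₃, map_add, LinearMap.add_apply, Prod.snd_add, Pi.add_apply])
    (fun c a y => by
      refine Prod.ext ?_ ?_
      · funext g; simp only [cupc₀₃, map_smul, LinearMap.smul_apply, Prod.smul_fst, Pi.smul_apply]
      · funext v s
        simp only [cupc₀₃, map_smul, LinearMap.smul_apply, Prod.smul_snd, Pi.smul_apply])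
    (fun a y y' => by
      refine Prod.ext ?_ ?_
      · funext g; simp only [cupc₀₃, map_add, Prod.fst_add, Pi.add_apply]
      · funext v s; simp only [cupc₀₃, map_add, Prod.snd_add, Pi.add_apply])
    (fun c a y => by
      refine Prod.ext ?_ ?_
      · funext g; simp only [cupc₀₃, map_smul, Prod.smul_fst, Pi.smul_apply]
      · funext v s; simp only [cupc₀₃, map_smul, Prod.smul_snd, Pi.smul_apply])

/-- `cupc₁₂` as a bilinear map -/
def cupB₁₂ : (G → A) →ₗ[k] CcAmb2 L B →ₗ[k] CcAmb3 L C :=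
  LinearMap.mk₂ k (cupc₁₂ L φ)
    (fun a a' y => by
      refine Prod.ext ?_ ?_
      · funext g; simp only [cupc₁₂, map_add, LinearMap.add_apply, Prod.fst_add, Pi.add_apply]
      · funext v s
        simp only [cupc₁₂, map_add, LinearMap.add_apply, Prod.snd_add, Pi.add_apply, neg_add])
    (fun c a y => by
      refine Prod.ext ?_ ?_
      · funext g; simp only [cupc₁₂, map_smul, LinearMap.smul_apply, Prod.smul_fst, Pi.smul_apply]
      · funext v s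
        simp only [cupc₁₂, map_smul, LinearMap.smul_apply, Prod.smul_snd, Pi.smul_apply,
          smul_neg])
    (fun a y y' => by
      refine Prod.ext ?_ ?_
      · funext g; simp only [cupc₁₂, map_add, Prod.fst_add, Pi.add_apply]
      · funext v s; simp only [cupc₁₂, map_add, Prod.snd_add, Pi.add_apply, neg_add])
    (fun c a y => by
      refine Prod.ext ?_ ?_
      · funext g; simp only [cupc₁₂, map_smul, Prod.smul_fst, Pi.smul_apply]
      · funext v s; simp only [cupc₁₂, map_smul, Prod.smul_snd, Pi.smul_apply, smul_neg])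

/-- `cupc₂₁` as a bilinear map -/
def cupB₂₁ : (G × G → A) →ₗ[k] CcAmb1 L B →ₗ[k] CcAmb3 L C :=
  LinearMap.mk₂ k (cupc₂₁ L φ)
    (fun a a' y => by
      refine Prod.ext ?_ ?_
      · funext g; simp only [cupc₂₁, map_add, LinearMap.add_apply, Prod.fst_add, Pi.add_apply]
      · funext v s
        simp only [cupc₂₁, map_add, LinearMap.add_apply, Prod.snd_add, Pi.add_apply])
    (fun c a y => by
      refine Prod.ext ?_ ?_
      · funext g; simp only [cupc₂₁, map_smul, LinearMap.smul_apply, Prod.smul_fst, Pi.smul_apply]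
      · funext v s
        simp only [cupc₂₁, map_smul, LinearMap.smul_apply, Prod.smul_snd, Pi.smul_apply])
    (fun a y y' => by
      refine Prod.ext ?_ ?_
      · funext g; simp only [cupc₂₁, map_add, Prod.fst_add, Pi.add_apply]
      · funext v s; simp only [cupc₂₁, map_add, Prod.snd_add, Pi.add_apply])
    (fun c a y => by
      refine Prod.ext ?_ ?_
      · funext g; simp only [cupc₂₁, map_smul, Prod.smul_fst, Pi.smul_apply]
      · funext v s; simp only [cupc₂₁, map_smul, Prod.smul_snd, Pi.smul_apply])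

@[simp] lemma cupB₀₃_apply (a : A) (y : CcAmb3 L B) : cupB₀₃ L φ a y = cupc₀₃ L φ a y := rfl
@[simp] lemma cupB₁₂_apply (x : G → A) (y : CcAmb2 L B) : cupB₁₂ L φ x y = cupc₁₂ L φ x y := rfl
@[simp] lemma cupB₂₁_apply (x : G × G → A) (y : CcAmb1 L B) :
    cupB₂₁ L φ x y = cupc₂₁ L φ x y := rfl


/-! ## Traces of cup products with coboundaries -/

section Trace

variable (tr : CcAmb3 L C →ₗ[k] k) (htr : ∀ c ∈ Bc3 L C, tr c = 0)
include htr

lemma tr_dc_cupc₀₂ (a : A) {w : CcAmb2 L B} (hw : w ∈ Cc2 L B) :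
    tr (dc₂₃ L C (cupc₀₂ L φ a w)) = 0 :=
  htr _ ((mem_Bc3_iff L _).mpr ⟨_, cupc₀₂_mem L φ a hw, rfl⟩)

lemma tr_dc_cupc₁₁ (hB : IsSmooth 𝒩 B) {x : G → A} (hx : x ∈ C1 𝒩 A) {w : CcAmb1 L B}
    (hw : w ∈ Cc1 L B) : tr (dc₂₃ L C (cupc₁₁ L φ x w)) = 0 :=
  htr _ ((mem_Bc3_iff L _).mpr ⟨_, cupc₁₁_mem L φ hB hx hw, rfl⟩)

/-- `tr (b ∪ d w) = 0` for invariant `b` -/
lemma tr_cupc₀₃_dc {b : A} (hb : b ∈ H0 A) {w : CcAmb2 L B} (hw : w ∈ Cc2 L B) :
    tr (cupc₀₃ L φ b (dc₂₃ L B w)) = 0 := by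
  have h := leibniz₀₂ L φ b w
  rw [(mem_H0_iff b).mp hb] at h
  have h0 : cupc₁₂ L φ (0 : G → A) w = 0 := by
    rw [← cupB₁₂_apply, map_zero, LinearMap.zero_apply]
  rw [h0, zero_add] at h
  rw [← h]
  exact tr_dc_cupc₀₂ L φ tr htr b hw

/-- `tr (d a ∪ y) = 0` for a cone cocycle `y` -/
lemma tr_cupc₁₂_d01 (a : A) {y : CcAmb2 L B} (hy : y ∈ Zc2 L B) :
    tr (cupc₁₂ L φ ((d₀₁ A).hom a) y) = 0 := by
  rw [mem_Zc2_iff] at hy
  have h := leibniz₀₂ L φ a y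
  rw [hy.2] at h
  have h0 : cupc₀₃ L φ a (0 : CcAmb3 L B) = 0 := by
    rw [← cupB₀₃_apply, map_zero]
  rw [h0, add_zero] at h
  rw [← h]
  exact tr_dc_cupc₀₂ L φ tr htr a hy.1

/-- `tr (x ∪ d w) = 0` for a cocycle `x` -/
lemma tr_cupc₁₂_dc (hB : IsSmooth 𝒩 B) {x : G → A} (hx : x ∈ Z1 𝒩 A) {w : CcAmb1 L B}
    (hw : w ∈ Cc1 L B) : tr (cupc₁₂ L φ x (dc₁₂ L B w)) = 0 := by
  rw [mem_Z1_iff] at hx
  have h := leibniz₁₁ L φ x w
  rw [hx.2] at h
  have h0 : cupc₂₁ L φ (0 : G × G → A) w = 0 := by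
    rw [← cupB₂₁_apply, map_zero, LinearMap.zero_apply]
  rw [h0, zero_sub] at h
  have h2 := tr_dc_cupc₁₁ L φ tr htr hB hx.1 hw
  rw [h, map_neg, neg_eq_zero] at h2
  exact h2

/-- `tr (d u ∪ y) = 0` for a cone cocycle `y` -/
lemma tr_cupc₂₁_d12 (hB : IsSmooth 𝒩 B) {u : G → A} (hu : u ∈ C1 𝒩 A) {y : CcAmb1 L B}
    (hy : y ∈ Zc1 L B) : tr (cupc₂₁ L φ ((d₁₂ A).hom u) y) = 0 := by
  rw [mem_Zc1_iff] at hy
  have h := leibniz₁₁ L φ u y
  rw [hy.2] at h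
  have h0 : cupc₁₂ L φ u (0 : CcAmb2 L B) = 0 := by
    rw [← cupB₁₂_apply, map_zero]
  rw [h0, sub_zero] at h
  rw [← h]
  exact tr_dc_cupc₁₁ L φ tr htr hB hu hy.1

end Trace

end Fermat.Agent.S55.helper65
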