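import Mathlib
import Fermat.Agent.S55.helper65_Cup

/-!
# S55 module A: the CLAIM is closed under extensions (helper65)

Cochain-level proof of the four-lemma windows for a short exact sequence of coefficient
modules `0 → A₁ → A → A₂ → 0` paired with `0 → B₂ → B → B₁ → 0`.
-/

set_option autoImplicit false

universe u

open groupCohomology

noncomputable section

namespace Fermat.Agent.S55.helper65

open Fermat.Agent.S55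

variable {k G : Type u} [Field k] [Group G]

/-! ## Linear algebra -/

/-- Extension of functionals: if `F` vanishes whenever `T v ∈ B`, then `F` is induced through
`T` by a functional vanishing on `B`. -/
theorem exists_functional {V W : Type*} [AddCommGroup V] [Module k V] [AddCommGroup W]
    [Module k W] (T : V →ₗ[k] W) (B : Submodule k W) (F : V →ₗ[k] k)
    (h : ∀ v, T v ∈ B → F v = 0) :
    ∃ ψ : W →ₗ[k] k, (∀ b ∈ B, ψ b = 0) ∧ ∀ v, ψ (T v) = F v := by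
  have hF : F ∈ (LinearMap.ker (B.mkQ ∘ₗ T)).dualAnnihilator := by
    rw [Submodule.mem_dualAnnihilator]
    intro v hv
    apply h
    rw [LinearMap.mem_ker, LinearMap.comp_apply, Submodule.mkQ_apply,
      Submodule.Quotient.mk_eq_zero] at hv
    exact hv
  rw [← LinearMap.range_dualMap_eq_dualAnnihilator_ker] at hF
  obtain ⟨g, hg⟩ := hF
  refine ⟨g ∘ₗ B.mkQ, fun b hb => ?_, fun v => ?_⟩
  · rw [LinearMap.comp_apply, Submodule.mkQ_apply, (Submodule.Quotient.mk_eq_zero B).mpr hb,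
      map_zero]
  · rw [← hg]
    rfl

/-! ## Pointwise identities for post-composition -/

section MapId

variable {𝒩 : Levels G} {ι : Type} (L : LocalData G 𝒩 ι) {A B : Rep.{u} k G}

lemma mapc₁_eq_self {f : B →ₗ[k] A} {g : A →ₗ[k] B} (h : ∀ a, f (g a) = a) (y : CcAmb1 L A) :
    mapc₁ L f (mapc₁ L g y) = y := by
  refine Prod.ext ?_ ?_
  · funext x; exact h _
  · funext v; exact h _

lemma mapc₂_eq_self {f : B →ₗ[k] A} {g : A →ₗ[k] B} (h : ∀ a, f (g a) = a) (y : CcAmb2 L A) :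
    mapc₂ L f (mapc₂ L g y) = y := by
  refine Prod.ext ?_ ?_
  · funext x; exact h _
  · funext v x; exact h _

lemma mapc₃_eq_self {f : B →ₗ[k] A} {g : A →ₗ[k] B} (h : ∀ a, f (g a) = a) (y : CcAmb3 L A) :
    mapc₃ L f (mapc₃ L g y) = y := by
  refine Prod.ext ?_ ?_
  · funext x; exact h _
  · funext v x; exact h _

lemma mapc₄_eq_self {f : B →ₗ[k] A} {g : A →ₗ[k] B} (h : ∀ a, f (g a) = a) (y : CcAmb4 L A) :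
    mapc₄ L f (mapc₄ L g y) = y := by
  refine Prod.ext ?_ ?_
  · funext x; exact h _
  · funext v x; exact h _

variable {A' B' : Rep.{u} k G}

lemma mapc₂_split {j : A →ₗ[k] B} {l : B →ₗ[k] A} {s : A' →ₗ[k] B} {p : B →ₗ[k] A'}
    (h : ∀ b, j (l b) + s (p b) = b) (y : CcAmb2 L B) :
    mapc₂ L j (mapc₂ L l y) + mapc₂ L s (mapc₂ L p y) = y := by
  refine Prod.ext ?_ ?_
  · funext x; exact h _
  · funext v x; exact h _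

lemma mapc₃_split {j : A →ₗ[k] B} {l : B →ₗ[k] A} {s : A' →ₗ[k] B} {p : B →ₗ[k] A'}
    (h : ∀ b, j (l b) + s (p b) = b) (y : CcAmb3 L B) :
    mapc₃ L j (mapc₃ L l y) + mapc₃ L s (mapc₃ L p y) = y := by
  refine Prod.ext ?_ ?_
  · funext x; exact h _
  · funext v x; exact h _

lemma mapc₁_zero {p : B →ₗ[k] A'} {j : A →ₗ[k] B} (h : ∀ a, p (j a) = 0) (y : CcAmb1 L A) :
    mapc₁ L p (mapc₁ L j y) = 0 := by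
  refine Prod.ext ?_ ?_
  · funext x; exact h _
  · funext v; exact h _

lemma mapc₂_zero {p : B →ₗ[k] A'} {j : A →ₗ[k] B} (h : ∀ a, p (j a) = 0) (y : CcAmb2 L A) :
    mapc₂ L p (mapc₂ L j y) = 0 := by
  refine Prod.ext ?_ ?_
  · funext x; exact h _
  · funext v x; exact h _

lemma mapc₃_zero {p : B →ₗ[k] A'} {j : A →ₗ[k] B} (h : ∀ a, p (j a) = 0) (y : CcAmb3 L A) :
    mapc₃ L p (mapc₃ L j y) = 0 := by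
  refine Prod.ext ?_ ?_
  · funext x; exact h _
  · funext v x; exact h _

end MapId


/-! ## Paired split extensions -/

/-- A short exact sequence `0 → A₁ → A → A₂ → 0` of representations together with a dually
placed sequence `0 → B₂ → B → B₁ → 0`, compatible pairings into `C`, and `k`-linear splittings
(not equivariant). -/
structure PExt (A₁ A A₂ B₂ B B₁ C : Rep.{u} k G) where
  /-- the injection `A₁ → A` -/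
  i : A₁ →ₗ[k] A
  /-- the surjection `A → A₂` -/
  q : A →ₗ[k] A₂
  /-- a linear retraction of `i` -/
  r : A →ₗ[k] A₁
  /-- a linear section of `q` -/
  t : A₂ →ₗ[k] A
  /-- the injection `B₂ → B` -/
  j : B₂ →ₗ[k] B
  /-- the surjection `B → B₁` -/
  p : B →ₗ[k] B₁
  /-- a linear retraction of `j` -/
  l : B →ₗ[k] B₂
  /-- a linear section of `p` -/
  s : B₁ →ₗ[k] B
  /-- the pairing of the sub with the quotient -/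
  φ₁ : EqPairing A₁ B₁ C
  /-- the pairing of the middle terms -/
  φ : EqPairing A B C
  /-- the pairing of the quotient with the sub -/
  φ₂ : EqPairing A₂ B₂ C
  hi : IsEqv i
  hq : IsEqv q
  hj : IsEqv j
  hp : IsEqv p
  qi : ∀ a, q (i a) = 0
  ri : ∀ a, r (i a) = a
  qt : ∀ a, q (t a) = a
  irtq : ∀ a, i (r a) + t (q a) = a
  pj : ∀ b, p (j b) = 0
  lj : ∀ b, l (j b) = b
  ps : ∀ b, p (s b) = b
  jlsp : ∀ b, j (l b) + s (p b) = b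
  c₁ : ∀ a b, φ.φ (i a) b = φ₁.φ a (p b)
  c₂ : ∀ a b, φ₂.φ (q a) b = φ.φ a (j b)

namespace PExt

variable {A₁ A A₂ B₂ B B₁ C : Rep.{u} k G} (E : PExt A₁ A A₂ B₂ B B₁ C)
variable {𝒩 : Levels G} {ι : Type} (L : LocalData G 𝒩 ι)

lemma i_r_of_q {a : A} (h : E.q a = 0) : E.i (E.r a) = a := by
  have := E.irtq a
  rwa [h, map_zero, add_zero] at this

lemma j_l_of_p {b : B} (h : E.p b = 0) : E.j (E.l b) = b := by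
  have := E.jlsp b
  rwa [h, map_zero, add_zero] at this

/-- cone cochains killed by `p` come from `B₂` -/
lemma mapc₂_j_l {y : CcAmb2 L B} (h : mapc₂ L E.p y = 0) : mapc₂ L E.j (mapc₂ L E.l y) = y := by
  have := mapc₂_split L E.jlsp y
  rwa [h, map_zero, add_zero] at this

lemma mapc₃_j_l {y : CcAmb3 L B} (h : mapc₃ L E.p y = 0) : mapc₃ L E.j (mapc₃ L E.l y) = y := by
  have := mapc₃_split L E.jlsp y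
  rwa [h, map_zero, add_zero] at this

/-- the connecting map on cone `2`-cochains -/
def δc₂₃ : CcAmb2 L B₁ →ₗ[k] CcAmb3 L B₂ := mapc₃ L E.l ∘ₗ dc₂₃ L B ∘ₗ mapc₂ L E.s

/-- the connecting map on cone `1`-cochains -/
def δc₁₂ : CcAmb1 L B₁ →ₗ[k] CcAmb2 L B₂ := mapc₂ L E.l ∘ₗ dc₁₂ L B ∘ₗ mapc₁ L E.s

lemma δc₂₃_apply (y₁ : CcAmb2 L B₁) :
    E.δc₂₃ L y₁ = mapc₃ L E.l (dc₂₃ L B (mapc₂ L E.s y₁)) := rfl

lemma δc₁₂_apply (y₁ : CcAmb1 L B₁) :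
    E.δc₁₂ L y₁ = mapc₂ L E.l (dc₁₂ L B (mapc₁ L E.s y₁)) := rfl

lemma j_δc₂₃ {y₁ : CcAmb2 L B₁} (hy : y₁ ∈ Zc2 L B₁) :
    mapc₃ L E.j (E.δc₂₃ L y₁) = dc₂₃ L B (mapc₂ L E.s y₁) := by
  rw [mem_Zc2_iff] at hy
  rw [δc₂₃_apply]
  apply E.mapc₃_j_l L
  rw [← dc₂₃_map L E.hp, mapc₂_eq_self L E.ps]
  exact hy.2

lemma j_δc₁₂ {y₁ : CcAmb1 L B₁} (hy : y₁ ∈ Zc1 L B₁) :
    mapc₂ L E.j (E.δc₁₂ L y₁) = dc₁₂ L B (mapc₁ L E.s y₁) := by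
  rw [mem_Zc1_iff] at hy
  rw [δc₁₂_apply]
  apply E.mapc₂_j_l L
  rw [← dc₁₂_map L E.hp, mapc₁_eq_self L E.ps]
  exact hy.2

lemma δc₂₃_mem (hB : IsSmooth 𝒩 B) {y₁ : CcAmb2 L B₁} (hy : y₁ ∈ Zc2 L B₁) :
    E.δc₂₃ L y₁ ∈ Zc3 L B₂ := by
  have hy' := (mem_Zc2_iff L _).mp hy
  rw [mem_Zc3_iff]
  refine ⟨mapc₃_mem L E.l (dc₂₃_mem L hB (mapc₂_mem L E.s hy'.1)), ?_⟩
  rw [← mapc₄_eq_self L E.lj (dc₃₄ L B₂ (E.δc₂₃ L y₁)), ← dc₃₄_map L E.hj,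
    E.j_δc₂₃ L hy, dc₃₄_dc₂₃, map_zero]

lemma δc₁₂_mem (hB : IsSmooth 𝒩 B) {y₁ : CcAmb1 L B₁} (hy : y₁ ∈ Zc1 L B₁) :
    E.δc₁₂ L y₁ ∈ Zc2 L B₂ := by
  have hy' := (mem_Zc1_iff L _).mp hy
  rw [mem_Zc2_iff]
  refine ⟨mapc₂_mem L E.l (dc₁₂_mem L hB (mapc₁_mem L E.s hy'.1)), ?_⟩
  rw [← mapc₃_eq_self L E.lj (dc₂₃ L B₂ (E.δc₁₂ L y₁)), ← dc₂₃_map L E.hj,
    E.j_δc₁₂ L hy, dc₂₃_dc₁₂, map_zero]

/-- images of cone cocycles under `p` are cone cocycles -/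
lemma p_mem_Zc3 {y : CcAmb3 L B} (hy : y ∈ Zc3 L B) : mapc₃ L E.p y ∈ Zc3 L B₁ := by
  rw [mem_Zc3_iff] at hy ⊢
  refine ⟨mapc₃_mem L E.p hy.1, ?_⟩
  rw [dc₃₄_map L E.hp, hy.2, map_zero]

lemma p_mem_Zc2 {y : CcAmb2 L B} (hy : y ∈ Zc2 L B) : mapc₂ L E.p y ∈ Zc2 L B₁ := by
  rw [mem_Zc2_iff] at hy ⊢
  refine ⟨mapc₂_mem L E.p hy.1, ?_⟩
  rw [dc₂₃_map L E.hp, hy.2, map_zero]

lemma p_mem_Zc1 {y : CcAmb1 L B} (hy : y ∈ Zc1 L B) : mapc₁ L E.p y ∈ Zc1 L B₁ := by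
  rw [mem_Zc1_iff] at hy ⊢
  refine ⟨mapc₁_mem L E.p hy.1, ?_⟩
  rw [dc₁₂_map L E.hp, hy.2, map_zero]

lemma j_mem_Zc3 {y : CcAmb3 L B₂} (hy : y ∈ Zc3 L B₂) : mapc₃ L E.j y ∈ Zc3 L B := by
  rw [mem_Zc3_iff] at hy ⊢
  refine ⟨mapc₃_mem L E.j hy.1, ?_⟩
  rw [dc₃₄_map L E.hj, hy.2, map_zero]

lemma j_mem_Zc2 {y : CcAmb2 L B₂} (hy : y ∈ Zc2 L B₂) : mapc₂ L E.j y ∈ Zc2 L B := by
  rw [mem_Zc2_iff] at hy ⊢
  refine ⟨mapc₂_mem L E.j hy.1, ?_⟩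
  rw [dc₂₃_map L E.hj, hy.2, map_zero]

lemma j_mem_Zc1 {y : CcAmb1 L B₂} (hy : y ∈ Zc1 L B₂) : mapc₁ L E.j y ∈ Zc1 L B := by
  rw [mem_Zc1_iff] at hy ⊢
  refine ⟨mapc₁_mem L E.j hy.1, ?_⟩
  rw [dc₁₂_map L E.hj, hy.2, map_zero]

lemma j_mem_Bc3 {y : CcAmb3 L B₂} (hy : y ∈ Bc3 L B₂) : mapc₃ L E.j y ∈ Bc3 L B := by
  obtain ⟨w, hw, rfl⟩ := (mem_Bc3_iff L _).mp hy
  exact (mem_Bc3_iff L _).mpr ⟨mapc₂ L E.j w, mapc₂_mem L E.j hw, dc₂₃_map L E.hj w⟩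

lemma j_mem_Bc2 {y : CcAmb2 L B₂} (hy : y ∈ Bc2 L B₂) : mapc₂ L E.j y ∈ Bc2 L B := by
  obtain ⟨w, hw, rfl⟩ := (mem_Bc2_iff L _).mp hy
  exact (mem_Bc2_iff L _).mpr ⟨mapc₁ L E.j w, mapc₁_mem L E.j hw, dc₁₂_map L E.hj w⟩

/-- exactness at `H_c^3(B)` -/
lemma exact_c₃ (hB : IsSmooth 𝒩 B) {y : CcAmb3 L B} (hy : y ∈ Zc3 L B)
    (hpy : mapc₃ L E.p y ∈ Bc3 L B₁) :
    ∃ w ∈ Cc2 L B, ∃ z₂ ∈ Zc3 L B₂, y = dc₂₃ L B w + mapc₃ L E.j z₂ := by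
  obtain ⟨w₁, hw₁, hw⟩ := (mem_Bc3_iff L _).mp hpy
  have hw' : mapc₂ L E.s w₁ ∈ Cc2 L B := mapc₂_mem L E.s hw₁
  set y' := y - dc₂₃ L B (mapc₂ L E.s w₁) with hy'
  have hp0 : mapc₃ L E.p y' = 0 := by
    rw [hy', map_sub, ← dc₂₃_map L E.hp, mapc₂_eq_self L E.ps, hw, sub_self]
  have hjl := E.mapc₃_j_l L hp0
  have hy'Z : y' ∈ Zc3 L B := by
    refine (Zc3 L B).sub_mem hy ((mem_Zc3_iff L _).mpr ⟨dc₂₃_mem L hB hw', ?_⟩)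
    rw [dc₃₄_dc₂₃]
  rw [mem_Zc3_iff] at hy'Z
  refine ⟨_, hw', mapc₃ L E.l y', (mem_Zc3_iff L _).mpr ⟨mapc₃_mem L E.l hy'Z.1, ?_⟩, ?_⟩
  · rw [← mapc₄_eq_self L E.lj (dc₃₄ L B₂ (mapc₃ L E.l y')),
      ← dc₃₄_map L E.hj, hjl, hy'Z.2, map_zero]
  · rw [hjl, hy']
    abel

/-- exactness at `H_c^2(B)` -/
lemma exact_c₂ (hB : IsSmooth 𝒩 B) {y : CcAmb2 L B} (hy : y ∈ Zc2 L B)
    (hpy : mapc₂ L E.p y ∈ Bc2 L B₁) :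
    ∃ w ∈ Cc1 L B, ∃ z₂ ∈ Zc2 L B₂, y = dc₁₂ L B w + mapc₂ L E.j z₂ := by
  obtain ⟨w₁, hw₁, hw⟩ := (mem_Bc2_iff L _).mp hpy
  have hw' : mapc₁ L E.s w₁ ∈ Cc1 L B := mapc₁_mem L E.s hw₁
  set y' := y - dc₁₂ L B (mapc₁ L E.s w₁) with hy'
  have hp0 : mapc₂ L E.p y' = 0 := by
    rw [hy', map_sub, ← dc₁₂_map L E.hp, mapc₁_eq_self L E.ps, hw, sub_self]
  have hjl := E.mapc₂_j_l L hp0
  have hy'Z : y' ∈ Zc2 L B := by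
    refine (Zc2 L B).sub_mem hy ((mem_Zc2_iff L _).mpr ⟨dc₁₂_mem L hB hw', ?_⟩)
    rw [dc₂₃_dc₁₂]
  rw [mem_Zc2_iff] at hy'Z
  refine ⟨_, hw', mapc₂ L E.l y', (mem_Zc2_iff L _).mpr ⟨mapc₂_mem L E.l hy'Z.1, ?_⟩, ?_⟩
  · rw [← mapc₃_eq_self L E.lj (dc₂₃ L B₂ (mapc₂ L E.l y')),
      ← dc₂₃_map L E.hj, hjl, hy'Z.2, map_zero]
  · rw [hjl, hy']
    abel

/-- exactness at `H_c^2(B₁)` -/
lemma exact_c₂₁ {y₁ : CcAmb2 L B₁} (hy : y₁ ∈ Zc2 L B₁) (hδ : E.δc₂₃ L y₁ ∈ Bc3 L B₂) :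
    ∃ y ∈ Zc2 L B, mapc₂ L E.p y = y₁ := by
  obtain ⟨w₂, hw₂, hw⟩ := (mem_Bc3_iff L _).mp hδ
  have hy' := (mem_Zc2_iff L _).mp hy
  refine ⟨mapc₂ L E.s y₁ - mapc₂ L E.j w₂, (mem_Zc2_iff L _).mpr
    ⟨(Cc2 L B).sub_mem (mapc₂_mem L E.s hy'.1) (mapc₂_mem L E.j hw₂), ?_⟩, ?_⟩
  · rw [map_sub, dc₂₃_map L E.hj, hw, E.j_δc₂₃ L hy, sub_self]
  · rw [map_sub, mapc₂_eq_self L E.ps, mapc₂_zero L E.pj, sub_zero]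

/-- exactness at `H_c^1(B₁)` -/
lemma exact_c₁₁ {y₁ : CcAmb1 L B₁} (hy : y₁ ∈ Zc1 L B₁) (hδ : E.δc₁₂ L y₁ ∈ Bc2 L B₂) :
    ∃ y ∈ Zc1 L B, mapc₁ L E.p y = y₁ := by
  obtain ⟨w₂, hw₂, hw⟩ := (mem_Bc2_iff L _).mp hδ
  have hy' := (mem_Zc1_iff L _).mp hy
  refine ⟨mapc₁ L E.s y₁ - mapc₁ L E.j w₂, (mem_Zc1_iff L _).mpr
    ⟨(Cc1 L B).sub_mem (mapc₁_mem L E.s hy'.1) (mapc₁_mem L E.j hw₂), ?_⟩, ?_⟩
  · rw [map_sub, dc₁₂_map L E.hj, hw, E.j_δc₁₂ L hy, sub_self]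
  · rw [map_sub, mapc₁_eq_self L E.ps, mapc₁_zero L E.pj, sub_zero]


/-! ### The coefficient side -/

/-- the connecting map `H^0(A₂) → H^1(A₁)` on cochains -/
def δ₀₁ (a₂ : A₂) : G → A₁ := fun g => E.r ((d₀₁ A).hom (E.t a₂) g)

/-- the connecting map `H^1(A₂) → H^2(A₁)` on cochains -/
def δ₁₂ (x₂ : G → A₂) : G × G → A₁ := fun g => E.r ((d₁₂ A).hom (fun h => E.t (x₂ h)) g)

lemma i_δ₀₁ {a₂ : A₂} (ha : a₂ ∈ H0 A₂) :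
    (fun g => E.i (E.δ₀₁ a₂ g)) = (d₀₁ A).hom (E.t a₂) := by
  funext g
  apply E.i_r_of_q
  have h := congrFun (d01_map E.hq (E.t a₂)) g
  rw [← h, E.qt, (mem_H0_iff a₂).mp ha]
  rfl

lemma i_δ₁₂ {x₂ : G → A₂} (hx : x₂ ∈ Z1 𝒩 A₂) :
    (fun g => E.i (E.δ₁₂ x₂ g)) = (d₁₂ A).hom (fun h => E.t (x₂ h)) := by
  rw [mem_Z1_iff] at hx
  funext g
  apply E.i_r_of_q
  have h := congrFun (d12_map E.hq (fun h => E.t (x₂ h))) g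
  simp only [E.qt] at h
  rw [← h, hx.2]
  rfl

/-- a cochain with values in `A₁` whose image in `A` is closed is closed -/
lemma d12_eq_zero_of_i {x₁ : G → A₁} (h : (d₁₂ A).hom (fun g => E.i (x₁ g)) = 0) :
    (d₁₂ A₁).hom x₁ = 0 := by
  rw [d12_map E.hi] at h
  funext g
  have := congrFun h g
  rw [← E.ri ((d₁₂ A₁).hom x₁ g), this]
  exact map_zero E.r

lemma d23_eq_zero_of_i {x₁ : G × G → A₁} (h : (d₂₃ A).hom (fun g => E.i (x₁ g)) = 0) :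
    (d₂₃ A₁).hom x₁ = 0 := by
  rw [d23_map E.hi] at h
  funext g
  have := congrFun h g
  rw [← E.ri ((d₂₃ A₁).hom x₁ g), this]
  exact map_zero E.r

lemma δ₀₁_mem (hA : IsSmooth 𝒩 A) {a₂ : A₂} (ha : a₂ ∈ H0 A₂) : E.δ₀₁ a₂ ∈ Z1 𝒩 A₁ := by
  rw [mem_Z1_iff]
  refine ⟨comp_mem_C1 E.r (d01_mem_C1 hA _), E.d12_eq_zero_of_i ?_⟩
  rw [E.i_δ₀₁ ha, d12_d01]

lemma δ₁₂_mem (hA : IsSmooth 𝒩 A) {x₂ : G → A₂} (hx : x₂ ∈ Z1 𝒩 A₂) :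
    E.δ₁₂ x₂ ∈ Z2 𝒩 A₁ := by
  have hx' := (mem_Z1_iff x₂).mp hx
  rw [mem_Z2_iff]
  refine ⟨comp_mem_C2 E.r (d12_mem_C2 hA (comp_mem_C1 E.t hx'.1)), E.d23_eq_zero_of_i ?_⟩
  rw [E.i_δ₁₂ hx, d23_d12]

lemma q_mem_Z1 {x : G → A} (hx : x ∈ Z1 𝒩 A) : (fun g => E.q (x g)) ∈ Z1 𝒩 A₂ := by
  rw [mem_Z1_iff] at hx ⊢
  refine ⟨comp_mem_C1 E.q hx.1, ?_⟩
  rw [d12_map E.hq, hx.2]
  funext g
  exact map_zero E.q

lemma q_mem_Z2 {x : G × G → A} (hx : x ∈ Z2 𝒩 A) : (fun g => E.q (x g)) ∈ Z2 𝒩 A₂ := by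
  rw [mem_Z2_iff] at hx ⊢
  refine ⟨comp_mem_C2 E.q hx.1, ?_⟩
  rw [d23_map E.hq, hx.2]
  funext g
  exact map_zero E.q

lemma i_mem_Z1 {x : G → A₁} (hx : x ∈ Z1 𝒩 A₁) : (fun g => E.i (x g)) ∈ Z1 𝒩 A := by
  rw [mem_Z1_iff] at hx ⊢
  refine ⟨comp_mem_C1 E.i hx.1, ?_⟩
  rw [d12_map E.hi, hx.2]
  funext g
  exact map_zero E.i

lemma i_mem_H0 {a : A₁} (ha : a ∈ H0 A₁) : E.i a ∈ H0 A := by
  rw [mem_H0_iff] at ha ⊢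
  rw [d01_map E.hi, ha]
  funext g
  exact map_zero E.i

/-- exactness at `H^1(A)` -/
lemma exact₁ {x : G → A} (hx : x ∈ Z1 𝒩 A) (hA : IsSmooth 𝒩 A) {a₂ : A₂}
    (h : (d₀₁ A₂).hom a₂ = fun g => E.q (x g)) :
    ∃ x₁ ∈ Z1 𝒩 A₁, x = (d₀₁ A).hom (E.t a₂) + fun g => E.i (x₁ g) := by
  have hx' := (mem_Z1_iff x).mp hx
  set x' : G → A := x - (d₀₁ A).hom (E.t a₂) with hx'def
  have hq0 : ∀ g, E.q (x' g) = 0 := by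
    intro g
    have h1 := congrFun (d01_map E.hq (E.t a₂)) g
    have h2 := congrFun h g
    simp only [E.qt] at h1
    rw [hx'def, Pi.sub_apply, map_sub, ← h1, ← h2, sub_self]
  have hi : (fun g => E.i (E.r (x' g))) = x' := funext fun g => E.i_r_of_q (hq0 g)
  have hx'C : x' ∈ C1 𝒩 A := (C1 𝒩 A).sub_mem hx'.1 (d01_mem_C1 hA _)
  refine ⟨fun g => E.r (x' g), (mem_Z1_iff _).mpr ⟨comp_mem_C1 E.r hx'C, ?_⟩, ?_⟩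
  · apply E.d12_eq_zero_of_i
    rw [hi, hx'def, map_sub, hx'.2, d12_d01, sub_zero]
  · rw [hi, hx'def]
    abel

/-- exactness at `H^2(A)` -/
lemma exact₂ {x : G × G → A} (hx : x ∈ Z2 𝒩 A) (hA : IsSmooth 𝒩 A) {u₂ : G → A₂}
    (hu : u₂ ∈ C1 𝒩 A₂) (h : (d₁₂ A₂).hom u₂ = fun g => E.q (x g)) :
    ∃ w₁ ∈ Z2 𝒩 A₁, x = (d₁₂ A).hom (fun g => E.t (u₂ g)) + fun g => E.i (w₁ g) := by
  have hx' := (mem_Z2_iff x).mp hx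
  set x' : G × G → A := x - (d₁₂ A).hom (fun g => E.t (u₂ g)) with hx'def
  have hq0 : ∀ g, E.q (x' g) = 0 := by
    intro g
    have h1 := congrFun (d12_map E.hq (fun g => E.t (u₂ g))) g
    have h2 := congrFun h g
    simp only [E.qt] at h1
    rw [hx'def, Pi.sub_apply, map_sub, ← h1, ← h2, sub_self]
  have hi : (fun g => E.i (E.r (x' g))) = x' := funext fun g => E.i_r_of_q (hq0 g)
  have hx'C : x' ∈ C2 𝒩 A :=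
    (C2 𝒩 A).sub_mem hx'.1 (d12_mem_C2 hA (comp_mem_C1 E.t hu))
  refine ⟨fun g => E.r (x' g), (mem_Z2_iff _).mpr ⟨comp_mem_C2 E.r hx'C, ?_⟩, ?_⟩
  · apply E.d23_eq_zero_of_i
    rw [hi, hx'def, map_sub, hx'.2, d23_d12, sub_zero]
  · rw [hi, hx'def]
    abel


/-! ### Compatibility of the pairings with the connecting maps -/

section Conn

variable (tr : CcAmb3 L C →ₗ[k] k) (htr : ∀ c ∈ Bc3 L C, tr c = 0)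
include htr

lemma tr_δ₀₁ {a₂ : A₂} (ha : a₂ ∈ H0 A₂) {y₁ : CcAmb2 L B₁} (hy : y₁ ∈ Zc2 L B₁) :
    tr (cupc₁₂ L E.φ₁ (E.δ₀₁ a₂) y₁) = - tr (cupc₀₃ L E.φ₂ a₂ (E.δc₂₃ L y₁)) := by
  have hy' := (mem_Zc2_iff L _).mp hy
  have e1 : cupc₁₂ L E.φ₁ (E.δ₀₁ a₂) y₁ =
      cupc₁₂ L E.φ ((d₀₁ A).hom (E.t a₂)) (mapc₂ L E.s y₁) := by
    rw [← E.i_δ₀₁ ha, cupc₁₂_nat L E.φ₁ E.φ E.hp E.c₁, mapc₂_eq_self L E.ps]
  have e2 := leibniz₀₂ L E.φ (E.t a₂) (mapc₂ L E.s y₁)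
  have e3 : cupc₀₃ L E.φ (E.t a₂) (dc₂₃ L B (mapc₂ L E.s y₁)) =
      cupc₀₃ L E.φ₂ a₂ (E.δc₂₃ L y₁) := by
    rw [← E.j_δc₂₃ L hy, ← cupc₀₃_nat L E.φ E.φ₂ E.c₂, E.qt]
  have e4 := tr_dc_cupc₀₂ L E.φ tr htr (E.t a₂) (mapc₂_mem L E.s hy'.1)
  rw [e2, map_add, e3] at e4
  rw [e1]
  exact eq_neg_of_add_eq_zero_left e4

lemma tr_δ₁₂ (hB : IsSmooth 𝒩 B) {x₂ : G → A₂} (hx : x₂ ∈ Z1 𝒩 A₂) {y₁ : CcAmb1 L B₁}
    (hy : y₁ ∈ Zc1 L B₁) :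
    tr (cupc₂₁ L E.φ₁ (E.δ₁₂ x₂) y₁) = tr (cupc₁₂ L E.φ₂ x₂ (E.δc₁₂ L y₁)) := by
  have hy' := (mem_Zc1_iff L _).mp hy
  have hx' := (mem_Z1_iff _).mp hx
  have e1 : cupc₂₁ L E.φ₁ (E.δ₁₂ x₂) y₁ =
      cupc₂₁ L E.φ ((d₁₂ A).hom (fun g => E.t (x₂ g))) (mapc₁ L E.s y₁) := by
    rw [← E.i_δ₁₂ hx, cupc₂₁_nat L E.φ₁ E.φ E.hp E.c₁, mapc₁_eq_self L E.ps]
  have e2 := leibniz₁₁ L E.φ (fun g => E.t (x₂ g)) (mapc₁ L E.s y₁)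
  have e3 : cupc₁₂ L E.φ (fun g => E.t (x₂ g)) (dc₁₂ L B (mapc₁ L E.s y₁)) =
      cupc₁₂ L E.φ₂ x₂ (E.δc₁₂ L y₁) := by
    rw [← E.j_δc₁₂ L hy, ← cupc₁₂_nat L E.φ E.φ₂ E.hj E.c₂]
    simp only [E.qt]
  have ht : (fun g => E.t (x₂ g)) ∈ C1 𝒩 A := comp_mem_C1 E.t hx'.1
  have e4 := tr_dc_cupc₁₁ L E.φ tr htr hB ht (mapc₁_mem L E.s hy'.1)
  rw [e2, map_sub, e3] at e4
  rw [e1]
  exact sub_eq_zero.mp e4

end Conn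

end PExt

end Fermat.Agent.S55.helper65
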