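import Mathlib
import Fermat.Agent.S55.helper35_SHDefs

/-!
# S55 / SH-DATA (helper65): double coset representatives exist

`nonempty_shData`: for a subgroup `U` of finite index, every local index `v` admits a finite
system of representatives of the double cosets `r_v(G_v) \ G / U`.
-/

set_option autoImplicit false

noncomputable section

namespace Fermat.Agent.S55.helper65

open Fermat.Agent.S55 Fermat.Agent.S55.helper35

variable {G : Type} [Group G] {𝒩 : Levels G} {ι : Type} (L : LocalData G 𝒩 ι) (U : Subgroup G)

/-- The double coset relation of `r_v(G_v) \ G / U`. -/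
def dcSetoid (v : ι) : Setoid G where
  r g g' := ∃ h : L.Gv v, ∃ u ∈ U, g' = L.r v h * g * u
  iseqv := by
    refine ⟨fun g => ⟨1, 1, U.one_mem, by simp⟩, ?_, ?_⟩
    · rintro g g' ⟨h, u, hu, rfl⟩
      exact ⟨h⁻¹, u⁻¹, U.inv_mem hu, by simp [mul_assoc]⟩
    · rintro g g' g'' ⟨h, u, hu, rfl⟩ ⟨h', u', hu', rfl⟩
      exact ⟨h' * h, u * u', U.mul_mem hu hu', by simp [mul_assoc]⟩

/-- The set of double cosets. -/
abbrev DC (v : ι) : Type := Quotient (dcSetoid L U v)

/-- The canonical surjection `G ⧸ U → r_v(G_v) \ G / U`. -/
def dcOfQuot (v : ι) : G ⧸ U → DC L U v :=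
  Quotient.lift (s := QuotientGroup.leftRel U) (fun g => (Quotient.mk (dcSetoid L U v) g))
    (by
      intro a b hab
      apply Quotient.sound
      have hab' : a⁻¹ * b ∈ U := QuotientGroup.leftRel_apply.mp hab
      exact ⟨1, a⁻¹ * b, hab', by simp⟩)

lemma dcOfQuot_surjective (v : ι) : Function.Surjective (dcOfQuot L U v) := by
  intro q
  induction q using Quotient.inductionOn with
  | _ g => exact ⟨QuotientGroup.mk g, rfl⟩

instance finite_DC [Finite (G ⧸ U)] (v : ι) : Finite (DC L U v) :=
  Finite.of_surjective _ (dcOfQuot_surjective L U v)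

/-- **SH-DATA**: double coset representatives exist (finite index). -/
theorem nonempty_shData [Finite (G ⧸ U)] : Nonempty (ShData L U) := by
  classical
  refine ⟨{
    J := DC L U
    fin := fun v => Fintype.ofFinite _
    y := fun v j => Quotient.out j
    cover := ?_
    disjoint := ?_ }⟩
  · intro v g
    refine ⟨Quotient.mk (dcSetoid L U v) g, ?_⟩
    have h : (dcSetoid L U v).r (Quotient.out (Quotient.mk (dcSetoid L U v) g)) g :=
      Quotient.exact (Quotient.out_eq _)
    exact h
  · intro v j j' h
    have e : Quotient.mk (dcSetoid L U v) (Quotient.out j)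
        = Quotient.mk (dcSetoid L U v) (Quotient.out j') := Quotient.sound h
    exact (Quotient.out_eq j).symm.trans (e.trans (Quotient.out_eq j'))

end Fermat.Agent.S55.helper65
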