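import Mathlib
import Fermat.Agent.S55.helper65_Ext

/-!
# S55 module A: the four windows of the four lemma (helper65)

For a paired split extension `E : PExt A₁ A A₂ B₂ B B₁ C` with `A`, `B` smooth and a trace
functional killing cone coboundaries: `Claim φ₁ ∧ Claim φ₂ → Claim φ`.
-/

set_option autoImplicit false

universe u

open groupCohomology

noncomputable section

namespace Fermat.Agent.S55.helper65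

open Fermat.Agent.S55

variable {k G : Type u} [Field k] [Group G]

namespace PExt

variable {A₁ A A₂ B₂ B B₁ C : Rep.{u} k G} (E : PExt A₁ A A₂ B₂ B B₁ C)
variable {𝒩 : Levels G} {ι : Type} (L : LocalData G 𝒩 ι)
variable (tr : CcAmb3 L C →ₗ[k] k) (htr : ∀ c ∈ Bc3 L C, tr c = 0)
include htr

/-- Window 1: `β⁰` is surjective for the middle term. -/
theorem surj0 (hA : IsSmooth 𝒩 A) (hB : IsSmooth 𝒩 B) (h₁ : Claim L E.φ₁ tr)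
    (h₂ : Claim L E.φ₂ tr) (ψ : CcAmb3 L B →ₗ[k] k) (hψ : ∀ y ∈ Bc3 L B, ψ y = 0) :
    ∃ a ∈ H0 A, ∀ y ∈ Zc3 L B, ψ y = tr (cupc₀₃ L E.φ a y) := by
  -- step 1: the functional on `B₂`
  obtain ⟨a₂, ha₂, hψ₂⟩ := h₂.surj0 (ψ ∘ₗ mapc₃ L E.j)
    (fun y hy => hψ _ (E.j_mem_Bc3 L hy))
  -- step 2: the connecting class is trivial
  have hx₁ : E.δ₀₁ a₂ ∈ B1 A₁ := by
    refine h₁.inj1 _ (E.δ₀₁_mem hA ha₂) (fun y₁ hy₁ => ?_)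
    rw [E.tr_δ₀₁ L tr htr ha₂ hy₁, ← hψ₂ _ (E.δc₂₃_mem L hB hy₁), LinearMap.comp_apply,
      E.j_δc₂₃ L hy₁, neg_eq_zero]
    exact hψ _ ((mem_Bc3_iff L _).mpr
      ⟨_, mapc₂_mem L E.s ((mem_Zc2_iff L _).mp hy₁).1, rfl⟩)
  obtain ⟨a₁, ha₁⟩ := (mem_B1_iff _).mp hx₁
  -- step 3: an invariant lift of `a₂`
  set b : A := E.t a₂ - E.i a₁ with hb
  have hbH : b ∈ H0 A := by
    rw [mem_H0_iff, hb, map_sub, d01_map E.hi, ha₁, E.i_δ₀₁ ha₂, sub_self]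
  have hqb : E.q b = a₂ := by
    rw [hb, map_sub, E.qt, E.qi, sub_zero]
  -- step 4: the corrected functional comes from `B₁`
  set ψ' : CcAmb3 L B →ₗ[k] k := ψ - tr ∘ₗ cupB₀₃ L E.φ b with hψ'
  have hψ'B : ∀ w ∈ Cc2 L B, ψ' (dc₂₃ L B w) = 0 := by
    intro w hw
    rw [hψ', LinearMap.sub_apply, LinearMap.comp_apply, cupB₀₃_apply,
      hψ _ ((mem_Bc3_iff L _).mpr ⟨w, hw, rfl⟩), tr_cupc₀₃_dc L E.φ tr htr hbH hw, sub_zero]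
  have hψ'j : ∀ z ∈ Zc3 L B₂, ψ' (mapc₃ L E.j z) = 0 := by
    intro z hz
    have := hψ₂ z hz
    rw [LinearMap.comp_apply] at this
    rw [hψ', LinearMap.sub_apply, LinearMap.comp_apply, cupB₀₃_apply, this,
      ← cupc₀₃_nat L E.φ E.φ₂ E.c₂, hqb, sub_self]
  obtain ⟨ψ₁, hψ₁B, hψ₁⟩ := exists_functional (mapc₃ L E.p ∘ₗ (Zc3 L B).subtype) (Bc3 L B₁)
    (ψ' ∘ₗ (Zc3 L B).subtype) (by
      rintro ⟨y, hy⟩ hpy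
      obtain ⟨w, hw, z, hz, rfl⟩ := E.exact_c₃ L hB hy hpy
      change ψ' (dc₂₃ L B w + mapc₃ L E.j z) = 0
      rw [map_add, hψ'B w hw, hψ'j z hz, add_zero])
  -- step 5: use the claim for `A₁`
  obtain ⟨a₁', ha₁', hψ₁'⟩ := h₁.surj0 ψ₁ hψ₁B
  refine ⟨b + E.i a₁', (H0 A).add_mem hbH (E.i_mem_H0 ha₁'), fun y hy => ?_⟩
  have e1 : ψ₁ (mapc₃ L E.p y) = ψ' y := hψ₁ ⟨y, hy⟩
  have e2 := hψ₁' _ (E.p_mem_Zc3 L hy)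
  rw [← cupc₀₃_nat L E.φ₁ E.φ E.c₁, e1, hψ', LinearMap.sub_apply, LinearMap.comp_apply,
    cupB₀₃_apply] at e2
  rw [← cupB₀₃_apply, map_add, LinearMap.add_apply, map_add, cupB₀₃_apply, cupB₀₃_apply, ← e2]
  abel


/-- Window 2: `β¹` is injective for the middle term. -/
theorem inj1 (hA : IsSmooth 𝒩 A) (hB : IsSmooth 𝒩 B) (h₁ : Claim L E.φ₁ tr)
    (h₂ : Claim L E.φ₂ tr) (x : G → A) (hx : x ∈ Z1 𝒩 A)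
    (hxy : ∀ y ∈ Zc2 L B, tr (cupc₁₂ L E.φ x y) = 0) : x ∈ B1 A := by
  -- step 1: the image in `A₂` is a coboundary
  have hqx : (fun g => E.q (x g)) ∈ B1 A₂ := by
    refine h₂.inj1 _ (E.q_mem_Z1 hx) (fun y₂ hy₂ => ?_)
    rw [cupc₁₂_nat L E.φ E.φ₂ E.hj E.c₂]
    exact hxy _ (E.j_mem_Zc2 L hy₂)
  obtain ⟨a₂, ha₂⟩ := (mem_B1_iff _).mp hqx
  -- step 2: modify `x` into a cocycle of `A₁`
  obtain ⟨x₁, hx₁, hxe⟩ := E.exact₁ hx hA ha₂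
  -- step 3: the functional `y₁ ↦ tr (x₁ ∪ y₁)` comes from `H_c^3(B₂)`
  have hF : ∀ y ∈ Zc2 L B, tr (cupc₁₂ L E.φ₁ x₁ (mapc₂ L E.p y)) = 0 := by
    intro y hy
    rw [← cupc₁₂_nat L E.φ₁ E.φ E.hp E.c₁]
    have h1 := hxy y hy
    rw [hxe, ← cupB₁₂_apply, map_add, LinearMap.add_apply, map_add, cupB₁₂_apply,
      cupB₁₂_apply, tr_cupc₁₂_d01 L E.φ tr htr _ hy, zero_add] at h1
    exact h1
  obtain ⟨ψ₂, hψ₂B, hψ₂⟩ := exists_functional (E.δc₂₃ L ∘ₗ (Zc2 L B₁).subtype) (Bc3 L B₂)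
    ((tr ∘ₗ cupB₁₂ L E.φ₁ x₁) ∘ₗ (Zc2 L B₁).subtype) (by
      rintro ⟨y₁, hy₁⟩ hδ
      obtain ⟨y, hy, rfl⟩ := E.exact_c₂₁ L hy₁ hδ
      exact hF y hy)
  -- step 4: realise it by an invariant of `A₂`
  obtain ⟨a₂', ha₂', hψ₂'⟩ := h₂.surj0 (-ψ₂) (fun y hy => by
    rw [LinearMap.neg_apply, hψ₂B y hy, neg_zero])
  -- step 5: compare with the connecting class
  have hdiff : x₁ - E.δ₀₁ a₂' ∈ B1 A₁ := by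
    refine h₁.inj1 _ ((Z1 𝒩 A₁).sub_mem hx₁ (E.δ₀₁_mem hA ha₂')) (fun y₁ hy₁ => ?_)
    have e1 := E.tr_δ₀₁ L tr htr ha₂' hy₁
    have e2 := hψ₂' _ (E.δc₂₃_mem L hB hy₁)
    have e3 : ψ₂ (E.δc₂₃ L y₁) = tr (cupc₁₂ L E.φ₁ x₁ y₁) := hψ₂ ⟨y₁, hy₁⟩
    rw [LinearMap.neg_apply, e3] at e2
    rw [← cupB₁₂_apply, map_sub, LinearMap.sub_apply, map_sub, cupB₁₂_apply, cupB₁₂_apply, e1,
      ← e2, neg_neg, sub_self]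
  obtain ⟨a₁, ha₁⟩ := (mem_B1_iff _).mp hdiff
  -- step 6: assemble
  refine (mem_B1_iff _).mpr ⟨E.t a₂ + E.t a₂' + E.i a₁, ?_⟩
  have hx₁e : x₁ = E.δ₀₁ a₂' + (d₀₁ A₁).hom a₁ := by
    rw [ha₁]; abel
  rw [map_add, map_add, d01_map E.hi a₁, ← E.i_δ₀₁ ha₂', hxe, hx₁e]
  funext g
  simp only [Pi.add_apply, map_add]
  abel

/-- Window 3: `β¹` is surjective for the middle term. -/
theorem surj1 (hA : IsSmooth 𝒩 A) (hB : IsSmooth 𝒩 B) (h₁ : Claim L E.φ₁ tr)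
    (h₂ : Claim L E.φ₂ tr) (ψ : CcAmb2 L B →ₗ[k] k) (hψ : ∀ y ∈ Bc2 L B, ψ y = 0) :
    ∃ x ∈ Z1 𝒩 A, ∀ y ∈ Zc2 L B, ψ y = tr (cupc₁₂ L E.φ x y) := by
  -- step 1
  obtain ⟨x₂, hx₂, hψ₂⟩ := h₂.surj1 (ψ ∘ₗ mapc₂ L E.j)
    (fun y hy => hψ _ (E.j_mem_Bc2 L hy))
  have hx₂' := (mem_Z1_iff _).mp hx₂
  -- step 2: the connecting class is trivial
  have hw₁ : E.δ₁₂ x₂ ∈ B2 𝒩 A₁ := by
    refine h₁.inj2 _ (E.δ₁₂_mem hA hx₂) (fun y₁ hy₁ => ?_)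
    rw [E.tr_δ₁₂ L tr htr hB hx₂ hy₁, ← hψ₂ _ (E.δc₁₂_mem L hB hy₁), LinearMap.comp_apply,
      E.j_δc₁₂ L hy₁]
    exact hψ _ ((mem_Bc2_iff L _).mpr
      ⟨_, mapc₁_mem L E.s ((mem_Zc1_iff L _).mp hy₁).1, rfl⟩)
  obtain ⟨u₁, hu₁, hu₁e⟩ := (mem_B2_iff _).mp hw₁
  -- step 3: a cocycle lifting `x₂`
  set x : G → A := (fun g => E.t (x₂ g)) - fun g => E.i (u₁ g) with hx
  have ht : (fun g => E.t (x₂ g)) ∈ C1 𝒩 A := comp_mem_C1 E.t hx₂'.1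
  have hiu : (fun g => E.i (u₁ g)) ∈ C1 𝒩 A := comp_mem_C1 E.i hu₁
  have hxZ : x ∈ Z1 𝒩 A := by
    rw [mem_Z1_iff]
    refine ⟨(C1 𝒩 A).sub_mem ht hiu, ?_⟩
    rw [hx, map_sub, d12_map E.hi u₁, hu₁e, E.i_δ₁₂ hx₂, sub_self]
  have hqx : (fun g => E.q (x g)) = x₂ := by
    funext g
    simp only [hx, Pi.sub_apply, map_sub, E.qt, E.qi, sub_zero]
  -- step 4: the corrected functional comes from `B₁`
  set ψ' : CcAmb2 L B →ₗ[k] k := ψ - tr ∘ₗ cupB₁₂ L E.φ x with hψ'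
  have hψ'B : ∀ w ∈ Cc1 L B, ψ' (dc₁₂ L B w) = 0 := by
    intro w hw
    rw [hψ', LinearMap.sub_apply, LinearMap.comp_apply, cupB₁₂_apply,
      hψ _ ((mem_Bc2_iff L _).mpr ⟨w, hw, rfl⟩), tr_cupc₁₂_dc L E.φ tr htr hB hxZ hw, sub_zero]
  have hψ'j : ∀ z ∈ Zc2 L B₂, ψ' (mapc₂ L E.j z) = 0 := by
    intro z hz
    have := hψ₂ z hz
    rw [LinearMap.comp_apply] at this
    rw [hψ', LinearMap.sub_apply, LinearMap.comp_apply, cupB₁₂_apply, this,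
      ← cupc₁₂_nat L E.φ E.φ₂ E.hj E.c₂, hqx, sub_self]
  obtain ⟨ψ₁, hψ₁B, hψ₁⟩ := exists_functional (mapc₂ L E.p ∘ₗ (Zc2 L B).subtype) (Bc2 L B₁)
    (ψ' ∘ₗ (Zc2 L B).subtype) (by
      rintro ⟨y, hy⟩ hpy
      obtain ⟨w, hw, z, hz, rfl⟩ := E.exact_c₂ L hB hy hpy
      change ψ' (dc₁₂ L B w + mapc₂ L E.j z) = 0
      rw [map_add, hψ'B w hw, hψ'j z hz, add_zero])
  -- step 5
  obtain ⟨x₁, hx₁, hψ₁'⟩ := h₁.surj1 ψ₁ hψ₁B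
  refine ⟨x + fun g => E.i (x₁ g), (Z1 𝒩 A).add_mem hxZ (E.i_mem_Z1 hx₁), fun y hy => ?_⟩
  have e1 : ψ₁ (mapc₂ L E.p y) = ψ' y := hψ₁ ⟨y, hy⟩
  have e2 := hψ₁' _ (E.p_mem_Zc2 L hy)
  rw [← cupc₁₂_nat L E.φ₁ E.φ E.hp E.c₁, e1, hψ', LinearMap.sub_apply, LinearMap.comp_apply,
    cupB₁₂_apply] at e2
  rw [← cupB₁₂_apply, map_add, LinearMap.add_apply, map_add, cupB₁₂_apply, cupB₁₂_apply, ← e2]
  abel

/-- Window 4: `β²` is injective for the middle term. -/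
theorem inj2 (hA : IsSmooth 𝒩 A) (hB : IsSmooth 𝒩 B) (h₁ : Claim L E.φ₁ tr)
    (h₂ : Claim L E.φ₂ tr) (x : G × G → A) (hx : x ∈ Z2 𝒩 A)
    (hxy : ∀ y ∈ Zc1 L B, tr (cupc₂₁ L E.φ x y) = 0) : x ∈ B2 𝒩 A := by
  -- step 1
  have hqx : (fun g => E.q (x g)) ∈ B2 𝒩 A₂ := by
    refine h₂.inj2 _ (E.q_mem_Z2 hx) (fun y₂ hy₂ => ?_)
    rw [cupc₂₁_nat L E.φ E.φ₂ E.hj E.c₂]
    exact hxy _ (E.j_mem_Zc1 L hy₂)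
  obtain ⟨u₂, hu₂, hu₂e⟩ := (mem_B2_iff _).mp hqx
  -- step 2
  obtain ⟨w₁, hw₁, hxe⟩ := E.exact₂ hx hA hu₂ hu₂e
  have htu : (fun g => E.t (u₂ g)) ∈ C1 𝒩 A := comp_mem_C1 E.t hu₂
  -- step 3
  have hF : ∀ y ∈ Zc1 L B, tr (cupc₂₁ L E.φ₁ w₁ (mapc₁ L E.p y)) = 0 := by
    intro y hy
    rw [← cupc₂₁_nat L E.φ₁ E.φ E.hp E.c₁]
    have h1 := hxy y hy
    rw [hxe, ← cupB₂₁_apply, map_add, LinearMap.add_apply, map_add, cupB₂₁_apply,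
      cupB₂₁_apply, tr_cupc₂₁_d12 L E.φ tr htr hB htu hy, zero_add] at h1
    exact h1
  obtain ⟨ψ₂, hψ₂B, hψ₂⟩ := exists_functional (E.δc₁₂ L ∘ₗ (Zc1 L B₁).subtype) (Bc2 L B₂)
    ((tr ∘ₗ cupB₂₁ L E.φ₁ w₁) ∘ₗ (Zc1 L B₁).subtype) (by
      rintro ⟨y₁, hy₁⟩ hδ
      obtain ⟨y, hy, rfl⟩ := E.exact_c₁₁ L hy₁ hδ
      exact hF y hy)
  -- step 4
  obtain ⟨x₂, hx₂, hψ₂'⟩ := h₂.surj1 ψ₂ hψ₂B
  have hx₂' := (mem_Z1_iff _).mp hx₂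
  -- step 5
  have hdiff : w₁ - E.δ₁₂ x₂ ∈ B2 𝒩 A₁ := by
    refine h₁.inj2 _ ((Z2 𝒩 A₁).sub_mem hw₁ (E.δ₁₂_mem hA hx₂)) (fun y₁ hy₁ => ?_)
    have e1 := E.tr_δ₁₂ L tr htr hB hx₂ hy₁
    have e2 := hψ₂' _ (E.δc₁₂_mem L hB hy₁)
    have e3 : ψ₂ (E.δc₁₂ L y₁) = tr (cupc₂₁ L E.φ₁ w₁ y₁) := hψ₂ ⟨y₁, hy₁⟩
    rw [e3] at e2
    rw [← cupB₂₁_apply, map_sub, LinearMap.sub_apply, map_sub, cupB₂₁_apply, cupB₂₁_apply, e1,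
      ← e2, sub_self]
  obtain ⟨u₁, hu₁, hu₁e⟩ := (mem_B2_iff _).mp hdiff
  -- step 6
  have htx : (fun g => E.t (x₂ g)) ∈ C1 𝒩 A := comp_mem_C1 E.t hx₂'.1
  have hiu : (fun g => E.i (u₁ g)) ∈ C1 𝒩 A := comp_mem_C1 E.i hu₁
  refine (mem_B2_iff _).mpr ⟨(fun g => E.t (u₂ g)) + (fun g => E.t (x₂ g)) + fun g => E.i (u₁ g),
    (C1 𝒩 A).add_mem ((C1 𝒩 A).add_mem htu htx) hiu, ?_⟩
  have hw₁e : w₁ = E.δ₁₂ x₂ + (d₁₂ A₁).hom u₁ := by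
    rw [hu₁e]; abel
  rw [map_add, map_add, d12_map E.hi u₁, ← E.i_δ₁₂ hx₂, hxe, hw₁e]
  funext g
  simp only [Pi.add_apply, map_add]
  abel

/-- **The CLAIM is closed under extensions.** -/
theorem claim (hA : IsSmooth 𝒩 A) (hB : IsSmooth 𝒩 B) (h₁ : Claim L E.φ₁ tr)
    (h₂ : Claim L E.φ₂ tr) : Claim L E.φ tr where
  surj0 := E.surj0 L tr htr hA hB h₁ h₂
  inj1 := E.inj1 L tr htr hA hB h₁ h₂
  surj1 := E.surj1 L tr htr hA hB h₁ h₂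
  inj2 := E.inj2 L tr htr hA hB h₁ h₂

end PExt

end Fermat.Agent.S55.helper65
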