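import Fermat.Agent.S55.AInterface

/-!
# S55, module A (helper67): private basics for the dévissage window `DevSurj1`

Level preservation of `d`, restriction, cone differentials and cup products; chain-map
property of `ccmap`; the Leibniz rule
`dc₂₃ (x ∪ y) = (d x) ∪ y - x ∪ (dc y)` for `x ∈ C^1(A)`, `y ∈ C_c^1(B)`;
functoriality of the cone cup products.
-/

set_option autoImplicit false

universe u

open groupCohomology

noncomputable section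

namespace Fermat.Agent.S55.helper67

variable {k G : Type u} [Field k] [Group G] {𝒩 : Levels G} {ι : Type} (L : LocalData G 𝒩 ι)

/-! ### level constancy -/

lemma isLev₁_comp {H : Type u} [Group H] {𝒩' : Levels H} {X Y : Type*} {f : H → X}
    (hf : IsLev₁ 𝒩' f) (φ : X → Y) : IsLev₁ 𝒩' (fun g => φ (f g)) := by
  obtain ⟨N, hN, h⟩ := hf
  exact ⟨N, hN, fun g s hs => by simp only [h g s hs]⟩

lemma isLev₂_comp {H : Type u} [Group H] {𝒩' : Levels H} {X Y : Type*} {f : H × H → X}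
    (hf : IsLev₂ 𝒩' f) (φ : X → Y) : IsLev₂ 𝒩' (fun g => φ (f g)) := by
  obtain ⟨N, hN, h⟩ := hf
  exact ⟨N, hN, fun g₁ g₂ s₁ hs₁ s₂ hs₂ => by simp only [h g₁ g₂ s₁ hs₁ s₂ hs₂]⟩

/-- a common level below two levels -/
lemma exists_level_le (𝒩' : Levels G) {N₁ N₂ : Subgroup G} (h₁ : N₁ ∈ 𝒩'.mem)
    (h₂ : N₂ ∈ 𝒩'.mem) : ∃ N ∈ 𝒩'.mem, N ≤ N₁ ∧ N ≤ N₂ := by
  obtain ⟨N, hN, hle⟩ := 𝒩'.directed N₁ h₁ N₂ h₂
  exact ⟨N, hN, hle.trans inf_le_left, hle.trans inf_le_right⟩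

/-- restriction of a level-constant 1-cochain is level-constant -/
lemma res₁_mem_C1 (A : Rep.{u} k G) (v : ι) {x : G → A} (hx : x ∈ C1 𝒩 A) :
    res₁ L A v x ∈ C1 (L.lev v) (L.loc A v) := by
  obtain ⟨N, hN, h⟩ := hx
  obtain ⟨N', hN', hle⟩ := L.compat v N hN
  refine ⟨N', hN', fun g s hs => ?_⟩
  simp only [res₁_apply, map_mul]
  exact h _ _ (hle hs)

/-- `d₀₁` of an element of a smooth module, restricted to a local group, is level-constant -/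
lemma d₀₁_loc_mem_C1 {A : Rep.{u} k G} (hA : IsSmooth 𝒩 A) (v : ι) (m : L.loc A v) :
    (d₀₁ (L.loc A v)).hom m ∈ C1 (L.lev v) (L.loc A v) := by
  obtain ⟨N, hN, h⟩ := hA
  obtain ⟨N', hN', hle⟩ := L.compat v N hN
  refine ⟨N', hN', fun g s hs => ?_⟩
  have hs' : L.r v s ∈ N := hle hs
  simp only [d₀₁_hom_apply]
  change A.ρ (L.r v (g * s)) m - m = A.ρ (L.r v g) m - m
  rw [map_mul, map_mul, Module.End.mul_apply, h _ hs' m]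

/-- `d₁₂` of a level-constant cochain with values in a smooth module is level-constant -/
lemma d₁₂_mem_C2 {A : Rep.{u} k G} (hA : IsSmooth 𝒩 A) {x : G → A} (hx : x ∈ C1 𝒩 A) :
    (d₁₂ A).hom x ∈ C2 𝒩 A := by
  obtain ⟨N₁, hN₁, h₁⟩ := hA
  obtain ⟨N₂, hN₂, h₂⟩ := hx
  obtain ⟨N, hN, hle₁, hle₂⟩ := exists_level_le 𝒩 hN₁ hN₂
  have hnorm : N.Normal := 𝒩.normal N hN
  refine ⟨N, hN, fun g₁ g₂ s₁ hs₁ s₂ hs₂ => ?_⟩
  simp only [d₁₂_hom_apply]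
  have e1 : x (g₂ * s₂) = x g₂ := h₂ _ _ (hle₂ hs₂)
  have e2 : x (g₁ * s₁) = x g₁ := h₂ _ _ (hle₂ hs₁)
  have e3 : x (g₁ * s₁ * (g₂ * s₂)) = x (g₁ * g₂) := by
    have hc : g₂⁻¹ * s₁ * g₂ * s₂ ∈ N := by
      refine N.mul_mem ?_ hs₂
      have := hnorm.conj_mem s₁ hs₁ g₂⁻¹
      simpa using this
    have : g₁ * s₁ * (g₂ * s₂) = g₁ * g₂ * (g₂⁻¹ * s₁ * g₂ * s₂) := by group
    rw [this]
    exact h₂ _ _ (hle₂ hc)
  rw [e1, e2, e3, map_mul, Module.End.mul_apply, h₁ _ (hle₁ hs₁)]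

/-- the cone differential `dc₁₂` preserves level-constancy (smooth coefficients) -/
lemma dc₁₂_mem_Cc2 {A : Rep.{u} k G} (hA : IsSmooth 𝒩 A) {y : CcAmb1 L A} (hy : y ∈ Cc1 L A) :
    dc₁₂ L A y ∈ Cc2 L A := by
  have hy1 : y.1 ∈ C1 𝒩 A := (Submodule.mem_prod.1 hy).1
  refine Submodule.mem_prod.2 ⟨d₁₂_mem_C2 hA hy1, ?_⟩
  refine Submodule.mem_pi.2 fun v _ => ?_
  exact Submodule.sub_mem _ (res₁_mem_C1 L A v hy1) (d₀₁_loc_mem_C1 L hA v (y.2 v))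

/-- `ccmap₁` preserves level-constancy -/
lemma ccmap₁_mem_Cc1 {A A' : Rep.{u} k G} (f : A →ₗ[k] A') {y : CcAmb1 L A} (hy : y ∈ Cc1 L A) :
    ccmap₁ L f y ∈ Cc1 L A' := by
  have hy1 : y.1 ∈ C1 𝒩 A := (Submodule.mem_prod.1 hy).1
  exact Submodule.mem_prod.2 ⟨isLev₁_comp hy1 f, Submodule.mem_top⟩

/-- `ccmap₂` preserves level-constancy -/
lemma ccmap₂_mem_Cc2 {A A' : Rep.{u} k G} (f : A →ₗ[k] A') {y : CcAmb2 L A} (hy : y ∈ Cc2 L A) :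
    ccmap₂ L f y ∈ Cc2 L A' := by
  obtain ⟨hy1, hy2⟩ := Submodule.mem_prod.1 hy
  refine Submodule.mem_prod.2 ⟨isLev₂_comp hy1 f, ?_⟩
  refine Submodule.mem_pi.2 fun v _ => ?_
  exact isLev₁_comp (Submodule.mem_pi.1 hy2 v (Set.mem_univ v)) f

/-! ### chain maps -/

/-- an equivariant map commutes with `d₁₂` -/
lemma d₁₂_comp {A A' : Rep.{u} k G} (f : EqHom A A') (x : G → A) :
    (d₁₂ A').hom (fun g => f.f (x g)) = fun g => f.f ((d₁₂ A).hom x g) := by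
  funext g
  simp only [d₁₂_hom_apply, map_add, map_sub, f.comm]

/-- an equivariant map commutes with `d₂₃` -/
lemma d₂₃_comp {A A' : Rep.{u} k G} (f : EqHom A A') (x : G × G → A) :
    (d₂₃ A').hom (fun g => f.f (x g)) = fun g => f.f ((d₂₃ A).hom x g) := by
  funext g
  simp only [d₂₃_hom_apply, map_add, map_sub, f.comm]

/-- `ccmap` is a chain map in degree `1 → 2` -/
lemma dc₁₂_ccmap₁ {A A' : Rep.{u} k G} (f : EqHom A A') (y : CcAmb1 L A) :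
    dc₁₂ L A' (ccmap₁ L f.f y) = ccmap₂ L f.f (dc₁₂ L A y) := by
  refine Prod.ext ?_ ?_
  · exact d₁₂_comp f y.1
  · funext v s
    change f.f (y.1 (L.r v s)) - (A'.ρ (L.r v s) (f.f (y.2 v)) - f.f (y.2 v)) =
      f.f (y.1 (L.r v s) - (A.ρ (L.r v s) (y.2 v) - y.2 v))
    simp only [map_sub, f.comm]

/-- `ccmap` is a chain map in degree `2 → 3` -/
lemma dc₂₃_ccmap₂ {A A' : Rep.{u} k G} (f : EqHom A A') (y : CcAmb2 L A) :
    dc₂₃ L A' (ccmap₂ L f.f y) = ccmap₃ L f.f (dc₂₃ L A y) := by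
  refine Prod.ext ?_ ?_
  · exact d₂₃_comp f y.1
  · funext v s
    change f.f (y.1 (L.r v s.1, L.r v s.2)) -
        (A'.ρ (L.r v s.1) (f.f (y.2 v s.2)) - f.f (y.2 v (s.1 * s.2)) + f.f (y.2 v s.1)) =
      f.f (y.1 (L.r v s.1, L.r v s.2) -
        (A.ρ (L.r v s.1) (y.2 v s.2) - y.2 v (s.1 * s.2) + y.2 v s.1))
    simp only [map_sub, map_add, f.comm]

/-- `ccmap₂` maps cone cocycles to cone cocycles -/
lemma ccmap₂_mem_Zc2 {A A' : Rep.{u} k G} (f : EqHom A A') {y : CcAmb2 L A} (hy : y ∈ Zc2 L A) :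
    ccmap₂ L f.f y ∈ Zc2 L A' := by
  refine ⟨ccmap₂_mem_Cc2 L f.f hy.1, ?_⟩
  have h0 : dc₂₃ L A y = 0 := hy.2
  change dc₂₃ L A' (ccmap₂ L f.f y) = 0
  rw [dc₂₃_ccmap₂, h0, map_zero]

/-- `ccmap₂` maps cone coboundaries to cone coboundaries -/
lemma ccmap₂_mem_Bc2 {A A' : Rep.{u} k G} (f : EqHom A A') {y : CcAmb2 L A} (hy : y ∈ Bc2 L A) :
    ccmap₂ L f.f y ∈ Bc2 L A' := by
  obtain ⟨w, hw, rfl⟩ := hy
  exact ⟨ccmap₁ L f.f w, ccmap₁_mem_Cc1 L f.f hw, dc₁₂_ccmap₁ L f w⟩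

/-! ### the cone complex and the Leibniz rule -/


/-- the cone complex is a complex: `dc₂₃ ∘ dc₁₂ = 0` -/
lemma dc₂₃_dc₁₂ (A : Rep.{u} k G) (y : CcAmb1 L A) : dc₂₃ L A (dc₁₂ L A y) = 0 := by
  refine Prod.ext ?_ ?_
  · funext g
    obtain ⟨g, h, j⟩ := g
    change (d₂₃ A).hom ((d₁₂ A).hom y.1) (g, h, j) = 0
    simp only [d₂₃_hom_apply, d₁₂_hom_apply, map_sub, map_add, map_mul, Module.End.mul_apply,
      mul_assoc]
    abel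
  · funext v s
    obtain ⟨s, t⟩ := s
    change (d₁₂ A).hom y.1 (L.r v s, L.r v t) -
        (A.ρ (L.r v s) (y.1 (L.r v t) - (A.ρ (L.r v t) (y.2 v) - y.2 v))
          - (y.1 (L.r v (s * t)) - (A.ρ (L.r v (s * t)) (y.2 v) - y.2 v))
          + (y.1 (L.r v s) - (A.ρ (L.r v s) (y.2 v) - y.2 v))) = 0
    simp only [d₁₂_hom_apply, map_sub, map_mul, Module.End.mul_apply]
    abel


/-- Leibniz rule for the cone cup product `C^1(A) × C_c^1(B) → C_c^2(C)`. -/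
lemma dc₂₃_cupc₁₁ {A B C : Rep.{u} k G} (φ : EqPairing A B C) (x : G → A) (y : CcAmb1 L B) :
    dc₂₃ L C (cupc₁₁ L φ x y) =
      cupc₂₁ L φ ((d₁₂ A).hom x) y - cupc₁₂ L φ x (dc₁₂ L B y) := by
  refine Prod.ext ?_ ?_
  · funext g
    obtain ⟨g, h, j⟩ := g
    change (d₂₃ C).hom (fun g => φ.φ (x g.1) (B.ρ g.1 (y.1 g.2))) (g, h, j) =
      φ.φ ((d₁₂ A).hom x (g, h)) (B.ρ (g * h) (y.1 j)) -
        φ.φ (x g) (B.ρ g ((d₁₂ B).hom y.1 (h, j)))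
    simp only [d₂₃_hom_apply, d₁₂_hom_apply, ← φ.equivariant, map_mul, Module.End.mul_apply,
      map_sub, map_add, LinearMap.sub_apply, LinearMap.add_apply]
    abel
  · funext v s
    obtain ⟨s, t⟩ := s
    change φ.φ (x (L.r v s)) (B.ρ (L.r v s) (y.1 (L.r v t))) -
        (C.ρ (L.r v s) (- φ.φ (x (L.r v t)) (B.ρ (L.r v t) (y.2 v)))
          - (- φ.φ (x (L.r v (s * t))) (B.ρ (L.r v (s * t)) (y.2 v)))
          + (- φ.φ (x (L.r v s)) (B.ρ (L.r v s) (y.2 v)))) =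
      φ.φ ((d₁₂ A).hom x (L.r v s, L.r v t)) (B.ρ (L.r v s * L.r v t) (y.2 v)) -
        (- φ.φ (x (L.r v s)) (B.ρ (L.r v s)
          (y.1 (L.r v t) - (B.ρ (L.r v t) (y.2 v) - y.2 v))))
    simp only [d₁₂_hom_apply, ← φ.equivariant, map_mul, Module.End.mul_apply,
      map_sub, map_add, map_neg, LinearMap.sub_apply, LinearMap.add_apply]
    abel

/-- the cone cup product `C^1(A) × C_c^1(B) → C_c^2(C)` preserves level-constancy -/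
lemma cupc₁₁_mem_Cc2 {A B C : Rep.{u} k G} (φ : EqPairing A B C) (hB : IsSmooth 𝒩 B)
    {x : G → A} (hx : x ∈ C1 𝒩 A) {y : CcAmb1 L B} (hy : y ∈ Cc1 L B) :
    cupc₁₁ L φ x y ∈ Cc2 L C := by
  have hy1 : y.1 ∈ C1 𝒩 B := (Submodule.mem_prod.1 hy).1
  obtain ⟨N₁, hN₁, h₁⟩ := hB
  obtain ⟨N₂, hN₂, h₂⟩ := hx
  obtain ⟨N₃, hN₃, h₃⟩ := hy1
  obtain ⟨N₄, hN₄, hle₁, hle₂⟩ := exists_level_le 𝒩 hN₁ hN₂
  obtain ⟨N, hN, hle₄, hle₃⟩ := exists_level_le 𝒩 hN₄ hN₃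
  refine Submodule.mem_prod.2 ⟨?_, ?_⟩
  · refine ⟨N, hN, fun g₁ g₂ s₁ hs₁ s₂ hs₂ => ?_⟩
    change φ.φ (x (g₁ * s₁)) (B.ρ (g₁ * s₁) (y.1 (g₂ * s₂))) = φ.φ (x g₁) (B.ρ g₁ (y.1 g₂))
    rw [h₂ _ _ (hle₂ (hle₄ hs₁)), h₃ _ _ (hle₃ hs₂), map_mul, Module.End.mul_apply,
      h₁ _ (hle₁ (hle₄ hs₁))]
  · refine Submodule.mem_pi.2 fun v _ => ?_
    obtain ⟨N', hN', hle'⟩ := L.compat v N hN
    refine ⟨N', hN', fun g s hs => ?_⟩
    have hs' : L.r v s ∈ N := hle' hs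
    change - φ.φ (x (L.r v (g * s))) (B.ρ (L.r v (g * s)) (y.2 v)) =
      - φ.φ (x (L.r v g)) (B.ρ (L.r v g) (y.2 v))
    rw [map_mul, h₂ _ _ (hle₂ (hle₄ hs')), map_mul, Module.End.mul_apply,
      h₁ _ (hle₁ (hle₄ hs'))]

/-! ### functoriality and linearity of the cone cup products -/

lemma cupc₂₁_map_left {A₁ A B B₁ C : Rep.{u} k G} (φ : EqPairing A B C) (φ₁ : EqPairing A₁ B₁ C)
    (i : A₁ →ₗ[k] A) (q : EqHom B B₁)
    (hc : ∀ (a₁ : A₁) (b : B), φ.φ (i a₁) b = φ₁.φ a₁ (q.f b))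
    (z : G × G → A₁) (y : CcAmb1 L B) :
    cupc₂₁ L φ (fun g => i (z g)) y = cupc₂₁ L φ₁ z (ccmap₁ L q.f y) := by
  refine Prod.ext ?_ ?_
  · funext g
    change φ.φ (i (z (g.1, g.2.1))) (B.ρ (g.1 * g.2.1) (y.1 g.2.2)) =
      φ₁.φ (z (g.1, g.2.1)) (B₁.ρ (g.1 * g.2.1) (q.f (y.1 g.2.2)))
    rw [hc, q.comm]
  · funext v s
    change φ.φ (i (z (L.r v s.1, L.r v s.2))) (B.ρ (L.r v s.1 * L.r v s.2) (y.2 v)) =
      φ₁.φ (z (L.r v s.1, L.r v s.2)) (B₁.ρ (L.r v s.1 * L.r v s.2) (q.f (y.2 v)))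
    rw [hc, q.comm]

lemma cupc₁₂_map_left {A₁ A B B₁ C : Rep.{u} k G} (φ : EqPairing A B C) (φ₁ : EqPairing A₁ B₁ C)
    (i : A₁ →ₗ[k] A) (q : EqHom B B₁)
    (hc : ∀ (a₁ : A₁) (b : B), φ.φ (i a₁) b = φ₁.φ a₁ (q.f b))
    (x : G → A₁) (y : CcAmb2 L B) :
    cupc₁₂ L φ (fun g => i (x g)) y = cupc₁₂ L φ₁ x (ccmap₂ L q.f y) := by
  refine Prod.ext ?_ ?_
  · funext g
    change φ.φ (i (x g.1)) (B.ρ g.1 (y.1 (g.2.1, g.2.2))) =
      φ₁.φ (x g.1) (B₁.ρ g.1 (q.f (y.1 (g.2.1, g.2.2))))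
    rw [hc, q.comm]
  · funext v s
    change - φ.φ (i (x (L.r v s.1))) (B.ρ (L.r v s.1) (y.2 v s.2)) =
      - φ₁.φ (x (L.r v s.1)) (B₁.ρ (L.r v s.1) (q.f (y.2 v s.2)))
    rw [hc, q.comm]

lemma cupc₁₂_map_right {A A₂ B B₂ C : Rep.{u} k G} (φ : EqPairing A B C) (φ₂ : EqPairing A₂ B₂ C)
    (π : A →ₗ[k] A₂) (j : EqHom B₂ B)
    (hc : ∀ (a : A) (b₂ : B₂), φ.φ a (j.f b₂) = φ₂.φ (π a) b₂)
    (x : G → A) (w : CcAmb2 L B₂) :
    cupc₁₂ L φ x (ccmap₂ L j.f w) = cupc₁₂ L φ₂ (fun g => π (x g)) w := by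
  refine Prod.ext ?_ ?_
  · funext g
    change φ.φ (x g.1) (B.ρ g.1 (j.f (w.1 (g.2.1, g.2.2)))) =
      φ₂.φ (π (x g.1)) (B₂.ρ g.1 (w.1 (g.2.1, g.2.2)))
    rw [← j.comm, hc]
  · funext v s
    change - φ.φ (x (L.r v s.1)) (B.ρ (L.r v s.1) (j.f (w.2 v s.2))) =
      - φ₂.φ (π (x (L.r v s.1))) (B₂.ρ (L.r v s.1) (w.2 v s.2))
    rw [← j.comm, hc]

/-- `y ↦ x ∪ y` as a linear map `C_c^2(B) → C_c^3(C)` -/
def cupc₁₂Lin {A B C : Rep.{u} k G} (φ : EqPairing A B C) (x : G → A) :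
    CcAmb2 L B →ₗ[k] CcAmb3 L C where
  toFun y := cupc₁₂ L φ x y
  map_add' y y' := by
    refine Prod.ext ?_ ?_
    · funext g
      change φ.φ (x g.1) (B.ρ g.1 (y.1 (g.2.1, g.2.2) + y'.1 (g.2.1, g.2.2))) =
        φ.φ (x g.1) (B.ρ g.1 (y.1 (g.2.1, g.2.2))) + φ.φ (x g.1) (B.ρ g.1 (y'.1 (g.2.1, g.2.2)))
      simp only [map_add]
    · funext v s
      change - φ.φ (x (L.r v s.1)) (B.ρ (L.r v s.1) (y.2 v s.2 + y'.2 v s.2)) =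
        - φ.φ (x (L.r v s.1)) (B.ρ (L.r v s.1) (y.2 v s.2)) +
          - φ.φ (x (L.r v s.1)) (B.ρ (L.r v s.1) (y'.2 v s.2))
      simp only [map_add, neg_add]
  map_smul' c y := by
    refine Prod.ext ?_ ?_
    · funext g
      change φ.φ (x g.1) (B.ρ g.1 (c • y.1 (g.2.1, g.2.2))) =
        c • φ.φ (x g.1) (B.ρ g.1 (y.1 (g.2.1, g.2.2)))
      simp only [map_smul]
    · funext v s
      change - φ.φ (x (L.r v s.1)) (B.ρ (L.r v s.1) (c • y.2 v s.2)) =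
        c • - φ.φ (x (L.r v s.1)) (B.ρ (L.r v s.1) (y.2 v s.2))
      simp only [map_smul, smul_neg]

@[simp] lemma cupc₁₂Lin_apply {A B C : Rep.{u} k G} (φ : EqPairing A B C) (x : G → A)
    (y : CcAmb2 L B) : cupc₁₂Lin L φ x y = cupc₁₂ L φ x y := rfl

lemma cupc₁₂_add_left {A B C : Rep.{u} k G} (φ : EqPairing A B C) (x x' : G → A)
    (y : CcAmb2 L B) :
    cupc₁₂ L φ (fun g => x g + x' g) y = cupc₁₂ L φ x y + cupc₁₂ L φ x' y := by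
  refine Prod.ext ?_ ?_
  · funext g
    change φ.φ (x g.1 + x' g.1) (B.ρ g.1 (y.1 (g.2.1, g.2.2))) =
      φ.φ (x g.1) (B.ρ g.1 (y.1 (g.2.1, g.2.2))) + φ.φ (x' g.1) (B.ρ g.1 (y.1 (g.2.1, g.2.2)))
    simp only [map_add, LinearMap.add_apply]
  · funext v s
    change - φ.φ (x (L.r v s.1) + x' (L.r v s.1)) (B.ρ (L.r v s.1) (y.2 v s.2)) =
      - φ.φ (x (L.r v s.1)) (B.ρ (L.r v s.1) (y.2 v s.2)) +
        - φ.φ (x' (L.r v s.1)) (B.ρ (L.r v s.1) (y.2 v s.2))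
    simp only [map_add, LinearMap.add_apply, neg_add]

lemma cupc₂₁_zero_left {A B C : Rep.{u} k G} (φ : EqPairing A B C) (y : CcAmb1 L B) :
    cupc₂₁ L φ (fun _ => (0 : A)) y = 0 := by
  refine Prod.ext ?_ ?_
  · funext g
    change φ.φ (0 : A) (B.ρ (g.1 * g.2.1) (y.1 g.2.2)) = 0
    simp only [map_zero, LinearMap.zero_apply]
  · funext v s
    change φ.φ (0 : A) (B.ρ (L.r v s.1 * L.r v s.2) (y.2 v)) = 0
    simp only [map_zero, LinearMap.zero_apply]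

end Fermat.Agent.S55.helper67
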