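import Fermat.Agent.S55.helper33_Rec3LocFinReal
import Fermat.Agent.S55.helper30_Rec3LocFinDisc
import Fermat.Agent.S55.helper33_Rec3SurjFin
import Fermat.Agent.S55.helper1_Symbol
import Fermat.Agent.S55.helper4_Rec3SurjChar
import Fermat.Agent.S55.helper13_Rec3SurjCrt
import Fermat.Agent.S55.helper6_Rec3SurjCyc
import Fermat.Agent.S55.helper90_Rec3Final

/-
# S55 / REC3 / LOC-SURJ (helper69, second prover of task 530)

* `exists_chiCochain_cohomologous` ([SURJ-LOC], statement of helper4's interface): a `p`-primary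
  local class at `w` is a symbol `(ψ_w, b)`, `b ∈ K_wˣ`, for every level character `ψ_w` whose
  image has order divisible by `p ^ n`.
* `loc_surj` : the field `surj` of `LocSys.Good` for `arithLocSys hF hL` (statement `loc_surj` of
  `helper90_Rec3LocInterface`), from [SURJ-LOC], `helper4.exists_char_locally_large_of`,
  `helper6.exists_pow_dvd_finrank_of_primitiveRoot` and `helper13.exists_idele_single`.
* `hypLocSurj : helper90.HypLocSurj p S`.
-/

set_option autoImplicit false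
set_option linter.style.haveILetI false
set_option linter.unusedSectionVars false
set_option linter.unusedVariables false

open groupCohomology ExtCitation

noncomputable section

namespace Fermat.Agent.S55.helper69.SurjLoc

open Fermat.Agent.S55 Fermat.Agent.S55.helper59 Fermat.Agent.S55.helper73
  Fermat.Agent.S55.helper69 Fermat.Agent.S55.helper90 Fermat.Agent.S55.helper46
  Fermat.Agent.S55.helper33

local instance factOfPrimesSurjLoc (q : Nat.Primes) : Fact (q : ℕ).Prime := ⟨q.2⟩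

local notation "Qbar" => AlgebraicClosure ℚ

variable {p : ℕ} [Fact p.Prime] {S : Finset Nat.Primes} {F : IntermediateField ℚ Qbar}
  [FiniteDimensional ℚ F] (hF : F.IsUnramifiedOutside S)
  {ι : Type} [Fintype ι] {L : LocalData (UF F) (sLevelsStr S F hF) ι} (hL : IsArith S F L)

/-- the symbol cochain `(ψ_w, b)` with values in `Ω_w` (additive notation) -/
def chiLocCochain (w : ι) (N : ℕ) (ψw : L.Gv w →* Multiplicative (ZMod N))
    (b : (PadicAlgCl (hL.q w : ℕ))ˣ) : L.Gv w × L.Gv w → (arithLocSys hF hL).Ω w :=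
  fun s => show Additive (PadicAlgCl (hL.q w : ℕ))ˣ from
    Additive.ofMul (helper8.chiCochain N ψw b s)

/-- inflation of the finite-level symbol cochain -/
lemma infl₂_chiCochain (w : ι) (M : IntermediateField (hL.Kw w) (PadicAlgCl (hL.q w : ℕ)))
    [IsGalois (hL.Kw w) M] [FiniteDimensional (hL.Kw w) M] (N : ℕ)
    (ψw : L.Gv w →* Multiplicative (ZMod N))
    (χ : (↥M ≃ₐ[hL.Kw w] ↥M) →* Multiplicative (ZMod N))
    (hχ : ∀ s, χ (hL.locRes w M s) = ψw s) (b : (↥(hL.Kw w))ˣ)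
    (f : (↥M ≃ₐ[hL.Kw w] ↥M) × (↥M ≃ₐ[hL.Kw w] ↥M) → Rep.ofAlgebraAutOnUnits (hL.Kw w) ↥M)
    (hf : ∀ x, f x = Additive.ofMul
      (helper8.chiCochain N χ (Units.map (algebraMap ↥(hL.Kw w) ↥M : ↥(hL.Kw w) →* ↥M) b) x)) :
    (locFinReal hF hL w M).infl₂ f =
      chiLocCochain hF hL w N ψw
        (Units.map (algebraMap ↥(hL.Kw w) (PadicAlgCl (hL.q w : ℕ)) :
          ↥(hL.Kw w) →* PadicAlgCl (hL.q w : ℕ)) b) := by
  funext ⟨s, t⟩
  have hs := hχ s
  have ht := hχ t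
  have h1 : (locFinReal hF hL w M).infl₂ f (s, t) =
      locIncl hF hL w M (f (hL.locRes w M s, hL.locRes w M t)) := rfl
  rw [h1, hf]
  show Additive.ofMul (Units.map (algebraMap ↥M (PadicAlgCl (hL.q w : ℕ)) :
      ↥M →* PadicAlgCl (hL.q w : ℕ))
      (helper8.chiCochain N χ (Units.map (algebraMap ↥(hL.Kw w) ↥M : ↥(hL.Kw w) →* ↥M) b)
        (hL.locRes w M s, hL.locRes w M t))) =
    Additive.ofMul (helper8.chiCochain N ψw
      (Units.map (algebraMap ↥(hL.Kw w) (PadicAlgCl (hL.q w : ℕ)) :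
        ↥(hL.Kw w) →* PadicAlgCl (hL.q w : ℕ)) b) (s, t))
  apply congrArg Additive.ofMul
  simp only [helper8.chiCochain]
  rw [hs, ht, map_pow]
  congr 1

/-- **SURJ-LOC**: a `p`-primary local class is a symbol `(ψ_w, b)` for every level character
`ψ_w` whose image has order divisible by `p ^ n`. -/
theorem exists_chiCochain_cohomologous (w : ι) (N : ℕ) (hN : 0 < N)
    (ψw : L.Gv w →* Multiplicative (ZMod N)) (hlev : ∃ N₀ ∈ (L.lev w).mem, N₀ ≤ ψw.ker)
    (n : ℕ) (hdvd : p ^ n ∣ Nat.card ψw.range)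
    (c : L.Gv w × L.Gv w → (arithLocSys hF hL).Ω w)
    (hc : c ∈ Z2 (L.lev w) ((arithLocSys hF hL).Ω w))
    (hn : p ^ n • c ∈ B2 (L.lev w) ((arithLocSys hF hL).Ω w)) :
    ∃ b : (↥(hL.Kw w))ˣ,
      c - chiLocCochain hF hL w N ψw
        (Units.map (algebraMap ↥(hL.Kw w) (PadicAlgCl (hL.q w : ℕ)) :
          ↥(hL.Kw w) →* PadicAlgCl (hL.q w : ℕ)) b) ∈
        B2 (L.lev w) ((arithLocSys hF hL).Ω w) := by
  have hfin := helper30.loc_fin hF hL w
  have hd := helper30.loc_disc hF hL w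
  obtain ⟨N₁, hN₁, h₁⟩ := exists_cocycle₂ hfin hd hc
  obtain ⟨N₂, hN₂, h₂⟩ := exists_of_mem_B2 hfin hd hn
  obtain ⟨N₀, hN₀, hψ⟩ := hlev
  obtain ⟨N₃, hN₃, hle₃⟩ := (L.lev w).directed N₁ hN₁ N₂ hN₂
  obtain ⟨N₄, hN₄, hle₄⟩ := (L.lev w).directed N₃ hN₃ N₀ hN₀
  obtain ⟨M, hMgal, hMfd, hle, -⟩ := exists_locFinReal_le hF hL w N₄ hN₄ 1 one_pos
  haveI := hMgal
  haveI := hMfd
  haveI := hL.finiteDimensional_Kw w
  have hk3 : (locFinReal hF hL w M).π.ker ≤ N₃ := hle.trans (hle₄.trans inf_le_left)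
  have hk0 : (locFinReal hF hL w M).π.ker ≤ N₀ := hle.trans (hle₄.trans inf_le_right)
  obtain ⟨f', hf'⟩ := h₁ (locFinReal hF hL w M) (hk3.trans (hle₃.trans inf_le_left))
  obtain ⟨g', hg'⟩ := h₂ (locFinReal hF hL w M) (hk3.trans (hle₃.trans inf_le_right))
  -- `p ^ n • f'` is a coboundary at the finite level
  have e1 : p ^ n • (f' : (locFinReal hF hL w M).Q × (locFinReal hF hL w M).Q →
      (locFinReal hF hL w M).M') = (d₁₂ (locFinReal hF hL w M).M').hom g' := by
    apply (locFinReal hF hL w M).infl₂_injective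
    rw [map_nsmul, hf', hg']
  have e2 : p ^ n • H2π (locFinReal hF hL w M).M' f' = 0 := by
    rw [← map_nsmul, H2π_eq_zero_iff]
    have : ((p ^ n • f' : cocycles₂ (locFinReal hF hL w M).M') :
        (locFinReal hF hL w M).Q × (locFinReal hF hL w M).Q → (locFinReal hF hL w M).M') =
        p ^ n • (f' : (locFinReal hF hL w M).Q × (locFinReal hF hL w M).Q →
          (locFinReal hF hL w M).M') := rfl
    rw [this, e1]
    exact ⟨g', rfl⟩
  -- the character at the finite level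
  have hkψ : (hL.locRes w M).ker ≤ ψw.ker := fun s hs => hψ (hk0 hs)
  obtain ⟨χ, hχ⟩ : ∃ χ : (↥M ≃ₐ[hL.Kw w] ↥M) →* Multiplicative (ZMod N),
      ∀ s, χ (hL.locRes w M s) = ψw s :=
    ⟨(hL.locRes w M).liftOfSurjective (locRes_surjective hF hL w M) ⟨ψw, hkψ⟩,
      fun s => MonoidHom.liftOfRightInverse_comp_apply _ _ _ ⟨ψw, hkψ⟩ s⟩
  have hrange : χ.range = ψw.range := by
    ext z
    constructor
    · rintro ⟨τ, rfl⟩
      obtain ⟨s, rfl⟩ := locRes_surjective hF hL w M τ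
      exact ⟨s, (hχ s).symm⟩
    · rintro ⟨s, rfl⟩
      exact ⟨hL.locRes w M s, hχ s⟩
  have hdvd' : p ^ n ∣ Nat.card χ.range := by rw [hrange]; exact hdvd
  obtain ⟨b, hb⟩ := helper33.finChi p (hL.q w : ℕ) (hL.Kw w) M N hN χ n hdvd'
    (H2π (locFinReal hF hL w M).M' f') e2
  have hcoc := helper1.isMulCocycle₂_chiCochain_field (hL.Kw w) M N χ b
  have hcl : helper8.chiClass (hL.Kw w) M N χ b =
      H2π (Rep.ofAlgebraAutOnUnits (hL.Kw w) ↥M) (cocyclesOfIsMulCocycle₂ hcoc) := by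
    unfold helper8.chiClass helper8.mulClass
    exact dif_pos hcoc
  have hb' := hb.trans hcl
  obtain ⟨h', hh'⟩ := (H2π_eq_iff _ _).1 hb'
  refine ⟨b, ?_⟩
  have key := infl₂_chiCochain hF hL w M N ψw χ hχ b
    ((cocyclesOfIsMulCocycle₂ hcoc : cocycles₂ (Rep.ofAlgebraAutOnUnits (hL.Kw w) ↥M)) :
      (↥M ≃ₐ[hL.Kw w] ↥M) × (↥M ≃ₐ[hL.Kw w] ↥M) → Rep.ofAlgebraAutOnUnits (hL.Kw w) ↥M)
    (fun x => rfl)
  have hfin2 : c - chiLocCochain hF hL w N ψw
        (Units.map (algebraMap ↥(hL.Kw w) (PadicAlgCl (hL.q w : ℕ)) :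
          ↥(hL.Kw w) →* PadicAlgCl (hL.q w : ℕ)) b) =
      (locFinReal hF hL w M).infl₂ ((d₁₂ (locFinReal hF hL w M).M').hom h') := by
    rw [hh', map_sub, hf']
    exact congrArg (fun z => c - z) key.symm
  rw [hfin2]
  exact (locFinReal hF hL w M).infl₂_mem_B2 h'

/-- **R3-LOC-SURJ**: every `p`-primary local class at `w` is the localisation of a class of
`H²(G_S, J_S)` which is locally trivial at all `w' ≠ w`. -/
theorem loc_surj (hp2 : p ≠ 2) (hpS : (⟨p, Fact.out⟩ : Nat.Primes) ∈ S)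
    (w : ι) (c : L.Gv w × L.Gv w → (arithLocSys hF hL).Ω w)
    (hc : c ∈ Z2 (L.lev w) ((arithLocSys hF hL).Ω w)) (n : ℕ)
    (hn : p ^ n • c ∈ B2 (L.lev w) ((arithLocSys hF hL).Ω w)) :
    ∃ j ∈ Z2 (sLevelsStr S F hF) (repJS S F hF),
      (arithLocSys hF hL).loc₂ w j - c ∈ B2 (L.lev w) ((arithLocSys hF hL).Ω w) ∧
      ∀ w', w' ≠ w →
        (arithLocSys hF hL).loc₂ w' j ∈ B2 (L.lev w') ((arithLocSys hF hL).Ω w') := by
  have hcyc : helper4.CycDegStatement p :=
    fun q _ n => helper6.exists_pow_dvd_finrank_of_primitiveRoot q hp2 n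
  obtain ⟨N, hN, ψ, ⟨N₀, hN₀, hψ⟩, hdvd⟩ :=
    helper4.exists_char_locally_large_of (hF := hF) hL hcyc hp2 hpS w n
  obtain ⟨N₀', hN₀', hle'⟩ := L.compat w N₀ hN₀
  have hlev : ∃ N' ∈ (L.lev w).mem, N' ≤ (ψ.comp (L.r w)).ker :=
    ⟨N₀', hN₀', fun s hs => hψ (hle' hs)⟩
  obtain ⟨b, hb⟩ :=
    exists_chiCochain_cohomologous hF hL w N hN (ψ.comp (L.r w)) hlev n hdvd c hc hn
  obtain ⟨x, hxinv, hxw, hxw'⟩ := helper13.exists_idele_single hF hL w b
  letI : MulDistribMulAction (UF F) (bigJS S F hF) := actJS S F hF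
  have hcoc := @helper1.isMulCocycle₂_chiCochain (UF F) _ (bigJS S F hF) _ (actJS S F hF) N ψ x
    (fun σ => Subtype.ext (hxinv σ))
  have hZ := (cocyclesOfIsMulCocycle₂ hcoc).2
  refine ⟨fun s => (show Additive (bigJS S F hF) from
    Additive.ofMul (helper8.chiCochain N ψ x s)), ⟨⟨N₀, hN₀, ?_⟩, ?_⟩, ?_, ?_⟩
  · intro g₁ g₂ s₁ hs₁ s₂ hs₂
    have h1 : ψ (g₁ * s₁) = ψ g₁ := by rw [map_mul, MonoidHom.mem_ker.1 (hψ hs₁), mul_one]
    have h2 : ψ (g₂ * s₂) = ψ g₂ := by rw [map_mul, MonoidHom.mem_ker.1 (hψ hs₂), mul_one]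
    show Additive.ofMul (helper8.chiCochain N ψ x (g₁ * s₁, g₂ * s₂)) =
      Additive.ofMul (helper8.chiCochain N ψ x (g₁, g₂))
    simp only [helper8.chiCochain, h1, h2]
  · exact hZ
  · have hloc : (arithLocSys hF hL).loc₂ w (fun s => (show Additive (bigJS S F hF) from
        Additive.ofMul (helper8.chiCochain N ψ x s))) =
        chiLocCochain hF hL w N (ψ.comp (L.r w))
          (Units.map (algebraMap ↥(hL.Kw w) (PadicAlgCl (hL.q w : ℕ)) :
            ↥(hL.Kw w) →* PadicAlgCl (hL.q w : ℕ)) b) := by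
      funext s
      show Additive.ofMul (locLamMul hF hL w
          (helper8.chiCochain N ψ x (L.r w s.1, L.r w s.2))) =
        Additive.ofMul (helper8.chiCochain N (ψ.comp (L.r w))
          (Units.map (algebraMap ↥(hL.Kw w) (PadicAlgCl (hL.q w : ℕ)) :
            ↥(hL.Kw w) →* PadicAlgCl (hL.q w : ℕ)) b) s)
      apply congrArg Additive.ofMul
      simp only [helper8.chiCochain, map_pow, hxw]
      rfl
    rw [hloc]
    have := neg_mem hb
    rwa [neg_sub] at this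
  · intro w' hw'
    have hloc : (arithLocSys hF hL).loc₂ w' (fun s => (show Additive (bigJS S F hF) from
        Additive.ofMul (helper8.chiCochain N ψ x s))) = 0 := by
      funext s
      show Additive.ofMul (locLamMul hF hL w'
          (helper8.chiCochain N ψ x (L.r w' s.1, L.r w' s.2))) = 0
      simp only [helper8.chiCochain, map_pow, hxw' w' hw', one_pow]
      rfl
    rw [hloc]
    exact zero_mem _

/-- **R3-LOC-SURJ** for all arithmetic local data: `helper90.HypLocSurj p S`. -/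
theorem hypLocSurj (p : ℕ) [Fact p.Prime] (S : Finset Nat.Primes) : helper90.HypLocSurj p S :=
  fun F _ hF ι _ L hL hp2 hpS ζ hζ w c hc n hn => loc_surj hF hL hp2 hpS w c hc n hn

end Fermat.Agent.S55.helper69.SurjLoc
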