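import Fermat.Agent.S55.helper15_UnramUnitCob
import Fermat.Agent.S55.helper73_GlobDefs2
import Fermat.Agent.S55.helper46_Dic
import Fermat.Agent.S55.helper17_RecSLRing
import Fermat.Agent.S55.helper71_H3SemiLoc
import Fermat.Agent.S55.helper31_J3Defs

/-
# S55 / REC3 / LOC-INJ: `H²(Gal(E/F), U_q) = 0` for unramified `q` (helper69)

* `exists_unit_primitive_of_isUnram` ([US2-LOC], cochain form): a unit-valued 2-cocycle of an
  unramified extension of `q`-adic fields is the coboundary of a unit-valued cochain.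
* `exists_primitive_mem_of_forall_maximal`: semilocal Shapiro in degree 2 for a stable subgroup
  of the units of a reduced Artinian ring.
* `isZero_H2_repIntUnits_of_leaves` ([US2-SL]): `H²(Gal(E/F), U_q) = 0` from the two leaves
  `LeafInt` (integral units are detected on the residue fields) and `LeafUnr` (all local
  extensions are unramified).
-/

set_option autoImplicit false
set_option linter.unusedSectionVars false
set_option linter.unusedVariables false
set_option linter.style.haveILetI false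

open scoped Pointwise TensorProduct NumberField
open groupCohomology CategoryTheory CategoryTheory.Limits

noncomputable section

namespace Fermat.Agent.S55.helper69.US2

open Fermat.Agent.S55 Fermat.Agent.S55.helper73 Fermat.Agent.S55.helper8
  Fermat.Agent.S55.helper96 Fermat.Agent.S55.helper17 Fermat.Agent.S55.helper71
  Fermat.Agent.S55.helper11

/-! ## Cyclic groups: primitives with values in a stable subgroup -/

section generic

variable {G : Type*} [Group G] {M : Type*} [CommGroup M] [MulDistribMulAction G M] {φ : G}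

/-- For a finite cyclic group `G = ⟨φ⟩` of order `n`: a 2-cocycle `c` with values in a `G`-stable
subgroup `U` whose invariant `∏_{j<n} c(φ^j, φ)` is the norm of an element of `U` is the
coboundary of a `U`-valued cochain. -/
theorem exists_primitive_mem_of_normProd (hfin : 0 < orderOf φ)
    (hgen : ∀ σ : G, σ ∈ Subgroup.zpowers φ) (U : Subgroup M)
    (hU : ∀ (σ : G) (x : M), x ∈ U → σ • x ∈ U)
    {c : G × G → M} (hc : IsMulCocycle₂ c) (hcU : ∀ g, c g ∈ U) (w : M) (hw : w ∈ U)
    (hb : partProd φ c (orderOf φ) = normProd φ w (orderOf φ)) :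
    ∃ x : G → M, (∀ g, x g ∈ U) ∧ ∀ g h : G, g • x h / x (g * h) * x g = c (g, h) := by
  letI : MulDistribMulAction G U := stableAction U hU
  let c' : G × G → U := fun g => ⟨c g, hcU g⟩
  have hc' : IsMulCocycle₂ c' := fun g h j => Subtype.ext (hc g h j)
  have hsmul : ∀ (σ : G) (x : U), ((σ • x : U) : M) = σ • (x : M) := fun _ _ => rfl
  have h1 : ((partProd φ c' (orderOf φ) : U) : M) = partProd φ c (orderOf φ) := by
    unfold partProd
    rw [Subgroup.val_finsetProd]
  have h2 : ((normProd φ (⟨w, hw⟩ : U) (orderOf φ) : U) : M) = normProd φ w (orderOf φ) := by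
    unfold normProd
    rw [Subgroup.val_finsetProd]
    rfl
  have h3 : partProd φ c' (orderOf φ) = normProd φ (⟨w, hw⟩ : U) (orderOf φ) :=
    Subtype.ext (by rw [h1, h2, hb])
  have h4 : IsMulCoboundary₂ c' := by
    refine helper15.isMulCoboundary₂_of_cycG_partProd hfin hgen hc' ?_
    rw [h3]
    exact isMulCoboundary₂_cycG_normProd hfin hgen _
  obtain ⟨x, hx⟩ := h4
  exact ⟨fun g => (x g : M), fun g => (x g).2, fun g h => congrArg Subtype.val (hx g h)⟩

end generic

/-! ## [US2-LOC] -/

section field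

variable (q : ℕ) [Fact q.Prime]
variable (K : Type) [Field K] [Algebra ℚ_[q] K] [FiniteDimensional ℚ_[q] K]
variable (L : Type) [Field L] [Algebra ℚ_[q] L] [Algebra K L] [IsScalarTower ℚ_[q] K L]
  [FiniteDimensional K L]

/-- **[US2-LOC], cochain form**: a unit-valued 2-cocycle of an unramified extension of `q`-adic
fields is the coboundary of a UNIT-valued cochain. -/
theorem exists_unit_primitive_of_isUnram (h : IsUnram q K L)
    (f : (L ≃ₐ[K] L) × (L ≃ₐ[K] L) → Lˣ) (hf : IsMulCocycle₂ f)
    (hu : ∀ g, f g ∈ unitGroup q L) :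
    ∃ x : (L ≃ₐ[K] L) → Lˣ, (∀ g, x g ∈ unitGroup q L) ∧
      ∀ g h : L ≃ₐ[K] L, g • x h / x (g * h) * x g = f (g, h) := by
  haveI : FiniteDimensional ℚ_[q] L := Module.Finite.trans K L
  haveI : IsGalois K L := helper7.isGalois_of_isUnram q K L h
  obtain ⟨φ, hφ, hgen, hord, -⟩ := helper7.exists_frob_of_isUnram q K L h
  have hfin : 0 < orderOf φ := orderOf_pos φ
  set b : Lˣ := partProd φ f (orderOf φ) with hb
  have hbu : b ∈ unitGroup q L := helper15.partProd_mem_unitGroup q K L φ f hu _
  have hbφ : φ • b = b := smul_partProd_orderOf hf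
  have hbfix : ∀ σ : L ≃ₐ[K] L, σ (b : L) = (b : L) := by
    intro σ
    have := smul_eq_of_gen hgen hbφ σ
    exact congrArg Units.val this
  have hbK : (b : L) ∈ (⊥ : IntermediateField K L) :=
    (IsGalois.mem_bot_iff_fixed (b : L)).2 hbfix
  obtain ⟨b₀, hb₀⟩ := IntermediateField.mem_bot.1 hbK
  have hb₀0 : b₀ ≠ 0 := by
    rintro rfl
    rw [map_zero] at hb₀
    exact b.ne_zero hb₀.symm
  have hmap : Units.map (algebraMap K L : K →* L) (Units.mk0 b₀ hb₀0) = b :=
    Units.ext hb₀
  have hb₀u : Units.mk0 b₀ hb₀0 ∈ unitGroup q K := by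
    rw [helper33.mem_unitGroup_iff, ← h (Units.mk0 b₀ hb₀0), hmap]
    exact (helper33.mem_unitGroup_iff q L b).1 hbu
  obtain ⟨w, hwu, hw⟩ := exists_norm_eq_of_isUnram q K L h (Units.mk0 b₀ hb₀0) hb₀u
  have hnp : b = normProd φ w (orderOf φ) := by
    rw [← map_normUnits_eq_normProd K L φ hgen w, hw, hmap]
  exact exists_primitive_mem_of_normProd hfin hgen (unitGroup q L)
    (fun σ _ hx => helper15.smul_mem_unitGroup q K L σ hx) hf hu w hwu hnp

end field


/-! ## Semilocal Shapiro in degree 2 for a stable subgroup of the units -/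

section SubEngine

variable {B : Type*} [CommRing B] [IsArtinianRing B] [IsReduced B]
  {G : Type*} [Group G] [MulSemiringAction G B] [MulDistribMulAction G Bˣ]

/-- **Semilocal Shapiro, degree 2, for a subgroup `U ≤ Bˣ`** stable under `G` and under the
projectors `shProj n`: a `U`-valued 2-cocycle which at every maximal ideal `n` is, modulo `n`,
the coboundary on the stabiliser of `n` of a `U`-valued cochain, is the coboundary of a
`U`-valued cochain. -/
theorem exists_primitive_mem_of_forall_maximal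
    (hc : ∀ (σ : G) (x : Bˣ), ((σ • x : Bˣ) : B) = σ • (x : B))
    (U : Subgroup Bˣ) (hUG : ∀ (σ : G) (x : Bˣ), x ∈ U → σ • x ∈ U)
    (hUp : ∀ (n : MaximalSpectrum B) (x : Bˣ), x ∈ U → shProj n x ∈ U)
    (c : G × G → Bˣ) (hcU : ∀ g, c g ∈ U) (hcoc : IsMulCocycle₂ c)
    (hloc : ∀ n : MaximalSpectrum B, ∃ z : G → Bˣ, (∀ g, z g ∈ U) ∧
      ∀ h h' : G, h • n = n → h' • n = n →
        ((c (h, h') : Bˣ) : B) - ((h • z h' / z (h * h') * z h : Bˣ) : B) ∈ n.asIdeal) :
    ∃ x : G → Bˣ, (∀ g, x g ∈ U) ∧ ∀ g h : G, g • x h / x (g * h) * x g = c (g, h) := by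
  have : Fintype (MaximalSpectrum B) := Fintype.ofFinite _
  letI : MulDistribMulAction G U := stableAction U hUG
  let e : MaximalSpectrum B → U →* U := fun n =>
    MonoidHom.codRestrict ((shProj n).comp U.subtype) U (fun x => hUp n x x.2)
  let c' : G × G → U := fun g => ⟨c g, hcU g⟩
  have hc' : IsMulCocycle₂ c' := fun g h j => Subtype.ext (hcoc g h j)
  have key : IsMulCoboundary₂ c' := by
    refine isMulCoboundary₂_of_partition (G := G) (M := U) (I := MaximalSpectrum B) e ?_ ?_ c'
      hc' ?_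
    · intro g n m
      exact Subtype.ext (smul_shProj hc g n (m : Bˣ))
    · intro m
      apply Subtype.ext
      rw [Subgroup.val_finsetProd]
      exact prod_shProj (m : Bˣ)
    · intro n
      obtain ⟨z, hzU, hz⟩ := hloc n
      refine ⟨fun g => ⟨z g, hzU g⟩, fun h h' hh hh' => ?_⟩
      exact Subtype.ext (shProj_congr n (hz h h' hh hh'))
  obtain ⟨x, hx⟩ := key
  exact ⟨fun g => (x g : Bˣ), fun g => (x g).2, fun g h => congrArg Subtype.val (hx g h)⟩

end SubEngine

/-! ## [US2-SL] from the leaves -/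

section SL

variable (q : ℕ) [Fact q.Prime] (F E : Type) [Field F] [NumberField F] [Field E] [NumberField E]
  [Algebra F E] [IsGalois F E]

/-- reduction of units modulo `n` (multiplicative form of `helper71.slPhi`) -/
def slU (n : MaximalSpectrum (SemiLoc q E)) : (SemiLoc q E)ˣ →* (slDatum q F E n).Lwˣ :=
  Units.map ((slPiD q F E n : SemiLoc q E →ₐ[ℚ_[q]] (slDatum q F E n).Lw) :
    SemiLoc q E →* (slDatum q F E n).Lw)

lemma slU_eq_slPhi (n : MaximalSpectrum (SemiLoc q E)) (u : (SemiLoc q E)ˣ) :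
    slU q F E n u = Additive.toMul (slPhi q F E n (Additive.ofMul u)) := rfl

lemma slU_coe (n : MaximalSpectrum (SemiLoc q E)) (u : (SemiLoc q E)ˣ) :
    ((slU q F E n u : (slDatum q F E n).Lwˣ) : (slDatum q F E n).Lw) =
      slPiD q F E n (u : SemiLoc q E) := rfl

/-- **Leaf (b2)**: integral units are detected on the residue fields. -/
def LeafInt : Prop :=
  ∀ u : (SemiLoc q E)ˣ, u ∈ intUnits q E ↔
    ∀ n : MaximalSpectrum (SemiLoc q E),
      (Additive.toMul (slPhi q F E n (Additive.ofMul u)) : (slDatum q F E n).Lwˣ) ∈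
        unitGroup q (slDatum q F E n).Lw

/-- **Leaf (c)**: all local extensions are unramified. -/
def LeafUnr : Prop :=
  ∀ n : MaximalSpectrum (SemiLoc q E), IsUnram q (slDatum q F E n).Kv (slDatum q F E n).Lw

open Classical in
lemma slU_shProj (n n' : MaximalSpectrum (SemiLoc q E)) (u : (SemiLoc q E)ˣ) :
    slU q F E n' (shProj n u) = if n' = n then slU q F E n' u else 1 := by
  apply Units.ext
  have h := shProjFun_sub_mem n u n'
  have h2 := (slPiD_eq_zero_iff (F := F) _).2 h
  rw [map_sub, sub_eq_zero] at h2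
  rw [slU_coe]
  refine h2.trans ?_
  split_ifs with hn
  · rfl
  · exact map_one _

variable {q F E}

lemma shProj_mem_intUnits (hInt : LeafInt q F E) (n : MaximalSpectrum (SemiLoc q E))
    {u : (SemiLoc q E)ˣ} (hu : u ∈ intUnits q E) : shProj n u ∈ intUnits q E := by
  classical
  rw [hInt]
  intro n'
  rw [← slU_eq_slPhi, slU_shProj]
  split_ifs with hn
  · exact (hInt u).1 hu n'
  · exact one_mem _

lemma exists_mem_intUnits_slU_eq (hInt : LeafInt q F E) (n : MaximalSpectrum (SemiLoc q E))
    (v : (slDatum q F E n).Lwˣ) (hv : v ∈ unitGroup q (slDatum q F E n).Lw) :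
    ∃ u : (SemiLoc q E)ˣ, u ∈ intUnits q E ∧ slU q F E n u = v := by
  classical
  obtain ⟨u₀, hu₀⟩ := slPhi_surjective (q := q) (F := F) (L := E) (n := n) (Additive.ofMul v)
  have hu₀' : slU q F E n (Additive.toMul u₀) = v := congrArg Additive.toMul hu₀
  refine ⟨shProj n (Additive.toMul u₀), ?_, ?_⟩
  · rw [hInt]
    intro n'
    rw [← slU_eq_slPhi, slU_shProj]
    split_ifs with hn
    · subst hn
      rw [hu₀']
      exact hv
    · exact one_mem _
  · rw [slU_shProj, if_pos rfl, hu₀']

lemma slU_smul (n : MaximalSpectrum (SemiLoc q E)) {h : E ≃ₐ[F] E} (hh : h • n = n)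
    (u : (SemiLoc q E)ˣ) : slU q F E n (h • u) = slTau hh • slU q F E n u :=
  Units.ext (slTau_slPiD hh _).symm

lemma slU_locHom_smul (n : MaximalSpectrum (SemiLoc q E))
    (τ : (slDatum q F E n).Lw ≃ₐ[(slDatum q F E n).Kv] (slDatum q F E n).Lw)
    (u : (SemiLoc q E)ˣ) :
    slU q F E n (locHom F E (slDatum q F E n).Kv (slDatum q F E n).Lw τ • u) =
      τ • slU q F E n u :=
  Units.ext (slPiD_locHom_smul τ _)

/-- the local step -/
theorem exists_local_primitive (hInt : LeafInt q F E) (hUnr : LeafUnr q F E)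
    (n : MaximalSpectrum (SemiLoc q E))
    (c : (E ≃ₐ[F] E) × (E ≃ₐ[F] E) → (SemiLoc q E)ˣ) (hcU : ∀ g, c g ∈ intUnits q E)
    (hcoc : IsMulCocycle₂ c) :
    ∃ z : (E ≃ₐ[F] E) → (SemiLoc q E)ˣ, (∀ g, z g ∈ intUnits q E) ∧
      ∀ h h' : E ≃ₐ[F] E, h • n = n → h' • n = n →
        ((c (h, h') : (SemiLoc q E)ˣ) : SemiLoc q E) -
          ((h • z h' / z (h * h') * z h : (SemiLoc q E)ˣ) : SemiLoc q E) ∈ n.asIdeal := by
  classical
  let cbar : ((slDatum q F E n).Lw ≃ₐ[(slDatum q F E n).Kv] (slDatum q F E n).Lw) ×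
      ((slDatum q F E n).Lw ≃ₐ[(slDatum q F E n).Kv] (slDatum q F E n).Lw) →
      (slDatum q F E n).Lwˣ :=
    fun t => slU q F E n (c (locHom F E (slDatum q F E n).Kv (slDatum q F E n).Lw t.1,
      locHom F E (slDatum q F E n).Kv (slDatum q F E n).Lw t.2))
  have hcbar : IsMulCocycle₂ cbar := by
    intro g h j
    have h1 := congrArg (slU q F E n)
      (hcoc (locHom F E (slDatum q F E n).Kv (slDatum q F E n).Lw g)
        (locHom F E (slDatum q F E n).Kv (slDatum q F E n).Lw h)
        (locHom F E (slDatum q F E n).Kv (slDatum q F E n).Lw j))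
    rw [map_mul, map_mul, slU_locHom_smul] at h1
    show slU q F E n (c (locHom F E (slDatum q F E n).Kv (slDatum q F E n).Lw (g * h),
        locHom F E (slDatum q F E n).Kv (slDatum q F E n).Lw j)) *
      slU q F E n (c (locHom F E (slDatum q F E n).Kv (slDatum q F E n).Lw g,
        locHom F E (slDatum q F E n).Kv (slDatum q F E n).Lw h)) =
      g • slU q F E n (c (locHom F E (slDatum q F E n).Kv (slDatum q F E n).Lw h,
        locHom F E (slDatum q F E n).Kv (slDatum q F E n).Lw j)) *
      slU q F E n (c (locHom F E (slDatum q F E n).Kv (slDatum q F E n).Lw g,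
        locHom F E (slDatum q F E n).Kv (slDatum q F E n).Lw (h * j)))
    rw [map_mul (locHom F E (slDatum q F E n).Kv (slDatum q F E n).Lw) g h,
      map_mul (locHom F E (slDatum q F E n).Kv (slDatum q F E n).Lw) h j]
    exact h1
  have hcbarU : ∀ t, cbar t ∈ unitGroup q (slDatum q F E n).Lw := fun t =>
    (hInt _).1 (hcU _) n
  obtain ⟨y, hyU, hy⟩ := exists_unit_primitive_of_isUnram q (slDatum q F E n).Kv
    (slDatum q F E n).Lw (hUnr n) cbar hcbar hcbarU
  choose lift hliftU hlift using fun v : {v // v ∈ unitGroup q (slDatum q F E n).Lw} =>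
    exists_mem_intUnits_slU_eq hInt n v.1 v.2
  refine ⟨fun h => if hh : h • n = n then lift ⟨y (slTau hh), hyU _⟩ else 1, fun h => ?_,
    fun h h' hh hh' => ?_⟩
  · by_cases hh : h • n = n
    · simp only [dif_pos hh]
      exact hliftU _
    · simp only [dif_neg hh]
      exact one_mem _
  · have hhh : (h * h') • n = n := by rw [mul_smul, hh', hh]
    simp only [dif_pos hh, dif_pos hh', dif_pos hhh]
    rw [← slPiD_eq_zero_iff (F := F), map_sub, sub_eq_zero, ← slU_coe, ← slU_coe]
    congr 1
    rw [map_mul, map_div, slU_smul n hh, hlift, hlift, hlift, slTau_mul hh hh' hhh, hy]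
    show slU q F E n (c (h, h')) = slU q F E n (c (_, _))
    rw [locHom_slTau, locHom_slTau]

variable (q F E)

/-- **[US2-SL], cochain form**: a 2-cocycle of `Gal(E/F)` with values in the integral units of
`ℚ_q ⊗ E` is the coboundary of a cochain with values in the integral units. -/
theorem exists_primitive_intUnits (hInt : LeafInt q F E) (hUnr : LeafUnr q F E)
    (c : (E ≃ₐ[F] E) × (E ≃ₐ[F] E) → (SemiLoc q E)ˣ) (hcU : ∀ g, c g ∈ intUnits q E)
    (hcoc : IsMulCocycle₂ c) :
    ∃ x : (E ≃ₐ[F] E) → (SemiLoc q E)ˣ, (∀ g, x g ∈ intUnits q E) ∧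
      ∀ g h : E ≃ₐ[F] E, g • x h / x (g * h) * x g = c (g, h) := by
  have hA : IsArtinianRing (SemiLoc q E) := inferInstance
  have hR : IsReduced (SemiLoc q E) := inferInstance
  exact exists_primitive_mem_of_forall_maximal (G := E ≃ₐ[F] E) (B := SemiLoc q E)
    (fun _ _ => rfl) (intUnits q E) (fun σ _ hx => smul_mem_intUnits q E F σ hx)
    (fun n _ hx => shProj_mem_intUnits hInt n hx) c hcU hcoc
    (fun n => exists_local_primitive hInt hUnr n c hcU hcoc)

/-- **[US2-SL]**: `H²(Gal(E/F), U_q) = 0`, from the two leaves. -/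
theorem isZero_H2_repIntUnits_of_leaves (hInt : LeafInt q F E) (hUnr : LeafUnr q F E) :
    IsZero (groupCohomology (helper31.repIntUnits q F E) 2) := by
  rw [helper46.fg7_isZero_H2_iff]
  intro f hf
  let c : (E ≃ₐ[F] E) × (E ≃ₐ[F] E) → (SemiLoc q E)ˣ :=
    fun x => ((Additive.toMul (f x) : intUnits q E) : (SemiLoc q E)ˣ)
  have hcoc : IsMulCocycle₂ c := by
    intro g h j
    have h1 := congrFun hf (g, h, j)
    rw [d₂₃_hom_apply] at h1
    have h2 : (helper31.repIntUnits q F E).ρ g (f (h, j)) + f (g, h * j) =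
        f (g * h, j) + f (g, h) := by
      have : (helper31.repIntUnits q F E).ρ g (f (h, j)) - f (g * h, j) + f (g, h * j)
          - f (g, h) = 0 := h1
      rw [sub_eq_zero] at this
      rw [← this]
      abel
    have h3 := congrArg (fun a : helper31.repIntUnits q F E =>
      ((Additive.toMul a : intUnits q E) : (SemiLoc q E)ˣ)) h2
    exact h3.symm
  obtain ⟨x, hxU, hx⟩ := exists_primitive_intUnits q F E hInt hUnr c (fun g => (Additive.toMul (f g) : intUnits q E).2) hcoc
  refine ⟨fun g => Additive.ofMul (⟨x g, hxU g⟩ : intUnits q E), ?_⟩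
  funext ⟨g, h⟩
  refine (d₁₂_hom_apply (A := helper31.repIntUnits q F E) _ (g, h)).trans ?_
  apply Additive.toMul.injective
  apply Subtype.ext
  exact hx g h

end SL

end Fermat.Agent.S55.helper69.US2
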