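import Mathlib
import Fermat.Agent.S55.helper6_InfRes

/-!
# Inflation–restriction in degree 2 for Mathlib's `groupCohomology`

Bridge from the explicit cocycle statements of `helper6_InfRes` to `groupCohomology.map`:
if `H¹(S, A) = 0` then `0 → H²(G ⧸ S, A^S) → H²(G, A) → H²(S, A)` is exact (FG2.a, FG2.b).
-/

set_option linter.style.haveILetI false
set_option autoImplicit false

universe u

open CategoryTheory CategoryTheory.Limits groupCohomology Rep

namespace Fermat.Agent.S55.helper6

variable {k G : Type u} [CommRing k] [Group G]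

/-- The `DistribMulAction` of `G` on the underlying module of a representation
(a definition, not an instance; use it with `letI`). -/
@[reducible] def repDistribMulAction (A : Rep k G) : DistribMulAction G A where
  smul g a := A.ρ g a
  one_smul a := by
    show A.ρ 1 a = a
    simp
  mul_smul g h a := by
    show A.ρ (g * h) a = A.ρ g (A.ρ h a)
    simp
  smul_zero g := map_zero _
  smul_add g a b := map_add _ _ _

/-- The inclusion `A^S → A` as an additive map. -/
noncomputable def invIncl (S : Subgroup G) [S.Normal] (A : Rep k G) : (A.quotientToInvariants S) →+ A :=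
  (Submodule.subtype _).toAddMonoidHom

/-- The inflation datum `(G → G ⧸ S, A^S → A)` of a representation. -/
lemma addInflDatum_rep (S : Subgroup G) [S.Normal] (A : Rep k G) :
    @AddInflDatum G (G ⧸ S) A (A.quotientToInvariants S) _ _ _ _ (repDistribMulAction A)
      (repDistribMulAction (A.quotientToInvariants S)) (QuotientGroup.mk' S) (invIncl S A) :=
  letI := repDistribMulAction A
  letI := repDistribMulAction (A.quotientToInvariants S)
  { surj := QuotientGroup.mk'_surjective S
    inj := Subtype.val_injective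
    equivariant := fun _ _ => rfl
    exists_of_fixed := fun a ha => ⟨⟨a, fun s => ha s.1 (by
      rw [QuotientGroup.ker_mk']; exact s.2)⟩, rfl⟩ }

/-- `H¹(S, A) = 0` in the membership form of `helper6_InfRes`. -/
lemma h1TrivOn_of_isZero (S : Subgroup G) [S.Normal] (A : Rep k G)
    (h1 : IsZero (groupCohomology (res S.subtype A) 1)) :
    @H1TrivOn G _ (QuotientGroup.mk' S).ker A _ (repDistribMulAction A) := by
  letI := repDistribMulAction A
  intro φ hφ
  have hS : ∀ s : S, s.1 ∈ (QuotientGroup.mk' S).ker := fun s => by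
    rw [QuotientGroup.ker_mk']; exact s.2
  have hx : (fun s : S => φ s.1) ∈ cocycles₁ (res S.subtype A) := by
    rw [mem_cocycles₁_iff]
    intro s t
    exact hφ s.1 (hS s) t.1 (hS t)
  have hz : H1π (res S.subtype A) ⟨_, hx⟩ = 0 :=
    (ModuleCat.subsingleton_of_isZero h1).elim _ _
  rw [H1π_eq_zero_iff] at hz
  obtain ⟨a, ha⟩ := hz
  refine ⟨a, fun s hs => ?_⟩
  have hs' : s ∈ S := by rwa [QuotientGroup.ker_mk'] at hs
  exact congrFun ha ⟨s, hs'⟩

/-- **FG2.a.** If `H¹(S, A) = 0`, inflation `H²(G ⧸ S, A^S) → H²(G, A)` is injective. -/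
theorem infH_two_injective (S : Subgroup G) [S.Normal] (A : Rep k G)
    (h1 : IsZero (groupCohomology (res S.subtype A) 1)) :
    Function.Injective (groupCohomology.map (QuotientGroup.mk' S)
      (ofHom <| A.ρ.quotientToInvariants_lift S) 2 :
        groupCohomology (A.quotientToInvariants S) 2 ⟶ groupCohomology A 2) := by
  letI := repDistribMulAction A
  letI := repDistribMulAction (A.quotientToInvariants S)
  rw [injective_iff_map_eq_zero]
  intro z hz
  induction z using H2_induction_on with | @h c =>
  rw [H2π_comp_map_apply, H2π_eq_zero_iff] at hz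
  rw [H2π_eq_zero_iff]
  obtain ⟨x, hx⟩ := hz
  have hcob : IsCoboundary₂ (fun p : G × G =>
      invIncl S A (c (QuotientGroup.mk' S p.1, QuotientGroup.mk' S p.2))) :=
    ⟨x, fun g h => congrFun hx (g, h)⟩
  obtain ⟨c', hc'⟩ := (addInflDatum_rep S A).isCoboundary₂_of_infl (h1TrivOn_of_isZero S A h1)
    c hcob
  exact ⟨c', funext fun ⟨q₁, q₂⟩ => hc' q₁ q₂⟩

/-- **FG2.b.** If `H¹(S, A) = 0`, then `H²(G ⧸ S, A^S) → H²(G, A) → H²(S, A)` is exact. -/
theorem infH_resH_two_exact (S : Subgroup G) [S.Normal] (A : Rep k G)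
    (h1 : IsZero (groupCohomology (res S.subtype A) 1)) :
    Function.Exact
      (groupCohomology.map (QuotientGroup.mk' S) (ofHom <| A.ρ.quotientToInvariants_lift S) 2 :
        groupCohomology (A.quotientToInvariants S) 2 ⟶ groupCohomology A 2)
      (groupCohomology.map S.subtype (𝟙 _) 2 :
        groupCohomology A 2 ⟶ groupCohomology (res S.subtype A) 2) := by
  letI := repDistribMulAction A
  letI := repDistribMulAction (A.quotientToInvariants S)
  intro y
  constructor
  · -- kernel of restriction is contained in the image of inflation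
    intro hy
    induction y using H2_induction_on with | @h f =>
    rw [H2π_comp_map_apply, H2π_eq_zero_iff] at hy
    obtain ⟨x₀, hx₀⟩ := hy
    have hf : IsCocycle₂ (f : G × G → A) := (mem_cocycles₂_iff _).1 f.2
    classical
    have hres : ∃ x : G → A, ∀ s ∈ (QuotientGroup.mk' S).ker, ∀ t ∈ (QuotientGroup.mk' S).ker,
        s • x t - x (s * t) + x s = (f : G × G → A) (s, t) := by
      refine ⟨fun g => if hg : g ∈ S then x₀ ⟨g, hg⟩ else 0, fun s hs t ht => ?_⟩
      have hs' : s ∈ S := by rwa [QuotientGroup.ker_mk'] at hs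
      have ht' : t ∈ S := by rwa [QuotientGroup.ker_mk'] at ht
      have := congrFun hx₀ (⟨s, hs'⟩, ⟨t, ht'⟩)
      simp only [dif_pos hs', dif_pos ht', dif_pos (S.mul_mem hs' ht')]
      exact this
    obtain ⟨c, x, hc, hfc⟩ := (addInflDatum_rep S A).exists_infl_of_res_isCoboundary₂
      (h1TrivOn_of_isZero S A h1) hf hres
    refine ⟨H2π _ ⟨c, (mem_cocycles₂_iff _).2 hc⟩, ?_⟩
    rw [H2π_comp_map_apply, H2π_eq_iff]
    refine ⟨-x, funext fun ⟨g, h⟩ => ?_⟩
    have key := hfc g h
    show A.ρ g ((-x) h) - (-x) (g * h) + (-x) g =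
      invIncl S A (c (QuotientGroup.mk' S g, QuotientGroup.mk' S h)) - (f : G × G → A) (g, h)
    rw [key]
    show A.ρ g (-(x h)) - (-(x (g * h))) + (-(x g)) = _ - (_ + (A.ρ g (x h) - x (g * h) + x g))
    rw [map_neg]
    abel
  · rintro ⟨z, rfl⟩
    induction z using H2_induction_on with | @h c =>
    rw [H2π_comp_map_apply, H2π_comp_map_apply, H2π_eq_zero_iff]
    -- the restriction to `S × S` of an inflated cocycle is the constant `c (1, 1)`
    refine ⟨fun _ => invIncl S A (c (1, 1)), funext fun ⟨s, t⟩ => ?_⟩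
    have hs : (QuotientGroup.mk' S s.1 : G ⧸ S) = 1 := (QuotientGroup.eq_one_iff s.1).2 s.2
    have ht : (QuotientGroup.mk' S t.1 : G ⧸ S) = 1 := (QuotientGroup.eq_one_iff t.1).2 t.2
    show A.ρ s.1 (invIncl S A (c (1, 1))) - invIncl S A (c (1, 1)) + invIncl S A (c (1, 1)) =
      invIncl S A (c (QuotientGroup.mk' S s.1, QuotientGroup.mk' S t.1))
    rw [hs, ht]
    have hfix : A.ρ s.1 (invIncl S A (c (1, 1))) = invIncl S A (c (1, 1)) :=
      (c (1, 1)).2 s
    rw [hfix]
    abel

end Fermat.Agent.S55.helper6
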