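import Fermat.Agent.S55.helper6_Rec3C1
import Fermat.Agent.S55.helper6_Rec3Fin2
import Fermat.Agent.S55.helper69_Rec3DicC
import Fermat.Agent.S55.helper89_Ineq2Wire
import Fermat.Agent.S55.helper9_Rec3C2Wire

/-!
# S55 / REC3: the fields `c1` and `c2` of `Rec3Arith`, UNCONDITIONAL (helper6)

`c1S : helper90.C1S p S F hF` and `c2S : helper90.C2S p S F hF` for `p` odd, by feeding
the second inequality (`helper89.hypIneq2`) and the arithmetic dictionary
(`helper69.Dic.exists_ideleClassReal`) into `helper6.c1S_of` / `helper9.c2S_of_ineq2`.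
Also the unconditional forms of the finite-level statements of `helper6_G9Wire`,
`helper6_Rec3Fin`, `helper6_Rec3Fin2`.
-/

set_option autoImplicit false
set_option linter.unusedSectionVars false
set_option linter.unusedVariables false

namespace Fermat.Agent.S55.helper6

section Uncond

local notation "Qbar" => AlgebraicClosure ℚ

variable {p : ℕ} [Fact p.Prime] {S : Finset Nat.Primes} {F : IntermediateField ℚ Qbar}
  (hF : F.IsUnramifiedOutside S)

/-- **R3-C1**, unconditional: `H^1(G_S, C(F_S))` is torsion prime to `p` (`p` odd). -/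
theorem c1S (hp2 : p ≠ 2) : helper90.C1S p S F hF :=
  c1S_of hF hp2 (helper89.hypIneq2 p Fact.out hp2) (helper69.Dic.exists_ideleClassReal hF)

/-- **R3-C2**, unconditional: the `p`-part of `H^2(G_S, C(F_S))` is locally cyclic
(`p` odd). -/
theorem c2S (hp2 : p ≠ 2) : helper90.C2S p S F hF :=
  helper9.c2S_of_ineq2 hF hp2 (fun p hp hp2 => helper89.hypIneq2 p hp hp2)
    (helper69.Dic.exists_ideleClassReal hF)

end Uncond

end Fermat.Agent.S55.helper6
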