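import Fermat.Agent.S55.helper72_BArRecMixC

/-!
# S55 module B, package B-AR-REC-MIX (helper72, task 551): mixed reciprocity, assembly

`mixedRec_of_recP_of` : `HypRecP Inv p` + `InvCompat` + (e) SUPPORT `MixHypSupport p`
imply `MixedRec S L Inv ζ inv` (statement of helper59's interface v3, `mixedRec_of_recP`).
-/

set_option autoImplicit false

open groupCohomology ExtCitation
open scoped NumberField
open IsDedekindDomain

noncomputable section

namespace Fermat.Agent.S55.helper72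

open Fermat.Agent.S55 Fermat.Agent.S55.helper59 Fermat.Agent.S55.helper8
  Fermat.Agent.S55.helper11

local instance mixFactOfPrimesF (q : Nat.Primes) : Fact (q : ℕ).Prime := ⟨q.2⟩

local notation "Qbar" => AlgebraicClosure ℚ

/-- (e) SUPPORT, as a hypothesis: the class of `ζ ^ c` is trivial at every place where the
extension is unramified. -/
def MixHypSupport (p : ℕ) : Prop :=
  ∀ (r : ℕ) [Fact r.Prime] (F E : Type) [Field F] [NumberField F] [Field E] [NumberField E]
    [Algebra F E] [IsGalois F E] (D : LocDatum r F E) (w : HeightOneSpectrum (𝓞 F)),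
    D.AtPlace w → UnramAt F E w → ∀ (ζ : Eˣ), ζ ^ p = 1 →
    ∀ c : (E ≃ₐ[F] E) × (E ≃ₐ[F] E) → ZMod p, IsMulCocycle₂ (zetaCochain p ζ c) →
      D.loc (mulClass F E (zetaCochain p ζ c)) = 0

variable {p : ℕ} [Fact p.Prime] {S : Finset Nat.Primes} {F : IntermediateField ℚ Qbar}
  [NumberField ↥F] {𝒩 : Levels (UF F)} {ι : Type} [Fintype ι]
  {L : LocalData (UF F) 𝒩 ι}

set_option synthInstance.maxHeartbeats 400000 in
set_option maxHeartbeats 1000000 in
/-- B-AR-REC-MIX, conditional on (e) SUPPORT. -/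
theorem mixedRec_of_recP_of (hSupp : MixHypSupport p) (hL : IsArith S F L)
    (Inv : helper11.LocInv) (hRec : HypRecP Inv p) (ζ : (↥F)ˣ) (hζ : IsPrimitiveRoot ζ p)
    (inv : ∀ w : ι, (L.Gv w × L.Gv w → ZMod p) →ₗ[ZMod p] ZMod p)
    (hinv : InvCompat Inv ζ hL inv) : MixedRec S L Inv ζ inv := by
  intro E _ _ _ c hc V hV hunr qV _ D hD
  have hζp : ζ ^ p = 1 := hζ.pow_eq_one
  have hζE : (Units.map (algebraMap ↥F ↥E : ↥F →* ↥E) ζ) ^ p = 1 := by
    rw [← map_pow, hζp, map_one]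
  have hcoc := mix_isMulCocycle₂ E ζ hζp c hc
  have hpx : p • mulClass ↥F ↥E
      (zetaCochain p (Units.map (algebraMap ↥F ↥E : ↥F →* ↥E) ζ) c) = 0 := by
    rw [← helper13.mulClass_pow ↥F ↥E hcoc, helper13.zetaCochain_pow p _ hζE]
    exact helper13.mulClass_one ↥F ↥E
  -- the index data
  let q' : ι ⊕ ↥V → ℕ := Sum.elim (fun w => (hL.q w : ℕ)) qV
  have hq' : ∀ i, Fact (q' i).Prime := by
    rintro (w | v)
    · exact ⟨(hL.q w).2⟩
    · exact inferInstanceAs (Fact (qV v).Prime)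
  let D' : ∀ i, LocDatum (q' i) ↥F ↥E := fun i =>
    match i with
    | Sum.inl w => mixDatum hL E w
    | Sum.inr v => D v
  let v' : ι ⊕ ↥V → HeightOneSpectrum (𝓞 ↥F) := Sum.elim (fun w => mixPlace hL w) (fun v => v.1)
  have hat : ∀ i, (D' i).AtPlace (v' i) := by
    rintro (w | v)
    · exact mixDatum_atPlace hL E w
    · exact hD v
  have hinj : Function.Injective v' := by
    rintro (w₁ | v₁) (w₂ | v₂) h
    · have h' : helper96.primeAt hL w₁ = helper96.primeAt hL w₂ :=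
        congrArg HeightOneSpectrum.asIdeal h
      rw [helper96.primeAt_injective hL h']
    · exfalso
      have h' : helper96.primeAt hL w₁ = v₂.1.asIdeal := congrArg HeightOneSpectrum.asIdeal h
      exact hV v₂.1 v₂.2 (h' ▸ helper96.primeAt_mem hL w₁)
    · exfalso
      have h' : v₁.1.asIdeal = helper96.primeAt hL w₂ := congrArg HeightOneSpectrum.asIdeal h
      exact hV v₁.1 v₁.2 (h' ▸ helper96.primeAt_mem hL w₂)
    · have h' : v₁.1 = v₂.1 := h
      rw [Subtype.ext h']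
  have hsupp : ∀ (r : ℕ) [Fact r.Prime] (E' : LocDatum r ↥F ↥E)
      (w' : HeightOneSpectrum (𝓞 ↥F)), E'.AtPlace w' → (∀ i, w' ≠ v' i) →
      E'.loc (mulClass ↥F ↥E
        (zetaCochain p (Units.map (algebraMap ↥F ↥E : ↥F →* ↥E) ζ) c)) = 0 := by
    intro r _ E' w' hE' hne
    have h1 : w'.asIdeal ∉ helper75.primesOverS ↥F S := by
      intro h
      obtain ⟨w, hw⟩ := helper96.exists_primeAt_eq hL _ h
      exact hne (Sum.inl w) (HeightOneSpectrum.ext hw.symm)
    have h2 : w' ∉ V := fun h => hne (Sum.inr ⟨w', h⟩) rfl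
    exact hSupp r ↥F ↥E E' w' hE' (hunr w' h1 h2) _ hζE c hcoc
  have key := hRec ↥F ↥E _ hpx (ι ⊕ ↥V) q' D' v' hat hinj hsupp
  rw [Fintype.sum_sum_type] at key
  have h1 : ∑ w : ι, Inv.inv (q' (Sum.inl w)) (D' (Sum.inl w)).Kv (D' (Sum.inl w)).Lw
      ((D' (Sum.inl w)).loc (mulClass ↥F ↥E
        (zetaCochain p (Units.map (algebraMap ↥F ↥E : ↥F →* ↥E) ζ) c))) =
      helper13.qz p (∑ w, inv w (fun s => c (resFix F E (L.r w s.1), resFix F E (L.r w s.2)))) := by
    rw [map_sum]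
    exact Finset.sum_congr rfl (fun w _ => mix_inv_eq hL E w Inv ζ hζp inv hinv c hc)
  rw [h1] at key
  exact key

end Fermat.Agent.S55.helper72
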