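import Fermat.Agent.S55.helper11_RecDefs
import Fermat.Agent.S55.helper15_RecExist

/-!
# S55 module B, package B-AR-REC-MIX (helper72, task 551), part A: a generic local datum

Given a `q`-adic field `K` receiving `F` with dense image, an algebraic extension `Ω` of `K` and
a ring homomorphism `emb : E → Ω` extending `F → K → Ω` (`E/F` finite Galois), the compositum
`K(emb E) ⊆ Ω` carries a local datum of `E/F` whose `Kv` is `K` ITSELF and whose `Lw` is the
intermediate field `mixGenField K Ω emb` (definitionally).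
-/

set_option autoImplicit false

open CategoryTheory groupCohomology

noncomputable section

namespace Fermat.Agent.S55.helper72

open Fermat.Agent.S55.helper8 Fermat.Agent.S55.helper11

section Generic

variable {q : ℕ} [Fact q.Prime] {F E : Type} [Field F] [Field E] [Algebra F E]
  (K Ω : Type) [Field K] [Field Ω] [Algebra ℚ_[q] K]
  [Algebra K Ω] [Algebra ℚ_[q] Ω] [IsScalarTower ℚ_[q] K Ω]
  [Algebra F K] (emb : E →+* Ω)

/-- the compositum `K(emb E)` inside `Ω` -/
def mixGenField : IntermediateField K Ω :=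
  IntermediateField.adjoin K (Set.range emb)

lemma mixGen_emb_mem (x : E) : emb x ∈ mixGenField K Ω emb :=
  IntermediateField.subset_adjoin _ _ ⟨x, rfl⟩

/-- the embedding `E → K(emb E)` -/
def mixGenHom : E →+* mixGenField K Ω emb :=
  emb.codRestrict (mixGenField K Ω emb) (mixGen_emb_mem K Ω emb)

@[simp] lemma coe_mixGenHom (x : E) : ((mixGenHom K Ω emb x : mixGenField K Ω emb) : Ω) = emb x :=
  rfl

variable {K Ω emb}

theorem mixGenField_finiteDimensional [FiniteDimensional F E] [Algebra.IsAlgebraic K Ω]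
    (hemb : ∀ a : F, emb (algebraMap F E a) = algebraMap K Ω (algebraMap F K a)) :
    FiniteDimensional K (mixGenField K Ω emb) := by
  classical
  let b := Module.finBasis F E
  set S : Set Ω := Set.range (fun i => emb (b i)) with hS
  have hle : mixGenField K Ω emb ≤ IntermediateField.adjoin K S := by
    rw [mixGenField, IntermediateField.adjoin_le_iff]
    rintro _ ⟨x, rfl⟩
    have hx : x = ∑ i, b.repr x i • b i := (b.sum_repr x).symm
    rw [hx, map_sum]
    refine sum_mem fun i _ => ?_
    rw [Algebra.smul_def, map_mul, hemb]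
    exact mul_mem (IntermediateField.algebraMap_mem _ _)
      (IntermediateField.subset_adjoin _ _ ⟨i, rfl⟩)
  have : Finite S := Set.finite_range _
  have : FiniteDimensional K (IntermediateField.adjoin K S) :=
    IntermediateField.finiteDimensional_adjoin (fun x _ => Algebra.IsIntegral.isIntegral x)
  exact Submodule.finiteDimensional_of_le
    (S₁ := (mixGenField K Ω emb).toSubalgebra.toSubmodule)
    (S₂ := (IntermediateField.adjoin K S).toSubalgebra.toSubmodule) hle

theorem mixGen_algebraMap_mem
    (hK : Algebra.adjoin ℚ_[q] (Set.range (algebraMap F K)) = ⊤)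
    (hemb : ∀ a : F, emb (algebraMap F E a) = algebraMap K Ω (algebraMap F K a)) (c : K) :
    algebraMap K (mixGenField K Ω emb) c ∈
      Algebra.adjoin ℚ_[q] (Set.range (mixGenHom K Ω emb)) := by
  have hc : c ∈ Algebra.adjoin ℚ_[q] (Set.range (algebraMap F K)) := by
    rw [hK]; trivial
  induction hc using Algebra.adjoin_induction with
  | mem y hy =>
    obtain ⟨a, rfl⟩ := hy
    have : algebraMap K (mixGenField K Ω emb) (algebraMap F K a) =
        mixGenHom K Ω emb (algebraMap F E a) := by
      apply Subtype.ext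
      rw [coe_mixGenHom, hemb]
      rfl
    rw [this]
    exact Algebra.subset_adjoin ⟨_, rfl⟩
  | algebraMap r =>
    rw [← IsScalarTower.algebraMap_apply ℚ_[q] K (mixGenField K Ω emb)]
    exact Subalgebra.algebraMap_mem _ _
  | add x y _ _ hx hy => rw [map_add]; exact add_mem hx hy
  | mul x y _ _ hx hy => rw [map_mul]; exact mul_mem hx hy

theorem mixGenField_dense [FiniteDimensional ℚ_[q] K] [FiniteDimensional F E]
    [Algebra.IsAlgebraic K Ω]
    (hK : Algebra.adjoin ℚ_[q] (Set.range (algebraMap F K)) = ⊤)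
    (hemb : ∀ a : F, emb (algebraMap F E a) = algebraMap K Ω (algebraMap F K a)) :
    Algebra.adjoin ℚ_[q] (Set.range (mixGenHom K Ω emb)) = ⊤ := by
  have hfd := mixGenField_finiteDimensional (K := K) (Ω := Ω) (emb := emb) hemb
  have hfd2 : FiniteDimensional ℚ_[q] (mixGenField K Ω emb) :=
    FiniteDimensional.trans ℚ_[q] K (mixGenField K Ω emb)
  rw [eq_top_iff]
  rintro ⟨y, hy⟩ -
  have key : ∀ x, x ∈ IntermediateField.adjoin K (Set.range emb) →
      ∃ hx : x ∈ mixGenField K Ω emb, (⟨x, hx⟩ : mixGenField K Ω emb) ∈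
        Algebra.adjoin ℚ_[q] (Set.range (mixGenHom K Ω emb)) := by
    intro x hx
    induction hx using IntermediateField.adjoin_induction with
    | mem x hx =>
      obtain ⟨a, rfl⟩ := hx
      exact ⟨mixGen_emb_mem K Ω emb a, Algebra.subset_adjoin ⟨a, rfl⟩⟩
    | algebraMap c =>
      exact ⟨IntermediateField.algebraMap_mem _ c, mixGen_algebraMap_mem hK hemb c⟩
    | add x y _ _ ihx ihy =>
      obtain ⟨hx, hx'⟩ := ihx
      obtain ⟨hy, hy'⟩ := ihy
      exact ⟨add_mem hx hy, add_mem hx' hy'⟩
    | inv x _ ihx =>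
      obtain ⟨hx, hx'⟩ := ihx
      exact ⟨inv_mem hx, Subalgebra.inv_mem_of_algebraic _ (x := ⟨_, hx'⟩)
        (Algebra.IsAlgebraic.isAlgebraic _)⟩
    | mul x y _ _ ihx ihy =>
      obtain ⟨hx, hx'⟩ := ihx
      obtain ⟨hy, hy'⟩ := ihy
      exact ⟨mul_mem hx hy, mul_mem hx' hy'⟩
  obtain ⟨_, h⟩ := key y hy
  exact h

variable (K Ω emb)

/-- the `E`-algebra structure on `K(emb E)` -/
abbrev mixGenAlgebra : Algebra E (mixGenField K Ω emb) := (mixGenHom K Ω emb).toAlgebra

/-- the `F`-algebra structure on `K(emb E)` -/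
abbrev mixGenAlgebraF : Algebra F (mixGenField K Ω emb) :=
  ((mixGenHom K Ω emb).comp (algebraMap F E)).toAlgebra

/-- THE GENERIC LOCAL DATUM: `Kv = K`, `Lw = K(emb E)`. -/
def mixGenDatum [FiniteDimensional ℚ_[q] K] [FiniteDimensional F E] [IsGalois F E]
    [Algebra.IsAlgebraic K Ω]
    (hK : Algebra.adjoin ℚ_[q] (Set.range (algebraMap F K)) = ⊤)
    (hemb : ∀ a : F, emb (algebraMap F E a) = algebraMap K Ω (algebraMap F K a)) :
    LocDatum q F E :=
  letI := mixGenAlgebra K Ω emb
  letI := mixGenAlgebraF (F := F) K Ω emb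
  haveI t1 : IsScalarTower F E (mixGenField K Ω emb) :=
    IsScalarTower.of_algebraMap_eq (fun _ => rfl)
  haveI t2 : IsScalarTower F K (mixGenField K Ω emb) :=
    IsScalarTower.of_algebraMap_eq (fun a => by
      apply Subtype.ext
      change emb (algebraMap F E a) = algebraMap K Ω (algebraMap F K a)
      exact hemb a)
  haveI fd : FiniteDimensional K (mixGenField K Ω emb) := mixGenField_finiteDimensional hemb
  have dL : Algebra.adjoin ℚ_[q] (Set.range (algebraMap E (mixGenField K Ω emb))) = ⊤ :=
    mixGenField_dense hK hemb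
  { Kv := K
    Lw := mixGenField K Ω emb
    finKL := fd
    galKL := helper15.isGalois_of_dense (k := ℚ_[q]) (F := F) (L := E) dL
    towerFLL := t1
    towerFKL := t2
    denseK := hK
    denseL := dL }

end Generic

end Fermat.Agent.S55.helper72
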