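import Fermat.Agent.S55.helper72_BArRecMixA
import Fermat.Agent.S55.helper59_BDefs3
import Fermat.Agent.S55.helper96_BArDeg

/-!
# S55 module B, package B-AR-REC-MIX (helper72, task 551), part B: the arithmetic local data

For an arithmetic local datum `hL : IsArith S F L`, a finite Galois `E/F` inside `ℚbar` and
`w : ι`:

* `mixEmb hL w : ℚbar → PadicAlgCl q_w`, `x ↦ ι_q (g_w⁻¹ x)`;
* `mixField hL E w = K_w(ι(g_w⁻¹ E))`, an intermediate field of `PadicAlgCl q_w / K_w`;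
* `mixDatum hL E w : LocDatum q_w F E` with `Kv = K_w`, `Lw = mixField hL E w`;
* `mixDatum_atPlace` : it sits at the place `primeAt hL w`;
* `mix_locHom_locRes` : compatibility of `locHom` with `L.r w`.
-/

set_option autoImplicit false

open groupCohomology ExtCitation
open scoped NumberField
open IsDedekindDomain

noncomputable section

namespace Fermat.Agent.S55.helper72

open Fermat.Agent.S55 Fermat.Agent.S55.helper59 Fermat.Agent.S55.helper8
  Fermat.Agent.S55.helper11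

local instance mixFactOfPrimes (q : Nat.Primes) : Fact (q : ℕ).Prime := ⟨q.2⟩

local notation "Qbar" => AlgebraicClosure ℚ

section Arith

variable {S : Finset Nat.Primes} {F : IntermediateField ℚ Qbar}
  {𝒩 : Levels (UF F)} {ι : Type} {L : LocalData (UF F) 𝒩 ι}
  (hL : IsArith S F L) (E : IntermediateField ↥F Qbar) (w : ι)

/-- `x ↦ ι_q (g_w⁻¹ x)` -/
def mixEmb : Qbar →+* PadicAlgCl (hL.q w : ℕ) :=
  (padicEmbedding (hL.q w : ℕ)).toRingHom.comp
    (((hL.g w)⁻¹ : GQ) : Qbar ≃ₐ[ℚ] Qbar).toAlgHom.toRingHom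

lemma mixEmb_apply (x : Qbar) :
    mixEmb hL w x = padicEmbedding (hL.q w : ℕ) (((hL.g w)⁻¹ : GQ) x) := rfl

/-- the restriction of `mixEmb` to `E` -/
def mixEmbE : ↥E →+* PadicAlgCl (hL.q w : ℕ) :=
  (mixEmb hL w).comp (algebraMap ↥E Qbar)

lemma mixEmbE_apply (x : ↥E) :
    mixEmbE hL E w x = padicEmbedding (hL.q w : ℕ) (((hL.g w)⁻¹ : GQ) (x : Qbar)) := rfl

/-- the algebra structure `F → K_w` given by `IsArith.locEmb` -/
abbrev mixAlgFK : Algebra ↥F ↥(hL.Kw w) := (hL.locEmb w).toAlgebra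

lemma mix_isAlgebraic_Kw : Algebra.IsAlgebraic ↥(hL.Kw w) (PadicAlgCl (hL.q w : ℕ)) := by
  have h1 : Algebra.IsAlgebraic ℚ_[((hL.q w : ℕ))] (PadicAlgCl (hL.q w : ℕ)) :=
    PadicAlgCl.isAlgebraic (hL.q w : ℕ)
  exact Algebra.IsAlgebraic.tower_top (K := ℚ_[((hL.q w : ℕ))]) ↥(hL.Kw w)

theorem mix_denseK :
    letI := mixAlgFK hL w
    Algebra.adjoin ℚ_[((hL.q w : ℕ))] (Set.range (algebraMap ↥F ↥(hL.Kw w))) = ⊤ := by
  letI := mixAlgFK hL w
  have halg : Algebra.IsAlgebraic ℚ_[((hL.q w : ℕ))] ↥(hL.Kw w) := by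
    have h1 : Algebra.IsAlgebraic ℚ_[((hL.q w : ℕ))] (PadicAlgCl (hL.q w : ℕ)) :=
      PadicAlgCl.isAlgebraic (hL.q w : ℕ)
    exact Algebra.IsAlgebraic.of_injective (hL.Kw w).val Subtype.val_injective
  rw [eq_top_iff]
  rintro ⟨y, hy⟩ -
  have key : ∀ x, x ∈ IntermediateField.adjoin ℚ_[((hL.q w : ℕ))]
      ((padicEmbedding (hL.q w : ℕ)) '' (hL.conjField w : Set Qbar)) →
      ∃ hx : x ∈ hL.Kw w, (⟨x, hx⟩ : ↥(hL.Kw w)) ∈
        Algebra.adjoin ℚ_[((hL.q w : ℕ))] (Set.range (algebraMap ↥F ↥(hL.Kw w))) := by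
    intro x hx
    induction hx using IntermediateField.adjoin_induction with
    | mem x hx =>
      obtain ⟨z, hz, rfl⟩ := hx
      obtain ⟨a, ha, rfl⟩ := hz
      exact ⟨helper74.padicEmbedding_mem_localField (hL.q w : ℕ) ⟨a, ha, rfl⟩,
        Algebra.subset_adjoin ⟨⟨a, ha⟩, rfl⟩⟩
    | algebraMap c =>
      exact ⟨IntermediateField.algebraMap_mem _ c, Subalgebra.algebraMap_mem _ c⟩
    | add x y _ _ ihx ihy =>
      obtain ⟨hx, hx'⟩ := ihx
      obtain ⟨hy, hy'⟩ := ihy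
      exact ⟨add_mem hx hy, add_mem hx' hy'⟩
    | inv x _ ihx =>
      obtain ⟨hx, hx'⟩ := ihx
      exact ⟨inv_mem hx, Subalgebra.inv_mem_of_algebraic _ (x := ⟨_, hx'⟩)
        (Algebra.IsAlgebraic.isAlgebraic _)⟩
    | mul x y _ _ ihx ihy =>
      obtain ⟨hx, hx'⟩ := ihx
      obtain ⟨hy, hy'⟩ := ihy
      exact ⟨mul_mem hx hy, mul_mem hx' hy'⟩
  obtain ⟨_, h⟩ := key y hy
  exact h

/-- the local field `M_w = K_w(ι(g_w⁻¹ E))` -/
def mixField : IntermediateField ↥(hL.Kw w) (PadicAlgCl (hL.q w : ℕ)) :=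
  mixGenField ↥(hL.Kw w) (PadicAlgCl (hL.q w : ℕ)) (mixEmbE hL E w)

variable [NumberField ↥F] [FiniteDimensional ↥F ↥E] [IsGalois ↥F ↥E]

/-- THE LOCAL DATUM of `E/F` at `w`: `Kv = K_w`, `Lw = mixField hL E w`. -/
def mixDatum : LocDatum (hL.q w : ℕ) ↥F ↥E :=
  letI := mixAlgFK hL w
  haveI := hL.finiteDimensional_Kw w
  haveI := mix_isAlgebraic_Kw hL w
  mixGenDatum ↥(hL.Kw w) (PadicAlgCl (hL.q w : ℕ)) (mixEmbE hL E w) (mix_denseK hL w)
    (fun _ => rfl)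

end Arith

end Fermat.Agent.S55.helper72
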