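import Fermat.Agent.S55.helper72_BArRecMixB

/-!
# S55 module B, package B-AR-REC-MIX (helper72, task 551), part C: place, compatibility, value

* `mixDatum_atPlace` : (c) the datum `mixDatum hL E w` sits at the place `mixPlace hL w`
  (`= primeAt hL w`);
* `mix_locHom_locRes` : (b) `locHom (locRes s) = resFix F E (L.r w s)`;
* `mix_inv_eq` : (d) the `Inv`-invariant of the localisation of the class of `ζ ^ c` at
  `mixDatum hL E w` is `qz (inv_w (c ∘ res ∘ r_w))`.
-/

set_option autoImplicit false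

open groupCohomology ExtCitation
open scoped NumberField
open IsDedekindDomain

noncomputable section

namespace Fermat.Agent.S55.helper72

open Fermat.Agent.S55 Fermat.Agent.S55.helper59 Fermat.Agent.S55.helper8
  Fermat.Agent.S55.helper11

local instance mixFactOfPrimesC (q : Nat.Primes) : Fact (q : ℕ).Prime := ⟨q.2⟩

local notation "Qbar" => AlgebraicClosure ℚ

section Norm

variable (q : ℕ) [Fact q.Prime]

lemma mix_mem_nonunits_padicPlace_iff (x : Qbar) :
    x ∈ (padicPlace q).nonunits ↔ ‖padicEmbedding q x‖ < 1 := by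
  rw [ValuationSubring.mem_nonunits_iff_or, helper74.mem_padicPlace_iff_norm]
  by_cases hx : x = 0
  · subst hx
    simp
  · have h0 : padicEmbedding q x ≠ 0 :=
      fun h => hx ((map_eq_zero_iff _ (padicEmbedding q).toRingHom.injective).mp h)
    have hpos : 0 < ‖padicEmbedding q x‖ := norm_pos_iff.mpr h0
    rw [map_inv₀, norm_inv, not_le, one_lt_inv₀ hpos]
    constructor
    · rintro (h | h)
      · exact absurd h hx
      · exact h
    · exact fun h => Or.inr h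

end Norm

section ArithPlace

variable {S : Finset Nat.Primes} {F : IntermediateField ℚ Qbar}
  {𝒩 : Levels (UF F)} {ι : Type} {L : LocalData (UF F) 𝒩 ι}
  (hL : IsArith S F L) (E : IntermediateField ↥F Qbar) (w : ι)
  [NumberField ↥F] [FiniteDimensional ↥F ↥E] [IsGalois ↥F ↥E]

/-- the place of `F` attached to `w` -/
def mixPlace : HeightOneSpectrum (𝓞 ↥F) :=
  ⟨helper96.primeAt hL w, (helper96.primeAt_mem hL w).1, (helper96.primeAt_mem hL w).2.1⟩

omit [NumberField ↥F] in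
lemma mix_mem_primeAt_iff (a : 𝓞 ↥F) :
    a ∈ helper96.primeAt hL w ↔
      ‖padicEmbedding (hL.q w : ℕ) (((hL.g w)⁻¹ : GQ) ((a : ↥F) : Qbar))‖ < 1 := by
  unfold helper96.primeAt
  rw [Fermat.Agent.S14.helper91.mem_primeOf_iff, ← ValuationSubring.mem_nonunits_iff,
    ← mix_mem_nonunits_padicPlace_iff]
  unfold helper96.placeAt
  have h1 : algebraMap ↥F Qbar (a : ↥F) =
      hL.g w (((hL.g w)⁻¹ : GQ) ((a : ↥F) : Qbar)) := by
    rw [← AlgEquiv.mul_apply, mul_inv_cancel, AlgEquiv.one_apply]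
    rfl
  rw [h1, helper69.apply_mem_nonunits_smul_iff]
  rfl

theorem mixDatum_atPlace : (mixDatum hL E w).AtPlace (mixPlace hL w) := by
  intro a
  change a ∈ helper96.primeAt hL w ↔ _
  rw [mix_mem_primeAt_iff, helper15.pos_ordT_iff]
  change _ ↔ spectralNorm ℚ_[((hL.q w : ℕ))] ↥(hL.Kw w) (hL.locEmb w (a : ↥F)) < 1
  have h := spectralNorm.eq_of_tower (K := ℚ_[((hL.q w : ℕ))]) (E := ↥(hL.Kw w))
    (L := PadicAlgCl (hL.q w : ℕ)) (hL.locEmb w (a : ↥F))
  rw [h]
  rfl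

end ArithPlace

section GenericZeta

variable (F L Kv Lw : Type) [Field F] [Field L] [Field Kv] [Field Lw]
  [Algebra F L] [Algebra Kv Lw] [Algebra F Kv] [Algebra L Lw] [Algebra F Lw]
  [IsScalarTower F L Lw] [IsScalarTower F Kv Lw] [Normal F L]

lemma mix_locCochain_zetaCochain (p : ℕ) (ζ : Fˣ) (c : (L ≃ₐ[F] L) × (L ≃ₐ[F] L) → ZMod p) :
    helper13.locCochain F L Kv Lw (zetaCochain p (Units.map (algebraMap F L : F →* L) ζ) c) =
      zetaCochain p (Units.map (algebraMap Kv Lw : Kv →* Lw)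
          (Units.map (algebraMap F Kv : F →* Kv) ζ))
        (fun g => c (locHom F L Kv Lw g.1, locHom F L Kv Lw g.2)) := by
  funext g
  simp only [helper13.locCochain_apply, zetaCochain, map_pow]
  congr 1
  apply Units.ext
  change algebraMap L Lw (algebraMap F L (ζ : F)) = algebraMap Kv Lw (algebraMap F Kv (ζ : F))
  rw [← IsScalarTower.algebraMap_apply F L Lw, ← IsScalarTower.algebraMap_apply F Kv Lw]

end GenericZeta

section Arith

variable {S : Finset Nat.Primes} {F : IntermediateField ℚ Qbar}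
  {𝒩 : Levels (UF F)} {ι : Type} {L : LocalData (UF F) 𝒩 ι}
  (hL : IsArith S F L) (E : IntermediateField ↥F Qbar) (w : ι)
  [NumberField ↥F] [FiniteDimensional ↥F ↥E] [IsGalois ↥F ↥E]

instance mixField_isGalois : IsGalois ↥(hL.Kw w) ↥(mixField hL E w) :=
  (mixDatum hL E w).galKL

instance mixField_finiteDimensional : FiniteDimensional ↥(hL.Kw w) ↥(mixField hL E w) :=
  (mixDatum hL E w).finKL

/-- `hL.locRes` with values in the Galois group of the datum -/
def mixLocRes : L.Gv w →* ((mixDatum hL E w).Lw ≃ₐ[(mixDatum hL E w).Kv] (mixDatum hL E w).Lw) :=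
  hL.locRes w (mixField hL E w)

omit [NumberField ↥F] [FiniteDimensional ↥F ↥E] [IsGalois ↥F ↥E] in
lemma mix_r_apply (s : L.Gv w) (x : Qbar) :
    padicEmbedding (hL.q w : ℕ) (((hL.g w)⁻¹ : GQ) (((L.r w s : UF F) : GQ) x)) =
      hL.jq w s (padicEmbedding (hL.q w : ℕ) (((hL.g w)⁻¹ : GQ) x)) := by
  rw [hL.r_eq w s, AlgEquiv.mul_apply, AlgEquiv.mul_apply, ← AlgEquiv.mul_apply (hL.g w)⁻¹,
    inv_mul_cancel, AlgEquiv.one_apply]
  exact padicEmbedding_localGaloisToGlobal (hL.q w : ℕ) (hL.jq w s) _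

/-- (b) COMPAT -/
theorem mix_locHom_locRes (s : L.Gv w) :
    locHom ↥F ↥E (mixDatum hL E w).Kv (mixDatum hL E w).Lw (mixLocRes hL E w s) =
      resFix F E (L.r w s) := by
  apply AlgEquiv.ext
  intro x
  apply (algebraMap ↥E (mixDatum hL E w).Lw).injective
  rw [algebraMap_locHom]
  apply (mixField hL E w).val.injective
  have h1 : (mixField hL E w).val (algebraMap ↥E (mixDatum hL E w).Lw (resFix F E (L.r w s) x)) =
      padicEmbedding (hL.q w : ℕ) (((hL.g w)⁻¹ : GQ)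
        ((resFix F E (L.r w s) x : ↥E) : Qbar)) := rfl
  refine Eq.trans ?_ h1.symm
  rw [resFix_apply_coe, mix_r_apply]
  have h2 := AlgEquiv.restrictNormal_commutes (hL.locEquiv w s) ↥(mixField hL E w)
    (algebraMap ↥E (mixDatum hL E w).Lw x)
  exact h2


variable {p : ℕ} [Fact p.Prime]

set_option synthInstance.maxHeartbeats 400000 in
omit [NumberField ↥F] in
lemma mix_isMulCocycle₂ (ζ : (↥F)ˣ) (hζ : ζ ^ p = 1)
    (c : (E ≃ₐ[↥F] E) × (E ≃ₐ[↥F] E) → ZMod p)
    (hc : c ∈ LinearMap.ker (d₂₃ (Rep.trivial (ZMod p) (E ≃ₐ[↥F] E) (ZMod p))).hom) :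
    IsMulCocycle₂ (zetaCochain p (Units.map (algebraMap ↥F ↥E : ↥F →* ↥E) ζ) c) := by
  have hζE : (Units.map (algebraMap ↥F ↥E : ↥F →* ↥E) ζ) ^ p = 1 := by
    rw [← map_pow, hζ, map_one]
  exact helper13.isMulCocycle₂_zetaCochain p _ hζE (helper13.units_map_fix ↥F ↥E ζ) c
    ((helper13.mem_ker_d₂₃_trivial_iff c).1 hc)

/-- the pulled-back cochain on the local Galois group -/
def mixCochain (c : (E ≃ₐ[↥F] E) × (E ≃ₐ[↥F] E) → ZMod p) :
    ((mixDatum hL E w).Lw ≃ₐ[(mixDatum hL E w).Kv] (mixDatum hL E w).Lw) ×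
      ((mixDatum hL E w).Lw ≃ₐ[(mixDatum hL E w).Kv] (mixDatum hL E w).Lw) → ZMod p :=
  fun g => c (locHom ↥F ↥E (mixDatum hL E w).Kv (mixDatum hL E w).Lw g.1,
    locHom ↥F ↥E (mixDatum hL E w).Kv (mixDatum hL E w).Lw g.2)

set_option synthInstance.maxHeartbeats 400000 in
theorem mix_loc_eq (ζ : (↥F)ˣ) (hζ : ζ ^ p = 1)
    (c : (E ≃ₐ[↥F] E) × (E ≃ₐ[↥F] E) → ZMod p)
    (hc : c ∈ LinearMap.ker (d₂₃ (Rep.trivial (ZMod p) (E ≃ₐ[↥F] E) (ZMod p))).hom) :
    (mixDatum hL E w).loc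
        (mulClass ↥F ↥E (zetaCochain p (Units.map (algebraMap ↥F ↥E : ↥F →* ↥E) ζ) c)) =
      mulClass (mixDatum hL E w).Kv (mixDatum hL E w).Lw
        (zetaCochain p (Units.map (algebraMap (mixDatum hL E w).Kv (mixDatum hL E w).Lw :
            (mixDatum hL E w).Kv →* (mixDatum hL E w).Lw)
          (Units.map (algebraMap ↥F (mixDatum hL E w).Kv : ↥F →* (mixDatum hL E w).Kv) ζ))
          (mixCochain hL E w c)) := by
  have hcoc := mix_isMulCocycle₂ E ζ hζ c hc
  change (locH ↥F ↥E (mixDatum hL E w).Kv (mixDatum hL E w).Lw 2).hom _ = _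
  rw [helper13.locH_mulClass ↥F ↥E (mixDatum hL E w).Kv (mixDatum hL E w).Lw hcoc,
    mix_locCochain_zetaCochain]
  rfl

/-- (d) LOCAL VALUE -/
theorem mix_inv_eq (Inv : LocInv) (ζ : (↥F)ˣ) (hζ : ζ ^ p = 1)
    (inv : ∀ w : ι, (L.Gv w × L.Gv w → ZMod p) →ₗ[ZMod p] ZMod p)
    (hinv : InvCompat Inv ζ hL inv)
    (c : (E ≃ₐ[↥F] E) × (E ≃ₐ[↥F] E) → ZMod p)
    (hc : c ∈ LinearMap.ker (d₂₃ (Rep.trivial (ZMod p) (E ≃ₐ[↥F] E) (ZMod p))).hom) :
    Inv.inv (hL.q w : ℕ) (mixDatum hL E w).Kv (mixDatum hL E w).Lw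
        ((mixDatum hL E w).loc
          (mulClass ↥F ↥E (zetaCochain p (Units.map (algebraMap ↥F ↥E : ↥F →* ↥E) ζ) c))) =
      helper13.qz p (inv w (fun s => c (resFix F E (L.r w s.1), resFix F E (L.r w s.2)))) := by
  rw [mix_loc_eq hL E w ζ hζ c hc, helper13.qz_apply]
  have hc' : mixCochain hL E w c ∈ LinearMap.ker (d₂₃ (Rep.trivial (ZMod p)
      ((mixDatum hL E w).Lw ≃ₐ[(mixDatum hL E w).Kv] (mixDatum hL E w).Lw) (ZMod p))).hom := by
    rw [helper13.mem_ker_d₂₃_trivial_iff]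
    intro g h j
    simp only [mixCochain, map_mul]
    exact (helper13.mem_ker_d₂₃_trivial_iff c).1 hc _ _ _
  have h := hinv w (mixField hL E w) (mixCochain hL E w c) hc'
  have hinfl : infl₂ (hL.locRes w (mixField hL E w)) (mixCochain hL E w c) =
      fun s => c (resFix F E (L.r w s.1), resFix F E (L.r w s.2)) := by
    funext s
    change c (locHom ↥F ↥E (mixDatum hL E w).Kv (mixDatum hL E w).Lw (mixLocRes hL E w s.1),
      locHom ↥F ↥E (mixDatum hL E w).Kv (mixDatum hL E w).Lw (mixLocRes hL E w s.2)) = _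
    rw [mix_locHom_locRes, mix_locHom_locRes]
  rw [hinfl] at h
  exact h.symm

end Arith

end Fermat.Agent.S55.helper72
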