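import Fermat.Agent.S55.helper11_RecDefs

/-!
# S55 / REC1-EXT (helper72): functoriality of `locH` and extension of a local datum

* `locHom_comp`, `locH_comp` : functoriality of the localisation maps along a tower of squares;
* `exists_extend` : a local datum of `L/F` extends to a local datum of `L'/F` (`L ⊆ L'`) with the
  same completion of `F`.
-/

set_option autoImplicit false

open CategoryTheory groupCohomology

namespace Fermat.Agent.S55.helper72

open Fermat.Agent.S55.helper8 Fermat.Agent.S55.helper11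

section Functoriality

variable (F L K₁ L₁ K₂ L₂ : Type) [Field F] [Field L] [Field K₁] [Field L₁] [Field K₂]
    [Field L₂] [Algebra F L] [Normal F L] [Algebra K₁ L₁] [Normal K₁ L₁] [Algebra K₂ L₂]
    [Algebra F K₁] [Algebra L L₁] [Algebra F L₁] [IsScalarTower F L L₁] [IsScalarTower F K₁ L₁]
    [Algebra K₁ K₂] [Algebra L₁ L₂] [Algebra K₁ L₂] [IsScalarTower K₁ L₁ L₂]
    [IsScalarTower K₁ K₂ L₂]
    [Algebra F K₂] [Algebra L L₂] [Algebra F L₂] [IsScalarTower F L L₂] [IsScalarTower F K₂ L₂]
    [IsScalarTower L L₁ L₂]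

theorem locHom_comp :
    (locHom F L K₁ L₁).comp (locHom K₁ L₁ K₂ L₂) = locHom F L K₂ L₂ := by
  ext σ x
  apply (algebraMap L L₂).injective
  rw [algebraMap_locHom F L K₂ L₂ σ x, MonoidHom.comp_apply,
    IsScalarTower.algebraMap_apply L L₁ L₂, algebraMap_locHom F L K₁ L₁,
    algebraMap_locHom K₁ L₁ K₂ L₂, IsScalarTower.algebraMap_apply L L₁ L₂]

theorem locH_comp (n : ℕ) :
    locH F L K₂ L₂ n = locH F L K₁ L₁ n ≫ locH K₁ L₁ K₂ L₂ n := by
  unfold locH
  rw [← groupCohomology.map_comp]
  refine groupCohomology.map_congr (locHom_comp F L K₁ L₁ K₂ L₂).symm ?_ n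
  ext x
  apply Additive.toMul.injective
  apply Units.ext
  exact IsScalarTower.algebraMap_apply L L₁ L₂ _

end Functoriality

section Extend

variable {q : ℕ} [Fact q.Prime] {F L : Type} [Field F] [Field L] [Algebra F L]
variable (L' : Type) [Field L'] [Algebra F L'] [Algebra L L'] [IsScalarTower F L L']
  [FiniteDimensional F L'] (D : LocDatum q F L)

/-- an `L`-embedding of `L'` into the algebraic closure of `D.Lw` -/
noncomputable def extEmb : L' →ₐ[L] AlgebraicClosure D.Lw :=
  haveI : FiniteDimensional L L' := FiniteDimensional.right F L L'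
  IsAlgClosed.lift

/-- the completion of `L'`: the compositum of `D.Kv` and the image of `L'` -/
noncomputable def extField : IntermediateField D.Kv (AlgebraicClosure D.Lw) :=
  IntermediateField.adjoin D.Kv (Set.range (extEmb L' D))

lemma extEmb_mem (x : L') : extEmb L' D x ∈ extField L' D :=
  IntermediateField.subset_adjoin _ _ ⟨x, rfl⟩

/-- the embedding `L' → extField` -/
noncomputable def extHom : L' →+* extField L' D :=
  (extEmb L' D).toRingHom.codRestrict (extField L' D) (extEmb_mem L' D)

@[simp] lemma coe_extHom (x : L') : ((extHom L' D x : extField L' D) : AlgebraicClosure D.Lw) =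
    extEmb L' D x := rfl

/-- compatibility of the `F`-structures -/
lemma extEmb_algebraMap_F (a : F) :
    extEmb L' D (algebraMap F L' a) = algebraMap F (AlgebraicClosure D.Lw) a := by
  rw [IsScalarTower.algebraMap_apply F L L', AlgHom.commutes,
    ← IsScalarTower.algebraMap_apply F L (AlgebraicClosure D.Lw)]

lemma algebraMap_D_Lw_mem (x : D.Lw) :
    algebraMap D.Lw (AlgebraicClosure D.Lw) x ∈ extField L' D := by
  have hx : x ∈ Algebra.adjoin ℚ_[q] (Set.range (algebraMap L D.Lw)) := by
    rw [D.denseL]; trivial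
  induction hx using Algebra.adjoin_induction with
  | mem y hy =>
    obtain ⟨a, rfl⟩ := hy
    have : algebraMap D.Lw (AlgebraicClosure D.Lw) (algebraMap L D.Lw a) =
        extEmb L' D (algebraMap L L' a) := by
      rw [AlgHom.commutes, ← IsScalarTower.algebraMap_apply L D.Lw (AlgebraicClosure D.Lw)]
    rw [this]
    exact extEmb_mem L' D _
  | algebraMap r =>
    have : algebraMap D.Lw (AlgebraicClosure D.Lw) (algebraMap ℚ_[q] D.Lw r) =
        algebraMap D.Kv (AlgebraicClosure D.Lw) (algebraMap ℚ_[q] D.Kv r) := by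
      rw [← IsScalarTower.algebraMap_apply ℚ_[q] D.Lw (AlgebraicClosure D.Lw),
        ← IsScalarTower.algebraMap_apply ℚ_[q] D.Kv (AlgebraicClosure D.Lw)]
    rw [this]
    exact (extField L' D).algebraMap_mem _
  | add x y _ _ hx hy => rw [map_add]; exact add_mem hx hy
  | mul x y _ _ hx hy => rw [map_mul]; exact mul_mem hx hy

/-- the inclusion `D.Lw → extField` -/
noncomputable def extIncl : D.Lw →+* extField L' D :=
  (algebraMap D.Lw (AlgebraicClosure D.Lw)).codRestrict (extField L' D)
    (algebraMap_D_Lw_mem L' D)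

@[simp] lemma coe_extIncl (x : D.Lw) :
    ((extIncl L' D x : extField L' D) : AlgebraicClosure D.Lw) =
      algebraMap D.Lw (AlgebraicClosure D.Lw) x := rfl

end Extend

section Extend2

variable {q : ℕ} [Fact q.Prime] {F L : Type} [Field F] [Field L] [Algebra F L]
variable (L' : Type) [Field L'] [Algebra F L'] [Algebra L L'] [IsScalarTower F L L']
  [FiniteDimensional F L'] (D : LocDatum q F L)

theorem extField_finiteDimensional : FiniteDimensional D.Kv (extField L' D) := by
  classical
  let b := Module.finBasis F L'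
  set S : Set (AlgebraicClosure D.Lw) := Set.range (fun i => extEmb L' D (b i)) with hS
  have hle : extField L' D ≤ IntermediateField.adjoin D.Kv S := by
    rw [extField, IntermediateField.adjoin_le_iff]
    rintro _ ⟨x, rfl⟩
    have hx : x = ∑ i, b.repr x i • b i := (b.sum_repr x).symm
    rw [hx, map_sum]
    refine sum_mem fun i _ => ?_
    rw [Algebra.smul_def, map_mul, extEmb_algebraMap_F,
      IsScalarTower.algebraMap_apply F D.Kv (AlgebraicClosure D.Lw)]
    exact mul_mem (IntermediateField.algebraMap_mem _ _)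
      (IntermediateField.subset_adjoin _ _ ⟨i, rfl⟩)
  have : Finite S := Set.finite_range _
  have : FiniteDimensional D.Kv (IntermediateField.adjoin D.Kv S) :=
    IntermediateField.finiteDimensional_adjoin (fun x _ => Algebra.IsIntegral.isIntegral x)
  exact Submodule.finiteDimensional_of_le
    (S₁ := (extField L' D).toSubalgebra.toSubmodule)
    (S₂ := (IntermediateField.adjoin D.Kv S).toSubalgebra.toSubmodule) hle

theorem charZero_Kv : CharZero D.Kv :=
  charZero_of_injective_algebraMap (algebraMap ℚ_[q] D.Kv).injective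

end Extend2

section Extend3

variable {q : ℕ} [Fact q.Prime] {F L : Type} [Field F] [Field L] [Algebra F L]
variable (L' : Type) [Field L'] [Algebra F L'] [Algebra L L'] [IsScalarTower F L L']
  [FiniteDimensional F L'] (D : LocDatum q F L)

theorem extField_normal [Normal F L'] : Normal D.Kv (extField L' D) := by
  have : Normal D.Kv (AlgebraicClosure D.Lw) := IsAlgClosure.normal D.Kv _
  rw [IntermediateField.normal_iff_forall_map_le]
  intro σ
  rw [extField, IntermediateField.adjoin_map, IntermediateField.adjoin_le_iff]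
  rintro _ ⟨_, ⟨x, rfl⟩, rfl⟩
  have hsplit : ((minpoly F x).map (algebraMap F L')).Splits := Normal.splits inferInstance x
  let ιF : L' →ₐ[F] AlgebraicClosure D.Lw := (extEmb L' D).restrictScalars F
  have hroot : σ (extEmb L' D x) ∈ (minpoly F x).rootSet (AlgebraicClosure D.Lw) := by
    rw [Polynomial.mem_rootSet]
    refine ⟨minpoly.ne_zero (Algebra.IsIntegral.isIntegral x), ?_⟩
    have : Polynomial.aeval (σ (extEmb L' D x)) (minpoly F x) =
        (σ.restrictScalars F) (ιF (Polynomial.aeval x (minpoly F x))) := by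
      rw [← Polynomial.aeval_algHom_apply, ← Polynomial.aeval_algHom_apply]
      rfl
    rw [this, minpoly.aeval, map_zero, map_zero]
  rw [← hsplit.image_rootSet ιF] at hroot
  obtain ⟨y, _, hy⟩ := hroot
  rw [← hy]
  exact IntermediateField.subset_adjoin _ _ ⟨y, rfl⟩

theorem extField_isGalois [IsGalois F L'] : IsGalois D.Kv (extField L' D) := by
  have := charZero_Kv D
  have := extField_normal L' D
  have := extField_finiteDimensional L' D
  exact ⟨⟩

theorem algebraMap_Kv_mem (c : D.Kv) :
    algebraMap D.Kv (extField L' D) c ∈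
      Algebra.adjoin ℚ_[q] (Set.range (extHom L' D)) := by
  have hc : c ∈ Algebra.adjoin ℚ_[q] (Set.range (algebraMap F D.Kv)) := by
    rw [D.denseK]; trivial
  induction hc using Algebra.adjoin_induction with
  | mem y hy =>
    obtain ⟨a, rfl⟩ := hy
    have : algebraMap D.Kv (extField L' D) (algebraMap F D.Kv a) =
        extHom L' D (algebraMap F L' a) := by
      apply Subtype.ext
      rw [coe_extHom, extEmb_algebraMap_F,
        IsScalarTower.algebraMap_apply F D.Kv (AlgebraicClosure D.Lw)]
      rfl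
    rw [this]
    exact Algebra.subset_adjoin ⟨_, rfl⟩
  | algebraMap r =>
    rw [← IsScalarTower.algebraMap_apply ℚ_[q] D.Kv (extField L' D)]
    exact Subalgebra.algebraMap_mem _ _
  | add x y _ _ hx hy => rw [map_add]; exact add_mem hx hy
  | mul x y _ _ hx hy => rw [map_mul]; exact mul_mem hx hy

theorem extField_isAlgebraic (z : extField L' D) : IsAlgebraic ℚ_[q] z := by
  have h1 := extField_finiteDimensional L' D
  have h2 : FiniteDimensional ℚ_[q] (extField L' D) :=
    FiniteDimensional.trans ℚ_[q] D.Kv (extField L' D)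
  exact Algebra.IsAlgebraic.isAlgebraic z

theorem extField_dense : Algebra.adjoin ℚ_[q] (Set.range (extHom L' D)) = ⊤ := by
  rw [eq_top_iff]
  rintro ⟨y, hy⟩ -
  have key : ∀ x, x ∈ IntermediateField.adjoin D.Kv (Set.range (extEmb L' D)) →
      ∃ hx : x ∈ extField L' D, (⟨x, hx⟩ : extField L' D) ∈
        Algebra.adjoin ℚ_[q] (Set.range (extHom L' D)) := by
    intro x hx
    induction hx using IntermediateField.adjoin_induction with
    | mem x hx =>
      obtain ⟨a, rfl⟩ := hx
      exact ⟨extEmb_mem L' D a, Algebra.subset_adjoin ⟨a, rfl⟩⟩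
    | algebraMap c =>
      exact ⟨IntermediateField.algebraMap_mem _ c, algebraMap_Kv_mem L' D c⟩
    | add x y _ _ ihx ihy =>
      obtain ⟨hx, hx'⟩ := ihx
      obtain ⟨hy, hy'⟩ := ihy
      exact ⟨add_mem hx hy, add_mem hx' hy'⟩
    | inv x _ ihx =>
      obtain ⟨hx, hx'⟩ := ihx
      exact ⟨inv_mem hx, Subalgebra.inv_mem_of_algebraic _ (x := ⟨_, hx'⟩)
        (extField_isAlgebraic L' D _)⟩
    | mul x y _ _ ihx ihy =>
      obtain ⟨hx, hx'⟩ := ihx
      obtain ⟨hy, hy'⟩ := ihy
      exact ⟨mul_mem hx hy, mul_mem hx' hy'⟩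
  obtain ⟨_, h⟩ := key y hy
  exact h

end Extend3

section Extend4

variable {q : ℕ} [Fact q.Prime] {F L : Type} [Field F] [Field L] [Algebra F L]
variable (L' : Type) [Field L'] [Algebra F L'] [Algebra L L'] [IsScalarTower F L L']
  [FiniteDimensional F L'] [IsGalois F L'] (D : LocDatum q F L)

/-- the `L'`-algebra structure on `extField` -/
noncomputable abbrev extAlgebra : Algebra L' (extField L' D) := (extHom L' D).toAlgebra

/-- the extended datum -/
noncomputable def extDatum : LocDatum q F L' :=
  letI := extAlgebra L' D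
  { Kv := D.Kv
    Lw := extField L' D
    finKL := extField_finiteDimensional L' D
    galKL := extField_isGalois L' D
    towerFLL := IsScalarTower.of_algebraMap_eq (fun a => by
      apply Subtype.ext
      change algebraMap F (AlgebraicClosure D.Lw) a = extEmb L' D (algebraMap F L' a)
      rw [extEmb_algebraMap_F])
    denseK := D.denseK
    denseL := extField_dense L' D }


/-- the `D.Lw`-algebra structure on `extField` -/
noncomputable abbrev extAlgebraLw : Algebra D.Lw (extField L' D) := (extIncl L' D).toAlgebra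

theorem exists_extend_aux [IsGalois F L] :
    ∃ (E : LocDatum q F L') (_ : Algebra D.Kv E.Kv) (_ : Algebra D.Lw E.Lw)
      (_ : Algebra D.Kv E.Lw) (_ : IsScalarTower D.Kv D.Lw E.Lw)
      (_ : IsScalarTower D.Kv E.Kv E.Lw) (_ : IsScalarTower ℚ_[q] D.Kv E.Kv)
      (_ : FiniteDimensional D.Kv E.Kv),
      Module.finrank D.Kv E.Kv = 1 ∧
      (∀ a : F, algebraMap D.Kv E.Kv (algebraMap F D.Kv a) = algebraMap F E.Kv a) ∧
      (∀ a : L, algebraMap D.Lw E.Lw (algebraMap L D.Lw a) =
        algebraMap L' E.Lw (algebraMap L L' a)) ∧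
      (∀ a : F, 0 < ordT q D.Kv (algebraMap F D.Kv a) ↔ 0 < ordT q E.Kv (algebraMap F E.Kv a)) ∧
      ∀ x : H2 (Rep.ofAlgebraAutOnUnits F L),
        E.loc ((locH F L F L' 2).hom x) = (locH D.Kv D.Lw E.Kv E.Lw 2).hom (D.loc x) := by
  have hLcompat : ∀ a : L, (extIncl L' D) (algebraMap L D.Lw a) =
      (extHom L' D) (algebraMap L L' a) := by
    intro a
    apply Subtype.ext
    rw [coe_extIncl, coe_extHom, AlgHom.commutes,
      ← IsScalarTower.algebraMap_apply L D.Lw (AlgebraicClosure D.Lw)]
  let i1 : Algebra D.Kv (extDatum L' D).Kv := Algebra.id D.Kv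
  let i2 : Algebra D.Lw (extDatum L' D).Lw := extAlgebraLw L' D
  let i3 : Algebra D.Kv (extDatum L' D).Lw := (extDatum L' D).algKL
  have t1 : IsScalarTower D.Kv D.Lw (extDatum L' D).Lw :=
    IsScalarTower.of_algebraMap_eq (fun x => by
      apply Subtype.ext
      exact IsScalarTower.algebraMap_apply D.Kv D.Lw (AlgebraicClosure D.Lw) x)
  have t2 : IsScalarTower D.Kv (extDatum L' D).Kv (extDatum L' D).Lw :=
    IsScalarTower.left (M := D.Kv) (α := extField L' D)
  have t3 : IsScalarTower ℚ_[q] D.Kv (extDatum L' D).Kv :=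
    IsScalarTower.right (R := ℚ_[q]) (A := D.Kv)
  have t4 : FiniteDimensional D.Kv (extDatum L' D).Kv := Module.Finite.self D.Kv
  refine ⟨extDatum L' D, i1, i2, i3, t1, t2, t3, t4, ?_, ?_, ?_, ?_, ?_⟩
  · exact Module.finrank_self D.Kv
  · intro a; rfl
  · exact hLcompat
  · intro a; exact Iff.rfl
  · let i4 : Algebra L (extDatum L' D).Lw := ((extHom L' D).comp (algebraMap L L')).toAlgebra
    have t5 : IsScalarTower L L' (extDatum L' D).Lw :=
      IsScalarTower.of_algebraMap_eq (fun _ => rfl)
    have t6 : IsScalarTower F L (extDatum L' D).Lw :=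
      IsScalarTower.of_algebraMap_eq (fun a => by
        have h1 := IsScalarTower.algebraMap_apply F L' (extDatum L' D).Lw a
        rw [h1, IsScalarTower.algebraMap_apply F L L' a]
        rfl)
    have t7 : IsScalarTower L D.Lw (extDatum L' D).Lw :=
      IsScalarTower.of_algebraMap_eq (fun a => (hLcompat a).symm)
    intro x
    have ha := locH_comp F L F L' (extDatum L' D).Kv (extDatum L' D).Lw 2
    have hb := locH_comp F L D.Kv D.Lw (extDatum L' D).Kv (extDatum L' D).Lw 2
    change (locH F L F L' 2 ≫ locH F L' (extDatum L' D).Kv (extDatum L' D).Lw 2).hom x =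
      (locH F L D.Kv D.Lw 2 ≫ locH D.Kv D.Lw (extDatum L' D).Kv (extDatum L' D).Lw 2).hom x
    rw [← ha, ← hb]

end Extend4


/-- **R-EXT** (statement of `helper11_Rec1Interface.exists_extend`, verbatim): a local datum of
`L/F` extends to a local datum of `L'/F` with the same completion of `F`. -/
theorem exists_extend (q : ℕ) [Fact q.Prime] (F L L' : Type) [Field F] [Field L] [Field L']
    [Algebra F L] [Algebra F L'] [Algebra L L'] [IsScalarTower F L L'] [FiniteDimensional F L']
    [IsGalois F L] [IsGalois F L'] (D : LocDatum q F L) :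
    ∃ (E : LocDatum q F L') (_ : Algebra D.Kv E.Kv) (_ : Algebra D.Lw E.Lw)
      (_ : Algebra D.Kv E.Lw) (_ : IsScalarTower D.Kv D.Lw E.Lw)
      (_ : IsScalarTower D.Kv E.Kv E.Lw) (_ : IsScalarTower ℚ_[q] D.Kv E.Kv)
      (_ : FiniteDimensional D.Kv E.Kv),
      Module.finrank D.Kv E.Kv = 1 ∧
      (∀ a : F, algebraMap D.Kv E.Kv (algebraMap F D.Kv a) = algebraMap F E.Kv a) ∧
      (∀ a : L, algebraMap D.Lw E.Lw (algebraMap L D.Lw a) =
        algebraMap L' E.Lw (algebraMap L L' a)) ∧
      (∀ a : F, 0 < ordT q D.Kv (algebraMap F D.Kv a) ↔ 0 < ordT q E.Kv (algebraMap F E.Kv a)) ∧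
      ∀ x : H2 (Rep.ofAlgebraAutOnUnits F L),
        E.loc ((locH F L F L' 2).hom x) = (locH D.Kv D.Lw E.Kv E.Lw 2).hom (D.loc x) :=
  exists_extend_aux L' D

end Fermat.Agent.S55.helper72
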