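import Fermat.Agent.S55.helper89_ChevMain
import Fermat.Agent.S55.helper73_Ineq1Final

/-!
# S55 / GLOB / G7 (helper89): Chevalley's second inequality

`ineq2` : for a cyclic extension `L / K` of odd prime degree `p` of number fields with `ζ_p ∈ K`,
the index `[C_L^G : N C_L]` divides `p` (statement verbatim from the GLOB interface of helper73).
-/

set_option autoImplicit false

open scoped TensorProduct NumberField
open IsDedekindDomain

universe u

namespace Fermat.Agent.S55.helper89

open Fermat.Agent.S55.helper73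

/-- the first inequality gives `|Ĥ⁰(C_N)| ≠ 1`. -/
theorem ineq1Hyp_holds (K : Type u) [Field K] [NumberField K] (p : ℕ) (hp : p.Prime)
    (hp2 : p ≠ 2) : Ineq1Hyp K p := by
  intro N _ _ _ _ hdeg
  have hcard : Nat.card Gal(N/K) = p := by
    rw [IsGalois.card_aut_eq_finrank, hdeg]
  haveI : Nontrivial Gal(N/K) := by
    rw [← Finite.one_lt_card_iff_nontrivial, hcard]
    exact hp.one_lt
  obtain ⟨σ, hσ⟩ := exists_ne (1 : Gal(N/K))
  have h := Fermat.Agent.S55.helper73.ineq1' K N p hp hp2 hdeg σ hσ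
  intro h1
  rw [h1] at h
  have h2 : p ∣ 1 := Dvd.intro _ h.2.symm
  exact hp.one_lt.ne' (Nat.dvd_one.1 h2)

section

variable (K L : Type*) [Field K] [NumberField K] [Field L] [NumberField L] [Algebra K L]
  [IsGalois K L]

/-- **Second inequality** (Chevalley): for `L / K` cyclic of odd prime degree `p` with
`ζ_p ∈ K`, the index `[C_L^G : N C_L] = |Ĥ⁰(G, C_L)|` divides `p`. -/
theorem ineq2 (p : ℕ) (hp : p.Prime) (hp2 : p ≠ 2) (hdeg : Module.finrank K L = p)
    (hζ : ∃ ζ : K, IsPrimitiveRoot ζ p) :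
    ((normG Gal(L/K) (IdeleClass L)).range.subgroupOf
      (fixedSub Gal(L/K) (IdeleClass L))).index ∣ p :=
  ineq2_of_ineq1 K L p hp hp2 hdeg hζ (ineq1Hyp_holds K p hp hp2)

end

end Fermat.Agent.S55.helper89
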