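import Fermat.Agent.S55.helper73_GlobFinal
import Fermat.Agent.S55.helper89_Ineq2
import Fermat.Agent.S55.helper78_G9Final
import Fermat.Agent.S55.helper6_G9Wire
import Fermat.Agent.S55.helper37_Rec2Ineq
import Fermat.Agent.S55.helper1_Rec2Tate

/-!
# S55 / GLOB: the global inequalities package, UNCONDITIONAL (helper73, coordinator)

With `helper89.ineq2` (Chevalley's second inequality) on main, every statement of the GLOB
interface is now unconditional:

* `ineq2Zeta`, `hypIneq2` : the second inequality in the packaged forms of `helper84` / `helper6`;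
* `ideleClass_hilbert90` : `Ĥ^{-1}(G, C_L) = 1` (cyclic of odd prime degree `p`, `ζ_p ∈ K`);
* `hasse_norm` : Hasse norm theorem (cyclic of odd prime degree, no roots of unity needed);
* `hasse_principle_H2` : Hasse principle for `H²(G, Lˣ)`, `G` of odd prime power order;
* `globHasse : helper60.GlobHasse p` : the input of REC1;
* `ideleClass_H1_trivial`, `hypGlobH1 : helper1.HypGlobH1` : `H¹(G, C_L) = 0`;
* `card_H2_ideleClass_dvd`, `cardH2IdeleClassDvd : helper37.CardH2IdeleClassDvd`,
  `hypGlobH2 : helper1.HypGlobH2` : `|H²(G, C_L)|` divides `[L : K]`.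
-/

set_option autoImplicit false

open scoped TensorProduct NumberField
open groupCohomology

universe u v

namespace Fermat.Agent.S55.helper73

section Packaged

variable (p : ℕ) (hp : p.Prime) (hp2 : p ≠ 2)

include hp hp2

/-- The second inequality in the packaged form of `helper84`. -/
theorem ineq2Zeta : Fermat.Agent.S55.helper84.Ineq2Zeta.{u} p :=
  fun K L _ _ _ _ _ _ hdeg hζ => Fermat.Agent.S55.helper89.ineq2 K L p hp hp2 hdeg hζ

/-- The second inequality in the packaged form of `helper6`. -/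
theorem hypIneq2 : Fermat.Agent.S55.helper6.HypIneq2.{u} p :=
  fun K L _ _ _ _ _ _ hdeg hζ => Fermat.Agent.S55.helper89.ineq2 K L p hp hp2 hdeg hζ

/-- `Ĥ^{-1}(G, C_L) = 1` for cyclic `L/K` of odd prime degree `p`, `ζ_p ∈ K`
(interface v1 `ideleClass_hilbert90`). -/
theorem ideleClass_hilbert90
    (K L : Type u) [Field K] [NumberField K] [Field L] [NumberField L] [Algebra K L]
    [IsGalois K L] (hdeg : Module.finrank K L = p) (hζ : ∃ ζ : K, IsPrimitiveRoot ζ p)
    (σ : Gal(L/K)) (hσ : σ ≠ 1) (x : IdeleClass L)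
    (hx : normG Gal(L/K) (IdeleClass L) x = 1) : ∃ y : IdeleClass L, σ • y / y = x :=
  ideleClass_hilbert90_of_ineq2 p hp hp2 (ineq2Zeta p hp hp2) K L hdeg hζ σ hσ x hx

/-- `helper78.CyclicH90 p`. -/
theorem cyclicH90 : Fermat.Agent.S55.helper78.CyclicH90.{u, u} p :=
  cyclicH90_of_ineq2 p hp hp2 (ineq2Zeta p hp hp2)

/-- `helper6.HypH90 p`. -/
theorem hypH90 : Fermat.Agent.S55.helper6.HypH90.{u} p :=
  hypH90_of_ineq2 p hp hp2 (ineq2Zeta p hp hp2)

/-- **Hasse norm theorem** for cyclic extensions of odd prime degree, no hypothesis on roots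
of unity (interface v1 `hasse_norm`). -/
theorem hasse_norm
    (K : Type v) (L : Type u) [Field K] [NumberField K] [Field L] [NumberField L] [Algebra K L]
    [IsGalois K L] (hdeg : Module.finrank K L = p) (b : Kˣ)
    (hloc : ∀ q : Nat.Primes, ∃ y : (SemiLoc (q : ℕ) L)ˣ,
      normG Gal(L/K) (SemiLoc (q : ℕ) L)ˣ y =
        principalPi L (Units.map (algebraMap K L : K →* L) b) q) :
    ∃ y : Lˣ, normG Gal(L/K) Lˣ y = Units.map (algebraMap K L : K →* L) b :=
  hasse_norm_of_ineq2 p hp hp2 (ineq2Zeta p hp hp2) K L hdeg b hloc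

/-- `helper6.HasseNormCyc p`. -/
theorem hasseNormCyc : Fermat.Agent.S55.helper6.HasseNormCyc.{u} p :=
  hasseNormCyc_of_ineq2 p hp hp2 (ineq2Zeta p hp hp2)

/-- **Hasse principle for `H²(G, Lˣ)`**, `G` of odd prime power order (interface v1
`hasse_principle_H2`). -/
theorem hasse_principle_H2
    (K L : Type u) [Field K] [NumberField K] [Field L] [NumberField L] [Algebra K L]
    [IsGalois K L] (n : ℕ) (hdeg : Module.finrank K L = p ^ n)
    (x : Gal(L/K) × Gal(L/K) → Lˣ) (hx : IsMulCocycle₂ x)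
    (hloc : ∀ q : Nat.Primes,
      IsMulCoboundary₂ (fun g : Gal(L/K) × Gal(L/K) => principalPi L (x g) q)) :
    IsMulCoboundary₂ x :=
  hasse_principle_H2_of_ineq2 p hp hp2 (ineq2Zeta p hp hp2) K L n hdeg x hx hloc

/-- **`helper60.GlobHasse p`** (the input of REC1), unconditional. -/
theorem globHasse : Fermat.Agent.S55.helper60.GlobHasse p :=
  globHasse_of_ineq2 p hp hp2 (ineq2Zeta p hp hp2)

/-- `H¹(G, C_L) = 0` for Galois extensions of odd prime power degree (interface v1
`ideleClass_H1_trivial`). -/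
theorem ideleClass_H1_trivial
    (K : Type u) (L : Type v) [Field K] [NumberField K] [Field L] [NumberField L] [Algebra K L]
    [IsGalois K L] (n : ℕ) (hdeg : Module.finrank K L = p ^ n)
    (f : Gal(L/K) → IdeleClass L) (hf : IsMulCocycle₁ f) : IsMulCoboundary₁ f :=
  ideleClass_H1_trivial_of_ineq2 p hp hp2 (ineq2Zeta p hp hp2) K L n hdeg f hf

/-- `|H²(Gal(L/K), C_L)|` divides `[L : K]`, index form. -/
theorem h2card_ideleClass_dvd
    (K : Type u) (L : Type v) [Field K] [NumberField K] [Field L] [NumberField L] [Algebra K L]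
    [IsGalois K L] (n : ℕ) (hdeg : Module.finrank K L = p ^ n) :
    Fermat.Agent.S55.helper78.h2card Gal(L/K) (IdeleClass L) ≠ 0 ∧
      Fermat.Agent.S55.helper78.h2card Gal(L/K) (IdeleClass L) ∣ Module.finrank K L :=
  Fermat.Agent.S55.helper78.h2card_ideleClass_dvd_of_ineq2 p hp hp2 (ineq2Zeta p hp hp2)
    K L n hdeg

/-- **`|H²(Gal(L/K), C_L)|` divides `[L : K]`** for Galois extensions of odd prime power degree
(interface v1 `card_H2_ideleClass_dvd`). -/
theorem card_H2_ideleClass_dvd
    (K L : Type) [Field K] [NumberField K] [Field L] [NumberField L]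
    [Algebra K L] [IsGalois K L] (n : ℕ) (hdeg : Module.finrank K L = p ^ n) :
    Finite (H2 (Rep.ofMulDistribMulAction Gal(L/K) (IdeleClass L))) ∧
    Nat.card (H2 (Rep.ofMulDistribMulAction Gal(L/K) (IdeleClass L))) ∣ p ^ n :=
  Fermat.Agent.S55.helper78.card_H2_ideleClass_dvd_of_ineq2 p hp hp2 (ineq2Zeta p hp hp2)
    K L n hdeg

end Packaged

/-- `helper37.CardH2IdeleClassDvd` (consumed by REC2 / R2-INEQ), unconditional. -/
theorem cardH2IdeleClassDvd : Fermat.Agent.S55.helper37.CardH2IdeleClassDvd :=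
  fun K L _ _ _ _ _ _ p hp hp2 n hdeg => card_H2_ideleClass_dvd p hp hp2 K L n hdeg

/-- `helper1.HypGlobH1` (consumed by REC2 / R2-TATE), unconditional. -/
theorem hypGlobH1 : Fermat.Agent.S55.helper1.HypGlobH1 :=
  fun K L _ _ _ _ _ _ p hp hp2 n hdeg f hf => ideleClass_H1_trivial p hp hp2 K L n hdeg f hf

/-- `helper1.HypGlobH2` (consumed by REC2 / R2-TATE), unconditional. -/
theorem hypGlobH2 : Fermat.Agent.S55.helper1.HypGlobH2 :=
  fun K L _ _ _ _ _ _ p hp hp2 n hdeg => card_H2_ideleClass_dvd p hp hp2 K L n hdeg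

end Fermat.Agent.S55.helper73
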