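import Fermat.Agent.S55.helper24_Dict

/-!
# S55 / GLOB, package A2 (helper73): the integral closure of `ℤ_q` in `ℚ_q ⊗ K`

For EVERY prime `q`, an element of `ℚ_q ⊗ K` is integral over `ℤ_[q]` iff its coordinates in
the basis `1 ⊗ bᵢ` (`bᵢ` the integral basis of `K`) lie in `ℤ_[q]`.
-/

set_option autoImplicit false

open scoped TensorProduct NumberField
open IsDedekindDomain

namespace Fermat.Agent.S55.helper73

open Fermat.Agent.S55.helper24 Fermat.Agent.S55.helper89

variable (q : ℕ) [Fact q.Prime] (K : Type*) [Field K] [NumberField K]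

/-- Coordinates of `1 ⊗ y` in the basis `sbasis`. -/
lemma sbasis_repr_one_tmul (y : K) (i : Module.Free.ChooseBasisIndex ℤ (𝓞 K)) :
    (sbasis q K).repr ((1 : ℚ_[q]) ⊗ₜ[ℚ] y) i =
      ((NumberField.integralBasis K).repr y i : ℚ_[q]) := by
  have hy : y = ∑ j, (NumberField.integralBasis K).repr y j • NumberField.integralBasis K j :=
    ((NumberField.integralBasis K).sum_repr y).symm
  have h1 : ((1 : ℚ_[q]) ⊗ₜ[ℚ] y : SemiLoc q K) =
      ∑ j, ((NumberField.integralBasis K).repr y j : ℚ_[q]) • sbasis q K j := by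
    conv_lhs => rw [hy]
    rw [TensorProduct.tmul_sum]
    refine Finset.sum_congr rfl fun j _ => ?_
    rw [sbasis_apply, TensorProduct.smul_tmul', ← TensorProduct.smul_tmul]
    congr 1
  rw [h1, map_sum, Finsupp.coe_finsetSum, Finset.sum_apply]
  simp [Finsupp.single_apply]

/-- If `m y` is integral with `q ∤ m`, the coordinates of `y` are `q`-adic integers. -/
lemma norm_repr_le_one_of_isIntegral_mul (y : K) (m : ℕ) (hm : ¬ q ∣ m)
    (h : IsIntegral ℤ ((m : K) * y)) (i : Module.Free.ChooseBasisIndex ℤ (𝓞 K)) :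
    ‖((NumberField.integralBasis K).repr y i : ℚ_[q])‖ ≤ 1 := by
  have hm0 : (m : ℚ) ≠ 0 := by
    intro h0
    apply hm
    have : m = 0 := by exact_mod_cast h0
    rw [this]; exact dvd_zero _
  -- coordinates of `m y` are integers
  obtain ⟨n, hn⟩ : ∃ n : ℤ, (NumberField.integralBasis K).repr ((m : K) * y) i = n := by
    let x : 𝓞 K := ⟨(m : K) * y, h⟩
    have hx : algebraMap (𝓞 K) K x = (m : K) * y := rfl
    refine ⟨(NumberField.RingOfIntegers.basis K).repr x i, ?_⟩
    rw [← hx, NumberField.integralBasis_repr_apply]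
    rfl
  have hrepr : (NumberField.integralBasis K).repr ((m : K) * y) i =
      (m : ℚ) * (NumberField.integralBasis K).repr y i := by
    have : (m : K) * y = (m : ℚ) • y := by
      rw [Algebra.smul_def]; simp
    rw [this, map_smul]
    simp
  have hval : (NumberField.integralBasis K).repr y i = (n : ℚ) / (m : ℚ) := by
    rw [eq_div_iff hm0, mul_comm, ← hrepr, hn]
  rw [hval]
  push_cast
  have hmq : ‖((m : ℕ) : ℚ_[q])‖ = 1 := by
    rw [Padic.norm_natCast_eq_one_iff]
    exact (Nat.Prime.coprime_iff_not_dvd (Fact.out : q.Prime)).2 hm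
  rw [norm_div, hmq, div_one]
  exact Padic.norm_int_le_one n

/-- **A2.** An element of `ℚ_q ⊗ K` is integral over `ℤ_[q]` iff its coordinates in the basis
`1 ⊗ bᵢ` are `q`-adic integers. -/
theorem isIntegral_iff_norm_repr_le_one (z : SemiLoc q K) :
    IsIntegral ℤ_[q] z ↔ ∀ i, ‖(sbasis q K).repr z i‖ ≤ 1 := by
  classical
  constructor
  · intro hz
    -- approximate the coordinates modulo `q`
    choose r e he hre using fun i => exists_rat_approx q ((sbasis q K).repr z i) 1
    set y : K := ∑ i, r i • NumberField.integralBasis K i with hy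
    set ε : SemiLoc q K := ∑ i, e i • sbasis q K i with hε
    have hεint : IsIntegral ℤ_[q] ε := isIntegral_sum_smul_sbasis q K e he
    have h1 : ((1 : ℚ_[q]) ⊗ₜ[ℚ] y : SemiLoc q K) = ∑ i, (r i : ℚ_[q]) • sbasis q K i := by
      rw [hy, TensorProduct.tmul_sum]
      refine Finset.sum_congr rfl fun i _ => ?_
      rw [sbasis_apply, TensorProduct.smul_tmul', ← TensorProduct.smul_tmul]
      congr 1
    have hz' : z = ∑ i, (sbasis q K).repr z i • sbasis q K i := ((sbasis q K).sum_repr z).symm
    have h2 : ((1 : ℚ_[q]) ⊗ₜ[ℚ] y : SemiLoc q K) = z - qElt q K * ε := by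
      have := qElt_pow_mul q K 1 ε
      rw [pow_one] at this
      rw [this, pow_one, hε, Finset.smul_sum, h1]
      conv_rhs => rw [hz']
      rw [← Finset.sum_sub_distrib]
      refine Finset.sum_congr rfl fun i _ => ?_
      rw [smul_smul, ← sub_smul]
      congr 1
      have := hre i
      rw [pow_one] at this
      linear_combination -this
    have hyint : IsIntegral ℤ_[q] ((1 : ℚ_[q]) ⊗ₜ[ℚ] y : SemiLoc q K) := by
      rw [h2]
      exact hz.sub ((isIntegral_qElt q K).mul hεint)
    obtain ⟨m, hm, hmy⟩ := exists_natCast_mul_isIntegral q K y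
      ((helper24.isIntegral_one_tmul_iff q K y).1 hyint)
    intro i
    have hri : ‖((r i : ℚ) : ℚ_[q])‖ ≤ 1 := by
      have h3 := norm_repr_le_one_of_isIntegral_mul q K y m hm hmy i
      have h4 : (NumberField.integralBasis K).repr y i = r i := by
        rw [hy, map_sum, Finsupp.coe_finsetSum, Finset.sum_apply]
        simp [Finsupp.single_apply]
      rwa [h4] at h3
    have h5 : (sbasis q K).repr z i = (r i : ℚ_[q]) + (q : ℚ_[q]) * e i := by
      have := hre i
      rw [pow_one] at this
      linear_combination this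
    rw [h5]
    refine (IsUltrametricDist.norm_add_le_max _ _).trans (max_le hri ?_)
    rw [norm_mul]
    have hq1 : ‖(q : ℚ_[q])‖ ≤ 1 := by
      have := Padic.norm_int_le_one (p := q) (q : ℤ)
      simpa using this
    calc ‖(q : ℚ_[q])‖ * ‖e i‖ ≤ 1 * 1 :=
          mul_le_mul hq1 (he i) (norm_nonneg _) zero_le_one
      _ = 1 := one_mul 1
  · intro h
    have hz' : z = ∑ i, (sbasis q K).repr z i • sbasis q K i := ((sbasis q K).sum_repr z).symm
    rw [hz']
    exact isIntegral_sum_smul_sbasis q K _ h

/-- **A2, span form.** The integral elements of `ℚ_q ⊗ K` are the `ℤ_[q]`-span of the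
`1 ⊗ bᵢ`. -/
theorem isIntegral_iff_mem_span (z : SemiLoc q K) :
    IsIntegral ℤ_[q] z ↔ z ∈ Submodule.span ℤ_[q] (Set.range (sbasis q K)) := by
  classical
  rw [isIntegral_iff_norm_repr_le_one]
  constructor
  · intro h
    have hz' : z = ∑ i, (sbasis q K).repr z i • sbasis q K i := ((sbasis q K).sum_repr z).symm
    rw [hz']
    refine Submodule.sum_mem _ fun i _ => ?_
    have : (sbasis q K).repr z i • sbasis q K i =
        (show ℤ_[q] from ⟨(sbasis q K).repr z i, h i⟩) • sbasis q K i := rfl
    rw [this]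
    exact Submodule.smul_mem _ _ (Submodule.subset_span ⟨i, rfl⟩)
  · intro h i
    induction h using Submodule.span_induction with
    | mem x hx =>
      obtain ⟨j, rfl⟩ := hx
      rw [Module.Basis.repr_self, Finsupp.single_apply]
      split_ifs <;> simp
    | zero => simp
    | add x y _ _ hx hy =>
      rw [map_add, Finsupp.add_apply]
      exact (IsUltrametricDist.norm_add_le_max _ _).trans (max_le hx hy)
    | smul c x _ hx =>
      have : c • x = (c : ℚ_[q]) • x := rfl
      rw [this, map_smul, Finsupp.smul_apply, smul_eq_mul, norm_mul]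
      calc ‖(c : ℚ_[q])‖ * ‖(sbasis q K).repr x i‖ ≤ 1 * 1 :=
            mul_le_mul c.2 hx (norm_nonneg _) zero_le_one
        _ = 1 := one_mul 1

end Fermat.Agent.S55.helper73
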