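import Fermat.Agent.S55.helper75_BArShaL
import Fermat.Agent.S55.helper83_BArShaKum
import Fermat.Agent.S55.helper10_ShaLLocVal
import Fermat.Agent.S55.helper60_BArShaLFrobConj
import Fermat.Agent.S55.helper59_BArRecTheta
import Fermat.Agent.S55.helper59_BArFinal
import Fermat.Agent.S55.helper11_RecUncond

/-!
# S55 module B, package B-AR-SHA-L (helper75): field (I7a) of `BaseInput`, UNCONDITIONAL

* `shaLeftFor_of_mixedRecTheta` : `ShaLeftFor L inv` from `MixedRecTheta S L Inv ζ inv`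
  (wiring of `shaLeftFor_of_inputs` with SHL-KUM `helper83.ShaKum.exists_kummer_package`,
  SHL-FROBCONJ `helper60.exists_conj_locHom_frob`, SHL-LOCVAL / SHL-SUPP
  `helper10.inv_loc_mulClass_thetaCochain`, `helper10.loc_mulClass_thetaCochain_eq_zero`);
* `shaLeftFor_of_invCompat` : the same from `InvCompat Inv ζ hL inv` (`p` odd), using
  `helper59.mixedRecTheta_of_recP` and `helper11.hypRecP`;
* `hypI7a` : `helper59.HypI7a p S Inv`.
-/

set_option autoImplicit false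
set_option linter.unusedSectionVars false
set_option linter.unusedVariables false

open groupCohomology ExtCitation
open scoped NumberField
open IsDedekindDomain

noncomputable section

namespace Fermat.Agent.S55.helper75

open Fermat.Agent.S55 Fermat.Agent.S55.helper59 Fermat.Agent.S14.helper91

local notation "Qbar" => AlgebraicClosure ℚ

section

variable {p : ℕ} [Fact p.Prime] {S : Finset Nat.Primes} {F : IntermediateField ℚ Qbar}
  [NumberField ↥F] {𝒩 : Levels (UF F)} {ι : Type} [Fintype ι]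
  {L : LocalData (UF F) 𝒩 ι}

/-- **B-AR-SHA-L** (I7a): the Sha-pairing has trivial left kernel, from mixed reciprocity. -/
theorem shaLeftFor_of_mixedRecTheta (hpS : (⟨p, Fact.out⟩ : Nat.Primes) ∈ S)
    (hF : F.IsUnramifiedOutside S) (h𝒩 : 𝒩.mem = sLevels S F) (hL : IsArith S F L)
    (Inv : helper11.LocInv) (ζ : (↥F)ˣ) (hζ : IsPrimitiveRoot ζ p)
    (h3 : Z3 𝒩 (T (ZMod p) (UF F)) ≤ B3 𝒩 (T (ZMod p) (UF F)))
    (inv : ∀ w : ι, (L.Gv w × L.Gv w → ZMod p) →ₗ[ZMod p] ZMod p)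
    (hMixT : MixedRecTheta S L Inv ζ inv) : ShaLeftFor L inv :=
  shaLeftFor_of_inputs hpS hF h𝒩 hL Inv ζ hζ h3 inv hMixT
    (fun a k ha => by
      obtain ⟨z, hz, hzloc, E₀, h1, h2, h3', h4⟩ :=
        helper83.ShaKum.exists_kummer_package hpS hF h𝒩 hL ζ hζ a k ha
      refine ⟨z, hz, hzloc, E₀, h1, h2, h3', fun E _ _ hle => ?_⟩
      obtain ⟨β, b, z', hK, hzz⟩ := h4 E hle
      obtain ⟨hβ, hb, hbt, hz'⟩ := hK
      exact ⟨β, b, z', hβ, hb, hbt, hz', hzz⟩)
    (fun E _ _ _ v hunr ℓ hℓ hcard A hA hAv σ hσ q _ D hD φ hφ =>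
      helper60.exists_conj_locHom_frob E v hunr hℓ hcard A hA hAv σ hσ q D hD φ hφ)
    (fun q _ F' E' _ _ _ _ _ _ D hunr φ hφ ζ' β x hx b α hΘ hζ' hbt =>
      helper10.inv_loc_mulClass_thetaCochain q F' E' p Inv D hunr φ hφ ζ' β x hx b α hΘ hζ' hbt)
    (fun q _ F' E' _ _ _ _ _ _ D hunr ζ' β x b α hΘ hζ' hbt hβ =>
      helper10.loc_mulClass_thetaCochain_eq_zero q F' E' p D hunr ζ' β x b α hΘ hζ' hbt hβ)

/-- (I7a) for a family of local functionals compatible with the invariant system `Inv`. -/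
theorem shaLeftFor_of_invCompat (hp2 : p ≠ 2) (hpS : (⟨p, Fact.out⟩ : Nat.Primes) ∈ S)
    (hF : F.IsUnramifiedOutside S) (h𝒩 : 𝒩.mem = sLevels S F) (hL : IsArith S F L)
    (Inv : helper11.LocInv) (ζ : (↥F)ˣ) (hζ : IsPrimitiveRoot ζ p)
    (h3 : Z3 𝒩 (T (ZMod p) (UF F)) ≤ B3 𝒩 (T (ZMod p) (UF F)))
    (inv : ∀ w : ι, (L.Gv w × L.Gv w → ZMod p) →ₗ[ZMod p] ZMod p)
    (hinv : InvCompat Inv ζ hL inv) : ShaLeftFor L inv :=
  shaLeftFor_of_mixedRecTheta hpS hF h𝒩 hL Inv ζ hζ h3 inv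
    (mixedRecTheta_of_recP hL Inv (helper11.hypRecP Inv p hp2) ζ hζ inv hinv)

end

/-- **(I7a) for all arithmetic local data**, unconditional. -/
theorem hypI7a (p : ℕ) [Fact p.Prime] (S : Finset Nat.Primes) (Inv : helper11.LocInv) :
    HypI7a p S Inv :=
  fun F _ 𝒩 ι _ L hp2 hpS hF h𝒩 hL ζ hζ inv hinv _ _ h3 _ =>
    shaLeftFor_of_invCompat hp2 hpS hF h𝒩 hL Inv ζ hζ h3 inv hinv

end Fermat.Agent.S55.helper75
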