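import Fermat.Agent.S55.helper75_Rec4BrField
import Fermat.Agent.S14.helper12_Artin
import Fermat.Agent.S14.helper91_FieldObstruction

/-!
# S55 / REC4 bridge (helper75, task 357), part 2: `#Sha¹ ≤ #(Cl_S(F)/p)`, conditional assembly

`card_sha1Z_le_aux` : the statement of helper59 `Interface2.card_sha1Z_le`, with the following
explicit hypotheses:

* `hCyc : RecCyc p` (Artin reciprocity for cyclic unramified `p`-power extensions; follows from
  REC1, see `helper75_Rec4Final`);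
* `hE` = package R4-BR-E, `hDec`, `hIn` = package R4-BR-DICT (statements of
  `origin/helper75:blueprints/S55/helper75_Rec4Bridge.lean`).

Proof: `M` = fixed field of the common kernel of `Sha¹`; `Gal(M/F)` is abelian of exponent `p`,
`M/F` is unramified everywhere and all primes above `S` have trivial Frobenius; then
`card_gal_le_card_clSModP_of_recCyc`.
-/

set_option autoImplicit false
set_option linter.unusedVariables false
set_option linter.unusedSectionVars false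
set_option linter.style.haveILetI false

open groupCohomology ExtCitation
open scoped NumberField Pointwise IsMulCommutative

noncomputable section

namespace Fermat.Agent.S55.helper75

open Fermat.Agent.S55 Fermat.Agent.S55.helper59 Fermat.Agent.S14 Fermat.Agent.S14.helper91

local notation "Qbar" => AlgebraicClosure ℚ

section Final

variable {p : ℕ} [Fact p.Prime] {S : Finset Nat.Primes}
  {F : IntermediateField ℚ (AlgebraicClosure ℚ)} [FiniteDimensional ℚ F]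
  {𝒩 : Levels (UF F)} {ι : Type} {L : LocalData (UF F) 𝒩 ι}

/-- `#Sha¹(G_{F,S}, ℤ/p) ≤ #(Cl_S(F)/p)`, with the packages R4-BR-E and R4-BR-DICT as explicit
hypotheses. -/
theorem card_sha1Z_le_aux [NumberField ↥F] (hCyc : RecCyc p)
    (hF : F.IsUnramifiedOutside S) (h𝒩 : 𝒩.mem = sLevels S F)
    (hE : ∀ x : UF F → ZMod p, (∀ g h : UF F, x (g * h) = x g + x h) →
      (∀ w, ∀ s : L.Gv w, x (L.r w s) = 0) → ∀ q : Nat.Primes, q ∈ S →
      ∀ A : ValuationSubring Qbar, A.LiesOverPrime (q : ℕ) → ∀ σ : UF F,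
      ((σ : UF F) : GQ) ∈ A.decompositionSubgroup ℚ → x σ = 0)
    (hDec : ∀ (M : IntermediateField ↥F Qbar) [Normal ↥F ↥M] (A : ValuationSubring Qbar)
      {ℓ : ℕ}, ℓ.Prime → A.LiesOverPrime ℓ → ∀ τ : ↥M ≃ₐ[↥F] ↥M,
      (∀ x : 𝓞 ↥M, x ∈ primeOf ↥M A → τ • x ∈ primeOf ↥M A) →
      ∃ σ : UF F, ((σ : UF F) : GQ) ∈ A.decompositionSubgroup ℚ ∧ resFix F M σ = τ)
    (hIn : ∀ (M : IntermediateField ↥F Qbar) [Normal ↥F ↥M] (A : ValuationSubring Qbar)
      {ℓ : ℕ}, ℓ.Prime → A.LiesOverPrime ℓ → ∀ τ : ↥M ≃ₐ[↥F] ↥M,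
      (∀ x : 𝓞 ↥M, τ • x - x ∈ primeOf ↥M A) →
      ∃ σ : UF F, ((σ : UF F) : GQ) ∈ A.inertiaSubgroupIn ℚ ∧ resFix F M σ = τ) :
    Nat.card ↥(sha1Z (k := ZMod p) L) ≤ Nat.card (ClSModP (↥F) p S) := by
  classical
  by_cases hfin : Finite ↥(sha1Z (k := ZMod p) L)
  swap
  · haveI := not_finite_iff_infinite.mp hfin
    rw [Nat.card_eq_zero_of_infinite]
    exact Nat.zero_le _
  haveI := hfin
  obtain ⟨N₀, hN₀, hle⟩ := exists_level_le_shaKer (p := p) L
  rw [h𝒩] at hN₀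
  obtain ⟨E₀, hE₀, -, hFE, rfl⟩ := hN₀
  haveI : FiniteDimensional ℚ E₀ := hE₀.1
  set N : Subgroup (UF F) := shaKer (p := p) L with hN
  set M : IntermediateField ↥F Qbar := fieldOf F N with hM
  haveI hMfin : FiniteDimensional ↥F ↥M := finiteDimensional_fieldOf F N E₀ hFE hle
  haveI hMgal : IsGalois ↥F ↥M := isGalois_fieldOf F N E₀ hFE hle
  haveI : Normal ↥F ↥M := hMgal.to_normal
  have hker : ∀ σ : UF F, σ ∈ (resFix F M).ker ↔ σ ∈ N :=
    mem_ker_resFix_fieldOf F N E₀ hFE hle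
  have hMunr : (M.restrictScalars ℚ).IsUnramifiedOutside S :=
    hE₀.of_le (fieldOf_restrictScalars_le F N E₀ hFE hle)
  have hcount := card_sha1Z_le_card_gal L M hker
  haveI : Normal ↥F Qbar := (isGalois_Qbar_over F).to_normal
  have hsurj : Function.Surjective (resFix F M) := resFix_surjective F M
  have hone : ∀ σ : UF F, σ ∈ N → resFix F M σ = 1 := fun σ hσ =>
    MonoidHom.mem_ker.mp ((hker σ).mpr hσ)
  have hmemN : ∀ (q : Nat.Primes), q ∈ S → ∀ A : ValuationSubring Qbar,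
      A.LiesOverPrime (q : ℕ) → ∀ σ : UF F, ((σ : UF F) : GQ) ∈ A.decompositionSubgroup ℚ →
      σ ∈ N := fun q hq A hA σ hσ x hx =>
    hE x (sha1Z_add L hx) ((mem_sha1Z_iff L x).mp hx).2 q hq A hA σ hσ
  -- number field
  haveI : NumberField ↥M :=
    { to_charZero := inferInstance
      to_finiteDimensional := Module.Finite.trans ↥F ↥M }
  -- abelian of exponent `p`
  have hcomm : ∀ a b : ↥M ≃ₐ[↥F] ↥M, a * b = b * a := by
    intro a b
    obtain ⟨g, rfl⟩ := hsurj a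
    obtain ⟨h, rfl⟩ := hsurj b
    have h1 := hone _ (commutator_mem_shaKer (p := p) L g h)
    rw [map_mul, map_mul, map_mul, map_inv, map_inv] at h1
    calc resFix F M g * resFix F M h
        = (resFix F M g * resFix F M h * (resFix F M g)⁻¹ * (resFix F M h)⁻¹) *
            (resFix F M h * resFix F M g) := by group
      _ = resFix F M h * resFix F M g := by rw [h1, one_mul]
  haveI : IsAbelianGalois ↥F ↥M := { toIsGalois := hMgal, is_comm := ⟨hcomm⟩ }
  have hexp : ∀ σ : Gal(↥M/↥F), σ ^ p = 1 := by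
    intro a
    obtain ⟨g, rfl⟩ := hsurj a
    rw [← map_pow]
    exact hone _ (pow_mem_shaKer (p := p) L g)
  -- unramified everywhere
  have hunr : IsUnramifiedEverywhere ↥F ↥M := by
    intro P hP hP0 σ hσ
    haveI := hP
    haveI : P.IsMaximal := Ring.DimensionLEOne.maximalOfPrime hP0 hP
    obtain ⟨A, hA⟩ := exists_primeOf_eq ↥M P
    obtain ⟨ℓ, hℓ, hℓP⟩ := exists_prime_natCast_mem P hP0
    have hAℓ : A.LiesOverPrime ℓ := liesOverPrime_of_natCast_mem ↥M A (by rw [hA]; exact hℓP)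
    obtain ⟨σ', hσ'I, hσ'⟩ := hIn M A hℓ hAℓ σ (fun x => by rw [hA]; exact hσ x)
    rw [← hσ']
    by_cases hS : (⟨ℓ, hℓ⟩ : Nat.Primes) ∈ S
    · apply hone
      exact hmemN ⟨ℓ, hℓ⟩ hS A hAℓ σ' ((mem_inertiaSubgroupIn_iff_valuation A _).mp hσ'I).1
    · have h1 := hMunr.2 ⟨ℓ, hℓ⟩ hS A hAℓ hσ'I
      rw [← MonoidHom.mem_ker, mem_ker_resFix_iff]
      intro x hx
      exact (IntermediateField.mem_fixingSubgroup_iff _ _).mp h1 x hx
  -- split above `S`
  have hsplit : IsSplitOverS ↥F ↥M S := by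
    rintro 𝔭 ⟨h𝔭prime, h𝔭0, q, hqS, hq𝔭⟩
    haveI := h𝔭prime
    obtain ⟨P', hP', hP'0, hP'𝔭, hfrob⟩ := helper12.exists_isArithFrobAt_frobAt ↥F ↥M 𝔭 h𝔭0
    haveI := hP'
    haveI : P'.IsMaximal := Ring.DimensionLEOne.maximalOfPrime hP'0 hP'
    obtain ⟨A, hA⟩ := exists_primeOf_eq ↥M P'
    have hqP' : (((q : ℕ) : 𝓞 ↥M)) ∈ P' := by
      have h1 : algebraMap (𝓞 ↥F) (𝓞 ↥M) (((q : ℕ) : 𝓞 ↥F)) ∈ P' := by
        rw [← Ideal.mem_comap, ← Ideal.under_def, hP'𝔭]
        exact hq𝔭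
      simpa using h1
    have hAq : A.LiesOverPrime (q : ℕ) :=
      liesOverPrime_of_natCast_mem ↥M A (by rw [hA]; exact hqP')
    have hstab : ∀ x : 𝓞 ↥M, x ∈ primeOf ↥M A → frobAt ↥F ↥M 𝔭 • x ∈ primeOf ↥M A := by
      rw [hA]
      intro x hx
      have h1 := hfrob x
      have hpos : 0 < Nat.card (𝓞 ↥F ⧸ P'.under (𝓞 ↥F)) := by
        rw [hP'𝔭]
        haveI : Finite (𝓞 ↥F ⧸ 𝔭) := Ideal.finiteQuotientOfFreeOfNeBot 𝔭 h𝔭0
        exact Nat.card_pos
      have h2 : x ^ Nat.card (𝓞 ↥F ⧸ P'.under (𝓞 ↥F)) ∈ P' :=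
        Ideal.pow_mem_of_mem P' hx _ hpos
      have h3 := P'.add_mem h1 h2
      simpa using h3
    obtain ⟨σ', hσ'D, hσ'⟩ := hDec M A q.2 hAq (frobAt ↥F ↥M 𝔭) hstab
    rw [← hσ']
    exact hone _ (hmemN q hqS A hAq σ' hσ'D)
  exact hcount.trans (card_gal_le_card_clSModP_of_recCyc p hCyc S ↥F ↥M hunr hexp hsplit)

end Final

end Fermat.Agent.S55.helper75
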