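import Fermat.Agent.S14.helper12_ArtinFunct
import Fermat.Agent.S14.helper69_ZetaPole
import Fermat.Agent.S14.helper90_Unramified

/-!
# S55 / REC4 (HILB, helper75): surjectivity of the Artin map (packages R4-SUB, R4-RES, R4-S)

`M/F` an abelian extension of number fields, unramified everywhere (S14 vocabulary).

* `isUnramifiedEverywhere_intermediateField` (R4-SUB) : intermediate fields are unramified;
* `frobAt_intermediateField` (R4-RES) : the Frobenius of `E/F` is the restriction of the
  Frobenius of `M/F`;
* `exists_frobAt_not_mem` (R4-S1) : a proper subgroup of `Gal(M/F)` misses the Frobenius of a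
  degree-one prime outside any finite set (from the zeta-pole lemma of helper69);
* `exists_frobAt_apply_ne_one` (R4-S2) : character form;
* `artinMap_surjective` (R4-S3).
-/

set_option autoImplicit false
set_option linter.unusedSectionVars false
set_option linter.style.haveILetI false

open scoped NumberField nonZeroDivisors IsMulCommutative
open IsDedekindDomain

namespace Fermat.Agent.S55.helper75

open Fermat.Agent.S14

section Sub

variable (F M : Type*) [Field F] [NumberField F] [Field M] [NumberField M] [Algebra F M]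
  [IsAbelianGalois F M]

/-- R4-SUB: an intermediate field of an everywhere unramified abelian extension is unramified
everywhere. -/
theorem isUnramifiedEverywhere_intermediateField
    (hunr : IsUnramifiedEverywhere F M) (E : IntermediateField F M) :
    IsUnramifiedEverywhere F E := by
  apply helper90.isUnramifiedEverywhere_of_ramificationIdx_eq_one
  intro P hP hP0
  haveI := hP
  obtain ⟨Q, hQ, hQ0, hQP⟩ := helper12.exists_prime_over E M P hP0
  haveI := hQ
  haveI : Q.LiesOver P := ⟨hQP.symm⟩
  have h1 : Q.ramificationIdx (𝓞 F) = 1 :=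
    helper90.ramificationIdx_eq_one_of_isUnramifiedEverywhere hunr Q hQ0
  have h2 : P.ramificationIdx (𝓞 F) ∣ Q.ramificationIdx (𝓞 F) :=
    Ideal.ramificationIdx_below_dvd (R := 𝓞 F) (S := 𝓞 E) (T := 𝓞 M) P Q
  rw [h1] at h2
  exact Nat.dvd_one.mp h2

/-- R4-RES: the Frobenius of `E/F` is the restriction of the Frobenius of `M/F`. -/
theorem frobAt_intermediateField
    (hunr : IsUnramifiedEverywhere F M) (E : IntermediateField F M)
    (P : Ideal (𝓞 F)) [P.IsPrime] (hP : P ≠ ⊥) (x : E) :
    ((frobAt F E P x : E) : M) = frobAt F M P (x : M) := by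
  have hunrE := isUnramifiedEverywhere_intermediateField F M hunr E
  have key := helper12.frobAt_restrict F F E M hunrE P hP (by
    congr 1) ((frobAt F M P).restrictNormal E) (fun y => by
      exact AlgEquiv.restrictNormal_commutes (frobAt F M P) E y)
  have key' : (frobAt F M P).restrictNormal E = frobAt F E P := by
    have aux : ∀ Q : Ideal (𝓞 F), (frobAt F M P).restrictNormal E = frobAt F E Q → Q = P →
        (frobAt F M P).restrictNormal E = frobAt F E P := fun Q h hQ => hQ ▸ h
    refine aux _ key ?_
    ext y
    rw [Ideal.under_def, Ideal.mem_comap]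
    rfl
  rw [← key']
  exact AlgEquiv.restrictNormal_commutes (frobAt F M P) E x

end Sub

section Surj

variable (F M : Type*) [Field F] [NumberField F] [Field M] [NumberField M] [Algebra F M]
  [IsAbelianGalois F M]

/-- R4-S1: a proper subgroup of `Gal(M/F)` misses the Frobenius of some degree-one prime outside
any finite set `T`. -/
theorem exists_frobAt_not_mem (hunr : IsUnramifiedEverywhere F M) (T : Finset (Ideal (𝓞 F)))
    (H : Subgroup Gal(M/F)) (hH : H ≠ ⊤) :
    ∃ P : Ideal (𝓞 F), P.IsPrime ∧ P ≠ ⊥ ∧ P ∉ T ∧ (Ideal.absNorm P).Prime ∧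
      frobAt F M P ∉ H := by
  set E : IntermediateField F M := IntermediateField.fixedField H with hE
  have hunrE := isUnramifiedEverywhere_intermediateField F M hunr E
  have hdeg : 1 < Module.finrank F E := by
    have hpos : 0 < Module.finrank F E := Module.finrank_pos
    rcases Nat.lt_or_ge 1 (Module.finrank F E) with h | h
    · exact h
    · exfalso
      have h1 : Module.finrank F E = 1 := le_antisymm h hpos
      have h2 : E = ⊥ := IntermediateField.finrank_eq_one_iff.mp h1
      apply hH
      have h3 : E.fixingSubgroup = H := IntermediateField.fixingSubgroup_fixedField H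
      rw [← h3, h2]
      exact IntermediateField.fixingSubgroup_bot
  obtain ⟨P, hP, hP0, hPT, hP1, hP2⟩ :=
    helper69.exists_degree_one_prime_not_split' F E hdeg T
  haveI := hP
  refine ⟨P, hP, hP0, hPT, hP1, fun hmem => hP2 ?_⟩
  rw [← helper12.frobAt_eq_one_iff_ncard F E hunrE P hP0]
  ext x
  rw [frobAt_intermediateField F M hunr E P hP0 x]
  exact x.2 ⟨frobAt F M P, hmem⟩

/-- R4-S2: character form. -/
theorem exists_frobAt_apply_ne_one (hunr : IsUnramifiedEverywhere F M)
    (T : Finset (Ideal (𝓞 F))) {A : Type*} [Group A] (χ : Gal(M/F) →* A) (hχ : ∃ σ, χ σ ≠ 1) :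
    ∃ P : Ideal (𝓞 F), P.IsPrime ∧ P ≠ ⊥ ∧ P ∉ T ∧ (Ideal.absNorm P).Prime ∧
      χ (frobAt F M P) ≠ 1 := by
  obtain ⟨σ, hσ⟩ := hχ
  have hH : χ.ker ≠ ⊤ := by
    intro h
    apply hσ
    have : σ ∈ χ.ker := h ▸ Subgroup.mem_top σ
    exact MonoidHom.mem_ker.mp this
  obtain ⟨P, hP, hP0, hPT, hP1, hP2⟩ := exists_frobAt_not_mem F M hunr T χ.ker hH
  exact ⟨P, hP, hP0, hPT, hP1, fun h => hP2 (MonoidHom.mem_ker.mpr h)⟩

/-- R4-S3: the Artin map is surjective. -/
theorem artinMap_surjective (hunr : IsUnramifiedEverywhere F M) :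
    Function.Surjective (artinMap F M) := by
  classical
  have hcl : Subgroup.closure (Set.range (artinMap F M)) = ⊤ := by
    by_contra hne
    obtain ⟨P, hP, hP0, -, -, hP2⟩ := exists_frobAt_not_mem F M hunr ∅ _ hne
    haveI := hP
    apply hP2
    rw [← helper12.artinMap_prime F M P hP0]
    exact Subgroup.subset_closure ⟨_, rfl⟩
  intro σ
  have hσ : σ ∈ (Subgroup.closure (Set.range (artinMap F M))).toSubmonoid := by
    rw [hcl]; exact Subgroup.mem_top σ
  rw [Subgroup.closure_toSubmonoid_of_finite, ← MonoidHom.coe_mrange,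
    Submonoid.closure_eq] at hσ
  exact hσ

end Surj

end Fermat.Agent.S55.helper75
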