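import Fermat.Agent.S55.helper75_Rec4Defs
import Fermat.Agent.S55.helper75_Rec4Surj

/-!
# S55 / REC4 (HILB, helper75): the upper bound `#Gal(M/F) ≤ #(Cl_S(F)/p)` (package R4-U)

`M/F` an abelian extension of number fields, unramified everywhere, with reciprocity
(`HasReciprocity F M`: the Artin map kills principal ideals).

* `exists_artinClass` : the Artin map descends to the class group;
* `exists_artinCl` : if moreover `Gal(M/F)` has exponent `p` and the primes above `S` have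
  trivial Frobenius, the Artin map induces a surjection `Cl_S(F)/p → Gal(M/F)`;
* `card_gal_le_card_clSModP` : hence `#Gal(M/F) ≤ #(Cl_S(F)/p)`.
-/

set_option autoImplicit false
set_option linter.unusedSectionVars false
set_option linter.style.haveILetI false

open scoped NumberField nonZeroDivisors IsMulCommutative
open IsDedekindDomain

namespace Fermat.Agent.S55.helper75

open Fermat.Agent.S14

section Upper

variable (F M : Type*) [Field F] [NumberField F] [Field M] [NumberField M] [Algebra F M]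
  [IsAbelianGalois F M]

/-- under reciprocity, the Artin map only depends on the ideal class -/
theorem artinMap_eq_of_mk0_eq (hrec : HasReciprocity F M) (I J : (Ideal (𝓞 F))⁰)
    (h : ClassGroup.mk0 I = ClassGroup.mk0 J) : artinMap F M I = artinMap F M J := by
  obtain ⟨x, y, hx, hy, hxy⟩ := (ClassGroup.mk0_eq_mk0_iff).mp h
  have hx0 : (Ideal.span {x} : Ideal (𝓞 F)) ≠ ⊥ := by
    simpa [Ideal.span_singleton_eq_bot] using hx
  have hy0 : (Ideal.span {y} : Ideal (𝓞 F)) ≠ ⊥ := by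
    simpa [Ideal.span_singleton_eq_bot] using hy
  set X : (Ideal (𝓞 F))⁰ := ⟨Ideal.span {x}, mem_nonZeroDivisors_of_ne_zero hx0⟩ with hX
  set Y : (Ideal (𝓞 F))⁰ := ⟨Ideal.span {y}, mem_nonZeroDivisors_of_ne_zero hy0⟩ with hY
  have hXI : X * I = Y * J := Subtype.ext hxy
  have h1 : artinMap F M X = 1 := hrec X ⟨⟨x, rfl⟩⟩
  have h2 : artinMap F M Y = 1 := hrec Y ⟨⟨y, rfl⟩⟩
  have := congrArg (artinMap F M) hXI
  rwa [map_mul, map_mul, h1, h2, one_mul, one_mul] at this

/-- R4-U0: under reciprocity the Artin map descends to the class group. -/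
theorem exists_artinClass (hrec : HasReciprocity F M) :
    ∃ φ : ClassGroup (𝓞 F) →* Gal(M/F), ∀ 𝔞 : (Ideal (𝓞 F))⁰,
      φ (ClassGroup.mk0 𝔞) = artinMap F M 𝔞 := by
  classical
  let f : ClassGroup (𝓞 F) → Gal(M/F) := fun c =>
    artinMap F M (Classical.choose (ClassGroup.mk0_surjective c))
  have hf : ∀ 𝔞 : (Ideal (𝓞 F))⁰, f (ClassGroup.mk0 𝔞) = artinMap F M 𝔞 := fun 𝔞 =>
    artinMap_eq_of_mk0_eq F M hrec _ _
      (Classical.choose_spec (ClassGroup.mk0_surjective (ClassGroup.mk0 𝔞)))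
  refine ⟨MonoidHom.mk' f ?_, hf⟩
  intro a b
  obtain ⟨I, rfl⟩ := ClassGroup.mk0_surjective a
  obtain ⟨J, rfl⟩ := ClassGroup.mk0_surjective b
  rw [← map_mul, hf, hf, hf, map_mul]

/-- R4-U1: for `M/F` abelian of exponent `p`, unramified everywhere, split at all primes above
`S`: the Artin map induces a SURJECTION `Cl_S(F)/p → Gal(M/F)`. -/
theorem exists_artinCl (p : ℕ) (S : Finset Nat.Primes)
    (hunr : IsUnramifiedEverywhere F M) (hrec : HasReciprocity F M)
    (hexp : ∀ σ : Gal(M/F), σ ^ p = 1) (hsplit : IsSplitOverS F M S) :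
    ∃ φ : ClSModP F p S →* Gal(M/F), Function.Surjective φ ∧
      ∀ 𝔞 : (Ideal (𝓞 F))⁰,
        φ (QuotientGroup.mk (ClassGroup.mk0 𝔞)) = artinMap F M 𝔞 := by
  obtain ⟨φ, hφ⟩ := exists_artinClass F M hrec
  have hker : clSubgroup F p S ≤ φ.ker := by
    unfold clSubgroup
    rw [Subgroup.closure_le]
    rintro c (⟨𝔞, h𝔞, rfl⟩ | ⟨d, rfl⟩)
    · rw [SetLike.mem_coe, MonoidHom.mem_ker, hφ]
      obtain ⟨hprime, hne, hq⟩ := h𝔞
      haveI := hprime
      have := helper12.artinMap_prime F M (𝔞 : Ideal (𝓞 F)) hne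
      rw [show (⟨(𝔞 : Ideal (𝓞 F)), mem_nonZeroDivisors_of_ne_zero hne⟩ : (Ideal (𝓞 F))⁰) = 𝔞
        from Subtype.ext rfl] at this
      rw [this]
      exact hsplit _ ⟨hprime, hne, hq⟩
    · simp only [SetLike.mem_coe, MonoidHom.mem_ker, map_pow]
      exact hexp _
  refine ⟨QuotientGroup.lift (clSubgroup F p S) φ hker, ?_, fun 𝔞 => ?_⟩
  · intro σ
    obtain ⟨𝔞, rfl⟩ := artinMap_surjective F M hunr σ
    exact ⟨QuotientGroup.mk (ClassGroup.mk0 𝔞), by rw [QuotientGroup.lift_mk, hφ]⟩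
  · rw [QuotientGroup.lift_mk, hφ]

/-- R4-U2 (**UPPER**): `#Gal(M/F) ≤ #(Cl_S(F)/p)`. -/
theorem card_gal_le_card_clSModP (p : ℕ) (S : Finset Nat.Primes)
    (hunr : IsUnramifiedEverywhere F M) (hrec : HasReciprocity F M)
    (hexp : ∀ σ : Gal(M/F), σ ^ p = 1) (hsplit : IsSplitOverS F M S) :
    Nat.card Gal(M/F) ≤ Nat.card (ClSModP F p S) := by
  obtain ⟨φ, hφ, -⟩ := exists_artinCl F M p S hunr hrec hexp hsplit
  exact Nat.card_le_card_of_surjective φ hφ

end Upper

end Fermat.Agent.S55.helper75
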