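import Fermat.Agent.S55.helper49_Rec4Ab
import Fermat.Agent.S55.helper75_Rec4Upper

/-!
# S55 / REC4 (HILB, helper75): reciprocity for unramified abelian `p`-extensions, assembly

* `RecCyc p` : the statement of package R4-R-CYC (Artin reciprocity for cyclic unramified
  extensions of `p`-power degree), as a `Prop`;
* `hasReciprocity_of_recCyc` : `RecCyc p` implies reciprocity for all abelian unramified
  extensions of `p`-power degree (through R4-R-AB, helper49);
* `card_gal_le_card_clSModP_of_recCyc` : the upper bound `#Gal(M/F) ≤ #(Cl_S(F)/p)` with the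
  reciprocity hypothesis discharged by `RecCyc p`.
-/

set_option autoImplicit false
set_option linter.unusedSectionVars false
set_option linter.style.haveILetI false

open scoped NumberField nonZeroDivisors IsMulCommutative
open IsDedekindDomain

namespace Fermat.Agent.S55.helper75

open Fermat.Agent.S14

/-- R4-R-CYC as a `Prop`: Artin reciprocity for cyclic unramified extensions of `p`-power
degree. -/
def RecCyc (p : ℕ) : Prop :=
  ∀ (F M : Type) [Field F] [NumberField F] [Field M] [NumberField M] [Algebra F M]
    [IsAbelianGalois F M], IsUnramifiedEverywhere F M →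
    ∀ σ : Gal(M/F), (∀ τ : Gal(M/F), τ ∈ Subgroup.zpowers σ) →
    ∀ n : ℕ, Module.finrank F M = p ^ n → HasReciprocity F M

/-- R4-R: reciprocity for abelian unramified extensions of `p`-power degree. -/
theorem hasReciprocity_of_recCyc (p : ℕ) [Fact p.Prime] (hCyc : RecCyc p)
    (F M : Type) [Field F] [NumberField F] [Field M] [NumberField M] [Algebra F M]
    [IsAbelianGalois F M] (hunr : IsUnramifiedEverywhere F M)
    (n : ℕ) (hdeg : Module.finrank F M = p ^ n) : HasReciprocity F M := by
  apply helper49.hasReciprocity_of_forall_isCyclic F M hunr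
  intro E hE
  obtain ⟨σ, hσ⟩ := hE.exists_generator
  have hdvd : Module.finrank F E ∣ p ^ n := by
    rw [← hdeg, ← Module.finrank_mul_finrank F E M]
    exact dvd_mul_right _ _
  obtain ⟨m, -, hm⟩ := (Nat.dvd_prime_pow (Fact.out : p.Prime)).mp hdvd
  exact hCyc F E (isUnramifiedEverywhere_intermediateField F M hunr E) σ hσ m hm

/-- an abelian extension whose Galois group has exponent `p` has `p`-power degree -/
theorem exists_finrank_eq_pow (p : ℕ) [Fact p.Prime] (F M : Type*) [Field F] [Field M]
    [Algebra F M] [FiniteDimensional F M] [IsGalois F M]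
    (hexp : ∀ σ : Gal(M/F), σ ^ p = 1) : ∃ n : ℕ, Module.finrank F M = p ^ n := by
  have hp : IsPGroup p Gal(M/F) := fun σ => ⟨1, by rw [pow_one]; exact hexp σ⟩
  obtain ⟨n, hn⟩ := IsPGroup.iff_card.mp hp
  exact ⟨n, by rw [← IsGalois.card_aut_eq_finrank, hn]⟩

/-- **UPPER** with the reciprocity hypothesis discharged by `RecCyc p`. -/
theorem card_gal_le_card_clSModP_of_recCyc (p : ℕ) [Fact p.Prime] (hCyc : RecCyc p)
    (S : Finset Nat.Primes)
    (F M : Type) [Field F] [NumberField F] [Field M] [NumberField M] [Algebra F M]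
    [IsAbelianGalois F M] (hunr : IsUnramifiedEverywhere F M)
    (hexp : ∀ σ : Gal(M/F), σ ^ p = 1) (hsplit : IsSplitOverS F M S) :
    Nat.card Gal(M/F) ≤ Nat.card (ClSModP F p S) := by
  obtain ⟨n, hn⟩ := exists_finrank_eq_pow p F M hexp
  exact card_gal_le_card_clSModP F M p S hunr
    (hasReciprocity_of_recCyc p hCyc F M hunr n hn) hexp hsplit

end Fermat.Agent.S55.helper75
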