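import Mathlib

/-!
# S55 / REC4 bridge, package R4-BR-A (helper83): `#Hom(A, ℤ/p) ≤ #A`

A finite group `A` has at most `#A` homomorphisms to `ℤ/p` (in fact exactly `#(A^ab / p)`).
Proof: embed `ℤ/p` into `ℂˣ` as the `p`-th roots of unity and count the characters of the
abelianization.
-/

set_option autoImplicit false

namespace Fermat.Agent.S55.helper83.Rec4BrA

/-- a finite group has at most `#A` characters with values in `ℤ/p` -/
theorem card_monoidHom_zmod_le (A : Type*) [Group A] [Finite A] (p : ℕ) [Fact p.Prime] :
    Nat.card (A →* Multiplicative (ZMod p)) ≤ Nat.card A := by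
  have hp : p.Prime := Fact.out
  have : NeZero p := ⟨hp.ne_zero⟩
  -- an embedding of `ℤ/p` into `ℂˣ`
  have hcard : Nat.card (Multiplicative (ZMod p)) = Nat.card (rootsOfUnity p ℂ) := by
    rw [Complex.card_rootsOfUnity, Nat.card_eq_fintype_card, Fintype.card_multiplicative,
      ZMod.card]
  let e : Multiplicative (ZMod p) ≃* rootsOfUnity p ℂ := mulEquivOfCyclicCardEq hcard
  let j : Multiplicative (ZMod p) →* ℂˣ := (rootsOfUnity p ℂ).subtype.comp e.toMonoidHom
  have hj : Function.Injective j := (Subgroup.subtype_injective _).comp e.injective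
  -- the induced map on characters
  let f : (A →* Multiplicative (ZMod p)) → (Abelianization A →* ℂˣ) :=
    fun χ => Abelianization.lift (j.comp χ)
  have hf : Function.Injective f := by
    intro χ ψ h
    have h1 : j.comp χ = j.comp ψ := Abelianization.lift.injective h
    ext a
    exact congrArg _ (hj (DFunLike.congr_fun h1 a))
  calc Nat.card (A →* Multiplicative (ZMod p))
      ≤ Nat.card (Abelianization A →* ℂˣ) := Nat.card_le_card_of_injective f hf
    _ = Nat.card (Abelianization A) :=
        CommGroup.card_monoidHom_of_hasEnoughRootsOfUnity (Abelianization A) ℂ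
    _ ≤ Nat.card A := Nat.card_le_card_of_surjective _ QuotientGroup.mk_surjective

end Fermat.Agent.S55.helper83.Rec4BrA
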