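import Fermat.Agent.S14.helper91_FieldObstruction
import Fermat.Agent.S55.helper59_BDefs2
import Fermat.Agent.S55.helper69_BArLev
import Fermat.Agent.S55.helper30_BArKum
import Fermat.Agent.S55.helper75_Rec4Rec
import Fermat.Agent.S55.helper83_Rec4BrA

/-!
# S55 / REC4 bridge (helper75, task 357), part 1: the field cut out by `Sha¹`

`F ⊆ ℚbar` a subfield, `U = Gal(ℚbar/F) = F.fixingSubgroup`.

* `fieldOf F N` : the fixed field (an intermediate field of `ℚbar / F`) of a subgroup `N ≤ U`;
  if `N` contains the trace on `U` of the fixing subgroup of a finite `E₀ ⊇ F`, it is finite over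
  `F`, Galois if `N` is normal, contained in `E₀`, and the kernel of `U → Gal(fieldOf F N / F)`
  is `N` (`finiteDimensional_fieldOf`, `isGalois_fieldOf`, `fieldOf_restrictScalars_le`,
  `mem_ker_resFix_fieldOf`);
* `shaKer L` : the common kernel of the locally trivial characters `sha1Z L`; it is normal,
  contains commutators and `p`-th powers, and contains a level when `sha1Z L` is finite;
* `card_sha1Z_le_card_gal` : `#Sha¹ ≤ #Gal(M/F)` when `ker (U → Gal(M/F)) = shaKer L`.
-/

set_option autoImplicit false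
set_option linter.unusedSectionVars false
set_option linter.style.haveILetI false

open groupCohomology ExtCitation
open scoped NumberField Pointwise

noncomputable section

namespace Fermat.Agent.S55.helper75

open Fermat.Agent.S55 Fermat.Agent.S55.helper59

/-! ## Layer 1: the fixed field of an open normal subgroup of `U = Gal(ℚbar/F)` -/

section FixedField

variable (F : IntermediateField ℚ (AlgebraicClosure ℚ))

local notation "Qbar" => AlgebraicClosure ℚ

/-- `ℚbar / F` is Galois -/
theorem isGalois_Qbar_over : IsGalois ↥F Qbar :=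
  Fermat.Agent.S14.helper91.isGalois_over ↥F

/-- the subgroup of `Gal(ℚbar/F)` corresponding to a subgroup of `U` -/
def toGalOver (N : Subgroup (UF F)) : Subgroup (Qbar ≃ₐ[↥F] Qbar) :=
  N.map (IntermediateField.fixingSubgroupEquiv F).toMonoidHom

lemma mem_toGalOver_iff (N : Subgroup (UF F)) (σ : UF F) :
    IntermediateField.fixingSubgroupEquiv F σ ∈ toGalOver F N ↔ σ ∈ N := by
  unfold toGalOver
  rw [Subgroup.mem_map]
  constructor
  · rintro ⟨τ, hτ, h⟩
    have : τ = σ := (IntermediateField.fixingSubgroupEquiv F).injective h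
    exact this ▸ hτ
  · intro h
    exact ⟨σ, h, rfl⟩

/-- the fixed field of a subgroup of `U`, as an intermediate field of `ℚbar / F` -/
def fieldOf (N : Subgroup (UF F)) : IntermediateField ↥F Qbar :=
  IntermediateField.fixedField (toGalOver F N)

lemma fixingSubgroupEquiv_apply' (σ : UF F) (x : Qbar) :
    IntermediateField.fixingSubgroupEquiv F σ x = (σ : GQ) x := rfl

section Open

variable (N : Subgroup (UF F)) (E₀ : IntermediateField ℚ Qbar) [FiniteDimensional ℚ E₀]
  (hFE : F ≤ E₀) (hle : E₀.fixingSubgroup.subgroupOf F.fixingSubgroup ≤ N)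

include hFE hle

theorem fixingSubgroup_extendScalars_le :
    (IntermediateField.extendScalars hFE).fixingSubgroup ≤ toGalOver F N := by
  intro τ hτ
  obtain ⟨σ, rfl⟩ := (IntermediateField.fixingSubgroupEquiv F).surjective τ
  rw [mem_toGalOver_iff]
  apply hle
  rw [Subgroup.mem_subgroupOf, IntermediateField.mem_fixingSubgroup_iff]
  intro x hx
  have := (IntermediateField.mem_fixingSubgroup_iff _ _).mp hτ x
    (by rw [IntermediateField.mem_extendScalars]; exact hx)
  exact this

theorem isOpen_toGalOver : IsOpen (toGalOver F N : Set (Qbar ≃ₐ[↥F] Qbar)) := by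
  haveI : FiniteDimensional ↥F ↥(IntermediateField.extendScalars hFE) := by
    haveI : Module.Finite ℚ ↥(IntermediateField.extendScalars hFE) :=
      inferInstanceAs (Module.Finite ℚ ↥E₀)
    exact Module.Finite.of_restrictScalars_finite ℚ ↥F _
  exact Subgroup.isOpen_mono (fixingSubgroup_extendScalars_le F N E₀ hFE hle)
    (IntermediateField.fixingSubgroup_isOpen _)

theorem fixingSubgroup_fieldOf : (fieldOf F N).fixingSubgroup = toGalOver F N := by
  haveI := isGalois_Qbar_over F
  have hcl : IsClosed (toGalOver F N : Set (Qbar ≃ₐ[↥F] Qbar)) :=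
    Subgroup.isClosed_of_isOpen _ (isOpen_toGalOver F N E₀ hFE hle)
  exact InfiniteGalois.fixingSubgroup_fixedField ⟨toGalOver F N, hcl⟩

theorem finiteDimensional_fieldOf : FiniteDimensional ↥F ↥(fieldOf F N) := by
  haveI := isGalois_Qbar_over F
  rw [← InfiniteGalois.isOpen_iff_finite]
  show IsOpen ((fieldOf F N).fixingSubgroup : Set (Qbar ≃ₐ[↥F] Qbar))
  rw [fixingSubgroup_fieldOf F N E₀ hFE hle]
  exact isOpen_toGalOver F N E₀ hFE hle

theorem isGalois_fieldOf [hn : N.Normal] : IsGalois ↥F ↥(fieldOf F N) := by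
  haveI := isGalois_Qbar_over F
  have h : (fieldOf F N).fixingSubgroup.Normal := by
    rw [fixingSubgroup_fieldOf F N E₀ hFE hle]
    unfold toGalOver
    exact Subgroup.Normal.map hn _ (IntermediateField.fixingSubgroupEquiv F).surjective
  exact (InfiniteGalois.normal_iff_isGalois _).mp h

theorem mem_ker_resFix_fieldOf [Normal ↥F ↥(fieldOf F N)] (σ : UF F) :
    σ ∈ (resFix F (fieldOf F N)).ker ↔ σ ∈ N := by
  rw [mem_ker_resFix_iff, ← mem_toGalOver_iff F N σ, ← fixingSubgroup_fieldOf F N E₀ hFE hle,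
    IntermediateField.mem_fixingSubgroup_iff]
  rfl

theorem fieldOf_restrictScalars_le : (fieldOf F N).restrictScalars ℚ ≤ E₀ := by
  apply helper69.le_of_fixingSubgroup_le
  intro σ hσ
  have hσU : σ ∈ F.fixingSubgroup := IntermediateField.fixingSubgroup_antitone hFE hσ
  have hσN : (⟨σ, hσU⟩ : UF F) ∈ N := hle (by rw [Subgroup.mem_subgroupOf]; exact hσ)
  have h1 := (mem_toGalOver_iff F N ⟨σ, hσU⟩).mpr hσN
  rw [← fixingSubgroup_fieldOf F N E₀ hFE hle, IntermediateField.mem_fixingSubgroup_iff] at h1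
  rw [IntermediateField.mem_fixingSubgroup_iff]
  intro x hx
  exact h1 x hx

end Open

end FixedField

/-! ## Layer 2: the common kernel of the locally trivial characters -/

section Levels

universe u

/-- a finite family of subgroups each containing a level contains a common level -/
lemma exists_level_le_of_finite {G : Type u} [Group G] (𝒩 : Levels G) {α : Type*} [Finite α]
    (f : α → Subgroup G) (hf : ∀ a, ∃ N ∈ 𝒩.mem, N ≤ f a) :
    ∃ N ∈ 𝒩.mem, ∀ a, N ≤ f a := by
  classical
  haveI := Fintype.ofFinite α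
  suffices h : ∀ T : Finset α, ∃ N ∈ 𝒩.mem, ∀ a ∈ T, N ≤ f a by
    obtain ⟨N, hN, h⟩ := h Finset.univ
    exact ⟨N, hN, fun a => h a (Finset.mem_univ a)⟩
  intro T
  induction T using Finset.induction_on with
  | empty =>
    obtain ⟨N, hN⟩ := 𝒩.nonempty
    exact ⟨N, hN, fun a ha => absurd ha (Finset.notMem_empty a)⟩
  | insert a T _ ih =>
    obtain ⟨N₁, hN₁, h₁⟩ := ih
    obtain ⟨N₂, hN₂, h₂⟩ := hf a
    obtain ⟨N, hN, hle⟩ := 𝒩.directed N₁ hN₁ N₂ hN₂
    refine ⟨N, hN, fun b hb => ?_⟩
    rcases Finset.mem_insert.mp hb with rfl | hb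
    · exact (hle.trans inf_le_right).trans h₂
    · exact (hle.trans inf_le_left).trans (h₁ b hb)

end Levels

section Sha

variable {p : ℕ} [Fact p.Prime] {G : Type} [Group G] {𝒩 : Levels G} {ι : Type}
  (L : LocalData G 𝒩 ι)

lemma sha1Z_add {x : G → ZMod p} (hx : x ∈ sha1Z (k := ZMod p) L) (g h : G) :
    x (g * h) = x g + x h :=
  ((helper30.mem_Z1_triv_iff 𝒩 x).mp ((mem_sha1Z_iff L x).mp hx).1).2 g h

lemma sha1Z_one {x : G → ZMod p} (hx : x ∈ sha1Z (k := ZMod p) L) : x 1 = 0 := by
  have := sha1Z_add L hx 1 1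
  rw [mul_one] at this
  linear_combination -this

lemma sha1Z_inv {x : G → ZMod p} (hx : x ∈ sha1Z (k := ZMod p) L) (g : G) :
    x g⁻¹ = - x g := by
  have := sha1Z_add L hx g g⁻¹
  rw [mul_inv_cancel, sha1Z_one L hx] at this
  linear_combination -this

lemma sha1Z_pow {x : G → ZMod p} (hx : x ∈ sha1Z (k := ZMod p) L) (g : G) (n : ℕ) :
    x (g ^ n) = n • x g := by
  induction n with
  | zero => rw [pow_zero, sha1Z_one L hx, zero_nsmul]
  | succ n ih => rw [pow_succ, sha1Z_add L hx, ih, succ_nsmul]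

/-- the common kernel of all locally trivial characters -/
def shaKer : Subgroup G where
  carrier := {g | ∀ x ∈ sha1Z (k := ZMod p) L, x g = 0}
  one_mem' := fun x hx => sha1Z_one L hx
  mul_mem' := fun {a b} ha hb x hx => by rw [sha1Z_add L hx, ha x hx, hb x hx, add_zero]
  inv_mem' := fun {a} ha x hx => by rw [sha1Z_inv L hx, ha x hx, neg_zero]

lemma mem_shaKer_iff (g : G) :
    g ∈ shaKer (p := p) L ↔ ∀ x ∈ sha1Z (k := ZMod p) L, x g = 0 := Iff.rfl

instance shaKer_normal : (shaKer (p := p) L).Normal := by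
  refine ⟨fun n hn g x hx => ?_⟩
  rw [sha1Z_add L hx, sha1Z_add L hx, sha1Z_inv L hx, hn x hx]
  ring

lemma commutator_mem_shaKer (g h : G) : g * h * g⁻¹ * h⁻¹ ∈ shaKer (p := p) L := by
  intro x hx
  rw [sha1Z_add L hx, sha1Z_add L hx, sha1Z_add L hx, sha1Z_inv L hx, sha1Z_inv L hx]
  ring

lemma pow_mem_shaKer (g : G) : g ^ p ∈ shaKer (p := p) L := by
  intro x hx
  rw [sha1Z_pow L hx]
  simp

/-- the common kernel contains a level as soon as `Sha¹` is finite -/
lemma exists_level_le_shaKer [Finite ↥(sha1Z (k := ZMod p) L)] :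
    ∃ N ∈ 𝒩.mem, N ≤ shaKer (p := p) L := by
  have key : ∀ x : ↥(sha1Z (k := ZMod p) L), ∃ N ∈ 𝒩.mem,
      N ≤ (⟨⟨⟨{g | (x : G → ZMod p) g = 0}, fun {a b} ha hb => by
          show (x : G → ZMod p) (a * b) = 0
          rw [sha1Z_add L x.2, ha, hb, add_zero]⟩, sha1Z_one L x.2⟩,
        fun {a} ha => by
          show (x : G → ZMod p) a⁻¹ = 0
          rw [sha1Z_inv L x.2, ha, neg_zero]⟩ : Subgroup G) := by
    intro x
    obtain ⟨N, hN, h⟩ := ((helper30.mem_Z1_triv_iff 𝒩 (x : G → ZMod p)).mp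
      ((mem_sha1Z_iff L _).mp x.2).1).1
    refine ⟨N, hN, fun s hs => ?_⟩
    show (x : G → ZMod p) s = 0
    have := h 1 s hs
    rwa [one_mul, sha1Z_one L x.2] at this
  obtain ⟨N, hN, h⟩ := exists_level_le_of_finite 𝒩 _ key
  exact ⟨N, hN, fun s hs x hx => h ⟨x, hx⟩ hs⟩

end Sha

/-! ## Layer 3: the field of `Sha¹` and the count -/

section Count

variable {p : ℕ} [Fact p.Prime] {S : Finset Nat.Primes}
  {F : IntermediateField ℚ (AlgebraicClosure ℚ)}
  {𝒩 : Levels (UF F)} {ι : Type} (L : LocalData (UF F) 𝒩 ι)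

local notation "Qbar" => AlgebraicClosure ℚ

/-- the character of `U` attached to an element of `Sha¹` -/
def shaChar (x : ↥(sha1Z (k := ZMod p) L)) : UF F →* Multiplicative (ZMod p) where
  toFun g := Multiplicative.ofAdd ((x : UF F → ZMod p) g)
  map_one' := by rw [sha1Z_one L x.2]; rfl
  map_mul' g h := by rw [sha1Z_add L x.2]; rfl

lemma shaKer_le_ker_shaChar (x : ↥(sha1Z (k := ZMod p) L)) :
    shaKer (p := p) L ≤ (shaChar L x).ker := by
  intro g hg
  rw [MonoidHom.mem_ker]
  change Multiplicative.ofAdd ((x : UF F → ZMod p) g) = 1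
  rw [hg x x.2]
  rfl

/-- `#Sha¹ ≤ #Gal(M/F)` for any finite Galois `M/F` such that the kernel of the restriction
`U → Gal(M/F)` is the common kernel of `Sha¹`. -/
theorem card_sha1Z_le_card_gal (M : IntermediateField ↥F Qbar) [Normal ↥F ↥M]
    [FiniteDimensional ↥F ↥M]
    (hker : ∀ σ : UF F, σ ∈ (resFix F M).ker ↔ σ ∈ shaKer (p := p) L) :
    Nat.card ↥(sha1Z (k := ZMod p) L) ≤ Nat.card (↥M ≃ₐ[↥F] ↥M) := by
  haveI : Normal ↥F Qbar := (isGalois_Qbar_over F).to_normal
  have hsurj : Function.Surjective (resFix F M) := resFix_surjective F M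
  have hle : ∀ x : ↥(sha1Z (k := ZMod p) L), (resFix F M).ker ≤ (shaChar L x).ker :=
    fun x σ hσ => shaKer_le_ker_shaChar L x ((hker σ).mp hσ)
  let Φ : ↥(sha1Z (k := ZMod p) L) → ((↥M ≃ₐ[↥F] ↥M) →* Multiplicative (ZMod p)) :=
    fun x => MonoidHom.liftOfSurjective _ hsurj ⟨shaChar L x, hle x⟩
  have hΦ : ∀ x σ, Φ x (resFix F M σ) = shaChar L x σ := fun x σ =>
    MonoidHom.liftOfRightInverse_comp_apply _ _ _ _ σ
  have hinj : Function.Injective Φ := by
    intro x y hxy
    apply Subtype.ext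
    funext σ
    have h1 := hΦ x σ
    rw [hxy, hΦ y σ] at h1
    exact (Multiplicative.ofAdd.injective h1).symm
  haveI : Finite (↥M ≃ₐ[↥F] ↥M) := inferInstance
  haveI : Finite ((↥M ≃ₐ[↥F] ↥M) →* Multiplicative (ZMod p)) :=
    Finite.of_injective (fun f => (f : (↥M ≃ₐ[↥F] ↥M) → Multiplicative (ZMod p)))
      DFunLike.coe_injective
  exact (Nat.card_le_card_of_injective Φ hinj).trans
    (Fermat.Agent.S55.helper83.Rec4BrA.card_monoidHom_zmod_le _ p)

end Count

end Fermat.Agent.S55.helper75
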