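import Fermat.Agent.S55.helper99_Rec4Cyc
import Fermat.Agent.S55.helper75_Rec4Rec

/-!
# S55 / REC4 (HILB, helper75): reciprocity for unramified abelian `p`-extensions from REC1

Final form of package R4-R: the REC1 package statements `RecMain I p`, `RecTame I`, `RecExist`
(Props of `helper75_Rec4Hyps`) imply

* `recCyc_of_rec1` : `RecCyc p` (helper99, R4-R-CYC);
* `hasReciprocity_of_unramified` : Artin reciprocity for abelian unramified extensions of
  `p`-power degree;
* `card_gal_le_card_clSModP_of_rec1` : the upper bound `#Gal(M/F) ≤ #(Cl_S(F)/p)`.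
-/

set_option autoImplicit false

open scoped NumberField nonZeroDivisors IsMulCommutative
open IsDedekindDomain

namespace Fermat.Agent.S55.helper75

open Fermat.Agent.S14 Fermat.Agent.S55.helper11

theorem recCyc_of_rec1 (I : LocInv) (p : ℕ) [Fact p.Prime]
    (hMain : RecMain I p) (hTame : RecTame I) (hExist : RecExist) : RecCyc p :=
  fun F M _ _ _ _ _ _ hunr σ hσ n hdeg =>
    helper99.hasReciprocity_of_isCyclic I p hMain hTame hExist F M hunr σ hσ n hdeg

/-- R4-R: Artin reciprocity for abelian unramified extensions of `p`-power degree, from REC1. -/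
theorem hasReciprocity_of_unramified (I : LocInv) (p : ℕ) [Fact p.Prime]
    (hMain : RecMain I p) (hTame : RecTame I) (hExist : RecExist)
    (F M : Type) [Field F] [NumberField F] [Field M] [NumberField M] [Algebra F M]
    [IsAbelianGalois F M] (hunr : IsUnramifiedEverywhere F M)
    (n : ℕ) (hdeg : Module.finrank F M = p ^ n) : HasReciprocity F M :=
  hasReciprocity_of_recCyc p (recCyc_of_rec1 I p hMain hTame hExist) F M hunr n hdeg

/-- **UPPER** from REC1. -/
theorem card_gal_le_card_clSModP_of_rec1 (I : LocInv) (p : ℕ) [Fact p.Prime]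
    (hMain : RecMain I p) (hTame : RecTame I) (hExist : RecExist)
    (S : Finset Nat.Primes)
    (F M : Type) [Field F] [NumberField F] [Field M] [NumberField M] [Algebra F M]
    [IsAbelianGalois F M] (hunr : IsUnramifiedEverywhere F M)
    (hexp : ∀ σ : Gal(M/F), σ ^ p = 1) (hsplit : IsSplitOverS F M S) :
    Nat.card Gal(M/F) ≤ Nat.card (ClSModP F p S) :=
  card_gal_le_card_clSModP_of_recCyc p (recCyc_of_rec1 I p hMain hTame hExist) S F M hunr
    hexp hsplit

end Fermat.Agent.S55.helper75
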