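import Fermat.Agent.S55.helper59_BDefs
import Fermat.Agent.S55.helper74_LocalLevels

/-!
# S55 / REC4, package R4-BR-E (helper98, task 391)

A character of `U = Gal(ℚbar/F)` which vanishes on all local groups of an arithmetic local datum
(`IsArith`) vanishes on `D_A ∩ U` for EVERY valuation subring `A` of `ℚbar` over a prime of `S`.

The transitivity of the Galois action on the valuation subrings over a prime (package R4-BR-TR)
enters as the explicit hypothesis `hTR`.
-/

set_option autoImplicit false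

open groupCohomology ExtCitation
open scoped Pointwise

noncomputable section

namespace Fermat.Agent.S55.helper98

open Fermat.Agent.S55 Fermat.Agent.S55.helper59

/-- an additive character kills `1` -/
theorem char_one {G X : Type*} [Group G] [AddCommGroup X] (x : G → X)
    (hx : ∀ g h : G, x (g * h) = x g + x h) : x 1 = 0 := by
  have h := hx 1 1
  rw [mul_one] at h
  exact left_eq_add.mp h

/-- an additive character is invariant under conjugation -/
theorem char_conj {G X : Type*} [Group G] [AddCommGroup X] (x : G → X)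
    (hx : ∀ g h : G, x (g * h) = x g + x h) (u s : G) : x (u⁻¹ * s * u) = x s := by
  have h1 : x (u⁻¹ * u) = x u⁻¹ + x u := hx _ _
  rw [inv_mul_cancel, char_one x hx] at h1
  rw [hx, hx]
  have : x u⁻¹ = - x u := eq_neg_of_add_eq_zero_left h1.symm
  rw [this]
  abel

section E

variable {S : Finset Nat.Primes} {F : IntermediateField ℚ (AlgebraicClosure ℚ)}
  {𝒩 : Levels (UF F)} {ι : Type} {L : LocalData (UF F) 𝒩 ι}

/-- **R4-BR-E, conditional on transitivity (R4-BR-TR).** -/
theorem apply_eq_zero_of_mem_decompositionSubgroup_of_transitive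
    (hTR : ∀ {ℓ : ℕ}, ℓ.Prime → ∀ A B : ValuationSubring (AlgebraicClosure ℚ),
      A.LiesOverPrime ℓ → B.LiesOverPrime ℓ →
      ∃ γ : AlgebraicClosure ℚ ≃ₐ[ℚ] AlgebraicClosure ℚ, γ • B = A)
    (hL : IsArith S F L) {X : Type*}
    [AddCommGroup X] (x : UF F → X) (hx : ∀ g h : UF F, x (g * h) = x g + x h)
    (hloc : ∀ w, ∀ s : L.Gv w, x (L.r w s) = 0)
    (q : Nat.Primes) (hq : q ∈ S) (A : ValuationSubring (AlgebraicClosure ℚ))
    (hA : A.LiesOverPrime (q : ℕ)) (σ : UF F)
    (hσ : ((σ : UF F) : GQ) ∈ A.decompositionSubgroup ℚ) : x σ = 0 := by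
  -- transitivity: `A = γ • B` with `B` the standard place over `q`
  obtain ⟨γ, hγ⟩ := hTR q.2 A (primeLocalPlace q) hA
    (Fermat.Agent.S55.helper74.primeLocalPlace_liesOverPrime q)
  -- `γ⁻¹ σ γ` lies in the decomposition group of `B`
  have hσA : ((σ : UF F) : GQ) • A = A := hσ
  have hdec : γ⁻¹ * ((σ : UF F) : GQ) * γ ∈ (primeLocalPlace q).decompositionSubgroup ℚ := by
    change (γ⁻¹ * ((σ : UF F) : GQ) * γ) • primeLocalPlace q = primeLocalPlace q
    rw [mul_smul, mul_smul, hγ, hσA, ← hγ, inv_smul_smul]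
  obtain ⟨t, ht⟩ := Fermat.Agent.S55.helper74.exists_primeLocalToGlobal_eq q hdec
  -- the double coset of `γ`
  obtain ⟨w, ⟨hqw, u, hu, h, hγu⟩, -⟩ := hL.cover q hq γ
  subst hqw
  -- `u⁻¹ σ u = g_w loc(h t h⁻¹) g_w⁻¹`
  have hkey : hL.g w * primeLocalToGlobal (hL.q w) (h * t * h⁻¹) * (hL.g w)⁻¹ =
      u⁻¹ * ((σ : UF F) : GQ) * u := by
    have hσeq : ((σ : UF F) : GQ) = γ * primeLocalToGlobal (hL.q w) t * γ⁻¹ := by
      rw [ht]; group
    rw [hσeq, hγu, map_mul, map_mul, map_inv]
    group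
  have hmemU : u⁻¹ * ((σ : UF F) : GQ) * u ∈ F.fixingSubgroup :=
    mul_mem (mul_mem (inv_mem hu) σ.2) hu
  have hrange : h * t * h⁻¹ ∈ (hL.j w).range := by
    rw [hL.range_j w, hkey]
    exact hmemU
  obtain ⟨s, hs⟩ := hrange
  have hr : L.r w s = (⟨u, hu⟩ : UF F)⁻¹ * σ * ⟨u, hu⟩ := by
    apply Subtype.ext
    rw [hL.r_eq w s, hs, hkey]
    rfl
  have h0 := hloc w s
  rw [hr, char_conj x hx] at h0
  exact h0

end E

end Fermat.Agent.S55.helper98
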