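import Fermat.Agent.S55.helper75_Rec4BrAux
import Fermat.Agent.S55.helper75_Rec4Final
import Fermat.Agent.S55.helper48_Rec4BrTr
import Fermat.Agent.S55.helper85_Rec4BrDict
import Fermat.Agent.S55.helper98_Rec4BrE

/-!
# S55 / REC4 bridge (helper75, task 357): `#Sha¹(G_{F,S}, ℤ/p) ≤ #(Cl_S(F)/p)`

Deliverable of REC4 (HILB) to module B: the statement of helper59 `Interface2.card_sha1Z_le`,

* `card_sha1Z_le_of_recCyc` : conditional only on `RecCyc p` (Artin reciprocity for cyclic
  unramified extensions of `p`-power degree);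
* `card_sha1Z_le_of_rec1` : conditional only on the REC1 package statements
  `RecMain I p`, `RecTame I`, `RecExist`.
-/

set_option autoImplicit false
set_option linter.unusedVariables false
set_option linter.unusedSectionVars false

open groupCohomology ExtCitation
open scoped NumberField

noncomputable section

namespace Fermat.Agent.S55.helper75

open Fermat.Agent.S55 Fermat.Agent.S55.helper59 Fermat.Agent.S55.helper11

variable {p : ℕ} [Fact p.Prime] {S : Finset Nat.Primes}
  {F : IntermediateField ℚ (AlgebraicClosure ℚ)} [FiniteDimensional ℚ F]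
  {𝒩 : Levels (UF F)} {ι : Type} [Fintype ι] {L : LocalData (UF F) 𝒩 ι}

/-- **R4-BR**: `#Sha¹(G_{F,S}, ℤ/p) ≤ #(Cl_S(F)/p)`, conditional on `RecCyc p`. -/
theorem card_sha1Z_le_of_recCyc [NumberField ↥F] (hCyc : RecCyc p)
    (hF : F.IsUnramifiedOutside S) (h𝒩 : 𝒩.mem = sLevels S F) (hL : IsArith S F L) :
    Nat.card ↥(sha1Z (k := ZMod p) L) ≤ Nat.card (ClSModP (↥F) p S) :=
  card_sha1Z_le_aux hCyc hF h𝒩
    (fun x hx hloc q hq A hA σ hσ =>
      helper98.apply_eq_zero_of_mem_decompositionSubgroup_of_transitive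
        (fun hℓ A B hA hB => helper48.exists_smul_eq_of_liesOverPrime hℓ A B hA hB)
        hL x hx hloc q hq A hA σ hσ)
    (fun M _ A _ hℓ hA τ hτ => helper85.exists_dec_lift F M A hℓ hA τ hτ)
    (fun M _ A _ hℓ hA τ hτ => helper85.exists_inertia_lift F M A hℓ hA τ hτ)

/-- **R4-BR**: `#Sha¹(G_{F,S}, ℤ/p) ≤ #(Cl_S(F)/p)`, conditional on the REC1 packages. -/
theorem card_sha1Z_le_of_rec1 [NumberField ↥F] (I : LocInv)
    (hMain : RecMain I p) (hTame : RecTame I) (hExist : RecExist)
    (hF : F.IsUnramifiedOutside S) (h𝒩 : 𝒩.mem = sLevels S F) (hL : IsArith S F L) :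
    Nat.card ↥(sha1Z (k := ZMod p) L) ≤ Nat.card (ClSModP (↥F) p S) :=
  card_sha1Z_le_of_recCyc (recCyc_of_rec1 I p hMain hTame hExist) hF h𝒩 hL

end Fermat.Agent.S55.helper75
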