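import Fermat.Agent.S14.Defs
import Fermat.Agent.S55.helper11_RecDefs

/-!
# S55 / REC4 (HILB, helper75): the REC1 package statements consumed by REC4, as `Prop`s

VERBATIM copies of the statements of `origin/helper11:blueprints/S55/helper11_Rec1Interface.lean`
(v1.2), turned into hypotheses:

* `RecMain I p` : the conclusion of R-MAIN `reciprocity` (after its hypotheses `hp2`, `hH`, `hZ`);
* `RecTame I`   : R-TAME `inv_loc_cyclicClass_unram`;
* `RecExist`    : R-EXIST `exists_locDatum`.

DEFINITIONS ONLY (sorry-free).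
-/

set_option autoImplicit false

open CategoryTheory groupCohomology
open scoped NumberField nonZeroDivisors IsMulCommutative
open IsDedekindDomain

namespace Fermat.Agent.S55.helper75

open Fermat.Agent.S14 Fermat.Agent.S55.helper8 Fermat.Agent.S55.helper11

/-- R-MAIN (`reciprocity`): the sum of the local invariants of a `p`-primary global class
vanishes. -/
def RecMain (I : LocInv) (p : ℕ) : Prop :=
  ∀ (F L : Type) [Field F] [NumberField F] [Field L] [NumberField L] [Algebra F L]
    [IsGalois F L] (x : H2 (Rep.ofAlgebraAutOnUnits F L)) (n : ℕ), p ^ n • x = 0 →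
    ∀ (ι : Type) [Fintype ι] (q : ι → ℕ) [∀ i, Fact (q i).Prime]
    (D : ∀ i, LocDatum (q i) F L) (v : ι → HeightOneSpectrum (𝓞 F)),
    (∀ i, (D i).AtPlace (v i)) → Function.Injective v →
    (∀ (r : ℕ) [Fact r.Prime] (E : LocDatum r F L) (w : HeightOneSpectrum (𝓞 F)),
      E.AtPlace w → (∀ i, w ≠ v i) → E.loc x = 0) →
    ∑ i, I.inv (q i) (D i).Kv (D i).Lw ((D i).loc x) = 0

/-- R-TAME (`inv_loc_cyclicClass_unram`): the invariant of the localisation of a global cyclic
class at an unramified place. -/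
def RecTame (I : LocInv) : Prop :=
  ∀ (q : ℕ) [Fact q.Prime] (F M : Type) [Field F]
    [NumberField F] [Field M] [NumberField M] [Algebra F M] [IsAbelianGalois F M]
    (D : LocDatum q F M) (w : HeightOneSpectrum (𝓞 F)), D.AtPlace w →
    (∀ P : Ideal (𝓞 M), P.IsPrime → P.under (𝓞 F) = w.asIdeal →
      ∀ σ : Gal(M/F), (∀ x : 𝓞 M, σ • x - x ∈ P) → σ = 1) →
    ∀ (σ : Gal(M/F)), (∀ τ : Gal(M/F), τ ∈ Subgroup.zpowers σ) →
    ∀ (k : ℕ), frobAt F M w.asIdeal = σ ^ k → ∀ (c : Fˣ) (e : ℤ),
    w.valuation F (c : F) = WithZero.exp (-e) →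
    I.inv q D.Kv D.Lw (D.loc (cyclicClass F M σ c)) =
      ((((k : ℚ) * (e : ℚ) / (Module.finrank F M : ℚ) : ℚ)) : QZ)

/-- R-EXIST (`exists_locDatum`): every finite place carries a local datum. -/
def RecExist : Prop :=
  ∀ (F L : Type) [Field F] [NumberField F] [Field L] [NumberField L]
    [Algebra F L] [IsGalois F L] (v : HeightOneSpectrum (𝓞 F)),
    ∃ (q : ℕ) (_ : Fact q.Prime) (D : LocDatum q F L), D.AtPlace v

end Fermat.Agent.S55.helper75
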