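import Fermat.Agent.S55.helper75_Rec4Bridge
import Fermat.Agent.S55.helper59_BDefs3

/-!
# S55 / REC4 (helper75): the REC4 deliverable from reciprocity for `p`-TORSION classes only

`helper11.reciprocity_pTorsion_SL` delivers the reciprocity law for classes killed by `p`
(`helper59.HypRecP Inv p`), while `RecMain I p` of `helper75_Rec4Hyps` asks for all `p`-power
torsion classes.  REC4 only needs `p`-torsion: the Galois group of the maximal unramified
`S`-split extension of exponent `p` has cyclic quotients of order `1` or `p`.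

* `hasReciprocity_of_isCyclic_of_dvd` : Artin reciprocity for a cyclic unramified extension of
  degree dividing `p` (proof of `helper99.hasReciprocity_of_isCyclic` with `n ≤ 1`);
* `hasReciprocity_of_exp` : Artin reciprocity for abelian unramified extensions of exponent `p`;
* `card_gal_le_card_clSModP_of_recP` : `#Gal(M/F) ≤ #(Cl_S(F)/p)`;
* `card_sha1Z_le_of_upper`, `card_sha1Z_le_of_recP` : `#Sha¹(G_{F,S}, ℤ/p) ≤ #(Cl_S(F)/p)`
  (= helper59 `Interface2.card_sha1Z_le`), conditional only on `HypRecP`, `RecTame`, `RecExist`.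
-/

set_option autoImplicit false
set_option linter.unusedVariables false
set_option linter.unusedSectionVars false
set_option linter.style.haveILetI false

open groupCohomology ExtCitation
open scoped NumberField Pointwise IsMulCommutative nonZeroDivisors
open IsDedekindDomain

noncomputable section

namespace Fermat.Agent.S55.helper75

open Fermat.Agent.S55 Fermat.Agent.S55.helper59 Fermat.Agent.S14 Fermat.Agent.S14.helper91
open Fermat.Agent.S55.helper8 Fermat.Agent.S55.helper11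

local notation "Qbar" => AlgebraicClosure ℚ

section Cyc

/-- reciprocity for a cyclic unramified extension of degree dividing `p`, from reciprocity for
`p`-torsion classes. -/
theorem hasReciprocity_of_isCyclic_of_dvd (I : LocInv) (p : ℕ) [Fact p.Prime]
    (hRec : helper59.HypRecP I p) (hTame : RecTame I) (hExist : RecExist)
    (F M : Type) [Field F] [NumberField F] [Field M] [NumberField M] [Algebra F M]
    [IsAbelianGalois F M] (hunr : IsUnramifiedEverywhere F M)
    (σ : Gal(M/F)) (hσ : ∀ τ : Gal(M/F), τ ∈ Subgroup.zpowers σ)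
    (hdeg : Module.finrank F M ∣ p) : HasReciprocity F M := by
  classical
  intro 𝔞 hprinc
  obtain ⟨a, ha⟩ := hprinc
  have h𝔞 : (𝔞 : Ideal (𝓞 F)) = Ideal.span {a} := ha
  have h𝔞0 : (𝔞 : Ideal (𝓞 F)) ≠ ⊥ := nonZeroDivisors.coe_ne_zero 𝔞
  have ha0 : a ≠ 0 := by
    rintro rfl
    apply h𝔞0
    rw [h𝔞]
    simp
  have haF : (algebraMap (𝓞 F) F a) ≠ 0 := by
    rwa [Ne, map_eq_zero_iff _ (FaithfulSMul.algebraMap_injective (𝓞 F) F)]
  set c : Fˣ := Units.mk0 (algebraMap (𝓞 F) F a) haF with hc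
  set x := cyclicClass F M σ c with hx
  -- `p • x = 0`
  obtain ⟨dq, hdq⟩ := hdeg
  have hxn : p • x = 0 := by
    rw [hx, helper99.nsmul_cyclicClass F M σ hσ,
      helper31.cyclicClass_eq_zero_iff_norm F M σ hσ]
    refine ⟨Units.map (algebraMap F M : F →* M) (c ^ dq), ?_⟩
    ext
    simp only [normUnits, Units.coe_map, MonoidHom.coe_coe, Units.val_pow_eq_pow_val, map_pow,
      Algebra.norm_algebraMap]
    rw [← pow_mul, ← hdq]
  -- exponents and Frobenius powers
  have hk' : ∀ w : HeightOneSpectrum (𝓞 F), ∃ k : ℕ, frobAt F M w.asIdeal = σ ^ k := by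
    intro w
    obtain ⟨k, hk⟩ := helper31.exists_pow_eq_of_mem_zpowers (hσ (frobAt F M w.asIdeal))
    exact ⟨k, hk.symm⟩
  choose k hk using hk'
  have he' : ∀ w : HeightOneSpectrum (𝓞 F), ∃ e : ℕ,
      w.valuation F (algebraMap (𝓞 F) F a) = WithZero.exp (-(e : ℤ)) := by
    intro w
    refine ⟨(Associates.mk w.asIdeal).count
      (Associates.mk (Ideal.span {a} : Ideal (𝓞 F))).factors, ?_⟩
    rw [HeightOneSpectrum.valuation_of_algebraMap, HeightOneSpectrum.intValuation_if_neg w ha0]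
  choose e he using he'
  have he0 : ∀ w : HeightOneSpectrum (𝓞 F), a ∉ w.asIdeal → e w = 0 := by
    intro w hw
    have h1 := he w
    rw [HeightOneSpectrum.valuation_of_algebraMap] at h1
    have h2 : w.intValuation a = 1 := by
      by_contra hne
      have hlt : w.intValuation a < 1 := lt_of_le_of_ne (w.intValuation_le_one a) hne
      exact hw ((w.intValuation_lt_one_iff_mem a).mp hlt)
    rw [h2, ← WithZero.exp_zero] at h1
    have h3 := WithZero.exp_injective h1
    omega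
  -- the finite set of primes dividing `a`
  have hfin : {w : HeightOneSpectrum (𝓞 F) | a ∈ w.asIdeal}.Finite := by
    have hI : (Ideal.span {a} : Ideal (𝓞 F)) ≠ 0 := by
      simpa [Ideal.span_singleton_eq_bot] using ha0
    refine (Ideal.finite_factors hI).subset ?_
    intro w hw
    exact Ideal.dvd_span_singleton.mpr hw
  set S : Finset (HeightOneSpectrum (𝓞 F)) := hfin.toFinset with hS
  have hSmem : ∀ w : HeightOneSpectrum (𝓞 F), a ∈ w.asIdeal → w ∈ S := by
    intro w hw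
    rw [hS, Set.Finite.mem_toFinset]
    exact hw
  -- unramifiedness in the shape of `RecTame`
  have hunr' : ∀ w : HeightOneSpectrum (𝓞 F), ∀ P : Ideal (𝓞 M), P.IsPrime →
      P.under (𝓞 F) = w.asIdeal → ∀ τ : Gal(M/F), (∀ y : 𝓞 M, τ • y - y ∈ P) → τ = 1 := by
    intro w P hP hPw τ hτ
    refine hunr P hP ?_ τ hτ
    rintro rfl
    apply w.ne_bot
    rw [← hPw]
    exact Ideal.comap_bot_of_injective _ (FaithfulSMul.algebraMap_injective (𝓞 F) (𝓞 M))
  -- local data
  choose q hq D hD using hExist F M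
  -- the local invariants
  have hinv : ∀ w : HeightOneSpectrum (𝓞 F),
      I.inv (q w) (D w).Kv (D w).Lw ((D w).loc x) =
        ((((k w : ℚ) * ((e w : ℤ) : ℚ) / (Module.finrank F M : ℚ) : ℚ)) : QZ) :=
    fun w => hTame (q w) F M (D w) w (hD w) (hunr' w) σ hσ (k w) (hk w) c (e w) (he w)
  -- vanishing outside `S`
  have hsupp : ∀ (r : ℕ) [Fact r.Prime] (E : LocDatum r F M) (w : HeightOneSpectrum (𝓞 F)),
      E.AtPlace w → (∀ i : S, w ≠ i.1) → E.loc x = 0 := by
    intro r _ E w hEw hw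
    have hwS : a ∉ w.asIdeal := fun h => hw ⟨w, hSmem w h⟩ rfl
    have h1 := hTame r F M E w hEw (hunr' w) σ hσ (k w) (hk w) c (e w) (he w)
    rw [he0 w hwS] at h1
    have h2 : I.inv r E.Kv E.Lw (E.loc x) = 0 := by
      rw [h1]
      simp
    have h3 := I.injective r E.Kv E.Lw
    apply h3
    rw [h2, map_zero]
  have : ∀ i : S, Fact (q i.1).Prime := fun i => hq i.1
  have hsum := hRec F M x hxn S (fun i => q i.1) (fun i => D i.1) (fun i => i.1)
    (fun i => hD i.1) Subtype.val_injective hsupp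
  have hsum2 : ∑ i : S, ((((k i.1 : ℚ) * ((e i.1 : ℤ) : ℚ) / (Module.finrank F M : ℚ) : ℚ)) : QZ)
      = 0 := by
    rw [← hsum]
    exact Finset.sum_congr rfl (fun i _ => (hinv i.1).symm)
  have hsum3 : (((∑ i : S, ((k i.1 : ℚ) * ((e i.1 : ℤ) : ℚ) / (Module.finrank F M : ℚ))) : ℚ) : QZ)
      = 0 := by
    rw [← hsum2]
    exact map_sum (QuotientAddGroup.mk' (AddSubgroup.zmultiples (1 : ℚ))) _ _
  rw [AddCircle.coe_eq_zero_iff] at hsum3
  obtain ⟨m, hm⟩ := hsum3
  have hpn : ((Module.finrank F M : ℕ) : ℚ) ≠ 0 := by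
    have : Module.finrank F M ≠ 0 := Module.finrank_pos.ne'
    exact_mod_cast this
  have hdvd : ((Module.finrank F M : ℕ) : ℤ) ∣ ∑ w ∈ S, (k w : ℤ) * (e w : ℤ) := by
    refine ⟨m, ?_⟩
    have h1 : (∑ i : S, ((k i.1 : ℚ) * ((e i.1 : ℤ) : ℚ) / (Module.finrank F M : ℚ))) =
        (∑ w ∈ S, ((k w : ℚ) * ((e w : ℤ) : ℚ))) / ((Module.finrank F M : ℕ) : ℚ) := by
      rw [Finset.sum_coe_sort S (fun w => (k w : ℚ) * ((e w : ℤ) : ℚ) / (Module.finrank F M : ℚ)),
        Finset.sum_div]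
    rw [h1, zsmul_eq_mul, mul_one, eq_div_iff hpn] at hm
    have h2 : ((∑ w ∈ S, (k w : ℤ) * (e w : ℤ) : ℤ) : ℚ) =
        (((Module.finrank F M : ℕ) : ℤ) * m : ℤ) := by
      push_cast
      push_cast at hm
      rw [← hm]
      ring
    exact_mod_cast h2
  have hdvdN : Module.finrank F M ∣ ∑ w ∈ S, k w * e w := by
    have : ((Module.finrank F M : ℕ) : ℤ) ∣ ((∑ w ∈ S, k w * e w : ℕ) : ℤ) := by
      push_cast
      exact hdvd
    exact Int.natCast_dvd_natCast.mp this
  -- the Artin symbol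
  rw [helper30.artinMap_span_eq_prod F M S a hSmem 𝔞 h𝔞]
  have h1 : ∏ w ∈ S, frobAt F M w.asIdeal ^
      Multiset.count w.asIdeal
        (UniqueFactorizationMonoid.normalizedFactors (Ideal.span {a} : Ideal (𝓞 F))) =
      σ ^ ∑ w ∈ S, k w * e w := by
    rw [← Finset.prod_pow_eq_pow_sum]
    refine Finset.prod_congr rfl fun w _ => ?_
    rw [hk w, helper30.count_eq_of_valuation w a ha0 (e w) (he w), ← pow_mul]
  rw [h1]
  obtain ⟨t, ht⟩ := hdvdN
  have hord : σ ^ (Module.finrank F M) = 1 := by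
    rw [← IsGalois.card_aut_eq_finrank]
    exact pow_card_eq_one'
  rw [ht, pow_mul, hord, one_pow]


/-- Artin reciprocity for abelian unramified extensions of exponent `p`. -/
theorem hasReciprocity_of_exp (I : LocInv) (p : ℕ) [Fact p.Prime]
    (hRec : helper59.HypRecP I p) (hTame : RecTame I) (hExist : RecExist)
    (F M : Type) [Field F] [NumberField F] [Field M] [NumberField M] [Algebra F M]
    [IsAbelianGalois F M] (hunr : IsUnramifiedEverywhere F M)
    (hexp : ∀ σ : Gal(M/F), σ ^ p = 1) : HasReciprocity F M := by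
  apply helper49.hasReciprocity_of_forall_isCyclic F M hunr
  intro E hE
  obtain ⟨σ, hσ⟩ := hE.exists_generator
  have hσp : σ ^ p = 1 := by
    obtain ⟨τ, rfl⟩ := AlgEquiv.restrictNormalHom_surjective (F := F) (K₁ := E) M σ
    rw [← map_pow, hexp, map_one]
  have hdvd : Module.finrank F E ∣ p := by
    rw [← IsGalois.card_aut_eq_finrank, ← orderOf_eq_card_of_forall_mem_zpowers hσ]
    exact orderOf_dvd_of_pow_eq_one hσp
  exact hasReciprocity_of_isCyclic_of_dvd I p hRec hTame hExist F E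
    (isUnramifiedEverywhere_intermediateField F M hunr E) σ hσ hdvd

/-- **UPPER** from reciprocity for `p`-torsion classes. -/
theorem card_gal_le_card_clSModP_of_recP (I : LocInv) (p : ℕ) [Fact p.Prime]
    (hRec : helper59.HypRecP I p) (hTame : RecTame I) (hExist : RecExist)
    (S : Finset Nat.Primes)
    (F M : Type) [Field F] [NumberField F] [Field M] [NumberField M] [Algebra F M]
    [IsAbelianGalois F M] (hunr : IsUnramifiedEverywhere F M)
    (hexp : ∀ σ : Gal(M/F), σ ^ p = 1) (hsplit : IsSplitOverS F M S) :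
    Nat.card Gal(M/F) ≤ Nat.card (ClSModP F p S) :=
  card_gal_le_card_clSModP F M p S hunr
    (hasReciprocity_of_exp I p hRec hTame hExist F M hunr hexp) hexp hsplit

end Cyc

section Final

variable {p : ℕ} [Fact p.Prime] {S : Finset Nat.Primes}
  {F : IntermediateField ℚ (AlgebraicClosure ℚ)} [FiniteDimensional ℚ F]
  {𝒩 : Levels (UF F)} {ι : Type} {L : LocalData (UF F) 𝒩 ι}

/-- `#Sha¹(G_{F,S}, ℤ/p) ≤ #(Cl_S(F)/p)` from ANY proof of the upper bound
`#Gal(M/F) ≤ #(Cl_S(F)/p)` for abelian unramified `S`-split extensions of exponent `p`. -/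
theorem card_sha1Z_le_of_upper [NumberField ↥F]
    (hUp : ∀ (M : IntermediateField ↥F Qbar) [NumberField ↥M] [IsAbelianGalois ↥F ↥M],
      IsUnramifiedEverywhere ↥F ↥M → (∀ σ : Gal(↥M/↥F), σ ^ p = 1) → IsSplitOverS ↥F ↥M S →
      Nat.card Gal(↥M/↥F) ≤ Nat.card (ClSModP (↥F) p S))
    (hF : F.IsUnramifiedOutside S) (h𝒩 : 𝒩.mem = sLevels S F)
    (hE : ∀ x : UF F → ZMod p, (∀ g h : UF F, x (g * h) = x g + x h) →
      (∀ w, ∀ s : L.Gv w, x (L.r w s) = 0) → ∀ q : Nat.Primes, q ∈ S →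
      ∀ A : ValuationSubring Qbar, A.LiesOverPrime (q : ℕ) → ∀ σ : UF F,
      ((σ : UF F) : GQ) ∈ A.decompositionSubgroup ℚ → x σ = 0)
    (hDec : ∀ (M : IntermediateField ↥F Qbar) [Normal ↥F ↥M] (A : ValuationSubring Qbar)
      {ℓ : ℕ}, ℓ.Prime → A.LiesOverPrime ℓ → ∀ τ : ↥M ≃ₐ[↥F] ↥M,
      (∀ x : 𝓞 ↥M, x ∈ primeOf ↥M A → τ • x ∈ primeOf ↥M A) →
      ∃ σ : UF F, ((σ : UF F) : GQ) ∈ A.decompositionSubgroup ℚ ∧ resFix F M σ = τ)
    (hIn : ∀ (M : IntermediateField ↥F Qbar) [Normal ↥F ↥M] (A : ValuationSubring Qbar)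
      {ℓ : ℕ}, ℓ.Prime → A.LiesOverPrime ℓ → ∀ τ : ↥M ≃ₐ[↥F] ↥M,
      (∀ x : 𝓞 ↥M, τ • x - x ∈ primeOf ↥M A) →
      ∃ σ : UF F, ((σ : UF F) : GQ) ∈ A.inertiaSubgroupIn ℚ ∧ resFix F M σ = τ) :
    Nat.card ↥(sha1Z (k := ZMod p) L) ≤ Nat.card (ClSModP (↥F) p S) := by
  classical
  by_cases hfin : Finite ↥(sha1Z (k := ZMod p) L)
  swap
  · haveI := not_finite_iff_infinite.mp hfin
    rw [Nat.card_eq_zero_of_infinite]
    exact Nat.zero_le _
  haveI := hfin
  obtain ⟨N₀, hN₀, hle⟩ := exists_level_le_shaKer (p := p) L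
  rw [h𝒩] at hN₀
  obtain ⟨E₀, hE₀, -, hFE, rfl⟩ := hN₀
  haveI : FiniteDimensional ℚ E₀ := hE₀.1
  set N : Subgroup (UF F) := shaKer (p := p) L with hN
  set M : IntermediateField ↥F Qbar := fieldOf F N with hM
  haveI hMfin : FiniteDimensional ↥F ↥M := finiteDimensional_fieldOf F N E₀ hFE hle
  haveI hMgal : IsGalois ↥F ↥M := isGalois_fieldOf F N E₀ hFE hle
  haveI : Normal ↥F ↥M := hMgal.to_normal
  have hker : ∀ σ : UF F, σ ∈ (resFix F M).ker ↔ σ ∈ N :=
    mem_ker_resFix_fieldOf F N E₀ hFE hle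
  have hMunr : (M.restrictScalars ℚ).IsUnramifiedOutside S :=
    hE₀.of_le (fieldOf_restrictScalars_le F N E₀ hFE hle)
  have hcount := card_sha1Z_le_card_gal L M hker
  haveI : Normal ↥F Qbar := (isGalois_Qbar_over F).to_normal
  have hsurj : Function.Surjective (resFix F M) := resFix_surjective F M
  have hone : ∀ σ : UF F, σ ∈ N → resFix F M σ = 1 := fun σ hσ =>
    MonoidHom.mem_ker.mp ((hker σ).mpr hσ)
  have hmemN : ∀ (q : Nat.Primes), q ∈ S → ∀ A : ValuationSubring Qbar,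
      A.LiesOverPrime (q : ℕ) → ∀ σ : UF F, ((σ : UF F) : GQ) ∈ A.decompositionSubgroup ℚ →
      σ ∈ N := fun q hq A hA σ hσ x hx =>
    hE x (sha1Z_add L hx) ((mem_sha1Z_iff L x).mp hx).2 q hq A hA σ hσ
  -- number field
  haveI : NumberField ↥M :=
    { to_charZero := inferInstance
      to_finiteDimensional := Module.Finite.trans ↥F ↥M }
  -- abelian of exponent `p`
  have hcomm : ∀ a b : ↥M ≃ₐ[↥F] ↥M, a * b = b * a := by
    intro a b
    obtain ⟨g, rfl⟩ := hsurj a
    obtain ⟨h, rfl⟩ := hsurj b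
    have h1 := hone _ (commutator_mem_shaKer (p := p) L g h)
    rw [map_mul, map_mul, map_mul, map_inv, map_inv] at h1
    calc resFix F M g * resFix F M h
        = (resFix F M g * resFix F M h * (resFix F M g)⁻¹ * (resFix F M h)⁻¹) *
            (resFix F M h * resFix F M g) := by group
      _ = resFix F M h * resFix F M g := by rw [h1, one_mul]
  haveI : IsAbelianGalois ↥F ↥M := { toIsGalois := hMgal, is_comm := ⟨hcomm⟩ }
  have hexp : ∀ σ : Gal(↥M/↥F), σ ^ p = 1 := by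
    intro a
    obtain ⟨g, rfl⟩ := hsurj a
    rw [← map_pow]
    exact hone _ (pow_mem_shaKer (p := p) L g)
  -- unramified everywhere
  have hunr : IsUnramifiedEverywhere ↥F ↥M := by
    intro P hP hP0 σ hσ
    haveI := hP
    haveI : P.IsMaximal := Ring.DimensionLEOne.maximalOfPrime hP0 hP
    obtain ⟨A, hA⟩ := exists_primeOf_eq ↥M P
    obtain ⟨ℓ, hℓ, hℓP⟩ := exists_prime_natCast_mem P hP0
    have hAℓ : A.LiesOverPrime ℓ := liesOverPrime_of_natCast_mem ↥M A (by rw [hA]; exact hℓP)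
    obtain ⟨σ', hσ'I, hσ'⟩ := hIn M A hℓ hAℓ σ (fun x => by rw [hA]; exact hσ x)
    rw [← hσ']
    by_cases hS : (⟨ℓ, hℓ⟩ : Nat.Primes) ∈ S
    · apply hone
      exact hmemN ⟨ℓ, hℓ⟩ hS A hAℓ σ' ((mem_inertiaSubgroupIn_iff_valuation A _).mp hσ'I).1
    · have h1 := hMunr.2 ⟨ℓ, hℓ⟩ hS A hAℓ hσ'I
      rw [← MonoidHom.mem_ker, mem_ker_resFix_iff]
      intro x hx
      exact (IntermediateField.mem_fixingSubgroup_iff _ _).mp h1 x hx
  -- split above `S`
  have hsplit : IsSplitOverS ↥F ↥M S := by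
    rintro 𝔭 ⟨h𝔭prime, h𝔭0, q, hqS, hq𝔭⟩
    haveI := h𝔭prime
    obtain ⟨P', hP', hP'0, hP'𝔭, hfrob⟩ := helper12.exists_isArithFrobAt_frobAt ↥F ↥M 𝔭 h𝔭0
    haveI := hP'
    haveI : P'.IsMaximal := Ring.DimensionLEOne.maximalOfPrime hP'0 hP'
    obtain ⟨A, hA⟩ := exists_primeOf_eq ↥M P'
    have hqP' : (((q : ℕ) : 𝓞 ↥M)) ∈ P' := by
      have h1 : algebraMap (𝓞 ↥F) (𝓞 ↥M) (((q : ℕ) : 𝓞 ↥F)) ∈ P' := by
        rw [← Ideal.mem_comap, ← Ideal.under_def, hP'𝔭]
        exact hq𝔭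
      simpa using h1
    have hAq : A.LiesOverPrime (q : ℕ) :=
      liesOverPrime_of_natCast_mem ↥M A (by rw [hA]; exact hqP')
    have hstab : ∀ x : 𝓞 ↥M, x ∈ primeOf ↥M A → frobAt ↥F ↥M 𝔭 • x ∈ primeOf ↥M A := by
      rw [hA]
      intro x hx
      have h1 := hfrob x
      have hpos : 0 < Nat.card (𝓞 ↥F ⧸ P'.under (𝓞 ↥F)) := by
        rw [hP'𝔭]
        haveI : Finite (𝓞 ↥F ⧸ 𝔭) := Ideal.finiteQuotientOfFreeOfNeBot 𝔭 h𝔭0
        exact Nat.card_pos
      have h2 : x ^ Nat.card (𝓞 ↥F ⧸ P'.under (𝓞 ↥F)) ∈ P' :=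
        Ideal.pow_mem_of_mem P' hx _ hpos
      have h3 := P'.add_mem h1 h2
      simpa using h3
    obtain ⟨σ', hσ'D, hσ'⟩ := hDec M A q.2 hAq (frobAt ↥F ↥M 𝔭) hstab
    rw [← hσ']
    exact hone _ (hmemN q hqS A hAq σ' hσ'D)
  exact hcount.trans (hUp M hunr hexp hsplit)


/-- **R4-BR (n = 1)**: `#Sha¹(G_{F,S}, ℤ/p) ≤ #(Cl_S(F)/p)`, conditional only on reciprocity for
`p`-torsion classes (`helper59.HypRecP`), `RecTame` and `RecExist`. -/
theorem card_sha1Z_le_of_recP [NumberField ↥F] (I : LocInv)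
    (hRec : helper59.HypRecP I p) (hTame : RecTame I) (hExist : RecExist)
    (hF : F.IsUnramifiedOutside S) (h𝒩 : 𝒩.mem = sLevels S F) (hL : IsArith S F L) :
    Nat.card ↥(sha1Z (k := ZMod p) L) ≤ Nat.card (ClSModP (↥F) p S) :=
  card_sha1Z_le_of_upper
    (fun M _ _ hunr hexp hsplit =>
      card_gal_le_card_clSModP_of_recP I p hRec hTame hExist S ↥F ↥M hunr hexp hsplit)
    hF h𝒩
    (fun x hx hloc q hq A hA σ hσ =>
      helper98.apply_eq_zero_of_mem_decompositionSubgroup_of_transitive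
        (fun hℓ A B hA hB => helper48.exists_smul_eq_of_liesOverPrime hℓ A B hA hB)
        hL x hx hloc q hq A hA σ hσ)
    (fun M _ A _ hℓ hA τ hτ => helper85.exists_dec_lift F M A hℓ hA τ hτ)
    (fun M _ A _ hℓ hA τ hτ => helper85.exists_inertia_lift F M A hℓ hA τ hτ)

end Final

end Fermat.Agent.S55.helper75
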