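import Fermat.Agent.S55.helper78_G9Defs

/-!
# S55 / GLOB-G9-A1 (helper78): cyclic groups, `H¹` from `Ĥ^{-1}`

* `h1Trivial_of_cyclic` : if `Ĥ^{-1}(G, M) = 1` for a finite cyclic group `G = ⟨σ⟩`, then every
  1-cocycle is a coboundary;
* `h1Trivial_of_subsingleton` : the trivial group;
* `exists_pow_card_eq_of_norm` : an element of norm `1` has `|G|`-th power in `(σ - 1) M`;
* `hMinus_eq_one_of` : `Ĥ^{-1} = 1` in index form.
-/

set_option autoImplicit false

open groupCohomology

namespace Fermat.Agent.S55.helper78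

open Fermat.Agent.S55.helper73

section Cyclic

variable {G M : Type*} [Group G] [CommGroup M] [MulDistribMulAction G M]

/-- partial norms `∏_{j < k} σ^j • x` -/
def parNorm (σ : G) (x : M) (k : ℕ) : M := ∏ j ∈ Finset.range k, (σ ^ j) • x

@[simp] lemma parNorm_zero (σ : G) (x : M) : parNorm σ x 0 = 1 := by simp [parNorm]

lemma parNorm_succ (σ : G) (x : M) (k : ℕ) :
    parNorm σ x (k + 1) = parNorm σ x k * (σ ^ k) • x := by
  simp [parNorm, Finset.prod_range_succ]

lemma parNorm_mul (σ : G) (x y : M) (k : ℕ) :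
    parNorm σ (x * y) k = parNorm σ x k * parNorm σ y k := by
  simp [parNorm, smul_mul', Finset.prod_mul_distrib]

lemma parNorm_inv (σ : G) (x : M) (k : ℕ) : parNorm σ x⁻¹ k = (parNorm σ x k)⁻¹ := by
  simp [parNorm, smul_inv']

/-- telescoping: `∏_{j<k} σ^j (σ y / y) = σ^k y / y` -/
lemma parNorm_delta (σ : G) (y : M) (k : ℕ) :
    parNorm σ (σ • y / y) k = (σ ^ k) • y / y := by
  induction k with
  | zero => simp
  | succ k ih =>
    rw [parNorm_succ, ih, smul_div', smul_smul, ← pow_succ, div_mul_div_cancel']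

/-- `σ (∏_{j<k} σ^j x) / ∏_{j<k} σ^j x = σ^k x / x` -/
lemma smul_parNorm_div (σ : G) (x : M) (k : ℕ) :
    σ • parNorm σ x k / parNorm σ x k = (σ ^ k) • x / x := by
  induction k with
  | zero => simp
  | succ k ih =>
    rw [parNorm_succ, smul_mul', smul_smul, ← pow_succ', mul_div_mul_comm, ih,
      div_mul_div_cancel']

lemma cocycle_pow {f : G → M} (hf : IsMulCocycle₁ f) (σ : G) (k : ℕ) :
    f (σ ^ k) = parNorm σ (f σ) k := by
  induction k with
  | zero =>
    rw [pow_zero, parNorm_zero]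
    exact map_one_of_isMulCocycle₁ hf
  | succ k ih =>
    rw [pow_succ, hf, ih, parNorm_succ, mul_comm]

variable [Fintype G]

lemma normG_eq_parNorm (σ : G) (hσ : ∀ τ : G, τ ∈ Subgroup.zpowers σ) (x : M) :
    normG G M x = parNorm σ x (Fintype.card G) := by
  classical
  have hcard : orderOf σ = Fintype.card G :=
    (orderOf_eq_card_of_forall_mem_zpowers hσ).trans Nat.card_eq_fintype_card
  rw [normG_apply, parNorm, ← hcard, ← IsCyclic.image_range_orderOf hσ,
    Finset.prod_image]
  intro i hi j hj hij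
  exact pow_injOn_Iio_orderOf (by simpa using hi) (by simpa using hj) hij

/-- if `Ĥ^{-1}(G, M) = 1` for `G = ⟨σ⟩` finite cyclic, then `H¹(G, M) = 1` -/
theorem h1Trivial_of_cyclic (σ : G) (hσ : ∀ τ : G, τ ∈ Subgroup.zpowers σ)
    (h : ∀ x : M, normG G M x = 1 → ∃ y : M, σ • y / y = x) : H1Trivial G M := by
  intro f hf
  have hN : normG G M (f σ) = 1 := by
    have hcard : orderOf σ = Fintype.card G :=
      (orderOf_eq_card_of_forall_mem_zpowers hσ).trans Nat.card_eq_fintype_card
    rw [normG_eq_parNorm σ hσ, ← cocycle_pow hf, ← hcard, pow_orderOf_eq_one]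
    exact map_one_of_isMulCocycle₁ hf
  obtain ⟨y, hy⟩ := h (f σ) hN
  refine ⟨y, fun g => ?_⟩
  obtain ⟨k, rfl⟩ : ∃ k : ℕ, σ ^ k = g := by
    have h2 := hσ g
    rw [← (isOfFinOrder_of_finite σ).mem_powers_iff_mem_zpowers] at h2
    exact Submonoid.mem_powers_iff _ _ |>.mp h2
  rw [cocycle_pow hf, ← hy, parNorm_delta]

/-- for cyclic `G` of order `n`: an element of norm `1` has `n`-th power in `(σ - 1) M` -/
theorem exists_pow_card_eq_of_norm (σ : G) (hσ : ∀ τ : G, τ ∈ Subgroup.zpowers σ)
    (x : M) (hx : normG G M x = 1) : ∃ y : M, σ • y / y = x ^ Fintype.card G := by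
  classical
  refine ⟨(∏ k ∈ Finset.range (Fintype.card G), parNorm σ x k)⁻¹, ?_⟩
  rw [smul_inv', inv_div_inv]
  have key : ∀ n : ℕ, (∏ k ∈ Finset.range n, parNorm σ x k) /
      σ • (∏ k ∈ Finset.range n, parNorm σ x k) = x ^ n / parNorm σ x n := by
    intro n
    induction n with
    | zero => simp
    | succ n ih =>
      rw [Finset.prod_range_succ, smul_mul', mul_div_mul_comm, ih, parNorm_succ, pow_succ,
        ← inv_div (σ • parNorm σ x n), smul_parNorm_div, inv_div, mul_div_mul_comm]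
  rw [key, ← normG_eq_parNorm σ hσ, hx, div_one]

end Cyclic

section Trivial

variable {G M : Type*} [Group G] [CommGroup M] [MulDistribMulAction G M]

/-- the trivial group -/
theorem h1Trivial_of_subsingleton [Subsingleton G] : H1Trivial G M := by
  intro f hf
  refine ⟨1, fun g => ?_⟩
  rw [Subsingleton.elim g 1, map_one_of_isMulCocycle₁ hf]
  simp

end Trivial

section Index

variable {G M : Type*} [Group G] [Fintype G] [CommGroup M] [MulDistribMulAction G M]

/-- `Ĥ^{-1} = 1` in index form -/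
theorem hMinus_eq_one_of (σ : G) (h : ∀ x : M, normG G M x = 1 → ∃ y : M, σ • y / y = x) :
    hMinus M σ = 1 := by
  rw [hMinus_def, Subgroup.index_eq_one, Subgroup.subgroupOf_eq_top]
  intro x hx
  obtain ⟨y, hy⟩ := h x hx
  exact ⟨y, hy⟩

end Index

end Fermat.Agent.S55.helper78
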