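import Mathlib

/-!
# S55 / GLOB-G9-E (helper78): induction principle for Galois `p`-extensions of number fields

`galois_pgroup_induction` : a property `P K L` of finite Galois extensions of number fields holds
for all extensions of degree `p ^ n` as soon as
* it holds for extensions of degree `1`, and
* for every tower `K ⊆ M ⊆ L` with `L/K` and `M/K` Galois and `[L : M] = p`, `P K M` implies
  `P K L`.

The proof uses a central subgroup of order `p` of `Gal(L/K)`; the intermediate field `M` lives in
the universe of `L`, so the universes of `(K, L)` are preserved.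
-/

set_option autoImplicit false

open scoped NumberField

namespace Fermat.Agent.S55.helper78

/-- a nontrivial finite `p`-group has a central element of order `p` -/
theorem exists_central_orderOf_eq (p : ℕ) [hp : Fact p.Prime] (G : Type*) [Group G] [Finite G]
    (n : ℕ) (hG : Nat.card G = p ^ (n + 1)) :
    ∃ z : G, z ∈ Subgroup.center G ∧ orderOf z = p := by
  have hpG : IsPGroup p G := IsPGroup.of_card hG
  have hnt : Nontrivial G := by
    rw [← Finite.one_lt_card_iff_nontrivial, hG]
    exact Nat.one_lt_pow (Nat.succ_ne_zero n) hp.out.one_lt
  have hc : Nontrivial (Subgroup.center G) := hpG.center_nontrivial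
  have hpc : IsPGroup p (Subgroup.center G) := hpG.to_subgroup _
  obtain ⟨k, hk⟩ := IsPGroup.iff_card.mp hpc
  have hk0 : k ≠ 0 := by
    rintro rfl
    rw [pow_zero] at hk
    have := Finite.one_lt_card_iff_nontrivial.mpr hc
    omega
  have hdvd : p ∣ Nat.card (Subgroup.center G) := by
    rw [hk]
    exact dvd_pow_self p hk0
  obtain ⟨z, hz⟩ := exists_prime_orderOf_dvd_card' p hdvd
  refine ⟨(z : G), z.2, ?_⟩
  rw [← hz]
  exact (Subgroup.orderOf_coe z)

/-- **Induction principle for Galois `p`-extensions of number fields.** -/
theorem galois_pgroup_induction.{u, v} (p : ℕ) (hp : p.Prime)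
    (P : ∀ (K : Type u) (L : Type v) [Field K] [NumberField K] [Field L] [NumberField L]
      [Algebra K L] [IsGalois K L], Prop)
    (h1 : ∀ (K : Type u) (L : Type v) [Field K] [NumberField K] [Field L] [NumberField L]
      [Algebra K L] [IsGalois K L], Module.finrank K L = 1 → P K L)
    (hstep : ∀ (K : Type u) (M L : Type v) [Field K] [NumberField K] [Field M] [NumberField M]
      [Field L] [NumberField L] [Algebra K M] [Algebra M L] [Algebra K L] [IsScalarTower K M L]
      [IsGalois K L] [IsGalois K M] [IsGalois M L], Module.finrank M L = p → P K M → P K L)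
    (n : ℕ) (K : Type u) (L : Type v) [Field K] [NumberField K] [Field L] [NumberField L]
    [Algebra K L] [IsGalois K L] (hdeg : Module.finrank K L = p ^ n) : P K L := by
  have : Fact p.Prime := ⟨hp⟩
  induction n generalizing K L with
  | zero => exact h1 K L (by simpa using hdeg)
  | succ n ih =>
    have hcard : Nat.card Gal(L/K) = p ^ (n + 1) := by
      rw [IsGalois.card_aut_eq_finrank, hdeg]
    obtain ⟨z, hzc, hz⟩ := exists_central_orderOf_eq p Gal(L/K) n hcard
    let Z : Subgroup Gal(L/K) := Subgroup.zpowers z
    have hZle : Z ≤ Subgroup.center Gal(L/K) := by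
      rw [Subgroup.zpowers_le]
      exact hzc
    have hZn : Z.Normal := by
      constructor
      intro a ha g
      have : g * a * g⁻¹ = a := by
        have hcomm := (Subgroup.mem_center_iff.mp (hZle ha)) g
        rw [hcomm, mul_inv_cancel_right]
      rw [this]
      exact ha
    have hZcard : Nat.card Z = p := by
      rw [Nat.card_zpowers, hz]
    let M : IntermediateField K L := IntermediateField.fixedField Z
    have hML : Module.finrank M L = p := by
      rw [IntermediateField.finrank_fixedField_eq_card, hZcard]
    have hKM : Module.finrank K M = p ^ n := by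
      have h := Module.finrank_mul_finrank K M L
      rw [hdeg, hML, pow_succ] at h
      exact Nat.eq_of_mul_eq_mul_right hp.pos h
    exact hstep K M L hML (ih K M hKM)

end Fermat.Agent.S55.helper78
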