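import Fermat.Agent.S55.helper78_G9Cyclic
import Fermat.Agent.S55.helper78_G9Induction

/-!
# S55 / GLOB-G9-E (helper78): `H¹(G, C_L) = 1` for Galois `p`-extensions

* `h1Trivial_of_inflDatum` : abstract inflation–restriction step for `H¹` (cocycle form);
* `restrictScalarsHom_injective'`, `range_restrictScalarsHom'` : `Gal(L/M)` is the kernel of
  `Gal(L/K) → Gal(M/K)`;
* `DescentPkg` : the descent package G9-B as a Prop;
* `ideleClass_H1_trivial_of` : `H¹(Gal(L/K), C_L) = 1` for `[L : K] = p ^ n`, from `CyclicH90' p`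
  and the descent package.
-/

set_option autoImplicit false

open scoped NumberField
open groupCohomology

namespace Fermat.Agent.S55.helper78

open Fermat.Agent.S55.helper73 Fermat.Agent.S55.helper6

section Abstract

variable {G Q S' M B : Type*} [Group G] [Group Q] [Group S'] [CommGroup M] [CommGroup B]
  [MulDistribMulAction G M] [MulDistribMulAction Q B] [MulDistribMulAction S' M]
  {π : G →* Q} {ι : B →* M}

/-- inflation–restriction for `H¹` in cocycle form: if `H¹(S, M) = 1` and `H¹(G/S, M^S) = 1`
then `H¹(G, M) = 1`. -/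
theorem h1Trivial_of_inflDatum (D : InflDatum π ι) (j : S' →* G)
    (hj : ∀ (s : S') (m : M), j s • m = s • m) (hrange : j.range = π.ker)
    (hS : H1Trivial S' M) (hQ : H1Trivial Q B) : H1Trivial G M := by
  intro f hf
  have hres : ∃ a : M, ∀ s ∈ π.ker, s • a / a = f s := by
    have h1 : IsMulCoboundary₁ (fun s : S' => f (j s)) := by
      apply hS
      intro s t
      show f (j (s * t)) = s • f (j t) * f (j s)
      rw [map_mul, hf, hj]
    obtain ⟨a, ha⟩ := res_isMulCoboundary₁_of_hom j hj f h1
    exact ⟨a, fun s hs => ha s (hrange ▸ hs)⟩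
  obtain ⟨c, a, hc, hfc⟩ := D.exists_infl_of_res_isMulCoboundary₁ f hf hres
  obtain ⟨b, hb⟩ := hQ c hc
  refine ⟨ι b * a, fun g => ?_⟩
  rw [hfc g, ← hb (π g), map_div, D.equivariant, smul_mul', mul_div_mul_comm]

end Abstract

section Fields

variable (K M L : Type*) [Field K] [Field M] [Field L] [Algebra K M] [Algebra M L] [Algebra K L]
  [IsScalarTower K M L]

theorem restrictScalarsHom_injective' :
    Function.Injective (AlgEquiv.restrictScalarsHom K : Gal(L/M) →* Gal(L/K)) := by
  intro s t h
  apply AlgEquiv.ext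
  intro x
  exact congrArg (fun e : Gal(L/K) => e x) h

theorem range_restrictScalarsHom' [Normal K M] :
    (AlgEquiv.restrictScalarsHom K : Gal(L/M) →* Gal(L/K)).range =
      (AlgEquiv.restrictNormalHom M : Gal(L/K) →* Gal(M/K)).ker := by
  ext σ
  rw [MonoidHom.mem_range, MonoidHom.mem_ker]
  constructor
  · rintro ⟨s, rfl⟩
    apply AlgEquiv.ext
    intro m
    apply (algebraMap M L).injective
    have h1 := AlgEquiv.restrictNormal_commutes (AlgEquiv.restrictScalarsHom K s : Gal(L/K)) M m
    change algebraMap M L ((AlgEquiv.restrictScalarsHom K s : Gal(L/K)).restrictNormal M m) = _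
    rw [h1]
    exact s.commutes m
  · intro h
    refine ⟨{ σ.toRingEquiv with
      commutes' := fun m => ?_ }, ?_⟩
    · have h1 := AlgEquiv.restrictNormal_commutes σ M m
      have h2 : σ.restrictNormal M m = m := by
        have := congrArg (fun e : Gal(M/K) => e m) h
        exact this
      rw [h2] at h1
      exact h1.symm
    · apply AlgEquiv.ext
      intro x
      rfl

end Fields

section Descent

/-- The descent package G9-B as a Prop (towers `K ⊆ M ⊆ L` of number fields, `L/K` and `M/K`
Galois): inflation datum for idele classes, and compatibility of the two actions of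
`Gal(L/M)` on `C_L`. -/
def DescentPkg.{u, v} : Prop :=
  ∀ (K : Type u) (M L : Type v) [Field K] [NumberField K] [Field M] [NumberField M] [Field L]
    [NumberField L] [Algebra K M] [Algebra M L] [Algebra K L] [IsScalarTower K M L]
    [IsGalois K L] [IsGalois K M],
    InflDatum (M := IdeleClass L) (B := IdeleClass M)
      (AlgEquiv.restrictNormalHom M : Gal(L/K) →* Gal(M/K)) (bcClass M L) ∧
    ∀ (s : Gal(L/M)) (c : IdeleClass L),
      (AlgEquiv.restrictScalarsHom K s : Gal(L/K)) • c = s • c

/-- cyclic extensions of prime degree: `H¹(G, C_L) = 1` from `CyclicH90'`. -/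
theorem h1Trivial_of_prime_degree.{u, v} (p : ℕ) (hp : p.Prime) (hC : CyclicH90'.{u, v} p)
    (K : Type u) (L : Type v) [Field K] [NumberField K] [Field L] [NumberField L] [Algebra K L]
    [IsGalois K L] (hdeg : Module.finrank K L = p) :
    H1Trivial Gal(L/K) (IdeleClass L) := by
  have : Fact p.Prime := ⟨hp⟩
  have hcard : Nat.card Gal(L/K) = p := by rw [IsGalois.card_aut_eq_finrank, hdeg]
  have hnt : Nontrivial Gal(L/K) := by
    rw [← Finite.one_lt_card_iff_nontrivial, hcard]
    exact hp.one_lt
  obtain ⟨σ, hσ⟩ := exists_ne (1 : Gal(L/K))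
  have hgen : ∀ τ : Gal(L/K), τ ∈ Subgroup.zpowers σ := by
    intro τ
    rw [zpowers_eq_top_of_prime_card hcard hσ]
    exact Subgroup.mem_top τ
  exact h1Trivial_of_cyclic σ hgen (hC K L hdeg σ hσ)

/-- **`H¹(Gal(L/K), C_L) = 1` for Galois extensions of prime power degree**, from the cyclic
case and the descent package. -/
theorem ideleClass_H1_trivial_of.{u, v} (p : ℕ) (hp : p.Prime)
    (hC : CyclicH90'.{v, v} p) (hB : DescentPkg.{u, v})
    (n : ℕ) (K : Type u) (L : Type v) [Field K] [NumberField K] [Field L] [NumberField L]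
    [Algebra K L] [IsGalois K L] (hdeg : Module.finrank K L = p ^ n) :
    H1Trivial Gal(L/K) (IdeleClass L) := by
  refine galois_pgroup_induction p hp
    (fun K L _ _ _ _ _ _ => H1Trivial Gal(L/K) (IdeleClass L)) ?_ ?_ n K L hdeg
  · intro K L _ _ _ _ _ _ h1
    have hcard : Nat.card Gal(L/K) = 1 := by rw [IsGalois.card_aut_eq_finrank, h1]
    have : Subsingleton Gal(L/K) := (Nat.card_eq_one_iff_unique.mp hcard).1
    exact h1Trivial_of_subsingleton
  · intro K M L _ _ _ _ _ _ _ _ _ _ _ _ _ hML hKM
    obtain ⟨hD, hcompat⟩ := hB K M L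
    exact h1Trivial_of_inflDatum hD (AlgEquiv.restrictScalarsHom K) hcompat
      (range_restrictScalarsHom' K M L) (h1Trivial_of_prime_degree p hp hC M L hML) hKM

end Descent

end Fermat.Agent.S55.helper78
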