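import Fermat.Agent.S55.helper78_G9Defs
import Fermat.Agent.S55.helper96_CyclicNorm

/-!
# S55 / GLOB-G9, package A3 (helper83): for a finite cyclic group, `|H²| = |Ĥ⁰|`

For a finite cyclic group `G = ⟨σ⟩` acting on a commutative group `M`, the map
`b ↦ [cycG σ b]` from `M^G` to `Z²(G, M) / B²(G, M)` is a surjective homomorphism with kernel the
norms; hence `h2card G M = hZero G M` (both are `0` in the infinite case).
-/

set_option autoImplicit false

open groupCohomology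

namespace Fermat.Agent.S55.helper83.G9A3

open Fermat.Agent.S55.helper73 Fermat.Agent.S55.helper78 Fermat.Agent.S55.helper96

section

variable {G M : Type*} [Group G] [Fintype G] [CommGroup M] [MulDistribMulAction G M]

/-- the norm over `G` is the cyclic norm product -/
theorem normG_eq_normProd (σ : G) (hσ : ∀ τ : G, τ ∈ Subgroup.zpowers σ) (y : M) :
    normG G M y = normProd σ y (orderOf σ) := by
  rw [normG_apply, prod_univ_eq_prod_range hσ (fun τ => τ • y)]
  rfl

/-- the cyclic cocycle map `M^G → Z²(G, M)` -/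
noncomputable def cycHom (σ : G) (hσ : ∀ τ : G, τ ∈ Subgroup.zpowers σ) :
    fixedSub G M →* Z2 G M where
  toFun b := ⟨cycG σ (b : M), isMulCocycle₂_cycG (orderOf_pos σ) hσ (b.2 σ)⟩
  map_one' := by
    apply Subtype.ext
    funext p
    simp [cycG]
  map_mul' a b := by
    apply Subtype.ext
    exact cycG_mul (φ := σ) (a : M) (b : M)

@[simp]
theorem cycHom_coe (σ : G) (hσ : ∀ τ : G, τ ∈ Subgroup.zpowers σ) (b : fixedSub G M) :
    ((cycHom σ hσ b : Z2 G M) : G × G → M) = cycG σ (b : M) := rfl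

/-- the cyclic class map `M^G → Z²(G, M) / B²(G, M)` -/
noncomputable def cycClassHom (σ : G) (hσ : ∀ τ : G, τ ∈ Subgroup.zpowers σ) :
    fixedSub G M →* Z2 G M ⧸ (B2 G M).subgroupOf (Z2 G M) :=
  (QuotientGroup.mk' ((B2 G M).subgroupOf (Z2 G M))).comp (cycHom σ hσ)

theorem cycClassHom_surjective (σ : G) (hσ : ∀ τ : G, τ ∈ Subgroup.zpowers σ) :
    Function.Surjective (cycClassHom (M := M) σ hσ) := by
  intro x
  obtain ⟨c, rfl⟩ := QuotientGroup.mk_surjective x
  obtain ⟨b, hb, y, hy⟩ := exists_cycG_of_isMulCocycle₂ (orderOf_pos σ) hσ (mem_Z2.1 c.2)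
  have hbfix : b ∈ fixedSub G M := fun τ => smul_eq_of_gen hσ hb τ
  refine ⟨⟨b, hbfix⟩, ?_⟩
  change (QuotientGroup.mk (cycHom σ hσ ⟨b, hbfix⟩) : Z2 G M ⧸ (B2 G M).subgroupOf (Z2 G M))
    = QuotientGroup.mk c
  rw [QuotientGroup.eq, Subgroup.mem_subgroupOf]
  refine mem_B2.2 ⟨y, fun g h => ?_⟩
  rw [hy g h]
  simp [div_eq_inv_mul]

theorem cycClassHom_ker (σ : G) (hσ : ∀ τ : G, τ ∈ Subgroup.zpowers σ) :
    (cycClassHom (M := M) σ hσ).ker = (normG G M).range.subgroupOf (fixedSub G M) := by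
  ext b
  rw [MonoidHom.mem_ker, Subgroup.mem_subgroupOf]
  change (QuotientGroup.mk (cycHom σ hσ b) : Z2 G M ⧸ (B2 G M).subgroupOf (Z2 G M)) = 1 ↔ _
  rw [QuotientGroup.eq_one_iff, Subgroup.mem_subgroupOf, cycHom_coe, mem_B2,
    isMulCoboundary₂_cycG_iff (orderOf_pos σ) hσ, MonoidHom.mem_range]
  constructor
  · rintro ⟨y, hy⟩
    exact ⟨y, by rw [normG_eq_normProd σ hσ, hy]⟩
  · rintro ⟨y, hy⟩
    exact ⟨y, by rw [← normG_eq_normProd σ hσ, hy]⟩

end

/-- **A3** : for a finite cyclic group, `|H²(G, M)| = |Ĥ⁰(G, M)|` (as indices). -/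
theorem h2card_eq_hZero_of_cyclic {G M : Type*} [Group G] [Fintype G] [CommGroup M]
    [MulDistribMulAction G M] (σ : G) (hσ : ∀ τ : G, τ ∈ Subgroup.zpowers σ) :
    h2card G M = hZero G M := by
  have h1 : (cycClassHom (M := M) σ hσ).ker.index
      = Nat.card (cycClassHom (M := M) σ hσ).range := Subgroup.index_ker _
  have h2 : (cycClassHom (M := M) σ hσ).range = ⊤ :=
    MonoidHom.range_eq_top.2 (cycClassHom_surjective σ hσ)
  rw [hZero_def, ← cycClassHom_ker σ hσ, h1, h2]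
  rw [Nat.card_congr (Subgroup.topEquiv (G := Z2 G M ⧸ (B2 G M).subgroupOf (Z2 G M))).toEquiv]
  rfl

end Fermat.Agent.S55.helper83.G9A3
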