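import Fermat.Agent.S55.helper78_G9H1
import Fermat.Agent.S55.helper12_G9A2
import Fermat.Agent.S55.helper83_G9A3
import Fermat.Agent.S55.helper56_G9A4

/-!
# S55 / GLOB-G9-E (helper78): `|H²(G, C_L)|` divides `[L : K]` for Galois `p`-extensions

* `h2card_of_prime_degree` : cyclic of degree `p`: `|H²| = |Ĥ⁰| = p · |Ĥ^{-1}| = p`;
* `h2card_ideleClass_dvd_of` : induction via a central subgroup of order `p` (index form);
* `card_H2_ideleClass_dvd_of` : the same for Mathlib's `groupCohomology.H2`.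

Inputs as hypotheses: `CyclicH90' p`, `CyclicIneq1 p`, `DescentPkg`.
-/

set_option autoImplicit false

open scoped NumberField
open groupCohomology

namespace Fermat.Agent.S55.helper78

open Fermat.Agent.S55.helper73 Fermat.Agent.S55.helper6

/-- cyclic extensions of prime degree: `|H²(G, C_L)| = p`. -/
theorem h2card_of_prime_degree.{u, v} (p : ℕ) (hp : p.Prime) (hC : CyclicH90'.{u, v} p)
    (hI : CyclicIneq1.{u, v} p)
    (K : Type u) (L : Type v) [Field K] [NumberField K] [Field L] [NumberField L] [Algebra K L]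
    [IsGalois K L] (hdeg : Module.finrank K L = p) :
    h2card Gal(L/K) (IdeleClass L) = p := by
  have hcard : Nat.card Gal(L/K) = p := by rw [IsGalois.card_aut_eq_finrank, hdeg]
  have hnt : Nontrivial Gal(L/K) := by
    rw [← Finite.one_lt_card_iff_nontrivial, hcard]
    exact hp.one_lt
  obtain ⟨σ, hσ⟩ := exists_ne (1 : Gal(L/K))
  have : Fact p.Prime := ⟨hp⟩
  have hgen : ∀ τ : Gal(L/K), τ ∈ Subgroup.zpowers σ := by
    intro τ
    rw [zpowers_eq_top_of_prime_card hcard hσ]
    exact Subgroup.mem_top τ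
  rw [helper83.G9A3.h2card_eq_hZero_of_cyclic σ hgen, (hI K L hdeg σ hσ).2,
    hMinus_eq_one_of σ (hC K L hdeg σ hσ), mul_one]

/-- **`|H²(Gal(L/K), C_L)|` divides `[L : K]`** for Galois extensions of prime power degree, in
index form. -/
theorem h2card_ideleClass_dvd_of.{u, v} (p : ℕ) (hp : p.Prime)
    (hC : CyclicH90'.{v, v} p) (hI : CyclicIneq1.{v, v} p) (hB : DescentPkg.{u, v})
    (n : ℕ) (K : Type u) (L : Type v) [Field K] [NumberField K] [Field L] [NumberField L]
    [Algebra K L] [IsGalois K L] (hdeg : Module.finrank K L = p ^ n) :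
    h2card Gal(L/K) (IdeleClass L) ≠ 0 ∧
      h2card Gal(L/K) (IdeleClass L) ∣ Module.finrank K L := by
  refine galois_pgroup_induction p hp
    (fun K L _ _ _ _ _ _ => h2card Gal(L/K) (IdeleClass L) ≠ 0 ∧
      h2card Gal(L/K) (IdeleClass L) ∣ Module.finrank K L) ?_ ?_ n K L hdeg
  · intro K L _ _ _ _ _ _ h1
    have hcard : Nat.card Gal(L/K) = 1 := by rw [IsGalois.card_aut_eq_finrank, h1]
    have : Subsingleton Gal(L/K) := (Nat.card_eq_one_iff_unique.mp hcard).1
    rw [helper12.h2card_of_subsingleton, h1]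
    exact ⟨one_ne_zero, dvd_rfl⟩
  · intro K M L _ _ _ _ _ _ _ _ _ _ _ _ _ hML hKM
    obtain ⟨hD, hcompat⟩ := hB K M L
    have hS : h2card Gal(L/M) (IdeleClass L) = p := h2card_of_prime_degree p hp hC hI M L hML
    obtain ⟨h0, hdvd⟩ := helper12.h2card_dvd_mul hD (AlgEquiv.restrictScalarsHom K) hcompat
      (restrictScalarsHom_injective' K M L) (range_restrictScalarsHom' K M L)
      (h1Trivial_of_prime_degree p hp hC M L hML) hKM.1 (by rw [hS]; exact hp.ne_zero)
    refine ⟨h0, hdvd.trans ?_⟩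
    rw [hS, ← hML, ← Module.finrank_mul_finrank K M L]
    exact mul_dvd_mul_right hKM.2 _

/-- the same in terms of Mathlib's `groupCohomology.H2` -/
theorem card_H2_ideleClass_dvd_of (p : ℕ) (hp : p.Prime)
    (hC : CyclicH90'.{0, 0} p) (hI : CyclicIneq1.{0, 0} p) (hB : DescentPkg.{0, 0})
    (K L : Type) [Field K] [NumberField K] [Field L] [NumberField L]
    [Algebra K L] [IsGalois K L] (n : ℕ) (hdeg : Module.finrank K L = p ^ n) :
    Finite (H2 (Rep.ofMulDistribMulAction Gal(L/K) (IdeleClass L))) ∧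
    Nat.card (H2 (Rep.ofMulDistribMulAction Gal(L/K) (IdeleClass L))) ∣ p ^ n := by
  obtain ⟨h0, hdvd⟩ := h2card_ideleClass_dvd_of p hp hC hI hB n K L hdeg
  refine ⟨helper56.finite_H2_of_h2card_ne_zero _ _ h0, ?_⟩
  rw [helper56.natCard_H2_eq_h2card, ← hdeg]
  exact hdvd

end Fermat.Agent.S55.helper78
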