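import Fermat.Agent.S55.helper78_G9Defs

/-!
# S55 / GLOB-G9-D2 (helper78): the Hasse principle for `H²(G, Lˣ)` from `H¹(G, C_L) = 1`

`hasse_principle_of_h1Trivial` : let `L/K` be a finite Galois extension of number fields with
`H¹(Gal(L/K), C_L) = 1`. A 2-cocycle with values in `Lˣ` which is a coboundary in
`(ℚ_q ⊗ L)ˣ` for every `q` is a coboundary.

Inputs (as hypotheses): principal ideles are ideles, `Lˣ → J_L` is injective (GLOB G1), and the
local statement G9-D1 (`IntCochainAt`): an integral 2-cocycle which is a coboundary in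
`(ℚ_q ⊗ L)ˣ` is the coboundary of an integral cochain.
-/

set_option autoImplicit false

open scoped TensorProduct NumberField
open groupCohomology

namespace Fermat.Agent.S55.helper78

open Fermat.Agent.S55.helper73

section Aux

theorem hasse_add_aux {N : Type*} [AddCommGroup N] (a b c u v w : N) :
    -(c - b) + u - (-(c - a) + v) + (-(b - a) + w) = u - v + w := by abel

theorem hasse_mul_aux {N : Type*} [CommGroup N] (a b c u v w : N) :
    (c / b)⁻¹ * u / ((c / a)⁻¹ * v) * ((b / a)⁻¹ * w) = u / v * w :=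
  hasse_add_aux (N := Additive N) (Additive.ofMul a) (Additive.ofMul b) (Additive.ofMul c)
    (Additive.ofMul u) (Additive.ofMul v) (Additive.ofMul w)

end Aux

section Hasse

variable (K L : Type*) [Field K] [Field L] [CharZero L] [Algebra K L]

/-- The local statement G9-D1 for the extension `L/K` at the prime `q`. -/
def IntCochainAt (q : ℕ) [Fact q.Prime] : Prop :=
  ∀ (x : Gal(L/K) × Gal(L/K) → (SemiLoc q L)ˣ), (∀ g, x g ∈ intUnits q L) →
    ∀ (y : Gal(L/K) → (SemiLoc q L)ˣ),
      (∀ g h : Gal(L/K), g • y h / y (g * h) * y g = x (g, h)) →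
      ∃ y' : Gal(L/K) → (SemiLoc q L)ˣ, (∀ g, y' g ∈ intUnits q L) ∧
        ∀ g h : Gal(L/K), g • y' h / y' (g * h) * y' g = x (g, h)

variable [Finite Gal(L/K)]

theorem hasse_principle_of_h1Trivial
    (hmem : ∀ x : Lˣ, principalPi L x ∈ idele L)
    (hinj : Function.Injective (principalPi L))
    (hD1 : ∀ q : Nat.Primes, IntCochainAt K L (q : ℕ))
    (hH1 : H1Trivial Gal(L/K) (IdeleClass L))
    (x : Gal(L/K) × Gal(L/K) → Lˣ)
    (hloc : ∀ q : Nat.Primes,
      IsMulCoboundary₂ (fun g : Gal(L/K) × Gal(L/K) => principalPi L (x g) q)) :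
    IsMulCoboundary₂ x := by
  classical
  -- Step 1: local cochains, integral wherever the cocycle is integral
  have key : ∀ q : Nat.Primes, ∃ y : Gal(L/K) → (SemiLoc (q : ℕ) L)ˣ,
      (∀ g h : Gal(L/K), g • y h / y (g * h) * y g = principalPi L (x (g, h)) q) ∧
      ((∀ g : Gal(L/K) × Gal(L/K), principalPi L (x g) q ∈ intUnits (q : ℕ) L) →
        ∀ g, y g ∈ intUnits (q : ℕ) L) := by
    intro q
    obtain ⟨y, hy⟩ := hloc q
    by_cases hq : ∀ g : Gal(L/K) × Gal(L/K), principalPi L (x g) q ∈ intUnits (q : ℕ) L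
    · obtain ⟨y', hy'1, hy'2⟩ := hD1 q (fun g => principalPi L (x g) q) hq y hy
      exact ⟨y', hy'2, fun _ => hy'1⟩
    · exact ⟨y, hy, fun h => absurd h hq⟩
  choose Y hY1 hY2 using key
  -- the cochain is idele valued
  have hev : ∀ᶠ q : Nat.Primes in Filter.cofinite,
      ∀ g : Gal(L/K) × Gal(L/K), principalPi L (x g) q ∈ intUnits (q : ℕ) L := by
    rw [Filter.eventually_all]
    intro g
    exact (mem_idele L).1 (hmem (x g))
  have hYmem : ∀ g : Gal(L/K), (fun q => Y q g) ∈ idele L := by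
    intro g
    rw [mem_idele]
    exact hev.mono fun q hq => hY2 q hq g
  let Z : Gal(L/K) → Idele L := fun g => ⟨fun q => Y q g, hYmem g⟩
  -- Step 2: its class is a 1-cocycle
  have hZ : ∀ g h : Gal(L/K),
      ((g • Z h / Z (g * h) * Z g : Idele L) : IdelePi L) = principalPi L (x (g, h)) := by
    intro g h
    funext q
    exact hY1 q g h
  have hZmem : ∀ g h : Gal(L/K), g • Z h / Z (g * h) * Z g ∈ principalSub L := fun g h =>
    ⟨x (g, h), (hZ g h).symm⟩
  have hcoc : IsMulCocycle₁ (fun g => (QuotientGroup.mk (Z g) : IdeleClass L)) := by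
    intro g h
    show (QuotientGroup.mk (Z (g * h)) : IdeleClass L) =
      g • (QuotientGroup.mk (Z h) : IdeleClass L) * QuotientGroup.mk (Z g)
    rw [smul_mk, ← QuotientGroup.mk_mul, eq_comm, QuotientGroup.eq]
    have : (g • Z h * Z g)⁻¹ * Z (g * h) = (g • Z h / Z (g * h) * Z g)⁻¹ := by
      rw [div_mul_eq_mul_div, inv_div, div_eq_inv_mul]
    rw [this]
    exact inv_mem (hZmem g h)
  -- Step 3: the class is a coboundary
  obtain ⟨c, hc⟩ := hH1 _ hcoc
  obtain ⟨C, rfl⟩ := QuotientGroup.mk_surjective c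
  have hW : ∀ g : Gal(L/K), ∃ z : Lˣ,
      principalPi L z = (((g • C / C)⁻¹ * Z g : Idele L) : IdelePi L) := by
    intro g
    have h1 : (QuotientGroup.mk (g • C / C) : IdeleClass L) = QuotientGroup.mk (Z g) := by
      rw [QuotientGroup.mk_div, ← smul_mk]
      exact hc g
    exact QuotientGroup.eq.mp h1
  choose z hz using hW
  -- Step 4: `x = ∂ z`
  refine ⟨z, fun g h => ?_⟩
  apply hinj
  rw [map_mul, map_div, ← smul_principalPi L K g (z h), hz, hz, hz, ← hZ g h]
  simp only [Subgroup.coe_mul, Subgroup.coe_inv, Subgroup.coe_div, coe_smul_idele, smul_mul',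
    smul_inv', smul_div', mul_smul]
  exact hasse_mul_aux _ _ _ _ _ _

end Hasse

end Fermat.Agent.S55.helper78
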