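import Fermat.Agent.S55.helper78_G9Final
import Fermat.Agent.S55.helper78_G9Hasse
import Fermat.Agent.S55.helper50_IntCochain
import Fermat.Agent.S55.helper89_Ineq2

/-!
# S55 / GLOB-G9 (helper78): the three consumer-facing theorems, UNCONDITIONAL

With the second inequality `helper89.ineq2` on main, the G9 theorems of the GLOB interface
(`helper73_GlobInterface`, section "Consequences for `p`-extensions") hold verbatim:

* `ideleClass_H1_trivial` : `H¹(Gal(L/K), C_L) = 0` for Galois extensions of number fields of odd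
  prime power degree (`K`, `L` in arbitrary universes);
* `hasse_principle_H2` : the Hasse principle for `H²(Gal(L/K), Lˣ)` (`K`, `L` in arbitrary
  universes; via `hasse_principle_of_h1Trivial` and G9-D1 `helper50.exists_intUnits_cochain`);
* `card_H2_ideleClass_dvd` : `|H²(Gal(L/K), C_L)|` divides `[L : K]` (universe `0`, Mathlib's
  `groupCohomology`);
* `h2card_ideleClass_dvd` : the same in index form, `K`, `L` in arbitrary universes.
-/

set_option autoImplicit false

open scoped TensorProduct NumberField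
open groupCohomology

universe u v

namespace Fermat.Agent.S55.helper78

open Fermat.Agent.S55.helper73

/-- the second inequality in the packaged form `helper84.Ineq2Zeta`. -/
theorem ineq2Zeta_holds (p : ℕ) (hp : p.Prime) (hp2 : p ≠ 2) :
    Fermat.Agent.S55.helper84.Ineq2Zeta.{u} p :=
  fun K L _ _ _ _ _ _ hdeg hζ => Fermat.Agent.S55.helper89.ineq2 K L p hp hp2 hdeg hζ

variable (K L : Type*) [Field K] [NumberField K] [Field L] [NumberField L] [Algebra K L]
  [IsGalois K L]

/-- `H^1(G, C_L) = 0` for Galois extensions of odd prime power degree (GLOB interface v1,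
verbatim). -/
theorem ideleClass_H1_trivial (p : ℕ) (hp : p.Prime) (hp2 : p ≠ 2) (n : ℕ)
    (hdeg : Module.finrank K L = p ^ n)
    (f : Gal(L/K) → IdeleClass L) (hf : IsMulCocycle₁ f) : IsMulCoboundary₁ f :=
  ideleClass_H1_trivial_of_ineq2 p hp hp2 (ineq2Zeta_holds p hp hp2) K L n hdeg f hf

/-- HASSE PRINCIPLE for `H^2(G, Lˣ)`, `G` of odd prime power order (GLOB interface v1,
verbatim): a 2-cocycle with values in `Lˣ` which becomes a coboundary in `(ℚ_q ⊗ L)ˣ` for every
`q` is a coboundary. -/
theorem hasse_principle_H2 (p : ℕ) (hp : p.Prime) (hp2 : p ≠ 2) (n : ℕ)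
    (hdeg : Module.finrank K L = p ^ n)
    (x : Gal(L/K) × Gal(L/K) → Lˣ) (hx : IsMulCocycle₂ x)
    (hloc : ∀ q : Nat.Primes,
      IsMulCoboundary₂ (fun g : Gal(L/K) × Gal(L/K) => principalPi L (x g) q)) :
    IsMulCoboundary₂ x :=
  hasse_principle_of_h1Trivial K L (principalPi_mem_idele L) (principalPi_injective L)
    (fun q => Fermat.Agent.S55.helper50.exists_intUnits_cochain K L (q : ℕ))
    (fun f hf => ideleClass_H1_trivial K L p hp hp2 n hdeg f hf) x hloc

/-- `|H^2(G, C_L)|` divides `[L : K]` in index form, `K` and `L` in arbitrary universes. -/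
theorem h2card_ideleClass_dvd (p : ℕ) (hp : p.Prime) (hp2 : p ≠ 2) (n : ℕ)
    (hdeg : Module.finrank K L = p ^ n) :
    h2card Gal(L/K) (IdeleClass L) ≠ 0 ∧ h2card Gal(L/K) (IdeleClass L) ∣ Module.finrank K L :=
  h2card_ideleClass_dvd_of_ineq2 p hp hp2 (ineq2Zeta_holds p hp hp2) K L n hdeg

/-- `|H^2(G, C_L)|` divides `[L : K]` for Galois extensions of odd prime power degree
(GLOB interface v1, verbatim; universe 0 because of Mathlib's `groupCohomology`). -/
theorem card_H2_ideleClass_dvd (K L : Type) [Field K] [NumberField K] [Field L] [NumberField L]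
    [Algebra K L] [IsGalois K L] (p : ℕ) (hp : p.Prime) (hp2 : p ≠ 2) (n : ℕ)
    (hdeg : Module.finrank K L = p ^ n) :
    Finite (H2 (Rep.ofMulDistribMulAction Gal(L/K) (IdeleClass L))) ∧
    Nat.card (H2 (Rep.ofMulDistribMulAction Gal(L/K) (IdeleClass L))) ∣ p ^ n :=
  card_H2_ideleClass_dvd_of_ineq2 p hp hp2 (ineq2Zeta_holds p hp hp2) K L n hdeg

end Fermat.Agent.S55.helper78
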