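import Fermat.Agent.S55.helper79_SIdeal

/-!
# S55 / REC3, package R3-H1E (helper79): `H¹(Gal(L/K), E_S(L)) ↪ Cl_S(K)` at finite level

`K ⊆ L` number fields, `L/K` Galois and unramified outside the finite set `S` of rational primes,
`E_S(L) = sUnits L S` the `S`-units of `L`, `Cl_S(K) = ClS K S`.

* `H1ERel K L S a c` : the relation "the function `a : Gal(L/K) → Lˣ` has class `c ∈ Cl_S(K)`":
  `a σ = σ β / β` for some `0 ≠ β ∈ 𝓞 L` with `β 𝓞 L = 𝔞 𝓞 L · (S-ideal)`, `c = [𝔞]`;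
* `exists_h1ERel` : existence of `c` for every `S`-unit valued 1-cocycle (Hilbert 90 and
  `exists_map_eq_of_invariant_of_unram`);
* `H1ERel.unique`, `H1ERel.mul`, `h1ERel_one` : the class is unique and multiplicative;
* `h1ERel_one_iff` : the class is trivial iff `a` is the coboundary of an `S`-unit;
* `H1ERel.inflation` : compatibility with inflation along `L ⊆ L'`;
* `exists_h1EHom` : the resulting homomorphism `Z¹(Gal(L/K), E_S(L)) → Cl_S(K)` with kernel `B¹`.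
-/

set_option autoImplicit false
set_option linter.unusedSectionVars false
set_option linter.style.haveILetI false

open IsDedekindDomain WithZero NumberField
open scoped NumberField nonZeroDivisors Pointwise

noncomputable section

namespace Fermat.Agent.S55.helper79

/-! ## The class of an ideal in `Cl_S` -/

section clS

variable (K : Type*) [Field K] [NumberField K] (S : Finset Nat.Primes)

open Classical in
/-- the class in `Cl(K)` of an ideal (junk value `1` for the zero ideal) -/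
def cl0 (I : Ideal (𝓞 K)) : ClassGroup (𝓞 K) :=
  if h : I = ⊥ then 1 else ClassGroup.mk0 ⟨I, mem_nonZeroDivisors_of_ne_zero h⟩

/-- the class in `Cl_S(K)` of an ideal (junk value `1` for the zero ideal) -/
def clS (I : Ideal (𝓞 K)) : ClS K S :=
  QuotientGroup.mk' (Subgroup.closure (helper75.classesOverS K S)) (cl0 K I)

variable {K S}

lemma cl0_of_ne_bot {I : Ideal (𝓞 K)} (h : I ≠ ⊥) :
    cl0 K I = ClassGroup.mk0 ⟨I, mem_nonZeroDivisors_of_ne_zero h⟩ := by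
  rw [cl0, dif_neg h]

lemma cl0_mul {I J : Ideal (𝓞 K)} (hI : I ≠ ⊥) (hJ : J ≠ ⊥) :
    cl0 K (I * J) = cl0 K I * cl0 K J := by
  have hIJ : I * J ≠ ⊥ := mul_ne_zero hI hJ
  rw [cl0_of_ne_bot hIJ, cl0_of_ne_bot hI, cl0_of_ne_bot hJ, ← map_mul]
  rfl

lemma cl0_top : cl0 K (⊤ : Ideal (𝓞 K)) = 1 := by
  rw [cl0_of_ne_bot top_ne_bot]
  have : (⟨⊤, mem_nonZeroDivisors_of_ne_zero top_ne_bot⟩ : (Ideal (𝓞 K))⁰) = 1 := by
    apply Subtype.ext
    exact Ideal.one_eq_top.symm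
  rw [this, map_one]

lemma clS_of_ne_bot {I : Ideal (𝓞 K)} (h : I ≠ ⊥) :
    clS K S I = mkS K S ⟨I, mem_nonZeroDivisors_of_ne_zero h⟩ := by
  rw [clS, cl0_of_ne_bot h]
  rfl

lemma clS_eq_one_iff {I : Ideal (𝓞 K)} :
    clS K S I = 1 ↔ cl0 K I ∈ Subgroup.closure (helper75.classesOverS K S) := by
  rw [clS, QuotientGroup.mk'_apply, QuotientGroup.eq_one_iff]

lemma clS_mul {I J : Ideal (𝓞 K)} (hI : I ≠ ⊥) (hJ : J ≠ ⊥) :
    clS K S (I * J) = clS K S I * clS K S J := by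
  unfold clS
  rw [cl0_mul hI hJ, map_mul]

lemma clS_of_isSIdeal {I : Ideal (𝓞 K)} (h : IsSIdeal K S I) : clS K S I = 1 := by
  rw [clS_of_ne_bot h.ne_bot]
  exact mkS_eq_one_of_isSIdeal _ h

lemma clS_top : clS K S (⊤ : Ideal (𝓞 K)) = 1 := clS_of_isSIdeal isSIdeal_top

lemma clS_span_singleton {x : 𝓞 K} (hx : x ≠ 0) : clS K S (Ideal.span {x}) = 1 := by
  have h0 : Ideal.span {x} ≠ ⊥ := by rwa [Ne, Ideal.span_singleton_eq_bot]
  rw [clS_of_ne_bot h0]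
  exact mkS_span_singleton x hx _

lemma clS_surjective : Function.Surjective (clS K S) := by
  intro c
  obtain ⟨I, rfl⟩ := mkS_surjective c
  refine ⟨(I : Ideal (𝓞 K)), ?_⟩
  rw [clS_of_ne_bot (nonZeroDivisors.ne_zero I.2)]

/-- every element of the subgroup generated by the classes of the primes above `S` is a quotient
of classes of `S`-ideals -/
lemma exists_isSIdeal_of_mem_closure {c : ClassGroup (𝓞 K)}
    (hc : c ∈ Subgroup.closure (helper75.classesOverS K S)) :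
    ∃ 𝔢 𝔢' : Ideal (𝓞 K), IsSIdeal K S 𝔢 ∧ IsSIdeal K S 𝔢' ∧ c * cl0 K 𝔢' = cl0 K 𝔢 := by
  induction hc using Subgroup.closure_induction with
  | mem x hx =>
    obtain ⟨P, hP, rfl⟩ := hx
    haveI := hP.1
    refine ⟨(P : Ideal (𝓞 K)), ⊤, ⟨1, ?_⟩, isSIdeal_top, ?_⟩
    · rw [pow_one]
      exact (mem_primesOverS_iff_sProd hP.2.1).1 hP
    · rw [cl0_top, mul_one, cl0_of_ne_bot hP.2.1]
  | one => exact ⟨⊤, ⊤, isSIdeal_top, isSIdeal_top, by rw [one_mul]⟩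
  | mul x y _ _ hx hy =>
    obtain ⟨𝔢₁, 𝔢₁', h1, h1', e1⟩ := hx
    obtain ⟨𝔢₂, 𝔢₂', h2, h2', e2⟩ := hy
    refine ⟨𝔢₁ * 𝔢₂, 𝔢₁' * 𝔢₂', h1.mul h2, h1'.mul h2', ?_⟩
    rw [cl0_mul h1.ne_bot h2.ne_bot, cl0_mul h1'.ne_bot h2'.ne_bot, ← e1, ← e2]
    exact mul_mul_mul_comm _ _ _ _
  | inv x _ hx =>
    obtain ⟨𝔢, 𝔢', h, h', e⟩ := hx
    refine ⟨𝔢', 𝔢, h', h, ?_⟩
    rw [← e]
    group

end clS

/-! ## The relation between cocycles and classes -/

section H1E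

variable (K L : Type*) [Field K] [NumberField K] [Field L] [NumberField L] [Algebra K L]
  (S : Finset Nat.Primes)

/-- the subgroup of `S`-units of the number field `L` -/
abbrev sUnits : Subgroup Lˣ := (helper97.placesOver L S).unit L

/-- The relation between a function `a : Gal(L/K) → Lˣ` and a class `c ∈ Cl_S(K)`:
there is `0 ≠ β ∈ 𝓞 L` with `σ β = a σ · β` for all `σ`, and a nonzero ideal `𝔞` of `𝓞 K` of class
`c` such that `β 𝓞 L` and `𝔞 𝓞 L` differ by an ideal supported above `S`. -/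
def H1ERel (a : Gal(L/K) → Lˣ) (c : ClS K S) : Prop :=
  ∃ (β : 𝓞 L) (𝔞 : Ideal (𝓞 K)) (𝔅 : Ideal (𝓞 L)), β ≠ 0 ∧ 𝔞 ≠ ⊥ ∧
    (∀ σ : Gal(L/K), σ (β : L) = ((a σ : Lˣ) : L) * (β : L)) ∧
    IsSIdeal L S 𝔅 ∧
    Ideal.span {β} = 𝔞.map (algebraMap (𝓞 K) (𝓞 L)) * 𝔅 ∧
    clS K S 𝔞 = c

variable {K L S}

/-- key lemma: extended ideals which agree up to `S`-ideals have the same `S`-class -/
lemma clS_eq_of_map_mul_eq {𝔠 𝔡 : Ideal (𝓞 K)} (h𝔠 : 𝔠 ≠ ⊥) (h𝔡 : 𝔡 ≠ ⊥)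
    {𝔅 𝔅' : Ideal (𝓞 L)} (h𝔅 : IsSIdeal L S 𝔅) (h𝔅' : IsSIdeal L S 𝔅')
    (h : 𝔠.map (algebraMap (𝓞 K) (𝓞 L)) * 𝔅' = 𝔡.map (algebraMap (𝓞 K) (𝓞 L)) * 𝔅) :
    clS K S 𝔠 = clS K S 𝔡 := by
  -- one-sided statement
  have key : ∀ {𝔠 𝔡 : Ideal (𝓞 K)} {𝔅 𝔅' : Ideal (𝓞 L)}, IsSIdeal L S 𝔅' →
      𝔠.map (algebraMap (𝓞 K) (𝓞 L)) * 𝔅' = 𝔡.map (algebraMap (𝓞 K) (𝓞 L)) * 𝔅 →
      ∃ k : ℕ, Ideal.span {((sProd S : ℕ) : 𝓞 K) ^ k} * 𝔠 ≤ 𝔡 := by
    intro 𝔠 𝔡 𝔅 𝔅' h𝔅' h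
    obtain ⟨k, hk⟩ := h𝔅'
    refine ⟨k, ?_⟩
    rw [Ideal.span_singleton_mul_le_iff]
    intro x hx
    have h1 : algebraMap (𝓞 K) (𝓞 L) x * ((sProd S : ℕ) : 𝓞 L) ^ k ∈
        𝔠.map (algebraMap (𝓞 K) (𝓞 L)) * 𝔅' :=
      Ideal.mul_mem_mul (Ideal.mem_map_of_mem _ hx) hk
    rw [h] at h1
    have h2 : algebraMap (𝓞 K) (𝓞 L) (((sProd S : ℕ) : 𝓞 K) ^ k * x) ∈
        𝔡.map (algebraMap (𝓞 K) (𝓞 L)) := by
      have := Ideal.mul_le_left h1
      rwa [map_mul, map_pow, map_natCast, mul_comm]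
    have h3 : ((sProd S : ℕ) : 𝓞 K) ^ k * x ∈
        (𝔡.map (algebraMap (𝓞 K) (𝓞 L))).comap (algebraMap (𝓞 K) (𝓞 L)) := h2
    rwa [Ideal.comap_map_eq_self_of_faithfullyFlat] at h3
  obtain ⟨k', hk'⟩ := key h𝔅' h
  obtain ⟨k, hk⟩ := key h𝔅 h.symm
  obtain ⟨𝔢, h𝔢⟩ := Ideal.dvd_iff_le.2 hk'
  obtain ⟨𝔢', h𝔢'⟩ := Ideal.dvd_iff_le.2 hk
  have hN : ∀ j : ℕ, ((sProd S : ℕ) : 𝓞 K) ^ j ≠ 0 := fun j =>
    pow_ne_zero j (sProd_cast_ne_zero K S)
  have hNs : ∀ j : ℕ, Ideal.span {((sProd S : ℕ) : 𝓞 K) ^ j} ≠ ⊥ := fun j => by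
    rw [Ne, Ideal.span_singleton_eq_bot]
    exact hN j
  have h𝔢S : IsSIdeal K S 𝔢 := by
    have h1 : Ideal.span {((sProd S : ℕ) : 𝓞 K) ^ k'} *
        Ideal.span {((sProd S : ℕ) : 𝓞 K) ^ k} * (𝔠 * 𝔡) = 𝔢 * 𝔢' * (𝔠 * 𝔡) := by
      calc Ideal.span {((sProd S : ℕ) : 𝓞 K) ^ k'} *
            Ideal.span {((sProd S : ℕ) : 𝓞 K) ^ k} * (𝔠 * 𝔡)
          = (Ideal.span {((sProd S : ℕ) : 𝓞 K) ^ k'} * 𝔠) *
            (Ideal.span {((sProd S : ℕ) : 𝓞 K) ^ k} * 𝔡) := by ring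
        _ = (𝔡 * 𝔢) * (𝔠 * 𝔢') := by rw [h𝔢, h𝔢']
        _ = 𝔢 * 𝔢' * (𝔠 * 𝔡) := by ring
    have h2 := mul_right_cancel₀ (mul_ne_zero h𝔠 h𝔡) h1
    refine ⟨k' + k, ?_⟩
    have h3 : ((sProd S : ℕ) : 𝓞 K) ^ (k' + k) ∈ 𝔢 * 𝔢' := by
      rw [← h2, Ideal.span_singleton_mul_span_singleton, ← pow_add]
      exact Ideal.mem_span_singleton_self _
    exact Ideal.mul_le_left h3
  have h4 : clS K S (Ideal.span {((sProd S : ℕ) : 𝓞 K) ^ k'} * 𝔠) = clS K S (𝔡 * 𝔢) := by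
    rw [h𝔢]
  rwa [clS_mul (hNs k') h𝔠, clS_mul h𝔡 h𝔢S.ne_bot, clS_span_singleton (hN k'),
    clS_of_isSIdeal h𝔢S, one_mul, mul_one] at h4

lemma coe_ne_zero_of_ne_zero {β : 𝓞 L} (hβ : β ≠ 0) : (β : L) ≠ 0 := fun h0 =>
  hβ (RingOfIntegers.coe_injective (by simpa using h0))

lemma map_span_singleton_algebraMap (r : 𝓞 K) :
    (Ideal.span {r}).map (algebraMap (𝓞 K) (𝓞 L)) = Ideal.span {algebraMap (𝓞 K) (𝓞 L) r} := by
  rw [Ideal.map_span, Set.image_singleton]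

section Galois

variable [IsGalois K L]

/-- **uniqueness**: a function `a` is related to at most one class -/
theorem H1ERel.unique {a : Gal(L/K) → Lˣ} {c c' : ClS K S} (h : H1ERel K L S a c)
    (h' : H1ERel K L S a c') : c = c' := by
  obtain ⟨β, 𝔞, 𝔅, hβ, h𝔞, hσ, hS, hspan, rfl⟩ := h
  obtain ⟨β', 𝔞', 𝔅', hβ', h𝔞', hσ', hS', hspan', rfl⟩ := h'
  have hβL := coe_ne_zero_of_ne_zero hβ
  have hβ'L := coe_ne_zero_of_ne_zero hβ'
  -- `β' / β` is Galois invariant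
  have hfix : ∀ σ : Gal(L/K), σ ((β' : L) / (β : L)) = (β' : L) / (β : L) := by
    intro σ
    rw [map_div₀, hσ, hσ']
    have := (a σ).ne_zero
    field_simp
  obtain ⟨x0, hx0⟩ := (IsGalois.mem_range_algebraMap_iff_fixed _).2 hfix
  obtain ⟨r, s, hs, hrs⟩ := IsFractionRing.div_surjective (𝓞 K) x0
  have hs0 : s ≠ 0 := nonZeroDivisors.ne_zero hs
  have hsK : algebraMap (𝓞 K) K s ≠ 0 := by
    rwa [Ne, FaithfulSMul.algebraMap_eq_zero_iff]
  have hx0' : x0 ≠ 0 := by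
    rintro rfl
    rw [map_zero] at hx0
    exact div_ne_zero hβ'L hβL hx0.symm
  have hr0 : r ≠ 0 := by
    rintro rfl
    rw [map_zero, zero_div] at hrs
    exact hx0' hrs.symm
  -- `r β = s β'` in `𝓞 L`
  have heq : algebraMap (𝓞 K) (𝓞 L) r * β = algebraMap (𝓞 K) (𝓞 L) s * β' := by
    apply RingOfIntegers.coe_injective
    have h1 : algebraMap K L (algebraMap (𝓞 K) K r / algebraMap (𝓞 K) K s) =
        (β' : L) / (β : L) := by rw [hrs, hx0]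
    have hsL : algebraMap K L (algebraMap (𝓞 K) K s) ≠ 0 := by
      rwa [Ne, FaithfulSMul.algebraMap_eq_zero_iff]
    rw [map_div₀, div_eq_div_iff hsL hβL] at h1
    change (algebraMap K L (algebraMap (𝓞 K) K r)) * (β : L) =
      (algebraMap K L (algebraMap (𝓞 K) K s)) * (β' : L)
    rw [h1]
    ring
  have hideal : (Ideal.span {s} * 𝔞').map (algebraMap (𝓞 K) (𝓞 L)) * 𝔅' =
      (Ideal.span {r} * 𝔞).map (algebraMap (𝓞 K) (𝓞 L)) * 𝔅 := by
    rw [Ideal.map_mul, Ideal.map_mul, map_span_singleton_algebraMap,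
      map_span_singleton_algebraMap, mul_assoc, mul_assoc, ← hspan, ← hspan',
      Ideal.span_singleton_mul_span_singleton, Ideal.span_singleton_mul_span_singleton, heq]
  have hsS : Ideal.span {s} ≠ ⊥ := by rwa [Ne, Ideal.span_singleton_eq_bot]
  have hrS : Ideal.span {r} ≠ ⊥ := by rwa [Ne, Ideal.span_singleton_eq_bot]
  have := clS_eq_of_map_mul_eq (S := S) (mul_ne_zero hsS h𝔞') (mul_ne_zero hrS h𝔞) hS hS' hideal
  rw [clS_mul hsS h𝔞', clS_mul hrS h𝔞, clS_span_singleton hs0, clS_span_singleton hr0,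
    one_mul, one_mul] at this
  exact this.symm

end Galois

/-- **multiplicativity** -/
theorem H1ERel.mul {a a' : Gal(L/K) → Lˣ} {c c' : ClS K S} (h : H1ERel K L S a c)
    (h' : H1ERel K L S a' c') : H1ERel K L S (a * a') (c * c') := by
  obtain ⟨β, 𝔞, 𝔅, hβ, h𝔞, hσ, hS, hspan, rfl⟩ := h
  obtain ⟨β', 𝔞', 𝔅', hβ', h𝔞', hσ', hS', hspan', rfl⟩ := h'
  refine ⟨β * β', 𝔞 * 𝔞', 𝔅 * 𝔅', mul_ne_zero hβ hβ', mul_ne_zero h𝔞 h𝔞', fun σ => ?_,
    hS.mul hS', ?_, clS_mul h𝔞 h𝔞'⟩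
  · change σ ((β : L) * (β' : L)) = (((a σ * a' σ : Lˣ)) : L) * ((β : L) * (β' : L))
    rw [map_mul, hσ, hσ', Units.val_mul]
    ring
  · rw [← Ideal.span_singleton_mul_span_singleton, hspan, hspan', Ideal.map_mul]
    ring

/-- the trivial cocycle has trivial class -/
theorem h1ERel_one : H1ERel K L S (1 : Gal(L/K) → Lˣ) 1 := by
  refine ⟨1, ⊤, ⊤, one_ne_zero, top_ne_bot, fun σ => ?_, isSIdeal_top, ?_, clS_top⟩
  · change σ ((1 : 𝓞 L) : L) = ((1 : Lˣ) : L) * ((1 : 𝓞 L) : L)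
    simp
  · rw [Ideal.map_top, Ideal.span_singleton_one, Ideal.top_mul]


/-! ## Saturation -/

section Sat

variable (S)

/-- the `N`-saturation of an ideal: the elements which land in `I` after multiplication by a
power of `N` -/
def sat (I : Ideal (𝓞 L)) : Ideal (𝓞 L) where
  carrier := {x | ∃ k : ℕ, ((sProd S : ℕ) : 𝓞 L) ^ k * x ∈ I}
  add_mem' := by
    rintro x y ⟨k, hk⟩ ⟨l, hl⟩
    refine ⟨k + l, ?_⟩
    have h1 : ((sProd S : ℕ) : 𝓞 L) ^ (k + l) * (x + y) =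
        ((sProd S : ℕ) : 𝓞 L) ^ l * (((sProd S : ℕ) : 𝓞 L) ^ k * x) +
          ((sProd S : ℕ) : 𝓞 L) ^ k * (((sProd S : ℕ) : 𝓞 L) ^ l * y) := by ring
    rw [h1]
    exact I.add_mem (I.mul_mem_left _ hk) (I.mul_mem_left _ hl)
  zero_mem' := ⟨0, by simp⟩
  smul_mem' := by
    rintro c x ⟨k, hk⟩
    refine ⟨k, ?_⟩
    rw [smul_eq_mul, mul_left_comm]
    exact I.mul_mem_left _ hk

variable {S}

lemma mem_sat_iff {I : Ideal (𝓞 L)} {x : 𝓞 L} :
    x ∈ sat S I ↔ ∃ k : ℕ, ((sProd S : ℕ) : 𝓞 L) ^ k * x ∈ I := Iff.rfl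

lemma le_sat (I : Ideal (𝓞 L)) : I ≤ sat S I := fun x hx => ⟨0, by simpa using hx⟩

lemma mem_sat_of_sProd_mul_mem {I : Ideal (𝓞 L)} {x : 𝓞 L}
    (h : ((sProd S : ℕ) : 𝓞 L) * x ∈ sat S I) : x ∈ sat S I := by
  obtain ⟨k, hk⟩ := h
  exact ⟨k + 1, by rwa [pow_succ, mul_assoc]⟩

lemma exists_span_pow_mul_sat_le (I : Ideal (𝓞 L)) :
    ∃ k : ℕ, Ideal.span {((sProd S : ℕ) : 𝓞 L) ^ k} * sat S I ≤ I := by
  classical
  obtain ⟨s, hs⟩ := (Ideal.fg_of_isNoetherianRing (sat S I))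
  have hmem : ∀ x ∈ s, ∃ k : ℕ, ((sProd S : ℕ) : 𝓞 L) ^ k * x ∈ I := fun x hx => by
    have : x ∈ sat S I := by
      rw [← hs]
      exact Submodule.subset_span hx
    exact this
  choose! kx hkx using hmem
  refine ⟨∑ x ∈ s, kx x, ?_⟩
  rw [Ideal.span_singleton_mul_le_iff]
  intro z hz
  rw [← hs] at hz
  induction hz using Submodule.span_induction with
  | mem x hx =>
    have hle : kx x ≤ ∑ x ∈ s, kx x :=
      Finset.single_le_sum (f := kx) (fun _ _ => Nat.zero_le _) hx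
    obtain ⟨d, hd⟩ := Nat.exists_eq_add_of_le hle
    rw [hd, pow_add, mul_comm (_ ^ kx x), mul_assoc]
    exact I.mul_mem_left _ (hkx x hx)
  | zero => simp
  | add x y _ _ hx hy =>
    rw [mul_add]
    exact I.add_mem hx hy
  | smul c x _ hx =>
    rw [smul_eq_mul, mul_left_comm]
    exact I.mul_mem_left _ hx

/-- a prime containing the saturation of a nonzero ideal does not contain `N` -/
lemma sProd_notMem_of_sat_le {I : Ideal (𝓞 L)} (hI : I ≠ ⊥) {P : Ideal (𝓞 L)} [hP : P.IsPrime]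
    (hle : sat S I ≤ P) : ((sProd S : ℕ) : 𝓞 L) ∉ P := by
  intro hN
  have h0 : sat S I ≠ ⊥ := fun h => hI (le_bot_iff.1 (h ▸ le_sat I))
  obtain ⟨𝔄', h𝔄'⟩ := Ideal.dvd_iff_le.2 hle
  have h𝔄'0 : 𝔄' ≠ ⊥ := by
    rintro rfl
    exact h0 (by rw [h𝔄', Ideal.mul_bot])
  have h1 : 𝔄' ≤ P * 𝔄' := by
    intro x hx
    rw [← h𝔄']
    apply mem_sat_of_sProd_mul_mem
    rw [h𝔄']
    exact Ideal.mul_mem_mul hN hx
  have h2 : P * 𝔄' ∣ 1 * 𝔄' := by
    rw [one_mul]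
    exact Ideal.dvd_iff_le.2 h1
  have h3 : P ∣ 1 := (mul_dvd_mul_iff_right h𝔄'0).1 h2
  have h4 : (1 : Ideal (𝓞 L)) ≤ P := Ideal.dvd_iff_le.1 h3
  exact hP.ne_top (top_le_iff.1 (Ideal.one_eq_top (R := 𝓞 L) ▸ h4))

end Sat

/-! ## Existence -/

section Exist

variable [IsGalois K L]

/-- **existence**: in a Galois extension `L/K` unramified outside `S`, every 1-cocycle with values
in the `S`-units of `L` has a class in `Cl_S(K)` (Hilbert 90 + invariant ideals are extended) -/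
theorem exists_h1ERel
    (hunr : ∀ (P : Ideal (𝓞 L)) [P.IsPrime], P ≠ ⊥ → P ∉ helper75.primesOverS L S →
      P.ramificationIdx (𝓞 K) = 1)
    (a : Gal(L/K) → Lˣ) (ha : groupCohomology.IsMulCocycle₁ a)
    (haS : ∀ σ, a σ ∈ sUnits L S) : ∃ c : ClS K S, H1ERel K L S a c := by
  obtain ⟨b, hb⟩ := groupCohomology.isMulCoboundary₁_of_isMulCocycle₁_of_aut_to_units a ha
  have hbσ : ∀ σ : Gal(L/K), σ (b : L) = ((a σ : Lˣ) : L) * (b : L) := by
    intro σ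
    have h1 : σ • b = a σ * b := by rw [← hb σ, div_mul_cancel]
    have h2 := congrArg (fun u : Lˣ => (u : L)) h1
    simpa using h2
  have halg : IsAlgebraic ℤ (b : L) :=
    (IsFractionRing.isAlgebraic_iff ℤ ℚ L).mpr (Algebra.IsAlgebraic.isAlgebraic (b : L))
  obtain ⟨y, hy0, hyint⟩ := halg.exists_integral_multiple
  set β : 𝓞 L := ⟨y • (b : L), hyint⟩ with hβdef
  have hβval : (β : L) = y • (b : L) := rfl
  have hβ : β ≠ 0 := by
    intro h0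
    have h1 : y • (b : L) = 0 := congrArg (fun c : 𝓞 L => (c : L)) h0
    rw [smul_eq_zero] at h1
    rcases h1 with h1 | h1
    · exact hy0 h1
    · exact b.ne_zero h1
  have hσ : ∀ σ : Gal(L/K), σ (β : L) = ((a σ : Lˣ) : L) * (β : L) := by
    intro σ
    rw [hβval, map_zsmul, hbσ, zsmul_eq_mul, zsmul_eq_mul]
    ring
  set 𝔄 : Ideal (𝓞 L) := sat S (Ideal.span {β}) with h𝔄def
  have hspan0 : Ideal.span {β} ≠ ⊥ := by rwa [Ne, Ideal.span_singleton_eq_bot]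
  have hle : Ideal.span {β} ≤ 𝔄 := le_sat _
  have h𝔄0 : 𝔄 ≠ ⊥ := fun h => hspan0 (le_bot_iff.1 (h ▸ hle))
  -- invariance
  have hinv : ∀ σ : Gal(L/K), ∀ x ∈ 𝔄, σ • x ∈ 𝔄 := by
    rintro σ x ⟨k, hk⟩
    obtain ⟨z, hz⟩ := Ideal.mem_span_singleton'.1 hk
    obtain ⟨j, t, -, ht, -⟩ := (mem_sunit_iff (a σ)).1 (haS σ)
    refine ⟨k + j, Ideal.mem_span_singleton'.2 ⟨t * σ • z, ?_⟩⟩
    apply RingOfIntegers.coe_injective
    have hz' : (z : L) * (β : L) = ((sProd S : ℕ) : L) ^ k * (x : L) := by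
      have := congrArg (fun c : 𝓞 L => (c : L)) hz
      simpa using this
    have hz'' : σ (z : L) * (((a σ : Lˣ) : L) * (β : L)) =
        ((sProd S : ℕ) : L) ^ k * σ (x : L) := by
      have := congrArg σ hz'
      rwa [map_mul, map_mul, map_pow, map_natCast, hσ] at this
    have ht' : (t : L) = ((sProd S : ℕ) : L) ^ j * ((a σ : Lˣ) : L) := ht
    change (t : L) * σ (z : L) * (β : L) =
      (((((sProd S : ℕ) : 𝓞 L) ^ (k + j) : 𝓞 L)) : L) * σ (x : L)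
    have hcast : (((((sProd S : ℕ) : 𝓞 L) ^ (k + j) : 𝓞 L)) : L) =
        ((sProd S : ℕ) : L) ^ (k + j) := by simp
    rw [hcast, ht', pow_add]
    linear_combination ((sProd S : ℕ) : L) ^ j * hz''
  -- unramified at the primes dividing `𝔄`
  have hunr' : ∀ (P : Ideal (𝓞 L)) [P.IsPrime], P ≠ ⊥ → 𝔄 ≤ P →
      P.ramificationIdx (𝓞 K) = 1 := by
    intro P _ hP0 hP
    refine hunr P hP0 ?_
    rw [mem_primesOverS_iff_sProd hP0]
    exact sProd_notMem_of_sat_le hspan0 hP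
  obtain ⟨𝔞, h𝔞⟩ := exists_map_eq_of_invariant_of_unram 𝔄 h𝔄0 hunr' hinv
  have h𝔞0 : 𝔞 ≠ ⊥ := by
    rintro rfl
    exact h𝔄0 (by rw [← h𝔞, Ideal.map_bot])
  obtain ⟨𝔅, h𝔅⟩ := Ideal.dvd_iff_le.2 hle
  have h𝔅S : IsSIdeal L S 𝔅 := by
    obtain ⟨k, hk⟩ := exists_span_pow_mul_sat_le (S := S) (Ideal.span {β})
    refine ⟨k, ?_⟩
    have h1 : 𝔄 * 𝔅 ∣ 𝔄 * Ideal.span {((sProd S : ℕ) : 𝓞 L) ^ k} := by
      rw [← h𝔅, mul_comm]
      exact Ideal.dvd_iff_le.2 hk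
    have h2 : 𝔅 ∣ Ideal.span {((sProd S : ℕ) : 𝓞 L) ^ k} := (mul_dvd_mul_iff_left h𝔄0).1 h1
    exact (Ideal.dvd_iff_le.1 h2) (Ideal.mem_span_singleton_self _)
  exact ⟨clS K S 𝔞, β, 𝔞, 𝔅, hβ, h𝔞0, hσ, h𝔅S, by rw [h𝔞, h𝔅], rfl⟩

end Exist

/-! ## The kernel -/

section Kernel

/-- **kernel**: the class of `a` is trivial iff `a` is the coboundary of an `S`-unit -/
theorem h1ERel_one_iff (a : Gal(L/K) → Lˣ) :
    H1ERel K L S a 1 ↔ ∃ u ∈ sUnits L S, ∀ σ : Gal(L/K), σ • u / u = a σ := by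
  constructor
  · rintro ⟨β, 𝔞, 𝔅, hβ, h𝔞, hσ, hS, hspan, hc⟩
    have hβL := coe_ne_zero_of_ne_zero hβ
    obtain ⟨𝔢, 𝔢', h𝔢, h𝔢', he⟩ := exists_isSIdeal_of_mem_closure (clS_eq_one_iff.1 hc)
    rw [← cl0_mul h𝔞 h𝔢'.ne_bot, cl0_of_ne_bot (mul_ne_zero h𝔞 h𝔢'.ne_bot),
      cl0_of_ne_bot h𝔢.ne_bot, ClassGroup.mk0_eq_mk0_iff] at he
    obtain ⟨x, y, hx, hy, hxy⟩ := he
    have hxy' : Ideal.span {x} * (𝔞 * 𝔢') = Ideal.span {y} * 𝔢 := hxy
    set X : 𝓞 L := algebraMap (𝓞 K) (𝓞 L) x with hX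
    set Y : 𝓞 L := algebraMap (𝓞 K) (𝓞 L) y with hY
    have hX0 : X ≠ 0 := by
      rwa [hX, Ne, FaithfulSMul.algebraMap_eq_zero_iff]
    have hY0 : Y ≠ 0 := by
      rwa [hY, Ne, FaithfulSMul.algebraMap_eq_zero_iff]
    have hXL := coe_ne_zero_of_ne_zero hX0
    have hYL := coe_ne_zero_of_ne_zero hY0
    -- the ideal identity in `𝓞 L`
    have hid : Ideal.span {X * β} * 𝔢'.map (algebraMap (𝓞 K) (𝓞 L)) =
        Ideal.span {Y} * (𝔢.map (algebraMap (𝓞 K) (𝓞 L)) * 𝔅) := by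
      have h1 := congrArg (Ideal.map (algebraMap (𝓞 K) (𝓞 L))) hxy'
      rw [Ideal.map_mul, Ideal.map_mul, Ideal.map_mul, map_span_singleton_algebraMap,
        map_span_singleton_algebraMap] at h1
      have h1' : Ideal.span {X} * (𝔞.map (algebraMap (𝓞 K) (𝓞 L)) *
          𝔢'.map (algebraMap (𝓞 K) (𝓞 L))) =
          Ideal.span {Y} * 𝔢.map (algebraMap (𝓞 K) (𝓞 L)) := h1
      rw [← Ideal.span_singleton_mul_span_singleton, hspan, ← mul_assoc (Ideal.span {Y}), ← h1']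
      ring
    obtain ⟨i, hi⟩ := h𝔢'.map (L := L)
    obtain ⟨j, hj⟩ := (h𝔢.map (L := L)).mul hS
    -- `X β N^i = t Y`
    have h1 : X * β * ((sProd S : ℕ) : 𝓞 L) ^ i ∈ Ideal.span {Y} := by
      have : X * β * ((sProd S : ℕ) : 𝓞 L) ^ i ∈
          Ideal.span {X * β} * 𝔢'.map (algebraMap (𝓞 K) (𝓞 L)) :=
        Ideal.mul_mem_mul (Ideal.mem_span_singleton_self _) hi
      rw [hid] at this
      exact Ideal.mul_le_left this
    have h2 : Y * ((sProd S : ℕ) : 𝓞 L) ^ j ∈ Ideal.span {X * β} := by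
      have : Y * ((sProd S : ℕ) : 𝓞 L) ^ j ∈
          Ideal.span {Y} * (𝔢.map (algebraMap (𝓞 K) (𝓞 L)) * 𝔅) :=
        Ideal.mul_mem_mul (Ideal.mem_span_singleton_self _) hj
      rw [← hid] at this
      exact Ideal.mul_le_left this
    obtain ⟨t, ht⟩ := Ideal.mem_span_singleton'.1 h1
    obtain ⟨t', ht'⟩ := Ideal.mem_span_singleton'.1 h2
    have htL : (t : L) * (Y : L) = (X : L) * (β : L) * ((sProd S : ℕ) : L) ^ i := by
      have := congrArg (fun c : 𝓞 L => (c : L)) ht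
      simpa using this
    have ht'L : (t' : L) * ((X : L) * (β : L)) = (Y : L) * ((sProd S : ℕ) : L) ^ j := by
      have := congrArg (fun c : 𝓞 L => (c : L)) ht'
      simpa using this
    have hu0 : (X : L) * (β : L) / (Y : L) ≠ 0 := div_ne_zero (mul_ne_zero hXL hβL) hYL
    refine ⟨Units.mk0 _ hu0, ?_, fun σ => ?_⟩
    · rw [sUnits, mem_sunit_iff]
      refine ⟨i + j, ((sProd S : ℕ) : 𝓞 L) ^ j * t, ((sProd S : ℕ) : 𝓞 L) ^ i * t', ?_, ?_⟩
      · have hcast : algebraMap (𝓞 L) L (((sProd S : ℕ) : 𝓞 L) ^ j * t) =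
            ((sProd S : ℕ) : L) ^ j * (t : L) := by simp
        rw [hcast, Units.val_mk0, pow_add]
        field_simp
        linear_combination ((sProd S : ℕ) : L) ^ j * htL
      · have hcast : algebraMap (𝓞 L) L (((sProd S : ℕ) : 𝓞 L) ^ i * t') =
            ((sProd S : ℕ) : L) ^ i * (t' : L) := by simp
        rw [hcast, Units.val_inv_eq_inv_val, Units.val_mk0, pow_add, inv_div]
        field_simp
        linear_combination ((sProd S : ℕ) : L) ^ i * ht'L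
    · apply Units.ext
      have hσX : σ (X : L) = (X : L) := by
        have : (X : L) = algebraMap K L (x : K) := rfl
        rw [this, AlgEquiv.commutes]
      have hσY : σ (Y : L) = (Y : L) := by
        have : (Y : L) = algebraMap K L (y : K) := rfl
        rw [this, AlgEquiv.commutes]
      rw [Units.val_div_eq_div_val]
      change σ ((X : L) * (β : L) / (Y : L)) / ((X : L) * (β : L) / (Y : L)) = ((a σ : Lˣ) : L)
      rw [map_div₀, map_mul, hσX, hσY, hσ]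
      field_simp
  · rintro ⟨u, hu, hσ⟩
    obtain ⟨k, x, y, hx, hy⟩ := (mem_sunit_iff u).1 hu
    have hN0 : ((sProd S : ℕ) : L) ≠ 0 := Nat.cast_ne_zero.2 (sProd_ne_zero S)
    have hx0 : x ≠ 0 := by
      rintro rfl
      rw [map_zero] at hx
      exact mul_ne_zero (pow_ne_zero k hN0) u.ne_zero hx.symm
    have hxy : y * x = ((sProd S : ℕ) : 𝓞 L) ^ (k + k) := by
      apply RingOfIntegers.coe_injective
      have hcast : algebraMap (𝓞 L) L (((sProd S : ℕ) : 𝓞 L) ^ (k + k)) =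
          ((sProd S : ℕ) : L) ^ (k + k) := by simp
      change (y : L) * (x : L) = algebraMap (𝓞 L) L (((sProd S : ℕ) : 𝓞 L) ^ (k + k))
      rw [hcast]
      have hx' : (x : L) = ((sProd S : ℕ) : L) ^ k * (u : L) := hx
      have hy' : (y : L) = ((sProd S : ℕ) : L) ^ k * ((u⁻¹ : Lˣ) : L) := hy
      rw [hx', hy', Units.val_inv_eq_inv_val, pow_add]
      have := u.ne_zero
      field_simp
    refine ⟨x, ⊤, Ideal.span {x}, hx0, top_ne_bot, fun σ => ?_,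
      ⟨k + k, Ideal.mem_span_singleton'.2 ⟨y, hxy⟩⟩, ?_, clS_top⟩
    · have hx' : (x : L) = ((sProd S : ℕ) : L) ^ k * (u : L) := hx
      have h1 : σ • u = a σ * u := by rw [← hσ σ, div_mul_cancel]
      have h2 : σ (u : L) = ((a σ : Lˣ) : L) * (u : L) := by
        have := congrArg (fun u : Lˣ => (u : L)) h1
        simpa using this
      rw [hx', map_mul, map_pow, map_natCast, h2]
      ring
    · rw [Ideal.map_top, Ideal.top_mul]

end Kernel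

/-! ## Inflation -/

section Inflation

variable {L' : Type*} [Field L'] [NumberField L'] [Algebra K L'] [Algebra L L']
  [IsScalarTower K L L'] [Normal K L]

/-- **inflation**: the class of a function on `Gal(L/K)` does not change under inflation to
`Gal(L'/K)` -/
theorem H1ERel.inflation {a : Gal(L/K) → Lˣ} {c : ClS K S} (h : H1ERel K L S a c) :
    H1ERel K L' S
      (fun σ' : Gal(L'/K) => Units.map (algebraMap L L' : L →* L') (a (σ'.restrictNormal L)))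
      c := by
  obtain ⟨β, 𝔞, 𝔅, hβ, h𝔞, hσ, hS, hspan, hc⟩ := h
  have hβ' : algebraMap (𝓞 L) (𝓞 L') β ≠ 0 := by
    rwa [Ne, FaithfulSMul.algebraMap_eq_zero_iff]
  refine ⟨algebraMap (𝓞 L) (𝓞 L') β, 𝔞, 𝔅.map (algebraMap (𝓞 L) (𝓞 L')), hβ', h𝔞,
    fun σ' => ?_, hS.map, ?_, hc⟩
  · have h1 : ((algebraMap (𝓞 L) (𝓞 L') β : 𝓞 L') : L') = algebraMap L L' (β : L) := rfl
    rw [h1, ← AlgEquiv.restrictNormal_commutes σ' L (β : L), hσ, map_mul]
    rfl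
  · rw [← map_span_singleton_algebraMap, hspan, Ideal.map_mul, Ideal.map_map,
      ← IsScalarTower.algebraMap_eq]

end Inflation

/-! ## The homomorphism `Z¹(Gal(L/K), E_S(L)) → Cl_S(K)` -/

section Hom

variable (K L S)

/-- the group of 1-cocycles of `Gal(L/K)` with values in the `S`-units of `L` -/
def sCocycles : Subgroup (Gal(L/K) → Lˣ) where
  carrier := {a | groupCohomology.IsMulCocycle₁ a ∧ ∀ σ, a σ ∈ sUnits L S}
  mul_mem' := by
    rintro a a' ⟨ha, haS⟩ ⟨ha', haS'⟩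
    refine ⟨fun g h => ?_, fun σ => mul_mem (haS σ) (haS' σ)⟩
    simp only [Pi.mul_apply, ha g h, ha' g h, smul_mul']
    exact mul_mul_mul_comm _ _ _ _
  one_mem' := ⟨fun g h => by simp, fun σ => one_mem _⟩
  inv_mem' := by
    rintro a ⟨ha, haS⟩
    refine ⟨fun g h => ?_, fun σ => inv_mem (haS σ)⟩
    simp only [Pi.inv_apply, ha g h, smul_inv', mul_inv]

variable {K L S}

lemma mem_sCocycles_iff {a : Gal(L/K) → Lˣ} :
    a ∈ sCocycles K L S ↔ groupCohomology.IsMulCocycle₁ a ∧ ∀ σ, a σ ∈ sUnits L S := Iff.rfl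

variable [IsGalois K L]

/-- **R3-H1E, finite level**: for a Galois extension `L/K` of number fields unramified outside
`S` there is a homomorphism from the `S`-unit valued 1-cocycles of `Gal(L/K)` to `Cl_S(K)`,
characterised by `H1ERel`, whose kernel consists exactly of the coboundaries of `S`-units.
Hence `H¹(Gal(L/K), E_S(L)) ↪ Cl_S(K)`. -/
theorem exists_h1EHom
    (hunr : ∀ (P : Ideal (𝓞 L)) [P.IsPrime], P ≠ ⊥ → P ∉ helper75.primesOverS L S →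
      P.ramificationIdx (𝓞 K) = 1) :
    ∃ φ : sCocycles K L S →* ClS K S,
      (∀ a : sCocycles K L S, H1ERel K L S (a : Gal(L/K) → Lˣ) (φ a)) ∧
      (∀ a : sCocycles K L S, φ a = 1 ↔
        ∃ u ∈ sUnits L S, ∀ σ : Gal(L/K), σ • u / u = (a : Gal(L/K) → Lˣ) σ) := by
  have hex : ∀ a : sCocycles K L S, ∃ c : ClS K S, H1ERel K L S (a : Gal(L/K) → Lˣ) c :=
    fun a => exists_h1ERel hunr a a.2.1 a.2.2
  choose f hf using hex
  refine ⟨⟨⟨f, ?_⟩, ?_⟩, hf, fun a => ?_⟩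
  · exact (hf 1).unique h1ERel_one
  · intro a a'
    exact (hf (a * a')).unique ((hf a).mul (hf a'))
  · change f a = 1 ↔ _
    rw [← h1ERel_one_iff]
    constructor
    · intro h
      rw [← h]
      exact hf a
    · intro h
      exact (hf a).unique h

end Hom

end H1E

end Fermat.Agent.S55.helper79
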