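import Fermat.Agent.S55.helper79_Rec3H1E
import Fermat.Agent.S55.helper77_Rec4Tor

/-!
# S55 / REC3, package R3-H1E (helper79): abstract counting

* `index_le_of_addMonoidHom` : if `Φ : Z →+ Additive A` is a homomorphism into a finite abelian
  group and `W ≤ Z` contains `ker Φ` and `p Z`, then `[Z : W] ≤ [A : A ^ p]`.
* `card_clSModP_eq` : `#(Cl_S(F)/p)` (`helper75.ClSModP`) is the index of the `p`-th powers in
  `ClS F S`.
-/

set_option autoImplicit false
set_option linter.unusedSectionVars false

open scoped NumberField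

noncomputable section

namespace Fermat.Agent.S55.helper79

section Abs

variable {Z : Type*} [AddCommGroup Z] {A : Type*} [CommGroup A] [Finite A]

/-- `#H[p] ≤ #A[p]` for a subgroup `H` of a finite abelian group `A`, in index form:
`[H : H^p] ≤ [A : A^p]`. -/
lemma index_range_pow_subgroup_le (H : Subgroup A) (p : ℕ) :
    (powMonoidHom p : H →* H).range.index ≤ (powMonoidHom p : A →* A).range.index := by
  rw [Subgroup.index_eq_card, Subgroup.index_eq_card,
    ← helper77.card_ker_pow_eq_card_quotient, ← helper77.card_ker_pow_eq_card_quotient]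
  refine Nat.card_le_card_of_injective
    (fun x : (powMonoidHom p : H →* H).ker => (⟨(x.1 : A), ?_⟩ : (powMonoidHom p : A →* A).ker))
    ?_
  · have := x.2
    rw [MonoidHom.mem_ker, powMonoidHom_apply] at this ⊢
    have h2 := congrArg (fun y : H => (y : A)) this
    simpa using h2
  · intro x y hxy
    have h1 : ((x.1 : H) : A) = ((y.1 : H) : A) := congrArg (fun z => (z.1 : A)) hxy
    exact Subtype.ext (Subtype.ext h1)

/-- **abstract counting**: if `Φ : Z → A` is a homomorphism into a finite abelian group and the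
subgroup `W` of `Z` contains `ker Φ` and `p Z`, then `Z/W` is finite of order at most
`#(A/A^p)`. -/
theorem index_le_of_monoidHom (W : AddSubgroup Z) (Φ : Multiplicative Z →* A) (p : ℕ)
    (h1 : ∀ z : Z, Φ (Multiplicative.ofAdd z) = 1 → z ∈ W) (h2 : ∀ z : Z, p • z ∈ W) :
    W.index ≠ 0 ∧ W.index ≤ (powMonoidHom p : A →* A).range.index := by
  set H : Subgroup A := Φ.range with hH
  set Φ' : Multiplicative Z →* H := Φ.rangeRestrict with hΦ'
  have hsurj : Function.Surjective Φ' := Φ.rangeRestrict_surjective
  set V : Subgroup (Multiplicative Z) := (powMonoidHom p : H →* H).range.comap Φ' with hV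
  have hVindex : V.index = (powMonoidHom p : H →* H).range.index :=
    Subgroup.index_comap_of_surjective _ hsurj
  have hVW : V ≤ AddSubgroup.toSubgroup W := by
    intro z hz
    obtain ⟨h, hh⟩ := hz
    obtain ⟨z', rfl⟩ := hsurj h
    have e1 : Φ (z'⁻¹ ^ p * z) = 1 := by
      have e2 : Φ' (z' ^ p) = Φ' z := by rw [map_pow]; exact hh
      have e3 : Φ (z' ^ p) = Φ z := congrArg (fun y : H => (y : A)) e2
      rw [map_mul, map_pow, map_inv, inv_pow, ← map_pow, e3, inv_mul_cancel]
    have e4 := h1 (Multiplicative.toAdd (z'⁻¹ ^ p * z)) e1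
    have e5 : Multiplicative.toAdd (z'⁻¹ ^ p * z) =
        Multiplicative.toAdd z - p • Multiplicative.toAdd z' := by
      simp [toAdd_pow, sub_eq_neg_add]
    rw [e5] at e4
    have e6 := W.add_mem e4 (h2 (Multiplicative.toAdd z'))
    rw [sub_add_cancel] at e6
    exact e6
  have hfin : (powMonoidHom p : H →* H).range.index ≠ 0 := by
    rw [Subgroup.index_eq_card]
    exact Nat.card_pos.ne'
  have hV0 : V.index ≠ 0 := by rw [hVindex]; exact hfin
  have hdvd : (AddSubgroup.toSubgroup W).index ∣ V.index := Subgroup.index_dvd_of_le hVW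
  have hWV : W.index = (AddSubgroup.toSubgroup W).index := rfl
  rw [hWV]
  refine ⟨fun h0 => hV0 (Nat.eq_zero_of_zero_dvd (h0 ▸ hdvd)), ?_⟩
  calc (AddSubgroup.toSubgroup W).index ≤ V.index := Nat.le_of_dvd (Nat.pos_of_ne_zero hV0) hdvd
    _ = (powMonoidHom p : H →* H).range.index := hVindex
    _ ≤ (powMonoidHom p : A →* A).range.index := index_range_pow_subgroup_le H p

end Abs

section ClSModP

variable (F : Type*) [Field F] [NumberField F] (p : ℕ) (S : Finset Nat.Primes)

/-- `#(Cl_S(F)/p)` is the index of the `p`-th powers in `Cl_S(F)`. -/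
theorem card_clSModP_eq :
    Nat.card (helper75.ClSModP F p S) = (powMonoidHom p : ClS F S →* ClS F S).range.index := by
  have hsurj : Function.Surjective
      (QuotientGroup.mk' (Subgroup.closure (helper75.classesOverS F S))) :=
    QuotientGroup.mk'_surjective _
  rw [← Subgroup.index_comap_of_surjective _ hsurj]
  change Nat.card (ClassGroup (𝓞 F) ⧸ helper75.clSubgroup F p S) = _
  rw [← Subgroup.index_eq_card]
  congr 1
  apply le_antisymm
  · unfold helper75.clSubgroup
    rw [Subgroup.closure_le]
    rintro c (hc | ⟨d, rfl⟩)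
    · refine ⟨1, ?_⟩
      rw [map_one]
      exact ((QuotientGroup.eq_one_iff c).2 (Subgroup.subset_closure hc)).symm
    · exact ⟨QuotientGroup.mk' _ d, by simp⟩
  · rintro c ⟨d, hd⟩
    obtain ⟨d', rfl⟩ := hsurj d
    have h1 : QuotientGroup.mk' (Subgroup.closure (helper75.classesOverS F S)) (d' ^ p) =
        QuotientGroup.mk' (Subgroup.closure (helper75.classesOverS F S)) c := by
      rw [map_pow]
      exact hd
    have h2 : (d' ^ p)⁻¹ * c ∈ Subgroup.closure (helper75.classesOverS F S) :=
      QuotientGroup.eq.1 h1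
    have h3 : Subgroup.closure (helper75.classesOverS F S) ≤ helper75.clSubgroup F p S :=
      Subgroup.closure_mono Set.subset_union_left
    have h4 : d' ^ p ∈ helper75.clSubgroup F p S :=
      Subgroup.subset_closure (Set.mem_union_right _ ⟨d', rfl⟩)
    have h5 := mul_mem h4 (h3 h2)
    rwa [mul_inv_cancel_left] at h5

end ClSModP

end Fermat.Agent.S55.helper79
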