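import Fermat.Agent.S55.helper79_Rec3H1E
import Fermat.Agent.S55.helper90_Rec3Int
import Fermat.Agent.S55.helper7_BArDicG
import Fermat.Agent.S55.helper97_KumG2b
import Fermat.Agent.S55.helper5_Bridge
import Fermat.Agent.S55.helper73_IdlBasic

/-!
# S55 / REC3, package R3-H1E (helper79): the arithmetic dictionary for the `S`-units

For a finite level `E/F` inside `ℚbar` (normal over `ℚ`, unramified outside `S`):

* `ramificationIdx_eq_one_of_isUnramifiedOutside` : the primes of `E` not above `S` have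
  ramification index one over `F` (Prelude inertia groups -> ramification indices);
* `mem_sUnits_iff_principalPi` : `u ∈ Lˣ` is an `S`-unit iff its principal idele in `ℚbar` is an
  integral unit at all `q ∉ S`;
* `principalPi_Qbar_injective`, `mem_of_smul_principalPi_eq` : a principal idele fixed by
  `Gal(ℚbar/E)` comes from `E`.
-/

set_option autoImplicit false
set_option linter.unusedSectionVars false
set_option linter.style.haveILetI false

open IsDedekindDomain
open scoped NumberField nonZeroDivisors TensorProduct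

noncomputable section

namespace Fermat.Agent.S55.helper79

open Fermat.Agent.S55 Fermat.Agent.S55.helper59 Fermat.Agent.S55.helper73
  Fermat.Agent.S14.helper91

local notation "Qbar" => AlgebraicClosure ℚ

attribute [local instance] helper69.isAlgebraic_Qbar helper69.isAlgClosure_Qbar
  helper69.normal_Qbar

section Unr

variable {S : Finset Nat.Primes} {F : IntermediateField ℚ Qbar} [NumberField ↥F]
  (E : IntermediateField ↥F Qbar) [FiniteDimensional ↥F ↥E] [NumberField ↥E]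

/-- **(F4)** a finite level `E/F`, normal over `ℚ` and unramified outside `S` in the sense of the
Prelude, is unramified outside `S` in the sense of ramification indices. -/
theorem ramificationIdx_eq_one_of_isUnramifiedOutside
    (hN : Normal ℚ ↥(E.restrictScalars ℚ))
    (hE : (E.restrictScalars ℚ).IsUnramifiedOutside S)
    (P : Ideal (𝓞 ↥E)) [hP : P.IsPrime] (hP0 : P ≠ ⊥) (hPS : P ∉ helper75.primesOverS ↥E S) :
    P.ramificationIdx (𝓞 ↥F) = 1 := by
  haveI : Normal ℚ ↥E := hN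
  haveI : IsGalois ℚ ↥E := ⟨⟩
  haveI hPmax : P.IsMaximal := Ring.DimensionLEOne.maximalOfPrime hP0 hP
  obtain ⟨A, hA⟩ := exists_primeOf_eq ↥E P
  obtain ⟨ℓ, hℓ, hℓP⟩ := exists_prime_natCast_mem P hP0
  have hAℓ : A.LiesOverPrime ℓ := liesOverPrime_of_natCast_mem ↥E A (by rw [hA]; exact hℓP)
  have hℓS : (⟨ℓ, hℓ⟩ : Nat.Primes) ∉ S := fun hS => hPS ⟨hP, hP0, ⟨ℓ, hℓ⟩, hS, hℓP⟩
  set w : HeightOneSpectrum (𝓞 ↥E) := ⟨P, hP, hP0⟩ with hw
  have hv0 : P.under (𝓞 ↥F) ≠ ⊥ := Ideal.under_ne_bot (𝓞 ↥F) hP0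
  set v : HeightOneSpectrum (𝓞 ↥F) := ⟨P.under (𝓞 ↥F), inferInstance, hv0⟩ with hv
  haveI : w.asIdeal.LiesOver v.asIdeal := ⟨rfl⟩
  have hI : ∀ τ ∈ Ideal.inertia Gal(↥E/ℚ) w.asIdeal, τ = 1 := by
    intro τ hτ
    have hτ' : τ ∈ Ideal.inertia (↥E ≃ₐ[ℚ] ↥E) (primeOf ↥E A) := by rw [hA]; exact hτ
    obtain ⟨σ', hσ'I, hσ'⟩ := exists_mem_inertia_restrict_eq ↥E A hℓ hAℓ τ hτ'
    have := restrictNormalHom_eq_one_of_mem_fixingSubgroup (E.restrictScalars ℚ)
      (hE.2 ⟨ℓ, hℓ⟩ hℓS A hAℓ hσ'I)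
    rw [← hσ']
    exact this
  exact helper97.ramificationIdx_eq_one_of_inertia_trivial ↥F ↥E v w hI

end Unr

/-! ## Principal ideles of `ℚbar` coming from a number field -/

section Principal

variable (L : Type*) [Field L] [CharZero L] [Algebra L Qbar]

/-- base change `ℚ_q ⊗ L → ℚ_q ⊗ ℚbar` is injective -/
theorem bc_Qbar_injective (q : ℕ) [Fact q.Prime] : Function.Injective (bc L Qbar q) := by
  have h : Function.Injective
      (LinearMap.lTensor ℚ_[q] ((algebraMap L Qbar).toRatAlgHom.toLinearMap)) :=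
    Module.Flat.lTensor_preserves_injective_linearMap _ (algebraMap L Qbar).injective
  intro x y hxy
  apply h
  have e : ∀ z : SemiLoc q L,
      LinearMap.lTensor ℚ_[q] ((algebraMap L Qbar).toRatAlgHom.toLinearMap) z = bc L Qbar q z := by
    intro z
    induction z using TensorProduct.induction_on with
    | zero => simp
    | tmul a b => simp [bc]
    | add x y hx hy => simp only [map_add, hx, hy]
  rw [e, e, hxy]

theorem isIntegral_bc_Qbar_iff (q : ℕ) [Fact q.Prime] (x : SemiLoc q L) :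
    IsIntegral ℤ_[q] (bc L Qbar q x) ↔ IsIntegral ℤ_[q] x :=
  isIntegral_algHom_iff ((bc L Qbar q).restrictScalars ℤ_[q]) (bc_Qbar_injective L q)

theorem bcUnits_Qbar_mem_intUnits_iff (q : ℕ) [Fact q.Prime] (x : (SemiLoc q L)ˣ) :
    bcUnits L Qbar q x ∈ intUnits q Qbar ↔ x ∈ intUnits q L := by
  rw [mem_intUnits, mem_intUnits]
  have h1 : ((bcUnits L Qbar q x : (SemiLoc q Qbar)ˣ) : SemiLoc q Qbar) =
      bc L Qbar q (x : SemiLoc q L) := rfl
  have h2 : (((bcUnits L Qbar q x)⁻¹ : (SemiLoc q Qbar)ˣ) : SemiLoc q Qbar) =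
      bc L Qbar q ((x⁻¹ : (SemiLoc q L)ˣ) : SemiLoc q L) := by
    rw [← map_inv]; rfl
  rw [h1, h2, isIntegral_bc_Qbar_iff, isIntegral_bc_Qbar_iff]

/-- the principal idele of `ℚbar` attached to an element of `L` is the base change of the
principal idele of `L` -/
theorem principalPi_Qbar_map (u : Lˣ) (q : Nat.Primes) :
    principalPi Qbar (Units.map (algebraMap L Qbar : L →* Qbar) u) q =
      bcUnits L Qbar (q : ℕ) (principalPi L u q) := by
  apply Units.ext
  change (1 : ℚ_[(q : ℕ)]) ⊗ₜ[ℚ] (algebraMap L Qbar (u : L)) =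
    bc L Qbar (q : ℕ) ((1 : ℚ_[(q : ℕ)]) ⊗ₜ[ℚ] (u : L))
  rw [bc_tmul]

/-- `ℚbarˣ → ∏_q (ℚ_q ⊗ ℚbar)ˣ` is injective -/
theorem principalPi_Qbar_injective : Function.Injective (principalPi Qbar) := by
  intro x y h
  have h2 := congrArg (fun z : IdelePi Qbar => ((z ⟨2, Nat.prime_two⟩ :
    (SemiLoc (2 : ℕ) Qbar)ˣ) : SemiLoc (2 : ℕ) Qbar)) h
  have hinj : Function.Injective
      (Algebra.TensorProduct.includeRight : Qbar →ₐ[ℚ] SemiLoc (2 : ℕ) Qbar) :=
    Algebra.TensorProduct.includeRight_injective (algebraMap ℚ ℚ_[2]).injective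
  exact Units.ext (hinj h2)

end Principal

section SUnitDic

variable (S : Finset Nat.Primes) (L : Type*) [Field L] [NumberField L] [Algebra L Qbar]

/-- two distinct rational primes do not lie in the same prime ideal -/
lemma eq_of_natCast_mem {v : HeightOneSpectrum (𝓞 L)} {q q' : Nat.Primes}
    (hq : ((q : ℕ) : 𝓞 L) ∈ v.asIdeal) (hq' : ((q' : ℕ) : 𝓞 L) ∈ v.asIdeal) : q = q' := by
  by_contra hne
  have hcop : Nat.Coprime (q : ℕ) (q' : ℕ) :=
    (Nat.coprime_primes q.2 q'.2).2 fun h => hne (Subtype.ext h)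
  have hco : IsCoprime ((q : ℕ) : ℤ) ((q' : ℕ) : ℤ) := Nat.isCoprime_iff_coprime.2 hcop
  obtain ⟨a, b, hab⟩ := hco
  have h1 : ((a * ((q : ℕ) : ℤ) + b * ((q' : ℕ) : ℤ) : ℤ) : 𝓞 L) ∈ v.asIdeal := by
    push_cast
    exact v.asIdeal.add_mem (v.asIdeal.mul_mem_left _ hq) (v.asIdeal.mul_mem_left _ hq')
  rw [hab, Int.cast_one] at h1
  exact v.isPrime.ne_top ((Ideal.eq_top_iff_one _).2 h1)

/-- **(F1)** an element of `Lˣ` is an `S`-unit iff its principal idele in `ℚbar` is an integral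
unit at all `q ∉ S`. -/
theorem mem_sUnits_iff_principalPi (u : Lˣ) :
    u ∈ sUnits L S ↔ ∀ q : Nat.Primes, q ∉ S →
      principalPi Qbar (Units.map (algebraMap L Qbar : L →* Qbar) u) q ∈
        intUnits (q : ℕ) Qbar := by
  have key : ∀ q : Nat.Primes,
      principalPi Qbar (Units.map (algebraMap L Qbar : L →* Qbar) u) q ∈ intUnits (q : ℕ) Qbar ↔
        ∀ v : HeightOneSpectrum (𝓞 L), ((q : ℕ) : 𝓞 L) ∈ v.asIdeal →
          v.valuation L (u : L) = 1 := by
    intro q
    rw [principalPi_Qbar_map, bcUnits_Qbar_mem_intUnits_iff,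
      helper5.principalPi_mem_intUnits_iff]
    simp only [Int.cast_natCast]
  constructor
  · intro hu q hq
    rw [key]
    intro v hv
    refine hu v fun hvS => ?_
    obtain ⟨q', hq'S, hq'⟩ := (helper97.mem_placesOver_iff v).1 hvS
    exact hq (eq_of_natCast_mem L hv hq' ▸ hq'S)
  · intro h v hv
    obtain ⟨q, hq⟩ := helper5.exists_prime_natCast_mem L v
    have hqS : q ∉ S := fun hS => hv ((helper97.mem_placesOver_iff v).2 ⟨q, hS, hq⟩)
    exact (key q).1 (h q hqS) v hq

end SUnitDic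

/-! ## Fixed principal ideles -/

section Fixed

variable {F : IntermediateField ℚ Qbar} (E : IntermediateField ↥F Qbar)

/-- **(F3)** if the principal idele of `α ∈ ℚbarˣ` is fixed by `Gal(ℚbar/E)` then `α ∈ E`. -/
theorem mem_of_smul_principalPi_eq (α : Qbarˣ)
    (h : ∀ σ : Qbar ≃ₐ[ℚ] Qbar, σ ∈ (E.restrictScalars ℚ).fixingSubgroup →
      σ • principalPi Qbar α = principalPi Qbar α) : (α : Qbar) ∈ E := by
  have hG : IsGalois ℚ Qbar := ⟨⟩
  have h1 : ∀ σ : Qbar ≃ₐ[ℚ] Qbar, σ ∈ (E.restrictScalars ℚ).fixingSubgroup →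
      σ (α : Qbar) = (α : Qbar) := by
    intro σ hσ
    have h2 := h σ hσ
    rw [smul_principalPi] at h2
    have h3 := principalPi_Qbar_injective h2
    exact congrArg Units.val h3
  have h4 : (α : Qbar) ∈ IntermediateField.fixedField (E.restrictScalars ℚ).fixingSubgroup :=
    fun σ => h1 σ.1 σ.2
  rw [InfiniteGalois.fixedField_fixingSubgroup] at h4
  exact h4

end Fixed

end Fermat.Agent.S55.helper79
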