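import Fermat.Agent.S55.helper79_Rec3H1EDic
import Fermat.Agent.S55.helper79_Rec3H1EAbs

/-!
# S55 / REC3, package R3-H1E (helper79): realisation of level cocycles of `E_S` at finite level

* `GoodLevel S F` : finite Galois levels `E/F` inside `ℚbar`, normal over `ℚ`, unramified outside
  `S`; `pIdele X` : the principal idele of `ℚbar` of a unit of the level;
* `valPi` : the underlying idele of an element of `repES S F hF`;
* `IsRealized hF X a z` : the level cochain `z : U → E_S` is the inflation of
  `a : Gal(E/F) → Eˣ`;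
* `exists_isRealized` : every level 1-cocycle of `E_S` is realised by an `S`-unit valued
  1-cocycle of some good level.
-/

set_option autoImplicit false
set_option linter.unusedSectionVars false
set_option linter.style.haveILetI false

open IsDedekindDomain groupCohomology
open scoped NumberField nonZeroDivisors TensorProduct

noncomputable section

namespace Fermat.Agent.S55.helper79

open Fermat.Agent.S55 Fermat.Agent.S55.helper59 Fermat.Agent.S55.helper73
  Fermat.Agent.S55.helper69 Fermat.Agent.S55.helper90 Fermat.Agent.S55.helper7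

local notation "Qbar" => AlgebraicClosure ℚ

attribute [local instance] helper69.isAlgebraic_Qbar helper69.isAlgClosure_Qbar
  helper69.normal_Qbar

/-! ## Good levels -/

section Level

variable (S : Finset Nat.Primes) (F : IntermediateField ℚ Qbar)

/-- a finite Galois level `E/F` inside `ℚbar`, normal over `ℚ` and unramified outside `S` -/
structure GoodLevel where
  /-- the field -/
  E : IntermediateField ↥F Qbar
  fin : FiniteDimensional ↥F ↥E
  gal : IsGalois ↥F ↥E
  nor : Normal ℚ ↥(E.restrictScalars ℚ)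
  unr : (E.restrictScalars ℚ).IsUnramifiedOutside S

attribute [instance] GoodLevel.fin GoodLevel.gal

variable {S F}

instance GoodLevel.numberField [NumberField ↥F] (X : GoodLevel S F) : NumberField ↥X.E :=
  haveI : FiniteDimensional ℚ ↥X.E := Module.Finite.trans ↥F ↥X.E
  ⟨⟩

/-- the principal idele of `ℚbar` attached to a unit of a level -/
def pIdele (X : GoodLevel S F) : (↥X.E)ˣ →* IdelePi Qbar :=
  (principalPi Qbar).comp (Units.map (algebraMap ↥X.E Qbar : ↥X.E →* Qbar))

lemma pIdele_apply (X : GoodLevel S F) (u : (↥X.E)ˣ) :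
    pIdele X u = principalPi Qbar (Units.map (algebraMap ↥X.E Qbar : ↥X.E →* Qbar) u) := rfl

lemma pIdele_injective (X : GoodLevel S F) : Function.Injective (pIdele X) := by
  intro u v h
  have h1 := principalPi_Qbar_injective h
  exact Units.map_injective (algebraMap ↥X.E Qbar).injective h1

/-- equivariance of `pIdele` -/
lemma pIdele_smul (X : GoodLevel S F) (σ : UF F) (u : (↥X.E)ˣ) :
    pIdele X (resFix F X.E σ • u) = (σ : Qbar ≃ₐ[ℚ] Qbar) • pIdele X u := by
  rw [pIdele_apply, pIdele_apply, smul_principalPi]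
  congr 1
  apply Units.ext
  exact resFix_apply_coe F X.E σ (u : ↥X.E)

end Level

/-! ## Realisation of level cocycles at finite level -/

section Real

variable {S : Finset Nat.Primes} {F : IntermediateField ℚ Qbar} (hF : F.IsUnramifiedOutside S)

/-- the underlying element of `∏_q (ℚ_q ⊗ ℚbar)ˣ` of an element of `E_S` -/
def valPi (x : repES S F hF) : IdelePi Qbar :=
  (((Additive.toMul x : bigES S F hF) : Idele Qbar) : IdelePi Qbar)

variable {hF}

lemma valPi_injective : Function.Injective (valPi hF) := by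
  intro x y h
  have h1 : ((Additive.toMul x : bigES S F hF) : Idele Qbar) =
      ((Additive.toMul y : bigES S F hF) : Idele Qbar) := Subtype.ext h
  have h2 : (Additive.toMul x : bigES S F hF) = Additive.toMul y := Subtype.ext h1
  exact h2

lemma valPi_add (x y : repES S F hF) : valPi hF (x + y) = valPi hF x * valPi hF y := rfl

lemma valPi_zero : valPi hF (0 : repES S F hF) = 1 := rfl

lemma valPi_neg (x : repES S F hF) : valPi hF (-x) = (valPi hF x)⁻¹ := rfl

lemma valPi_sub (x y : repES S F hF) : valPi hF (x - y) = valPi hF x / valPi hF y := by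
  rw [sub_eq_add_neg, valPi_add, valPi_neg, div_eq_mul_inv]

lemma valPi_ρ (τ : UF F) (x : repES S F hF) :
    valPi hF ((repES S F hF).ρ τ x) = (τ : Qbar ≃ₐ[ℚ] Qbar) • valPi hF x := rfl

lemma valPi_mem_intUnits (x : repES S F hF) (q : Nat.Primes) (hq : q ∉ S) :
    valPi hF x q ∈ intUnits (q : ℕ) Qbar :=
  (Additive.toMul x : bigES S F hF).2.1.2 q hq

lemma exists_principalPi_eq_valPi (x : repES S F hF) :
    ∃ α : Qbarˣ, principalPi Qbar α = valPi hF x := by
  obtain ⟨α, hα⟩ := (Additive.toMul x : bigES S F hF).2.2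
  exact ⟨α, hα⟩

variable (hF) in
/-- `a : Gal(E/F) → Eˣ` realises the cochain `z : U → E_S` -/
def IsRealized (X : GoodLevel S F) (a : (↥X.E ≃ₐ[↥F] ↥X.E) → (↥X.E)ˣ)
    (z : UF F → repES S F hF) : Prop :=
  ∀ σ : UF F, valPi hF (z σ) = pIdele X (a (resFix F X.E σ))

lemma IsRealized.unique {X : GoodLevel S F} {a a' : (↥X.E ≃ₐ[↥F] ↥X.E) → (↥X.E)ˣ}
    {z : UF F → repES S F hF} (h : IsRealized hF X a z) (h' : IsRealized hF X a' z) :
    a = a' := by
  funext g
  obtain ⟨σ, rfl⟩ := resFix_surjective F X.E g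
  exact pIdele_injective X ((h σ).symm.trans (h' σ))

lemma IsRealized.add {X : GoodLevel S F} {a a' : (↥X.E ≃ₐ[↥F] ↥X.E) → (↥X.E)ˣ}
    {z z' : UF F → repES S F hF} (h : IsRealized hF X a z) (h' : IsRealized hF X a' z') :
    IsRealized hF X (a * a') (z + z') := by
  intro σ
  rw [Pi.add_apply, valPi_add, h σ, h' σ, Pi.mul_apply, map_mul]

end Real

/-! ## Step 1: every level cocycle is realised at a finite level -/

section Rep

variable {S : Finset Nat.Primes} {F : IntermediateField ℚ Qbar} [FiniteDimensional ℚ F]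
  {hF : F.IsUnramifiedOutside S} [NumberField ↥F]

lemma cocycle_apply {z : UF F → repES S F hF}
    (hz : z ∈ Z1 (sLevelsStr S F hF) (repES S F hF)) (σ τ : UF F) :
    z (σ * τ) = (repES S F hF).ρ σ (z τ) + z σ := by
  have hcoc : (d₁₂ (repES S F hF)).hom z = 0 := hz.2
  have h := congrFun hcoc (σ, τ)
  rw [d₁₂_hom_apply] at h
  have h' : (repES S F hF).ρ σ (z τ) - z (σ * τ) + z σ = 0 := h
  have h'' : z (σ * τ) = (repES S F hF).ρ σ (z τ) + z σ := by
    rw [sub_add_eq_add_sub, sub_eq_zero] at h'
    exact h'.symm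
  exact h''

lemma cocycle_one {z : UF F → repES S F hF}
    (hz : z ∈ Z1 (sLevelsStr S F hF) (repES S F hF)) : z 1 = 0 := by
  have h := cocycle_apply hz 1 1
  rw [mul_one, map_one] at h
  have h' : z 1 = z 1 + z 1 := h
  exact left_eq_add.1 h'

theorem exists_isRealized (z : UF F → repES S F hF)
    (hz : z ∈ Z1 (sLevelsStr S F hF) (repES S F hF)) :
    ∃ (X : GoodLevel S F) (a : (↥X.E ≃ₐ[↥F] ↥X.E) → (↥X.E)ˣ),
      IsMulCocycle₁ a ∧ (∀ g, a g ∈ sUnits ↥X.E S) ∧ IsRealized hF X a z := by
  have hlev : IsLev₁ (sLevelsStr S F hF) z := hz.1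
  obtain ⟨E, hfin, hgal, hunr, f', hf'⟩ :=
    (isLev₁_glob_iff hF (sLevelsStr_mem S F hF) z).1 hlev
  obtain ⟨E', hfin', hgal', hunr', hle, -, hnor'⟩ := exists_level_ge hF E E hunr hunr
  let X : GoodLevel S F := ⟨E', hfin', hgal', hnor', hunr'⟩
  set f : (↥E' ≃ₐ[↥F] ↥E') → repES S F hF := infl₁ (resTrans E E' hle) f' with hf
  have hzf : ∀ σ, z σ = f (resFix F E' σ) := by
    intro σ
    exact congrFun (hf'.trans (infl₁_resTrans E E' hle f')) σ
  have hz1 := cocycle_one hz
  -- values are fixed by `Gal(ℚbar/E')`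
  have hfix : ∀ (σ : UF F) (τ : Qbar ≃ₐ[ℚ] Qbar), τ ∈ (E'.restrictScalars ℚ).fixingSubgroup →
      τ • valPi hF (z σ) = valPi hF (z σ) := by
    intro σ τ hτ
    have hτF : τ ∈ F.fixingSubgroup :=
      IntermediateField.fixingSubgroup_antitone (le_restrictScalars E') hτ
    set τ' : UF F := ⟨τ, hτF⟩ with hτ'
    have hker : resFix F E' τ' = 1 := by
      have : τ' ∈ (resFix F E').ker := by
        rw [ker_resFix]
        exact Subgroup.mem_subgroupOf.2 hτ
      exact this
    have h1 : z (τ' * σ) = z σ := by rw [hzf, hzf, map_mul, hker, one_mul]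
    have h2 : z τ' = 0 := by rw [hzf, hker, ← map_one (resFix F E'), ← hzf, hz1]
    have h3 := cocycle_apply hz τ' σ
    rw [h1, h2, add_zero] at h3
    have h4 := congrArg (valPi hF) h3
    rw [valPi_ρ] at h4
    exact h4.symm
  -- choose the elements
  have hex : ∀ g : (↥E' ≃ₐ[↥F] ↥E'), ∃ u : (↥E')ˣ, pIdele X u = valPi hF (f g) := by
    intro g
    obtain ⟨σ, rfl⟩ := resFix_surjective F E' g
    rw [← hzf]
    obtain ⟨α, hα⟩ := exists_principalPi_eq_valPi (z σ)
    have hαE : (α : Qbar) ∈ E' :=
      mem_of_smul_principalPi_eq E' α (fun τ hτ => by rw [hα]; exact hfix σ τ hτ)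
    refine ⟨Units.mk0 ⟨(α : Qbar), hαE⟩ ?_, ?_⟩
    · intro h0
      exact α.ne_zero (congrArg Subtype.val h0)
    · rw [pIdele_apply, ← hα]
      congr 1
      exact Units.ext rfl
  choose a ha using hex
  refine ⟨X, a, ?_, ?_, ?_⟩
  · intro g h
    obtain ⟨σ, rfl⟩ := resFix_surjective F E' g
    obtain ⟨τ, rfl⟩ := resFix_surjective F E' h
    apply pIdele_injective X
    rw [map_mul, pIdele_smul, ha, ha, ← map_mul (resFix F E'), ha, ← hzf, ← hzf, ← hzf,
      cocycle_apply hz, valPi_add, valPi_ρ]
  · intro g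
    rw [mem_sUnits_iff_principalPi]
    intro q hq
    have := valPi_mem_intUnits (f g) q hq
    rw [← ha g] at this
    exact this
  · intro σ
    rw [ha, hzf]

end Rep

end Fermat.Agent.S55.helper79
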