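import Fermat.Agent.S55.helper97_KumGDefs
import Fermat.Agent.S14.helper56_InvariantIdeal

/-!
# S55 / REC3 (helper79): `S`-ideals, the `S`-class group, `S`-units as units of `𝓞[1/N]`

Basic vocabulary for package R3-H1E (`H¹(Gal(L/K), E_S(L)) ↪ Cl_S(K)`), for a number field `K`
and a finite set `S` of rational primes, `N = ∏_{q ∈ S} q`:

* `sProd S` : the integer `N`;
* `IsSIdeal K S I` : the ideal `I` of `𝓞 K` contains a power of `N` (is supported above `S`);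
* `ClS K S`, `mkS` : the `S`-class group `Cl(K) / ⟨primes above S⟩` and the class map;
* `mem_sunit_iff` : `u` is an `S`-unit iff `N ^ k u` and `N ^ k u⁻¹` are integral for some `k`;
* `exists_map_eq_of_invariant_of_unram` : Galois-invariant ideals whose prime divisors are
  unramified are extended from the base field.
-/

set_option autoImplicit false
set_option linter.unusedSectionVars false
set_option linter.style.haveILetI false

open IsDedekindDomain WithZero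
open scoped NumberField nonZeroDivisors Pointwise

noncomputable section

namespace Fermat.Agent.S55.helper79

/-! ## The integer `N = ∏_{q ∈ S} q` and `S`-ideals -/

section Basic

/-- the product of the primes of `S` -/
def sProd (S : Finset Nat.Primes) : ℕ := ∏ q ∈ S, (q : ℕ)

lemma sProd_ne_zero (S : Finset Nat.Primes) : sProd S ≠ 0 :=
  Finset.prod_ne_zero_iff.2 fun q _ => q.2.ne_zero

variable (K : Type*) [Field K] [NumberField K] (S : Finset Nat.Primes)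

lemma sProd_cast_ne_zero : ((sProd S : ℕ) : 𝓞 K) ≠ 0 :=
  Nat.cast_ne_zero.2 (sProd_ne_zero S)

variable {K S} in
/-- a prime ideal contains `N` iff it contains one of the primes of `S` -/
lemma sProd_mem_iff {P : Ideal (𝓞 K)} [hP : P.IsPrime] :
    ((sProd S : ℕ) : 𝓞 K) ∈ P ↔ ∃ q ∈ S, ((q : ℕ) : 𝓞 K) ∈ P := by
  unfold sProd
  rw [Nat.cast_prod]
  exact hP.prod_mem_iff

variable {K S} in
lemma mem_primesOverS_iff_sProd {P : Ideal (𝓞 K)} [hP : P.IsPrime] (h0 : P ≠ ⊥) :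
    P ∈ helper75.primesOverS K S ↔ ((sProd S : ℕ) : 𝓞 K) ∈ P := by
  rw [sProd_mem_iff]
  exact ⟨fun h => h.2.2, fun h => ⟨hP, h0, h⟩⟩

variable {K S} in
lemma mem_placesOver_iff_sProd (v : HeightOneSpectrum (𝓞 K)) :
    v ∈ helper97.placesOver K S ↔ ((sProd S : ℕ) : 𝓞 K) ∈ v.asIdeal := by
  haveI := v.isPrime
  rw [helper97.mem_placesOver_iff, sProd_mem_iff]

/-- an ideal of `𝓞 K` supported on the primes above `S`: it contains a power of `N` -/
def IsSIdeal (I : Ideal (𝓞 K)) : Prop := ∃ k : ℕ, ((sProd S : ℕ) : 𝓞 K) ^ k ∈ I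

variable {K S}

lemma isSIdeal_top : IsSIdeal K S ⊤ := ⟨0, Submodule.mem_top⟩

lemma IsSIdeal.of_le {I J : Ideal (𝓞 K)} (h : IsSIdeal K S I) (hIJ : I ≤ J) : IsSIdeal K S J := by
  obtain ⟨k, hk⟩ := h
  exact ⟨k, hIJ hk⟩

lemma IsSIdeal.mul {I J : Ideal (𝓞 K)} (hI : IsSIdeal K S I) (hJ : IsSIdeal K S J) :
    IsSIdeal K S (I * J) := by
  obtain ⟨k, hk⟩ := hI
  obtain ⟨l, hl⟩ := hJ
  exact ⟨k + l, by rw [pow_add]; exact Ideal.mul_mem_mul hk hl⟩

lemma IsSIdeal.ne_bot {I : Ideal (𝓞 K)} (h : IsSIdeal K S I) : I ≠ ⊥ := by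
  obtain ⟨k, hk⟩ := h
  rintro rfl
  exact pow_ne_zero k (sProd_cast_ne_zero K S) (by simpa using hk)

lemma isSIdeal_span_sProd_pow (k : ℕ) :
    IsSIdeal K S (Ideal.span {((sProd S : ℕ) : 𝓞 K) ^ k}) :=
  ⟨k, Ideal.mem_span_singleton_self _⟩

lemma IsSIdeal.map {L : Type*} [Field L] [NumberField L] [Algebra K L] {I : Ideal (𝓞 K)}
    (h : IsSIdeal K S I) : IsSIdeal L S (I.map (algebraMap (𝓞 K) (𝓞 L))) := by
  obtain ⟨k, hk⟩ := h
  refine ⟨k, ?_⟩
  have := Ideal.mem_map_of_mem (algebraMap (𝓞 K) (𝓞 L)) hk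
  simpa using this

/-- a prime containing an `S`-ideal lies above `S` -/
lemma IsSIdeal.mem_primesOverS {I P : Ideal (𝓞 K)} (h : IsSIdeal K S I) [hP : P.IsPrime]
    (hIP : I ≤ P) : P ∈ helper75.primesOverS K S := by
  obtain ⟨k, hk⟩ := h
  have h0 : P ≠ ⊥ := fun h0 => (IsSIdeal.ne_bot ⟨k, hk⟩) (le_bot_iff.1 (h0 ▸ hIP))
  rw [mem_primesOverS_iff_sProd h0]
  exact hP.mem_of_pow_mem k (hIP hk)

end Basic

/-! ## The `S`-class group -/

section ClS

variable (K : Type*) [Field K] [NumberField K] (S : Finset Nat.Primes)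

/-- the `S`-class group `Cl_S(K) = Cl(K) / ⟨classes of the primes above S⟩` -/
abbrev ClS : Type _ := ClassGroup (𝓞 K) ⧸ Subgroup.closure (helper75.classesOverS K S)

/-- the class of a nonzero ideal in the `S`-class group -/
def mkS : (Ideal (𝓞 K))⁰ →* ClS K S :=
  (QuotientGroup.mk' (Subgroup.closure (helper75.classesOverS K S))).comp ClassGroup.mk0

variable {K S}

lemma mkS_surjective : Function.Surjective (mkS K S) :=
  (QuotientGroup.mk'_surjective _).comp ClassGroup.mk0_surjective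

lemma mkS_eq_one_iff (I : (Ideal (𝓞 K))⁰) :
    mkS K S I = 1 ↔ ClassGroup.mk0 I ∈ Subgroup.closure (helper75.classesOverS K S) := by
  simp only [mkS, MonoidHom.coe_comp, Function.comp_apply, QuotientGroup.mk'_apply,
    QuotientGroup.eq_one_iff]

/-- the class of an `S`-ideal is trivial in `Cl_S` -/
lemma mk0_mem_closure_of_isSIdeal (I : Ideal (𝓞 K)) :
    ∀ hI : I ∈ (Ideal (𝓞 K))⁰, IsSIdeal K S I →
      ClassGroup.mk0 ⟨I, hI⟩ ∈ Subgroup.closure (helper75.classesOverS K S) := by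
  induction I using UniqueFactorizationMonoid.induction_on_prime with
  | h₁ =>
    intro hI
    exact absurd rfl (nonZeroDivisors.ne_zero hI)
  | h₂ x hx =>
    intro hI _
    have hx1 : x = 1 := by
      rw [Ideal.one_eq_top]
      exact Ideal.isUnit_iff.1 hx
    subst hx1
    have : (⟨1, hI⟩ : (Ideal (𝓞 K))⁰) = 1 := rfl
    rw [this, map_one]
    exact one_mem _
  | h₃ a P ha hP ih =>
    intro hI hS
    have hP0 : P ≠ 0 := hP.ne_zero
    have hPm : P ∈ (Ideal (𝓞 K))⁰ := mem_nonZeroDivisors_of_ne_zero hP0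
    have ham : a ∈ (Ideal (𝓞 K))⁰ := mem_nonZeroDivisors_of_ne_zero ha
    have hmul : (⟨P * a, hI⟩ : (Ideal (𝓞 K))⁰) = ⟨P, hPm⟩ * ⟨a, ham⟩ := rfl
    rw [hmul, map_mul]
    refine mul_mem ?_ (ih ham (hS.of_le Ideal.mul_le_right))
    haveI hPp : P.IsPrime := Ideal.isPrime_of_prime hP
    refine Subgroup.subset_closure ⟨⟨P, hPm⟩, ?_, rfl⟩
    exact (hS.of_le Ideal.mul_le_left).mem_primesOverS le_rfl

lemma mkS_eq_one_of_isSIdeal (I : (Ideal (𝓞 K))⁰) (h : IsSIdeal K S (I : Ideal (𝓞 K))) :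
    mkS K S I = 1 := by
  rw [mkS_eq_one_iff]
  exact mk0_mem_closure_of_isSIdeal (I : Ideal (𝓞 K)) I.2 h

/-- the class in `Cl_S` of a principal ideal is trivial -/
lemma mkS_span_singleton (x : 𝓞 K) (hx : x ≠ 0)
    (h : Ideal.span {x} ∈ (Ideal (𝓞 K))⁰ := mem_nonZeroDivisors_of_ne_zero
      (by rwa [Ne, Ideal.zero_eq_bot, Ideal.span_singleton_eq_bot])) :
    mkS K S ⟨Ideal.span {x}, h⟩ = 1 := by
  rw [mkS_eq_one_iff]
  have : ClassGroup.mk0 (⟨Ideal.span {x}, h⟩ : (Ideal (𝓞 K))⁰) = 1 := by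
    rw [ClassGroup.mk0_eq_one_iff]
    exact ⟨⟨x, rfl⟩⟩
  rw [this]
  exact one_mem _

end ClS

/-! ## `S`-units and `𝓞[1/N]` -/

section SUnitBridge

variable (K : Type*) [Field K] [NumberField K] (S : Finset Nat.Primes)

/-- in `ℤᵐ⁰`: if `a < 1` then `a ^ m * b ≤ 1` for all large `m` -/
lemma exists_forall_pow_mul_le_one (a b : ℤᵐ⁰) (ha : a < 1) :
    ∃ k : ℕ, ∀ m : ℕ, k ≤ m → a ^ m * b ≤ 1 := by
  by_cases hb : b = 0
  · exact ⟨0, fun m _ => by simp [hb]⟩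
  by_cases ha0 : a = 0
  · refine ⟨1, fun m hm => ?_⟩
    rw [ha0, zero_pow (by omega), zero_mul]
    exact zero_le_one
  have hla : log a ≤ -1 := by
    have : log a < 0 := by
      rw [log_lt_iff_lt_exp ha0, exp_zero]
      exact ha
    omega
  refine ⟨(log b).toNat, fun m hm => ?_⟩
  have hne : a ^ m * b ≠ 0 := mul_ne_zero (pow_ne_zero m ha0) hb
  rw [← exp_zero, ← log_le_iff_le_exp hne, log_mul (pow_ne_zero m ha0) hb, log_pow]
  have h1 : (log b) ≤ (m : ℤ) := by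
    have := Int.self_le_toNat (log b)
    omega
  have h2 : m • log a ≤ -(m : ℤ) := by
    rw [nsmul_eq_mul]
    nlinarith
  omega

variable {K S}

lemma valuation_sProd_le_one (v : HeightOneSpectrum (𝓞 K)) :
    v.valuation K ((sProd S : ℕ) : K) ≤ 1 := by
  have := v.valuation_le_one (K := K) ((sProd S : ℕ) : 𝓞 K)
  simpa using this

lemma valuation_sProd_lt_one {v : HeightOneSpectrum (𝓞 K)} (hv : v ∈ helper97.placesOver K S) :
    v.valuation K ((sProd S : ℕ) : K) < 1 := by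
  have := (v.valuation_lt_one_iff_mem (K := K) ((sProd S : ℕ) : 𝓞 K)).2
    ((mem_placesOver_iff_sProd v).1 hv)
  simpa using this

lemma valuation_sProd_eq_one {v : HeightOneSpectrum (𝓞 K)} (hv : v ∉ helper97.placesOver K S) :
    v.valuation K ((sProd S : ℕ) : K) = 1 := by
  refine le_antisymm (valuation_sProd_le_one v) (not_lt.1 fun h => hv ?_)
  rw [mem_placesOver_iff_sProd]
  have h' : v.valuation K (algebraMap (𝓞 K) K ((sProd S : ℕ) : 𝓞 K)) < 1 := by simpa using h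
  exact (v.valuation_lt_one_iff_mem (K := K) _).1 h'

variable (K S) in
lemma finite_placesOver : (helper97.placesOver K S).Finite := by
  have h0 : Ideal.span {((sProd S : ℕ) : 𝓞 K)} ≠ 0 := by
    rw [Ne, Ideal.zero_eq_bot, Ideal.span_singleton_eq_bot]
    exact sProd_cast_ne_zero K S
  refine (Ideal.finite_factors h0).subset fun v hv => ?_
  rw [Set.mem_ofPred_eq, Ideal.dvd_iff_le, Ideal.span_singleton_le_iff_mem]
  exact (mem_placesOver_iff_sProd v).1 hv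

/-- an element which is integral outside `S` becomes integral after multiplication by a power of
`N` -/
lemma exists_sProd_pow_mul_eq (u : K)
    (hu : ∀ v : HeightOneSpectrum (𝓞 K), v ∉ helper97.placesOver K S → v.valuation K u ≤ 1) :
    ∃ k : ℕ, ∃ x : 𝓞 K, algebraMap (𝓞 K) K x = ((sProd S : ℕ) : K) ^ k * u := by
  classical
  have hfin := finite_placesOver K S
  choose! kv hkv using fun v : HeightOneSpectrum (𝓞 K) =>
    fun hv : v ∈ helper97.placesOver K S =>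
      exists_forall_pow_mul_le_one _ (v.valuation K u) (valuation_sProd_lt_one hv)
  refine ⟨∑ v ∈ hfin.toFinset, kv v, ?_⟩
  obtain ⟨x, hx⟩ := HeightOneSpectrum.mem_integers_of_valuation_le_one K
    (((sProd S : ℕ) : K) ^ (∑ v ∈ hfin.toFinset, kv v) * u) (fun v => by
      rw [map_mul, map_pow]
      by_cases hv : v ∈ helper97.placesOver K S
      · exact hkv v hv _ (Finset.single_le_sum (f := kv) (fun _ _ => Nat.zero_le _)
          (hfin.mem_toFinset.2 hv))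
      · rw [valuation_sProd_eq_one hv, one_pow, one_mul]
        exact hu v hv)
  exact ⟨x, hx⟩

/-- `S`-units are the units of `𝓞[1/N]` -/
lemma mem_sunit_iff (u : Kˣ) :
    u ∈ (helper97.placesOver K S).unit K ↔
      ∃ k : ℕ, ∃ x y : 𝓞 K, algebraMap (𝓞 K) K x = ((sProd S : ℕ) : K) ^ k * (u : K) ∧
        algebraMap (𝓞 K) K y = ((sProd S : ℕ) : K) ^ k * ((u⁻¹ : Kˣ) : K) := by
  constructor
  · intro hu
    have h1 : ∀ v : HeightOneSpectrum (𝓞 K), v ∉ helper97.placesOver K S →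
        v.valuation K (u : K) = 1 := fun v hv => hu v hv
    obtain ⟨k, x, hx⟩ := exists_sProd_pow_mul_eq (S := S) (u : K) (fun v hv => (h1 v hv).le)
    obtain ⟨l, y, hy⟩ := exists_sProd_pow_mul_eq (S := S) ((u⁻¹ : Kˣ) : K) (fun v hv => by
      rw [Units.val_inv_eq_inv_val, map_inv₀, h1 v hv, inv_one])
    refine ⟨k + l, ((sProd S : ℕ) : 𝓞 K) ^ l * x, ((sProd S : ℕ) : 𝓞 K) ^ k * y, ?_, ?_⟩
    · rw [map_mul, hx, map_pow, map_natCast]
      ring
    · rw [map_mul, hy, map_pow, map_natCast]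
      ring
  · rintro ⟨k, x, y, hx, hy⟩ v hv
    have hN := valuation_sProd_eq_one hv
    have h1 : v.valuation K (u : K) ≤ 1 := by
      have : v.valuation K (algebraMap (𝓞 K) K x) ≤ 1 := v.valuation_le_one (K := K) x
      rwa [hx, map_mul, map_pow, hN, one_pow, one_mul] at this
    have h2 : v.valuation K ((u⁻¹ : Kˣ) : K) ≤ 1 := by
      have : v.valuation K (algebraMap (𝓞 K) K y) ≤ 1 := v.valuation_le_one (K := K) y
      rwa [hy, map_mul, map_pow, hN, one_pow, one_mul] at this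
    rw [Units.val_inv_eq_inv_val, map_inv₀] at h2
    have hne : v.valuation K (u : K) ≠ 0 := (Valuation.ne_zero_iff _).2 u.ne_zero
    refine le_antisymm h1 ?_
    by_contra hlt
    rw [not_le] at hlt
    have := (one_lt_inv₀ (zero_lt_iff.2 hne)).2 hlt
    exact absurd h2 (not_le.2 this)

end SUnitBridge


/-! ## Invariant ideals all of whose prime divisors are unramified are extended -/

section Invariant

variable {K L : Type*} [Field K] [NumberField K] [Field L] [NumberField L] [Algebra K L]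
  [IsGalois K L]

/-- in a Galois extension of number fields, a nonzero `Gal(L/K)`-stable ideal of `𝓞 L` all of
whose prime divisors are unramified over `K` is extended from `𝓞 K`
(generalisation of `S14.helper56.exists_map_eq_of_invariant`, same proof). -/
theorem exists_map_eq_of_invariant_of_unram (𝔄 : Ideal (𝓞 L)) (h𝔄 : 𝔄 ≠ ⊥)
    (hunr : ∀ (P : Ideal (𝓞 L)) [P.IsPrime], P ≠ ⊥ → 𝔄 ≤ P → P.ramificationIdx (𝓞 K) = 1)
    (hinv : ∀ σ : Gal(L/K), ∀ x ∈ 𝔄, σ • x ∈ 𝔄) :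
    ∃ 𝔞 : Ideal (𝓞 K), 𝔞.map (algebraMap (𝓞 K) (𝓞 L)) = 𝔄 := by
  classical
  induction hn : Ideal.absNorm 𝔄 using Nat.strong_induction_on generalizing 𝔄 with
  | _ n ih =>
  by_cases htop : 𝔄 = ⊤
  · exact ⟨⊤, by rw [Ideal.map_top, htop]⟩
  obtain ⟨P, hPmax, hAP⟩ := Ideal.exists_le_maximal 𝔄 htop
  have hP0 : P ≠ ⊥ := fun h => h𝔄 (le_bot_iff.mp (h ▸ hAP))
  haveI hPprime : P.IsPrime := hPmax.isPrime
  set 𝔭 : Ideal (𝓞 K) := P.under (𝓞 K) with h𝔭
  haveI : P.LiesOver 𝔭 := ⟨rfl⟩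
  haveI h𝔭max : 𝔭.IsMaximal := Ideal.IsMaximal.under (𝓞 K) P
  have h𝔭0 : 𝔭 ≠ ⊥ := Ideal.under_ne_bot (𝓞 K) hP0
  have hprod : 𝔭.map (algebraMap (𝓞 K) (𝓞 L)) = ∏ Q ∈ 𝔭.primesOver (𝓞 L), Q := by
    rw [Ideal.map_algebraMap_eq_finsetProd_pow h𝔭0]
    refine Finset.prod_congr rfl fun Q hQ => ?_
    have hQ' : Q ∈ 𝔭.primesOver (𝓞 L) := by simpa using hQ
    haveI : Q.IsPrime := hQ'.1
    haveI : Q.LiesOver 𝔭 := hQ'.2
    have hQ0 : Q ≠ ⊥ := Ideal.ne_bot_of_liesOver_of_ne_bot h𝔭0 Q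
    rw [hunr Q hQ0 (S14.helper56.le_of_le_of_liesOver 𝔄 hinv 𝔭 P Q hAP), pow_one]
  have hdvd : 𝔭.map (algebraMap (𝓞 K) (𝓞 L)) ∣ 𝔄 := by
    rw [hprod]
    refine Finset.prod_primes_dvd 𝔄 (fun Q hQ => ?_) (fun Q hQ => ?_)
    · have hQ' : Q ∈ 𝔭.primesOver (𝓞 L) := by simpa using hQ
      haveI : Q.IsPrime := hQ'.1
      haveI : Q.LiesOver 𝔭 := hQ'.2
      exact Ideal.prime_of_isPrime (Ideal.ne_bot_of_liesOver_of_ne_bot h𝔭0 Q) hQ'.1
    · have hQ' : Q ∈ 𝔭.primesOver (𝓞 L) := by simpa using hQ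
      haveI : Q.IsPrime := hQ'.1
      haveI : Q.LiesOver 𝔭 := hQ'.2
      exact Ideal.dvd_iff_le.mpr (S14.helper56.le_of_le_of_liesOver 𝔄 hinv 𝔭 P Q hAP)
  obtain ⟨𝔅, h𝔅⟩ := hdvd
  have hext0 : 𝔭.map (algebraMap (𝓞 K) (𝓞 L)) ≠ ⊥ := Ideal.map_ne_bot_of_ne_bot h𝔭0
  have h𝔅0 : 𝔅 ≠ ⊥ := by
    rintro rfl
    exact h𝔄 (by rw [h𝔅, Ideal.mul_bot])
  have hle : 𝔄 ≤ 𝔅 := by
    rw [h𝔅]
    exact Ideal.mul_le_right
  have h𝔅inv : ∀ σ : Gal(L/K), ∀ x ∈ 𝔅, σ • x ∈ 𝔅 := by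
    intro σ x hx
    have h1 : σ • 𝔄 = 𝔄 := S14.helper56.smul_eq_of_forall_smul_mem 𝔄 hinv σ
    have h2 : σ • 𝔅 = 𝔅 := by
      have h3 : 𝔭.map (algebraMap (𝓞 K) (𝓞 L)) * (σ • 𝔅) =
          𝔭.map (algebraMap (𝓞 K) (𝓞 L)) * 𝔅 := by
        calc 𝔭.map (algebraMap (𝓞 K) (𝓞 L)) * (σ • 𝔅)
            = (σ • 𝔭.map (algebraMap (𝓞 K) (𝓞 L))) * (σ • 𝔅) := by
              rw [S14.helper56.smul_map_algebraMap]
          _ = σ • (𝔭.map (algebraMap (𝓞 K) (𝓞 L)) * 𝔅) := (smul_mul' σ _ _).symm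
          _ = 𝔭.map (algebraMap (𝓞 K) (𝓞 L)) * 𝔅 := by rw [← h𝔅, h1]
      exact mul_left_cancel₀ hext0 h3
    rw [← h2]
    exact Ideal.smul_mem_pointwise_smul σ x 𝔅 hx
  have hnorm : Ideal.absNorm 𝔅 < n := by
    have h1 : Ideal.absNorm 𝔄 = Ideal.absNorm (𝔭.map (algebraMap (𝓞 K) (𝓞 L))) *
        Ideal.absNorm 𝔅 := by rw [h𝔅, map_mul]
    have h2 : Ideal.absNorm 𝔅 ≠ 0 := fun h => h𝔅0 (Ideal.absNorm_eq_zero_iff.mp h)
    have h3 : Ideal.absNorm (𝔭.map (algebraMap (𝓞 K) (𝓞 L))) ≠ 0 :=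
      fun h => hext0 (Ideal.absNorm_eq_zero_iff.mp h)
    have h4 : Ideal.absNorm (𝔭.map (algebraMap (𝓞 K) (𝓞 L))) ≠ 1 := by
      intro h
      have htop' : 𝔭.map (algebraMap (𝓞 K) (𝓞 L)) = ⊤ := Ideal.absNorm_eq_one_iff.mp h
      have hle : 𝔭.map (algebraMap (𝓞 K) (𝓞 L)) ≤ P := Ideal.map_comap_le
      exact hPprime.ne_top (top_le_iff.mp (htop' ▸ hle))
    rw [← hn, h1]
    have h5 : 2 ≤ Ideal.absNorm (𝔭.map (algebraMap (𝓞 K) (𝓞 L))) := by omega
    have h6 : 1 ≤ Ideal.absNorm 𝔅 := by omega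
    nlinarith
  obtain ⟨𝔟, h𝔟⟩ := ih _ hnorm 𝔅 h𝔅0
    (fun Q _ hQ0 hQ => hunr Q hQ0 (hle.trans hQ)) h𝔅inv rfl
  exact ⟨𝔭 * 𝔟, by rw [Ideal.map_mul, h𝔟, h𝔅]⟩

end Invariant

end Fermat.Agent.S55.helper79
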