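import Fermat.Agent.S55.helper33_Rec2Defs

/-!
# S55 / REC2, package R2-SYM-D (helper82, task 376): density step and (T3)

* `symD_norm_isIntegral` : the norm of an element of a finite free `ℚ_q`-algebra which is
  integral over `ℤ_q` lies in `ℤ_q`;
* `symD_norm_one_add_smul` : `N(1 + q z) ∈ 1 + q ℤ_q` for `z` integral over `ℤ_q`;
* `cycSymAt_eq_one_of_mem_princUnits` : the local cyclotomic symbol modulo `l` is trivial on
  principal units (all `q`, including `q = l`);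
* `exists_principal_cycSymAt_eq_of` (R2-SYM-D) and `cycSymFun_eq_one_of_primitiveRoot_of` (T3):
  the statements of the REC2 interface, with the packages CL-3 and R2-SYM-C as hypotheses.
-/

set_option autoImplicit false

open scoped TensorProduct NumberField

namespace Fermat.Agent.S55.helper82

open Fermat.Agent.S55.helper73 Fermat.Agent.S55.helper33

section Spectrum

variable {R Ω : Type*} [CommRing R] [Field Ω] [Algebra R Ω]
  {n : Type*} [Fintype n] [DecidableEq n]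

/-- An eigenvalue of a matrix that is integral over `R` is integral over `R`. -/
theorem symD_isIntegral_of_mem_spectrum {Z : Matrix n n Ω} (hZ : IsIntegral R Z) {μ : Ω}
    (hμ : μ ∈ spectrum Ω Z) : IsIntegral R μ := by
  obtain ⟨P, hP, hPZ⟩ := hZ
  refine ⟨P, hP, ?_⟩
  have h1 := spectrum.subset_polynomial_aeval Z (P.map (algebraMap R Ω)) ⟨μ, hμ, rfl⟩
  have h2 : Polynomial.aeval Z (P.map (algebraMap R Ω)) = 0 := by
    rw [Polynomial.aeval_map_algebraMap]
    exact hPZ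
  rw [h2] at h1
  have hnt : Nontrivial (Matrix n n Ω) := by
    by_contra hcon
    rw [not_nontrivial_iff_subsingleton] at hcon
    rw [spectrum.of_subsingleton] at hμ
    exact hμ
  have h3 : Polynomial.eval μ (P.map (algebraMap R Ω)) = 0 := by
    have := spectrum.zero_eq (𝕜 := Ω) (A := Matrix n n Ω)
    rw [this] at h1
    exact h1
  rw [Polynomial.eval₂_eq_eval_map]
  exact h3

end Spectrum

section Norm

variable (q : ℕ) [Fact q.Prime] {A : Type*} [CommRing A] [Algebra ℚ_[q] A]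
  [Module.Free ℚ_[q] A] [Module.Finite ℚ_[q] A]

/-- The image in the algebraic closure of the matrix of multiplication by `x`. -/
noncomputable def symDMat (x : A) :
    Matrix (Module.Free.ChooseBasisIndex ℚ_[q] A) (Module.Free.ChooseBasisIndex ℚ_[q] A)
      (AlgebraicClosure ℚ_[q]) :=
  (Algebra.leftMulMatrix (Module.Free.chooseBasis ℚ_[q] A) x).map
    (algebraMap ℚ_[q] (AlgebraicClosure ℚ_[q]))

theorem symDMat_det (x : A) :
    (symDMat q x).det = algebraMap ℚ_[q] (AlgebraicClosure ℚ_[q]) (Algebra.norm ℚ_[q] x) := by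
  classical
  rw [Algebra.norm_eq_matrix_det (Module.Free.chooseBasis ℚ_[q] A), RingHom.map_det]
  rfl

variable [Algebra ℤ_[q] A] [IsScalarTower ℤ_[q] ℚ_[q] A]

theorem symDMat_isIntegral {x : A} (hx : IsIntegral ℤ_[q] x) :
    IsIntegral ℤ_[q] (symDMat q x) := by
  classical
  have h1 : IsIntegral ℤ_[q] (Algebra.leftMulMatrix (Module.Free.chooseBasis ℚ_[q] A) x) :=
    hx.map ((Algebra.leftMulMatrix (Module.Free.chooseBasis ℚ_[q] A)).restrictScalars ℤ_[q])
  exact h1.map ((IsScalarTower.toAlgHom ℤ_[q] ℚ_[q] (AlgebraicClosure ℚ_[q])).mapMatrix)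

theorem symD_isIntegral_of_isRoot {x : A} (hx : IsIntegral ℤ_[q] x)
    {μ : AlgebraicClosure ℚ_[q]} (hμ : μ ∈ (symDMat q x).charpoly.roots) :
    IsIntegral ℤ_[q] μ := by
  classical
  have h1 : μ ∈ spectrum (AlgebraicClosure ℚ_[q]) (symDMat q x) := by
    rw [Matrix.mem_spectrum_iff_isRoot_charpoly]
    exact Polynomial.isRoot_of_mem_roots hμ
  exact symD_isIntegral_of_mem_spectrum (symDMat_isIntegral q hx) h1

/-- An element of `ℚ_q` whose image in the algebraic closure is integral over `ℤ_q` lies in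
`ℤ_q`. -/
theorem symD_mem_padicInt_of_isIntegral {a : ℚ_[q]}
    (ha : IsIntegral ℤ_[q] (algebraMap ℚ_[q] (AlgebraicClosure ℚ_[q]) a)) :
    ∃ w : ℤ_[q], a = (w : ℚ_[q]) := by
  have h1 : IsIntegral ℤ_[q] a :=
    (isIntegral_algebraMap_iff (algebraMap ℚ_[q] (AlgebraicClosure ℚ_[q])).injective).mp ha
  obtain ⟨w, hw⟩ := IsIntegrallyClosed.isIntegral_iff.mp h1
  exact ⟨w, hw.symm⟩

/-- The norm of an element integral over `ℤ_q` lies in `ℤ_q`. -/
theorem symD_norm_isIntegral {x : A} (hx : IsIntegral ℤ_[q] x) :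
    ∃ w : ℤ_[q], Algebra.norm ℚ_[q] x = (w : ℚ_[q]) := by
  classical
  apply symD_mem_padicInt_of_isIntegral
  rw [← symDMat_det, Matrix.det_eq_prod_roots_charpoly]
  exact Subring.multiset_prod_mem (integralClosure ℤ_[q] (AlgebraicClosure ℚ_[q])).toSubring _
    (fun μ hμ => symD_isIntegral_of_isRoot q hx hμ)

omit [Algebra ℤ_[q] A] [IsScalarTower ℤ_[q] ℚ_[q] A] [Module.Free ℚ_[q] A]
  [Module.Finite ℚ_[q] A] in
theorem symD_isIntegral_q :
    IsIntegral ℤ_[q] (algebraMap ℚ_[q] (AlgebraicClosure ℚ_[q]) (q : ℚ_[q])) := by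
  have : algebraMap ℚ_[q] (AlgebraicClosure ℚ_[q]) (q : ℚ_[q])
      = algebraMap ℤ_[q] (AlgebraicClosure ℚ_[q]) (q : ℤ_[q]) := by
    rw [IsScalarTower.algebraMap_apply ℤ_[q] ℚ_[q] (AlgebraicClosure ℚ_[q])]
    simp
  rw [this]
  exact isIntegral_algebraMap

/-- The submonoid `1 + q · (integers)` of the algebraic closure. -/
def symDOneAdd : Submonoid (AlgebraicClosure ℚ_[q]) where
  carrier := {x | ∃ ν : AlgebraicClosure ℚ_[q], IsIntegral ℤ_[q] ν ∧
    x = 1 + algebraMap ℚ_[q] (AlgebraicClosure ℚ_[q]) (q : ℚ_[q]) * ν}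
  one_mem' := ⟨0, isIntegral_zero, by simp⟩
  mul_mem' := by
    rintro x y ⟨ν, hν, rfl⟩ ⟨ν', hν', rfl⟩
    exact ⟨ν + ν' + algebraMap ℚ_[q] (AlgebraicClosure ℚ_[q]) (q : ℚ_[q]) * (ν * ν'),
      (hν.add hν').add ((symD_isIntegral_q q).mul (hν.mul hν')), by ring⟩

omit [Algebra ℤ_[q] A] [IsScalarTower ℤ_[q] ℚ_[q] A] in
theorem symDMat_one_add_smul (z : A) :
    symDMat q (1 + (q : ℚ_[q]) • z)
      = 1 + algebraMap ℚ_[q] (AlgebraicClosure ℚ_[q]) (q : ℚ_[q]) • symDMat q z := by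
  classical
  unfold symDMat
  rw [map_add, map_one, map_smul]
  ext i j
  simp [Matrix.map_apply, Matrix.add_apply, Matrix.one_apply, Matrix.smul_apply]

/-- `N(1 + q z) ∈ 1 + q ℤ_q` for `z` integral over `ℤ_q`. -/
theorem symD_norm_one_add_smul {z : A} (hz : IsIntegral ℤ_[q] z) :
    ∃ w : ℤ_[q], Algebra.norm ℚ_[q] (1 + (q : ℚ_[q]) • z) = 1 + (q : ℚ_[q]) * (w : ℚ_[q]) := by
  classical
  set c : AlgebraicClosure ℚ_[q] := algebraMap ℚ_[q] (AlgebraicClosure ℚ_[q]) (q : ℚ_[q])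
    with hc
  have hq0 : (q : ℚ_[q]) ≠ 0 := by exact_mod_cast (Fact.out : q.Prime).ne_zero
  have hc0 : c ≠ 0 := by
    rw [hc]
    exact (map_ne_zero _).mpr hq0
  -- every root of the characteristic polynomial is in `1 + q · (integers)`
  have hroots : ∀ μ ∈ (symDMat q (1 + (q : ℚ_[q]) • z)).charpoly.roots, μ ∈ symDOneAdd q := by
    intro μ hμ
    have h1 : μ ∈ spectrum (AlgebraicClosure ℚ_[q]) (symDMat q (1 + (q : ℚ_[q]) • z)) := by
      rw [Matrix.mem_spectrum_iff_isRoot_charpoly]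
      exact Polynomial.isRoot_of_mem_roots hμ
    rw [symDMat_one_add_smul] at h1
    -- apply the polynomial `c⁻¹ (X - 1)`
    have h2 := spectrum.subset_polynomial_aeval (1 + c • symDMat q z)
      (Polynomial.C c⁻¹ * (Polynomial.X - 1)) ⟨μ, h1, rfl⟩
    have h3 : Polynomial.aeval (1 + c • symDMat q z) (Polynomial.C c⁻¹ * (Polynomial.X - 1))
        = symDMat q z := by
      simp only [map_mul, Polynomial.aeval_C, map_sub, Polynomial.aeval_X, map_one,
        add_sub_cancel_left]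
      rw [Algebra.algebraMap_eq_smul_one, smul_mul_assoc, one_mul, smul_smul,
        inv_mul_cancel₀ hc0, one_smul]
    rw [h3] at h2
    have h4 : IsIntegral ℤ_[q] (Polynomial.eval μ (Polynomial.C c⁻¹ * (Polynomial.X - 1))) :=
      symD_isIntegral_of_mem_spectrum (symDMat_isIntegral q hz) h2
    refine ⟨_, h4, ?_⟩
    simp only [Polynomial.eval_mul, Polynomial.eval_C, Polynomial.eval_sub, Polynomial.eval_X,
      Polynomial.eval_one]
    rw [← mul_assoc, mul_inv_cancel₀ hc0, one_mul]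
    ring
  have hdet : (symDMat q (1 + (q : ℚ_[q]) • z)).det ∈ symDOneAdd q := by
    rw [Matrix.det_eq_prod_roots_charpoly]
    exact Submonoid.multiset_prod_mem _ _ hroots
  obtain ⟨ν, hν, hdν⟩ := hdet
  rw [symDMat_det] at hdν
  -- `ν` is the image of `(N - 1) / q`
  have hν' : ν = algebraMap ℚ_[q] (AlgebraicClosure ℚ_[q])
      ((Algebra.norm ℚ_[q] (1 + (q : ℚ_[q]) • z) - 1) / (q : ℚ_[q])) := by
    rw [map_div₀, map_sub, map_one, hdν, add_sub_cancel_left, ← hc, mul_div_cancel_left₀ _ hc0]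
  rw [hν'] at hν
  obtain ⟨w, hw⟩ := symD_mem_padicInt_of_isIntegral q hν
  refine ⟨w, ?_⟩
  rw [← hw, mul_div_cancel₀ _ hq0]
  ring

end Norm

section Padic

variable (q : ℕ) [Fact q.Prime]

theorem symD_norm_one_add (w : ℤ_[q]) : ‖(1 + (q : ℤ_[q]) * w : ℤ_[q])‖ = 1 := by
  rw [← PadicInt.isUnit_iff]
  by_contra hnu
  have h1 : (1 + (q : ℤ_[q]) * w) ∈ nonunits ℤ_[q] := hnu
  rw [PadicInt.mem_nonunits, PadicInt.norm_lt_one_iff_dvd] at h1
  have h2 : (q : ℤ_[q]) ∣ 1 := (dvd_add_left (dvd_mul_right _ w)).mp h1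
  have h3 : ‖(1 : ℤ_[q])‖ < 1 := (PadicInt.norm_lt_one_iff_dvd _).mpr h2
  simp at h3

theorem symD_valuation_one_add (w : ℤ_[q]) :
    Padic.valuation (1 + (q : ℚ_[q]) * (w : ℚ_[q])) = 0 := by
  have hq1 : (1 : ℝ) < q := by exact_mod_cast (Fact.out : q.Prime).one_lt
  have h1 : ‖(1 + (q : ℚ_[q]) * (w : ℚ_[q]))‖ = 1 := by
    have := symD_norm_one_add q w
    rw [PadicInt.norm_def] at this
    simpa using this
  have hne : (1 + (q : ℚ_[q]) * (w : ℚ_[q])) ≠ 0 := by
    intro h0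
    rw [h0, norm_zero] at h1
    exact zero_ne_one h1
  rw [Padic.norm_eq_zpow_neg_valuation hne] at h1
  have h2 := (zpow_eq_one_iff_right₀ (by positivity) hq1.ne').mp h1
  omega

end Padic

section Symbol

variable (K : Type*) [Field K] [NumberField K] (l : ℕ) [Fact l.Prime]

/-- The norm of a principal unit is `≡ 1 mod q`. -/
theorem symD_semiNorm_princUnits (q : ℕ) [Fact q.Prime] {u : (SemiLoc q K)ˣ}
    (hu : u ∈ princUnits q K) :
    ∃ w : ℤ_[q], ((semiNorm K q u : ℚ_[q]ˣ) : ℚ_[q]) = 1 + (q : ℚ_[q]) * (w : ℚ_[q]) := by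
  obtain ⟨⟨z, hz, hu1⟩, -⟩ := hu
  rw [coe_semiNorm, hu1]
  exact symD_norm_one_add_smul q hz

/-- The local cyclotomic symbol modulo `l` is trivial on principal units (every `q`). -/
theorem cycSymAt_eq_one_of_mem_princUnits (q : ℕ) [Fact q.Prime] {u : (SemiLoc q K)ˣ}
    (hu : u ∈ princUnits q K) : cycSymAt K l 1 q u = 1 := by
  obtain ⟨w, hw⟩ := symD_semiNorm_princUnits K q hu
  have hval : Padic.valuation ((semiNorm K q u : ℚ_[q]ˣ) : ℚ_[q]) = 0 := by
    rw [hw]
    exact symD_valuation_one_add q w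
  show cycSymLoc q l 1 (semiNorm K q u) = 1
  by_cases h : q = l
  · subst h
    rw [cycSymLoc_self_apply, inv_eq_one]
    apply Units.ext
    rw [Units.coe_map, Units.val_one]
    have h1 : ((padicUnitPart q (semiNorm K q u) : ℤ_[q]ˣ) : ℤ_[q]) = 1 + (q : ℤ_[q]) * w := by
      apply Subtype.ext
      rw [coe_padicUnitPart, hval, neg_zero, zpow_zero, mul_one, hw]
      simp
    rw [h1]
    simp only [MonoidHom.coe_coe, map_add, map_one, map_mul, map_natCast]
    have h2 : ((q : ℕ) : ZMod (q ^ 1)) = 0 := by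
      rw [ZMod.natCast_eq_zero_iff, pow_one]
    rw [h2, zero_mul, add_zero]
  · rw [cycSymLoc_apply_of_ne q l 1 h, hval, zpow_zero]

/-- The norm of an integral unit of the semilocal algebra has valuation `0`. -/
theorem symD_valuation_semiNorm_intUnits (q : ℕ) [Fact q.Prime] {x : (SemiLoc q K)ˣ}
    (hx : x ∈ intUnits q K) : Padic.valuation ((semiNorm K q x : ℚ_[q]ˣ) : ℚ_[q]) = 0 := by
  obtain ⟨h1, h2⟩ := hx
  obtain ⟨w, hw⟩ := symD_norm_isIntegral q h1
  obtain ⟨w', hw'⟩ := symD_norm_isIntegral q h2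
  have hmul : ((semiNorm K q x : ℚ_[q]ˣ) : ℚ_[q]) * ((semiNorm K q x⁻¹ : ℚ_[q]ˣ) : ℚ_[q]) = 1 := by
    rw [← Units.val_mul, ← map_mul, mul_inv_cancel, map_one, Units.val_one]
  have hv := Padic.valuation_mul (semiNorm K q x).ne_zero (semiNorm K q x⁻¹).ne_zero
  rw [hmul, Padic.valuation_one] at hv
  have hn1 : 0 ≤ Padic.valuation ((semiNorm K q x : ℚ_[q]ˣ) : ℚ_[q]) := by
    rw [coe_semiNorm, hw]
    exact PadicInt.valuation_coe_nonneg
  have hn2 : 0 ≤ Padic.valuation ((semiNorm K q x⁻¹ : ℚ_[q]ˣ) : ℚ_[q]) := by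
    rw [coe_semiNorm, hw']
    exact PadicInt.valuation_coe_nonneg
  omega

/-- **R2-SYM-P (1)** (bonus, same statement as in the REC2 interface): the local symbol at
`q ≠ l` is trivial on integral units. -/
theorem symD_cycSymAt_eq_one_of_mem_intUnits (m : ℕ) (q : ℕ) [Fact q.Prime] (hq : q ≠ l)
    (x : (SemiLoc q K)ˣ) (hx : x ∈ intUnits q K) : cycSymAt K l m q x = 1 := by
  show cycSymLoc q l m (semiNorm K q x) = 1
  rw [cycSymLoc_apply_of_ne q l m hq, symD_valuation_semiNorm_intUnits K q hx, zpow_zero]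

/-- **R2-SYM-D** (density, modulus `l`), with GLOB CL-3 as hypothesis: every value of the local
symbol is attained on a global element. -/
theorem exists_principal_cycSymAt_eq_of
    (hCL3 : ∀ (q : Nat.Primes) (x : (SemiLoc (q : ℕ) K)ˣ),
      ∃ y : Kˣ, x / principalPi K y q ∈ princUnits (q : ℕ) K)
    (q : Nat.Primes) (z : (SemiLoc (q : ℕ) K)ˣ) :
    ∃ c : Kˣ, cycSymAt K l 1 (q : ℕ) z = cycSymAt K l 1 (q : ℕ) (principalPi K c q) := by
  obtain ⟨c, hc⟩ := hCL3 q z
  refine ⟨c, ?_⟩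
  have h1 := cycSymAt_eq_one_of_mem_princUnits K l (q : ℕ) hc
  rw [map_div, div_eq_one] at h1
  exact h1

/-- **(T3)** = R2-SYM-D + R2-SYM-C, with GLOB CL-3 and R2-SYM-C as hypotheses: the symbol modulo
`l` is trivial on the ideles of a field containing the `l`-th roots of unity. -/
theorem cycSymFun_eq_one_of_primitiveRoot_of
    (hCL3 : ∀ (q : Nat.Primes) (x : (SemiLoc (q : ℕ) K)ˣ),
      ∃ y : Kˣ, x / principalPi K y q ∈ princUnits (q : ℕ) K)
    (hC : ∀ m : ℕ, 2 < l ^ m → (∃ ζ : K, IsPrimitiveRoot ζ (l ^ m)) →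
      ∀ (q : Nat.Primes) (c : Kˣ), cycSymAt K l m (q : ℕ) (principalPi K c q) = 1)
    (hl : l ≠ 2) (hζ : ∃ ζ : K, IsPrimitiveRoot ζ l)
    (y : Idele K) : cycSymFun K l 1 y = 1 := by
  have hl2 : 2 < l ^ 1 := by
    rw [pow_one]
    have := (Fact.out : l.Prime).two_le
    omega
  have hζ1 : ∃ ζ : K, IsPrimitiveRoot ζ (l ^ 1) := by
    simpa using hζ
  show cycSymPi K l 1 (y : IdelePi K) = 1
  unfold cycSymPi
  refine finprod_eq_one_of_forall_eq_one fun q => ?_
  obtain ⟨c, hc⟩ := exists_principal_cycSymAt_eq_of K l hCL3 q ((y : IdelePi K) q)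
  rw [hc]
  exact hC 1 hl2 hζ1 q c

end Symbol

end Fermat.Agent.S55.helper82
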