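import Fermat.Agent.S55.helper82_Rec2SymDFinal
import Fermat.Agent.S55.helper92_Rec2SymC

/-!
# S55 / REC2 (T3), unconditional (helper82, follow-up of task 376)

`cycSymFun_eq_one_of_primitiveRoot` : if `K` contains a primitive `l`-th root of unity
(`l ≠ 2`), the global cyclotomic symbol `cycSymFun K l 1` is trivial on all ideles.
Combines the density step R2-SYM-D (`helper82_Rec2SymDFinal`) with the global cyclotomic
congruence R2-SYM-C (`helper92_Rec2SymC`).
-/

set_option autoImplicit false

open scoped TensorProduct NumberField

namespace Fermat.Agent.S55.helper82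

open Fermat.Agent.S55.helper73 Fermat.Agent.S55.helper33

section SymT3

variable (K : Type*) [Field K] [NumberField K] (l : ℕ) [Fact l.Prime]

/-- **(T3)**, unconditional. -/
theorem cycSymFun_eq_one_of_primitiveRoot (hl : l ≠ 2) (hζ : ∃ ζ : K, IsPrimitiveRoot ζ l)
    (y : Idele K) : cycSymFun K l 1 y = 1 :=
  cycSymFun_eq_one_of_primitiveRoot_of_congr K l
    (fun m hlm hζm q c =>
      helper92.cycSymAt_principalPi_eq_one_of_primitiveRoot K l m hlm hζm q c) hl hζ y

end SymT3

end Fermat.Agent.S55.helper82
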