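import Mathlib
import Fermat.Agent.S55.helper89_ChevDefs

/-!
# S55 / GLOB / G7-AUX (helper87), part 2: dictionary `IsPowMod` / residue homomorphisms

* `placeOfHom ψ` : the height one prime `ker ψ` of a ring homomorphism `ψ : 𝓞 K →+* ZMod ℓ`.
* `isPowMod_of_int`, `exists_int_of_isPowMod` : `IsPowMod K p P c` in terms of elements of `𝓞 K`.
* `isPowMod_mul_pow` : invariance under multiplication by `p`-th powers of `P`-units.
* `exists_int_mul_pow` : every `a ∈ K` is `α / n ^ p` with `α ∈ 𝓞 K`, `n ≠ 0` a natural number.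
-/

set_option autoImplicit false
set_option linter.unusedSectionVars false
set_option linter.style.haveILetI false

open scoped NumberField
open IsDedekindDomain

namespace Fermat.Agent.S55.helper87

open Fermat.Agent.S55.helper89

section Place

variable {K : Type*} [Field K] [NumberField K] {ℓ : ℕ} [Fact ℓ.Prime]

/-- The height one prime `ker ψ`. -/
noncomputable def placeOfHom (ψ : 𝓞 K →+* ZMod ℓ) : HeightOneSpectrum (𝓞 K) where
  asIdeal := RingHom.ker ψ
  isPrime := RingHom.ker_isPrime ψ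
  ne_bot := by
    intro h
    have h1 : ((ℓ : ℕ) : 𝓞 K) ∈ RingHom.ker ψ := by
      rw [RingHom.mem_ker, map_natCast, ZMod.natCast_self]
    rw [h, Ideal.mem_bot] at h1
    have h2 : (ℓ : ℕ) = 0 := by exact_mod_cast h1
    exact (Fact.out : ℓ.Prime).ne_zero h2

lemma mem_placeOfHom (ψ : 𝓞 K →+* ZMod ℓ) (x : 𝓞 K) :
    x ∈ (placeOfHom ψ).asIdeal ↔ ψ x = 0 := RingHom.mem_ker

lemma absNorm_placeOfHom (ψ : 𝓞 K →+* ZMod ℓ) :
    Ideal.absNorm (placeOfHom ψ).asIdeal = ℓ := by
  have hψsurj : Function.Surjective ψ := ZMod.ringHom_surjective ψ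
  change Ideal.absNorm (RingHom.ker ψ) = ℓ
  rw [Ideal.absNorm_apply, Submodule.cardQuot_apply]
  have e := RingHom.quotientKerEquivOfSurjective hψsurj
  rw [Nat.card_congr e.toEquiv, Nat.card_eq_fintype_card, ZMod.card]

lemma valuation_placeOfHom_eq_one_iff (ψ : 𝓞 K →+* ZMod ℓ) (x : 𝓞 K) :
    (placeOfHom ψ).valuation K (x : K) = 1 ↔ ψ x ≠ 0 := by
  rw [Ne, ← mem_placeOfHom ψ x]
  exact HeightOneSpectrum.valuation_eq_one_iff_notMem _

lemma valuation_placeOfHom_lt_one_iff (ψ : 𝓞 K →+* ZMod ℓ) (x : 𝓞 K) :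
    (placeOfHom ψ).valuation K (x : K) < 1 ↔ ψ x = 0 := by
  rw [← mem_placeOfHom ψ x]
  exact HeightOneSpectrum.valuation_lt_one_iff_mem _ x

end Place

section PowMod

variable {K : Type*} [Field K] [NumberField K] (p : ℕ) (P : HeightOneSpectrum (𝓞 K))

/-- `IsPowMod` from integral data. -/
lemma isPowMod_of_int (x y : 𝓞 K) (hy : y ∉ P.asIdeal) (hxy : x - y ^ p ∈ P.asIdeal) :
    IsPowMod K p P (x : K) := by
  refine ⟨(y : K), (HeightOneSpectrum.valuation_eq_one_iff_notMem P).mpr hy, ?_⟩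
  have := (HeightOneSpectrum.valuation_lt_one_iff_mem P (K := K) (x - y ^ p)).mpr hxy
  simpa using this

/-- `v (y ^ p - d ^ p) < 1` when `v (y - d) < 1` and `v y, v d ≤ 1`. -/
lemma valuation_pow_sub_pow_lt {y d : K} (hy : P.valuation K y ≤ 1) (hd : P.valuation K d ≤ 1)
    (h : P.valuation K (y - d) < 1) : P.valuation K (y ^ p - d ^ p) < 1 := by
  rw [← geom_sum₂_mul y d p, map_mul]
  have h1 : P.valuation K (∑ i ∈ Finset.range p, y ^ i * d ^ (p - 1 - i)) ≤ 1 := by
    apply Valuation.map_sum_le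
    intro i _
    rw [map_mul, map_pow, map_pow]
    exact mul_le_one' (pow_le_one' hy _) (pow_le_one' hd _)
  calc P.valuation K (∑ i ∈ Finset.range p, y ^ i * d ^ (p - 1 - i)) * P.valuation K (y - d)
      ≤ 1 * P.valuation K (y - d) := mul_le_mul_left h1 _
    _ = P.valuation K (y - d) := one_mul _
    _ < 1 := h

/-- `IsPowMod` gives integral data. -/
lemma exists_int_of_isPowMod {c : K} (h : IsPowMod K p P c) :
    ∃ y : 𝓞 K, y ∉ P.asIdeal ∧ P.valuation K (c - (y : K) ^ p) < 1 := by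
  obtain ⟨d, hd, hcd⟩ := h
  obtain ⟨y, hy⟩ := HeightOneSpectrum.exists_valuation_sub_lt_of_integer P (K := K)
    (x := d) hd.le 1
  have hy' : P.valuation K ((y : K) - d) < 1 := by simpa using hy
  have hvy : P.valuation K (y : K) = 1 := by
    have h1 : (y : K) = ((y : K) - d) + d := by ring
    rw [h1, Valuation.map_add_eq_of_lt_right _ (by rw [hd]; exact hy'), hd]
  refine ⟨y, (HeightOneSpectrum.valuation_eq_one_iff_notMem P).mp hvy, ?_⟩
  have h2 := valuation_pow_sub_pow_lt p P hvy.le hd.le hy'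
  have h3 : c - (y : K) ^ p = (c - d ^ p) - ((y : K) ^ p - d ^ p) := by ring
  rw [h3]
  exact Valuation.map_sub_lt _ hcd h2

/-- `IsPowMod` is invariant under multiplication by `p`-th powers of `P`-units. -/
lemma isPowMod_mul_pow {c m : K} (hm : P.valuation K m = 1) (h : IsPowMod K p P c) :
    IsPowMod K p P (c * m ^ p) := by
  obtain ⟨d, hd, hcd⟩ := h
  refine ⟨d * m, by rw [map_mul, hd, hm, one_mul], ?_⟩
  have : c * m ^ p - (d * m) ^ p = (c - d ^ p) * m ^ p := by ring
  rw [this, map_mul, map_pow, hm, one_pow, mul_one]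
  exact hcd

lemma isPowMod_mul_pow_iff {c m : K} (hm : P.valuation K m = 1) :
    IsPowMod K p P (c * m ^ p) ↔ IsPowMod K p P c := by
  refine ⟨fun h => ?_, isPowMod_mul_pow p P hm⟩
  have hm0 : m ≠ 0 := by
    rintro rfl
    rw [map_zero] at hm
    exact zero_ne_one hm
  have hm' : P.valuation K m⁻¹ = 1 := by rw [map_inv₀, hm, inv_one]
  have := isPowMod_mul_pow p P hm' h
  rwa [mul_assoc, ← mul_pow, mul_inv_cancel₀ hm0, one_pow, mul_one] at this

end PowMod

section Denominators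

variable (K : Type*) [Field K] [NumberField K]

/-- Every element of `K` becomes integral after multiplication by the `p`-th power of a
nonzero natural number. -/
lemma exists_int_mul_pow (p : ℕ) (hp : 0 < p) (a : K) :
    ∃ (n : ℕ) (α : 𝓞 K), n ≠ 0 ∧ (α : K) = a * (n : K) ^ p := by
  obtain ⟨r, s, hs, rfl⟩ := IsFractionRing.div_surjective (A := 𝓞 K) a
  have hs0 : s ≠ 0 := nonZeroDivisors.ne_zero hs
  set n : ℕ := Ideal.absNorm (Ideal.span {s}) with hn
  have hn0 : n ≠ 0 := by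
    rw [hn, Ne, Ideal.absNorm_eq_zero_iff, Ideal.span_singleton_eq_bot]
    exact hs0
  have hmem : ((n : ℕ) : 𝓞 K) ∈ Ideal.span {s} := Ideal.absNorm_mem _
  obtain ⟨t, ht⟩ := Ideal.mem_span_singleton'.mp hmem
  refine ⟨n, r * t * (n : 𝓞 K) ^ (p - 1), hn0, ?_⟩
  have hsK : (algebraMap (𝓞 K) K s) ≠ 0 := by
    rw [Ne, FaithfulSMul.algebraMap_eq_zero_iff]
    exact hs0
  have htK : (algebraMap (𝓞 K) K t) * (algebraMap (𝓞 K) K s) = (n : K) := by
    rw [← map_mul, ht, map_natCast]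
  have hpp : (n : K) ^ p = (n : K) ^ (p - 1) * (n : K) := by
    rw [← pow_succ, Nat.sub_add_cancel hp]
  change algebraMap (𝓞 K) K (r * t * (n : 𝓞 K) ^ (p - 1)) = _
  rw [map_mul, map_mul, map_pow, map_natCast, hpp, ← htK]
  field_simp

end Denominators

end Fermat.Agent.S55.helper87
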