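import Mathlib
import Fermat.Agent.S55.helper87_AuxPrimeVal

/-!
# S55 / GLOB / G7-AUX (helper87), part 3: lemmas for `exists_aux_primes`

* `exists_finset_units` : a saturated subgroup `U ≤ Kˣ` with `[U : U ∩ K^p]` finite consists of
  units outside a finite set of primes (descent on the valuation).
* `red`, `resChar` : reduction modulo a degree one prime `P` of the `P`-integral elements of `K`,
  and the induced character `U →* (ZMod ℓ)ˣ` when `U` consists of `P`-units.
* `isPowMod_iff_resChar` : `IsPowMod K p P u ↔ resChar u` is a `p`-th power.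
* `index_pow_range_zmod_units` : `[(ZMod ℓ)ˣ : (ZMod ℓ)ˣ ^ p] = p` for `p ∣ ℓ - 1`.
* `relIndex_inf_comap_eq_prime` : cutting a subgroup by a character of prime index.
-/

set_option autoImplicit false
set_option linter.unusedSectionVars false
set_option linter.style.haveILetI false

open scoped NumberField
open IsDedekindDomain

namespace Fermat.Agent.S55.helper87

open Fermat.Agent.S55.helper89

section Units

variable {K : Type*} [Field K] [NumberField K]

/-- The set of primes at which `g ∈ Kˣ` is not a unit is finite. -/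
lemma finite_valuation_ne_one (g : Kˣ) :
    {P : HeightOneSpectrum (𝓞 K) | P.valuation K (g : K) ≠ 1}.Finite := by
  have h1 := HeightOneSpectrum.Support.finite (𝓞 K) (g : K)
  have h2 := HeightOneSpectrum.Support.finite (𝓞 K) ((g⁻¹ : Kˣ) : K)
  apply (h1.union h2).subset
  intro P hP
  have hv0 : P.valuation K (g : K) ≠ 0 := (Valuation.ne_zero_iff _).mpr (Units.ne_zero g)
  rcases lt_trichotomy (P.valuation K (g : K)) 1 with h | h | h
  · right
    change 1 < P.valuation K ((g⁻¹ : Kˣ) : K)
    rw [Units.val_inv_eq_inv_val, map_inv₀]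
    exact (one_lt_inv₀ (zero_lt_iff.mpr hv0)).mpr h
  · exact absurd h hP
  · left
    exact h

/-- Descent: if every valuation of an element of `U` is a `p`-th power of such a valuation,
all valuations are trivial. -/
lemma valuation_eq_one_of_descent (p : ℕ) (hp : 1 < p) (U : Subgroup Kˣ)
    (P : HeightOneSpectrum (𝓞 K))
    (hstep : ∀ u ∈ U, ∃ c ∈ U, P.valuation K (u : K) = (P.valuation K (c : K)) ^ p) :
    ∀ u ∈ U, P.valuation K (u : K) = 1 := by
  have key : ∀ k : ℕ, ∀ u ∈ U, (WithZero.log (P.valuation K (u : K))).natAbs = k →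
      WithZero.log (P.valuation K (u : K)) = 0 := by
    intro k
    induction k using Nat.strong_induction_on with
    | _ k ih =>
      intro u hu hk
      obtain ⟨c, hc, hvc⟩ := hstep u hu
      have hlog : WithZero.log (P.valuation K (u : K)) =
          p • WithZero.log (P.valuation K (c : K)) := by
        rw [hvc, WithZero.log_pow]
      by_contra hne
      have hc0 : WithZero.log (P.valuation K (c : K)) ≠ 0 := fun h =>
        hne (by rw [hlog, h, smul_zero])
      have hpos : 0 < (WithZero.log (P.valuation K (c : K))).natAbs :=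
        Int.natAbs_pos.mpr hc0
      have hlt : (WithZero.log (P.valuation K (c : K))).natAbs < k := by
        rw [← hk, hlog, nsmul_eq_mul, Int.natAbs_mul, Int.natAbs_natCast]
        calc (WithZero.log (P.valuation K (c : K))).natAbs
            = 1 * (WithZero.log (P.valuation K (c : K))).natAbs := (one_mul _).symm
          _ < p * (WithZero.log (P.valuation K (c : K))).natAbs :=
            Nat.mul_lt_mul_of_pos_right hp hpos
      exact hc0 (ih _ hlt c hc rfl)
  intro u hu
  have h0 := key _ u hu rfl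
  have hv : P.valuation K (u : K) ≠ 0 := (Valuation.ne_zero_iff _).mpr (Units.ne_zero u)
  rw [← WithZero.exp_log hv, h0, WithZero.exp_zero]

/-- A saturated subgroup `U ≤ Kˣ` with `U / (U ∩ K^p)` finite consists of units outside a
finite set of primes. -/
theorem exists_finset_units (p : ℕ) (hp : p.Prime) (U : Subgroup Kˣ)
    (hU : ((powMonoidHom p : Kˣ →* Kˣ).range ⊓ U).relIndex U ≠ 0)
    (hsat : ∀ c : Kˣ, c ^ p ∈ U → c ∈ U) :
    ∃ S : Finset ℕ, ∀ P : HeightOneSpectrum (𝓞 K), Ideal.absNorm P.asIdeal ∉ S →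
      ∀ u ∈ U, P.valuation K (u : K) = 1 := by
  classical
  set N' : Subgroup U := ((powMonoidHom p : Kˣ →* Kˣ).range ⊓ U).subgroupOf U with hN'
  haveI : N'.FiniteIndex := ⟨hU⟩
  haveI : Finite (U ⧸ N') := Subgroup.finite_quotient_of_finiteIndex
  have hbad : (⋃ q : U ⧸ N',
      {P : HeightOneSpectrum (𝓞 K) | P.valuation K (((q.out : U) : Kˣ) : K) ≠ 1}).Finite :=
    Set.finite_iUnion (fun q => finite_valuation_ne_one ((q.out : U) : Kˣ))
  refine ⟨(hbad.image (fun P => Ideal.absNorm P.asIdeal)).toFinset, ?_⟩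
  intro P hP
  have hgood : ∀ q : U ⧸ N', P.valuation K (((q.out : U) : Kˣ) : K) = 1 := by
    intro q
    by_contra hne
    apply hP
    rw [Set.Finite.mem_toFinset]
    exact ⟨P, Set.mem_iUnion.mpr ⟨q, hne⟩, rfl⟩
  apply valuation_eq_one_of_descent p hp.one_lt U P
  intro u hu
  set q : U ⧸ N' := QuotientGroup.mk ⟨u, hu⟩ with hq
  have h1 : (QuotientGroup.mk (q.out) : U ⧸ N') = QuotientGroup.mk ⟨u, hu⟩ :=
    QuotientGroup.out_eq' q
  have h2 : (q.out)⁻¹ * ⟨u, hu⟩ ∈ N' := QuotientGroup.eq.mp h1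
  have h2' := Subgroup.mem_subgroupOf.mp h2
  obtain ⟨⟨c, hc⟩, -⟩ := h2'
  have hc' : c ^ p = ((q.out : U) : Kˣ)⁻¹ * u := by
    simpa using hc
  have hcU : c ∈ U := by
    apply hsat
    rw [hc']
    exact U.mul_mem (U.inv_mem (q.out).2) hu
  refine ⟨c, hcU, ?_⟩
  have hu' : u = ((q.out : U) : Kˣ) * c ^ p := by rw [hc']; group
  have hu'' : (u : K) = (((q.out : U) : Kˣ) : K) * (c : K) ^ p := by
    conv_lhs => rw [hu']
    simp
  rw [hu'', map_mul, map_pow, hgood q, one_mul]

end Units

section Red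

variable {K : Type*} [Field K] [NumberField K] (P : HeightOneSpectrum (𝓞 K))
  {ℓ : ℕ} [Fact ℓ.Prime] (ψ : 𝓞 K →+* ZMod ℓ)

/-- Reduction modulo `P` of the `P`-integral elements of `K` (junk value `0` otherwise). -/
noncomputable def red (x : K) : ZMod ℓ :=
  open Classical in
  if h : P.valuation K x ≤ 1 then
    ψ (HeightOneSpectrum.exists_valuation_sub_lt_of_integer P h 1).choose
  else 0

variable (hψ : ∀ x, ψ x = 0 ↔ x ∈ P.asIdeal)

lemma valuation_le_one_of_sub_lt {x : K} (y : 𝓞 K) (h : P.valuation K ((y : K) - x) < 1) :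
    P.valuation K x ≤ 1 := by
  have h1 : x = (y : K) - ((y : K) - x) := by ring
  rw [h1]
  exact Valuation.map_sub_le _ (HeightOneSpectrum.valuation_le_one P y) h.le

include hψ in
lemma red_eq {x : K} (y : 𝓞 K) (h : P.valuation K ((y : K) - x) < 1) : red P ψ x = ψ y := by
  have hx : P.valuation K x ≤ 1 := valuation_le_one_of_sub_lt P y h
  unfold red
  rw [dif_pos hx]
  set y0 := (HeightOneSpectrum.exists_valuation_sub_lt_of_integer P hx 1).choose with hy0
  have hspec : P.valuation K ((y0 : K) - x) < 1 := by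
    have := (HeightOneSpectrum.exists_valuation_sub_lt_of_integer P hx 1).choose_spec
    simpa using this
  have h1 : P.valuation K (((y0 - y : 𝓞 K)) : K) < 1 := by
    have e : (((y0 - y : 𝓞 K)) : K) = ((y0 : K) - x) - ((y : K) - x) := by
      push_cast; ring
    rw [e]
    exact Valuation.map_sub_lt _ hspec h
  have h2 : y0 - y ∈ P.asIdeal := (HeightOneSpectrum.valuation_lt_one_iff_mem P _).mp h1
  have h3 := (hψ _).mpr h2
  rw [map_sub, sub_eq_zero] at h3
  exact h3

lemma exists_int_approx {x : K} (hx : P.valuation K x ≤ 1) :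
    ∃ y : 𝓞 K, P.valuation K ((y : K) - x) < 1 := by
  obtain ⟨y, hy⟩ := HeightOneSpectrum.exists_valuation_sub_lt_of_integer P hx 1
  exact ⟨y, by simpa using hy⟩

include hψ in
lemma red_mul {x x' : K} (hx : P.valuation K x ≤ 1) (hx' : P.valuation K x' ≤ 1) :
    red P ψ (x * x') = red P ψ x * red P ψ x' := by
  obtain ⟨y, hy⟩ := exists_int_approx P hx
  obtain ⟨y', hy'⟩ := exists_int_approx P hx'
  rw [red_eq P ψ hψ y hy, red_eq P ψ hψ y' hy', ← map_mul]
  apply red_eq P ψ hψ
  have e : (((y * y' : 𝓞 K)) : K) - x * x' = (y : K) * ((y' : K) - x') + x' * ((y : K) - x) := by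
    push_cast; ring
  rw [e]
  apply Valuation.map_add_lt
  · rw [map_mul]
    calc P.valuation K (y : K) * P.valuation K ((y' : K) - x')
        ≤ 1 * P.valuation K ((y' : K) - x') :=
          mul_le_mul_left (HeightOneSpectrum.valuation_le_one P y) _
      _ = P.valuation K ((y' : K) - x') := one_mul _
      _ < 1 := hy'
  · rw [map_mul]
    calc P.valuation K x' * P.valuation K ((y : K) - x)
        ≤ 1 * P.valuation K ((y : K) - x) := mul_le_mul_left hx' _
      _ = P.valuation K ((y : K) - x) := one_mul _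
      _ < 1 := hy

include hψ in
lemma red_one : red P ψ (1 : K) = 1 := by
  rw [red_eq P ψ hψ 1 (by simp), map_one]

include hψ in
lemma red_ne_zero {x : K} (hx : P.valuation K x = 1) : red P ψ x ≠ 0 := by
  obtain ⟨y, hy⟩ := exists_int_approx P hx.le
  rw [red_eq P ψ hψ y hy]
  intro h0
  have h1 : P.valuation K (y : K) < 1 :=
    (HeightOneSpectrum.valuation_lt_one_iff_mem P y).mpr ((hψ y).mp h0)
  have h2 : x = (y : K) - ((y : K) - x) := by ring
  have h3 : P.valuation K x < 1 := by
    rw [h2]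
    exact Valuation.map_sub_lt _ h1 hy
  rw [hx] at h3
  exact lt_irrefl _ h3

variable (U : Subgroup Kˣ) (hunit : ∀ u ∈ U, P.valuation K (u : K) = 1)

/-- The residue character of a group of `P`-units. -/
noncomputable def resChar : U →* (ZMod ℓ)ˣ :=
  MonoidHom.toHomUnits
    { toFun := fun u => red P ψ ((u : Kˣ) : K)
      map_one' := by
        change red P ψ (((1 : Kˣ) : K)) = 1
        rw [Units.val_one]
        exact red_one P ψ hψ
      map_mul' := fun u u' => by
        change red P ψ (((u : Kˣ) * (u' : Kˣ) : Kˣ) : K) = _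
        rw [Units.val_mul]
        exact red_mul P ψ hψ (hunit u u.2).le (hunit u' u'.2).le }

lemma coe_resChar (u : U) :
    ((resChar P ψ hψ U hunit u : (ZMod ℓ)ˣ) : ZMod ℓ) = red P ψ ((u : Kˣ) : K) := rfl

/-- `IsPowMod` in terms of the residue character. -/
theorem isPowMod_iff_resChar (p : ℕ) (u : U) :
    IsPowMod K p P ((u : Kˣ) : K) ↔ ∃ z : (ZMod ℓ)ˣ, z ^ p = resChar P ψ hψ U hunit u := by
  constructor
  · intro h
    obtain ⟨y, hyP, hy⟩ := exists_int_of_isPowMod p P h
    have hψy : ψ y ≠ 0 := fun h0 => hyP ((hψ y).mp h0)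
    refine ⟨Units.mk0 (ψ y) hψy, ?_⟩
    apply Units.ext
    rw [Units.val_pow_eq_pow_val, Units.val_mk0, coe_resChar, ← map_pow]
    symm
    apply red_eq P ψ hψ
    rw [Valuation.map_sub_swap]
    simpa using hy
  · rintro ⟨z, hz⟩
    obtain ⟨y, hy⟩ := ZMod.ringHom_surjective ψ (z : ZMod ℓ)
    have hψy : ψ y ≠ 0 := by rw [hy]; exact z.ne_zero
    have hyP : y ∉ P.asIdeal := fun h => hψy ((hψ y).mpr h)
    obtain ⟨yu, hyu⟩ := exists_int_approx P (hunit u u.2).le
    have h1 : ψ (y ^ p) = ψ yu := by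
      rw [map_pow, hy, ← Units.val_pow_eq_pow_val, hz, coe_resChar, red_eq P ψ hψ yu hyu]
    have h2 : y ^ p - yu ∈ P.asIdeal := by
      rw [← hψ, map_sub, h1, sub_self]
    have h3 : P.valuation K (((y ^ p - yu : 𝓞 K)) : K) < 1 :=
      (HeightOneSpectrum.valuation_lt_one_iff_mem P _).mpr h2
    refine ⟨(y : K), (HeightOneSpectrum.valuation_eq_one_iff_notMem P).mpr hyP, ?_⟩
    have e : ((u : Kˣ) : K) - (y : K) ^ p =
        -(((yu : K) - ((u : Kˣ) : K)) + (((y ^ p - yu : 𝓞 K)) : K)) := by
      push_cast; ring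
    rw [e, Valuation.map_neg]
    exact Valuation.map_add_lt _ hyu h3

end Red

section Groups

/-- The index of the `p`-th powers in `(ZMod ℓ)ˣ` for `p ∣ ℓ - 1`. -/
theorem index_pow_range_zmod_units {ℓ p : ℕ} [Fact ℓ.Prime] (h : ℓ % p = 1) :
    (powMonoidHom p : (ZMod ℓ)ˣ →* (ZMod ℓ)ˣ).range.index = p := by
  rw [IsCyclic.index_powMonoidHom_range, Nat.card_eq_fintype_card, ZMod.card_units]
  apply Nat.gcd_eq_right
  have h1 : p ∣ ℓ - ℓ % p := Nat.dvd_sub_mod ℓ
  rwa [h] at h1

/-- Cutting a subgroup `W` by a subgroup `D.comap χ` of prime index which does not contain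
`W`: the index is multiplied by `p`. -/
theorem relIndex_inf_comap_eq_prime {G C : Type*} [Group G] [CommGroup C] {p : ℕ} (hp : p.Prime)
    (W : Subgroup G) (χ : G →* C) (D : Subgroup C) (hD : D.index = p) (b : G) (hbW : b ∈ W)
    (hb : χ b ∉ D) : (W ⊓ D.comap χ).relIndex W = p := by
  rw [inf_comm, Subgroup.inf_relIndex_right, Subgroup.relIndex_comap]
  have h1 : D.relIndex (W.map χ) ∣ p := hD ▸ Subgroup.relIndex_dvd_index_of_normal D (W.map χ)
  rcases (Nat.dvd_prime hp).mp h1 with h | h
  · exfalso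
    rw [Subgroup.relIndex_eq_one] at h
    exact hb (h (Subgroup.mem_map_of_mem χ hbW))
  · exact h

end Groups

end Fermat.Agent.S55.helper87
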