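import Fermat.Agent.S55.helper89_ChevDefs
import Fermat.Agent.S55.helper73_GlobDefs2

/-!
# S55 / GLOB / G7 (helper89): the idele subgroups of Chevalley's second inequality

* `IsPowMod.mul`, `IsPowMod.inv`, `isPowMod_one` : `p`-th powers modulo `P` form a group;
* `unitsAway r K T` : units of `ℚ_r ⊗ K` of the form `(1 ⊗ a) u`, `u` an integral unit and `a ∈ Kˣ`
  a unit at all primes over `r` outside `T` (`= ∏_{P ∣ r, P ∈ T} K_Pˣ × ∏_{P ∣ r, P ∉ T} U_P`);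
* `powAt r K p T` : integral units of `ℚ_r ⊗ K` congruent modulo `U⁽¹⁾` to a global `c` which is a
  `p`-th power modulo the primes of `T` over `r`;
* `primesOverSet K S₀` : the primes of `𝓞 K` over the rational primes in `S₀`;
* `ideleSub K H` : the subgroup of the ideles cut out by local subgroups `H r`;
* `locJS`, `locJST`, `locES`, `locDS` : the local families;
  `JS`, `JST`, `ES`, `DS` : the corresponding subgroups of `Idele K`.
-/

set_option autoImplicit false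

open scoped TensorProduct NumberField
open IsDedekindDomain

namespace Fermat.Agent.S55.helper89

open Fermat.Agent.S55.helper73

section PowMod

variable {K : Type*} [Field K] [NumberField K]

lemma isPowMod_one (p : ℕ) (P : HeightOneSpectrum (𝓞 K)) : IsPowMod K p P 1 :=
  ⟨1, by simp, by simp⟩

lemma IsPowMod.mul {p : ℕ} {P : HeightOneSpectrum (𝓞 K)} {c c' : K}
    (hc : P.valuation K c ≤ 1) (h : IsPowMod K p P c) (h' : IsPowMod K p P c') :
    IsPowMod K p P (c * c') := by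
  obtain ⟨d, hd, hcd⟩ := h
  obtain ⟨d', hd', hcd'⟩ := h'
  refine ⟨d * d', by rw [map_mul, hd, hd', mul_one], ?_⟩
  have e : c * c' - (d * d') ^ p = c * (c' - d' ^ p) + d' ^ p * (c - d ^ p) := by ring
  rw [e]
  refine lt_of_le_of_lt (Valuation.map_add _ _ _) (max_lt ?_ ?_)
  · rw [map_mul]
    calc P.valuation K c * P.valuation K (c' - d' ^ p)
        ≤ 1 * P.valuation K (c' - d' ^ p) := mul_le_mul_left hc _
      _ = P.valuation K (c' - d' ^ p) := one_mul _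
      _ < 1 := hcd'
  · rw [map_mul, map_pow, hd', one_pow, one_mul]
    exact hcd

lemma IsPowMod.inv {p : ℕ} {P : HeightOneSpectrum (𝓞 K)} {c : K}
    (hc : P.valuation K c = 1) (h : IsPowMod K p P c) : IsPowMod K p P c⁻¹ := by
  obtain ⟨d, hd, hcd⟩ := h
  have hc0 : c ≠ 0 := by
    rintro rfl
    simp at hc
  have hd0 : d ≠ 0 := by
    rintro rfl
    simp at hd
  refine ⟨d⁻¹, by rw [map_inv₀, hd, inv_one], ?_⟩
  have e : c⁻¹ - d⁻¹ ^ p = -(c - d ^ p) * (c⁻¹ * (d ^ p)⁻¹) := by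
    have hdp : d ^ p ≠ 0 := pow_ne_zero _ hd0
    rw [inv_pow]
    field_simp
    ring
  rw [e, map_mul, Valuation.map_neg, map_mul, map_inv₀, map_inv₀, map_pow, hc, hd, one_pow,
    inv_one, mul_one, mul_one]
  exact hcd

end PowMod

section Local

variable (r : ℕ) [Fact r.Prime] (K : Type*) [Field K] [NumberField K]

/-- Units of `ℚ_r ⊗ K` which are "units at the primes over `r` outside `T`". -/
def unitsAway (T : Set (HeightOneSpectrum (𝓞 K))) : Subgroup (SemiLoc r K)ˣ where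
  carrier := {x | ∃ a : Kˣ,
    (∀ P : HeightOneSpectrum (𝓞 K), (r : 𝓞 K) ∈ P.asIdeal → P ∉ T → P.valuation K (a : K) = 1) ∧
      x * (locUnit r K a)⁻¹ ∈ intUnits r K}
  one_mem' := ⟨1, fun _ _ _ => by simp, by simp [one_mem]⟩
  mul_mem' := by
    rintro x y ⟨a, ha, hx⟩ ⟨b, hb, hy⟩
    refine ⟨a * b, fun P hP hPT => ?_, ?_⟩
    · rw [Units.val_mul, map_mul, ha P hP hPT, hb P hP hPT, mul_one]
    · have e : x * y * (locUnit r K (a * b))⁻¹ =
          (x * (locUnit r K a)⁻¹) * (y * (locUnit r K b)⁻¹) := by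
        rw [map_mul, mul_inv]
        exact mul_mul_mul_comm _ _ _ _
      rw [e]
      exact mul_mem hx hy
  inv_mem' := by
    rintro x ⟨a, ha, hx⟩
    refine ⟨a⁻¹, fun P hP hPT => ?_, ?_⟩
    · rw [Units.val_inv_eq_inv_val, map_inv₀, ha P hP hPT, inv_one]
    · have e : x⁻¹ * (locUnit r K a⁻¹)⁻¹ = (x * (locUnit r K a)⁻¹)⁻¹ := by
        rw [map_inv, mul_inv]
      rw [e]
      exact inv_mem hx

lemma mem_unitsAway {T : Set (HeightOneSpectrum (𝓞 K))} {x : (SemiLoc r K)ˣ} :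
    x ∈ unitsAway r K T ↔ ∃ a : Kˣ,
      (∀ P : HeightOneSpectrum (𝓞 K), (r : 𝓞 K) ∈ P.asIdeal → P ∉ T →
        P.valuation K (a : K) = 1) ∧ x * (locUnit r K a)⁻¹ ∈ intUnits r K := Iff.rfl

lemma intUnits_le_unitsAway (T : Set (HeightOneSpectrum (𝓞 K))) :
    intUnits r K ≤ unitsAway r K T := fun x hx =>
  ⟨1, fun _ _ _ => by simp, by simpa using hx⟩

/-- Integral units of `ℚ_r ⊗ K` which are `p`-th powers modulo the primes of `T` over `r`. -/
def powAt (p : ℕ) (T : Set (HeightOneSpectrum (𝓞 K))) : Subgroup (SemiLoc r K)ˣ where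
  carrier := {u | ∃ c : Kˣ,
    (∀ P : HeightOneSpectrum (𝓞 K), (r : 𝓞 K) ∈ P.asIdeal → P.valuation K (c : K) = 1) ∧
      locUnit r K c ∈ intUnits r K ∧ u * (locUnit r K c)⁻¹ ∈ oneUnits r K ∧
        ∀ P : HeightOneSpectrum (𝓞 K), (r : 𝓞 K) ∈ P.asIdeal → P ∈ T → IsPowMod K p P (c : K)}
  one_mem' := ⟨1, fun _ _ => by simp, by simp [one_mem], by simp [one_mem],
    fun P _ _ => by simpa using isPowMod_one p P⟩
  mul_mem' := by
    rintro x y ⟨a, ha, ha', hx, hxa⟩ ⟨b, hb, hb', hy, hyb⟩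
    refine ⟨a * b, fun P hP => ?_, ?_, ?_, fun P hP hPT => ?_⟩
    · rw [Units.val_mul, map_mul, ha P hP, hb P hP, mul_one]
    · rw [map_mul]
      exact mul_mem ha' hb'
    · have e : x * y * (locUnit r K (a * b))⁻¹ =
          (x * (locUnit r K a)⁻¹) * (y * (locUnit r K b)⁻¹) := by
        rw [map_mul, mul_inv]
        exact mul_mul_mul_comm _ _ _ _
      rw [e]
      exact mul_mem hx hy
    · rw [Units.val_mul]
      exact IsPowMod.mul (ha P hP).le (hxa P hP hPT) (hyb P hP hPT)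
  inv_mem' := by
    rintro x ⟨a, ha, ha', hx, hxa⟩
    refine ⟨a⁻¹, fun P hP => ?_, ?_, ?_, fun P hP hPT => ?_⟩
    · rw [Units.val_inv_eq_inv_val, map_inv₀, ha P hP, inv_one]
    · rw [map_inv]
      exact inv_mem ha'
    · have e : x⁻¹ * (locUnit r K a⁻¹)⁻¹ = (x * (locUnit r K a)⁻¹)⁻¹ := by
        rw [map_inv, mul_inv]
      rw [e]
      exact inv_mem hx
    · rw [Units.val_inv_eq_inv_val]
      exact IsPowMod.inv (ha P hP) (hxa P hP hPT)

lemma mem_powAt {p : ℕ} {T : Set (HeightOneSpectrum (𝓞 K))} {u : (SemiLoc r K)ˣ} :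
    u ∈ powAt r K p T ↔ ∃ c : Kˣ,
      (∀ P : HeightOneSpectrum (𝓞 K), (r : 𝓞 K) ∈ P.asIdeal → P.valuation K (c : K) = 1) ∧
      locUnit r K c ∈ intUnits r K ∧ u * (locUnit r K c)⁻¹ ∈ oneUnits r K ∧
        ∀ P : HeightOneSpectrum (𝓞 K), (r : 𝓞 K) ∈ P.asIdeal → P ∈ T →
          IsPowMod K p P (c : K) := Iff.rfl

lemma powAt_le_intUnits (p : ℕ) (T : Set (HeightOneSpectrum (𝓞 K))) :
    powAt r K p T ≤ intUnits r K := by
  rintro u ⟨c, -, hc, hu, -⟩
  have h := mul_mem (oneUnits_le r K hu) hc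
  simpa using h

end Local

section Global

variable (K : Type*) [Field K] [NumberField K]

/-- The primes of `𝓞 K` over the rational primes of a finite set `S₀`. -/
def primesOverSet (S₀ : Finset ℕ) : Set (HeightOneSpectrum (𝓞 K)) :=
  {P | ∃ r ∈ S₀, (r : 𝓞 K) ∈ P.asIdeal}

omit [NumberField K] in
lemma mem_primesOverSet {S₀ : Finset ℕ} {P : HeightOneSpectrum (𝓞 K)} :
    P ∈ primesOverSet K S₀ ↔ ∃ r ∈ S₀, (r : 𝓞 K) ∈ P.asIdeal := Iff.rfl

/-- The subgroup of the ideles cut out by a family of local subgroups. -/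
def ideleSub (H : ∀ r : Nat.Primes, Subgroup (SemiLoc (r : ℕ) K)ˣ) : Subgroup (Idele K) where
  carrier := {x | ∀ r : Nat.Primes, (x : IdelePi K) r ∈ H r}
  one_mem' := fun r => one_mem (H r)
  mul_mem' := fun hx hy r => mul_mem (hx r) (hy r)
  inv_mem' := fun hx r => inv_mem (hx r)

lemma mem_ideleSub {H : ∀ r : Nat.Primes, Subgroup (SemiLoc (r : ℕ) K)ˣ} {x : Idele K} :
    x ∈ ideleSub K H ↔ ∀ r : Nat.Primes, (x : IdelePi K) r ∈ H r := Iff.rfl

lemma ideleSub_mono {H H' : ∀ r : Nat.Primes, Subgroup (SemiLoc (r : ℕ) K)ˣ}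
    (h : ∀ r, H r ≤ H' r) : ideleSub K H ≤ ideleSub K H' := fun _ hx r => h r (hx r)

open Classical in
/-- local family of `J_{S₀}` : everything at `S₀`, integral units elsewhere. -/
noncomputable def locJS (S₀ : Finset ℕ) (r : Nat.Primes) : Subgroup (SemiLoc (r : ℕ) K)ˣ :=
  if (r : ℕ) ∈ S₀ then ⊤ else intUnits (r : ℕ) K

open Classical in
/-- local family of `J_{S₀ ∪ T}` : everything at `S₀` and at `T`, units elsewhere. -/
noncomputable def locJST (S₀ : Finset ℕ) (T : Set (HeightOneSpectrum (𝓞 K))) (r : Nat.Primes) :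
    Subgroup (SemiLoc (r : ℕ) K)ˣ :=
  if (r : ℕ) ∈ S₀ then ⊤ else unitsAway (r : ℕ) K T

open Classical in
/-- local family of `E` : `p`-th powers at `S₀`, everything at `T`, units elsewhere. -/
noncomputable def locES (p : ℕ) (S₀ : Finset ℕ) (T : Set (HeightOneSpectrum (𝓞 K)))
    (r : Nat.Primes) : Subgroup (SemiLoc (r : ℕ) K)ˣ :=
  if (r : ℕ) ∈ S₀ then (powMonoidHom p : (SemiLoc (r : ℕ) K)ˣ →* (SemiLoc (r : ℕ) K)ˣ).range
  else unitsAway (r : ℕ) K T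

open Classical in
/-- local family of `D` : everything at `S₀`, `p`-th powers of units at `T`, units elsewhere. -/
noncomputable def locDS (p : ℕ) (S₀ : Finset ℕ) (T : Set (HeightOneSpectrum (𝓞 K)))
    (r : Nat.Primes) : Subgroup (SemiLoc (r : ℕ) K)ˣ :=
  if (r : ℕ) ∈ S₀ then ⊤ else powAt (r : ℕ) K p T

/-- `J_{S₀}` : ideles which are integral units outside `S₀`. -/
noncomputable def JS (S₀ : Finset ℕ) : Subgroup (Idele K) := ideleSub K (locJS K S₀)

/-- `J_{S₀ ∪ T}`. -/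
noncomputable def JST (S₀ : Finset ℕ) (T : Set (HeightOneSpectrum (𝓞 K))) : Subgroup (Idele K) :=
  ideleSub K (locJST K S₀ T)

/-- Chevalley's group `E = ∏_{S₀} (K_vˣ)^p × ∏_T K_vˣ × ∏_{else} U_v`. -/
noncomputable def ES (p : ℕ) (S₀ : Finset ℕ) (T : Set (HeightOneSpectrum (𝓞 K))) :
    Subgroup (Idele K) := ideleSub K (locES K p S₀ T)

/-- Chevalley's group `D = ∏_{S₀} K_vˣ × ∏_T (U_v)^p × ∏_{else} U_v`. -/
noncomputable def DS (p : ℕ) (S₀ : Finset ℕ) (T : Set (HeightOneSpectrum (𝓞 K))) :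
    Subgroup (Idele K) := ideleSub K (locDS K p S₀ T)

variable {K}

lemma locJS_of_mem {S₀ : Finset ℕ} {r : Nat.Primes} (h : (r : ℕ) ∈ S₀) : locJS K S₀ r = ⊤ :=
  if_pos h

lemma locJS_of_notMem {S₀ : Finset ℕ} {r : Nat.Primes} (h : (r : ℕ) ∉ S₀) :
    locJS K S₀ r = intUnits (r : ℕ) K := if_neg h

lemma locJST_of_mem {S₀ : Finset ℕ} (T : Set (HeightOneSpectrum (𝓞 K))) {r : Nat.Primes}
    (h : (r : ℕ) ∈ S₀) : locJST K S₀ T r = ⊤ := if_pos h

lemma locJST_of_notMem {S₀ : Finset ℕ} (T : Set (HeightOneSpectrum (𝓞 K))) {r : Nat.Primes}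
    (h : (r : ℕ) ∉ S₀) : locJST K S₀ T r = unitsAway (r : ℕ) K T := if_neg h

lemma locES_of_mem (p : ℕ) {S₀ : Finset ℕ} (T : Set (HeightOneSpectrum (𝓞 K))) {r : Nat.Primes}
    (h : (r : ℕ) ∈ S₀) : locES K p S₀ T r =
      (powMonoidHom p : (SemiLoc (r : ℕ) K)ˣ →* (SemiLoc (r : ℕ) K)ˣ).range := if_pos h

lemma locES_of_notMem (p : ℕ) {S₀ : Finset ℕ} (T : Set (HeightOneSpectrum (𝓞 K)))
    {r : Nat.Primes} (h : (r : ℕ) ∉ S₀) : locES K p S₀ T r = unitsAway (r : ℕ) K T := if_neg h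

lemma locDS_of_mem (p : ℕ) {S₀ : Finset ℕ} (T : Set (HeightOneSpectrum (𝓞 K))) {r : Nat.Primes}
    (h : (r : ℕ) ∈ S₀) : locDS K p S₀ T r = ⊤ := if_pos h

lemma locDS_of_notMem (p : ℕ) {S₀ : Finset ℕ} (T : Set (HeightOneSpectrum (𝓞 K)))
    {r : Nat.Primes} (h : (r : ℕ) ∉ S₀) : locDS K p S₀ T r = powAt (r : ℕ) K p T := if_neg h

lemma mem_JS {S₀ : Finset ℕ} {x : Idele K} :
    x ∈ JS K S₀ ↔ ∀ r : Nat.Primes, (r : ℕ) ∉ S₀ → (x : IdelePi K) r ∈ intUnits (r : ℕ) K := by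
  refine forall_congr' fun r => ?_
  by_cases h : (r : ℕ) ∈ S₀
  · simp [locJS_of_mem h, h]
  · simp [locJS_of_notMem h, h]

lemma mem_JST {S₀ : Finset ℕ} {T : Set (HeightOneSpectrum (𝓞 K))} {x : Idele K} :
    x ∈ JST K S₀ T ↔
      ∀ r : Nat.Primes, (r : ℕ) ∉ S₀ → (x : IdelePi K) r ∈ unitsAway (r : ℕ) K T := by
  refine forall_congr' fun r => ?_
  by_cases h : (r : ℕ) ∈ S₀
  · simp [locJST_of_mem T h, h]
  · simp [locJST_of_notMem T h, h]

lemma mem_ES {p : ℕ} {S₀ : Finset ℕ} {T : Set (HeightOneSpectrum (𝓞 K))} {x : Idele K} :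
    x ∈ ES K p S₀ T ↔
      (∀ r : Nat.Primes, (r : ℕ) ∈ S₀ → ∃ z : (SemiLoc (r : ℕ) K)ˣ, z ^ p = (x : IdelePi K) r) ∧
      ∀ r : Nat.Primes, (r : ℕ) ∉ S₀ → (x : IdelePi K) r ∈ unitsAway (r : ℕ) K T := by
  constructor
  · intro hx
    refine ⟨fun r hr => ?_, fun r hr => ?_⟩
    · have := hx r
      rw [locES_of_mem p T hr] at this
      exact this
    · have := hx r
      rw [locES_of_notMem p T hr] at this
      exact this
  · rintro ⟨h1, h2⟩ r
    by_cases h : (r : ℕ) ∈ S₀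
    · rw [locES_of_mem p T h]
      exact h1 r h
    · rw [locES_of_notMem p T h]
      exact h2 r h

lemma mem_DS {p : ℕ} {S₀ : Finset ℕ} {T : Set (HeightOneSpectrum (𝓞 K))} {x : Idele K} :
    x ∈ DS K p S₀ T ↔
      ∀ r : Nat.Primes, (r : ℕ) ∉ S₀ → (x : IdelePi K) r ∈ powAt (r : ℕ) K p T := by
  refine forall_congr' fun r => ?_
  by_cases h : (r : ℕ) ∈ S₀
  · simp [locDS_of_mem p T h, h]
  · simp [locDS_of_notMem p T h, h]

lemma ES_le_JST (p : ℕ) (S₀ : Finset ℕ) (T : Set (HeightOneSpectrum (𝓞 K))) :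
    ES K p S₀ T ≤ JST K S₀ T := fun _ hx => mem_JST.2 (mem_ES.1 hx).2

lemma JS_le_JST (S₀ : Finset ℕ) (T : Set (HeightOneSpectrum (𝓞 K))) :
    JS K S₀ ≤ JST K S₀ T := fun _ hx =>
  mem_JST.2 fun r hr => intUnits_le_unitsAway (r : ℕ) K T (mem_JS.1 hx r hr)

lemma DS_le_JS (p : ℕ) (S₀ : Finset ℕ) (T : Set (HeightOneSpectrum (𝓞 K))) :
    DS K p S₀ T ≤ JS K S₀ := fun _ hx =>
  mem_JS.2 fun r hr => powAt_le_intUnits (r : ℕ) K p T (mem_DS.1 hx r hr)

end Global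

end Fermat.Agent.S55.helper89
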