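import Fermat.Agent.S14.helper30_AuxPrime
import Fermat.Agent.S55.helper87_AuxPrimesLemmas
import Fermat.Agent.S55.helper89_ChevGroups
import Fermat.Agent.S55.helper24_Dict
import Fermat.Agent.S55.helper73_IdlBasic

/-!
# S55 / GLOB / G7-SURJ (helper83): `J_K = Kˣ · D`

* `exists_forall_mul_mem_of_index` : abstract counting lemma: characters `χ i : U →* C i` and
  subgroups `D i ≤ C i` of prime index `p` such that the common kernel modulo the `D i` lies in a
  subgroup of index `p ^ #ι` give a surjection `U → ∏ C i / D i`.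
* `exists_unit_isPowMod` (S1) : the `S`-units surject onto `∏_{P ∈ T} k_Pˣ / (k_Pˣ)^p`.
* `principalSub_sup_DS` (S2) : `J_K = Kˣ · D`.
-/

set_option autoImplicit false

open scoped TensorProduct NumberField
open IsDedekindDomain

namespace Fermat.Agent.S55.helper83.ChevSurj

open Fermat.Agent.S55.helper73 Fermat.Agent.S55.helper89 Fermat.Agent.S55.helper87

/-! ## The abstract counting lemma -/

section Abstract

/-- If the elements of `U` whose images under all `χ i` lie in `D i` (of prime index `p`) are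
contained in a subgroup `A` of index `p ^ #ι`, then `U → ∏ C i / D i` is surjective. -/
theorem exists_forall_mul_mem_of_index {U : Type*} [Group U] {ι : Type*} [Fintype ι]
    {C : ι → Type*} [∀ i, CommGroup (C i)] (p : ℕ) (hp : p.Prime)
    (χ : ∀ i, U →* C i) (D : ∀ i, Subgroup (C i)) (hD : ∀ i, (D i).index = p)
    (A : Subgroup U) (hA : A.index = p ^ Fintype.card ι)
    (hWA : ∀ u : U, (∀ i, χ i u ∈ D i) → u ∈ A)
    (t : ∀ i, C i) : ∃ u : U, ∀ i, t i * χ i u ∈ D i := by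
  classical
  set Φ : U →* (∀ i, C i ⧸ D i) :=
    MonoidHom.pi (fun i => (QuotientGroup.mk' (D i)).comp (χ i)) with hΦ
  have hΦapp : ∀ (u : U) (i : ι), Φ u i = QuotientGroup.mk (χ i u) := fun _ _ => rfl
  have hfin : ∀ i, Finite (C i ⧸ D i) := fun i => by
    have : (D i).FiniteIndex := ⟨by rw [hD i]; exact hp.ne_zero⟩
    exact Subgroup.finite_quotient_of_finiteIndex
  have hcard : Nat.card (∀ i, C i ⧸ D i) = p ^ Fintype.card ι := by
    rw [Nat.card_pi]
    have : ∀ i ∈ (Finset.univ : Finset ι), Nat.card (C i ⧸ D i) = p := fun i _ => by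
      rw [← Subgroup.index_eq_card, hD i]
    rw [Finset.prod_congr rfl this, Finset.prod_const, Finset.card_univ]
  have hker : Φ.ker ≤ A := by
    intro u hu
    apply hWA
    intro i
    have h1 : Φ u i = 1 := by
      rw [MonoidHom.mem_ker.1 hu]; rfl
    rw [hΦapp] at h1
    exact (QuotientGroup.eq_one_iff _).1 h1
  have h1 : p ^ Fintype.card ι ∣ Nat.card Φ.range := by
    rw [← Subgroup.index_ker, ← hA]
    exact Subgroup.index_dvd_of_le hker
  have h2 : Nat.card Φ.range ≤ p ^ Fintype.card ι := by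
    rw [← hcard]
    exact Subgroup.card_le_card_group _
  have h3 : 0 < Nat.card Φ.range := Nat.card_pos
  have h4 : Nat.card Φ.range = Nat.card (∀ i, C i ⧸ D i) := by
    rw [hcard]
    exact le_antisymm h2 (Nat.le_of_dvd h3 h1)
  have h5 : Φ.range = ⊤ := (Subgroup.card_eq_iff_eq_top _).1 h4
  obtain ⟨u, hu⟩ := MonoidHom.range_eq_top.1 h5 (fun i => (QuotientGroup.mk (t i))⁻¹)
  refine ⟨u, fun i => ?_⟩
  have h6 := congrFun hu i
  rw [hΦapp] at h6
  rw [← QuotientGroup.eq_one_iff, QuotientGroup.mk_mul, h6, mul_inv_cancel]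

end Abstract

/-! ## The group of `P`-units -/

section UnitsAt

variable {K : Type*} [Field K] [NumberField K]

/-- The subgroup of `Kˣ` of elements which are units at `P`. -/
def unitsAt (P : HeightOneSpectrum (𝓞 K)) : Subgroup Kˣ where
  carrier := {x | P.valuation K (x : K) = 1}
  one_mem' := by
    change P.valuation K ((1 : Kˣ) : K) = 1
    rw [Units.val_one, map_one]
  mul_mem' := by
    intro a b ha hb
    change P.valuation K ((a * b : Kˣ) : K) = 1
    rw [Units.val_mul, map_mul, ha, hb, mul_one]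
  inv_mem' := by
    intro a ha
    change P.valuation K ((a⁻¹ : Kˣ) : K) = 1
    rw [Units.val_inv_eq_inv_val, map_inv₀, ha, inv_one]

lemma mem_unitsAt {P : HeightOneSpectrum (𝓞 K)} {x : Kˣ} :
    x ∈ unitsAt P ↔ P.valuation K (x : K) = 1 := Iff.rfl

end UnitsAt

/-! ## S1 -/

section S1

variable (K : Type*) [Field K] [NumberField K]

/-- S1 : the `S`-units surject onto `∏_{P ∈ T} k_Pˣ / (k_Pˣ)^p`: for `U` with
`[U : U ∩ K^p] = p ^ s`, `#T + 1 = s`, `T` consisting of degree one primes not over `p` at which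
the elements of `U` are units, such that the elements of `U` which are `p`-th powers modulo all
`P ∈ T` are in `a^ℤ U^p`: every family of residue classes is hit by an element of `U`, up to
`p`-th powers. -/
theorem exists_unit_isPowMod (p : ℕ) (hp : p.Prime) (ζ : K) (hζ : IsPrimitiveRoot ζ p)
    (U : Subgroup Kˣ) (s : ℕ)
    (hU : ((powMonoidHom p : Kˣ →* Kˣ).range ⊓ U).relIndex U = p ^ s)
    (T : Finset (HeightOneSpectrum (𝓞 K))) (hcard : T.card + 1 = s)
    (hT : ∀ P ∈ T, (Ideal.absNorm P.asIdeal).Prime ∧ Ideal.absNorm P.asIdeal ≠ p)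
    (hunit : ∀ u ∈ U, ∀ P ∈ T, P.valuation K ((u : Kˣ) : K) = 1)
    (a : Kˣ) (haU : a ∈ U) (ha : ¬ ∃ c : K, c ^ p = (a : K))
    (hker : ∀ u ∈ U, (∀ P ∈ T, IsPowMod K p P (u : K)) →
      ∃ (j : ℕ) (v : Kˣ), v ∈ U ∧ u = a ^ j * v ^ p)
    (c : HeightOneSpectrum (𝓞 K) → Kˣ) (hc : ∀ P ∈ T, P.valuation K ((c P : Kˣ) : K) = 1) :
    ∃ u ∈ U, ∀ P ∈ T, IsPowMod K p P ((c P : K) * (u : K)) := by
  classical
  have : Fact p.Prime := ⟨hp⟩
  -- the quotient `U / (U ∩ K^p)` and the subgroup `A' = a^ℤ (U ∩ K^p)`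
  set N' : Subgroup U := ((powMonoidHom p : Kˣ →* Kˣ).range ⊓ U).subgroupOf U with hN'
  have hN'idx : N'.index = p ^ s := hU
  have hN'mem : ∀ u : U, u ∈ N' ↔ ∃ c : Kˣ, c ^ p = (u : Kˣ) := by
    intro u
    rw [hN', Subgroup.mem_subgroupOf, Subgroup.mem_inf, MonoidHom.mem_range]
    constructor
    · rintro ⟨⟨c, hc⟩, -⟩
      exact ⟨c, hc⟩
    · rintro ⟨c, hc⟩
      exact ⟨⟨c, hc⟩, u.2⟩
  set π : U →* U ⧸ N' := QuotientGroup.mk' N' with hπ
  have hπsurj : Function.Surjective π := QuotientGroup.mk'_surjective N'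
  set a' : U := ⟨a, haU⟩ with ha'
  have hāp : (π a') ^ p = 1 := by
    rw [← map_pow, hπ, QuotientGroup.mk'_apply, QuotientGroup.eq_one_iff, hN'mem]
    exact ⟨a, rfl⟩
  have hā1 : π a' ≠ 1 := by
    rw [hπ, QuotientGroup.mk'_apply, Ne, QuotientGroup.eq_one_iff, hN'mem]
    rintro ⟨c, hc⟩
    apply ha
    refine ⟨(c : K), ?_⟩
    rw [← Units.val_pow_eq_pow_val, hc]
  have hord : orderOf (π a') = p := orderOf_eq_prime hāp hā1
  set A' : Subgroup U := (Subgroup.zpowers (π a')).comap π with hA'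
  have hA'idx : p * A'.index = p ^ s := by
    have hcard' : Nat.card (Subgroup.zpowers (π a')) = p := by rw [Nat.card_zpowers, hord]
    have h1 := Subgroup.card_mul_index (Subgroup.zpowers (π a'))
    rw [hcard', ← Subgroup.index_eq_card, hN'idx] at h1
    rw [hA', Subgroup.index_comap_of_surjective _ hπsurj]
    exact h1
  have hA'idx' : A'.index = p ^ T.card := by
    have h1 : p ^ s = p * p ^ T.card := by
      rw [← hcard, pow_succ']
    rw [h1] at hA'idx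
    exact Nat.eq_of_mul_eq_mul_left hp.pos hA'idx
  have hA'mem : ∀ (u : U) (j : ℕ) (v : Kˣ), (u : Kˣ) = a ^ j * v ^ p → u ∈ A' := by
    intro u j v hu
    rw [hA', Subgroup.mem_comap]
    have h1 : (a' ^ j)⁻¹ * u ∈ N' := by
      rw [hN'mem]
      refine ⟨v, ?_⟩
      change v ^ p = (a ^ j)⁻¹ * (u : Kˣ)
      rw [hu]; group
    have h2 : π (a' ^ j) = π u := QuotientGroup.eq.mpr h1
    rw [← h2, map_pow]
    exact Subgroup.pow_mem _ (Subgroup.mem_zpowers _) j
  -- the residue characters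
  have hℓ : ∀ i : {P // P ∈ T}, (Ideal.absNorm i.1.asIdeal).Prime := fun i => (hT i.1 i.2).1
  have hex : ∀ i : {P // P ∈ T}, ∃ φ : 𝓞 K →+* ZMod (Ideal.absNorm i.1.asIdeal),
      ∀ x, φ x = 0 ↔ x ∈ i.1.asIdeal := fun i =>
    Fermat.Agent.S14.helper30.exists_ringHom_zmod i.1.asIdeal _ (hℓ i) rfl
  choose ψ hψ using hex
  have hmod : ∀ i : {P // P ∈ T}, Ideal.absNorm i.1.asIdeal % p = 1 := fun i =>
    (Fermat.Agent.S14.helper30.residue_facts ζ hζ 1 1 (by simp) i.1.asIdeal _ (hℓ i) rfl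
      (hT i.1 i.2).2).1
  -- characters on the group of all `P`-units
  let χV : ∀ i : {P // P ∈ T}, unitsAt i.1 →* (ZMod (Ideal.absNorm i.1.asIdeal))ˣ := fun i =>
    haveI : Fact (Ideal.absNorm i.1.asIdeal).Prime := ⟨hℓ i⟩
    resChar i.1 (ψ i) (hψ i) (unitsAt i.1) (fun _ hu => hu)
  have hχV : ∀ (i : {P // P ∈ T}) (x : unitsAt i.1),
      χV i x ∈ (powMonoidHom p : (ZMod (Ideal.absNorm i.1.asIdeal))ˣ →* _).range ↔
        IsPowMod K p i.1 ((x : Kˣ) : K) := by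
    intro i x
    have : Fact (Ideal.absNorm i.1.asIdeal).Prime := ⟨hℓ i⟩
    rw [isPowMod_iff_resChar i.1 (ψ i) (hψ i) (unitsAt i.1) (fun _ hu => hu) p x,
      MonoidHom.mem_range]
    rfl
  have hUV : ∀ i : {P // P ∈ T}, U ≤ unitsAt i.1 := fun i u hu => hunit u hu i.1 i.2
  obtain ⟨u, hu⟩ := exists_forall_mul_mem_of_index (U := U) (ι := {P // P ∈ T})
    (C := fun i => (ZMod (Ideal.absNorm i.1.asIdeal))ˣ) p hp
    (fun i => (χV i).comp (Subgroup.inclusion (hUV i)))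
    (fun i => (powMonoidHom p : (ZMod (Ideal.absNorm i.1.asIdeal))ˣ →* _).range)
    (fun i => by
      have : Fact (Ideal.absNorm i.1.asIdeal).Prime := ⟨hℓ i⟩
      exact index_pow_range_zmod_units (hmod i))
    A' (by rw [hA'idx', Fintype.card_coe])
    (fun u hu => by
      have h1 : ∀ P ∈ T, IsPowMod K p P ((u : Kˣ) : K) := fun P hP =>
        (hχV ⟨P, hP⟩ (Subgroup.inclusion (hUV ⟨P, hP⟩) u)).1 (hu ⟨P, hP⟩)
      obtain ⟨j, v, -, huv⟩ := hker u u.2 h1
      exact hA'mem u j v huv)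
    (fun i => χV i ⟨c i.1, hc i.1 i.2⟩)
  refine ⟨u, u.2, fun P hP => ?_⟩
  have h1 := hu ⟨P, hP⟩
  rw [MonoidHom.comp_apply, ← map_mul] at h1
  have h2 := (hχV ⟨P, hP⟩ _).1 h1
  simpa using h2

end S1

/-! ## S2 -/

section S2

variable (K : Type*) [Field K] [NumberField K]

omit [NumberField K] in
/-- a prime of `𝓞 K` lies over at most one rational prime -/
theorem prime_mem_unique' (P : HeightOneSpectrum (𝓞 K)) (q q' : ℕ) (hq : q.Prime)
    (hq' : q'.Prime) (h : (q : 𝓞 K) ∈ P.asIdeal) (h' : (q' : 𝓞 K) ∈ P.asIdeal) : q = q' := by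
  by_contra hne
  have hco : Nat.Coprime q q' := (Nat.coprime_primes hq hq').2 hne
  have hco' : IsCoprime (q : ℤ) (q' : ℤ) := Nat.isCoprime_iff_coprime.2 hco
  obtain ⟨x, y, hxy⟩ := hco'
  have h1 : ((x : 𝓞 K)) * (q : 𝓞 K) + (y : 𝓞 K) * (q' : 𝓞 K) = 1 := by
    have := congrArg (Int.cast : ℤ → 𝓞 K) hxy
    push_cast at this
    exact this
  have h2 : (1 : 𝓞 K) ∈ P.asIdeal := by
    rw [← h1]
    exact P.asIdeal.add_mem (P.asIdeal.mul_mem_left _ h) (P.asIdeal.mul_mem_left _ h')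
  exact P.isPrime.ne_top ((Ideal.eq_top_iff_one _).2 h2)

set_option linter.unusedVariables false in
/-- S2 : `J_K = Kˣ · D`. -/
theorem principalSub_sup_DS (p : ℕ) (hp : p.Prime) (ζ : K) (hζ : IsPrimitiveRoot ζ p)
    (S₀ : Finset ℕ) (hS₀ : ∀ r ∈ S₀, r.Prime) (hpS : p ∈ S₀)
    (hgen : ∀ x : Idele K, ∃ b : Kˣ, ∀ r : Nat.Primes, (r : ℕ) ∉ S₀ →
      (x : IdelePi K) r * (principalPi K b r)⁻¹ ∈ intUnits (r : ℕ) K)
    (s : ℕ)
    (hU : ((powMonoidHom p : Kˣ →* Kˣ).range ⊓ (primesOverSet K S₀).unit K).relIndex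
      ((primesOverSet K S₀).unit K) = p ^ s)
    (T : Finset (HeightOneSpectrum (𝓞 K))) (hcard : T.card + 1 = s)
    (hT : ∀ P ∈ T, (Ideal.absNorm P.asIdeal).Prime ∧ Ideal.absNorm P.asIdeal ∉ S₀)
    (hT' : ∀ P ∈ T, ∀ P' ∈ T, Ideal.absNorm P.asIdeal = Ideal.absNorm P'.asIdeal → P = P')
    (a : Kˣ) (haU : a ∈ (primesOverSet K S₀).unit K) (ha : ¬ ∃ c : K, c ^ p = (a : K))
    (hker : ∀ u ∈ (primesOverSet K S₀).unit K, (∀ P ∈ T, IsPowMod K p P (u : K)) →
      ∃ (j : ℕ) (v : Kˣ), v ∈ (primesOverSet K S₀).unit K ∧ u = a ^ j * v ^ p) :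
    principalSub K ⊔ DS K p S₀ (T : Set (HeightOneSpectrum (𝓞 K))) = ⊤ := by
  classical
  rw [eq_top_iff]
  intro x _
  -- primes over `r ∉ S₀` are not in `primesOverSet K S₀`
  have hnotS : ∀ (r : ℕ), r.Prime → r ∉ S₀ → ∀ P : HeightOneSpectrum (𝓞 K),
      (r : 𝓞 K) ∈ P.asIdeal → P ∉ primesOverSet K S₀ := by
    rintro r hrp hr P hP ⟨r', hr', hP'⟩
    have h1 := prime_mem_unique' K P r r' hrp (hS₀ r' hr') hP hP'
    exact hr (h1 ▸ hr')
  have hTnotS : ∀ P ∈ T, P ∉ primesOverSet K S₀ := fun P hP =>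
    hnotS _ (hT P hP).1 (hT P hP).2 P (Ideal.absNorm_mem _)
  obtain ⟨b, hb⟩ := hgen x
  -- D3 approximants
  have hD3 : ∀ r : Nat.Primes, ∃ c : Kˣ, (r : ℕ) ∉ S₀ →
      locUnit (r : ℕ) K c ∈ intUnits (r : ℕ) K ∧
        (x : IdelePi K) r * (principalPi K b r)⁻¹ * (locUnit (r : ℕ) K c)⁻¹ ∈
          oneUnits (r : ℕ) K := by
    intro r
    by_cases hr : (r : ℕ) ∈ S₀
    · exact ⟨1, fun h => absurd hr h⟩
    · obtain ⟨c, hc1, hc2⟩ :=
        Fermat.Agent.S55.helper24.exists_locUnit_mul_mem_oneUnits (r : ℕ) K _ (hb r hr)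
      exact ⟨c, fun _ => ⟨hc1, hc2⟩⟩
  choose cf hcf using hD3
  -- the family of residue classes to be hit
  let c : HeightOneSpectrum (𝓞 K) → Kˣ := fun P =>
    if h : (Ideal.absNorm P.asIdeal).Prime then cf ⟨Ideal.absNorm P.asIdeal, h⟩ else 1
  have hcP : ∀ P ∈ T, ∃ rP : Nat.Primes, (rP : ℕ) = Ideal.absNorm P.asIdeal ∧ c P = cf rP :=
    fun P hP => ⟨⟨Ideal.absNorm P.asIdeal, (hT P hP).1⟩, rfl, dif_pos (hT P hP).1⟩
  have hc : ∀ P ∈ T, P.valuation K ((c P : Kˣ) : K) = 1 := by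
    intro P hP
    obtain ⟨rP, hrP', hcrP⟩ := hcP P hP
    rw [hcrP]
    have hnot : (rP : ℕ) ∉ S₀ := by rw [hrP']; exact (hT P hP).2
    have h1 := (hcf rP hnot).1
    refine (Fermat.Agent.S55.helper24.locUnit_mem_intUnits_iff (rP : ℕ) K _).1 h1 P ?_
    rw [hrP']
    exact Ideal.absNorm_mem _
  -- S1
  obtain ⟨u, huU, hu⟩ := exists_unit_isPowMod K p hp ζ hζ ((primesOverSet K S₀).unit K) s hU T
    hcard (fun P hP => ⟨(hT P hP).1, fun h => (hT P hP).2 (h ▸ hpS)⟩)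
    (fun u hu P hP => hu P (hTnotS P hP)) a haU ha hker c hc
  -- conclusion
  rw [Subgroup.mem_sup]
  refine ⟨principalIdele K (b * u⁻¹), (mem_principalSub_iff K).2 ⟨_, rfl⟩,
    (principalIdele K (b * u⁻¹))⁻¹ * x, ?_, mul_inv_cancel_left _ _⟩
  rw [mem_DS]
  intro r hr
  have hcomp : (((principalIdele K (b * u⁻¹))⁻¹ * x : Idele K) : IdelePi K) r =
      (x : IdelePi K) r * (principalPi K b r)⁻¹ * locUnit (r : ℕ) K u := by
    change (principalPi K (b * u⁻¹) r)⁻¹ * (x : IdelePi K) r = _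
    rw [principalPi_apply, principalPi_apply, map_mul, map_inv, mul_inv, inv_inv]
    rw [mul_comm, mul_assoc]
  rw [hcomp, mem_powAt]
  obtain ⟨hcf1, hcf2⟩ := hcf r hr
  have hcfval := (Fermat.Agent.S55.helper24.locUnit_mem_intUnits_iff _ K _).1 hcf1
  have huval : ∀ P : HeightOneSpectrum (𝓞 K), ((r : ℕ) : 𝓞 K) ∈ P.asIdeal →
      P.valuation K ((u : Kˣ) : K) = 1 := fun P hP => huU P (hnotS _ r.2 hr P hP)
  have hval : ∀ P : HeightOneSpectrum (𝓞 K), ((r : ℕ) : 𝓞 K) ∈ P.asIdeal →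
      P.valuation K ((cf r * u : Kˣ) : K) = 1 := by
    intro P hP
    rw [Units.val_mul, map_mul, hcfval P hP, huval P hP, mul_one]
  refine ⟨cf r * u, hval, ?_, ?_, ?_⟩
  · exact (Fermat.Agent.S55.helper24.locUnit_mem_intUnits_iff _ K _).2 hval
  · have e : (x : IdelePi K) r * (principalPi K b r)⁻¹ * locUnit (r : ℕ) K u *
        (locUnit (r : ℕ) K (cf r * u))⁻¹ =
        (x : IdelePi K) r * (principalPi K b r)⁻¹ * (locUnit (r : ℕ) K (cf r))⁻¹ := by
      rw [map_mul, mul_inv]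
      rw [mul_assoc ((x : IdelePi K) r * (principalPi K b r)⁻¹),
        mul_comm (locUnit (r : ℕ) K (cf r))⁻¹, ← mul_assoc (locUnit (r : ℕ) K u),
        mul_inv_cancel, one_mul]
    rw [e]
    exact hcf2
  · intro P hP hPT
    have hPT' : P ∈ T := hPT
    have h1 : Ideal.absNorm P.asIdeal = (r : ℕ) :=
      prime_mem_unique' K P _ _ (hT P hPT').1 r.2 (Ideal.absNorm_mem _) hP
    have h2 : c P = cf r := by
      obtain ⟨rP, hrP', hcrP⟩ := hcP P hPT'
      rw [hcrP]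
      congr 1
      exact Subtype.ext (hrP'.trans h1)
    have h3 := hu P hPT'
    rw [h2] at h3
    rw [Units.val_mul]
    exact h3

end S2

end Fermat.Agent.S55.helper83.ChevSurj
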