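import Mathlib

/-!
# S55 (helper83): SHL-KUM, abstract Kummer cochains (pure algebra)

Abstract setting: a group `G` acting on a commutative group `M` (`MulDistribMulAction`),
`ω ∈ M` of order `p ^ (k + 1)` generating the `p ^ (k + 1)`-torsion of `M`, `ζ = ω ^ (p ^ k)`
fixed by `G`, and `β₁ ∈ M` with `β₁ ^ (p ^ (k + 1))` fixed by `G`.  Put `β = β₁ ^ p`.

* `kumE β₁ g = g • β₁ / β₁` (a `p ^ (k + 1)`-torsion element, a 1-cocycle);
* `kumEps ω β₁ g` : an exponent with `ω ^ kumEps = kumE`;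
* `kumB p k ω β₁ g = ω ^ (kumEps % p ^ k)` : `kumB g ^ p = g • β / β`, and `kumB g` only depends
  on `g • β`;
* `kumU p k ω β₁ g = (kumEps / p ^ k : ZMod p)` : `kumE g = kumB g * ζ ^ (kumU g).val`;
* `kumZ p k ω β₁ (g, h) = kumU (g h) - kumU g - kumU h` :
  `g • kumB h * kumB g / kumB (g h) = ζ ^ (kumZ (g, h)).val`.
-/

set_option autoImplicit false
set_option linter.unusedSectionVars false
set_option linter.unusedVariables false

namespace Fermat.Agent.S55.helper83.ShaKum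

section Pow

variable {M : Type*} [Group M] {p : ℕ} [Fact p.Prime]

/-- `ζ ^ (m : ZMod p).val = ζ ^ m` for `ζ ^ p = 1` -/
lemma pow_val_intCast {ζ : M} (hζ : ζ ^ p = 1) (m : ℤ) :
    ζ ^ ((m : ZMod p).val) = ζ ^ m := by
  rw [← zpow_natCast, ZMod.val_intCast, ← zpow_eq_zpow_emod' m hζ]

lemma pow_val_natCast {ζ : M} (hζ : ζ ^ p = 1) (m : ℕ) :
    ζ ^ ((m : ZMod p).val) = ζ ^ m := by
  have := pow_val_intCast hζ (m : ℤ)
  rwa [Int.cast_natCast, zpow_natCast] at this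

/-- `a ↦ ζ ^ a.val` is injective on `ZMod p` when `ζ` has order `p` -/
lemma val_eq_of_pow_val_eq {ζ : M} (hζ : orderOf ζ = p) {a c : ZMod p}
    (h : ζ ^ a.val = ζ ^ c.val) : a = c := by
  rw [pow_eq_pow_iff_modEq, hζ] at h
  have h1 := Nat.ModEq.eq_of_lt_of_lt h (ZMod.val_lt a) (ZMod.val_lt c)
  exact ZMod.val_injective p h1

end Pow

section Kum

variable {G : Type*} [Group G] {M : Type*} [CommGroup M] [MulDistribMulAction G M]
variable (p : ℕ) [Fact p.Prime] (k : ℕ) (ω β₁ : M)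

/-- the Kummer cocycle `g ↦ g • β₁ / β₁` -/
def kumE (g : G) : M := g • β₁ / β₁

/-- a discrete logarithm: an exponent `i` with `ω ^ i = y` (if there is one) -/
noncomputable def dlogN (y : M) : ℕ :=
  open Classical in if h : ∃ i : ℕ, ω ^ i = y then h.choose else 0

/-- an exponent `i` with `ω ^ i = g • β₁ / β₁` (if there is one) -/
noncomputable def kumEps (g : G) : ℕ := dlogN ω (kumE β₁ g)

/-- the `p ^ k`-torsion part of the Kummer cocycle -/
noncomputable def kumB (g : G) : M := ω ^ (kumEps ω β₁ g % p ^ k)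

/-- the top digit of the Kummer cocycle -/
noncomputable def kumU (g : G) : ZMod p := ((kumEps ω β₁ g / p ^ k : ℕ) : ZMod p)

/-- the Bockstein-type 2-cocycle `z = - d u` -/
noncomputable def kumZ (g : G × G) : ZMod p :=
  kumU p k ω β₁ (g.1 * g.2) - kumU p k ω β₁ g.1 - kumU p k ω β₁ g.2

variable {p k ω β₁}

lemma kumE_mul (g h : G) : kumE β₁ (g * h) = g • kumE β₁ h * kumE β₁ g := by
  simp only [kumE, mul_smul, smul_div']
  rw [div_mul_div_cancel]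

lemma kumE_pow (g : G) (n : ℕ) : kumE β₁ g ^ n = g • (β₁ ^ n) / β₁ ^ n := by
  simp only [kumE, div_pow, smul_pow']

variable (hord : orderOf ω = p ^ (k + 1))
  (hcyc : ∀ y : M, y ^ (p ^ (k + 1)) = 1 → ∃ i : ℕ, ω ^ i = y)
  (ha : ∀ g : G, g • (β₁ ^ (p ^ (k + 1))) = β₁ ^ (p ^ (k + 1)))

include hcyc ha in
lemma pow_kumEps (g : G) : ω ^ kumEps ω β₁ g = kumE β₁ g := by
  have h : ∃ i : ℕ, ω ^ i = kumE β₁ g := by
    apply hcyc
    rw [kumE_pow, ha, div_self']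
  rw [kumEps, dlogN, dif_pos h]
  exact h.choose_spec

include hord in
lemma omega_pow_pow : ω ^ (p ^ (k + 1)) = 1 := by
  rw [← hord]
  exact pow_orderOf_eq_one ω

include hord in
lemma zeta_pow : (ω ^ (p ^ k)) ^ p = 1 := by
  rw [← pow_mul, ← pow_succ]
  exact omega_pow_pow hord

include hord in
lemma orderOf_zeta : orderOf (ω ^ (p ^ k)) = p := by
  have hp : p.Prime := Fact.out
  rw [orderOf_pow' _ (pow_ne_zero _ hp.ne_zero), hord, Nat.gcd_eq_right (pow_dvd_pow p (Nat.le_succ k)),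
    pow_succ, Nat.mul_div_cancel_left _ (pow_pos hp.pos k)]

include hcyc ha in
lemma kumE_eq (g : G) :
    kumE β₁ g = kumB p k ω β₁ g * (ω ^ (p ^ k)) ^ (kumEps ω β₁ g / p ^ k) := by
  rw [kumB, ← pow_mul, ← pow_add, Nat.mod_add_div, pow_kumEps hcyc ha]

include hord hcyc ha in
lemma kumE_eq' (g : G) :
    kumE β₁ g = kumB p k ω β₁ g * (ω ^ (p ^ k)) ^ (kumU p k ω β₁ g).val := by
  rw [kumU, pow_val_natCast (zeta_pow hord)]
  exact kumE_eq hcyc ha g

include hord hcyc ha in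
/-- `kumB g ^ p = g • β / β` with `β = β₁ ^ p` -/
lemma kumB_pow (g : G) : kumB p k ω β₁ g ^ p = g • (β₁ ^ p) / β₁ ^ p := by
  rw [← kumE_pow, kumE_eq hcyc ha g, mul_pow, ← pow_mul (ω ^ (p ^ k)), mul_comm _ p, pow_mul (ω ^ (p ^ k)),
    zeta_pow hord, one_pow, mul_one]

lemma kumB_pow_pow (g : G) : kumB p k ω β₁ g ^ (p ^ k * p) = ω ^ ((kumEps ω β₁ g % p ^ k) * (p ^ k * p)) := by
  rw [kumB, ← pow_mul]

include hord in
lemma kumB_pow_eq_one (g : G) : kumB p k ω β₁ g ^ (p ^ (k + 1)) = 1 := by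
  rw [kumB, ← pow_mul, mul_comm, pow_mul, omega_pow_pow hord, one_pow]

include hord hcyc ha in
/-- `kumB g` only depends on `g • β`, `β = β₁ ^ p` -/
lemma kumB_congr {g h : G} (hgh : g • (β₁ ^ p) = h • (β₁ ^ p)) :
    kumB p k ω β₁ g = kumB p k ω β₁ h := by
  have hp : p.Prime := Fact.out
  have h1 : kumE β₁ g ^ p = kumE β₁ h ^ p := by
    rw [kumE_pow, kumE_pow, hgh]
  rw [← pow_kumEps hcyc ha g, ← pow_kumEps hcyc ha h, ← pow_mul, ← pow_mul,
    pow_eq_pow_iff_modEq, hord, pow_succ, mul_comm _ p, mul_comm _ p, mul_comm _ p] at h1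
  have h2 : kumEps ω β₁ g ≡ kumEps ω β₁ h [MOD p ^ k] :=
    Nat.ModEq.mul_left_cancel' hp.ne_zero h1
  rw [kumB, kumB]
  congr 1

lemma kumU_congr {g h : G} (hgh : g • β₁ = h • β₁) :
    kumU p k ω β₁ g = kumU p k ω β₁ h := by
  have : kumEps ω β₁ g = kumEps ω β₁ h := by
    rw [kumEps, kumEps, kumE, kumE, hgh]
  rw [kumU, kumU, this]

variable (hζG : ∀ g : G, g • (ω ^ (p ^ k)) = ω ^ (p ^ k))

include hord hcyc ha hζG in
/-- the coboundary of `kumB` is `ζ ^ kumZ` -/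
lemma kumB_coboundary (g h : G) :
    g • kumB p k ω β₁ h * kumB p k ω β₁ g / kumB p k ω β₁ (g * h) =
      (ω ^ (p ^ k)) ^ (kumZ p k ω β₁ (g, h)).val := by
  have hζp := zeta_pow hord
  have e1 := kumE_eq hcyc ha (p := p) (k := k) (g * h)
  have e2 := kumE_eq hcyc ha (p := p) (k := k) g
  have e3 := kumE_eq hcyc ha (p := p) (k := k) h
  have e4 := kumE_mul (β₁ := β₁) g h
  rw [e1, e2, e3, smul_mul', smul_pow', hζG] at e4
  have hz : kumZ p k ω β₁ (g, h) =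
      (((kumEps ω β₁ (g * h) / p ^ k : ℕ) : ℤ) - ((kumEps ω β₁ g / p ^ k : ℕ) : ℤ) -
        ((kumEps ω β₁ h / p ^ k : ℕ) : ℤ) : ℤ) := by
    simp only [kumZ, kumU, Int.cast_sub, Int.cast_natCast]
  rw [hz, pow_val_intCast hζp, zpow_sub, zpow_sub, zpow_natCast, zpow_natCast, zpow_natCast]
  rw [← div_eq_mul_inv, ← div_eq_mul_inv, div_div, div_eq_div_iff_mul_eq_mul,
    mul_comm _ (kumB p k ω β₁ (g * h)), e4]
  simp only [mul_comm, mul_left_comm, mul_assoc]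

/-- `kumZ` is an additive 2-cocycle (trivial coefficients) -/
lemma kumZ_cocycle (g h j : G) :
    kumZ p k ω β₁ (h, j) - kumZ p k ω β₁ (g * h, j) + kumZ p k ω β₁ (g, h * j) -
      kumZ p k ω β₁ (g, h) = 0 := by
  simp only [kumZ, mul_assoc]
  ring

/-- `kumZ = d (- kumU)` (trivial coefficients) -/
lemma kumZ_eq (g h : G) :
    kumZ p k ω β₁ (g, h) = -kumU p k ω β₁ h - -kumU p k ω β₁ (g * h) + -kumU p k ω β₁ g := by
  simp only [kumZ]
  ring

/-- `kumU` is constant on cosets of a subgroup fixing `β₁` -/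
lemma kumU_mul_of_fix (g s : G) (hs : s • β₁ = β₁) :
    kumU p k ω β₁ (g * s) = kumU p k ω β₁ g :=
  kumU_congr (by rw [mul_smul, hs])

include hord hcyc ha hζG in
/-- `kumZ` is constant on cosets of a normal subgroup fixing `β = β₁ ^ p` and `ω` -/
lemma kumZ_mul_of_fix (N : Subgroup G) [N.Normal] (hNβ : ∀ s ∈ N, s • (β₁ ^ p) = β₁ ^ p)
    (hNω : ∀ s ∈ N, s • ω = ω) (g₁ g₂ s₁ s₂ : G) (hs₁ : s₁ ∈ N) (hs₂ : s₂ ∈ N) :
    kumZ p k ω β₁ (g₁ * s₁, g₂ * s₂) = kumZ p k ω β₁ (g₁, g₂) := by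
  apply val_eq_of_pow_val_eq (orderOf_zeta hord)
  rw [← kumB_coboundary hord hcyc ha hζG, ← kumB_coboundary hord hcyc ha hζG]
  have h1 : kumB p k ω β₁ (g₂ * s₂) = kumB p k ω β₁ g₂ :=
    kumB_congr hord hcyc ha (by rw [mul_smul, hNβ s₂ hs₂])
  have h2 : kumB p k ω β₁ (g₁ * s₁) = kumB p k ω β₁ g₁ :=
    kumB_congr hord hcyc ha (by rw [mul_smul, hNβ s₁ hs₁])
  have h3 : kumB p k ω β₁ (g₁ * s₁ * (g₂ * s₂)) = kumB p k ω β₁ (g₁ * g₂) := by
    apply kumB_congr hord hcyc ha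
    have e : g₁ * s₁ * (g₂ * s₂) = g₁ * g₂ * ((g₂⁻¹ * s₁ * g₂) * s₂) := by group
    have hmem : g₂⁻¹ * s₁ * g₂ * s₂ ∈ N := by
      refine N.mul_mem ?_ hs₂
      have := (inferInstance : N.Normal).conj_mem s₁ hs₁ g₂⁻¹
      rwa [inv_inv] at this
    rw [e, mul_smul (g₁ * g₂), hNβ _ hmem]
  have h4 : (g₁ * s₁) • kumB p k ω β₁ g₂ = g₁ • kumB p k ω β₁ g₂ := by
    rw [mul_smul]
    congr 1
    rw [kumB, smul_pow', hNω s₁ hs₁]
  rw [h1, h2, h3, h4]

end Kum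

end Fermat.Agent.S55.helper83.ShaKum
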