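import Fermat.Agent.S55.helper79_SUnit

/-!
# S55 module B, I7a (THETA design): [SHL-GEN]

For a finite place `Q` of a number field `K` and a prime `p`: a generator `a ∈ Kˣ` of `Q ^ h`
(`h` the class number), with `h = p ^ k * m`, `p ∤ m`: `v_Q (a) = exp (-h)`, `v (a) = 1` for
`v ≠ Q`, and `p ^ k ∣ ord_v a` for every `v`.
-/

set_option autoImplicit false

open scoped NumberField
open IsDedekindDomain

namespace Fermat.Agent.S55.helper83.ShaLGen

/-- [SHL-GEN] a generator of `Q ^ h`, `h = p ^ k * m` the class number, `p ∤ m`. -/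
theorem exists_generator (p : ℕ) [Fact p.Prime] (K : Type*) [Field K] [NumberField K]
    (Q : HeightOneSpectrum (𝓞 K)) :
    ∃ (a : Kˣ) (k m : ℕ), ¬ p ∣ m ∧
      Q.valuation K (a : K) = WithZero.exp (-((p ^ k * m : ℕ) : ℤ)) ∧
      (∀ v : HeightOneSpectrum (𝓞 K), v ≠ Q → v.valuation K (a : K) = 1) ∧
      ∀ v : HeightOneSpectrum (𝓞 K),
        ((p ^ k : ℕ) : ℤ) ∣ Multiplicative.toAdd (v.valuationOfNeZero a) := by
  have hp : p.Prime := Fact.out
  obtain ⟨a, ha0, ha⟩ := helper79.exists_span_eq_pow_classExp Q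
  obtain ⟨k, m, hm, hkm⟩ := Nat.exists_eq_pow_mul_and_not_dvd
    (helper79.classExp_pos (𝓞 K)).ne' p hp.ne_one
  have hK : algebraMap (𝓞 K) K a ≠ 0 := by simpa using ha0
  have hQ : Q.valuation K (algebraMap (𝓞 K) K a) = WithZero.exp (-((p ^ k * m : ℕ) : ℤ)) := by
    rw [HeightOneSpectrum.valuation_of_algebraMap, helper79.intValuation_eq_of_span_eq_pow Q ha,
      hkm]
  have hv : ∀ v : HeightOneSpectrum (𝓞 K), v ≠ Q →
      v.valuation K (algebraMap (𝓞 K) K a) = 1 := by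
    intro v hvQ
    rw [HeightOneSpectrum.valuation_of_algebraMap,
      helper79.intValuation_eq_one_of_span_eq_pow Q v hvQ ha]
  refine ⟨Units.mk0 (algebraMap (𝓞 K) K a) hK, k, m, hm, hQ, hv, fun v => ?_⟩
  by_cases hvQ : v = Q
  · subst hvQ
    have h1 : v.valuationOfNeZero (Units.mk0 (algebraMap (𝓞 K) K a) hK) =
        Multiplicative.ofAdd (-((p ^ k * m : ℕ) : ℤ)) := by
      rw [← WithZero.coe_inj, HeightOneSpectrum.valuationOfNeZero_eq, Units.val_mk0, hQ]
      rfl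
    rw [h1, toAdd_ofAdd]
    exact Dvd.dvd.neg_right ⟨(m : ℤ), by push_cast; ring⟩
  · have h1 : v.valuationOfNeZero (Units.mk0 (algebraMap (𝓞 K) K a) hK) = 1 := by
      rw [← WithZero.coe_inj, HeightOneSpectrum.valuationOfNeZero_eq, Units.val_mk0, hv v hvQ]
      rfl
    rw [h1, toAdd_one]
    exact dvd_zero _

end Fermat.Agent.S55.helper83.ShaLGen
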