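import Fermat.Agent.S55.helper2_RecUnram

/-!
# S55 module B, I7a (THETA design): [SHL-ORD]

`ord_of_pow_eq` : for a local datum `D` at a place `v` of `F` with `Lw / Kv` unramified, and
`y ∈ Eˣ` with `y ^ n = c ∈ Fˣ`, `v(c) = exp (-e)`:  `n * ord_{Lw} (y) = e`.
Statement VERBATIM from `origin/helper75:blueprints/S55/helper75_BArShaL_bp.lean`.
-/

set_option autoImplicit false
set_option linter.unusedSectionVars false
set_option linter.unusedVariables false

open scoped NumberField
open IsDedekindDomain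

namespace Fermat.Agent.S55.helper83.ShaLOrd

open Fermat.Agent.S55.helper8 Fermat.Agent.S55.helper11

variable (q : ℕ) [Fact q.Prime] (F E : Type) [Field F] [NumberField F] [Field E]
  [NumberField E] [Algebra F E] [IsGalois F E]

/-- [SHL-ORD] -/
theorem ord_of_pow_eq (D : LocDatum q F E) (v : HeightOneSpectrum (𝓞 F)) (hv : D.AtPlace v)
    (hunr : IsUnram q D.Kv D.Lw) (y : Eˣ) (c : Fˣ) (n : ℕ)
    (hy : y ^ n = Units.map (algebraMap F E : F →* E) c) (e : ℤ)
    (hc : v.valuation F (c : F) = WithZero.exp (-e)) :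
    (n : ℤ) * ord q D.Lw (Units.map (algebraMap E D.Lw : E →* D.Lw) y) = e := by
  have h1 : ord q D.Lw (Units.map (algebraMap E D.Lw : E →* D.Lw) (y ^ n)) =
      (n : ℤ) * ord q D.Lw (Units.map (algebraMap E D.Lw : E →* D.Lw) y) := by
    rw [map_pow, ← zpow_natCast, helper2.ord_zpow]
  have h2 : Units.map (algebraMap E D.Lw : E →* D.Lw) (Units.map (algebraMap F E : F →* E) c) =
      Units.map (algebraMap D.Kv D.Lw : D.Kv →* D.Lw)
        (Units.map (algebraMap F D.Kv : F →* D.Kv) c) := by
    apply Units.ext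
    exact helper2.algebraMap_compat q F E D (c : F)
  have h3 := helper2.valuation_eq_exp_neg_ord q F E D v hv c
  rw [hc, WithZero.exp_inj, neg_inj] at h3
  rw [← h1, hy, h2, hunr, ← h3]

end Fermat.Agent.S55.helper83.ShaLOrd
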