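import Mathlib

/-!
# S55 / GLOB / G7 (helper89): the abstract index count of Chevalley's second inequality

Pure group theory.

* `relIndex_sup_mul_relIndex_inf` : for subgroups `P, J', E` of a commutative group with
  `E ≤ J'`:  `[P J' : P E] * [P ∩ J' : P ∩ E] = [J' : E]`.
* `index_sup_dvd_prime` : the Chevalley count.
* `relIndex_dvd_index_of_map_le` : transfer of an index bound along a homomorphism.
-/

set_option autoImplicit false

namespace Fermat.Agent.S55.helper89

open Subgroup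

section

variable {G : Type*} [CommGroup G]

/-- `[P J' : P E] * [P ∩ J' : P ∩ E] = [J' : E]` for `E ≤ J'` in a commutative group. -/
theorem relIndex_sup_mul_relIndex_inf (P J' E : Subgroup G) (hE : E ≤ J') :
    (P ⊔ E).relIndex (P ⊔ J') * (P ⊓ E).relIndex (P ⊓ J') = E.relIndex J' := by
  have hM : (P ⊔ E) ⊓ J' = (P ⊓ J') ⊔ E := by
    apply le_antisymm
    · intro x hx
      obtain ⟨hx1, hx2⟩ := hx
      obtain ⟨a, ha, b, hb, rfl⟩ := Subgroup.mem_sup.1 hx1
      have haJ : a ∈ J' := by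
        have := J'.mul_mem hx2 (J'.inv_mem (hE hb))
        simpa using this
      exact Subgroup.mem_sup.2 ⟨a, ⟨ha, haJ⟩, b, hb, rfl⟩
    · exact sup_le (inf_le_inf_right _ le_sup_left) (le_inf le_sup_right hE)
  have h1 : E.relIndex ((P ⊔ E) ⊓ J') * ((P ⊔ E) ⊓ J').relIndex J' = E.relIndex J' :=
    relIndex_mul_relIndex E _ J' (le_inf le_sup_right hE) inf_le_right
  have h2 : ((P ⊔ E) ⊓ J').relIndex J' = (P ⊔ E).relIndex (P ⊔ J') := by
    rw [inf_relIndex_right, ← relIndex_sup_right (H := J') (K := P ⊔ E)]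
    congr 1
    rw [sup_comm J', sup_assoc, sup_eq_right.2 hE]
  have h3 : E.relIndex ((P ⊔ E) ⊓ J') = (P ⊓ E).relIndex (P ⊓ J') := by
    rw [hM, relIndex_sup_right, ← inf_relIndex_right (H := E) (K := P ⊓ J')]
    congr 1
    rw [inf_comm E, inf_assoc, inf_eq_right.2 hE]
  rw [← h1, h2, h3, mul_comm]

/-- The Chevalley count: if `J = P J'`, `[J' : E] = p^(b+1)`, and `P ∩ E` is contained in a
subgroup `W` of `P ∩ J'` of index `p^b`, then `[J : P E]` divides `p`. -/
theorem index_sup_dvd_prime (P J' E W : Subgroup G) (hE : E ≤ J') (hgen : P ⊔ J' = ⊤)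
    (p b : ℕ) (hp : p.Prime) (hidx : E.relIndex J' = p ^ (b + 1))
    (hW : W ≤ P ⊓ J') (hWidx : W.relIndex (P ⊓ J') = p ^ b) (hkey : P ⊓ E ≤ W) :
    (P ⊔ E).index ∣ p := by
  have h1 := relIndex_sup_mul_relIndex_inf P J' E hE
  rw [hgen, relIndex_top_right, hidx] at h1
  have h2 : (P ⊓ E).relIndex W * W.relIndex (P ⊓ J') = (P ⊓ E).relIndex (P ⊓ J') :=
    relIndex_mul_relIndex _ _ _ hkey hW
  rw [hWidx] at h2
  rw [← h2, ← mul_assoc, pow_succ] at h1
  have hpb : 0 < p ^ b := pow_pos hp.pos b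
  have h3 : (P ⊔ E).index * (P ⊓ E).relIndex W = p := by
    have h4 : (P ⊔ E).index * (P ⊓ E).relIndex W * p ^ b = p * p ^ b := by
      rw [h1, mul_comm]
    exact Nat.eq_of_mul_eq_mul_right hpb h4
  exact Dvd.intro _ h3

end

section

variable {G H : Type*} [CommGroup G] [CommGroup H]

/-- Transfer: if `φ` maps `X` into `R ≤ F = φ(G)` then `[F : R]` divides `[G : X]`. -/
theorem relIndex_dvd_index_of_map_le (φ : G →* H) (X : Subgroup G) (R F : Subgroup H)
    (hF : F = φ.range) (hXR : X.map φ ≤ R) : R.relIndex F ∣ X.index := by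
  have h1 : R.relIndex F ∣ (X.map φ).relIndex F := relIndex_dvd_of_le_left F hXR
  have h2 : (X.map φ).relIndex F = (X ⊔ φ.ker).index := by
    rw [hF, MonoidHom.range_eq_map, relIndex_map_map, ← relIndex_top_right]
    congr 1
    exact top_sup_eq _
  rw [h2] at h1
  exact h1.trans (index_dvd_of_le le_sup_left)

end

end Fermat.Agent.S55.helper89
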