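import Fermat.Agent.S55.helper89_ChevGroups
import Fermat.Agent.S55.helper89_ChevIndex
import Fermat.Agent.S55.helper73_IdlBasic

/-!
# S55 / GLOB / G7-NORMIDELE (helper86): local norms assemble to idele norms

* `exists_normG_eq_bcIdele` (N5) : an idele of `K` which is a local norm at every rational prime
  and the norm of an integral unit at almost all of them is the norm of an idele of `L`.
* `hZero_dvd_index` (N6) : if all elements of `X ≤ J_K` are idele norms then
  `|Ĥ⁰(C_L)| = [C_L^G : N C_L]` divides `[J_K : Kˣ X]`.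
-/

set_option autoImplicit false
set_option linter.unusedSectionVars false
set_option linter.unusedVariables false

open scoped TensorProduct NumberField
open IsDedekindDomain

namespace Fermat.Agent.S55.helper86

open Fermat.Agent.S55.helper73 Fermat.Agent.S55.helper89

section LocNorm

variable (K L : Type*) [Field K] [NumberField K] [Field L] [NumberField L] [Algebra K L]
  [IsGalois K L]

/-- the group norm commutes with equivariant homomorphisms -/
theorem map_normG_of_equivariant {G A B : Type*} [Group G] [Fintype G] [CommGroup A]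
    [CommGroup B] [MulDistribMulAction G A] [MulDistribMulAction G B] (f : A →* B)
    (hf : ∀ (σ : G) (a : A), f (σ • a) = σ • f a) (x : A) :
    f (normG G A x) = normG G B (f x) := by
  rw [normG_apply, normG_apply, map_prod]
  exact Finset.prod_congr rfl fun σ _ => hf σ x

/-- the norm of an idele is computed componentwise -/
theorem normG_idele_apply (Y : Idele L) (r : Nat.Primes) :
    ((normG Gal(L/K) (Idele L) Y : Idele L) : IdelePi L) r =
      normG Gal(L/K) (SemiLoc (r : ℕ) L)ˣ ((Y : IdelePi L) r) :=
  map_normG_of_equivariant (G := Gal(L/K)) (A := Idele L) (B := (SemiLoc (r : ℕ) L)ˣ)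
    ((Pi.evalMonoidHom (fun q : Nat.Primes => (SemiLoc (q : ℕ) L)ˣ) r).comp (idele L).subtype)
    (fun _ _ => rfl) Y

/-- the norm of an idele class is the class of the norm -/
theorem normG_mk (Y : Idele L) :
    normG Gal(L/K) (IdeleClass L) (QuotientGroup.mk Y) =
      (QuotientGroup.mk (normG Gal(L/K) (Idele L) Y) : IdeleClass L) :=
  (map_normG_of_equivariant (G := Gal(L/K)) (A := Idele L) (B := IdeleClass L)
    (QuotientGroup.mk' (principalSub L)) (fun _ _ => rfl) Y).symm

/-- N5 : local norms at the components form an idele norm. -/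
theorem exists_normG_eq_bcIdele (x : Idele K)
    (h1 : ∀ r : Nat.Primes, IsLocNorm K L (r : ℕ) ((x : IdelePi K) r))
    (h2 : ∀ᶠ r : Nat.Primes in Filter.cofinite, IsLocIntNorm K L (r : ℕ) ((x : IdelePi K) r)) :
    ∃ y : Idele L, normG Gal(L/K) (Idele L) y = bcIdele K L x := by
  classical
  have h : ∀ r : Nat.Primes, ∃ y : (SemiLoc (r : ℕ) L)ˣ,
      (IsLocIntNorm K L (r : ℕ) ((x : IdelePi K) r) → y ∈ intUnits (r : ℕ) L) ∧
      normG Gal(L/K) (SemiLoc (r : ℕ) L)ˣ y =
        helper89.bcUnits K L (r : ℕ) ((x : IdelePi K) r) := by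
    intro r
    by_cases hr : IsLocIntNorm K L (r : ℕ) ((x : IdelePi K) r)
    · obtain ⟨y, hy1, hy2⟩ := hr
      exact ⟨y, fun _ => hy1, hy2⟩
    · obtain ⟨y, hy⟩ := h1 r
      exact ⟨y, fun h => absurd h hr, hy⟩
  choose y hy1 hy2 using h
  have hmem : y ∈ idele L := (mem_idele L).2 (h2.mono fun r hr => hy1 r hr)
  refine ⟨⟨y, hmem⟩, ?_⟩
  apply Subtype.ext
  funext r
  rw [normG_idele_apply]
  exact hy2 r

/-- N6 (transfer to the idele class group): if all elements of `X ≤ J_K` are idele norms, then
`|Ĥ⁰(C_L)| = [C_L^G : N C_L]` divides `[J_K : Kˣ X]`. -/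
theorem hZero_dvd_index (X : Subgroup (Idele K))
    (hX : ∀ x ∈ X, ∃ y : Idele L, normG Gal(L/K) (Idele L) y = bcIdele K L x) :
    ((normG Gal(L/K) (IdeleClass L)).range.subgroupOf
      (fixedSub Gal(L/K) (IdeleClass L))).index ∣ (principalSub K ⊔ X).index := by
  set φ : Idele K →* IdeleClass L := (QuotientGroup.mk' (principalSub L)).comp (bcIdele K L)
    with hφ
  have hF : fixedSub Gal(L/K) (IdeleClass L) = φ.range := by
    ext c
    constructor
    · intro hc
      obtain ⟨y, hy⟩ := exists_bcIdele_of_fixed_class K L c hc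
      exact ⟨y, hy⟩
    · rintro ⟨y, rfl⟩
      intro σ
      change σ • (QuotientGroup.mk (bcIdele K L y) : IdeleClass L) = QuotientGroup.mk _
      rw [smul_mk]
      congr 1
      apply Subtype.ext
      funext q
      apply Units.ext
      exact smul_bc K L (q : ℕ) σ _
  have hXR : (principalSub K ⊔ X).map φ ≤ (normG Gal(L/K) (IdeleClass L)).range := by
    rw [Subgroup.map_sup]
    apply sup_le
    · rintro _ ⟨x, hx, rfl⟩
      obtain ⟨z, rfl⟩ := (mem_principalSub_iff K).1 hx
      have : φ (principalIdele K z) = 1 := by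
        change (QuotientGroup.mk (bcIdele K L (principalIdele K z)) : IdeleClass L) = 1
        rw [bcIdele_principalIdele, QuotientGroup.eq_one_iff]
        exact (mem_principalSub_iff L).2 ⟨_, rfl⟩
      rw [this]
      exact one_mem _
    · rintro _ ⟨x, hx, rfl⟩
      obtain ⟨y, hy⟩ := hX x hx
      refine ⟨QuotientGroup.mk y, ?_⟩
      rw [normG_mk, hy]
      rfl
  exact relIndex_dvd_index_of_map_le φ (principalSub K ⊔ X) _ _ hF hXR

end LocNorm

end Fermat.Agent.S55.helper86
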