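import Fermat.Agent.S55.helper84_ChevWrap
import Fermat.Agent.S55.helper86_ChevNormIdele
import Fermat.Agent.S55.helper89_ChevGroups

/-!
# S55 / GLOB G7-CORE (helper84, second prover): Step 2, `E ≤ N(J_L)`

For `L/K` cyclic of degree `p`, `S₀ ∋ p` containing the primes ramified in `K` and in `L/K`,
and `T` a set of primes which split completely in `L`: every idele of Chevalley's group
`E = ES K p S₀ T` is the norm of an idele of `L`.
-/

set_option autoImplicit false
set_option linter.style.haveILetI false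
set_option linter.unusedSectionVars false
set_option linter.unusedVariables false

open scoped TensorProduct NumberField
open IsDedekindDomain

namespace Fermat.Agent.S55.helper84

open Fermat.Agent.S55.helper73 Fermat.Agent.S55.helper89

section Step2

variable (K L : Type*) [Field K] [NumberField K] [Field L] [NumberField L] [Algebra K L]
  [IsGalois K L]

/-- the norm of a global element is a local norm -/
lemma isLocNorm_locUnit_norm (q : ℕ) [Fact q.Prime] (β : Lˣ) :
    IsLocNorm K L q (locUnit q K (Units.map (Algebra.norm K : L →* K) β)) :=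
  ⟨locUnit q L β, Fermat.Agent.S55.helper88.normG_locUnit K L q β⟩

/-- principal elements which are units outside a finite set `F` of completely split primes
are local norms. -/
lemma isLocNorm_locUnit_of_finset (p : ℕ) (hp : p.Prime) (hdeg : Module.finrank K L = p)
    (q : ℕ) [Fact q.Prime] (hqp : q ≠ p)
    (hunr : ∀ P : HeightOneSpectrum (𝓞 K), (q : 𝓞 K) ∈ P.asIdeal →
      P.valuation K (q : K) = WithZero.exp (-1 : ℤ))
    (hL : ∀ P : HeightOneSpectrum (𝓞 K), (q : 𝓞 K) ∈ P.asIdeal → IsUnramAt K L P)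
    (F : Finset (HeightOneSpectrum (𝓞 K))) :
    (∀ P ∈ F, (q : 𝓞 K) ∈ P.asIdeal ∧ (P.asIdeal.primesOver (𝓞 L)).ncard = p) →
    ∀ b : Kˣ, (∀ P : HeightOneSpectrum (𝓞 K), (q : 𝓞 K) ∈ P.asIdeal → P ∉ F →
      P.valuation K (b : K) = 1) → IsLocNorm K L q (locUnit q K b) := by
  classical
  induction F using Finset.induction_on with
  | empty =>
    intro _ b hb
    have hbu : locUnit q K b ∈ intUnits q K :=
      (Fermat.Agent.S55.helper24.locUnit_mem_intUnits_iff q K b).2
        (fun P hP => hb P hP (Finset.notMem_empty P))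
    exact IsLocIntNorm.isLocNorm K L q (isLocIntNorm_of_unram K L p hp hdeg q hqp hunr hL _ hbu)
  | insert P₀ F hP₀ ih =>
    intro hF b hb
    obtain ⟨hP₀q, hsplit⟩ := hF P₀ (Finset.mem_insert_self P₀ F)
    obtain ⟨β, hβ1, hβ2⟩ :=
      Fermat.Agent.S55.helper86.exists_norm_uniformizer K L p hp hdeg q P₀ hP₀q hsplit
    set n : Kˣ := Units.map (Algebra.norm K : L →* K) β with hn
    have hb0 : P₀.valuation K (b : K) ≠ 0 := by
      rw [Ne, map_eq_zero]
      exact b.ne_zero
    set k : ℤ := WithZero.log (P₀.valuation K (b : K)) with hk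
    have hbk : P₀.valuation K (b : K) = WithZero.exp k := (WithZero.exp_log hb0).symm
    have hn1 : P₀.valuation K (n : K) = WithZero.exp (-1 : ℤ) := hβ1
    have hb₁ : ∀ P : HeightOneSpectrum (𝓞 K), (q : 𝓞 K) ∈ P.asIdeal → P ∉ F →
        P.valuation K ((b * n ^ k : Kˣ) : K) = 1 := by
      intro P hP hPF
      rw [Units.val_mul, Units.val_zpow_eq_zpow_val, map_mul, map_zpow₀]
      by_cases hPP : P = P₀
      · subst hPP
        rw [hbk, hn1, ← WithZero.exp_zsmul, ← WithZero.exp_add]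
        simp
      · have h1 : P.valuation K (b : K) = 1 := hb P hP (by
          rw [Finset.mem_insert, not_or]
          exact ⟨hPP, hPF⟩)
        have h2 : P.valuation K (n : K) = 1 := hβ2 P hP hPP
        rw [h1, h2, one_zpow, mul_one]
    have h3 := ih (fun P hP => hF P (Finset.mem_insert_of_mem hP)) (b * n ^ k) hb₁
    have h4 : locUnit q K b = locUnit q K (b * n ^ k) * (locUnit q K n) ^ (-k) := by
      rw [map_mul, map_zpow, mul_assoc, ← zpow_add, add_neg_cancel, zpow_zero, mul_one]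
    rw [h4]
    exact IsLocNorm.mul K L q h3 (IsLocNorm.zpow K L q (isLocNorm_locUnit_norm K L q β) (-k))

/-- elements of `unitsAway q K T` are local norms when the primes of `T` over `q` split
completely and `L/K` is unramified over `q`. -/
theorem isLocNorm_of_mem_unitsAway (p : ℕ) (hp : p.Prime) (hdeg : Module.finrank K L = p)
    (q : ℕ) [Fact q.Prime] (hqp : q ≠ p)
    (hunr : ∀ P : HeightOneSpectrum (𝓞 K), (q : 𝓞 K) ∈ P.asIdeal →
      P.valuation K (q : K) = WithZero.exp (-1 : ℤ))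
    (hL : ∀ P : HeightOneSpectrum (𝓞 K), (q : 𝓞 K) ∈ P.asIdeal → IsUnramAt K L P)
    (T : Set (HeightOneSpectrum (𝓞 K)))
    (hsplit : ∀ P ∈ T, (q : 𝓞 K) ∈ P.asIdeal → (P.asIdeal.primesOver (𝓞 L)).ncard = p)
    (x : (SemiLoc q K)ˣ) (hx : x ∈ unitsAway q K T) : IsLocNorm K L q x := by
  classical
  obtain ⟨b, hb, hu⟩ := hx
  have hfin : {P : HeightOneSpectrum (𝓞 K) | (q : 𝓞 K) ∈ P.asIdeal}.Finite :=
    Fermat.Agent.S55.helper50.finite_primes_over K q (Fact.out : q.Prime).ne_zero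
  set F : Finset (HeightOneSpectrum (𝓞 K)) := hfin.toFinset.filter (fun P => P ∈ T) with hF
  have h1 : IsLocNorm K L q (locUnit q K b) := by
    refine isLocNorm_locUnit_of_finset K L p hp hdeg q hqp hunr hL F ?_ b ?_
    · intro P hP
      rw [hF, Finset.mem_filter, Set.Finite.mem_toFinset] at hP
      exact ⟨hP.1, hsplit P hP.2 hP.1⟩
    · intro P hP hPF
      apply hb P hP
      intro hPT
      apply hPF
      rw [hF, Finset.mem_filter, Set.Finite.mem_toFinset]
      exact ⟨hP, hPT⟩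
  have h2 : IsLocNorm K L q (x * (locUnit q K b)⁻¹) :=
    IsLocIntNorm.isLocNorm K L q (isLocIntNorm_of_unram K L p hp hdeg q hqp hunr hL _ hu)
  have h3 : x = x * (locUnit q K b)⁻¹ * locUnit q K b := by
    rw [inv_mul_cancel_right]
  rw [h3]
  exact IsLocNorm.mul K L q h2 h1

/-- the rational primes in a finite set form a finite set of `Nat.Primes` -/
lemma eventually_notMem (S₀ : Finset ℕ) :
    ∀ᶠ r : Nat.Primes in Filter.cofinite, (r : ℕ) ∉ S₀ := by
  rw [Filter.eventually_cofinite]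
  simp only [not_not]
  exact (S₀.finite_toSet.preimage (Subtype.val_injective.injOn))

/-- **Step 2**: Chevalley's group `E` consists of idele norms. -/
theorem exists_normG_of_mem_ES (p : ℕ) (hp : p.Prime) (hdeg : Module.finrank K L = p)
    (S₀ : Finset ℕ) (hpS : p ∈ S₀)
    (hunrK : ∀ q : ℕ, q.Prime → q ∉ S₀ → ∀ P : HeightOneSpectrum (𝓞 K),
      (q : 𝓞 K) ∈ P.asIdeal → P.valuation K (q : K) = WithZero.exp (-1 : ℤ))
    (hL : ∀ q : ℕ, q.Prime → q ∉ S₀ → ∀ P : HeightOneSpectrum (𝓞 K),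
      (q : 𝓞 K) ∈ P.asIdeal → IsUnramAt K L P)
    (T : Set (HeightOneSpectrum (𝓞 K)))
    (hsplit : ∀ q : ℕ, q.Prime → q ∉ S₀ → ∀ P ∈ T, (q : 𝓞 K) ∈ P.asIdeal →
      (P.asIdeal.primesOver (𝓞 L)).ncard = p)
    (x : Idele K) (hx : x ∈ ES K p S₀ T) :
    ∃ y : Idele L, normG Gal(L/K) (Idele L) y = bcIdele K L x := by
  obtain ⟨hx1, hx2⟩ := mem_ES.1 hx
  have hne : ∀ r : Nat.Primes, (r : ℕ) ∉ S₀ → (r : ℕ) ≠ p := by
    rintro r hr rfl
    exact hr hpS
  apply Fermat.Agent.S55.helper86.exists_normG_eq_bcIdele K L x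
  · intro r
    by_cases hr : (r : ℕ) ∈ S₀
    · obtain ⟨z, hz⟩ := hx1 r hr
      rw [← hz]
      exact Fermat.Agent.S55.helper88.isLocNorm_pow K L p hdeg (r : ℕ) z
    · exact isLocNorm_of_mem_unitsAway K L p hp hdeg (r : ℕ) (hne r hr) (hunrK r r.2 hr)
        (hL r r.2 hr) T (hsplit r r.2 hr) _ (hx2 r hr)
  · have h1 : ∀ᶠ r : Nat.Primes in Filter.cofinite, (x : IdelePi K) r ∈ intUnits (r : ℕ) K :=
      (mem_idele K).1 x.2
    refine (h1.and (eventually_notMem S₀)).mono ?_
    rintro r ⟨hru, hr⟩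
    exact isLocIntNorm_of_unram K L p hp hdeg (r : ℕ) (hne r hr) (hunrK r r.2 hr)
      (hL r r.2 hr) _ hru

/-- Chevalley's group `D` consists of idele norms, for an extension `N/K` which is "split" at
`S₀` (every local unit at `S₀` is a norm) and unramified outside `S₀ ∪ T`. -/
theorem exists_normG_of_mem_DS (p : ℕ) (hp : p.Prime) (hdeg : Module.finrank K L = p)
    (S₀ : Finset ℕ) (hpS : p ∈ S₀)
    (hunrK : ∀ q : ℕ, q.Prime → q ∉ S₀ → ∀ P : HeightOneSpectrum (𝓞 K),
      (q : 𝓞 K) ∈ P.asIdeal → P.valuation K (q : K) = WithZero.exp (-1 : ℤ))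
    (T : Set (HeightOneSpectrum (𝓞 K)))
    (hL : ∀ q : ℕ, q.Prime → q ∉ S₀ → ∀ P : HeightOneSpectrum (𝓞 K),
      (q : 𝓞 K) ∈ P.asIdeal → P ∉ T → IsUnramAt K L P)
    (hS : ∀ r : Nat.Primes, (r : ℕ) ∈ S₀ → ∀ z : (SemiLoc (r : ℕ) K)ˣ, IsLocNorm K L (r : ℕ) z)
    (x : Idele K) (hx : x ∈ DS K p S₀ T) :
    ∃ y : Idele L, normG Gal(L/K) (Idele L) y = bcIdele K L x := by
  have hx2 := mem_DS.1 hx
  have hne : ∀ r : Nat.Primes, (r : ℕ) ∉ S₀ → (r : ℕ) ≠ p := by
    rintro r hr rfl
    exact hr hpS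
  apply Fermat.Agent.S55.helper86.exists_normG_eq_bcIdele K L x
  · intro r
    by_cases hr : (r : ℕ) ∈ S₀
    · exact hS r hr _
    · exact IsLocIntNorm.isLocNorm K L (r : ℕ)
        (isLocIntNorm_of_mem_powAt K L p hp hdeg (r : ℕ) (hne r hr) (hunrK r r.2 hr) T
          (hL r r.2 hr) _ (hx2 r hr))
  · refine (eventually_notMem S₀).mono ?_
    intro r hr
    exact isLocIntNorm_of_mem_powAt K L p hp hdeg (r : ℕ) (hne r hr) (hunrK r r.2 hr) T
      (hL r r.2 hr) _ (hx2 r hr)

end Step2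

end Fermat.Agent.S55.helper84
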