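import Fermat.Agent.S55.helper89_ChevDefs

/-!
# S55 / GLOB / G7-RESNORM (helper86): norms modulo `q`

Ideal theory in a Galois extension `L/K` of number fields:

* `exists_norm_sub_lt` : if `c` is a unit at all primes over `q` and every prime `P ∣ q` of `K` is
  either unramified in `L` or `c` is a `p`-th power modulo `P` (`p = [L : K]`), then there is
  `γ ∈ Lˣ`, a unit at all primes of `L` over `q`, with `N γ ≡ c` modulo every `P ∣ q`.
* `exists_norm_uniformizer` : if `P ∣ q` splits completely in `L`, there is `β ∈ Lˣ` whose norm is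
  a uniformiser at `P` and a unit at the other primes over `q`.
-/

set_option autoImplicit false

open NumberField IsDedekindDomain
open scoped Pointwise TensorProduct

set_option linter.unusedSectionVars false
set_option linter.unusedVariables false
set_option linter.style.haveILetI false

namespace Fermat.Agent.S55.helper86

variable {K L : Type*} [Field K] [NumberField K] [Field L] [NumberField L] [Algebra K L]
  [IsGalois K L]

/-- The relative norm of an algebraic integer, inside `𝓞 L`, is the product of the conjugates. -/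
theorem algebraMap_norm_eq_prod (x : 𝓞 L) :
    algebraMap (𝓞 K) (𝓞 L) (RingOfIntegers.norm K x) = ∏ σ : Gal(L/K), σ • x := by
  apply RingOfIntegers.ext
  have h1 : ((algebraMap (𝓞 K) (𝓞 L) (RingOfIntegers.norm K x) : 𝓞 L) : L) =
      algebraMap K L (Algebra.norm K (x : L)) := by
    rw [← RingOfIntegers.coe_norm]; rfl
  rw [h1, Algebra.norm_eq_prod_automorphisms]
  have h2 : ((∏ σ : Gal(L/K), σ • x : 𝓞 L) : L) = ∏ σ : Gal(L/K), ((σ • x : 𝓞 L) : L) :=
    map_prod (algebraMap (𝓞 L) L) _ _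
  rw [h2]
  rfl

/-- membership in a conjugate prime -/
theorem smul_mem_iff (σ : Gal(L/K)) (Q : Ideal (𝓞 L)) (x : 𝓞 L) :
    σ • x ∈ Q ↔ x ∈ σ⁻¹ • Q := by
  rw [Ideal.mem_pointwise_smul_iff_inv_smul_mem, inv_inv]

/-- The finite set of primes of `𝓞 L` above the rational prime `q`. -/
theorem finite_primes_over_nat (L : Type*) [Field L] [NumberField L] (q : ℕ) (hq : q ≠ 0) :
    {Q : HeightOneSpectrum (𝓞 L) | (q : 𝓞 L) ∈ Q.asIdeal}.Finite := by
  have h : (Ideal.span {(q : 𝓞 L)} : Ideal (𝓞 L)) ≠ 0 := by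
    rw [Ne, Ideal.zero_eq_bot, Ideal.span_singleton_eq_bot]
    exact_mod_cast hq
  refine (Ideal.finite_factors h).subset ?_
  intro Q hQ
  change Q.asIdeal ∣ Ideal.span {(q : 𝓞 L)}
  rw [Ideal.dvd_span_singleton]
  exact hQ

/-- a prime of `𝓞 L` lying over a prime of `𝓞 K` above `q` is above `q` -/
theorem natCast_mem_of_liesOver (q : ℕ) (P : Ideal (𝓞 K)) (Q : Ideal (𝓞 L)) [Q.LiesOver P]
    (h : (q : 𝓞 K) ∈ P) : (q : 𝓞 L) ∈ Q := by
  have := (Ideal.mem_of_liesOver Q P (q : 𝓞 K)).1 h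
  simpa using this

theorem natCast_mem_under (q : ℕ) (Q : Ideal (𝓞 L)) (h : (q : 𝓞 L) ∈ Q) :
    (q : 𝓞 K) ∈ Q.under (𝓞 K) := by
  rw [Ideal.under, Ideal.mem_comap]
  simpa using h

/-- If `P` splits completely, the stabilizer of a prime above `P` is trivial. -/
theorem eq_one_of_smul_eq_of_ncard (P : HeightOneSpectrum (𝓞 K))
    (hsplit : (P.asIdeal.primesOver (𝓞 L)).ncard = Module.finrank K L)
    (Q : Ideal (𝓞 L)) [Q.IsPrime] [Q.LiesOver P.asIdeal] (σ : Gal(L/K)) (h : σ • Q = Q) :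
    σ = 1 := by
  haveI : P.asIdeal.IsMaximal := P.isMaximal
  let f : Gal(L/K) → ↥(P.asIdeal.primesOver (𝓞 L)) := fun τ => ⟨τ • Q, inferInstance, inferInstance⟩
  have hf : Function.Surjective f := by
    rintro ⟨Q', hQ'1, hQ'2⟩
    haveI := hQ'1
    haveI := hQ'2
    obtain ⟨τ, hτ⟩ := Ideal.exists_smul_eq_of_isGaloisGroup P.asIdeal Q Q' Gal(L/K)
    exact ⟨τ, Subtype.ext hτ⟩
  have hcard : Nat.card Gal(L/K) ≤ Nat.card ↥(P.asIdeal.primesOver (𝓞 L)) := by
    rw [Nat.card_coe_set_eq, hsplit, IsGalois.card_aut_eq_finrank]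
  have hbij := hf.bijective_of_nat_card_le hcard
  apply hbij.1
  apply Subtype.ext
  change σ • Q = (1 : Gal(L/K)) • Q
  rw [h, one_smul]

/-- an element of valuation `exp (-1)` -/
theorem intValuation_eq_exp_neg_one_iff (P : HeightOneSpectrum (𝓞 K)) (x : 𝓞 K) :
    P.intValuation x = WithZero.exp (-1 : ℤ) ↔ x ∈ P.asIdeal ∧ x ∉ P.asIdeal ^ 2 := by
  rw [← P.intValuation_le_pow_iff_mem x 2, ← P.intValuation_lt_one_iff_mem]
  constructor
  · intro h
    rw [h]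
    refine ⟨?_, ?_⟩
    · rw [← WithZero.exp_zero, WithZero.exp_lt_exp]; norm_num
    · rw [not_le, WithZero.exp_lt_exp]; norm_num
  · rintro ⟨h1, h2⟩
    have hx : x ≠ 0 := by
      rintro rfl
      exact h2 (by simp)
    rw [P.intValuation_if_neg hx] at h1 h2 ⊢
    rw [← WithZero.exp_zero, WithZero.exp_lt_exp] at h1
    rw [not_le, WithZero.exp_lt_exp] at h2
    congr 1
    push_cast at h2
    omega


/-- CRT over the primes of `𝓞 L` above `q`, with prescribed exponents. -/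
theorem exists_forall_sub_mem_of_primes_over (L : Type*) [Field L] [NumberField L]
    (q : ℕ) (hq : q ≠ 0) (e : HeightOneSpectrum (𝓞 L) → ℕ) (t : HeightOneSpectrum (𝓞 L) → 𝓞 L) :
    ∃ y : 𝓞 L, ∀ Q : HeightOneSpectrum (𝓞 L), (q : 𝓞 L) ∈ Q.asIdeal →
      y - t Q ∈ Q.asIdeal ^ e Q := by
  classical
  obtain ⟨y, hy⟩ := IsDedekindDomain.exists_forall_sub_mem_ideal
    (s := (finite_primes_over_nat L q hq).toFinset)
    (fun Q : HeightOneSpectrum (𝓞 L) => Q.asIdeal) e (fun Q _ => Q.prime)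
    (fun Q _ Q' _ h h' => h (HeightOneSpectrum.ext h')) (fun Q => t Q.1)
  refine ⟨y, fun Q hQ => ?_⟩
  exact hy Q ((finite_primes_over_nat L q hq).mem_toFinset.2 hQ)

/-- SPLITNORM: if `P` (over `q`) has `[L:K]` distinct primes of `L` above it, there is a global
element of `L` whose norm is a uniformiser at `P` and a unit at the other primes over `q`. -/
theorem exists_norm_uniformizer_aux (q : ℕ) [Fact q.Prime] (P : HeightOneSpectrum (𝓞 K))
    (hP : (q : 𝓞 K) ∈ P.asIdeal)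
    (hsplit : (P.asIdeal.primesOver (𝓞 L)).ncard = Module.finrank K L) :
    ∃ β : 𝓞 L, β ≠ 0 ∧ P.intValuation (RingOfIntegers.norm K β) = WithZero.exp (-1 : ℤ) ∧
      ∀ P' : HeightOneSpectrum (𝓞 K), (q : 𝓞 K) ∈ P'.asIdeal → P' ≠ P →
        P'.intValuation (RingOfIntegers.norm K β) = 1 := by
  classical
  have hq0 : q ≠ 0 := (Fact.out : q.Prime).ne_zero
  haveI : P.asIdeal.IsMaximal := P.isMaximal
  -- a prime above `P`
  obtain ⟨Q₁, hQ₁p, hQ₁o⟩ : (P.asIdeal.primesOver (𝓞 L)).Nonempty := by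
    apply Set.nonempty_of_ncard_ne_zero
    rw [hsplit]
    exact Module.finrank_pos.ne'
  haveI := hQ₁p
  haveI := hQ₁o
  have hQ₁0 : Q₁ ≠ ⊥ := Ideal.ne_bot_of_liesOver_of_ne_bot P.ne_bot Q₁
  let Q1 : HeightOneSpectrum (𝓞 L) := ⟨Q₁, hQ₁p, hQ₁0⟩
  have hQ1q : (q : 𝓞 L) ∈ Q1.asIdeal := natCast_mem_of_liesOver q P.asIdeal Q₁ hP
  -- a uniformizer
  obtain ⟨π, hπ⟩ := Q1.intValuation_exists_uniformizer
  -- CRT
  obtain ⟨β, hβ⟩ := exists_forall_sub_mem_of_primes_over L q hq0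
    (fun Q => if Q = Q1 then 2 else 1) (fun Q => if Q = Q1 then π else 1)
  have hβ1 : β - π ∈ Q1.asIdeal ^ 2 := by
    have := hβ Q1 hQ1q
    simpa using this
  have hβ2 : ∀ Q : HeightOneSpectrum (𝓞 L), (q : 𝓞 L) ∈ Q.asIdeal → Q ≠ Q1 → β ∉ Q.asIdeal := by
    intro Q hQ hne hmem
    have := hβ Q hQ
    simp only [hne, if_false, pow_one] at this
    have h1 : (1 : 𝓞 L) ∈ Q.asIdeal := by
      have := Q.asIdeal.sub_mem hmem this
      simpa using this
    exact Q.isPrime.ne_top ((Ideal.eq_top_iff_one _).2 h1)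
  have hvβ : Q1.intValuation β = WithZero.exp (-1 : ℤ) := by
    have h2 : Q1.intValuation (β - π) < Q1.intValuation π := by
      rw [hπ]
      refine lt_of_le_of_lt ((Q1.intValuation_le_pow_iff_mem _ 2).2 hβ1) ?_
      rw [WithZero.exp_lt_exp]; norm_num
    have h3 : β = π + (β - π) := by ring
    rw [h3, Valuation.map_add_eq_of_lt_left _ h2, hπ]
  have hβ0 : β ≠ 0 := by
    intro h0
    rw [h0, map_zero] at hvβ
    exact WithZero.exp_ne_zero hvβ.symm
  -- conjugates of `β` at `Q₁`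
  have hconj : ∀ σ : Gal(L/K), σ ≠ 1 → σ • β ∉ Q₁ := by
    intro σ hσ hmem
    rw [smul_mem_iff] at hmem
    have hne : σ⁻¹ • Q₁ ≠ Q₁ := fun h =>
      hσ (inv_eq_one.1 (eq_one_of_smul_eq_of_ncard P hsplit Q₁ σ⁻¹ h))
    have hne0 : σ⁻¹ • Q₁ ≠ ⊥ := Ideal.ne_bot_of_liesOver_of_ne_bot P.ne_bot _
    let Q' : HeightOneSpectrum (𝓞 L) := ⟨σ⁻¹ • Q₁, inferInstance, hne0⟩
    have hQ'q : (q : 𝓞 L) ∈ Q'.asIdeal := natCast_mem_of_liesOver q P.asIdeal (σ⁻¹ • Q₁) hP
    have hQ'ne : Q' ≠ Q1 := fun h => hne (congrArg HeightOneSpectrum.asIdeal h)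
    exact hβ2 Q' hQ'q hQ'ne hmem
  -- the norm at `Q₁`
  have hprod : Q1.intValuation (∏ σ : Gal(L/K), σ • β) = WithZero.exp (-1 : ℤ) := by
    rw [map_prod, Finset.prod_eq_single (1 : Gal(L/K)), one_smul, hvβ]
    · intro σ _ hσ
      have := hconj σ hσ
      rw [← Q1.intValuation_lt_one_iff_mem, not_lt] at this
      exact le_antisymm (Q1.intValuation_le_one _) this
    · intro h
      exact absurd (Finset.mem_univ _) h
  have hN := algebraMap_norm_eq_prod (K := K) β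
  refine ⟨β, hβ0, ?_, ?_⟩
  · rw [intValuation_eq_exp_neg_one_iff]
    constructor
    · rw [Ideal.mem_of_liesOver Q₁ P.asIdeal, hN]
      have : Q1.intValuation (∏ σ : Gal(L/K), σ • β) < 1 := by
        rw [hprod, ← WithZero.exp_zero, WithZero.exp_lt_exp]; norm_num
      exact (Q1.intValuation_lt_one_iff_mem _).1 this
    · intro hmem
      have h1 : algebraMap (𝓞 K) (𝓞 L) (RingOfIntegers.norm K β) ∈ Q₁ ^ 2 := by
        have h2 : P.asIdeal.map (algebraMap (𝓞 K) (𝓞 L)) ≤ Q₁ :=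
          Ideal.map_le_iff_le_comap.2 (le_of_eq (Ideal.over_def Q₁ P.asIdeal))
        have h3 := Ideal.mem_map_of_mem (algebraMap (𝓞 K) (𝓞 L)) hmem
        rw [Ideal.map_pow] at h3
        exact Ideal.pow_right_mono h2 2 h3
      rw [hN] at h1
      have h4 := (Q1.intValuation_le_pow_iff_mem _ 2).2 h1
      rw [hprod, WithZero.exp_le_exp] at h4
      norm_num at h4
  · intro P' hP' hne
    haveI : P'.asIdeal.IsMaximal := P'.isMaximal
    obtain ⟨Q', hQ'm, hQ'o⟩ := Ideal.exists_ideal_over_maximal_of_isIntegral (S := 𝓞 L)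
      P'.asIdeal (by simp)
    haveI : Q'.IsPrime := hQ'm.isPrime
    haveI : Q'.LiesOver P'.asIdeal := ⟨hQ'o.symm⟩
    have hnot : ∀ σ : Gal(L/K), σ • β ∉ Q' := by
      intro σ hmem
      rw [smul_mem_iff] at hmem
      have hne0 : σ⁻¹ • Q' ≠ ⊥ := Ideal.ne_bot_of_liesOver_of_ne_bot P'.ne_bot _
      let Q'' : HeightOneSpectrum (𝓞 L) := ⟨σ⁻¹ • Q', inferInstance, hne0⟩
      have hQ''q : (q : 𝓞 L) ∈ Q''.asIdeal :=
        natCast_mem_of_liesOver q P'.asIdeal (σ⁻¹ • Q') hP'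
      have hQ''ne : Q'' ≠ Q1 := by
        intro h
        have h1 : σ⁻¹ • Q' = Q₁ := congrArg HeightOneSpectrum.asIdeal h
        apply hne
        apply HeightOneSpectrum.ext
        rw [Ideal.over_def Q₁ P.asIdeal, ← h1]
        exact Ideal.over_def (σ⁻¹ • Q') P'.asIdeal
      exact hβ2 Q'' hQ''q hQ''ne hmem
    have hprodnot : (∏ σ : Gal(L/K), σ • β) ∉ Q' := by
      intro hmem
      obtain ⟨σ, -, hσ⟩ := (Ideal.IsPrime.prod_mem_iff).1 hmem
      exact hnot σ hσ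
    have hnorm : RingOfIntegers.norm K β ∉ P'.asIdeal := by
      intro hmem
      rw [Ideal.mem_of_liesOver Q' P'.asIdeal, hN] at hmem
      exact hprodnot hmem
    rw [← P'.intValuation_lt_one_iff_mem, not_lt] at hnorm
    exact le_antisymm (P'.intValuation_le_one _) hnorm

/-- Unramified: the stabilizer maps bijectively onto the Galois group of the residue fields. -/
theorem stabilizerHom_bijective_of_ramificationIdx_eq_one (P : Ideal (𝓞 K)) [P.IsMaximal]
    (Q : Ideal (𝓞 L)) [Q.IsPrime] [Q.LiesOver P] (hQ0 : Q ≠ ⊥)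
    (he : Q.ramificationIdx (𝓞 K) = 1) :
    Function.Bijective (Ideal.Quotient.stabilizerHom Q P Gal(L/K)) := by
  refine ⟨?_, Ideal.Quotient.stabilizerHom_surjective Gal(L/K) P Q⟩
  rw [← MonoidHom.ker_eq_bot_iff]
  have hcard : Nat.card (Ideal.inertia Gal(L/K) Q) = 1 := by
    have hp : Q.under (𝓞 K) ≠ ⊥ := Ideal.under_ne_bot (𝓞 K) hQ0
    haveI : (Q.under (𝓞 K)).IsMaximal := Ring.DimensionLEOne.maximalOfPrime hp inferInstance
    rw [Ideal.card_inertia_eq_ramificationIdxIn (G := Gal(L/K)) (Q.under (𝓞 K)) Q,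
      Ideal.ramificationIdxIn_eq_ramificationIdx (Q.under (𝓞 K)) Q Gal(L/K), he]
  have hbot : Ideal.inertia Gal(L/K) Q = ⊥ := Subgroup.card_eq_one.1 hcard
  have h := Ideal.Quotient.map_ker_stabilizer_subtype (P := Q) (p := P) (G := Gal(L/K))
  rw [hbot] at h
  exact (Subgroup.map_eq_bot_iff_of_injective _ (Subgroup.subtype_injective _)).1 h

/-- Unramified case: the residue norm is surjective, in terms of the decomposition group. -/
theorem exists_prod_stabilizer_sub_mem (P : Ideal (𝓞 K)) [P.IsMaximal]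
    (Q : Ideal (𝓞 L)) [Q.IsPrime] [Q.LiesOver P] (hQ0 : Q ≠ ⊥)
    (he : Q.ramificationIdx (𝓞 K) = 1) (a : 𝓞 K) :
    ∃ x : 𝓞 L, (∏ σ : MulAction.stabilizer Gal(L/K) Q, (σ : Gal(L/K)) • x) -
      algebraMap (𝓞 K) (𝓞 L) a ∈ Q := by
  classical
  haveI : Q.IsMaximal := Ring.DimensionLEOne.maximalOfPrime hQ0 inferInstance
  haveI : Finite (𝓞 L ⧸ Q) := Ideal.finiteQuotientOfFreeOfNeBot Q hQ0
  letI : Field (𝓞 K ⧸ P) := Ideal.Quotient.field P
  letI : Field (𝓞 L ⧸ Q) := Ideal.Quotient.field Q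
  obtain ⟨y, hy⟩ := FiniteField.norm_surjective (𝓞 K ⧸ P) (𝓞 L ⧸ Q) (Ideal.Quotient.mk P a)
  obtain ⟨x, rfl⟩ := Ideal.Quotient.mk_surjective y
  refine ⟨x, ?_⟩
  have hbij := stabilizerHom_bijective_of_ramificationIdx_eq_one P Q hQ0 he
  have h1 := Algebra.norm_eq_prod_automorphisms (𝓞 K ⧸ P) (Ideal.Quotient.mk Q x)
  rw [hy] at h1
  rw [← Ideal.Quotient.eq, map_prod]
  have h2 : (∏ σ : MulAction.stabilizer Gal(L/K) Q, Ideal.Quotient.mk Q ((σ : Gal(L/K)) • x)) =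
      ∏ τ : Gal((𝓞 L ⧸ Q)/(𝓞 K ⧸ P)), τ (Ideal.Quotient.mk Q x) := by
    rw [← hbij.prod_comp]
    rfl
  rw [h2, ← h1]
  rfl


/-- Local targets: residues at the primes above `P` which force the norm to be `≡ a mod P`. -/
theorem exists_targets (P : HeightOneSpectrum (𝓞 K)) (a : 𝓞 K)
    (h : (∀ Q : Ideal (𝓞 L), Q.IsPrime → Q.LiesOver P.asIdeal → Q.ramificationIdx (𝓞 K) = 1) ∨
      ∃ d : 𝓞 K, d ^ Module.finrank K L - a ∈ P.asIdeal) :
    ∃ t : Ideal (𝓞 L) → 𝓞 L, ∀ γ : 𝓞 L,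
      (∀ Q : Ideal (𝓞 L), Q.IsPrime → Q.LiesOver P.asIdeal → γ - t Q ∈ Q) →
      RingOfIntegers.norm K γ - a ∈ P.asIdeal := by
  classical
  haveI : P.asIdeal.IsMaximal := P.isMaximal
  obtain ⟨Q₀, hQ₀m, hQ₀o⟩ := Ideal.exists_ideal_over_maximal_of_isIntegral (S := 𝓞 L)
    P.asIdeal (by simp)
  haveI : Q₀.IsPrime := hQ₀m.isPrime
  haveI : Q₀.LiesOver P.asIdeal := ⟨hQ₀o.symm⟩
  have hQ₀0 : Q₀ ≠ ⊥ := Ideal.ne_bot_of_liesOver_of_ne_bot P.ne_bot Q₀
  have key : ∀ γ : 𝓞 L, Ideal.Quotient.mk Q₀ (∏ σ : Gal(L/K), σ • γ) =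
      Ideal.Quotient.mk Q₀ (algebraMap (𝓞 K) (𝓞 L) a) →
      RingOfIntegers.norm K γ - a ∈ P.asIdeal := by
    intro γ hγ
    rw [Ideal.mem_of_liesOver Q₀ P.asIdeal, map_sub, algebraMap_norm_eq_prod, ← Ideal.Quotient.eq]
    exact hγ
  rcases h with hU | ⟨d, hd⟩
  · obtain ⟨x, hx⟩ := exists_prod_stabilizer_sub_mem P.asIdeal Q₀ hQ₀0
      (hU Q₀ inferInstance inferInstance) a
    refine ⟨fun Q => if Q = Q₀ then x else 1, fun γ hγ => key γ ?_⟩
    rw [← Ideal.Quotient.eq] at hx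
    rw [← hx, map_prod, map_prod]
    have hfac : ∀ σ : Gal(L/K), Ideal.Quotient.mk Q₀ (σ • γ) =
        if σ ∈ MulAction.stabilizer Gal(L/K) Q₀ then Ideal.Quotient.mk Q₀ (σ • x) else 1 := by
      intro σ
      split_ifs with hσ
      · rw [Ideal.Quotient.eq, ← smul_sub, smul_mem_iff]
        have h1 : σ⁻¹ • Q₀ = Q₀ := by
          rw [MulAction.mem_stabilizer_iff] at hσ
          rw [inv_smul_eq_iff, hσ]
        rw [h1]
        have := hγ Q₀ inferInstance inferInstance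
        simpa using this
      · rw [← map_one (Ideal.Quotient.mk Q₀), Ideal.Quotient.eq]
        have h0 : σ • γ - 1 = σ • (γ - 1) := by rw [smul_sub, smul_one]
        rw [h0, smul_mem_iff]
        have hne : σ⁻¹ • Q₀ ≠ Q₀ := by
          intro h1
          apply hσ
          rw [MulAction.mem_stabilizer_iff]
          rw [inv_smul_eq_iff] at h1
          exact h1.symm
        have := hγ (σ⁻¹ • Q₀) inferInstance inferInstance
        simpa [hne] using this
    simp_rw [hfac]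
    rw [← Finset.prod_filter]
    exact Finset.prod_subtype (Finset.univ.filter (· ∈ MulAction.stabilizer Gal(L/K) Q₀))
      (p := (· ∈ MulAction.stabilizer Gal(L/K) Q₀)) (by simp)
      (fun σ => Ideal.Quotient.mk Q₀ (σ • x))
  · refine ⟨fun _ => algebraMap (𝓞 K) (𝓞 L) d, fun γ hγ => key γ ?_⟩
    have hfac : ∀ σ : Gal(L/K), Ideal.Quotient.mk Q₀ (σ • γ) =
        Ideal.Quotient.mk Q₀ (algebraMap (𝓞 K) (𝓞 L) d) := by
      intro σ
      rw [Ideal.Quotient.eq]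
      have h0 : σ • γ - algebraMap (𝓞 K) (𝓞 L) d = σ • (γ - algebraMap (𝓞 K) (𝓞 L) d) := by
        rw [smul_sub, smul_algebraMap]
      rw [h0, smul_mem_iff]
      exact hγ (σ⁻¹ • Q₀) inferInstance inferInstance
    rw [map_prod]
    simp_rw [hfac]
    rw [Finset.prod_const, Finset.card_univ, ← Nat.card_eq_fintype_card,
      IsGalois.card_aut_eq_finrank, ← map_pow, ← map_pow, Ideal.Quotient.eq, ← map_sub]
    exact (Ideal.mem_of_liesOver Q₀ P.asIdeal _).1 hd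

/-- If the norm of `γ` is prime to `P`, then `γ` is prime to all primes above `P`. -/
theorem not_mem_of_norm_sub_mem (P : HeightOneSpectrum (𝓞 K)) (a : 𝓞 K) (ha : a ∉ P.asIdeal)
    (γ : 𝓞 L) (hγ : RingOfIntegers.norm K γ - a ∈ P.asIdeal)
    (Q : Ideal (𝓞 L)) [Q.IsPrime] [Q.LiesOver P.asIdeal] : γ ∉ Q := by
  intro hmem
  apply ha
  have h1 : RingOfIntegers.norm K γ ∈ P.asIdeal := by
    rw [Ideal.mem_of_liesOver Q P.asIdeal, algebraMap_norm_eq_prod]
    refine Ideal.IsPrime.prod_mem_iff.2 ⟨1, Finset.mem_univ _, ?_⟩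
    rwa [one_smul]
  have := P.asIdeal.sub_mem h1 hγ
  simpa using this


/-- the prime of `𝓞 K` below a prime of `𝓞 L` -/
noncomputable def underPrime (K : Type*) [Field K] [NumberField K] {L : Type*} [Field L]
    [NumberField L] [Algebra K L] (Q : HeightOneSpectrum (𝓞 L)) : HeightOneSpectrum (𝓞 K) :=
  ⟨Q.asIdeal.under (𝓞 K), inferInstance, Ideal.under_ne_bot (𝓞 K) Q.ne_bot⟩

/-- there is a prime above `q` -/
theorem exists_prime_over_nat (L : Type*) [Field L] [NumberField L] (q : ℕ) (hq : q.Prime) :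
    ∃ Q : HeightOneSpectrum (𝓞 L), (q : 𝓞 L) ∈ Q.asIdeal := by
  haveI : (Ideal.span {(q : ℤ)}).IsMaximal :=
    PrincipalIdealRing.isMaximal_of_irreducible (Nat.prime_iff_prime_int.1 hq).irreducible
  obtain ⟨Q, hQm, hQo⟩ := Ideal.exists_ideal_over_maximal_of_isIntegral (S := 𝓞 L)
    (Ideal.span {(q : ℤ)}) (by
      rw [(RingHom.injective_iff_ker_eq_bot _).1 (RingHom.injective_int (algebraMap ℤ (𝓞 L)))]
      exact bot_le)
  have hqQ : (q : 𝓞 L) ∈ Q := by
    have h1 : (q : ℤ) ∈ Ideal.comap (algebraMap ℤ (𝓞 L)) Q := by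
      rw [hQo]; exact Ideal.mem_span_singleton_self _
    rw [Ideal.mem_comap] at h1
    simpa using h1
  have hQ0 : Q ≠ ⊥ := by
    intro h0
    rw [h0, Ideal.mem_bot] at hqQ
    exact hq.ne_zero (by exact_mod_cast hqQ)
  exact ⟨⟨Q, hQm.isPrime, hQ0⟩, hqQ⟩

/-- integral approximation of a `P`-unit -/
theorem exists_int_approx (P : HeightOneSpectrum (𝓞 K)) (c : K) (hc : P.valuation K c = 1) :
    ∃ a : 𝓞 K, a ∉ P.asIdeal ∧ P.valuation K ((a : K) - c) < 1 := by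
  obtain ⟨a, ha⟩ := P.exists_valuation_sub_lt_of_integer (le_of_eq hc) 1
  rw [Units.val_one] at ha
  refine ⟨a, ?_, ha⟩
  intro hmem
  have h1 : P.valuation K (a : K) < 1 := (P.valuation_lt_one_iff_mem a).2 hmem
  have h2 : P.valuation K ((a : K) - c) < 1 := ha
  have h3 : c = (a : K) - ((a : K) - c) := by ring
  have h4 : P.valuation K c < 1 := by
    rw [h3]
    exact Valuation.map_sub_lt _ h1 h2
  rw [hc] at h4
  exact lt_irrefl _ h4

/-- integral form of `IsPowMod` -/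
theorem exists_int_pow_sub_mem (n : ℕ) (P : HeightOneSpectrum (𝓞 K)) (c : K) (a : 𝓞 K)
    (ha : P.valuation K ((a : K) - c) < 1)
    (hpow : ∃ d : K, P.valuation K d = 1 ∧ P.valuation K (c - d ^ n) < 1) :
    ∃ d₀ : 𝓞 K, d₀ ^ n - a ∈ P.asIdeal := by
  obtain ⟨d, hd1, hd2⟩ := hpow
  obtain ⟨d₀, hd₀⟩ := P.exists_valuation_sub_lt_of_integer (le_of_eq hd1) 1
  rw [Units.val_one] at hd₀
  refine ⟨d₀, ?_⟩
  rw [← P.valuation_lt_one_iff_mem (K := K)]
  have hd₀1 : P.valuation K (d₀ : K) ≤ 1 := P.valuation_le_one d₀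
  have hsum : P.valuation K (∑ i ∈ Finset.range n, (d₀ : K) ^ i * d ^ (n - 1 - i)) ≤ 1 := by
    apply Valuation.map_sum_le
    intro i _
    rw [map_mul, map_pow, map_pow, hd1, one_pow, mul_one]
    exact pow_le_one' hd₀1 i
  have h1 : P.valuation K ((d₀ : K) ^ n - d ^ n) < 1 := by
    rw [← geom_sum₂_mul, map_mul]
    calc P.valuation K (∑ i ∈ Finset.range n, (d₀ : K) ^ i * d ^ (n - 1 - i)) *
          P.valuation K ((d₀ : K) - d)
        ≤ P.valuation K ((d₀ : K) - d) := mul_le_of_le_one_left' hsum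
      _ < 1 := hd₀
  have h2 : P.valuation K (d ^ n - c) < 1 := by rwa [Valuation.map_sub_swap]
  have h3 : P.valuation K (c - (a : K)) < 1 := by rwa [Valuation.map_sub_swap]
  have h4 : algebraMap (𝓞 K) K (d₀ ^ n - a) =
      (algebraMap (𝓞 K) K d₀ ^ n - d ^ n) + ((d ^ n - c) + (c - algebraMap (𝓞 K) K a)) := by
    rw [map_sub, map_pow]; ring
  change P.valuation K (algebraMap (𝓞 K) K (d₀ ^ n - a)) < 1
  rw [h4]
  exact Valuation.map_add_lt _ h1 (Valuation.map_add_lt _ h2 h3)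

/-- RESNORM, integral form. -/
theorem exists_norm_sub_lt_aux (q : ℕ) [Fact q.Prime] (c : K)
    (hc : ∀ P : HeightOneSpectrum (𝓞 K), (q : 𝓞 K) ∈ P.asIdeal → P.valuation K c = 1)
    (h : ∀ P : HeightOneSpectrum (𝓞 K), (q : 𝓞 K) ∈ P.asIdeal →
      (∀ Q : Ideal (𝓞 L), Q.IsPrime → Q.LiesOver P.asIdeal → Q.ramificationIdx (𝓞 K) = 1) ∨
      ∃ d : K, P.valuation K d = 1 ∧ P.valuation K (c - d ^ Module.finrank K L) < 1) :
    ∃ γ : 𝓞 L, γ ≠ 0 ∧
      (∀ Q : HeightOneSpectrum (𝓞 L), (q : 𝓞 L) ∈ Q.asIdeal → γ ∉ Q.asIdeal) ∧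
      ∀ P : HeightOneSpectrum (𝓞 K), (q : 𝓞 K) ∈ P.asIdeal →
        P.valuation K (((RingOfIntegers.norm K γ : 𝓞 K) : K) - c) < 1 := by
  classical
  have hq0 : q ≠ 0 := (Fact.out : q.Prime).ne_zero
  have hA : ∀ P : HeightOneSpectrum (𝓞 K), ∃ a : 𝓞 K, (q : 𝓞 K) ∈ P.asIdeal →
      (a ∉ P.asIdeal ∧ P.valuation K ((a : K) - c) < 1) := by
    intro P
    by_cases hP : (q : 𝓞 K) ∈ P.asIdeal
    · obtain ⟨a, ha⟩ := exists_int_approx P c (hc P hP)
      exact ⟨a, fun _ => ha⟩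
    · exact ⟨0, fun h => absurd h hP⟩
  choose a ha using hA
  have hT : ∀ P : HeightOneSpectrum (𝓞 K), ∃ t : Ideal (𝓞 L) → 𝓞 L,
      (q : 𝓞 K) ∈ P.asIdeal → ∀ γ : 𝓞 L,
      (∀ Q : Ideal (𝓞 L), Q.IsPrime → Q.LiesOver P.asIdeal → γ - t Q ∈ Q) →
      RingOfIntegers.norm K γ - a P ∈ P.asIdeal := by
    intro P
    by_cases hP : (q : 𝓞 K) ∈ P.asIdeal
    · have h' : (∀ Q : Ideal (𝓞 L), Q.IsPrime → Q.LiesOver P.asIdeal →
          Q.ramificationIdx (𝓞 K) = 1) ∨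
          ∃ d : 𝓞 K, d ^ Module.finrank K L - a P ∈ P.asIdeal := by
        rcases h P hP with hU | hpow
        · exact Or.inl hU
        · exact Or.inr (exists_int_pow_sub_mem _ P c (a P) (ha P hP).2 hpow)
      obtain ⟨t, ht⟩ := exists_targets P (a P) h'
      exact ⟨t, fun _ => ht⟩
    · exact ⟨fun _ => 0, fun h => absurd h hP⟩
  choose t ht using hT
  obtain ⟨γ, hγ⟩ := exists_forall_sub_mem_of_primes_over L q hq0 (fun _ => 1)
    (fun Q => t (underPrime K Q) Q.asIdeal)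
  have hnorm : ∀ P : HeightOneSpectrum (𝓞 K), (q : 𝓞 K) ∈ P.asIdeal →
      RingOfIntegers.norm K γ - a P ∈ P.asIdeal := by
    intro P hP
    apply ht P hP γ
    intro Q hQp hQo
    haveI := hQp
    haveI := hQo
    have hQ0 : Q ≠ ⊥ := Ideal.ne_bot_of_liesOver_of_ne_bot P.ne_bot Q
    have hQ'q : (q : 𝓞 L) ∈ Q := natCast_mem_of_liesOver q P.asIdeal Q hP
    have hund : underPrime K (⟨Q, hQp, hQ0⟩ : HeightOneSpectrum (𝓞 L)) = P :=
      HeightOneSpectrum.ext (Ideal.over_def Q P.asIdeal).symm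
    have := hγ ⟨Q, hQp, hQ0⟩ hQ'q
    simp only [pow_one] at this
    rw [hund] at this
    exact this
  have hnot : ∀ Q : HeightOneSpectrum (𝓞 L), (q : 𝓞 L) ∈ Q.asIdeal → γ ∉ Q.asIdeal := by
    intro Q hQ
    have hP : (q : 𝓞 K) ∈ (underPrime K Q).asIdeal := natCast_mem_under q Q.asIdeal hQ
    haveI : Q.asIdeal.LiesOver (underPrime K Q).asIdeal := ⟨rfl⟩
    exact not_mem_of_norm_sub_mem (underPrime K Q) (a _) (ha _ hP).1 γ (hnorm _ hP) Q.asIdeal
  refine ⟨γ, ?_, hnot, ?_⟩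
  · obtain ⟨Q, hQ⟩ := exists_prime_over_nat L q Fact.out
    intro h0
    exact hnot Q hQ (h0 ▸ Q.asIdeal.zero_mem)
  · intro P hP
    have h1 : P.valuation K (((RingOfIntegers.norm K γ - a P : 𝓞 K) : K)) < 1 :=
      (P.valuation_lt_one_iff_mem _).2 (hnorm P hP)
    have h2 := (ha P hP).2
    have h3 : ((RingOfIntegers.norm K γ : 𝓞 K) : K) - c =
        ((RingOfIntegers.norm K γ - a P : 𝓞 K) : K) + ((a P : K) - c) := by
      push_cast; ring
    rw [h3]
    exact Valuation.map_add_lt _ h1 h2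


section ResNorm

open Fermat.Agent.S55.helper89

variable (K L : Type*) [Field K] [NumberField K] [Field L] [NumberField L] [Algebra K L]
  [IsGalois K L]

theorem exists_norm_sub_lt (p : ℕ) (hp : p.Prime) (hdeg : Module.finrank K L = p)
    (q : ℕ) [Fact q.Prime] (c : Kˣ)
    (hc : ∀ P : HeightOneSpectrum (𝓞 K), (q : 𝓞 K) ∈ P.asIdeal → P.valuation K (c : K) = 1)
    (h : ∀ P : HeightOneSpectrum (𝓞 K), (q : 𝓞 K) ∈ P.asIdeal →
      IsUnramAt K L P ∨ IsPowMod K p P (c : K)) :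
    ∃ γ : Lˣ, (∀ Q : HeightOneSpectrum (𝓞 L), (q : 𝓞 L) ∈ Q.asIdeal →
        Q.valuation L (γ : L) = 1) ∧
      ∀ P : HeightOneSpectrum (𝓞 K), (q : 𝓞 K) ∈ P.asIdeal →
        P.valuation K (Algebra.norm K (γ : L) - (c : K)) < 1 := by
  obtain ⟨γ, hγ0, hγ1, hγ2⟩ := exists_norm_sub_lt_aux (K := K) (L := L) q (c : K) hc (by
    intro P hP
    rcases h P hP with hU | hpow
    · exact Or.inl hU
    · right
      rw [hdeg]
      exact hpow)
  have hγL : (γ : L) ≠ 0 := RingOfIntegers.coe_ne_zero_iff.2 hγ0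
  refine ⟨Units.mk0 (γ : L) hγL, ?_, ?_⟩
  · intro Q hQ
    rw [Units.val_mk0]
    have h1 := hγ1 Q hQ
    rw [← Q.valuation_lt_one_iff_mem (K := L), not_lt] at h1
    exact le_antisymm (Q.valuation_le_one γ) h1
  · intro P hP
    rw [Units.val_mk0, ← RingOfIntegers.coe_norm]
    exact hγ2 P hP

/-- SPLITNORM: if `P` (over `q`) has `p` distinct primes of `L` above it, there is a global
element of `L` whose norm is a uniformiser at `P` and a unit at the other primes over `q`. -/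
theorem exists_norm_uniformizer (p : ℕ) (hp : p.Prime) (hdeg : Module.finrank K L = p)
    (q : ℕ) [Fact q.Prime] (P : HeightOneSpectrum (𝓞 K)) (hP : (q : 𝓞 K) ∈ P.asIdeal)
    (hsplit : (P.asIdeal.primesOver (𝓞 L)).ncard = p) :
    ∃ β : Lˣ, P.valuation K (Algebra.norm K (β : L)) = WithZero.exp (-1 : ℤ) ∧
      ∀ P' : HeightOneSpectrum (𝓞 K), (q : 𝓞 K) ∈ P'.asIdeal → P' ≠ P →
        P'.valuation K (Algebra.norm K (β : L)) = 1 := by
  obtain ⟨β, hβ0, h1, h2⟩ := exists_norm_uniformizer_aux (L := L) q P hP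
    (hsplit.trans hdeg.symm)
  have hβL : (β : L) ≠ 0 := RingOfIntegers.coe_ne_zero_iff.2 hβ0
  refine ⟨Units.mk0 (β : L) hβL, ?_, ?_⟩
  · rw [Units.val_mk0, ← RingOfIntegers.coe_norm]
    exact (P.valuation_of_algebraMap (K := K) _).trans h1
  · intro P' hP' hne
    rw [Units.val_mk0, ← RingOfIntegers.coe_norm]
    exact (P'.valuation_of_algebraMap (K := K) _).trans (h2 P' hP' hne)

end ResNorm

end Fermat.Agent.S55.helper86
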