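import Fermat.Agent.S55.helper89_ChevGroups
import Fermat.Agent.S55.helper73_IdlBasic
import Fermat.Agent.S55.helper63_HenselPow
import Fermat.Agent.S55.helper24_Dict

/-!
# S55 / GLOB / G7-LOCNORM (helper88, task 480): local norms in `ℚ_q ⊗ L / ℚ_q ⊗ K`

Statements N1..N4 of `helper89_G7Plan2` (section `LocNorm`), VERBATIM:

* `normG_locUnit` (N1) : the norm of a principal element;
* `normG_bcUnits` (N2) : the norm of an element coming from `K`;
* `isLocNorm_pow` (N3) : `p`-th powers are norms;
* `isLocIntNorm_of_norm_approx` (N4) : an integral unit congruent to a norm of a unit modulo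
  `U⁽¹⁾` is the norm of an integral unit (`q ≠ p`, Hensel).
-/

set_option autoImplicit false

open scoped TensorProduct NumberField
open IsDedekindDomain

namespace Fermat.Agent.S55.helper88

open Fermat.Agent.S55.helper73 Fermat.Agent.S55.helper89

section LocNorm

variable (K L : Type*) [Field K] [NumberField K] [Field L] [NumberField L] [Algebra K L]
  [IsGalois K L]

/-- the two base change maps agree -/
theorem bcUnits_eq (q : ℕ) [Fact q.Prime] (z : (SemiLoc q K)ˣ) :
    helper89.bcUnits K L q z = helper73.bcUnits K L q z := rfl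

/-- Galois invariance of base-changed units. -/
theorem smul_bcUnits (q : ℕ) [Fact q.Prime] (σ : Gal(L/K)) (z : (SemiLoc q K)ˣ) :
    σ • helper89.bcUnits K L q z = helper89.bcUnits K L q z := by
  apply Units.ext
  exact helper73.smul_bc K L q σ (z : SemiLoc q K)

/-- N1 : the norm of a principal element. -/
theorem normG_locUnit (q : ℕ) [Fact q.Prime] (β : Lˣ) :
    normG Gal(L/K) (SemiLoc q L)ˣ (locUnit q L β) =
      helper89.bcUnits K L q (locUnit q K (Units.map (Algebra.norm K : L →* K) β)) := by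
  classical
  apply Units.ext
  rw [normG_apply, Units.coe_prod]
  have h1 : ∀ σ : Gal(L/K), ((σ • locUnit q L β : (SemiLoc q L)ˣ) : SemiLoc q L) =
      (Algebra.TensorProduct.includeRight : L →ₐ[ℚ] SemiLoc q L) (σ (β : L)) := by
    intro σ
    rw [coe_smul_units, locUnit_coe, galSemiLocAut_tmul]
    rfl
  simp only [h1]
  rw [← map_prod, ← Algebra.norm_eq_prod_automorphisms]
  rw [helper89.bcUnits_coe, locUnit_coe, bcAlg_tmul]
  rfl

/-- N2 : the norm of an element coming from `K`. -/
theorem normG_bcUnits (q : ℕ) [Fact q.Prime] (z : (SemiLoc q K)ˣ) :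
    normG Gal(L/K) (SemiLoc q L)ˣ (helper89.bcUnits K L q z) =
      helper89.bcUnits K L q (z ^ Module.finrank K L) := by
  classical
  rw [normG_apply]
  simp only [smul_bcUnits]
  rw [Finset.prod_const, Finset.card_univ, ← Nat.card_eq_fintype_card,
    IsGalois.card_aut_eq_finrank, map_pow]

/-- N3 : `p`-th powers are norms. -/
theorem isLocNorm_pow (p : ℕ) (hdeg : Module.finrank K L = p) (q : ℕ) [Fact q.Prime]
    (z : (SemiLoc q K)ˣ) : IsLocNorm K L q (z ^ p) :=
  ⟨helper89.bcUnits K L q z, by rw [normG_bcUnits, hdeg]⟩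

/-- N4 (R) : an integral unit `u ≡ c ≡ N(γ)` modulo `U⁽¹⁾`, `γ` a unit at all primes of `L`
over `q ≠ p`, is the norm of an integral unit (Hensel: `U⁽¹⁾` is `p`-divisible). -/
theorem isLocIntNorm_of_norm_approx (p : ℕ) (hp : p.Prime) (hdeg : Module.finrank K L = p)
    (q : ℕ) [Fact q.Prime] (hqp : q ≠ p) (u : (SemiLoc q K)ˣ) (γ : Lˣ)
    (hγ : ∀ Q : HeightOneSpectrum (𝓞 L), (q : 𝓞 L) ∈ Q.asIdeal → Q.valuation L (γ : L) = 1)
    (hu : u * (locUnit q K (Units.map (Algebra.norm K : L →* K) γ))⁻¹ ∈ oneUnits q K) :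
    IsLocIntNorm K L q u := by
  obtain ⟨v, hv, hvp⟩ := helper63.exists_pow_eq_of_mem_oneUnits q K p hp hqp _ hu
  have hvint : v ∈ intUnits q K := oneUnits_le q K hv
  refine ⟨helper89.bcUnits K L q v * locUnit q L γ, mul_mem ?_ ?_, ?_⟩
  · exact (helper73.bcUnits_mem_intUnits_iff K L q v).mpr hvint
  · exact (helper24.locUnit_mem_intUnits_iff q L γ).mpr hγ
  · rw [map_mul, normG_bcUnits, normG_locUnit, hdeg, hvp, ← map_mul]
    congr 1
    rw [inv_mul_cancel_right]

end LocNorm

end Fermat.Agent.S55.helper88
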