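import Fermat.Agent.S55.helper24_Dict
import Fermat.Agent.S55.helper86_ResNorm
import Fermat.Agent.S55.helper50_ChevMisc2
import Fermat.Agent.S55.helper88_ChevLocNorm

/-!
# S55 / GLOB G7-CORE (helper84, second prover): the wrapper (R)

For `q ≠ p` unramified in `K` and `L/K` cyclic of degree `p`: an integral unit `u` of `ℚ_q ⊗ K`
congruent modulo `U⁽¹⁾` to a global `c` such that, at every prime `P ∣ q`, either `L/K` is
unramified at `P` or `c` is a `p`-th power modulo `P`, is the norm of an integral unit.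
-/

set_option autoImplicit false
set_option linter.style.haveILetI false
set_option linter.unusedSectionVars false
set_option linter.unusedVariables false

open scoped TensorProduct NumberField
open IsDedekindDomain

namespace Fermat.Agent.S55.helper84

open Fermat.Agent.S55.helper73 Fermat.Agent.S55.helper89

section Wrap

variable (K L : Type*) [Field K] [NumberField K] [Field L] [NumberField L] [Algebra K L]
  [IsGalois K L]

/-- valuation of an element close to a unit -/
lemma valuation_eq_one_of_sub_lt (P : HeightOneSpectrum (𝓞 K)) (n c : K)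
    (hc : P.valuation K c = 1) (h : P.valuation K (n - c) < 1) : P.valuation K n = 1 := by
  have e : n = c + (n - c) := by ring
  rw [e, Valuation.map_add_eq_of_lt_left _ (by rw [hc]; exact h), hc]

/-- **(R)**: the wrapper. -/
theorem isLocIntNorm_of_approx (p : ℕ) (hp : p.Prime) (hdeg : Module.finrank K L = p)
    (q : ℕ) [Fact q.Prime] (hqp : q ≠ p)
    (hunr : ∀ P : HeightOneSpectrum (𝓞 K), (q : 𝓞 K) ∈ P.asIdeal →
      P.valuation K (q : K) = WithZero.exp (-1 : ℤ))
    (u : (SemiLoc q K)ˣ) (c : Kˣ)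
    (hc : ∀ P : HeightOneSpectrum (𝓞 K), (q : 𝓞 K) ∈ P.asIdeal → P.valuation K (c : K) = 1)
    (huc : u * (locUnit q K c)⁻¹ ∈ oneUnits q K)
    (h : ∀ P : HeightOneSpectrum (𝓞 K), (q : 𝓞 K) ∈ P.asIdeal →
      IsUnramAt K L P ∨ IsPowMod K p P (c : K)) :
    IsLocIntNorm K L q u := by
  obtain ⟨γ, hγ, hγc⟩ := Fermat.Agent.S55.helper86.exists_norm_sub_lt K L p hp hdeg q c hc h
  apply Fermat.Agent.S55.helper88.isLocIntNorm_of_norm_approx K L p hp hdeg q hqp u γ hγ
  set n : Kˣ := Units.map (Algebra.norm K : L →* K) γ with hn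
  have hnval : ∀ P : HeightOneSpectrum (𝓞 K), (q : 𝓞 K) ∈ P.asIdeal →
      P.valuation K (n : K) = 1 := fun P hP =>
    valuation_eq_one_of_sub_lt K P _ _ (hc P hP) (hγc P hP)
  have h1 : locUnit q K (c * n⁻¹) ∈ oneUnits q K := by
    apply Fermat.Agent.S55.helper50.locUnit_mem_oneUnits K q hunr
    intro P hP
    have e : ((c * n⁻¹ : Kˣ) : K) - 1 = -((n : K) - (c : K)) * ((n : K))⁻¹ := by
      have hn0 : (n : K) ≠ 0 := n.ne_zero
      rw [Units.val_mul, Units.val_inv_eq_inv_val]
      field_simp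
      ring
    rw [e, map_mul, Valuation.map_neg, map_inv₀, hnval P hP, inv_one, mul_one]
    exact hγc P hP
  have h2 : u * (locUnit q K n)⁻¹ = (u * (locUnit q K c)⁻¹) * locUnit q K (c * n⁻¹) := by
    rw [map_mul, map_inv, mul_assoc, inv_mul_cancel_left]
  rw [h2]
  exact mul_mem huc h1

/-- integral units are norms of integral units at the primes `q ≠ p` unramified in `K` at which
`L/K` is unramified. -/
theorem isLocIntNorm_of_unram (p : ℕ) (hp : p.Prime) (hdeg : Module.finrank K L = p)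
    (q : ℕ) [Fact q.Prime] (hqp : q ≠ p)
    (hunr : ∀ P : HeightOneSpectrum (𝓞 K), (q : 𝓞 K) ∈ P.asIdeal →
      P.valuation K (q : K) = WithZero.exp (-1 : ℤ))
    (hL : ∀ P : HeightOneSpectrum (𝓞 K), (q : 𝓞 K) ∈ P.asIdeal → IsUnramAt K L P)
    (u : (SemiLoc q K)ˣ) (hu : u ∈ intUnits q K) :
    IsLocIntNorm K L q u := by
  obtain ⟨c, hc, huc⟩ := Fermat.Agent.S55.helper24.exists_locUnit_mul_mem_oneUnits q K u hu
  exact isLocIntNorm_of_approx K L p hp hdeg q hqp hunr u c
    ((Fermat.Agent.S55.helper24.locUnit_mem_intUnits_iff q K c).1 hc) huc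
    (fun P hP => Or.inl (hL P hP))

/-- elements of `powAt` are norms of integral units when `L/K` is unramified at the primes
over `q` outside `T`. -/
theorem isLocIntNorm_of_mem_powAt (p : ℕ) (hp : p.Prime) (hdeg : Module.finrank K L = p)
    (q : ℕ) [Fact q.Prime] (hqp : q ≠ p)
    (hunr : ∀ P : HeightOneSpectrum (𝓞 K), (q : 𝓞 K) ∈ P.asIdeal →
      P.valuation K (q : K) = WithZero.exp (-1 : ℤ))
    (T : Set (HeightOneSpectrum (𝓞 K)))
    (hL : ∀ P : HeightOneSpectrum (𝓞 K), (q : 𝓞 K) ∈ P.asIdeal → P ∉ T → IsUnramAt K L P)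
    (u : (SemiLoc q K)ˣ) (hu : u ∈ powAt q K p T) :
    IsLocIntNorm K L q u := by
  classical
  obtain ⟨c, hc, -, huc, hpow⟩ := hu
  refine isLocIntNorm_of_approx K L p hp hdeg q hqp hunr u c hc huc (fun P hP => ?_)
  by_cases hPT : P ∈ T
  · exact Or.inr (hpow P hP hPT)
  · exact Or.inl (hL P hP hPT)

end Wrap

end Fermat.Agent.S55.helper84
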