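import Fermat.Agent.S55.helper84_HasseNorm

/-!
# S55 / GLOB G8 (helper84): descent of the Hasse norm theorem along a coprime base change

`K ⊆ L` cyclic of prime degree `p`, `K ⊆ K'`, `L ⊆ L'`, `K' ⊆ L'` Galois, with restriction
`Gal(L'/K') → Gal(L/K)` injective and `[K' : K]` prime to `p`.  Then `[L' : K'] = p`, restriction
is bijective, local norms from `L` become local norms from `L'`, and the Hasse norm theorem for
`L'/K'` implies the Hasse norm theorem for `L/K`.
-/

set_option autoImplicit false
set_option linter.style.haveILetI false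
set_option linter.unusedSectionVars false
set_option linter.unusedVariables false

open scoped TensorProduct NumberField

namespace Fermat.Agent.S55.helper84

open Fermat.Agent.S55.helper73

section Res

variable (K L K' L' : Type*) [Field K] [Field L] [Field K'] [Field L']
  [Algebra K L] [Algebra K K'] [Algebra K' L'] [Algebra L L'] [Algebra K L']
  [IsScalarTower K L L'] [IsScalarTower K K' L'] [Normal K L]

/-- Restriction `Gal(L'/K') → Gal(L/K)` for a square of fields `K ⊆ L`, `K ⊆ K'`, `K', L ⊆ L'`
with `L/K` normal. -/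
noncomputable def resGal : Gal(L'/K') →* Gal(L/K) :=
  (AlgEquiv.restrictNormalHom (F := K) (K₁ := L') L).comp (AlgEquiv.restrictScalarsHom K)

lemma resGal_commutes (τ : Gal(L'/K')) (x : L) :
    algebraMap L L' (resGal K L K' L' τ x) = τ (algebraMap L L' x) :=
  AlgEquiv.restrictNormal_commutes (AlgEquiv.restrictScalars K τ) L x

end Res

section SemiLocRes

variable (K L K' L' : Type*) [Field K] [Field L] [Field K'] [Field L']
  [CharZero L] [CharZero L']
  [Algebra K L] [Algebra K K'] [Algebra K' L'] [Algebra L L'] [Algebra K L']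
  [IsScalarTower K L L'] [IsScalarTower K K' L'] [Normal K L]

lemma smul_bc_resGal (q : ℕ) [Fact q.Prime] (τ : Gal(L'/K')) (x : SemiLoc q L) :
    τ • bc L L' q x = bc L L' q (resGal K L K' L' τ • x) := by
  induction x using TensorProduct.induction_on with
  | zero => simp
  | tmul a l =>
    rw [bc_tmul, smul_tmul', smul_tmul', bc_tmul, resGal_commutes]
  | add x y hx hy => rw [map_add, smul_add, hx, hy, smul_add, map_add]

lemma smul_bcUnits_resGal (q : ℕ) [Fact q.Prime] (τ : Gal(L'/K')) (x : (SemiLoc q L)ˣ) :
    τ • bcUnits L L' q x = bcUnits L L' q (resGal K L K' L' τ • x) := by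
  apply Units.ext
  exact smul_bc_resGal K L K' L' q τ (x : SemiLoc q L)

end SemiLocRes

section Descent

variable (K L K' L' : Type*) [Field K] [NumberField K] [Field L] [NumberField L]
  [Field K'] [NumberField K'] [Field L'] [NumberField L']
  [Algebra K L] [Algebra K K'] [Algebra K' L'] [Algebra L L'] [Algebra K L']
  [IsScalarTower K L L'] [IsScalarTower K K' L'] [IsGalois K L] [IsGalois K' L']

/-- The semilocal norm commutes with base change when restriction is bijective. -/
lemma normG_bcUnits (hbij : Function.Bijective (resGal K L K' L')) (q : ℕ) [Fact q.Prime]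
    (y : (SemiLoc q L)ˣ) :
    normG Gal(L'/K') (SemiLoc q L')ˣ (bcUnits L L' q y) =
      bcUnits L L' q (normG Gal(L/K) (SemiLoc q L)ˣ y) := by
  rw [normG_apply, normG_apply, map_prod]
  exact Fintype.prod_bijective _ hbij _ _ (fun τ => smul_bcUnits_resGal K L K' L' q τ y)

lemma bcUnits_principalPi_algebraMap (q : Nat.Primes) (b : Kˣ) :
    bcUnits L L' (q : ℕ) (principalPi L (Units.map (algebraMap K L : K →* L) b) q) =
      principalPi L' (Units.map (algebraMap K' L' : K' →* L')
        (Units.map (algebraMap K K' : K →* K') b)) q := by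
  apply Units.ext
  change bc L L' (q : ℕ) (1 ⊗ₜ[ℚ] (algebraMap K L (b : K))) =
    1 ⊗ₜ[ℚ] (algebraMap K' L' (algebraMap K K' (b : K)))
  rw [bc_tmul, ← IsScalarTower.algebraMap_apply K L L', ← IsScalarTower.algebraMap_apply K K' L']

/-- Degree of the upper extension. -/
lemma finrank_eq_of_resGal_injective (p : ℕ) (hp : p.Prime) (hdeg : Module.finrank K L = p)
    (hcop : (Module.finrank K K').Coprime p)
    (hinj : Function.Injective (resGal K L K' L')) :
    Module.finrank K' L' = p := by
  haveI : FiniteDimensional K L := Module.Finite.of_restrictScalars_finite ℚ K L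
  haveI : FiniteDimensional K' L' := Module.Finite.of_restrictScalars_finite ℚ K' L'
  haveI : FiniteDimensional K K' := Module.Finite.of_restrictScalars_finite ℚ K K'
  haveI : FiniteDimensional L L' := Module.Finite.of_restrictScalars_finite ℚ L L'
  have h1 : Nat.card Gal(L'/K') ≤ Nat.card Gal(L/K) := Nat.card_le_card_of_injective _ hinj
  rw [IsGalois.card_aut_eq_finrank, IsGalois.card_aut_eq_finrank, hdeg] at h1
  have h2 : Module.finrank K L * Module.finrank L L' =
      Module.finrank K K' * Module.finrank K' L' := by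
    rw [Module.finrank_mul_finrank, Module.finrank_mul_finrank]
  have h3 : p ∣ Module.finrank K K' * Module.finrank K' L' := by
    rw [← h2, hdeg]
    exact dvd_mul_right _ _
  have h4 : p ∣ Module.finrank K' L' := (Nat.Coprime.dvd_mul_left hcop.symm).1 h3
  have h5 : 0 < Module.finrank K' L' := Module.finrank_pos
  exact le_antisymm h1 (Nat.le_of_dvd h5 h4)

lemma resGal_bijective (p : ℕ) (hp : p.Prime) (hdeg : Module.finrank K L = p)
    (hcop : (Module.finrank K K').Coprime p)
    (hinj : Function.Injective (resGal K L K' L')) :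
    Function.Bijective (resGal K L K' L') := by
  haveI : FiniteDimensional K L := Module.Finite.of_restrictScalars_finite ℚ K L
  haveI : FiniteDimensional K' L' := Module.Finite.of_restrictScalars_finite ℚ K' L'
  apply hinj.bijective_of_nat_card_le
  rw [IsGalois.card_aut_eq_finrank, IsGalois.card_aut_eq_finrank, hdeg,
    finrank_eq_of_resGal_injective K L K' L' p hp hdeg hcop hinj]

/-- Norm descent on global elements: a norm from `L'` to `K'` of (the image of) `b ∈ K` gives
`b ^ [K' : K]` as a norm from `L`. -/
lemma exists_normG_eq_pow (b : Kˣ) (z : L'ˣ)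
    (hz : normG Gal(L'/K') L'ˣ z = Units.map (algebraMap K' L' : K' →* L')
      (Units.map (algebraMap K K' : K →* K') b)) :
    ∃ w : Lˣ, normG Gal(L/K) Lˣ w =
      Units.map (algebraMap K L : K →* L) (b ^ Module.finrank K K') := by
  haveI : FiniteDimensional K L := Module.Finite.of_restrictScalars_finite ℚ K L
  haveI : FiniteDimensional K' L' := Module.Finite.of_restrictScalars_finite ℚ K' L'
  haveI : FiniteDimensional K K' := Module.Finite.of_restrictScalars_finite ℚ K K'
  haveI : FiniteDimensional L L' := Module.Finite.of_restrictScalars_finite ℚ L L'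
  have h1 : algebraMap K' L' (Algebra.norm K' (z : L')) =
      algebraMap K' L' (algebraMap K K' (b : K)) := by
    rw [Algebra.norm_eq_prod_automorphisms]
    have := congrArg (fun u : L'ˣ => (u : L')) hz
    simp only [normG_apply, Units.coe_prod] at this
    exact this
  have h2 : Algebra.norm K' (z : L') = algebraMap K K' (b : K) :=
    (algebraMap K' L').injective h1
  have h3 : Algebra.norm K (z : L') = (b : K) ^ Module.finrank K K' := by
    rw [← Algebra.norm_norm (S := K'), h2, Algebra.norm_algebraMap]
  have h4 : Algebra.norm K (Algebra.norm L (z : L')) = (b : K) ^ Module.finrank K K' := by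
    rw [Algebra.norm_norm, h3]
  have hw : Algebra.norm L (z : L') ≠ 0 := by
    intro h0
    rw [h0, Algebra.norm_zero] at h4
    exact (pow_ne_zero _ b.ne_zero) h4.symm
  refine ⟨Units.mk0 _ hw, ?_⟩
  apply Units.ext
  have h5 := Algebra.norm_eq_prod_automorphisms K (Algebra.norm L (z : L'))
  rw [h4] at h5
  simp only [normG_apply, Units.coe_prod, Units.coe_map, MonoidHom.coe_coe, Units.val_pow_eq_pow_val,
    map_pow]
  rw [map_pow] at h5
  rw [h5]
  rfl

/-- The norm of an element of the base field. -/
lemma normG_algebraMap_units (b : Kˣ) :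
    normG Gal(L/K) Lˣ (Units.map (algebraMap K L : K →* L) b) =
      Units.map (algebraMap K L : K →* L) b ^ Module.finrank K L := by
  haveI : FiniteDimensional K L := Module.Finite.of_restrictScalars_finite ℚ K L
  rw [normG_apply]
  rw [Finset.prod_congr rfl (fun τ _ => smul_algebraMap_units K L τ b)]
  rw [Finset.prod_const, Finset.card_univ, ← Nat.card_eq_fintype_card,
    IsGalois.card_aut_eq_finrank]

/-- **Descent of the Hasse norm theorem** along a base change of degree prime to `p`. -/
theorem hasse_norm_descent (p : ℕ) (hp : p.Prime) (hdeg : Module.finrank K L = p)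
    (hcop : (Module.finrank K K').Coprime p)
    (hinj : Function.Injective (resGal K L K' L'))
    (hHN : Module.finrank K' L' = p → ∀ b' : K'ˣ,
      (∀ q : Nat.Primes, ∃ y : (SemiLoc (q : ℕ) L')ˣ,
        normG Gal(L'/K') (SemiLoc (q : ℕ) L')ˣ y =
          principalPi L' (Units.map (algebraMap K' L' : K' →* L') b') q) →
      ∃ y : L'ˣ, normG Gal(L'/K') L'ˣ y = Units.map (algebraMap K' L' : K' →* L') b')
    (b : Kˣ)
    (hloc : ∀ q : Nat.Primes, ∃ y : (SemiLoc (q : ℕ) L)ˣ,
      normG Gal(L/K) (SemiLoc (q : ℕ) L)ˣ y =
        principalPi L (Units.map (algebraMap K L : K →* L) b) q) :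
    ∃ y : Lˣ, normG Gal(L/K) Lˣ y = Units.map (algebraMap K L : K →* L) b := by
  have hdeg' := finrank_eq_of_resGal_injective K L K' L' p hp hdeg hcop hinj
  have hbij := resGal_bijective K L K' L' p hp hdeg hcop hinj
  obtain ⟨z, hz⟩ := hHN hdeg' (Units.map (algebraMap K K' : K →* K') b) (by
    intro q
    obtain ⟨y, hy⟩ := hloc q
    refine ⟨bcUnits L L' (q : ℕ) y, ?_⟩
    rw [normG_bcUnits K L K' L' hbij (q : ℕ) y, hy, bcUnits_principalPi_algebraMap K L K' L' q b])
  obtain ⟨w, hw⟩ := exists_normG_eq_pow K L K' L' b z hz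
  -- Bezout
  set d := Module.finrank K K' with hd
  have hgcd : Nat.gcd d p = 1 := hcop
  have hbez : (d : ℤ) * Nat.gcdA d p + (p : ℤ) * Nat.gcdB d p = 1 := by
    have := Nat.gcd_eq_gcd_ab d p
    rw [hgcd] at this
    exact_mod_cast this.symm
  set β : Lˣ := Units.map (algebraMap K L : K →* L) b with hβ
  refine ⟨w ^ (Nat.gcdA d p) * β ^ (Nat.gcdB d p), ?_⟩
  rw [map_mul, map_zpow, map_zpow, hw, normG_algebraMap_units, hdeg, map_pow, ← hβ,
    ← zpow_natCast, ← zpow_natCast, ← zpow_mul, ← zpow_mul, ← zpow_add, hbez, zpow_one]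

end Descent

end Fermat.Agent.S55.helper84
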