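import Fermat.Agent.S55.helper84_HasseNormCyc
import Fermat.Agent.S55.helper73_Ineq1Final

/-!
# S55 / GLOB G8 (helper84): the Hasse norm theorem, conditional ONLY on the second inequality

`ineq1` (helper73/helper21/helper31/helper3) and G3a (`exists_finset_intUnits_trivial`, from
LAT-2 + RES) are discharged.  The only remaining input is INEQ2 in the presence of `ζ_p`
(`Ineq2Zeta p`, GLOB G7).
-/

set_option autoImplicit false
set_option linter.style.haveILetI false
set_option linter.unusedSectionVars false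
set_option linter.unusedVariables false

open scoped TensorProduct NumberField

universe u v

namespace Fermat.Agent.S55.helper84

open Fermat.Agent.S55.helper73 groupCohomology

/-- G3a (interface v2, `exists_finset_intUnits_trivial`) VERBATIM: at almost all primes the
integral units are cohomologically trivial. -/
theorem exists_finset_intUnits_trivial (K L : Type*) [Field K] [NumberField K] [Field L]
    [NumberField L] [Algebra K L] [IsGalois K L]
    (σ : Gal(L/K)) (hσ : ∀ τ : Gal(L/K), τ ∈ Subgroup.zpowers σ) :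
    ∃ T : Finset Nat.Primes, ∀ q : Nat.Primes, q ∉ T →
      (∀ x ∈ intUnits (q : ℕ) L, (∀ τ : Gal(L/K), τ • x = x) →
        ∃ y ∈ intUnits (q : ℕ) L, normG Gal(L/K) (SemiLoc (q : ℕ) L)ˣ y = x) ∧
      (∀ x ∈ intUnits (q : ℕ) L, normG Gal(L/K) (SemiLoc (q : ℕ) L)ˣ x = 1 →
        ∃ y ∈ intUnits (q : ℕ) L, σ • y / y = x) := by
  classical
  obtain ⟨T1, hT1⟩ := Fermat.Agent.S55.helper31.exists_finset_princUnits_trivial K L σ hσ
  obtain ⟨T2, hT2⟩ := Fermat.Agent.S55.helper3.exists_finset_intUnits_mod_princUnits K L σ hσ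
  refine ⟨T1 ∪ T2, fun q hq => ?_⟩
  rw [Finset.mem_union, not_or] at hq
  exact Fermat.Agent.S55.helper21.intUnits_trivial_of_LAT2_RES K L (q : ℕ) σ
    (hT1 q hq.1) (hT2 q hq.2)

theorem ineq1Zeta (p : ℕ) (hp : p.Prime) (hp2 : p ≠ 2) : Ineq1Zeta.{u} p :=
  fun K L _ _ _ _ _ _ hdeg _ σ hσ => Fermat.Agent.S55.helper73.ineq1 K L p hp hp2 hdeg σ hσ

theorem g3aZeta (p : ℕ) : G3aZeta.{u} p :=
  fun K L _ _ _ _ _ _ _ _ σ hσ => exists_finset_intUnits_trivial K L σ hσ

/-- `Ĥ^{-1}(G, C_L) = 1` for cyclic `L/K` of odd prime degree, from INEQ2 for `L/K`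
(shape of `helper73.Interface.ideleClass_hilbert90`, with the conclusion of `ineq2` for `L/K`
as a hypothesis instead of `hζ`). -/
theorem ideleClass_hilbert90_of_ineq2 (K L : Type*) [Field K] [NumberField K] [Field L]
    [NumberField L] [Algebra K L] [IsGalois K L]
    (p : ℕ) (hp : p.Prime) (hp2 : p ≠ 2)
    (hdeg : Module.finrank K L = p)
    (hI2 : ((normG Gal(L/K) (IdeleClass L)).range.subgroupOf
      (fixedSub Gal(L/K) (IdeleClass L))).index ∣ p)
    (σ : Gal(L/K)) (hσ : σ ≠ 1) (x : IdeleClass L)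
    (hx : normG Gal(L/K) (IdeleClass L) x = 1) : ∃ y : IdeleClass L, σ • y / y = x :=
  ideleClass_hilbert90_of K L p hp.pos σ
    (Fermat.Agent.S55.helper73.ineq1 K L p hp hp2 hdeg σ hσ) hI2 x hx

/-- **HASSE NORM THEOREM** (shape of `helper73.Interface.hasse_norm`, no hypothesis on roots of
unity) from INEQ2 in the presence of `ζ_p`. -/
theorem hasse_norm_of_ineq2 (p : ℕ) (hp : p.Prime) (hp2 : p ≠ 2) (hI2 : Ineq2Zeta.{u} p)
    (K : Type v) (L : Type u) [Field K] [NumberField K] [Field L] [NumberField L] [Algebra K L]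
    [IsGalois K L] (hdeg : Module.finrank K L = p)
    (b : Kˣ)
    (hloc : ∀ q : Nat.Primes, ∃ y : (SemiLoc (q : ℕ) L)ˣ,
      normG Gal(L/K) (SemiLoc (q : ℕ) L)ˣ y =
        principalPi L (Units.map (algebraMap K L : K →* L) b) q) :
    ∃ y : Lˣ, normG Gal(L/K) Lˣ y = Units.map (algebraMap K L : K →* L) b :=
  hasse_norm_of_inputs p hp (ineq1Zeta p hp hp2) hI2 (g3aZeta p) K L hdeg b hloc

theorem hasseNormCyc_of_ineq2 (p : ℕ) (hp : p.Prime) (hp2 : p ≠ 2) (hI2 : Ineq2Zeta.{u} p) :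
    Fermat.Agent.S55.helper6.HasseNormCyc.{u} p :=
  hasseNormCyc_of_inputs p hp (ineq1Zeta p hp hp2) hI2 (g3aZeta p)

/-- Hasse principle for `H²` of `p`-extensions (shape of
`helper73.Interface.hasse_principle_H2`) from INEQ2 in the presence of `ζ_p`. -/
theorem hasse_principle_H2_of_ineq2 (p : ℕ) (hp : p.Prime) (hp2 : p ≠ 2)
    (hI2 : Ineq2Zeta.{u} p)
    (K L : Type u) [Field K] [NumberField K] [Field L] [NumberField L] [Algebra K L]
    [IsGalois K L] (n : ℕ) (hdeg : Module.finrank K L = p ^ n)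
    (x : Gal(L/K) × Gal(L/K) → Lˣ) (hx : IsMulCocycle₂ x)
    (hloc : ∀ q : Nat.Primes,
      IsMulCoboundary₂ (fun g : Gal(L/K) × Gal(L/K) => principalPi L (x g) q)) :
    IsMulCoboundary₂ x :=
  hasse_principle_H2_of_inputs p hp (ineq1Zeta p hp hp2) hI2 (g3aZeta p) K L n hdeg x hx hloc

/-- REC1 input (3): `helper60.GlobHasse p` from INEQ2 in the presence of `ζ_p`. -/
theorem globHasse_of_ineq2 (p : ℕ) (hp : p.Prime) (hp2 : p ≠ 2) (hI2 : Ineq2Zeta.{0} p) :
    Fermat.Agent.S55.helper60.GlobHasse p :=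
  globHasse_of_inputs p hp (ineq1Zeta p hp hp2) hI2 (g3aZeta p)

end Fermat.Agent.S55.helper84
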