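import Fermat.Agent.S55.helper84_RecInf
import Fermat.Agent.S55.helper8_LocDefs2

/-!
# S55 / LOC-5a (helper84, task 320): inflation is injective on `H²`, inflation–restriction

Statements of `helper8_LocInterface2`, section LOC5a, conditional on FG2.a / FG2.b
(`InfTwoInjective`, `InfResTwoExact`, exact shapes of the FG interface).
-/

set_option autoImplicit false
set_option linter.unusedSectionVars false

open CategoryTheory CategoryTheory.Limits groupCohomology Rep

namespace Fermat.Agent.S55.helper84

open Fermat.Agent.S55.helper11

/-- FG2.a (`infH_two_injective`) in the shape of the FG interface (universe `0`). -/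
def InfTwoInjective : Prop :=
  ∀ (k G : Type) [CommRing k] [Group G] (S : Subgroup G) [S.Normal] (A : Rep k G),
    IsZero (groupCohomology (res S.subtype A) 1) →
    Function.Injective
      (groupCohomology.map (QuotientGroup.mk' S) (ofHom <| A.ρ.quotientToInvariants_lift S) 2 :
        groupCohomology (A.quotientToInvariants S) 2 ⟶ groupCohomology A 2)

section LOC5a

variable (K L M : Type) [Field K] [Field L] [Field M] [Algebra K L] [Algebra K M] [Algebra L M]
  [IsScalarTower K L M] [FiniteDimensional K M] [IsGalois K L] [IsGalois K M]

/-- `locH` for an inflation square is injective in degree 2 (from FG2.a + Hilbert 90). -/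
theorem locH_inf_two_injective_of (h : InfTwoInjective) :
    Function.Injective (locH K L K M 2).hom := by
  have hinj := h ℤ (M ≃ₐ[K] M) (galKer K L M) (Rep.ofAlgebraAutOnUnits K M)
    (isZero_H1_res_units K M (galKer K L M))
  have hiso : Function.Injective (infSideIso K L M 2).inv :=
    (ConcreteCategory.bijective_of_isIso (infSideIso K L M 2).inv).1
  rw [locH_inf_eq]
  intro a b hab
  apply hiso
  apply hinj
  exact hab

/-- LOC-5a, first statement, conditional on FG2.a. -/
theorem infH_two_injective_of (h : InfTwoInjective) :
    Function.Injective (helper8.infH K L M 2) :=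
  locH_inf_two_injective_of K L M h

/-- restriction after inflation vanishes (degree 2). -/
theorem locH_res_inf_two_of (hIR : InfResTwoExact)
    (y : groupCohomology.H2 (Rep.ofAlgebraAutOnUnits K L)) :
    (locH K M L M 2).hom ((locH K L K M 2).hom y) = 0 := by
  have hex := hIR ℤ (M ≃ₐ[K] M) (galKer K L M) (Rep.ofAlgebraAutOnUnits K M)
    (isZero_H1_res_units K M (galKer K L M))
  rw [locH_res_eq, locH_inf_eq]
  have h0 := (hex ((groupCohomology.map (QuotientGroup.mk' (galKer K L M))
      (ofHom <| (Rep.ofAlgebraAutOnUnits K M).ρ.quotientToInvariants_lift (galKer K L M)) 2 :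
        groupCohomology ((Rep.ofAlgebraAutOnUnits K M).quotientToInvariants (galKer K L M)) 2 ⟶
          groupCohomology (Rep.ofAlgebraAutOnUnits K M) 2)
      ((infSideIso K L M 2).inv y))).mpr ⟨_, rfl⟩
  exact (congrArg (resSideIso K L M 2).inv h0).trans (map_zero _)

/-- LOC-5a, second statement, conditional on FG2.b. -/
theorem resH_two_eq_zero_iff_of (hIR : InfResTwoExact)
    (x : groupCohomology.H2 (Rep.ofAlgebraAutOnUnits K M)) :
    helper8.resH K L M 2 x = 0 ↔
      ∃ y : groupCohomology.H2 (Rep.ofAlgebraAutOnUnits K L), helper8.infH K L M 2 y = x := by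
  constructor
  · intro hx
    exact exists_inf_of_res_eq_zero_of K L M hIR x hx
  · rintro ⟨y, rfl⟩
    exact locH_res_inf_two_of K L M hIR y

end LOC5a

end Fermat.Agent.S55.helper84
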