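import Fermat.Agent.S55.helper84_Transport

/-!
# S55 / LOC-6 (helper84): the local Tate theorem `H³(Gal(L/K), Lˣ) = 0`, conditional wiring

Inputs (as `Prop`s in the exact shapes of the FG / LOC interfaces):
* `TateStatement`     : FG6 `isZero_H3_of_fundamentalClass`,
* `CardH2Statement q` : LOC-4 `card_H2`,
* `GenH2Statement q`  : LOC-4 `exists_generator_H2`,
* `CorStatement`      : FG1.c `exists_cor`.
-/

set_option autoImplicit false

open CategoryTheory CategoryTheory.Limits groupCohomology Rep

namespace Fermat.Agent.S55.helper84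

/-- FG6 (Tate's theorem) in the shape of the FG interface. -/
def TateStatement : Prop :=
  ∀ (G : Type) [Group G] [Finite G] (C : Rep ℤ G),
    (∀ U : Subgroup G, IsZero (groupCohomology (res U.subtype C) 1)) →
    ∀ γ : groupCohomology C 2,
    (∀ U : Subgroup G, Nat.card (groupCohomology (res U.subtype C) 2) = Nat.card U) →
    (∀ U : Subgroup G, ∀ x : groupCohomology (res U.subtype C) 2,
      ∃ m : ℤ, x = m • (groupCohomology.map U.subtype (𝟙 _) 2 :
        groupCohomology C 2 ⟶ groupCohomology (res U.subtype C) 2) γ) →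
    IsZero (groupCohomology C 3)

/-- FG1.c (corestriction, strong form) in the shape of the FG interface, for `k = ℤ`. -/
def CorStatement : Prop :=
  ∀ (G : Type) [Group G] (S : Subgroup G) [S.FiniteIndex] (A : Rep ℤ G) (n : ℕ),
    ∃ c : groupCohomology (res S.subtype A) n ⟶ groupCohomology A n,
      ∀ x : groupCohomology A n,
        c ((groupCohomology.map S.subtype (𝟙 _) n :
          groupCohomology A n ⟶ groupCohomology (res S.subtype A) n) x) = S.index • x

/-- LOC-4 `card_H2` in the shape of the LOC interface. -/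
def CardH2Statement (q : ℕ) [Fact q.Prime] : Prop :=
  ∀ (K : Type) [Field K] [Algebra ℚ_[q] K] [FiniteDimensional ℚ_[q] K]
    (L : Type) [Field L] [Algebra K L] [FiniteDimensional K L] [IsGalois K L],
    Nat.card (groupCohomology.H2 (Rep.ofAlgebraAutOnUnits K L)) = Module.finrank K L

/-- LOC-4 `exists_generator_H2` in the shape of the LOC interface. -/
def GenH2Statement (q : ℕ) [Fact q.Prime] : Prop :=
  ∀ (K : Type) [Field K] [Algebra ℚ_[q] K] [FiniteDimensional ℚ_[q] K]
    (L : Type) [Field L] [Algebra K L] [FiniteDimensional K L] [IsGalois K L],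
    ∃ u : groupCohomology.H2 (Rep.ofAlgebraAutOnUnits K L),
      ∀ x : groupCohomology.H2 (Rep.ofAlgebraAutOnUnits K L), ∃ k : ℤ, x = k • u

/-! ### Pure group theory -/

/-- If `γ` generates the finite group `A` of order `m * d`, `B` has order `m`, and
`c (r x) = d • x`, then `r γ` generates `B`. -/
theorem generates_of_cor {A B : Type*} [AddCommGroup A] [AddCommGroup B]
    (r : A →+ B) (c : B →+ A) (m d : ℕ) (hm : 0 < m) (hd : 0 < d)
    (hA : Nat.card A = m * d) (hB : Nat.card B = m)
    (hc : ∀ x, c (r x) = d • x) (γ : A) (hγ : ∀ x : A, ∃ k : ℤ, x = k • γ) :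
    ∀ y : B, ∃ k : ℤ, y = k • r γ := by
  classical
  have hBfin : Finite B := Nat.finite_of_card_ne_zero (by omega)
  have hAfin : Finite A := Nat.finite_of_card_ne_zero (by rw [hA]; positivity)
  have htop : AddSubgroup.zmultiples γ = ⊤ := by
    rw [eq_top_iff]
    intro x _
    obtain ⟨k, hk⟩ := hγ x
    exact AddSubgroup.mem_zmultiples_iff.mpr ⟨k, hk.symm⟩
  have hordγ : addOrderOf γ = m * d := by
    rw [← Nat.card_zmultiples, htop, ← hA]
    exact Nat.card_congr AddSubgroup.topEquiv.toEquiv
  have hord1 : addOrderOf (c (r γ)) = m := by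
    rw [hc, addOrderOf_nsmul, hordγ, Nat.gcd_mul_left_left, Nat.mul_div_cancel _ hd]
  have hdvd1 : m ∣ addOrderOf (r γ) := hord1 ▸ addOrderOf_map_dvd c (r γ)
  have hdvd2 : addOrderOf (r γ) ∣ m := hB ▸ addOrderOf_dvd_natCard (r γ)
  have hord : addOrderOf (r γ) = m := Nat.dvd_antisymm hdvd2 hdvd1
  have htopB : AddSubgroup.zmultiples (r γ) = ⊤ := by
    apply AddSubgroup.eq_top_of_card_eq
    rw [Nat.card_zmultiples, hord, hB]
  intro y
  have hy : y ∈ AddSubgroup.zmultiples (r γ) := htopB ▸ AddSubgroup.mem_top y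
  obtain ⟨k, hk⟩ := AddSubgroup.mem_zmultiples_iff.mp hy
  exact ⟨k, hk.symm⟩

/-! ### The wiring -/

section Wiring

variable (q : ℕ) [Fact q.Prime] (K : Type) [Field K] [Algebra ℚ_[q] K]
  [FiniteDimensional ℚ_[q] K]
  (L : Type) [Field L] [Algebra K L] [FiniteDimensional K L] [IsGalois K L]

/-- `|H²(U, Lˣ)| = |U|` for every subgroup `U ≤ Gal(L/K)`, from LOC-4 for `L / L^U`. -/
theorem card_H2_res (hcard : CardH2Statement q) (U : Subgroup (L ≃ₐ[K] L)) :
    Nat.card (groupCohomology (res U.subtype (Rep.ofAlgebraAutOnUnits K L)) 2) = Nat.card U := by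
  let _ : Algebra ℚ_[q] (IntermediateField.fixedField U) :=
    ((algebraMap K (IntermediateField.fixedField U)).comp (algebraMap ℚ_[q] K)).toAlgebra
  have : IsScalarTower ℚ_[q] K (IntermediateField.fixedField U) :=
    IsScalarTower.of_algebraMap_eq (fun _ => rfl)
  have : FiniteDimensional ℚ_[q] (IntermediateField.fixedField U) :=
    FiniteDimensional.trans ℚ_[q] K _
  rw [card_res_units, ← finrank_fixedField_eq_natCard]
  exact hcard (IntermediateField.fixedField U) L

/-- LOC-6 from FG6 once one knows that the restriction of a generator generates. -/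
theorem subsingleton_H3_of_resGen (hT : TateStatement) (hcard : CardH2Statement q)
    (γ : groupCohomology (Rep.ofAlgebraAutOnUnits K L) 2)
    (hres : ∀ U : Subgroup (L ≃ₐ[K] L),
      ∀ x : groupCohomology (res U.subtype (Rep.ofAlgebraAutOnUnits K L)) 2,
      ∃ m : ℤ, x = m • (groupCohomology.map U.subtype (𝟙 _) 2 :
        groupCohomology (Rep.ofAlgebraAutOnUnits K L) 2 ⟶
          groupCohomology (res U.subtype (Rep.ofAlgebraAutOnUnits K L)) 2) γ) :
    Subsingleton (groupCohomology (Rep.ofAlgebraAutOnUnits K L) 3) := by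
  have h := hT (L ≃ₐ[K] L) (Rep.ofAlgebraAutOnUnits K L) (isZero_H1_res_units K L) γ
    (card_H2_res q K L hcard) hres
  exact ModuleCat.isZero_iff_subsingleton.mp h

/-- Route (X): restriction of a generator generates, from the corestriction. -/
theorem resGen_of_cor (hC : CorStatement) (hcard : CardH2Statement q)
    (γ : groupCohomology (Rep.ofAlgebraAutOnUnits K L) 2)
    (hγ : ∀ x : groupCohomology (Rep.ofAlgebraAutOnUnits K L) 2, ∃ k : ℤ, x = k • γ)
    (U : Subgroup (L ≃ₐ[K] L))
    (x : groupCohomology (res U.subtype (Rep.ofAlgebraAutOnUnits K L)) 2) :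
    ∃ m : ℤ, x = m • (groupCohomology.map U.subtype (𝟙 _) 2 :
        groupCohomology (Rep.ofAlgebraAutOnUnits K L) 2 ⟶
          groupCohomology (res U.subtype (Rep.ofAlgebraAutOnUnits K L)) 2) γ := by
  obtain ⟨c, hc⟩ := hC (L ≃ₐ[K] L) U (Rep.ofAlgebraAutOnUnits K L) 2
  have hA : Nat.card (groupCohomology (Rep.ofAlgebraAutOnUnits K L) 2) =
      Nat.card U * U.index := by
    rw [Subgroup.card_mul_index, IsGalois.card_aut_eq_finrank]
    exact hcard K L
  have hB := card_H2_res q K L hcard U
  exact generates_of_cor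
    (groupCohomology.map U.subtype (𝟙 _) 2 :
        groupCohomology (Rep.ofAlgebraAutOnUnits K L) 2 ⟶
          groupCohomology (res U.subtype (Rep.ofAlgebraAutOnUnits K L)) 2).hom.toAddMonoidHom
    c.hom.toAddMonoidHom (Nat.card U) U.index Nat.card_pos
    (Nat.pos_of_ne_zero Subgroup.index_ne_zero_of_finite) hA hB hc γ hγ x

/-- LOC-6 (local Tate theorem), conditional on FG6, FG1.c and LOC-4. -/
theorem subsingleton_H3_of_cor (hT : TateStatement) (hC : CorStatement)
    (hcard : CardH2Statement q) (hgen : GenH2Statement q) :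
    Subsingleton (groupCohomology (Rep.ofAlgebraAutOnUnits K L) 3) := by
  obtain ⟨γ, hγ⟩ := hgen K L
  exact subsingleton_H3_of_resGen q K L hT hcard γ (resGen_of_cor q K L hC hcard γ hγ)

end Wiring

end Fermat.Agent.S55.helper84
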