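import Fermat.Agent.S55.helper90_Rec3Int
import Fermat.Agent.S55.helper60_Rec3Tors

/-!
# S55 / REC3-ABS-DIV (helper84, task 496): `H²(J)` is `p`-divisible up to multipliers prime to `p`

* localisation `LocSys.loc₂` is additive, commutes with the differentials and preserves
  level cochains, cocycles and coboundaries;
* `div2J_of_tors`: the statement of `helper90.Interface.LocSys.Good.div2J`, with the torsion
  statement (R3-ABS-TORS, for the class `j`) as an explicit hypothesis.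
-/

set_option autoImplicit false
set_option linter.unusedSectionVars false
set_option linter.unusedVariables false

open groupCohomology

namespace Fermat.Agent.S55.helper84

open Fermat.Agent.S55 Fermat.Agent.S55.helper90

section Loc

variable {k U : Type} [CommRing k] [Group U] {𝒩 : Levels U} {ι : Type}
variable {J : Rep.{0} k U} {L : LocalData U 𝒩 ι} (Λ : LocSys J L)

/-- localisation of 1-cochains as an additive map -/
def loc₁Hom (w : ι) : (U → J) →+ (L.Gv w → Λ.Ω w) where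
  toFun := Λ.loc₁ w
  map_zero' := by
    funext s
    simp [LocSys.loc₁]
  map_add' f g := by
    funext s
    simp [LocSys.loc₁]

/-- localisation of 2-cochains as an additive map -/
def loc₂Hom (w : ι) : (U × U → J) →+ (L.Gv w × L.Gv w → Λ.Ω w) where
  toFun := Λ.loc₂ w
  map_zero' := by
    funext s
    simp [LocSys.loc₂]
  map_add' f g := by
    funext s
    simp [LocSys.loc₂]

lemma loc₂Hom_apply (w : ι) (f : U × U → J) : loc₂Hom Λ w f = Λ.loc₂ w f := rfl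

lemma loc₁Hom_apply (w : ι) (f : U → J) : loc₁Hom Λ w f = Λ.loc₁ w f := rfl

lemma loc₁_mem_C1 (w : ι) {f : U → J} (hf : f ∈ C1 𝒩 J) :
    Λ.loc₁ w f ∈ C1 (L.lev w) (Λ.Ω w) := by
  obtain ⟨N, hN, h⟩ := hf
  obtain ⟨N', hN', hle⟩ := L.compat w N hN
  refine ⟨N', hN', fun g s hs => ?_⟩
  have hs' : L.r w s ∈ N := hle hs
  simp only [LocSys.loc₁, map_mul]
  rw [h _ _ hs']

lemma loc₂_mem_C2 (w : ι) {f : U × U → J} (hf : f ∈ C2 𝒩 J) :
    Λ.loc₂ w f ∈ C2 (L.lev w) (Λ.Ω w) := by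
  obtain ⟨N, hN, h⟩ := hf
  obtain ⟨N', hN', hle⟩ := L.compat w N hN
  refine ⟨N', hN', fun g₁ g₂ s₁ hs₁ s₂ hs₂ => ?_⟩
  have hs₁' : L.r w s₁ ∈ N := hle hs₁
  have hs₂' : L.r w s₂ ∈ N := hle hs₂
  simp only [LocSys.loc₂, map_mul]
  rw [h _ _ _ hs₁' _ hs₂']

lemma d₁₂_loc₁ (w : ι) (g : U → J) :
    (d₁₂ (Λ.Ω w)).hom (Λ.loc₁ w g) = Λ.loc₂ w ((d₁₂ J).hom g) := by
  funext s
  simp only [d₁₂_hom_apply, LocSys.loc₁, LocSys.loc₂, map_sub, map_add, map_mul, Λ.lam_eq]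

lemma d₂₃_loc₂ (w : ι) (f : U × U → J) :
    (d₂₃ (Λ.Ω w)).hom (Λ.loc₂ w f) =
      fun s => Λ.lam w ((d₂₃ J).hom f (L.r w s.1, L.r w s.2.1, L.r w s.2.2)) := by
  funext s
  simp only [d₂₃_hom_apply, LocSys.loc₂, map_sub, map_add, map_mul, Λ.lam_eq]

lemma loc₂_mem_Z2 (w : ι) {f : U × U → J} (hf : f ∈ Z2 𝒩 J) :
    Λ.loc₂ w f ∈ Z2 (L.lev w) (Λ.Ω w) := by
  refine ⟨loc₂_mem_C2 Λ w hf.1, ?_⟩
  have h0 : (d₂₃ J).hom f = 0 := hf.2
  show (d₂₃ (Λ.Ω w)).hom (Λ.loc₂ w f) = 0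
  rw [d₂₃_loc₂, h0]
  funext s
  exact map_zero (Λ.lam w)

lemma loc₂_mem_B2 (w : ι) {f : U × U → J} (hf : f ∈ B2 𝒩 J) :
    Λ.loc₂ w f ∈ B2 (L.lev w) (Λ.Ω w) := by
  obtain ⟨g, hg, rfl⟩ := hf
  exact ⟨Λ.loc₁ w g, loc₁_mem_C1 Λ w hg, d₁₂_loc₁ Λ w g⟩

lemma loc₂_nsmul (w : ι) (n : ℕ) (f : U × U → J) : Λ.loc₂ w (n • f) = n • Λ.loc₂ w f :=
  map_nsmul (loc₂Hom Λ w) n f

lemma loc₂_sub (w : ι) (f g : U × U → J) : Λ.loc₂ w (f - g) = Λ.loc₂ w f - Λ.loc₂ w g :=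
  map_sub (loc₂Hom Λ w) f g

lemma loc₂_add (w : ι) (f g : U × U → J) : Λ.loc₂ w (f + g) = Λ.loc₂ w f + Λ.loc₂ w g :=
  map_add (loc₂Hom Λ w) f g

lemma loc₂_sum (w : ι) {α : Type*} (s : Finset α) (f : α → U × U → J) :
    Λ.loc₂ w (∑ a ∈ s, f a) = ∑ a ∈ s, Λ.loc₂ w (f a) :=
  map_sum (loc₂Hom Λ w) f s

end Loc

section Div

variable {k U : Type} [CommRing k] [Group U] {𝒩 : Levels U} {ι : Type} [Fintype ι]
variable {E J C : Rep.{0} k U} {X : ESeq E J C} {L : LocalData U 𝒩 ι}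
variable {p : ℕ} [Fact p.Prime]

/-- **R3-ABS-DIV** with the torsion statement for `j` as a hypothesis. -/
theorem div2J_of_tors (Λ : LocSys J L) (K : KummerDatum E p) (hΛ : Λ.Good X p K)
    (j : U × U → J) (hj : j ∈ Z2 𝒩 J) (htors : ∃ n : ℕ, 0 < n ∧ n • j ∈ B2 𝒩 J) :
    ∃ m : ℕ, ¬ p ∣ m ∧ ∃ j' ∈ Z2 𝒩 J, m • j - p • j' ∈ B2 𝒩 J := by
  classical
  have hp : p.Prime := Fact.out
  obtain ⟨n0, hn0, hB⟩ := htors
  obtain ⟨n, m, hm, rfl⟩ := Nat.exists_eq_pow_mul_and_not_dvd hn0.ne' p hp.ne_one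
  -- the local classes
  have hcZ : ∀ w, Λ.loc₂ w (m • j) ∈ Z2 (L.lev w) (Λ.Ω w) := fun w =>
    loc₂_mem_Z2 Λ w (nsmul_mem hj m)
  have hcB : ∀ w, p ^ n • Λ.loc₂ w (m • j) ∈ B2 (L.lev w) (Λ.Ω w) := by
    intro w
    rw [← loc₂_nsmul, ← mul_smul]
    exact loc₂_mem_B2 Λ w hB
  choose c' hc'Z hc'B using fun w => hΛ.div2 w _ (hcZ w) n (hcB w)
  have hc'T : ∀ w, p ^ (n + 1) • c' w ∈ B2 (L.lev w) (Λ.Ω w) := by
    intro w
    have h1 : p ^ n • (p • c' w - Λ.loc₂ w (m • j)) ∈ B2 (L.lev w) (Λ.Ω w) :=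
      nsmul_mem (hc'B w) _
    have h2 := add_mem h1 (hcB w)
    have h3 : p ^ n • (p • c' w - Λ.loc₂ w (m • j)) + p ^ n • Λ.loc₂ w (m • j) =
        p ^ (n + 1) • c' w := by
      rw [smul_sub, sub_add_cancel, ← mul_smul, pow_succ]
    rwa [h3] at h2
  choose jw hjwZ hjw1 hjw2 using fun w => hΛ.surj w (c' w) (hc'Z w) (n + 1) (hc'T w)
  have hsumZ : (∑ w, jw w) ∈ Z2 𝒩 J := Submodule.sum_mem _ fun w _ => hjwZ w
  -- local triviality of `p • ∑ jw - m • j`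
  have hloc : ∀ w, Λ.loc₂ w (p • (∑ w', jw w') - m • j) ∈ B2 (L.lev w) (Λ.Ω w) := by
    intro w
    have h1 : (∑ w', Λ.loc₂ w (jw w')) - c' w ∈ B2 (L.lev w) (Λ.Ω w) := by
      rw [← Finset.add_sum_erase Finset.univ _ (Finset.mem_univ w), add_sub_right_comm]
      refine add_mem (hjw1 w) (Submodule.sum_mem _ fun w' hw' => ?_)
      exact hjw2 w' w (Finset.ne_of_mem_erase hw').symm
    have h2 : p • ((∑ w', Λ.loc₂ w (jw w')) - c' w) ∈ B2 (L.lev w) (Λ.Ω w) := nsmul_mem h1 p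
    have h3 := add_mem h2 (hc'B w)
    have h4 : p • ((∑ w', Λ.loc₂ w (jw w')) - c' w) + (p • c' w - Λ.loc₂ w (m • j)) =
        Λ.loc₂ w (p • (∑ w', jw w') - m • j) := by
      rw [loc₂_sub, loc₂_nsmul Λ w p, loc₂_sum, smul_sub]
      abel
    rwa [h4] at h3
  obtain ⟨m', hm', hB'⟩ := hΛ.inj (p • (∑ w', jw w') - m • j)
    (sub_mem (nsmul_mem hsumZ p) (nsmul_mem hj m)) hloc
  refine ⟨m' * m, ?_, m' • ∑ w', jw w', nsmul_mem hsumZ m', ?_⟩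
  · exact fun h => (hp.dvd_mul.1 h).elim hm' hm
  · have h5 : (m' * m) • j - p • m' • ∑ w', jw w' = -(m' • (p • (∑ w', jw w') - m • j)) := by
      rw [smul_sub, neg_sub, mul_smul, smul_comm p m']
    rw [h5]
    exact neg_mem hB'

/-- **R3-ABS-DIV** (`helper90.Interface.LocSys.Good.div2J` VERBATIM): `H²(J)` is `p`-divisible
up to multipliers prime to `p`. -/
theorem div2J (hfin : FinLevels 𝒩) (hdJ : IsDisc 𝒩 J)
    (Λ : LocSys J L) (K : KummerDatum E p) (hΛ : Λ.Good X p K)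
    (j : U × U → J) (hj : j ∈ Z2 𝒩 J) :
    ∃ m : ℕ, ¬ p ∣ m ∧ ∃ j' ∈ Z2 𝒩 J, m • j - p • j' ∈ B2 𝒩 J :=
  div2J_of_tors Λ K hΛ j hj (Fermat.Agent.S55.helper60.exists_nsmul_mem_B2 hfin J hdJ j hj)

end Div

end Fermat.Agent.S55.helper84
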