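import Fermat.Agent.S55.helper17_RecSLRing

/-!
# S55 / REC3 LOC-INJ, part 0 (helper84): conjugation invariance of the local hypothesis

`injConj_smul` : conjugation acts trivially on `H²`, with the explicit homotopy
`s_g(k) = c(g, g⁻¹kg) / c(k, g)`;  `InjHLoc c n` : the local hypothesis of the semilocal Shapiro
lemma `helper17.isMulCoboundary₂_of_forall_maximal` at a maximal ideal `n`;
`injHLoc_smul` : `InjHLoc c n → InjHLoc c (g • n)`.
-/

set_option autoImplicit false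

open groupCohomology

namespace Fermat.Agent.S55.helper84

section ConjAbs

variable {G M : Type*} [Group G] [CommGroup M] [MulDistribMulAction G M]

/-- the conjugation homotopy `s_g(k) = c(g, g⁻¹kg) / c(k, g)` -/
def injConjS (c : G × G → M) (g k : G) : M := c (g, g⁻¹ * k * g) / c (k, g)

/-- conjugation acts trivially on `H²`, explicitly -/
theorem injConj_smul {c : G × G → M} (hc : IsMulCocycle₂ c) (g k k' : G) :
    g • c (g⁻¹ * k * g, g⁻¹ * k' * g) =
      c (k, k') * (k • injConjS c g k' / injConjS c g (k * k') * injConjS c g k) := by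
  have e1 : g * (g⁻¹ * k * g) = k * g := by group
  have e2 : g * (g⁻¹ * k' * g) = k' * g := by group
  have e3 : g⁻¹ * k * g * (g⁻¹ * k' * g) = g⁻¹ * (k * k') * g := by group
  have h1 := hc g (g⁻¹ * k * g) (g⁻¹ * k' * g)
  have h2 := hc k g (g⁻¹ * k' * g)
  have h3 := hc k k' g
  rw [e1, e3] at h1
  rw [e2] at h2
  simp only [injConjS, smul_div']
  -- solve in the commutative group
  have h1' : g • c (g⁻¹ * k * g, g⁻¹ * k' * g) =
      c (k * g, g⁻¹ * k' * g) * c (g, g⁻¹ * k * g) / c (g, g⁻¹ * (k * k') * g) :=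
    eq_div_of_mul_eq' h1.symm
  have h2' : c (k * g, g⁻¹ * k' * g) =
      k • c (g, g⁻¹ * k' * g) * c (k, k' * g) / c (k, g) :=
    eq_div_of_mul_eq' h2
  have h3' : c (k, k' * g) = c (k * k', g) * c (k, k') / k • c (k', g) :=
    eq_div_of_mul_eq' (by rw [mul_comm]; exact h3.symm)
  rw [h1', h2', h3']
  simp only [div_eq_mul_inv, mul_inv_rev, inv_inv]
  ac_rfl

end ConjAbs

end Fermat.Agent.S55.helper84

namespace Fermat.Agent.S55.helper84

open Fermat.Agent.S55.helper97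

section ConjRing

variable {B : Type*} [CommRing B] {G : Type*} [Group G] [MulSemiringAction G B]
  [MulDistribMulAction G Bˣ]

lemma injDiv_aux {M : Type*} [CommGroup M] (a b c s₁ s₂ s₃ : M) :
    a / s₁ / (b / s₂) * (c / s₃) = a / b * c / (s₁ / s₂ * s₃) := by
  simp only [div_eq_mul_inv, mul_inv_rev, inv_inv, mul_comm, mul_left_comm, mul_assoc]

/-- the local hypothesis of the semilocal Shapiro lemma at the maximal ideal `n` -/
def InjHLoc (c : G × G → Bˣ) (n : MaximalSpectrum B) : Prop :=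
  ∃ z : G → Bˣ, ∀ h h' : G, h • n = n → h' • n = n →
    ((c (h, h') : Bˣ) : B) - ((h • z h' / z (h * h') * z h : Bˣ) : B) ∈ n.asIdeal

omit [Group G] [MulSemiringAction G B] [MulDistribMulAction G Bˣ] in
lemma injUnits_sub_div (a Z D : Bˣ) :
    (a : B) - ((Z / D : Bˣ) : B) = (((a * D : Bˣ) : B) - (Z : B)) * ((D⁻¹ : Bˣ) : B) := by
  rw [div_eq_mul_inv, Units.val_mul, Units.val_mul, sub_mul, mul_assoc, Units.mul_inv, mul_one]

/-- the local hypothesis is invariant under translation of the maximal ideal -/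
theorem injHLoc_smul (hc : ∀ (σ : G) (x : Bˣ), ((σ • x : Bˣ) : B) = σ • (x : B))
    {c : G × G → Bˣ} (hcoc : IsMulCocycle₂ c) (g : G) {n : MaximalSpectrum B}
    (h : InjHLoc c n) : InjHLoc c (g • n) := by
  obtain ⟨z₀, hz₀⟩ := h
  refine ⟨fun k => g • z₀ (g⁻¹ * k * g) / injConjS c g k, ?_⟩
  intro k k' hk hk'
  have hh : (g⁻¹ * k * g) • n = n := by
    rw [mul_smul, mul_smul, hk, inv_smul_smul]
  have hh' : (g⁻¹ * k' * g) • n = n := by
    rw [mul_smul, mul_smul, hk', inv_smul_smul]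
  have key := hz₀ (g⁻¹ * k * g) (g⁻¹ * k' * g) hh hh'
  have key2 : g • ((c (g⁻¹ * k * g, g⁻¹ * k' * g) : Bˣ) : B) -
      g • (((g⁻¹ * k * g) • z₀ (g⁻¹ * k' * g) / z₀ (g⁻¹ * k * g * (g⁻¹ * k' * g)) *
        z₀ (g⁻¹ * k * g) : Bˣ) : B) ∈ (g • n).asIdeal := by
    apply smul_sub_mem
    rw [inv_smul_smul]
    exact key
  rw [← hc, ← hc, injConj_smul hcoc] at key2
  set D : Bˣ := k • injConjS c g k' / injConjS c g (k * k') * injConjS c g k with hD
  have e1 : g • ((g⁻¹ * k * g) • z₀ (g⁻¹ * k' * g) / z₀ (g⁻¹ * k * g * (g⁻¹ * k' * g)) *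
      z₀ (g⁻¹ * k * g)) =
      (k • (g • z₀ (g⁻¹ * k' * g)) / (g • z₀ (g⁻¹ * (k * k') * g)) * (g • z₀ (g⁻¹ * k * g))) := by
    have a1 : g⁻¹ * k * g * (g⁻¹ * k' * g) = g⁻¹ * (k * k') * g := by group
    have a2 : g * (g⁻¹ * k * g) = k * g := by group
    rw [smul_mul', smul_div', a1, ← mul_smul, a2, mul_smul]
  rw [e1] at key2
  set Z₁ : Bˣ := k • (g • z₀ (g⁻¹ * k' * g)) / (g • z₀ (g⁻¹ * (k * k') * g)) *
    (g • z₀ (g⁻¹ * k * g)) with hZ₁
  have e2 : k • (g • z₀ (g⁻¹ * k' * g) / injConjS c g k') /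
      (g • z₀ (g⁻¹ * (k * k') * g) / injConjS c g (k * k')) *
      (g • z₀ (g⁻¹ * k * g) / injConjS c g k) = Z₁ / D := by
    rw [hZ₁, hD, smul_div']
    exact injDiv_aux _ _ _ _ _ _
  change ((c (k, k') : Bˣ) : B) - ((k • (g • z₀ (g⁻¹ * k' * g) / injConjS c g k') /
      (g • z₀ (g⁻¹ * (k * k') * g) / injConjS c g (k * k')) *
      (g • z₀ (g⁻¹ * k * g) / injConjS c g k) : Bˣ) : B) ∈ (g • n).asIdeal
  rw [e2]
  rw [injUnits_sub_div]
  exact Ideal.mul_mem_right _ _ key2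

end ConjRing

end Fermat.Agent.S55.helper84
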