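import Fermat.Agent.S55.helper13_Rec3SurjCrt
import Fermat.Agent.S55.helper69_Rec3Dic
import Fermat.Agent.S55.helper74_Krasner
import Fermat.Agent.S55.helper17_RecSL

/-!
# S55 / REC3 LOC-INJ, parts 1-3 (helper84): maximal ideals of `ℚ_q ⊗ E` and evaluations

* `injEv q E γ : ℚ_q ⊗ E → PadicAlgCl q`, `a ⊗ y ↦ a · ι (γ⁻¹ y)`;
* `exists_injEv_ker_eq` : every maximal ideal of `ℚ_q ⊗ E` is the kernel of some `injEv q E γ`;
* `injEv_ker_eq_smul` : `ker (injEv (u · g_w · ι t)) = u|_E • ker (injEv g_w)`;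
* `exists_r_of_stab` : the stabiliser of `ker (injEv g_w)` in `Gal(E/F)` is the image of the
  local group `L.Gv w`.
-/

set_option autoImplicit false
set_option linter.style.haveILetI false
set_option linter.unusedSectionVars false

open groupCohomology ExtCitation
open scoped TensorProduct

noncomputable section

namespace Fermat.Agent.S55.helper84

open Fermat.Agent.S55 Fermat.Agent.S55.helper59 Fermat.Agent.S55.helper73
  Fermat.Agent.S55.helper69 Fermat.Agent.S55.helper90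

local notation "Qbar" => AlgebraicClosure ℚ

attribute [local instance] helper69.isAlgebraic_Qbar helper69.isAlgClosure_Qbar
  helper69.normal_Qbar

section Ev

variable (q : ℕ) [Fact q.Prime] {F : IntermediateField ℚ Qbar} (E : IntermediateField ↥F Qbar)

/-- the evaluation `ℚ_q ⊗ E → PadicAlgCl q`, `a ⊗ y ↦ a · ι (γ⁻¹ y)` -/
def injEv (γ : Qbar ≃ₐ[ℚ] Qbar) : SemiLoc q ↥E →ₐ[ℚ_[q]] PadicAlgCl q :=
  (evAt q γ).comp (helper73.bc ↥E Qbar q)

lemma injEv_apply (γ : Qbar ≃ₐ[ℚ] Qbar) (z : SemiLoc q ↥E) :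
    injEv q E γ z = evAt q γ (helper73.bc ↥E Qbar q z) := rfl

lemma injEv_tmul (γ : Qbar ≃ₐ[ℚ] Qbar) (a : ℚ_[q]) (y : ↥E) :
    injEv q E γ (a ⊗ₜ[ℚ] y) = algebraMap ℚ_[q] (PadicAlgCl q) a *
      padicEmbedding q ((γ⁻¹ : Qbar ≃ₐ[ℚ] Qbar) (y : Qbar)) := by
  rw [injEv_apply, helper73.bc_tmul, evAt_tmul]
  rfl

lemma injEv_eq_crtEv (γ : Qbar ≃ₐ[ℚ] Qbar) :
    injEv q E γ = helper13.crtEv q (E.restrictScalars ℚ) γ := rfl

/-- translation of the evaluation point on the right by a local automorphism -/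
lemma injEv_mul_right (γ : Qbar ≃ₐ[ℚ] Qbar) (t : PadicAlgCl q ≃ₐ[ℚ_[q]] PadicAlgCl q)
    (z : SemiLoc q ↥E) :
    injEv q E (γ * localGaloisToGlobal q t) z = t⁻¹ (injEv q E γ z) := by
  induction z using TensorProduct.induction_on with
  | zero => simp
  | tmul a y =>
    rw [injEv_tmul, injEv_tmul, map_mul, AlgEquiv.commutes]
    congr 1
    rw [mul_inv_rev, AlgEquiv.mul_apply, ← map_inv, padicEmbedding_localGaloisToGlobal]
  | add x y hx hy => rw [map_add, map_add, map_add, hx, hy]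

variable [Normal ↥F ↥E]

/-- translation of the evaluation point on the left by an element of `Gal(ℚbar/F)` -/
lemma injEv_mul_left (u : UF F) (γ : Qbar ≃ₐ[ℚ] Qbar) (z : SemiLoc q ↥E) :
    injEv q E ((u : Qbar ≃ₐ[ℚ] Qbar) * γ) z = injEv q E γ ((resFix F E u)⁻¹ • z) := by
  induction z using TensorProduct.induction_on with
  | zero => simp
  | tmul a y =>
    rw [helper73.smul_tmul', injEv_tmul, injEv_tmul]
    congr 2
    rw [mul_inv_rev, AlgEquiv.mul_apply]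
    congr 1
    rw [← map_inv, resFix_apply_coe]
    rfl
  | add x y hx hy => rw [map_add, smul_add, map_add, hx, hy]

end Ev

section MaxIdeal

variable (q : ℕ) [Fact q.Prime] {F : IntermediateField ℚ Qbar} (E : IntermediateField ↥F Qbar)
  [FiniteDimensional ℚ ↥E]

/-- **every maximal ideal of `ℚ_q ⊗ E` is the kernel of an evaluation** -/
theorem exists_injEv_ker_eq (n : Ideal (SemiLoc q ↥E)) (hn : n.IsMaximal) :
    ∃ γ : Qbar ≃ₐ[ℚ] Qbar, RingHom.ker (injEv q E γ) = n := by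
  letI : Field (SemiLoc q ↥E ⧸ n) := Ideal.Quotient.field n
  haveI : Module.Finite ℚ_[q] (SemiLoc q ↥E ⧸ n) :=
    Module.Finite.of_surjective (Ideal.Quotient.mkₐ ℚ_[q] n).toLinearMap
      (Ideal.Quotient.mkₐ_surjective ℚ_[q] n)
  haveI : Algebra.IsAlgebraic ℚ_[q] (SemiLoc q ↥E ⧸ n) := Algebra.IsAlgebraic.of_finite _ _
  let ψ : (SemiLoc q ↥E ⧸ n) →ₐ[ℚ_[q]] PadicAlgCl q := IsAlgClosed.lift
  let φ : SemiLoc q ↥E →ₐ[ℚ_[q]] PadicAlgCl q := ψ.comp (Ideal.Quotient.mkₐ ℚ_[q] n)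
  have hφker : RingHom.ker φ = n := by
    ext z
    rw [RingHom.mem_ker]
    change ψ (Ideal.Quotient.mk n z) = 0 ↔ _
    rw [map_eq_zero_iff ψ ψ.toRingHom.injective, Ideal.Quotient.eq_zero_iff_mem]
  -- the embedding of `E` induced by `φ`
  let g₀ : ↥E →ₐ[ℚ] PadicAlgCl q :=
    (φ.toRingHom.comp
      (Algebra.TensorProduct.includeRight : ↥E →ₐ[ℚ] SemiLoc q ↥E).toRingHom).toRatAlgHom
  have hg₀ : ∀ y : ↥E, g₀ y = φ ((1 : ℚ_[q]) ⊗ₜ[ℚ] y) := fun _ => rfl
  obtain ⟨α, hα⟩ := Field.exists_primitive_element ℚ ↥E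
  have hαint : IsIntegral ℚ α := Algebra.IsIntegral.isIntegral α
  have h0 : Polynomial.aeval (g₀ α) (minpoly ℚ α) = 0 := by
    rw [Polynomial.aeval_algHom_apply, minpoly.aeval, map_zero]
  obtain ⟨β, hβ⟩ := helper74.exists_padicEmbedding_eq_of_aeval_eq_zero q
    (minpoly.ne_zero hαint) h0
  have hβ0 : Polynomial.aeval β (minpoly ℚ (α : Qbar)) = 0 := by
    apply (padicEmbedding q).toRingHom.injective
    rw [map_zero]
    change padicEmbedding q (Polynomial.aeval β (minpoly ℚ (α : Qbar))) = 0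
    have hmp : minpoly ℚ (α : Qbar) = minpoly ℚ α :=
      minpoly.algebraMap_eq (algebraMap ↥E Qbar).injective α
    rw [← Polynomial.aeval_algHom_apply, hβ, hmp]
    exact h0
  have hαalg : IsAlgebraic ℚ (α : Qbar) := Algebra.IsAlgebraic.isAlgebraic _
  have hmin := minpoly.eq_of_root hαalg hβ0
  obtain ⟨γ', hγ'⟩ := (Normal.minpoly_eq_iff_mem_orbit Qbar).1 hmin
  have hγ'' : γ' (α : Qbar) = β := hγ'
  have hadj : Algebra.adjoin ℚ {α} = ⊤ := by
    have h3 := congrArg IntermediateField.toSubalgebra hα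
    rw [IntermediateField.adjoin_simple_toSubalgebra_of_isAlgebraic
      (Algebra.IsAlgebraic.isAlgebraic α), IntermediateField.top_toSubalgebra] at h3
    exact h3
  have hf : g₀ = ((padicEmbedding q).toRingHom.comp
      ((γ' : Qbar ≃ₐ[ℚ] Qbar).toAlgHom.toRingHom.comp (algebraMap ↥E Qbar))).toRatAlgHom := by
    refine AlgHom.ext_of_adjoin_eq_top hadj ?_
    intro x hx
    rw [Set.mem_singleton_iff] at hx
    subst hx
    change g₀ x = padicEmbedding q (γ' (x : Qbar))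
    rw [hγ'', hβ]
  have hfin : injEv q E γ'⁻¹ = φ := by
    apply AlgHom.ext
    intro z
    induction z using TensorProduct.induction_on with
    | zero => simp
    | tmul a y =>
      have e1 : (a ⊗ₜ[ℚ] y : SemiLoc q ↥E) = a • ((1 : ℚ_[q]) ⊗ₜ[ℚ] y) := by
        rw [TensorProduct.smul_tmul', smul_eq_mul, mul_one]
      rw [injEv_tmul, inv_inv, e1, map_smul, ← hg₀, hf, Algebra.smul_def]
      rfl
    | add x y hx hy => rw [map_add, map_add, hx, hy]
  exact ⟨γ'⁻¹, by rw [hfin, hφker]⟩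

end MaxIdeal

section Arith

variable {S : Finset Nat.Primes} {F : IntermediateField ℚ Qbar}
  {𝒩 : Levels (UF F)} {ι : Type} {L : LocalData (UF F) 𝒩 ι} (hL : IsArith S F L)
  (E : IntermediateField ↥F Qbar) [Normal ↥F ↥E]

open scoped Pointwise in
/-- the kernel of the evaluation at `u · g_w · ι(t)` is the translate by `u|_E` of the kernel of
the evaluation at `g_w` -/
theorem injEv_ker_eq_smul (w : ι) (u : UF F)
    (t : PadicAlgCl (hL.q w : ℕ) ≃ₐ[ℚ_[(hL.q w : ℕ)]] PadicAlgCl (hL.q w : ℕ)) :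
    RingHom.ker (injEv (hL.q w : ℕ) E
      ((u : Qbar ≃ₐ[ℚ] Qbar) * hL.g w * localGaloisToGlobal (hL.q w : ℕ) t)) =
      (resFix F E u) • RingHom.ker (injEv (hL.q w : ℕ) E (hL.g w)) := by
  ext z
  rw [Ideal.mem_pointwise_smul_iff_inv_smul_mem, RingHom.mem_ker, RingHom.mem_ker,
    injEv_mul_right, injEv_mul_left, map_eq_zero_iff _ (t⁻¹).injective]

variable [FiniteDimensional ℚ ↥E]

/-- **the stabiliser of the kernel at `w` is the image of the local group** -/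
theorem exists_r_of_stab (w : ι) (h : ↥E ≃ₐ[↥F] ↥E)
    (hh : ∀ z : SemiLoc (hL.q w : ℕ) ↥E,
      injEv (hL.q w : ℕ) E (hL.g w) (h • z) = 0 ↔ injEv (hL.q w : ℕ) E (hL.g w) z = 0) :
    ∃ s : L.Gv w, resFix F E (L.r w s) = h := by
  obtain ⟨u, hu⟩ := resFix_surjective F E h⁻¹
  haveI : FiniteDimensional ℚ ↥(E.restrictScalars ℚ) := ‹FiniteDimensional ℚ ↥E›
  have hker : RingHom.ker (helper13.crtEv (hL.q w : ℕ) (E.restrictScalars ℚ)
        ((u : Qbar ≃ₐ[ℚ] Qbar) * hL.g w)) =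
      RingHom.ker (helper13.crtEv (hL.q w : ℕ) (E.restrictScalars ℚ) (hL.g w)) := by
    ext z
    rw [RingHom.mem_ker, RingHom.mem_ker]
    change injEv (hL.q w : ℕ) E ((u : Qbar ≃ₐ[ℚ] Qbar) * hL.g w) z = 0 ↔
      injEv (hL.q w : ℕ) E (hL.g w) z = 0
    rw [injEv_mul_left, hu, inv_inv]
    exact hh z
  obtain ⟨t, ht⟩ := helper13.exists_conj_of_ker_eq (hL.q w : ℕ) (E.restrictScalars ℚ)
    (hL.g w) ((u : Qbar ≃ₐ[ℚ] Qbar) * hL.g w) hker
  -- `v = u g ι(t) g⁻¹` fixes `E`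
  set v : Qbar ≃ₐ[ℚ] Qbar :=
    (u : Qbar ≃ₐ[ℚ] Qbar) * hL.g w * localGaloisToGlobal (hL.q w : ℕ) t * (hL.g w)⁻¹ with hv
  have hvE : ∀ x ∈ E, v x = x := fun x hx =>
    (IntermediateField.mem_fixingSubgroup_iff _ _).1 ht x hx
  have hvF : v ∈ F.fixingSubgroup := by
    rw [IntermediateField.mem_fixingSubgroup_iff]
    intro x hx
    exact hvE x (algebraMap ↥F ↥E ⟨x, hx⟩).2
  have hconj : hL.g w * localGaloisToGlobal (hL.q w : ℕ) t * (hL.g w)⁻¹ =
      (u : Qbar ≃ₐ[ℚ] Qbar)⁻¹ * v := by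
    rw [hv]; group
  have hmem : hL.g w * localGaloisToGlobal (hL.q w : ℕ) t * (hL.g w)⁻¹ ∈ F.fixingSubgroup := by
    rw [hconj]
    exact mul_mem (inv_mem u.2) hvF
  obtain ⟨s, hs⟩ := (hL.mem_range_jq_iff w t).2 hmem
  refine ⟨s, ?_⟩
  have hr : L.r w s = u⁻¹ * (⟨v, hvF⟩ : UF F) := by
    apply Subtype.ext
    have h1 := hL.r_eq w s
    rw [h1]
    change hL.g w * localGaloisToGlobal (hL.q w : ℕ) (hL.jq w s) * (hL.g w)⁻¹ = _
    rw [hs, hconj]
    rfl
  have hv1 : resFix F E (⟨v, hvF⟩ : UF F) = 1 := by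
    rw [← MonoidHom.mem_ker, mem_ker_resFix_iff]
    exact hvE
  rw [hr, map_mul, map_inv, hu, hv1, mul_one, inv_inv]

end Arith

end Fermat.Agent.S55.helper84
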