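import Fermat.Agent.S55.helper84_Rec3InjConj
import Fermat.Agent.S55.helper84_Rec3InjKer
import Fermat.Agent.S55.helper33_Rec3LocFinReal
import Fermat.Agent.S55.helper72_BArRecMixC
import Fermat.Agent.S55.helper84_InfResFinal
import Fermat.Agent.S55.helper84_Rec3Div
import Fermat.Agent.S55.helper13_MulClass
import Fermat.Agent.S55.helper71_RecDec
import Fermat.Agent.S55.helper30_Rec3LocFinDisc

/-!
# S55 / REC3 LOC-INJ, part 4 (helper84): local triviality at the finite level

For a finite-level cochain `c` with values in the `S`-ideles of `E` and an index `w`: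
* `injLocMul hF hL E w c` : the local cochain on `Gal(mixField hL E w / K_w)` with values in the
  units of `mixField hL E w`;
* `loc₂_infl₂_eq` : the localisation at `w` of the inflation of `c` is the inflation of the local
  cochain (for `helper33.locFinReal`);
* `injLocMul_isMulCoboundary₂` : if the localisation at `w` is a level coboundary, then the local
  cochain is a coboundary at the level `mixField hL E w` (inflation is injective on `H²`).
-/

set_option autoImplicit false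
set_option linter.style.haveILetI false
set_option linter.unusedSectionVars false

open groupCohomology ExtCitation
open scoped TensorProduct

noncomputable section

namespace Fermat.Agent.S55.helper84

open Fermat.Agent.S55 Fermat.Agent.S55.helper59 Fermat.Agent.S55.helper73
  Fermat.Agent.S55.helper69 Fermat.Agent.S55.helper90 Fermat.Agent.S55.helper46
  Fermat.Agent.S55.helper11 Fermat.Agent.S55.helper72

local notation "Qbar" => AlgebraicClosure ℚ

lemma injNumberField (F : IntermediateField ℚ Qbar) [FiniteDimensional ℚ F] : NumberField ↥F :=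
  { to_charZero := inferInstance, to_finiteDimensional := inferInstance }

attribute [local instance] injNumberField

section Local

variable {S : Finset Nat.Primes} {F : IntermediateField ℚ Qbar} [FiniteDimensional ℚ F]
  (hF : F.IsUnramifiedOutside S)
  {ι : Type} [Fintype ι] {L : LocalData (UF F) (sLevelsStr S F hF) ι} (hL : IsArith S F L)
  (E : IntermediateField ↥F Qbar) [FiniteDimensional ↥F ↥E] [IsGalois ↥F ↥E]
  (w : ι)

lemma injEv_mem_mixField (z : SemiLoc (hL.q w : ℕ) ↥E) :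
    injEv (hL.q w : ℕ) E (hL.g w) z ∈ mixField hL E w := by
  induction z using TensorProduct.induction_on with
  | zero => rw [map_zero]; exact zero_mem _
  | tmul a y =>
    rw [injEv_tmul]
    refine mul_mem ?_ (mixGen_emb_mem _ _ (mixEmbE hL E w) y)
    rw [IsScalarTower.algebraMap_apply ℚ_[(hL.q w : ℕ)] ↥(hL.Kw w) (PadicAlgCl (hL.q w : ℕ))]
    exact IntermediateField.algebraMap_mem _ _
  | add x y hx hy => rw [map_add]; exact add_mem hx hy

/-- the evaluation at `g_w` with values in `mixField hL E w` -/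
def injEvL : SemiLoc (hL.q w : ℕ) ↥E →+* ↥(mixField hL E w) :=
  (injEv (hL.q w : ℕ) E (hL.g w)).toRingHom.codRestrict (mixField hL E w)
    (injEv_mem_mixField hF hL E w)

lemma coe_injEvL (z : SemiLoc (hL.q w : ℕ) ↥E) :
    ((injEvL hF hL E w z : ↥(mixField hL E w)) : PadicAlgCl (hL.q w : ℕ)) =
      injEv (hL.q w : ℕ) E (hL.g w) z := rfl

/-- the evaluation on units -/
def injEvU : (SemiLoc (hL.q w : ℕ) ↥E)ˣ →* (↥(mixField hL E w))ˣ :=
  Units.map (injEvL hF hL E w : SemiLoc (hL.q w : ℕ) ↥E →* ↥(mixField hL E w))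

/-- the decomposition map `Gal(mixField / K_w) → Gal(E/F)` -/
def injTheta : (↥(mixField hL E w) ≃ₐ[↥(hL.Kw w)] ↥(mixField hL E w)) →* (↥E ≃ₐ[↥F] ↥E) :=
  locHom ↥F ↥E (mixDatum hL E w).Kv (mixDatum hL E w).Lw

lemma injTheta_injective : Function.Injective (injTheta hF hL E w) :=
  helper71.locHom_injective (hL.q w : ℕ) ↥F ↥E (mixDatum hL E w)

lemma injTheta_locRes (s : L.Gv w) :
    injTheta hF hL E w (hL.locRes w (mixField hL E w) s) = resFix F E (L.r w s) :=
  mix_locHom_locRes hL E w s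

/-- the embedding `E → mixField`, `y ↦ ι (g_w⁻¹ y)` -/
def injEmb : ↥E →+* ↥(mixField hL E w) :=
  mixGenHom ↥(hL.Kw w) (PadicAlgCl (hL.q w : ℕ)) (mixEmbE hL E w)

lemma coe_injEmb (y : ↥E) :
    ((injEmb hF hL E w y : ↥(mixField hL E w)) : PadicAlgCl (hL.q w : ℕ)) =
      padicEmbedding (hL.q w : ℕ) (((hL.g w)⁻¹ : GQ) (y : Qbar)) := rfl

lemma injEmb_theta (σ : ↥(mixField hL E w) ≃ₐ[↥(hL.Kw w)] ↥(mixField hL E w)) (y : ↥E) :
    injEmb hF hL E w (injTheta hF hL E w σ y) = σ (injEmb hF hL E w y) :=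
  algebraMap_locHom ↥F ↥E (mixDatum hL E w).Kv (mixDatum hL E w).Lw
    (show (mixDatum hL E w).Lw ≃ₐ[(mixDatum hL E w).Kv] (mixDatum hL E w).Lw from σ) y

lemma injEvL_tmul (a : ℚ_[(hL.q w : ℕ)]) (y : ↥E) :
    injEvL hF hL E w (a ⊗ₜ[ℚ] y) = algebraMap ℚ_[(hL.q w : ℕ)] ↥(mixField hL E w) a *
      injEmb hF hL E w y := by
  apply Subtype.ext
  rw [coe_injEvL, injEv_tmul]
  rfl

/-- equivariance of the evaluation along the decomposition map -/
lemma injEvL_smul (σ : ↥(mixField hL E w) ≃ₐ[↥(hL.Kw w)] ↥(mixField hL E w))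
    (z : SemiLoc (hL.q w : ℕ) ↥E) :
    injEvL hF hL E w (injTheta hF hL E w σ • z) = σ (injEvL hF hL E w z) := by
  induction z using TensorProduct.induction_on with
  | zero => simp
  | tmul a y =>
    rw [helper73.smul_tmul', injEvL_tmul hF hL E w, injEvL_tmul hF hL E w, map_mul,
      injEmb_theta hF hL E w]
    congr 1
    rw [IsScalarTower.algebraMap_apply ℚ_[(hL.q w : ℕ)] ↥(hL.Kw w) ↥(mixField hL E w),
      AlgEquiv.commutes]
  | add x y hx hy => rw [smul_add, map_add, map_add, map_add, hx, hy]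

lemma injEvU_smul (σ : ↥(mixField hL E w) ≃ₐ[↥(hL.Kw w)] ↥(mixField hL E w))
    (x : (SemiLoc (hL.q w : ℕ) ↥E)ˣ) :
    injEvU hF hL E w (injTheta hF hL E w σ • x) = σ • injEvU hF hL E w x :=
  Units.ext (injEvL_smul hF hL E w σ (x : SemiLoc (hL.q w : ℕ) ↥E))

end Local

section Cochain

variable {S : Finset Nat.Primes} {F : IntermediateField ℚ Qbar} [FiniteDimensional ℚ F]
  (hF : F.IsUnramifiedOutside S)
  {ι : Type} [Fintype ι] {L : LocalData (UF F) (sLevelsStr S F hF) ι} (hL : IsArith S F L)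
  (E : IntermediateField ↥F Qbar) [FiniteDimensional ↥F ↥E] [IsGalois ↥F ↥E]
  (hE : (E.restrictScalars ℚ).IsUnramifiedOutside S)

/-- the `q`-component of a cochain with values in the `S`-ideles of `E` -/
def injComp (q : Nat.Primes)
    (c : (↥E ≃ₐ[↥F] ↥E) × (↥E ≃ₐ[↥F] ↥E) → Dic.repSIdele S ↥F ↥E) :
    (↥E ≃ₐ[↥F] ↥E) × (↥E ≃ₐ[↥F] ↥E) → (SemiLoc (q : ℕ) ↥E)ˣ :=
  fun g => (((Additive.toMul (c g) : Dic.sIdele S ↥E) : Idele ↥E) : IdelePi ↥E) q

omit [FiniteDimensional ℚ F] [FiniteDimensional ↥F ↥E] [IsGalois ↥F ↥E] in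
lemma injComp_isMulCocycle₂ (q : Nat.Primes)
    (c : (↥E ≃ₐ[↥F] ↥E) × (↥E ≃ₐ[↥F] ↥E) → Dic.repSIdele S ↥F ↥E)
    (hc : (d₂₃ (Dic.repSIdele S ↥F ↥E)).hom c = 0) : IsMulCocycle₂ (injComp E q c) := by
  letI := Dic.actSIdele S ↥E ↥F
  have h1 : IsMulCocycle₂ (Additive.toMul ∘ c : (↥E ≃ₐ[↥F] ↥E) × (↥E ≃ₐ[↥F] ↥E) →
      Dic.sIdele S ↥E) :=
    isMulCocycle₂_of_mem_cocycles₂ (G := ↥E ≃ₐ[↥F] ↥E) (M := Dic.sIdele S ↥E) c hc
  intro g h k
  have h2 := h1 g h k
  have h3 := congrArg (fun x : Dic.sIdele S ↥E => ((x : Idele ↥E) : IdelePi ↥E) q) h2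
  exact h3

variable (w : ι)

/-- the local cochain at `w` attached to a finite-level cochain -/
def injLocCochain (c : (↥E ≃ₐ[↥F] ↥E) × (↥E ≃ₐ[↥F] ↥E) → Dic.repSIdele S ↥F ↥E) :
    (↥(mixField hL E w) ≃ₐ[↥(hL.Kw w)] ↥(mixField hL E w)) ×
      (↥(mixField hL E w) ≃ₐ[↥(hL.Kw w)] ↥(mixField hL E w)) →
      Rep.ofAlgebraAutOnUnits ↥(hL.Kw w) ↥(mixField hL E w) :=
  fun σ => Additive.ofMul (injEvU hF hL E w
    (injComp E (hL.q w) c (injTheta hF hL E w σ.1, injTheta hF hL E w σ.2)))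

/-- **Claim A**: the localisation at `w` of the inflation of `c` is the inflation of the local
cochain. -/
theorem loc₂_infl₂_eq (c : (↥E ≃ₐ[↥F] ↥E) × (↥E ≃ₐ[↥F] ↥E) → Dic.repSIdele S ↥F ↥E) :
    (arithLocSys hF hL).loc₂ w ((Dic.finRealJS S F hF E hE).infl₂ c) =
      (helper33.locFinReal hF hL w (mixField hL E w)).infl₂ (injLocCochain hF hL E w c) := by
  funext ⟨s, t⟩
  change _ = (helper33.locFinReal hF hL w (mixField hL E w)).j
    (injLocCochain hF hL E w c (hL.locRes w (mixField hL E w) s, hL.locRes w (mixField hL E w) t))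
  unfold injLocCochain
  simp only []
  rw [injTheta_locRes, injTheta_locRes]
  rfl

end Cochain

section Descent

variable (K L M : Type) [Field K] [Field L] [Field M] [Algebra K L] [Algebra K M] [Algebra L M]
  [IsScalarTower K L M] [FiniteDimensional K M] [IsGalois K L] [IsGalois K M]

/-- a multiplicative 2-cocycle of `Gal(L/K)` in `Lˣ` whose inflation to `M` is a coboundary is a
coboundary (inflation is injective on `H²` by Hilbert 90). -/
theorem isMulCoboundary₂_of_locCochain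
    (f : (L ≃ₐ[K] L) × (L ≃ₐ[K] L) → Lˣ) (hf : IsMulCocycle₂ f)
    (h : IsMulCoboundary₂ (helper13.locCochain K L K M f)) : IsMulCoboundary₂ f := by
  rw [← helper13.mulClass_eq_zero_iff K L hf]
  apply locH_inf_two_injective K L M
  rw [helper13.locH_mulClass K L K M hf, map_zero]
  exact helper13.mulClass_eq_zero_of_isMulCoboundary₂ K M h

end Descent

section LocalTriv

variable {S : Finset Nat.Primes} {F : IntermediateField ℚ Qbar} [FiniteDimensional ℚ F]
  (hF : F.IsUnramifiedOutside S)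
  {ι : Type} [Fintype ι] {L : LocalData (UF F) (sLevelsStr S F hF) ι} (hL : IsArith S F L)
  (E : IntermediateField ↥F Qbar) [FiniteDimensional ↥F ↥E] [IsGalois ↥F ↥E]
  (hE : (E.restrictScalars ℚ).IsUnramifiedOutside S) (w : ι)

/-- the multiplicative local cochain at `w` -/
def injLocMul (c : (↥E ≃ₐ[↥F] ↥E) × (↥E ≃ₐ[↥F] ↥E) → Dic.repSIdele S ↥F ↥E) :
    (↥(mixField hL E w) ≃ₐ[↥(hL.Kw w)] ↥(mixField hL E w)) ×
      (↥(mixField hL E w) ≃ₐ[↥(hL.Kw w)] ↥(mixField hL E w)) → (↥(mixField hL E w))ˣ :=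
  fun σ => injEvU hF hL E w
    (injComp E (hL.q w) c (injTheta hF hL E w σ.1, injTheta hF hL E w σ.2))

lemma injLocMul_isMulCocycle₂
    (c : (↥E ≃ₐ[↥F] ↥E) × (↥E ≃ₐ[↥F] ↥E) → Dic.repSIdele S ↥F ↥E)
    (hc : (d₂₃ (Dic.repSIdele S ↥F ↥E)).hom c = 0) :
    IsMulCocycle₂ (injLocMul hF hL E w c) := by
  intro σ τ ρ
  have h1 := injComp_isMulCocycle₂ E (hL.q w) c hc (injTheta hF hL E w σ)
    (injTheta hF hL E w τ) (injTheta hF hL E w ρ)
  have h2 := congrArg (injEvU hF hL E w) h1
  rw [map_mul, map_mul, injEvU_smul] at h2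
  simp only [injLocMul, map_mul]
  exact h2

/-- restriction from a bigger finite level is compatible with `locRes` -/
lemma locHom_locRes_of_le (M : IntermediateField (hL.Kw w) (PadicAlgCl (hL.q w : ℕ)))
    [IsGalois (hL.Kw w) M] (hle : mixField hL E w ≤ M) (s : L.Gv w) :
    letI : Algebra ↥(mixField hL E w) ↥M := (IntermediateField.inclusion hle).toRingHom.toAlgebra
    haveI : IsScalarTower ↥(hL.Kw w) ↥(mixField hL E w) ↥M :=
      IsScalarTower.of_algebraMap_eq (fun _ => rfl)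
    locHom ↥(hL.Kw w) ↥(mixField hL E w) ↥(hL.Kw w) ↥M (hL.locRes w M s) =
      hL.locRes w (mixField hL E w) s := by
  letI : Algebra ↥(mixField hL E w) ↥M := (IntermediateField.inclusion hle).toRingHom.toAlgebra
  haveI : IsScalarTower ↥(hL.Kw w) ↥(mixField hL E w) ↥M :=
    IsScalarTower.of_algebraMap_eq (fun _ => rfl)
  apply AlgEquiv.ext
  intro x
  apply (algebraMap ↥(mixField hL E w) ↥M).injective
  rw [algebraMap_locHom]
  apply Subtype.ext
  rw [helper33.locRes_apply_coe]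
  change _ = ((hL.locRes w (mixField hL E w) s x : ↥(mixField hL E w)) : PadicAlgCl (hL.q w : ℕ))
  rw [helper33.locRes_apply_coe]
  rfl

/-- **local triviality at the finite level `mixField hL E w`** -/
theorem injLocMul_isMulCoboundary₂
    (c : (↥E ≃ₐ[↥F] ↥E) × (↥E ≃ₐ[↥F] ↥E) → Dic.repSIdele S ↥F ↥E)
    (hc : (d₂₃ (Dic.repSIdele S ↥F ↥E)).hom c = 0)
    (h : (arithLocSys hF hL).loc₂ w ((Dic.finRealJS S F hF E hE).infl₂ c) ∈
      B2 (L.lev w) ((arithLocSys hF hL).Ω w)) :
    IsMulCoboundary₂ (injLocMul hF hL E w c) := by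
  classical
  rw [loc₂_infl₂_eq hF hL E hE w c] at h
  obtain ⟨N, hN, hdet⟩ :=
    exists_of_mem_B2 (helper30.loc_fin hF hL w) (helper30.loc_disc hF hL w) h
  obtain ⟨N₀, hN₀, hle₀⟩ := (helper33.locFinReal hF hL w (mixField hL E w)).ker_level
  obtain ⟨N', hN', hN'le⟩ := (L.lev w).directed N hN N₀ hN₀
  obtain ⟨M, hMgal, hMfd, hker, -⟩ :=
    helper33.exists_locFinReal_le hF hL w N' hN' 1 one_pos
  haveI := hMgal
  haveI := hMfd
  obtain ⟨g', hg'⟩ := hdet (helper33.locFinReal hF hL w M)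
    (hker.trans (hN'le.trans inf_le_left))
  have hle : mixField hL E w ≤ M := by
    haveI : IsAlgClosure (hL.Kw w) (PadicAlgCl (hL.q w : ℕ)) := ⟨inferInstance, inferInstance⟩
    haveI : IsGalois (hL.Kw w) (PadicAlgCl (hL.q w : ℕ)) := IsAlgClosure.isGalois _ _
    rw [← InfiniteGalois.fixedField_fixingSubgroup (mixField hL E w),
      ← InfiniteGalois.fixedField_fixingSubgroup M]
    apply IntermediateField.fixedField_antitone
    intro σ hσ
    obtain ⟨s, rfl⟩ := (hL.locEquiv w).surjective σ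
    have h1 : s ∈ (hL.locRes w M).ker := (helper33.mem_ker_locRes_iff hF hL w M s).2 hσ
    have h2 : s ∈ (hL.locRes w (mixField hL E w)).ker :=
      hle₀ ((hN'le.trans inf_le_right) (hker h1))
    exact (helper33.mem_ker_locRes_iff hF hL w (mixField hL E w) s).1 h2
  letI : Algebra ↥(mixField hL E w) ↥M := (IntermediateField.inclusion hle).toRingHom.toAlgebra
  haveI : IsScalarTower ↥(hL.Kw w) ↥(mixField hL E w) ↥M :=
    IsScalarTower.of_algebraMap_eq (fun _ => rfl)
  haveI := hL.finiteDimensional_Kw w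
  apply isMulCoboundary₂_of_locCochain ↥(hL.Kw w) ↥(mixField hL E w) ↥M _
    (injLocMul_isMulCocycle₂ hF hL E w c hc)
  refine ⟨fun σ => Additive.toMul (g' σ), fun σ τ => ?_⟩
  obtain ⟨s, rfl⟩ := helper33.locRes_surjective hF hL w M σ
  obtain ⟨t, rfl⟩ := helper33.locRes_surjective hF hL w M τ
  have h1 := congrFun hg' (s, t)
  have h2 := congrArg (fun z : Additive (PadicAlgCl (hL.q w : ℕ))ˣ =>
    ((Additive.toMul z : (PadicAlgCl (hL.q w : ℕ))ˣ) : PadicAlgCl (hL.q w : ℕ))) h1
  rw [helper13.locCochain_apply, locHom_locRes_of_le hF hL E w M hle,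
    locHom_locRes_of_le hF hL E w M hle]
  apply Units.ext
  apply Subtype.ext
  exact h2

end LocalTriv

section UnitLift

/-- units lift along a surjection from an Artinian ring onto a field -/
theorem injUnits_map_surjective {R K : Type*} [CommRing R] [IsArtinianRing R] [Field K]
    (φ : R →+* K) (hφ : Function.Surjective φ) :
    Function.Surjective (Units.map (φ : R →* K)) := by
  classical
  intro x
  obtain ⟨b, hb⟩ := hφ (x : K)
  have hmax : (RingHom.ker φ).IsMaximal := RingHom.ker_isMaximal_of_surjective φ hφ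
  let n : MaximalSpectrum R := ⟨RingHom.ker φ, hmax⟩
  obtain ⟨y, hy⟩ := helper97.exists_forall_sub_mem
    (fun n' : MaximalSpectrum R => if n' = n then b else 1)
  have hyb : φ y = φ b := by
    have h1 := hy n
    rw [if_pos rfl] at h1
    have h2 : y - b ∈ RingHom.ker φ := h1
    rw [RingHom.mem_ker, map_sub, sub_eq_zero] at h2
    exact h2
  have hyu : IsUnit y := by
    apply helper97.isUnit_of_forall_notMem
    intro n' hmem
    have h1 := hy n'
    by_cases h : n' = n
    · subst h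
      have h2 : y ∈ RingHom.ker φ := hmem
      rw [RingHom.mem_ker, hyb, hb] at h2
      exact x.ne_zero h2
    · rw [if_neg h] at h1
      have : (1 : R) ∈ n'.asIdeal := by simpa using n'.asIdeal.sub_mem hmem h1
      exact n'.isMaximal.ne_top ((Ideal.eq_top_iff_one _).mpr this)
  refine ⟨hyu.unit, Units.ext ?_⟩
  change φ y = x
  rw [hyb, hb]

end UnitLift

end Fermat.Agent.S55.helper84
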