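import Mathlib

/-!
# S55 / LOC-6 (helper84): transport of Galois cohomology of units to subgroups

For a finite extension `L/K` and a subgroup `U ≤ Gal(L/K)`, the restriction to `U` of the
Galois module `Lˣ` is the Galois module `Lˣ` of the extension `L / L^U`.
-/

set_option autoImplicit false

open CategoryTheory CategoryTheory.Limits groupCohomology Rep

namespace Fermat.Agent.S55.helper84

variable (K L : Type) [Field K] [Field L] [Algebra K L] [FiniteDimensional K L]

/-- `Hⁿ(U, Lˣ) ≅ Hⁿ(Gal(L/L^U), Lˣ)` for a subgroup `U ≤ Gal(L/K)`. -/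
noncomputable def resUnitsIso (U : Subgroup (L ≃ₐ[K] L)) (n : ℕ) :
    groupCohomology (res U.subtype (Rep.ofAlgebraAutOnUnits K L)) n ≅
      groupCohomology (Rep.ofAlgebraAutOnUnits (IntermediateField.fixedField U) L) n :=
  groupCohomology.mapIso (IntermediateField.subgroupEquivAlgEquiv U)
    (LinearEquiv.refl ℤ _)
    (fun g => by
      ext x
      rfl) n

/-- Hilbert 90 for every subgroup of the Galois group. -/
theorem isZero_H1_res_units (U : Subgroup (L ≃ₐ[K] L)) :
    IsZero (groupCohomology (res U.subtype (Rep.ofAlgebraAutOnUnits K L)) 1) := by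
  have h : Subsingleton
      (groupCohomology (Rep.ofAlgebraAutOnUnits (IntermediateField.fixedField U) L) 1) :=
    (groupCohomology.H1ofAutOnUnitsUnique (IntermediateField.fixedField U) L).instSubsingleton
  exact (ModuleCat.isZero_of_subsingleton _).of_iso (resUnitsIso K L U 1)

theorem card_res_units (U : Subgroup (L ≃ₐ[K] L)) (n : ℕ) :
    Nat.card (groupCohomology (res U.subtype (Rep.ofAlgebraAutOnUnits K L)) n) =
      Nat.card (groupCohomology (Rep.ofAlgebraAutOnUnits (IntermediateField.fixedField U) L) n) :=
  Nat.card_congr (resUnitsIso K L U n).toLinearEquiv.toEquiv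

theorem finrank_fixedField_eq_natCard (U : Subgroup (L ≃ₐ[K] L)) :
    Module.finrank (IntermediateField.fixedField U) L = Nat.card U := by
  rw [IntermediateField.finrank_fixedField_eq_card]

end Fermat.Agent.S55.helper84
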