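import Fermat.Agent.S55.helper84_Transport

/-!
# S55 / LOC (helper84): transport for inflation

For a finite Galois extension `L/K` and a normal subgroup `U` of `G = Gal(L/K)` the
`G ⧸ U`-module `(Lˣ)^U` is the Galois module `(L^U)ˣ` of the extension `L^U / K`:
`infUnitsIso : Hⁿ(G ⧸ U, (Lˣ)^U) ≅ Hⁿ(Gal(L^U/K), (L^U)ˣ)`.
-/

set_option autoImplicit false
set_option linter.unusedSectionVars false

open CategoryTheory CategoryTheory.Limits groupCohomology Rep

namespace Fermat.Agent.S55.helper84

variable (K L : Type) [Field K] [Field L] [Algebra K L] [FiniteDimensional K L]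

/-- An element of `Lˣ` is `U`-invariant iff it is fixed by `U`. -/
theorem mem_invariants_units_iff (U : Subgroup (L ≃ₐ[K] L))
    (x : (Rep.ofAlgebraAutOnUnits K L).V) :
    x ∈ Representation.invariants ((Rep.ofAlgebraAutOnUnits K L).ρ.comp U.subtype) ↔
      ∀ g ∈ U, g ((Additive.toMul x : Lˣ) : L) = ((Additive.toMul x : Lˣ) : L) := by
  constructor
  · intro h g hg
    exact congrArg (fun y : Additive Lˣ => ((Additive.toMul y : Lˣ) : L)) (h ⟨g, hg⟩)
  · intro h g
    apply Additive.toMul.injective
    apply Units.ext
    exact h g.1 g.2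

/-- `(Lˣ)^U ≃ (L^U)ˣ` as additive groups (any subgroup `U`). -/
noncomputable def invariantsUnitsAddEquiv (U : Subgroup (L ≃ₐ[K] L)) :
    ↥(Representation.invariants ((Rep.ofAlgebraAutOnUnits K L).ρ.comp U.subtype)) ≃+
      Additive (IntermediateField.fixedField U)ˣ where
  toFun x := Additive.ofMul
    { val := ⟨((Additive.toMul x.1 : Lˣ) : L), fun g =>
        (mem_invariants_units_iff K L U x.1).mp x.2 g.1 g.2⟩
      inv := ⟨((Additive.toMul x.1 : Lˣ)⁻¹ : Lˣ), fun g => by
        have := (mem_invariants_units_iff K L U x.1).mp x.2 g.1 g.2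
        show g.1 _ = _
        rw [Units.val_inv_eq_inv_val, map_inv₀, this]⟩
      val_inv := Subtype.ext (Units.mul_inv _)
      inv_val := Subtype.ext (Units.inv_mul _) }
  invFun y := ⟨Additive.ofMul (Units.map
      (algebraMap (IntermediateField.fixedField U) L : _ →* L) (Additive.toMul y)),
    (mem_invariants_units_iff K L U _).mpr fun g hg =>
      ((Additive.toMul y : (IntermediateField.fixedField U)ˣ) :
        IntermediateField.fixedField U).2 ⟨g, hg⟩⟩
  left_inv x := Subtype.ext (Additive.toMul.injective (Units.ext rfl))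
  right_inv y := Additive.toMul.injective (Units.ext (Subtype.ext rfl))
  map_add' x y := Additive.toMul.injective (Units.ext (Subtype.ext rfl))

@[simp]
theorem invariantsUnitsAddEquiv_apply_coe (U : Subgroup (L ≃ₐ[K] L))
    (x : ↥(Representation.invariants ((Rep.ofAlgebraAutOnUnits K L).ρ.comp U.subtype))) :
    (((Additive.toMul (invariantsUnitsAddEquiv K L U x) :
      (IntermediateField.fixedField U)ˣ) : IntermediateField.fixedField U) : L) =
      ((Additive.toMul x.1 : Lˣ) : L) := rfl

@[simp]
theorem invariantsUnitsAddEquiv_symm_apply_coe (U : Subgroup (L ≃ₐ[K] L))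
    (y : Additive (IntermediateField.fixedField U)ˣ) :
    ((Additive.toMul ((invariantsUnitsAddEquiv K L U).symm y).1 : Lˣ) : L) =
      (((Additive.toMul y : (IntermediateField.fixedField U)ˣ) :
        IntermediateField.fixedField U) : L) := rfl

variable [IsGalois K L]

/-- `Hⁿ(G/U, (Lˣ)^U) ≅ Hⁿ(Gal(L^U/K), (L^U)ˣ)` for a normal subgroup `U` of `G = Gal(L/K)`. -/
noncomputable def infUnitsIso (U : Subgroup (L ≃ₐ[K] L)) [U.Normal] (n : ℕ) :
    groupCohomology ((Rep.ofAlgebraAutOnUnits K L).quotientToInvariants U) n ≅
      groupCohomology (Rep.ofAlgebraAutOnUnits K (IntermediateField.fixedField U)) n :=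
  groupCohomology.mapIso (IsGalois.normalAutEquivQuotient U)
    (invariantsUnitsAddEquiv K L U).toIntLinearEquiv
    (fun g => by
      induction g using QuotientGroup.induction_on with
      | H σ =>
        ext x
        apply Additive.toMul.injective
        apply Units.ext
        apply Subtype.ext
        exact (AlgEquiv.restrictNormal_commutes σ (IntermediateField.fixedField U)
          ⟨((Additive.toMul x.1 : Lˣ) : L), fun g =>
            (mem_invariants_units_iff K L U x.1).mp x.2 g.1 g.2⟩).symm) n

theorem card_inf_units (U : Subgroup (L ≃ₐ[K] L)) [U.Normal] (n : ℕ) :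
    Nat.card (groupCohomology ((Rep.ofAlgebraAutOnUnits K L).quotientToInvariants U) n) =
      Nat.card (groupCohomology
        (Rep.ofAlgebraAutOnUnits K (IntermediateField.fixedField U)) n) :=
  Nat.card_congr (infUnitsIso K L U n).toLinearEquiv.toEquiv

/-- `[L^U : K] = [G : U]`. -/
theorem finrank_fixedField_eq_index (U : Subgroup (L ≃ₐ[K] L)) :
    Module.finrank K (IntermediateField.fixedField U) = U.index := by
  have h1 := Module.finrank_mul_finrank K (IntermediateField.fixedField U) L
  have h2 := finrank_fixedField_eq_natCard K L U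
  have h3 := IsGalois.card_aut_eq_finrank K L
  have h4 := U.card_mul_index
  have hpos : 0 < Nat.card U := Nat.card_pos
  rw [h2, ← h3, ← h4, mul_comm] at h1
  exact Nat.eq_of_mul_eq_mul_left hpos h1

end Fermat.Agent.S55.helper84
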