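import Fermat.Agent.S55.helper84_HasseDescent

/-!
# S55 / GLOB G8 (helper84): adjoining `ζ_p`

For a Galois extension `L/K` of number fields of prime degree `p`:
`L' = CyclotomicField p L = L(ζ)`, `K' = K(ζ) ⊆ L'`.  Then `L'/K'` is Galois, `ζ ∈ K'`,
`[K' : K]` is prime to `p` and restriction `Gal(L'/K') → Gal(L/K)` is injective.
-/

set_option autoImplicit false
set_option linter.style.haveILetI false
set_option linter.unusedSectionVars false
set_option linter.unusedVariables false

open scoped TensorProduct NumberField

universe u v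

namespace Fermat.Agent.S55.helper84

open Fermat.Agent.S55.helper73 Polynomial

section Zeta

variable (K : Type v) (L : Type u) [Field K] [NumberField K] [Field L] [NumberField L]
  [Algebra K L] [IsGalois K L] (p : ℕ) [Fact p.Prime]

/-- The primitive `p`-th root of unity of `L(ζ_p) = CyclotomicField p L`. -/
noncomputable abbrev zetaL : CyclotomicField p L :=
  IsCyclotomicExtension.zeta p L (CyclotomicField p L)

lemma zetaL_spec : IsPrimitiveRoot (zetaL L p) p :=
  IsCyclotomicExtension.zeta_spec p L (CyclotomicField p L)

/-- `K(ζ_p)` inside `L(ζ_p)`. -/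
noncomputable abbrev zetaK : IntermediateField K (CyclotomicField p L) :=
  IntermediateField.adjoin K {zetaL L p}

/-- `L(ζ_p)/K` is normal. -/
theorem normal_cyclotomicField : Normal K (CyclotomicField p L) := by
  haveI : FiniteDimensional K L := Module.Finite.of_restrictScalars_finite ℚ K L
  obtain ⟨f, hfsep, hf⟩ := IsGalois.is_separable_splitting_field K L
  haveI := hf
  have hg : (X ^ p - 1 : K[X]) ≠ 0 := by
    have h := X_pow_sub_C_ne_zero (R := K) (n := p) (Nat.Prime.pos Fact.out) 1
    rwa [map_one] at h
  haveI : IsSplittingField L (CyclotomicField p L) ((X ^ p - 1 : K[X]).map (algebraMap K L)) := by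
    have : (X ^ p - 1 : K[X]).map (algebraMap K L) = X ^ p - 1 := by
      simp [Polynomial.map_sub, Polynomial.map_pow]
    rw [this]
    exact IsCyclotomicExtension.isSplittingField_X_pow_sub_one p L (CyclotomicField p L)
  haveI : IsSplittingField K (CyclotomicField p L) (f * (X ^ p - 1)) :=
    IsSplittingField.mul (K := L) (CyclotomicField p L) f (X ^ p - 1) hfsep.ne_zero hg
  exact Normal.of_isSplittingField (f * (X ^ p - 1))

theorem isGalois_cyclotomicField : IsGalois K (CyclotomicField p L) := by
  haveI := normal_cyclotomicField K L p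
  exact ⟨⟩

theorem isGalois_zetaK : IsGalois (zetaK K L p) (CyclotomicField p L) := by
  haveI := isGalois_cyclotomicField K L p
  exact IsGalois.tower_top_of_isGalois K (zetaK K L p) (CyclotomicField p L)

/-- `ζ_p` as an element of `K(ζ_p)`. -/
noncomputable def zetaKgen : zetaK K L p :=
  ⟨zetaL L p, IntermediateField.mem_adjoin_simple_self K (zetaL L p)⟩

lemma zetaKgen_spec : IsPrimitiveRoot (zetaKgen K L p) p :=
  IsPrimitiveRoot.coe_submonoidClass_iff.1 (zetaL_spec L p)

/-- `[K(ζ_p) : K] < p`. -/
theorem finrank_zetaK_lt : Module.finrank K (zetaK K L p) < p := by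
  have hp : p.Prime := Fact.out
  have hint : IsIntegral K (zetaL L p) := Algebra.IsIntegral.isIntegral _
  rw [IntermediateField.adjoin.finrank hint]
  have hroot : aeval (zetaL L p) (cyclotomic p K) = 0 := by
    rw [aeval_def, ← eval_map, map_cyclotomic]
    exact (zetaL_spec L p).isRoot_cyclotomic hp.pos
  have hdvd : minpoly K (zetaL L p) ∣ cyclotomic p K := minpoly.dvd K _ hroot
  have hle := natDegree_le_of_dvd hdvd (cyclotomic_ne_zero p K)
  rw [natDegree_cyclotomic, Nat.totient_prime hp] at hle
  have := hp.pos
  omega

theorem coprime_finrank_zetaK : (Module.finrank K (zetaK K L p)).Coprime p := by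
  have hp : p.Prime := Fact.out
  have hlt := finrank_zetaK_lt K L p
  haveI : FiniteDimensional K (zetaK K L p) := Module.Finite.of_restrictScalars_finite ℚ K _
  have hpos : 0 < Module.finrank K (zetaK K L p) := Module.finrank_pos
  exact (Nat.Coprime.symm ((Nat.Prime.coprime_iff_not_dvd hp).2
    (Nat.not_dvd_of_pos_of_lt hpos hlt)))

/-- Restriction `Gal(L(ζ)/K(ζ)) → Gal(L/K)` is injective. -/
theorem resGal_zeta_injective :
    Function.Injective (resGal K L (zetaK K L p) (CyclotomicField p L)) := by
  rw [injective_iff_map_eq_one]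
  intro τ hτ
  have hL : ∀ x : L, τ (algebraMap L (CyclotomicField p L) x) =
      algebraMap L (CyclotomicField p L) x := by
    intro x
    rw [← resGal_commutes K L (zetaK K L p) (CyclotomicField p L) τ x, hτ]
    rfl
  have hζ : τ (zetaL L p) = zetaL L p := τ.commutes (zetaKgen K L p)
  let f : CyclotomicField p L →ₐ[L] CyclotomicField p L :=
    { toRingHom := (τ : CyclotomicField p L →+* CyclotomicField p L)
      commutes' := hL }
  have hf : f = AlgHom.id L (CyclotomicField p L) := by
    apply AlgHom.ext_of_adjoin_eq_top
      (IsCyclotomicExtension.adjoin_primitive_root_eq_top (zetaL_spec L p))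
    intro x hx
    rw [Set.mem_singleton_iff] at hx
    subst hx
    exact hζ
  ext x
  exact congrArg (fun g : CyclotomicField p L →ₐ[L] CyclotomicField p L => g x) hf

end Zeta

end Fermat.Agent.S55.helper84
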