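import Fermat.Agent.S55.helper90_Rec3Int

/-!
# S55 / REC3, package R3-ABS-T (helper85): the local classes `t_w` of `H²(J)`

* `loc₂_mem_C2`, `loc₂_mem_Z2`, `loc₂_mem_B2` : localisation of level cochains / cocycles /
  coboundaries of `J` along a `LocSys`;
* `resTp_mem_Z2` : restriction of level 2-cocycles of `ℤ/p` to the local groups;
* `κ_comp_mem_Z2`, `nsmul_κ_comp` : the local Kummer map on cochains;
* `exists_local_class_of_lkb` : **R3-ABS-T** with the local Kummer bridge (R3-ABS-LKB) as an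
  explicit hypothesis.
-/

set_option autoImplicit false

open groupCohomology

noncomputable section

namespace Fermat.Agent.S55.helper85

open Fermat.Agent.S55 Fermat.Agent.S55.helper59 Fermat.Agent.S55.helper90

/-! ## Localisation of cochains -/

section Loc

variable {k U : Type} [CommRing k] [Group U] {𝒩 : Levels U} {ι : Type}
variable {J : Rep.{0} k U} {L : LocalData U 𝒩 ι} (Λ : LocSys J L)

lemma loc₁_mem_C1 (w : ι) {f : U → J} (hf : f ∈ C1 𝒩 J) :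
    Λ.loc₁ w f ∈ C1 (L.lev w) (Λ.Ω w) := by
  obtain ⟨N, hN, h⟩ := hf
  obtain ⟨N', hN', hle⟩ := L.compat w N hN
  refine ⟨N', hN', fun g s hs => ?_⟩
  show Λ.lam w (f (L.r w (g * s))) = Λ.lam w (f (L.r w g))
  rw [map_mul, h _ _ (hle hs)]

lemma loc₂_mem_C2 (w : ι) {f : U × U → J} (hf : f ∈ C2 𝒩 J) :
    Λ.loc₂ w f ∈ C2 (L.lev w) (Λ.Ω w) := by
  obtain ⟨N, hN, h⟩ := hf
  obtain ⟨N', hN', hle⟩ := L.compat w N hN
  refine ⟨N', hN', fun g₁ g₂ s₁ hs₁ s₂ hs₂ => ?_⟩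
  show Λ.lam w (f (L.r w (g₁ * s₁), L.r w (g₂ * s₂))) = Λ.lam w (f (L.r w g₁, L.r w g₂))
  rw [map_mul, map_mul, h _ _ _ (hle hs₁) _ (hle hs₂)]

lemma d₁₂_loc₁ (w : ι) (s : U → J) :
    (d₁₂ (Λ.Ω w)).hom (Λ.loc₁ w s) = Λ.loc₂ w ((d₁₂ J).hom s) := by
  funext x
  simp only [d₁₂_hom_apply, LocSys.loc₁, LocSys.loc₂, map_sub, map_add, map_mul, Λ.lam_eq]

lemma d₂₃_loc₂ (w : ι) (f : U × U → J) :
    (d₂₃ (Λ.Ω w)).hom (Λ.loc₂ w f) =
      fun x => Λ.lam w ((d₂₃ J).hom f (L.r w x.1, L.r w x.2.1, L.r w x.2.2)) := by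
  funext x
  simp only [d₂₃_hom_apply, LocSys.loc₂, map_sub, map_add, map_mul, Λ.lam_eq]

lemma loc₂_mem_Z2 (w : ι) {f : U × U → J} (hf : f ∈ Z2 𝒩 J) :
    Λ.loc₂ w f ∈ Z2 (L.lev w) (Λ.Ω w) := by
  refine ⟨loc₂_mem_C2 Λ w hf.1, ?_⟩
  change (d₂₃ (Λ.Ω w)).hom (Λ.loc₂ w f) = 0
  rw [d₂₃_loc₂]
  have h0 : (d₂₃ J).hom f = 0 := hf.2
  funext x
  rw [h0]
  exact map_zero _

lemma loc₂_mem_B2 (w : ι) {f : U × U → J} (hf : f ∈ B2 𝒩 J) :
    Λ.loc₂ w f ∈ B2 (L.lev w) (Λ.Ω w) := by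
  obtain ⟨s, hs, rfl⟩ := hf
  exact ⟨Λ.loc₁ w s, loc₁_mem_C1 Λ w hs, d₁₂_loc₁ Λ w s⟩

lemma loc₂_sub (w : ι) (f g : U × U → J) :
    Λ.loc₂ w (f - g) = Λ.loc₂ w f - Λ.loc₂ w g := by
  funext x
  simp only [LocSys.loc₂, Pi.sub_apply, map_sub]

lemma loc₂_nsmul (w : ι) (n : ℕ) (f : U × U → J) :
    Λ.loc₂ w (n • f) = n • Λ.loc₂ w f := by
  funext x
  simp only [LocSys.loc₂, Pi.smul_apply, map_nsmul]

end Loc

/-! ## Restriction of cochains of `ℤ/p` -/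

section ResTp

variable {U : Type} [Group U] {𝒩 : Levels U} {ι : Type} (L : LocalData U 𝒩 ι)
variable {p : ℕ} [Fact p.Prime]

/-- restriction of a 2-cochain of `ℤ/p` to the local group at `w` -/
def resTp (w : ι) (z : U × U → ZMod p) : L.Gv w × L.Gv w → ZMod p :=
  fun s => z (L.r w s.1, L.r w s.2)

lemma resTp_mem_Z2 (w : ι) {z : U × U → ZMod p} (hz : z ∈ Z2 𝒩 (Tp U p)) :
    resTp L w z ∈ Z2 (L.lev w) (Tp (L.Gv w) p) := by
  constructor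
  · obtain ⟨N, hN, h⟩ := hz.1
    obtain ⟨N', hN', hle⟩ := L.compat w N hN
    refine ⟨N', hN', fun g₁ g₂ s₁ hs₁ s₂ hs₂ => ?_⟩
    show z (L.r w (g₁ * s₁), L.r w (g₂ * s₂)) = z (L.r w g₁, L.r w g₂)
    rw [map_mul, map_mul, h _ _ _ (hle hs₁) _ (hle hs₂)]
  · change (d₂₃ (Tp (L.Gv w) p)).hom (resTp L w z) = 0
    have h0 : (d₂₃ (Tp U p)).hom z = 0 := hz.2
    funext x
    have h1 : (d₂₃ (Tp U p)).hom z (L.r w x.1, L.r w x.2.1, L.r w x.2.2) = (0 : ZMod p) :=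
      congrFun h0 _
    show (d₂₃ (Tp (L.Gv w) p)).hom (resTp L w z) x = (0 : ZMod p)
    simp only [d₂₃_hom_apply, Representation.trivial_apply] at h1 ⊢
    simpa only [resTp, map_mul] using h1

end ResTp

/-! ## The local Kummer map on cochains -/

section Kappa

variable {k U : Type} [CommRing k] [Group U] {𝒩 : Levels U} {ι : Type}
variable {E J C : Rep.{0} k U} (X : ESeq E J C) {L : LocalData U 𝒩 ι}
variable {p : ℕ} [Fact p.Prime] (K : KummerDatum E p) (Λ : LocSys J L)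

lemma κ_fixed (w : ι) (s : L.Gv w) (a : ZMod p) :
    (Λ.Ω w).ρ s (Λ.κ X K w a) = Λ.κ X K w a := by
  rw [LocSys.κ_apply, ← Λ.lam_eq, ← X.i_eq, K.κ_fixed]

lemma nsmul_κ (w : ι) (a : ZMod p) : p • Λ.κ X K w a = 0 := by
  rw [← map_nsmul, nsmul_eq_mul, CharP.cast_eq_zero, zero_mul, map_zero]

lemma d₂₃_κ (w : ι) (m : L.Gv w × L.Gv w → ZMod p) :
    (d₂₃ (Λ.Ω w)).hom (fun x => Λ.κ X K w (m x)) =
      fun x => Λ.κ X K w ((d₂₃ (Tp (L.Gv w) p)).hom m x) := by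
  funext x
  simp only [d₂₃_hom_apply, κ_fixed, map_sub, map_add]
  rfl

lemma κ_comp_mem_Z2 (w : ι) {c : L.Gv w × L.Gv w → ZMod p}
    (hc : c ∈ Z2 (L.lev w) (Tp (L.Gv w) p)) :
    (fun s => Λ.κ X K w (c s)) ∈ Z2 (L.lev w) (Λ.Ω w) := by
  refine ⟨IsLev₂.comp' (L.lev w) hc.1 (Λ.κ X K w), ?_⟩
  change (d₂₃ (Λ.Ω w)).hom _ = 0
  rw [d₂₃_κ]
  have h0 : (d₂₃ (Tp (L.Gv w) p)).hom c = 0 := hc.2
  funext x
  rw [h0]
  exact map_zero _

lemma nsmul_κ_comp (w : ι) (c : L.Gv w × L.Gv w → ZMod p) :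
    p • (fun s => Λ.κ X K w (c s)) = 0 := by
  funext x
  exact nsmul_κ X K Λ w (c x)

lemma loc₂_i_κ (w : ι) (z : U × U → ZMod p) :
    Λ.loc₂ w (fun x => X.i (K.κ (z x))) = fun s => Λ.κ X K w (resTp L w z s) := rfl

end Kappa

/-! ## R3-ABS-T -/

section AbsT

variable {k U : Type} [CommRing k] [Group U] {𝒩 : Levels U} {ι : Type} [Fintype ι]
variable {E J C : Rep.{0} k U} {X : ESeq E J C} {L : LocalData U 𝒩 ι}
variable {p : ℕ} [Fact p.Prime]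

/-- The local Kummer bridge (statement of R3-ABS-LKB), as a `Prop`. -/
def LKB (X : ESeq E J C) (K : KummerDatum E p) (Λ : LocSys J L) : Prop :=
  ∀ (w : ι) (z : L.Gv w × L.Gv w → ZMod p), z ∈ Z2 (L.lev w) (Tp (L.Gv w) p) →
    (fun s => Λ.κ X K w (z s)) ∈ B2 (L.lev w) (Λ.Ω w) → z ∈ B2 (L.lev w) (Tp (L.Gv w) p)

/-- **R3-ABS-T**, with the local Kummer bridge as a hypothesis: for every `w` there is a class
`t` of `H²(J)` killed by `p`, locally trivial outside `w`, with prescribed localisation at `w`,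
whose image in `H²(C)` is NOT trivial. -/
theorem exists_local_class_of_lkb (hG : X.GoodP 𝒩 p) (K : KummerDatum E p) (hdE : IsDisc 𝒩 E)
    (hC1 : C1P 𝒩 p C) (Λ : LocSys J L) (hΛ : Λ.Good X p K) (hLKB : LKB X K Λ)
    (inv : ∀ w : ι, (L.Gv w × L.Gv w → ZMod p) →ₗ[ZMod p] ZMod p)
    (I1 : ∀ w, ∀ c ∈ Z2 (L.lev w) (Tp (L.Gv w) p),
      inv w c = 0 ↔ c ∈ B2 (L.lev w) (Tp (L.Gv w) p))
    (I3 : ∀ z ∈ Z2 𝒩 (Tp U p), ∑ w, inv w (fun s => z (L.r w s.1, L.r w s.2)) = 0)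
    (w : ι) (c : L.Gv w × L.Gv w → ZMod p) (hc : c ∈ Z2 (L.lev w) (Tp (L.Gv w) p))
    (hc0 : inv w c ≠ 0) :
    ∃ t ∈ Z2 𝒩 J, p • t ∈ B2 𝒩 J ∧
      (Λ.loc₂ w t - fun s => Λ.κ X K w (c s)) ∈ B2 (L.lev w) (Λ.Ω w) ∧
      (∀ w', w' ≠ w → Λ.loc₂ w' t ∈ B2 (L.lev w') (Λ.Ω w')) ∧
      (fun x => X.π (t x)) ∉ B2 𝒩 C := by
  -- the local class `c₀ = κ_w ∘ c`
  obtain ⟨c₀, hc₀⟩ : ∃ c₀ : L.Gv w × L.Gv w → Λ.Ω w, c₀ = fun s => Λ.κ X K w (c s) := ⟨_, rfl⟩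
  have hc₀Z : c₀ ∈ Z2 (L.lev w) (Λ.Ω w) := hc₀ ▸ κ_comp_mem_Z2 X K Λ w hc
  have hpc₀ : p • c₀ = 0 := hc₀ ▸ nsmul_κ_comp X K Λ w c
  have hpc₀' : p ^ 1 • c₀ ∈ B2 (L.lev w) (Λ.Ω w) := by
    rw [pow_one, hpc₀]
    exact Submodule.zero_mem _
  -- a global class with localisation `c₀` at `w`, trivial elsewhere
  obtain ⟨j, hj, hjw, hjw'⟩ := hΛ.surj w c₀ hc₀Z 1 hpc₀'
  -- `p j` is locally trivial everywhere, hence trivial up to a multiplier prime to `p`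
  have hpj : ∀ w', Λ.loc₂ w' (p • j) ∈ B2 (L.lev w') (Λ.Ω w') := by
    intro w'
    rw [loc₂_nsmul]
    by_cases hw : w' = w
    · subst hw
      have e : p • Λ.loc₂ w' j = p • (Λ.loc₂ w' j - c₀) := by
        rw [smul_sub, hpc₀, sub_zero]
      rw [e]
      exact (B2 _ _).nsmul_mem hjw p
    · exact (B2 _ _).nsmul_mem (hjw' w' hw) p
  obtain ⟨m, hm, hmj⟩ := hΛ.inj (p • j) ((Z2 𝒩 J).nsmul_mem hj p) hpj
  obtain ⟨a, b, hab⟩ := exists_mul_eq_one_add p hm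
  -- the class `t = (a m) j`
  obtain ⟨t, ht⟩ : ∃ t : U × U → J, t = (a * m) • j := ⟨_, rfl⟩
  have htZ : t ∈ Z2 𝒩 J := ht ▸ (Z2 𝒩 J).nsmul_mem hj _
  have hpt : p • t ∈ B2 𝒩 J := by
    have e : p • t = a • (m • (p • j)) := by
      rw [ht, ← mul_smul, ← mul_smul, ← mul_smul]
      congr 1
      ring
    rw [e]
    exact (B2 𝒩 J).nsmul_mem hmj a
  have htw : Λ.loc₂ w t - c₀ ∈ B2 (L.lev w) (Λ.Ω w) := by
    have e : Λ.loc₂ w t - c₀ = (a * m) • (Λ.loc₂ w j - c₀) := by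
      have h1 : (a * m) • c₀ = c₀ := by
        rw [hab, add_smul, one_smul, mul_smul, hpc₀, smul_zero, add_zero]
      rw [ht, loc₂_nsmul, smul_sub, h1]
    rw [e]
    exact (B2 _ _).nsmul_mem hjw _
  have htw' : ∀ w', w' ≠ w → Λ.loc₂ w' t ∈ B2 (L.lev w') (Λ.Ω w') := by
    intro w' hw
    rw [ht, loc₂_nsmul]
    exact (B2 _ _).nsmul_mem (hjw' w' hw) _
  refine ⟨t, htZ, hpt, hc₀ ▸ htw, htw', fun hπ => ?_⟩
  -- a global class of `H²(U, ℤ/p)` with image `t`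
  obtain ⟨z, hz, hzt⟩ := hG.exists_Tp_of_J K hdE hC1 t htZ hpt hπ
  have hloc : ∀ w', (fun s => Λ.κ X K w' (resTp L w' z s)) - Λ.loc₂ w' t ∈
      B2 (L.lev w') (Λ.Ω w') := by
    intro w'
    have := loc₂_mem_B2 Λ w' hzt
    rwa [loc₂_sub, loc₂_i_κ] at this
  -- the local invariants of `z`
  have hinv' : ∀ w', w' ≠ w → inv w' (resTp L w' z) = 0 := by
    intro w' hw
    rw [I1 w' _ (resTp_mem_Z2 L w' hz)]
    refine hLKB w' _ (resTp_mem_Z2 L w' hz) ?_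
    have := Submodule.add_mem _ (hloc w') (htw' w' hw)
    rwa [sub_add_cancel] at this
  have hinv : inv w (resTp L w z) = inv w c := by
    have hZ : resTp L w z - c ∈ Z2 (L.lev w) (Tp (L.Gv w) p) :=
      Submodule.sub_mem _ (resTp_mem_Z2 L w hz) hc
    have hB : resTp L w z - c ∈ B2 (L.lev w) (Tp (L.Gv w) p) := by
      refine hLKB w _ hZ ?_
      have e : (fun s => Λ.κ X K w ((resTp L w z - c) s)) =
          ((fun s => Λ.κ X K w (resTp L w z s)) - Λ.loc₂ w t) + (Λ.loc₂ w t - c₀) := by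
        rw [hc₀]
        funext s
        simp only [Pi.sub_apply, Pi.add_apply, map_sub]
        abel
      rw [e]
      exact Submodule.add_mem _ (hloc w) htw
    have := (I1 w _ hZ).2 hB
    rwa [map_sub, sub_eq_zero] at this
  have hsum : ∑ w', inv w' (resTp L w' z) = 0 := I3 z hz
  rw [Finset.sum_eq_single w (fun w' _ hw => hinv' w' hw)
    (fun h => absurd (Finset.mem_univ w) h)] at hsum
  exact hc0 (hinv ▸ hsum)

end AbsT

end Fermat.Agent.S55.helper85
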