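import Mathlib
import Fermat.Agent.S14.helper30_AuxPrime
import Fermat.Agent.S14.helper97_KummerSplit
import Fermat.Agent.S14.helper69_ZetaPole
import Fermat.Agent.S55.helper15_RecN1

/-!
# S55 / GLOB / G7-AUX (helper87), part 1: the auxiliary prime, integral form

`K ∋ ζ_p` a number field, `α β ∈ 𝓞 K` with `α ∉ K^p` and `β ∉ α^ℕ K^p`.  Then outside any finite
set of rational primes there is a ring homomorphism `ψ : 𝓞 K →+* ZMod ℓ` (`ℓ ≠ p` prime) such
that `ψ α`, `ψ β ≠ 0`, `ψ α` is a `p`-th power and `ψ β` is not (`exists_aux_prime_int`).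

Proof: `L = K(α^(1/p))`, `L' = L(β^(1/p))` is of degree `p` over `L` by Kummer theory
(`helper15.kummer_step`); the zeta-pole lemma (`helper69`) gives a degree one prime `w` of `L`
which does not split completely in `L'`; `ψ` is the restriction to `𝓞 K` of `𝓞 L → 𝓞 L / w`;
if `ψ β` were a `p`-th power, `w` would split completely (`helper97.exists_primes_over`).
-/

set_option autoImplicit false
set_option linter.unusedSectionVars false
set_option linter.style.haveILetI false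
set_option linter.unusedVariables false

open Polynomial NumberField
open scoped NumberField

namespace Fermat.Agent.S55.helper87

/-- If a prime `w` of `𝓞 L` has `p` distinct primes above it in a Galois extension of degree
`p`, then `#primesOver = p`. -/
theorem ncard_primesOver_eq_of_injective {L L' : Type*} [Field L] [NumberField L] [Field L']
    [NumberField L'] [Algebra L L'] [IsGalois L L'] {p : ℕ} (hp : p.Prime)
    (hdeg : Module.finrank L L' = p) (w : Ideal (𝓞 L)) [w.IsPrime]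
    (P : Fin p → Ideal (𝓞 L')) (hinj : Function.Injective P)
    (hP : ∀ i, (P i).IsMaximal ∧ (P i).comap (algebraMap (𝓞 L) (𝓞 L')) = w) :
    (w.primesOver (𝓞 L')).ncard = p := by
  have h1 := Ideal.ncard_primesOver_mul_ramificationIdxIn_mul_inertiaDegIn w (𝓞 L') Gal(L'/L)
  rw [IsGalois.card_aut_eq_finrank, hdeg] at h1
  have hdvd : (w.primesOver (𝓞 L')).ncard ∣ p := Dvd.intro _ h1
  rcases (Nat.dvd_prime hp).mp hdvd with h | h
  · exfalso
    obtain ⟨Q, hQ⟩ := Set.ncard_eq_one.mp h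
    have hmem : ∀ i, P i ∈ w.primesOver (𝓞 L') := fun i =>
      ⟨(hP i).1.isPrime, ⟨(hP i).2.symm⟩⟩
    have h0 : ∀ i, P i = Q := fun i => by
      have := hmem i
      rw [hQ] at this
      exact this
    have hp2 : 2 ≤ p := hp.two_le
    have : (⟨0, by omega⟩ : Fin p) = ⟨1, by omega⟩ := hinj ((h0 _).trans (h0 _).symm)
    simp [Fin.ext_iff] at this
  · exact h

/-- **The auxiliary prime, integral form.** -/
theorem exists_aux_prime_int (K : Type*) [Field K] [NumberField K] (p : ℕ) (hp : p.Prime)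
    (ζ : K) (hζ : IsPrimitiveRoot ζ p) (α β : 𝓞 K) (hα : ¬ ∃ c : K, c ^ p = (α : K))
    (hβ : ∀ (j : ℕ) (c : K), (β : K) ≠ (α : K) ^ j * c ^ p) (S : Finset ℕ) :
    ∃ (ℓ : ℕ) (_ : Fact ℓ.Prime) (ψ : 𝓞 K →+* ZMod ℓ), ℓ ∉ S ∧ ℓ ≠ p ∧ ψ α ≠ 0 ∧ ψ β ≠ 0 ∧
      (∃ x : ZMod ℓ, x ^ p = ψ α) ∧ ¬ ∃ y : ZMod ℓ, y ^ p = ψ β := by
  classical
  haveI : NeZero p := ⟨hp.ne_zero⟩
  haveI : Fact p.Prime := ⟨hp⟩
  have hζmem : ζ ∈ primitiveRoots p K := (mem_primitiveRoots hp.pos).mpr hζ
  have hα0 : (α : K) ≠ 0 := by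
    intro h0
    exact hα ⟨0, by rw [h0, zero_pow hp.ne_zero]⟩
  have hβ0 : (β : K) ≠ 0 := by
    intro h0
    exact hβ 0 0 (by rw [h0, zero_pow hp.ne_zero, mul_zero])
  have hα0' : α ≠ 0 := fun h => hα0 (by rw [h]; rfl)
  have hβ0' : β ≠ 0 := fun h => hβ0 (by rw [h]; rfl)
  -- the field `L = K(α^(1/p))`
  have hirrα : Irreducible (X ^ p - C (α : K)) :=
    (X_pow_sub_C_irreducible_iff_of_prime hp).mpr (fun b hb => hα ⟨b, hb⟩)
  let L := (X ^ p - C (α : K) : K[X]).SplittingField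
  haveI : NumberField L := NumberField.of_module_finite K L
  set θ : L := rootOfSplitsXPowSubC hp.pos (α : K) L with hθdef
  have hθ : θ ^ p = algebraMap K L (α : K) := rootOfSplitsXPowSubC_pow _ L
  have hζL : IsPrimitiveRoot (algebraMap K L ζ) p :=
    hζ.map_of_injective (algebraMap K L).injective
  have hζLmem : algebraMap K L ζ ∈ primitiveRoots p L := (mem_primitiveRoots hp.pos).mpr hζL
  -- `β` is not a `p`-th power in `L`
  have hβL : ¬ ∃ y : L, y ^ p = algebraMap K L (β : K) := by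
    rintro ⟨y, hy⟩
    obtain ⟨j, d, hd⟩ := Fermat.Agent.S55.helper15.kummer_step hp hζ (α : K) hy
    refine hβ ((p - 1) * j) (d / (α : K) ^ j) ?_
    have hpj : (α : K) ^ ((p - 1) * j) * (α : K) ^ j = ((α : K) ^ j) ^ p := by
      rw [← pow_add, ← pow_mul]
      congr 1
      have : p - 1 + 1 = p := Nat.sub_add_cancel hp.one_lt.le
      calc (p - 1) * j + j = (p - 1 + 1) * j := by ring
        _ = j * p := by rw [this, mul_comm]
    have hαj : (α : K) ^ j ≠ 0 := pow_ne_zero _ hα0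
    rw [div_pow, hd]
    field_simp
    rw [← hpj, mul_comm]
  have hirrβ : Irreducible (X ^ p - C (algebraMap K L (β : K))) :=
    (X_pow_sub_C_irreducible_iff_of_prime hp).mpr (fun b hb => hβL ⟨b, hb⟩)
  -- the field `L' = L(β^(1/p))`
  let L' := (X ^ p - C (algebraMap K L (β : K)) : L[X]).SplittingField
  haveI : NumberField L' := NumberField.of_module_finite L L'
  haveI hgal : IsGalois L L' :=
    isGalois_of_isSplittingField_X_pow_sub_C ⟨_, hζLmem⟩ hirrβ L'
  have hdeg : Module.finrank L L' = p :=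
    finrank_of_isSplittingField_X_pow_sub_C ⟨_, hζLmem⟩ hirrβ L'
  set θ' : L' := rootOfSplitsXPowSubC hp.pos (algebraMap K L (β : K)) L' with hθ'def
  have hθ' : θ' ^ p = algebraMap L L' (algebraMap K L (β : K)) := rootOfSplitsXPowSubC_pow _ L'
  -- the excluded set
  set Nα : ℕ := Ideal.absNorm (Ideal.span {α}) with hNα
  set Nβ : ℕ := Ideal.absNorm (Ideal.span {β}) with hNβ
  have hNα0 : Nα ≠ 0 := by
    rw [hNα, Ne, Ideal.absNorm_eq_zero_iff, Ideal.span_singleton_eq_bot]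
    exact hα0'
  have hNβ0 : Nβ ≠ 0 := by
    rw [hNβ, Ne, Ideal.absNorm_eq_zero_iff, Ideal.span_singleton_eq_bot]
    exact hβ0'
  obtain ⟨w, hwp, hw0, hwN, hwS, hwsplit⟩ :=
    Fermat.Agent.S14.helper69.exists_degree_one_prime_not_split_of_finset L L'
      (by rw [hdeg]; exact hp.one_lt) (S ∪ {p} ∪ Nα.divisors ∪ Nβ.divisors)
  haveI := hwp
  set ℓ : ℕ := Ideal.absNorm w with hℓ
  haveI hℓfact : Fact ℓ.Prime := ⟨hwN⟩
  simp only [Finset.mem_union, Finset.mem_singleton, Nat.mem_divisors, not_or, not_and,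
    not_not] at hwS
  obtain ⟨⟨⟨hℓS, hℓp⟩, hℓα⟩, hℓβ⟩ := hwS
  obtain ⟨ψL, hψL⟩ := Fermat.Agent.S14.helper30.exists_ringHom_zmod w ℓ hwN rfl
  set ψ : 𝓞 K →+* ZMod ℓ := ψL.comp (algebraMap (𝓞 K) (𝓞 L)) with hψ
  have hψsurj : Function.Surjective ψ := ZMod.ringHom_surjective ψ
  have hker : Ideal.absNorm (RingHom.ker ψ) = ℓ := by
    rw [Ideal.absNorm_apply, Submodule.cardQuot_apply]
    have e := RingHom.quotientKerEquivOfSurjective hψsurj
    rw [Nat.card_congr e.toEquiv, Nat.card_eq_fintype_card, ZMod.card]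
  have hne : ∀ γ : 𝓞 K, ¬ ℓ ∣ Ideal.absNorm (Ideal.span {γ}) → ψ γ ≠ 0 := by
    intro γ hγ h0
    apply hγ
    rw [← hker]
    apply Ideal.absNorm_dvd_absNorm_of_le
    rw [Ideal.span_singleton_le_iff_mem]
    exact RingHom.mem_ker.mpr h0
  have hψα : ψ α ≠ 0 := hne α (fun h => hNα0 (hℓα h))
  have hψβ : ψ β ≠ 0 := hne β (fun h => hNβ0 (hℓβ h))
  refine ⟨ℓ, hℓfact, ψ, hℓS, hℓp, hψα, hψβ, ?_, ?_⟩
  · -- `α` is a `p`-th power modulo `w`
    have hθint : IsIntegral ℤ θ := by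
      have h1 : IsIntegral ℤ (θ ^ p) := by
        rw [hθ]
        exact (RingOfIntegers.isIntegral_coe α).algebraMap
      exact h1.of_pow hp.pos
    refine ⟨ψL ⟨θ, hθint⟩, ?_⟩
    rw [← map_pow, hψ, RingHom.comp_apply]
    congr 1
    apply RingOfIntegers.ext
    exact hθ
  · -- `β` is not
    rintro ⟨c, hc⟩
    have hc0 : c ≠ 0 := by
      intro h0
      rw [h0, zero_pow hp.ne_zero] at hc
      exact hψβ hc.symm
    have hθ'int : IsIntegral ℤ θ' := by
      have h1 : IsIntegral ℤ (θ' ^ p) := by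
        rw [hθ']
        exact ((RingOfIntegers.isIntegral_coe β).algebraMap).algebraMap
      exact h1.of_pow hp.pos
    obtain ⟨P, hinj, hP⟩ := Fermat.Agent.S14.helper97.exists_primes_over (K := L) (M := L') p
      hζL (algebraMap (𝓞 K) (𝓞 L) β) hβL ⟨θ', hθ'int⟩
      (by apply RingOfIntegers.ext; exact hθ') hdeg hℓp ψL c hc hc0
    have hkerL : RingHom.ker ψL = w := by
      ext x
      rw [RingHom.mem_ker]
      exact hψL x
    apply hwsplit
    rw [hdeg]
    exact ncard_primesOver_eq_of_injective hp hdeg w P hinj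
      (fun i => ⟨(hP i).1, by rw [(hP i).2.2, hkerL]⟩)

end Fermat.Agent.S55.helper87
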