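import Mathlib
import Fermat.Agent.S55.helper87_AuxPrimeCore
import Fermat.Agent.S55.helper87_AuxPrimeVal

/-!
# S55 / GLOB / G7-AUX (helper87): `exists_aux_prime`, verbatim statement of `helper89_G7Plan`

One auxiliary prime: `K ∋ ζ_p`, `a ∉ K^p`, `b ∉ a^ℕ K^p`; outside any finite set there is a prime
`P` of degree one at which `a`, `b` are units, `a` is a `p`-th power modulo `P` and `b` is not.
-/

set_option autoImplicit false
set_option linter.unusedSectionVars false
set_option linter.style.haveILetI false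

open scoped TensorProduct NumberField
open IsDedekindDomain

namespace Fermat.Agent.S55.helper87

open Fermat.Agent.S55.helper73 Fermat.Agent.S55.helper89

section Aux

variable (K : Type*) [Field K] [NumberField K]

/-- one auxiliary prime: `a` is a `p`-th power modulo `P`, `b` is not. -/
theorem exists_aux_prime (p : ℕ) (hp : p.Prime) (ζ : K) (hζ : IsPrimitiveRoot ζ p)
    (a b : Kˣ) (ha : ¬ ∃ c : K, c ^ p = (a : K))
    (hb : ∀ (j : ℕ) (c : K), (b : K) ≠ (a : K) ^ j * c ^ p) (T₀ : Finset ℕ) :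
    ∃ P : HeightOneSpectrum (𝓞 K), (Ideal.absNorm P.asIdeal).Prime ∧
      Ideal.absNorm P.asIdeal ∉ T₀ ∧ P.valuation K (a : K) = 1 ∧ P.valuation K (b : K) = 1 ∧
      IsPowMod K p P (a : K) ∧ ¬ IsPowMod K p P (b : K) := by
  classical
  obtain ⟨n, α, hn0, hαa⟩ := exists_int_mul_pow K p hp.pos (a : K)
  obtain ⟨m, β, hm0, hβb⟩ := exists_int_mul_pow K p hp.pos (b : K)
  have hnK : (n : K) ≠ 0 := Nat.cast_ne_zero.mpr hn0
  have hmK : (m : K) ≠ 0 := Nat.cast_ne_zero.mpr hm0
  have hα : ¬ ∃ c : K, c ^ p = (α : K) := by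
    rintro ⟨c, hc⟩
    apply ha
    refine ⟨c / (n : K), ?_⟩
    rw [div_pow, hc, hαa, mul_div_assoc, div_self (pow_ne_zero _ hnK), mul_one]
  have hβ : ∀ (j : ℕ) (c : K), (β : K) ≠ (α : K) ^ j * c ^ p := by
    intro j c hc
    apply hb j ((n : K) ^ j * c / (m : K))
    rw [hαa, hβb] at hc
    have hmp : (m : K) ^ p ≠ 0 := pow_ne_zero _ hmK
    have hb' : (b : K) = (a * (n : K) ^ p) ^ j * c ^ p / (m : K) ^ p := by
      rw [eq_div_iff hmp, hc]
    rw [hb', div_pow, mul_pow, mul_pow, ← pow_mul, ← pow_mul, mul_comm p j]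
    ring
  obtain ⟨ℓ, hℓ, ψ, hℓS, hℓp, hψα, hψβ, ⟨x, hx⟩, hnot⟩ :=
    exists_aux_prime_int K p hp ζ hζ α β hα hβ (T₀ ∪ n.divisors ∪ m.divisors)
  haveI := hℓ
  simp only [Finset.mem_union, Nat.mem_divisors, not_or, not_and, not_not] at hℓS
  obtain ⟨⟨hℓT, hℓn⟩, hℓm⟩ := hℓS
  have hψn : ψ (n : 𝓞 K) ≠ 0 := by
    rw [map_natCast, Ne, ZMod.natCast_eq_zero_iff]
    exact fun h => hn0 (hℓn h)
  have hψm : ψ (m : 𝓞 K) ≠ 0 := by
    rw [map_natCast, Ne, ZMod.natCast_eq_zero_iff]
    exact fun h => hm0 (hℓm h)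
  set P := placeOfHom ψ with hP
  have hvn : P.valuation K (n : K) = 1 := by
    have := (valuation_placeOfHom_eq_one_iff ψ (n : 𝓞 K)).mpr hψn
    simpa using this
  have hvm : P.valuation K (m : K) = 1 := by
    have := (valuation_placeOfHom_eq_one_iff ψ (m : 𝓞 K)).mpr hψm
    simpa using this
  have hvα : P.valuation K (α : K) = 1 := (valuation_placeOfHom_eq_one_iff ψ α).mpr hψα
  have hvβ : P.valuation K (β : K) = 1 := (valuation_placeOfHom_eq_one_iff ψ β).mpr hψβ
  have hva : P.valuation K (a : K) = 1 := by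
    rw [hαa, map_mul, map_pow, hvn, one_pow, mul_one] at hvα
    exact hvα
  have hvb : P.valuation K (b : K) = 1 := by
    rw [hβb, map_mul, map_pow, hvm, one_pow, mul_one] at hvβ
    exact hvβ
  refine ⟨P, ?_, ?_, hva, hvb, ?_, ?_⟩
  · rw [hP, absNorm_placeOfHom]
    exact hℓ.out
  · rw [hP, absNorm_placeOfHom]
    exact hℓT
  · -- `a` is a `p`-th power modulo `P`
    rw [← isPowMod_mul_pow_iff p P hvn, ← hαa]
    obtain ⟨y, rfl⟩ := ZMod.ringHom_surjective ψ x
    have hy : y ∉ P.asIdeal := by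
      rw [hP, mem_placeOfHom]
      intro h0
      rw [h0, zero_pow hp.ne_zero] at hx
      exact hψα hx.symm
    apply isPowMod_of_int p P α y hy
    rw [hP, mem_placeOfHom, map_sub, map_pow, hx, sub_self]
  · -- `b` is not
    intro hpow
    rw [← isPowMod_mul_pow_iff p P hvm, ← hβb] at hpow
    obtain ⟨y, -, hy⟩ := exists_int_of_isPowMod p P hpow
    apply hnot
    refine ⟨ψ y, ?_⟩
    have h1 : P.valuation K ((β - y ^ p : 𝓞 K) : K) < 1 := by
      simpa using hy
    have h2 := (valuation_placeOfHom_lt_one_iff ψ (β - y ^ p)).mp h1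
    rw [map_sub, map_pow, sub_eq_zero] at h2
    exact h2.symm

end Aux

end Fermat.Agent.S55.helper87
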