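import Mathlib
import Fermat.Agent.S55.helper87_AuxPrime1
import Fermat.Agent.S55.helper87_AuxPrimesLemmas

/-!
# S55 / GLOB / G7-AUX (helper87): `exists_aux_primes`, verbatim statement of `helper89_G7Plan`

For a saturated subgroup `U ≤ Kˣ` with `[U : U ∩ K^p] = p ^ s` and `a ∈ U` not a `p`-th power,
there are `s - 1` primes of degree one, over distinct rational primes outside `T₀`, such that
the elements of `U` which are `p`-th powers modulo all of them are exactly `a^ℕ U^p`.

The hypothesis `hunit` of the blueprint statement is not used: `U` consists of units outside a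
finite set of primes anyway (`exists_finset_units`).
-/

set_option autoImplicit false
set_option linter.unusedSectionVars false
set_option linter.style.haveILetI false
set_option linter.unusedVariables false

open scoped TensorProduct NumberField
open IsDedekindDomain

namespace Fermat.Agent.S55.helper87

open Fermat.Agent.S55.helper73 Fermat.Agent.S55.helper89

section Aux

variable (K : Type*) [Field K] [NumberField K]

/-- the set `T`: for a subgroup `U ≤ Kˣ` with `[U : U^p] = p^s` whose elements are units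
outside `T₀`, and `a ∈ U` not a `p`-th power, there are `s - 1` primes of degree one, over
distinct rational primes outside `T₀`, such that the elements of `U` which are `p`-th powers
modulo all of them are exactly `a^ℤ U^p`. -/
theorem exists_aux_primes (p : ℕ) (hp : p.Prime) (ζ : K) (hζ : IsPrimitiveRoot ζ p)
    (U : Subgroup Kˣ) (s : ℕ)
    (hU : ((powMonoidHom p : Kˣ →* Kˣ).range ⊓ U).relIndex U = p ^ s)
    (hsat : ∀ c : Kˣ, c ^ p ∈ U → c ∈ U)
    (T₀ : Finset ℕ)
    (hunit : ∀ u ∈ U, ∀ P : HeightOneSpectrum (𝓞 K),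
      (∀ r ∈ T₀, ((r : ℕ) : 𝓞 K) ∉ P.asIdeal) → P.valuation K (u : K) = 1)
    (a : Kˣ) (haU : a ∈ U) (ha : ¬ ∃ c : K, c ^ p = (a : K)) :
    ∃ T : Finset (HeightOneSpectrum (𝓞 K)), T.card + 1 = s ∧
      (∀ P ∈ T, (Ideal.absNorm P.asIdeal).Prime ∧ Ideal.absNorm P.asIdeal ∉ T₀) ∧
      (∀ P ∈ T, ∀ P' ∈ T, Ideal.absNorm P.asIdeal = Ideal.absNorm P'.asIdeal → P = P') ∧
      (∀ P ∈ T, IsPowMod K p P (a : K)) ∧
      ∀ u ∈ U, (∀ P ∈ T, IsPowMod K p P (u : K)) → ∃ (j : ℕ) (v : Kˣ), v ∈ U ∧ u = a ^ j * v ^ p :=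
  by
  classical
  haveI : Fact p.Prime := ⟨hp⟩
  -- Step A: `U` consists of units outside `S`
  obtain ⟨S, hS⟩ := exists_finset_units p hp U (by rw [hU]; exact pow_ne_zero _ hp.ne_zero) hsat
  set S' : Finset ℕ := T₀ ∪ {p} ∪ S with hS'
  -- the quotient `U / (U ∩ K^p)`
  set N' : Subgroup U := ((powMonoidHom p : Kˣ →* Kˣ).range ⊓ U).subgroupOf U with hN'
  have hN'idx : N'.index = p ^ s := hU
  have hN'mem : ∀ u : U, u ∈ N' ↔ ∃ c : Kˣ, c ^ p = (u : Kˣ) := by
    intro u
    rw [hN', Subgroup.mem_subgroupOf, Subgroup.mem_inf, MonoidHom.mem_range]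
    constructor
    · rintro ⟨⟨c, hc⟩, -⟩
      exact ⟨c, hc⟩
    · rintro ⟨c, hc⟩
      exact ⟨⟨c, hc⟩, u.2⟩
  set π : U →* U ⧸ N' := QuotientGroup.mk' N' with hπ
  have hπsurj : Function.Surjective π := QuotientGroup.mk'_surjective N'
  set a' : U := ⟨a, haU⟩ with ha'
  have hāp : (π a') ^ p = 1 := by
    rw [← map_pow, hπ, QuotientGroup.mk'_apply, QuotientGroup.eq_one_iff, hN'mem]
    exact ⟨a, rfl⟩
  have hā1 : π a' ≠ 1 := by
    rw [hπ, QuotientGroup.mk'_apply, Ne, QuotientGroup.eq_one_iff, hN'mem]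
    rintro ⟨c, hc⟩
    apply ha
    refine ⟨(c : K), ?_⟩
    rw [← Units.val_pow_eq_pow_val, hc]
  have hord : orderOf (π a') = p := orderOf_eq_prime hāp hā1
  set A' : Subgroup U := (Subgroup.zpowers (π a')).comap π with hA'
  have hA'idx : p * A'.index = p ^ s := by
    have hcard : Nat.card (Subgroup.zpowers (π a')) = p := by rw [Nat.card_zpowers, hord]
    have h1 := Subgroup.card_mul_index (Subgroup.zpowers (π a'))
    rw [hcard, ← Subgroup.index_eq_card, hN'idx] at h1
    rw [hA', Subgroup.index_comap_of_surjective _ hπsurj]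
    exact h1
  have hs1 : 1 ≤ s := by
    rcases Nat.eq_zero_or_pos s with h0 | h0
    · exfalso
      rw [h0, pow_zero] at hA'idx
      have : p ∣ 1 := Dvd.intro _ hA'idx
      exact hp.one_lt.ne' (Nat.dvd_one.mp this)
    · exact h0
  have hA'idx' : A'.index = p ^ (s - 1) := by
    have h1 : p ^ s = p * p ^ (s - 1) := by
      rw [← pow_succ', Nat.sub_add_cancel hs1]
    rw [h1] at hA'idx
    exact Nat.eq_of_mul_eq_mul_left hp.pos hA'idx
  -- membership in `A'`
  have hmemA' : ∀ u : U, u ∈ A' → ∃ (j : ℕ) (v : Kˣ), v ∈ U ∧ (u : Kˣ) = a ^ j * v ^ p := by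
    intro u hu
    rw [hA', Subgroup.mem_comap] at hu
    have hfin : IsOfFinOrder (π a') := isOfFinOrder_iff_pow_eq_one.mpr ⟨p, hp.pos, hāp⟩
    rw [← hfin.mem_powers_iff_mem_zpowers] at hu
    obtain ⟨j, hj⟩ := hu
    have h1 : π (a' ^ j) = π u := by rw [map_pow]; exact hj
    have h2 : (a' ^ j)⁻¹ * u ∈ N' := QuotientGroup.eq.mp h1
    obtain ⟨c, hc⟩ := (hN'mem _).mp h2
    have hc' : c ^ p = (a ^ j)⁻¹ * (u : Kˣ) := by
      rw [hc]; rfl
    refine ⟨j, c, ?_, ?_⟩
    · apply hsat
      rw [hc']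
      exact U.mul_mem (U.inv_mem (U.pow_mem haU j)) u.2
    · rw [hc']; group
  have hA'mem : ∀ (u : U) (j : ℕ) (c : K), ((u : Kˣ) : K) = (a : K) ^ j * c ^ p → u ∈ A' := by
    intro u j c hc
    have hc0 : c ≠ 0 := by
      rintro rfl
      rw [zero_pow hp.ne_zero, mul_zero] at hc
      exact Units.ne_zero _ hc
    set c' : Kˣ := Units.mk0 c hc0 with hc'
    have hu : (u : Kˣ) = a ^ j * c' ^ p := by
      apply Units.ext
      rw [hc, Units.val_mul, Units.val_pow_eq_pow_val, Units.val_pow_eq_pow_val, hc',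
        Units.val_mk0]
    rw [hA', Subgroup.mem_comap]
    have h1 : (a' ^ j)⁻¹ * u ∈ N' := by
      rw [hN'mem]
      refine ⟨c', ?_⟩
      change c' ^ p = (a ^ j)⁻¹ * (u : Kˣ)
      rw [hu]; group
    have h2 : π (a' ^ j) = π u := QuotientGroup.eq.mpr h1
    rw [← h2, map_pow]
    exact Subgroup.pow_mem _ (Subgroup.mem_zpowers _) j
  -- `A' ≤ W` for the subgroups `W` cut out by good primes
  have hAW : ∀ (T : Finset (HeightOneSpectrum (𝓞 K))) (W : Subgroup U),
      (∀ P ∈ T, Ideal.absNorm P.asIdeal ∉ S') → (∀ P ∈ T, IsPowMod K p P (a : K)) →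
      (∀ u : U, u ∈ W ↔ ∀ P ∈ T, IsPowMod K p P ((u : Kˣ) : K)) → A' ≤ W := by
    intro T W hT haT hW u hu
    obtain ⟨j, v, hvU, huv⟩ := hmemA' u hu
    have ha'W : a' ∈ W := (hW a').mpr haT
    have hvW : (⟨v, hvU⟩ : U) ^ p ∈ W := by
      rw [hW]
      intro P hP
      have hPS : Ideal.absNorm P.asIdeal ∉ S := fun h =>
        hT P hP (Finset.mem_union_right _ h)
      refine ⟨(v : K), hS P hPS v hvU, ?_⟩
      have : (((⟨v, hvU⟩ : U) ^ p : U) : Kˣ) = v ^ p := rfl
      rw [this, Units.val_pow_eq_pow_val, sub_self, map_zero]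
      exact zero_lt_one
    have hu' : u = a' ^ j * (⟨v, hvU⟩ : U) ^ p := Subtype.ext huv
    rw [hu']
    exact W.mul_mem (W.pow_mem ha'W j) hvW
  -- the induction
  have main : ∀ n, n + 1 ≤ s → ∃ (T : Finset (HeightOneSpectrum (𝓞 K))) (W : Subgroup U),
      T.card = n ∧ (∀ P ∈ T, (Ideal.absNorm P.asIdeal).Prime ∧ Ideal.absNorm P.asIdeal ∉ S') ∧
      (∀ P ∈ T, ∀ P' ∈ T, Ideal.absNorm P.asIdeal = Ideal.absNorm P'.asIdeal → P = P') ∧
      (∀ P ∈ T, IsPowMod K p P (a : K)) ∧
      (∀ u : U, u ∈ W ↔ ∀ P ∈ T, IsPowMod K p P ((u : Kˣ) : K)) ∧ W.index = p ^ n := by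
    intro n
    induction n with
    | zero =>
      intro _
      refine ⟨∅, ⊤, rfl, by simp, by simp, by simp, by simp, by simp⟩
    | succ n ih =>
      intro hn
      obtain ⟨T, W, hTcard, hTgood, hTdist, hTa, hW, hWidx⟩ := ih (by omega)
      have hAW' : A' ≤ W := hAW T W (fun P hP => (hTgood P hP).2) hTa hW
      -- an element of `W` outside `A'`
      have hne : ¬ W ≤ A' := by
        intro hle
        have heq : W = A' := le_antisymm hle hAW'
        rw [heq, hA'idx'] at hWidx
        have := Nat.pow_right_injective hp.two_le hWidx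
        omega
      obtain ⟨b, hbW, hbA⟩ := SetLike.not_le_iff_exists.mp hne
      have hb : ∀ (j : ℕ) (c : K), (((b : U) : Kˣ) : K) ≠ (a : K) ^ j * c ^ p :=
        fun j c hc => hbA (hA'mem b j c hc)
      obtain ⟨P, hPprime, hPS, -, -, hPa, hPb⟩ :=
        exists_aux_prime K p hp ζ hζ a (b : Kˣ) ha hb
          (S' ∪ T.image (fun P => Ideal.absNorm P.asIdeal))
      have hPS' : Ideal.absNorm P.asIdeal ∉ S' := fun h => hPS (Finset.mem_union_left _ h)
      have hPT : ∀ P' ∈ T, Ideal.absNorm P.asIdeal ≠ Ideal.absNorm P'.asIdeal := by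
        intro P' hP' h
        apply hPS
        apply Finset.mem_union_right
        rw [h]
        exact Finset.mem_image_of_mem _ hP'
      have hPnT : P ∉ T := fun h => hPT P h rfl
      have hPp : Ideal.absNorm P.asIdeal ≠ p := by
        intro h
        apply hPS'
        rw [hS', h]
        exact Finset.mem_union_left _ (Finset.mem_union_right _ (Finset.mem_singleton_self p))
      have hPS0 : Ideal.absNorm P.asIdeal ∉ S := fun h => hPS' (Finset.mem_union_right _ h)
      -- the residue character at `P`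
      set ℓ : ℕ := Ideal.absNorm P.asIdeal with hℓ
      haveI : Fact ℓ.Prime := ⟨hPprime⟩
      obtain ⟨ψ, hψ⟩ := Fermat.Agent.S14.helper30.exists_ringHom_zmod P.asIdeal ℓ hPprime rfl
      have hunitP : ∀ u ∈ U, P.valuation K (u : K) = 1 := hS P hPS0
      have hmod : ℓ % p = 1 :=
        (Fermat.Agent.S14.helper30.residue_facts ζ hζ 1 1 (by simp) P.asIdeal ℓ hPprime rfl
          hPp).1
      set χ := resChar P ψ hψ U hunitP with hχ
      set D : Subgroup (ZMod ℓ)ˣ := (powMonoidHom p : (ZMod ℓ)ˣ →* (ZMod ℓ)ˣ).range with hD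
      have hDidx : D.index = p := index_pow_range_zmod_units hmod
      have hχD : ∀ u : U, χ u ∈ D ↔ IsPowMod K p P ((u : Kˣ) : K) := by
        intro u
        rw [isPowMod_iff_resChar P ψ hψ U hunitP p u, hD, MonoidHom.mem_range]
        rfl
      have hbD : χ b ∉ D := fun h => hPb ((hχD b).mp h)
      refine ⟨insert P T, W ⊓ D.comap χ, ?_, ?_, ?_, ?_, ?_, ?_⟩
      · rw [Finset.card_insert_of_notMem hPnT, hTcard]
      · intro P' hP'
        rcases Finset.mem_insert.mp hP' with h1 | h1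
        · rw [h1]
          exact ⟨hPprime, hPS'⟩
        · exact hTgood P' h1
      · intro P₁ hP₁ P₂ hP₂ h12
        rcases Finset.mem_insert.mp hP₁ with h1 | h1 <;>
          rcases Finset.mem_insert.mp hP₂ with h2 | h2
        · rw [h1, h2]
        · rw [h1] at h12
          exact absurd h12 (hPT P₂ h2)
        · rw [h2] at h12
          exact absurd h12.symm (hPT P₁ h1)
        · exact hTdist P₁ h1 P₂ h2 h12
      · intro P' hP'
        rcases Finset.mem_insert.mp hP' with h1 | h1
        · rw [h1]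
          exact hPa
        · exact hTa P' h1
      · intro u
        rw [Subgroup.mem_inf, Subgroup.mem_comap, hχD, hW]
        constructor
        · rintro ⟨h1, h2⟩ P' hP'
          rcases Finset.mem_insert.mp hP' with h3 | h3
          · rw [h3]
            exact h2
          · exact h1 P' h3
        · intro h
          exact ⟨fun P' hP' => h P' (Finset.mem_insert_of_mem hP'),
            h P (Finset.mem_insert_self P T)⟩
      · have h1 := relIndex_inf_comap_eq_prime hp W χ D hDidx b hbW hbD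
        have h2 := Subgroup.relIndex_mul_index (inf_le_left : W ⊓ D.comap χ ≤ W)
        rw [h1, hWidx] at h2
        rw [← h2, pow_succ, mul_comm]
  -- conclusion
  obtain ⟨T, W, hTcard, hTgood, hTdist, hTa, hW, hWidx⟩ := main (s - 1) (by omega)
  have hAW' : A' ≤ W := hAW T W (fun P hP => (hTgood P hP).2) hTa hW
  have hWA : W ≤ A' := by
    have h2 := Subgroup.relIndex_mul_index hAW'
    rw [hWidx, hA'idx'] at h2
    have h3 : A'.relIndex W = 1 := by
      have hpos : 0 < p ^ (s - 1) := pow_pos hp.pos _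
      exact Nat.eq_of_mul_eq_mul_right hpos (by rw [h2, one_mul])
    exact Subgroup.relIndex_eq_one.mp h3
  refine ⟨T, by omega, ?_, hTdist, hTa, ?_⟩
  · intro P hP
    refine ⟨(hTgood P hP).1, fun h => (hTgood P hP).2 ?_⟩
    exact Finset.mem_union_left _ (Finset.mem_union_left _ h)
  · intro u hu hpow
    have huW : (⟨u, hu⟩ : U) ∈ W := (hW _).mpr hpow
    exact hmemA' ⟨u, hu⟩ (hWA huW)

end Aux

end Fermat.Agent.S55.helper87
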