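import Fermat.Agent.S55.helper87_Rec3InjLoc
import Fermat.Agent.S55.helper69_Rec3InjFin
import Fermat.Agent.S55.helper69_Rec3US2Final
import Fermat.Agent.S55.helper46_Rec3Inj
import Fermat.Agent.S55.helper90_Rec3Final

/-!
# S55 / REC3 R3-LOC-INJ, local half, part 2 (helper87)

* `isMulCoboundary₂_of_infl₂_mem_B2` : **[4b]** a finite-level local 2-cocycle whose inflation to
  the local group is a level coboundary is a coboundary (DET at a big level + inflation is
  injective);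
* `isMulCoboundary₂_locCochainSL` : the local primitives `hloc`;
* `injLoc` : the `q`-components, `q ∈ S`, of a finite-level representative of a locally trivial
  class are coboundaries.
-/

set_option autoImplicit false
set_option linter.unusedSectionVars false
set_option linter.style.haveILetI false
set_option linter.unusedVariables false

open scoped Pointwise TensorProduct NumberField
open groupCohomology

noncomputable section

namespace Fermat.Agent.S55.helper87

open Fermat.Agent.S55 Fermat.Agent.S55.helper8 Fermat.Agent.S55.helper11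
  Fermat.Agent.S55.helper73 Fermat.Agent.S55.helper97 Fermat.Agent.S55.helper59
  Fermat.Agent.S55.helper69 Fermat.Agent.S55.helper90 Fermat.Agent.S55.helper46
  ExtCitation

section Arith

local instance factOfPrimesInjLoc2 (q : Nat.Primes) : Fact (q : ℕ).Prime := ⟨q.2⟩

local notation "Qbar" => AlgebraicClosure ℚ

variable {S : Finset Nat.Primes} {F : IntermediateField ℚ Qbar} [FiniteDimensional ℚ F]
  (hF : F.IsUnramifiedOutside S)
  {ι : Type} [Fintype ι] {L : LocalData (UF F) (sLevelsStr S F hF) ι} (hL : IsArith S F L)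

section FourB

variable (w : ι) (M₀ : IntermediateField (hL.Kw w) (PadicAlgCl (hL.q w : ℕ)))
  [IsGalois (hL.Kw w) M₀] [FiniteDimensional (hL.Kw w) M₀]

/-- a field `M` whose level is below the level of `M₀` contains `M₀` -/
lemma le_of_ker_locRes_le (M : IntermediateField (hL.Kw w) (PadicAlgCl (hL.q w : ℕ)))
    [IsGalois (hL.Kw w) M] [FiniteDimensional (hL.Kw w) M]
    (h : (hL.locRes w M).ker ≤ (hL.locRes w M₀).ker) : M₀ ≤ M := by
  haveI : IsAlgClosure (hL.Kw w) (PadicAlgCl (hL.q w : ℕ)) := ⟨inferInstance, inferInstance⟩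
  haveI : IsGalois (hL.Kw w) (PadicAlgCl (hL.q w : ℕ)) := IsAlgClosure.isGalois _ _
  intro x hx
  rw [← InfiniteGalois.fixedField_fixingSubgroup M, IntermediateField.mem_fixedField_iff]
  intro σ hσ
  obtain ⟨s, rfl⟩ := (hL.locEquiv w).surjective σ
  have h1 : s ∈ (hL.locRes w M).ker := (helper33.mem_ker_locRes_iff hF hL w M s).2 hσ
  have h3 := (helper33.mem_ker_locRes_iff hF hL w M₀ s).1 (h h1)
  exact (IntermediateField.mem_fixingSubgroup_iff _ _).1 h3 x hx

/-- **[4b]** a finite-level local 2-cocycle whose inflation to the local group is a level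
coboundary is a coboundary. -/
theorem isMulCoboundary₂_of_infl₂_mem_B2
    (f : (↥M₀ ≃ₐ[hL.Kw w] ↥M₀) × (↥M₀ ≃ₐ[hL.Kw w] ↥M₀) → (↥M₀)ˣ) (hf : IsMulCocycle₂ f)
    (h : (helper33.locFinReal hF hL w M₀).infl₂ (fun σ => Additive.ofMul (f σ)) ∈
      B2 (L.lev w) ((arithLocSys hF hL).Ω w)) :
    IsMulCoboundary₂ f := by
  obtain ⟨N, hN, hdet⟩ :=
    helper46.exists_of_mem_B2 (helper30.loc_fin hF hL w) (helper30.loc_disc hF hL w) h
  obtain ⟨N₀, hN₀, hle₀⟩ := (helper33.locFinReal hF hL w M₀).ker_level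
  obtain ⟨N', hN', hle'⟩ := (L.lev w).directed N hN N₀ hN₀
  obtain ⟨M, hMgal, hMfd, hker, -⟩ := helper33.exists_locFinReal_le hF hL w N' hN' 1 one_pos
  haveI := hMgal
  haveI := hMfd
  have hM₀M : M₀ ≤ M := le_of_ker_locRes_le hF hL w M₀ M
    (fun s hs => hle₀ ((hle' (hker hs)).2))
  obtain ⟨g', hg'⟩ := hdet (helper33.locFinReal hF hL w M) (fun s hs => (hle' (hker hs)).1)
  letI : Algebra ↥M₀ ↥M := (IntermediateField.inclusion hM₀M).toRingHom.toAlgebra
  haveI : IsScalarTower (hL.Kw w) ↥M₀ ↥M := IsScalarTower.of_algebraMap_eq (fun x => rfl)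
  apply isMulCoboundary₂_of_locCochain_inf (hL.Kw w) ↥M₀ ↥M hf
  refine ⟨fun σ => Additive.toMul (g' σ), fun σ τ => ?_⟩
  obtain ⟨s, rfl⟩ := helper33.locRes_surjective hF hL w M σ
  obtain ⟨t, rfl⟩ := helper33.locRes_surjective hF hL w M τ
  have h0 := congrFun hg' (s, t)
  have hres : ∀ u : L.Gv w, locHom (hL.Kw w) ↥M₀ (hL.Kw w) ↥M (hL.locRes w M u) =
      hL.locRes w M₀ u := by
    intro u
    apply AlgEquiv.ext
    intro x
    apply (algebraMap ↥M₀ ↥M).injective
    rw [algebraMap_locHom]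
    apply Subtype.ext
    have e1 := helper33.locRes_apply_coe hF hL w M u (algebraMap ↥M₀ ↥M x)
    have e2 := helper33.locRes_apply_coe hF hL w M₀ u x
    exact e1.trans e2.symm
  apply Units.ext
  apply Subtype.ext
  have h1 := congrArg (fun z : Additive (PadicAlgCl (hL.q w : ℕ))ˣ =>
    ((Additive.toMul z : (PadicAlgCl (hL.q w : ℕ))ˣ) : PadicAlgCl (hL.q w : ℕ))) h0
  rw [helper13.locCochain_apply, hres, hres]
  exact h1

end FourB

section Wiring

variable (E : IntermediateField ↥F Qbar) [FiniteDimensional ↥F ↥E] [IsGalois ↥F ↥E]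
  (hE : (E.restrictScalars ℚ).IsUnramifiedOutside S)

/-- the components of a cocycle are cocycles -/
theorem isMulCocycle₂_compS (q : Nat.Primes)
    (c : (↥E ≃ₐ[↥F] ↥E) × (↥E ≃ₐ[↥F] ↥E) → Dic.repSIdele S ↥F ↥E)
    (hc : (d₂₃ (Dic.repSIdele S ↥F ↥E)).hom c = 0) : IsMulCocycle₂ (compS E q c) :=
  Inj.isMulCocycle₂_compAt S ↥F ↥E q c hc

/-- **hloc**: the local primitives at the levels `mixField hL E w`. -/
theorem isMulCoboundary₂_locCochainSL [NumberField ↥F]
    (c : (↥E ≃ₐ[↥F] ↥E) × (↥E ≃ₐ[↥F] ↥E) → Dic.repSIdele S ↥F ↥E)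
    (hc : (d₂₃ (Dic.repSIdele S ↥F ↥E)).hom c = 0)
    (h : ∀ w, (arithLocSys hF hL).loc₂ w ((Dic.finRealJS S F hF E hE).infl₂ c) ∈
      B2 (L.lev w) ((arithLocSys hF hL).Ω w)) (w : ι) :
    IsMulCoboundary₂ (locCochainSL (helper72.mixDatum hL E w) (compS E (hL.q w) c)) := by
  refine isMulCoboundary₂_of_infl₂_mem_B2 hF hL w (helper72.mixField hL E w) _
    (isMulCocycle₂_locCochainSL (helper72.mixDatum hL E w)
      (isMulCocycle₂_compS E (hL.q w) c hc)) ?_
  have h1 := h w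
  rw [loc₂_infl₂_eq hF hL E hE w c] at h1
  exact h1

/-- **[INJ-LOC]** (= `helper46.HypInjLocCob hF hL`, = `injLoc_isMulCoboundary₂` of the LOC-INJ
plan): the `q`-components, `q ∈ S`, of a finite-level cocycle whose inflation is locally trivial
at all `w` are coboundaries in `(ℚ_q ⊗ E)ˣ`. -/
theorem injLoc
    (c : (↥E ≃ₐ[↥F] ↥E) × (↥E ≃ₐ[↥F] ↥E) → Dic.repSIdele S ↥F ↥E)
    (hc : (d₂₃ (Dic.repSIdele S ↥F ↥E)).hom c = 0)
    (h : ∀ w, (arithLocSys hF hL).loc₂ w ((Dic.finRealJS S F hF E hE).infl₂ c) ∈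
      B2 (L.lev w) ((arithLocSys hF hL).Ω w))
    (q : Nat.Primes) (hq : q ∈ S) :
    IsMulCoboundary₂ (fun g : (↥E ≃ₐ[↥F] ↥E) × (↥E ≃ₐ[↥F] ↥E) =>
      (((Additive.toMul (c g) : Dic.sIdele S ↥E) : Idele ↥E) : IdelePi ↥E) q) := by
  haveI : NumberField ↥F := ⟨⟩
  haveI : FiniteDimensional ℚ ↥E := Module.Finite.trans ↥F ↥E
  haveI : NumberField ↥E := ⟨⟩
  exact isMulCoboundary₂_of_mixDatum hL E (fun g q => compS E q c g)
    (fun q _ => isMulCocycle₂_compS E q c hc)
    (fun w => isMulCoboundary₂_locCochainSL hF hL E hE c hc h w) q hq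

end Wiring

section Final

/-- **[INJ-LOC]** in the shape of `helper46.HypInjLocCob`. -/
theorem hypInjLocCob : helper46.HypInjLocCob hF hL :=
  fun E _ _ hE c hc h q hq => injLoc hF hL E hE c hc h q hq

/-- **R3-LOC-INJ** (`LocInterface.loc_inj`, VERBATIM): a class of `H²(G_S, J_S)` which is locally
trivial at every `w` is trivial. -/
theorem loc_inj {p : ℕ} [Fact p.Prime]
    (j : UF F × UF F → repJS S F hF) (hj : j ∈ Z2 (sLevelsStr S F hF) (repJS S F hF))
    (h : ∀ w, (arithLocSys hF hL).loc₂ w j ∈ B2 (L.lev w) ((arithLocSys hF hL).Ω w)) :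
    ∃ m : ℕ, ¬ p ∣ m ∧ m • j ∈ B2 (sLevelsStr S F hF) (repJS S F hF) :=
  helper46.loc_inj_of_cob hF hL helper69.US2.hypUS2 (hypInjLocCob hF hL) j hj h

end Final

end Arith

/-- **HypLocInj**, unconditional. -/
theorem hypLocInj (p : ℕ) [Fact p.Prime] (S : Finset Nat.Primes) : helper90.HypLocInj p S :=
  fun F _ hF ι _ L hL _ _ j hj h => loc_inj hF hL j hj h

end Fermat.Agent.S55.helper87
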