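import Fermat.Agent.S55.helper71_RecSL
import Fermat.Agent.S55.helper72_BArRecMixC
import Fermat.Agent.S55.helper51_Krasner

/-!
# S55 / REC3 R3-LOC-INJ, semilocal half (helper87)

Semilocal Shapiro in degree 2 for ARBITRARY (not necessarily principal) cocycles with values in
`(ℚ_q ⊗ E)ˣ`, on the arithmetic local data `mixDatum hL E w`.

* `exists_trivialisation_smul` : conjugation lemma (abstract): a local trivialisation at the
  maximal ideal `n` gives one at `g • n`;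
* `evD D : ℚ_q ⊗ L → D.Lw`, `locCochainSL D c`, `kerD D` for a local datum `D`;
* `exists_locHom_eq` : the stabiliser of `kerD D` is in the range of `locHom`;
* `exists_trivialisation_kerD` : a primitive of the local cochain gives a trivialisation at
  `kerD D`;
* `forall_maximal_of_forall_mix` : every maximal ideal of `ℚ_q ⊗ E`, `q ∈ S`, is a translate of
  `kerD (mixDatum hL E w)` for some `w` with `q_w = q`;
* `isMulCoboundary₂_of_mixDatum` : the semilocal statement.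
-/

set_option autoImplicit false
set_option linter.unusedSectionVars false
set_option linter.style.haveILetI false
set_option linter.unusedVariables false

open scoped Pointwise TensorProduct NumberField
open groupCohomology

noncomputable section

namespace Fermat.Agent.S55.helper87

open Fermat.Agent.S55 Fermat.Agent.S55.helper8 Fermat.Agent.S55.helper11
  Fermat.Agent.S55.helper73 Fermat.Agent.S55.helper97 Fermat.Agent.S55.helper59
  ExtCitation

/-! ## The conjugation lemma -/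

section Conj

/-- additive bookkeeping for the conjugation identity -/
lemma conj_aux_add {A : Type*} [AddCommGroup A] (a p q r u v w z m n : A)
    (h1 : m + w = a + p) (h2 : q + r = v + n) (h3 : m + z = u + n) :
    a + (p - q) = r + ((u - v) + (w - z)) := by
  have ha : a = m + w - p := eq_sub_of_add_eq h1.symm
  have hr : r = v + n - q := eq_sub_of_add_eq' h2
  have hu : u = m + z - n := eq_sub_of_add_eq h3.symm
  rw [ha, hr, hu]
  abel

/-- multiplicative form -/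
lemma conj_aux_mul {A : Type*} [CommGroup A] (a p q r u v w z m n : A)
    (h1 : m * w = a * p) (h2 : q * r = v * n) (h3 : m * z = u * n) :
    a * (p / q) = r * ((u / v) * (w / z)) :=
  conj_aux_add (A := Additive A) (Additive.ofMul a) (Additive.ofMul p) (Additive.ofMul q)
    (Additive.ofMul r) (Additive.ofMul u) (Additive.ofMul v) (Additive.ofMul w)
    (Additive.ofMul z) (Additive.ofMul m) (Additive.ofMul n) h1 h2 h3

variable {B G : Type*} [CommRing B] [Group G] [MulSemiringAction G B]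
  [MulDistribMulAction G Bˣ]

/-- the conjugation 1-cochain: `c^x / c = d (conjT c x)` -/
def conjT (c : G × G → Bˣ) (x h : G) : Bˣ := c (x, x⁻¹ * h * x) / c (h, x)

theorem conjT_spec {c : G × G → Bˣ} (hc : IsMulCocycle₂ c) (x h h' : G) :
    x • c (x⁻¹ * h * x, x⁻¹ * h' * x) * conjT c x (h * h') =
      c (h, h') * (h • conjT c x h' * conjT c x h) := by
  have e1 := hc x (x⁻¹ * h * x) (x⁻¹ * h' * x)
  have e2 := hc h h' x
  have e3 := hc h x (x⁻¹ * h' * x)
  have a1 : x * (x⁻¹ * h * x) = h * x := by group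
  have a2 : x⁻¹ * h * x * (x⁻¹ * h' * x) = x⁻¹ * (h * h') * x := by group
  have a3 : x * (x⁻¹ * h' * x) = h' * x := by group
  rw [a1, a2] at e1
  rw [a3] at e3
  unfold conjT
  rw [smul_div']
  exact conj_aux_mul _ _ _ _ _ _ _ _ _ _ e1 e2 e3

variable (hcoe : ∀ (σ : G) (u : Bˣ), ((σ • u : Bˣ) : B) = σ • (u : B))

include hcoe in
/-- **Conjugation lemma**: a local trivialisation of a 2-cocycle at the maximal ideal `n`
gives one at `g • n`. -/
theorem exists_trivialisation_smul {c : G × G → Bˣ} (hc : IsMulCocycle₂ c)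
    (n : MaximalSpectrum B) (g : G)
    (hn : ∃ β : G → B, (∀ h, h • n = n → β h ∉ n.asIdeal) ∧
      ∀ h h' : G, h • n = n → h' • n = n →
        ((c (h, h') : Bˣ) : B) * β (h * h') - h • β h' * β h ∈ n.asIdeal) :
    ∃ β : G → B, (∀ h, h • (g • n) = g • n → β h ∉ (g • n).asIdeal) ∧
      ∀ h h' : G, h • (g • n) = g • n → h' • (g • n) = g • n →
        ((c (h, h') : Bˣ) : B) * β (h * h') - h • β h' * β h ∈ (g • n).asIdeal := by
  obtain ⟨β, hβ0, hβ⟩ := hn
  have hstab : ∀ η : G, η • (g • n) = g • n → (g⁻¹ * η * g) • n = n := by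
    intro η hη
    rw [mul_smul, mul_smul, hη, inv_smul_smul]
  have hmem : ∀ a : B, a ∈ (g • n).asIdeal ↔ g⁻¹ • a ∈ n.asIdeal := by
    intro a
    rw [asIdeal_smul, Ideal.mem_pointwise_smul_iff_inv_smul_mem]
  obtain ⟨β', hβ'⟩ : ∃ β' : G → B, ∀ η, g⁻¹ • β' η =
      β (g⁻¹ * η * g) * ((conjT c g⁻¹ (g⁻¹ * η * g) : Bˣ) : B) :=
    ⟨fun η => g • (β (g⁻¹ * η * g) * ((conjT c g⁻¹ (g⁻¹ * η * g) : Bˣ) : B)),
      fun η => inv_smul_smul _ _⟩
  refine ⟨β', ?_, ?_⟩
  · intro η hη hmemη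
    rw [hmem, hβ'] at hmemη
    have h1 := hβ0 _ (hstab η hη)
    apply h1
    have h2 := n.asIdeal.mul_mem_right
      (((conjT c g⁻¹ (g⁻¹ * η * g))⁻¹ : Bˣ) : B) hmemη
    rwa [mul_assoc, Units.mul_inv, mul_one] at h2
  · intro η η' hη hη'
    rw [hmem]
    have hb := hβ _ _ (hstab η hη) (hstab η' hη')
    have key := conjT_spec hc g⁻¹ (g⁻¹ * η * g) (g⁻¹ * η' * g)
    rw [inv_inv] at key
    have a1 : g * (g⁻¹ * η * g) * g⁻¹ = η := by group
    have a2 : g * (g⁻¹ * η' * g) * g⁻¹ = η' := by group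
    have a3 : g⁻¹ * η * g * (g⁻¹ * η' * g) = g⁻¹ * (η * η') * g := by group
    rw [a1, a2, a3] at key
    rw [a3] at hb
    have keyB := congrArg (fun u : Bˣ => (u : B)) key
    simp only [Units.val_mul, hcoe] at keyB
    have s2 : g⁻¹ • η • β' η' = (g⁻¹ * η * g) • (g⁻¹ • β' η') := by
      rw [← mul_smul, ← mul_smul]
      congr 1
      group
    rw [smul_sub, smul_mul', smul_mul' g⁻¹ (η • β' η'), s2, hβ', hβ', hβ', smul_mul']
    have : g⁻¹ • ((c (η, η') : Bˣ) : B) *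
          (β (g⁻¹ * (η * η') * g) * ((conjT c g⁻¹ (g⁻¹ * (η * η') * g) : Bˣ) : B)) -
        (g⁻¹ * η * g) • β (g⁻¹ * η' * g) *
            (g⁻¹ * η * g) • ((conjT c g⁻¹ (g⁻¹ * η' * g) : Bˣ) : B) *
          (β (g⁻¹ * η * g) * ((conjT c g⁻¹ (g⁻¹ * η * g) : Bˣ) : B)) =
        ((g⁻¹ * η * g) • ((conjT c g⁻¹ (g⁻¹ * η' * g) : Bˣ) : B) *
            ((conjT c g⁻¹ (g⁻¹ * η * g) : Bˣ) : B)) *
          (((c (g⁻¹ * η * g, g⁻¹ * η' * g) : Bˣ) : B) * β (g⁻¹ * (η * η') * g) -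
            (g⁻¹ * η * g) • β (g⁻¹ * η' * g) * β (g⁻¹ * η * g)) := by
      linear_combination β (g⁻¹ * (η * η') * g) * keyB
    rw [this]
    exact n.asIdeal.mul_mem_left _ hb

end Conj

/-! ## Evaluation of the semilocal algebra at a local datum -/

section Generic

variable {q : ℕ} [Fact q.Prime] {F L : Type} [Field F] [Field L] [CharZero L] [Algebra F L]
  (D : LocDatum q F L)

/-- `ℚ_q ⊗ L → Lw`, `a ⊗ y ↦ a · y` -/
def evD : SemiLoc q L →ₐ[ℚ_[q]] D.Lw :=
  haveI : CharZero D.Lw := charZero_of_injective_algebraMap (algebraMap ℚ_[q] D.Lw).injective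
  Algebra.TensorProduct.lift (Algebra.ofId ℚ_[q] D.Lw)
    ((algebraMap L D.Lw).toRatAlgHom) fun _ _ => Commute.all _ _

lemma evD_tmul (a : ℚ_[q]) (y : L) :
    evD D (a ⊗ₜ[ℚ] y) = algebraMap ℚ_[q] D.Lw a * algebraMap L D.Lw y := by
  simp [evD, Algebra.ofId_apply]

lemma evD_one_tmul (y : L) : evD D (1 ⊗ₜ[ℚ] y) = algebraMap L D.Lw y := by
  rw [evD_tmul, map_one, one_mul]

theorem evD_surjective : Function.Surjective (evD D) := by
  rw [← AlgHom.range_eq_top, eq_top_iff, ← D.denseL]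
  apply Algebra.adjoin_le
  rintro _ ⟨y, rfl⟩
  exact ⟨1 ⊗ₜ[ℚ] y, evD_one_tmul D y⟩

/-- the local cochain of a semilocal cochain -/
def locCochainSL [Normal F L] (c : (L ≃ₐ[F] L) × (L ≃ₐ[F] L) → (SemiLoc q L)ˣ) :
    (D.Lw ≃ₐ[D.Kv] D.Lw) × (D.Lw ≃ₐ[D.Kv] D.Lw) → D.Lwˣ :=
  fun σ => Units.map (evD D : SemiLoc q L →* D.Lw)
    (c (locHom F L D.Kv D.Lw σ.1, locHom F L D.Kv D.Lw σ.2))

lemma locCochainSL_apply [Normal F L] (c : (L ≃ₐ[F] L) × (L ≃ₐ[F] L) → (SemiLoc q L)ˣ)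
    (σ τ : D.Lw ≃ₐ[D.Kv] D.Lw) :
    ((locCochainSL D c (σ, τ) : D.Lwˣ) : D.Lw) =
      evD D ((c (locHom F L D.Kv D.Lw σ, locHom F L D.Kv D.Lw τ) : (SemiLoc q L)ˣ) :
        SemiLoc q L) := rfl

/-- the evaluation intertwines `locHom` with the local Galois action -/
theorem evD_smul [Normal F L] (τ : D.Lw ≃ₐ[D.Kv] D.Lw) (z : SemiLoc q L) :
    evD D (locHom F L D.Kv D.Lw τ • z) = τ (evD D z) := by
  induction z using TensorProduct.induction_on with
  | zero => rw [smul_zero, map_zero, map_zero]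
  | tmul a y =>
    rw [smul_tmul', evD_tmul, evD_tmul, map_mul, algebraMap_locHom,
      IsScalarTower.algebraMap_apply ℚ_[q] D.Kv D.Lw, AlgEquiv.commutes]
  | add a b ha hb => rw [smul_add, map_add, ha, hb, map_add, map_add]

/-- the maximal ideal of the semilocal algebra attached to a local datum -/
def kerD : MaximalSpectrum (SemiLoc q L) :=
  ⟨RingHom.ker (evD D), RingHom.ker_isMaximal_of_surjective _ (evD_surjective D)⟩

lemma mem_kerD (z : SemiLoc q L) : z ∈ (kerD D).asIdeal ↔ evD D z = 0 := RingHom.mem_ker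

lemma mem_smul_kerD (g : L ≃ₐ[F] L) (z : SemiLoc q L) :
    z ∈ (g • kerD D).asIdeal ↔ evD D (g⁻¹ • z) = 0 := by
  rw [asIdeal_smul, Ideal.mem_pointwise_smul_iff_inv_smul_mem, mem_kerD]

section Stab

variable [Normal F L] {h : L ≃ₐ[F] L} (hh : h • kerD D = kerD D)

include hh in
lemma evD_smul_eq_zero_iff (z : SemiLoc q L) : evD D (h • z) = 0 ↔ evD D z = 0 := by
  have h1 : h⁻¹ • kerD D = kerD D := by
    rw [inv_smul_eq_iff, hh]
  have h2 : z ∈ (h⁻¹ • kerD D).asIdeal ↔ evD D (h • z) = 0 := by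
    rw [mem_smul_kerD, inv_inv]
  rw [← h2, h1, mem_kerD]

/-- `z ↦ ev (h • z)` -/
def evDh (h : L ≃ₐ[F] L) : SemiLoc q L →ₐ[ℚ_[q]] D.Lw :=
  (evD D).comp (galSemiLocAut q L F h : SemiLoc q L ≃ₐ[ℚ_[q]] SemiLoc q L).toAlgHom

lemma evDh_apply (h : L ≃ₐ[F] L) (z : SemiLoc q L) : evDh D h z = evD D (h • z) := rfl

lemma evDh_surjective (h : L ≃ₐ[F] L) : Function.Surjective (evDh D h) :=
  (evD_surjective D).comp (galSemiLocAut q L F h : SemiLoc q L ≃ₐ[ℚ_[q]] SemiLoc q L).surjective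

include hh in
lemma ker_evDh : RingHom.ker (evD D) = RingHom.ker (evDh D h) := by
  ext z
  rw [RingHom.mem_ker, RingHom.mem_ker]
  exact (evD_smul_eq_zero_iff D hh z).symm

/-- the automorphism of `Lw / ℚ_q` induced by an element of the stabiliser -/
def tau0 : D.Lw ≃ₐ[ℚ_[q]] D.Lw :=
  (Ideal.quotientKerAlgEquivOfSurjective (evD_surjective D)).symm.trans
    ((Ideal.quotientEquivAlgOfEq ℚ_[q] (ker_evDh D hh)).trans
      (Ideal.quotientKerAlgEquivOfSurjective (evDh_surjective D h)))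

lemma tau0_evD (z : SemiLoc q L) : tau0 D hh (evD D z) = evD D (h • z) := by
  have h1 : (Ideal.quotientKerAlgEquivOfSurjective (evD_surjective D)).symm (evD D z) =
      Ideal.Quotient.mk _ z := Ideal.quotientKerAlgEquivOfSurjective_symm_apply _ z
  change (Ideal.quotientKerAlgEquivOfSurjective (evDh_surjective D h))
    ((Ideal.quotientEquivAlgOfEq ℚ_[q] (ker_evDh D hh))
      ((Ideal.quotientKerAlgEquivOfSurjective (evD_surjective D)).symm (evD D z))) = _
  rw [h1]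
  rfl

lemma tau0_algebraMap (y : L) : tau0 D hh (algebraMap L D.Lw y) = algebraMap L D.Lw (h y) := by
  rw [← evD_one_tmul, tau0_evD, smul_tmul', evD_one_tmul]

lemma tau0_fix (k : D.Kv) : tau0 D hh (algebraMap D.Kv D.Lw k) = algebraMap D.Kv D.Lw k := by
  have h1 : ((tau0 D hh : D.Lw ≃ₐ[ℚ_[q]] D.Lw).toAlgHom.comp
      (IsScalarTower.toAlgHom ℚ_[q] D.Kv D.Lw)) = IsScalarTower.toAlgHom ℚ_[q] D.Kv D.Lw := by
    apply AlgHom.ext_of_adjoin_eq_top D.denseK
    rintro _ ⟨x, rfl⟩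
    change tau0 D hh (algebraMap D.Kv D.Lw (algebraMap F D.Kv x)) =
      algebraMap D.Kv D.Lw (algebraMap F D.Kv x)
    rw [← IsScalarTower.algebraMap_apply F D.Kv D.Lw, IsScalarTower.algebraMap_apply F L D.Lw,
      tau0_algebraMap, AlgEquiv.commutes]
  exact DFunLike.congr_fun h1 k

/-- the element of the local Galois group induced by an element of the stabiliser -/
def tauD : D.Lw ≃ₐ[D.Kv] D.Lw :=
  AlgEquiv.ofRingEquiv (f := (tau0 D hh).toRingEquiv) (tau0_fix D hh)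

lemma tauD_apply (y : D.Lw) : tauD D hh y = tau0 D hh y := rfl

theorem locHom_tauD : locHom F L D.Kv D.Lw (tauD D hh) = h := by
  apply AlgEquiv.ext
  intro x
  apply (algebraMap L D.Lw).injective
  rw [algebraMap_locHom, tauD_apply, tau0_algebraMap]

include hh in
/-- the stabiliser of `kerD D` is in the range of `locHom` -/
theorem exists_locHom_eq : ∃ τ : D.Lw ≃ₐ[D.Kv] D.Lw, locHom F L D.Kv D.Lw τ = h :=
  ⟨tauD D hh, locHom_tauD D hh⟩

end Stab

/-- a primitive of the local cochain gives a trivialisation at `kerD D` -/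
theorem exists_trivialisation_kerD [Normal F L]
    (c : (L ≃ₐ[F] L) × (L ≃ₐ[F] L) → (SemiLoc q L)ˣ)
    (hb : IsMulCoboundary₂ (locCochainSL D c)) :
    ∃ β : (L ≃ₐ[F] L) → SemiLoc q L, (∀ h, h • kerD D = kerD D → β h ∉ (kerD D).asIdeal) ∧
      ∀ h h' : L ≃ₐ[F] L, h • kerD D = kerD D → h' • kerD D = kerD D →
        ((c (h, h') : (SemiLoc q L)ˣ) : SemiLoc q L) * β (h * h') - h • β h' * β h ∈
          (kerD D).asIdeal := by
  obtain ⟨b, hb⟩ := hb
  have hinj : Function.Injective (locHom F L D.Kv D.Lw) :=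
    helper71.locHom_injective_of_adjoin ℚ_[q] F L D.Kv D.Lw D.denseL
  have key : ∀ h : L ≃ₐ[F] L, ∃ a : SemiLoc q L, ∀ τ : D.Lw ≃ₐ[D.Kv] D.Lw,
      locHom F L D.Kv D.Lw τ = h → evD D a = ((b τ : D.Lwˣ) : D.Lw) := by
    intro h
    by_cases hex : ∃ τ : D.Lw ≃ₐ[D.Kv] D.Lw, locHom F L D.Kv D.Lw τ = h
    · obtain ⟨τ, hτ⟩ := hex
      obtain ⟨a, ha⟩ := evD_surjective D ((b τ : D.Lwˣ) : D.Lw)
      refine ⟨a, fun τ' hτ' => ?_⟩
      rw [ha, hinj (hτ'.trans hτ.symm)]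
    · exact ⟨0, fun τ hτ => absurd ⟨τ, hτ⟩ hex⟩
  choose β hβ using key
  refine ⟨β, fun h hh hmem => ?_, fun h h' hh hh' => ?_⟩
  · obtain ⟨τ, hτ⟩ := exists_locHom_eq D hh
    rw [mem_kerD, hβ h τ hτ] at hmem
    exact Units.ne_zero _ hmem
  · obtain ⟨τ, hτ⟩ := exists_locHom_eq D hh
    obtain ⟨τ', hτ'⟩ := exists_locHom_eq D hh'
    have hττ' : locHom F L D.Kv D.Lw (τ * τ') = h * h' := by rw [map_mul, hτ, hτ']
    have h1 := hb τ τ'
    rw [div_mul_eq_mul_div, div_eq_iff_eq_mul] at h1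
    have h2 := congrArg (fun u : D.Lwˣ => (u : D.Lw)) h1
    simp only [Units.val_mul] at h2
    rw [locCochainSL_apply, hτ, hτ'] at h2
    rw [mem_kerD, map_sub, map_mul, map_mul, hβ _ _ hττ', hβ _ _ hτ, ← hτ, evD_smul,
      hβ _ _ hτ', hτ, sub_eq_zero, ← h2]
    rfl

end Generic


/-! ## The arithmetic data -/

section Main

local instance factOfPrimesInjSL (q : Nat.Primes) : Fact (q : ℕ).Prime := ⟨q.2⟩

local notation "Qbar" => AlgebraicClosure ℚ

variable {S : Finset Nat.Primes} {F : IntermediateField ℚ Qbar}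
  {𝒩 : Levels (UF F)} {ι : Type} {L : LocalData (UF F) 𝒩 ι}
  (hL : IsArith S F L) (E : IntermediateField ↥F Qbar)
  [NumberField ↥F] [FiniteDimensional ↥F ↥E] [IsGalois ↥F ↥E]

/-- the inclusion of the top field of `mixDatum` in `PadicAlgCl` -/
def mixVal (w : ι) : (helper72.mixDatum hL E w).Lw →+* PadicAlgCl (hL.q w : ℕ) :=
  ((helper72.mixField hL E w).val : ↥(helper72.mixField hL E w) →+* PadicAlgCl (hL.q w : ℕ))

lemma mixVal_injective (w : ι) : Function.Injective (mixVal hL E w) :=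
  (mixVal hL E w).injective

/-- the evaluation at `mixDatum`, with values in `PadicAlgCl` -/
lemma coe_evD_mix_tmul (w : ι) (a : ℚ_[(hL.q w : ℕ)]) (y : ↥E) :
    mixVal hL E w (evD (helper72.mixDatum hL E w) (a ⊗ₜ[ℚ] y)) =
      algebraMap ℚ_[(hL.q w : ℕ)] (PadicAlgCl (hL.q w : ℕ)) a *
        padicEmbedding (hL.q w : ℕ) (((hL.g w)⁻¹ : GQ) (y : Qbar)) := by
  rw [evD_tmul, map_mul]
  rfl

/-- **Cover**: every maximal ideal of `ℚ_q ⊗ E`, `q ∈ S`, is a translate of the ideal of one of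
the arithmetic local data. -/
theorem forall_maximal_of_forall_mix [NumberField ↥E]
    (P : ∀ q : Nat.Primes, MaximalSpectrum (SemiLoc (q : ℕ) ↥E) → Prop)
    (hP : ∀ (w : ι) (g : ↥E ≃ₐ[↥F] ↥E), P (hL.q w) (g • kerD (helper72.mixDatum hL E w))) :
    ∀ q ∈ S, ∀ n : MaximalSpectrum (SemiLoc (q : ℕ) ↥E), P q n := by
  intro q hq n
  -- Step 1: a `ℚ_q`-algebra map to `PadicAlgCl q` with kernel `n`
  haveI : Algebra.IsAlgebraic ℚ_[(q : ℕ)] (helper71.slRes (q : ℕ) ↥E n) :=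
    Algebra.IsAlgebraic.of_finite _ _
  let θ : helper71.slRes (q : ℕ) ↥E n →ₐ[ℚ_[(q : ℕ)]] PadicAlgCl (q : ℕ) := IsAlgClosed.lift
  let φ' : SemiLoc (q : ℕ) ↥E →ₐ[ℚ_[(q : ℕ)]] PadicAlgCl (q : ℕ) :=
    θ.comp (helper71.slPi (q : ℕ) ↥E n)
  have hφ' : ∀ z, φ' z = 0 ↔ z ∈ n.asIdeal := by
    intro z
    rw [← helper71.slPi_eq_zero_iff]
    exact map_eq_zero_iff θ θ.toRingHom.injective
  -- Step 2: the embedding of `E`
  have he : ∀ y : ↥E, ∃ x : Qbar, padicEmbedding (q : ℕ) x = φ' (1 ⊗ₜ[ℚ] y) := by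
    intro y
    apply helper51.mem_range_padicEmbedding_of_isAlgebraic
    have hy : IsAlgebraic ℚ y := Algebra.IsAlgebraic.isAlgebraic y
    exact IsAlgebraic.algHom ((φ'.restrictScalars ℚ).comp
      (Algebra.TensorProduct.includeRight : ↥E →ₐ[ℚ] SemiLoc (q : ℕ) ↥E)) hy
  choose e₀ he₀ using he
  have hinj : Function.Injective (padicEmbedding (q : ℕ)) :=
    (padicEmbedding (q : ℕ)).toRingHom.injective
  let e' : ↥E →ₐ[ℚ] Qbar :=
    { toFun := e₀
      map_one' := hinj (by rw [he₀, map_one]; exact map_one φ')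
      map_mul' := fun x y => hinj (by
        rw [he₀, map_mul, he₀, he₀, ← map_mul, Algebra.TensorProduct.tmul_mul_tmul, one_mul])
      map_zero' := hinj (by rw [he₀, map_zero, TensorProduct.tmul_zero, map_zero])
      map_add' := fun x y => hinj (by
        rw [he₀, map_add, he₀, he₀, ← map_add, TensorProduct.tmul_add])
      commutes' := fun r => hinj (by
        rw [he₀, AlgHom.commutes]
        have : (1 : ℚ_[(q : ℕ)]) ⊗ₜ[ℚ] (algebraMap ℚ ↥E r) =
            algebraMap ℚ (SemiLoc (q : ℕ) ↥E) r := by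
          rw [Algebra.algebraMap_eq_smul_one, TensorProduct.tmul_smul,
            Algebra.algebraMap_eq_smul_one]
          rfl
        rw [this]
        exact ((φ'.restrictScalars ℚ).commutes r)) }
  -- Step 3: extension to `ℚbar`
  haveI : Algebra.IsAlgebraic ℚ Qbar := helper69.isAlgebraic_Qbar
  haveI : Algebra.IsAlgebraic ↥E Qbar := Algebra.IsAlgebraic.tower_top (K := ℚ) ↥E
  obtain ⟨φ, hφ⟩ := IntermediateField.exists_algHom_of_splits' (F := ℚ) (E := Qbar) (K := Qbar)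
    (L := ↥E) e' (fun s => ⟨Algebra.IsIntegral.isIntegral s, IsAlgClosed.splits _⟩)
  have hφy : ∀ y : ↥E, φ (y : Qbar) = e₀ y := fun y => DFunLike.congr_fun hφ y
  let γ' : Qbar ≃ₐ[ℚ] Qbar := AlgEquiv.ofBijective φ (Algebra.IsAlgebraic.algHom_bijective φ)
  have hγ'y : ∀ y : ↥E, padicEmbedding (q : ℕ) (γ' (y : Qbar)) = φ' (1 ⊗ₜ[ℚ] y) := by
    intro y
    rw [← he₀]
    congr 1
    exact hφy y
  -- Step 4: the cover
  obtain ⟨w, ⟨hw, u, hu, h, hγ⟩, -⟩ := hL.cover q hq γ'⁻¹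
  subst hw
  -- Step 5
  have hγ2 : ∀ x : Qbar, γ' x = primeLocalToGlobal (hL.q w) h⁻¹ (((hL.g w)⁻¹ : GQ)
      ((u⁻¹ : GQ) x)) := by
    intro x
    have h1 : γ' = (primeLocalToGlobal (hL.q w) h)⁻¹ * (hL.g w)⁻¹ * u⁻¹ := by
      rw [← inv_inv γ', hγ, mul_inv_rev, mul_inv_rev, mul_assoc]
    rw [h1, map_inv]
    rfl
  let h' : PadicAlgCl (hL.q w : ℕ) ≃ₐ[ℚ_[(hL.q w : ℕ)]] PadicAlgCl (hL.q w : ℕ) := h⁻¹
  have comp : ∀ z : SemiLoc (hL.q w : ℕ) ↥E, φ' z =
      h' (mixVal hL E w (evD (helper72.mixDatum hL E w) ((resFix F E ⟨u, hu⟩)⁻¹ • z))) := by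
    intro z
    induction z using TensorProduct.induction_on with
    | zero => rw [map_zero, smul_zero, map_zero, map_zero]; exact (map_zero h').symm
    | tmul a y =>
      rw [smul_tmul', coe_evD_mix_tmul, map_mul, AlgEquiv.commutes]
      have e1 : (a ⊗ₜ[ℚ] y : SemiLoc (hL.q w : ℕ) ↥E) =
          algebraMap ℚ_[(hL.q w : ℕ)] (SemiLoc (hL.q w : ℕ) ↥E) a * (1 ⊗ₜ[ℚ] y) := by
        rw [Algebra.TensorProduct.algebraMap_apply, Algebra.TensorProduct.tmul_mul_tmul,
          one_mul, mul_one]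
        rfl
      rw [e1, map_mul, AlgHom.commutes, ← hγ'y, hγ2]
      congr 1
      have e2 : (((resFix F E ⟨u, hu⟩)⁻¹ y : ↥E) : Qbar) = (u⁻¹ : GQ) (y : Qbar) := by
        rw [← map_inv]
        exact resFix_apply_coe F E _ y
      rw [e2]
      exact padicEmbedding_localGaloisToGlobal (hL.q w : ℕ) h' _
    | add a b ha hb =>
      rw [map_add, ha, hb, smul_add, map_add, map_add]
      exact (map_add h' _ _).symm
  have key : n = (resFix F E ⟨u, hu⟩) • kerD (helper72.mixDatum hL E w) := by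
    apply MaximalSpectrum.ext
    ext z
    rw [← hφ', mem_smul_kerD, comp z]
    constructor
    · intro hz
      have := (map_eq_zero_iff h' h'.injective).1 hz
      exact (map_eq_zero_iff _ (mixVal_injective hL E w)).1 this
    · intro hz
      rw [hz, map_zero]
      exact map_zero h'
  rw [key]
  exact hP w _

/-- **INJ-SL** (semilocal half of R3-LOC-INJ). -/
theorem isMulCoboundary₂_of_mixDatum [NumberField ↥E]
    (c : (↥E ≃ₐ[↥F] ↥E) × (↥E ≃ₐ[↥F] ↥E) → IdelePi ↥E)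
    (hc : ∀ q ∈ S, IsMulCocycle₂ (fun g => c g q))
    (hloc : ∀ w : ι, IsMulCoboundary₂
      (locCochainSL (helper72.mixDatum hL E w) (fun g => c g (hL.q w)))) :
    ∀ q ∈ S, IsMulCoboundary₂ (fun g => c g q) := by
  intro q hq
  refine helper71.isMulCoboundary₂_of_forall_maximal (B := SemiLoc (q : ℕ) ↥E)
    (G := ↥E ≃ₐ[↥F] ↥E) (fun σ u => rfl) (hc q hq) ?_
  refine forall_maximal_of_forall_mix hL E
    (fun q n => ∃ β : (↥E ≃ₐ[↥F] ↥E) → SemiLoc (q : ℕ) ↥E,
      (∀ h, h • n = n → β h ∉ n.asIdeal) ∧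
      ∀ h h' : ↥E ≃ₐ[↥F] ↥E, h • n = n → h' • n = n →
        ((c (h, h') q : (SemiLoc (q : ℕ) ↥E)ˣ) : SemiLoc (q : ℕ) ↥E) * β (h * h') -
          h • β h' * β h ∈ n.asIdeal) ?_ q hq
  intro w g
  exact exists_trivialisation_smul (fun σ u => rfl) (hc _ (hL.q_mem w)) _ g
    (exists_trivialisation_kerD (helper72.mixDatum hL E w) (fun g => c g (hL.q w)) (hloc w))

end Main

end Fermat.Agent.S55.helper87
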