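import Mathlib
import Fermat.Agent.S14.helper12_ArtinFunct

/-!
# S55 / REC-N2 (helper87), part 3: the cyclotomic extension `F(ζ_l)/F`

`E/F` an `l`-th cyclotomic extension of number fields (`l` prime), `ζ` a primitive `l`-th root
of unity of `E`, `χ = hζ.autToPow F : Gal(E/F) →* (ZMod l)ˣ` the cyclotomic character.

* `cyclo_inertia_trivial` : the inertia groups at the primes not containing `l` are trivial.
* `autToPow_frobAt` : `χ (Frob_𝔭) = N 𝔭 mod l`.
* `autToPow_artinMap` : `χ (artinMap 𝔞) = N 𝔞 mod l` for `𝔞` prime to `l`.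
* `absNorm_span_singleton_cast` : `N (c) = ± 1 mod l` for `c ≡ 1 mod l`.
-/

set_option autoImplicit false
set_option linter.unusedSectionVars false
set_option linter.style.haveILetI false

open scoped NumberField IsMulCommutative nonZeroDivisors

namespace Fermat.Agent.S55.helper87

open Fermat.Agent.S14

section Cyclo

variable (l : ℕ) [Fact l.Prime] (F E : Type*) [Field F] [NumberField F] [Field E]
  [NumberField E] [Algebra F E] [IsAbelianGalois F E] [IsCyclotomicExtension {l} F E]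
  {ζ : E} (hζ : IsPrimitiveRoot ζ l)

include hζ

/-- An automorphism of a cyclotomic extension fixing the primitive root is trivial. -/
lemma eq_one_of_apply_zeta (τ : Gal(E/F)) (h : τ ζ = ζ) : τ = 1 := by
  have : τ.toAlgHom = (1 : Gal(E/F)).toAlgHom := by
    apply (hζ.powerBasis F).algHom_ext
    rw [AlgEquiv.coe_toAlgHom, AlgEquiv.coe_toAlgHom, IsPrimitiveRoot.powerBasis_gen]
    exact h
  exact AlgEquiv.coe_toAlgHom_injective this

/-- The inertia group of a prime of `F(ζ_l)` not containing `l` is trivial. -/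
theorem cyclo_inertia_trivial (PE : Ideal (𝓞 E)) [PE.IsPrime] (hPE0 : PE ≠ ⊥)
    (hl : (l : 𝓞 E) ∉ PE) (τ : Gal(E/F)) (hτ : ∀ x : 𝓞 E, τ • x - x ∈ PE) : τ = 1 := by
  have h𝔭 : PE.under (𝓞 F) ≠ ⊥ := Ideal.under_ne_bot (𝓞 F) hPE0
  haveI : (PE.under (𝓞 F)).IsPrime := Ideal.IsPrime.under (𝓞 F) PE
  set frob := frobAt F E (PE.under (𝓞 F)) with hfrobdef
  have hfrob : IsArithFrobAt (𝓞 F) frob PE :=
    helper12.isArithFrobAt_frobAt F E (PE.under (𝓞 F)) h𝔭 PE rfl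
  have hfrob2 : IsArithFrobAt (𝓞 F) (τ * frob) PE := by
    intro x
    change (τ * frob) • x - x ^ Nat.card (𝓞 F ⧸ PE.under (𝓞 F)) ∈ _
    have h1 : frob • x - x ^ Nat.card (𝓞 F ⧸ PE.under (𝓞 F)) ∈ PE := hfrob x
    have h2 := hτ (frob • x)
    have := PE.add_mem h2 h1
    rw [mul_smul]
    convert this using 1
    ring
  have hlpos : 0 < l := (Fact.out : l.Prime).pos
  have hζint : IsIntegral ℤ ζ := ⟨Polynomial.X ^ l - 1,
    Polynomial.monic_X_pow_sub_C 1 hlpos.ne', by simp [hζ.pow_eq_one]⟩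
  set z : 𝓞 E := ⟨ζ, hζint⟩ with hz
  have hzζ : algebraMap (𝓞 E) E z = ζ := rfl
  have hz1 : z ^ l = 1 := by
    apply NumberField.RingOfIntegers.ext
    rw [NumberField.RingOfIntegers.coe_eq_algebraMap, map_pow, hzζ, hζ.pow_eq_one,
      NumberField.RingOfIntegers.coe_eq_algebraMap, map_one]
  have e1 := AlgHom.IsArithFrobAt.apply_of_pow_eq_one (R := 𝓞 F) hfrob hz1 hl
  have e2 := AlgHom.IsArithFrobAt.apply_of_pow_eq_one (R := 𝓞 F) hfrob2 hz1 hl
  have e3 : (τ * frob) • z = frob • z := e2.trans e1.symm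
  have e4 : (τ * frob) ζ = frob ζ := congrArg (algebraMap (𝓞 E) E) e3
  rw [mul_comm] at e4
  have e5 : frob (τ ζ) = frob ζ := e4
  exact eq_one_of_apply_zeta l F E hζ τ (frob.injective e5)

/-- The cyclotomic character of the Frobenius at `𝔭 ∤ l` is `N 𝔭 mod l`. -/
theorem autToPow_frobAt (𝔭 : Ideal (𝓞 F)) [𝔭.IsPrime] (h𝔭 : 𝔭 ≠ ⊥) (hl : (l : 𝓞 F) ∉ 𝔭) :
    ((hζ.autToPow F (frobAt F E 𝔭) : (ZMod l)ˣ) : ZMod l) = (Nat.card (𝓞 F ⧸ 𝔭) : ZMod l) := by
  have h1 := helper12.frobAt_apply_of_pow_eq_one F E 𝔭 h𝔭 hζ.pow_eq_one hl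
  have h2 := hζ.autToPow_spec F (frobAt F E 𝔭)
  have hlpos : 0 < l := (Fact.out : l.Prime).pos
  have h3 : ζ ^ (Nat.card (𝓞 F ⧸ 𝔭) % l) = ζ ^ Nat.card (𝓞 F ⧸ 𝔭) := by
    conv_lhs => rw [hζ.eq_orderOf]
    exact pow_mod_orderOf ζ _
  rw [h1, ← h3] at h2
  have h4 := hζ.pow_inj (ZMod.val_lt _) (Nat.mod_lt _ hlpos) h2
  have h5 := congrArg (Nat.cast : ℕ → ZMod l) h4
  rw [ZMod.natCast_zmod_val, ZMod.natCast_mod] at h5
  exact h5

/-- The cyclotomic character of a product of Frobenius elements. -/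
theorem autToPow_prod_frobAt (s : Multiset (Ideal (𝓞 F)))
    (hs : ∀ 𝔭 ∈ s, 𝔭.IsPrime ∧ 𝔭 ≠ ⊥ ∧ (l : 𝓞 F) ∉ 𝔭) :
    ((hζ.autToPow F (s.map (frobAt F E)).prod : (ZMod l)ˣ) : ZMod l) =
      (Ideal.absNorm s.prod : ZMod l) := by
  induction s using Multiset.induction_on with
  | empty =>
    simp [Ideal.one_eq_top]
  | cons 𝔭 s ih =>
    obtain ⟨hp, hp0, hpl⟩ := hs 𝔭 (Multiset.mem_cons_self 𝔭 s)
    haveI := hp
    have ih' := ih (fun 𝔮 h𝔮 => hs 𝔮 (Multiset.mem_cons_of_mem h𝔮))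
    have hN : Nat.card (𝓞 F ⧸ 𝔭) = Ideal.absNorm 𝔭 := by
      rw [Ideal.absNorm_apply, Submodule.cardQuot_apply]
    rw [Multiset.map_cons, Multiset.prod_cons, Multiset.prod_cons, map_mul, Units.val_mul,
      map_mul, Nat.cast_mul, ih', autToPow_frobAt l F E hζ 𝔭 hp0 hpl, hN]

/-- The cyclotomic character of the Artin symbol of an ideal prime to `l` is `N 𝔞 mod l`. -/
theorem autToPow_artinMap (𝔞 : (Ideal (𝓞 F))⁰)
    (h : ∀ 𝔭 ∈ UniqueFactorizationMonoid.normalizedFactors (𝔞 : Ideal (𝓞 F)),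
      (l : 𝓞 F) ∉ 𝔭) :
    ((hζ.autToPow F (artinMap F E 𝔞) : (ZMod l)ˣ) : ZMod l) =
      (Ideal.absNorm (𝔞 : Ideal (𝓞 F)) : ZMod l) := by
  have h0 : (𝔞 : Ideal (𝓞 F)) ≠ ⊥ := nonZeroDivisors.coe_ne_zero 𝔞
  rw [artinMap_apply, autToPow_prod_frobAt l F E hζ _ (fun 𝔭 h𝔭 => ?_),
    Ideal.prod_normalizedFactors_eq_self h0]
  have hprime := UniqueFactorizationMonoid.prime_of_normalized_factor 𝔭 h𝔭
  exact ⟨Ideal.isPrime_of_prime hprime, hprime.ne_zero, h 𝔭 h𝔭⟩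

end Cyclo

section Norm

variable (l : ℕ) [Fact l.Prime] (F : Type*) [Field F] [NumberField F]

/-- The norm of `c ≡ 1 mod l` is `≡ 1 mod l`. -/
theorem norm_cast_eq_one (c d : 𝓞 F) (h : c - 1 = (l : 𝓞 F) * d) :
    ((Algebra.norm ℤ c : ℤ) : ZMod l) = 1 := by
  classical
  have hc : c = 1 + l • d := by
    rw [nsmul_eq_mul, ← h]; ring
  set b := NumberField.RingOfIntegers.basis F with hb
  rw [Algebra.norm_eq_matrix_det b c]
  change (Int.castRingHom (ZMod l)) ((Algebra.leftMulMatrix b) c).det = 1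
  rw [RingHom.map_det, hc, map_add, map_one, map_nsmul, map_add, map_one, map_nsmul]
  have : l • (Int.castRingHom (ZMod l)).mapMatrix ((Algebra.leftMulMatrix b) d) = 0 := by
    rw [← Nat.cast_smul_eq_nsmul (ZMod l), ZMod.natCast_self, zero_smul]
  rw [this, add_zero, Matrix.det_one]

/-- The absolute norm of `(c)`, `c ≡ 1 mod l`, is `± 1 mod l`. -/
theorem absNorm_span_singleton_cast (c d : 𝓞 F) (h : c - 1 = (l : 𝓞 F) * d) :
    (Ideal.absNorm (Ideal.span {c}) : ZMod l) = 1 ∨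
      (Ideal.absNorm (Ideal.span {c}) : ZMod l) = -1 := by
  have h1 := norm_cast_eq_one l F c d h
  rw [Ideal.absNorm_span_singleton]
  rcases Int.natAbs_eq (Algebra.norm ℤ c) with h2 | h2
  · left
    rw [h2, Int.cast_natCast] at h1
    exact h1
  · right
    rw [h2, Int.cast_neg, Int.cast_natCast, neg_eq_iff_eq_neg] at h1
    exact h1

end Norm

end Fermat.Agent.S55.helper87
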