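import Mathlib

/-!
# S55 / REC-N2 (helper87), part 1: group-theoretic lemmas

* `not_pow_of_not_pow` : in a finite cyclic group `G` with `p ^ m ∣ #G`, if `x` is not a `p`-th
  power and `p ^ m ∤ f`, then `x ^ f` is not a `p ^ m`-th power.
* `zmod_unit_not_pow` : the same for `(ZMod l)ˣ`, in the shape delivered by the auxiliary prime
  lemma (REC-N1).
* `card_eq_prime_pow_of_forall_pow_eq_one` : a finite cyclic group killed by `p ^ m` has order
  `p ^ k`.
-/

set_option autoImplicit false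

namespace Fermat.Agent.S55.helper87

/-- In a finite cyclic group `G` with `p ^ m ∣ #G`: if `x` is not a `p`-th power and
`p ^ m ∤ f`, then `x ^ f` is not a `p ^ m`-th power. -/
theorem not_pow_of_not_pow {G : Type*} [Group G] [Finite G] [IsCyclic G] {p m f : ℕ}
    (hp : p.Prime) (hcard : p ^ m ∣ Nat.card G) (x : G) (hx : ¬ ∃ y : G, y ^ p = x)
    (hf : ¬ p ^ m ∣ f) : ¬ ∃ y : G, y ^ (p ^ m) = x ^ f := by
  rintro ⟨y, hy⟩
  obtain ⟨g, hg⟩ := IsCyclic.exists_monoid_generator (α := G)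
  obtain ⟨a, rfl⟩ := hg x
  obtain ⟨b, rfl⟩ := hg y
  have hord : orderOf g = Nat.card G := orderOf_eq_card_of_forall_mem_powers hg
  have hpa : ¬ p ∣ a := by
    rintro ⟨a', rfl⟩
    exact hx ⟨g ^ a', by rw [← pow_mul, mul_comm]⟩
  rw [← pow_mul, ← pow_mul, pow_eq_pow_iff_modEq, hord] at hy
  have h1 : b * p ^ m ≡ a * f [MOD p ^ m] := hy.of_dvd hcard
  have h2 : p ^ m ∣ a * f := by
    have h3 : b * p ^ m ≡ 0 [MOD p ^ m] := (Nat.modEq_zero_iff_dvd).mpr (dvd_mul_left _ _)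
    exact (Nat.modEq_zero_iff_dvd).mp (h1.symm.trans h3)
  have hcop : Nat.Coprime (p ^ m) a :=
    Nat.Coprime.pow_left m ((Nat.Prime.coprime_iff_not_dvd hp).mpr hpa)
  exact hf (hcop.dvd_of_dvd_mul_left h2)

/-- A finite cyclic group all of whose elements are killed by `p ^ m` has order `p ^ k`. -/
theorem card_eq_prime_pow_of_forall_pow_eq_one {G : Type*} [Group G] [Finite G] [IsCyclic G]
    {p m : ℕ} (hp : p.Prime) (h : ∀ g : G, g ^ (p ^ m) = 1) : ∃ k : ℕ, Nat.card G = p ^ k := by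
  have h1 : Monoid.exponent G ∣ p ^ m := Monoid.exponent_dvd_of_forall_pow_eq_one h
  rw [IsCyclic.exponent_eq_card] at h1
  obtain ⟨k, -, hk⟩ := (Nat.dvd_prime_pow hp).mp h1
  exact ⟨k, hk⟩

/-- The shape needed for REC-N2: `l ≡ 1 mod p ^ m`, `q` not a `p`-th power residue mod `l`,
`p ^ m ∤ f`; then a unit of `ZMod l` congruent to `q ^ f` is not a `p ^ m`-th power. -/
theorem zmod_unit_not_pow {l p m q f : ℕ} [Fact l.Prime] (hp : p.Prime)
    (hl : l % p ^ m = 1) (hq : ¬ ∃ y : ZMod l, y ^ p = (q : ZMod l)) (hf : ¬ p ^ m ∣ f)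
    (u : (ZMod l)ˣ) (hu : (u : ZMod l) = (q : ZMod l) ^ f) :
    ¬ ∃ y : (ZMod l)ˣ, y ^ (p ^ m) = u := by
  have hq0 : (q : ZMod l) ≠ 0 := by
    intro h0
    apply hq
    refine ⟨0, ?_⟩
    rw [h0, zero_pow hp.ne_zero]
  set w : (ZMod l)ˣ := Units.mk0 (q : ZMod l) hq0 with hw
  have huw : u = w ^ f := by
    apply Units.ext
    rw [hu, Units.val_pow_eq_pow_val, hw, Units.val_mk0]
  have hcard : p ^ m ∣ Nat.card (ZMod l)ˣ := by
    rw [Nat.card_eq_fintype_card, ZMod.card_units l]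
    have h1 : p ^ m ∣ l - l % p ^ m := Nat.dvd_sub_mod l
    rwa [hl] at h1
  have hwp : ¬ ∃ y : (ZMod l)ˣ, y ^ p = w := by
    rintro ⟨y, hy⟩
    apply hq
    refine ⟨(y : ZMod l), ?_⟩
    rw [← Units.val_pow_eq_pow_val, hy, hw, Units.val_mk0]
  rw [huw]
  exact not_pow_of_not_pow hp hcard w hwp hf

/-- `-1` is a `p ^ m`-th power in any commutative ring for odd `p`. -/
theorem neg_one_pow_prime_pow {R : Type*} [Monoid R] [HasDistribNeg R] {p : ℕ} (hp : p.Prime)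
    (hp2 : p ≠ 2) (m : ℕ) : (-1 : R) ^ (p ^ m) = -1 :=
  Odd.neg_one_pow ((hp.odd_of_ne_two hp2).pow)

end Fermat.Agent.S55.helper87
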