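import Mathlib
import Fermat.Agent.S14.helper12_ArtinNorm
import Fermat.Agent.S14.helper12_ArtinFunct
import Fermat.Agent.S55.helper87_RecGroup
import Fermat.Agent.S55.helper87_RecSub
import Fermat.Agent.S55.helper87_RecCyclo

/-!
# S55 / REC-N2 (helper87): the auxiliary cyclic cyclotomic extension

`F` a number field, `p` an odd prime, `l` a prime with `l ≡ 1 mod p ^ m`, `E = F(ζ_l)`,
`χ : Gal(E/F) → (ZMod l)ˣ` the cyclotomic character, `H = χ⁻¹((ZMod l)ˣ ^ (p ^ m))` and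
`M = E ^ H` (`auxField`).  Then `M/F` is cyclic of `p`-power degree, unramified outside `l`,
`Frob_v = res (N v mod l)` and the Artin symbol of `(c)` is trivial for `c ≡ 1 mod l`.

* `exists_aux_cyclic_of` : REC-N2 of the interface `helper11_RecInterface`, with the auxiliary
  prime lemma REC-N1 as an explicit hypothesis `hN1`.
-/

set_option autoImplicit false
set_option linter.unusedSectionVars false
set_option linter.style.haveILetI false

open scoped NumberField IsMulCommutative nonZeroDivisors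
open IsDedekindDomain

namespace Fermat.Agent.S55.helper87

open Fermat.Agent.S14

section Aux

variable (p m l : ℕ) [Fact l.Prime] (F E : Type*) [Field F] [NumberField F] [Field E]
  [NumberField E] [Algebra F E] [IsAbelianGalois F E] [IsCyclotomicExtension {l} F E]
  {ζ : E} (hζ : IsPrimitiveRoot ζ l)

/-- The automorphisms whose cyclotomic character is a `p ^ m`-th power. -/
noncomputable def auxSubgroup : Subgroup Gal(E/F) :=
  (powMonoidHom (p ^ m) : (ZMod l)ˣ →* (ZMod l)ˣ).range.comap (hζ.autToPow F)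

/-- The auxiliary field: the fixed field of `auxSubgroup`. -/
noncomputable def auxField : IntermediateField F E :=
  IntermediateField.fixedField (auxSubgroup p m l F E hζ)

lemma mem_auxSubgroup (τ : Gal(E/F)) :
    τ ∈ auxSubgroup p m l F E hζ ↔ ∃ y : (ZMod l)ˣ, y ^ (p ^ m) = hζ.autToPow F τ := by
  unfold auxSubgroup
  rw [Subgroup.mem_comap, MonoidHom.mem_range]
  rfl

lemma restrict_auxField_eq_one_iff (τ : Gal(E/F)) :
    AlgEquiv.restrictNormalHom (auxField p m l F E hζ) τ = 1 ↔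
      ∃ y : (ZMod l)ˣ, y ^ (p ^ m) = hζ.autToPow F τ := by
  unfold auxField
  rw [restrictNormalHom_fixedField_eq_one_iff, mem_auxSubgroup]

include hζ in
lemma isCyclic_gal_cyclo : IsCyclic Gal(E/F) :=
  isCyclic_of_injective (hζ.autToPow F) (hζ.autToPow_injective F)

theorem auxField_isCyclic : IsCyclic Gal(auxField p m l F E hζ/F) := by
  haveI := isCyclic_gal_cyclo l F E hζ
  exact isCyclic_of_surjective (AlgEquiv.restrictNormalHom (auxField p m l F E hζ))
    (AlgEquiv.restrictNormalHom_surjective E)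

theorem auxField_finrank (hp : p.Prime) :
    ∃ k : ℕ, Module.finrank F (auxField p m l F E hζ) = p ^ k := by
  haveI := auxField_isCyclic p m l F E hζ
  rw [← IsGalois.card_aut_eq_finrank F (auxField p m l F E hζ)]
  apply card_eq_prime_pow_of_forall_pow_eq_one hp (m := m)
  intro g
  obtain ⟨τ, rfl⟩ := AlgEquiv.restrictNormalHom_surjective (F := F)
    (K₁ := auxField p m l F E hζ) E g
  rw [← map_pow, restrict_auxField_eq_one_iff]
  exact ⟨hζ.autToPow F τ, by rw [map_pow]⟩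

/-- A prime of `E` over a prime of `F` not containing `l` does not contain `l`. -/
lemma natCast_not_mem_of_under {A B : Type*} [CommRing A] [CommRing B] [Algebra A B]
    (P : Ideal B) (hl : (l : A) ∉ P.under A) : (l : B) ∉ P := by
  intro h
  apply hl
  rw [Ideal.under_def, Ideal.mem_comap, map_natCast]
  exact h

theorem auxField_unramified (P : Ideal (𝓞 (auxField p m l F E hζ))) (hP : P.IsPrime)
    (hP0 : P ≠ ⊥) (hl : (l : 𝓞 (auxField p m l F E hζ)) ∉ P)
    (σ : Gal(auxField p m l F E hζ/F))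
    (hσ : ∀ x : 𝓞 (auxField p m l F E hζ), σ • x - x ∈ P) : σ = 1 := by
  haveI := hP
  obtain ⟨PE, hPEp, hPE0, hPEP⟩ := helper12.exists_prime_over (auxField p m l F E hζ) E P hP0
  haveI := hPEp
  have hlPE : (l : 𝓞 E) ∉ PE :=
    natCast_not_mem_of_under l (A := 𝓞 (auxField p m l F E hζ)) PE (by rw [hPEP]; exact hl)
  apply inertia_trivial_under F E (auxField p m l F E hζ) PE hPE0
    (cyclo_inertia_trivial l F E hζ PE hPE0 hlPE) σ
  rw [hPEP]
  exact hσ

theorem auxField_frobAt (𝔭 : Ideal (𝓞 F)) [𝔭.IsPrime] (h𝔭 : 𝔭 ≠ ⊥) (hl : (l : 𝓞 F) ∉ 𝔭) :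
    frobAt F (auxField p m l F E hζ) 𝔭 =
      AlgEquiv.restrictNormalHom (auxField p m l F E hζ) (frobAt F E 𝔭) := by
  apply frobAt_eq_restrict F E (auxField p m l F E hζ) 𝔭 h𝔭
  intro PE hPEp hPE𝔭
  haveI := hPEp
  have hPE0 : PE ≠ ⊥ := helper12.ne_bot_of_under_ne_bot F E PE (by rw [hPE𝔭]; exact h𝔭)
  exact cyclo_inertia_trivial l F E hζ PE hPE0
    (natCast_not_mem_of_under l (A := 𝓞 F) PE (by rw [hPE𝔭]; exact hl))

theorem auxField_frobAt_ne_one (hp : p.Prime) (hlm : l % p ^ m = 1)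
    (𝔭 : Ideal (𝓞 F)) [𝔭.IsPrime] (h𝔭 : 𝔭 ≠ ⊥) (hl : (l : 𝓞 F) ∉ 𝔭) (q n : ℕ)
    (hcard : Nat.card (𝓞 F ⧸ 𝔭) = q ^ n) (hq : ¬ ∃ y : ZMod l, y ^ p = (q : ZMod l))
    (hn : ¬ p ^ m ∣ n) : frobAt F (auxField p m l F E hζ) 𝔭 ≠ 1 := by
  rw [auxField_frobAt p m l F E hζ 𝔭 h𝔭 hl, Ne, restrict_auxField_eq_one_iff]
  apply zmod_unit_not_pow hp hlm hq hn
  rw [autToPow_frobAt l F E hζ 𝔭 h𝔭 hl, hcard, Nat.cast_pow]

theorem auxField_artinMap_eq_one (hp : p.Prime) (hp2 : p ≠ 2) (c d : 𝓞 F)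
    (hcd : c - 1 = (l : 𝓞 F) * d) (h : Ideal.span {c} ∈ (Ideal (𝓞 F))⁰) :
    artinMap F (auxField p m l F E hζ) ⟨Ideal.span {c}, h⟩ = 1 := by
  have hfac : ∀ 𝔭 ∈ UniqueFactorizationMonoid.normalizedFactors (Ideal.span {c}),
      (l : 𝓞 F) ∉ 𝔭 := by
    intro 𝔭 h𝔭 hl𝔭
    have hprime := UniqueFactorizationMonoid.prime_of_normalized_factor 𝔭 h𝔭
    haveI : 𝔭.IsPrime := Ideal.isPrime_of_prime hprime
    have hdvd := UniqueFactorizationMonoid.dvd_of_mem_normalizedFactors h𝔭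
    have hc𝔭 : c ∈ 𝔭 := (Ideal.le_of_dvd hdvd) (Ideal.mem_span_singleton_self c)
    have h1 : (1 : 𝓞 F) ∈ 𝔭 := by
      have : (1 : 𝓞 F) = c - (l : 𝓞 F) * d := by rw [← hcd]; ring
      rw [this]
      exact 𝔭.sub_mem hc𝔭 (𝔭.mul_mem_right d hl𝔭)
    exact (Ideal.IsPrime.ne_top inferInstance) ((Ideal.eq_top_iff_one 𝔭).mpr h1)
  rw [artinMap_eq_restrict F E (auxField p m l F E hζ) ⟨Ideal.span {c}, h⟩ (fun 𝔭 h𝔭 => ?_),
    restrict_auxField_eq_one_iff]
  · have h1 := autToPow_artinMap l F E hζ ⟨Ideal.span {c}, h⟩ hfac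
    rcases absNorm_span_singleton_cast l F c d hcd with h2 | h2
    · refine ⟨1, ?_⟩
      rw [one_pow]
      apply Units.ext
      rw [h1, Units.val_one]
      exact h2.symm
    · refine ⟨-1, ?_⟩
      rw [neg_one_pow_prime_pow hp hp2 m]
      apply Units.ext
      rw [h1, Units.val_neg, Units.val_one]
      exact h2.symm
  · have hprime := UniqueFactorizationMonoid.prime_of_normalized_factor 𝔭 h𝔭
    haveI : 𝔭.IsPrime := Ideal.isPrime_of_prime hprime
    exact auxField_frobAt p m l F E hζ 𝔭 hprime.ne_zero (hfac 𝔭 h𝔭)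

end Aux

section Residue

variable (F : Type*) [Field F] [NumberField F]

/-- The residue field of a finite place has `q ^ n` elements, `q` the residue characteristic. -/
lemma exists_residue_char (v : HeightOneSpectrum (𝓞 F)) :
    ∃ q n : ℕ, q.Prime ∧ 0 < n ∧ Nat.card (𝓞 F ⧸ v.asIdeal) = q ^ n ∧
      (q : 𝓞 F) ∈ v.asIdeal := by
  haveI : v.asIdeal.IsMaximal := v.isMaximal
  letI : Field (𝓞 F ⧸ v.asIdeal) := Ideal.Quotient.field v.asIdeal
  haveI : Finite (𝓞 F ⧸ v.asIdeal) := Ideal.finiteQuotientOfFreeOfNeBot _ v.ne_bot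
  haveI := Fintype.ofFinite (𝓞 F ⧸ v.asIdeal)
  obtain ⟨q, -, n, hq, hcard⟩ := FiniteField.card' (𝓞 F ⧸ v.asIdeal)
  refine ⟨q, n, hq, n.pos, by rw [Nat.card_eq_fintype_card, hcard], ?_⟩
  have h1 : ((Fintype.card (𝓞 F ⧸ v.asIdeal) : ℕ) : 𝓞 F ⧸ v.asIdeal) = 0 :=
    Nat.cast_card_eq_zero _
  rw [hcard] at h1
  have h2 : ((q ^ (n : ℕ) : ℕ) : 𝓞 F) ∈ v.asIdeal := by
    rw [← Ideal.Quotient.eq_zero_iff_mem, map_natCast]
    exact h1
  rw [Nat.cast_pow] at h2
  exact Ideal.IsPrime.mem_of_pow_mem inferInstance _ h2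

end Residue

/-- **REC-N2**, with the auxiliary prime lemma REC-N1 (`hN1`) as an explicit hypothesis. -/
theorem exists_aux_cyclic_of (p : ℕ) [Fact p.Prime] (hp2 : p ≠ 2)
    (hN1 : ∀ (m : ℕ), 0 < m → ∀ (Q : Finset ℕ), (∀ q ∈ Q, q.Prime) → ∀ T : Finset ℕ,
      ∃ l : ℕ, l.Prime ∧ l ∉ T ∧ l % p ^ m = 1 ∧
        ∀ q ∈ Q, ¬ ∃ y : ZMod l, y ^ p = (q : ZMod l))
    (F : Type) [Field F] [NumberField F]
    (V : Finset (HeightOneSpectrum (𝓞 F))) (T : Finset ℕ) :
    ∃ (l : ℕ) (M : Type) (_ : Field M) (_ : NumberField M) (_ : Algebra F M)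
      (_ : IsAbelianGalois F M),
      l.Prime ∧ l ∉ T ∧ IsCyclic Gal(M/F) ∧ (∃ k : ℕ, Module.finrank F M = p ^ k) ∧
      (∀ v ∈ V, (l : 𝓞 F) ∉ v.asIdeal) ∧
      (∀ P : Ideal (𝓞 M), P.IsPrime → P ≠ ⊥ → (l : 𝓞 M) ∉ P →
        ∀ σ : Gal(M/F), (∀ x : 𝓞 M, σ • x - x ∈ P) → σ = 1) ∧
      (∀ v ∈ V, frobAt F M v.asIdeal ≠ 1) ∧
      (∀ (c : 𝓞 F) (hc : c ≠ 0), (∃ d : 𝓞 F, c - 1 = (l : 𝓞 F) * d) →
        artinMap F M ⟨Ideal.span {c}, mem_nonZeroDivisors_of_ne_zero
          (by simpa [Ideal.span_singleton_eq_bot] using hc)⟩ = 1) := by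
  classical
  have hp : p.Prime := Fact.out
  choose q n hq hn hcard hqmem using exists_residue_char F
  set m : ℕ := 1 + V.sum n with hm
  obtain ⟨l, hl, hlT, hlm, hlQ⟩ := hN1 m (by omega) (V.image q)
    (fun x hx => by
      obtain ⟨v, -, rfl⟩ := Finset.mem_image.mp hx
      exact hq v) (T ∪ V.image q)
  haveI : Fact l.Prime := ⟨hl⟩
  have hlT' : l ∉ T := fun h => hlT (Finset.mem_union_left _ h)
  have hlV : ∀ v ∈ V, (l : 𝓞 F) ∉ v.asIdeal := by
    intro v hv hmem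
    have hne : l ≠ q v := by
      rintro rfl
      exact hlT (Finset.mem_union_right _ (Finset.mem_image_of_mem q hv))
    have hcop : Nat.Coprime l (q v) := (Nat.coprime_primes hl (hq v)).mpr hne
    have h1 : ((Nat.gcd l (q v) : ℕ) : ℤ) = l * Nat.gcdA l (q v) + q v * Nat.gcdB l (q v) :=
      Nat.gcd_eq_gcd_ab l (q v)
    rw [hcop.gcd_eq_one] at h1
    have h2 := congrArg (Int.cast : ℤ → 𝓞 F) h1
    push_cast at h2
    have h3 : (1 : 𝓞 F) ∈ v.asIdeal := by
      rw [h2]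
      exact v.asIdeal.add_mem (v.asIdeal.mul_mem_right _ hmem)
        (v.asIdeal.mul_mem_right _ (hqmem v))
    exact v.isPrime.ne_top ((Ideal.eq_top_iff_one _).mpr h3)
  have hnm : ∀ v ∈ V, ¬ p ^ m ∣ n v := by
    intro v hv hdvd
    have h1 : n v ≤ V.sum n := Finset.single_le_sum (fun _ _ => Nat.zero_le _) hv
    have h2 : p ^ m ≤ n v := Nat.le_of_dvd (hn v) hdvd
    have h3 : m < p ^ m := Nat.lt_pow_self hp.one_lt
    omega
  haveI : IsAbelianGalois F (CyclotomicField l F) :=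
    IsCyclotomicExtension.isAbelianGalois {l} F (CyclotomicField l F)
  have hζ : IsPrimitiveRoot (IsCyclotomicExtension.zeta l F (CyclotomicField l F)) l :=
    IsCyclotomicExtension.zeta_spec l F (CyclotomicField l F)
  refine ⟨l, auxField p m l F (CyclotomicField l F) hζ, inferInstance, inferInstance,
    inferInstance, inferInstance, hl, hlT', ?_, ?_, hlV, ?_, ?_, ?_⟩
  · exact auxField_isCyclic p m l F (CyclotomicField l F) hζ
  · exact auxField_finrank p m l F (CyclotomicField l F) hζ hp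
  · intro P hP hP0 hlP σ hσ
    exact auxField_unramified p m l F (CyclotomicField l F) hζ P hP hP0 hlP σ hσ
  · intro v hv
    haveI := v.isPrime
    exact auxField_frobAt_ne_one p m l F (CyclotomicField l F) hζ hp hlm v.asIdeal v.ne_bot
      (hlV v hv) (q v) (n v) (hcard v) (hlQ (q v) (Finset.mem_image_of_mem q hv)) (hnm v hv)
  · rintro c hc ⟨d, hd⟩
    exact auxField_artinMap_eq_one p m l F (CyclotomicField l F) hζ hp hp2 c d hd _

end Fermat.Agent.S55.helper87
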