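import Mathlib
import Fermat.Agent.S55.helper87_RecN2

/-!
# S55 / REC-N2 (helper87): the auxiliary cyclic extension of degree exactly `p`

Same construction as `exists_aux_cyclic_of` with `m = 1`: `M = F(ζ_l)^H`,
`H = χ⁻¹((ZMod l)ˣ ^ p)`.  Then `[M : F] ∣ p`, and `Frob_v ≠ 1` at the places `v` whose residue
degree is prime to `p` (in particular at all places when `F = ℚ`).

* `card_dvd_of_forall_pow_eq_one` : a finite cyclic group killed by `n` has order dividing `n`.
* `auxField_finrank_dvd` : `[auxField p m l F E hζ : F] ∣ p ^ m`.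
* `exists_aux_cyclic_degP_of` : the degree `p` auxiliary extension, with REC-N1 as hypothesis.
-/

set_option autoImplicit false
set_option linter.unusedSectionVars false
set_option linter.style.haveILetI false

open scoped NumberField IsMulCommutative nonZeroDivisors
open IsDedekindDomain

namespace Fermat.Agent.S55.helper87

open Fermat.Agent.S14

/-- A finite cyclic group all of whose elements are killed by `n` has order dividing `n`. -/
theorem card_dvd_of_forall_pow_eq_one {G : Type*} [Group G] [IsCyclic G] {n : ℕ}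
    (h : ∀ g : G, g ^ n = 1) : Nat.card G ∣ n := by
  have h1 : Monoid.exponent G ∣ n := Monoid.exponent_dvd_of_forall_pow_eq_one h
  rwa [IsCyclic.exponent_eq_card] at h1

section Aux

variable (p m l : ℕ) [Fact l.Prime] (F E : Type*) [Field F] [NumberField F] [Field E]
  [NumberField E] [Algebra F E] [IsAbelianGalois F E] [IsCyclotomicExtension {l} F E]
  {ζ : E} (hζ : IsPrimitiveRoot ζ l)

theorem auxField_finrank_dvd : Module.finrank F (auxField p m l F E hζ) ∣ p ^ m := by
  haveI := auxField_isCyclic p m l F E hζ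
  rw [← IsGalois.card_aut_eq_finrank F (auxField p m l F E hζ)]
  apply card_dvd_of_forall_pow_eq_one
  intro g
  obtain ⟨τ, rfl⟩ := AlgEquiv.restrictNormalHom_surjective (F := F)
    (K₁ := auxField p m l F E hζ) E g
  rw [← map_pow, restrict_auxField_eq_one_iff]
  exact ⟨hζ.autToPow F τ, by rw [map_pow]⟩

end Aux

/-- **REC-N2, degree `p` version**, with the auxiliary prime lemma REC-N1 (`hN1`) as an explicit
hypothesis.  `hV` : the residue degrees of the places in `V` are prime to `p`. -/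
theorem exists_aux_cyclic_degP_of (p : ℕ) [Fact p.Prime] (hp2 : p ≠ 2)
    (hN1 : ∀ (m : ℕ), 0 < m → ∀ (Q : Finset ℕ), (∀ q ∈ Q, q.Prime) → ∀ T : Finset ℕ,
      ∃ l : ℕ, l.Prime ∧ l ∉ T ∧ l % p ^ m = 1 ∧
        ∀ q ∈ Q, ¬ ∃ y : ZMod l, y ^ p = (q : ZMod l))
    (F : Type) [Field F] [NumberField F]
    (V : Finset (HeightOneSpectrum (𝓞 F)))
    (hV : ∀ v ∈ V, ∀ q n : ℕ, q.Prime → Nat.card (𝓞 F ⧸ v.asIdeal) = q ^ n → ¬ p ∣ n)
    (T : Finset ℕ) :
    ∃ (l : ℕ) (M : Type) (_ : Field M) (_ : NumberField M) (_ : Algebra F M)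
      (_ : IsAbelianGalois F M),
      l.Prime ∧ l ∉ T ∧ l % p = 1 ∧ IsCyclic Gal(M/F) ∧ Module.finrank F M ∣ p ∧
      (V.Nonempty → Module.finrank F M = p) ∧
      (∀ v ∈ V, (l : 𝓞 F) ∉ v.asIdeal) ∧
      (∀ P : Ideal (𝓞 M), P.IsPrime → P ≠ ⊥ → (l : 𝓞 M) ∉ P →
        ∀ σ : Gal(M/F), (∀ x : 𝓞 M, σ • x - x ∈ P) → σ = 1) ∧
      (∀ v ∈ V, frobAt F M v.asIdeal ≠ 1) ∧
      (∀ (c : 𝓞 F) (hc : c ≠ 0), (∃ d : 𝓞 F, c - 1 = (l : 𝓞 F) * d) →
        artinMap F M ⟨Ideal.span {c}, mem_nonZeroDivisors_of_ne_zero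
          (by simpa [Ideal.span_singleton_eq_bot] using hc)⟩ = 1) := by
  classical
  have hp : p.Prime := Fact.out
  choose q n hq hn hcard hqmem using exists_residue_char F
  obtain ⟨l, hl, hlT, hlm, hlQ⟩ := hN1 1 Nat.one_pos (V.image q)
    (fun x hx => by
      obtain ⟨v, -, rfl⟩ := Finset.mem_image.mp hx
      exact hq v) (T ∪ V.image q)
  haveI : Fact l.Prime := ⟨hl⟩
  have hlT' : l ∉ T := fun h => hlT (Finset.mem_union_left _ h)
  have hlV : ∀ v ∈ V, (l : 𝓞 F) ∉ v.asIdeal := by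
    intro v hv hmem
    have hne : l ≠ q v := by
      rintro rfl
      exact hlT (Finset.mem_union_right _ (Finset.mem_image_of_mem q hv))
    have hcop : Nat.Coprime l (q v) := (Nat.coprime_primes hl (hq v)).mpr hne
    have h1 : ((Nat.gcd l (q v) : ℕ) : ℤ) = l * Nat.gcdA l (q v) + q v * Nat.gcdB l (q v) :=
      Nat.gcd_eq_gcd_ab l (q v)
    rw [hcop.gcd_eq_one] at h1
    have h2 := congrArg (Int.cast : ℤ → 𝓞 F) h1
    push_cast at h2
    have h3 : (1 : 𝓞 F) ∈ v.asIdeal := by
      rw [h2]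
      exact v.asIdeal.add_mem (v.asIdeal.mul_mem_right _ hmem)
        (v.asIdeal.mul_mem_right _ (hqmem v))
    exact v.isPrime.ne_top ((Ideal.eq_top_iff_one _).mpr h3)
  have hnm : ∀ v ∈ V, ¬ p ^ 1 ∣ n v := by
    intro v hv
    rw [pow_one]
    exact hV v hv (q v) (n v) (hq v) (hcard v)
  haveI : IsAbelianGalois F (CyclotomicField l F) :=
    IsCyclotomicExtension.isAbelianGalois {l} F (CyclotomicField l F)
  have hζ : IsPrimitiveRoot (IsCyclotomicExtension.zeta l F (CyclotomicField l F)) l :=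
    IsCyclotomicExtension.zeta_spec l F (CyclotomicField l F)
  have hfrob : ∀ v ∈ V, frobAt F (auxField p 1 l F (CyclotomicField l F) hζ) v.asIdeal ≠ 1 := by
    intro v hv
    haveI := v.isPrime
    exact auxField_frobAt_ne_one p 1 l F (CyclotomicField l F) hζ hp hlm v.asIdeal v.ne_bot
      (hlV v hv) (q v) (n v) (hcard v) (hlQ (q v) (Finset.mem_image_of_mem q hv)) (hnm v hv)
  have hdvd : Module.finrank F (auxField p 1 l F (CyclotomicField l F) hζ) ∣ p := by
    have := auxField_finrank_dvd p 1 l F (CyclotomicField l F) hζ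
    rwa [pow_one] at this
  refine ⟨l, auxField p 1 l F (CyclotomicField l F) hζ, inferInstance, inferInstance,
    inferInstance, inferInstance, hl, hlT', ?_, ?_, hdvd, ?_, hlV, ?_, hfrob, ?_⟩
  · rwa [pow_one] at hlm
  · exact auxField_isCyclic p 1 l F (CyclotomicField l F) hζ
  · rintro ⟨v, hv⟩
    rcases (Nat.dvd_prime hp).mp hdvd with h1 | h1
    · exfalso
      apply hfrob v hv
      have hcard1 : Nat.card Gal(auxField p 1 l F (CyclotomicField l F) hζ/F) = 1 := by
        rw [IsGalois.card_aut_eq_finrank, h1]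
      haveI : Subsingleton Gal(auxField p 1 l F (CyclotomicField l F) hζ/F) :=
        (Nat.card_eq_one_iff_unique.mp hcard1).1
      exact Subsingleton.elim _ _
    · exact h1
  · intro P hP hP0 hlP σ hσ
    exact auxField_unramified p 1 l F (CyclotomicField l F) hζ P hP hP0 hlP σ hσ
  · rintro c hc ⟨d, hd⟩
    exact auxField_artinMap_eq_one p 1 l F (CyclotomicField l F) hζ hp hp2 c d hd _

end Fermat.Agent.S55.helper87
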