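import Fermat.Agent.S55.helper87_RecN2DegP
import Fermat.Agent.S55.helper15_RecN1Wiring

/-!
# S55 / REC-N2 (helper87): the degree `p` auxiliary cyclic extension, unconditional

`exists_aux_cyclic_degP` : `exists_aux_cyclic_degP_of` with REC-N1 discharged by
`Fermat.Agent.S55.helper15.exists_aux_prime_multi_uncond`.
-/

set_option autoImplicit false

open scoped NumberField nonZeroDivisors
open IsDedekindDomain

namespace Fermat.Agent.S55.helper87

open Fermat.Agent.S14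

/-- **REC-N2, degree `p` version**, unconditional. -/
theorem exists_aux_cyclic_degP (p : ℕ) [Fact p.Prime] (hp2 : p ≠ 2)
    (F : Type) [Field F] [NumberField F]
    (V : Finset (HeightOneSpectrum (𝓞 F)))
    (hV : ∀ v ∈ V, ∀ q n : ℕ, q.Prime → Nat.card (𝓞 F ⧸ v.asIdeal) = q ^ n → ¬ p ∣ n)
    (T : Finset ℕ) :
    ∃ (l : ℕ) (M : Type) (_ : Field M) (_ : NumberField M) (_ : Algebra F M)
      (_ : IsAbelianGalois F M),
      l.Prime ∧ l ∉ T ∧ l % p = 1 ∧ IsCyclic Gal(M/F) ∧ Module.finrank F M ∣ p ∧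
      (V.Nonempty → Module.finrank F M = p) ∧
      (∀ v ∈ V, (l : 𝓞 F) ∉ v.asIdeal) ∧
      (∀ P : Ideal (𝓞 M), P.IsPrime → P ≠ ⊥ → (l : 𝓞 M) ∉ P →
        ∀ σ : Gal(M/F), (∀ x : 𝓞 M, σ • x - x ∈ P) → σ = 1) ∧
      (∀ v ∈ V, frobAt F M v.asIdeal ≠ 1) ∧
      (∀ (c : 𝓞 F) (hc : c ≠ 0), (∃ d : 𝓞 F, c - 1 = (l : 𝓞 F) * d) →
        artinMap F M ⟨Ideal.span {c}, mem_nonZeroDivisors_of_ne_zero
          (by simpa [Ideal.span_singleton_eq_bot] using hc)⟩ = 1) :=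
  exists_aux_cyclic_degP_of p hp2
    (fun m hm Q hQ T =>
      Fermat.Agent.S55.helper15.exists_aux_prime_multi_uncond p hp2 m hm Q hQ T)
    F V hV T

end Fermat.Agent.S55.helper87
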