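import Fermat.Agent.S55.helper87_RecN2
import Fermat.Agent.S55.helper15_RecN1

/-!
# S55 / REC-N2 (helper87): `exists_aux_cyclic`, verbatim interface statement

The statement of `exists_aux_cyclic` in `helper11_RecInterface` (with `ZetaPoleLemma` the copy
`Fermat.Agent.S55.helper15.ZetaPoleLemma` landed with REC-N1).
-/

set_option autoImplicit false

open scoped NumberField nonZeroDivisors
open IsDedekindDomain

namespace Fermat.Agent.S55.helper87

open Fermat.Agent.S14

/-- **REC-N2** (auxiliary cyclic cyclotomic extension with elementary reciprocity).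
`F` any number field, `p` odd, `V` a finite set of finite places, `T` a finite set of excluded
rational primes.  There are a prime `l ∉ T`, prime to `V`, and a cyclic extension `M/F` of
`p`-power degree inside `F(ζ_l)` such that
(a) `M/F` is unramified outside `l`;
(b) every `v ∈ V` has non-trivial Frobenius in `M/F`;
(c) the Artin symbol of `(c)` is trivial for every `c ∈ 𝓞 F` with `c ≡ 1 mod l`. -/
theorem exists_aux_cyclic (hZ : Fermat.Agent.S55.helper15.ZetaPoleLemma) (p : ℕ)
    [Fact p.Prime] (hp2 : p ≠ 2)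
    (F : Type) [Field F] [NumberField F]
    (V : Finset (HeightOneSpectrum (𝓞 F))) (T : Finset ℕ) :
    ∃ (l : ℕ) (M : Type) (_ : Field M) (_ : NumberField M) (_ : Algebra F M)
      (_ : IsAbelianGalois F M),
      l.Prime ∧ l ∉ T ∧ IsCyclic Gal(M/F) ∧ (∃ k : ℕ, Module.finrank F M = p ^ k) ∧
      (∀ v ∈ V, (l : 𝓞 F) ∉ v.asIdeal) ∧
      (∀ P : Ideal (𝓞 M), P.IsPrime → P ≠ ⊥ → (l : 𝓞 M) ∉ P →
        ∀ σ : Gal(M/F), (∀ x : 𝓞 M, σ • x - x ∈ P) → σ = 1) ∧
      (∀ v ∈ V, frobAt F M v.asIdeal ≠ 1) ∧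
      (∀ (c : 𝓞 F) (hc : c ≠ 0), (∃ d : 𝓞 F, c - 1 = (l : 𝓞 F) * d) →
        artinMap F M ⟨Ideal.span {c}, mem_nonZeroDivisors_of_ne_zero
          (by simpa [Ideal.span_singleton_eq_bot] using hc)⟩ = 1) :=
  exists_aux_cyclic_of p hp2
    (fun m hm Q hQ T => Fermat.Agent.S55.helper15.exists_aux_prime_multi hZ p hp2 m hm Q hQ T)
    F V T

end Fermat.Agent.S55.helper87
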