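import Fermat.Agent.S55.helper87_RecN2DegPWiring
import Fermat.Agent.S14.helper91_Dictionary

/-!
# S55 (helper87): a global character `x : G_ℚ → ℤ/p` unramified at `p` with `x(Frob_p) ≠ 0`

Prelude-vocabulary form of the degree `p` auxiliary cyclic field (`helper87_RecN2DegP`) over `ℚ`:
* `ratPlace p` : the place `(p)` of `ℚ`, `card_quotient_ratPlace`, `eq_ratPlace_of_mem`;
* `exists_global_char` : `l ≡ 1 mod p` (`l ≠ p`, `l ∉ T`), `E/ℚ` cyclic of degree `p` inside
  `ℚbar`, `x : G_ℚ →* Multiplicative (ZMod p)` surjective with kernel `Gal(ℚbar/E)`, trivial on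
  the inertia groups at all primes `q ≠ l` and NONTRIVIAL on every Frobenius element at `p`.
-/

set_option autoImplicit false
set_option linter.unusedSectionVars false
set_option linter.style.haveILetI false

open scoped NumberField nonZeroDivisors
open IsDedekindDomain

namespace Fermat.Agent.S55.helper87

open Fermat.Agent.S14 Fermat.Agent.S54.helper91 Fermat.Agent.S14.helper91

section RatPlace

variable (p : ℕ) [hp : Fact p.Prime]

/-- `p` is a prime element of `𝓞 ℚ`. -/
theorem prime_natCast_ringOfIntegers_rat : Prime ((p : ℕ) : 𝓞 ℚ) := by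
  have h1 : Prime ((p : ℕ) : ℤ) := Nat.prime_iff_prime_int.mp hp.out
  have h2 : Rat.ringOfIntegersEquiv ((p : ℕ) : 𝓞 ℚ) = ((p : ℕ) : ℤ) := map_natCast _ p
  rw [← h2] at h1
  exact (MulEquiv.prime_iff Rat.ringOfIntegersEquiv.toMulEquiv).mp h1

/-- the place `(p)` of `ℚ` -/
noncomputable def ratPlace : HeightOneSpectrum (𝓞 ℚ) where
  asIdeal := Ideal.span {((p : ℕ) : 𝓞 ℚ)}
  isPrime := (Ideal.span_singleton_prime (prime_natCast_ringOfIntegers_rat p).ne_zero).mpr
    (prime_natCast_ringOfIntegers_rat p)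
  ne_bot := by
    rw [Ne, Ideal.span_singleton_eq_bot]
    exact (prime_natCast_ringOfIntegers_rat p).ne_zero

theorem ratPlace_asIdeal : (ratPlace p).asIdeal = Ideal.span {((p : ℕ) : 𝓞 ℚ)} := rfl

theorem card_quotient_ratPlace : Nat.card (𝓞 ℚ ⧸ (ratPlace p).asIdeal) = p := by
  rw [ratPlace_asIdeal, ← Submodule.cardQuot_apply, ← Ideal.absNorm_apply,
    Ideal.absNorm_span_singleton]
  have h1 : ((p : ℕ) : 𝓞 ℚ) = algebraMap ℤ (𝓞 ℚ) (p : ℤ) := by simp
  rw [h1, Algebra.norm_algebraMap_of_basis (NumberField.RingOfIntegers.basis ℚ)]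
  have h2 : Fintype.card (Module.Free.ChooseBasisIndex ℤ (𝓞 ℚ)) = 1 := by
    rw [← Module.finrank_eq_card_chooseBasisIndex, NumberField.RingOfIntegers.rank,
      Module.finrank_self]
  rw [h2, pow_one, Int.natAbs_natCast]

/-- a prime ideal of `𝓞 ℚ` containing `p` is `(p)` -/
theorem eq_ratPlace_of_mem (P : Ideal (𝓞 ℚ)) [P.IsPrime] (h : ((p : ℕ) : 𝓞 ℚ) ∈ P) :
    P = (ratPlace p).asIdeal := by
  have hmax : (ratPlace p).asIdeal.IsMaximal := (ratPlace p).isMaximal
  have hle : (ratPlace p).asIdeal ≤ P := by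
    rw [ratPlace_asIdeal, Ideal.span_singleton_le_iff_mem]
    exact h
  exact (hmax.eq_of_le (Ideal.IsPrime.ne_top inferInstance) hle).symm

end RatPlace

section Main

variable (p : ℕ) [hp : Fact p.Prime]

/-- two distinct primes are not both in a proper ideal -/
lemma natCast_notMem_of_prime_ne {R : Type*} [CommRing R] (P : Ideal R) (hP : P ≠ ⊤)
    {q l : ℕ} (hq : q.Prime) (hl : l.Prime) (hne : q ≠ l) (hqP : (q : R) ∈ P) :
    (l : R) ∉ P := by
  intro hlP
  have hcop : Nat.Coprime l q := (Nat.coprime_primes hl hq).mpr (Ne.symm hne)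
  have h1 : ((Nat.gcd l q : ℕ) : ℤ) = l * Nat.gcdA l q + q * Nat.gcdB l q :=
    Nat.gcd_eq_gcd_ab l q
  rw [hcop.gcd_eq_one] at h1
  have h2 := congrArg (Int.cast : ℤ → R) h1
  push_cast at h2
  apply hP
  rw [Ideal.eq_top_iff_one, h2]
  exact P.add_mem (P.mul_mem_right _ hlP) (P.mul_mem_right _ hqP)

/-- **TOP-LOC, the character `x`**: a character `x : G_ℚ → ℤ/p` of order `p`, cut out by a cyclic
field `E/ℚ` of degree `p`, unramified outside one auxiliary prime `l ≡ 1 mod p` (`l ≠ p`,
`l ∉ T`), which is NONTRIVIAL on every Frobenius element at `p`. -/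
theorem exists_global_char (hp2 : p ≠ 2) (T : Finset ℕ) :
    ∃ (l : ℕ) (E : IntermediateField ℚ Qbar) (x : GQ →* Multiplicative (ZMod p)),
      l.Prime ∧ l ∉ T ∧ l ≠ p ∧ l % p = 1 ∧
      FiniteDimensional ℚ E ∧ IsGalois ℚ E ∧ Module.finrank ℚ E = p ∧
      x.ker = E.fixingSubgroup ∧ Function.Surjective x ∧
      (∀ q : ℕ, q.Prime → q ≠ l → ∀ A : ValuationSubring Qbar, A.LiesOverPrime q →
          ∀ σ ∈ A.inertiaSubgroupIn ℚ, x σ = 1) ∧
      (∀ (A : ValuationSubring Qbar) (σ : GQ), A.LiesOverPrime p →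
          A.IsFrobeniusAt σ p → x σ ≠ 1) := by
  classical
  have hpp : p.Prime := hp.out
  obtain ⟨l, M, _, _, _, _, hl, hlT, hlp, hcyc, -, hfin, hlV, hunr, hfrob, -⟩ :=
    exists_aux_cyclic_degP p hp2 ℚ {ratPlace p} (by
      intro v hv q n hq hcard
      rw [Finset.mem_singleton] at hv
      subst hv
      rw [card_quotient_ratPlace] at hcard
      intro hpn
      obtain ⟨k, rfl⟩ := hpn
      have h1 : q ∣ p := by
        rw [hcard]
        exact dvd_pow_self q (Nat.mul_ne_zero hpp.ne_zero (by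
          rintro rfl
          rw [mul_zero, pow_zero] at hcard
          exact hpp.one_lt.ne' hcard))
      have h2 : q = p := (Nat.prime_dvd_prime_iff_eq hq hpp).mp h1
      rw [h2] at hcard
      have h3 : p ^ 1 = p ^ (p * k) := by rw [pow_one]; exact hcard
      have h4 := Nat.pow_right_injective hpp.two_le h3
      have h5 : p ∣ 1 := ⟨k, h4⟩
      exact hpp.one_lt.ne' (Nat.dvd_one.mp h5)) (insert p T)
  have hfinM : Module.finrank ℚ M = p := hfin ⟨ratPlace p, Finset.mem_singleton_self _⟩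
  have hfrobp : frobAt ℚ M (ratPlace p).asIdeal ≠ 1 :=
    hfrob (ratPlace p) (Finset.mem_singleton_self _)
  have hlp' : l ≠ p := fun h => hlT (by rw [h]; exact Finset.mem_insert_self _ _)
  have hlT' : l ∉ T := fun h => hlT (Finset.mem_insert_of_mem h)
  -- embed `M` into `ℚbar`
  haveI : Algebra.IsAlgebraic ℚ M := Algebra.IsAlgebraic.of_finite ℚ M
  let φ : M →ₐ[ℚ] Qbar := IsAlgClosed.lift
  letI : Algebra M Qbar := φ.toRingHom.toAlgebra
  haveI : IsScalarTower ℚ M Qbar := IsScalarTower.of_algebraMap_eq (fun r => (φ.commutes r).symm)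
  haveI : IsGalois ℚ M := inferInstance
  haveI : Normal ℚ M := inferInstance
  have hmap : ∀ m : M, algebraMap M Qbar m = φ m := fun m => rfl
  -- the character
  have hcardG : Nat.card Gal(M/ℚ) = p := by rw [IsGalois.card_aut_eq_finrank, hfinM]
  have hcardZ : Nat.card (Multiplicative (ZMod p)) = p := by
    rw [Nat.card_eq_fintype_card, Fintype.card_multiplicative, ZMod.card]
  let e : Gal(M/ℚ) ≃* Multiplicative (ZMod p) := mulEquivOfPrimeCardEq hcardG hcardZ
  let x : GQ →* Multiplicative (ZMod p) :=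
    e.toMonoidHom.comp (AlgEquiv.restrictNormalHom M)
  have hx : ∀ σ : GQ, x σ = 1 ↔ AlgEquiv.restrictNormalHom M σ = 1 := fun σ => by
    show e (AlgEquiv.restrictNormalHom M σ) = 1 ↔ _
    exact MulEquiv.map_eq_one_iff e
  have hres : ∀ σ : GQ, AlgEquiv.restrictNormalHom M σ = 1 ↔ ∀ m : M, σ (φ m) = φ m := by
    intro σ
    constructor
    · intro h m
      have := AlgEquiv.restrictNormal_commutes σ M m
      rw [hmap, hmap] at this
      rw [← this]
      have h' : AlgEquiv.restrictNormal σ M = 1 := h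
      rw [h']
      rfl
    · intro h
      ext m
      apply (algebraMap M Qbar).injective
      have := AlgEquiv.restrictNormal_commutes σ M m
      rw [hmap, hmap] at this
      show algebraMap M Qbar (AlgEquiv.restrictNormal σ M m) = _
      rw [hmap, this, h m]
      rfl
  refine ⟨l, φ.fieldRange, x, hl, hlT', hlp', hlp, ?_, ?_, ?_, ?_, ?_, ?_, ?_⟩
  · exact (AlgEquiv.ofInjectiveField φ).toLinearEquiv.finiteDimensional
  · exact IsGalois.of_algEquiv (AlgEquiv.ofInjectiveField φ)
  · exact (LinearEquiv.finrank_eq (AlgEquiv.ofInjectiveField φ).toLinearEquiv).symm.trans hfinM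
  · ext σ
    rw [MonoidHom.mem_ker, hx, hres, IntermediateField.mem_fixingSubgroup_iff]
    constructor
    · rintro h y ⟨m, rfl⟩
      exact h m
    · intro h m
      exact h (φ m) ⟨m, rfl⟩
  · intro z
    have := normal_Qbar
    obtain ⟨τ, rfl⟩ := e.surjective z
    obtain ⟨σ, rfl⟩ := AlgEquiv.restrictNormalHom_surjective (F := ℚ) (K₁ := M) Qbar τ
    exact ⟨σ, rfl⟩
  · intro q hq hql A hA σ hσ
    rw [hx]
    have h1 := restrict_mem_inertia M A hσ
    have hqP : (q : 𝓞 M) ∈ primeOf M A := natCast_mem_primeOf M A hA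
    have hP0 : primeOf M A ≠ ⊥ := by
      intro h
      rw [h, Ideal.mem_bot] at hqP
      have : (q : 𝓞 M) ≠ 0 := by exact_mod_cast hq.ne_zero
      exact this hqP
    have hlP : (l : 𝓞 M) ∉ primeOf M A :=
      natCast_notMem_of_prime_ne (primeOf M A) (Ideal.IsPrime.ne_top inferInstance) hq hl hql hqP
    exact hunr (primeOf M A) inferInstance hP0 hlP _ (fun y => h1 y)
  · intro A σ hA hσ
    rw [Ne, hx]
    obtain ⟨h1, h2⟩ := restrict_frobenius M A hσ
    have hpP : (p : 𝓞 M) ∈ primeOf M A := natCast_mem_primeOf M A hA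
    have hP0 : primeOf M A ≠ ⊥ := by
      intro h
      rw [h, Ideal.mem_bot] at hpP
      have : (p : 𝓞 M) ≠ 0 := by exact_mod_cast hpp.ne_zero
      exact this hpP
    have hlP : (l : 𝓞 M) ∉ primeOf M A :=
      natCast_notMem_of_prime_ne (primeOf M A) (Ideal.IsPrime.ne_top inferInstance) hpp hl
        (Ne.symm hlp') hpP
    have hunder : (primeOf M A).under (𝓞 ℚ) = (ratPlace p).asIdeal := by
      apply eq_ratPlace_of_mem
      rw [Ideal.under_def, Ideal.mem_comap, map_natCast]
      exact hpP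
    have hfr : IsArithFrobAt (𝓞 ℚ) (AlgEquiv.restrictNormalHom M σ) (primeOf M A) := by
      intro y
      rw [hunder, card_quotient_ratPlace]
      exact h2 y
    have h3 := helper12.eq_frobAt_of_isArithFrobAt ℚ M (primeOf M A) hP0
      (hunr (primeOf M A) inferInstance hP0 hlP) _ hfr
    rw [h3, hunder]
    exact hfrobp

end Main

end Fermat.Agent.S55.helper87
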