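import Fermat.Agent.S55.helper30_TopLocBDefs
import Fermat.Agent.S55.helper62_CupSymbol
import Fermat.Agent.S55.helper87_TopLocSymbol

/-!
# S55 / TOP-LOC-INV (helper87): the local core of the value formula

`Ω = PadicAlgCl p`, `d : helper30.TopLocData p ζ` (unramified character `x0`, Kummer cocycle `y0`
of `p` w.r.t. `ζ0 = padicEmbedding p ζ`).  For a finite extension `K/ℚ_p` inside `Ω` containing a
root of unity `ζ_K = ζ0 ^ a` (`a ∈ (ℤ/p)ˣ`):

* `exists_level` : a finite Galois level `M/K` inside `Ω` containing a given finite extension of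
  `ℚ_p` and a given element;
* `inv_chiClass_intermediate` : the value of the symbol, intermediate-field form;
* `bigX`, `bigY`, `exists_chars`, `exists_char₀` : the characters `a · x0`, `a⁻¹ · y0` of
  `Gal(Ω/K)` and their descent to `Gal(M/K)`, `Gal(L0/ℚ_p)`;
* `exists_level_cocycle` : THE LOCAL CORE: a finite Galois level `M/K` and a 2-cocycle `c` on
  `Gal(M/K)` inflating to `x0 ⊗ y0` on `Gal(Ω/K)`, with
  `inv_K [ζ_K ^ c] = [K : ℚ_p] · a / p`.
-/

set_option autoImplicit false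
set_option linter.unusedSectionVars false
set_option linter.style.haveILetI false

open groupCohomology ExtCitation

noncomputable section

namespace Fermat.Agent.S55.helper87

open Fermat.Agent.S55 Fermat.Agent.S55.helper8 Fermat.Agent.S55.helper11

/-! ## Generic tools -/

/-- descent of a homomorphism along a surjection -/
lemma exists_descent {G H A : Type*} [Group G] [Group H] [Group A] (f : G →* H)
    (hf : Function.Surjective f) (X : G →* A) (hX : f.ker ≤ X.ker) :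
    ∃ Xbar : H →* A, ∀ g, Xbar (f g) = X g :=
  ⟨f.liftOfSurjective hf ⟨X, hX⟩, fun g =>
    f.liftOfRightInverse_comp_apply (Function.surjInv hf) (Function.rightInverse_surjInv hf)
      ⟨X, hX⟩ g⟩

/-- a product of two additive characters is a 2-cocycle for trivial coefficients -/
lemma mul_mem_ker_d₂₃ {G : Type} [Group G] {k : Type} [CommRing k]
    (X Y : G → k) (hX : ∀ g h, X (g * h) = X g + X h) (hY : ∀ g h, Y (g * h) = Y g + Y h) :
    (fun s : G × G => X s.1 * Y s.2) ∈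
      LinearMap.ker (d₂₃ (Rep.trivial k G k)).hom := by
  rw [LinearMap.mem_ker]
  funext ⟨g, h, j⟩
  rw [d₂₃_hom_apply]
  show X h * Y j - X (g * h) * Y j + X g * Y (h * j) - X g * Y h = 0
  rw [hX g h, hY h j]
  ring

/-- exponent arithmetic: `(z ^ a.val) ^ (a⁻¹ * y).val = z ^ y.val` for `z ^ p = 1` -/
lemma pow_val_unit_mul {p : ℕ} [Fact p.Prime] {M : Type*} [Monoid M] {z : M} (hz : z ^ p = 1)
    (a : (ZMod p)ˣ) (y : ZMod p) :
    (z ^ ((a : ZMod p)).val) ^ (((a⁻¹ : (ZMod p)ˣ) : ZMod p) * y).val = z ^ y.val := by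
  haveI : NeZero p := ⟨(Fact.out : p.Prime).ne_zero⟩
  rw [← pow_mul, pow_eq_pow_mod _ hz, ← ZMod.val_mul]
  congr 2
  rw [← mul_assoc, ← Units.val_mul, mul_inv_cancel, Units.val_one, one_mul]

section Level

variable (p : ℕ) [Fact p.Prime]

/-- a finite Galois level over `K` containing a given finite extension of `ℚ_p` and an element -/
theorem exists_level (K L₀ : IntermediateField ℚ_[p] (PadicAlgCl p)) [FiniteDimensional ℚ_[p] K]
    [FiniteDimensional ℚ_[p] L₀] (π : PadicAlgCl p) :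
    ∃ (M : IntermediateField K (PadicAlgCl p)) (_ : FiniteDimensional K M) (_ : IsGalois K M),
      (∀ x ∈ L₀, x ∈ M) ∧ π ∈ M := by
  haveI hAlg : Algebra.IsAlgebraic ℚ_[p] (PadicAlgCl p) := PadicAlgCl.isAlgebraic p
  haveI : Algebra.IsAlgebraic K (PadicAlgCl p) := Algebra.IsAlgebraic.tower_top (K := ℚ_[p]) K
  haveI : IsAlgClosure K (PadicAlgCl p) := ⟨inferInstance, inferInstance⟩
  haveI : Normal K (PadicAlgCl p) := IsAlgClosure.normal _ _
  haveI : CharZero K := charZero_of_injective_algebraMap (algebraMap ℚ_[p] K).injective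
  haveI : FiniteDimensional ℚ_[p]
      (IntermediateField.adjoin ℚ_[p] ({π} : Set (PadicAlgCl p))) :=
    IntermediateField.adjoin.finiteDimensional (Algebra.IsIntegral.isIntegral π)
  let E₀ : IntermediateField ℚ_[p] (PadicAlgCl p) :=
    K ⊔ (L₀ ⊔ IntermediateField.adjoin ℚ_[p] ({π} : Set (PadicAlgCl p)))
  have hKE : K ≤ E₀ := le_sup_left
  haveI : FiniteDimensional ℚ_[p] E₀ := IntermediateField.finiteDimensional_sup _ _
  let E : IntermediateField K (PadicAlgCl p) := IntermediateField.extendScalars hKE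
  haveI : FiniteDimensional ℚ_[p] E := inferInstanceAs (FiniteDimensional ℚ_[p] E₀)
  haveI : FiniteDimensional K E := FiniteDimensional.right ℚ_[p] K E
  let M : IntermediateField K (PadicAlgCl p) :=
    IntermediateField.normalClosure K E (PadicAlgCl p)
  haveI : FiniteDimensional K M := normalClosure.is_finiteDimensional K E (PadicAlgCl p)
  haveI : Normal K M := normalClosure.normal K E (PadicAlgCl p)
  have hEM : E ≤ M := IntermediateField.le_normalClosure E
  refine ⟨M, inferInstance, ⟨⟩, fun x hx => hEM ?_, hEM ?_⟩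
  · show x ∈ E₀
    exact (le_sup_left.trans le_sup_right : L₀ ≤ E₀) hx
  · show π ∈ E₀
    exact (le_sup_right.trans le_sup_right :
      IntermediateField.adjoin ℚ_[p] ({π} : Set (PadicAlgCl p)) ≤ E₀)
      (IntermediateField.mem_adjoin_simple_self ℚ_[p] π)

end Level
section Intermediate

variable (I : LocInv) (q : ℕ) [Fact q.Prime] (Ω : Type) [Field Ω] [Algebra ℚ_[q] Ω]
  (L₀ : IntermediateField ℚ_[q] Ω) [FiniteDimensional ℚ_[q] L₀] [IsGalois ℚ_[q] L₀]
  (K : IntermediateField ℚ_[q] Ω) [FiniteDimensional ℚ_[q] K]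
  (M : IntermediateField K Ω) [FiniteDimensional K M] [IsGalois K M]

/-- the inclusion `L₀ → M` of intermediate fields of `Ω` -/
def inclOfLe (hle : ∀ x ∈ L₀, x ∈ M) : ↥L₀ →+* ↥M where
  toFun x := ⟨(x : Ω), hle x x.2⟩
  map_one' := rfl
  map_mul' _ _ := rfl
  map_zero' := rfl
  map_add' _ _ := rfl

/-- **Value of the symbol, intermediate-field form.** -/
theorem inv_chiClass_intermediate (hle : ∀ x ∈ L₀, x ∈ M)
    (h : IsUnram q ℚ_[q] L₀) (φ : L₀ ≃ₐ[ℚ_[q]] L₀) (hφ : IsFrob q ℚ_[q] L₀ φ)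
    (N : ℕ) [NeZero N] (χ₀ : (L₀ ≃ₐ[ℚ_[q]] L₀) →* Multiplicative (ZMod N))
    (χ : (M ≃ₐ[K] M) →* Multiplicative (ZMod N))
    (hχ : ∀ (σ : M ≃ₐ[K] M) (τ : L₀ ≃ₐ[ℚ_[q]] L₀),
      (∀ x : L₀, ((τ x : L₀) : Ω) = ((σ ⟨(x : Ω), hle x x.2⟩ : M) : Ω)) → χ σ = χ₀ τ)
    (qK : (↥K)ˣ) (hqK : ((qK : ↥K) : Ω) = (q : Ω)) :
    I.inv q K M (chiClass K M N χ qK) =
      ((((Module.finrank ℚ_[q] K : ℚ) * ((Multiplicative.toAdd (χ₀ φ)).val : ℚ)) / (N : ℚ) : ℚ) :
        QZ) := by
  letI : Algebra ↥L₀ ↥M := (inclOfLe q Ω L₀ K M hle).toAlgebra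
  haveI : IsScalarTower ℚ_[q] ↥L₀ ↥M := IsScalarTower.of_algebraMap_eq (fun x => rfl)
  have hχeq : χ = χ₀.comp (locHom ℚ_[q] L₀ K M) := by
    ext σ
    refine congrArg _ (hχ σ (locHom ℚ_[q] L₀ K M σ) (fun x => ?_))
    have := algebraMap_locHom ℚ_[q] L₀ K M σ x
    exact congrArg Subtype.val this
  have hq0 : (q : ℚ_[q]) ≠ 0 := by exact_mod_cast (Fact.out : q.Prime).ne_zero
  have hqK' : qK = Units.map (algebraMap ℚ_[q] K : ℚ_[q] →* K) (Units.mk0 (q : ℚ_[q]) hq0) := by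
    ext
    rw [hqK]
    simp
  rw [hχeq, hqK', inv_chiClass_baseChange_of_isUnram I q ℚ_[q] L₀ K M h φ hφ N χ₀,
    ord_padic_prime q _ rfl]
  simp only [Int.cast_one, one_mul]
  rw [← AddCircle.coe_nsmul, nsmul_eq_mul, mul_div_assoc]

end Intermediate

section Core

variable (p : ℕ) [Fact p.Prime]

/-- Galois theory of `Ω / K` -/
lemma normal_padicAlgCl (K : IntermediateField ℚ_[p] (PadicAlgCl p)) :
    Normal K (PadicAlgCl p) := by
  haveI hAlg : Algebra.IsAlgebraic ℚ_[p] (PadicAlgCl p) := PadicAlgCl.isAlgebraic p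
  haveI : Algebra.IsAlgebraic K (PadicAlgCl p) := Algebra.IsAlgebraic.tower_top (K := ℚ_[p]) K
  haveI : IsAlgClosure K (PadicAlgCl p) := ⟨inferInstance, inferInstance⟩
  exact IsAlgClosure.normal _ _

lemma normal_padicAlgCl_bot : Normal ℚ_[p] (PadicAlgCl p) := by
  haveI hAlg : Algebra.IsAlgebraic ℚ_[p] (PadicAlgCl p) := PadicAlgCl.isAlgebraic p
  haveI : IsAlgClosure ℚ_[p] (PadicAlgCl p) := ⟨inferInstance, hAlg⟩
  exact IsAlgClosure.normal _ _

lemma restrictNormalHom_surjective_padic (K : IntermediateField ℚ_[p] (PadicAlgCl p))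
    (M : IntermediateField K (PadicAlgCl p)) [Normal K M] :
    Function.Surjective (AlgEquiv.restrictNormalHom (F := K) (K₁ := PadicAlgCl p) M) := by
  haveI := normal_padicAlgCl p K
  exact AlgEquiv.restrictNormalHom_surjective _

lemma restrictNormalHom_surjective_padic_bot (L : IntermediateField ℚ_[p] (PadicAlgCl p))
    [Normal ℚ_[p] L] :
    Function.Surjective (AlgEquiv.restrictNormalHom (F := ℚ_[p]) (K₁ := PadicAlgCl p) L) := by
  haveI := normal_padicAlgCl_bot p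
  exact AlgEquiv.restrictNormalHom_surjective _

variable {p}
variable {ζ : AlgebraicClosure ℚ} (hζ : IsPrimitiveRoot ζ p) (d : helper30.TopLocData p ζ)
  (K : IntermediateField ℚ_[p] (PadicAlgCl p))
  (ζK : (↥K)ˣ) (a : (ZMod p)ˣ)
  (hζK : ((ζK : ↥K) : PadicAlgCl p) = helper30.zeta0 p ζ ^ ((a : ZMod p)).val)

include hζ hζK in
/-- elements of `Gal(Ω/K)` fix `ζ0` -/
lemma apply_zeta0_of_fix (g : PadicAlgCl p ≃ₐ[K] PadicAlgCl p) :
    g (helper30.zeta0 p ζ) = helper30.zeta0 p ζ := by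
  have hzp : helper30.zeta0 p ζ ^ p = 1 := (helper30.zeta0_isPrimitiveRoot hζ).pow_eq_one
  have hζ0K : helper30.zeta0 p ζ =
      ((ζK : ↥K) : PadicAlgCl p) ^ (((a⁻¹ : (ZMod p)ˣ) : ZMod p)).val := by
    have := pow_val_unit_mul hzp a 1
    rw [mul_one, ZMod.val_one, pow_one] at this
    rw [hζK, this]
  rw [hζ0K, map_pow]
  congr 1
  exact g.commutes ζK.1

include hζ hζK in
/-- `y0` is additive on `Gal(Ω/K)` -/
lemma y0_add_of_fix (g h : PadicAlgCl p ≃ₐ[K] PadicAlgCl p) :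
    d.y0 ((g * h).restrictScalars ℚ_[p]) =
      d.y0 (g.restrictScalars ℚ_[p]) + d.y0 (h.restrictScalars ℚ_[p]) := by
  have hp : p.Prime := Fact.out
  haveI : NeZero p := ⟨hp.ne_zero⟩
  have hz := helper30.zeta0_isPrimitiveRoot hζ
  have hzp : helper30.zeta0 p ζ ^ p = 1 := hz.pow_eq_one
  have h1 : (g * h) d.π0 = helper30.zeta0 p ζ ^
      ((d.y0 (g.restrictScalars ℚ_[p])).val + (d.y0 (h.restrictScalars ℚ_[p])).val) *
        d.π0 := by
    have e1 : h d.π0 = helper30.zeta0 p ζ ^ (d.y0 (h.restrictScalars ℚ_[p])).val * d.π0 :=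
      d.y0_spec (h.restrictScalars ℚ_[p])
    have e2 : g d.π0 = helper30.zeta0 p ζ ^ (d.y0 (g.restrictScalars ℚ_[p])).val * d.π0 :=
      d.y0_spec (g.restrictScalars ℚ_[p])
    rw [AlgEquiv.mul_apply, e1, map_mul, map_pow, apply_zeta0_of_fix hζ K ζK a hζK g, e2,
      pow_add]
    ring
  have h2 : (g * h) d.π0 = helper30.zeta0 p ζ ^
      (d.y0 ((g * h).restrictScalars ℚ_[p])).val * d.π0 :=
    d.y0_spec ((g * h).restrictScalars ℚ_[p])
  rw [h2] at h1
  have h3 := mul_right_cancel₀ d.π0_ne_zero h1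
  have h4 : (d.y0 ((g * h).restrictScalars ℚ_[p])).val =
      ((d.y0 (g.restrictScalars ℚ_[p])).val + (d.y0 (h.restrictScalars ℚ_[p])).val) % p := by
    refine hz.pow_inj (ZMod.val_lt _) (Nat.mod_lt _ hp.pos) ?_
    rw [h3, ← pow_eq_pow_mod _ hzp]
  apply ZMod.val_injective p
  rw [h4, ZMod.val_add]

/-- the character `a · x0` of `Gal(Ω/K)` -/
def bigX : (PadicAlgCl p ≃ₐ[K] PadicAlgCl p) →* Multiplicative (ZMod p) where
  toFun g := Multiplicative.ofAdd ((a : ZMod p) * d.x0 (g.restrictScalars ℚ_[p]))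
  map_one' := by
    show Multiplicative.ofAdd ((a : ZMod p) * d.x0 1) = 1
    rw [d.x0_one, mul_zero]; rfl
  map_mul' g h := by
    show Multiplicative.ofAdd ((a : ZMod p) * d.x0 ((g.restrictScalars ℚ_[p]) *
      (h.restrictScalars ℚ_[p]))) = _
    rw [d.x0_mul, mul_add]; rfl

/-- the character `a · x0` of `Gal(Ω/ℚ_p)` -/
def bigX₀ : (PadicAlgCl p ≃ₐ[ℚ_[p]] PadicAlgCl p) →* Multiplicative (ZMod p) where
  toFun g := Multiplicative.ofAdd ((a : ZMod p) * d.x0 g)
  map_one' := by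
    show Multiplicative.ofAdd ((a : ZMod p) * d.x0 1) = 1
    rw [d.x0_one, mul_zero]; rfl
  map_mul' g h := by
    show Multiplicative.ofAdd ((a : ZMod p) * d.x0 (g * h)) = _
    rw [d.x0_mul, mul_add]; rfl

/-- the character `a⁻¹ · y0` of `Gal(Ω/K)` (`K ∋ ζ_K = ζ0 ^ a`) -/
def bigY : (PadicAlgCl p ≃ₐ[K] PadicAlgCl p) →* Multiplicative (ZMod p) where
  toFun g := Multiplicative.ofAdd
    (((a⁻¹ : (ZMod p)ˣ) : ZMod p) * d.y0 (g.restrictScalars ℚ_[p]))
  map_one' := by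
    have h1 : d.y0 ((1 : PadicAlgCl p ≃ₐ[K] PadicAlgCl p).restrictScalars ℚ_[p]) = 0 := by
      have := y0_add_of_fix hζ d K ζK a hζK 1 1
      rw [mul_one] at this
      exact left_eq_add.mp this
    show Multiplicative.ofAdd (((a⁻¹ : (ZMod p)ˣ) : ZMod p) *
      d.y0 ((1 : PadicAlgCl p ≃ₐ[K] PadicAlgCl p).restrictScalars ℚ_[p])) = 1
    rw [h1, mul_zero]; rfl
  map_mul' g h := by
    show Multiplicative.ofAdd (((a⁻¹ : (ZMod p)ˣ) : ZMod p) *
      d.y0 ((g * h).restrictScalars ℚ_[p])) = _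
    rw [y0_add_of_fix hζ d K ζK a hζK, mul_add]; rfl

/-- descent of `a · x0` to `Gal(L0/ℚ_p)` -/
theorem exists_char₀ :
    ∃ χ₀ : (d.L0 ≃ₐ[ℚ_[p]] d.L0) →* Multiplicative (ZMod p),
      (∀ g : PadicAlgCl p ≃ₐ[ℚ_[p]] PadicAlgCl p,
        haveI := d.isGalois
        Multiplicative.toAdd (χ₀ (AlgEquiv.restrictNormalHom d.L0 g)) = (a : ZMod p) * d.x0 g) ∧
      Multiplicative.toAdd (χ₀ d.φ0) = (a : ZMod p) := by
  haveI := d.isGalois
  have hker : (AlgEquiv.restrictNormalHom (F := ℚ_[p]) (K₁ := PadicAlgCl p) d.L0).ker ≤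
      (bigX₀ d a).ker := by
    intro g hg
    rw [MonoidHom.mem_ker]
    have h1 : d.x0 g = 0 := by
      rw [d.x0_eq_zero_iff, ← IntermediateField.restrictNormalHom_ker]
      exact hg
    show Multiplicative.ofAdd ((a : ZMod p) * d.x0 g) = 1
    rw [h1, mul_zero]; rfl
  obtain ⟨χ₀, hχ₀⟩ := exists_descent _ (restrictNormalHom_surjective_padic_bot p d.L0)
    (bigX₀ d a) hker
  refine ⟨χ₀, fun g => by rw [hχ₀]; rfl, ?_⟩
  obtain ⟨g, hg1, hg⟩ := d.exists_x0_eq_one
  rw [← hg, hχ₀]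
  show (a : ZMod p) * d.x0 g = a
  rw [hg1, mul_one]

include hζ hζK in
/-- descent of `a · x0` and `a⁻¹ · y0` to a level `M ∋ π0`, `M ⊇ L0` -/
theorem exists_chars (M : IntermediateField K (PadicAlgCl p)) [Normal K M]
    (hL0M : ∀ x ∈ d.L0, x ∈ M) (hπM : d.π0 ∈ M) :
    ∃ xM ψM : (M ≃ₐ[K] M) →* Multiplicative (ZMod p),
      (∀ g : PadicAlgCl p ≃ₐ[K] PadicAlgCl p,
        Multiplicative.toAdd (xM (AlgEquiv.restrictNormalHom M g)) =
          (a : ZMod p) * d.x0 (g.restrictScalars ℚ_[p])) ∧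
      (∀ g : PadicAlgCl p ≃ₐ[K] PadicAlgCl p,
        Multiplicative.toAdd (ψM (AlgEquiv.restrictNormalHom M g)) =
          ((a⁻¹ : (ZMod p)ˣ) : ZMod p) * d.y0 (g.restrictScalars ℚ_[p])) := by
  have hkerM : ∀ g : PadicAlgCl p ≃ₐ[K] PadicAlgCl p,
      g ∈ (AlgEquiv.restrictNormalHom (F := K) (K₁ := PadicAlgCl p) M).ker →
        ∀ x ∈ M, g x = x := by
    intro g hg x hx
    rw [IntermediateField.restrictNormalHom_ker] at hg
    exact (IntermediateField.mem_fixingSubgroup_iff M g).1 hg x hx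
  have hXker : (AlgEquiv.restrictNormalHom (F := K) (K₁ := PadicAlgCl p) M).ker ≤
      (bigX d K a).ker := by
    intro g hg
    rw [MonoidHom.mem_ker]
    have h1 : d.x0 (g.restrictScalars ℚ_[p]) = 0 := by
      rw [d.x0_eq_zero_iff, IntermediateField.mem_fixingSubgroup_iff]
      intro x hx
      exact hkerM g hg x (hL0M x hx)
    show Multiplicative.ofAdd ((a : ZMod p) * d.x0 (g.restrictScalars ℚ_[p])) = 1
    rw [h1, mul_zero]; rfl
  have hYker : (AlgEquiv.restrictNormalHom (F := K) (K₁ := PadicAlgCl p) M).ker ≤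
      (bigY hζ d K ζK a hζK).ker := by
    intro g hg
    rw [MonoidHom.mem_ker]
    have h1 : d.y0 (g.restrictScalars ℚ_[p]) = 0 := by
      rw [d.y0_eq_zero_iff hζ]
      exact hkerM g hg d.π0 hπM
    show Multiplicative.ofAdd (((a⁻¹ : (ZMod p)ˣ) : ZMod p) *
      d.y0 (g.restrictScalars ℚ_[p])) = 1
    rw [h1, mul_zero]; rfl
  obtain ⟨xM, hxM⟩ := exists_descent _ (restrictNormalHom_surjective_padic p K M)
    (bigX d K a) hXker
  obtain ⟨ψM, hψM⟩ := exists_descent _ (restrictNormalHom_surjective_padic p K M)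
    (bigY hζ d K ζK a hζK) hYker
  exact ⟨xM, ψM, fun g => by rw [hxM]; rfl, fun g => by rw [hψM]; rfl⟩

include hζ hζK in
/-- `ζ_K` is a primitive `p`-th root of unity -/
lemma isPrimitiveRoot_zetaK : IsPrimitiveRoot ζK p := by
  have hz := helper30.zeta0_isPrimitiveRoot hζ
  have h1 : IsPrimitiveRoot (helper30.zeta0 p ζ ^ ((a : ZMod p)).val) p :=
    hz.pow_of_coprime _ (ZMod.val_coe_unit_coprime a)
  rw [← hζK] at h1
  have h2 : IsPrimitiveRoot ((ζK : ↥K)) p :=
    IsPrimitiveRoot.of_map_of_injective (f := algebraMap K (PadicAlgCl p)) h1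
      (algebraMap K (PadicAlgCl p)).injective
  exact IsPrimitiveRoot.coe_units_iff.mp h2

set_option maxHeartbeats 1000000 in
include hζ hζK in
/-- **TOP-LOC-INV, local core**: for a finite extension `K/ℚ_p` inside `Ω` containing the
primitive root `ζ_K = ζ0 ^ a`, there are a finite Galois level `M/K` and a 2-cocycle `c` on
`Gal(M/K)` (trivial coefficients) which inflates to `x0 ⊗ y0` on `Gal(Ω/K)` and such that the
class of `ζ_K ^ c` has invariant `[K : ℚ_p] · a / p`. -/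
theorem exists_level_cocycle (I : LocInv) [FiniteDimensional ℚ_[p] K] :
    ∃ (M : IntermediateField K (PadicAlgCl p)) (_ : FiniteDimensional K M) (_ : IsGalois K M)
      (c : (M ≃ₐ[K] M) × (M ≃ₐ[K] M) → ZMod p),
      c ∈ LinearMap.ker (d₂₃ (Rep.trivial (ZMod p) (M ≃ₐ[K] M) (ZMod p))).hom ∧
      (∀ g h : PadicAlgCl p ≃ₐ[K] PadicAlgCl p,
        c (AlgEquiv.restrictNormalHom M g, AlgEquiv.restrictNormalHom M h) =
          d.x0 (g.restrictScalars ℚ_[p]) * d.y0 (h.restrictScalars ℚ_[p])) ∧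
      I.inv p K M (mulClass K M (zetaCochain p
          (Units.map (algebraMap K M : K →* M) ζK) c)) =
        ((((Module.finrank ℚ_[p] K : ℚ) * (((a : ZMod p)).val : ℚ)) / (p : ℚ) : ℚ) : QZ) := by
  classical
  have hp : p.Prime := Fact.out
  haveI : NeZero p := ⟨hp.ne_zero⟩
  haveI := d.finiteDimensional
  haveI := d.isGalois
  haveI : CharZero K := charZero_of_injective_algebraMap (algebraMap ℚ_[p] K).injective
  have hz := helper30.zeta0_isPrimitiveRoot hζ
  have hzp : helper30.zeta0 p ζ ^ p = 1 := hz.pow_eq_one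
  obtain ⟨M, hMfd, hMgal, hL0M, hπM⟩ := exists_level p K d.L0 d.π0
  haveI := hMfd
  haveI := hMgal
  obtain ⟨xM, ψM, hxM, hψM⟩ := exists_chars hζ d K ζK a hζK M hL0M hπM
  obtain ⟨χ₀, hχ₀, hχ₀φ⟩ := exists_char₀ d a
  have hsurjM := restrictNormalHom_surjective_padic p K M
  refine ⟨M, hMfd, hMgal, fun s => Multiplicative.toAdd (xM s.1) * Multiplicative.toAdd (ψM s.2),
    ?_, ?_, ?_⟩
  · exact mul_mem_ker_d₂₃ (fun σ => Multiplicative.toAdd (xM σ))
      (fun σ => Multiplicative.toAdd (ψM σ))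
      (fun g h => by rw [map_mul, toAdd_mul]) (fun g h => by rw [map_mul, toAdd_mul])
  · intro g h
    show Multiplicative.toAdd (xM (AlgEquiv.restrictNormalHom M g)) *
      Multiplicative.toAdd (ψM (AlgEquiv.restrictNormalHom M h)) = _
    rw [hxM, hψM]
    have : (a : ZMod p) * ((a⁻¹ : (ZMod p)ˣ) : ZMod p) = 1 := by
      rw [← Units.val_mul, mul_inv_cancel, Units.val_one]
    calc (a : ZMod p) * d.x0 (g.restrictScalars ℚ_[p]) *
          (((a⁻¹ : (ZMod p)ˣ) : ZMod p) * d.y0 (h.restrictScalars ℚ_[p]))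
        = ((a : ZMod p) * ((a⁻¹ : (ZMod p)ˣ) : ZMod p)) *
          (d.x0 (g.restrictScalars ℚ_[p]) * d.y0 (h.restrictScalars ℚ_[p])) := by ring
      _ = _ := by rw [this, one_mul]
  · -- the invariant
    have hζKprim := isPrimitiveRoot_zetaK hζ K ζK a hζK
    have hpK0 : (p : ↥K) ≠ 0 := by exact_mod_cast hp.ne_zero
    let β : ↥M := ⟨d.π0, hπM⟩
    have hβ : β ^ p = algebraMap K M (Units.mk0 (p : ↥K) hpK0 : (↥K)ˣ) := by
      apply Subtype.ext
      show d.π0 ^ p = ((p : ↥K) : PadicAlgCl p)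
      rw [d.π0_pow]
      simp
    have hψ : ∀ σ : M ≃ₐ[K] M,
        σ β = algebraMap K M (((ζK : (↥K)ˣ) : ↥K) ^ (Multiplicative.toAdd (ψM σ)).val) * β := by
      intro σ
      obtain ⟨g, rfl⟩ := hsurjM σ
      apply Subtype.ext
      rw [AlgEquiv.restrictNormalHom_apply, hψM]
      show g d.π0 = (((ζK : (↥K)ˣ) : ↥K) : PadicAlgCl p) ^
        (((a⁻¹ : (ZMod p)ˣ) : ZMod p) * d.y0 (g.restrictScalars ℚ_[p])).val * d.π0
      rw [hζK, pow_val_unit_mul hzp]
      exact d.y0_spec (g.restrictScalars ℚ_[p])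
    have hcup := helper62.mulClass_cup_eq_chiClass p K ζK hζKprim M xM ψM
      (Units.mk0 (p : ↥K) hpK0) β hβ hψ
    rw [hcup]
    have hχ : ∀ (σ : M ≃ₐ[K] M) (τ : d.L0 ≃ₐ[ℚ_[p]] d.L0),
        (∀ x : d.L0, ((τ x : d.L0) : PadicAlgCl p) =
          ((σ ⟨(x : PadicAlgCl p), hL0M x x.2⟩ : M) : PadicAlgCl p)) → xM σ = χ₀ τ := by
      intro σ τ h
      obtain ⟨g, rfl⟩ := hsurjM σ
      have hτ : τ = AlgEquiv.restrictNormalHom d.L0 (g.restrictScalars ℚ_[p]) := by
        ext x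
        rw [h x, AlgEquiv.restrictNormalHom_apply, AlgEquiv.restrictNormalHom_apply]
        rfl
      apply Multiplicative.toAdd.injective
      rw [hτ, hxM, hχ₀]
    have hval := inv_chiClass_intermediate I p (PadicAlgCl p) d.L0 K M hL0M d.isUnram d.φ0
      d.isFrob p χ₀ xM hχ (Units.mk0 (p : ↥K) hpK0) (by simp)
    rw [hval, hχ₀φ]

end Core

end Fermat.Agent.S55.helper87
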