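import Fermat.Agent.S55.helper82_RecCyc2

/-!
# S55 / LOC-4 (helper88): base change of a cyclic class along a general square

Same statement and proof as `helper82.loc_cyclicClass`, for a general square of fields
`F ⊆ M`, `Kv ⊆ Lw` with injective restriction `Gal(Lw/Kv) → Gal(M/F)` (instead of a
`LocDatum`).
-/

set_option autoImplicit false

open CategoryTheory groupCohomology

namespace Fermat.Agent.S55.helper88

open Fermat.Agent.S55.helper8 Fermat.Agent.S55.helper11 Fermat.Agent.S55.helper31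
  Fermat.Agent.S55.helper82

theorem locH_cyclicClass (F M Kv Lw : Type) [Field F] [Field M] [Field Kv] [Field Lw]
    [Algebra F M] [Algebra Kv Lw] [Algebra F Kv] [Algebra M Lw] [Algebra F Lw]
    [IsScalarTower F M Lw] [IsScalarTower F Kv Lw]
    [FiniteDimensional F M] [IsGalois F M] [FiniteDimensional Kv Lw] [IsGalois Kv Lw]
    (hinj : Function.Injective (locHom F M Kv Lw))
    (σ : M ≃ₐ[F] M) (hσ : ∀ τ : M ≃ₐ[F] M, τ ∈ Subgroup.zpowers σ)
    (φ : Lw ≃ₐ[Kv] Lw) (hφ : ∀ τ : Lw ≃ₐ[Kv] Lw, τ ∈ Subgroup.zpowers φ)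
    (u : ℕ)
    (hu : locHom F M Kv Lw φ =
      σ ^ (u * (Module.finrank F M / Module.finrank Kv Lw))) (c : Fˣ) :
    (locH F M Kv Lw 2).hom (cyclicClass F M σ c) =
      u • cyclicClass Kv Lw φ (Units.map (algebraMap F Kv : F →* Kv) c) := by
  classical
  -- orders
  have hn : orderOf σ = Module.finrank F M := by
    rw [orderOf_eq_card_of_forall_mem_zpowers hσ, IsGalois.card_aut_eq_finrank]
  have hN : orderOf φ = Module.finrank Kv Lw := by
    rw [orderOf_eq_card_of_forall_mem_zpowers hφ, IsGalois.card_aut_eq_finrank]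
  have hNpos : 0 < orderOf φ := orderOf_pos φ
  have hnpos : 0 < orderOf σ := orderOf_pos σ
  have hdvd : orderOf φ ∣ orderOf σ := by
    rw [← orderOf_injective (locHom F M Kv Lw) hinj φ, hn,
      ← IsGalois.card_aut_eq_finrank]
    exact orderOf_dvd_natCard _
  set m := orderOf σ / orderOf φ with hm
  have hnm : orderOf σ = m * orderOf φ := (Nat.div_mul_cancel hdvd).symm
  rw [← hn, ← hN, ← hm] at hu
  have hmpos : 0 < m := by
    rcases Nat.eq_zero_or_pos m with h0 | h0
    · rw [h0, zero_mul] at hnm; omega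
    · exact h0
  -- dlog of the image
  have hdlog : ∀ h : Lw ≃ₐ[Kv] Lw,
      dlogAut F M σ (locHom F M Kv Lw h)
        = m * ((u * dlogAut Kv Lw φ h) % orderOf φ) := by
    intro h
    conv_lhs => rw [← pow_dlogAut (hφ h), map_pow, hu, ← pow_mul, dlogAut_pow, hnm]
    rw [show u * m * dlogAut Kv Lw φ h = m * (u * dlogAut Kv Lw φ h) by ring,
      Nat.mul_mod_mul_left]
  -- the image of `c` in `Lw`
  set cK : Kvˣ := Units.map (algebraMap F Kv : F →* Kv) c with hcK
  set cL : Lwˣ := Units.map (algebraMap Kv Lw : Kv →* Lw) cK with hcL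
  have hcL' : Units.map (algebraMap M Lw : M →* Lw)
      (Units.map (algebraMap F M : F →* M) c) = cL := by
    ext
    simp only [hcL, hcK, Units.coe_map, MonoidHom.coe_coe]
    rw [← IsScalarTower.algebraMap_apply F M Lw, ← IsScalarTower.algebraMap_apply F Kv Lw]
  rw [cyclicClass_eq σ hσ c, cyclicClass_eq φ hφ cK]
  refine cyc2_locH_H2π_eq F M Kv Lw
    (cocyclesOfIsMulCocycle₂ (isMulCocycle₂_cyclicCochain σ hσ c))
    (cocyclesOfIsMulCocycle₂ (isMulCocycle₂_cyclicCochain φ hφ cK)) u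
    (fun h => cL ^ (-((u * dlogAut Kv Lw φ h / orderOf φ : ℕ) : ℤ))) ?_
  intro g h
  show _ = Units.map (algebraMap M Lw : M →* Lw)
      (cyclicCochain F M σ c (locHom F M Kv Lw g, locHom F M Kv Lw h))
    / (cyclicCochain Kv Lw φ cK (g, h)) ^ u
  simp only [cyclicCochain]
  rw [map_pow, hcL', hdlog g, hdlog h, ← mul_add, hnm, Nat.mul_div_mul_left _ _ hmpos]
  have hfix : g • cL = cL := smul_algebraMap_unit g cK
  rw [← hcL, smul_zpow', hfix, dlogAut_mul φ g h (hφ g) (hφ h)]
  simp only [← zpow_natCast, ← zpow_mul, div_eq_mul_inv, ← zpow_neg, ← zpow_add]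
  congr 1
  have key := cyc2_floor_identity (orderOf φ) u (dlogAut Kv Lw φ g) (dlogAut Kv Lw φ h)
    hNpos
  have key' : ((((u * dlogAut Kv Lw φ g) % orderOf φ + (u * dlogAut Kv Lw φ h) % orderOf φ)
      / orderOf φ : ℕ) : ℤ) + (((u * dlogAut Kv Lw φ g) / orderOf φ : ℕ) : ℤ)
        + (((u * dlogAut Kv Lw φ h) / orderOf φ : ℕ) : ℤ)
      = (u : ℤ) * (((dlogAut Kv Lw φ g + dlogAut Kv Lw φ h) / orderOf φ : ℕ) : ℤ)
        + (((u * ((dlogAut Kv Lw φ g + dlogAut Kv Lw φ h) % orderOf φ)) / orderOf φ : ℕ)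
          : ℤ) := by
    exact_mod_cast (by rw [add_assoc]; exact key)
  linarith

end Fermat.Agent.S55.helper88
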