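import Fermat.Agent.S55.helper96_UnramNorm

/-!
# S55 / LOC-2b (helper96): cohomology of unramified extensions, UNCONDITIONAL

The two statements of package LOC-2b, verbatim as in the LOC interface
(`helper8_LocInterface.lean`, section LOC2):

* `exists_norm_eq_of_isUnram` : in an unramified extension every unit is a norm of a unit;
* `exists_inv_of_isUnram` : `H²(Gal(L/K), Lˣ) ≃ ℤ/n` for unramified `L/K`, normalised on cyclic
  classes: the class `(χ_φ, b)` goes to `ord b`.

Inputs: LOC-0a (helper97), LOC-0b (helper71), LOC-0c (helper33), LOC-2a (helper7).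
No use of the norm index theorem (LOC-3).
-/

set_option autoImplicit false

namespace Fermat.Agent.S55.helper96

open Fermat.Agent.S55.helper8 Fermat.Agent.S55.helper7

variable (q : ℕ) [Fact q.Prime]

section LOC2

variable (K : Type) [Field K] [Algebra ℚ_[q] K] [FiniteDimensional ℚ_[q] K]
variable (L : Type) [Field L] [Algebra ℚ_[q] L] [Algebra K L] [IsScalarTower ℚ_[q] K L]
  [FiniteDimensional K L]

/-- LOC-2a, unconditional: unramified extensions are Galois. -/
theorem isGalois_of_isUnram' (h : IsUnram q K L) : IsGalois K L := by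
  haveI : Fact (HypAdd q) := ⟨hypAdd q⟩
  haveI : Fact (HypReps q) := ⟨hypReps q⟩
  haveI : Fact (HypHensel q) := ⟨hypHensel q⟩
  exact isGalois_of_isUnram_of q K L h

/-- LOC-2a, unconditional: the Frobenius generator. -/
theorem exists_frob_of_isUnram' (h : IsUnram q K L) :
    ∃ φ : L ≃ₐ[K] L, IsFrob q K L φ ∧ (∀ σ : L ≃ₐ[K] L, σ ∈ Subgroup.zpowers φ) ∧
      orderOf φ = Module.finrank K L ∧ ∀ ψ : L ≃ₐ[K] L, IsFrob q K L ψ → ψ = φ := by
  haveI : Fact (HypAdd q) := ⟨hypAdd q⟩
  haveI : Fact (HypReps q) := ⟨hypReps q⟩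
  haveI : Fact (HypHensel q) := ⟨hypHensel q⟩
  exact exists_frob_of_isUnram_of q K L h

/-- in an unramified extension every unit is a norm of a unit -/
theorem exists_norm_eq_of_isUnram (h : IsUnram q K L) (u : Kˣ) (hu : u ∈ unitGroup q K) :
    ∃ w : Lˣ, w ∈ unitGroup q L ∧ normUnits K L w = u := by
  haveI := isGalois_of_isUnram' q K L h
  obtain ⟨φ, hφ, hgen, hord, -⟩ := exists_frob_of_isUnram' q K L h
  exact exists_norm_eq_of_isUnram_of_frob q K L h φ hφ hgen hord u hu

theorem relF_eq_finrank_of_isUnram (h : IsUnram q K L) :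
    relF q K L = Module.finrank K L := by
  have h2 := (helper33.isUnram_iff q K L).mp h
  have h3 := helper33.relE_mul_relF q K L
  rw [h2, one_mul] at h3
  exact h3

/-- The norm group of an unramified extension of degree `n` is `{b | n ∣ ord b}`. -/
theorem range_norm_eq_of_isUnram (h : IsUnram q K L) :
    (normUnits K L).range
      = (ordModHom (q := q) (K := K) (helper97.ord_mul q K) (Module.finrank K L)).ker := by
  have hn : 0 < Module.finrank K L := Module.finrank_pos
  apply le_antisymm
  · rintro _ ⟨a, rfl⟩
    rw [MonoidHom.mem_ker, ordModHom_apply, helper33.ord_normUnits,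
      relF_eq_finrank_of_isUnram q K L h]
    simp
  · intro b hb
    rw [MonoidHom.mem_ker, ordModHom_apply] at hb
    have hb' : ((ord q K b : ℤ) : ZMod (Module.finrank K L)) = 0 := hb
    rw [ZMod.intCast_zmod_eq_zero_iff_dvd] at hb'
    obtain ⟨k, hk⟩ := hb'
    obtain ⟨π, hπ⟩ := helper97.exists_ord_eq_one q K
    -- `u = b * π ^ (-(n k))` is a unit
    set u : Kˣ := b * (π ^ ((Module.finrank K L : ℤ) * k))⁻¹ with hu
    have hu0 : ord q K u = 0 := by
      rw [hu, helper97.ord_mul, helper97.ord_inv]
      have : ord q K (π ^ ((Module.finrank K L : ℤ) * k)) = (Module.finrank K L : ℤ) * k := by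
        have h1 : ∀ m : ℤ, ord q K (π ^ m) = m := by
          intro m
          have := helper97.nv_zpow q K π m
          have h2 := helper97.fdeg_mul_ord q K (π ^ m)
          have h3 := helper97.fdeg_mul_ord q K π
          rw [hπ, mul_one] at h3
          rw [this, ← h3] at h2
          have hf := helper97.fdeg_ne_zero_int q K
          have : (fdeg q K : ℤ) * ord q K (π ^ m) = (fdeg q K : ℤ) * m := by
            rw [h2]; ring
          exact mul_left_cancel₀ hf this
        exact h1 _
      rw [this, hk]
      ring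
    obtain ⟨w, -, hw⟩ := exists_norm_eq_of_isUnram q K L h u
      ((helper97.mem_unitGroup_iff q K u).mpr hu0)
    -- `π ^ (n k) = N (π ^ k)`
    have hπN : normUnits K L (Units.map (algebraMap K L : K →* L) (π ^ k))
        = π ^ ((Module.finrank K L : ℤ) * k) := by
      ext
      simp only [normUnits, Units.coe_map, MonoidHom.coe_coe]
      rw [Algebra.norm_algebraMap]
      rw [mul_comm, zpow_mul, zpow_natCast]
      simp
    refine ⟨w * Units.map (algebraMap K L : K →* L) (π ^ k), ?_⟩
    rw [map_mul, hw, hπN, hu, inv_mul_cancel_right]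

/-- The inputs of the conditional LOC-2b file, now all available. -/
theorem unramInputs (h : IsUnram q K L) : UnramInputs q K L where
  ordK_mul := helper97.ord_mul q K
  exists_ordK_one := helper97.exists_ord_eq_one q K
  mem_unitGroupK := helper97.mem_unitGroup_iff q K
  mem_unitGroupL := by
    haveI : FiniteDimensional ℚ_[q] L := Module.Finite.trans K L
    exact helper97.mem_unitGroup_iff q L
  ord_norm := helper33.ord_normUnits q K L
  relE_mul_relF := helper33.relE_mul_relF q K L
  isUnram_iff := helper33.isUnram_iff q K L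
  isGalois := isGalois_of_isUnram' q K L
  exists_frob := exists_frob_of_isUnram' q K L
  card_norm := by
    intro _ _
    have hn : 0 < Module.finrank K L := Module.finrank_pos
    haveI : NeZero (Module.finrank K L) := ⟨hn.ne'⟩
    rw [← Subgroup.index_eq_card, range_norm_eq_of_isUnram q K L h, Subgroup.index_ker,
      MonoidHom.range_eq_top.mpr
        (ordModHom_surjective (helper97.ord_mul q K) (helper97.exists_ord_eq_one q K) _)]
    simp [Nat.card_eq_fintype_card, ZMod.card]
  cyclicClass_zero := fun φ hgen b => cyclicClass_eq_zero_iff' K L φ hgen b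

/-- `H²(Gal(L/K), Lˣ) ≃ ℤ/n` for unramified `L/K`, normalised on cyclic classes:
the class `(χ_φ, b)` goes to `ord b`. -/
theorem exists_inv_of_isUnram (h : IsUnram q K L) (φ : L ≃ₐ[K] L) (hφ : IsFrob q K L φ) :
    ∃ e : groupCohomology.H2 (Rep.ofAlgebraAutOnUnits K L) ≃+ ZMod (Module.finrank K L),
      ∀ b : Kˣ, e (cyclicClass K L φ b) = ((ord q K b : ℤ) : ZMod (Module.finrank K L)) :=
  exists_inv_of_isUnram_of (unramInputs q K L h) h φ hφ

end LOC2

end Fermat.Agent.S55.helper96
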