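import Fermat.Agent.S55.helper88_H2UpperFinal
import Fermat.Agent.S55.helper88_LocCyc
import Fermat.Agent.S55.helper7_LocUnram3
import Fermat.Agent.S55.helper96_LocUnram2b
import Fermat.Agent.S55.helper34_RecNormL
import Fermat.Agent.S55.helper11_LocFun

/-!
# S55 / LOC-4 (helper88): the lower bound, `H²(Gal(L/K), Lˣ)` has an element of order `[L : K]`

`L/K` finite Galois of degree `n`, `K` a `q`-adic field.  In any field `M = L(ζ)`, `ζ` a
primitive `(q ^ (f_K n) - 1)`-th root of unity, the field `E = K(ζ)` is unramified of degree `n`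
over `K` and `M/L` is unramified of degree `e(L/K)`.  The inflation to `M/K` of the cyclic class
`(φ, b)`, `ord b = 1`, of `E/K` restricts to `0` on `M/L`, hence comes from `H²(L/K)`.
-/

set_option autoImplicit false
set_option linter.style.haveILetI false
set_option linter.unusedSectionVars false

open CategoryTheory groupCohomology Rep IntermediateField

namespace Fermat.Agent.S55.helper88

open Fermat.Agent.S55.helper8 Fermat.Agent.S55.helper11

section galois

/-- `M = L(ζ)` is Galois over `K` when `L/K` is Galois (characteristic zero). -/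
theorem isGalois_of_adjoin_root (K L M : Type) [Field K] [Field L] [Field M] [CharZero K]
    [Algebra K L] [FiniteDimensional K L] [IsGalois K L] [Algebra K M] [Algebra L M]
    [IsScalarTower K L M] [FiniteDimensional L M] {N : ℕ} (hN : N ≠ 0) (ζ : M)
    (hζ : IsPrimitiveRoot ζ N) (htop : Algebra.adjoin L {ζ} = ⊤) : IsGalois K M := by
  haveI : NeZero N := ⟨hN⟩
  haveI : FiniteDimensional K M := Module.Finite.trans L M
  haveI : IsCyclotomicExtension {N} L M := by
    rw [IsCyclotomicExtension.iff_singleton]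
    refine ⟨⟨ζ, hζ⟩, fun x => ?_⟩
    have hle : Algebra.adjoin L {ζ} ≤ Algebra.adjoin L {b : M | b ^ N = 1} := by
      refine Algebra.adjoin_mono ?_
      intro b hb
      rw [Set.mem_singleton_iff] at hb
      subst hb
      exact hζ.pow_eq_one
    exact hle (htop ▸ Algebra.mem_top)
  obtain ⟨p, hpsep, hp⟩ := IsGalois.is_separable_splitting_field K L
  have hp0 : p ≠ 0 := hpsep.ne_zero
  have hX : (Polynomial.X ^ N - 1 : Polynomial K) ≠ 0 := by
    simpa using Polynomial.X_pow_sub_C_ne_zero (Nat.pos_of_ne_zero hN) (1 : K)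
  haveI : Polynomial.IsSplittingField L M
      ((Polynomial.X ^ N - 1 : Polynomial K).map (algebraMap K L)) := by
    have := IsCyclotomicExtension.isSplittingField_X_pow_sub_one N L M
    simpa using this
  haveI : Polynomial.IsSplittingField K M (p * (Polynomial.X ^ N - 1)) :=
    Polynomial.IsSplittingField.mul (K := L) (L := M) p (Polynomial.X ^ N - 1) hp0 hX
  haveI : Normal K M := Normal.of_isSplittingField (p * (Polynomial.X ^ N - 1))
  exact ⟨⟩

end galois

section construction

variable (q : ℕ) [Fact q.Prime]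
variable (K L M : Type) [Field K] [Field L] [Field M]
  [Algebra ℚ_[q] K] [FiniteDimensional ℚ_[q] K]
  [Algebra ℚ_[q] L] [Algebra K L] [IsScalarTower ℚ_[q] K L] [FiniteDimensional K L]
  [IsGalois K L]
  [Algebra ℚ_[q] M] [Algebra K M] [Algebra L M] [IsScalarTower K L M]
  [IsScalarTower ℚ_[q] K M] [IsScalarTower ℚ_[q] L M]

/-- In `M = L(ζ)`: the inflation of the cyclic class of `E = K(ζ)` dies in `H²(M/L)`. -/
theorem exists_addOrderOf_eq_of_root (ζ : M)
    (hζ : IsPrimitiveRoot ζ (q ^ (fdeg q K * Module.finrank K L) - 1))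
    (htop : Algebra.adjoin L {ζ} = ⊤) :
    ∃ x : groupCohomology.H2 (Rep.ofAlgebraAutOnUnits K L),
      addOrderOf x = Module.finrank K L := by
  have hn : 0 < Module.finrank K L := Module.finrank_pos
  haveI hLfd : FiniteDimensional ℚ_[q] L := Module.Finite.trans K L
  haveI : CharZero K := charZero_of_injective_algebraMap (algebraMap ℚ_[q] K).injective
  -- `e` and `f`
  have hef : relE q K L * relF q K L = Module.finrank K L := helper33.relE_mul_relF q K L
  have hfL : fdeg q L = relF q K L * fdeg q K := helper33.fdeg_eq_relF_mul q K L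
  have he : 0 < relE q K L := by
    rcases Nat.eq_zero_or_pos (relE q K L) with h | h
    · rw [h, zero_mul] at hef; omega
    · exact h
  have hexp : fdeg q K * Module.finrank K L = fdeg q L * relE q K L := by
    rw [hfL, ← hef]; ring
  have hζL : IsPrimitiveRoot ζ ((q ^ fdeg q L) ^ relE q K L - 1) := by
    rw [← pow_mul, ← hexp]; exact hζ
  have hN0 : q ^ (fdeg q K * Module.finrank K L) - 1 ≠ 0 := by
    have h1 : 0 < fdeg q K * Module.finrank K L := Nat.mul_pos (helper33.fdeg_pos q K) hn
    have h2 : 1 < q ^ (fdeg q K * Module.finrank K L) :=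
      Nat.one_lt_pow h1.ne' (Fact.out : q.Prime).one_lt
    omega
  -- `M/L` is finite
  have hint : IsIntegral L ζ := by
    refine IsIntegral.of_pow (Nat.pos_of_ne_zero hN0) ?_
    rw [hζ.pow_eq_one]
    exact isIntegral_one
  haveI hMLfd : FiniteDimensional L M := by
    have h1 : (Algebra.adjoin L {ζ}).toSubmodule.FG := hint.fg_adjoin_singleton
    rw [htop] at h1
    exact ⟨h1⟩
  haveI hMfd : FiniteDimensional ℚ_[q] M := Module.Finite.trans L M
  haveI hMKfd : FiniteDimensional K M := Module.Finite.trans L M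
  obtain ⟨hgalLM, hdegLM, hrelE_LM, -⟩ := helper7.unram_of_primitiveRoot q L M he hζL htop
  have hunramLM : IsUnram q L M := (helper33.isUnram_iff q L M).mpr hrelE_LM
  haveI hgalKM : IsGalois K M := isGalois_of_adjoin_root K L M hN0 ζ hζ htop
  -- `E = K(ζ)`
  obtain ⟨hEfd, hEgal, hEdeg, hEunram⟩ :=
    helper7.isUnram_adjoin_primitiveRoot q K M (Module.finrank K L) hn ζ hζ
  obtain ⟨φ, hφfrob, hφgen, -, -⟩ := helper7.exists_frob_of_isUnram q K K⟮ζ⟯ hEunram
  obtain ⟨b, hb⟩ := helper33.exists_ord_eq_one q K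
  obtain ⟨ε, hε⟩ := helper96.exists_inv_of_isUnram q K K⟮ζ⟯ hEunram φ hφfrob
  -- the class `u` of order `n`
  have hu_ord : addOrderOf (cyclicClass K K⟮ζ⟯ φ b) = Module.finrank K L := by
    have h1 : ε (cyclicClass K K⟮ζ⟯ φ b) = 1 := by
      rw [hε b, hb]; simp
    have h2 : addOrderOf (ε (cyclicClass K K⟮ζ⟯ φ b)) = addOrderOf (cyclicClass K K⟮ζ⟯ φ b) :=
      addOrderOf_injective ε.toAddMonoidHom ε.injective _
    rw [← h2, h1, ZMod.addOrderOf_one, hEdeg]
  -- inflation to `M/K`
  have hv_ord : addOrderOf (helper8.infH K K⟮ζ⟯ M 2 (cyclicClass K K⟮ζ⟯ φ b)) =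
      Module.finrank K L := by
    rw [addOrderOf_injective (helper8.infH K K⟮ζ⟯ M 2) (helper84.infH_two_injective K K⟮ζ⟯ M) _,
      hu_ord]
  -- restriction to `M/L` vanishes
  have hw : helper8.resH K L M 2 (helper8.infH K K⟮ζ⟯ M 2 (cyclicClass K K⟮ζ⟯ φ b)) = 0 := by
    -- the composite is the base change along `K ⊆ L`
    have hcomp : helper8.resH K L M 2 (helper8.infH K K⟮ζ⟯ M 2 (cyclicClass K K⟮ζ⟯ φ b)) =
        (locH K K⟮ζ⟯ L M 2).hom (cyclicClass K K⟮ζ⟯ φ b) := by
      rw [helper11.locH_comp K K⟮ζ⟯ K M L M 2]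
      rfl
    rw [hcomp]
    -- injectivity of the restriction `Gal(M/L) → Gal(E/K)`
    have hinj : Function.Injective (locHom K K⟮ζ⟯ L M) := by
      rw [injective_iff_map_eq_one]
      intro σ hσ
      apply helper7.algEquiv_ext_of_adjoin L M htop σ 1
      have h1 := algebraMap_locHom K K⟮ζ⟯ L M σ ⟨ζ, mem_adjoin_simple_self K ζ⟩
      rw [hσ] at h1
      exact h1.symm
    obtain ⟨ψ, hψgen, hψ⟩ := helper34.exists_generator_map_eq_pow (locHom K K⟮ζ⟯ L M) hinj φ hφgen
    have hψ' : locHom K K⟮ζ⟯ L M ψ =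
        φ ^ (1 * (Module.finrank K K⟮ζ⟯ / Module.finrank L M)) := by
      rw [hψ, one_mul, IsGalois.card_aut_eq_finrank, IsGalois.card_aut_eq_finrank]
    rw [locH_cyclicClass K K⟮ζ⟯ L M hinj φ hφgen ψ hψgen 1 hψ' b, one_smul,
      helper96.cyclicClass_eq_zero_iff' L M ψ hψgen, helper96.range_norm_eq_of_isUnram q L M hunramLM,
      MonoidHom.mem_ker, helper96.ordModHom_apply, helper33.ord_algebraMap q K L b, hb, hdegLM]
    simp
  obtain ⟨x, hx⟩ := (helper84.resH_two_eq_zero_iff K L M _).mp hw
  refine ⟨x, ?_⟩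
  rw [← addOrderOf_injective (helper8.infH K L M 2) (helper84.infH_two_injective K L M) x, hx,
    hv_ord]

end construction

section existence

variable (q : ℕ) [Fact q.Prime]
variable (K : Type) [Field K] [Algebra ℚ_[q] K] [FiniteDimensional ℚ_[q] K]
variable (L : Type) [Field L] [Algebra K L] [FiniteDimensional K L] [IsGalois K L]

theorem pow_fdeg_sub_one_ne_zero (n : ℕ) (hn : 0 < n) : q ^ (fdeg q K * n) - 1 ≠ 0 := by
  have h1 : 0 < fdeg q K * n := Nat.mul_pos (helper33.fdeg_pos q K) hn
  have h2 : 1 < q ^ (fdeg q K * n) := Nat.one_lt_pow h1.ne' (Fact.out : q.Prime).one_lt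
  omega

include q in
/-- `H²(Gal(L/K), Lˣ)` contains an element of order `[L : K]`. -/
theorem exists_addOrderOf_eq_finrank :
    ∃ x : groupCohomology.H2 (Rep.ofAlgebraAutOnUnits K L),
      addOrderOf x = Module.finrank K L := by
  letI : Algebra ℚ_[q] L := ((algebraMap K L).comp (algebraMap ℚ_[q] K)).toAlgebra
  haveI : IsScalarTower ℚ_[q] K L := IsScalarTower.of_algebraMap_eq (fun _ => rfl)
  haveI : CharZero K := charZero_of_injective_algebraMap (algebraMap ℚ_[q] K).injective
  haveI : CharZero L := charZero_of_injective_algebraMap (algebraMap K L).injective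
  have hN0 := pow_fdeg_sub_one_ne_zero q K (Module.finrank K L) Module.finrank_pos
  haveI : NeZero (q ^ (fdeg q K * Module.finrank K L) - 1) := ⟨hN0⟩
  haveI : IsScalarTower ℚ_[q] K (CyclotomicField (q ^ (fdeg q K * Module.finrank K L) - 1) L) := by
    refine IsScalarTower.of_algebraMap_eq (fun x => ?_)
    rw [IsScalarTower.algebraMap_apply ℚ_[q] L
        (CyclotomicField (q ^ (fdeg q K * Module.finrank K L) - 1) L),
      IsScalarTower.algebraMap_apply K L
        (CyclotomicField (q ^ (fdeg q K * Module.finrank K L) - 1) L),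
      IsScalarTower.algebraMap_apply ℚ_[q] K L]
  have hζ := IsCyclotomicExtension.zeta_spec (q ^ (fdeg q K * Module.finrank K L) - 1) L
    (CyclotomicField (q ^ (fdeg q K * Module.finrank K L) - 1) L)
  exact exists_addOrderOf_eq_of_root q K L
    (CyclotomicField (q ^ (fdeg q K * Module.finrank K L) - 1) L)
    (IsCyclotomicExtension.zeta (q ^ (fdeg q K * Module.finrank K L) - 1) L
      (CyclotomicField (q ^ (fdeg q K * Module.finrank K L) - 1) L)) hζ
    (IsCyclotomicExtension.adjoin_primitive_root_eq_top hζ)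

end existence

end Fermat.Agent.S55.helper88
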