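import Mathlib

/-!
# S55 / LOC-4 (helper88): classes of multiplicative 2-cocycles and functoriality of `H²`

For a group `G` acting on a commutative group `M` (`MulDistribMulAction`) we write the elements of
`H²(G, M) = groupCohomology.H2 (Rep.ofMulDistribMulAction G M)` as classes `h2cls c hc` of
multiplicative 2-cocycles, and we describe the map `h2map π ι` induced by an equivariant pair
`(π : G →* Q, ι : B →* M)` on these classes.
-/

set_option autoImplicit false
set_option linter.style.haveILetI false

open CategoryTheory groupCohomology Rep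

namespace Fermat.Agent.S55.helper88

section cls

variable {G M : Type} [Group G] [CommGroup M] [MulDistribMulAction G M]

/-- The class in `H²(G, M)` of a multiplicative 2-cocycle. -/
noncomputable def h2cls (c : G × G → M) (hc : IsMulCocycle₂ c) :
    H2 (Rep.ofMulDistribMulAction G M) :=
  H2π (Rep.ofMulDistribMulAction G M) (cocyclesOfIsMulCocycle₂ hc)

theorem h2cls_surjective (x : H2 (Rep.ofMulDistribMulAction G M)) :
    ∃ (c : G × G → M) (hc : IsMulCocycle₂ c), h2cls c hc = x := by
  induction x using H2_induction_on with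
  | h c =>
    refine ⟨Additive.toMul ∘ c.1, isMulCocycle₂_of_mem_cocycles₂ (M := M) (G := G) c.1 c.2, ?_⟩
    rfl

theorem h2cls_eq_zero_iff (c : G × G → M) (hc : IsMulCocycle₂ c) :
    h2cls c hc = 0 ↔ IsMulCoboundary₂ c := by
  rw [h2cls, H2π_eq_zero_iff]
  constructor
  · intro h
    exact isMulCoboundary₂_of_mem_coboundaries₂ (M := M) (G := G) _ h
  · intro h
    exact (coboundariesOfIsMulCoboundary₂ h).2

theorem isMulCocycle₂_mul {c c' : G × G → M} (hc : IsMulCocycle₂ c) (hc' : IsMulCocycle₂ c') :
    IsMulCocycle₂ (c * c') := by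
  intro g h j
  have h1 := hc g h j
  have h2 := hc' g h j
  simp only [Pi.mul_apply, smul_mul']
  calc c (g * h, j) * c' (g * h, j) * (c (g, h) * c' (g, h))
      = (c (g * h, j) * c (g, h)) * (c' (g * h, j) * c' (g, h)) := by
        rw [mul_mul_mul_comm]
    _ = (g • c (h, j) * c (g, h * j)) * (g • c' (h, j) * c' (g, h * j)) := by rw [h1, h2]
    _ = _ := by rw [mul_mul_mul_comm]

theorem isMulCocycle₂_one : IsMulCocycle₂ (1 : G × G → M) := by
  intro g h j
  simp

theorem isMulCocycle₂_inv {c : G × G → M} (hc : IsMulCocycle₂ c) :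
    IsMulCocycle₂ (c⁻¹) := by
  intro g h j
  have h1 := hc g h j
  simp only [Pi.inv_apply, smul_inv']
  rw [← mul_inv, ← mul_inv, h1]

theorem isMulCocycle₂_pow {c : G × G → M} (hc : IsMulCocycle₂ c) (n : ℕ) :
    IsMulCocycle₂ (c ^ n) := by
  induction n with
  | zero => simpa using isMulCocycle₂_one
  | succ n ih => rw [pow_succ]; exact isMulCocycle₂_mul ih hc

theorem h2cls_mul {c c' : G × G → M} (hc : IsMulCocycle₂ c) (hc' : IsMulCocycle₂ c') :
    h2cls (c * c') (isMulCocycle₂_mul hc hc') = h2cls c hc + h2cls c' hc' := by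
  show _ = (H2π (Rep.ofMulDistribMulAction G M)).hom _ +
    (H2π (Rep.ofMulDistribMulAction G M)).hom _
  rw [← map_add]
  rfl

theorem h2cls_congr {c c' : G × G → M} (h : c = c') (hc : IsMulCocycle₂ c) :
    h2cls c hc = h2cls c' (h ▸ hc) := by
  subst h
  rfl

theorem h2cls_one : h2cls (1 : G × G → M) isMulCocycle₂_one = 0 := by
  rw [h2cls_eq_zero_iff]
  exact ⟨fun _ => 1, fun g h => by simp⟩

theorem h2cls_pow {c : G × G → M} (hc : IsMulCocycle₂ c) (n : ℕ) :
    h2cls (c ^ n) (isMulCocycle₂_pow hc n) = n • h2cls c hc := by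
  induction n with
  | zero =>
    rw [zero_smul, h2cls_congr (pow_zero c)]
    exact h2cls_one
  | succ n ih =>
    rw [succ_nsmul, ← ih, ← h2cls_mul, h2cls_congr (pow_succ c n)]

end cls

section map

variable {G Q M B : Type} [Group G] [Group Q] [CommGroup M] [CommGroup B]
  [MulDistribMulAction G M] [MulDistribMulAction Q B]

/-- The morphism of representations induced by an equivariant pair `(π, ι)`. -/
noncomputable def pairHom (π : G →* Q) (ι : B →* M) (h : ∀ g b, ι (π g • b) = g • ι b) :
    res π (Rep.ofMulDistribMulAction Q B) ⟶ Rep.ofMulDistribMulAction G M :=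
  ofHom ⟨(MonoidHom.toAdditive ι).toIntLinearMap, fun g => by
    ext b
    exact congrArg Additive.ofMul (h g (Additive.toMul b))⟩

/-- The map `H²(Q, B) → H²(G, M)` induced by an equivariant pair `(π, ι)`. -/
noncomputable def h2map (π : G →* Q) (ι : B →* M) (h : ∀ g b, ι (π g • b) = g • ι b) :
    H2 (Rep.ofMulDistribMulAction Q B) →+ H2 (Rep.ofMulDistribMulAction G M) :=
  (groupCohomology.map π (pairHom π ι h) 2).hom.toAddMonoidHom

theorem isMulCocycle₂_pair (π : G →* Q) (ι : B →* M) (h : ∀ g b, ι (π g • b) = g • ι b)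
    {c : Q × Q → B} (hc : IsMulCocycle₂ c) :
    IsMulCocycle₂ (fun p : G × G => ι (c (π p.1, π p.2))) := by
  intro g h' j
  have := congrArg ι (hc (π g) (π h') (π j))
  simp only [map_mul, h] at this ⊢
  exact this

theorem h2map_h2cls (π : G →* Q) (ι : B →* M) (h : ∀ g b, ι (π g • b) = g • ι b)
    {c : Q × Q → B} (hc : IsMulCocycle₂ c) :
    h2map π ι h (h2cls c hc) =
      h2cls (fun p : G × G => ι (c (π p.1, π p.2))) (isMulCocycle₂_pair π ι h hc) := by
  have := H2π_comp_map_apply π (pairHom π ι h) (cocyclesOfIsMulCocycle₂ hc)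
  exact this

end map

end Fermat.Agent.S55.helper88
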