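import Fermat.Agent.S55.helper88_Tower
import Fermat.Agent.S55.helper46_FG1
import Fermat.Agent.S55.helper84_Transport

/-!
# S55 / LOC-4 (helper88): the upper bound `|H²(Gal(L/K), Lˣ)| ≤ [L : K]`

Conditional on `TowerInfRes` (inflation-restriction for towers) and `NormIndexStatement q`
(LOC-3: the norm index of a cyclic extension of `q`-adic fields).
-/

set_option autoImplicit false
set_option linter.style.haveILetI false

open CategoryTheory groupCohomology Rep

namespace Fermat.Agent.S55.helper88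

open Fermat.Agent.S55.helper8

variable (q : ℕ) [Fact q.Prime]

/-- `K` carries the structure of a finite extension of `ℚ_[q]`. -/
def IsQadic (K : Type) [Field K] : Prop :=
  ∃ (_ : Algebra ℚ_[q] K), FiniteDimensional ℚ_[q] K

theorem isQadic_of_inst (K : Type) [Field K] [Algebra ℚ_[q] K] [FiniteDimensional ℚ_[q] K] :
    IsQadic q K := ⟨inferInstance, inferInstance⟩

theorem IsQadic.of_finite {K : Type} [Field K] (hK : IsQadic q K) (F : Type) [Field F]
    [Algebra K F] [FiniteDimensional K F] : IsQadic q F := by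
  obtain ⟨a, ha⟩ := hK
  letI : Algebra ℚ_[q] F := ((algebraMap K F).comp (algebraMap ℚ_[q] K)).toAlgebra
  haveI : IsScalarTower ℚ_[q] K F := IsScalarTower.of_algebraMap_eq (fun _ => rfl)
  exact ⟨inferInstance, Module.Finite.trans K F⟩

/-- LOC-3, the local norm index theorem for cyclic extensions (statement). -/
def NormIndexStatement : Prop :=
  ∀ (K : Type) [Field K] [Algebra ℚ_[q] K] [FiniteDimensional ℚ_[q] K]
    (L : Type) [Field L] [Algebra K L] [FiniteDimensional K L] [IsGalois K L]
    [IsCyclic (L ≃ₐ[K] L)],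
    Nat.card (Kˣ ⧸ (normUnits K L).range) = Module.finrank K L

variable {q}

theorem card_H2_of_isCyclic_of (hN : NormIndexStatement q) (K L : Type) [Field K] [Field L]
    [Algebra K L] [FiniteDimensional K L] [IsGalois K L] (hK : IsQadic q K)
    [IsCyclic (L ≃ₐ[K] L)] :
    Nat.card (H2 (Rep.ofAlgebraAutOnUnits K L)) = Module.finrank K L := by
  obtain ⟨a, ha⟩ := hK
  rw [card_H2_of_isCyclic K L]
  exact hN K L

/-- `H²` of a trivial extension vanishes. -/
theorem subsingleton_H2_of_finrank_eq_one (K L : Type) [Field K] [Field L]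
    [Algebra K L] [FiniteDimensional K L] [IsGalois K L] (h : Module.finrank K L = 1) :
    Subsingleton (H2 (Rep.ofAlgebraAutOnUnits K L)) := by
  have hcard : Nat.card (L ≃ₐ[K] L) = 1 := by rw [IsGalois.card_aut_eq_finrank, h]
  refine ⟨fun x y => ?_⟩
  have hx := helper46.card_nsmul_eq_zero (Rep.ofAlgebraAutOnUnits K L) 2 (by norm_num) x
  have hy := helper46.card_nsmul_eq_zero (Rep.ofAlgebraAutOnUnits K L) 2 (by norm_num) y
  rw [hcard, one_smul] at hx hy
  rw [hx, hy]

/-- The upper bound for extensions of prime power degree. -/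
theorem card_H2_le_of_prime_pow (hIR : TowerInfRes) (hN : NormIndexStatement q)
    (ℓ : ℕ) (hℓ : ℓ.Prime) : ∀ (m : ℕ) (K L : Type) [Field K] [Field L]
    [Algebra K L] [FiniteDimensional K L] [IsGalois K L], IsQadic q K →
    Module.finrank K L = ℓ ^ m →
    Finite (H2 (Rep.ofAlgebraAutOnUnits K L)) ∧
      Nat.card (H2 (Rep.ofAlgebraAutOnUnits K L)) ≤ ℓ ^ m := by
  intro m
  induction m with
  | zero =>
    intro K L _ _ _ _ _ hK hdeg
    haveI := subsingleton_H2_of_finrank_eq_one K L (by simpa using hdeg)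
    exact ⟨inferInstance, by rw [Nat.card_unique]; simp⟩
  | succ m ih =>
    intro K L _ _ _ _ _ hK hdeg
    haveI : Fact ℓ.Prime := ⟨hℓ⟩
    have hcard : Nat.card (L ≃ₐ[K] L) = ℓ ^ (m + 1) := by
      rw [IsGalois.card_aut_eq_finrank, hdeg]
    have hp : IsPGroup ℓ (L ≃ₐ[K] L) := IsPGroup.of_card hcard
    haveI : Nontrivial (L ≃ₐ[K] L) := by
      rw [← Finite.one_lt_card_iff_nontrivial, hcard]
      exact Nat.one_lt_pow (by omega) hℓ.one_lt
    haveI := hp.center_nontrivial
    -- an element of order `ℓ` in the center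
    have hpc : IsPGroup ℓ (Subgroup.center (L ≃ₐ[K] L)) := hp.to_subgroup _
    obtain ⟨k, hk⟩ := IsPGroup.iff_card.mp hpc
    have hk0 : k ≠ 0 := by
      rintro rfl
      have : 1 < Nat.card (Subgroup.center (L ≃ₐ[K] L)) := Finite.one_lt_card
      rw [pow_zero] at hk
      omega
    have hdvd : ℓ ∣ Nat.card (Subgroup.center (L ≃ₐ[K] L)) := by
      rw [hk]
      exact dvd_pow_self ℓ hk0
    obtain ⟨z, hz⟩ := exists_prime_orderOf_dvd_card' ℓ hdvd
    let Z : Subgroup (L ≃ₐ[K] L) := Subgroup.zpowers (z : L ≃ₐ[K] L)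
    have hZcenter : Z ≤ Subgroup.center (L ≃ₐ[K] L) := by
      rw [Subgroup.zpowers_le]
      exact z.2
    haveI hZn : Z.Normal := ⟨fun n hn g => by
      have hc := hZcenter hn
      rw [Subgroup.mem_center_iff] at hc
      rw [hc g, mul_inv_cancel_right]
      exact hn⟩
    have hZcard : Nat.card Z = ℓ := by
      rw [Nat.card_zpowers, Subgroup.orderOf_coe, hz]
    -- the tower
    let F : IntermediateField K L := IntermediateField.fixedField Z
    have hFL : Module.finrank F L = ℓ := by
      rw [IntermediateField.finrank_fixedField_eq_card, hZcard]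
    have hKF : Module.finrank K F = ℓ ^ m := by
      have := Module.finrank_mul_finrank K F L
      rw [hFL, hdeg, pow_succ] at this
      exact Nat.eq_of_mul_eq_mul_right hℓ.pos this
    haveI : IsGalois K F := IsGalois.of_fixedField_normal_subgroup Z
    have hF : IsQadic q F := hK.of_finite q F
    obtain ⟨h1fin, h1card⟩ := ih K F hK hKF
    haveI : IsCyclic (L ≃ₐ[F] L) := by
      apply isCyclic_of_prime_card (p := ℓ)
      rw [IsGalois.card_aut_eq_finrank, hFL]
    have h2card : Nat.card (H2 (Rep.ofAlgebraAutOnUnits F L)) = ℓ := by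
      rw [card_H2_of_isCyclic_of hN F L hF, hFL]
    haveI h2fin : Finite (H2 (Rep.ofAlgebraAutOnUnits F L)) :=
      Nat.finite_of_card_ne_zero (by rw [h2card]; exact hℓ.ne_zero)
    obtain ⟨-, hex⟩ := hIR K F L
    obtain ⟨hfin, hle⟩ := card_le_of_exact (infUnits K F L) (resUnits K F L) hex
    refine ⟨hfin, hle.trans ?_⟩
    rw [h2card, pow_succ]
    exact Nat.mul_le_mul_right _ h1card

/-- The upper bound `|H²(Gal(L/K), Lˣ)| ≤ [L : K]`. -/
theorem card_H2_le (hIR : TowerInfRes) (hN : NormIndexStatement q)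
    (K L : Type) [Field K] [Field L] [Algebra K L] [FiniteDimensional K L] [IsGalois K L]
    (hK : IsQadic q K) :
    Finite (H2 (Rep.ofAlgebraAutOnUnits K L)) ∧
      Nat.card (H2 (Rep.ofAlgebraAutOnUnits K L)) ≤ Module.finrank K L := by
  have hn : 0 < Module.finrank K L := Module.finrank_pos
  have hcard : Nat.card (L ≃ₐ[K] L) = Module.finrank K L := IsGalois.card_aut_eq_finrank K L
  refine card_le_of_primary_bound (Module.finrank K L) (H2 (Rep.ofAlgebraAutOnUnits K L)) hn
    (fun x => ?_) (fun ℓ hℓ hℓn => ?_)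
  · have := helper46.card_nsmul_eq_zero (Rep.ofAlgebraAutOnUnits K L) 2 (by norm_num) x
    rwa [hcard] at this
  · haveI : Fact ℓ.Prime := ⟨hℓ⟩
    obtain ⟨P⟩ : Nonempty (Sylow ℓ (L ≃ₐ[K] L)) := inferInstance
    obtain ⟨j, hj⟩ := helper46.exists_injOn_pPrimary (Rep.ofAlgebraAutOnUnits K L) 2 ℓ P
    have hPcard : Nat.card (P : Subgroup (L ≃ₐ[K] L)) = ℓ ^ (Module.finrank K L).factorization ℓ := by
      rw [Sylow.card_eq_multiplicity, hcard]
    have hdeg : Module.finrank (IntermediateField.fixedField (P : Subgroup (L ≃ₐ[K] L))) L =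
        ℓ ^ (Module.finrank K L).factorization ℓ := by
      rw [IntermediateField.finrank_fixedField_eq_card, hPcard]
    obtain ⟨hfin, hle⟩ := card_H2_le_of_prime_pow hIR hN ℓ hℓ _
      (IntermediateField.fixedField (P : Subgroup (L ≃ₐ[K] L))) L
      (hK.of_finite q _) hdeg
    have hfin' : Finite (groupCohomology
        (res (P : Subgroup (L ≃ₐ[K] L)).subtype (Rep.ofAlgebraAutOnUnits K L)) 2) :=
      Finite.of_equiv _ (helper84.resUnitsIso K L (P : Subgroup (L ≃ₐ[K] L)) 2).toLinearEquiv.toEquiv.symm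
    have hle' : Nat.card (groupCohomology
        (res (P : Subgroup (L ≃ₐ[K] L)).subtype (Rep.ofAlgebraAutOnUnits K L)) 2) ≤
        ℓ ^ (Module.finrank K L).factorization ℓ := by
      rw [helper84.card_res_units]
      exact hle
    have hinj : Set.InjOn (fun x => j x) (primaryPart (H2 (Rep.ofAlgebraAutOnUnits K L)) ℓ) := by
      rintro x ⟨a, ha⟩ y ⟨b, hb⟩ hxy
      have h1 : j (x - y) = 0 := by
        rw [map_sub]
        exact sub_eq_zero.mpr hxy
      have h2 : ∃ m : ℕ, ℓ ^ m • (x - y) = 0 := by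
        refine ⟨a + b, ?_⟩
        rw [smul_sub, pow_add, mul_smul, mul_comm, mul_smul, smul_comm (ℓ ^ a) (ℓ ^ b) x, ha,
          smul_comm (ℓ ^ b) (ℓ ^ a) y, hb, smul_zero, smul_zero, sub_self]
      exact sub_eq_zero.mp (hj (x - y) h2 h1)
    have hfinS : (primaryPart (H2 (Rep.ofAlgebraAutOnUnits K L)) ℓ).Finite :=
      Set.Finite.of_finite_image (Set.toFinite _) hinj
    refine ⟨hfinS, ?_⟩
    rw [← Set.InjOn.ncard_image hinj]
    refine le_trans ?_ hle'
    rw [← Set.ncard_univ]
    exact Set.ncard_le_ncard (Set.subset_univ _) (Set.toFinite _)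

end Fermat.Agent.S55.helper88
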