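import Fermat.Agent.S55.helper88_H2Upper
import Fermat.Agent.S55.helper84_InfResFinal
import Fermat.Agent.S55.helper13_MulClass
import Fermat.Agent.S55.helper31_LocCyclic

/-!
# S55 / LOC-4 (helper88): the upper bound `|H²(Gal(L/K), Lˣ)| ≤ [L : K]`, unconditional

`towerInfRes` (from `helper84.infH_two_injective`, `helper84.resH_two_eq_zero_iff`) and
`normIndexStatement` (from `helper31.card_quotient_norm_of_isCyclic`) discharge the hypotheses of
`card_H2_le`.
-/

set_option autoImplicit false
set_option linter.style.haveILetI false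

open CategoryTheory groupCohomology Rep

namespace Fermat.Agent.S55.helper88

open Fermat.Agent.S55.helper8 Fermat.Agent.S55.helper11

section bridge

variable (K F L : Type) [Field K] [Field F] [Field L] [Algebra K F] [Algebra F L] [Algebra K L]
  [IsScalarTower K F L]

theorem h2cls_eq_mulClass {c : (L ≃ₐ[K] L) × (L ≃ₐ[K] L) → Lˣ} (hc : IsMulCocycle₂ c) :
    h2cls c hc = mulClass K L c :=
  (helper13.mulClass_of_isMulCocycle₂ K L hc).symm

theorem resUnits_eq_resH [Normal K L] (x : groupCohomology.H2 (Rep.ofAlgebraAutOnUnits K L)) :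
    resUnits K F L x = helper8.resH K F L 2 x := by
  obtain ⟨c, hc, rfl⟩ := h2cls_surjective (G := L ≃ₐ[K] L) (M := Lˣ) x
  have h1 := resUnits_h2cls K F L hc
  have h2 : helper8.resH K F L 2 (mulClass K L c) = mulClass F L (helper13.locCochain K L F L c) :=
    helper13.locH_mulClass K L F L hc
  have h3 : h2cls c hc = mulClass K L c := h2cls_eq_mulClass K L hc
  have h5 : ∀ g : L ≃ₐ[F] L, locHom K L F L g = g.restrictScalars K := by
    intro g
    apply AlgEquiv.ext
    intro y
    exact algebraMap_locHom K L F L g y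
  have h4 : helper13.locCochain K L F L c = fun p : (L ≃ₐ[F] L) × (L ≃ₐ[F] L) =>
      c (p.1.restrictScalars K, p.2.restrictScalars K) := by
    funext p
    rw [helper13.locCochain_apply, h5, h5]
    apply Units.ext
    rfl
  refine h1.trans ?_
  refine Eq.trans ?_ (congrArg (helper8.resH K F L 2) h3.symm)
  refine Eq.trans ?_ h2.symm
  refine (h2cls_eq_mulClass F L _).trans ?_
  exact congrArg (mulClass F L) h4.symm

variable [Normal K F]

theorem infUnits_eq_infH (x : groupCohomology.H2 (Rep.ofAlgebraAutOnUnits K F)) :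
    infUnits K F L x = helper8.infH K F L 2 x := by
  obtain ⟨c, hc, rfl⟩ := h2cls_surjective (G := F ≃ₐ[K] F) (M := Fˣ) x
  have h1 := infUnits_h2cls K F L hc
  have h2 : helper8.infH K F L 2 (mulClass K F c) = mulClass K L (helper13.locCochain K F K L c) :=
    helper13.locH_mulClass K F K L hc
  have h3 : h2cls c hc = mulClass K F c := h2cls_eq_mulClass K F hc
  have h5 : ∀ g : L ≃ₐ[K] L, locHom K F K L g = AlgEquiv.restrictNormalHom F g := by
    intro g
    apply AlgEquiv.ext
    intro y
    apply (algebraMap F L).injective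
    rw [algebraMap_locHom K F K L g y]
    exact (AlgEquiv.restrictNormal_commutes g F y).symm
  have h4 : helper13.locCochain K F K L c = fun p : (L ≃ₐ[K] L) × (L ≃ₐ[K] L) =>
      Units.map (algebraMap F L : F →* L)
        (c (AlgEquiv.restrictNormalHom F p.1, AlgEquiv.restrictNormalHom F p.2)) := by
    funext p
    rw [helper13.locCochain_apply, h5, h5]
  refine h1.trans ?_
  refine Eq.trans ?_ (congrArg (helper8.infH K F L 2) h3.symm)
  refine Eq.trans ?_ h2.symm
  refine (h2cls_eq_mulClass K L _).trans ?_
  exact congrArg (mulClass K L) h4.symm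

end bridge

/-- Inflation-restriction for towers of finite Galois extensions. -/
theorem towerInfRes : TowerInfRes := by
  intro K F L _ _ _ _ _ _ _ _ _ _
  have hinf : infUnits K F L = helper8.infH K F L 2 :=
    AddMonoidHom.ext (infUnits_eq_infH K F L)
  have hres : resUnits K F L = helper8.resH K F L 2 :=
    AddMonoidHom.ext (resUnits_eq_resH K F L)
  rw [hinf, hres]
  refine ⟨helper84.infH_two_injective K F L, fun y => ?_⟩
  rw [helper84.resH_two_eq_zero_iff K F L y]
  rfl

variable (q : ℕ) [Fact q.Prime]

/-- LOC-3 is available. -/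
theorem normIndexStatement : NormIndexStatement q :=
  fun K _ _ _ L _ _ _ _ _ => helper31.card_quotient_norm_of_isCyclic q K L

/-- The upper bound `|H²(Gal(L/K), Lˣ)| ≤ [L : K]` for `q`-adic fields. -/
theorem card_H2_le_finrank (K : Type) [Field K] [Algebra ℚ_[q] K] [FiniteDimensional ℚ_[q] K]
    (L : Type) [Field L] [Algebra K L] [FiniteDimensional K L] [IsGalois K L] :
    Finite (groupCohomology.H2 (Rep.ofAlgebraAutOnUnits K L)) ∧
      Nat.card (groupCohomology.H2 (Rep.ofAlgebraAutOnUnits K L)) ≤ Module.finrank K L :=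
  card_H2_le towerInfRes (normIndexStatement q) K L (isQadic_of_inst q K)

end Fermat.Agent.S55.helper88
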