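import Fermat.Agent.S55.helper90_Rec3Int

/-!
# S55 / REC3 (FUND), package R3-ABS-I4 (helper88, task 503)

Abstract form of field `exists_global₂` (I4) of B's `BaseInput`: every family of local classes
of `H²(G_w, ℤ/p)` whose invariants sum to zero comes from a global class of `H²(U, ℤ/p)`.

* `i4_loc₂_mem_B2`, `i4_res_mem_Z2`, `i4_π_mem_Z2`, `i4_π_mem_B2` : functoriality of level
  cochains along the localisation maps and along `π : J → C`;
* `exists_global₂_abs_of` : (I4) from the two abstract packages R3-ABS-T (`exists_local_class`)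
  and R3-ABS-LKB (`LocSys.Good.mem_B2_of_κ`), taken as hypotheses in the exact interface shape.
-/

set_option autoImplicit false
set_option linter.style.haveILetI false

open groupCohomology

noncomputable section

namespace Fermat.Agent.S55.helper88

open Fermat.Agent.S55 Fermat.Agent.S55.helper90

section I4

variable {k U : Type} [CommRing k] [Group U] {𝒩 : Levels U} {ι : Type}
variable {E J C : Rep.{0} k U} {X : ESeq E J C} {L : LocalData U 𝒩 ι}
variable {p : ℕ} [Fact p.Prime]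

/-! ## Localisation of level cochains -/

/-- localisation of level 1-cochains is level -/
lemma i4_loc₁_mem_C1 (Λ : LocSys J L) (w : ι) {s : U → J} (hs : s ∈ C1 𝒩 J) :
    Λ.loc₁ w s ∈ C1 (L.lev w) (Λ.Ω w) := by
  obtain ⟨N, hN, h⟩ := hs
  obtain ⟨N', hN', hle⟩ := L.compat w N hN
  refine ⟨N', hN', fun g s' hs' => ?_⟩
  have hmem : L.r w s' ∈ N := hle hs'
  simp only [LocSys.loc₁, map_mul, h _ _ hmem]

/-- localisation commutes with `d₁₂` -/
lemma i4_loc₂_d₁₂ (Λ : LocSys J L) (w : ι) (s : U → J) :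
    Λ.loc₂ w ((d₁₂ J).hom s) = (d₁₂ (Λ.Ω w)).hom (Λ.loc₁ w s) := by
  funext x
  simp only [LocSys.loc₂, LocSys.loc₁, d₁₂_hom_apply, map_sub, map_add, map_mul, Λ.lam_eq]

/-- localisation maps level coboundaries to level coboundaries -/
lemma i4_loc₂_mem_B2 (Λ : LocSys J L) (w : ι) {f : U × U → J} (hf : f ∈ B2 𝒩 J) :
    Λ.loc₂ w f ∈ B2 (L.lev w) (Λ.Ω w) := by
  obtain ⟨s, hs, rfl⟩ := hf
  exact ⟨Λ.loc₁ w s, i4_loc₁_mem_C1 Λ w hs, (i4_loc₂_d₁₂ Λ w s).symm⟩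

lemma i4_loc₂_sub (Λ : LocSys J L) (w : ι) (f g : U × U → J) :
    Λ.loc₂ w (f - g) = Λ.loc₂ w f - Λ.loc₂ w g := by
  funext x
  simp only [LocSys.loc₂, Pi.sub_apply, map_sub]

lemma i4_loc₂_nsmul (Λ : LocSys J L) (w : ι) (n : ℕ) (f : U × U → J) :
    Λ.loc₂ w (n • f) = n • Λ.loc₂ w f := by
  funext x
  simp only [LocSys.loc₂, Pi.smul_apply, map_nsmul]

/-- restriction of `ℤ/p`-valued 2-cochains to the local group at `w`, as a linear map -/
def i4res (L : LocalData U 𝒩 ι) (p : ℕ) (w : ι) :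
    (U × U → ZMod p) →ₗ[ZMod p] (L.Gv w × L.Gv w → ZMod p) where
  toFun z := fun s => z (L.r w s.1, L.r w s.2)
  map_add' _ _ := rfl
  map_smul' _ _ := rfl

/-- restriction of a global level 2-cocycle of `ℤ/p` is a local level 2-cocycle -/
lemma i4_res_mem_Z2 (w : ι) {z : U × U → ZMod p} (hz : z ∈ Z2 𝒩 (Tp U p)) :
    (fun s : L.Gv w × L.Gv w => z (L.r w s.1, L.r w s.2)) ∈ Z2 (L.lev w) (Tp (L.Gv w) p) := by
  obtain ⟨⟨N, hN, h⟩, hd⟩ := hz
  refine ⟨?_, ?_⟩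
  · obtain ⟨N', hN', hle⟩ := L.compat w N hN
    refine ⟨N', hN', fun g₁ g₂ s₁ hs₁ s₂ hs₂ => ?_⟩
    have h₁ : L.r w s₁ ∈ N := hle hs₁
    have h₂ : L.r w s₂ ∈ N := hle hs₂
    simp only [map_mul]
    exact h _ _ _ h₁ _ h₂
  · change (d₂₃ (Tp (L.Gv w) p)).hom _ = 0
    funext x
    have hd' : (d₂₃ (Tp U p)).hom z = 0 := hd
    have := congrFun hd' (L.r w x.1, L.r w x.2.1, L.r w x.2.2)
    simp only [d₂₃_hom_apply, map_mul] at this ⊢
    exact this

/-- the local Kummer map applied to the restriction of a global cochain -/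
lemma i4_loc₂_κ (Λ : LocSys J L) (K : KummerDatum E p) (w : ι) (z : U × U → ZMod p) :
    Λ.loc₂ w (fun x => X.i (K.κ (z x))) = fun s => Λ.κ X K w (i4res L p w z s) := rfl

/-! ## Push-forward along `π` -/

lemma i4_π_mem_Z2 {t : U × U → J} (ht : t ∈ Z2 𝒩 J) : (fun x => X.π (t x)) ∈ Z2 𝒩 C := by
  refine ⟨IsLev₂.comp' 𝒩 ht.1 X.π, ?_⟩
  change (d₂₃ C).hom _ = 0
  rw [d₂₃_map X.π_eq]
  have h0 : (d₂₃ J).hom t = 0 := ht.2
  funext x
  rw [h0]
  exact map_zero _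

lemma i4_π_mem_B2 {f : U × U → J} (hf : f ∈ B2 𝒩 J) : (fun x => X.π (f x)) ∈ B2 𝒩 C := by
  obtain ⟨s, hs, rfl⟩ := hf
  exact ⟨fun g => X.π (s g), IsLev₁.comp' 𝒩 hs X.π, d₁₂_map X.π_eq s⟩

/-! ## The global class with prescribed local components -/

/-- **R3-ABS-I4**, conditional form: (I4) of `BaseInput` from the packages R3-ABS-T (`hT`) and
R3-ABS-LKB (`hLKB`). -/
theorem exists_global₂_abs_of [Fintype ι] (hG : X.GoodP 𝒩 p) (K : KummerDatum E p)
    (hdE : IsDisc 𝒩 E) (hC1 : C1P 𝒩 p C) (hC2 : C2Cyc 𝒩 p C) (Λ : LocSys J L)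
    (inv : ∀ w : ι, (L.Gv w × L.Gv w → ZMod p) →ₗ[ZMod p] ZMod p)
    (I1 : ∀ w, ∀ c ∈ Z2 (L.lev w) (Tp (L.Gv w) p),
      inv w c = 0 ↔ c ∈ B2 (L.lev w) (Tp (L.Gv w) p))
    (I1' : ∀ w, ∃ c ∈ Z2 (L.lev w) (Tp (L.Gv w) p), inv w c ≠ 0)
    (I3 : ∀ z ∈ Z2 𝒩 (Tp U p), ∑ w, inv w (fun s => z (L.r w s.1, L.r w s.2)) = 0)
    (hT : ∀ (w : ι) (c : L.Gv w × L.Gv w → ZMod p), c ∈ Z2 (L.lev w) (Tp (L.Gv w) p) →
      inv w c ≠ 0 →
      ∃ t ∈ Z2 𝒩 J, p • t ∈ B2 𝒩 J ∧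
        (Λ.loc₂ w t - fun s => Λ.κ X K w (c s)) ∈ B2 (L.lev w) (Λ.Ω w) ∧
        (∀ w', w' ≠ w → Λ.loc₂ w' t ∈ B2 (L.lev w') (Λ.Ω w')) ∧
        (fun x => X.π (t x)) ∉ B2 𝒩 C)
    (hLKB : ∀ (w : ι) (z : L.Gv w × L.Gv w → ZMod p), z ∈ Z2 (L.lev w) (Tp (L.Gv w) p) →
      (fun s => Λ.κ X K w (z s)) ∈ B2 (L.lev w) (Λ.Ω w) →
      z ∈ B2 (L.lev w) (Tp (L.Gv w) p))
    (c : ∀ w, L.Gv w × L.Gv w → ZMod p) (hc : ∀ w, c w ∈ Z2 (L.lev w) (Tp (L.Gv w) p))
    (hsum : ∑ w, inv w (c w) = 0) :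
    ∃ z ∈ Z2 𝒩 (Tp U p), ∀ w, (c w - fun s => z (L.r w s.1, L.r w s.2)) ∈
      B2 (L.lev w) (Tp (L.Gv w) p) := by
  classical
  rcases isEmpty_or_nonempty ι with hι | ⟨⟨w0⟩⟩
  · exact ⟨0, Submodule.zero_mem _, fun w => (hι.false w).elim⟩
  -- local classes with non-zero invariant, and their global companions in `H²(J)`
  choose c0 hc0Z hc0 using I1'
  choose t htZ hpt hloc hloc' hπ using fun w => hT w (c0 w) (hc0Z w) (hc0 w)
  -- `π ∘ t w` is a class of `H²(C)` killed by `p`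
  have hπZ : ∀ w, (fun x => X.π (t w x)) ∈ Z2 𝒩 C := fun w => i4_π_mem_Z2 (htZ w)
  have hπp : ∀ w, p ^ 1 • (fun x => X.π (t w x)) ∈ B2 𝒩 C := by
    intro w
    have e : p ^ 1 • (fun x => X.π (t w x)) = fun x => X.π ((p • t w) x) := by
      funext x
      simp only [pow_one, Pi.smul_apply, map_nsmul]
    rw [e]
    exact i4_π_mem_B2 (hpt w)
  -- the global classes `z w` (`w ≠ w0`)
  have key : ∀ w, w ≠ w0 → ∃ z ∈ Z2 𝒩 (Tp U p),
      inv w (i4res L p w z) = inv w (c0 w) ∧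
      ∀ w', w' ≠ w → w' ≠ w0 → inv w' (i4res L p w' z) = 0 := by
    intro w hw
    have hn : p ^ 0 • (fun x => X.π (t w0 x)) ∉ B2 𝒩 C := by
      rw [pow_zero, one_smul]
      exact hπ w0
    obtain ⟨a, ha⟩ := hC2 _ (hπZ w0) _ (hπZ w) 0 1 (hπp w0) hn (by simpa using hπp w)
    -- the class `j = t w - a t w0` dies in `H²(C)`
    set j : U × U → J := t w - a • t w0 with hj
    have hjZ : j ∈ Z2 𝒩 J := Submodule.sub_mem _ (htZ w) ((Z2 𝒩 J).nsmul_mem (htZ w0) a)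
    have hpj : p • j ∈ B2 𝒩 J := by
      have e : p • j = p • t w - a • (p • t w0) := by
        rw [hj, smul_sub, smul_comm p a]
      rw [e]
      exact Submodule.sub_mem _ (hpt w) ((B2 𝒩 J).nsmul_mem (hpt w0) a)
    have hπj : (fun x => X.π (j x)) ∈ B2 𝒩 C := by
      have e : (fun x => X.π (j x)) =
          (fun x => X.π (t w x)) - a • (fun x => X.π (t w0 x)) := by
        funext x
        simp only [hj, Pi.sub_apply, Pi.smul_apply, map_sub, map_nsmul]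
      rw [e]
      exact ha
    obtain ⟨z, hz, hzj⟩ := hG.exists_Tp_of_J K hdE hC1 j hjZ hpj hπj
    -- localisation of `i κ z - j`
    have hlocz : ∀ w', (fun s => Λ.κ X K w' (i4res L p w' z s)) -
        (Λ.loc₂ w' (t w) - a • Λ.loc₂ w' (t w0)) ∈ B2 (L.lev w') (Λ.Ω w') := by
      intro w'
      have := i4_loc₂_mem_B2 Λ w' hzj
      rwa [i4_loc₂_sub, i4_loc₂_κ, hj, i4_loc₂_sub, i4_loc₂_nsmul] at this
    refine ⟨z, hz, ?_, ?_⟩
    · -- at `w`
      have h1 : Λ.loc₂ w (t w0) ∈ B2 (L.lev w) (Λ.Ω w) := hloc' w0 w hw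
      have h2 : (fun s => Λ.κ X K w ((i4res L p w z - c0 w) s)) ∈ B2 (L.lev w) (Λ.Ω w) := by
        have e : (fun s => Λ.κ X K w ((i4res L p w z - c0 w) s)) =
            ((fun s => Λ.κ X K w (i4res L p w z s)) -
              (Λ.loc₂ w (t w) - a • Λ.loc₂ w (t w0))) +
            (Λ.loc₂ w (t w) - fun s => Λ.κ X K w (c0 w s)) - a • Λ.loc₂ w (t w0) := by
          funext s
          simp only [Pi.sub_apply, Pi.add_apply, Pi.smul_apply, map_sub]
          abel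
        rw [e]
        exact Submodule.sub_mem _ (Submodule.add_mem _ (hlocz w) (hloc w))
          ((B2 (L.lev w) (Λ.Ω w)).nsmul_mem h1 a)
      have hZ : i4res L p w z - c0 w ∈ Z2 (L.lev w) (Tp (L.Gv w) p) :=
        Submodule.sub_mem _ (i4_res_mem_Z2 w hz) (hc0Z w)
      have h3 := (I1 w _ hZ).2 (hLKB w _ hZ h2)
      rw [map_sub, sub_eq_zero] at h3
      exact h3
    · -- at `w' ≠ w, w0`
      intro w' hw' hw'0
      have h1 : Λ.loc₂ w' (t w0) ∈ B2 (L.lev w') (Λ.Ω w') := hloc' w0 w' hw'0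
      have h1' : Λ.loc₂ w' (t w) ∈ B2 (L.lev w') (Λ.Ω w') := hloc' w w' hw'
      have h2 : (fun s => Λ.κ X K w' (i4res L p w' z s)) ∈ B2 (L.lev w') (Λ.Ω w') := by
        have e : (fun s => Λ.κ X K w' (i4res L p w' z s)) =
            ((fun s => Λ.κ X K w' (i4res L p w' z s)) -
              (Λ.loc₂ w' (t w) - a • Λ.loc₂ w' (t w0))) +
            (Λ.loc₂ w' (t w) - a • Λ.loc₂ w' (t w0)) := by
          abel
        rw [e]
        exact Submodule.add_mem _ (hlocz w')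
          (Submodule.sub_mem _ h1' ((B2 (L.lev w') (Λ.Ω w')).nsmul_mem h1 a))
      exact (I1 w' _ (i4_res_mem_Z2 w' hz)).2 (hLKB w' _ (i4_res_mem_Z2 w' hz) h2)
  choose! z hzZ hzw hzw' using key
  -- the linear combination
  set b : ι → ZMod p := fun w => inv w (c w) / inv w (c0 w) with hb
  set Z : U × U → ZMod p := ∑ w ∈ Finset.univ.erase w0, b w • z w with hZdef
  have hZ : Z ∈ Z2 𝒩 (Tp U p) :=
    Submodule.sum_mem _ fun w hw =>
      Submodule.smul_mem _ _ (hzZ w (Finset.ne_of_mem_erase hw))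
  -- invariants of `Z` away from `w0`
  have hinv : ∀ w', w' ≠ w0 → inv w' (i4res L p w' Z) = inv w' (c w') := by
    intro w' hw'
    rw [hZdef, map_sum, map_sum]
    rw [Finset.sum_eq_single w']
    · rw [map_smul, map_smul, hzw w' hw', smul_eq_mul, hb]
      exact div_mul_cancel₀ _ (hc0 w')
    · intro w hw hww'
      rw [map_smul, map_smul, hzw' w (Finset.ne_of_mem_erase hw) w' (Ne.symm hww') hw',
        smul_zero]
    · intro h
      exact absurd (Finset.mem_erase.2 ⟨hw', Finset.mem_univ _⟩) h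
  have hdiff : ∀ w', w' ≠ w0 → inv w' (c w' - i4res L p w' Z) = 0 := fun w' hw' => by
    rw [map_sub, hinv w' hw', sub_self]
  have hdiff0 : inv w0 (c w0 - i4res L p w0 Z) = 0 := by
    have h1 : ∑ w, inv w (c w - i4res L p w Z) = 0 := by
      simp only [map_sub, Finset.sum_sub_distrib, hsum]
      rw [zero_sub, neg_eq_zero]
      exact I3 Z hZ
    rw [Finset.sum_eq_single w0 (fun w _ hw => hdiff w hw)
      (fun h => absurd (Finset.mem_univ _) h)] at h1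
    exact h1
  refine ⟨Z, hZ, fun w => ?_⟩
  have hZw : c w - i4res L p w Z ∈ Z2 (L.lev w) (Tp (L.Gv w) p) :=
    Submodule.sub_mem _ (hc w) (i4_res_mem_Z2 w hZ)
  refine (I1 w _ hZw).1 ?_
  by_cases hw : w = w0
  · subst hw
    exact hdiff0
  · exact hdiff w hw

end I4

end Fermat.Agent.S55.helper88
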