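import Fermat.Agent.S55.helper88_Rec3I4
import Fermat.Agent.S55.helper85_Rec3AbsT2

/-!
# S55 / REC3 (FUND), package R3-ABS-I4, verbatim and unconditional (helper88, task 503)

`exists_global₂_abs` : the statement of `helper90_Rec3Interface` (section `Abs`), VERBATIM, from
`exists_global₂_abs_of` and the packages R3-ABS-T / R3-ABS-LKB (`helper85.exists_local_class`,
`helper85.lkb`).  (Second proof; `helper90.exists_global₂_abs` is the bundled form.)
-/

set_option autoImplicit false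

open groupCohomology

noncomputable section

namespace Fermat.Agent.S55.helper88

open Fermat.Agent.S55 Fermat.Agent.S55.helper90

section I4Final

variable {k U : Type} [CommRing k] [Group U] {𝒩 : Levels U} {ι : Type} [Fintype ι]
variable {E J C : Rep.{0} k U} {X : ESeq E J C} {L : LocalData U 𝒩 ι}
variable {p : ℕ} [Fact p.Prime]

/-- **R3-ABS-I4**: (I4) of `BaseInput`: every family of local classes with vanishing sum of
invariants is global. -/
theorem exists_global₂_abs (hG : X.GoodP 𝒩 p) (K : KummerDatum E p) (hdE : IsDisc 𝒩 E)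
    (hC1 : C1P 𝒩 p C) (hC2 : C2Cyc 𝒩 p C) (Λ : LocSys J L) (hΛ : Λ.Good X p K)
    (inv : ∀ w : ι, (L.Gv w × L.Gv w → ZMod p) →ₗ[ZMod p] ZMod p)
    (I1 : ∀ w, ∀ c ∈ Z2 (L.lev w) (Tp (L.Gv w) p),
      inv w c = 0 ↔ c ∈ B2 (L.lev w) (Tp (L.Gv w) p))
    (I1' : ∀ w, ∃ c ∈ Z2 (L.lev w) (Tp (L.Gv w) p), inv w c ≠ 0)
    (I3 : ∀ z ∈ Z2 𝒩 (Tp U p), ∑ w, inv w (fun s => z (L.r w s.1, L.r w s.2)) = 0)
    (c : ∀ w, L.Gv w × L.Gv w → ZMod p) (hc : ∀ w, c w ∈ Z2 (L.lev w) (Tp (L.Gv w) p))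
    (hsum : ∑ w, inv w (c w) = 0) :
    ∃ z ∈ Z2 𝒩 (Tp U p), ∀ w, (c w - fun s => z (L.r w s.1, L.r w s.2)) ∈
      B2 (L.lev w) (Tp (L.Gv w) p) :=
  exists_global₂_abs_of hG K hdE hC1 hC2 Λ inv I1 I1' I3
    (fun w c₀ hc₀ hc₀' =>
      helper85.exists_local_class hG K hdE hC1 Λ hΛ inv I1 I3 w c₀ hc₀ hc₀')
    (fun w z hz h => helper85.lkb K Λ hΛ w z hz h) c hc hsum

end I4Final

end Fermat.Agent.S55.helper88
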