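import Mathlib

/-!
# S55 / LOC-4 (helper88): counting lemmas for abelian groups

* `card_le_of_exact` : if `A → B → C` is exact with `A`, `C` finite then `B` is finite and
  `|B| ≤ |A| |C|`;
* `card_le_of_primary_bound` : an abelian group killed by `n` whose `ℓ`-primary parts have at most
  `ℓ ^ v_ℓ(n)` elements has at most `n` elements.
-/

set_option autoImplicit false
set_option linter.style.haveILetI false

namespace Fermat.Agent.S55.helper88

theorem card_le_of_exact {A B C : Type*} [AddCommGroup A] [AddCommGroup B] [AddCommGroup C]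
    (f : A →+ B) (g : B →+ C) (h : Function.Exact f g) [Finite A] [Finite C] :
    Finite B ∧ Nat.card B ≤ Nat.card A * Nat.card C := by
  have hker : g.ker = f.range := by
    ext x
    rw [AddMonoidHom.mem_ker, AddMonoidHom.mem_range]
    exact h x
  have h1 : Nat.card g.ker ≤ Nat.card A := by
    rw [hker]
    exact Nat.card_le_card_of_surjective f.rangeRestrict f.rangeRestrict_surjective
  have h2 : Nat.card g.range ≤ Nat.card C :=
    Nat.card_le_card_of_injective (Subtype.val : g.range → C) Subtype.val_injective
  have h3 : Nat.card g.ker * g.ker.index = Nat.card B := AddSubgroup.card_mul_index g.ker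
  rw [AddSubgroup.index_ker] at h3
  have hk0 : Nat.card g.ker ≠ 0 := by
    have : Finite g.ker := by
      rw [hker]
      exact Finite.of_surjective f.rangeRestrict f.rangeRestrict_surjective
    exact Nat.card_pos.ne'
  have hr0 : Nat.card g.range ≠ 0 := by
    have : Finite g.range := Finite.of_injective (Subtype.val : g.range → C) Subtype.val_injective
    exact Nat.card_pos.ne'
  refine ⟨Nat.finite_of_card_ne_zero ?_, ?_⟩
  · rw [← h3]
    exact mul_ne_zero hk0 hr0
  · rw [← h3]
    exact Nat.mul_le_mul h1 h2

/-- The `ℓ`-primary part of an abelian group, as a set. -/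
def primaryPart (X : Type*) [AddCommGroup X] (ℓ : ℕ) : Set X := {x | ∃ m : ℕ, ℓ ^ m • x = 0}

theorem card_le_of_primary_bound (n : ℕ) : ∀ (X : Type) [AddCommGroup X], 0 < n →
    (∀ x : X, n • x = 0) →
    (∀ ℓ : ℕ, ℓ.Prime → ℓ ∣ n → (primaryPart X ℓ).Finite ∧
      (primaryPart X ℓ).ncard ≤ ℓ ^ n.factorization ℓ) →
    Finite X ∧ Nat.card X ≤ n := by
  induction n using Nat.strong_induction_on with
  | _ n ih =>
    intro X _ hn hkill hprim
    rcases Nat.lt_or_ge 1 n with h1 | h1
    swap
    · -- n = 1
      have hn1 : n = 1 := le_antisymm h1 hn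
      subst hn1
      have : Subsingleton X := ⟨fun x y => by
        have hx := hkill x
        have hy := hkill y
        rw [one_smul] at hx hy
        rw [hx, hy]⟩
      exact ⟨inferInstance, by rw [Nat.card_unique]⟩
    · -- n > 1
      obtain ⟨ℓ, hℓ, hℓn⟩ := Nat.exists_prime_and_dvd (by omega : n ≠ 1)
      set a := n.factorization ℓ with ha
      have hdiv : ℓ ^ a ∣ n := Nat.ordProj_dvd n ℓ
      obtain ⟨m, hm⟩ := hdiv
      have hm0 : 0 < m := by
        rcases Nat.eq_zero_or_pos m with h | h
        · rw [h, mul_zero] at hm; omega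
        · exact h
      have ha0 : 0 < a := hℓ.factorization_pos_of_dvd hn.ne' hℓn
      have hmn : m < n := by
        have : 1 < ℓ ^ a := Nat.one_lt_pow ha0.ne' hℓ.one_lt
        calc m = 1 * m := (one_mul m).symm
          _ < ℓ ^ a * m := Nat.mul_lt_mul_of_pos_right this hm0
          _ = n := hm.symm
      have hℓm : ¬ ℓ ∣ m := by
        intro hd
        have : ℓ ^ (a + 1) ∣ n := by
          rw [pow_succ, hm]
          exact Nat.mul_dvd_mul_left _ hd
        have h2 := (hℓ.pow_dvd_iff_le_factorization hn.ne').mp this
        omega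
      -- the map `x ↦ m • x`
      let f : X →+ X := nsmulAddMonoidHom m
      let Y : AddSubgroup X := f.ker
      have hfac : ∀ ℓ' : ℕ, ℓ'.Prime → ℓ' ∣ m → m.factorization ℓ' = n.factorization ℓ' := by
        intro ℓ' hℓ' hℓ'm
        have hne : ℓ' ≠ ℓ := fun h => hℓm (h ▸ hℓ'm)
        rw [hm, Nat.factorization_mul (pow_ne_zero _ hℓ.ne_zero) hm0.ne',
          Nat.factorization_pow]
        simp [hℓ.factorization, hne.symm]
      have hY : Finite Y ∧ Nat.card Y ≤ m := by
        refine ih m hmn Y hm0 ?_ ?_
        · intro y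
          apply Subtype.ext
          have h0 : f (y : X) = 0 := y.2
          show m • (y : X) = 0
          exact h0
        · intro ℓ' hℓ' hℓ'm
          have hℓ'n : ℓ' ∣ n := hm ▸ Dvd.dvd.mul_left hℓ'm _
          obtain ⟨hfin, hcard⟩ := hprim ℓ' hℓ' hℓ'n
          have hinj : Set.InjOn (Subtype.val : Y → X) (primaryPart Y ℓ') :=
            Subtype.val_injective.injOn
          have hsub : (Subtype.val : Y → X) '' (primaryPart Y ℓ') ⊆ primaryPart X ℓ' := by
            rintro _ ⟨y, ⟨k, hk⟩, rfl⟩
            refine ⟨k, ?_⟩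
            have := congrArg (Subtype.val : Y → X) hk
            simpa using this
          have hfinY : (primaryPart Y ℓ').Finite :=
            Set.Finite.of_finite_image (hfin.subset hsub) hinj
          refine ⟨hfinY, ?_⟩
          rw [hfac ℓ' hℓ' hℓ'm, ← Set.InjOn.ncard_image hinj]
          exact (Set.ncard_le_ncard hsub hfin).trans hcard
      obtain ⟨hYfin, hYcard⟩ := hY
      obtain ⟨hTfin, hTcard⟩ := hprim ℓ hℓ hℓn
      have hrange : (f.range : Set X) ⊆ primaryPart X ℓ := by
        rintro _ ⟨x, rfl⟩
        refine ⟨a, ?_⟩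
        show ℓ ^ a • (m • x) = 0
        rw [← mul_smul, ← hm]
        exact hkill x
      have hrfin : (f.range : Set X).Finite := hTfin.subset hrange
      have : Finite f.range := hrfin
      have hrcard : Nat.card f.range ≤ ℓ ^ a := by
        have : Nat.card f.range = (f.range : Set X).ncard := rfl
        rw [this]
        exact (Set.ncard_le_ncard hrange hTfin).trans hTcard
      have h3 : Nat.card f.ker * f.ker.index = Nat.card X := AddSubgroup.card_mul_index f.ker
      rw [AddSubgroup.index_ker] at h3
      have hk0 : Nat.card f.ker ≠ 0 := by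
        have : Finite f.ker := hYfin
        exact Nat.card_pos.ne'
      have hr0 : Nat.card f.range ≠ 0 := Nat.card_pos.ne'
      refine ⟨Nat.finite_of_card_ne_zero ?_, ?_⟩
      · rw [← h3]
        exact mul_ne_zero hk0 hr0
      · rw [← h3, hm, mul_comm (ℓ ^ a) m]
        exact Nat.mul_le_mul hYcard hrcard

end Fermat.Agent.S55.helper88
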