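import Fermat.Agent.S55.helper88_H2Map
import Fermat.Agent.S55.helper88_TorsionBound
import Fermat.Agent.S55.helper96_CyclicNorm

/-!
# S55 / LOC-4 (helper88): inflation and restriction for towers of fields, cyclic case

* `infUnits K F L : H²(Gal(F/K), Fˣ) →+ H²(Gal(L/K), Lˣ)` and
  `resUnits K F L : H²(Gal(L/K), Lˣ) →+ H²(Gal(L/F), Lˣ)` for a tower `K ⊆ F ⊆ L`;
* `TowerInfRes` : the inflation-restriction statement for towers (a `Prop`);
* `card_H2_of_isCyclic` : `|H²(Gal(L/K), Lˣ)| = [Kˣ : N Lˣ]` for cyclic `L/K`.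
-/

set_option autoImplicit false
set_option linter.style.haveILetI false

open CategoryTheory groupCohomology Rep

namespace Fermat.Agent.S55.helper88

open Fermat.Agent.S55.helper8

section tower

variable (K F L : Type) [Field K] [Field F] [Field L] [Algebra K F] [Algebra F L] [Algebra K L]
  [IsScalarTower K F L]

/-- Restriction `H²(Gal(L/K), Lˣ) → H²(Gal(L/F), Lˣ)`. -/
noncomputable def resUnits :
    H2 (Rep.ofAlgebraAutOnUnits K L) →+ H2 (Rep.ofAlgebraAutOnUnits F L) :=
  h2map (G := L ≃ₐ[F] L) (Q := L ≃ₐ[K] L) (M := Lˣ) (B := Lˣ)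
    (AlgEquiv.restrictScalarsHom K) (MonoidHom.id Lˣ) (fun _ _ => rfl)

theorem resUnits_h2cls {c : (L ≃ₐ[K] L) × (L ≃ₐ[K] L) → Lˣ} (hc : IsMulCocycle₂ c) :
    resUnits K F L (h2cls c hc) =
      h2cls (fun p : (L ≃ₐ[F] L) × (L ≃ₐ[F] L) =>
          c (p.1.restrictScalars K, p.2.restrictScalars K))
        (isMulCocycle₂_pair (G := L ≃ₐ[F] L) (Q := L ≃ₐ[K] L) (M := Lˣ) (B := Lˣ)
          (AlgEquiv.restrictScalarsHom K) (MonoidHom.id Lˣ) (fun _ _ => rfl) hc) :=
  h2map_h2cls _ _ _ hc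

variable [Normal K F]

theorem infUnits_compat (g : L ≃ₐ[K] L) (b : Fˣ) :
    Units.map (algebraMap F L : F →* L) (AlgEquiv.restrictNormalHom F g • b) =
      g • Units.map (algebraMap F L : F →* L) b := by
  ext
  exact AlgEquiv.restrictNormal_commutes g F (b : F)

/-- Inflation `H²(Gal(F/K), Fˣ) → H²(Gal(L/K), Lˣ)`. -/
noncomputable def infUnits :
    H2 (Rep.ofAlgebraAutOnUnits K F) →+ H2 (Rep.ofAlgebraAutOnUnits K L) :=
  h2map (G := L ≃ₐ[K] L) (Q := F ≃ₐ[K] F) (M := Lˣ) (B := Fˣ)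
    (AlgEquiv.restrictNormalHom F) (Units.map (algebraMap F L : F →* L))
    (infUnits_compat K F L)

theorem infUnits_h2cls {c : (F ≃ₐ[K] F) × (F ≃ₐ[K] F) → Fˣ} (hc : IsMulCocycle₂ c) :
    infUnits K F L (h2cls c hc) =
      h2cls (fun p : (L ≃ₐ[K] L) × (L ≃ₐ[K] L) =>
          Units.map (algebraMap F L : F →* L)
            (c (AlgEquiv.restrictNormalHom F p.1, AlgEquiv.restrictNormalHom F p.2)))
        (isMulCocycle₂_pair (G := L ≃ₐ[K] L) (Q := F ≃ₐ[K] F) (M := Lˣ) (B := Fˣ)
          (AlgEquiv.restrictNormalHom F) (Units.map (algebraMap F L : F →* L))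
          (infUnits_compat K F L) hc) :=
  h2map_h2cls _ _ _ hc

end tower

/-- The inflation-restriction statement in degree 2 for towers of finite Galois extensions
(it follows from Hilbert 90 and the general inflation-restriction sequence). -/
def TowerInfRes : Prop :=
  ∀ (K F L : Type) [Field K] [Field F] [Field L] [Algebra K F] [Algebra F L] [Algebra K L]
    [IsScalarTower K F L] [FiniteDimensional K L] [IsGalois K L] [IsGalois K F],
    Function.Injective (infUnits K F L) ∧ Function.Exact (infUnits K F L) (resUnits K F L)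

section cyclic

variable (K L : Type) [Field K] [Field L] [Algebra K L] [FiniteDimensional K L] [IsGalois K L]

/-- For a cyclic extension, `H²(Gal(L/K), Lˣ) ≃ Kˣ / N Lˣ` (cardinality form). -/
theorem card_H2_of_gen (φ : L ≃ₐ[K] L) (hgen : ∀ σ : L ≃ₐ[K] L, σ ∈ Subgroup.zpowers φ) :
    Nat.card (H2 (Rep.ofAlgebraAutOnUnits K L)) = Nat.card (Kˣ ⧸ (normUnits K L).range) := by
  let f : Kˣ →* Multiplicative (H2 (Rep.ofAlgebraAutOnUnits K L)) :=
    MonoidHom.mk' (fun b => Multiplicative.ofAdd (cyclicClass K L φ b)) (fun a b => by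
      rw [helper96.cyclicClass_mul K L φ hgen, ofAdd_add])
  have hf : Function.Surjective f := fun x => by
    obtain ⟨b, hb⟩ := helper96.cyclicClass_surjective K L φ hgen (Multiplicative.toAdd x)
    exact ⟨b, by simp only [f, MonoidHom.mk'_apply, hb]; rfl⟩
  have hker : f.ker = (QuotientGroup.mk' (normUnits K L).range).ker := by
    rw [QuotientGroup.ker_mk']
    ext b
    rw [MonoidHom.mem_ker, ← helper96.cyclicClass_eq_zero_iff' K L φ hgen b]
    rfl
  obtain ⟨e, -⟩ := helper96.exists_mulEquiv_of_ker_eq f (QuotientGroup.mk' (normUnits K L).range)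
    hf (QuotientGroup.mk'_surjective _) hker
  exact Nat.card_congr (Multiplicative.ofAdd.trans e.toEquiv)

theorem card_H2_of_isCyclic [IsCyclic (L ≃ₐ[K] L)] :
    Nat.card (H2 (Rep.ofAlgebraAutOnUnits K L)) = Nat.card (Kˣ ⧸ (normUnits K L).range) := by
  obtain ⟨φ, hφ⟩ := IsCyclic.exists_generator (α := L ≃ₐ[K] L)
  exact card_H2_of_gen K L φ hφ

end cyclic

end Fermat.Agent.S55.helper88
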