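import Fermat.Agent.S55.helper89_ChevDefs

/-!
# S55 / GLOB / G7 (helper89): Lagrange idempotents

If `x₀ ∈ Kˣ` is a `p`-th power in `ℚ_q ⊗ K` (and `ζ_p ∈ K`), then every unit of `ℚ_q ⊗ K` is a
norm from `ℚ_q ⊗ N`, `N = K(x₀^(1/p))`: with `t = z⁻¹ θ` (`t ^ p = 1`) and
`s = ∑_{i<p} t ^ i`, the elements `ε_σ = p⁻¹ σ(s)` are orthogonal idempotents with sum `1`, and
`normG (1 + ε₁ (c - 1)) = c`.
-/

set_option autoImplicit false

open scoped TensorProduct NumberField
open Polynomial

namespace Fermat.Agent.S55.helper89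

open Fermat.Agent.S55.helper73

section Abstract

variable {B : Type*} [CommRing B] {G : Type*} [Group G] [Fintype G] [MulSemiringAction G B]

/-- product of `1 + v i` for pairwise orthogonal `v i`. -/
theorem prod_one_add_of_orthogonal {ι : Type*} [DecidableEq ι] (S : Finset ι) (v : ι → B)
    (hv : ∀ i ∈ S, ∀ j ∈ S, i ≠ j → v i * v j = 0) :
    ∏ i ∈ S, (1 + v i) = 1 + ∑ i ∈ S, v i := by
  induction S using Finset.induction_on with
  | empty => simp
  | insert a S ha ih =>
    rw [Finset.prod_insert ha, Finset.sum_insert ha,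
      ih (fun i hi j hj hij => hv i (Finset.mem_insert_of_mem hi) j
        (Finset.mem_insert_of_mem hj) hij)]
    have h0 : v a * ∑ i ∈ S, v i = 0 := by
      rw [Finset.mul_sum]
      apply Finset.sum_eq_zero
      intro i hi
      exact hv a (Finset.mem_insert_self a S) i (Finset.mem_insert_of_mem hi)
        (fun h => ha (h ▸ hi))
    linear_combination h0

/-- The abstract Lagrange lemma. -/
theorem prod_smul_lagrange (p : ℕ) (hcard : Fintype.card G = p) (t pinv c : B) (χ : G → B)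
    (ht : t ^ p = 1) (hχ : ∀ σ : G, σ • t = χ σ * t)
    (hpinv : (p : B) * pinv = 1) (hpinvG : ∀ σ : G, σ • pinv = pinv)
    (hc : ∀ σ : G, σ • c = c)
    (h1 : ∀ σ : G, σ ≠ 1 → ∑ i ∈ Finset.range p, χ σ ^ i = 0)
    (h2 : ∀ j : ℕ, 0 < j → j < p → ∑ σ : G, χ σ ^ j = 0) :
    ∏ σ : G, σ • (1 + pinv * (∑ i ∈ Finset.range p, t ^ i) * (c - 1)) = c := by
  classical
  set s : B := ∑ i ∈ Finset.range p, t ^ i with hs
  have hts : t * s = s := by
    have := mul_geom_sum t p
    rw [ht, sub_self] at this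
    linear_combination this
  have htjs : ∀ j : ℕ, t ^ j * s = s := by
    intro j
    induction j with
    | zero => simp
    | succ j ih => rw [pow_succ, mul_assoc, hts, ih]
  have hσs : ∀ σ : G, σ • s = ∑ i ∈ Finset.range p, χ σ ^ i * t ^ i := by
    intro σ
    rw [hs, Finset.smul_sum]
    apply Finset.sum_congr rfl
    intro i _
    rw [smul_pow', hχ, mul_pow]
  have hsσs : ∀ σ : G, σ ≠ 1 → s * (σ • s) = 0 := by
    intro σ hσ
    rw [hσs, Finset.mul_sum]
    have : ∀ i ∈ Finset.range p, s * (χ σ ^ i * t ^ i) = χ σ ^ i * s := by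
      intro i _
      rw [mul_comm s, mul_assoc, htjs]
    rw [Finset.sum_congr rfl this, ← Finset.sum_mul, h1 σ hσ, zero_mul]
  have horth : ∀ σ τ : G, σ ≠ τ → (σ • s) * (τ • s) = 0 := by
    intro σ τ hστ
    have h : σ⁻¹ * τ ≠ 1 := by
      intro h
      apply hστ
      have := congrArg (fun x => σ * x) h
      simpa using this.symm
    have := congrArg (fun x => σ • x) (hsσs (σ⁻¹ * τ) h)
    simp only [smul_mul', smul_zero, smul_smul, mul_inv_cancel_left] at this
    exact this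
  have hsum : ∑ σ : G, σ • s = (p : B) := by
    simp_rw [hσs]
    rw [Finset.sum_comm]
    have : ∀ i ∈ Finset.range p, ∑ σ : G, χ σ ^ i * t ^ i = if i = 0 then (p : B) else 0 := by
      intro i hi
      rw [← Finset.sum_mul]
      by_cases hi0 : i = 0
      · subst hi0
        simp [hcard]
      · rw [if_neg hi0, h2 i (Nat.pos_of_ne_zero hi0) (Finset.mem_range.1 hi), zero_mul]
    rw [Finset.sum_congr rfl this, Finset.sum_ite_eq']
    have hp0 : 0 < p := by
      rw [← hcard]; exact Fintype.card_pos_iff.2 ⟨1⟩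
    simp [hp0]
  have hsmul : ∀ σ : G, σ • (1 + pinv * s * (c - 1)) = 1 + pinv * (σ • s) * (c - 1) := by
    intro σ
    simp only [smul_add, smul_one, smul_mul', smul_sub, hpinvG, hc]
  simp_rw [hsmul]
  rw [prod_one_add_of_orthogonal]
  · rw [← Finset.sum_mul, ← Finset.mul_sum, hsum]
    linear_combination (c - 1) * hpinv
  · intro σ _ τ _ hστ
    have := horth σ τ hστ
    linear_combination pinv * pinv * (c - 1) * (c - 1) * this

end Abstract

end Fermat.Agent.S55.helper89

namespace Fermat.Agent.S55.helper89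

open Fermat.Agent.S55.helper73

section Concrete

variable (K N : Type*) [Field K] [NumberField K] [Field N] [NumberField N] [Algebra K N]

omit [NumberField K] [NumberField N] in
/-- `σ` fixes the image of `ℚ_q ⊗ K`. -/
lemma smul_bcAlg' (q : ℕ) [Fact q.Prime] [CharZero K] [CharZero N] (σ : N ≃ₐ[K] N)
    (w : SemiLoc q K) :
    σ • (Algebra.TensorProduct.map (AlgHom.id ℚ_[q] ℚ_[q]) (algebraMap K N).toRatAlgHom w :
      SemiLoc q N) =
      Algebra.TensorProduct.map (AlgHom.id ℚ_[q] ℚ_[q]) (algebraMap K N).toRatAlgHom w := by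
  induction w using TensorProduct.induction_on with
  | zero => simp
  | tmul a b =>
    simp only [Algebra.TensorProduct.map_tmul, AlgHom.coe_id, id_eq, smul_tmul']
    congr 1
    exact σ.commutes b
  | add x y hx hy => simp only [map_add, smul_add, hx, hy]

lemma smul_bcAlg (q : ℕ) [Fact q.Prime] (σ : N ≃ₐ[K] N) (w : SemiLoc q K) :
    σ • (bcAlg K N q w) = bcAlg K N q w := smul_bcAlg' K N q σ w

lemma bcAlg_one_tmul (q : ℕ) [Fact q.Prime] (a : K) :
    bcAlg K N q ((1 : ℚ_[q]) ⊗ₜ[ℚ] a) = (1 : ℚ_[q]) ⊗ₜ[ℚ] algebraMap K N a := by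
  simp [bcAlg]

end Concrete

section Main

variable (K N : Type*) [Field K] [NumberField K] [Field N] [NumberField N] [Algebra K N]

/-- **Lagrange idempotents**: if `x₀` is a `p`-th power in `ℚ_q ⊗ K`, every unit of `ℚ_q ⊗ K`
is a norm from `ℚ_q ⊗ K(x₀^(1/p))`. -/
theorem isLocNorm_of_locUnit_eq_pow (p : ℕ) (hp : p.Prime) (hdeg : Module.finrank K N = p)
    (ζ : K) (hζ : IsPrimitiveRoot ζ p) (x₀ : Kˣ) (hx₀ : ¬ ∃ c : K, c ^ p = (x₀ : K)) (θ : N)
    (hθ : θ ^ p = algebraMap K N (x₀ : K)) (q : ℕ) [Fact q.Prime]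
    (z : (SemiLoc q K)ˣ) (hz : z ^ p = locUnit q K x₀) (x : (SemiLoc q K)ˣ) :
    IsLocNorm K N q x := by
  classical
  haveI : NeZero p := ⟨hp.ne_zero⟩
  have : FiniteDimensional K N := Module.finite_of_finrank_pos (by rw [hdeg]; exact hp.pos)
  have hirr : Irreducible (X ^ p - C (x₀ : K)) :=
    X_pow_sub_C_irreducible_of_prime hp (fun b hb => hx₀ ⟨b, hb⟩)
  have hζ' : (primitiveRoots p K).Nonempty :=
    ⟨ζ, (mem_primitiveRoots hp.pos).2 hζ⟩
  -- `θ` generates `N`
  have hint : IsIntegral K θ := IsIntegral.of_finite K θ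
  have hmin : minpoly K θ = X ^ p - C (x₀ : K) := by
    symm
    apply minpoly.eq_of_irreducible_of_monic hirr
    · simp [hθ]
    · exact monic_X_pow_sub_C _ hp.ne_zero
  have htop : IntermediateField.adjoin K {θ} = ⊤ := by
    apply IntermediateField.eq_of_le_of_finrank_eq le_top
    rw [IntermediateField.adjoin.finrank hint, hmin, natDegree_X_pow_sub_C,
      IntermediateField.finrank_top', hdeg]
  have hsplit : IsSplittingField K N (X ^ p - C (x₀ : K)) := by
    have := isSplittingField_X_pow_sub_C_of_root_adjoin_eq_top (K := K) (L := N)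
      (by rw [hdeg]; exact hζ') (a := (x₀ : K)) (α := θ) (by rw [hdeg]; exact hθ) htop
    rwa [hdeg] at this
  let e := autEquivRootsOfUnity hζ' hirr N
  have heθ : ∀ σ : N ≃ₐ[K] N, σ θ = algebraMap K N (((e σ : rootsOfUnity p K) : Kˣ) : K) * θ := by
    intro σ
    have := autEquivRootsOfUnity_smul hζ' hirr N hθ σ
    rw [← this, Subgroup.smul_def, Units.smul_def, Algebra.smul_def]
  have hgal : IsGalois K N := isGalois_of_isSplittingField_X_pow_sub_C hζ' hirr N
  have hcard : Fintype.card (N ≃ₐ[K] N) = p := by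
    rw [← Nat.card_eq_fintype_card, IsGalois.card_aut_eq_finrank, hdeg]
  -- the data in `B = ℚ_q ⊗ N`
  let incl : N →ₐ[ℚ] SemiLoc q N := Algebra.TensorProduct.includeRight
  have hincl : ∀ b : N, incl b = (1 : ℚ_[q]) ⊗ₜ[ℚ] b := fun b => rfl
  have hsmul_incl : ∀ (σ : N ≃ₐ[K] N) (b : N), σ • incl b = incl (σ b) := by
    intro σ b
    rw [hincl, hincl, smul_tmul']
  set t : SemiLoc q N := bcAlg K N q ((z⁻¹ : (SemiLoc q K)ˣ) : SemiLoc q K) * incl θ with ht
  let χ : (N ≃ₐ[K] N) → SemiLoc q N :=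
    fun σ => incl (algebraMap K N (((e σ : rootsOfUnity p K) : Kˣ) : K))
  let pinv : SemiLoc q N := algebraMap ℚ (SemiLoc q N) ((p : ℚ)⁻¹)
  have htp : t ^ p = 1 := by
    rw [ht, mul_pow, ← map_pow, ← map_pow, hθ, hincl, ← bcAlg_one_tmul, ← map_mul]
    have : ((z⁻¹ : (SemiLoc q K)ˣ) : SemiLoc q K) ^ p * ((1 : ℚ_[q]) ⊗ₜ[ℚ] (x₀ : K)) = 1 := by
      have h1 : ((z⁻¹ ^ p * locUnit q K x₀ : (SemiLoc q K)ˣ) : SemiLoc q K) = 1 := by
        rw [← hz, ← mul_pow, inv_mul_cancel, one_pow, Units.val_one]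
      simpa using h1
    rw [this, map_one]
  have hχ : ∀ σ : N ≃ₐ[K] N, σ • t = χ σ * t := by
    intro σ
    rw [ht, smul_mul', smul_bcAlg, hsmul_incl, heθ, map_mul]
    ring
  have hpinv : ((p : ℕ) : SemiLoc q N) * pinv = 1 := by
    have : ((p : ℕ) : SemiLoc q N) = algebraMap ℚ (SemiLoc q N) (p : ℚ) := by simp
    rw [this, ← map_mul, mul_inv_cancel₀ (by exact_mod_cast hp.ne_zero), map_one]
  have halgQ : ∀ (σ : N ≃ₐ[K] N) (r : ℚ), σ • (algebraMap ℚ (SemiLoc q N) r) =
      algebraMap ℚ (SemiLoc q N) r := by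
    intro σ r
    have : algebraMap ℚ (SemiLoc q N) r = incl (algebraMap ℚ N r) := by
      rw [← incl.commutes r]
    rw [this, hsmul_incl]
    congr 1
    exact map_ratCast σ.toRingEquiv.toRingHom r ▸ (by simp)
  have hpinvG : ∀ σ : N ≃ₐ[K] N, σ • pinv = pinv := fun σ => halgQ σ _
  set c : SemiLoc q N := bcAlg K N q (x : SemiLoc q K) with hc
  have hcG : ∀ σ : N ≃ₐ[K] N, σ • c = c := fun σ => smul_bcAlg K N q σ _
  -- primitive roots
  have hprim : ∀ σ : N ≃ₐ[K] N, σ ≠ 1 →
      IsPrimitiveRoot ((((e σ : rootsOfUnity p K) : Kˣ) : K)) p := by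
    intro σ hσ
    have h1 : (((e σ : rootsOfUnity p K) : Kˣ) : K) ^ p = 1 := by
      have := (mem_rootsOfUnity p _).1 (e σ).2
      have h3 := congrArg Units.val this
      rwa [Units.val_pow_eq_pow_val, Units.val_one] at h3
    have h2 : (((e σ : rootsOfUnity p K) : Kˣ) : K) ≠ 1 := by
      intro h
      apply hσ
      apply e.injective
      rw [map_one]
      ext
      exact h
    haveI : Fact p.Prime := ⟨hp⟩
    have h3 := orderOf_eq_prime h1 h2
    have h4 := IsPrimitiveRoot.orderOf (((e σ : rootsOfUnity p K) : Kˣ) : K)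
    rwa [h3] at h4
  have hχpow : ∀ (σ : N ≃ₐ[K] N) (i : ℕ),
      χ σ ^ i = incl (algebraMap K N ((((e σ : rootsOfUnity p K) : Kˣ) : K) ^ i)) := by
    intro σ i
    simp only [χ, map_pow]
  have h1 : ∀ σ : N ≃ₐ[K] N, σ ≠ 1 → ∑ i ∈ Finset.range p, χ σ ^ i = 0 := by
    intro σ hσ
    simp_rw [hχpow]
    rw [← map_sum, ← map_sum, (hprim σ hσ).geom_sum_eq_zero hp.one_lt, map_zero, map_zero]
  have h2 : ∀ j : ℕ, 0 < j → j < p → ∑ σ : N ≃ₐ[K] N, χ σ ^ j = 0 := by
    intro j hj0 hjp
    simp_rw [hχpow]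
    rw [← map_sum, ← map_sum]
    suffices h : ∑ σ : N ≃ₐ[K] N, (((e σ : rootsOfUnity p K) : Kˣ) : K) ^ j = 0 by
      rw [h, map_zero, map_zero]
    -- a nontrivial element
    obtain ⟨τ, hτ⟩ : ∃ τ : N ≃ₐ[K] N, τ ≠ 1 := by
      by_contra hcon
      simp only [ne_eq, not_exists, not_not] at hcon
      have : Fintype.card (N ≃ₐ[K] N) ≤ 1 :=
        Fintype.card_le_one_iff.2 (fun a b => by rw [hcon a, hcon b])
      rw [hcard] at this
      exact absurd hp.one_lt (not_lt.2 this)
    have hτj : (((e τ : rootsOfUnity p K) : Kˣ) : K) ^ j ≠ 1 := by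
      intro h
      have := (hprim τ hτ).dvd_of_pow_eq_one j h
      exact absurd (Nat.le_of_dvd hj0 this) (not_le.2 hjp)
    have hre : ∑ σ : N ≃ₐ[K] N, (((e σ : rootsOfUnity p K) : Kˣ) : K) ^ j =
        (((e τ : rootsOfUnity p K) : Kˣ) : K) ^ j *
          ∑ σ : N ≃ₐ[K] N, (((e σ : rootsOfUnity p K) : Kˣ) : K) ^ j := by
      rw [Finset.mul_sum]
      rw [← Equiv.sum_comp (Equiv.mulLeft τ)]
      apply Finset.sum_congr rfl
      intro σ _
      simp only [Equiv.coe_mulLeft, map_mul, Subgroup.coe_mul, Units.val_mul, mul_pow]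
    have : (1 - (((e τ : rootsOfUnity p K) : Kˣ) : K) ^ j) *
        ∑ σ : N ≃ₐ[K] N, (((e σ : rootsOfUnity p K) : Kˣ) : K) ^ j = 0 := by
      linear_combination hre
    rcases mul_eq_zero.1 this with h | h
    · exact absurd (sub_eq_zero.1 h).symm hτj
    · exact h
  have hmain := prod_smul_lagrange (G := N ≃ₐ[K] N) p hcard t pinv c χ htp hχ hpinv hpinvG hcG
    h1 h2
  -- build the unit
  set s : SemiLoc q N := ∑ i ∈ Finset.range p, t ^ i with hs
  have hss : s * s = (p : SemiLoc q N) * s := by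
    have hts : t * s = s := by
      have := mul_geom_sum t p
      rw [htp, sub_self] at this
      linear_combination this
    have htjs : ∀ j : ℕ, t ^ j * s = s := by
      intro j
      induction j with
      | zero => simp
      | succ j ih => rw [pow_succ, mul_assoc, hts, ih]
    nth_rewrite 1 [hs]
    rw [Finset.sum_mul, Finset.sum_congr rfl (fun i _ => htjs i)]
    simp
  set c' : SemiLoc q N := bcAlg K N q ((x⁻¹ : (SemiLoc q K)ˣ) : SemiLoc q K) with hc'
  have hcc' : c * c' = 1 := by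
    rw [hc, hc', ← map_mul, Units.mul_inv, map_one]
  let y : (SemiLoc q N)ˣ :=
    { val := 1 + pinv * s * (c - 1)
      inv := 1 + pinv * s * (c' - 1)
      val_inv := by
        linear_combination (pinv * s) * hcc' +
          (pinv * pinv * (c - 1) * (c' - 1)) * hss +
          (pinv * s * (c - 1) * (c' - 1)) * hpinv
      inv_val := by
        linear_combination (pinv * s) * hcc' +
          (pinv * pinv * (c - 1) * (c' - 1)) * hss +
          (pinv * s * (c - 1) * (c' - 1)) * hpinv }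
  refine ⟨y, ?_⟩
  apply Units.ext
  rw [normG_apply, Units.coe_prod, bcUnits_coe]
  exact hmain

end Main

end Fermat.Agent.S55.helper89
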