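import Fermat.Agent.S55.helper89_ChevGroups
import Fermat.Agent.S55.helper50_ChevMisc2
import Fermat.Agent.S55.helper88_ChevLocNorm
import Fermat.Agent.S55.helper50_ChevMisc
import Fermat.Agent.S55.helper24_Dict
import Fermat.Agent.S55.helper86_ResNorm

/-!
# S55 / GLOB / G7 (helper89): local norm lemmas for Chevalley's second inequality

* `isLocIntNorm_of_mem_powAt` : (R) an integral unit of `ℚ_q ⊗ K` (`q ≠ p` unramified in `K`)
  which is a `p`-th power modulo the primes of `T` over `q`, all other primes over `q` being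
  unramified in `L`, is the norm of an integral unit of `ℚ_q ⊗ L`;
* `isLocNorm_of_mem_unitsAway` : if the prime of `T` over `q` splits completely in `L` and the
  other primes over `q` are unramified, every element of `unitsAway q K T` is a local norm.
-/

set_option autoImplicit false

open scoped TensorProduct NumberField
open IsDedekindDomain

namespace Fermat.Agent.S55.helper89

open Fermat.Agent.S55.helper73

section

variable (K L : Type*) [Field K] [NumberField K] [Field L] [NumberField L] [Algebra K L]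
  [IsGalois K L]

/-- (R) -/
theorem isLocIntNorm_of_mem_powAt (p : ℕ) (hp : p.Prime) (hdeg : Module.finrank K L = p)
    (q : ℕ) [Fact q.Prime] (hqp : q ≠ p)
    (hunr : ∀ P : HeightOneSpectrum (𝓞 K), (q : 𝓞 K) ∈ P.asIdeal →
      P.valuation K (q : K) = WithZero.exp (-1 : ℤ))
    (T : Set (HeightOneSpectrum (𝓞 K)))
    (h : ∀ P : HeightOneSpectrum (𝓞 K), (q : 𝓞 K) ∈ P.asIdeal → P ∉ T → IsUnramAt K L P)
    (u : (SemiLoc q K)ˣ) (hu : u ∈ powAt q K p T) : IsLocIntNorm K L q u := by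
  obtain ⟨c, hc, -, huc, hpow⟩ := hu
  obtain ⟨γ, hγ, hγc⟩ := helper86.exists_norm_sub_lt K L p hp hdeg q c hc (fun P hP => by
    by_cases hPT : P ∈ T
    · exact Or.inr (hpow P hP hPT)
    · exact Or.inl (h P hP hPT))
  refine helper88.isLocIntNorm_of_norm_approx K L p hp hdeg q hqp u γ hγ ?_
  set nγ : Kˣ := Units.map (Algebra.norm K : L →* K) γ with hnγ
  have hnγ_coe : (nγ : K) = Algebra.norm K (γ : L) := rfl
  have hval : ∀ P : HeightOneSpectrum (𝓞 K), (q : 𝓞 K) ∈ P.asIdeal →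
      P.valuation K (nγ : K) = 1 := by
    intro P hP
    have h1 : P.valuation K ((c : K) + (Algebra.norm K (γ : L) - (c : K))) =
        P.valuation K (c : K) :=
      Valuation.map_add_eq_of_lt_left _ (by rw [hc P hP]; exact hγc P hP)
    rw [hnγ_coe, ← hc P hP, ← h1]
    congr 1
    ring
  have hb : locUnit q K (c * nγ⁻¹) ∈ oneUnits q K := by
    refine helper50.locUnit_mem_oneUnits K q hunr _ (fun P hP => ?_)
    have hn0 : (nγ : K) ≠ 0 := nγ.ne_zero
    have e : (((c * nγ⁻¹ : Kˣ) : K) - 1) = -(Algebra.norm K (γ : L) - (c : K)) * (nγ : K)⁻¹ := by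
      rw [Units.val_mul, Units.val_inv_eq_inv_val, ← hnγ_coe]
      field_simp
      ring
    rw [e, map_mul, Valuation.map_neg, map_inv₀, hval P hP, inv_one, mul_one]
    exact hγc P hP
  have e2 : u * (locUnit q K nγ)⁻¹ = (u * (locUnit q K c)⁻¹) * locUnit q K (c * nγ⁻¹) := by
    rw [map_mul, map_inv]
    group
  rw [e2]
  exact mul_mem huc hb

/-- integral units are norms of integral units at the primes `q ≠ p` unramified in `L / ℚ`. -/
theorem isLocIntNorm_of_mem_intUnits (p : ℕ) (hp : p.Prime) (hdeg : Module.finrank K L = p)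
    (q : ℕ) [Fact q.Prime] (hqp : q ≠ p)
    (hunr : ∀ P : HeightOneSpectrum (𝓞 K), (q : 𝓞 K) ∈ P.asIdeal →
      P.valuation K (q : K) = WithZero.exp (-1 : ℤ))
    (h : ∀ P : HeightOneSpectrum (𝓞 K), (q : 𝓞 K) ∈ P.asIdeal → IsUnramAt K L P)
    (u : (SemiLoc q K)ˣ) (hu : u ∈ intUnits q K) : IsLocIntNorm K L q u := by
  refine isLocIntNorm_of_mem_powAt K L p hp hdeg q hqp hunr ∅ (fun P hP _ => h P hP) u ?_
  rw [helper50.powAt_eq_intUnits K q p ∅ (fun P hP => absurd hP (Set.notMem_empty P))]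
  exact hu

/-- Step 2, local part. -/
theorem isLocNorm_of_mem_unitsAway (p : ℕ) (hp : p.Prime) (hdeg : Module.finrank K L = p)
    (q : ℕ) [Fact q.Prime] (hqp : q ≠ p)
    (hunr : ∀ P : HeightOneSpectrum (𝓞 K), (q : 𝓞 K) ∈ P.asIdeal →
      P.valuation K (q : K) = WithZero.exp (-1 : ℤ))
    (T : Set (HeightOneSpectrum (𝓞 K)))
    (hT1 : ∀ P ∈ T, ∀ P' ∈ T, (q : 𝓞 K) ∈ P.asIdeal → (q : 𝓞 K) ∈ P'.asIdeal → P = P')
    (hsplit : ∀ P ∈ T, (q : 𝓞 K) ∈ P.asIdeal → (P.asIdeal.primesOver (𝓞 L)).ncard = p)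
    (h : ∀ P : HeightOneSpectrum (𝓞 K), (q : 𝓞 K) ∈ P.asIdeal → IsUnramAt K L P)
    (x : (SemiLoc q K)ˣ) (hx : x ∈ unitsAway q K T) : IsLocNorm K L q x := by
  obtain ⟨a, ha, hxa⟩ := hx
  by_cases hex : ∃ P₀ ∈ T, (q : 𝓞 K) ∈ P₀.asIdeal
  · obtain ⟨P₀, hP₀T, hP₀⟩ := hex
    obtain ⟨β, hβ1, hβ2⟩ := helper86.exists_norm_uniformizer K L p hp hdeg q P₀ hP₀
      (hsplit P₀ hP₀T hP₀)
    set nβ : Kˣ := Units.map (Algebra.norm K : L →* K) β with hnβ
    have hnβ_coe : (nβ : K) = Algebra.norm K (β : L) := rfl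
    have ha0 : P₀.valuation K (a : K) ≠ 0 := by
      rw [ne_eq, map_eq_zero]
      exact a.ne_zero
    set m : ℤ := WithZero.log (P₀.valuation K (a : K)) with hm
    have hm' : WithZero.exp m = P₀.valuation K (a : K) := WithZero.exp_log ha0
    -- `a * nβ ^ m` is a unit at all primes over `q`
    have hunit : ∀ P : HeightOneSpectrum (𝓞 K), (q : 𝓞 K) ∈ P.asIdeal →
        P.valuation K ((a * nβ ^ m : Kˣ) : K) = 1 := by
      intro P hP
      rw [Units.val_mul, Units.val_zpow_eq_zpow_val, map_mul, map_zpow₀, hnβ_coe]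
      by_cases hPP : P = P₀
      · subst hPP
        rw [hβ1, ← hm', ← WithZero.exp_zsmul, ← WithZero.exp_add]
        simp
      · have hPT : P ∉ T := fun hPT => hPP (hT1 P hPT P₀ hP₀T hP hP₀)
        rw [ha P hP hPT, hβ2 P hP hPP, one_zpow, one_mul]
    have h1 : x * (locUnit q K nβ) ^ m ∈ intUnits q K := by
      have e : x * (locUnit q K nβ) ^ m = (x * (locUnit q K a)⁻¹) * locUnit q K (a * nβ ^ m) := by
        rw [map_mul, map_zpow]
        group
      rw [e]
      exact mul_mem hxa ((helper24.locUnit_mem_intUnits_iff q K _).2 hunit)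
    have h2 : IsLocNorm K L q (x * (locUnit q K nβ) ^ m) :=
      IsLocIntNorm.isLocNorm K L q (isLocIntNorm_of_mem_intUnits K L p hp hdeg q hqp hunr h _ h1)
    have h3 : IsLocNorm K L q (locUnit q K nβ) := ⟨locUnit q L β, helper88.normG_locUnit K L q β⟩
    have e3 : x = (x * (locUnit q K nβ) ^ m) * ((locUnit q K nβ) ^ m)⁻¹ := by group
    rw [e3]
    exact IsLocNorm.mul K L q h2 (IsLocNorm.inv K L q (IsLocNorm.zpow K L q h3 m))
  · have hunit : ∀ P : HeightOneSpectrum (𝓞 K), (q : 𝓞 K) ∈ P.asIdeal →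
        P.valuation K (a : K) = 1 := fun P hP => ha P hP fun hPT => hex ⟨P, hPT, hP⟩
    have h1 : x ∈ intUnits q K := by
      have := mul_mem hxa ((helper24.locUnit_mem_intUnits_iff q K a).2 hunit)
      simpa using this
    exact IsLocIntNorm.isLocNorm K L q
      (isLocIntNorm_of_mem_intUnits K L p hp hdeg q hqp hunr h _ h1)

end

end Fermat.Agent.S55.helper89
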