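import Fermat.Agent.S55.helper89_ChevNorms
import Fermat.Agent.S55.helper89_ChevIndex
import Fermat.Agent.S55.helper40_ChevCountE
import Fermat.Agent.S55.helper64_PowIndex
import Fermat.Agent.S55.helper12_Kummer
import Fermat.Agent.S55.helper87_AuxPrimes
import Fermat.Agent.S55.helper79_SUnitRelIndex
import Fermat.Agent.S55.helper24_Generation
import Fermat.Agent.S55.helper13_ChevCountU
import Fermat.Agent.S55.helper83_ChevSurj

/-!
# S55 / GLOB / G7 (helper89): Chevalley's second inequality, assembly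

`ineq2_of_ineq1` : for a cyclic extension `L / K` of odd prime degree `p` of number fields with
`ζ_p ∈ K`, `[C_L^G : N C_L]` divides `p`, given the first inequality (in the weak form
`|Ĥ⁰(C_N)| ≠ 1`) for the cyclic extensions `N / K` of degree `p`.
-/

set_option autoImplicit false

open scoped TensorProduct NumberField
open IsDedekindDomain

universe u v

namespace Fermat.Agent.S55.helper89

open Fermat.Agent.S55.helper73

section Key

variable (K : Type u) [Field K] [NumberField K]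

/-- The consequence of the first inequality used in the proof of the second one: for every
cyclic extension `N / K` of degree `p`, `Ĥ⁰(Gal(N/K), C_N)` is not trivial. -/
def Ineq1Hyp (p : ℕ) : Prop :=
  ∀ (N : Type u) [Field N] [NumberField N] [Algebra K N] [IsGalois K N],
    Module.finrank K N = p →
      ((normG Gal(N/K) (IdeleClass N)).range.subgroupOf
        (fixedSub Gal(N/K) (IdeleClass N))).index ≠ 1

/-- **Key lemma**: a principal idele in `E` is a `p`-th power. -/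
theorem key_lemma (p : ℕ) (hp : p.Prime) (ζ : K) (hζ : IsPrimitiveRoot ζ p)
    (h1 : Ineq1Hyp K p) (S₀ : Finset ℕ) (hpS : p ∈ S₀)
    (hunr : ∀ q : ℕ, q.Prime → q ∉ S₀ → ∀ P : HeightOneSpectrum (𝓞 K), (q : 𝓞 K) ∈ P.asIdeal →
      P.valuation K (q : K) = WithZero.exp (-1 : ℤ))
    (T : Set (HeightOneSpectrum (𝓞 K)))
    (hsup : principalSub K ⊔ DS K p S₀ T = ⊤)
    (x₀ : Kˣ) (hx₀E : principalIdele K x₀ ∈ ES K p S₀ T) : ∃ c : K, c ^ p = (x₀ : K) := by
  by_contra hx₀
  obtain ⟨N, _, _, _, _, hdeg, θ, hθ⟩ := helper12.exists_kummer_field_same K p hp ζ hζ x₀ hx₀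
  have hdvd := helper86.hZero_dvd_index K N (DS K p S₀ T) (fun x hx =>
    exists_normG_of_mem_DS K N p hp hdeg ζ hζ x₀ θ hx₀ hθ S₀ hpS hunr T hx₀E x hx)
  rw [hsup, Subgroup.index_top, Nat.dvd_one] at hdvd
  exact h1 N hdeg hdvd

/-- the index `[J_{S₀ ∪ T} : E]`. -/
theorem relIndex_ES_JST_eq (p : ℕ) (hp : p.Prime) (ζ : K) (hζ : IsPrimitiveRoot ζ p)
    (S₀ : Finset ℕ) (hS₀ : ∀ r ∈ S₀, r.Prime) (hpS : p ∈ S₀)
    (T : Set (HeightOneSpectrum (𝓞 K))) :
    (ES K p S₀ T).relIndex (JST K S₀ T) =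
      p ^ (Module.finrank ℚ K + 2 * Nat.card (primesOverSet K S₀)) := by
  classical
  have e1 := helper40.relIndex_ES_JST K p S₀ T
  have e2 := helper50.card_primesOverSet K S₀ hS₀
  have hpF : (⟨p, hp⟩ : Nat.Primes) ∈ (S₀.subtype Nat.Prime : Finset Nat.Primes) :=
    Finset.mem_subtype.2 hpS
  obtain ⟨F, hF⟩ : ∃ F : Finset Nat.Primes, F = S₀.subtype Nat.Prime := ⟨_, rfl⟩
  rw [← hF] at e1 e2 hpF
  rw [e1, e2]
  have hsum : (∑ r ∈ F, if (r : ℕ) = p then Module.finrank ℚ K else 0) =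
      Module.finrank ℚ K :=
    (Finset.sum_eq_single_of_mem (⟨p, hp⟩ : Nat.Primes) hpF
      (fun r _ hr => if_neg (fun e => hr (Subtype.ext e)))).trans (if_pos rfl)
  have key : (∏ r ∈ F, (powMonoidHom p :
      (SemiLoc (r : ℕ) K)ˣ →* (SemiLoc (r : ℕ) K)ˣ).range.index) =
      p ^ (Module.finrank ℚ K + 2 * ∑ r ∈ F,
        Nat.card {P : HeightOneSpectrum (𝓞 K) // ((r : ℕ) : 𝓞 K) ∈ P.asIdeal}) := by
    calc (∏ r ∈ F, (powMonoidHom p :
          (SemiLoc (r : ℕ) K)ˣ →* (SemiLoc (r : ℕ) K)ˣ).range.index)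
        = ∏ r ∈ F, p ^ (2 * Nat.card {P : HeightOneSpectrum (𝓞 K) //
            ((r : ℕ) : 𝓞 K) ∈ P.asIdeal} + if (r : ℕ) = p then Module.finrank ℚ K else 0) :=
          Finset.prod_congr rfl (fun r _ => helper64.index_pow_semiLoc K p hp ζ hζ (r : ℕ))
      _ = p ^ (∑ r ∈ F, (2 * Nat.card {P : HeightOneSpectrum (𝓞 K) //
            ((r : ℕ) : 𝓞 K) ∈ P.asIdeal} + if (r : ℕ) = p then Module.finrank ℚ K else 0)) :=
          Finset.prod_pow_eq_pow_sum _ _ _
      _ = _ := by rw [Finset.sum_add_distrib, ← Finset.mul_sum, hsum, add_comm]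
  exact key

end Key

section Main

variable (K : Type u) (L : Type v) [Field K] [NumberField K] [Field L] [NumberField L]
  [Algebra K L] [IsGalois K L]

/-- **Chevalley's second inequality** for cyclic extensions of odd prime degree `p` of number
fields containing the `p`-th roots of unity, given the first inequality. -/
theorem ineq2_of_ineq1 (p : ℕ) (hp : p.Prime) (hp2 : p ≠ 2) (hdeg : Module.finrank K L = p)
    (hζ : ∃ ζ : K, IsPrimitiveRoot ζ p) (h1 : Ineq1Hyp K p) :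
    ((normG Gal(L/K) (IdeleClass L)).range.subgroupOf
      (fixedSub Gal(L/K) (IdeleClass L))).index ∣ p := by
  classical
  obtain ⟨ζ, hζ⟩ := hζ
  obtain ⟨a, θ, ha, hθ⟩ := helper12.exists_kummer_generator K L p hp hdeg ζ hζ
  obtain ⟨S₁, hS₁⟩ := helper24.exists_generation K
  obtain ⟨R₀, hR₀⟩ := helper50.exists_finset_unram K
  have hA := helper87.finite_valuation_ne_one a
  -- the rational prime below a prime of `K`
  choose below hbelow using helper50.exists_prime_mem K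
  set S₀ : Finset ℕ := (S₁ ∪ R₀ ∪ {p} ∪ hA.toFinset.image below).filter Nat.Prime with hS₀def
  have hS₀ : ∀ r ∈ S₀, r.Prime := fun r hr => (Finset.mem_filter.1 hr).2
  have hmemS₀ : ∀ r : ℕ, r.Prime → r ∉ S₀ →
      r ∉ S₁ ∧ r ∉ R₀ ∧ r ≠ p ∧ r ∉ hA.toFinset.image below := by
    intro r hr hrS
    rw [hS₀def, Finset.mem_filter, not_and_or] at hrS
    have h := hrS.resolve_right (not_not.2 hr)
    simp only [Finset.mem_union, Finset.mem_singleton, not_or] at h
    exact ⟨h.1.1.1, h.1.1.2, h.1.2, h.2⟩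
  have hpS : p ∈ S₀ := by
    rw [hS₀def, Finset.mem_filter]
    exact ⟨by simp, hp⟩
  have hunr : ∀ q : ℕ, q.Prime → q ∉ S₀ → ∀ P : HeightOneSpectrum (𝓞 K),
      (q : 𝓞 K) ∈ P.asIdeal → P.valuation K (q : K) = WithZero.exp (-1 : ℤ) :=
    fun q hq hqS => hR₀ q hq (hmemS₀ q hq hqS).2.1
  have haS : ∀ q : ℕ, q.Prime → q ∉ S₀ → ∀ P : HeightOneSpectrum (𝓞 K),
      (q : 𝓞 K) ∈ P.asIdeal → P.valuation K (a : K) = 1 := by
    intro q hq hqS P hP
    by_contra hne
    apply (hmemS₀ q hq hqS).2.2.2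
    rw [Finset.mem_image]
    refine ⟨P, hA.mem_toFinset.2 hne, ?_⟩
    exact helper50.prime_mem_unique K P _ q (hbelow P).1 hq (hbelow P).2 hP
  have hgen : ∀ x : Idele K, ∃ b : Kˣ, ∀ r : Nat.Primes, (r : ℕ) ∉ S₀ →
      (x : IdelePi K) r * (principalPi K b r)⁻¹ ∈ intUnits (r : ℕ) K := by
    intro x
    obtain ⟨b, hb⟩ := hS₁ x
    exact ⟨b, fun r hr => hb r (hmemS₀ r r.2 hr).1⟩
  -- the `S`-units
  have hSfin := helper50.primesOverSet_finite K S₀ hS₀
  have hSf : (hSfin.toFinset : Set (HeightOneSpectrum (𝓞 K))) = primesOverSet K S₀ :=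
    hSfin.coe_toFinset
  have hScard : Nat.card (primesOverSet K S₀) = hSfin.toFinset.card :=
    Nat.card_eq_card_finite_toFinset hSfin
  set s : ℕ := Module.finrank ℚ K / 2 + hSfin.toFinset.card with hs
  have hU : ((powMonoidHom p : Kˣ →* Kˣ).range ⊓ (primesOverSet K S₀).unit K).relIndex
      ((primesOverSet K S₀).unit K) = p ^ s := by
    have := helper79.relIndex_pow_unit K p hp hp2 ζ hζ hSfin.toFinset
    rwa [hSf] at this
  have hsat : ∀ c : Kˣ, c ^ p ∈ (primesOverSet K S₀).unit K → c ∈ (primesOverSet K S₀).unit K :=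
    fun c hc => helper79.mem_sunit_of_pow_mem K _ hp.ne_zero hc
  have hnotS : ∀ P : HeightOneSpectrum (𝓞 K), P ∉ primesOverSet K S₀ → below P ∉ S₀ :=
    fun P hP hb => hP ⟨below P, hb, (hbelow P).2⟩
  have haU : a ∈ (primesOverSet K S₀).unit K := fun P hP =>
    haS (below P) (hbelow P).1 (hnotS P hP) P (hbelow P).2
  obtain ⟨T, hTcard, hT, hT', haT, hker⟩ := helper87.exists_aux_primes K p hp ζ hζ
    ((primesOverSet K S₀).unit K) s hU hsat S₀
    (fun u hu P hP => hu P (fun ⟨r, hr, hrP⟩ => hP r hr hrP)) a haU ha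
  -- generation
  have hgenJ : principalSub K ⊔ JST K S₀ (T : Set (HeightOneSpectrum (𝓞 K))) = ⊤ := by
    rw [eq_top_iff]
    intro x _
    obtain ⟨b, hb⟩ := hgen x
    have hx : x = principalIdele K b * (x * (principalIdele K b)⁻¹) := by
      rw [mul_comm x, mul_inv_cancel_left]
    rw [hx]
    refine Subgroup.mul_mem_sup ((mem_principalSub_iff K).2 ⟨b, rfl⟩)
      (JS_le_JST S₀ _ (mem_JS.2 fun r hr => hb r hr))
  have hsupD : principalSub K ⊔ DS K p S₀ (T : Set (HeightOneSpectrum (𝓞 K))) = ⊤ :=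
    helper83.ChevSurj.principalSub_sup_DS K p hp ζ hζ S₀ hS₀ hpS hgen s hU T hTcard hT hT' a haU ha hker
  have hdisj : ∀ P ∈ T, P ∉ primesOverSet K S₀ := by
    rintro P hP ⟨r, hr, hrP⟩
    exact (hT P hP).2 ((absNorm_eq_of_mem K P (hT P hP).1 (hS₀ r hr) hrP) ▸ hr)
  -- the count
  have heven := helper50.even_finrank_of_isPrimitiveRoot K p hp hp2 ζ hζ
  have hidx : (ES K p S₀ (T : Set (HeightOneSpectrum (𝓞 K)))).relIndex
      (JST K S₀ (T : Set (HeightOneSpectrum (𝓞 K)))) =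
        p ^ (Module.finrank ℚ K / 2 + Nat.card (primesOverSet K S₀) + T.card + 1) := by
    rw [relIndex_ES_JST_eq K p hp ζ hζ S₀ hS₀ hpS]
    congr 1
    obtain ⟨m, hm⟩ := heven
    rw [hScard]
    omega
  have hWidx : (((powMonoidHom p : Kˣ →* Kˣ).range ⊓
        (primesOverSet K S₀ ∪ (T : Set (HeightOneSpectrum (𝓞 K)))).unit K).map
          (principalIdele K)).relIndex (principalSub K ⊓ JST K S₀ (T : Set _)) =
      p ^ (Module.finrank ℚ K / 2 + Nat.card (primesOverSet K S₀) + T.card) :=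
    helper13.relIndex_pow_principal K p hp hp2 ζ hζ S₀ hS₀ T hdisj
  have hW : ((powMonoidHom p : Kˣ →* Kˣ).range ⊓
      (primesOverSet K S₀ ∪ (T : Set (HeightOneSpectrum (𝓞 K)))).unit K).map (principalIdele K) ≤
        principalSub K ⊓ JST K S₀ (T : Set (HeightOneSpectrum (𝓞 K))) := by
    rw [helper13.principalSub_inf_JST K S₀ hS₀]
    exact Subgroup.map_mono inf_le_right
  have hkey : principalSub K ⊓ ES K p S₀ (T : Set (HeightOneSpectrum (𝓞 K))) ≤
      ((powMonoidHom p : Kˣ →* Kˣ).range ⊓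
        (primesOverSet K S₀ ∪ (T : Set (HeightOneSpectrum (𝓞 K)))).unit K).map
          (principalIdele K) := by
    rintro x ⟨hxP, hxE⟩
    obtain ⟨x₀, rfl⟩ := (mem_principalSub_iff K).1 hxP
    obtain ⟨c, hc⟩ := key_lemma K p hp ζ hζ h1 S₀ hpS hunr _ hsupD x₀ hxE
    have hx₀U : principalIdele K x₀ ∈ principalSub K ⊓ JST K S₀ (T : Set _) :=
      ⟨hxP, ES_le_JST p S₀ _ hxE⟩
    rw [helper13.principalSub_inf_JST K S₀ hS₀] at hx₀U
    obtain ⟨y, hy, hyx⟩ := hx₀U
    have hyx' : y = x₀ := principalIdele_injective K hyx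
    subst hyx'
    have hc0 : c ≠ 0 := by
      rintro rfl
      rw [zero_pow hp.ne_zero] at hc
      exact y.ne_zero hc.symm
    exact ⟨y, ⟨⟨Units.mk0 c hc0, Units.ext (by simpa using hc)⟩, hy⟩, rfl⟩
  have hfin : (principalSub K ⊔ ES K p S₀ (T : Set (HeightOneSpectrum (𝓞 K)))).index ∣ p := by
    have key := index_sup_dvd_prime (G := Idele K) (principalSub K) (JST K S₀ (T : Set _))
      (ES K p S₀ (T : Set _)) (((powMonoidHom p : Kˣ →* Kˣ).range ⊓
        (primesOverSet K S₀ ∪ (T : Set (HeightOneSpectrum (𝓞 K)))).unit K).map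
          (principalIdele K))
    have key2 := key (ES_le_JST p S₀ _)
    have key3 := key2 hgenJ p
      (Module.finrank ℚ K / 2 + Nat.card (primesOverSet K S₀) + T.card) hp
    have key4 := key3 hidx
    have key5 := key4 hW
    have key6 := key5 hWidx
    exact key6 hkey
  have hX : ∀ x ∈ ES K p S₀ (T : Set (HeightOneSpectrum (𝓞 K))),
      ∃ y : Idele L, normG Gal(L/K) (Idele L) y = bcIdele K L x := fun x hx =>
    exists_normG_of_mem_ES K L p hp hdeg ζ hζ a θ ha hθ S₀ hpS hunr haS _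
      (fun P hP => (hT P hP).1) hT' haT x hx
  have hdvd := helper86.hZero_dvd_index K L (ES K p S₀ (T : Set (HeightOneSpectrum (𝓞 K)))) hX
  exact hdvd.trans hfin

end Main

end Fermat.Agent.S55.helper89
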