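import Fermat.Agent.S55.helper89_ChevLocal
import Fermat.Agent.S55.helper89_ChevLagrange
import Fermat.Agent.S55.helper12_KummerRam
import Fermat.Agent.S55.helper73_IdlBasic
import Fermat.Agent.S55.helper86_ChevNormIdele

/-!
# S55 / GLOB / G7 (helper89): the groups `E` and `D` consist of idele norms

* `exists_normG_of_mem_ES` : Step 2 of Chevalley's proof, `E ⊆ N_{L/K} J_L`;
* `exists_normG_of_mem_DS` : Step 5a, `D ⊆ N_{N/K} J_N` for `N = K(x₀^(1/p))`, `x₀ ∈ Kˣ ∩ E`.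
-/

set_option autoImplicit false

open scoped TensorProduct NumberField
open IsDedekindDomain

namespace Fermat.Agent.S55.helper89

open Fermat.Agent.S55.helper73

section

variable (K : Type*) [Field K] [NumberField K]

/-- the primes of `Nat.Primes` inside a finite set are cofinitely avoided. -/
lemma eventually_notMem_finset (S₀ : Finset ℕ) :
    ∀ᶠ r : Nat.Primes in Filter.cofinite, (r : ℕ) ∉ S₀ := by
  have hfin : {r : Nat.Primes | (r : ℕ) ∈ S₀}.Finite :=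
    Set.Finite.preimage (Subtype.val_injective.injOn) S₀.finite_toSet
  have : {r : Nat.Primes | ¬ ((r : ℕ) ∉ S₀)} = {r : Nat.Primes | (r : ℕ) ∈ S₀} := by
    ext r
    simp
  rw [Filter.eventually_cofinite, this]
  exact hfin

/-- a prime `P` with `q ∈ P` does not contain another prime number. -/
lemma natCast_notMem_of_mem (P : HeightOneSpectrum (𝓞 K)) {q p : ℕ} (hq : q.Prime) (hp : p.Prime)
    (hqp : q ≠ p) (h : (q : 𝓞 K) ∈ P.asIdeal) : (p : 𝓞 K) ∉ P.asIdeal := fun h' =>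
  hqp (helper50.prime_mem_unique K P q p hq hp h h')

/-- the rational prime below a prime of prime norm is its norm. -/
lemma absNorm_eq_of_mem (P : HeightOneSpectrum (𝓞 K)) (hP : (Ideal.absNorm P.asIdeal).Prime)
    {q : ℕ} (hq : q.Prime) (h : (q : 𝓞 K) ∈ P.asIdeal) : Ideal.absNorm P.asIdeal = q :=
  helper50.prime_mem_unique K P _ q hP hq (helper50.absNorm_mem K P) h

variable (L : Type*) [Field L] [NumberField L] [Algebra K L] [IsGalois K L]

/-- **Step 2**: the elements of `E` are idele norms from `L = K(a^(1/p))`. -/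
theorem exists_normG_of_mem_ES (p : ℕ) (hp : p.Prime) (hdeg : Module.finrank K L = p)
    (ζ : K) (hζ : IsPrimitiveRoot ζ p) (a : Kˣ) (θ : L) (ha : ¬ ∃ c : K, c ^ p = (a : K))
    (hθ : θ ^ p = algebraMap K L (a : K))
    (S₀ : Finset ℕ) (hpS : p ∈ S₀)
    (hunr : ∀ q : ℕ, q.Prime → q ∉ S₀ → ∀ P : HeightOneSpectrum (𝓞 K), (q : 𝓞 K) ∈ P.asIdeal →
      P.valuation K (q : K) = WithZero.exp (-1 : ℤ))
    (haS : ∀ q : ℕ, q.Prime → q ∉ S₀ → ∀ P : HeightOneSpectrum (𝓞 K), (q : 𝓞 K) ∈ P.asIdeal →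
      P.valuation K (a : K) = 1)
    (T : Set (HeightOneSpectrum (𝓞 K)))
    (hT : ∀ P ∈ T, (Ideal.absNorm P.asIdeal).Prime)
    (hT' : ∀ P ∈ T, ∀ P' ∈ T, Ideal.absNorm P.asIdeal = Ideal.absNorm P'.asIdeal → P = P')
    (haT : ∀ P ∈ T, IsPowMod K p P (a : K))
    (x : Idele K) (hx : x ∈ ES K p S₀ T) :
    ∃ y : Idele L, normG Gal(L/K) (Idele L) y = bcIdele K L x := by
  obtain ⟨h1, h2⟩ := mem_ES.1 hx
  have hqp : ∀ r : Nat.Primes, (r : ℕ) ∉ S₀ → (r : ℕ) ≠ p := fun r hr h => hr (h ▸ hpS)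
  have hunrL : ∀ r : Nat.Primes, (r : ℕ) ∉ S₀ → ∀ P : HeightOneSpectrum (𝓞 K),
      ((r : ℕ) : 𝓞 K) ∈ P.asIdeal → IsUnramAt K L P := fun r hr P hP =>
    helper12.isUnramAt_of_kummer K L p hp hdeg ζ hζ a θ ha hθ P
      (natCast_notMem_of_mem K P r.2 hp (hqp r hr) hP) (haS r r.2 hr P hP)
  refine helper86.exists_normG_eq_bcIdele K L x (fun r => ?_) ?_
  · by_cases hr : (r : ℕ) ∈ S₀
    · obtain ⟨z, hz⟩ := h1 r hr
      rw [← hz]
      exact helper88.isLocNorm_pow K L p hdeg r z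
    · refine isLocNorm_of_mem_unitsAway K L p hp hdeg r (hqp r hr) (hunr r r.2 hr) T ?_ ?_
        (hunrL r hr) _ (h2 r hr)
      · intro P hP P' hP' hrP hrP'
        exact hT' P hP P' hP' ((absNorm_eq_of_mem K P (hT P hP) r.2 hrP).trans
          (absNorm_eq_of_mem K P' (hT P' hP') r.2 hrP').symm)
      · intro P hP hrP
        exact helper12.ncard_primesOver_of_isPowMod K L p hp hdeg ζ hζ a θ ha hθ P
          (natCast_notMem_of_mem K P r.2 hp (hqp r hr) hrP) (haS r r.2 hr P hrP) (haT P hP)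
  · have hx2 : ∀ᶠ r : Nat.Primes in Filter.cofinite, (x : IdelePi K) r ∈ intUnits (r : ℕ) K :=
      x.2
    filter_upwards [hx2, eventually_notMem_finset S₀] with r hr1 hr2
    exact isLocIntNorm_of_mem_intUnits K L p hp hdeg r (hqp r hr2) (hunr r r.2 hr2)
      (hunrL r hr2) _ hr1

/-- **Step 5a**: the elements of `D` are idele norms from `N = K(x₀^(1/p))` if the principal
idele of `x₀` lies in `E`. -/
theorem exists_normG_of_mem_DS (p : ℕ) (hp : p.Prime) (hdeg : Module.finrank K L = p)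
    (ζ : K) (hζ : IsPrimitiveRoot ζ p) (x₀ : Kˣ) (θ : L) (hx₀ : ¬ ∃ c : K, c ^ p = (x₀ : K))
    (hθ : θ ^ p = algebraMap K L (x₀ : K))
    (S₀ : Finset ℕ) (hpS : p ∈ S₀)
    (hunr : ∀ q : ℕ, q.Prime → q ∉ S₀ → ∀ P : HeightOneSpectrum (𝓞 K), (q : 𝓞 K) ∈ P.asIdeal →
      P.valuation K (q : K) = WithZero.exp (-1 : ℤ))
    (T : Set (HeightOneSpectrum (𝓞 K)))
    (hx₀E : principalIdele K x₀ ∈ ES K p S₀ T)
    (x : Idele K) (hx : x ∈ DS K p S₀ T) :
    ∃ y : Idele L, normG Gal(L/K) (Idele L) y = bcIdele K L x := by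
  obtain ⟨h1, h2⟩ := mem_ES.1 hx₀E
  have hx' := mem_DS.1 hx
  have hqp : ∀ r : Nat.Primes, (r : ℕ) ∉ S₀ → (r : ℕ) ≠ p := fun r hr h => hr (h ▸ hpS)
  have hloc : ∀ r : Nat.Primes, (r : ℕ) ∉ S₀ →
      IsLocIntNorm K L (r : ℕ) ((x : IdelePi K) r) := by
    intro r hr
    refine isLocIntNorm_of_mem_powAt K L p hp hdeg r (hqp r hr) (hunr r r.2 hr) T ?_ _ (hx' r hr)
    intro P hP hPT
    have h3 : locUnit (r : ℕ) K x₀ ∈ unitsAway (r : ℕ) K T := h2 r hr
    exact helper12.isUnramAt_of_kummer K L p hp hdeg ζ hζ x₀ θ hx₀ hθ P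
      (natCast_notMem_of_mem K P r.2 hp (hqp r hr) hP)
      ((helper50.locUnit_mem_unitsAway_iff K (r : ℕ) T x₀).1 h3 P hP hPT)
  refine helper86.exists_normG_eq_bcIdele K L x (fun r => ?_) ?_
  · by_cases hr : (r : ℕ) ∈ S₀
    · obtain ⟨z, hz⟩ := h1 r hr
      exact isLocNorm_of_locUnit_eq_pow K L p hp hdeg ζ hζ x₀ hx₀ θ hθ (r : ℕ) z hz _
    · exact IsLocIntNorm.isLocNorm K L (r : ℕ) (hloc r hr)
  · filter_upwards [eventually_notMem_finset S₀] with r hr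
    exact hloc r hr

end

end Fermat.Agent.S55.helper89
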