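import Fermat.Agent.S55.helper8_LocInvInputs

/-!
# S55 / LOC-4 (helper8): lower bound and cyclicity of `H²(Gal(L/K), Lˣ)`

* `exists_addOrderOf_eq_finrank` (unconditional): for every finite Galois extension `L/K` of
  `q`-adic fields there is a class in `H²(Gal(L/K), Lˣ)` of exact order `[L:K]`;
* `cardH2_of_upper` : LOC-4 (`CardH2 q`) follows from the upper bound
  `|H²(Gal(L/K), Lˣ)| ≤ [L:K]` (`UpperH2 q`);
* `nonempty_locInv_of_upper` : LOC-5 from the upper bound.
-/

set_option autoImplicit false
set_option linter.unusedSectionVars false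

namespace Fermat.Agent.S55.helper8

open Fermat.Agent.S55.helper11 groupCohomology

variable (q : ℕ) [Fact q.Prime]

/-- The upper bound half of LOC-4: `H²(Gal(L/K), Lˣ)` is finite of order at most `[L:K]`. -/
def UpperH2 : Prop :=
  ∀ (K : Type) [Field K] [Algebra ℚ_[q] K] [FiniteDimensional ℚ_[q] K]
    (L : Type) [Field L] [Algebra K L] [FiniteDimensional K L] [IsGalois K L],
    Finite (groupCohomology.H2 (Rep.ofAlgebraAutOnUnits K L)) ∧
    Nat.card (groupCohomology.H2 (Rep.ofAlgebraAutOnUnits K L)) ≤ Module.finrank K L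

lemma nsmul_cyclicClass_of_gen (K E : Type) [Field K] [Field E] [Algebra K E]
    [FiniteDimensional K E] (φ : E ≃ₐ[K] E) (hgen : ∀ σ : E ≃ₐ[K] E, σ ∈ Subgroup.zpowers φ) (b : Kˣ) (t : ℕ) :
    t • cyclicClass K E φ b = cyclicClass K E φ (b ^ t) := by
  induction t with
  | zero =>
    rw [zero_smul, pow_zero]
    have := Fermat.Agent.S55.helper96.cyclicClass_mul K E φ hgen 1 1
    rw [mul_one] at this
    exact (left_eq_add.mp this).symm
  | succ t ih =>
    rw [succ_nsmul, pow_succ, Fermat.Agent.S55.helper96.cyclicClass_mul K E φ hgen, ih]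

/-- **Lower bound of LOC-4**: `H²(Gal(L/K), Lˣ)` contains a class of exact order `[L:K]`
(the class whose inflation is the inflation of the unramified class `(χ_φ, π)` of degree
`[L:K]`). -/
theorem exists_addOrderOf_eq_finrank (K : Type) [Field K] [Algebra ℚ_[q] K]
    [FiniteDimensional ℚ_[q] K] (L : Type) [Field L] [Algebra K L] [FiniteDimensional K L]
    [IsGalois K L] :
    ∃ y : groupCohomology.H2 (Rep.ofAlgebraAutOnUnits K L),
      addOrderOf y = Module.finrank K L := by
  obtain ⟨M, _, aQ, _, _, tQ, _, hfin, hgal, E, hE, hdeg⟩ := existsUnramOver q K L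
  obtain ⟨hgalE, φ, hφ, hgen, -, hzero⟩ := unramStructure q K E hE
  obtain ⟨π, hπ⟩ := helper33.exists_ord_eq_one q K
  -- the `ℚ_q`-structure on `L`
  let aL : Algebra ℚ_[q] L := ((algebraMap K L).comp (algebraMap ℚ_[q] K)).toAlgebra
  have tL : IsScalarTower ℚ_[q] K L := IsScalarTower.of_algebraMap_eq fun _ => rfl
  have tLM : IsScalarTower ℚ_[q] L M := IsScalarTower.of_algebraMap_eq fun x => by
    show algebraMap ℚ_[q] M x = algebraMap L M (algebraMap K L (algebraMap ℚ_[q] K x))
    rw [← IsScalarTower.algebraMap_apply K L M, ← IsScalarTower.algebraMap_apply ℚ_[q] K M]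
  have hfL : FiniteDimensional ℚ_[q] L := Module.Finite.trans K L
  have hfLM : FiniteDimensional L M := FiniteDimensional.right K L M
  have hgLM : IsGalois L M := IsGalois.tower_top_of_isGalois K L M
  obtain ⟨E', hE', hEE'⟩ := unramBaseChange q K M L M E hE
  obtain ⟨hgalE', φ', hφ', hgen', -, hzero'⟩ := unramStructure q L E' hE'
  obtain ⟨hdvd, hfun⟩ := unramFunct q K M L M E E' hE hE' hEE' φ φ' hφ hφ'
  have hnpos : 0 < Module.finrank K E := Module.finrank_pos
  -- restriction to `L` kills the inflation of every unramified class of `E/K`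
  have hres : resH K L M 2 (infH K E M 2 (cyclicClass K E φ π)) = 0 := by
    rw [resH_apply, hfun π, ← map_nsmul, nsmul_cyclicClass_of_gen L E' φ' hgen',
      (hzero' _).mpr ?_, map_zero]
    rw [ord_pow, helper33.ord_algebraMap q K L, hπ, mul_one]
    obtain ⟨t, ht⟩ := hdvd
    have h1 : relF q K L * Module.finrank L E' / Module.finrank K E = t := by
      rw [ht, Nat.mul_div_cancel_left _ hnpos]
    have h2 : relE q K L * relF q K L = Module.finrank K E := by
      rw [helper33.relE_mul_relF q K L, hdeg]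
    have h3 : Module.finrank K E * (t * relE q K L) =
        Module.finrank K E * Module.finrank L E' := by
      calc Module.finrank K E * (t * relE q K L)
          = (Module.finrank K E * t) * relE q K L := by ring
        _ = (relF q K L * Module.finrank L E') * relE q K L := by rw [ht]
        _ = (relE q K L * relF q K L) * Module.finrank L E' := by ring
        _ = Module.finrank K E * Module.finrank L E' := by rw [h2]
    have h4 : t * relE q K L = Module.finrank L E' := Nat.eq_of_mul_eq_mul_left hnpos h3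
    rw [h1]
    refine ⟨1, ?_⟩
    rw [mul_one]
    exact_mod_cast h4
  obtain ⟨y, hy⟩ := (helper84.resH_two_eq_zero_iff K L M _).mp hres
  refine ⟨y, ?_⟩
  have hkey : ∀ k : ℕ, k • y = 0 ↔ Module.finrank K L ∣ k := by
    intro k
    rw [← hdeg, ← (map_eq_zero_iff (infH K L M 2) (helper84.infH_two_injective K L M)),
      map_nsmul, hy, ← map_nsmul,
      (map_eq_zero_iff (infH K E M 2) (helper84.infH_two_injective K E M)),
      nsmul_cyclicClass_of_gen K E φ hgen, hzero, ord_pow, hπ, mul_one]
    exact Int.natCast_dvd_natCast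
  exact Nat.dvd_antisymm (addOrderOf_dvd_of_nsmul_eq_zero ((hkey _).mpr dvd_rfl))
    ((hkey _).mp (addOrderOf_nsmul_eq_zero y))

/-- **LOC-4 from the upper bound.** -/
theorem cardH2_of_upper (hU : UpperH2 q) : CardH2 q := by
  intro K _ _ _ L _ _ _ _
  obtain ⟨hfinite, hle⟩ := hU K L
  obtain ⟨y, hy⟩ := exists_addOrderOf_eq_finrank q K L
  have hcardZ : Nat.card (AddSubgroup.zmultiples y) = Module.finrank K L := by
    rw [Nat.card_zmultiples, hy]
  have htop : AddSubgroup.zmultiples y = ⊤ :=
    AddSubgroup.eq_top_of_le_card _ (by rw [hcardZ]; exact hle)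
  refine ⟨?_, y, fun x => ?_⟩
  · rw [← hcardZ, htop]
    exact (Nat.card_congr AddSubgroup.topEquiv.toEquiv).symm
  · have hx : x ∈ AddSubgroup.zmultiples y := htop ▸ AddSubgroup.mem_top x
    obtain ⟨k, hk⟩ := AddSubgroup.mem_zmultiples_iff.mp hx
    exact ⟨k, hk.symm⟩

/-- **LOC-5** (existence of the invariant maps) from the upper bound `|H²| ≤ [L:K]`. -/
theorem nonempty_locInv_of_upper (h : ∀ (q : ℕ) [Fact q.Prime], UpperH2 q) :
    Nonempty LocInv :=
  nonempty_locInv_of_cardH2 fun q _ => cardH2_of_upper q (h q)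

end Fermat.Agent.S55.helper8
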