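import Fermat.Agent.S55.helper8_LocDefs2
import Fermat.Agent.S55.helper33_LocRel
import Fermat.Agent.S55.helper96_LocUnramCoh

/-!
# S55 / LOC-5 (helper8): construction of the local invariant maps (assembly)

`Nonempty helper11.LocInv` from the LOC packages, which enter as explicit hypotheses
(`Prop`-valued statements) until they land.
-/

set_option autoImplicit false
set_option linter.unusedSectionVars false

namespace Fermat.Agent.S55.helper8

open Fermat.Agent.S55.helper11 groupCohomology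

/-! ## Arithmetic in `ℚ/ℤ` -/

lemma qz_eq_iff (a b : ℚ) : ((a : ℚ) : QZ) = ((b : ℚ) : QZ) ↔ ∃ k : ℤ, a - b = k := by
  rw [eq_comm, QuotientAddGroup.eq, AddSubgroup.mem_zmultiples_iff]
  constructor
  · rintro ⟨k, hk⟩
    refine ⟨k, ?_⟩
    rw [zsmul_eq_mul, mul_one] at hk
    rw [hk]; ring
  · rintro ⟨k, hk⟩
    refine ⟨k, ?_⟩
    rw [zsmul_eq_mul, mul_one, ← hk]; ring

lemma qz_eq_zero_iff (a : ℚ) : ((a : ℚ) : QZ) = 0 ↔ ∃ k : ℤ, a = k := by
  have := qz_eq_iff a 0
  simpa using this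

lemma qz_div_eq_of_dvd (a b : ℤ) (n : ℕ) (hn : 0 < n) (h : (n : ℤ) ∣ a - b) :
    (((a : ℚ) / (n : ℚ) : ℚ) : QZ) = (((b : ℚ) / (n : ℚ) : ℚ) : QZ) := by
  rw [qz_eq_iff]
  obtain ⟨k, hk⟩ := h
  refine ⟨k, ?_⟩
  have hn' : (n : ℚ) ≠ 0 := by exact_mod_cast hn.ne'
  field_simp
  have : ((a - b : ℤ) : ℚ) = ((n : ℤ) * k : ℤ) := by rw [hk]
  push_cast at this
  linarith

lemma dvd_of_qz_div_eq (a b : ℤ) (n : ℕ) (hn : 0 < n)
    (h : (((a : ℚ) / (n : ℚ) : ℚ) : QZ) = (((b : ℚ) / (n : ℚ) : ℚ) : QZ)) : (n : ℤ) ∣ a - b := by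
  rw [qz_eq_iff] at h
  obtain ⟨k, hk⟩ := h
  refine ⟨k, ?_⟩
  have hn' : (n : ℚ) ≠ 0 := by exact_mod_cast hn.ne'
  field_simp at hk
  have : ((a - b : ℤ) : ℚ) = (((n : ℤ) * k : ℤ) : ℚ) := by push_cast; linarith
  exact_mod_cast this


variable (q : ℕ) [Fact q.Prime]

/-! ## Input statements -/

/-- INPUT (LOC-2a + LOC-2b): unramified extensions are Galois, cyclic with a unique Frobenius
generator, and the cyclic class `(χ_φ, b)` vanishes iff `[E:K] ∣ ord b`. -/
def UnramStructure : Prop :=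
  ∀ (K E : Type) [Field K] [Field E] [Algebra ℚ_[q] K] [Algebra ℚ_[q] E] [Algebra K E]
    [IsScalarTower ℚ_[q] K E] [FiniteDimensional ℚ_[q] K] [FiniteDimensional K E],
    IsUnram q K E → IsGalois K E ∧ ∃ φ : E ≃ₐ[K] E, IsFrob q K E φ ∧
      (∀ σ : E ≃ₐ[K] E, σ ∈ Subgroup.zpowers φ) ∧ (∀ ψ : E ≃ₐ[K] E, IsFrob q K E ψ → ψ = φ) ∧
      ∀ b : Kˣ, cyclicClass K E φ b = 0 ↔ (Module.finrank K E : ℤ) ∣ ord q K b

/-- INPUT (LOC-2c): the compositum of two unramified subextensions is unramified. -/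
def UnramSup : Prop :=
  ∀ (K M : Type) [Field K] [Field M] [Algebra ℚ_[q] K] [Algebra ℚ_[q] M] [Algebra K M]
    [IsScalarTower ℚ_[q] K M] [FiniteDimensional ℚ_[q] K] [FiniteDimensional K M]
    (E₁ E₂ : IntermediateField K M), IsUnram q K E₁ → IsUnram q K E₂ → IsUnram q K ↥(E₁ ⊔ E₂)

/-- INPUT (LOC-2c): base change of an unramified subextension: for a square
`(K, M) → (K', M')` and `E ≤ M` unramified over `K` there is `E' ≤ M'` unramified over `K'`
containing the image of `E`. -/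
def UnramBaseChange : Prop :=
  ∀ (K M K' M' : Type) [Field K] [Field M] [Field K'] [Field M'] [Algebra ℚ_[q] K]
    [Algebra ℚ_[q] M] [Algebra ℚ_[q] K'] [Algebra ℚ_[q] M'] [Algebra K M] [Algebra K' M']
    [Algebra K K'] [Algebra M M'] [Algebra K M'] [IsScalarTower ℚ_[q] K M]
    [IsScalarTower ℚ_[q] K' M'] [IsScalarTower ℚ_[q] K K'] [IsScalarTower K M M']
    [IsScalarTower K K' M'] [FiniteDimensional ℚ_[q] K] [FiniteDimensional ℚ_[q] K']
    [FiniteDimensional K M] [FiniteDimensional K' M'] (E : IntermediateField K M),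
    IsUnram q K E → ∃ E' : IntermediateField K' M', IsUnram q K' E' ∧
      ∀ x ∈ E, algebraMap M M' x ∈ E'

/-- INPUT (LOC-5c): functoriality of unramified cyclic classes. For a square
`(K, M) → (K', M')`, unramified `E ≤ M`, `E' ≤ M'` with `E → E'`, and Frobenius elements
`φ`, `φ'`:  `[E:K] ∣ f(K'/K) · [E':K']` and
`loc (inf (χ_φ, b)) = (f(K'/K) · [E':K'] / [E:K]) • inf (χ_φ', b)`. -/
def UnramFunct : Prop :=
  ∀ (K M K' M' : Type) [Field K] [Field M] [Field K'] [Field M'] [Algebra ℚ_[q] K]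
    [Algebra ℚ_[q] M] [Algebra ℚ_[q] K'] [Algebra ℚ_[q] M'] [Algebra K M] [Algebra K' M']
    [Algebra K K'] [Algebra M M'] [Algebra K M'] [IsScalarTower ℚ_[q] K M]
    [IsScalarTower ℚ_[q] K' M'] [IsScalarTower ℚ_[q] K K'] [IsScalarTower K M M']
    [IsScalarTower K K' M'] [FiniteDimensional ℚ_[q] K] [FiniteDimensional ℚ_[q] K']
    [FiniteDimensional K M] [FiniteDimensional K' M'] [IsGalois K M] [IsGalois K' M']
    (E : IntermediateField K M) (E' : IntermediateField K' M') [IsGalois K E] [IsGalois K' E'],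
    IsUnram q K E → IsUnram q K' E' → (∀ x ∈ E, algebraMap M M' x ∈ E') →
    ∀ (φ : E ≃ₐ[K] E) (φ' : E' ≃ₐ[K'] E'), IsFrob q K E φ → IsFrob q K' E' φ' →
      Module.finrank K E ∣ relF q K K' * Module.finrank K' E' ∧ ∀ b : Kˣ,
      (locH K M K' M' 2).hom (infH K E M 2 (cyclicClass K E φ b)) =
        (relF q K K' * Module.finrank K' E' / Module.finrank K E) •
          infH K' E' M' 2 (cyclicClass K' E' φ' (Units.map (algebraMap K K' : K →* K') b))

/-- INPUT (LOC-5a): inflation is injective on `H²`. -/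
def InfInjective : Prop :=
  ∀ (K L M : Type) [Field K] [Field L] [Field M] [Algebra K L] [Algebra K M] [Algebra L M]
    [IsScalarTower K L M] [FiniteDimensional K M] [IsGalois K L] [IsGalois K M],
    Function.Injective (infH K L M 2)

/-- INPUT (R-FUN): functoriality of `locH` in degree 2, elementwise. -/
def LocHComp : Prop :=
  ∀ (F L K₁ L₁ K₂ L₂ : Type) [Field F] [Field L] [Field K₁] [Field L₁] [Field K₂]
    [Field L₂] [Algebra F L] [Normal F L] [Algebra K₁ L₁] [Normal K₁ L₁] [Algebra K₂ L₂]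
    [Algebra F K₁] [Algebra L L₁] [Algebra F L₁] [IsScalarTower F L L₁] [IsScalarTower F K₁ L₁]
    [Algebra K₁ K₂] [Algebra L₁ L₂] [Algebra K₁ L₂] [IsScalarTower K₁ L₁ L₂]
    [IsScalarTower K₁ K₂ L₂]
    [Algebra F K₂] [Algebra L L₂] [Algebra F L₂] [IsScalarTower F L L₂] [IsScalarTower F K₂ L₂]
    [IsScalarTower F K₁ K₂] [IsScalarTower L L₁ L₂]
    (x : groupCohomology.H2 (Rep.ofAlgebraAutOnUnits F L)),
    (locH F L K₂ L₂ 2).hom x = (locH K₁ L₁ K₂ L₂ 2).hom ((locH F L K₁ L₁ 2).hom x)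

/-- INPUT (LOC-4): `H²(Gal(L/K), Lˣ)` is cyclic of order `[L:K]`. -/
def CardH2 : Prop :=
  ∀ (K : Type) [Field K] [Algebra ℚ_[q] K] [FiniteDimensional ℚ_[q] K]
    (L : Type) [Field L] [Algebra K L] [FiniteDimensional K L] [IsGalois K L],
    Nat.card (groupCohomology.H2 (Rep.ofAlgebraAutOnUnits K L)) = Module.finrank K L ∧
    ∃ u : groupCohomology.H2 (Rep.ofAlgebraAutOnUnits K L),
      ∀ x : groupCohomology.H2 (Rep.ofAlgebraAutOnUnits K L), ∃ k : ℤ, x = k • u

/-- INPUT (LOC-2a + LOC-5x): every finite Galois `L/K` embeds in a finite Galois `M/K`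
containing an unramified extension of `K` of degree `[L:K]`. -/
def ExistsUnramOver : Prop :=
  ∀ (K L : Type) [Field K] [Field L] [Algebra ℚ_[q] K] [FiniteDimensional ℚ_[q] K]
    [Algebra K L] [FiniteDimensional K L] [IsGalois K L],
    ∃ (M : Type) (_ : Field M) (_ : Algebra ℚ_[q] M) (_ : Algebra K M) (_ : Algebra L M)
      (_ : IsScalarTower ℚ_[q] K M) (_ : IsScalarTower K L M) (_ : FiniteDimensional K M)
      (_ : IsGalois K M) (E : IntermediateField K M),
      IsUnram q K E ∧ Module.finrank K E = Module.finrank K L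

/-- INPUT (LOC-5x): common overfield, general form: given `L → M₁` and a square
`(K, L) → (K', L')` with `M₁/K`, `L'/K'` finite, there is a finite Galois `M'/K'`
receiving `M₁` and `L'` compatibly over `L`. (For `K' = K`, `L' = M₂ ⊇ L` this is a common
Galois overfield of two extensions of `L`.) -/
def CommonOverfield : Prop :=
  ∀ (K L M₁ K' L' : Type) [Field K] [Field L] [Field M₁] [Field K'] [Field L'] [CharZero K]
    [Algebra K L] [Algebra K M₁] [Algebra L M₁] [IsScalarTower K L M₁] [FiniteDimensional K M₁]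
    [Algebra K K'] [Algebra K' L'] [Algebra L L'] [Algebra K L'] [IsScalarTower K L L']
    [IsScalarTower K K' L'] [FiniteDimensional K K'] [FiniteDimensional K' L'],
    ∃ (M' : Type) (_ : Field M') (_ : Algebra K' M') (_ : Algebra L' M') (_ : Algebra M₁ M')
      (_ : IsScalarTower K' L' M'), FiniteDimensional K' M' ∧ IsGalois K' M' ∧
      ∀ x : L, algebraMap M₁ M' (algebraMap L M₁ x) = algebraMap L' M' (algebraMap L L' x)

/-- INPUT (R-FUN): `locH` of the identity square is the identity. -/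
def LocHId : Prop :=
  ∀ (K L : Type) [Field K] [Field L] [Algebra K L] [Normal K L]
    (x : groupCohomology.H2 (Rep.ofAlgebraAutOnUnits K L)), (locH K L K L 2).hom x = x

/-- INPUT (LOC-2c, transport along `⊤ ≃ L`): the cyclic class of an unramified `L/K` is the
inflation of the cyclic class of `⊤ : IntermediateField K L`. -/
def UnramTop : Prop :=
  ∀ (K L : Type) [Field K] [Field L] [Algebra ℚ_[q] K] [Algebra ℚ_[q] L] [Algebra K L]
    [IsScalarTower ℚ_[q] K L] [FiniteDimensional ℚ_[q] K] [FiniteDimensional K L]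
    [IsGalois K L], IsUnram q K L → ∀ φ : L ≃ₐ[K] L, IsFrob q K L φ →
    ∃ (_ : IsGalois K ↥(⊤ : IntermediateField K L))
      (φ' : ↥(⊤ : IntermediateField K L) ≃ₐ[K] ↥(⊤ : IntermediateField K L)),
      IsUnram q K ↥(⊤ : IntermediateField K L) ∧
      IsFrob q K ↥(⊤ : IntermediateField K L) φ' ∧
      ∀ b : Kˣ, cyclicClass K L φ b =
        infH K ↥(⊤ : IntermediateField K L) L 2
          (cyclicClass K ↥(⊤ : IntermediateField K L) φ' b)

/-- All inputs of the construction. -/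
structure InvInputs : Prop where
  unramStructure : UnramStructure q
  unramSup : UnramSup q
  unramBaseChange : UnramBaseChange q
  unramFunct : UnramFunct q
  unramTop : UnramTop q
  cardH2 : CardH2 q
  existsUnramOver : ExistsUnramOver q
  infInjective : InfInjective
  locHComp : LocHComp
  locHId : LocHId
  commonOverfield : CommonOverfield



/-! ## Unramified classes inside a fixed `M` -/

section inM

variable {q}
variable (K M : Type) [Field K] [Field M] [Algebra ℚ_[q] K] [Algebra ℚ_[q] M] [Algebra K M]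
  [IsScalarTower ℚ_[q] K M] [FiniteDimensional ℚ_[q] K] [FiniteDimensional K M] [IsGalois K M]

variable (q) in
/-- `y ∈ H²(M/K)` is an unramified class with invariant `r`. -/
def UnrVal (y : groupCohomology.H2 (Rep.ofAlgebraAutOnUnits K M)) (r : QZ) : Prop :=
  ∃ (E : IntermediateField K M) (_ : IsGalois K E) (φ : E ≃ₐ[K] E) (b : Kˣ),
    IsUnram q K E ∧ IsFrob q K E φ ∧ y = infH K E M 2 (cyclicClass K E φ b) ∧
    r = (((ord q K b : ℚ) / (Module.finrank K E : ℚ) : ℚ) : QZ)

lemma relF_self : relF q K K = 1 := by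
  unfold relF
  exact Nat.div_self (Fermat.Agent.S55.helper33.fdeg_pos q K)

variable {K M}

lemma ord_pow (b : Kˣ) (t : ℕ) : ord q K (b ^ t) = t * ord q K b := by
  induction t with
  | zero =>
    simp only [pow_zero, Nat.cast_zero, zero_mul]
    have := Fermat.Agent.S55.helper33.ord_mul q K 1 1
    rw [mul_one] at this
    linarith
  | succ t ih =>
    rw [pow_succ, Fermat.Agent.S55.helper33.ord_mul, ih]
    push_cast
    ring

/-- moving an unramified class to a larger unramified subextension -/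
lemma inf_cyclicClass_le (I : InvInputs q) (E E₃ : IntermediateField K M) [IsGalois K E]
    [IsGalois K E₃] (hE : IsUnram q K E) (hE₃ : IsUnram q K E₃) (hle : E ≤ E₃)
    (φ : E ≃ₐ[K] E) (φ₃ : E₃ ≃ₐ[K] E₃) (hφ : IsFrob q K E φ) (hφ₃ : IsFrob q K E₃ φ₃) (b : Kˣ) :
    Module.finrank K E ∣ Module.finrank K E₃ ∧
    infH K E M 2 (cyclicClass K E φ b) =
      infH K E₃ M 2 (cyclicClass K E₃ φ₃ (b ^ (Module.finrank K E₃ / Module.finrank K E))) := by
  have h := I.unramFunct K M K M E E₃ hE hE₃ (fun x hx => hle hx) φ φ₃ hφ hφ₃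
  rw [relF_self, one_mul] at h
  refine ⟨h.1, ?_⟩
  have h2 := h.2 b
  rw [I.locHId] at h2
  rw [h2]
  obtain ⟨-, φ₀, hφ₀, hgen, huniq, -⟩ := I.unramStructure K E₃ hE₃
  obtain rfl : φ₃ = φ₀ := huniq φ₃ hφ₃
  have hmap : Units.map (algebraMap K K : K →* K) b = b := by
    ext; rfl
  rw [hmap, ← map_nsmul]
  congr 1
  generalize Module.finrank K E₃ / Module.finrank K E = t
  induction t with
  | zero =>
    rw [zero_smul, pow_zero]
    have := Fermat.Agent.S55.helper96.cyclicClass_mul K E₃ φ₃ hgen 1 1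
    rw [mul_one] at this
    exact (left_eq_add.mp this).symm
  | succ t ih =>
    rw [succ_nsmul, pow_succ, Fermat.Agent.S55.helper96.cyclicClass_mul K E₃ φ₃ hgen, ih]

end inM

section inM2

variable {q}
variable {K M : Type} [Field K] [Field M] [Algebra ℚ_[q] K] [Algebra ℚ_[q] M] [Algebra K M]
  [IsScalarTower ℚ_[q] K M] [FiniteDimensional ℚ_[q] K] [FiniteDimensional K M] [IsGalois K M]

lemma ord_inv' (b : Kˣ) : ord q K b⁻¹ = - ord q K b := by
  have h1 := Fermat.Agent.S55.helper33.ord_mul q K b b⁻¹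
  have h2 := Fermat.Agent.S55.helper33.ord_mul q K 1 1
  rw [mul_one] at h2
  rw [mul_inv_cancel] at h1
  linarith

/-- equality of unramified cyclic classes in terms of `ord` -/
lemma cyclicClass_eq_iff (I : InvInputs q) (E : IntermediateField K M) [IsGalois K E]
    (hE : IsUnram q K E) (φ : E ≃ₐ[K] E) (hφ : IsFrob q K E φ) (a b : Kˣ) :
    cyclicClass K E φ a = cyclicClass K E φ b ↔
      (Module.finrank K E : ℤ) ∣ ord q K a - ord q K b := by
  obtain ⟨-, φ₀, hφ₀, hgen, huniq, hzero⟩ := I.unramStructure K E hE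
  obtain rfl : φ = φ₀ := huniq φ hφ
  have h1 : cyclicClass K E φ a = cyclicClass K E φ (a * b⁻¹) + cyclicClass K E φ b := by
    rw [← Fermat.Agent.S55.helper96.cyclicClass_mul K E φ hgen, inv_mul_cancel_right]
  rw [h1, add_eq_right, hzero, Fermat.Agent.S55.helper33.ord_mul, ord_inv', sub_eq_add_neg]

/-- the common refinement of two unramified data -/
lemma exists_common (I : InvInputs q) (E₁ E₂ : IntermediateField K M) [IsGalois K E₁]
    [IsGalois K E₂] (h₁ : IsUnram q K E₁) (h₂ : IsUnram q K E₂)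
    (φ₁ : E₁ ≃ₐ[K] E₁) (φ₂ : E₂ ≃ₐ[K] E₂) (hφ₁ : IsFrob q K E₁ φ₁) (hφ₂ : IsFrob q K E₂ φ₂) :
    ∃ (E₃ : IntermediateField K M) (_ : IsGalois K E₃) (φ₃ : E₃ ≃ₐ[K] E₃),
      IsUnram q K E₃ ∧ IsFrob q K E₃ φ₃ ∧
      Module.finrank K E₁ ∣ Module.finrank K E₃ ∧ Module.finrank K E₂ ∣ Module.finrank K E₃ ∧
      (∀ b : Kˣ, infH K E₁ M 2 (cyclicClass K E₁ φ₁ b) =
        infH K E₃ M 2 (cyclicClass K E₃ φ₃
          (b ^ (Module.finrank K E₃ / Module.finrank K E₁)))) ∧
      (∀ b : Kˣ, infH K E₂ M 2 (cyclicClass K E₂ φ₂ b) =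
        infH K E₃ M 2 (cyclicClass K E₃ φ₃
          (b ^ (Module.finrank K E₃ / Module.finrank K E₂)))) := by
  have h₃ : IsUnram q K ↥(E₁ ⊔ E₂) := I.unramSup K M E₁ E₂ h₁ h₂
  obtain ⟨hgal, φ₃, hφ₃, -, -, -⟩ := I.unramStructure K ↥(E₁ ⊔ E₂) h₃
  refine ⟨E₁ ⊔ E₂, hgal, φ₃, h₃, hφ₃, ?_, ?_, ?_, ?_⟩
  · exact (inf_cyclicClass_le I E₁ (E₁ ⊔ E₂) h₁ h₃ le_sup_left φ₁ φ₃ hφ₁ hφ₃ 1).1
  · exact (inf_cyclicClass_le I E₂ (E₁ ⊔ E₂) h₂ h₃ le_sup_right φ₂ φ₃ hφ₂ hφ₃ 1).1
  · exact fun b => (inf_cyclicClass_le I E₁ (E₁ ⊔ E₂) h₁ h₃ le_sup_left φ₁ φ₃ hφ₁ hφ₃ b).2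
  · exact fun b => (inf_cyclicClass_le I E₂ (E₁ ⊔ E₂) h₂ h₃ le_sup_right φ₂ φ₃ hφ₂ hφ₃ b).2

lemma finrank_pos_of (E : IntermediateField K M) : 0 < Module.finrank K E := Module.finrank_pos

/-- `ord b / n` in terms of a multiple of `n` -/
lemma qz_ord_div (n n₃ : ℕ) (hn : 0 < n) (hn₃ : 0 < n₃) (hdvd : n ∣ n₃) (a : ℤ) :
    ((((a : ℚ) / (n : ℚ) : ℚ)) : QZ) =
      ((((((n₃ / n : ℕ) : ℤ) * a : ℤ) : ℚ) / (n₃ : ℚ) : ℚ) : QZ) := by
  congr 1
  obtain ⟨m, rfl⟩ := hdvd
  have hm : 0 < m := Nat.pos_of_mul_pos_left hn₃ |> fun h => by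
    rcases Nat.eq_zero_or_pos m with h0 | h0
    · subst h0; simp at hn₃
    · exact h0
  rw [Nat.mul_div_cancel_left m hn]
  have hn' : (n : ℚ) ≠ 0 := by exact_mod_cast hn.ne'
  have hm' : (m : ℚ) ≠ 0 := by exact_mod_cast hm.ne'
  push_cast
  field_simp

/-- uniqueness of the invariant of an unramified class -/
lemma unrVal_unique (I : InvInputs q) {y : groupCohomology.H2 (Rep.ofAlgebraAutOnUnits K M)}
    {r r' : QZ} (h : UnrVal q K M y r) (h' : UnrVal q K M y r') : r = r' := by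
  obtain ⟨E₁, hg₁, φ₁, b₁, hu₁, hφ₁, hy₁, rfl⟩ := h
  obtain ⟨E₂, hg₂, φ₂, b₂, hu₂, hφ₂, hy₂, rfl⟩ := h'
  obtain ⟨E₃, hg₃, φ₃, hu₃, hφ₃, hd₁, hd₂, hi₁, hi₂⟩ :=
    exists_common I E₁ E₂ hu₁ hu₂ φ₁ φ₂ hφ₁ hφ₂
  have heq : cyclicClass K E₃ φ₃ (b₁ ^ (Module.finrank K E₃ / Module.finrank K E₁)) =
      cyclicClass K E₃ φ₃ (b₂ ^ (Module.finrank K E₃ / Module.finrank K E₂)) := by
    apply I.infInjective K E₃ M
    rw [← hi₁, ← hi₂, ← hy₁, ← hy₂]
  rw [cyclicClass_eq_iff I E₃ hu₃ φ₃ hφ₃, ord_pow, ord_pow] at heq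
  rw [qz_ord_div _ _ (finrank_pos_of E₁) (finrank_pos_of E₃) hd₁,
    qz_ord_div _ _ (finrank_pos_of E₂) (finrank_pos_of E₃) hd₂]
  exact qz_div_eq_of_dvd _ _ _ (finrank_pos_of E₃) heq

/-- additivity of the invariant of unramified classes -/
lemma unrVal_add (I : InvInputs q) {y y' : groupCohomology.H2 (Rep.ofAlgebraAutOnUnits K M)}
    {r r' : QZ} (h : UnrVal q K M y r) (h' : UnrVal q K M y' r') :
    UnrVal q K M (y + y') (r + r') := by
  obtain ⟨E₁, hg₁, φ₁, b₁, hu₁, hφ₁, rfl, rfl⟩ := h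
  obtain ⟨E₂, hg₂, φ₂, b₂, hu₂, hφ₂, rfl, rfl⟩ := h'
  obtain ⟨E₃, hg₃, φ₃, hu₃, hφ₃, hd₁, hd₂, hi₁, hi₂⟩ :=
    exists_common I E₁ E₂ hu₁ hu₂ φ₁ φ₂ hφ₁ hφ₂
  obtain ⟨-, φ₀, hφ₀, hgen, huniq, -⟩ := I.unramStructure K E₃ hu₃
  obtain rfl : φ₃ = φ₀ := huniq φ₃ hφ₃
  refine ⟨E₃, hg₃, φ₃, b₁ ^ (Module.finrank K E₃ / Module.finrank K E₁) *
    b₂ ^ (Module.finrank K E₃ / Module.finrank K E₂), hu₃, hφ₃, ?_, ?_⟩
  · rw [hi₁, hi₂, Fermat.Agent.S55.helper96.cyclicClass_mul K E₃ φ₃ hgen, map_add]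
  · rw [qz_ord_div _ _ (finrank_pos_of E₁) (finrank_pos_of E₃) hd₁,
      qz_ord_div _ _ (finrank_pos_of E₂) (finrank_pos_of E₃) hd₂,
      Fermat.Agent.S55.helper33.ord_mul, ord_pow, ord_pow, ← QuotientAddGroup.mk_add]
    congr 1
    push_cast
    ring

/-- an unramified class with invariant `0` vanishes -/
lemma eq_zero_of_unrVal_zero (I : InvInputs q)
    {y : groupCohomology.H2 (Rep.ofAlgebraAutOnUnits K M)} (h : UnrVal q K M y 0) : y = 0 := by
  obtain ⟨E, hg, φ, b, hu, hφ, rfl, hr⟩ := h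
  obtain ⟨-, φ₀, hφ₀, hgen, huniq, hzero⟩ := I.unramStructure K E hu
  obtain rfl : φ = φ₀ := huniq φ hφ
  have : cyclicClass K E φ b = 0 := by
    rw [hzero]
    have h0 := dvd_of_qz_div_eq (ord q K b) 0 _ (finrank_pos_of E)
      (by rw [← hr]; simp)
    simpa using h0
  rw [this, map_zero]

end inM2

/-! ## Base change of unramified classes -/

section baseChange

variable {q}
variable (K M K' M' : Type) [Field K] [Field M] [Field K'] [Field M'] [Algebra ℚ_[q] K]
    [Algebra ℚ_[q] M] [Algebra ℚ_[q] K'] [Algebra ℚ_[q] M'] [Algebra K M] [Algebra K' M']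
    [Algebra K K'] [Algebra M M'] [Algebra K M'] [IsScalarTower ℚ_[q] K M]
    [IsScalarTower ℚ_[q] K' M'] [IsScalarTower ℚ_[q] K K'] [IsScalarTower K M M']
    [IsScalarTower K K' M'] [FiniteDimensional ℚ_[q] K] [FiniteDimensional ℚ_[q] K']
    [FiniteDimensional K K'] [FiniteDimensional K M] [FiniteDimensional K' M']
    [IsGalois K M] [IsGalois K' M']

lemma nsmul_cyclicClass (I : InvInputs q) (E : IntermediateField K M) [IsGalois K E]
    (hE : IsUnram q K E) (φ : E ≃ₐ[K] E) (hφ : IsFrob q K E φ) (b : Kˣ) (t : ℕ) :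
    t • cyclicClass K E φ b = cyclicClass K E φ (b ^ t) := by
  obtain ⟨-, φ₀, hφ₀, hgen, huniq, -⟩ := I.unramStructure K E hE
  obtain rfl : φ = φ₀ := huniq φ hφ
  induction t with
  | zero =>
    rw [zero_smul, pow_zero]
    have := Fermat.Agent.S55.helper96.cyclicClass_mul K E φ hgen 1 1
    rw [mul_one] at this
    exact (left_eq_add.mp this).symm
  | succ t ih =>
    rw [succ_nsmul, pow_succ, Fermat.Agent.S55.helper96.cyclicClass_mul K E φ hgen, ih]

/-- base change of an unramified class: the invariant is multiplied by `[K':K]` -/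
lemma unrVal_baseChange (I : InvInputs q)
    {y : groupCohomology.H2 (Rep.ofAlgebraAutOnUnits K M)} {r : QZ} (h : UnrVal q K M y r) :
    UnrVal q K' M' ((locH K M K' M' 2).hom y) (Module.finrank K K' • r) := by
  obtain ⟨E, hg, φ, b, hu, hφ, rfl, rfl⟩ := h
  obtain ⟨E', hu', hEE'⟩ := I.unramBaseChange K M K' M' E hu
  obtain ⟨hg', φ', hφ', -, -, -⟩ := I.unramStructure K' E' hu'
  obtain ⟨hdvd, hf⟩ := I.unramFunct K M K' M' E E' hu hu' hEE' φ φ' hφ hφ'
  refine ⟨E', hg', φ', (Units.map (algebraMap K K' : K →* K') b) ^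
    (relF q K K' * Module.finrank K' E' / Module.finrank K E), hu', hφ', ?_, ?_⟩
  · rw [hf b, ← map_nsmul, nsmul_cyclicClass K' M' I E' hu' φ' hφ']
  · rw [ord_pow, Fermat.Agent.S55.helper33.ord_algebraMap q K K',
      ← Fermat.Agent.S55.helper33.relE_mul_relF q K K']
    obtain ⟨t, ht⟩ := hdvd
    rw [ht, Nat.mul_div_cancel_left t (finrank_pos_of E)]
    rw [← AddCircle.coe_nsmul]
    congr 1
    have hn : (Module.finrank K E : ℚ) ≠ 0 := by
      exact_mod_cast (finrank_pos_of E).ne'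
    have hn' : (Module.finrank K' E' : ℚ) ≠ 0 := by
      exact_mod_cast (finrank_pos_of E').ne'
    have ht' : (relF q K K' : ℚ) * (Module.finrank K' E' : ℚ) =
        (Module.finrank K E : ℚ) * (t : ℚ) := by exact_mod_cast ht
    rw [nsmul_eq_mul]
    push_cast
    field_simp
    linear_combination ((relE q K K' : ℚ) * (ord q K b : ℚ)) * ht'

end baseChange

/-! ## The invariant of a class: `HasInv` -/

section hasInv

variable (K L : Type) [Field K] [Field L] [Algebra ℚ_[q] K] [FiniteDimensional ℚ_[q] K]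
  [Algebra K L] [FiniteDimensional K L] [IsGalois K L]

/-- `x ∈ H²(L/K)` has invariant `r`: after inflation to some finite Galois `M ⊇ L` the class
`x` becomes an unramified class with invariant `r`. -/
def HasInv (x : groupCohomology.H2 (Rep.ofAlgebraAutOnUnits K L)) (r : QZ) : Prop :=
  ∃ (M : Type) (_ : Field M) (_ : Algebra ℚ_[q] M) (_ : Algebra K M) (_ : Algebra L M)
    (_ : IsScalarTower ℚ_[q] K M) (_ : IsScalarTower K L M) (_ : FiniteDimensional K M)
    (_ : IsGalois K M), UnrVal q K M (infH K L M 2 x) r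

variable {q K L}

/-- THE TRANSPORT LEMMA: base change of `HasInv` along a square `(K, L) → (K', L')`. -/
theorem HasInv.baseChange (I : InvInputs q) (K' L' : Type) [Field K'] [Field L']
    [Algebra ℚ_[q] K'] [FiniteDimensional ℚ_[q] K'] [Algebra K' L'] [FiniteDimensional K' L']
    [IsGalois K' L'] [Algebra K K'] [IsScalarTower ℚ_[q] K K'] [FiniteDimensional K K']
    [Algebra L L'] [Algebra K L'] [IsScalarTower K L L'] [IsScalarTower K K' L']
    {x : groupCohomology.H2 (Rep.ofAlgebraAutOnUnits K L)} {r : QZ} (h : HasInv q K L x r) :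
    HasInv q K' L' ((locH K L K' L' 2).hom x) (Module.finrank K K' • r) := by
  obtain ⟨M₁, _, _, _, _, _, _, _, _, hM₁⟩ := h
  have : CharZero K := charZero_of_injective_algebraMap (algebraMap ℚ_[q] K).injective
  obtain ⟨M', _, _, _, _, _, hfin, hgal, hcompat⟩ := I.commonOverfield K L M₁ K' L'
  let aQ : Algebra ℚ_[q] M' := ((algebraMap K' M').comp (algebraMap ℚ_[q] K')).toAlgebra
  let aK : Algebra K M' := ((algebraMap K' M').comp (algebraMap K K')).toAlgebra
  let aL : Algebra L M' := ((algebraMap L' M').comp (algebraMap L L')).toAlgebra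
  have tQ : IsScalarTower ℚ_[q] K' M' := IsScalarTower.of_algebraMap_eq fun _ => rfl
  have tK : IsScalarTower K K' M' := IsScalarTower.of_algebraMap_eq fun _ => rfl
  have tL : IsScalarTower L L' M' := IsScalarTower.of_algebraMap_eq fun _ => rfl
  have hKL : ∀ x : K, algebraMap K M' x = algebraMap L' M' (algebraMap L L' (algebraMap K L x)) := by
    intro x
    show algebraMap K' M' (algebraMap K K' x) = _
    rw [← IsScalarTower.algebraMap_apply K L L', IsScalarTower.algebraMap_apply K K' L',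
      ← IsScalarTower.algebraMap_apply K' L' M']
  have tKL : IsScalarTower K L M' := IsScalarTower.of_algebraMap_eq fun x => hKL x
  have tLM : IsScalarTower L M₁ M' := IsScalarTower.of_algebraMap_eq fun x => (hcompat x).symm
  have tKM : IsScalarTower K M₁ M' := IsScalarTower.of_algebraMap_eq fun x => by
    rw [hKL, ← hcompat, ← IsScalarTower.algebraMap_apply K L M₁]
  refine ⟨M', inferInstance, aQ, inferInstance, inferInstance, tQ, inferInstance, hfin, hgal, ?_⟩
  have h1 := unrVal_baseChange K M₁ K' M' I hM₁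
  have e1 : (locH K M₁ K' M' 2).hom (infH K L M₁ 2 x) = (locH K L K' M' 2).hom x :=
    (I.locHComp K L K M₁ K' M' x).symm
  have e2 : (locH K L K' M' 2).hom x = infH K' L' M' 2 ((locH K L K' L' 2).hom x) :=
    I.locHComp K L K' L' K' M' x
  rw [e1, e2] at h1
  exact h1

end hasInv

section hasInv2

variable {K L : Type} [Field K] [Field L] [Algebra ℚ_[q] K] [FiniteDimensional ℚ_[q] K]
  [Algebra K L] [FiniteDimensional K L] [IsGalois K L]

variable {q}

/-- a witness over a larger field is a witness -/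
theorem HasInv.of_tower (I : InvInputs q) (M₂ : Type) [Field M₂] [Algebra K M₂] [Algebra L M₂]
    [IsScalarTower K L M₂] [FiniteDimensional K M₂] [IsGalois K M₂]
    {z : groupCohomology.H2 (Rep.ofAlgebraAutOnUnits K L)} {s : QZ}
    (h : HasInv q K M₂ (infH K L M₂ 2 z) s) : HasInv q K L z s := by
  obtain ⟨M', _, aQ, _, _, tQ, _, hfin, hgal, hM'⟩ := h
  let aL : Algebra L M' := ((algebraMap M₂ M').comp (algebraMap L M₂)).toAlgebra
  have tL : IsScalarTower L M₂ M' := IsScalarTower.of_algebraMap_eq fun _ => rfl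
  have tKL : IsScalarTower K L M' := IsScalarTower.of_algebraMap_eq fun x => by
    show algebraMap K M' x = algebraMap M₂ M' (algebraMap L M₂ (algebraMap K L x))
    rw [← IsScalarTower.algebraMap_apply K L M₂, ← IsScalarTower.algebraMap_apply K M₂ M']
  refine ⟨M', inferInstance, aQ, inferInstance, aL, tQ, tKL, hfin, hgal, ?_⟩
  have e : infH K L M' 2 z = infH K M₂ M' 2 (infH K L M₂ 2 z) :=
    I.locHComp K L K M₂ K M' z
  rw [e]
  exact hM'

/-- two witnesses can be compared in a common field -/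
theorem HasInv.exists_common (I : InvInputs q)
    {x y : groupCohomology.H2 (Rep.ofAlgebraAutOnUnits K L)} {r s : QZ}
    (hx : HasInv q K L x r) (hy : HasInv q K L y s) :
    ∃ (M : Type) (_ : Field M) (_ : Algebra ℚ_[q] M) (_ : Algebra K M) (_ : Algebra L M)
      (_ : IsScalarTower ℚ_[q] K M) (_ : IsScalarTower K L M) (_ : FiniteDimensional K M)
      (_ : IsGalois K M), UnrVal q K M (infH K L M 2 x) r ∧ UnrVal q K M (infH K L M 2 y) s := by
  obtain ⟨M₂, _, _, _, _, _, _, _, _, hM₂⟩ := hy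
  have h1 := HasInv.baseChange I K M₂ hx
  rw [Module.finrank_self, one_smul] at h1
  obtain ⟨M', _, aQ, _, _, tQ, _, hfin, hgal, hM'⟩ := h1
  let aL : Algebra L M' := ((algebraMap M₂ M').comp (algebraMap L M₂)).toAlgebra
  have tL : IsScalarTower L M₂ M' := IsScalarTower.of_algebraMap_eq fun _ => rfl
  have tKL : IsScalarTower K L M' := IsScalarTower.of_algebraMap_eq fun x => by
    show algebraMap K M' x = algebraMap M₂ M' (algebraMap L M₂ (algebraMap K L x))
    rw [← IsScalarTower.algebraMap_apply K L M₂, ← IsScalarTower.algebraMap_apply K M₂ M']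
  refine ⟨M', inferInstance, aQ, inferInstance, aL, tQ, tKL, hfin, hgal, ?_, ?_⟩
  · have e : infH K L M' 2 x = infH K M₂ M' 2 ((locH K L K M₂ 2).hom x) :=
      I.locHComp K L K M₂ K M' x
    rw [e]
    exact hM'
  · have h2 := unrVal_baseChange K M₂ K M' I hM₂
    rw [Module.finrank_self, one_smul] at h2
    have e : infH K L M' 2 y = (locH K M₂ K M' 2).hom (infH K L M₂ 2 y) :=
      I.locHComp K L K M₂ K M' y
    rw [e]
    exact h2

theorem HasInv.unique (I : InvInputs q)
    {x : groupCohomology.H2 (Rep.ofAlgebraAutOnUnits K L)} {r r' : QZ}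
    (h : HasInv q K L x r) (h' : HasInv q K L x r') : r = r' := by
  obtain ⟨M, _, _, _, _, _, _, _, _, h1, h2⟩ := HasInv.exists_common I h h'
  exact unrVal_unique I h1 h2

theorem HasInv.add (I : InvInputs q)
    {x y : groupCohomology.H2 (Rep.ofAlgebraAutOnUnits K L)} {r s : QZ}
    (hx : HasInv q K L x r) (hy : HasInv q K L y s) : HasInv q K L (x + y) (r + s) := by
  obtain ⟨M, i1, i2, i3, i4, i5, i6, i7, i8, h1, h2⟩ := HasInv.exists_common I hx hy
  refine ⟨M, i1, i2, i3, i4, i5, i6, i7, i8, ?_⟩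
  rw [map_add]
  exact unrVal_add I h1 h2

theorem HasInv.eq_zero (I : InvInputs q)
    {x : groupCohomology.H2 (Rep.ofAlgebraAutOnUnits K L)} (h : HasInv q K L x 0) : x = 0 := by
  obtain ⟨M, _, _, _, _, _, _, _, _, hM⟩ := h
  have := eq_zero_of_unrVal_zero I hM
  apply I.infInjective K L M
  rw [this, map_zero]

end hasInv2

/-! ## Existence of the invariant -/

/-- In a finite cyclic group, an injective image of a group of order `n` contains all
`n`-torsion. -/
lemma exists_eq_of_nsmul_eq_zero {A H : Type*} [AddCommGroup A] [AddCommGroup H] [Finite H]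
    (u : H) (hu : ∀ x : H, ∃ k : ℤ, x = k • u) (f : A →+ H) (hf : Function.Injective f)
    (n : ℕ) (hn : 0 < n) (hA : Nat.card A = n) (z : H) (hz : n • z = 0) : ∃ a, f a = z := by
  classical
  have : Fintype H := Fintype.ofFinite H
  have : Finite A := Nat.finite_of_card_ne_zero (by rw [hA]; exact hn.ne')
  have : Fintype A := Fintype.ofFinite A
  have : IsAddCyclic H := ⟨u, fun x => by
    obtain ⟨k, hk⟩ := hu x
    exact ⟨k, hk.symm⟩⟩
  have hcard := IsAddCyclic.card_nsmul_eq_zero_le (α := H) hn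
  have hsub : Finset.univ.image f ⊆ Finset.univ.filter (fun a : H => n • a = 0) := by
    intro y hy
    rw [Finset.mem_image] at hy
    obtain ⟨a, -, rfl⟩ := hy
    rw [Finset.mem_filter]
    refine ⟨Finset.mem_univ _, ?_⟩
    rw [← map_nsmul, ← hA]
    have : Nat.card A • a = 0 := card_nsmul_eq_zero' 
    rw [this, map_zero]
  have hcard2 : (Finset.univ.image f).card = n := by
    rw [Finset.card_image_of_injective _ hf, Finset.card_univ, ← Nat.card_eq_fintype_card, hA]
  have heq := Finset.eq_of_subset_of_card_le hsub (by rw [hcard2]; exact hcard)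
  have hz' : z ∈ Finset.univ.filter (fun a : H => n • a = 0) := by
    rw [Finset.mem_filter]
    exact ⟨Finset.mem_univ _, hz⟩
  rw [← heq, Finset.mem_image] at hz'
  obtain ⟨a, -, ha⟩ := hz'
  exact ⟨a, ha⟩

section exist

variable {q}
variable (K L : Type) [Field K] [Field L] [Algebra ℚ_[q] K] [FiniteDimensional ℚ_[q] K]
  [Algebra K L] [FiniteDimensional K L] [IsGalois K L]

theorem exists_hasInv (I : InvInputs q)
    (x : groupCohomology.H2 (Rep.ofAlgebraAutOnUnits K L)) : ∃ r : QZ, HasInv q K L x r := by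
  obtain ⟨M, _, aQ, _, _, tQ, _, hfin, hgal, E, hE, hdeg⟩ := I.existsUnramOver K L
  obtain ⟨hgalE, φ, hφ, hgen, -, -⟩ := I.unramStructure K E hE
  obtain ⟨hcardM, u, hu⟩ := I.cardH2 K M
  obtain ⟨hcardE, -⟩ := I.cardH2 K E
  obtain ⟨hcardL, -⟩ := I.cardH2 K L
  have : Finite (groupCohomology.H2 (Rep.ofAlgebraAutOnUnits K M)) :=
    Nat.finite_of_card_ne_zero (by rw [hcardM]; exact Module.finrank_pos.ne')
  have hz : Module.finrank K L • infH K L M 2 x = 0 := by
    rw [← map_nsmul, ← hcardL]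
    have : Nat.card (groupCohomology.H2 (Rep.ofAlgebraAutOnUnits K L)) • x = 0 := by
      have : Finite (groupCohomology.H2 (Rep.ofAlgebraAutOnUnits K L)) :=
        Nat.finite_of_card_ne_zero (by rw [hcardL]; exact Module.finrank_pos.ne')
      exact card_nsmul_eq_zero'
    rw [this, map_zero]
  obtain ⟨y, hy⟩ := exists_eq_of_nsmul_eq_zero u hu (infH K E M 2) (I.infInjective K E M)
    (Module.finrank K L) Module.finrank_pos (by rw [hcardE, hdeg]) _ hz
  obtain ⟨b, hb⟩ := Fermat.Agent.S55.helper96.cyclicClass_surjective K E φ hgen y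
  exact ⟨_, M, inferInstance, aQ, inferInstance, inferInstance, tQ, inferInstance, hfin, hgal,
    E, hgalE, φ, b, hE, hφ, by rw [hb, hy], rfl⟩

variable {K L}

theorem hasInv_cyclicClass (I : InvInputs q) [Algebra ℚ_[q] L] [IsScalarTower ℚ_[q] K L]
    (h : IsUnram q K L) (φ : L ≃ₐ[K] L) (hφ : IsFrob q K L φ) (b : Kˣ) :
    HasInv q K L (cyclicClass K L φ b)
      (((ord q K b : ℚ) / (Module.finrank K L : ℚ) : ℚ) : QZ) := by
  obtain ⟨hg, φ', hu', hφ', hc⟩ := I.unramTop K L h φ hφ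
  refine ⟨L, inferInstance, inferInstance, inferInstance, inferInstance, inferInstance,
    inferInstance, inferInstance, inferInstance, ⊤, hg, φ', b, hu', hφ', ?_, ?_⟩
  · rw [← hc b]
    exact I.locHId K L _
  · rw [IntermediateField.finrank_top']

end exist

/-! ## The family of invariant maps -/

section family

variable {q}
variable (K L : Type) [Field K] [Field L] [Algebra ℚ_[q] K] [FiniteDimensional ℚ_[q] K]
  [Algebra K L] [FiniteDimensional K L] [IsGalois K L]

/-- the invariant of a class -/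
noncomputable def invFun (I : InvInputs q)
    (x : groupCohomology.H2 (Rep.ofAlgebraAutOnUnits K L)) : QZ :=
  Classical.choose (exists_hasInv K L I x)

lemma invFun_spec (I : InvInputs q) (x : groupCohomology.H2 (Rep.ofAlgebraAutOnUnits K L)) :
    HasInv q K L x (invFun K L I x) :=
  Classical.choose_spec (exists_hasInv K L I x)

lemma invFun_eq (I : InvInputs q) {x : groupCohomology.H2 (Rep.ofAlgebraAutOnUnits K L)}
    {r : QZ} (h : HasInv q K L x r) : invFun K L I x = r :=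
  HasInv.unique I (invFun_spec K L I x) h

/-- the invariant map -/
noncomputable def invHom (I : InvInputs q) :
    groupCohomology.H2 (Rep.ofAlgebraAutOnUnits K L) →+ QZ :=
  AddMonoidHom.mk' (invFun K L I) fun x y =>
    invFun_eq K L I (HasInv.add I (invFun_spec K L I x) (invFun_spec K L I y))

lemma invHom_apply (I : InvInputs q) (x : groupCohomology.H2 (Rep.ofAlgebraAutOnUnits K L)) :
    invHom K L I x = invFun K L I x := rfl

lemma invHom_injective (I : InvInputs q) : Function.Injective (invHom K L I) := by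
  rw [injective_iff_map_eq_zero]
  intro x hx
  have h := invFun_spec K L I x
  rw [← invHom_apply, hx] at h
  exact HasInv.eq_zero I h

end family

/-- LOC-5, conditional form: the family of local invariant maps exists. -/
theorem nonempty_locInv_of (I : ∀ (q : ℕ) [Fact q.Prime], InvInputs q) : Nonempty LocInv :=
  ⟨{ inv := fun q _ K L _ _ _ _ _ _ _ => invHom K L (I q)
     injective := fun q _ K L _ _ _ _ _ _ _ => invHom_injective K L (I q)
     unram := fun q _ K L _ _ _ _ _ _ _ _ _ h φ hφ b =>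
       invFun_eq K L (I q) (hasInv_cyclicClass (I q) h φ hφ b)
     baseChange := fun q _ K L K' L' _ _ _ _ _ _ _ _ _ _ _ _ _ _ _ _ _ _ _ _ _ ξ =>
       invFun_eq K' L' (I q) (HasInv.baseChange (I q) K' L' (invFun_spec K L (I q) ξ)) }⟩

end Fermat.Agent.S55.helper8
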