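import Fermat.Agent.S55.helper8_LocInv
import Fermat.Agent.S55.helper7_LocUnram3
import Fermat.Agent.S55.helper1_Symbol
import Fermat.Agent.S55.helper57_CommonOverfield
import Fermat.Agent.S55.helper57_LocTame
import Fermat.Agent.S55.helper84_InfResFinal
import Fermat.Agent.S55.helper11_LocFun
import Fermat.Agent.S55.helper96_LocUnram2b

/-!
# S55 / LOC-5 (helper8): the inputs of `nonempty_locInv_of` from the landed LOC packages

Every field of `helper8.InvInputs q` except LOC-4 (`CardH2 q`) is discharged from the landed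
packages LOC-2a/2b/2c (helper7, helper96), LOC-5a (helper84), LOC-5b (helper1), LOC-5t/5x
(helper57) and R-FUN (helper11).

* `locH_cyclicClass_of_isUnram` : functoriality of unramified cyclic classes for a square
  `(K, E) → (K', E')`: `loc (χ_φ, b) = (f(K'/K) [E':K'] / [E:K]) • (χ_φ', b)`;
* `invInputs_of_cardH2 : CardH2 q → InvInputs q`;
* `nonempty_locInv_of_cardH2 : (∀ q, CardH2 q) → Nonempty LocInv`.
-/

set_option autoImplicit false
set_option linter.unusedSectionVars false

namespace Fermat.Agent.S55.helper8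

open Fermat.Agent.S55.helper11 groupCohomology CategoryTheory

variable (q : ℕ) [Fact q.Prime]

/-! ## The easy inputs -/

theorem unramStructure : UnramStructure q := by
  intro K E _ _ _ _ _ _ _ _ h
  have hG := helper7.isGalois_of_isUnram q K E h
  obtain ⟨φ, hφ, hgen, -, huniq⟩ := helper7.exists_frob_of_isUnram q K E h
  refine ⟨hG, φ, hφ, hgen, huniq, fun b => ?_⟩
  obtain ⟨e, he⟩ := helper96.exists_inv_of_isUnram q K E h φ hφ
  have hpos : 0 < Module.finrank K E := Module.finrank_pos
  have : NeZero (Module.finrank K E) := ⟨hpos.ne'⟩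
  rw [← AddEquiv.map_eq_zero_iff e, he]
  exact ZMod.intCast_zmod_eq_zero_iff_dvd _ _

theorem unramSup : UnramSup q := by
  intro K M _ _ _ _ _ _ _ _ E₁ E₂ h₁ h₂
  exact helper7.isUnram_sup q K M E₁ E₂ h₁ h₂

theorem infInjective : InfInjective := by
  intro K L M _ _ _ _ _ _ _ _ _ _
  exact helper84.infH_two_injective K L M

theorem locHComp : LocHComp := by
  intro F L K₁ L₁ K₂ L₂ _ _ _ _ _ _ _ _ _ _ _ _ _ _ _ _ _ _ _ _ _ _ _ _ _ _ _ _ x
  rw [locH_comp F L K₁ L₁ K₂ L₂ 2]
  rfl

theorem locHId : LocHId := by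
  intro K L _ _ _ _ x
  have h1 : locHom K L K L = MonoidHom.id _ := by
    ext σ : 1
    apply locHom_ext
    intro x
    rfl
  have h2 : locH K L K L 2 = 𝟙 _ := by
    unfold locH
    rw [← groupCohomology.map_id]
    apply groupCohomology.map_congr h1
    ext y
    rfl
  rw [h2]
  rfl

theorem commonOverfield : CommonOverfield := by
  intro K L M₁ K' L' _ _ _ _ _ _ _ _ _ _ _ _ _ _ _ _ _ _ _
  have hfin : FiniteDimensional K L' := Module.Finite.trans K' L'
  obtain ⟨M, _, _, _, _, _, tKL, tKM₁, tKL', tLM₁, tLL', hfinM, hgal⟩ :=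
    helper57.exists_common_overfield K L M₁ L'
  let a : Algebra K' M := ((algebraMap L' M).comp (algebraMap K' L')).toAlgebra
  have t1 : IsScalarTower K' L' M := IsScalarTower.of_algebraMap_eq fun _ => rfl
  have t2 : IsScalarTower K K' M := IsScalarTower.of_algebraMap_eq fun x => by
    show algebraMap K M x = algebraMap L' M (algebraMap K' L' (algebraMap K K' x))
    rw [← IsScalarTower.algebraMap_apply K K' L', ← IsScalarTower.algebraMap_apply K L' M]
  have hfin' : FiniteDimensional K' M := FiniteDimensional.right K K' M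
  have hgal' : IsGalois K' M := IsGalois.tower_top_of_isGalois K K' M
  refine ⟨M, inferInstance, a, inferInstance, inferInstance, t1, hfin', hgal', fun x => ?_⟩
  rw [← IsScalarTower.algebraMap_apply L M₁ M, ← IsScalarTower.algebraMap_apply L L' M]

/-! ## Functoriality of unramified cyclic classes -/

/-- the symbol calculus LOC-5b, packaged -/
theorem symbolCalc (K L : Type) [Field K] [Field L] [Algebra K L] [FiniteDimensional K L] :
    helper57.SymbolCalc K L where
  exists_dlogChar := helper1.exists_dlogChar K L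
  cyclicClass_eq_chiClass := helper1.cyclicClass_eq_chiClass K L
  chiClass_char_mul := fun N _ χ χ' b => helper1.chiClass_char_mul K L N χ χ' b
  chiClass_cast := fun N m hN hm χ χ' h b => helper1.chiClass_cast K L N m hN hm χ χ' h b

lemma key_arith (n n' f : ℕ) (hn : 0 < n) (hdvd : n ∣ f * n') :
    n ∣ n' * (f % n) ∧ f * n' / n = n' * (f % n) / n + n' * (f / n) := by
  have h1 : f * n' = n' * (f % n) + n * (n' * (f / n)) := by
    conv_lhs => rw [← Nat.mod_add_div f n]
    ring
  constructor
  · have h2 : n ∣ n' * (f % n) + n * (n' * (f / n)) := h1 ▸ hdvd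
    exact (Nat.dvd_add_left (Dvd.intro _ rfl)).mp h2
  · rw [h1, Nat.add_mul_div_left _ _ hn]

section key

variable (K E K' E' : Type) [Field K] [Field E] [Field K'] [Field E'] [Algebra ℚ_[q] K]
  [Algebra ℚ_[q] E] [Algebra ℚ_[q] K'] [Algebra ℚ_[q] E'] [Algebra K E] [Algebra K K']
  [Algebra K' E'] [Algebra E E'] [Algebra K E'] [IsScalarTower ℚ_[q] K E]
  [IsScalarTower ℚ_[q] K K'] [IsScalarTower ℚ_[q] K' E'] [IsScalarTower K E E']
  [IsScalarTower K K' E'] [FiniteDimensional ℚ_[q] K] [FiniteDimensional K E]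
  [FiniteDimensional K K'] [FiniteDimensional K' E'] [Normal K E]

/-- **Functoriality of unramified cyclic classes** for a square `(K, E) → (K', E')` of
unramified extensions. -/
theorem locH_cyclicClass_of_isUnram (h : IsUnram q K E) (h' : IsUnram q K' E')
    (φ : E ≃ₐ[K] E) (hφ : IsFrob q K E φ) (φ' : E' ≃ₐ[K'] E') (hφ' : IsFrob q K' E' φ') :
    Module.finrank K E ∣ relF q K K' * Module.finrank K' E' ∧ ∀ b : Kˣ,
      (locH K E K' E' 2).hom (cyclicClass K E φ b) =
        (relF q K K' * Module.finrank K' E' / Module.finrank K E) •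
          cyclicClass K' E' φ' (Units.map (algebraMap K K' : K →* K') b) := by
  have hfinK' : FiniteDimensional ℚ_[q] K' := Module.Finite.trans K K'
  obtain ⟨φ₀, -, hgen₀, hord₀, huniq₀⟩ := helper7.exists_frob_of_isUnram q K E h
  obtain rfl : φ = φ₀ := huniq₀ φ hφ
  obtain ⟨φ₀', -, hgen₀', hord₀', huniq₀'⟩ := helper7.exists_frob_of_isUnram q K' E' h'
  obtain rfl : φ' = φ₀' := huniq₀' φ' hφ'
  have hloc : locHom K E K' E' φ' = φ ^ relF q K K' :=
    helper7.locHom_frob q K E K' E' h h' φ hφ φ' hφ'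
  have hnpos : 0 < orderOf φ := orderOf_pos φ
  have : NeZero (orderOf φ) := ⟨hnpos.ne'⟩
  have hdvd : orderOf φ ∣ relF q K K' * orderOf φ' := by
    apply orderOf_dvd_of_pow_eq_one
    rw [pow_mul, ← hloc, ← map_pow, pow_orderOf_eq_one, map_one]
  obtain ⟨hd1, hd2⟩ := key_arith (orderOf φ) (orderOf φ') (relF q K K') hnpos hdvd
  rw [← hord₀, ← hord₀']
  refine ⟨hdvd, fun b => ?_⟩
  obtain ⟨χ, hχ⟩ := helper1.exists_dlogChar K E φ hgen₀
  rw [helper1.cyclicClass_eq_chiClass K E φ hgen₀ χ hχ b, helper1.locH_chiClass]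
  have hval : (Multiplicative.toAdd ((χ.comp (locHom K E K' E')) φ')).val =
      relF q K K' % orderOf φ := by
    rw [MonoidHom.comp_apply, hloc, map_pow, hχ, ← ofAdd_nsmul, toAdd_ofAdd, nsmul_eq_mul,
      mul_one, ZMod.val_natCast]
  have ht : orderOf φ' * (Multiplicative.toAdd ((χ.comp (locHom K E K' E')) φ')).val =
      orderOf φ * (orderOf φ' * (relF q K K' % orderOf φ) / orderOf φ) := by
    rw [hval, Nat.mul_div_cancel' hd1]
  rw [(symbolCalc K' E').chiClass_eq_nsmul_cyclicClass φ' hgen₀' (orderOf φ)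
    (χ.comp (locHom K E K' E')) _ ht, hd2, add_nsmul, mul_nsmul]
  have hzero : orderOf φ' • cyclicClass K' E' φ'
      (Units.map (algebraMap K K' : K →* K') b) = 0 := by
    obtain ⟨e, -⟩ := helper96.exists_inv_of_isUnram q K' E' h' φ' hφ'
    apply e.injective
    rw [map_nsmul, map_zero, hord₀', nsmul_eq_mul, ZMod.natCast_self, zero_mul]
  rw [hzero, nsmul_zero, add_zero]

end key

theorem unramFunct : UnramFunct q := by
  intro K M K' M' _ _ _ _ _ _ _ _ _ _ _ _ _ _ _ _ _ _ _ _ _ _ _ _ E E' _ _ hE hE' hEE' φ φ'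
    hφ hφ'
  have hKK' : FiniteDimensional K K' := FiniteDimensional.right ℚ_[q] K K'
  let g : E →+* E' :=
    ((algebraMap M M').comp (algebraMap E M)).codRestrict E' (fun x => hEE' x.1 x.2)
  let aEE' : Algebra E E' := g.toAlgebra
  have t1 : IsScalarTower K E E' := IsScalarTower.of_algebraMap_eq fun x => by
    apply Subtype.ext
    show algebraMap K M' x = algebraMap M M' (algebraMap K M x)
    rw [← IsScalarTower.algebraMap_apply]
  have t2 : IsScalarTower E E' M' := IsScalarTower.of_algebraMap_eq fun x => rfl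
  obtain ⟨hdvd, hb⟩ := locH_cyclicClass_of_isUnram q K E K' E' hE hE' φ hφ φ' hφ'
  refine ⟨hdvd, fun b => ?_⟩
  have e1 := locH_comp K E K M K' M' 2
  have e2 := locH_comp K E K' E' K' M' 2
  have e3 : (locH K M K' M' 2).hom (infH K E M 2 (cyclicClass K E φ b)) =
      (locH K' E' K' M' 2).hom ((locH K E K' E' 2).hom (cyclicClass K E φ b)) := by
    have e4 : (locH K M K' M' 2).hom (infH K E M 2 (cyclicClass K E φ b)) =
        (locH K E K M 2 ≫ locH K M K' M' 2).hom (cyclicClass K E φ b) := rfl
    rw [e4, ← e1, e2]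
    rfl
  rw [e3, hb b, map_nsmul]
  rfl

theorem unramTop : UnramTop q := by
  intro K L _ _ _ _ _ _ _ _ _ hL φ hφ
  have t0 : IsScalarTower ℚ_[q] ↥(⊤ : IntermediateField K L) L :=
    IsScalarTower.of_algebraMap_eq fun x => rfl
  have hT : IsUnram q K ↥(⊤ : IntermediateField K L) :=
    (helper7.isUnram_of_tower q K ↥(⊤ : IntermediateField K L) L hL).1
  have hG : IsGalois K ↥(⊤ : IntermediateField K L) := helper7.isGalois_of_isUnram q K _ hT
  have hφ' : IsFrob q K ↥(⊤ : IntermediateField K L)
      (AlgEquiv.restrictNormalHom ↥(⊤ : IntermediateField K L) φ) :=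
    helper7.isFrob_restrictNormalHom q K ↥(⊤ : IntermediateField K L) L hL φ hφ
  refine ⟨hG, AlgEquiv.restrictNormalHom ↥(⊤ : IntermediateField K L) φ, hT, hφ', fun b => ?_⟩
  obtain ⟨-, hb⟩ := locH_cyclicClass_of_isUnram q K ↥(⊤ : IntermediateField K L) K L hT hL
    _ hφ' φ hφ
  have h1 := hb b
  have h2 : Units.map (algebraMap K K : K →* K) b = b := Units.ext rfl
  rw [relF_self, one_mul, IntermediateField.finrank_top', Nat.div_self Module.finrank_pos,
    one_smul, h2] at h1
  rw [← h1]
  rfl

theorem unramBaseChange : UnramBaseChange q := by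
  intro K M K' M' _ _ _ _ _ _ _ _ _ _ _ _ _ _ _ _ _ _ _ _ _ _ E hE
  obtain ⟨ζ, hζ, rfl⟩ := helper7.exists_primitiveRoot_adjoin_eq q K M E hE
  have hN := helper7.not_dvd_pow_sub_one q K
    (n := Module.finrank K (IntermediateField.adjoin K {ζ})) Module.finrank_pos
  refine ⟨IntermediateField.adjoin K' {algebraMap M M' ζ}, ?_, ?_⟩
  · apply helper7.isUnram_adjoin_rootsOfUnity q K' M'
    intro s hs
    rw [Set.mem_singleton_iff] at hs
    subst hs
    exact ⟨_, hN, by rw [← map_pow, hζ.pow_eq_one, map_one]⟩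
  · intro x hx
    have hle : IntermediateField.adjoin K {ζ} ≤
        ((IntermediateField.adjoin K' {algebraMap M M' ζ}).restrictScalars K).comap
          (IsScalarTower.toAlgHom K M M') := by
      rw [IntermediateField.adjoin_simple_le_iff]
      exact IntermediateField.mem_adjoin_simple_self K' _
    exact hle hx

theorem existsUnramOver : ExistsUnramOver q := by
  intro K L _ _ _ _ _ _ _
  classical
  have hcz : CharZero K := charZero_of_injective_algebraMap (algebraMap ℚ_[q] K).injective
  let aQ : Algebra ℚ_[q] (AlgebraicClosure L) :=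
    ((algebraMap K (AlgebraicClosure L)).comp (algebraMap ℚ_[q] K)).toAlgebra
  have tQ : IsScalarTower ℚ_[q] K (AlgebraicClosure L) :=
    IsScalarTower.of_algebraMap_eq fun _ => rfl
  have hn : 0 < Module.finrank K L := Module.finrank_pos
  obtain ⟨E₀, hfd, -, hrank, hunr⟩ :=
    helper7.exists_unram q K (AlgebraicClosure L) (Module.finrank K L) hn
  obtain ⟨ζ', hζ', -⟩ := helper7.exists_primitiveRoot_adjoin_of_isUnram q K ↥E₀ hunr
  let h₁ : L →ₐ[K] AlgebraicClosure L := IsScalarTower.toAlgHom K L (AlgebraicClosure L)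
  have hL' : FiniteDimensional K ↥h₁.fieldRange :=
    (AlgEquiv.ofInjectiveField h₁).toLinearEquiv.finiteDimensional
  have hE₁ : FiniteDimensional K ↥(E₀ ⊔ h₁.fieldRange) :=
    IntermediateField.finiteDimensional_sup E₀ h₁.fieldRange
  have hMfin : FiniteDimensional K
      ↥(IntermediateField.normalClosure K ↥(E₀ ⊔ h₁.fieldRange) (AlgebraicClosure L)) :=
    normalClosure.is_finiteDimensional K _ _
  have hMnorm : Normal K
      ↥(IntermediateField.normalClosure K ↥(E₀ ⊔ h₁.fieldRange) (AlgebraicClosure L)) :=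
    normalClosure.normal K _ _
  have hMsep : Algebra.IsSeparable K
      ↥(IntermediateField.normalClosure K ↥(E₀ ⊔ h₁.fieldRange) (AlgebraicClosure L)) :=
    Algebra.IsAlgebraic.isSeparable_of_perfectField
  have hMgal : IsGalois K
      ↥(IntermediateField.normalClosure K ↥(E₀ ⊔ h₁.fieldRange) (AlgebraicClosure L)) := ⟨⟩
  have hle : E₀ ⊔ h₁.fieldRange ≤
      IntermediateField.normalClosure K ↥(E₀ ⊔ h₁.fieldRange) (AlgebraicClosure L) :=
    IntermediateField.le_normalClosure _
  have hmL : ∀ x : L, h₁ x ∈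
      IntermediateField.normalClosure K ↥(E₀ ⊔ h₁.fieldRange) (AlgebraicClosure L) := fun x =>
    hle ((le_sup_right : h₁.fieldRange ≤ E₀ ⊔ h₁.fieldRange) (AlgHom.mem_fieldRange.mpr ⟨x, rfl⟩))
  let g : L →ₐ[K]
      ↥(IntermediateField.normalClosure K ↥(E₀ ⊔ h₁.fieldRange) (AlgebraicClosure L)) :=
    h₁.codRestrict (IntermediateField.normalClosure K ↥(E₀ ⊔ h₁.fieldRange)
      (AlgebraicClosure L)).toSubalgebra hmL
  let aL : Algebra L
      ↥(IntermediateField.normalClosure K ↥(E₀ ⊔ h₁.fieldRange) (AlgebraicClosure L)) :=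
    g.toRingHom.toAlgebra
  have tL : IsScalarTower K L
      ↥(IntermediateField.normalClosure K ↥(E₀ ⊔ h₁.fieldRange) (AlgebraicClosure L)) :=
    IsScalarTower.of_algebraMap_eq fun x => (g.commutes x).symm
  have hζmem : (ζ' : AlgebraicClosure L) ∈
      IntermediateField.normalClosure K ↥(E₀ ⊔ h₁.fieldRange) (AlgebraicClosure L) :=
    hle ((le_sup_left : E₀ ≤ E₀ ⊔ h₁.fieldRange) ζ'.2)
  have hζΩ : IsPrimitiveRoot (ζ' : AlgebraicClosure L)
      (q ^ (fdeg q K * Module.finrank K L) - 1) := by
    have := hζ'.map_of_injective (f := algebraMap ↥E₀ (AlgebraicClosure L))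
      (algebraMap ↥E₀ (AlgebraicClosure L)).injective
    rw [hrank, ← pow_mul] at this
    exact this
  have hζM : IsPrimitiveRoot (⟨(ζ' : AlgebraicClosure L), hζmem⟩ :
      ↥(IntermediateField.normalClosure K ↥(E₀ ⊔ h₁.fieldRange) (AlgebraicClosure L)))
      (q ^ (fdeg q K * Module.finrank K L) - 1) :=
    IsPrimitiveRoot.of_map_of_injective (f := algebraMap
      ↥(IntermediateField.normalClosure K ↥(E₀ ⊔ h₁.fieldRange) (AlgebraicClosure L))
      (AlgebraicClosure L)) hζΩ (RingHom.injective _)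
  obtain ⟨-, -, hr, hu⟩ := helper7.isUnram_adjoin_primitiveRoot q K
    ↥(IntermediateField.normalClosure K ↥(E₀ ⊔ h₁.fieldRange) (AlgebraicClosure L))
    (Module.finrank K L) hn _ hζM
  exact ⟨↥(IntermediateField.normalClosure K ↥(E₀ ⊔ h₁.fieldRange) (AlgebraicClosure L)),
    inferInstance, inferInstance, inferInstance, aL, inferInstance, tL, hMfin, hMgal, _, hu, hr⟩

/-- All inputs of `nonempty_locInv_of` except LOC-4 (`CardH2 q`) are available. -/
theorem invInputs_of_cardH2 (h : CardH2 q) : InvInputs q where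
  unramStructure := unramStructure q
  unramSup := unramSup q
  unramBaseChange := unramBaseChange q
  unramFunct := unramFunct q
  unramTop := unramTop q
  cardH2 := h
  existsUnramOver := existsUnramOver q
  infInjective := infInjective
  locHComp := locHComp
  locHId := locHId
  commonOverfield := commonOverfield

/-- **LOC-5** (existence of the invariant maps), conditional on LOC-4 only. -/
theorem nonempty_locInv_of_cardH2 (h : ∀ (q : ℕ) [Fact q.Prime], CardH2 q) : Nonempty LocInv :=
  nonempty_locInv_of fun q _ => invInputs_of_cardH2 q (h q)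

end Fermat.Agent.S55.helper8
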