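import Fermat.Agent.S55.helper8_LocCardH2
import Fermat.Agent.S55.helper31_LocCyclic
import Fermat.Agent.S55.helper96_CyclicNorm
import Fermat.Agent.S55.helper84_Transport
import Fermat.Agent.S55.helper46_FG1Strong
import Fermat.Agent.S55.helper6_G9Tower

/-!
# S55 / LOC-4 and LOC-5 (helper8): `H²(Gal(L/K), Lˣ)` is cyclic of order `[L:K]`

The upper bound `|H²(Gal(L/K), Lˣ)| ≤ [L:K]` for finite Galois extensions of `q`-adic fields:
(A) cyclic case from the norm index (LOC-3), (B) tower inequality from inflation-restriction,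
(C) prime power degree by induction, (D) Sylow reduction by the transfer.
With the lower bound of `helper8_LocCardH2` this gives LOC-4 (`card_H2`,
`exists_generator_H2`) and LOC-5 (`nonempty_locInv`), unconditionally.
-/

set_option autoImplicit false
set_option linter.unusedSectionVars false

namespace Fermat.Agent.S55.helper8

open Fermat.Agent.S55.helper11 groupCohomology

variable (q : ℕ) [Fact q.Prime]

/-! ## (A) the cyclic case -/

theorem card_H2_of_isCyclic (K : Type) [Field K] [Algebra ℚ_[q] K] [FiniteDimensional ℚ_[q] K]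
    (L : Type) [Field L] [Algebra K L] [FiniteDimensional K L] [IsGalois K L]
    [IsCyclic (L ≃ₐ[K] L)] :
    Finite (groupCohomology.H2 (Rep.ofAlgebraAutOnUnits K L)) ∧
      Nat.card (groupCohomology.H2 (Rep.ofAlgebraAutOnUnits K L)) = Module.finrank K L := by
  obtain ⟨φ, hφ⟩ := IsCyclic.exists_generator (α := L ≃ₐ[K] L)
  have h1 : cyclicClass K L φ 1 = 0 := by
    have := helper96.cyclicClass_mul K L φ hφ 1 1
    rw [mul_one] at this
    exact left_eq_add.mp this
  let f : Kˣ →* Multiplicative (groupCohomology.H2 (Rep.ofAlgebraAutOnUnits K L)) :=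
    { toFun := fun b => Multiplicative.ofAdd (cyclicClass K L φ b)
      map_one' := by rw [h1]; rfl
      map_mul' := fun b b' => by rw [helper96.cyclicClass_mul K L φ hφ, ofAdd_add] }
  have hsurj : Function.Surjective f := fun x => by
    obtain ⟨b, hb⟩ := helper96.cyclicClass_surjective K L φ hφ (Multiplicative.toAdd x)
    exact ⟨b, by show Multiplicative.ofAdd (cyclicClass K L φ b) = x; rw [hb]; rfl⟩
  have hker : f.ker = (normUnits K L).range := by
    ext b
    rw [MonoidHom.mem_ker, ← helper96.cyclicClass_eq_zero_iff' K L φ hφ b]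
    exact ofAdd_eq_one
  have e : Kˣ ⧸ f.ker ≃* Multiplicative (groupCohomology.H2 (Rep.ofAlgebraAutOnUnits K L)) :=
    QuotientGroup.quotientKerEquivOfSurjective f hsurj
  have h31 := helper31.card_quotient_norm_of_isCyclic q K L
  rw [← hker] at h31
  have hcard : Nat.card (groupCohomology.H2 (Rep.ofAlgebraAutOnUnits K L)) =
      Module.finrank K L := by
    rw [← h31]
    exact (Nat.card_congr (e.toEquiv.trans Multiplicative.toAdd)).symm
  exact ⟨Nat.finite_of_card_ne_zero (by rw [hcard]; exact Module.finrank_pos.ne'), hcard⟩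

/-! ## (B) the tower inequality -/

lemma card_le_of_exact {A B C : Type*} [AddCommGroup A] [AddCommGroup B] [AddCommGroup C]
    (f : A →+ B) (g : B →+ C) (hfg : ∀ x, g x = 0 ↔ ∃ y, f y = x) [Finite A] [Finite C] :
    Finite B ∧ Nat.card B ≤ Nat.card A * Nat.card C := by
  have hsurj : Function.Surjective (fun a : A => (⟨f a, (hfg _).mpr ⟨a, rfl⟩⟩ : g.ker)) := by
    rintro ⟨x, hx⟩
    obtain ⟨y, hy⟩ := (hfg x).mp hx
    exact ⟨y, Subtype.ext hy⟩
  have hfk : Finite g.ker := Finite.of_surjective _ hsurj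
  have hk : Nat.card g.ker ≤ Nat.card A := Nat.card_le_card_of_surjective _ hsurj
  have e := QuotientAddGroup.quotientKerEquivRange g
  have hfq : Finite (B ⧸ g.ker) := Finite.of_equiv _ e.symm.toEquiv
  have hq : Nat.card (B ⧸ g.ker) ≤ Nat.card C := by
    rw [Nat.card_congr e.toEquiv]
    exact Nat.card_le_card_of_injective _ Subtype.val_injective
  have hB := AddSubgroup.card_eq_card_quotient_mul_card_addSubgroup g.ker
  have hpos1 : 0 < Nat.card g.ker := Nat.card_pos
  have hpos2 : 0 < Nat.card (B ⧸ g.ker) := Nat.card_pos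
  refine ⟨Nat.finite_of_card_ne_zero ?_, ?_⟩
  · rw [hB]
    exact (Nat.mul_pos hpos2 hpos1).ne'
  · rw [hB, mul_comm]
    exact Nat.mul_le_mul hk hq

theorem card_H2_le_of_tower (K F L : Type) [Field K] [Field F] [Field L] [Algebra K F]
    [Algebra K L] [Algebra F L] [IsScalarTower K F L] [FiniteDimensional K L] [IsGalois K F]
    [IsGalois K L] [Finite (groupCohomology.H2 (Rep.ofAlgebraAutOnUnits K F))]
    [Finite (groupCohomology.H2 (Rep.ofAlgebraAutOnUnits F L))] :
    Finite (groupCohomology.H2 (Rep.ofAlgebraAutOnUnits K L)) ∧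
      Nat.card (groupCohomology.H2 (Rep.ofAlgebraAutOnUnits K L)) ≤
        Nat.card (groupCohomology.H2 (Rep.ofAlgebraAutOnUnits K F)) *
          Nat.card (groupCohomology.H2 (Rep.ofAlgebraAutOnUnits F L)) :=
  card_le_of_exact (infH K F L 2) (resH K F L 2)
    (fun x => helper84.resH_two_eq_zero_iff K F L x)

/-! ## (C) extensions of prime power degree -/

/-- the upper bound for a fixed extension, for every `q`-adic structure on the base -/
def UpperAt (K L : Type) [Field K] [Field L] [Algebra K L] : Prop :=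
  ∀ [Algebra ℚ_[q] K] [FiniteDimensional ℚ_[q] K],
    Finite (groupCohomology.H2 (Rep.ofAlgebraAutOnUnits K L)) ∧
      Nat.card (groupCohomology.H2 (Rep.ofAlgebraAutOnUnits K L)) ≤ Module.finrank K L

theorem upperAt_of_prime_pow (l : ℕ) [Fact l.Prime] (m : ℕ) (K L : Type) [Field K] [Field L]
    [Algebra K L] [FiniteDimensional K L] [IsGalois K L] (h : Module.finrank K L = l ^ m) :
    UpperAt q K L := by
  refine helper6.pExt_induction l (fun K L _ _ _ => UpperAt q K L) ?_ ?_ m K L h
  · intro K L _ _ _ _ _ h1 _ _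
    have hcard : Nat.card (L ≃ₐ[K] L) = 1 := by rw [IsGalois.card_aut_eq_finrank, h1]
    have hsub : Subsingleton (L ≃ₐ[K] L) := (Nat.card_eq_one_iff_unique.mp hcard).1
    have hcyc : IsCyclic (L ≃ₐ[K] L) := isCyclic_of_subsingleton
    obtain ⟨hf, hc⟩ := card_H2_of_isCyclic q K L
    exact ⟨hf, hc.le⟩
  · intro K L _ _ _ _ _ E _ hE hEL _ _
    let aL : Algebra ℚ_[q] L := ((algebraMap K L).comp (algebraMap ℚ_[q] K)).toAlgebra
    have tL : IsScalarTower ℚ_[q] K L := IsScalarTower.of_algebraMap_eq fun _ => rfl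
    have hfE : FiniteDimensional ℚ_[q] E := Module.Finite.trans K E
    obtain ⟨hfEL, hcEL⟩ := @hEL inferInstance hfE
    have hcard : Nat.card (E ≃ₐ[K] E) = l := by rw [IsGalois.card_aut_eq_finrank, hE]
    have hcyc : IsCyclic (E ≃ₐ[K] E) := isCyclic_of_prime_card hcard
    obtain ⟨hfKE, hcKE⟩ := card_H2_of_isCyclic q K E
    obtain ⟨hf, hc⟩ := card_H2_le_of_tower K E L
    refine ⟨hf, hc.trans ?_⟩
    rw [hcKE, ← Module.finrank_mul_finrank K E L]
    exact Nat.mul_le_mul_left _ hcEL

/-! ## (D) Sylow reduction -/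

open CategoryTheory in
/-- **LOC-4, upper bound**: `H²(Gal(L/K), Lˣ)` is finite of order at most `[L:K]`. -/
theorem upperH2 : UpperH2 q := by
  intro K _ _ _ L _ _ _ _
  classical
  let aL : Algebra ℚ_[q] L := ((algebraMap K L).comp (algebraMap ℚ_[q] K)).toAlgebra
  have tL : IsScalarTower ℚ_[q] K L := IsScalarTower.of_algebraMap_eq fun _ => rfl
  have hG : Nat.card (L ≃ₐ[K] L) = Module.finrank K L := IsGalois.card_aut_eq_finrank K L
  have hn : Module.finrank K L ≠ 0 := Module.finrank_pos.ne'
  have hprime : ∀ l : {l : ℕ // l ∈ (Module.finrank K L).primeFactors}, Fact (l.1.Prime) :=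
    fun l => ⟨Nat.prime_of_mem_primeFactors l.2⟩
  let P : ∀ l : {l : ℕ // l ∈ (Module.finrank K L).primeFactors}, Sylow l.1 (L ≃ₐ[K] L) :=
    fun l => Classical.arbitrary _
  -- the restricted cohomology groups are small
  have hX : ∀ l : {l : ℕ // l ∈ (Module.finrank K L).primeFactors},
      Finite (groupCohomology (Rep.res (P l : Subgroup (L ≃ₐ[K] L)).subtype
        (Rep.ofAlgebraAutOnUnits K L)) 2) ∧
      Nat.card (groupCohomology (Rep.res (P l : Subgroup (L ≃ₐ[K] L)).subtype
        (Rep.ofAlgebraAutOnUnits K L)) 2) ≤ l.1 ^ (Module.finrank K L).factorization l.1 := by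
    intro l
    have hl := hprime l
    have hdeg : Module.finrank (IntermediateField.fixedField (P l : Subgroup (L ≃ₐ[K] L))) L =
        l.1 ^ (Module.finrank K L).factorization l.1 := by
      rw [helper84.finrank_fixedField_eq_natCard, Sylow.card_eq_multiplicity, hG]
    have hfF : FiniteDimensional ℚ_[q]
        (IntermediateField.fixedField (P l : Subgroup (L ≃ₐ[K] L))) := Module.Finite.trans K _
    obtain ⟨hf, hc⟩ := @upperAt_of_prime_pow q _ l.1 hl _
      (IntermediateField.fixedField (P l : Subgroup (L ≃ₐ[K] L))) L _ _ _ _ _ hdeg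
      inferInstance hfF
    have hcard := helper84.card_res_units K L (P l : Subgroup (L ≃ₐ[K] L)) 2
    have hpos : 0 < Nat.card (groupCohomology.H2 (Rep.ofAlgebraAutOnUnits
        (IntermediateField.fixedField (P l : Subgroup (L ≃ₐ[K] L))) L)) := Nat.card_pos
    refine ⟨Nat.finite_of_card_ne_zero ?_, ?_⟩
    · rw [hcard]
      exact hpos.ne'
    · rw [hcard]
      exact hc.trans hdeg.le
  have hXf : ∀ l, Finite (groupCohomology (Rep.res (P l : Subgroup (L ≃ₐ[K] L)).subtype
        (Rep.ofAlgebraAutOnUnits K L)) 2) := fun l => (hX l).1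
  -- the product of the restriction maps is injective
  have hzero : ∀ z : groupCohomology.H2 (Rep.ofAlgebraAutOnUnits K L),
      (∀ l, groupCohomology.map (P l : Subgroup (L ≃ₐ[K] L)).subtype
        (𝟙 (Rep.res (P l : Subgroup (L ≃ₐ[K] L)).subtype (Rep.ofAlgebraAutOnUnits K L))) 2 z
          = 0) → z = 0 := by
    intro z hz
    have h1 : Nat.card (L ≃ₐ[K] L) • z = 0 :=
      helper46.card_nsmul_eq_zero (Rep.ofAlgebraAutOnUnits K L) 2 (by norm_num) z
    have hd1 : addOrderOf z ∣ Module.finrank K L := by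
      rw [← hG]
      exact addOrderOf_dvd_of_nsmul_eq_zero h1
    by_contra hne
    have hne1 : addOrderOf z ≠ 1 := fun h => hne (AddMonoid.addOrderOf_eq_one_iff.mp h)
    obtain ⟨l, hl, hldvd⟩ := Nat.exists_prime_and_dvd hne1
    have hmem : l ∈ (Module.finrank K L).primeFactors :=
      Nat.mem_primeFactors.mpr ⟨hl, hldvd.trans hd1, hn⟩
    have hl' := hprime ⟨l, hmem⟩
    obtain ⟨c, hc⟩ := helper46.exists_cor (P ⟨l, hmem⟩ : Subgroup (L ≃ₐ[K] L))
      (Rep.ofAlgebraAutOnUnits K L) 2
    have h2 : (P ⟨l, hmem⟩ : Subgroup (L ≃ₐ[K] L)).index • z = 0 := by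
      rw [← hc z, hz ⟨l, hmem⟩, map_zero]
    have hd2 : l ∣ (P ⟨l, hmem⟩ : Subgroup (L ≃ₐ[K] L)).index :=
      hldvd.trans (addOrderOf_dvd_of_nsmul_eq_zero h2)
    exact (P ⟨l, hmem⟩).not_dvd_index hd2
  have hinj : Function.Injective
      (fun (x : groupCohomology.H2 (Rep.ofAlgebraAutOnUnits K L))
        (l : {l : ℕ // l ∈ (Module.finrank K L).primeFactors}) =>
        (groupCohomology.map (P l : Subgroup (L ≃ₐ[K] L)).subtype
          (𝟙 (Rep.res (P l : Subgroup (L ≃ₐ[K] L)).subtype (Rep.ofAlgebraAutOnUnits K L)))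
            2).hom x) := by
    intro x y hxy
    rw [← sub_eq_zero]
    apply hzero
    intro l
    have := congrFun hxy l
    simp only at this
    rw [map_sub]
    exact sub_eq_zero.mpr this
  refine ⟨Finite.of_injective _ hinj, ?_⟩
  calc Nat.card (groupCohomology.H2 (Rep.ofAlgebraAutOnUnits K L))
      ≤ Nat.card (∀ l : {l : ℕ // l ∈ (Module.finrank K L).primeFactors},
          groupCohomology (Rep.res (P l : Subgroup (L ≃ₐ[K] L)).subtype
            (Rep.ofAlgebraAutOnUnits K L)) 2) := Nat.card_le_card_of_injective _ hinj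
    _ = ∏ l : {l : ℕ // l ∈ (Module.finrank K L).primeFactors},
          Nat.card (groupCohomology (Rep.res (P l : Subgroup (L ≃ₐ[K] L)).subtype
            (Rep.ofAlgebraAutOnUnits K L)) 2) := Nat.card_pi
    _ ≤ ∏ l : {l : ℕ // l ∈ (Module.finrank K L).primeFactors},
          l.1 ^ (Module.finrank K L).factorization l.1 :=
        Finset.prod_le_prod' fun l _ => (hX l).2
    _ = Module.finrank K L := by
        rw [Finset.prod_coe_sort (Module.finrank K L).primeFactors
          (fun l => l ^ (Module.finrank K L).factorization l)]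
        conv_rhs => rw [← Nat.prod_factorization_pow_eq_self hn]
        rw [Finsupp.prod, Nat.support_factorization]

/-- **LOC-4**, unconditional. -/
theorem cardH2 : CardH2 q := cardH2_of_upper q (upperH2 q)

theorem card_H2 (K : Type) [Field K] [Algebra ℚ_[q] K] [FiniteDimensional ℚ_[q] K]
    (L : Type) [Field L] [Algebra K L] [FiniteDimensional K L] [IsGalois K L] :
    Nat.card (groupCohomology.H2 (Rep.ofAlgebraAutOnUnits K L)) = Module.finrank K L :=
  (cardH2 q K L).1

theorem exists_generator_H2 (K : Type) [Field K] [Algebra ℚ_[q] K] [FiniteDimensional ℚ_[q] K]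
    (L : Type) [Field L] [Algebra K L] [FiniteDimensional K L] [IsGalois K L] :
    ∃ u : groupCohomology.H2 (Rep.ofAlgebraAutOnUnits K L),
      ∀ x : groupCohomology.H2 (Rep.ofAlgebraAutOnUnits K L), ∃ k : ℤ, x = k • u :=
  (cardH2 q K L).2

/-- **LOC-5**, unconditional: the local invariant maps exist. -/
theorem nonempty_locInv : Nonempty LocInv :=
  nonempty_locInv_of_upper fun q _ => upperH2 q

end Fermat.Agent.S55.helper8
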