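import Mathlib

/-!
# S55-FG5 : Nakayama–Tate vanishing criterion in degree 3

If `H¹(U, A) = H²(U, A) = 0` for all subgroups `U` of the finite group `G`, then
`H³(G, A) = 0`.

The proof is by reduction to Sylow subgroups and induction on the order of a `p`-group, using

* (FG1.d) Sylow reduction of vanishing,
* (FG2.d) exactness of inflation–restriction in degree 3,
* (FG4.a) periodicity for finite cyclic groups,

which enter `isZero_H3_of_forall_subgroup_of` as explicit hypotheses (in exactly the shapes of
the FG interface), so that this file depends on Mathlib only.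
-/

set_option autoImplicit false

universe u

open CategoryTheory CategoryTheory.Limits groupCohomology Rep

namespace Fermat.Agent.S55.helper90

variable {k : Type u} [CommRing k]

/-! ### The three inputs -/

/-- FG1.d: Sylow reduction of vanishing (shape of the FG interface). -/
def SylowReduction (k : Type u) [CommRing k] : Prop :=
  ∀ (G : Type u) [Group G] [Finite G] (A : Rep k G) (n : ℕ), 0 < n →
    (∀ (p : ℕ) [Fact p.Prime] (P : Sylow p G),
      IsZero (groupCohomology (res (P : Subgroup G).subtype A) n)) →
    IsZero (groupCohomology A n)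

/-- FG2.d: exactness of inflation–restriction in degree 3 (shape of the FG interface). -/
def InfResThreeExact (k : Type u) [CommRing k] : Prop :=
  ∀ (G : Type u) [Group G] (S : Subgroup G) [S.Normal] (A : Rep k G),
    IsZero (groupCohomology (res S.subtype A) 1) →
    IsZero (groupCohomology (res S.subtype A) 2) →
    Function.Exact
      (groupCohomology.map (QuotientGroup.mk' S) (ofHom <| A.ρ.quotientToInvariants_lift S) 3 :
        groupCohomology (A.quotientToInvariants S) 3 ⟶ groupCohomology A 3)
      (groupCohomology.map S.subtype (𝟙 _) 3 :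
        groupCohomology A 3 ⟶ groupCohomology (res S.subtype A) 3)

/-- FG4.a: periodicity for finite cyclic groups (shape of the FG interface). -/
def CyclicPeriodicity (k : Type u) [CommRing k] : Prop :=
  ∀ (G : Type u) [CommGroup G] [Fintype G] (A : Rep k G) (g : G),
    (∀ x, x ∈ Subgroup.zpowers g) → ∀ n : ℕ, 0 < n →
    Nonempty (groupCohomology A (n + 2) ≅ groupCohomology A n)

/-! ### Vanishing along injective homomorphisms -/

/-- `H¹` and `H²` vanish after restriction along every injective homomorphism. -/
def Good {G : Type u} [Group G] (A : Rep k G) : Prop :=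
  ∀ (U : Type u) [Group U] (φ : U →* G), Function.Injective φ →
    IsZero (groupCohomology (res φ A) 1) ∧ IsZero (groupCohomology (res φ A) 2)

lemma Good.res {G H : Type u} [Group G] [Group H] {A : Rep k G} (hA : Good A) (ψ : H →* G)
    (hψ : Function.Injective ψ) : Good (res ψ A) := by
  intro U _ φ hφ
  exact hA U (ψ.comp φ) (hψ.comp hφ)

lemma Good.self {G : Type u} [Group G] {A : Rep k G} (hA : Good A) :
    IsZero (groupCohomology A 1) ∧ IsZero (groupCohomology A 2) :=
  hA G (MonoidHom.id G) Function.injective_id

/-- Cohomology along an injective homomorphism is the cohomology of the range. -/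
noncomputable def isoRange {G U : Type u} [Group G] [Group U] (φ : U →* G)
    (hφ : Function.Injective φ) (A : Rep k G) (n : ℕ) :
    groupCohomology (res φ A) n ≅ groupCohomology (res φ.range.subtype A) n :=
  groupCohomology.mapIso (MonoidHom.ofInjective hφ) (LinearEquiv.refl k A.V)
    (fun g => by
      ext x
      rfl) n

lemma good_of_forall_subgroup {G : Type u} [Group G] (A : Rep k G)
    (h1 : ∀ U : Subgroup G, IsZero (groupCohomology (res U.subtype A) 1))
    (h2 : ∀ U : Subgroup G, IsZero (groupCohomology (res U.subtype A) 2)) : Good A := by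
  intro U _ φ hφ
  exact ⟨(h1 φ.range).of_iso (isoRange φ hφ A 1), (h2 φ.range).of_iso (isoRange φ hφ A 2)⟩

/-! ### The cyclic quotient step -/

/-- If `S` is normal in `G` with `G ⧸ S` cyclic and finite, `A` is good and `H³(S, A) = 0`, then
`H³(G, A) = 0`. -/
lemma isZero_H3_of_cyclic_quotient (hIR : InfResThreeExact k) (hP : CyclicPeriodicity k)
    {G : Type u} [Group G] (S : Subgroup G) [S.Normal] [Finite (G ⧸ S)] [IsCyclic (G ⧸ S)]
    (A : Rep k G) (hA : Good A)
    (h3 : IsZero (groupCohomology (res S.subtype A) 3)) : IsZero (groupCohomology A 3) := by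
  obtain ⟨hS1, hS2⟩ := hA S S.subtype S.subtype_injective
  have hex := hIR G S A hS1 hS2
  -- `H¹(G ⧸ S, A^S) = 0`
  have hq1 : IsZero (groupCohomology (A.quotientToInvariants S) 1) := by
    have hmono : Mono (H1InfRes A S).f := inferInstance
    have hinj := (ModuleCat.mono_iff_injective _).mp hmono
    rw [ModuleCat.isZero_iff_subsingleton]
    have hsub : Subsingleton ↑(H1InfRes A S).X₂ :=
      ModuleCat.isZero_iff_subsingleton.mp hA.self.1
    exact hinj.subsingleton
  -- periodicity on the cyclic quotient
  have hq3 : IsZero (groupCohomology (A.quotientToInvariants S) 3) := by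
    let _ : CommGroup (G ⧸ S) := IsCyclic.commGroup
    let _ : Fintype (G ⧸ S) := Fintype.ofFinite _
    obtain ⟨g, hg⟩ := IsCyclic.exists_generator (α := G ⧸ S)
    obtain ⟨e⟩ := hP (G ⧸ S) (A.quotientToInvariants S) g hg 1 one_pos
    exact hq1.of_iso e
  -- conclude by exactness
  rw [ModuleCat.isZero_iff_subsingleton] at h3 hq3 ⊢
  refine ⟨fun x y => ?_⟩
  have hx : ∀ z : groupCohomology A 3, z = 0 := by
    intro z
    have hz : (groupCohomology.map S.subtype (𝟙 _) 3 :
        groupCohomology A 3 ⟶ groupCohomology (res S.subtype A) 3) z = 0 :=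
      Subsingleton.elim _ _
    obtain ⟨w, hw⟩ := (hex z).mp hz
    rw [← hw, Subsingleton.elim w 0, map_zero]
  rw [hx x, hx y]

/-! ### `p`-groups -/

lemma isZero_H3_pGroup (hIR : InfResThreeExact k) (hP : CyclicPeriodicity k) (p : ℕ)
    [Fact p.Prime] :
    ∀ (n : ℕ) (G : Type u) [Group G] [Finite G], IsPGroup p G → Nat.card G = n →
      ∀ A : Rep k G, Good A → IsZero (groupCohomology A 3) := by
  intro n
  induction n using Nat.strong_induction_on with
  | _ n ih =>
    intro G _ _ hG hcard A hA
    obtain ⟨m, hm⟩ := IsPGroup.iff_card.mp hG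
    rcases Nat.eq_zero_or_pos m with rfl | hmpos
    · -- trivial group
      rw [pow_zero] at hm
      have : Subsingleton G := (Nat.card_eq_one_iff_unique.mp hm).1
      exact isZero_groupCohomology_succ_of_subsingleton A 2
    · -- a normal subgroup of index `p`
      have hp : p.Prime := Fact.out
      obtain ⟨m', rfl⟩ : ∃ m', m = m' + 1 := ⟨m - 1, by omega⟩
      have hdvd : p ^ m' ∣ Nat.card G := by rw [hm]; exact pow_dvd_pow p (Nat.le_succ m')
      obtain ⟨S, hS⟩ := Sylow.exists_subgroup_card_pow_prime p hdvd
      have hidx : S.index = p := by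
        have h1 := S.card_mul_index
        rw [hS, hm, pow_succ] at h1
        exact Nat.eq_of_mul_eq_mul_left (pow_pos hp.pos m') h1
      have : S.Normal := by
        apply Subgroup.normal_of_index_eq_minFac_card
        rw [hidx, hm, hp.pow_minFac (Nat.succ_ne_zero m')]
      have : Finite (G ⧸ S) := inferInstance
      have : IsCyclic (G ⧸ S) := by
        apply isCyclic_of_prime_card (p := p)
        rw [← Subgroup.index_eq_card]
        exact hidx
      have hlt : Nat.card S < n := by
        rw [← hcard, hS, hm]
        exact Nat.pow_lt_pow_right hp.one_lt (Nat.lt_succ_self m')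
      have h3 : IsZero (groupCohomology (res S.subtype A) 3) :=
        ih (Nat.card S) hlt S (hG.to_subgroup S) rfl (res S.subtype A)
          (hA.res S.subtype S.subtype_injective)
      exact isZero_H3_of_cyclic_quotient hIR hP S A hA h3

/-! ### The criterion -/

/-- **Nakayama–Tate criterion in degree 3**, for modules which are good. -/
theorem isZero_H3_of_good (hSyl : SylowReduction k) (hIR : InfResThreeExact k)
    (hP : CyclicPeriodicity k) {G : Type u} [Group G] [Finite G] (A : Rep k G) (hA : Good A) :
    IsZero (groupCohomology A 3) := by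
  refine hSyl G A 3 (by norm_num) ?_
  intro p _ P
  exact isZero_H3_pGroup hIR hP p (Nat.card (P : Subgroup G)) (P : Subgroup G) P.isPGroup' rfl
    (res (P : Subgroup G).subtype A) (hA.res _ (P : Subgroup G).subtype_injective)

/-- **FG5, conditional form**: if `H¹(U, A) = H²(U, A) = 0` for all subgroups `U` of the finite
group `G`, then `H³(G, A) = 0`, given the inputs FG1.d, FG2.d, FG4.a. -/
theorem isZero_H3_of_forall_subgroup_of (hSyl : SylowReduction k) (hIR : InfResThreeExact k)
    (hP : CyclicPeriodicity k) {G : Type u} [Group G] [Finite G] (A : Rep k G)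
    (h1 : ∀ U : Subgroup G, IsZero (groupCohomology (res U.subtype A) 1))
    (h2 : ∀ U : Subgroup G, IsZero (groupCohomology (res U.subtype A) 2)) :
    IsZero (groupCohomology A 3) :=
  isZero_H3_of_good hSyl hIR hP A (good_of_forall_subgroup A h1 h2)

end Fermat.Agent.S55.helper90
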