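import Fermat.Agent.S55.helper46_FG1
import Fermat.Agent.S55.helper42_FG4
import Fermat.Agent.S55.helper90_FG5

/-!
# S55-FG5, part b : discharging two of the three inputs of the Nakayama–Tate criterion

`helper90_FG5` proves `H³(G, A) = 0` from `H¹(U, A) = H²(U, A) = 0` for all subgroups `U`,
conditionally on the three FG inputs.  Here FG1.d (Sylow reduction, `helper46_FG1`) and FG4.a
(cyclic periodicity, `helper42_FG4`) are plugged in; the only remaining hypothesis is FG2.d
(exactness of inflation–restriction in degree 3).
-/

set_option autoImplicit false

universe u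

open CategoryTheory CategoryTheory.Limits groupCohomology Rep

namespace Fermat.Agent.S55.helper90

variable {k : Type u} [CommRing k]

/-- FG1.d holds (helper46). -/
theorem sylowReduction (k : Type u) [CommRing k] : SylowReduction k :=
  fun _ _ _ A n hn h => helper46.isZero_of_forall_sylow A n hn h

/-- FG4.a holds (helper42). -/
theorem cyclicPeriodicity (k : Type u) [CommRing k] : CyclicPeriodicity k :=
  fun _ _ _ A g hg n hn => helper42.nonempty_iso_add_two A g hg n hn

/-- Nakayama–Tate in degree 3, conditional only on inflation–restriction exactness (FG2.d). -/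
theorem isZero_H3_of_forall_subgroup_of_infRes (hIR : InfResThreeExact k)
    {G : Type u} [Group G] [Finite G] (A : Rep k G)
    (h1 : ∀ U : Subgroup G, IsZero (groupCohomology (res U.subtype A) 1))
    (h2 : ∀ U : Subgroup G, IsZero (groupCohomology (res U.subtype A) 2)) :
    IsZero (groupCohomology A 3) :=
  isZero_H3_of_forall_subgroup_of (sylowReduction k) hIR (cyclicPeriodicity k) A h1 h2

/-- The `p`-group case, conditional only on FG2.d. -/
theorem isZero_H3_of_good_of_infRes (hIR : InfResThreeExact k)
    {G : Type u} [Group G] [Finite G] (A : Rep k G) (hA : Good A) :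
    IsZero (groupCohomology A 3) :=
  isZero_H3_of_good (sylowReduction k) hIR (cyclicPeriodicity k) A hA

end Fermat.Agent.S55.helper90
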