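import Fermat.Agent.S55.helper90_Rec3Kummer

/-!
# S55 / REC3 (FUND): averaging over a finite quotient (helper90)

Tools for the abstract `E`-assembly: sums over coset representatives of a level, and the two
averaging lemmas for a module whose cokernel is torsion prime to the index.
-/

set_option autoImplicit false
set_option linter.style.haveILetI false

open groupCohomology

noncomputable section

namespace Fermat.Agent.S55.helper90

section CosetSum

variable {U : Type} [Group U] {M : Type*} [AddCommGroup M] (N : Subgroup U)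

/-- sum of `φ` over a system of representatives of `U ⧸ N` -/
def cosetSum (φ : U → M) : M := ∑ᶠ x : U ⧸ N, φ (Quotient.out x)

variable {N}

lemma out_mul_mem (g : U) (x : U ⧸ N) :
    (g * Quotient.out x)⁻¹ * Quotient.out (g • x) ∈ N := by
  rw [← QuotientGroup.eq]
  have h1 : ((g * Quotient.out x : U) : U ⧸ N) = g • x := by
    conv_rhs => rw [← Quotient.out_eq' x]
    rfl
  rw [h1]
  exact (Quotient.out_eq' (g • x)).symm

/-- translation invariance of the sum over representatives -/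
lemma cosetSum_translate (φ : U → M) (hφ : ∀ g, ∀ s ∈ N, φ (g * s) = φ g) (g : U) :
    cosetSum N (fun h => φ (g * h)) = cosetSum N φ := by
  unfold cosetSum
  have key : ∀ x : U ⧸ N, φ (g * Quotient.out x) = φ (Quotient.out (g • x)) := by
    intro x
    have := hφ (g * Quotient.out x) _ (out_mul_mem (N := N) g x)
    rw [mul_inv_cancel_left] at this
    exact this.symm
  simp only [key]
  exact finsum_comp_equiv (MulAction.toPerm g : Equiv.Perm (U ⧸ N))
    (f := fun x => φ (Quotient.out x))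

lemma cosetSum_add (φ ψ : U → M) [Finite (U ⧸ N)] :
    cosetSum N (fun h => φ h + ψ h) = cosetSum N φ + cosetSum N ψ := by
  unfold cosetSum
  exact finsum_add_distrib (Set.toFinite _) (Set.toFinite _)

lemma cosetSum_sub (φ ψ : U → M) [Finite (U ⧸ N)] :
    cosetSum N (fun h => φ h - ψ h) = cosetSum N φ - cosetSum N ψ := by
  unfold cosetSum
  exact finsum_sub_distrib (Set.toFinite _) (Set.toFinite _)

lemma cosetSum_const (c : M) [Finite (U ⧸ N)] :
    cosetSum N (fun _ => c) = Nat.card (U ⧸ N) • c := by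
  unfold cosetSum
  haveI := Fintype.ofFinite (U ⧸ N)
  rw [finsum_eq_sum_of_fintype, Finset.sum_const, Finset.card_univ, Nat.card_eq_fintype_card]

lemma cosetSum_map {M' : Type*} [AddCommGroup M'] (f : M →+ M') (φ : U → M) [Finite (U ⧸ N)] :
    f (cosetSum N φ) = cosetSum N (fun h => f (φ h)) := by
  unfold cosetSum
  haveI := Fintype.ofFinite (U ⧸ N)
  rw [finsum_eq_sum_of_fintype, finsum_eq_sum_of_fintype, map_sum]

lemma cosetSum_mem {S : AddSubgroup M} (φ : U → M) (h : ∀ g, φ g ∈ S) [Finite (U ⧸ N)] :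
    cosetSum N φ ∈ S := by
  unfold cosetSum
  haveI := Fintype.ofFinite (U ⧸ N)
  rw [finsum_eq_sum_of_fintype]
  exact S.sum_mem fun x _ => h _

end CosetSum

/-! ## `p`-levels and averaging -/

section Averaging

variable {k U : Type} [CommRing k] [Group U] (𝒩 : Levels U) (p : ℕ) [Fact p.Prime]

/-- all levels have `p`-power index -/
def PLevels : Prop := ∀ N ∈ 𝒩.mem, ∃ a : ℕ, Nat.card (U ⧸ N) = p ^ a

variable {𝒩 p}

lemma PLevels.finLevels (hP : PLevels 𝒩 p) : FinLevels 𝒩 := by
  intro N hN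
  obtain ⟨a, ha⟩ := hP N hN
  apply Nat.finite_of_card_ne_zero
  rw [ha]
  exact pow_ne_zero _ (Fact.out : p.Prime).ne_zero

variable (C : Rep.{0} k U)

/-- finitely many elements have a common multiplier prime to `p` into `D` -/
lemma exists_common_mult (D : AddSubgroup C) (ha : ∀ c : C, ∃ m : ℕ, ¬ p ∣ m ∧ m • c ∈ D)
    (s : Set C) (hs : s.Finite) : ∃ m : ℕ, ¬ p ∣ m ∧ ∀ c ∈ s, m • c ∈ D := by
  induction s, hs using Set.Finite.induction_on with
  | empty => exact ⟨1, (Fact.out : p.Prime).one_lt.ne' ∘ Nat.dvd_one.1, fun c hc => absurd hc (Set.notMem_empty c)⟩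
  | @insert a s _ _ ih =>
    obtain ⟨m₁, hm₁, h₁⟩ := ih
    obtain ⟨m₂, hm₂, h₂⟩ := ha a
    refine ⟨m₁ * m₂, fun h => ?_, fun c hc => ?_⟩
    · rcases (Fact.out : p.Prime).dvd_mul.1 h with h | h
      · exact hm₁ h
      · exact hm₂ h
    · rcases Set.mem_insert_iff.1 hc with rfl | hc
      · rw [mul_smul]
        exact D.nsmul_mem h₂ m₁
      · rw [mul_comm, mul_smul]
        exact D.nsmul_mem (h₁ c hc) m₂

/-- Bezout for a number prime to `p` and a power of `p` -/
lemma exists_bezout {m : ℕ} (hm : ¬ p ∣ m) (a : ℕ) :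
    ∃ u l : ℤ, u * (p ^ a : ℕ) + l * m = 1 := by
  have hcop : Nat.Coprime (p ^ a) m :=
    Nat.Coprime.pow_left a ((Nat.Prime.coprime_iff_not_dvd (Fact.out : p.Prime)).2 hm)
  have := Nat.isCoprime_iff_coprime.2 hcop
  obtain ⟨u, l, h⟩ := this
  exact ⟨u, l, h⟩

variable {C}

/-- **Averaging, degree 1**: if `C / D` is torsion prime to `p` and `t` is a level 1-cochain
of `C` which is a cocycle modulo `D`, then `t` is a coboundary modulo `D`. -/
lemma exists_d₀₁_sub_mem (hP : PLevels 𝒩 p) (hdC : IsDisc 𝒩 C) (D : AddSubgroup C)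
    (ha : ∀ c : C, ∃ m : ℕ, ¬ p ∣ m ∧ m • c ∈ D)
    (t : U → C) (ht : t ∈ C1 𝒩 C) (hdt : ∀ x, (d₁₂ C).hom t x ∈ D) :
    ∃ c₀ : C, ∀ g, t g - (d₀₁ C).hom c₀ g ∈ D := by
  obtain ⟨N, hN, hc, -⟩ := exists_level₁ hP.finLevels hdC ht
  obtain ⟨a, hcard⟩ := hP N hN
  have hfinN : Finite (U ⧸ N) := hP.finLevels N hN
  obtain ⟨m, hm, hmD⟩ := exists_common_mult (p := p) C D ha (Set.range t)
    (IsLev₁.finite_range hP.finLevels ht)
  obtain ⟨u, l, hul⟩ := exists_bezout (p := p) hm a
  set S : C := cosetSum N t with hS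
  refine ⟨-(u • S), fun g => ?_⟩
  -- the defect of the cocycle relation
  set δ : U → C := fun h => (d₁₂ C).hom t (g, h) with hδ
  have hδD : ∀ h, δ h ∈ D := fun h => hdt (g, h)
  have hρ : ∀ h, C.ρ g (t h) = δ h + t (g * h) - t g := by
    intro h
    simp only [hδ, d₁₂_hom_apply]
    abel
  have h1 : C.ρ g S = cosetSum N δ + S - Nat.card (U ⧸ N) • t g := by
    have e1 : C.ρ g S = cosetSum N (fun h => C.ρ g (t h)) :=
      cosetSum_map (N := N) ((C.ρ g : C.V →ₗ[k] C.V).toAddMonoidHom) t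
    rw [e1]
    simp only [hρ]
    rw [cosetSum_sub, cosetSum_add, cosetSum_const, cosetSum_translate t hc g]
  have hΔ : cosetSum N δ ∈ D := cosetSum_mem δ hδD
  have h2 : (d₀₁ C).hom (-(u • S)) g = -(u • cosetSum N δ) + (u * (p ^ a : ℕ)) • t g := by
    rw [d₀₁_hom_apply, map_neg, map_zsmul, h1, hcard]
    rw [mul_smul, natCast_zsmul]
    simp only [smul_sub, smul_add]
    abel
  have h3 : (u * (p ^ a : ℕ)) • t g = t g - l • (m • t g) := by
    have : u * (p ^ a : ℕ) = 1 - l * m := by linarith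
    rw [this, sub_smul, one_smul, mul_smul, natCast_zsmul]
  rw [h2, h3]
  have e : t g - (-(u • cosetSum N δ) + (t g - l • m • t g)) =
      u • cosetSum N δ + l • (m • t g) := by abel
  rw [e]
  exact D.add_mem (D.zsmul_mem hΔ u) (D.zsmul_mem (hmD _ ⟨g, rfl⟩) l)

/-- **Averaging, degree 0**: if `C / D` is torsion prime to `p`, every element of `C` which is
invariant modulo `D` is congruent modulo `D` to an invariant element. -/
lemma exists_invariant_sub_mem (hP : PLevels 𝒩 p) (hdC : IsDisc 𝒩 C) (D : AddSubgroup C)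
    (ha : ∀ c : C, ∃ m : ℕ, ¬ p ∣ m ∧ m • c ∈ D)
    (q : C) (hq : ∀ g, C.ρ g q - q ∈ D) :
    ∃ c₁ : C, (∀ g, C.ρ g c₁ = c₁) ∧ q - c₁ ∈ D := by
  obtain ⟨N, hN, hfix⟩ := hdC q
  obtain ⟨a, hcard⟩ := hP N hN
  have hfinN : Finite (U ⧸ N) := hP.finLevels N hN
  obtain ⟨m, hm, hmD⟩ := ha q
  obtain ⟨u, l, hul⟩ := exists_bezout (p := p) hm a
  set φ : U → C := fun h => C.ρ h q with hφ
  have hφN : ∀ g, ∀ s ∈ N, φ (g * s) = φ g := by
    intro g s hs
    simp only [hφ, map_mul, Module.End.mul_apply, hfix s hs]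
  set S : C := cosetSum N φ with hS
  refine ⟨u • S, fun g => ?_, ?_⟩
  · rw [map_zsmul]
    congr 1
    have e1 : C.ρ g S = cosetSum N (fun h => C.ρ g (φ h)) :=
      cosetSum_map (N := N) ((C.ρ g : C.V →ₗ[k] C.V).toAddMonoidHom) φ
    rw [e1]
    have e2 : (fun h => C.ρ g (φ h)) = fun h => φ (g * h) := by
      funext h
      simp only [hφ, map_mul, Module.End.mul_apply]
    rw [e2]
    exact cosetSum_translate φ hφN g
  · have e1 : S = cosetSum N (fun h => C.ρ h q - q) + Nat.card (U ⧸ N) • q := by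
      rw [← cosetSum_const (N := N) q, ← cosetSum_add]
      simp only [hφ, sub_add_cancel, hS]
    have hΔ : cosetSum N (fun h => C.ρ h q - q) ∈ D := cosetSum_mem _ hq
    have h3 : (u * (p ^ a : ℕ)) • q = q - l • (m • q) := by
      have : u * (p ^ a : ℕ) = 1 - l * m := by linarith
      rw [this, sub_smul, one_smul, mul_smul, natCast_zsmul]
    have e : q - u • S = -(u • cosetSum N (fun h => C.ρ h q - q)) + l • (m • q) := by
      rw [e1, hcard, smul_add, ← natCast_zsmul q (p ^ a), ← mul_smul, h3]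
      abel
    rw [e]
    exact D.add_mem (D.neg_mem (D.zsmul_mem hΔ u)) (D.zsmul_mem hmD l)

end Averaging

end Fermat.Agent.S55.helper90
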