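import Fermat.Agent.S55.helper90_Rec3ESeq
import Fermat.Agent.S55.helper73_GlobDefs2
import Fermat.Agent.S55.helper69_BArLev

/-!
# S55 / REC3 (FUND): the arithmetic instance, definitions (helper90)

`F ⊆ ℚbar` finite, unramified outside `S`; `U = Gal(ℚbar/F)`.

* `IsPLevel p S F E` : `E/F` is a finite Galois `p`-extension inside `ℚbar`, unramified outside
  `S`;  `pLevels p S F hF : Levels (UF F)` the corresponding level structure (`PLevels`).
* big modules, all realised INSIDE `Idele ℚbar` (helper73's finite ideles of the field `ℚbar`)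
  with the action of `U ≤ Gal(ℚbar/ℚ)`:
  - `smoothIdele` : ideles fixed by `Gal(ℚbar/E)` for some `p`-level `E`
    (`= ⋃_E Idele E`, the ideles of the maximal pro-`p` extension of `F` unramified outside `S`);
  - `bigJ` : smooth `S`-ideles (integral units at all `q ∉ S`);
  - `bigP` : smooth principal ideles,  `bigE = bigJ ⊓ bigP` : the `S`-units;
  - `bigC = smoothIdele ⧸ bigP` : the idele classes.
* `fundSeq : ESeq (repE ..) (repJ ..) (repC ..)` : the left exact sequence `0 → E → J → C`.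
-/

set_option autoImplicit false
set_option linter.style.haveILetI false

open groupCohomology

noncomputable section

namespace Fermat.Agent.S55.helper90

open Fermat.Agent.S55.helper59 Fermat.Agent.S55.helper73

local notation "Qbar" => AlgebraicClosure ℚ

/-! ## `p`-levels -/

section PLevel

variable (p : ℕ) [Fact p.Prime] (S : Finset Nat.Primes) (F : IntermediateField ℚ Qbar)

/-- `E/F` is a finite Galois `p`-extension unramified outside `S`. -/
def IsPLevel (E : IntermediateField ℚ Qbar) : Prop :=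
  E.IsUnramifiedOutside S ∧ F ≤ E ∧
    (E.fixingSubgroup.subgroupOf F.fixingSubgroup).Normal ∧
    ∃ a : ℕ, (E.fixingSubgroup.subgroupOf F.fixingSubgroup).index = p ^ a

variable {p S F}

omit [Fact p.Prime] in
lemma IsPLevel.self (hF : F.IsUnramifiedOutside S) : IsPLevel p S F F := by
  refine ⟨hF, le_rfl, ?_, 0, ?_⟩
  · rw [Subgroup.subgroupOf_self]
    infer_instance
  · rw [Subgroup.subgroupOf_self, Subgroup.index_top, pow_zero]

lemma IsPLevel.sup {E₁ E₂ : IntermediateField ℚ Qbar} (h₁ : IsPLevel p S F E₁)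
    (h₂ : IsPLevel p S F E₂) : IsPLevel p S F (E₁ ⊔ E₂) := by
  obtain ⟨hu₁, hle₁, hn₁, a, ha⟩ := h₁
  obtain ⟨hu₂, hle₂, hn₂, b, hb⟩ := h₂
  have e : (E₁ ⊔ E₂).fixingSubgroup.subgroupOf F.fixingSubgroup =
      E₁.fixingSubgroup.subgroupOf F.fixingSubgroup ⊓
        E₂.fixingSubgroup.subgroupOf F.fixingSubgroup := by
    rw [IntermediateField.fixingSubgroup_sup]
    unfold Subgroup.subgroupOf
    rw [Subgroup.comap_inf]
  refine ⟨hu₁.sup hu₂, le_sup_of_le_left hle₁, ?_, ?_⟩
  · rw [e]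
    infer_instance
  · rw [e]
    have hdvd : (E₁.fixingSubgroup.subgroupOf F.fixingSubgroup ⊓
        E₂.fixingSubgroup.subgroupOf F.fixingSubgroup).index ∣ p ^ (a + b) := by
      rw [pow_add, ← ha, ← hb]
      have h1 := Subgroup.relIndex_mul_index (inf_le_right :
        E₁.fixingSubgroup.subgroupOf F.fixingSubgroup ⊓
          E₂.fixingSubgroup.subgroupOf F.fixingSubgroup ≤
            E₂.fixingSubgroup.subgroupOf F.fixingSubgroup)
      rw [← h1, Subgroup.inf_relIndex_right]
      exact Nat.mul_dvd_mul_right (Subgroup.relIndex_dvd_index_of_normal _ _) _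
    exact (Nat.dvd_prime_pow (Fact.out : p.Prime)).1 hdvd |>.imp fun _ h => h.2

variable (p S F)

/-- The level structure of the `p`-levels below `F`. -/
def pLevels (hF : F.IsUnramifiedOutside S) : Levels (UF F) where
  mem := {N | ∃ E, IsPLevel p S F E ∧ N = E.fixingSubgroup.subgroupOf F.fixingSubgroup}
  normal := by
    rintro N ⟨E, hE, rfl⟩
    exact hE.2.2.1
  nonempty := ⟨_, F, IsPLevel.self hF, rfl⟩
  directed := by
    rintro N₁ ⟨E₁, h₁, rfl⟩ N₂ ⟨E₂, h₂, rfl⟩
    refine ⟨_, ⟨E₁ ⊔ E₂, h₁.sup h₂, rfl⟩, ?_⟩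
    rw [IntermediateField.fixingSubgroup_sup]
    unfold Subgroup.subgroupOf
    rw [Subgroup.comap_inf]

lemma pLevels_pLevels (hF : F.IsUnramifiedOutside S) : PLevels (pLevels p S F hF) p := by
  rintro N ⟨E, hE, rfl⟩
  obtain ⟨a, ha⟩ := hE.2.2.2
  exact ⟨a, by rw [← ha]; rfl⟩

variable {p S F}

omit [Fact p.Prime] in
/-- conjugation by `τ ∈ U` preserves `Gal(ℚbar/E)` for a `p`-level `E` -/
lemma IsPLevel.conj_mem {E : IntermediateField ℚ Qbar} (hE : IsPLevel p S F E)
    {τ σ : Qbar ≃ₐ[ℚ] Qbar} (hτ : τ ∈ F.fixingSubgroup) (hσ : σ ∈ E.fixingSubgroup) :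
    τ⁻¹ * σ * τ ∈ E.fixingSubgroup := by
  have hσU : σ ∈ F.fixingSubgroup := IntermediateField.fixingSubgroup_antitone hE.2.1 hσ
  have hn := hE.2.2.1
  have h1 : (⟨σ, hσU⟩ : F.fixingSubgroup) ∈ E.fixingSubgroup.subgroupOf F.fixingSubgroup :=
    Subgroup.mem_subgroupOf.2 hσ
  have h2 := hn.conj_mem _ h1 (⟨τ, hτ⟩⁻¹ : F.fixingSubgroup)
  have h3 := Subgroup.mem_subgroupOf.1 h2
  simpa using h3

end PLevel

/-! ## Generic: action on a quotient by a stable normal subgroup -/

section QuotAction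

variable {G A : Type*} [Group G] [CommGroup A] [MulDistribMulAction G A]

/-- The action of `G` on the quotient by a `G`-stable subgroup (not an instance). -/
@[reducible]
def quotientAction (P : Subgroup A) (hP : ∀ (σ : G) (x : A), x ∈ P → σ • x ∈ P) :
    MulDistribMulAction G (A ⧸ P) where
  smul σ := QuotientGroup.map P P (MulDistribMulAction.toMonoidHom A σ) fun _ hx => hP σ _ hx
  one_smul x := by
    induction x using QuotientGroup.induction_on with
    | H x => exact congrArg _ (one_smul _ x)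
  mul_smul σ τ x := by
    induction x using QuotientGroup.induction_on with
    | H x => exact congrArg _ (mul_smul σ τ x)
  smul_mul σ x y := map_mul _ x y
  smul_one σ := map_one _

end QuotAction

/-! ## The big modules -/

section Big

variable (p : ℕ) [Fact p.Prime] (S : Finset Nat.Primes) (F : IntermediateField ℚ Qbar)
  (hF : F.IsUnramifiedOutside S)

/-- ideles of `ℚbar` fixed by `Gal(ℚbar/E)` for some `p`-level `E` -/
def smoothIdele : Subgroup (Idele Qbar) where
  carrier := {x | ∃ E, IsPLevel p S F E ∧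
    ∀ σ : Qbar ≃ₐ[ℚ] Qbar, σ ∈ E.fixingSubgroup → σ • x = x}
  one_mem' := ⟨F, IsPLevel.self hF, fun σ _ => smul_one σ⟩
  mul_mem' := by
    rintro x y ⟨E₁, h₁, hx⟩ ⟨E₂, h₂, hy⟩
    refine ⟨E₁ ⊔ E₂, h₁.sup h₂, fun σ hσ => ?_⟩
    rw [smul_mul', hx σ (IntermediateField.fixingSubgroup_antitone le_sup_left hσ),
      hy σ (IntermediateField.fixingSubgroup_antitone le_sup_right hσ)]
  inv_mem' := by
    rintro x ⟨E, hE, hx⟩
    exact ⟨E, hE, fun σ hσ => by rw [smul_inv', hx σ hσ]⟩

/-- ideles of `ℚbar` which are integral units at all `q ∉ S` -/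
def sIdeleSub : Subgroup (Idele Qbar) where
  carrier := {x | ∀ q : Nat.Primes, q ∉ S → (x : IdelePi Qbar) q ∈ intUnits (q : ℕ) Qbar}
  one_mem' := fun _ _ => one_mem _
  mul_mem' := fun hx hy q hq => mul_mem (hx q hq) (hy q hq)
  inv_mem' := fun hx q hq => inv_mem (hx q hq)

/-- smooth `S`-ideles -/
def bigJ : Subgroup (Idele Qbar) := smoothIdele p S F hF ⊓ sIdeleSub S

/-- smooth principal ideles -/
def bigP : Subgroup (Idele Qbar) := smoothIdele p S F hF ⊓ principalSub Qbar

/-- the `S`-units (of the maximal pro-`p` extension of `F` unramified outside `S`), as principal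
ideles -/
def bigE : Subgroup (Idele Qbar) := bigJ p S F hF ⊓ principalSub Qbar

variable {p S F hF}

lemma smul_mem_smoothIdele (τ : UF F) {x : Idele Qbar} (hx : x ∈ smoothIdele p S F hF) :
    τ • x ∈ smoothIdele p S F hF := by
  obtain ⟨E, hE, hfix⟩ := hx
  refine ⟨E, hE, fun σ hσ => ?_⟩
  have h1 : (τ : Qbar ≃ₐ[ℚ] Qbar)⁻¹ * σ * τ ∈ E.fixingSubgroup := hE.conj_mem τ.2 hσ
  have h2 := hfix _ h1
  change σ • ((τ : Qbar ≃ₐ[ℚ] Qbar) • x) = (τ : Qbar ≃ₐ[ℚ] Qbar) • x
  calc σ • ((τ : Qbar ≃ₐ[ℚ] Qbar) • x)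
      = (τ : Qbar ≃ₐ[ℚ] Qbar) • (((τ : Qbar ≃ₐ[ℚ] Qbar)⁻¹ * σ * τ) • x) := by
        rw [← mul_smul, ← mul_smul]
        congr 1
        group
    _ = (τ : Qbar ≃ₐ[ℚ] Qbar) • x := by rw [h2]

lemma smul_mem_sIdeleSub (τ : UF F) {x : Idele Qbar} (hx : x ∈ sIdeleSub S) :
    τ • x ∈ sIdeleSub S := fun q hq =>
  smul_mem_intUnits (q : ℕ) Qbar ℚ (τ : Qbar ≃ₐ[ℚ] Qbar) (hx q hq)

lemma smul_mem_principalSub' (τ : UF F) {x : Idele Qbar} (hx : x ∈ principalSub Qbar) :
    τ • x ∈ principalSub Qbar :=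
  smul_mem_principalSub Qbar ℚ (τ : Qbar ≃ₐ[ℚ] Qbar) hx

lemma smul_mem_bigJ (τ : UF F) {x : Idele Qbar} (hx : x ∈ bigJ p S F hF) :
    τ • x ∈ bigJ p S F hF :=
  ⟨smul_mem_smoothIdele τ hx.1, smul_mem_sIdeleSub τ hx.2⟩

lemma smul_mem_bigE (τ : UF F) {x : Idele Qbar} (hx : x ∈ bigE p S F hF) :
    τ • x ∈ bigE p S F hF :=
  ⟨smul_mem_bigJ τ hx.1, smul_mem_principalSub' τ hx.2⟩

variable (p S F hF)

/-- `U` acts on the smooth ideles -/
@[reducible] def actSmooth : MulDistribMulAction (UF F) (smoothIdele p S F hF) :=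
  stableAction _ fun τ _ hx => smul_mem_smoothIdele τ hx

/-- `U` acts on the smooth `S`-ideles -/
@[reducible] def actJ : MulDistribMulAction (UF F) (bigJ p S F hF) :=
  stableAction _ fun τ _ hx => smul_mem_bigJ τ hx

/-- `U` acts on the `S`-units -/
@[reducible] def actE : MulDistribMulAction (UF F) (bigE p S F hF) :=
  stableAction _ fun τ _ hx => smul_mem_bigE τ hx

/-- the smooth principal ideles inside the smooth ideles -/
def bigP' : Subgroup (smoothIdele p S F hF) := (principalSub Qbar).subgroupOf _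

/-- the big idele class group -/
abbrev BigC : Type := smoothIdele p S F hF ⧸ bigP' p S F hF

/-- `U` acts on the big idele class group -/
@[reducible] def actC : MulDistribMulAction (UF F) (BigC p S F hF) :=
  letI := actSmooth p S F hF
  quotientAction (bigP' p S F hF) fun τ x hx => by
    have h1 : (x : Idele Qbar) ∈ principalSub Qbar := Subgroup.mem_subgroupOf.1 hx
    exact Subgroup.mem_subgroupOf.2 (smul_mem_principalSub' τ h1)

/-- the `S`-units as a representation of `U` -/
def repE : Rep.{0} ℤ (UF F) :=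
  letI := actE p S F hF
  Rep.ofMulDistribMulAction (UF F) (bigE p S F hF)

/-- the smooth `S`-ideles as a representation of `U` -/
def repJ : Rep.{0} ℤ (UF F) :=
  letI := actJ p S F hF
  Rep.ofMulDistribMulAction (UF F) (bigJ p S F hF)

/-- the big idele class group as a representation of `U` -/
def repC : Rep.{0} ℤ (UF F) :=
  letI := actC p S F hF
  Rep.ofMulDistribMulAction (UF F) (BigC p S F hF)

/-! ## The fundamental left exact sequence -/

lemma repE_ρ (τ : UF F) (x : bigE p S F hF) :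
    (repE p S F hF).ρ τ (Additive.ofMul x) =
      Additive.ofMul (⟨τ • (x : Idele Qbar), smul_mem_bigE τ x.2⟩ : bigE p S F hF) := rfl

lemma repJ_ρ (τ : UF F) (x : bigJ p S F hF) :
    (repJ p S F hF).ρ τ (Additive.ofMul x) =
      Additive.ofMul (⟨τ • (x : Idele Qbar), smul_mem_bigJ τ x.2⟩ : bigJ p S F hF) := rfl

/-- the inclusion `E → J` -/
def incEJ : Additive (bigE p S F hF) →+ Additive (bigJ p S F hF) :=
  MonoidHom.toAdditive (Subgroup.inclusion (inf_le_left : bigE p S F hF ≤ bigJ p S F hF))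

/-- the projection `J → C` -/
def projJC : Additive (bigJ p S F hF) →+ Additive (BigC p S F hF) :=
  MonoidHom.toAdditive ((QuotientGroup.mk' (bigP' p S F hF)).comp
    (Subgroup.inclusion (inf_le_left : bigJ p S F hF ≤ smoothIdele p S F hF)))

/-- **The fundamental sequence** `0 → E_S → J_S → C`. -/
def fundSeq : ESeq (repE p S F hF) (repJ p S F hF) (repC p S F hF) where
  i := incEJ p S F hF
  π := projJC p S F hF
  i_eq := fun _ _ => rfl
  π_eq := fun _ _ => rfl
  i_inj := fun x y h => by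
    have h' : Subgroup.inclusion (inf_le_left : bigE p S F hF ≤ bigJ p S F hF)
        (Additive.toMul x) = Subgroup.inclusion inf_le_left (Additive.toMul y) := h
    exact Subgroup.inclusion_injective _ h'
  π_i := fun e => by
    have he : ((Additive.toMul e : bigE p S F hF) : Idele Qbar) ∈ principalSub Qbar :=
      (Additive.toMul e).2.2
    change Additive.ofMul ((QuotientGroup.mk' (bigP' p S F hF)) _) = 0
    rw [← ofMul_one]
    congr 1
    exact (QuotientGroup.eq_one_iff _).2 (Subgroup.mem_subgroupOf.2 he)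
  exact := fun j hj => by
    have h1 : (QuotientGroup.mk' (bigP' p S F hF))
        (Subgroup.inclusion (inf_le_left : bigJ p S F hF ≤ smoothIdele p S F hF)
          (Additive.toMul j)) = 1 := hj
    have h2 := Subgroup.mem_subgroupOf.1 ((QuotientGroup.eq_one_iff _).1 h1)
    exact ⟨Additive.ofMul ⟨(Additive.toMul j).1, (Additive.toMul j).2, h2⟩, rfl⟩

/-- `E_S` is discrete -/
theorem isDisc_repE : IsDisc (pLevels p S F hF) (repE p S F hF) := by
  intro a
  obtain ⟨E, hE, hfix⟩ := (Additive.toMul a).2.1.1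
  refine ⟨_, ⟨E, hE, rfl⟩, fun s hs => ?_⟩
  have := hfix (s : Qbar ≃ₐ[ℚ] Qbar) (Subgroup.mem_subgroupOf.1 hs)
  exact congrArg Additive.ofMul (Subtype.ext this)

/-- `J_S` is discrete -/
theorem isDisc_repJ : IsDisc (pLevels p S F hF) (repJ p S F hF) := by
  intro a
  obtain ⟨E, hE, hfix⟩ := (Additive.toMul a).2.1
  refine ⟨_, ⟨E, hE, rfl⟩, fun s hs => ?_⟩
  have := hfix (s : Qbar ≃ₐ[ℚ] Qbar) (Subgroup.mem_subgroupOf.1 hs)
  exact congrArg Additive.ofMul (Subtype.ext this)

/-- `C` is discrete -/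
theorem isDisc_repC : IsDisc (pLevels p S F hF) (repC p S F hF) := by
  intro a
  obtain ⟨x, hx⟩ := QuotientGroup.mk_surjective (Additive.toMul a)
  obtain ⟨E, hE, hfix⟩ := x.2
  refine ⟨_, ⟨E, hE, rfl⟩, fun s hs => ?_⟩
  have := hfix (s : Qbar ≃ₐ[ℚ] Qbar) (Subgroup.mem_subgroupOf.1 hs)
  have hx' : a = Additive.ofMul (QuotientGroup.mk x) := by rw [hx]; rfl
  rw [hx']
  change Additive.ofMul (QuotientGroup.mk _) = _
  congr 2
  exact Subtype.ext this

end Big

end Fermat.Agent.S55.helper90
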