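import Fermat.Agent.S55.helper90_Rec3Avg

/-!
# S55 / REC3 (FUND): abstract `E`-assembly (helper90)

Abstract setting: a group `U` with a level structure `𝒩` all of whose levels have `p`-power
index, and big discrete `U`-modules `E → J → C` with `0 → E → J → C` exact and `C / im J`
torsion prime to `p` (in the application: `S`-units, `S`-ideles and `S`-idele classes of the
maximal pro-`p` extension unramified outside `S`; the cokernel is the direct limit of the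
`S`-class groups, whose `p`-part vanishes by capitulation).

From the class formation facts `H³(J) = 0`, `H¹(C) = 0`, `H²(J) → H²(C)` onto with
`p`-divisible kernel we deduce the fundamental facts on the cohomology of `E`:
`H³(E) = 0`, `H²(E)` is `p`-divisible, existence of classes and the Hasse principle.
-/

set_option autoImplicit false
set_option linter.style.haveILetI false

open groupCohomology

noncomputable section

namespace Fermat.Agent.S55.helper90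

/-! ## Equivariant additive maps and cochains -/

section EqAdd

variable {k₁ k₂ U : Type} [CommRing k₁] [CommRing k₂] [Group U]
  {A : Rep.{0} k₁ U} {B : Rep.{0} k₂ U}

/-- an additive map between (the underlying groups of) two representations is equivariant -/
def IsEquivariant (f : A →+ B) : Prop := ∀ (g : U) (a : A), f (A.ρ g a) = B.ρ g (f a)

variable {f : A →+ B} (hf : IsEquivariant f)
include hf

lemma d₀₁_map (a : A) :
    (d₀₁ B).hom (f a) = fun x => f ((d₀₁ A).hom a x) := by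
  funext x
  simp only [d₀₁_hom_apply, map_sub, hf x a]

lemma d₁₂_map (m : U → A) :
    (d₁₂ B).hom (fun x => f (m x)) = fun x => f ((d₁₂ A).hom m x) := by
  funext x
  simp only [d₁₂_hom_apply, map_sub, map_add, hf x.1 (m x.2)]

lemma d₂₃_map (m : U × U → A) :
    (d₂₃ B).hom (fun x => f (m x)) = fun x => f ((d₂₃ A).hom m x) := by
  funext x
  simp only [d₂₃_hom_apply, map_sub, map_add, hf x.1 (m (x.2.1, x.2.2))]

lemma d₃₄_map (m : U × U × U → A) :
    d₃₄ B (fun x => f (m x)) = fun x => f (d₃₄ A m x) := by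
  funext ⟨g₁, g₂, g₃, g₄⟩
  simp only [d₃₄_apply, map_sub, map_add, hf g₁ (m (g₂, g₃, g₄))]

end EqAdd

/-! ## The left exact sequence -/

section ESeq

variable {k U : Type} [CommRing k] [Group U]

/-- An abstract left exact sequence `0 → E → J → C` of `U`-modules. -/
structure ESeq (E J C : Rep.{0} k U) where
  /-- the inclusion `E → J` -/
  i : E →+ J
  /-- the projection `J → C` -/
  π : J →+ C
  i_eq : IsEquivariant i
  π_eq : IsEquivariant π
  i_inj : Function.Injective i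
  π_i : ∀ e, π (i e) = 0
  exact : ∀ j, π j = 0 → ∃ e, i e = j

variable {E J C : Rep.{0} k U} (X : ESeq E J C)

namespace ESeq

/-- the image of `π` -/
def D : AddSubgroup C := X.π.range

open Classical in
/-- a set-theoretic section of `π` on its image -/
def lift (c : C) : J := if h : c ∈ X.D then Classical.choose h else 0

lemma π_lift {c : C} (h : c ∈ X.D) : X.π (X.lift c) = c := by
  rw [lift, dif_pos h]
  exact Classical.choose_spec h

open Classical in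
/-- a set-theoretic inverse of `i` on the kernel of `π` -/
def unI (j : J) : E := if h : X.π j = 0 then Classical.choose (X.exact j h) else 0

lemma i_unI {j : J} (h : X.π j = 0) : X.i (X.unI j) = j := by
  rw [unI, dif_pos h]
  exact Classical.choose_spec (X.exact j h)

end ESeq

variable (𝒩 : Levels U) (p : ℕ) [Fact p.Prime]

/-- the hypotheses of the abstract `E`-assembly which do not involve cohomology -/
structure ESeq.Good : Prop where
  plevels : PLevels 𝒩 p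
  discJ : IsDisc 𝒩 J
  discC : IsDisc 𝒩 C
  /-- the cokernel of `π` is torsion prime to `p` (capitulation) -/
  coker : ∀ c : C, ∃ m : ℕ, ¬ p ∣ m ∧ m • c ∈ X.D

variable {𝒩 p} {X}

/-- Key step: a level cochain `j` of `J` (degree 2) with `π ∘ j = d t` for a level 1-cochain `t`
of `C` can be corrected by a level coboundary so that it comes from `E`. -/
lemma ESeq.Good.exists_correction (hG : X.Good 𝒩 p)
    (j : U × U → J) (hj : j ∈ C2 𝒩 J) (t : U → C) (ht : t ∈ C1 𝒩 C)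
    (h : (fun x => X.π (j x)) = (d₁₂ C).hom t) :
    ∃ s ∈ C1 𝒩 J, ∃ e ∈ C2 𝒩 E, (fun x => X.i (e x)) = j - (d₁₂ J).hom s := by
  have hfin := hG.plevels.finLevels
  have hdt : ∀ x, (d₁₂ C).hom t x ∈ X.D := fun x => ⟨j x, congrFun h x⟩
  obtain ⟨c₀, hc₀⟩ := exists_d₀₁_sub_mem hG.plevels hG.discC X.D hG.coker t ht hdt
  -- `t₁ = t - d c₀` has values in the image of `π`
  set t₁ : U → C := fun g => t g - (d₀₁ C).hom c₀ g with ht₁
  have hd₀C : (d₀₁ C).hom c₀ ∈ C1 𝒩 C := by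
    obtain ⟨N, hN, hfix⟩ := hG.discC c₀
    refine ⟨N, hN, fun g s hs => ?_⟩
    simp only [d₀₁_hom_apply, map_mul, Module.End.mul_apply, hfix s hs]
  have ht₁C : t₁ ∈ C1 𝒩 C := Submodule.sub_mem _ ht hd₀C
  set s : U → J := fun g => X.lift (t₁ g) with hs
  have hsC : s ∈ C1 𝒩 J := IsLev₁.comp' 𝒩 ht₁C X.lift
  have hπs : (fun g => X.π (s g)) = t₁ := by
    funext g
    exact X.π_lift (hc₀ g)
  -- `π ∘ (j - d s) = 0`
  have hds : (d₁₂ J).hom s ∈ C2 𝒩 J := d₁₂_mem_C2 hfin hG.discJ hsC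
  have hker : ∀ x, X.π ((j - (d₁₂ J).hom s) x) = 0 := by
    intro x
    have e1 : X.π ((d₁₂ J).hom s x) = (d₁₂ C).hom t₁ x := by
      have := congrFun (d₁₂_map X.π_eq s) x
      rw [hπs] at this
      exact this.symm
    have e2 : (d₁₂ C).hom t₁ = (d₁₂ C).hom t := by
      have : t₁ = t - (d₀₁ C).hom c₀ := rfl
      rw [this, map_sub]
      have hdd : (d₁₂ C).hom ((d₀₁ C).hom c₀) = 0 :=
        congrArg (fun φ => φ.hom c₀) (d₀₁_comp_d₁₂ C)
      rw [hdd, sub_zero]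
    rw [Pi.sub_apply, map_sub, e1, e2, ← congrFun h x, sub_self]
  refine ⟨s, hsC, fun x => X.unI ((j - (d₁₂ J).hom s) x), ?_, ?_⟩
  · exact IsLev₂.comp' 𝒩 (Submodule.sub_mem _ hj hds) X.unI
  · funext x
    exact X.i_unI (hker x)

/-- **(FE-3) existence**: a level 2-cocycle of `J` whose image in `C` is a level coboundary is
cohomologous to the image of a level 2-cocycle of `E`. -/
theorem ESeq.Good.exists_of_π_mem_B2 (hG : X.Good 𝒩 p)
    (j : U × U → J) (hj : j ∈ Z2 𝒩 J) (h : (fun x => X.π (j x)) ∈ B2 𝒩 C) :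
    ∃ y ∈ Z2 𝒩 E, j - (fun x => X.i (y x)) ∈ B2 𝒩 J := by
  obtain ⟨t, ht, hdt⟩ := h
  obtain ⟨s, hsC, e, heC, he⟩ := hG.exists_correction j hj.1 t ht hdt.symm
  refine ⟨e, ⟨heC, ?_⟩, s, hsC, ?_⟩
  · change (d₂₃ E).hom e = 0
    funext x
    apply X.i_inj
    have := congrFun (d₂₃_map X.i_eq e) x
    rw [he, map_sub] at this
    have h1 : (d₂₃ J).hom j = 0 := hj.2
    have h2 : (d₂₃ J).hom ((d₁₂ J).hom s) = 0 :=
      congrArg (fun φ => φ.hom s) (d₁₂_comp_d₂₃ J)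
    rw [h1, h2, sub_zero] at this
    exact this.symm.trans (map_zero X.i).symm
  · rw [he]
    abel

/-- **(FE-1)**: `H³(J) = 0` and `H²(J) → H²(C)` onto imply `H³(E) = 0`. -/
theorem ESeq.Good.h3 (hG : X.Good 𝒩 p)
    (hJ3 : Z3 𝒩 J ≤ B3 𝒩 J)
    (honto : ∀ c ∈ Z2 𝒩 C, ∃ j ∈ Z2 𝒩 J, c - (fun x => X.π (j x)) ∈ B2 𝒩 C) :
    Z3 𝒩 E ≤ B3 𝒩 E := by
  intro c hc
  have hicC : (fun x => X.i (c x)) ∈ C3 𝒩 J := IsLev₃.comp' 𝒩 hc.1 X.i
  have hicZ : d₃₄ J (fun x => X.i (c x)) = 0 := by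
    rw [d₃₄_map X.i_eq]
    have h0 : d₃₄ E c = 0 := hc.2
    funext x
    rw [h0]
    exact map_zero _
  obtain ⟨j, hjC, hdj⟩ := hJ3 ⟨hicC, hicZ⟩
  -- `π ∘ j` is a level 2-cocycle of `C`
  have hπjZ : (fun x => X.π (j x)) ∈ Z2 𝒩 C := by
    refine ⟨IsLev₂.comp' 𝒩 hjC X.π, ?_⟩
    change (d₂₃ C).hom _ = 0
    rw [d₂₃_map X.π_eq, hdj]
    funext x
    exact X.π_i (c x)
  obtain ⟨j₁, hj₁, t, ht, hdt⟩ := honto _ hπjZ
  have hj₂C : j - j₁ ∈ C2 𝒩 J := Submodule.sub_mem _ hjC hj₁.1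
  have hπ : (fun x => X.π ((j - j₁) x)) = (d₁₂ C).hom t := by
    rw [hdt]
    funext x
    simp only [Pi.sub_apply, map_sub]
  obtain ⟨s, hsC, e, heC, he⟩ := hG.exists_correction (j - j₁) hj₂C t ht hπ
  refine ⟨e, heC, ?_⟩
  funext x
  apply X.i_inj
  have := congrFun (d₂₃_map X.i_eq e) x
  rw [he, map_sub, map_sub] at this
  have h1 : (d₂₃ J).hom j₁ = 0 := hj₁.2
  have h2 : (d₂₃ J).hom ((d₁₂ J).hom s) = 0 :=
    congrArg (fun φ => φ.hom s) (d₁₂_comp_d₂₃ J)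
  rw [h1, h2, sub_zero, sub_zero, hdj] at this
  exact this.symm

/-- **(FE-4) Hasse principle for `E`**: if `H¹(C) = 0`, a level 2-cocycle of `E` which becomes
a level coboundary in `J` is a level coboundary. -/
theorem ESeq.Good.hasse (hG : X.Good 𝒩 p)
    (hC1 : Z1 𝒩 C ≤ B1 C)
    (y : U × U → E) (h : (fun x => X.i (y x)) ∈ B2 𝒩 J) :
    y ∈ B2 𝒩 E := by
  have hfin := hG.plevels.finLevels
  obtain ⟨s, hsC, hds⟩ := h
  -- `π ∘ s` is a level 1-cocycle of `C`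
  have hπsZ : (fun g => X.π (s g)) ∈ Z1 𝒩 C := by
    refine ⟨IsLev₁.comp' 𝒩 hsC X.π, ?_⟩
    change (d₁₂ C).hom _ = 0
    rw [d₁₂_map X.π_eq, hds]
    funext x
    exact X.π_i (y x)
  obtain ⟨c₀, hc₀⟩ := hC1 hπsZ
  -- `c₀` is invariant modulo the image of `π`
  have hq : ∀ g, C.ρ g c₀ - c₀ ∈ X.D := by
    intro g
    refine ⟨s g, ?_⟩
    have := congrFun hc₀ g
    rw [d₀₁_hom_apply] at this
    exact this.symm
  obtain ⟨c₁, hc₁, j₀, hj₀⟩ := exists_invariant_sub_mem hG.plevels hG.discC X.D hG.coker c₀ hq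
  -- `π ∘ (s - d j₀) = 0`
  have hd₀J : (d₀₁ J).hom j₀ ∈ C1 𝒩 J := by
    obtain ⟨N, hN, hfix⟩ := hG.discJ j₀
    refine ⟨N, hN, fun g s hs => ?_⟩
    simp only [d₀₁_hom_apply, map_mul, Module.End.mul_apply, hfix s hs]
  have hker : ∀ g, X.π ((s - (d₀₁ J).hom j₀) g) = 0 := by
    intro g
    have e1 : X.π (s g) = C.ρ g c₀ - c₀ := by
      have := congrFun hc₀ g
      rw [d₀₁_hom_apply] at this
      exact this.symm
    have e2 : X.π ((d₀₁ J).hom j₀ g) = C.ρ g (c₀ - c₁) - (c₀ - c₁) := by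
      rw [d₀₁_hom_apply, map_sub, X.π_eq g j₀, hj₀]
    rw [Pi.sub_apply, map_sub, e1, e2, map_sub, hc₁ g]
    abel
  set e : U → E := fun g => X.unI ((s - (d₀₁ J).hom j₀) g) with he
  have heC : e ∈ C1 𝒩 E := IsLev₁.comp' 𝒩 (Submodule.sub_mem _ hsC hd₀J) X.unI
  have hie : (fun g => X.i (e g)) = s - (d₀₁ J).hom j₀ := by
    funext g
    exact X.i_unI (hker g)
  refine ⟨e, heC, ?_⟩
  funext x
  apply X.i_inj
  have := congrFun (d₁₂_map X.i_eq e) x
  rw [hie, map_sub] at this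
  have h2 : (d₁₂ J).hom ((d₀₁ J).hom j₀) = 0 :=
    congrArg (fun φ => φ.hom j₀) (d₀₁_comp_d₁₂ J)
  rw [h2, sub_zero, hds] at this
  exact this.symm

/-- **(FE-2)**: `H²(E)` is `p`-divisible if the kernel of `H²(J) → H²(C)` is. -/
theorem ESeq.Good.div2 (hG : X.Good 𝒩 p)
    (hC1 : Z1 𝒩 C ≤ B1 C)
    (hdivJ : ∀ j ∈ Z2 𝒩 J, (fun x => X.π (j x)) ∈ B2 𝒩 C →
      ∃ j' ∈ Z2 𝒩 J, (fun x => X.π (j' x)) ∈ B2 𝒩 C ∧ j - p • j' ∈ B2 𝒩 J)
    (ξ : U × U → E) (hξ : ξ ∈ Z2 𝒩 E) :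
    ∃ η ∈ Z2 𝒩 E, ξ - p • η ∈ B2 𝒩 E := by
  have hiξZ : (fun x => X.i (ξ x)) ∈ Z2 𝒩 J := by
    refine ⟨IsLev₂.comp' 𝒩 hξ.1 X.i, ?_⟩
    change (d₂₃ J).hom _ = 0
    rw [d₂₃_map X.i_eq]
    have h0 : (d₂₃ E).hom ξ = 0 := hξ.2
    funext x
    rw [h0]
    exact map_zero _
  have hπ0 : (fun x => X.π (X.i (ξ x))) ∈ B2 𝒩 C := by
    have : (fun x => X.π (X.i (ξ x))) = 0 := by
      funext x
      exact X.π_i (ξ x)
    rw [this]
    exact Submodule.zero_mem _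
  obtain ⟨j', hj', hπj', hjj'⟩ := hdivJ _ hiξZ hπ0
  obtain ⟨η, hη, hηj'⟩ := hG.exists_of_π_mem_B2 j' hj' hπj'
  refine ⟨η, hη, ?_⟩
  refine hG.hasse hC1 _ ?_
  have e : (fun x => X.i ((ξ - p • η) x)) =
      ((fun x => X.i (ξ x)) - p • j') + p • (j' - fun x => X.i (η x)) := by
    funext x
    simp only [Pi.sub_apply, Pi.add_apply, Pi.smul_apply, map_sub, map_nsmul, smul_sub]
    abel
  rw [e]
  exact Submodule.add_mem _ hjj' ((B2 𝒩 J).nsmul_mem hηj' p)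

/-! ## Combination with the Kummer sequence -/

/-- **FUND, `H³`**: the abstract form of `H³(G_S, ℤ/p) = 0` (field `h3` = (I5) of
`helper59.BaseInput`, on `p`-levels). -/
theorem ESeq.Good.h3_Tp (hG : X.Good 𝒩 p) (K : KummerDatum E p) (hdE : IsDisc 𝒩 E)
    (hJ3 : Z3 𝒩 J ≤ B3 𝒩 J)
    (honto : ∀ c ∈ Z2 𝒩 C, ∃ j ∈ Z2 𝒩 J, c - (fun x => X.π (j x)) ∈ B2 𝒩 C)
    (hC1 : Z1 𝒩 C ≤ B1 C)
    (hdivJ : ∀ j ∈ Z2 𝒩 J, (fun x => X.π (j x)) ∈ B2 𝒩 C →
      ∃ j' ∈ Z2 𝒩 J, (fun x => X.π (j' x)) ∈ B2 𝒩 C ∧ j - p • j' ∈ B2 𝒩 J) :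
    Z3 𝒩 (Tp U p) ≤ B3 𝒩 (Tp U p) :=
  h3_of_kummer 𝒩 K hG.plevels.finLevels hdE (fun _ hc _ => hG.h3 hJ3 honto hc)
    (fun ξ hξ => hG.div2 hC1 hdivJ ξ hξ)

/-- **FUND, existence**: every class of `H²(J)` killed by `p` which dies in `H²(C)` is the image
of a class of `H²(U, ℤ/p)` (abstract form of (I4): the global class with prescribed local
components). -/
theorem ESeq.Good.exists_Tp_of_J (hG : X.Good 𝒩 p) (K : KummerDatum E p) (hdE : IsDisc 𝒩 E)
    (hC1 : Z1 𝒩 C ≤ B1 C)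
    (j : U × U → J) (hj : j ∈ Z2 𝒩 J) (hpj : p • j ∈ B2 𝒩 J)
    (hπj : (fun x => X.π (j x)) ∈ B2 𝒩 C) :
    ∃ z ∈ Z2 𝒩 (Tp U p), (fun x => X.i (K.κ (z x))) - j ∈ B2 𝒩 J := by
  have hfin := hG.plevels.finLevels
  obtain ⟨y, hy, hyj⟩ := hG.exists_of_π_mem_B2 j hj hπj
  -- `p • y` is a coboundary
  have hpy : p • y ∈ B2 𝒩 E := by
    refine hG.hasse hC1 _ ?_
    have e : (fun x => X.i ((p • y) x)) = p • j - p • (j - fun x => X.i (y x)) := by
      funext x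
      simp only [Pi.sub_apply, Pi.smul_apply, map_nsmul, smul_sub]
      abel
    rw [e]
    exact Submodule.sub_mem _ hpj ((B2 𝒩 J).nsmul_mem hyj p)
  obtain ⟨z, hz, s, hsC, hys⟩ := exists_lift_of_torsion K 𝒩 hfin hdE y hy hpy
  refine ⟨z, hz, ?_⟩
  -- `i κ z = i y - d (i s) = j - (j - i y) - d (i s)`
  have hds : (fun x => X.i ((d₁₂ E).hom s x)) ∈ B2 𝒩 J :=
    ⟨fun g => X.i (s g), IsLev₁.comp' 𝒩 hsC X.i, d₁₂_map X.i_eq s⟩
  have e : (fun x => X.i (K.κ (z x))) - j =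
      -(j - fun x => X.i (y x)) - (fun x => X.i ((d₁₂ E).hom s x)) := by
    funext x
    have := congrFun hys x
    simp only [Pi.add_apply] at this
    simp only [Pi.sub_apply, Pi.neg_apply, this, map_add]
    abel
  rw [e]
  exact Submodule.sub_mem _ (Submodule.neg_mem _ hyj) hds

end ESeq

end Fermat.Agent.S55.helper90
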