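import Fermat.Agent.S55.helper90_Rec3Defs

/-!
# S55 / REC3 (FUND): conditional assembly on `p`-levels (helper90)

The package statements of REC3 (as `Prop`s) and the assembly
`H³(G_{F,S}(p), ℤ/p) = 0`, existence of global classes, on the `p`-levels of `F`.
-/

set_option autoImplicit false

open groupCohomology

noncomputable section

namespace Fermat.Agent.S55.helper90

open Fermat.Agent.S55.helper59 Fermat.Agent.S55.helper73

local notation "Qbar" => AlgebraicClosure ℚ

variable (p : ℕ) [Fact p.Prime] (S : Finset Nat.Primes) (F : IntermediateField ℚ Qbar)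
  (hF : F.IsUnramifiedOutside S)

/-- **R3-CAP** (capitulation): the cokernel of `J_S → C` is torsion prime to `p`. -/
def CapStatement : Prop :=
  ∀ c : repC p S F hF, ∃ m : ℕ, ¬ p ∣ m ∧ m • c ∈ (fundSeq p S F hF).D

/-- **R3-J3**: `H³(J_S) = 0` (local Tate + unramified units). -/
def J3Statement : Prop :=
  Z3 (pLevels p S F hF) (repJ p S F hF) ≤ B3 (pLevels p S F hF) (repJ p S F hF)

/-- **R3-C1**: `H¹(C) = 0`. -/
def C1Statement : Prop :=
  Z1 (pLevels p S F hF) (repC p S F hF) ≤ B1 (repC p S F hF)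

/-- **R3-ONTO**: `H²(J_S) → H²(C)` is onto. -/
def OntoStatement : Prop :=
  ∀ c ∈ Z2 (pLevels p S F hF) (repC p S F hF), ∃ j ∈ Z2 (pLevels p S F hF) (repJ p S F hF),
    c - (fun x => (fundSeq p S F hF).π (j x)) ∈ B2 (pLevels p S F hF) (repC p S F hF)

/-- **R3-DIVJ**: the kernel of `H²(J_S) → H²(C)` is `p`-divisible. -/
def DivJStatement : Prop :=
  ∀ j ∈ Z2 (pLevels p S F hF) (repJ p S F hF),
    (fun x => (fundSeq p S F hF).π (j x)) ∈ B2 (pLevels p S F hF) (repC p S F hF) →
    ∃ j' ∈ Z2 (pLevels p S F hF) (repJ p S F hF),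
      (fun x => (fundSeq p S F hF).π (j' x)) ∈ B2 (pLevels p S F hF) (repC p S F hF) ∧
      j - p • j' ∈ B2 (pLevels p S F hF) (repJ p S F hF)

variable {p S F hF}

/-- the non-cohomological hypotheses of the abstract `E`-assembly hold, given capitulation -/
theorem good_of_cap (hcap : CapStatement p S F hF) :
    (fundSeq p S F hF).Good (pLevels p S F hF) p where
  plevels := pLevels_pLevels p S F hF
  discJ := isDisc_repJ p S F hF
  discC := isDisc_repC p S F hF
  coker := hcap

/-- **FUND on `p`-levels, `H³`**: `H³(G_{F,S}(p), ℤ/p) = 0`. -/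
theorem h3_pLevels (K : KummerDatum (repE p S F hF) p) (hcap : CapStatement p S F hF)
    (hJ3 : J3Statement p S F hF) (hC1 : C1Statement p S F hF)
    (honto : OntoStatement p S F hF) (hdiv : DivJStatement p S F hF) :
    Z3 (pLevels p S F hF) (Tp (UF F) p) ≤ B3 (pLevels p S F hF) (Tp (UF F) p) :=
  (good_of_cap hcap).h3_Tp K (isDisc_repE p S F hF) hJ3 honto hC1 hdiv

/-- **FUND on `p`-levels, existence**: a class of `H²(J_S)` killed by `p` which dies in `H²(C)`
is the image of a class of `H²(G_{F,S}(p), ℤ/p)`. -/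
theorem exists_Tp_pLevels (K : KummerDatum (repE p S F hF) p) (hcap : CapStatement p S F hF)
    (hC1 : C1Statement p S F hF)
    (j : UF F × UF F → repJ p S F hF) (hj : j ∈ Z2 (pLevels p S F hF) (repJ p S F hF))
    (hpj : p • j ∈ B2 (pLevels p S F hF) (repJ p S F hF))
    (hπj : (fun x => (fundSeq p S F hF).π (j x)) ∈ B2 (pLevels p S F hF) (repC p S F hF)) :
    ∃ z ∈ Z2 (pLevels p S F hF) (Tp (UF F) p),
      (fun x => (fundSeq p S F hF).i (K.κ (z x))) - j ∈ B2 (pLevels p S F hF) (repJ p S F hF) :=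
  (good_of_cap hcap).exists_Tp_of_J K (isDisc_repE p S F hF) hC1 j hj hpj hπj

/-- **FUND on `p`-levels, Hasse principle for `S`-units**. -/
theorem hasse_pLevels (hcap : CapStatement p S F hF) (hC1 : C1Statement p S F hF)
    (y : UF F × UF F → repE p S F hF)
    (h : (fun x => (fundSeq p S F hF).i (y x)) ∈ B2 (pLevels p S F hF) (repJ p S F hF)) :
    y ∈ B2 (pLevels p S F hF) (repE p S F hF) :=
  (good_of_cap hcap).hasse hC1 y h

end Fermat.Agent.S55.helper90
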