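import Fermat.Agent.S55.helper90_Rec3Int

/-!
# S55 / REC3, package R3-ABS-SHA (helper98, task 505)

`card_sha2_le_abs` : `Sha²(U, ℤ/p)` is a subquotient of `H¹(U, E)/p` (Bockstein), verbatim from
`helper90`'s REC3 interface v1.

For `z ∈ sha2Z` the cochain `i ∘ κ ∘ z` of `J` is locally a coboundary everywhere, hence a
coboundary (`inj`, `p`-torsion), hence `κ ∘ z = d s` for a level 1-cochain `s` of `E`
(Hasse principle for `E`), and `p • s` is a level 1-cocycle of `E`.  The class of `p • s` in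
`H¹(E)/p` determines the class of `z`: this gives an injection of `Sha²` into `H¹(E)/p`.
-/

set_option autoImplicit false
set_option linter.unusedSectionVars false
set_option linter.unusedFintypeInType false

open groupCohomology

noncomputable section

namespace Fermat.Agent.S55.helper98

open Fermat.Agent.S55 Fermat.Agent.S55.helper59 Fermat.Agent.S55.helper90

variable {k U : Type} [CommRing k] [Group U] {𝒩 : Levels U} {ι : Type} [Fintype ι]
variable {E J C : Rep.{0} k U} {X : ESeq E J C} {L : LocalData U 𝒩 ι}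
variable {p : ℕ} [Fact p.Prime]

/-- the local Kummer map has values in the invariants -/
theorem locκ_fixed (Λ : LocSys J L) (K : KummerDatum E p) (w : ι) (s : L.Gv w) (a : ZMod p) :
    (Λ.Ω w).ρ s (Λ.κ X K w a) = Λ.κ X K w a := by
  rw [LocSys.κ_apply, ← Λ.lam_eq, ← X.i_eq, K.κ_fixed]

/-- the local Kummer map commutes with `d₁₂` -/
theorem d₁₂_locκ (Λ : LocSys J L) (K : KummerDatum E p) (w : ι) (b : L.Gv w → ZMod p) :
    (d₁₂ (Λ.Ω w)).hom (fun x => Λ.κ X K w (b x)) =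
      fun x => Λ.κ X K w ((d₁₂ (Tp (L.Gv w) p)).hom b x) := by
  funext x
  simp only [d₁₂_hom_apply, locκ_fixed, map_sub, map_add]
  rfl

/-- **Existence of the Bockstein preimage**: for a locally trivial level 2-cocycle `z` of `ℤ/p`
the cochain `κ ∘ z` is the coboundary of a level 1-cochain of `E`. -/
theorem exists_bockstein_preimage (hG : X.GoodP 𝒩 p) (K : KummerDatum E p)
    (hC1 : C1P 𝒩 p C) (Λ : LocSys J L) (hΛ : Λ.Good X p K)
    (z : U × U → ZMod p) (hz : z ∈ sha2Z (k := ZMod p) L) :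
    ∃ s ∈ C1 𝒩 E, (d₁₂ E).hom s = fun x => K.κ (z x) := by
  rw [mem_sha2Z_iff] at hz
  obtain ⟨hzZ, hzloc⟩ := hz
  -- the cocycle `j = i ∘ κ ∘ z` of `J`
  have hyC : (fun x => K.κ (z x)) ∈ C2 𝒩 E := IsLev₂.comp' 𝒩 hzZ.1 K.κ
  have hyZ : (d₂₃ E).hom (fun x => K.κ (z x)) = 0 := by
    rw [K.d₂₃_κ]
    have h0 : (d₂₃ (Tp U p)).hom z = 0 := hzZ.2
    funext x
    rw [h0]
    exact map_zero _
  have hjZ : (fun x => X.i (K.κ (z x))) ∈ Z2 𝒩 J := by
    have hjC : IsLev₂ 𝒩 (fun x => X.i (K.κ (z x))) :=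
      IsLev₂.comp' 𝒩 (f := fun x => K.κ (z x)) hyC X.i
    refine ⟨hjC, ?_⟩
    change (d₂₃ J).hom _ = 0
    rw [d₂₃_map X.i_eq, hyZ]
    funext x
    exact map_zero _
  -- locally trivial
  have hloc : ∀ w, Λ.loc₂ w (fun x => X.i (K.κ (z x))) ∈ B2 (L.lev w) (Λ.Ω w) := by
    intro w
    obtain ⟨b, hb, hdb⟩ := hzloc w
    refine ⟨fun x => Λ.κ X K w (b x), IsLev₁.comp' (L.lev w) hb _, ?_⟩
    rw [d₁₂_locκ]
    funext x
    have := congrFun hdb x
    change Λ.κ X K w ((d₁₂ (Tp (L.Gv w) p)).hom b x) = Λ.lam w (X.i (K.κ (z (L.r w x.1, L.r w x.2))))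
    rw [← LocSys.κ_apply]
    exact congrArg _ this
  obtain ⟨m, hm, hmj⟩ := hΛ.inj _ hjZ hloc
  have hpy : p • (fun x => K.κ (z x)) = 0 := by
    funext x
    exact K.nsmul_κ (z x)
  have hpj : p • (fun x => X.i (K.κ (z x))) ∈ B2 𝒩 J := by
    have : p • (fun x => X.i (K.κ (z x))) = 0 := by
      funext x
      change p • X.i (K.κ (z x)) = 0
      rw [← map_nsmul, K.nsmul_κ, map_zero]
    rw [this]
    exact Submodule.zero_mem _
  have hjB : (fun x => X.i (K.κ (z x))) ∈ B2 𝒩 J := mem_B2_of_nsmul_mem hm hmj hpj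
  have hyB : (fun x => K.κ (z x)) ∈ B2 𝒩 E :=
    hG.hasse_of_torsion hC1 _ (by rw [hpy]; exact Submodule.zero_mem _) hjB
  obtain ⟨s, hs, hds⟩ := hyB
  exact ⟨s, hs, hds⟩

/-- **Injectivity of the Bockstein correspondence**: if `κ ∘ z = d s`, `κ ∘ z' = d s'` and
`p • s - p • s' ∈ B¹(E) + p Z¹(E)`, then `z - z'` is a level coboundary. -/
theorem sub_mem_B2_of_bockstein (K : KummerDatum E p) (hdE : IsDisc 𝒩 E)
    (z z' : U × U → ZMod p) (s s' : U → E) (hs : s ∈ C1 𝒩 E) (hs' : s' ∈ C1 𝒩 E)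
    (hds : (d₁₂ E).hom s = fun x => K.κ (z x)) (hds' : (d₁₂ E).hom s' = fun x => K.κ (z' x))
    (h : p • s - p • s' ∈ pZ1B1 𝒩 p E) : z - z' ∈ B2 𝒩 (Tp U p) := by
  rw [pZ1B1, Submodule.mem_sup] at h
  obtain ⟨β, ⟨e, rfl⟩, y, ⟨ζ, hζ, rfl⟩, hsum⟩ := h
  -- `σ = s - s' - ζ - d e₁` is killed by `p`
  set e₁ : E := K.root e with he₁
  have hde₁ : (d₀₁ E).hom e₁ ∈ C1 𝒩 E := by
    obtain ⟨N, hN, hfix⟩ := hdE e₁
    refine ⟨N, hN, fun g t ht => ?_⟩
    simp only [d₀₁_hom_apply, map_mul, Module.End.mul_apply, hfix t ht]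
  set σ : U → E := s - s' - ζ - (d₀₁ E).hom e₁ with hσ
  have hσC : σ ∈ C1 𝒩 E :=
    Submodule.sub_mem _ (Submodule.sub_mem _ (Submodule.sub_mem _ hs hs') hζ.1) hde₁
  have hpσ : ∀ g, p • σ g = 0 := by
    intro g
    have h1 : p • (d₀₁ E).hom e₁ = (d₀₁ E).hom e := by
      rw [← map_nsmul, he₁, K.nsmul_root]
    have h2 : ((p : k) • (LinearMap.id : (U → E) →ₗ[k] (U → E))) ζ = p • ζ := by
      rw [LinearMap.smul_apply, LinearMap.id_apply]
      exact Nat.cast_smul_eq_nsmul k p ζ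
    have h3 : p • σ = 0 := by
      rw [hσ, smul_sub, smul_sub, smul_sub, h1, ← h2, ← hsum]
      abel
    exact congrFun h3 g
  set b : U → ZMod p := fun g => K.unκ (σ g) with hb
  have hκb : (fun g => K.κ (b g)) = σ := by
    funext g
    exact K.κ_unκ (hpσ g)
  have hbC : b ∈ C1 𝒩 (Tp U p) := IsLev₁.comp' 𝒩 hσC K.unκ
  refine ⟨b, hbC, ?_⟩
  funext x
  apply K.κ_inj
  have h1 := congrFun (K.d₁₂_κ b) x
  rw [hκb] at h1
  rw [← h1, hσ, map_sub, map_sub, map_sub, hds, hds']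
  have h2 : (d₁₂ E).hom ζ = 0 := hζ.2
  have h3 : (d₁₂ E).hom ((d₀₁ E).hom e₁) = 0 :=
    congrArg (fun φ => φ.hom e₁) (d₀₁_comp_d₁₂ E)
  rw [h2, h3, sub_zero, sub_zero]
  simp only [Pi.sub_apply, map_sub]

/-- **R3-ABS-SHA**: `Sha²(U, ℤ/p)` is a subquotient of `H¹(U, E)/p` (Bockstein). -/
theorem card_sha2_le_abs (hG : X.GoodP 𝒩 p) (K : KummerDatum E p) (hdE : IsDisc 𝒩 E)
    (hC1 : C1P 𝒩 p C) (Λ : LocSys J L) (hΛ : Λ.Good X p K)
    (hfinH1 : Finite (H1ModP 𝒩 p E)) :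
    Finite (↥(sha2Z (k := ZMod p) L) ⧸
        (B2 𝒩 (T (ZMod p) U)).comap (sha2Z (k := ZMod p) L).subtype) ∧
    Nat.card (↥(sha2Z (k := ZMod p) L) ⧸
        (B2 𝒩 (T (ZMod p) U)).comap (sha2Z (k := ZMod p) L).subtype) ≤
      Nat.card (H1ModP 𝒩 p E) := by
  classical
  -- choice of `s` for every element of `sha2Z`
  have hex : ∀ z : ↥(sha2Z (k := ZMod p) L), ∃ s : U → E, s ∈ C1 𝒩 E ∧
      (d₁₂ E).hom s = fun x => K.κ ((z : U × U → ZMod p) x) := fun z => by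
    obtain ⟨s, hs, hds⟩ := exists_bockstein_preimage hG K hC1 Λ hΛ z.1 z.2
    exact ⟨s, hs, hds⟩
  choose s hsC hds using hex
  have hη : ∀ z : ↥(sha2Z (k := ZMod p) L), p • s z ∈ Z1 𝒩 E := fun z =>
    nsmul_mem_Z1_of_κ_eq K 𝒩 (z : U × U → ZMod p) (s z) (hsC z) (hds z).symm
  let Φ : (↥(sha2Z (k := ZMod p) L) ⧸
      (B2 𝒩 (T (ZMod p) U)).comap (sha2Z (k := ZMod p) L).subtype) → H1ModP 𝒩 p E :=
    fun ξ => Submodule.Quotient.mk ⟨p • s (Quotient.out ξ), hη (Quotient.out ξ)⟩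
  have hΦ : Function.Injective Φ := by
    intro ξ ξ' h
    have h1 : (⟨p • s (Quotient.out ξ), hη (Quotient.out ξ)⟩ : ↥(Z1 𝒩 E)) -
        ⟨p • s (Quotient.out ξ'), hη (Quotient.out ξ')⟩ ∈
        (pZ1B1 𝒩 p E).comap (Z1 𝒩 E).subtype := (Submodule.Quotient.eq _).mp h
    have h2 : p • s (Quotient.out ξ) - p • s (Quotient.out ξ') ∈ pZ1B1 𝒩 p E := h1
    have h3 := sub_mem_B2_of_bockstein K hdE _ _ _ _ (hsC _) (hsC _) (hds _) (hds _) h2
    have h4 : (Submodule.Quotient.mk (Quotient.out ξ) : ↥(sha2Z (k := ZMod p) L) ⧸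
        (B2 𝒩 (T (ZMod p) U)).comap (sha2Z (k := ZMod p) L).subtype) =
        Submodule.Quotient.mk (Quotient.out ξ') := by
      rw [Submodule.Quotient.eq]
      exact h3
    have e1 : (Submodule.Quotient.mk (Quotient.out ξ) : ↥(sha2Z (k := ZMod p) L) ⧸
        (B2 𝒩 (T (ZMod p) U)).comap (sha2Z (k := ZMod p) L).subtype) = ξ := Quotient.out_eq ξ
    have e2 : (Submodule.Quotient.mk (Quotient.out ξ') : ↥(sha2Z (k := ZMod p) L) ⧸
        (B2 𝒩 (T (ZMod p) U)).comap (sha2Z (k := ZMod p) L).subtype) = ξ' := Quotient.out_eq ξ'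
    rw [← e1, ← e2, h4]
  exact ⟨Finite.of_injective Φ hΦ, Nat.card_le_card_of_injective Φ hΦ⟩

end Fermat.Agent.S55.helper98

end
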