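import Fermat.Agent.S55.helper90_Rec3LocDef
import Fermat.Agent.S55.helper75_Rec4Defs
import Fermat.Agent.S55.helper98_Rec3Sha

/-!
# S55 / REC3 (FUND): wiring, part 1 (helper90)

* `Rec3Arith hF hL ζ p` : the conclusions of the ARITHMETIC packages of REC3 (R3-KUM, R3-CAP,
  R3-C1, R3-C2, R3-J3, R3-LOC-*, R3-H1E), as one structure;
* `InvHyp` : what REC3 consumes from the local invariants ((I1), non-vanishing, (I3));
* `card_sha2_le_of_arith` : B's `card_sha2_le` (REC3 deliverable (a)) from `Rec3Arith`.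
-/

set_option autoImplicit false
set_option linter.unusedSectionVars false
set_option linter.unusedFintypeInType false

open groupCohomology ExtCitation

noncomputable section

namespace Fermat.Agent.S55.helper90

open Fermat.Agent.S55 Fermat.Agent.S55.helper59 Fermat.Agent.S55.helper69
  Fermat.Agent.S55.helper73

local instance factOfPrimesR3w (q : Nat.Primes) : Fact (q : ℕ).Prime := ⟨q.2⟩

local notation "Qbar" => AlgebraicClosure ℚ

/-! ## Hypotheses on the local invariants -/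

section AbsProps

variable {U : Type} [Group U] (𝒩 : Levels U) {ι : Type} [Fintype ι]
variable (L : LocalData U 𝒩 ι) (p : ℕ) [Fact p.Prime]

/-- the hypotheses on the local invariants consumed by REC3: (I1), non-vanishing, (I3)
(fields `inv_eq_zero_iff`, `inv_ne_zero`, `reciprocity` of `helper59.BaseInput`) -/
structure InvHyp (inv : ∀ w : ι, (L.Gv w × L.Gv w → ZMod p) →ₗ[ZMod p] ZMod p) : Prop where
  I1 : ∀ w, ∀ c ∈ Z2 (L.lev w) (T (ZMod p) (L.Gv w)),
    inv w c = 0 ↔ c ∈ B2 (L.lev w) (T (ZMod p) (L.Gv w))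
  I1' : ∀ w, ∃ c ∈ Z2 (L.lev w) (T (ZMod p) (L.Gv w)), inv w c ≠ 0
  I3 : ∀ z ∈ Z2 𝒩 (T (ZMod p) U), ∑ w, inv w (fun s => z (L.r w s.1, L.r w s.2)) = 0

end AbsProps

/-! ## The arithmetic packages, bundled -/

section Arith

variable {S : Finset Nat.Primes} {F : IntermediateField ℚ Qbar}
  (hF : F.IsUnramifiedOutside S) {ι : Type} [Fintype ι]
  {L : LocalData (UF F) (sLevelsStr S F hF) ι} (hL : IsArith S F L)

/-- The conclusions of the arithmetic packages of REC3. -/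
structure Rec3Arith (ζ : (↥F)ˣ) (p : ℕ) [Fact p.Prime] [NumberField ↥F] : Prop where
  /-- R3-KUM -/
  kum : ∃ K : KummerDatum (repES S F hF) p, ∀ a : ZMod p,
    (((Additive.toMul (K.κ a) : bigES S F hF) : Idele Qbar) : IdelePi Qbar) = zetaPi ζ a
  /-- R3-CAP -/
  cap : CapS p S F hF
  /-- R3-C1 -/
  c1 : C1S p S F hF
  /-- R3-C2 -/
  c2 : C2S p S F hF
  /-- R3-J3 -/
  j3 : J3S p S F hF
  /-- R3-LOC -/
  loc : ∀ K : KummerDatum (repES S F hF) p, (∀ a : ZMod p,
    (((Additive.toMul (K.κ a) : bigES S F hF) : Idele Qbar) : IdelePi Qbar) = zetaPi ζ a) →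
    (arithLocSys hF hL).Good (fundSeqS S F hF) p K
  /-- R3-H1E -/
  h1e : Finite (H1ModP (sLevelsStr S F hF) p (repES S F hF)) ∧
    Nat.card (H1ModP (sLevelsStr S F hF) p (repES S F hF)) ≤
      Nat.card (helper75.ClSModP ↥F p S)

/-- **R3-LOC (assembly)**: the fields of `LocSys.Good` for `arithLocSys`. -/
theorem arithLocSys_good {p : ℕ} [Fact p.Prime] (K : KummerDatum (repES S F hF) p)
    (hfin : ∀ w, FinLevels (L.lev w))
    (hdisc : ∀ w, IsDisc (L.lev w) ((arithLocSys hF hL).Ω w))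
    (h90 : ∀ w, Z1 (L.lev w) ((arithLocSys hF hL).Ω w) ≤ B1 ((arithLocSys hF hL).Ω w))
    (hdiv : ∀ w (x : (arithLocSys hF hL).Ω w), ∃ y : (arithLocSys hF hL).Ω w, p • y = x)
    (htors : ∀ w (x : (arithLocSys hF hL).Ω w), p • x = 0 →
      ∃ a : ZMod p, (arithLocSys hF hL).κ (fundSeqS S F hF) K w a = x)
    (hinj : ∀ w, Function.Injective ((arithLocSys hF hL).κ (fundSeqS S F hF) K w))
    (hdiv2 : ∀ w, ∀ c ∈ Z2 (L.lev w) ((arithLocSys hF hL).Ω w), ∀ n : ℕ,
      p ^ n • c ∈ B2 (L.lev w) ((arithLocSys hF hL).Ω w) →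
      ∃ c' ∈ Z2 (L.lev w) ((arithLocSys hF hL).Ω w),
        p • c' - c ∈ B2 (L.lev w) ((arithLocSys hF hL).Ω w))
    (hlinj : ∀ j ∈ Z2 (sLevelsStr S F hF) (repJS S F hF),
      (∀ w, (arithLocSys hF hL).loc₂ w j ∈ B2 (L.lev w) ((arithLocSys hF hL).Ω w)) →
      ∃ m : ℕ, ¬ p ∣ m ∧ m • j ∈ B2 (sLevelsStr S F hF) (repJS S F hF))
    (hlsurj : ∀ w, ∀ c ∈ Z2 (L.lev w) ((arithLocSys hF hL).Ω w), ∀ n : ℕ,
      p ^ n • c ∈ B2 (L.lev w) ((arithLocSys hF hL).Ω w) →
      ∃ j ∈ Z2 (sLevelsStr S F hF) (repJS S F hF),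
        (arithLocSys hF hL).loc₂ w j - c ∈ B2 (L.lev w) ((arithLocSys hF hL).Ω w) ∧
        ∀ w', w' ≠ w →
          (arithLocSys hF hL).loc₂ w' j ∈ B2 (L.lev w') ((arithLocSys hF hL).Ω w')) :
    (arithLocSys hF hL).Good (fundSeqS S F hF) p K where
  fin := hfin
  disc := hdisc
  hilbert90 := h90
  div := hdiv
  torsion := htors
  κ_inj := hinj
  div2 := hdiv2
  inj := hlinj
  surj := hlsurj

variable {hF hL}

/-- a level structure is determined by its levels -/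
lemma levels_eq_sLevelsStr {𝒩 : Levels (UF F)} (hF : F.IsUnramifiedOutside S)
    (h𝒩 : 𝒩.mem = sLevels S F) : 𝒩 = sLevelsStr S F hF := by
  cases 𝒩
  simp only at h𝒩
  subst h𝒩
  rfl

/-- there is a place of `F` above every `q ∈ S` -/
lemma nonempty_of_isArith (hL : IsArith S F L) (q : Nat.Primes) (hq : q ∈ S) : Nonempty ι := by
  obtain ⟨w, -, -⟩ := hL.cover q hq 1
  exact ⟨w⟩

/-- **REC3 deliverable (a), for the level structure `sLevelsStr`**:
`#Sha²(G_{F,S}, ℤ/p) ≤ #(Cl_S(F)/p)`. -/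
theorem card_sha2_le_of_arith' {p : ℕ} [Fact p.Prime] [NumberField ↥F] {ζ : (↥F)ˣ}
    (hA : Rec3Arith hF hL ζ p) :
    Finite (↥(sha2Z (k := ZMod p) L) ⧸
        (B2 (sLevelsStr S F hF) (T (ZMod p) (UF F))).comap (sha2Z (k := ZMod p) L).subtype) ∧
    Nat.card (↥(sha2Z (k := ZMod p) L) ⧸
        (B2 (sLevelsStr S F hF) (T (ZMod p) (UF F))).comap (sha2Z (k := ZMod p) L).subtype) ≤
      Nat.card (helper75.ClSModP (↥F) p S) := by
  obtain ⟨K, hK⟩ := hA.kum
  have hG := goodP_of_capS hA.cap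
  have h := helper98.card_sha2_le_abs hG K (isDisc_repES S F hF) hA.c1 (arithLocSys hF hL)
    (hA.loc K hK) hA.h1e.1
  exact ⟨h.1, h.2.trans hA.h1e.2⟩

end Arith

/-! ## B's statement, verbatim shape -/

section B

variable {p : ℕ} [Fact p.Prime] {S : Finset Nat.Primes} {F : IntermediateField ℚ Qbar}
  {𝒩 : Levels (UF F)} {ι : Type} [Fintype ι] {L : LocalData (UF F) 𝒩 ι}

/-- **REC3 deliverable (a)** in the shape of `helper59.Interface2.card_sha2_le`, conditional on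
the arithmetic packages. -/
theorem card_sha2_le_of_arith [NumberField ↥F] (hF : F.IsUnramifiedOutside S)
    (h𝒩 : 𝒩.mem = sLevels S F) (hL : IsArith S F L) (ζ : (↥F)ˣ)
    (hA : ∀ (L' : LocalData (UF F) (sLevelsStr S F hF) ι) (hL' : IsArith S F L'),
      Rec3Arith hF hL' ζ p) :
    Finite (↥(sha2Z (k := ZMod p) L) ⧸
        (B2 𝒩 (T (ZMod p) (UF F))).comap (sha2Z (k := ZMod p) L).subtype) ∧
    Nat.card (↥(sha2Z (k := ZMod p) L) ⧸
        (B2 𝒩 (T (ZMod p) (UF F))).comap (sha2Z (k := ZMod p) L).subtype) ≤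
      Nat.card (helper75.ClSModP (↥F) p S) := by
  have h := levels_eq_sLevelsStr hF h𝒩
  subst h
  exact card_sha2_le_of_arith' (hA L hL)

end B

end Fermat.Agent.S55.helper90
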