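import Fermat.Agent.S55.helper90_Rec3Wire
import Fermat.Agent.S55.helper43_Rec3Onto
import Fermat.Agent.S55.helper60_Rec3Tors
import Fermat.Agent.S55.helper84_Rec3Div
import Fermat.Agent.S55.helper85_Rec3AbsT2

/-!
# S55 / REC3 (FUND): wiring, part 2: `H³(G_{F,S}, ℤ/p) = 0` (helper90)

* `h3_abs` : the abstract theorem, from the interface inputs (`GoodP`, `KummerDatum`, `C1P`,
  `C2Cyc`, `J3P`, `LocSys.Good`, `InvHyp`);
* `ontoP_abs`, `divJP_abs` : the interface statements R3-ABS-ONTO / R3-ABS-DIVJ (verbatim up to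
  the bundling of the hypotheses on `inv`);
* `h3_of_arith` : B's field `h3` (I5) of `BaseInput`, conditional on the bundle `Rec3Arith` of the
  arithmetic packages and on (I1), (I3) for the local invariants.
-/

set_option autoImplicit false
set_option linter.unusedSectionVars false
set_option linter.unusedFintypeInType false

open groupCohomology ExtCitation

noncomputable section

namespace Fermat.Agent.S55.helper90

open Fermat.Agent.S55 Fermat.Agent.S55.helper59 Fermat.Agent.S55.helper69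
  Fermat.Agent.S55.helper73

local instance factOfPrimesR3x (q : Nat.Primes) : Fact (q : ℕ).Prime := ⟨q.2⟩

local notation "Qbar" => AlgebraicClosure ℚ

section Abs

variable {k U : Type} [CommRing k] [Group U] {𝒩 : Levels U} {ι : Type} [Fintype ι]
variable {E J C : Rep.{0} k U} {X : ESeq E J C} {L : LocalData U 𝒩 ι}
variable {p : ℕ} [Fact p.Prime]

/-- a class of `H²(J)` killed by `p` whose image in `H²(C)` is non-trivial -/
theorem exists_class (hG : X.GoodP 𝒩 p) (K : KummerDatum E p) (hdE : IsDisc 𝒩 E)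
    (hC1 : C1P 𝒩 p C) (Λ : LocSys J L) (hΛ : Λ.Good X p K)
    (inv : ∀ w : ι, (L.Gv w × L.Gv w → ZMod p) →ₗ[ZMod p] ZMod p)
    (hinv : InvHyp 𝒩 L p inv) (hι : Nonempty ι) :
    ∃ t ∈ Z2 𝒩 J, p • t ∈ B2 𝒩 J ∧ (fun x => X.π (t x)) ∉ B2 𝒩 C := by
  obtain ⟨w₀⟩ := hι
  obtain ⟨c₀, hc₀, hc₀'⟩ := hinv.I1' w₀
  obtain ⟨t, ht, hpt, -, -, hπt⟩ :=
    helper85.exists_local_class hG K hdE hC1 Λ hΛ inv hinv.I1 hinv.I3 w₀ c₀ hc₀ hc₀'
  exact ⟨t, ht, hpt, hπt⟩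

/-- **R3-ABS-ONTO** -/
theorem ontoP_abs (hG : X.GoodP 𝒩 p) (K : KummerDatum E p) (hdE : IsDisc 𝒩 E)
    (hC1 : C1P 𝒩 p C) (hC2 : C2Cyc 𝒩 p C) (Λ : LocSys J L) (hΛ : Λ.Good X p K)
    (inv : ∀ w : ι, (L.Gv w × L.Gv w → ZMod p) →ₗ[ZMod p] ZMod p)
    (hinv : InvHyp 𝒩 L p inv) (hι : Nonempty ι) : OntoP 𝒩 X p := by
  obtain ⟨t, ht, hpt, hπt⟩ := exists_class hG K hdE hC1 Λ hΛ inv hinv hι
  exact helper43.ontoP_of_class
    (fun c hc => helper60.exists_nsmul_mem_B2 hG.fin C hG.discC c hc)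
    (fun j hj => helper84.div2J hG.fin hG.discJ Λ K hΛ j hj) hC2 t ht hpt hπt

/-- **R3-ABS-DIVJ** -/
theorem divJP_abs (hG : X.GoodP 𝒩 p) (K : KummerDatum E p) (hdE : IsDisc 𝒩 E)
    (hC1 : C1P 𝒩 p C) (hC2 : C2Cyc 𝒩 p C) (Λ : LocSys J L) (hΛ : Λ.Good X p K)
    (inv : ∀ w : ι, (L.Gv w × L.Gv w → ZMod p) →ₗ[ZMod p] ZMod p)
    (hinv : InvHyp 𝒩 L p inv) (hι : Nonempty ι) : DivJP 𝒩 X p := by
  obtain ⟨t, ht, hpt, hπt⟩ := exists_class hG K hdE hC1 Λ hΛ inv hinv hι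
  exact helper43.divJP_of_class
    (fun j hj => helper84.div2J hG.fin hG.discJ Λ K hΛ j hj) hC2 t ht hpt hπt

/-- **abstract `H³(U, ℤ/p) = 0`** from the interface inputs -/
theorem h3_abs (hG : X.GoodP 𝒩 p) (K : KummerDatum E p) (hdE : IsDisc 𝒩 E)
    (hC1 : C1P 𝒩 p C) (hC2 : C2Cyc 𝒩 p C) (hJ3 : J3P 𝒩 p J)
    (Λ : LocSys J L) (hΛ : Λ.Good X p K)
    (inv : ∀ w : ι, (L.Gv w × L.Gv w → ZMod p) →ₗ[ZMod p] ZMod p)
    (hinv : InvHyp 𝒩 L p inv) (hι : Nonempty ι) :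
    Z3 𝒩 (T (ZMod p) U) ≤ B3 𝒩 (T (ZMod p) U) :=
  hG.h3_Tp K hdE hJ3 (ontoP_abs hG K hdE hC1 hC2 Λ hΛ inv hinv hι) hC1
    (divJP_abs hG K hdE hC1 hC2 Λ hΛ inv hinv hι)

end Abs

section Arith

variable {p : ℕ} [Fact p.Prime] {S : Finset Nat.Primes} {F : IntermediateField ℚ Qbar}
  {𝒩 : Levels (UF F)} {ι : Type} [Fintype ι] {L : LocalData (UF F) 𝒩 ι}

/-- **REC3 deliverable (b)** = field `h3` (I5) of `helper59.BaseInput`, conditional on the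
arithmetic packages (bundle `Rec3Arith`) and on (I1), (I3) for `inv`. -/
theorem h3_of_arith [NumberField ↥F] (hpS : (⟨p, Fact.out⟩ : Nat.Primes) ∈ S)
    (hF : F.IsUnramifiedOutside S) (h𝒩 : 𝒩.mem = sLevels S F) (hL : IsArith S F L) (ζ : (↥F)ˣ)
    (hA : ∀ (L' : LocalData (UF F) (sLevelsStr S F hF) ι) (hL' : IsArith S F L'),
      Rec3Arith hF hL' ζ p)
    (inv : ∀ w : ι, (L.Gv w × L.Gv w → ZMod p) →ₗ[ZMod p] ZMod p)
    (hinv : InvHyp 𝒩 L p inv) :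
    Z3 𝒩 (T (ZMod p) (UF F)) ≤ B3 𝒩 (T (ZMod p) (UF F)) := by
  have h := levels_eq_sLevelsStr hF h𝒩
  subst h
  have hA' := hA L hL
  obtain ⟨K, hK⟩ := hA'.kum
  exact h3_abs (goodP_of_capS hA'.cap) K (isDisc_repES S F hF) hA'.c1 hA'.c2 hA'.j3
    (arithLocSys hF hL) (hA'.loc K hK) inv hinv (nonempty_of_isArith hL _ hpS)

end Arith

end Fermat.Agent.S55.helper90
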