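import Mathlib

/-!
# S55 / LOC-2b (helper96): two counting lemmas in finite fields

For a finite field `k` with `Q ^ n` elements (`2 ≤ Q`, `0 < n`):
* `exists_sum_pow_ne_zero` : some `c` has `∑_{i<n} c ^ (Q ^ i) ≠ 0`  (the "trace" is not zero);
* `exists_pow_geomSum_eq` : every `u ≠ 0` with `u ^ Q = u` is of the form
  `c ^ (∑_{i<n} Q ^ i)`  (the "norm" is onto the fixed points of `x ↦ x ^ Q`).
-/

set_option autoImplicit false

namespace Fermat.Agent.S55.helper96

open Polynomial

section finfield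

variable {k : Type*} [Field k] [Finite k]

theorem exists_sum_pow_ne_zero {Q n : ℕ} (hQ : 2 ≤ Q) (hn : 0 < n)
    (hcard : Nat.card k = Q ^ n) : ∃ c : k, ∑ i ∈ Finset.range n, c ^ (Q ^ i) ≠ 0 := by
  classical
  haveI : Fintype k := Fintype.ofFinite k
  by_contra hall
  simp only [not_exists, not_not] at hall
  set P : k[X] := ∑ i ∈ Finset.range n, (X : k[X]) ^ (Q ^ i) with hP
  have heval : ∀ c : k, P.eval c = 0 := by
    intro c
    rw [hP, eval_finsetSum]
    simpa using hall c
  have hinj : Function.Injective (fun i : ℕ => Q ^ i) := Nat.pow_right_injective hQ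
  have hdeg : P.degree < (Finset.univ : Finset k).card := by
    have h1 : P.degree ≤ ((Q ^ (n - 1) : ℕ) : WithBot ℕ) := by
      rw [hP]
      refine (degree_sum_le _ _).trans ?_
      rw [Finset.sup_le_iff]
      intro i hi
      rw [degree_X_pow]
      have hi' := Finset.mem_range.mp hi
      exact_mod_cast Nat.pow_le_pow_right (by omega) (by omega)
    refine lt_of_le_of_lt h1 ?_
    rw [Finset.card_univ, ← Nat.card_eq_fintype_card, hcard]
    have : Q ^ (n - 1) < Q ^ n := Nat.pow_lt_pow_right (by omega) (by omega)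
    exact_mod_cast this
  have hzero : P = 0 :=
    Polynomial.eq_zero_of_degree_lt_of_eval_finset_eq_zero Finset.univ hdeg
      (fun x _ => heval x)
  -- but the coefficient of `X ^ (Q ^ (n-1))` is `1`
  have hcoeff : P.coeff (Q ^ (n - 1)) = 1 := by
    rw [hP, finsetSum_coeff]
    rw [Finset.sum_eq_single (n - 1)]
    · simp
    · intro i _ hi
      rw [coeff_X_pow, if_neg]
      intro h
      exact hi (hinj h).symm
    · intro h
      exact absurd (Finset.mem_range.mpr (by omega)) h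
  rw [hzero, coeff_zero] at hcoeff
  exact zero_ne_one hcoeff

theorem geomSum_mul_pred {Q : ℕ} (hQ : 1 ≤ Q) (n : ℕ) :
    (∑ i ∈ Finset.range n, Q ^ i) * (Q - 1) = Q ^ n - 1 := by
  obtain ⟨x, rfl⟩ : ∃ x, Q = x + 1 := ⟨Q - 1, by omega⟩
  have := geom_sum_mul_add x n
  simp only [Nat.add_sub_cancel]
  omega

theorem exists_pow_geomSum_eq {Q n : ℕ} (hQ : 2 ≤ Q)
    (hcard : Nat.card k = Q ^ n) {u : k} (hu0 : u ≠ 0) (hu : u ^ Q = u) :
    ∃ c : k, c ≠ 0 ∧ c ^ (∑ i ∈ Finset.range n, Q ^ i) = u := by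
  classical
  haveI : Fintype k := Fintype.ofFinite k
  obtain ⟨g, hg⟩ := IsCyclic.exists_generator (α := kˣ)
  have hord : orderOf g = Q ^ n - 1 := by
    rw [orderOf_eq_card_of_forall_mem_zpowers hg, Nat.card_units, hcard]
  have hfin : IsOfFinOrder g := isOfFinOrder_of_finite g
  set U : kˣ := Units.mk0 u hu0 with hU
  obtain ⟨a, ha⟩ : ∃ a : ℕ, g ^ a = U := by
    have := hg U
    rw [← hfin.mem_powers_iff_mem_zpowers] at this
    exact (Submonoid.mem_powers_iff _ _).mp this
  have hUQ : U ^ (Q - 1) = 1 := by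
    apply Units.ext
    rw [Units.val_pow_eq_pow_val, Units.val_one, hU, Units.val_mk0]
    have h1 : u ^ (Q - 1) * u = 1 * u := by
      rw [← pow_succ, one_mul]
      have : Q - 1 + 1 = Q := by omega
      rw [this, hu]
    exact mul_right_cancel₀ hu0 h1
  have hdvd : (Q ^ n - 1) ∣ a * (Q - 1) := by
    rw [← hord, orderOf_dvd_iff_pow_eq_one, pow_mul, ha, hUQ]
  rw [← geomSum_mul_pred (by omega) n] at hdvd
  have hM : (∑ i ∈ Finset.range n, Q ^ i) ∣ a :=
    Nat.dvd_of_mul_dvd_mul_right (by omega) hdvd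
  obtain ⟨a', ha'⟩ := hM
  refine ⟨((g ^ a' : kˣ) : k), Units.ne_zero _, ?_⟩
  rw [← Units.val_pow_eq_pow_val, ← pow_mul, mul_comm, ← ha', ha, hU, Units.val_mk0]

end finfield

end Fermat.Agent.S55.helper96
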