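import Fermat.Agent.S55.helper7_LocUnramCond
import Fermat.Agent.S55.helper71_LocResidue
import Fermat.Agent.S55.helper97_LocVal
import Fermat.Agent.S55.helper96_FinField
import Fermat.Agent.S55.helper96_CyclicNorm

/-!
# S55 / LOC-2b (helper96): units are norms in unramified extensions (direct proof)

Direct proof of `exists_norm_eq_of_isUnram` (independent of the norm index theorem LOC-3):
the trace and the norm are surjective on residue fields (counting in the finite residue
field, with the Frobenius of LOC-2a), and Hensel's lemma (LOC-0b) applied to the polynomial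
`N(w₀) * ∏_σ (1 + σ θ * Y) - u` lifts an approximate solution of `N w = u` to an exact one.
-/

set_option autoImplicit false

namespace Fermat.Agent.S55.helper96

open Fermat.Agent.S55.helper8 Fermat.Agent.S55.helper7 Polynomial

variable (q : ℕ) [Fact q.Prime]

theorem hypAdd : HypAdd q := fun K _ _ _ x y => helper97.ordT_add_ge q K x y

theorem hypReps : HypReps q := fun K _ _ _ => helper71.exists_representatives q K

theorem hypHensel : HypHensel q := fun K _ _ _ f hf a ha h => helper71.hensel q K f hf a ha h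

section sums

variable {G : Type*} [Group G] {φ : G}

theorem sum_univ_eq_sum_range [Fintype G] {N : Type*} [AddCommMonoid N]
    (hgen : ∀ σ : G, σ ∈ Subgroup.zpowers φ) (f : G → N) :
    ∑ σ : G, f σ = ∑ k ∈ Finset.range (orderOf φ), f (φ ^ k) := by
  classical
  have hfin : 0 < orderOf φ := orderOf_pos φ
  have h1 : (Finset.univ : Finset G) = (Finset.range (orderOf φ)).image (fun k => φ ^ k) := by
    ext σ
    simp only [Finset.mem_univ, Finset.mem_image, Finset.mem_range, true_iff]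
    exact ⟨dlogG φ σ, dlogG_lt hfin hgen σ, pow_dlogG hfin hgen σ⟩
  rw [h1, Finset.sum_image]
  intro a ha b hb hab
  exact pow_injOn_Iio_orderOf (by simpa using ha) (by simpa using hb) hab

end sums

section main

variable [Fact (HypAdd q)] [Fact (HypReps q)]
variable (K : Type) [Field K] [Algebra ℚ_[q] K] [FiniteDimensional ℚ_[q] K]
variable (L : Type) [Field L] [Algebra ℚ_[q] L] [Algebra K L] [IsScalarTower ℚ_[q] K L]
  [FiniteDimensional K L] [FiniteDimensional ℚ_[q] L]

omit [Fact (HypReps q)] in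
/-- The Frobenius acts on the residue field as the `Q`-th power map. -/
lemma resAut_of_isFrob (φ : L ≃ₐ[K] L) (hφ : IsFrob q K L φ) (c : kq q L) :
    resAut q K L φ c = c ^ (q ^ fdeg q K) := by
  obtain ⟨x, rfl⟩ := res_surjective q L c
  rw [resAut_res, ← map_pow, res_eq_iff]
  exact hφ x.1 x.2

omit [Fact (HypReps q)] in
lemma res_intAut_pow (φ : L ≃ₐ[K] L) (hφ : IsFrob q K L φ) (i : ℕ) (x : Oq q L) :
    res q L (intAut q K L (φ ^ i) x) = (res q L x) ^ ((q ^ fdeg q K) ^ i) := by
  induction i with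
  | zero =>
    have : intAut q K L (φ ^ 0) x = x := by
      ext
      simp
    rw [this, pow_zero, pow_one]
  | succ i ih =>
    have : intAut q K L (φ ^ (i + 1)) x = intAut q K L φ (intAut q K L (φ ^ i) x) := by
      ext
      simp [pow_succ']
    rw [this, ← resAut_res, resAut_of_isFrob q K L φ hφ, ih, ← pow_mul, pow_succ]

omit [Fact (HypReps q)] in
lemma coe_sum_intAut (φ : L ≃ₐ[K] L) (n : ℕ) (x : Oq q L) :
    ((∑ i ∈ Finset.range n, intAut q K L (φ ^ i) x : Oq q L) : L)
      = ∑ i ∈ Finset.range n, (φ ^ i) (x : L) := by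
  rw [← Subring.coe_subtype, map_sum]
  rfl

omit [Fact (HypReps q)] in
lemma coe_prod_intAut (φ : L ≃ₐ[K] L) (n : ℕ) (x : Oq q L) :
    ((∏ i ∈ Finset.range n, intAut q K L (φ ^ i) x : Oq q L) : L)
      = ∏ i ∈ Finset.range n, (φ ^ i) (x : L) := by
  rw [← Subring.coe_subtype, map_prod]
  rfl

omit [Fact (HypAdd q)] [Fact (HypReps q)] [Fact q.Prime] [Algebra ℚ_[q] K]
  [FiniteDimensional ℚ_[q] K] [Algebra ℚ_[q] L] [IsScalarTower ℚ_[q] K L]
  [FiniteDimensional ℚ_[q] L] in
lemma algebraMap_trace_eq [IsGalois K L] (φ : L ≃ₐ[K] L)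
    (hgen : ∀ σ : L ≃ₐ[K] L, σ ∈ Subgroup.zpowers φ) (x : L) :
    algebraMap K L (Algebra.trace K L x) = ∑ i ∈ Finset.range (orderOf φ), (φ ^ i) x := by
  classical
  rw [trace_eq_sum_automorphisms, sum_univ_eq_sum_range hgen]

omit [Fact (HypAdd q)] [Fact (HypReps q)] [Fact q.Prime] [Algebra ℚ_[q] K]
  [FiniteDimensional ℚ_[q] K] [Algebra ℚ_[q] L] [IsScalarTower ℚ_[q] K L]
  [FiniteDimensional ℚ_[q] L] in
lemma algebraMap_norm_eq [IsGalois K L] (φ : L ≃ₐ[K] L)
    (hgen : ∀ σ : L ≃ₐ[K] L, σ ∈ Subgroup.zpowers φ) (x : L) :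
    algebraMap K L (Algebra.norm K x) = ∏ i ∈ Finset.range (orderOf φ), (φ ^ i) x := by
  classical
  rw [Algebra.norm_eq_prod_automorphisms, prod_univ_eq_prod_range hgen]

lemma card_kq_of_isUnram (h : IsUnram q K L) :
    Nat.card (kq q L) = (q ^ fdeg q K) ^ Module.finrank K L := by
  rw [card_kq, fdeg_of_isUnram q K L h, pow_mul]

lemma two_le_Q : 2 ≤ q ^ fdeg q K := by
  have h1 : 2 ≤ q := (Fact.out : q.Prime).two_le
  have h2 : 0 < fdeg q K := helper97.fdeg_pos q K
  calc 2 ≤ q := h1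
    _ = q ^ 1 := (pow_one q).symm
    _ ≤ q ^ fdeg q K := Nat.pow_le_pow_right (by omega) h2

/-- The trace of some integral element is a unit. -/
theorem exists_trace_unit [IsGalois K L] (h : IsUnram q K L) (φ : L ≃ₐ[K] L)
    (hφ : IsFrob q K L φ) (hgen : ∀ σ : L ≃ₐ[K] L, σ ∈ Subgroup.zpowers φ)
    (hord : orderOf φ = Module.finrank K L) :
    ∃ θ : L, 0 ≤ ordT q L θ ∧ ordT q K (Algebra.trace K L θ) = 0 := by
  have hn : 0 < Module.finrank K L := Module.finrank_pos
  obtain ⟨c, hc⟩ := exists_sum_pow_ne_zero (k := kq q L) (two_le_Q q K) hn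
    (card_kq_of_isUnram q K L h)
  obtain ⟨x, rfl⟩ := res_surjective q L c
  refine ⟨(x : L), x.2, ?_⟩
  have h1 : algebraMap K L (Algebra.trace K L (x : L))
      = ((∑ i ∈ Finset.range (Module.finrank K L), intAut q K L (φ ^ i) x : Oq q L) : L) := by
    rw [coe_sum_intAut, algebraMap_trace_eq K L φ hgen, hord]
  have h2 : res q L (∑ i ∈ Finset.range (Module.finrank K L), intAut q K L (φ ^ i) x) ≠ 0 := by
    rw [map_sum]
    simp only [res_intAut_pow q K L φ hφ]
    exact hc
  have h3 : 0 ≤ ordT q L (algebraMap K L (Algebra.trace K L (x : L))) := by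
    rw [h1]
    exact (∑ i ∈ Finset.range (Module.finrank K L), intAut q K L (φ ^ i) x).2
  have h4 : ¬ 0 < ordT q L (algebraMap K L (Algebra.trace K L (x : L))) := by
    rw [h1]
    intro hpos
    exact h2 ((res_eq_zero_iff q L).mpr hpos)
  rw [ordT_algebraMap_nonneg_iff] at h3
  rw [ordT_algebraMap_pos_iff] at h4
  exact le_antisymm (not_lt.mp h4) h3

/-- Every unit is a norm modulo the maximal ideal. -/
theorem exists_norm_congr [IsGalois K L] (h : IsUnram q K L) (φ : L ≃ₐ[K] L)
    (hφ : IsFrob q K L φ) (hgen : ∀ σ : L ≃ₐ[K] L, σ ∈ Subgroup.zpowers φ)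
    (hord : orderOf φ = Module.finrank K L) (u : K) (hu : ordT q K u = 0) :
    ∃ w : L, ordT q L w = 0 ∧ 0 < ordT q K (Algebra.norm K w - u) := by
  classical
  have hn : 0 < Module.finrank K L := Module.finrank_pos
  set uO : Oq q K := ⟨u, hu.ge⟩ with huO
  have hu1 : res q K uO ≠ 0 := by
    rw [Ne, res_eq_zero_iff, huO]
    simp only
    rw [hu]
    exact lt_irrefl _
  -- `(res u) ^ Q = res u`
  have hu2 : (res q K uO) ^ (q ^ fdeg q K) = res q K uO := by
    haveI : Fintype (kq q K) := Fintype.ofFinite _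
    have := FiniteField.pow_card (res q K uO)
    rwa [← Nat.card_eq_fintype_card, card_kq] at this
  have hu3 : resMap q K L (res q K uO) ≠ 0 := by
    rw [Ne, map_eq_zero]
    exact hu1
  have hu4 : (resMap q K L (res q K uO)) ^ (q ^ fdeg q K) = resMap q K L (res q K uO) := by
    rw [← map_pow, hu2]
  obtain ⟨c, hc0, hc⟩ := exists_pow_geomSum_eq (k := kq q L) (n := Module.finrank K L)
    (two_le_Q q K) (card_kq_of_isUnram q K L h) hu3 hu4
  obtain ⟨w, rfl⟩ := res_surjective q L c
  have hw0 : ordT q L (w : L) = 0 := by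
    have : ¬ 0 < ordT q L (w : L) := fun hpos => hc0 ((res_eq_zero_iff q L).mpr hpos)
    exact le_antisymm (not_lt.mp this) w.2
  refine ⟨(w : L), hw0, ?_⟩
  have h1 : algebraMap K L (Algebra.norm K (w : L))
      = ((∏ i ∈ Finset.range (Module.finrank K L), intAut q K L (φ ^ i) w : Oq q L) : L) := by
    rw [coe_prod_intAut, algebraMap_norm_eq K L φ hgen, hord]
  have h2 : res q L (∏ i ∈ Finset.range (Module.finrank K L), intAut q K L (φ ^ i) w)
      = res q L (intMap q K L uO) := by
    rw [map_prod]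
    simp only [res_intAut_pow q K L φ hφ]
    rw [Finset.prod_pow_eq_pow_sum, hc, resMap_res]
  have h3 := (res_eq_iff q L).mp h2
  rw [← h1, intMap_coe, ← map_sub, ordT_algebraMap_pos_iff] at h3
  exact h3

end main

section conj

variable [Fact (HypAdd q)]
variable (K : Type) [Field K] [Algebra ℚ_[q] K] [FiniteDimensional ℚ_[q] K]
variable (L : Type) [Field L] [Algebra ℚ_[q] L] [Algebra K L] [IsScalarTower ℚ_[q] K L]
  [FiniteDimensional K L] [FiniteDimensional ℚ_[q] L]

/-- The polynomial `∏_σ (1 + σ θ * X)` over `L`. -/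
noncomputable def conjPoly (θ : L) : L[X] :=
  ∏ σ : (L ≃ₐ[K] L), (1 + C (σ θ) * X)

omit [Fact (HypAdd q)] [Fact q.Prime] [Algebra ℚ_[q] K]
  [FiniteDimensional ℚ_[q] K] [Algebra ℚ_[q] L] [IsScalarTower ℚ_[q] K L]
  [FiniteDimensional ℚ_[q] L] in
lemma conjPoly_map (θ : L) (τ : L ≃ₐ[K] L) :
    (conjPoly K L θ).map (τ : L →+* L) = conjPoly K L θ := by
  simp only [conjPoly, Polynomial.map_prod, Polynomial.map_add, Polynomial.map_one,
    Polynomial.map_mul, Polynomial.map_C, Polynomial.map_X]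
  exact (Group.mulLeft_bijective τ).prod_comp (fun σ => (1 + C (σ θ) * X : L[X]))

omit [Fact (HypAdd q)] [Fact q.Prime] [Algebra ℚ_[q] K]
  [FiniteDimensional ℚ_[q] K] [Algebra ℚ_[q] L] [IsScalarTower ℚ_[q] K L]
  [FiniteDimensional ℚ_[q] L] in
lemma exists_map_eq_conjPoly [IsGalois K L] (θ : L) :
    ∃ h : K[X], h.map (algebraMap K L) = conjPoly K L θ := by
  have hmem : conjPoly K L θ ∈ Polynomial.lifts (algebraMap K L) := by
    rw [Polynomial.lifts_iff_coeff_lifts]
    intro i
    rw [Set.mem_range]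
    refine (IsGalois.mem_range_algebraMap_iff_fixed (F := K) (E := L) _).mpr fun τ => ?_
    have h1 := congrArg (fun p => Polynomial.coeff p i) (conjPoly_map K L θ τ)
    simpa [Polynomial.coeff_map] using h1
  exact (Polynomial.mem_lifts _).mp hmem

lemma coeff_conjPoly_nonneg (θ : L) (hθ : 0 ≤ ordT q L θ) (i : ℕ) :
    0 ≤ ordT q L ((conjPoly K L θ).coeff i) := by
  have hmem : conjPoly K L θ ∈ Polynomial.lifts (Oq q L).subtype := by
    refine Subsemiring.prod_mem _ fun σ _ => ?_
    refine Subsemiring.add_mem _ (Subsemiring.one_mem _) (Subsemiring.mul_mem _ ?_ ?_)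
    · have hσ : 0 ≤ ordT q L (σ θ) := by rw [ordT_algEquiv]; exact hθ
      exact Polynomial.C_mem_lifts (Oq q L).subtype ⟨σ θ, hσ⟩
    · exact Polynomial.X_mem_lifts _
  rw [Polynomial.lifts_iff_coeff_lifts] at hmem
  obtain ⟨x, hx⟩ := hmem i
  rw [← hx]
  exact x.2

omit [Fact (HypAdd q)] [Fact q.Prime] [Algebra ℚ_[q] K]
  [FiniteDimensional ℚ_[q] K] [Algebra ℚ_[q] L] [IsScalarTower ℚ_[q] K L]
  [FiniteDimensional ℚ_[q] L] in
lemma eval_conjPoly [IsGalois K L] (θ : L) (b : K) :
    (conjPoly K L θ).eval (algebraMap K L b)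
      = algebraMap K L (Algebra.norm K (1 + θ * algebraMap K L b)) := by
  rw [Algebra.norm_eq_prod_automorphisms, conjPoly, Polynomial.eval_prod]
  refine Finset.prod_congr rfl fun σ _ => ?_
  simp

omit [Fact (HypAdd q)] [Fact q.Prime] [Algebra ℚ_[q] K]
  [FiniteDimensional ℚ_[q] K] [Algebra ℚ_[q] L] [IsScalarTower ℚ_[q] K L]
  [FiniteDimensional ℚ_[q] L] [FiniteDimensional K L] in
lemma coeff_prod_one_add {ι : Type*} (s : Finset ι) (a : ι → L) :
    (∏ i ∈ s, (1 + C (a i) * X : L[X])).coeff 0 = 1 ∧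
      (∏ i ∈ s, (1 + C (a i) * X : L[X])).coeff 1 = ∑ i ∈ s, a i := by
  classical
  have h11 : (1 : L[X]).coeff 1 = 0 := by
    rw [Polynomial.coeff_one]
    simp
  induction s using Finset.induction_on with
  | empty => simp [h11]
  | insert i s hi ih =>
    rw [Finset.prod_insert hi, Finset.sum_insert hi]
    constructor
    · rw [Polynomial.mul_coeff_zero, ih.1]
      simp
    · rw [Polynomial.mul_coeff_one, ih.1, ih.2]
      simp [h11, add_comm]

omit [Fact (HypAdd q)] [Fact q.Prime] [Algebra ℚ_[q] K]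
  [FiniteDimensional ℚ_[q] K] [Algebra ℚ_[q] L] [IsScalarTower ℚ_[q] K L]
  [FiniteDimensional ℚ_[q] L] in
lemma coeff_zero_conjPoly (θ : L) : (conjPoly K L θ).coeff 0 = 1 :=
  (coeff_prod_one_add L Finset.univ (fun σ : L ≃ₐ[K] L => σ θ)).1

omit [Fact (HypAdd q)] [Fact q.Prime] [Algebra ℚ_[q] K]
  [FiniteDimensional ℚ_[q] K] [Algebra ℚ_[q] L] [IsScalarTower ℚ_[q] K L]
  [FiniteDimensional ℚ_[q] L] in
lemma coeff_one_conjPoly [IsGalois K L] (θ : L) :
    (conjPoly K L θ).coeff 1 = algebraMap K L (Algebra.trace K L θ) := by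
  rw [trace_eq_sum_automorphisms]
  exact (coeff_prod_one_add L Finset.univ (fun σ : L ≃ₐ[K] L => σ θ)).2

/-- The descended polynomial `h ∈ 𝒪_K[Y]` with `h(b) = N(1 + θ b)`, `h(0) = 1`,
`h'(0) = Tr θ`. -/
theorem exists_normPoly [IsGalois K L] (θ : L) (hθ : 0 ≤ ordT q L θ) :
    ∃ h : K[X], (∀ i, 0 ≤ ordT q K (h.coeff i)) ∧ h.coeff 0 = 1 ∧
      h.coeff 1 = Algebra.trace K L θ ∧
      ∀ b : K, h.eval b = Algebra.norm K (1 + θ * algebraMap K L b) := by
  obtain ⟨h, hh⟩ := exists_map_eq_conjPoly K L θ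
  have hinj : Function.Injective (algebraMap K L) := (algebraMap K L).injective
  have hcoeff : ∀ i, algebraMap K L (h.coeff i) = (conjPoly K L θ).coeff i := fun i => by
    rw [← hh, Polynomial.coeff_map]
  refine ⟨h, fun i => ?_, ?_, ?_, fun b => ?_⟩
  · rw [← ordT_algebraMap_nonneg_iff q K L, hcoeff]
    exact coeff_conjPoly_nonneg q K L θ hθ i
  · apply hinj
    rw [hcoeff, coeff_zero_conjPoly, map_one]
  · apply hinj
    rw [hcoeff, coeff_one_conjPoly]
  · apply hinj
    rw [← eval_conjPoly, ← hh, Polynomial.eval_map, Polynomial.eval₂_at_apply]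

end conj

section final

variable [Fact (HypAdd q)] [Fact (HypReps q)] [Fact (HypHensel q)]
variable (K : Type) [Field K] [Algebra ℚ_[q] K] [FiniteDimensional ℚ_[q] K]
variable (L : Type) [Field L] [Algebra ℚ_[q] L] [Algebra K L] [IsScalarTower ℚ_[q] K L]
  [FiniteDimensional K L] [FiniteDimensional ℚ_[q] L]

/-- Units are norms in unramified extensions, element form. -/
theorem exists_norm_eq_of_ordT_eq_zero [IsGalois K L] (h : IsUnram q K L) (φ : L ≃ₐ[K] L)
    (hφ : IsFrob q K L φ) (hgen : ∀ σ : L ≃ₐ[K] L, σ ∈ Subgroup.zpowers φ)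
    (hord : orderOf φ = Module.finrank K L) (u : K) (hu : ordT q K u = 0) :
    ∃ w : L, Algebra.norm K w = u := by
  obtain ⟨θ, hθ, htr⟩ := exists_trace_unit q K L h φ hφ hgen hord
  obtain ⟨w₀, hw₀, hN⟩ := exists_norm_congr q K L h φ hφ hgen hord u hu
  obtain ⟨P, hPint, hP0, hP1, hPev⟩ := exists_normPoly q K L θ hθ
  set a : K := Algebra.norm K w₀ with ha
  -- `ordT a = 0`
  have ha0 : 0 ≤ ordT q K a := by
    have : a = u + (a - u) := by ring
    rw [this]
    exact ordT_add_nonneg q K hu.ge hN.le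
  have ha1 : ordT q K a = 0 := by
    refine le_antisymm (not_lt.mp fun hpos => ?_) ha0
    have : u = a - (a - u) := by ring
    have h2 : 0 < ordT q K u := by
      rw [this]
      exact ordT_sub_pos q K hpos hN
    rw [hu] at h2
    exact lt_irrefl _ h2
  set F : K[X] := C a * P - C u with hF
  have hFint : ∀ i, 0 ≤ ordT q K (F.coeff i) := by
    intro i
    rw [hF, Polynomial.coeff_sub, Polynomial.coeff_C_mul, Polynomial.coeff_C]
    have h1 : 0 ≤ ordT q K (a * P.coeff i) := by
      rw [ordT_mul]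
      exact add_nonneg ha0 (hPint i)
    have h2 : 0 ≤ ordT q K (if i = 0 then u else 0) := by
      split_ifs
      · exact hu.ge
      · rw [ordT_zero]; exact le_top
    exact (Oq q K).sub_mem h1 h2
  have hF0 : F.eval 0 = a - u := by
    rw [hF, Polynomial.eval_sub, Polynomial.eval_mul, Polynomial.eval_C, Polynomial.eval_C,
      ← Polynomial.coeff_zero_eq_eval_zero, hP0, mul_one]
  have hF1 : F.derivative.eval 0 = a * Algebra.trace K L θ := by
    rw [hF, Polynomial.derivative_sub, Polynomial.derivative_C, sub_zero,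
      Polynomial.derivative_C_mul, Polynomial.eval_mul, Polynomial.eval_C,
      ← Polynomial.coeff_zero_eq_eval_zero, Polynomial.coeff_derivative, hP1]
    simp
  have hF1ord : ordT q K (F.derivative.eval 0) = 0 := by
    rw [hF1, ordT_mul, ha1, htr, add_zero]
  have hHens : 2 • ordT q K (F.derivative.eval 0) < ordT q K (F.eval 0) := by
    rw [hF1ord, hF0, smul_zero]
    exact hN
  obtain ⟨b, hb, -⟩ := (Fact.out : HypHensel q) K F hFint 0
    (by rw [ordT_zero]; exact le_top) hHens
  refine ⟨w₀ * (1 + θ * algebraMap K L b), ?_⟩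
  rw [map_mul, ← hPev b, ← ha]
  rw [hF, Polynomial.eval_sub, Polynomial.eval_mul, Polynomial.eval_C, Polynomial.eval_C,
    sub_eq_zero] at hb
  exact hb

end final

section interface

variable (K : Type) [Field K] [Algebra ℚ_[q] K] [FiniteDimensional ℚ_[q] K]
variable (L : Type) [Field L] [Algebra ℚ_[q] L] [Algebra K L] [IsScalarTower ℚ_[q] K L]
  [FiniteDimensional K L]

/-- **LOC-2b (1)**, conditional only on the Frobenius data of LOC-2a:
in an unramified extension every unit is a norm of a unit. -/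
theorem exists_norm_eq_of_isUnram_of_frob [IsGalois K L] (h : IsUnram q K L)
    (φ : L ≃ₐ[K] L) (hφ : IsFrob q K L φ)
    (hgen : ∀ σ : L ≃ₐ[K] L, σ ∈ Subgroup.zpowers φ)
    (hord : orderOf φ = Module.finrank K L) (u : Kˣ) (hu : u ∈ unitGroup q K) :
    ∃ w : Lˣ, w ∈ unitGroup q L ∧ normUnits K L w = u := by
  haveI : Fact (HypAdd q) := ⟨hypAdd q⟩
  haveI : Fact (HypReps q) := ⟨hypReps q⟩
  haveI : Fact (HypHensel q) := ⟨hypHensel q⟩
  haveI : FiniteDimensional ℚ_[q] L := Module.Finite.trans K L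
  have hn : 0 < Module.finrank K L := Module.finrank_pos
  have hu0 : ord q K u = 0 := (helper97.mem_unitGroup_iff q K u).mp hu
  have hu1 : ordT q K (u : K) = 0 := by
    rw [helper97.ordT_unit, hu0]
    rfl
  obtain ⟨w, hw⟩ := exists_norm_eq_of_ordT_eq_zero q K L h φ hφ hgen hord (u : K) hu1
  have hwne : w ≠ 0 := by
    rintro rfl
    rw [Algebra.norm_zero] at hw
    exact u.ne_zero hw.symm
  have hNw : normUnits K L (Units.mk0 w hwne) = u := by
    ext
    simpa [normUnits] using hw
  refine ⟨Units.mk0 w hwne, (helper97.mem_unitGroup_iff q L _).mpr ?_, hNw⟩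
  have h1 := helper33.ord_normUnits q K L (Units.mk0 w hwne)
  rw [hNw, hu0] at h1
  have hrelF : relF q K L = Module.finrank K L := by
    have h2 := (helper33.isUnram_iff q K L).mp h
    have h3 := helper33.relE_mul_relF q K L
    rw [h2, one_mul] at h3
    exact h3
  rw [hrelF] at h1
  rcases mul_eq_zero.mp h1.symm with h2 | h2
  · exact absurd (by exact_mod_cast h2) hn.ne'
  · exact h2

end interface

end Fermat.Agent.S55.helper96
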