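import Fermat.Agent.S55.helper90_Rec3Int
import Fermat.Agent.S55.helper79_SIdeal
import Fermat.Agent.S55.helper75_Rec4Defs

/-!
# S55 / REC3 R3-H1E: the final counting step (helper97, second prover for task 514)

* `index_le_index_range_nsmul` : abstract counting (`Φ : Z → A` additive into a finite abelian
  group, `W ⊇ ker Φ + p Z` ⟹ `[Z : W] ≤ [A : p A]`);
* `index_range_pow_clS` : `#(Cl_S / Cl_S ^ p) = #ClSModP` (`helper79.ClS` versus
  `helper75.ClSModP`);
* `card_H1ModP_le_of_hom`, `card_H1ModP_le_of_rel` : `#(H¹(U, E)/p) ≤ #(Cl_S(K)/p)` from a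
  class map on the level cocycles with kernel inside the coboundaries.
-/

set_option autoImplicit false
set_option linter.style.haveILetI false

open groupCohomology
open scoped NumberField nonZeroDivisors

noncomputable section

namespace Fermat.Agent.S55.helper97

section AbsCount

/-- for a finite additive commutative group, the `p`-torsion of a subgroup is not bigger than
the `p`-torsion of the group (in the form: index of `p A`) -/
theorem index_range_nsmul_le_of_injective {R A : Type*} [AddCommGroup R] [AddCommGroup A]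
    [Finite A] (f : R →+ A) (hf : Function.Injective f) (p : ℕ) :
    (nsmulAddMonoidHom p : R →+ R).range.index ≤ (nsmulAddMonoidHom p : A →+ A).range.index := by
  haveI : Finite R := Finite.of_injective f hf
  rw [AddSubgroup.index_range, AddSubgroup.index_range]
  refine Nat.card_le_card_of_injective
    (fun x : (nsmulAddMonoidHom p : R →+ R).ker => (⟨f x.1, ?_⟩ : (nsmulAddMonoidHom p : A →+ A).ker))
    ?_
  · have h := x.2
    rw [AddMonoidHom.mem_ker] at h ⊢
    simp only [nsmulAddMonoidHom_apply] at h ⊢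
    rw [← map_nsmul, h, map_zero]
  · intro x y hxy
    apply Subtype.ext
    apply hf
    exact congrArg Subtype.val hxy

/-- **abstract counting**: `Φ : Z → A` additive into a finite abelian group, `W ≤ Z` containing
`p Z` and `ker Φ`; then `[Z : W] ≤ [A : p A]`. -/
theorem index_le_index_range_nsmul {Z A : Type*} [AddCommGroup Z] [AddCommGroup A] [Finite A]
    (W : AddSubgroup Z) (p : ℕ) (Φ : Z →+ A) (hp : ∀ z, p • z ∈ W)
    (hker : ∀ z, Φ z = 0 → z ∈ W) :
    W.index ≠ 0 ∧ W.index ≤ (nsmulAddMonoidHom p : A →+ A).range.index := by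
  classical
  -- the range of `Φ`
  set R : AddSubgroup A := Φ.range with hR
  set Φ' : Z →+ R := Φ.rangeRestrict with hΦ'
  have hsurj : Function.Surjective Φ' := Φ.rangeRestrict_surjective
  set W' : AddSubgroup Z := (nsmulAddMonoidHom p : R →+ R).range.comap Φ' with hW'
  have hle : W' ≤ W := by
    intro z hz
    rw [hW', AddSubgroup.mem_comap, AddMonoidHom.mem_range] at hz
    obtain ⟨r, hr⟩ := hz
    obtain ⟨z', rfl⟩ := hsurj r
    simp only [nsmulAddMonoidHom_apply] at hr
    have h1 : Φ' (z - p • z') = 0 := by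
      rw [map_sub, map_nsmul, hr, sub_self]
    have h2 : Φ (z - p • z') = 0 := congrArg Subtype.val h1
    have h3 := W.add_mem (hker _ h2) (hp z')
    simpa using h3
  have hidx : W'.index = (nsmulAddMonoidHom p : R →+ R).range.index :=
    AddSubgroup.index_comap_of_surjective _ hsurj
  have hfin : (nsmulAddMonoidHom p : R →+ R).range.index ≠ 0 := by
    haveI : Finite R := inferInstance
    exact AddSubgroup.index_ne_zero_of_finite
  have hW'0 : W'.index ≠ 0 := by rw [hidx]; exact hfin
  have hdvd : W.index ∣ W'.index := AddSubgroup.index_dvd_of_le hle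
  have hW0 : W.index ≠ 0 := fun h0 => hW'0 (by simpa [h0] using hdvd)
  refine ⟨hW0, ?_⟩
  calc W.index ≤ W'.index := Nat.le_of_dvd (Nat.pos_of_ne_zero hW'0) hdvd
    _ = (nsmulAddMonoidHom p : R →+ R).range.index := hidx
    _ ≤ (nsmulAddMonoidHom p : A →+ A).range.index :=
        index_range_nsmul_le_of_injective R.subtype R.subtype_injective p

end AbsCount

section ClS

variable (K : Type*) [Field K] [NumberField K] (S : Finset Nat.Primes) (p : ℕ)

/-- `helper75.clSubgroup` is the preimage in the class group of the `p`-th powers of the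
`S`-class group `helper79.ClS`. -/
theorem clSubgroup_eq_comap :
    helper75.clSubgroup K p S =
      (powMonoidHom p : helper79.ClS K S →* helper79.ClS K S).range.comap
        (QuotientGroup.mk' (Subgroup.closure (helper75.classesOverS K S))) := by
  ext x
  rw [helper75.clSubgroup, Subgroup.closure_union, Subgroup.mem_comap, MonoidHom.mem_range]
  have hr : Subgroup.closure (Set.range fun c : ClassGroup (𝓞 K) => c ^ p) =
      (powMonoidHom p : ClassGroup (𝓞 K) →* ClassGroup (𝓞 K)).range := by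
    have : (Set.range fun c : ClassGroup (𝓞 K) => c ^ p) =
        ((powMonoidHom p : ClassGroup (𝓞 K) →* ClassGroup (𝓞 K)).range : Set _) := by
      ext y
      simp
    rw [this, Subgroup.closure_eq]
  rw [hr, Subgroup.mem_sup]
  constructor
  · rintro ⟨y, hy, z, ⟨c, rfl⟩, rfl⟩
    refine ⟨QuotientGroup.mk' _ c, ?_⟩
    rw [powMonoidHom_apply, powMonoidHom_apply, ← map_pow, map_mul]
    have : QuotientGroup.mk' (Subgroup.closure (helper75.classesOverS K S)) y = 1 :=
      (QuotientGroup.eq_one_iff y).2 hy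
    rw [this, one_mul]
  · rintro ⟨y, hy⟩
    obtain ⟨c, rfl⟩ := QuotientGroup.mk'_surjective _ y
    rw [powMonoidHom_apply, ← map_pow] at hy
    refine ⟨x / c ^ p, ?_, c ^ p, ⟨c, rfl⟩, by simp⟩
    rw [← QuotientGroup.eq_one_iff, ← QuotientGroup.mk'_apply, map_div, hy, div_self']

/-- `#(Cl_S / Cl_S^p) = #ClSModP` -/
theorem index_range_pow_clS :
    (powMonoidHom p : helper79.ClS K S →* helper79.ClS K S).range.index =
      Nat.card (helper75.ClSModP K p S) := by
  rw [← Subgroup.index_eq_card, clSubgroup_eq_comap,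
    Subgroup.index_comap_of_surjective _ (QuotientGroup.mk'_surjective _)]

/-- additive form -/
theorem index_range_nsmul_clS :
    (nsmulAddMonoidHom p : Additive (helper79.ClS K S) →+ Additive (helper79.ClS K S)).range.index =
      Nat.card (helper75.ClSModP K p S) := by
  rw [← index_range_pow_clS, ← Subgroup.index_toAddSubgroup]
  rfl

end ClS

section Main

variable {k U : Type} [CommRing k] [Group U] (𝒩 : Levels U) (p : ℕ) (E : Rep.{0} k U)
  (K : Type*) [Field K] [NumberField K] (S : Finset Nat.Primes)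

/-- **R3-H1E, final counting step**: an additive map from the level 1-cocycles to the `S`-class
group whose kernel consists of coboundaries gives `#(H¹/p) ≤ #(Cl_S/p)`. -/
theorem card_H1ModP_le_of_hom (Φ : ↥(Z1 𝒩 E) →+ Additive (helper79.ClS K S))
    (hker : ∀ z : ↥(Z1 𝒩 E), Φ z = 0 → (z : U → E) ∈ B1 E) :
    Finite (helper90.H1ModP 𝒩 p E) ∧
      Nat.card (helper90.H1ModP 𝒩 p E) ≤ Nat.card (helper75.ClSModP K p S) := by
  set W : AddSubgroup ↥(Z1 𝒩 E) :=
    ((helper90.pZ1B1 𝒩 p E).comap (Z1 𝒩 E).subtype).toAddSubgroup with hW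
  have hp : ∀ z : ↥(Z1 𝒩 E), p • z ∈ W := by
    intro z
    change ((p • z : ↥(Z1 𝒩 E)) : U → E) ∈ helper90.pZ1B1 𝒩 p E
    refine Submodule.mem_sup_right ⟨(z : U → E), z.2, ?_⟩
    simp [Nat.cast_smul_eq_nsmul]
  have hk : ∀ z : ↥(Z1 𝒩 E), Φ z = 0 → z ∈ W := fun z hz =>
    show (z : U → E) ∈ helper90.pZ1B1 𝒩 p E from Submodule.mem_sup_left (hker z hz)
  obtain ⟨h0, hle⟩ := index_le_index_range_nsmul W p Φ hp hk
  rw [index_range_nsmul_clS] at hle
  have hfin : Finite (↥(Z1 𝒩 E) ⧸ W) := AddSubgroup.index_ne_zero_iff_finite.1 h0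
  exact ⟨hfin, hle⟩

/-- relational variant: `R z c` = "the class of the level cocycle `z` is `c`". -/
theorem card_H1ModP_le_of_rel (R : (U → E) → helper79.ClS K S → Prop)
    (hex : ∀ z ∈ Z1 𝒩 E, ∃ c, R z c)
    (huniq : ∀ z ∈ Z1 𝒩 E, ∀ c c', R z c → R z c' → c = c')
    (hadd : ∀ z ∈ Z1 𝒩 E, ∀ z' ∈ Z1 𝒩 E, ∀ c c', R z c → R z' c' → R (z + z') (c * c'))
    (hker : ∀ z ∈ Z1 𝒩 E, R z 1 → z ∈ B1 E) :
    Finite (helper90.H1ModP 𝒩 p E) ∧
      Nat.card (helper90.H1ModP 𝒩 p E) ≤ Nat.card (helper75.ClSModP K p S) := by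
  classical
  choose! φ hφ using hex
  have hmul : ∀ z z' : ↥(Z1 𝒩 E), φ ((z + z' : ↥(Z1 𝒩 E)) : U → E) = φ z * φ z' := fun z z' =>
    huniq _ (z + z').2 _ _ (hφ _ (z + z').2) (hadd _ z.2 _ z'.2 _ _ (hφ _ z.2) (hφ _ z'.2))
  have hzero : φ ((0 : ↥(Z1 𝒩 E)) : U → E) = 1 := by
    have h := hmul 0 0
    rw [add_zero] at h
    exact (mul_eq_left.1 h.symm)
  let Φ : ↥(Z1 𝒩 E) →+ Additive (helper79.ClS K S) :=
    { toFun := fun z => Additive.ofMul (φ (z : U → E))
      map_zero' := by
        change Additive.ofMul (φ ((0 : ↥(Z1 𝒩 E)) : U → E)) = 0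
        rw [hzero]; rfl
      map_add' := fun z z' => by
        change Additive.ofMul (φ ((z + z' : ↥(Z1 𝒩 E)) : U → E)) = _
        rw [hmul]; rfl }
  refine card_H1ModP_le_of_hom 𝒩 p E K S Φ fun z hz => hker _ z.2 ?_
  have h1 : φ (z : U → E) = 1 := by
    have := congrArg Additive.toMul hz
    simpa [Φ] using this
  rw [← h1]
  exact hφ _ z.2

end Main

end Fermat.Agent.S55.helper97
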