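import Fermat.Agent.S55.helper97_SemiLocBridge
import Fermat.Agent.S55.helper8_LocDefs

/-!
# S55 / GLOB-G2b (helper97): `semiLoc_norm_index` from the local norm index theorem (LOC-3)

For a cyclic extension `L/K` of number fields of prime degree `p` (fields in `Type`), the index
of the norms in the `Gal(L/K)`-fixed units of `ℚ_q ⊗ L` is `p ^ #{nonsplit places of K over q}`.
The local input is the LOC-3 statement `card_quotient_norm_of_isCyclic` of the LOC interface,
taken here as the hypothesis `LocNormIndex q`.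
-/

set_option autoImplicit false
set_option linter.style.haveILetI false

open scoped Pointwise TensorProduct NumberField

namespace Fermat.Agent.S55.helper97

open Fermat.Agent.S55.helper73 Fermat.Agent.S55.helper8

/-- LOC-3 (local norm index theorem for cyclic extensions of `q`-adic fields), in the exact form
of the LOC interface. -/
def LocNormIndex (q : ℕ) [Fact q.Prime] : Prop :=
  ∀ (K : Type) [Field K] [Algebra ℚ_[q] K] [FiniteDimensional ℚ_[q] K] (L : Type) [Field L]
    [Algebra K L] [FiniteDimensional K L] [IsGalois K L] [IsCyclic (L ≃ₐ[K] L)],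
    Nat.card (Kˣ ⧸ (normUnits K L).range) = Module.finrank K L

section Final

variable (K L : Type) [Field K] [NumberField K] [Field L] [NumberField L] [Algebra K L]
  [IsGalois K L]
variable (q : ℕ) [Fact q.Prime]

/-- `semiLoc_norm_index` of the GLOB interface, from LOC-3. -/
theorem semiLoc_norm_index_of_locNormIndex (hLOC : LocNormIndex q) (p : ℕ) (hp : p.Prime)
    (hdeg : Module.finrank K L = p) :
    ((normG Gal(L/K) (SemiLoc q L)ˣ).range.subgroupOf (fixedSub Gal(L/K) (SemiLoc q L)ˣ)).index =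
      p ^ Nat.card {m : Ideal (SemiLoc q K) // m.IsMaximal ∧
        ∃! n : Ideal (SemiLoc q L), n.IsMaximal ∧ n.comap (bc K L q) = m} := by
  apply semiLoc_norm_index_of_loc K L q p hp hdeg
  intro n hn
  letI := semiLocAlgebra K L q
  letI := semiLoc_smulCommClass K L q
  letI := semiLoc_isInvariant K L q
  have hint : Algebra.IsIntegral (SemiLoc q K) (SemiLoc q L) :=
    Algebra.IsInvariant.isIntegral (SemiLoc q K) (SemiLoc q L) (L ≃ₐ[K] L)
  have hnmax := n.isMaximal
  have hPmax : (n.asIdeal.under (SemiLoc q K)).IsMaximal :=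
    Ideal.IsMaximal.under (SemiLoc q K) n.asIdeal
  letI := Ideal.Quotient.field (n.asIdeal.under (SemiLoc q K))
  letI := Ideal.Quotient.field n.asIdeal
  have hsep := semiLoc_isSeparable K L q n
  have hnormal : Normal (SemiLoc q K ⧸ n.asIdeal.under (SemiLoc q K)) (SemiLoc q L ⧸ n.asIdeal) :=
    Ideal.Quotient.normal (L ≃ₐ[K] L) (n.asIdeal.under (SemiLoc q K)) n.asIdeal
  have hfin : Module.Finite (SemiLoc q K ⧸ n.asIdeal.under (SemiLoc q K))
      (SemiLoc q L ⧸ n.asIdeal) :=
    Ideal.Quotient.finite_of_isInvariant (L ≃ₐ[K] L) (n.asIdeal.under (SemiLoc q K)) n.asIdeal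
  have hgal : IsGalois (SemiLoc q K ⧸ n.asIdeal.under (SemiLoc q K))
      (SemiLoc q L ⧸ n.asIdeal) := { }
  have hinert : ∀ σ : Gal(L/K), σ ≠ 1 → ∃ b : SemiLoc q L, σ • b - b ∉ n.asIdeal := by
    intro σ hσ
    obtain ⟨b, hb⟩ := exists_isUnit_smul_sub K L q σ hσ
    exact ⟨b, fun h => n.isMaximal.ne_top (Ideal.eq_top_of_isUnit_mem _ h hb)⟩
  have hbij : Function.Bijective (resGal (A := SemiLoc q K) n hn) :=
    ⟨resGal_injective n hn hinert, resGal_surjective n hn⟩
  have hcardG : Nat.card Gal(L/K) = p := by rw [IsGalois.card_aut_eq_finrank, hdeg]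
  have hcyc : IsCyclic Gal(L/K) := by
    haveI : Fact p.Prime := ⟨hp⟩
    exact isCyclic_of_prime_card hcardG
  have hcyc' : IsCyclic ((SemiLoc q L ⧸ n.asIdeal) ≃ₐ[SemiLoc q K ⧸ n.asIdeal.under (SemiLoc q K)]
      (SemiLoc q L ⧸ n.asIdeal)) :=
    isCyclic_of_surjective (resGal (A := SemiLoc q K) n hn) hbij.2
  have hfinQ : FiniteDimensional ℚ_[q] (SemiLoc q K ⧸ n.asIdeal.under (SemiLoc q K)) :=
    inferInstance
  have h1 := hLOC (SemiLoc q K ⧸ n.asIdeal.under (SemiLoc q K)) (SemiLoc q L ⧸ n.asIdeal)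
  have h2 : Module.finrank (SemiLoc q K ⧸ n.asIdeal.under (SemiLoc q K))
      (SemiLoc q L ⧸ n.asIdeal) = p := by
    rw [← IsGalois.card_aut_eq_finrank, ← hcardG]
    exact (Nat.card_congr (Equiv.ofBijective _ hbij)).symm
  rw [← h2, ← h1]
  rfl

end Final

end Fermat.Agent.S55.helper97
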