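import Fermat.Agent.S55.helper97_SemiLocNormIndex
import Fermat.Agent.S55.helper31_LocCyclic

/-!
# S55 / GLOB-G2b (helper97): `semiLoc_norm_index`, unconditional (fields in `Type`)

Wiring of the local norm index theorem (LOC-3, `helper31.card_quotient_norm_of_isCyclic`) into
`semiLoc_norm_index_of_locNormIndex`.
-/

set_option autoImplicit false

open scoped TensorProduct NumberField

namespace Fermat.Agent.S55.helper97

open Fermat.Agent.S55.helper73 Fermat.Agent.S55.helper8

/-- LOC-3 in the form consumed by the bridge. -/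
theorem locNormIndex (q : ℕ) [Fact q.Prime] : LocNormIndex q :=
  fun K _ _ _ L _ _ _ _ _ => Fermat.Agent.S55.helper31.card_quotient_norm_of_isCyclic q K L

/-- **Semilocal norm index**: for `L/K` Galois of prime degree `p` (number fields in `Type`),
`|Ĥ^0(Gal(L/K), (ℚ_q ⊗ L)ˣ)| = p ^ #{maximal ideals of ℚ_q ⊗ K with exactly one maximal ideal of
ℚ_q ⊗ L above them}`. -/
theorem semiLoc_norm_index (K L : Type) [Field K] [NumberField K] [Field L] [NumberField L]
    [Algebra K L] [IsGalois K L] (p : ℕ) (hp : p.Prime) (hdeg : Module.finrank K L = p)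
    (q : ℕ) [Fact q.Prime] :
    ((normG Gal(L/K) (SemiLoc q L)ˣ).range.subgroupOf (fixedSub Gal(L/K) (SemiLoc q L)ˣ)).index =
      p ^ Nat.card {m : Ideal (SemiLoc q K) // m.IsMaximal ∧
        ∃! n : Ideal (SemiLoc q L), n.IsMaximal ∧ n.comap (bc K L q) = m} :=
  semiLoc_norm_index_of_locNormIndex K L q (locNormIndex q) p hp hdeg

end Fermat.Agent.S55.helper97
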