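import Fermat.Agent.S55.TopTr
import Fermat.Agent.S55.helper30_BArDeg

/-!
# S55 / TOP-LOC-SUM (helper97): assembly of `TopLocStatement`

`TopLocStatement p S` follows from the local value statement `TopLocValueStatement p S`
(= TOP-LOC-B + TOP-LOC-INV: a twisted local 2-cocycle `b` at `p` whose restriction to the local
group `U_(p,j)` has invariant `χ(y_j)⁻¹ inv_(p,j) (b|U_(p,j)) = c · [K_(p,j) : ℚ_p]` for a
nonzero constant `c` independent of `j`) and from the degree formula
`∑_j [K_(p,j) : ℚ_p] = [F : ℚ]` (B-AR-DEG, `helper30.sum_finrank_Kw`).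
-/

set_option autoImplicit false
set_option linter.unusedSectionVars false

open groupCohomology ExtCitation

noncomputable section

namespace Fermat.Agent.S55.helper97

open Fermat.Agent.S55 Fermat.Agent.S55.helper35

attribute [local instance] Fermat.Agent.S55.helper59.factOfPrimes

variable (p : ℕ) [Fact p.Prime] (S : Finset Nat.Primes)

/-- TOP-LOC-B + TOP-LOC-INV in the shape consumed by the assembly: a twisted local 2-cocycle `b`
at `p` and a nonzero constant `c` with
`χ(y_j)⁻¹ · inv_(p,j) (b|U_(p,j)) = c · [K_(p,j) : ℚ_p]` for every `j`. -/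
def TopLocValueStatement : Prop :=
  p ≠ 2 → ∀ hpS : pPrime p ∈ S,
  ∀ (F : IntermediateField ℚ (AlgebraicClosure ℚ)) [FiniteDimensional ℚ F],
  ∀ (hU : ∃ N ∈ (galLevels S).mem, N ≤ F.fixingSubgroup)
    (D : ShData (galLocal S) F.fixingSubgroup)
    (Inv : helper11.LocInv) (ζ : (↥F)ˣ), IsPrimitiveRoot ζ p →
  ∀ inv : ∀ w : Σ v, D.J v,
      ((D.localData hU).Gv w × (D.localData hU).Gv w → ZMod p) →ₗ[ZMod p] ZMod p,
    (∀ w, ∀ c ∈ B2 ((D.localData hU).lev w) (trivRep (ZMod p) ((D.localData hU).Gv w)),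
      inv w c = 0) →
    helper59.InvCompat Inv ζ (shIsArith S F hU D) inv →
    ∃ b : (galLocal S).Gv ⟨pPrime p, hpS⟩ × (galLocal S).Gv ⟨pPrime p, hpS⟩ →
        (galLocal S).loc (groupCohomology.ofChar (k := ZMod p) (cycloChar p)) ⟨pPrime p, hpS⟩,
      b ∈ Z2 ((galLocal S).lev ⟨pPrime p, hpS⟩)
        ((galLocal S).loc (groupCohomology.ofChar (k := ZMod p) (cycloChar p)) ⟨pPrime p, hpS⟩) ∧
      ∃ c : ZMod p, c ≠ 0 ∧ ∀ j : D.J ⟨pPrime p, hpS⟩,
        (((cycloChar p (D.y ⟨pPrime p, hpS⟩ j))⁻¹ : (ZMod p)ˣ) : ZMod p) *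
          inv ⟨⟨pPrime p, hpS⟩, j⟩ (fun s =>
            (b ((D.Uw ⟨pPrime p, hpS⟩ j).subtype s.1, (D.Uw ⟨pPrime p, hpS⟩ j).subtype s.2) :
              ZMod p)) =
          c * ((Module.finrank ℚ_[(((shIsArith S F hU D).q ⟨⟨pPrime p, hpS⟩, j⟩ : Nat.Primes) : ℕ)]
            ((shIsArith S F hU D).Kw ⟨⟨pPrime p, hpS⟩, j⟩) : ℕ) : ZMod p)

variable {S}

/-- the local degrees over `v ∈ S` sum to the global degree (sigma-indexed form of
`helper30.sum_finrank_Kw`) -/
theorem sum_finrank_Kw_sigma (F : IntermediateField ℚ (AlgebraicClosure ℚ))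
    [FiniteDimensional ℚ F] (hU : ∃ N ∈ (galLevels S).mem, N ≤ F.fixingSubgroup)
    (D : ShData (galLocal S) F.fixingSubgroup) (v : ↥S) :
    ∑ j : D.J v, Module.finrank ℚ_[(((shIsArith S F hU D).q ⟨v, j⟩ : Nat.Primes) : ℕ)]
      ((shIsArith S F hU D).Kw ⟨v, j⟩) = Module.finrank ℚ F := by
  classical
  rw [← helper30.sum_finrank_Kw (shIsArith S F hU D) v.1 v.2]
  have hfilter : (Finset.univ.filter (fun w : Σ v, D.J v => (shIsArith S F hU D).q w = v.1)) =
      (Finset.univ : Finset (D.J v)).map (Function.Embedding.sigmaMk v) := by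
    ext ⟨v', j'⟩
    simp only [Finset.mem_filter, Finset.mem_univ, true_and, Finset.mem_map,
      Function.Embedding.sigmaMk_apply]
    constructor
    · intro h
      have hv : v' = v := Subtype.ext h
      subst hv
      exact ⟨j', rfl⟩
    · rintro ⟨j, hj⟩
      have := congrArg Sigma.fst hj
      simp only at this
      subst this
      rfl
  rw [hfilter, Finset.sum_map]
  rfl

variable (S)

/-- TOP-LOC-SUM: the assembly. -/
theorem topLocStatement_of_value (h : TopLocValueStatement p S) : TopLocStatement p S := by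
  intro hp2 hpS F _ hpF hU D Inv ζ hζ inv hinvB hcompat
  obtain ⟨b, hb, c, hc, hval⟩ := h hp2 hpS F hU D Inv ζ hζ inv hinvB hcompat
  refine ⟨b, hb, ?_⟩
  rw [Finset.sum_congr rfl (fun j _ => hval j), ← Finset.mul_sum, ← Nat.cast_sum,
    sum_finrank_Kw_sigma F hU D ⟨pPrime p, hpS⟩]
  refine mul_ne_zero hc ?_
  rwa [Ne, ZMod.natCast_eq_zero_iff]

end Fermat.Agent.S55.helper97
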