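import Fermat.Agent.S55.helper97_TopLocAsm
import Fermat.Agent.S55.helper30_TopLocB

/-!
# S55 / TOP-LOC-SUM (helper97): wiring of TOP-LOC-B into the assembly

`TopLocStatement p S` from the value formula of TOP-LOC-INV for the cocycle `d.bTop` of
`helper30.TopLocData` (TOP-LOC-B, landed): `topLocStatement_of_inv`.
-/

set_option autoImplicit false
set_option linter.unusedSectionVars false

open groupCohomology ExtCitation

noncomputable section

namespace Fermat.Agent.S55.helper97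

open Fermat.Agent.S55 Fermat.Agent.S55.helper35

attribute [local instance] Fermat.Agent.S55.helper59.factOfPrimes

variable (p : ℕ) [Fact p.Prime] (S : Finset Nat.Primes)

/-- TOP-LOC-INV in the shape consumed by the final wiring: the value formula for the cocycle
`d.bTop` of an arbitrary `d : helper30.TopLocData p ζ`. -/
def TopLocInvStatement : Prop :=
  p ≠ 2 → ∀ hpS : pPrime p ∈ S,
  ∀ (F : IntermediateField ℚ (AlgebraicClosure ℚ)) [FiniteDimensional ℚ F],
  ∀ (hU : ∃ N ∈ (galLevels S).mem, N ≤ F.fixingSubgroup)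
    (D : ShData (galLocal S) F.fixingSubgroup)
    (Inv : helper11.LocInv) (ζ : (↥F)ˣ), IsPrimitiveRoot ζ p →
  ∀ inv : ∀ w : Σ v, D.J v,
      ((D.localData hU).Gv w × (D.localData hU).Gv w → ZMod p) →ₗ[ZMod p] ZMod p,
    (∀ w, ∀ c ∈ B2 ((D.localData hU).lev w) (trivRep (ZMod p) ((D.localData hU).Gv w)),
      inv w c = 0) →
    helper59.InvCompat Inv ζ (shIsArith S F hU D) inv →
    ∀ (d : helper30.TopLocData p (((ζ : (↥F)ˣ) : ↥F) : AlgebraicClosure ℚ))
      (j : D.J ⟨pPrime p, hpS⟩),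
        (((cycloChar p (D.y ⟨pPrime p, hpS⟩ j))⁻¹ : (ZMod p)ˣ) : ZMod p) *
          inv ⟨⟨pPrime p, hpS⟩, j⟩ (fun s =>
            d.bTop ((D.Uw ⟨pPrime p, hpS⟩ j).subtype s.1, (D.Uw ⟨pPrime p, hpS⟩ j).subtype s.2)) =
          ((Module.finrank ℚ_[(((shIsArith S F hU D).q ⟨⟨pPrime p, hpS⟩, j⟩ : Nat.Primes) : ℕ)]
            ((shIsArith S F hU D).Kw ⟨⟨pPrime p, hpS⟩, j⟩) : ℕ) : ZMod p)

/-- a primitive root of unity of `F`, as an element of `ℚbar` -/
theorem isPrimitiveRoot_coe {F : IntermediateField ℚ (AlgebraicClosure ℚ)} {ζ : (↥F)ˣ}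
    (hζ : IsPrimitiveRoot ζ p) :
    IsPrimitiveRoot ((((ζ : (↥F)ˣ) : ↥F) : AlgebraicClosure ℚ)) p :=
  (IsPrimitiveRoot.coe_units_iff.2 hζ).map_of_injective
    (f := algebraMap ↥F (AlgebraicClosure ℚ)) (algebraMap ↥F (AlgebraicClosure ℚ)).injective

/-- TOP-LOC-B + TOP-LOC-INV give the value statement (with `c = 1`). -/
theorem topLocValueStatement_of_inv (h : TopLocInvStatement p S) : TopLocValueStatement p S := by
  intro hp2 hpS F _ hU D Inv ζ hζ inv hinvB hcompat
  obtain ⟨d⟩ := helper30.nonempty_topLocData (isPrimitiveRoot_coe p hζ)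
  refine ⟨d.bTop, d.bTop_mem_Z2 (isPrimitiveRoot_coe p hζ) S hpS, 1, one_ne_zero, fun j => ?_⟩
  rw [one_mul]
  exact h hp2 hpS F hU D Inv ζ hζ inv hinvB hcompat d j

/-- TOP-LOC: final wiring. -/
theorem topLocStatement_of_inv (h : TopLocInvStatement p S) : TopLocStatement p S :=
  topLocStatement_of_value p S (topLocValueStatement_of_inv p S h)

end Fermat.Agent.S55.helper97
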