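import Fermat.Agent.S55.helper90_Rec3LocDef

/-!
# S55 / REC3, package R3-LOC-KUM (helper98, task 527)

Kummer theory of `Ω_w = (PadicAlgCl q)ˣ` for the arithmetic local system `arithLocSys hF hL`:

* `loc_div` : `Ω_w` is `p`-divisible (`PadicAlgCl q` is algebraically closed);
* `loc_torsion` : the `p`-torsion of `Ω_w` is the image of the local Kummer map;
* `loc_κ_inj` : the local Kummer map is injective.

Statements verbatim from `helper90`'s `Rec3LocInterface`.
-/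

set_option autoImplicit false
set_option linter.unusedSectionVars false
set_option linter.unusedFintypeInType false

open groupCohomology ExtCitation

noncomputable section

namespace Fermat.Agent.S55.helper98

open Fermat.Agent.S55 Fermat.Agent.S55.helper59 Fermat.Agent.S55.helper69
  Fermat.Agent.S55.helper73 Fermat.Agent.S55.helper90

local instance factOfPrimesR3K (q : Nat.Primes) : Fact (q : ℕ).Prime := ⟨q.2⟩

local notation "Qbar" => AlgebraicClosure ℚ

variable {p : ℕ} [Fact p.Prime] {S : Finset Nat.Primes} {F : IntermediateField ℚ Qbar}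
  [FiniteDimensional ℚ F] (hF : F.IsUnramifiedOutside S)
  {ι : Type} [Fintype ι] {L : LocalData (UF F) (sLevelsStr S F hF) ι} (hL : IsArith S F L)

/-- **R3-LOC-KUM (div)**: `Ω_w` is `p`-divisible. -/
theorem loc_div (w : ι) (x : (arithLocSys hF hL).Ω w) :
    ∃ y : (arithLocSys hF hL).Ω w, p • y = x := by
  have hp : 0 < p := (Fact.out : p.Prime).pos
  let u : (PadicAlgCl (hL.q w : ℕ))ˣ := Additive.toMul x
  obtain ⟨z, hz⟩ := IsAlgClosed.exists_pow_nat_eq (u : PadicAlgCl (hL.q w : ℕ)) hp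
  have hz0 : z ≠ 0 := by
    intro h
    rw [h, zero_pow hp.ne'] at hz
    exact u.ne_zero hz.symm
  refine ⟨Additive.ofMul (Units.mk0 z hz0), ?_⟩
  change Additive.ofMul ((Units.mk0 z hz0) ^ p) = x
  have : (Units.mk0 z hz0) ^ p = u := by
    apply Units.ext
    rw [Units.val_pow_eq_pow_val, Units.val_mk0, hz]
  rw [this]
  rfl

/-- the image of `ζ` in `PadicAlgCl (q w)` -/
def locZeta (ζ : (↥F)ˣ) (w : ι) : PadicAlgCl (hL.q w : ℕ) :=
  padicEmbedding (hL.q w : ℕ) (((hL.g w)⁻¹ : Qbar ≃ₐ[ℚ] Qbar) (algebraMap ↥F Qbar (ζ : ↥F)))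

theorem isPrimitiveRoot_locZeta (ζ : (↥F)ˣ) (hζ : IsPrimitiveRoot ζ p) (w : ι) :
    IsPrimitiveRoot (locZeta hF hL ζ w) p := by
  have h1 : IsPrimitiveRoot (ζ : ↥F) p := IsPrimitiveRoot.coe_units_iff.mpr hζ
  have h2 : IsPrimitiveRoot (algebraMap ↥F Qbar (ζ : ↥F)) p :=
    h1.map_of_injective (algebraMap ↥F Qbar).injective
  have h3 : IsPrimitiveRoot (((hL.g w)⁻¹ : Qbar ≃ₐ[ℚ] Qbar) (algebraMap ↥F Qbar (ζ : ↥F))) p :=
    h2.map_of_injective ((hL.g w)⁻¹ : Qbar ≃ₐ[ℚ] Qbar).injective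
  exact h3.map_of_injective (padicEmbedding (hL.q w : ℕ)).toRingHom.injective

/-- the value of the local Kummer map -/
theorem locκ_val (ζ : (↥F)ˣ) (K : KummerDatum (repES S F hF) p)
    (hK : ∀ a : ZMod p,
      (((Additive.toMul (K.κ a) : bigES S F hF) : Idele Qbar) : IdelePi Qbar) = zetaPi ζ a)
    (w : ι) (a : ZMod p) :
    ((Additive.toMul ((arithLocSys hF hL).κ (fundSeqS S F hF) K w a) :
        (PadicAlgCl (hL.q w : ℕ))ˣ) : PadicAlgCl (hL.q w : ℕ)) = locZeta hF hL ζ w ^ a.val := by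
  have h1 : ((Additive.toMul ((arithLocSys hF hL).κ (fundSeqS S F hF) K w a) :
        (PadicAlgCl (hL.q w : ℕ))ˣ) : PadicAlgCl (hL.q w : ℕ)) =
      evAt (hL.q w : ℕ) (hL.g w)
        ((((((Additive.toMul (K.κ a) : bigES S F hF) : Idele Qbar) : IdelePi Qbar) (hL.q w) :
          (SemiLoc (hL.q w : ℕ) Qbar)ˣ) : SemiLoc (hL.q w : ℕ) Qbar)) := rfl
  rw [h1, hK a, zetaPi, principalPi_apply_coe, evAt_tmul, map_one, one_mul, locZeta]
  simp only [Units.val_pow_eq_pow_val, Units.coe_map, MonoidHom.coe_coe, map_pow]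

/-- **R3-LOC-KUM (torsion)** -/
theorem loc_torsion (ζ : (↥F)ˣ) (hζ : IsPrimitiveRoot ζ p) (K : KummerDatum (repES S F hF) p)
    (hK : ∀ a : ZMod p,
      (((Additive.toMul (K.κ a) : bigES S F hF) : Idele Qbar) : IdelePi Qbar) = zetaPi ζ a)
    (w : ι) (x : (arithLocSys hF hL).Ω w) (hx : p • x = 0) :
    ∃ a : ZMod p, (arithLocSys hF hL).κ (fundSeqS S F hF) K w a = x := by
  have hp : 0 < p := (Fact.out : p.Prime).pos
  have : NeZero p := ⟨hp.ne'⟩
  let u : (PadicAlgCl (hL.q w : ℕ))ˣ := Additive.toMul x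
  have hu : u ^ p = 1 := by
    have h1 : Additive.ofMul (u ^ p) = (0 : Additive (PadicAlgCl (hL.q w : ℕ))ˣ) := hx
    exact h1
  have hu' : (u : PadicAlgCl (hL.q w : ℕ)) ^ p = 1 := by
    rw [← Units.val_pow_eq_pow_val, hu, Units.val_one]
  obtain ⟨i, hi, hiu⟩ := (isPrimitiveRoot_locZeta hF hL ζ hζ w).eq_pow_of_pow_eq_one hu'
  refine ⟨(i : ZMod p), ?_⟩
  have hval : ((i : ZMod p)).val = i := ZMod.val_cast_of_lt hi
  have h2 := locκ_val hF hL ζ K hK w (i : ZMod p)
  rw [hval, hiu] at h2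
  have h3 : (Additive.toMul ((arithLocSys hF hL).κ (fundSeqS S F hF) K w (i : ZMod p)) :
      (PadicAlgCl (hL.q w : ℕ))ˣ) = u := Units.ext h2
  exact congrArg Additive.ofMul h3

/-- **R3-LOC-KUM (κ_inj)** -/
theorem loc_κ_inj (ζ : (↥F)ˣ) (hζ : IsPrimitiveRoot ζ p) (K : KummerDatum (repES S F hF) p)
    (hK : ∀ a : ZMod p,
      (((Additive.toMul (K.κ a) : bigES S F hF) : Idele Qbar) : IdelePi Qbar) = zetaPi ζ a)
    (w : ι) : Function.Injective ((arithLocSys hF hL).κ (fundSeqS S F hF) K w) := by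
  have hp : 0 < p := (Fact.out : p.Prime).pos
  have : NeZero p := ⟨hp.ne'⟩
  intro a b hab
  have ha := locκ_val hF hL ζ K hK w a
  have hb := locκ_val hF hL ζ K hK w b
  rw [hab, hb] at ha
  have := (isPrimitiveRoot_locZeta hF hL ζ hζ w).pow_inj (ZMod.val_lt b) (ZMod.val_lt a) ha
  exact (ZMod.val_injective p this).symm

end Fermat.Agent.S55.helper98

end
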