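import Fermat.Agent.S55.helper98_Rec4BrE
import Fermat.Agent.S55.helper48_Rec4BrTr

/-!
# S55 / REC4, package R4-BR-E, unconditional form (helper98, task 391)

`apply_eq_zero_of_mem_decompositionSubgroup`: verbatim statement of
`helper75.BridgeInterface.apply_eq_zero_of_mem_decompositionSubgroup`, obtained from the
conditional form and the transitivity theorem `helper48.exists_smul_eq_of_liesOverPrime`.
-/

set_option autoImplicit false

open groupCohomology ExtCitation
open scoped Pointwise

noncomputable section

namespace Fermat.Agent.S55.helper98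

open Fermat.Agent.S55 Fermat.Agent.S55.helper59

section E

variable {S : Finset Nat.Primes} {F : IntermediateField ℚ (AlgebraicClosure ℚ)}
  {𝒩 : Levels (UF F)} {ι : Type} {L : LocalData (UF F) 𝒩 ι}

/-- a character of `U` vanishing on all local groups vanishes on `D_A ∩ U` for every valuation
subring `A` of `ℚbar` over a prime of `S` -/
theorem apply_eq_zero_of_mem_decompositionSubgroup (hL : IsArith S F L) {X : Type*}
    [AddCommGroup X] (x : UF F → X) (hx : ∀ g h : UF F, x (g * h) = x g + x h)
    (hloc : ∀ w, ∀ s : L.Gv w, x (L.r w s) = 0)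
    (q : Nat.Primes) (hq : q ∈ S) (A : ValuationSubring (AlgebraicClosure ℚ))
    (hA : A.LiesOverPrime (q : ℕ)) (σ : UF F)
    (hσ : ((σ : UF F) : GQ) ∈ A.decompositionSubgroup ℚ) : x σ = 0 :=
  apply_eq_zero_of_mem_decompositionSubgroup_of_transitive
    (fun hℓ A B hA hB => Fermat.Agent.S55.helper48.exists_smul_eq_of_liesOverPrime hℓ A B hA hB)
    hL x hx hloc q hq A hA σ hσ

end E

end Fermat.Agent.S55.helper98
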