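import Mathlib
import Fermat.Agent.S14.Defs
import Fermat.Agent.S55.helper75_Rec4Hyps
import Fermat.Agent.S55.helper96_LocUnramCoh
import Fermat.Agent.S55.helper31_CyclicClass
import Fermat.Agent.S55.helper30_RecArtSum

/-!
# S55 / REC4, package R4-R-CYC (helper99, task 354)

Artin reciprocity for a cyclic everywhere unramified extension `M/F` of number fields of
`p`-power degree, from the REC1 package statements `RecMain`, `RecTame`, `RecExist` (taken as
hypotheses): the Artin symbol of a nonzero principal ideal is trivial.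
-/

set_option autoImplicit false

open scoped NumberField nonZeroDivisors IsMulCommutative
open IsDedekindDomain

namespace Fermat.Agent.S55.helper99

open Fermat.Agent.S14 Fermat.Agent.S55.helper8 Fermat.Agent.S55.helper11
open Fermat.Agent.S55.helper75

/-- `m • (χ_σ, c) = (χ_σ, c ^ m)`. -/
theorem nsmul_cyclicClass (K L : Type) [Field K] [Field L] [Algebra K L] [FiniteDimensional K L]
    (φ : L ≃ₐ[K] L) (hgen : ∀ σ : L ≃ₐ[K] L, σ ∈ Subgroup.zpowers φ) (b : Kˣ) (m : ℕ) :
    m • cyclicClass K L φ b = cyclicClass K L φ (b ^ m) := by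
  induction m with
  | zero =>
    have h := helper96.cyclicClass_mul K L φ hgen 1 1
    rw [mul_one] at h
    have h0 : cyclicClass K L φ 1 = 0 := add_eq_left.mp h.symm
    rw [zero_nsmul, pow_zero, h0]
  | succ m ih =>
    rw [succ_nsmul, ih, pow_succ, helper96.cyclicClass_mul K L φ hgen]

/-- **R4-R-CYC**: reciprocity for a cyclic unramified extension of `p`-power degree, from REC1. -/
theorem hasReciprocity_of_isCyclic (I : LocInv) (p : ℕ) [Fact p.Prime]
    (hMain : RecMain I p) (hTame : RecTame I) (hExist : RecExist)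
    (F M : Type) [Field F] [NumberField F] [Field M] [NumberField M] [Algebra F M]
    [IsAbelianGalois F M] (hunr : IsUnramifiedEverywhere F M)
    (σ : Gal(M/F)) (hσ : ∀ τ : Gal(M/F), τ ∈ Subgroup.zpowers σ)
    (n : ℕ) (hdeg : Module.finrank F M = p ^ n) : HasReciprocity F M := by
  classical
  intro 𝔞 hprinc
  obtain ⟨a, ha⟩ := hprinc
  have h𝔞 : (𝔞 : Ideal (𝓞 F)) = Ideal.span {a} := ha
  have h𝔞0 : (𝔞 : Ideal (𝓞 F)) ≠ ⊥ := nonZeroDivisors.coe_ne_zero 𝔞
  have ha0 : a ≠ 0 := by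
    rintro rfl
    apply h𝔞0
    rw [h𝔞]
    simp
  have haF : (algebraMap (𝓞 F) F a) ≠ 0 := by
    rwa [Ne, map_eq_zero_iff _ (FaithfulSMul.algebraMap_injective (𝓞 F) F)]
  set c : Fˣ := Units.mk0 (algebraMap (𝓞 F) F a) haF with hc
  set x := cyclicClass F M σ c with hx
  -- `p ^ n • x = 0`
  have hxn : p ^ n • x = 0 := by
    rw [hx, nsmul_cyclicClass F M σ hσ, helper31.cyclicClass_eq_zero_iff_norm F M σ hσ]
    refine ⟨Units.map (algebraMap F M : F →* M) c, ?_⟩
    ext
    simp [normUnits, Algebra.norm_algebraMap, hdeg]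
  -- exponents and Frobenius powers
  have hk' : ∀ w : HeightOneSpectrum (𝓞 F), ∃ k : ℕ, frobAt F M w.asIdeal = σ ^ k := by
    intro w
    obtain ⟨k, hk⟩ := helper31.exists_pow_eq_of_mem_zpowers (hσ (frobAt F M w.asIdeal))
    exact ⟨k, hk.symm⟩
  choose k hk using hk'
  have he' : ∀ w : HeightOneSpectrum (𝓞 F), ∃ e : ℕ,
      w.valuation F (algebraMap (𝓞 F) F a) = WithZero.exp (-(e : ℤ)) := by
    intro w
    refine ⟨(Associates.mk w.asIdeal).count
      (Associates.mk (Ideal.span {a} : Ideal (𝓞 F))).factors, ?_⟩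
    rw [HeightOneSpectrum.valuation_of_algebraMap, HeightOneSpectrum.intValuation_if_neg w ha0]
  choose e he using he'
  have he0 : ∀ w : HeightOneSpectrum (𝓞 F), a ∉ w.asIdeal → e w = 0 := by
    intro w hw
    have h1 := he w
    rw [HeightOneSpectrum.valuation_of_algebraMap] at h1
    have h2 : w.intValuation a = 1 := by
      by_contra hne
      have hlt : w.intValuation a < 1 := lt_of_le_of_ne (w.intValuation_le_one a) hne
      exact hw ((w.intValuation_lt_one_iff_mem a).mp hlt)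
    rw [h2, ← WithZero.exp_zero] at h1
    have h3 := WithZero.exp_injective h1
    omega
  -- the finite set of primes dividing `a`
  have hfin : {w : HeightOneSpectrum (𝓞 F) | a ∈ w.asIdeal}.Finite := by
    have hI : (Ideal.span {a} : Ideal (𝓞 F)) ≠ 0 := by
      simpa [Ideal.span_singleton_eq_bot] using ha0
    refine (Ideal.finite_factors hI).subset ?_
    intro w hw
    exact Ideal.dvd_span_singleton.mpr hw
  set S : Finset (HeightOneSpectrum (𝓞 F)) := hfin.toFinset with hS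
  have hSmem : ∀ w : HeightOneSpectrum (𝓞 F), a ∈ w.asIdeal → w ∈ S := by
    intro w hw
    rw [hS, Set.Finite.mem_toFinset]
    exact hw
  -- unramifiedness in the shape of `RecTame`
  have hunr' : ∀ w : HeightOneSpectrum (𝓞 F), ∀ P : Ideal (𝓞 M), P.IsPrime →
      P.under (𝓞 F) = w.asIdeal → ∀ τ : Gal(M/F), (∀ y : 𝓞 M, τ • y - y ∈ P) → τ = 1 := by
    intro w P hP hPw τ hτ
    refine hunr P hP ?_ τ hτ
    rintro rfl
    apply w.ne_bot
    rw [← hPw]
    exact Ideal.comap_bot_of_injective _ (FaithfulSMul.algebraMap_injective (𝓞 F) (𝓞 M))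
  -- local data
  choose q hq D hD using hExist F M
  -- the local invariants
  have hinv : ∀ w : HeightOneSpectrum (𝓞 F),
      I.inv (q w) (D w).Kv (D w).Lw ((D w).loc x) =
        ((((k w : ℚ) * ((e w : ℤ) : ℚ) / (Module.finrank F M : ℚ) : ℚ)) : QZ) :=
    fun w => hTame (q w) F M (D w) w (hD w) (hunr' w) σ hσ (k w) (hk w) c (e w) (he w)
  -- vanishing outside `S`
  have hsupp : ∀ (r : ℕ) [Fact r.Prime] (E : LocDatum r F M) (w : HeightOneSpectrum (𝓞 F)),
      E.AtPlace w → (∀ i : S, w ≠ i.1) → E.loc x = 0 := by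
    intro r _ E w hEw hw
    have hwS : a ∉ w.asIdeal := fun h => hw ⟨w, hSmem w h⟩ rfl
    have h1 := hTame r F M E w hEw (hunr' w) σ hσ (k w) (hk w) c (e w) (he w)
    rw [he0 w hwS] at h1
    have h2 : I.inv r E.Kv E.Lw (E.loc x) = 0 := by
      rw [h1]
      simp
    have h3 := I.injective r E.Kv E.Lw
    apply h3
    rw [h2, map_zero]
  have : ∀ i : S, Fact (q i.1).Prime := fun i => hq i.1
  have hsum := hMain F M x n hxn S (fun i => q i.1) (fun i => D i.1) (fun i => i.1)
    (fun i => hD i.1) Subtype.val_injective hsupp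
  have hsum2 : ∑ i : S, ((((k i.1 : ℚ) * ((e i.1 : ℤ) : ℚ) / (Module.finrank F M : ℚ) : ℚ)) : QZ)
      = 0 := by
    rw [← hsum]
    exact Finset.sum_congr rfl (fun i _ => (hinv i.1).symm)
  have hsum3 : (((∑ i : S, ((k i.1 : ℚ) * ((e i.1 : ℤ) : ℚ) / (Module.finrank F M : ℚ))) : ℚ) : QZ)
      = 0 := by
    rw [← hsum2]
    exact map_sum (QuotientAddGroup.mk' (AddSubgroup.zmultiples (1 : ℚ))) _ _
  rw [AddCircle.coe_eq_zero_iff] at hsum3
  obtain ⟨m, hm⟩ := hsum3
  have hpn : ((p ^ n : ℕ) : ℚ) ≠ 0 := by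
    have : p ^ n ≠ 0 := pow_ne_zero n (Fact.out : p.Prime).ne_zero
    exact_mod_cast this
  have hdvd : ((p ^ n : ℕ) : ℤ) ∣ ∑ w ∈ S, (k w : ℤ) * (e w : ℤ) := by
    refine ⟨m, ?_⟩
    have h1 : (∑ i : S, ((k i.1 : ℚ) * ((e i.1 : ℤ) : ℚ) / (Module.finrank F M : ℚ))) =
        (∑ w ∈ S, ((k w : ℚ) * ((e w : ℤ) : ℚ))) / ((p ^ n : ℕ) : ℚ) := by
      rw [Finset.sum_coe_sort S (fun w => (k w : ℚ) * ((e w : ℤ) : ℚ) / (Module.finrank F M : ℚ)),
        Finset.sum_div, hdeg]
    rw [h1, zsmul_eq_mul, mul_one, eq_div_iff hpn] at hm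
    have h2 : ((∑ w ∈ S, (k w : ℤ) * (e w : ℤ) : ℤ) : ℚ) = (((p ^ n : ℕ) : ℤ) * m : ℤ) := by
      push_cast
      push_cast at hm
      rw [← hm]
      ring
    exact_mod_cast h2
  have hdvdN : p ^ n ∣ ∑ w ∈ S, k w * e w := by
    have : ((p ^ n : ℕ) : ℤ) ∣ ((∑ w ∈ S, k w * e w : ℕ) : ℤ) := by
      push_cast
      push_cast at hdvd
      exact hdvd
    exact Int.natCast_dvd_natCast.mp this
  -- the Artin symbol
  rw [helper30.artinMap_span_eq_prod F M S a hSmem 𝔞 h𝔞]
  have h1 : ∏ w ∈ S, frobAt F M w.asIdeal ^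
      Multiset.count w.asIdeal
        (UniqueFactorizationMonoid.normalizedFactors (Ideal.span {a} : Ideal (𝓞 F))) =
      σ ^ ∑ w ∈ S, k w * e w := by
    rw [← Finset.prod_pow_eq_pow_sum]
    refine Finset.prod_congr rfl fun w _ => ?_
    rw [hk w, helper30.count_eq_of_valuation w a ha0 (e w) (he w), ← pow_mul]
  rw [h1]
  obtain ⟨t, ht⟩ := hdvdN
  have hord : σ ^ (p ^ n) = 1 := by
    rw [← hdeg, ← IsGalois.card_aut_eq_finrank]
    exact pow_card_eq_one'
  rw [ht, pow_mul, hord, one_pow]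

end Fermat.Agent.S55.helper99
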