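import Fermat.Agent.S55.helper9_Rec3C2Abs
import Fermat.Agent.S55.helper6_Rec3C1
import Fermat.Agent.S55.helper33_Rec2Wiring

/-!
# S55 / REC3 / R3-C2 : the `p`-primary part of `H²(G_S, C(F_S))` is locally cyclic
(helper9, task 511)

* `HypH2Cyc p` : the finite-level input (REC2): `H²(Gal(L/K), C_L)` is generated by one class
  for every Galois extension `L/K` of number fields of degree a power of `p`;
* `hypH2Cyc_of_glob` : `HypH2Cyc p` from the two GLOB G9 statements (REC2 `card_H2_ideleClass`);
* `exists_gen_H2_res_ideleClass_of_isPGroup` : `H²(P, C_E)` is generated by one class for every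
  `p`-subgroup `P` of the Galois group of ANY finite Galois extension `E/K`;
* `c2Cyc_of_ideleClassReal` : `helper90.C2Cyc` for a big module realised at cofinal finite levels
  by idele class groups (`helper6.IdeleClassReal`);
* `c2S_of`, `c2S_of_glob` : `helper90.C2S p S F hF` (= `Interface.c2S`), conditional on the
  finite-level input and on the arithmetic dictionary R3-DIC for `C`.
-/

set_option autoImplicit false

open groupCohomology CategoryTheory CategoryTheory.Limits Fermat.Agent.S55.helper73

noncomputable section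

namespace Fermat.Agent.S55.helper9

open Fermat.Agent.S55 Fermat.Agent.S55.helper90 Fermat.Agent.S55.helper46

/-! ## The finite-level input -/

/-- **REC2 (O2′)**, as a hypothesis: for a Galois extension `L/K` of number fields of degree a
power of `p`, the group `H²(Gal(L/K), C_L)` is generated by one class. -/
def HypH2Cyc (p : ℕ) : Prop :=
  ∀ (K L : Type) [Field K] [NumberField K] [Field L] [NumberField L] [Algebra K L]
    [IsGalois K L] (n : ℕ) (_ : Module.finrank K L = p ^ n),
    ∃ γ : groupCohomology (Rep.ofMulDistribMulAction Gal(L/K) (IdeleClass L)) 2,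
      ∀ x : groupCohomology (Rep.ofMulDistribMulAction Gal(L/K) (IdeleClass L)) 2,
        ∃ m : ℤ, x = m • γ

/-- `HypH2Cyc p` from the two GLOB G9 statements, through REC2. -/
theorem hypH2Cyc_of_glob (hH1 : helper1.HypGlobH1) (hH2 : helper1.HypGlobH2) (p : ℕ)
    (hp : p.Prime) (hp2 : p ≠ 2) : HypH2Cyc p :=
  fun K L _ _ _ _ _ _ n hdeg =>
    (helper33.card_H2_ideleClass_of_glob hH1 hH2 K L p hp hp2 n hdeg).2

section Finite

variable (p : ℕ) [Fact p.Prime]

/-- **`H²(P, C_E)` is generated by one class** for every `p`-subgroup `P` of `Gal(E/K)`, `E/K`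
any finite Galois extension of number fields. -/
theorem exists_gen_H2_res_ideleClass_of_isPGroup (h : HypH2Cyc p)
    (K E : Type) [Field K] [NumberField K] [Field E] [NumberField E] [Algebra K E]
    [IsGalois K E] (P : Subgroup Gal(E/K)) (hP : IsPGroup p P) :
    ∃ γ : groupCohomology
        (Rep.res P.subtype (Rep.ofMulDistribMulAction Gal(E/K) (IdeleClass E))) 2,
      ∀ x : groupCohomology
        (Rep.res P.subtype (Rep.ofMulDistribMulAction Gal(E/K) (IdeleClass E))) 2,
        ∃ m : ℤ, x = m • γ := by
  have : FiniteDimensional K E := Module.Finite.of_restrictScalars_finite ℚ K E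
  obtain ⟨k, hk⟩ := IsPGroup.iff_card.mp hP
  have hdeg : Module.finrank (IntermediateField.fixedField P) E = p ^ k := by
    rw [IntermediateField.finrank_fixedField_eq_card, hk]
  obtain ⟨γ', hγ'⟩ := h (IntermediateField.fixedField P) E k hdeg
  set e := (helper1.resIdeleClassIso K E P 2).toLinearEquiv with he
  refine ⟨e.symm γ', fun x => ?_⟩
  obtain ⟨m, hm⟩ := hγ' (e x)
  refine ⟨m, ?_⟩
  rw [← map_zsmul, ← hm, LinearEquiv.symm_apply_apply]

end Finite

/-! ## The dictionary statement -/

section Real

variable {U : Type} [Group U] {𝒩 : Levels U} {C : Rep.{0} ℤ U}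

/-- **R3-C2, abstract form**: if the big module `C` is realised at cofinal finite levels by
idele class groups, then the `p`-primary part of `H²_lc(U, C)` is locally cyclic. -/
theorem c2Cyc_of_ideleClassReal (p : ℕ) [Fact p.Prime] (h2 : HypH2Cyc p)
    (hfin : FinLevels 𝒩) (hd : IsDisc 𝒩 C)
    (h : ∀ N ∈ 𝒩.mem, ∃ X : helper6.IdeleClassReal 𝒩 C, X.π.ker ≤ N) : C2Cyc 𝒩 p C := by
  refine c2Cyc_of_sylow_cyclic p hfin hd (fun N hN => ?_)
  obtain ⟨X, hX⟩ := h N hN
  have : FiniteDimensional X.K X.E := Module.Finite.of_restrictScalars_finite ℚ X.K X.E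
  have hfinQ : Finite Gal(X.E/X.K) := inferInstance
  obtain ⟨P⟩ : Nonempty (Sylow p Gal(X.E/X.K)) := inferInstance
  obtain ⟨γ, hγ⟩ := exists_gen_H2_res_ideleClass_of_isPGroup p h2 X.K X.E P P.isPGroup'
  exact ⟨X.toFinReal, hX, hfinQ, P, γ, hγ⟩

end Real

/-! ## The `S`-tower -/

section STower

local notation "Qbar" => AlgebraicClosure ℚ

variable {p : ℕ} [Fact p.Prime] {S : Finset Nat.Primes} {F : IntermediateField ℚ Qbar}
  (hF : F.IsUnramifiedOutside S)

/-- **R3-C2** (`helper90.Interface.c2S`), conditional on the finite-level input `HypH2Cyc p`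
(REC2) and on the arithmetic dictionary for `C` (idele class realisations at cofinal
`S`-levels, the same hypothesis as in `helper6.c1S_of`). -/
theorem c2S_of (h2 : HypH2Cyc p)
    (h : ∀ N ∈ (helper69.sLevelsStr S F hF).mem,
      ∃ X : helper6.IdeleClassReal (helper69.sLevelsStr S F hF) (repCS S F hF),
        X.π.ker ≤ N) : C2S p S F hF :=
  c2Cyc_of_ideleClassReal p h2 (finLevels_sLevelsStr S F hF) (isDisc_repCS S F hF) h

/-- **R3-C2**, conditional on the two GLOB G9 statements and on the arithmetic dictionary for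
`C`. -/
theorem c2S_of_glob (hp2 : p ≠ 2) (hH1 : helper1.HypGlobH1) (hH2 : helper1.HypGlobH2)
    (h : ∀ N ∈ (helper69.sLevelsStr S F hF).mem,
      ∃ X : helper6.IdeleClassReal (helper69.sLevelsStr S F hF) (repCS S F hF),
        X.π.ker ≤ N) : C2S p S F hF :=
  c2S_of hF (hypH2Cyc_of_glob hH1 hH2 p Fact.out hp2) h

end STower

end Fermat.Agent.S55.helper9
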