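import Fermat.Agent.S55.helper46_Dic3
import Fermat.Agent.S55.helper90_Rec3Int

/-!
# S55 / REC3 / R3-C2, abstract part (helper9, task 511)

`helper90.C2Cyc 𝒩 p M` (the `p`-primary part of `H²_lc(U, M)` is locally cyclic) from the
finite-level statement "`H²(P, M')` is generated by one class for a Sylow `p`-subgroup `P`" at
cofinal finite-level realisations (`helper46.FinReal`).

* `c2_gcd_dvd`, `c2_exists_nat`, `c2_cyclic` : arithmetic of cyclic groups;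
* `c2_finite_level` : the statement at one finite level (`G` finite, `P` a Sylow `p`-subgroup
  with `H²(P, A)` generated by one class);
* `c2Cyc_of_sylow_cyclic` : the dictionary statement.
-/

set_option autoImplicit false

open CategoryTheory CategoryTheory.Limits groupCohomology Rep

noncomputable section

namespace Fermat.Agent.S55.helper9

open Fermat.Agent.S55 Fermat.Agent.S55.helper90 Fermat.Agent.S55.helper46

/-! ## Arithmetic of cyclic groups -/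

/-- integer arithmetic behind local cyclicity: if `d ∣ p^N m₁`, `d ∤ p^n m₁` and
`d ∣ p^(n+1) m₂`, then `gcd(m₁, d) ∣ m₂`. -/
theorem c2_gcd_dvd {p : ℕ} (hp : p.Prime) {d m₁ m₂ : ℤ} {n N : ℕ}
    (h1 : d ∣ (p : ℤ) ^ N * m₁) (h2 : ¬ d ∣ (p : ℤ) ^ n * m₁)
    (h3 : d ∣ (p : ℤ) ^ (n + 1) * m₂) : (Int.gcd m₁ d : ℤ) ∣ m₂ := by
  have hd0 : d ≠ 0 := by
    rintro rfl
    rw [zero_dvd_iff] at h1
    have hm : m₁ = 0 := by
      rcases mul_eq_zero.1 h1 with h | h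
      · exact absurd h (pow_ne_zero _ (by exact_mod_cast hp.ne_zero))
      · exact h
    exact h2 (by rw [hm, mul_zero])
  have hg0 : (Int.gcd m₁ d : ℤ) ≠ 0 := by
    exact_mod_cast (Int.gcd_pos_of_ne_zero_right m₁ hd0).ne'
  obtain ⟨m₁', hm₁'⟩ : (Int.gcd m₁ d : ℤ) ∣ m₁ := Int.gcd_dvd_left m₁ d
  obtain ⟨d₁, hd₁⟩ : (Int.gcd m₁ d : ℤ) ∣ d := Int.gcd_dvd_right m₁ d
  set g : ℤ := (Int.gcd m₁ d : ℤ) with hg
  have hcop : IsCoprime m₁' d₁ := by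
    have hgpos : 0 < Int.gcd m₁ d := Int.gcd_pos_of_ne_zero_right m₁ hd0
    have := Int.isCoprime_iff_gcd_eq_one.2 (Int.gcd_div_gcd_div_gcd hgpos)
    have e1 : m₁ / (Int.gcd m₁ d : ℤ) = m₁' := by
      rw [← hg]; conv_lhs => rw [hm₁']
      exact Int.mul_ediv_cancel_left _ hg0
    have e2 : d / (Int.gcd m₁ d : ℤ) = d₁ := by
      rw [← hg]; conv_lhs => rw [hd₁]
      exact Int.mul_ediv_cancel_left _ hg0
    rwa [e1, e2] at this
  -- `d₁ ∣ p ^ N`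
  have hd₁N : d₁ ∣ (p : ℤ) ^ N := by
    have : g * d₁ ∣ g * ((p : ℤ) ^ N * m₁') := by
      have := h1
      rw [hd₁, hm₁'] at this
      convert this using 1
      ring
    have h' : d₁ ∣ (p : ℤ) ^ N * m₁' := (mul_dvd_mul_iff_left hg0).1 this
    exact hcop.symm.dvd_of_dvd_mul_right h'
  -- `d₁ = ± p ^ j`
  have hnat : d₁.natAbs ∣ p ^ N := by
    have := Int.natAbs_dvd_natAbs.2 hd₁N
    simpa [Int.natAbs_pow] using this
  obtain ⟨j, -, hj⟩ := (Nat.dvd_prime_pow hp).1 hnat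
  have hd₁n : ¬ d₁ ∣ (p : ℤ) ^ n := by
    intro h
    apply h2
    rw [hd₁, hm₁']
    obtain ⟨c, hc⟩ := h
    exact ⟨c * m₁', by rw [hc]; ring⟩
  have hjn : n < j := by
    by_contra hle
    rw [not_lt] at hle
    apply hd₁n
    have : (d₁.natAbs : ℤ) ∣ (p : ℤ) ^ n := by
      rw [hj]
      exact_mod_cast pow_dvd_pow p hle
    exact Int.natAbs_dvd.1 this
  -- `g * p ^ j ∣ p ^ (n+1) * m₂`
  have h3' : g * (p : ℤ) ^ j ∣ (p : ℤ) ^ (n + 1) * m₂ := by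
    have e : g * ((d₁.natAbs : ℕ) : ℤ) ∣ (p : ℤ) ^ (n + 1) * m₂ := by
      have : g * d₁ ∣ (p : ℤ) ^ (n + 1) * m₂ := by rw [← hd₁]; exact h3
      exact (mul_dvd_mul_left g (Int.natAbs_dvd.2 (dvd_refl d₁))).trans this
    rw [hj] at e
    exact_mod_cast e
  obtain ⟨i, rfl⟩ : ∃ i, j = n + 1 + i := ⟨j - (n + 1), by omega⟩
  have h4 : (p : ℤ) ^ (n + 1) * (g * (p : ℤ) ^ i) ∣ (p : ℤ) ^ (n + 1) * m₂ := by
    convert h3' using 1
    rw [pow_add]; ring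
  have h5 : g * (p : ℤ) ^ i ∣ m₂ :=
    (mul_dvd_mul_iff_left (pow_ne_zero _ (by exact_mod_cast hp.ne_zero))).1 h4
  exact (dvd_mul_right g _).trans h5

/-- solvability of `a m₁ ≡ m₂ (mod d)` with a natural number `a`. -/
theorem c2_exists_nat {p : ℕ} (hp : p.Prime) {d m₁ m₂ : ℤ} {n N : ℕ}
    (h1 : d ∣ (p : ℤ) ^ N * m₁) (h2 : ¬ d ∣ (p : ℤ) ^ n * m₁)
    (h3 : d ∣ (p : ℤ) ^ (n + 1) * m₂) : ∃ a : ℕ, d ∣ m₂ - a * m₁ := by
  have hd0 : d ≠ 0 := by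
    rintro rfl
    rw [zero_dvd_iff] at h1
    have hm : m₁ = 0 := by
      rcases mul_eq_zero.1 h1 with h | h
      · exact absurd h (pow_ne_zero _ (by exact_mod_cast hp.ne_zero))
      · exact h
    exact h2 (by rw [hm, mul_zero])
  obtain ⟨t, ht⟩ := c2_gcd_dvd hp h1 h2 h3
  have hb := Int.gcd_eq_gcd_ab m₁ d
  -- integer solution
  set A : ℤ := Int.gcdA m₁ d * t with hA
  have hsol : d ∣ m₂ - A * m₁ := by
    refine ⟨Int.gcdB m₁ d * t, ?_⟩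
    rw [ht, hb, hA]; ring
  -- natural representative
  refine ⟨(A % d).toNat, ?_⟩
  have hnn : 0 ≤ A % d := Int.emod_nonneg A hd0
  rw [Int.toNat_of_nonneg hnn]
  have h6 : d ∣ A - A % d := Int.dvd_self_sub_emod
  have : m₂ - A % d * m₁ = (m₂ - A * m₁) + (A - A % d) * m₁ := by ring
  rw [this]
  exact dvd_add hsol (Dvd.dvd.mul_right h6 _)

/-- **cyclic groups**: in an abelian group generated by one element, a `p`-primary element of
order `> p ^ n` generates every element killed by `p ^ (n + 1)`. -/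
theorem c2_cyclic {A : Type*} [AddCommGroup A] (γ : A) (hγ : ∀ x : A, ∃ m : ℤ, x = m • γ)
    {p : ℕ} (hp : p.Prime) (y₁ y₂ : A) (n N : ℕ) (h1 : p ^ N • y₁ = 0)
    (h2 : p ^ n • y₁ ≠ 0) (h3 : p ^ (n + 1) • y₂ = 0) : ∃ a : ℕ, y₂ = a • y₁ := by
  obtain ⟨m₁, rfl⟩ := hγ y₁
  obtain ⟨m₂, rfl⟩ := hγ y₂
  have key : ∀ k : ℤ, k • γ = 0 ↔ (addOrderOf γ : ℤ) ∣ k := fun k =>
    (addOrderOf_dvd_iff_zsmul_eq_zero).symm
  have e1 : (addOrderOf γ : ℤ) ∣ (p : ℤ) ^ N * m₁ := by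
    rw [← key, mul_smul]
    have := h1
    rwa [← natCast_zsmul, Nat.cast_pow] at this
  have e2 : ¬ (addOrderOf γ : ℤ) ∣ (p : ℤ) ^ n * m₁ := by
    rw [← key, mul_smul]
    have := h2
    rwa [← natCast_zsmul, Nat.cast_pow] at this
  have e3 : (addOrderOf γ : ℤ) ∣ (p : ℤ) ^ (n + 1) * m₂ := by
    rw [← key, mul_smul]
    have := h3
    rwa [← natCast_zsmul, Nat.cast_pow] at this
  obtain ⟨a, ha⟩ := c2_exists_nat hp e1 e2 e3
  refine ⟨a, ?_⟩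
  rw [← key, sub_smul, sub_eq_zero, mul_smul] at ha
  rw [ha, natCast_zsmul]

/-! ## One finite level -/

section Finite

universe u

variable {k G : Type u} [CommRing k] [Group G]

/-- **local cyclicity at a finite level**: if `H²(P, A)` is generated by one class for a Sylow
`p`-subgroup `P` of the finite group `G`, then in `H²(G, A)` a `p`-primary class `x₁` of order
`> p ^ n` generates every class `x₂` killed by `p ^ (n + 1)`. -/
theorem c2_finite_level [Finite G] (A : Rep.{u} k G) (p : ℕ) [Fact p.Prime] (P : Sylow p G)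
    (γ : groupCohomology (res (P : Subgroup G).subtype A) 2)
    (hγ : ∀ x : groupCohomology (res (P : Subgroup G).subtype A) 2, ∃ m : ℤ, x = m • γ)
    (x₁ x₂ : groupCohomology A 2) (n N : ℕ) (h1 : p ^ N • x₁ = 0) (h2 : p ^ n • x₁ ≠ 0)
    (h3 : p ^ (n + 1) • x₂ = 0) : ∃ a : ℕ, x₂ = a • x₁ := by
  set r := groupCohomology.map (P : Subgroup G).subtype (𝟙 (res (P : Subgroup G).subtype A)) 2
    with hr
  have e1 : p ^ N • r x₁ = 0 := by rw [← map_nsmul, h1, map_zero]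
  have e2 : p ^ n • r x₁ ≠ 0 := by
    intro h
    apply h2
    refine res_injOn_pPrimary A 2 p P _ ⟨N, ?_⟩ (by rw [map_nsmul]; exact h)
    rw [smul_comm, h1, smul_zero]
  have e3 : p ^ (n + 1) • r x₂ = 0 := by rw [← map_nsmul, h3, map_zero]
  obtain ⟨a, ha⟩ := c2_cyclic γ hγ (Fact.out : p.Prime) (r x₁) (r x₂) n N e1 e2 e3
  refine ⟨a, ?_⟩
  rw [← sub_eq_zero]
  refine res_injOn_pPrimary A 2 p P _ ⟨N + (n + 1), ?_⟩ ?_
  · rw [smul_sub, pow_add, mul_smul, h3, smul_zero, mul_comm, mul_smul, smul_comm (p ^ N) a x₁,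
      h1, smul_zero, smul_zero, sub_self]
  · rw [map_sub, map_nsmul, ha, sub_self]

end Finite

/-! ## The dictionary statement -/

variable {k U : Type} [CommRing k] [Group U] {𝒩 : Levels U} {M : Rep.{0} k U}

/-- **R3-C2, abstract form**: if at cofinal finite levels `H²` of a Sylow `p`-subgroup is
generated by one class, then the `p`-primary part of `H²_lc(U, M)` is locally cyclic. -/
theorem c2Cyc_of_sylow_cyclic (p : ℕ) [Fact p.Prime] (hfin : FinLevels 𝒩) (hd : IsDisc 𝒩 M)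
    (h : ∀ N ∈ 𝒩.mem, ∃ X : FinReal 𝒩 M, X.π.ker ≤ N ∧ ∃ _ : Finite X.Q, ∃ P : Sylow p X.Q,
      ∃ γ : groupCohomology (res (P : Subgroup X.Q).subtype X.M') 2,
        ∀ x : groupCohomology (res (P : Subgroup X.Q).subtype X.M') 2, ∃ m : ℤ, x = m • γ) :
    C2Cyc 𝒩 p M := by
  intro c₁ hc₁ c₂ hc₂ n N hN hn hn1
  obtain ⟨N₁, hN₁, r₁⟩ := exists_cocycle₂ hfin hd hc₁
  obtain ⟨N₂, hN₂, r₂⟩ := exists_cocycle₂ hfin hd hc₂
  obtain ⟨N₃, hN₃, r₃⟩ := exists_of_mem_B2 hfin hd hN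
  obtain ⟨N₄, hN₄, r₄⟩ := exists_of_mem_B2 hfin hd hn1
  obtain ⟨N₁₂, hN₁₂, hle₁₂⟩ := 𝒩.directed N₁ hN₁ N₂ hN₂
  obtain ⟨N₃₄, hN₃₄, hle₃₄⟩ := 𝒩.directed N₃ hN₃ N₄ hN₄
  obtain ⟨N₀, hN₀, hle₀⟩ := 𝒩.directed N₁₂ hN₁₂ N₃₄ hN₃₄
  obtain ⟨X, hX, _, P, γ, hγ⟩ := h N₀ hN₀
  have hX₁ : X.π.ker ≤ N₁ := fun s hs => (hle₁₂ (hle₀ (hX hs)).1).1
  have hX₂ : X.π.ker ≤ N₂ := fun s hs => (hle₁₂ (hle₀ (hX hs)).1).2
  have hX₃ : X.π.ker ≤ N₃ := fun s hs => (hle₃₄ (hle₀ (hX hs)).2).1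
  have hX₄ : X.π.ker ≤ N₄ := fun s hs => (hle₃₄ (hle₀ (hX hs)).2).2
  obtain ⟨f₁, rfl⟩ := r₁ X hX₁
  obtain ⟨f₂, rfl⟩ := r₂ X hX₂
  obtain ⟨g₁, hg₁⟩ := r₃ X hX₃
  obtain ⟨g₂, hg₂⟩ := r₄ X hX₄
  -- the finite-level classes
  have e1 : p ^ N • H2π X.M' f₁ = 0 := by
    rw [← map_nsmul, H2π_eq_zero_iff]
    refine ⟨g₁, X.infl₂_injective ?_⟩
    rw [hg₁, show ((p ^ N • f₁ : cocycles₂ X.M') : X.Q × X.Q → X.M') =
      p ^ N • (f₁ : X.Q × X.Q → X.M') from rfl, map_nsmul]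
  have e2 : p ^ n • H2π X.M' f₁ ≠ 0 := by
    intro h0
    apply hn
    rw [← map_nsmul] at h0
    have := X.infl₂_mem_B2_of_H2π_eq_zero h0
    rwa [show ((p ^ n • f₁ : cocycles₂ X.M') : X.Q × X.Q → X.M') =
      p ^ n • (f₁ : X.Q × X.Q → X.M') from rfl, map_nsmul] at this
  have e3 : p ^ (n + 1) • H2π X.M' f₂ = 0 := by
    rw [← map_nsmul, H2π_eq_zero_iff]
    refine ⟨g₂, X.infl₂_injective ?_⟩
    rw [hg₂, show ((p ^ (n + 1) • f₂ : cocycles₂ X.M') : X.Q × X.Q → X.M') =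
      p ^ (n + 1) • (f₂ : X.Q × X.Q → X.M') from rfl, map_nsmul]
  obtain ⟨a, ha⟩ := c2_finite_level X.M' p P γ hγ _ _ n N e1 e2 e3
  refine ⟨a, ?_⟩
  have h0 : H2π X.M' (f₂ - a • f₁) = 0 := by
    rw [map_sub, map_nsmul, ha, sub_self]
  have := X.infl₂_mem_B2_of_H2π_eq_zero h0
  rwa [show ((f₂ - a • f₁ : cocycles₂ X.M') : X.Q × X.Q → X.M') =
    (f₂ : X.Q × X.Q → X.M') - a • (f₁ : X.Q × X.Q → X.M') from rfl, map_sub, map_nsmul] at this

end Fermat.Agent.S55.helper9
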